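/-
S18-GAUSS-INST (helper8991): the concrete Gauss valuation subring of a subfield of `L((q))`
generated by series with "finitely generated coefficients", for an ARBITRARY valuation
subring `A` of `L` (no discreteness), in Prelude vocabulary (`LaurentSeries A`, `coeffMap`).
-/
import Mathlib
import Fermat.Prelude.Def_ModularCurve_ReductionModL

set_option autoImplicit false

open HahnSeries ModularCurve

namespace Fermat.Agent.S18.helper8991

noncomputable section

section Formal

variable {L : Type*} [Field L] (A : ValuationSubring L) {k : Type*} [Field k] (π : A →+* k)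

/-- Coefficientwise inclusion `A((q)) → L((q))` (Prelude: `coeffMap A.subtype`). -/
abbrev inc : LaurentSeries A →+* LaurentSeries L := coeffMap A.subtype

/-- Coefficientwise reduction `A((q)) → k((q))` (Prelude: `coeffMap π`). -/
abbrev red : LaurentSeries A →+* LaurentSeries k := coeffMap π

theorem inc_coeff (X : LaurentSeries A) (n : ℤ) : (inc A X).coeff n = (X.coeff n : L) := rfl

theorem red_coeff (X : LaurentSeries A) (n : ℤ) : (red A π X).coeff n = π (X.coeff n) := rfl

theorem inc_injective : Function.Injective (inc A) := by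
  intro X Y h
  ext n
  have h1 := congrArg (fun Z : LaurentSeries L => Z.coeff n) h
  exact h1

theorem inc_ne_zero {X : LaurentSeries A} (hX : red A π X ≠ 0) : inc A X ≠ 0 := fun h0 =>
  hX (by rw [(inc_injective A) (h0.trans (map_zero _).symm), map_zero])

/-- The constant series, as the algebra map. -/
theorem C_eq_algebraMap (c : L) :
    (HahnSeries.C c : LaurentSeries L) = algebraMap L (LaurentSeries L) c := by
  rw [algebraMap_laurentSeries_eq_single, HahnSeries.C_apply]

theorem coeff_C_mul (c : L) (P : LaurentSeries L) (n : ℤ) :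
    (HahnSeries.C c * P).coeff n = c * P.coeff n := by
  rw [HahnSeries.C_mul_eq_smul, HahnSeries.coeff_smul, smul_eq_mul]

theorem C_inv_mul_C_mul {c : L} (hc : c ≠ 0) (P : LaurentSeries L) :
    HahnSeries.C c⁻¹ * (HahnSeries.C c * P) = P := by
  rw [← mul_assoc, ← map_mul, inv_mul_cancel₀ hc, map_one, one_mul]

theorem C_mul_C_inv_mul {c : L} (hc : c ≠ 0) (P : LaurentSeries L) :
    HahnSeries.C c * (HahnSeries.C c⁻¹ * P) = P := by
  rw [← mul_assoc, ← map_mul, mul_inv_cancel₀ hc, map_one, one_mul]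

theorem inc_C (a : A) : inc A (HahnSeries.C a) = HahnSeries.C (a : L) := by
  rw [HahnSeries.C_apply, HahnSeries.C_apply, coeffMap_single]
  rfl

theorem red_C (a : A) : red A π (HahnSeries.C a) = HahnSeries.C (π a) := by
  rw [HahnSeries.C_apply, HahnSeries.C_apply, coeffMap_single]

/-- Divide a series by a constant all of whose coefficient quotients are integral. -/
def liftDiv (P : LaurentSeries L) (c : L) (h : ∀ n, P.coeff n / c ∈ A) : LaurentSeries A where
  coeff n := ⟨P.coeff n / c, h n⟩
  isPWO_support' := P.isPWO_support.mono (by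
    intro n hn
    simp only [Function.mem_support, ne_eq] at hn
    simp only [HahnSeries.mem_support, ne_eq]
    intro h0
    apply hn
    apply Subtype.ext
    simp [h0])

theorem liftDiv_coeff (P : LaurentSeries L) (c : L) (h : ∀ n, P.coeff n / c ∈ A) (n : ℤ) :
    ((liftDiv A P c h).coeff n : L) = P.coeff n / c := rfl

theorem C_mul_inc_liftDiv (P : LaurentSeries L) (c : L) (hc : c ≠ 0)
    (h : ∀ n, P.coeff n / c ∈ A) : HahnSeries.C c * inc A (liftDiv A P c h) = P := by
  ext n
  rw [coeff_C_mul, inc_coeff, liftDiv_coeff]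
  field_simp

/-- Series whose coefficients lie in a finitely generated `ℤ`-submodule of `L`. -/
def fgCoeff (L : Type*) [Field L] : Subalgebra L (LaurentSeries L) where
  carrier := {P | ∃ M : Submodule ℤ L, M.FG ∧ ∀ n, P.coeff n ∈ M}
  mul_mem' := by
    rintro P Q ⟨M, hM, hP⟩ ⟨M', hM', hQ⟩
    refine ⟨M * M', hM.mul hM', fun n => ?_⟩
    rw [HahnSeries.coeff_mul]
    exact Submodule.sum_mem _ fun ij _ => Submodule.mul_mem_mul (hP _) (hQ _)
  add_mem' := by
    rintro P Q ⟨M, hM, hP⟩ ⟨M', hM', hQ⟩
    exact ⟨M ⊔ M', hM.sup hM', fun n => by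
      rw [HahnSeries.coeff_add]
      exact Submodule.add_mem_sup (hP n) (hQ n)⟩
  algebraMap_mem' := by
    intro c
    refine ⟨Submodule.span ℤ {c}, Submodule.fg_span_singleton c, fun n => ?_⟩
    rw [algebraMap_laurentSeries_eq_single]
    by_cases hn : n = 0
    · subst hn
      rw [HahnSeries.coeff_single_same]
      exact Submodule.subset_span rfl
    · rw [HahnSeries.coeff_single_of_ne hn]
      exact zero_mem _

theorem mem_fgCoeff {P : LaurentSeries L} :
    P ∈ fgCoeff L ↔ ∃ M : Submodule ℤ L, M.FG ∧ ∀ n, P.coeff n ∈ M := Iff.rfl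

/-- A series with integer coefficients has finitely generated coefficients. -/
theorem coeffMap_intCast_mem_fgCoeff (u : LaurentSeries ℤ) :
    coeffMap (Int.castRingHom L) u ∈ fgCoeff L := by
  refine ⟨Submodule.span ℤ {1}, Submodule.fg_span_singleton 1, fun n => ?_⟩
  rw [coeffMap_coeff]
  have h : ((Int.castRingHom L) (u.coeff n)) = (u.coeff n) • (1 : L) := by simp
  rw [h]
  exact Submodule.smul_mem _ _ (Submodule.subset_span rfl)

/-- (G0) ATTAINED NORM: a nonzero series with finitely generated coefficients has a coefficient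
of maximal valuation. No discreteness of the valuation is needed. -/
theorem exists_max_coeff {P : LaurentSeries L} (hP : P ∈ fgCoeff L) (hP0 : P ≠ 0) :
    ∃ n₀ : ℤ, P.coeff n₀ ≠ 0 ∧ ∀ n, P.coeff n / P.coeff n₀ ∈ A := by
  classical
  obtain ⟨M, hM, hcoef⟩ := hP
  have hMN : IsNoetherian ℤ M := isNoetherian_of_fg_of_noetherian M hM
  have hC : (Submodule.span ℤ (Set.range P.coeff)).FG :=
    isNoetherian_submodule.mp hMN _ (Submodule.span_le.mpr (by rintro _ ⟨n, rfl⟩; exact hcoef n))
  obtain ⟨s, hs, hspan⟩ := (Submodule.fg_span_iff_fg_span_finset_subset _).mp hC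
  -- a nonzero coefficient
  obtain ⟨m, hm⟩ : ∃ m, P.coeff m ≠ 0 := by
    by_contra hall
    push Not at hall
    exact hP0 (HahnSeries.ext (funext hall))
  have hsne : s.Nonempty := by
    by_contra hemp
    rw [Finset.not_nonempty_iff_eq_empty] at hemp
    have h1 : P.coeff m ∈ Submodule.span ℤ (Set.range P.coeff) := Submodule.subset_span ⟨m, rfl⟩
    rw [hspan, hemp] at h1
    simp at h1
    exact hm h1
  obtain ⟨a, has, hmax⟩ := Finset.exists_max_image s (fun x => A.valuation x) hsne
  obtain ⟨n₀, rfl⟩ := hs has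
  -- every coefficient divided by the maximal one is integral
  have key : ∀ x ∈ Submodule.span ℤ (s : Set L), A.valuation x ≤ A.valuation (P.coeff n₀) := by
    intro x hx
    induction hx using Submodule.span_induction with
    | mem x hx => exact hmax x hx
    | zero => simp
    | add x y _ _ hx hy => exact (A.valuation.map_add x y).trans (max_le hx hy)
    | smul z x _ hx =>
      rw [zsmul_eq_mul, map_mul]
      have hz : A.valuation (z : L) ≤ 1 := by
        rw [A.valuation_le_one_iff]
        exact intCast_mem A z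
      calc A.valuation (z : L) * A.valuation x ≤ 1 * A.valuation (P.coeff n₀) :=
            mul_le_mul' hz hx
        _ = _ := one_mul _
  have hne : P.coeff n₀ ≠ 0 := by
    intro h0
    have h1 : A.valuation (P.coeff m) ≤ A.valuation (P.coeff n₀) :=
      key _ (hspan ▸ Submodule.subset_span ⟨m, rfl⟩)
    rw [h0, map_zero] at h1
    exact hm ((map_eq_zero _).mp (le_antisymm h1 zero_le))
  refine ⟨n₀, hne, fun n => ?_⟩
  rw [← A.valuation_le_one_iff, map_div₀]
  have h1 : A.valuation (P.coeff n) ≤ A.valuation (P.coeff n₀) :=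
    key _ (hspan ▸ Submodule.subset_span ⟨n, rfl⟩)
  exact div_le_one_of_le₀ h1 zero_le

/-- (G0) NORMALISATION: `P = C c * ι X` with `red X ≠ 0`. -/
theorem exists_normalize {P : LaurentSeries L} (hP : P ∈ fgCoeff L) (hP0 : P ≠ 0) :
    ∃ (c : L) (X : LaurentSeries A), c ≠ 0 ∧ red A π X ≠ 0 ∧ P = HahnSeries.C c * inc A X := by
  obtain ⟨n₀, hne, hall⟩ := exists_max_coeff A hP hP0
  refine ⟨P.coeff n₀, liftDiv A P (P.coeff n₀) hall, hne, ?_,
    (C_mul_inc_liftDiv A P _ hne hall).symm⟩
  intro h0
  have h1 := congrArg (fun Z : LaurentSeries k => Z.coeff n₀) h0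
  simp only [red_coeff, HahnSeries.coeff_zero] at h1
  have h2 : (liftDiv A P (P.coeff n₀) hall).coeff n₀ = 1 := by
    apply Subtype.ext
    rw [liftDiv_coeff, div_self hne]
    rfl
  rw [h2, map_one] at h1
  exact one_ne_zero h1

/-! ### The big Gauss ring inside `L((q))` and its reduction map -/

/-- The Gauss ring: fractions `ι X / ι Y` with `red Y ≠ 0`. -/
def gaussRing : Subring (LaurentSeries L) where
  carrier := {f | ∃ X Y : LaurentSeries A, red A π Y ≠ 0 ∧ f * inc A Y = inc A X}
  mul_mem' := by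
    rintro f g ⟨X, Y, hY, h⟩ ⟨X', Y', hY', h'⟩
    refine ⟨X * X', Y * Y', ?_, ?_⟩
    · rw [map_mul]; exact mul_ne_zero hY hY'
    · rw [map_mul, map_mul, ← h, ← h']; ring
  one_mem' := ⟨1, 1, by simp, by simp⟩
  add_mem' := by
    rintro f g ⟨X, Y, hY, h⟩ ⟨X', Y', hY', h'⟩
    refine ⟨X * Y' + X' * Y, Y * Y', ?_, ?_⟩
    · rw [map_mul]; exact mul_ne_zero hY hY'
    · rw [map_mul, map_add, map_mul, map_mul, ← h, ← h']; ring
  zero_mem' := ⟨0, 1, by simp, by simp⟩
  neg_mem' := by
    rintro f ⟨X, Y, hY, h⟩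
    exact ⟨-X, Y, hY, by rw [map_neg, ← h]; ring⟩

theorem mem_gaussRing_iff {f : LaurentSeries L} :
    f ∈ gaussRing A π ↔ ∃ X Y : LaurentSeries A, red A π Y ≠ 0 ∧ f * inc A Y = inc A X := Iff.rfl

theorem gaussRho_wd {f : LaurentSeries L} {X Y X' Y' : LaurentSeries A} (hY : red A π Y ≠ 0)
    (hY' : red A π Y' ≠ 0) (h : f * inc A Y = inc A X) (h' : f * inc A Y' = inc A X') :
    red A π X / red A π Y = red A π X' / red A π Y' := by
  have h1 : X * Y' = X' * Y := by
    apply inc_injective A
    rw [map_mul, map_mul, ← h, ← h']; ring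
  rw [div_eq_div_iff hY hY', ← map_mul, ← map_mul, h1]

/-- The reduction map as a function. -/
def gaussRhoFun (f : ↥(gaussRing A π)) : LaurentSeries k :=
  red A π f.2.choose / red A π f.2.choose_spec.choose

theorem gaussRhoFun_eq (f : ↥(gaussRing A π)) {X Y : LaurentSeries A} (hY : red A π Y ≠ 0)
    (h : (f : LaurentSeries L) * inc A Y = inc A X) :
    gaussRhoFun A π f = red A π X / red A π Y :=
  gaussRho_wd A π f.2.choose_spec.choose_spec.1 hY f.2.choose_spec.choose_spec.2 h

/-- The reduction map `gaussRing → k((q))`. -/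
def gaussRho : ↥(gaussRing A π) →+* LaurentSeries k where
  toFun := gaussRhoFun A π
  map_one' := by
    rw [gaussRhoFun_eq A π 1 (X := 1) (Y := 1) (by simp) (by simp)]; simp
  map_mul' := by
    intro a b
    obtain ⟨X, Y, hY, h⟩ := a.2
    obtain ⟨X', Y', hY', h'⟩ := b.2
    have hYY : red A π (Y * Y') ≠ 0 := by rw [map_mul]; exact mul_ne_zero hY hY'
    rw [gaussRhoFun_eq A π a hY h, gaussRhoFun_eq A π b hY' h',
      gaussRhoFun_eq A π (a * b) (X := X * X') (Y := Y * Y') hYY
        (by simp only [Subring.coe_mul, map_mul]; rw [← h, ← h']; ring)]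
    rw [map_mul, map_mul, mul_div_mul_comm]
  map_zero' := by
    rw [gaussRhoFun_eq A π 0 (X := 0) (Y := 1) (by simp) (by simp)]; simp
  map_add' := by
    intro a b
    obtain ⟨X, Y, hY, h⟩ := a.2
    obtain ⟨X', Y', hY', h'⟩ := b.2
    have hYY : red A π (Y * Y') ≠ 0 := by rw [map_mul]; exact mul_ne_zero hY hY'
    rw [gaussRhoFun_eq A π a hY h, gaussRhoFun_eq A π b hY' h',
      gaussRhoFun_eq A π (a + b) (X := X * Y' + X' * Y) (Y := Y * Y') hYY
        (by simp only [Subring.coe_add, map_mul, map_add]; rw [← h, ← h']; ring)]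
    rw [map_add, map_mul, map_mul, map_mul, div_add_div _ _ hY hY']
    ring

theorem gaussRho_eq (f : ↥(gaussRing A π)) {X Y : LaurentSeries A} (hY : red A π Y ≠ 0)
    (h : (f : LaurentSeries L) * inc A Y = inc A X) :
    gaussRho A π f = red A π X / red A π Y := gaussRhoFun_eq A π f hY h

/-- `gaussRho f * red Y = red X`. -/
theorem gaussRho_mul_red (f : ↥(gaussRing A π)) {X Y : LaurentSeries A} (hY : red A π Y ≠ 0)
    (h : (f : LaurentSeries L) * inc A Y = inc A X) :
    gaussRho A π f * red A π Y = red A π X := by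
  rw [gaussRho_eq A π f hY h, div_mul_cancel₀ _ hY]

/-- Integral series lie in the Gauss ring. -/
theorem inc_mem_gaussRing (X : LaurentSeries A) : inc A X ∈ gaussRing A π :=
  ⟨X, 1, by simp, by simp⟩

theorem gaussRho_inc (X : LaurentSeries A) :
    gaussRho A π ⟨inc A X, inc_mem_gaussRing A π X⟩ = red A π X := by
  rw [gaussRho_eq A π _ (X := X) (Y := 1) (by simp) (by simp)]; simp

/-- Elements with nonzero reduction are units of the Gauss ring. -/
theorem inv_mem_gaussRing_of_gaussRho_ne_zero (f : ↥(gaussRing A π)) (hf : gaussRho A π f ≠ 0) :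
    (f : LaurentSeries L)⁻¹ ∈ gaussRing A π := by
  obtain ⟨X, Y, hY, h⟩ := f.2
  rw [gaussRho_eq A π f hY h] at hf
  have hX : red A π X ≠ 0 := fun h0 => hf (by rw [h0, zero_div])
  have hX' : inc A X ≠ 0 := inc_ne_zero A π hX
  have hf0 : (f : LaurentSeries L) ≠ 0 := fun h0 => hX' (by rw [← h, h0, zero_mul])
  refine ⟨Y, X, hX, ?_⟩
  rw [← h]; field_simp

/-- A series is *normalisable* if it is `C c * ι X / ι Y` with `c ≠ 0` and `red X, red Y ≠ 0`. -/
def IsNormalizable (f : LaurentSeries L) : Prop :=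
  ∃ (c : L) (X Y : LaurentSeries A), c ≠ 0 ∧ red A π X ≠ 0 ∧ red A π Y ≠ 0 ∧
    f * inc A Y = HahnSeries.C c * inc A X

variable {A π} in
theorem IsNormalizable.ne_zero {f : LaurentSeries L} (hf : IsNormalizable A π f) : f ≠ 0 := by
  obtain ⟨c, X, Y, hc, hX, hY, h⟩ := hf
  rintro rfl
  rw [zero_mul] at h
  have h1 : inc A X = 0 := by
    have h2 := C_inv_mul_C_mul hc (inc A X)
    rw [← h, mul_zero] at h2
    exact h2.symm
  exact inc_ne_zero A π hX h1

variable {A π} in
/-- A normalisable element or its inverse lies in the Gauss ring. -/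
theorem IsNormalizable.mem_or_inv_mem {f : LaurentSeries L} (hf : IsNormalizable A π f) :
    f ∈ gaussRing A π ∨ f⁻¹ ∈ gaussRing A π := by
  have hf0 := hf.ne_zero
  obtain ⟨c, X, Y, hc, hX, hY, h⟩ := hf
  rcases A.mem_or_inv_mem c with hcA | hcA
  · left
    refine ⟨HahnSeries.C (⟨c, hcA⟩ : A) * X, Y, hY, ?_⟩
    rw [h, map_mul, inc_C]
  · right
    refine ⟨HahnSeries.C (⟨c⁻¹, hcA⟩ : A) * Y, X, hX, ?_⟩
    rw [map_mul, inc_C]
    show f⁻¹ * inc A X = HahnSeries.C c⁻¹ * inc A Y
    have h2 : inc A X = HahnSeries.C c⁻¹ * (f * inc A Y) := by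
      rw [h, C_inv_mul_C_mul hc]
    rw [h2]
    calc f⁻¹ * (HahnSeries.C c⁻¹ * (f * inc A Y))
        = HahnSeries.C c⁻¹ * ((f⁻¹ * f) * inc A Y) := by ring
      _ = HahnSeries.C c⁻¹ * inc A Y := by rw [inv_mul_cancel₀ hf0, one_mul]

/-! ### Normal form for elements of a field generated by series with f.g. coefficients -/

/-- (G1) NORMAL FORM: every nonzero element of the field generated over `L` by series with
finitely generated coefficients is `C c * ι X / ι Y` with `red X, red Y ≠ 0`, where moreover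
`ι X` and `ι Y` lie in the `L`-algebra generated by the same series. -/
theorem exists_normal_form_of_mem_adjoin {T : Set (LaurentSeries L)}
    (hT : T ⊆ (fgCoeff L : Set (LaurentSeries L))) {f : LaurentSeries L}
    (hf : f ∈ IntermediateField.adjoin L T) (hf0 : f ≠ 0) :
    ∃ (c : L) (X Y : LaurentSeries A), c ≠ 0 ∧ red A π X ≠ 0 ∧ red A π Y ≠ 0 ∧
      inc A X ∈ Algebra.adjoin L T ∧ inc A Y ∈ Algebra.adjoin L T ∧
      f * inc A Y = HahnSeries.C c * inc A X := by
  obtain ⟨r, hr, s, hs, rfl⟩ := IntermediateField.mem_adjoin_iff_div.mp hf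
  have hle : Algebra.adjoin L T ≤ fgCoeff L := Algebra.adjoin_le hT
  have hs0 : s ≠ 0 := fun h0 => hf0 (by rw [h0, div_zero])
  have hr0 : r ≠ 0 := fun h0 => hf0 (by rw [h0, zero_div])
  obtain ⟨c₁, X, hc₁, hX, hrX⟩ := exists_normalize A π (hle hr) hr0
  obtain ⟨c₂, Y, hc₂, hY, hsY⟩ := exists_normalize A π (hle hs) hs0
  have hX1 : inc A X = HahnSeries.C c₁⁻¹ * r := by rw [hrX, C_inv_mul_C_mul hc₁]
  have hY1 : inc A Y = HahnSeries.C c₂⁻¹ * s := by rw [hsY, C_inv_mul_C_mul hc₂]
  have hXmem : inc A X ∈ Algebra.adjoin L T := by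
    rw [hX1, C_eq_algebraMap]
    exact Subalgebra.mul_mem _ (Subalgebra.algebraMap_mem _ _) hr
  have hYmem : inc A Y ∈ Algebra.adjoin L T := by
    rw [hY1, C_eq_algebraMap]
    exact Subalgebra.mul_mem _ (Subalgebra.algebraMap_mem _ _) hs
  refine ⟨c₂⁻¹ * c₁, X, Y, mul_ne_zero (inv_ne_zero hc₂) hc₁, hX, hY, hXmem, hYmem, ?_⟩
  rw [hY1, map_mul, mul_assoc, ← hrX]
  field_simp

theorem isNormalizable_of_mem_adjoin {T : Set (LaurentSeries L)}
    (hT : T ⊆ (fgCoeff L : Set (LaurentSeries L))) {f : LaurentSeries L}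
    (hf : f ∈ IntermediateField.adjoin L T) (hf0 : f ≠ 0) : IsNormalizable A π f := by
  obtain ⟨c, X, Y, hc, hX, hY, -, -, h⟩ := exists_normal_form_of_mem_adjoin A π hT hf hf0
  exact ⟨c, X, Y, hc, hX, hY, h⟩

/-! ### The Gauss valuation subring of a normalisable subfield -/

section Subfield

variable (E : IntermediateField L (LaurentSeries L))
  (hE : ∀ f : LaurentSeries L, f ∈ E → f ≠ 0 → IsNormalizable A π f)

/-- (G2) The Gauss valuation subring of a subfield `E ≤ L((q))` all of whose nonzero elements are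
normalisable. -/
def gaussSubring : ValuationSubring E where
  toSubring := (gaussRing A π).comap (algebraMap E (LaurentSeries L))
  mem_or_inv_mem' := by
    intro f
    by_cases hf : f = 0
    · left
      rw [hf]
      exact Subring.zero_mem _
    · have hf' : (f : LaurentSeries L) ≠ 0 := fun h0 => hf (Subtype.ext h0)
      rcases (hE f f.2 hf').mem_or_inv_mem with h | h
      · left; exact h
      · right
        show ((f⁻¹ : E) : LaurentSeries L) ∈ gaussRing A π
        simpa using h

theorem mem_gaussSubring_iff (f : E) :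
    f ∈ gaussSubring A π E hE ↔ (f : LaurentSeries L) ∈ gaussRing A π := Iff.rfl

/-- (G3) The reduction map of the Gauss valuation subring, with values in `k((q))`. -/
def gaussRed : ↥(gaussSubring A π E hE) →+* LaurentSeries k :=
  (gaussRho A π).comp
    { toFun := fun f => ⟨((f : E) : LaurentSeries L), f.2⟩
      map_one' := rfl
      map_mul' := fun _ _ => rfl
      map_zero' := rfl
      map_add' := fun _ _ => rfl }

theorem gaussRed_eq (f : ↥(gaussSubring A π E hE)) {X Y : LaurentSeries A} (hY : red A π Y ≠ 0)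
    (h : ((f : E) : LaurentSeries L) * inc A Y = inc A X) :
    gaussRed A π E hE f = red A π X / red A π Y :=
  gaussRho_eq A π ⟨((f : E) : LaurentSeries L), f.2⟩ hY h

theorem gaussRed_mul_red (f : ↥(gaussSubring A π E hE)) {X Y : LaurentSeries A}
    (hY : red A π Y ≠ 0) (h : ((f : E) : LaurentSeries L) * inc A Y = inc A X) :
    gaussRed A π E hE f * red A π Y = red A π X := by
  rw [gaussRed_eq A π E hE f hY h, div_mul_cancel₀ _ hY]

/-- (G4) An integral series lying in `E` is in the Gauss valuation subring, and its reduction is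
the coefficientwise reduction. -/
theorem inc_mem_gaussSubring {y : LaurentSeries A} (hy : inc A y ∈ E) :
    (⟨inc A y, hy⟩ : E) ∈ gaussSubring A π E hE :=
  inc_mem_gaussRing A π y

theorem gaussRed_inc {y : LaurentSeries A} (hy : inc A y ∈ E) :
    gaussRed A π E hE ⟨⟨inc A y, hy⟩, inc_mem_gaussSubring A π E hE hy⟩ = red A π y :=
  gaussRho_inc A π y

/-- Units of the Gauss valuation subring are exactly the elements with nonzero reduction. -/
theorem isUnit_iff_gaussRed_ne_zero (f : ↥(gaussSubring A π E hE)) :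
    IsUnit f ↔ gaussRed A π E hE f ≠ 0 := by
  constructor
  · intro hu
    exact (hu.map (gaussRed A π E hE)).ne_zero
  · intro hf
    have hinv : ((f : E) : LaurentSeries L)⁻¹ ∈ gaussRing A π :=
      inv_mem_gaussRing_of_gaussRho_ne_zero A π ⟨((f : E) : LaurentSeries L), f.2⟩ hf
    have hf0 : (f : E) ≠ 0 := by
      intro h0
      apply hf
      have : f = 0 := Subtype.ext h0
      rw [this, map_zero]
    have hmem : (f : E)⁻¹ ∈ gaussSubring A π E hE := by
      show (((f : E)⁻¹ : E) : LaurentSeries L) ∈ gaussRing A π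
      simpa using hinv
    refine IsUnit.of_mul_eq_one (⟨(f : E)⁻¹, hmem⟩ : ↥(gaussSubring A π E hE)) ?_
    apply Subtype.ext
    show (f : E) * (f : E)⁻¹ = 1
    exact mul_inv_cancel₀ hf0

/-- The kernel of the reduction map is the maximal ideal. -/
theorem gaussRed_eq_zero_iff (f : ↥(gaussSubring A π E hE)) :
    gaussRed A π E hE f = 0 ↔ f ∈ IsLocalRing.maximalIdeal ↥(gaussSubring A π E hE) := by
  rw [IsLocalRing.mem_maximalIdeal, mem_nonunits_iff, isUnit_iff_gaussRed_ne_zero, not_not]

/-- (G2) Every nonzero element of `E` is a constant times an element of the Gauss valuation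
subring with nonzero reduction (so the value group of the Gauss valuation is that of `A`). -/
theorem exists_const_mul_unit (f : E) (hf : f ≠ 0) :
    ∃ (c : L) (u : ↥(gaussSubring A π E hE)), c ≠ 0 ∧ gaussRed A π E hE u ≠ 0 ∧
      f = algebraMap L E c * (u : E) := by
  have hf' : (f : LaurentSeries L) ≠ 0 := fun h0 => hf (Subtype.ext h0)
  obtain ⟨c, X, Y, hc, hX, hY, h⟩ := hE f f.2 hf'
  have hu : ((algebraMap L E c⁻¹ * f : E) : LaurentSeries L) * inc A Y = inc A X := by
    have h1 : ((algebraMap L E c⁻¹ * f : E) : LaurentSeries L)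
        = HahnSeries.C c⁻¹ * (f : LaurentSeries L) := by
      rw [C_eq_algebraMap]
      rfl
    rw [h1, mul_assoc, h, C_inv_mul_C_mul hc]
  have hmem : (algebraMap L E c⁻¹ * f : E) ∈ gaussSubring A π E hE := ⟨X, Y, hY, hu⟩
  refine ⟨c, ⟨_, hmem⟩, hc, ?_, ?_⟩
  · rw [gaussRed_eq A π E hE ⟨_, hmem⟩ hY hu]
    exact div_ne_zero hX hY
  · show f = algebraMap L E c * (algebraMap L E c⁻¹ * f)
    rw [← mul_assoc, ← map_mul, mul_inv_cancel₀ hc, map_one, one_mul]

/-- Constants of `A` lie in the Gauss valuation subring. -/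
theorem algebraMap_mem_gaussSubring {c : L} (hc : c ∈ A) :
    algebraMap L E c ∈ gaussSubring A π E hE := by
  show algebraMap L (LaurentSeries L) c ∈ gaussRing A π
  rw [← C_eq_algebraMap, ← inc_C A ⟨c, hc⟩]
  exact inc_mem_gaussRing A π _

theorem gaussRed_algebraMap {c : L} (hc : c ∈ A) :
    gaussRed A π E hE ⟨algebraMap L E c, algebraMap_mem_gaussSubring A π E hE hc⟩
      = HahnSeries.C (π ⟨c, hc⟩) := by
  have h : ((algebraMap L E c : E) : LaurentSeries L) * inc A 1
      = inc A (HahnSeries.C (⟨c, hc⟩ : A)) := by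
    rw [map_one, mul_one, inc_C, C_eq_algebraMap]
    rfl
  have hY : red A π (1 : LaurentSeries A) ≠ 0 := by
    rw [map_one]
    exact one_ne_zero
  have h2 := gaussRed_eq A π E hE
    ⟨algebraMap L E c, algebraMap_mem_gaussSubring A π E hE hc⟩ hY h
  rw [h2, map_one, div_one, red_C]

/-- (G5) An element of the kernel of the reduction map is a constant of the maximal ideal of `A`
times an element of the Gauss valuation subring. -/
theorem exists_maximalIdeal_mul_of_gaussRed_eq_zero (f : ↥(gaussSubring A π E hE))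
    (hf : gaussRed A π E hE f = 0) :
    ∃ (c : A) (g : ↥(gaussSubring A π E hE)), c ∈ IsLocalRing.maximalIdeal A ∧
      (f : E) = algebraMap L E (c : L) * (g : E) := by
  by_cases hf0 : (f : E) = 0
  · refine ⟨0, 0, Ideal.zero_mem _, ?_⟩
    rw [hf0]
    show (0 : E) = algebraMap L E (0 : L) * (0 : E)
    rw [mul_zero]
  obtain ⟨c, u, hc, hu, hfu⟩ := exists_const_mul_unit A π E hE (f : E) hf0
  have huU : IsUnit u := (isUnit_iff_gaussRed_ne_zero A π E hE u).mpr hu
  -- if `c⁻¹ ∈ A` then `f` would be a unit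
  have hcinv : c⁻¹ ∉ A := by
    intro hci
    have h1 : IsUnit f := by
      obtain ⟨u', hu'⟩ := huU.exists_right_inv
      refine IsUnit.of_mul_eq_one
        (⟨algebraMap L E c⁻¹, algebraMap_mem_gaussSubring A π E hE hci⟩ * u') ?_
      apply Subtype.ext
      have hu'' : (u : E) * (u' : E) = 1 := congrArg Subtype.val hu'
      show (f : E) * (algebraMap L E c⁻¹ * (u' : E)) = 1
      rw [hfu]
      calc algebraMap L E c * (u : E) * (algebraMap L E c⁻¹ * (u' : E))
          = (algebraMap L E c * algebraMap L E c⁻¹) * ((u : E) * (u' : E)) := by ring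
        _ = 1 := by rw [hu'', ← map_mul, mul_inv_cancel₀ hc, map_one, mul_one]
    exact (isUnit_iff_gaussRed_ne_zero A π E hE f).mp h1 hf
  have hcA : c ∈ A := (A.mem_or_inv_mem c).resolve_right hcinv
  refine ⟨⟨c, hcA⟩, u, ?_, hfu⟩
  rw [IsLocalRing.mem_maximalIdeal, mem_nonunits_iff]
  intro hunit
  obtain ⟨d, hd⟩ := hunit.exists_right_inv
  apply hcinv
  have h2 : c * (d : L) = 1 := congrArg Subtype.val hd
  have h3 : c⁻¹ = (d : L) := by
    rw [inv_eq_iff_eq_inv]
    exact eq_inv_of_mul_eq_one_left h2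
  rw [h3]
  exact d.2

/-- A constant lies in the Gauss valuation subring iff it lies in `A` (when `π` kills the maximal
ideal of `A`). -/
theorem algebraMap_mem_gaussSubring_iff
    (hπ0 : ∀ a : A, a ∈ IsLocalRing.maximalIdeal A → π a = 0) (c : L) :
    algebraMap L E c ∈ gaussSubring A π E hE ↔ c ∈ A := by
  refine ⟨fun hmem => ?_, fun hc => algebraMap_mem_gaussSubring A π E hE hc⟩
  by_contra hcA
  have hci : c⁻¹ ∈ A := (A.mem_or_inv_mem c).resolve_left hcA
  have hc0 : c ≠ 0 := fun h0 => hcA (h0 ▸ A.zero_mem)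
  have hmax : (⟨c⁻¹, hci⟩ : A) ∈ IsLocalRing.maximalIdeal A := by
    rw [IsLocalRing.mem_maximalIdeal, mem_nonunits_iff]
    intro hunit
    obtain ⟨d, hd⟩ := hunit.exists_right_inv
    apply hcA
    have h2 : c⁻¹ * (d : L) = 1 := congrArg Subtype.val hd
    have h3 : c = (d : L) := by
      have := eq_inv_of_mul_eq_one_left h2
      rw [inv_eq_iff_eq_inv] at this
      rw [this, inv_inv]
    rw [h3]
    exact d.2
  have h1 : gaussRed A π E hE ⟨algebraMap L E c⁻¹, algebraMap_mem_gaussSubring A π E hE hci⟩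
      = 0 := by
    rw [gaussRed_algebraMap A π E hE hci, hπ0 _ hmax, map_zero]
  have h2 : (⟨algebraMap L E c, hmem⟩ : ↥(gaussSubring A π E hE))
      * ⟨algebraMap L E c⁻¹, algebraMap_mem_gaussSubring A π E hE hci⟩ = 1 := by
    apply Subtype.ext
    show algebraMap L E c * algebraMap L E c⁻¹ = 1
    rw [← map_mul, mul_inv_cancel₀ hc0, map_one]
  have h3 := congrArg (gaussRed A π E hE) h2
  rw [map_mul, h1, mul_zero, map_one] at h3
  exact zero_ne_one h3

/-- The range of the reduction map is closed under inverses (it is the residue field of the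
Gauss valuation, realised inside `k((q))`). -/
theorem exists_gaussRed_eq_inv (f : ↥(gaussSubring A π E hE)) :
    ∃ g : ↥(gaussSubring A π E hE), gaussRed A π E hE g = (gaussRed A π E hE f)⁻¹ := by
  by_cases hf : gaussRed A π E hE f = 0
  · exact ⟨0, by rw [hf, map_zero, inv_zero]⟩
  · obtain ⟨g, hg⟩ := ((isUnit_iff_gaussRed_ne_zero A π E hE f).mpr hf).exists_right_inv
    refine ⟨g, ?_⟩
    have := congrArg (gaussRed A π E hE) hg
    rw [map_mul, map_one] at this
    exact eq_inv_of_mul_eq_one_right this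

/-- The range of the reduction map contains every subfield of `k((q))` generated over `k` by
reductions of integral series lying in `E` (when `π` is surjective). -/
theorem exists_gaussRed_eq_of_mem_adjoin (hπ : Function.Surjective π) {S : Set (LaurentSeries k)}
    (hS : ∀ x ∈ S, ∃ y : LaurentSeries A, inc A y ∈ E ∧ red A π y = x) {x : LaurentSeries k}
    (hx : x ∈ IntermediateField.adjoin k S) :
    ∃ f : ↥(gaussSubring A π E hE), gaussRed A π E hE f = x := by
  induction hx using IntermediateField.adjoin_induction with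
  | mem x hx =>
    obtain ⟨y, hy, rfl⟩ := hS x hx
    exact ⟨_, gaussRed_inc A π E hE hy⟩
  | algebraMap c =>
    obtain ⟨a, rfl⟩ := hπ c
    refine ⟨⟨algebraMap L E (a : L), algebraMap_mem_gaussSubring A π E hE a.2⟩, ?_⟩
    rw [gaussRed_algebraMap, algebraMap_laurentSeries_eq_single, HahnSeries.C_apply]
  | add x y _ _ hx hy =>
    obtain ⟨f, rfl⟩ := hx
    obtain ⟨g, rfl⟩ := hy
    exact ⟨f + g, map_add _ _ _⟩
  | inv x _ hx =>
    obtain ⟨f, rfl⟩ := hx
    exact exists_gaussRed_eq_inv A π E hE f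
  | mul x y _ _ hx hy =>
    obtain ⟨f, rfl⟩ := hx
    obtain ⟨g, rfl⟩ := hy
    exact ⟨f * g, map_mul _ _ _⟩

end Subfield

end Formal

/-! ### The instance: the modular function field `F = L(j(q^d) : d ∣ N)` -/

section Instance

variable {L : Type*} [Field L] (A : ValuationSubring L) {k : Type*} [Field k] (π : A →+* k)

theorem inc_jqNModC (d : ℕ) [NeZero d] : inc A (jqNModC A d) = jqNModC L d :=
  coeffMap_jqNModC _ d

theorem red_jqNModC (d : ℕ) [NeZero d] : red A π (jqNModC A d) = jqNModC k d :=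
  coeffMap_jqNModC _ d

theorem jqNModC_mem_fgCoeff (d : ℕ) [NeZero d] : jqNModC L d ∈ fgCoeff L := by
  rw [← coeffMap_jqNModC (Int.castRingHom L) d]
  exact coeffMap_intCast_mem_fgCoeff _

theorem divisorExpansionsC_subset_fgCoeff (N : ℕ) :
    divisorExpansionsC L N ⊆ (fgCoeff L : Set (LaurentSeries L)) := by
  rintro x ⟨d, hd, -, rfl⟩
  have := hd
  exact jqNModC_mem_fgCoeff d

/-- (G1) for `modularFunctionFieldFullC L N`. -/
theorem exists_normal_form_of_mem_fullC (N : ℕ) {f : LaurentSeries L}
    (hf : f ∈ modularFunctionFieldFullC L N) (hf0 : f ≠ 0) :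
    ∃ (c : L) (X Y : LaurentSeries A), c ≠ 0 ∧ red A π X ≠ 0 ∧ red A π Y ≠ 0 ∧
      inc A X ∈ modularFunctionFieldFullC L N ∧ inc A Y ∈ modularFunctionFieldFullC L N ∧
      f * inc A Y = HahnSeries.C c * inc A X := by
  obtain ⟨c, X, Y, hc, hX, hY, hXm, hYm, h⟩ :=
    exists_normal_form_of_mem_adjoin A π (divisorExpansionsC_subset_fgCoeff N) hf hf0
  exact ⟨c, X, Y, hc, hX, hY, IntermediateField.algebra_adjoin_le_adjoin L _ hXm,
    IntermediateField.algebra_adjoin_le_adjoin L _ hYm, h⟩

theorem isNormalizable_of_mem_fullC (N : ℕ) {f : LaurentSeries L}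
    (hf : f ∈ modularFunctionFieldFullC L N) (hf0 : f ≠ 0) : IsNormalizable A π f :=
  isNormalizable_of_mem_adjoin A π (divisorExpansionsC_subset_fgCoeff N) hf hf0

variable [Algebra ℚ L]

theorem coeffEmb_qExpand_jq (d : ℕ) [NeZero d] :
    coeffEmb L (qExpand ℚ d jq) = qExpand L d (jqModC L) :=
  coeffMap_jqNModC (algebraMap ℚ L) d

/-- The base change of the rational modular function field is the field generated over `L` by
the `j(q^d)`, `d ∣ N`. -/
theorem laurentBaseChange_full_eq (N : ℕ) :
    laurentBaseChange L (modularFunctionFieldFull N) = modularFunctionFieldFullC L N := by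
  apply le_antisymm
  · rw [laurentBaseChange, IntermediateField.adjoin_le_iff]
    rintro _ ⟨x, hx, rfl⟩
    change x ∈ IntermediateField.adjoin ℚ (divisorExpansions N) at hx
    induction hx using IntermediateField.adjoin_induction with
    | mem x hx =>
      obtain ⟨d, hd, hdN, rfl⟩ := hx
      have := hd
      rw [coeffEmb_qExpand_jq]
      exact jqModCd_mem_full L N hdN
    | algebraMap r =>
      have h : coeffEmb L (algebraMap ℚ (LaurentSeries ℚ) r)
          = algebraMap L (LaurentSeries L) (algebraMap ℚ L r) := by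
        rw [algebraMap_laurentSeries_eq_single, algebraMap_laurentSeries_eq_single, coeffEmb,
          coeffMap_single]
      rw [SetLike.mem_coe, h]
      exact IntermediateField.algebraMap_mem _ _
    | add x y _ _ hx hy =>
      rw [SetLike.mem_coe, map_add]
      exact add_mem hx hy
    | inv x _ hx =>
      rw [SetLike.mem_coe, map_inv₀]
      exact inv_mem hx
    | mul x y _ _ hx hy =>
      rw [SetLike.mem_coe, map_mul]
      exact mul_mem hx hy
  · rw [modularFunctionFieldFullC, IntermediateField.adjoin_le_iff]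
    rintro _ ⟨d, hd, hdN, rfl⟩
    have := hd
    rw [SetLike.mem_coe, ← coeffEmb_qExpand_jq]
    exact coeffEmb_mem_laurentBaseChange L (jqd_mem_full N hdN)

theorem mem_laurentBaseChange_full_iff (N : ℕ) {f : LaurentSeries L} :
    f ∈ laurentBaseChange L (modularFunctionFieldFull N) ↔ f ∈ modularFunctionFieldFullC L N := by
  rw [laurentBaseChange_full_eq]

theorem isNormalizable_of_mem_full (N : ℕ) {f : LaurentSeries L}
    (hf : f ∈ laurentBaseChange L (modularFunctionFieldFull N)) (hf0 : f ≠ 0) :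
    IsNormalizable A π f :=
  isNormalizable_of_mem_fullC A π N ((mem_laurentBaseChange_full_iff N).mp hf) hf0

/-- (G1) NORMAL FORM in `F = laurentBaseChange L (modularFunctionFieldFull N)`: every `f ≠ 0` is
`C c * ι X / ι Y` with `X, Y` integral series lying in `F` with nonzero reductions. -/
theorem exists_normal_form (N : ℕ) {f : LaurentSeries L}
    (hf : f ∈ laurentBaseChange L (modularFunctionFieldFull N)) (hf0 : f ≠ 0) :
    ∃ (c : L) (X Y : LaurentSeries A), c ≠ 0 ∧ red A π X ≠ 0 ∧ red A π Y ≠ 0 ∧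
      inc A X ∈ laurentBaseChange L (modularFunctionFieldFull N) ∧
      inc A Y ∈ laurentBaseChange L (modularFunctionFieldFull N) ∧
      f * inc A Y = HahnSeries.C c * inc A X := by
  simp only [mem_laurentBaseChange_full_iff] at hf ⊢
  exact exists_normal_form_of_mem_fullC A π N hf hf0

/-- (G2) The Gauss valuation subring of `F = laurentBaseChange L (modularFunctionFieldFull N)`
(for `L = ℚ̄` this is `modularFunctionFieldBar N`). -/
def gaussF (N : ℕ) : ValuationSubring ↥(laurentBaseChange L (modularFunctionFieldFull N)) :=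
  gaussSubring A π (laurentBaseChange L (modularFunctionFieldFull N))
    (fun _ hf hf0 => isNormalizable_of_mem_full A π N hf hf0)

/-- (G3) The reduction map of `gaussF`, with values in `k((q))`. -/
def gaussFRed (N : ℕ) : ↥(gaussF A π N) →+* LaurentSeries k :=
  gaussRed A π (laurentBaseChange L (modularFunctionFieldFull N))
    (fun _ hf hf0 => isNormalizable_of_mem_full A π N hf hf0)

theorem mem_gaussF_iff (N : ℕ) (f : ↥(laurentBaseChange L (modularFunctionFieldFull N))) :
    f ∈ gaussF A π N ↔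
      ∃ X Y : LaurentSeries A, red A π Y ≠ 0 ∧ (f : LaurentSeries L) * inc A Y = inc A X :=
  Iff.rfl

theorem gaussFRed_eq (N : ℕ) (f : ↥(gaussF A π N)) {X Y : LaurentSeries A} (hY : red A π Y ≠ 0)
    (h : ((f : ↥(laurentBaseChange L (modularFunctionFieldFull N))) : LaurentSeries L) * inc A Y
      = inc A X) :
    gaussFRed A π N f = red A π X / red A π Y :=
  gaussRed_eq A π _ _ f hY h

/-- (G4) integral series in `F` lie in `gaussF` and reduce coefficientwise. -/
theorem inc_mem_gaussF (N : ℕ) {y : LaurentSeries A}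
    (hy : inc A y ∈ laurentBaseChange L (modularFunctionFieldFull N)) :
    (⟨inc A y, hy⟩ : ↥(laurentBaseChange L (modularFunctionFieldFull N))) ∈ gaussF A π N :=
  inc_mem_gaussRing A π y

theorem gaussFRed_inc (N : ℕ) {y : LaurentSeries A}
    (hy : inc A y ∈ laurentBaseChange L (modularFunctionFieldFull N)) :
    gaussFRed A π N ⟨⟨inc A y, hy⟩, inc_mem_gaussF A π N hy⟩ = red A π y :=
  gaussRho_inc A π y

theorem isUnit_iff_gaussFRed_ne_zero (N : ℕ) (f : ↥(gaussF A π N)) :
    IsUnit f ↔ gaussFRed A π N f ≠ 0 :=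
  isUnit_iff_gaussRed_ne_zero A π _ _ f

theorem gaussFRed_eq_zero_iff (N : ℕ) (f : ↥(gaussF A π N)) :
    gaussFRed A π N f = 0 ↔ f ∈ IsLocalRing.maximalIdeal ↥(gaussF A π N) :=
  gaussRed_eq_zero_iff A π _ _ f

theorem exists_const_mul_unit_F (N : ℕ) (f : ↥(laurentBaseChange L (modularFunctionFieldFull N)))
    (hf : f ≠ 0) :
    ∃ (c : L) (u : ↥(gaussF A π N)), c ≠ 0 ∧ gaussFRed A π N u ≠ 0 ∧
      f = algebraMap L ↥(laurentBaseChange L (modularFunctionFieldFull N)) c *
        (u : ↥(laurentBaseChange L (modularFunctionFieldFull N))) :=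
  exists_const_mul_unit A π _ _ f hf

theorem exists_maximalIdeal_mul_of_gaussFRed_eq_zero (N : ℕ) (f : ↥(gaussF A π N))
    (hf : gaussFRed A π N f = 0) :
    ∃ (c : A) (g : ↥(gaussF A π N)), c ∈ IsLocalRing.maximalIdeal A ∧
      (f : ↥(laurentBaseChange L (modularFunctionFieldFull N)))
        = algebraMap L ↥(laurentBaseChange L (modularFunctionFieldFull N)) (c : L) *
          (g : ↥(laurentBaseChange L (modularFunctionFieldFull N))) :=
  exists_maximalIdeal_mul_of_gaussRed_eq_zero A π _ _ f hf

theorem algebraMap_mem_gaussF_iff (N : ℕ)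
    (hπ0 : ∀ a : A, a ∈ IsLocalRing.maximalIdeal A → π a = 0) (c : L) :
    algebraMap L ↥(laurentBaseChange L (modularFunctionFieldFull N)) c ∈ gaussF A π N ↔ c ∈ A :=
  algebraMap_mem_gaussSubring_iff A π _ _ hπ0 c

/-- (G3) The residue field of `gaussF` (the range of `gaussFRed`) contains
`Fk = modularFunctionFieldFullC k N`. The converse inclusion is the Igusa degree equality and is
NOT formal. -/
theorem exists_gaussFRed_eq (N : ℕ) (hπ : Function.Surjective π) {x : LaurentSeries k}
    (hx : x ∈ modularFunctionFieldFullC k N) : ∃ f : ↥(gaussF A π N), gaussFRed A π N f = x := by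
  refine exists_gaussRed_eq_of_mem_adjoin A π _ _ hπ ?_ hx
  rintro _ ⟨d, hd, hdN, rfl⟩
  have := hd
  refine ⟨jqNModC A d, ?_, red_jqNModC A π d⟩
  rw [inc_jqNModC, mem_laurentBaseChange_full_iff]
  exact jqModCd_mem_full L N hdN

end Instance

end

end Fermat.Agent.S18.helper8991
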