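/-
S18, abstract Kummer core (helper1788).

A valued field `F` over a field `L`, a unit `u` of `F` and families of `L`-subspaces
`M1 k`, `M2 k`, `M12 k`, `P k`, `Q k` of `F` (think of
`M1 k = L(D₀ + k X_∞)`, `M2 k = L(D₀ + k X_0)`, `M12 k = L(D₀ + k X_∞ + k X_0)`,
`P k = L(k X_∞)`, `Q k = L(k X_0)` for a divisor `D₀` with `m D₀ = div u`).

If there is a pair `(a₀, b₀)` at a level `k₀` with `|a₀| = 1`, `|a₀ - b₀| < 1`,
`|a₀ ^ m u - 1| < 1`, `|b₀ ^ m u - 1| < 1` (`|m| = 1`), if the two charts separate, if every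
element of `M12 k` is, without increasing norms, a sum of an element of `M12 k₀`, of `M1 k` and
of `M2 k`, and if `M12 k₀` has an orthonormal basis, then `M1 k₀ ∩ M2 k₀ ≠ 0`.

Proof: Newton iteration `a ↦ a (1 - (a ^ m u - 1) / m)` in both charts, reduction to the fixed
level `k₀`, and boundedness of a linear left inverse of `(a, b) ↦ a - b` at level `k₀`.
No Smith normal form, no elementary divisors, no roots of unity.
-/
import Mathlib

set_option autoImplicit false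

namespace Fermat.Agent.S18.helper1788

section ValuationLemmas

variable {F Γ₀ : Type*} [Field F] [LinearOrderedCommGroupWithZero Γ₀] (v : Valuation F Γ₀)

theorem val_natCast_le_one (n : ℕ) : v (n : F) ≤ 1 := by
  induction n with
  | zero => simp
  | succ n ih =>
    rw [Nat.cast_succ]
    exact v.map_add_le ih (le_of_eq v.map_one)

/-- `(1 - σ) ^ m = 1 - m σ + σ² g` with `|g| ≤ 1` when `|σ| ≤ 1`. -/
theorem exists_one_sub_pow {σ : F} (hσ : v σ ≤ 1) (m : ℕ) :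
    ∃ g : F, (1 - σ) ^ m = 1 - (m : F) * σ + σ ^ 2 * g ∧ v g ≤ 1 := by
  induction m with
  | zero => exact ⟨0, by simp, by simp⟩
  | succ m ih =>
    obtain ⟨g, hg, hg1⟩ := ih
    refine ⟨(m : F) + g * (1 - σ), ?_, ?_⟩
    · rw [pow_succ, hg]; push_cast; ring
    · refine v.map_add_le (val_natCast_le_one v m) ?_
      rw [map_mul]
      exact mul_le_one' hg1 (v.map_sub_le (le_of_eq v.map_one) hσ)

/-- `|(1 + z) ^ m - 1| = |z|` when `|z| < 1` and `|m| = 1`. -/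
theorem val_one_add_pow_sub_one {z : F} (hz : v z < 1) {m : ℕ} (hm : v (m : F) = 1) :
    v ((1 + z) ^ m - 1) = v z := by
  obtain ⟨g, hg, hg1⟩ := exists_one_sub_pow v (σ := -z) (by rw [Valuation.map_neg]; exact hz.le) m
  have h1 : (1 + z) ^ m - 1 = (m : F) * z + z ^ 2 * g := by
    have : (1 + z) ^ m = (1 - -z) ^ m := by ring
    rw [this, hg]; ring
  rw [h1]
  by_cases hz0 : z = 0
  · subst hz0; simp
  have hvz : v z ≠ 0 := (Valuation.ne_zero_iff v).mpr hz0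
  have h2 : v (z ^ 2 * g) < v ((m : F) * z) := by
    rw [map_mul, map_mul, hm, one_mul, map_pow]
    calc v z ^ 2 * v g ≤ v z ^ 2 * 1 := mul_le_mul' le_rfl hg1
      _ = v z * v z := by rw [mul_one, sq]
      _ < v z * 1 := by
          exact mul_lt_mul_of_pos_left hz (zero_lt_iff.mpr hvz)
      _ = v z := mul_one _
  rw [v.map_add_eq_of_lt_left h2, map_mul, hm, one_mul]

/-- One Newton step for the equation `a ^ m * u = 1`. -/
theorem val_newton_step {m : ℕ} (hm : v (m : F) = 1) (a u : F) (hs : v (a ^ m * u - 1) < 1) :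
    v (((1 - (m : F)⁻¹ * (a ^ m * u - 1)) * a) ^ m * u - 1) ≤ v (a ^ m * u - 1) ^ 2 := by
  have hm0 : (m : F) ≠ 0 := by
    intro h
    rw [h, map_zero] at hm
    exact zero_ne_one hm
  set s := a ^ m * u - 1 with hsdef
  set σ := (m : F)⁻¹ * s with hσdef
  have hvσ : v σ = v s := by
    rw [hσdef, map_mul, map_inv₀, hm, inv_one, one_mul]
  obtain ⟨g, hg, hg1⟩ := exists_one_sub_pow v (σ := σ) (by rw [hvσ]; exact hs.le) m
  have hms : (m : F) * σ = s := by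
    rw [hσdef, ← mul_assoc, mul_inv_cancel₀ hm0, one_mul]
  have hau : a ^ m * u = 1 + (m : F) * σ := by rw [hms, hsdef]; ring
  have key : ((1 - σ) * a) ^ m * u - 1 = σ ^ 2 * (g * (1 + (m : F) * σ) - (m : F) ^ 2) := by
    rw [mul_pow, mul_assoc, hau, hg]; ring
  rw [key, map_mul, map_pow, hvσ]
  have h1 : v (g * (1 + (m : F) * σ) - (m : F) ^ 2) ≤ 1 := by
    refine v.map_sub_le ?_ ?_
    · rw [map_mul]
      refine mul_le_one' hg1 ?_
      rw [hms]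
      exact v.map_add_le (le_of_eq v.map_one) hs.le
    · rw [map_pow, hm, one_pow]
  calc v s ^ 2 * v (g * (1 + (m : F) * σ) - (m : F) ^ 2) ≤ v s ^ 2 * 1 := mul_le_mul' le_rfl h1
    _ = v s ^ 2 := mul_one _

end ValuationLemmas

section Core

variable {L F Γ₀ : Type*} [Field L] [Field F] [Algebra L F] [LinearOrderedCommGroupWithZero Γ₀]

/-- Abstract Kummer core, contradiction form: with a uniform bound `κ |a| ≤ |a - b|` at the
fixed level `k₀`, the Newton iteration is impossible. -/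
theorem kummer_core_false
    (v : Valuation F Γ₀) (harch : ∀ ε κ : Γ₀, ε < 1 → κ ≠ 0 → ∃ n : ℕ, ε ^ n < κ)
    (m : ℕ) (hm : v (m : F) = 1) (u : F)
    (M1 M2 M12 P Q : ℕ → Submodule L F)
    (hM1 : ∀ k, M1 k ≤ M12 k) (hM2 : ∀ k, M2 k ≤ M12 k)
    (hP1 : ∀ k, (1 : F) ∈ P k) (hQ1 : ∀ k, (1 : F) ∈ Q k)
    (hP : ∀ k, ∀ a ∈ M1 k, a ^ m * u ∈ P (m * k))
    (hQ : ∀ k, ∀ b ∈ M2 k, b ^ m * u ∈ Q (m * k))
    (hPM : ∀ j k, ∀ s ∈ P j, ∀ a ∈ M1 k, s * a ∈ M1 (j + k))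
    (hQM : ∀ j k, ∀ s ∈ Q j, ∀ b ∈ M2 k, s * b ∈ M2 (j + k))
    (k₀ : ℕ)
    (hsep : ∀ k, k₀ ≤ k → ∀ a ∈ M1 k, ∀ b ∈ M2 k, a - b ∈ M12 k₀ → a ∈ M1 k₀ ∧ b ∈ M2 k₀)
    (hsurj : ∀ k, k₀ ≤ k → ∀ c ∈ M12 k, ∃ c₀ ∈ M12 k₀, ∃ a₁ ∈ M1 k, ∃ b₁ ∈ M2 k,
      c = c₀ + a₁ - b₁ ∧ v a₁ ≤ v c ∧ v b₁ ≤ v c ∧ v c₀ ≤ v c)
    (hbound : ∃ κ : Γ₀, κ ≠ 0 ∧ ∀ a ∈ M1 k₀, ∀ b ∈ M2 k₀, κ * v a ≤ v (a - b))
    (a₀ b₀ : F) (ha₀ : a₀ ∈ M1 k₀) (hb₀ : b₀ ∈ M2 k₀) (hva₀ : v a₀ = 1)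
    (hab₀ : v (a₀ - b₀) < 1) (hsa₀ : v (a₀ ^ m * u - 1) < 1) (hsb₀ : v (b₀ ^ m * u - 1) < 1) :
    False := by
  obtain ⟨κ, hκ0, hκ⟩ := hbound
  have hm0 : (m : F) ≠ 0 := by
    intro h
    rw [h, map_zero] at hm
    exact zero_ne_one hm
  set ε : Γ₀ := max (v (a₀ ^ m * u - 1)) (v (b₀ ^ m * u - 1)) with hε
  have hε1 : ε < 1 := max_lt hsa₀ hsb₀
  have hpow1 : ∀ j : ℕ, ε ^ (2 ^ j) < 1 := fun j =>
    pow_lt_one' hε1 (pow_ne_zero j two_ne_zero)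
  -- membership of the Newton factor
  have hfacP : ∀ k, ∀ a ∈ M1 k, 1 - (m : F)⁻¹ * (a ^ m * u - 1) ∈ P (m * k) := by
    intro k a ha
    have h1 : a ^ m * u - 1 ∈ P (m * k) := sub_mem (hP k a ha) (hP1 _)
    have h2 : (m : F)⁻¹ * (a ^ m * u - 1) = ((m : L)⁻¹) • (a ^ m * u - 1) := by
      rw [Algebra.smul_def, map_inv₀, map_natCast]
    rw [h2]
    exact sub_mem (hP1 _) (Submodule.smul_mem _ _ h1)
  have hfacQ : ∀ k, ∀ b ∈ M2 k, 1 - (m : F)⁻¹ * (b ^ m * u - 1) ∈ Q (m * k) := by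
    intro k b hb
    have h1 : b ^ m * u - 1 ∈ Q (m * k) := sub_mem (hQ k b hb) (hQ1 _)
    have h2 : (m : F)⁻¹ * (b ^ m * u - 1) = ((m : L)⁻¹) • (b ^ m * u - 1) := by
      rw [Algebra.smul_def, map_inv₀, map_natCast]
    rw [h2]
    exact sub_mem (hQ1 _) (Submodule.smul_mem _ _ h1)
  -- the Newton iteration
  have key : ∀ j : ℕ, ∃ (k : ℕ) (a b : F), k₀ ≤ k ∧ a ∈ M1 k ∧ b ∈ M2 k ∧ v a = 1 ∧ v b = 1 ∧
      v (a - b) < 1 ∧ v (a ^ m * u - 1) ≤ ε ^ (2 ^ j) ∧ v (b ^ m * u - 1) ≤ ε ^ (2 ^ j) := by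
    intro j
    induction j with
    | zero =>
      refine ⟨k₀, a₀, b₀, le_rfl, ha₀, hb₀, hva₀, ?_, hab₀, ?_, ?_⟩
      · have h : v (a₀ - b₀) < v a₀ := by rw [hva₀]; exact hab₀
        have h2 := v.map_sub_eq_of_lt_left h
        rw [sub_sub_cancel] at h2
        rw [h2, hva₀]
      · rw [pow_zero, pow_one]; exact le_max_left _ _
      · rw [pow_zero, pow_one]; exact le_max_right _ _
    | succ j ih =>
      obtain ⟨k, a, b, hk, ha, hb, hva, hvb, hab, hsa, hsb⟩ := ih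
      have hsa1 : v (a ^ m * u - 1) < 1 := lt_of_le_of_lt hsa (hpow1 j)
      have hsb1 : v (b ^ m * u - 1) < 1 := lt_of_le_of_lt hsb (hpow1 j)
      set ta := 1 - (m : F)⁻¹ * (a ^ m * u - 1) with hta
      set tb := 1 - (m : F)⁻¹ * (b ^ m * u - 1) with htb
      have hvσa : v ((m : F)⁻¹ * (a ^ m * u - 1)) < 1 := by
        rw [map_mul, map_inv₀, hm, inv_one, one_mul]; exact hsa1
      have hvσb : v ((m : F)⁻¹ * (b ^ m * u - 1)) < 1 := by
        rw [map_mul, map_inv₀, hm, inv_one, one_mul]; exact hsb1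
      have hvta : v ta = 1 := v.map_one_sub_of_lt hvσa
      have hvtb : v tb = 1 := v.map_one_sub_of_lt hvσb
      have hpowsucc : ε ^ (2 ^ (j + 1)) = ε ^ (2 ^ j) * ε ^ (2 ^ j) := by
        rw [← pow_add, pow_succ, mul_two]
      refine ⟨m * k + k, ta * a, tb * b, le_trans hk (Nat.le_add_left _ _),
        hPM _ _ _ (hfacP k a ha) a ha, hQM _ _ _ (hfacQ k b hb) b hb, ?_, ?_, ?_, ?_, ?_⟩
      · rw [map_mul, hvta, hva, one_mul]
      · rw [map_mul, hvtb, hvb, one_mul]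
      · have h1 : ta * a - tb * b = ta * (a - b) + (ta - tb) * b := by ring
        rw [h1]
        refine v.map_add_lt ?_ ?_
        · rw [map_mul, hvta, one_mul]; exact hab
        · rw [map_mul, hvb, mul_one]
          have h2 : ta - tb = (m : F)⁻¹ * (b ^ m * u - 1) - (m : F)⁻¹ * (a ^ m * u - 1) := by
            rw [hta, htb]; ring
          rw [h2]
          exact v.map_sub_lt hvσb hvσa
      · refine le_trans (val_newton_step v hm a u hsa1) ?_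
        rw [hpowsucc, sq]
        exact mul_le_mul' hsa hsa
      · refine le_trans (val_newton_step v hm b u hsb1) ?_
        rw [hpowsucc, sq]
        exact mul_le_mul' hsb hsb
  -- choose the step
  obtain ⟨n, hn⟩ := harch ε κ hε1 hκ0
  obtain ⟨k, a, b, hk, ha, hb, hva, hvb, hab, hsa, hsb⟩ := key n
  have hEκ : ε ^ (2 ^ n) < κ := by
    refine lt_of_le_of_lt ?_ hn
    exact pow_le_pow_right_of_le_one' hε1.le (Nat.lt_two_pow_self).le
  -- closeness of `a` and `b`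
  have hb0 : b ≠ 0 := by
    intro h
    rw [h, map_zero] at hvb
    exact zero_ne_one hvb
  have hclose : v (a - b) ≤ ε ^ (2 ^ n) := by
    set z := (a - b) / b with hz
    have hvz : v z = v (a - b) := by rw [hz, map_div₀, hvb, div_one]
    have hab' : a = b * (1 + z) := by
      rw [hz, mul_add, mul_one, mul_div_cancel₀ _ hb0]; ring
    have hbu : v (b ^ m * u) = 1 := by
      have h1 : b ^ m * u = 1 + (b ^ m * u - 1) := by ring
      rw [h1]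
      exact v.map_one_add_of_lt (lt_of_le_of_lt hsb (hpow1 n))
    have h2 : a ^ m * u - b ^ m * u = b ^ m * u * ((1 + z) ^ m - 1) := by
      rw [hab', mul_pow]; ring
    have h3 : v (a ^ m * u - b ^ m * u) = v (a - b) := by
      rw [h2, map_mul, hbu, one_mul, val_one_add_pow_sub_one v (by rw [hvz]; exact hab) hm, hvz]
    have h4 : a ^ m * u - b ^ m * u = (a ^ m * u - 1) - (b ^ m * u - 1) := by ring
    rw [← h3, h4]
    exact v.map_sub_le hsa hsb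
  -- reduction to level `k₀`
  obtain ⟨c₀, hc₀, a₁, ha₁, b₁, hb₁, hc, hva₁, hvb₁, hvc₀⟩ :=
    hsurj k hk (a - b) (sub_mem (hM1 k ha) (hM2 k hb))
  have hdiff : (a - a₁) - (b - b₁) = c₀ := by
    have : (a - a₁) - (b - b₁) = (a - b) - (a₁ - b₁) := by ring
    rw [this, hc]; ring
  obtain ⟨ha', hb'⟩ := hsep k hk (a - a₁) (sub_mem ha ha₁) (b - b₁) (sub_mem hb hb₁)
    (by rw [hdiff]; exact hc₀)
  have hva' : v (a - a₁) = 1 := by
    have h : v a₁ < v a := by rw [hva]; exact lt_of_le_of_lt hva₁ hab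
    rw [v.map_sub_eq_of_lt_left h, hva]
  have hfin := hκ (a - a₁) ha' (b - b₁) hb'
  rw [hva', mul_one, hdiff] at hfin
  exact absurd (lt_of_le_of_lt (le_trans hfin (le_trans hvc₀ hclose)) hEκ) (lt_irrefl κ)

/-- Boundedness at the fixed level: if `M12` has an orthonormal basis and `M1 ∩ M2 = 0` then
`(a, b) ↦ a - b` is bounded below on `M1 × M2`. -/
theorem exists_bound_of_orthonormal
    (v : Valuation F Γ₀) (M1 M2 M12 : Submodule L F) (hM1 : M1 ≤ M12) (hM2 : M2 ≤ M12)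
    (hinf : ∀ f : F, f ∈ M1 → f ∈ M2 → f = 0)
    {ι : Type*} [Finite ι] (bas : Module.Basis ι L M12)
    (horth : ∀ (x : M12) (i : ι), v (algebraMap L F (bas.repr x i)) ≤ v (x : F)) :
    ∃ κ : Γ₀, κ ≠ 0 ∧ ∀ a ∈ M1, ∀ b ∈ M2, κ * v a ≤ v (a - b) := by
  classical
  cases nonempty_fintype ι
  -- the difference map
  let φ : (M1 × M2) →ₗ[L] M12 :=
    ((Submodule.inclusion hM1).comp (LinearMap.fst L M1 M2)) -
      ((Submodule.inclusion hM2).comp (LinearMap.snd L M1 M2))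
  have hφ : ∀ x : M1 × M2, ((φ x : M12) : F) = (x.1 : F) - (x.2 : F) := fun x => rfl
  have hker : LinearMap.ker φ = ⊥ := by
    rw [LinearMap.ker_eq_bot']
    rintro ⟨⟨a, ha⟩, ⟨b, hb⟩⟩ h
    have h1 : a - b = 0 := by
      have := congrArg (fun y : M12 => (y : F)) h
      simpa [hφ] using this
    have hab : a = b := sub_eq_zero.mp h1
    have ha0 : a = 0 := hinf a ha (hab ▸ hb)
    have hb0 : b = 0 := hab ▸ ha0
    subst ha0; subst hb0
    rfl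
  obtain ⟨ψ, hψ⟩ := LinearMap.exists_leftInverse_of_injective φ hker
  -- a bound for the images of the basis
  obtain ⟨C, hC⟩ := (Set.finite_range fun i : ι => v (((ψ (bas i)).1 : M1) : F)).bddAbove
  have hC' : ∀ i, v (((ψ (bas i)).1 : M1) : F) ≤ max C 1 := fun i =>
    le_trans (hC (Set.mem_range_self i)) (le_max_left _ _)
  have hC0 : max C 1 ≠ 0 := (lt_of_lt_of_le zero_lt_one (le_max_right C 1)).ne'
  refine ⟨(max C 1)⁻¹, inv_ne_zero hC0, fun a ha b hb => ?_⟩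
  rw [inv_mul_le_iff₀ (zero_lt_iff.mpr hC0)]
  set x : M12 := φ (⟨a, ha⟩, ⟨b, hb⟩) with hx
  have hxF : (x : F) = a - b := rfl
  have hψx : ψ x = (⟨a, ha⟩, ⟨b, hb⟩) := by
    have := congrArg (fun f : (M1 × M2) →ₗ[L] (M1 × M2) => f (⟨a, ha⟩, ⟨b, hb⟩)) hψ
    simpa using this
  have hsum : (a : F) = ∑ i, bas.repr x i • ((((ψ (bas i)).1 : M1)) : F) := by
    have h1 : ψ x = ∑ i, bas.repr x i • ψ (bas i) := by
      conv_lhs => rw [← bas.sum_repr x]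
      rw [map_sum]
      simp
    have h2 : ((ψ x).1 : M1) = ∑ i, bas.repr x i • (ψ (bas i)).1 := by
      rw [h1]
      simp [Prod.fst_sum]
    have h3 : (((ψ x).1 : M1) : F) = ∑ i, bas.repr x i • ((((ψ (bas i)).1 : M1)) : F) := by
      rw [h2]
      simp
    rw [← h3, hψx]
  rw [← hxF]
  conv_lhs => rw [hsum]
  refine v.map_sum_le fun i _ => ?_
  rw [Algebra.smul_def, map_mul, mul_comm]
  exact mul_le_mul' (hC' i) (horth x i)

/-- **Abstract Kummer core.** -/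
theorem kummer_core
    (v : Valuation F Γ₀) (harch : ∀ ε κ : Γ₀, ε < 1 → κ ≠ 0 → ∃ n : ℕ, ε ^ n < κ)
    (m : ℕ) (hm : v (m : F) = 1) (u : F)
    (M1 M2 M12 P Q : ℕ → Submodule L F)
    (hM1 : ∀ k, M1 k ≤ M12 k) (hM2 : ∀ k, M2 k ≤ M12 k)
    (hP1 : ∀ k, (1 : F) ∈ P k) (hQ1 : ∀ k, (1 : F) ∈ Q k)
    (hP : ∀ k, ∀ a ∈ M1 k, a ^ m * u ∈ P (m * k))
    (hQ : ∀ k, ∀ b ∈ M2 k, b ^ m * u ∈ Q (m * k))
    (hPM : ∀ j k, ∀ s ∈ P j, ∀ a ∈ M1 k, s * a ∈ M1 (j + k))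
    (hQM : ∀ j k, ∀ s ∈ Q j, ∀ b ∈ M2 k, s * b ∈ M2 (j + k))
    (k₀ : ℕ)
    (hsep : ∀ k, k₀ ≤ k → ∀ a ∈ M1 k, ∀ b ∈ M2 k, a - b ∈ M12 k₀ → a ∈ M1 k₀ ∧ b ∈ M2 k₀)
    (hsurj : ∀ k, k₀ ≤ k → ∀ c ∈ M12 k, ∃ c₀ ∈ M12 k₀, ∃ a₁ ∈ M1 k, ∃ b₁ ∈ M2 k,
      c = c₀ + a₁ - b₁ ∧ v a₁ ≤ v c ∧ v b₁ ≤ v c ∧ v c₀ ≤ v c)
    {ι : Type*} [Finite ι] (bas : Module.Basis ι L (M12 k₀))
    (horth : ∀ (x : M12 k₀) (i : ι), v (algebraMap L F (bas.repr x i)) ≤ v (x : F))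
    (a₀ b₀ : F) (ha₀ : a₀ ∈ M1 k₀) (hb₀ : b₀ ∈ M2 k₀) (hva₀ : v a₀ = 1)
    (hab₀ : v (a₀ - b₀) < 1) (hsa₀ : v (a₀ ^ m * u - 1) < 1) (hsb₀ : v (b₀ ^ m * u - 1) < 1) :
    ∃ f : F, f ≠ 0 ∧ f ∈ M1 k₀ ∧ f ∈ M2 k₀ := by
  by_contra hcon
  have hinf : ∀ f : F, f ∈ M1 k₀ → f ∈ M2 k₀ → f = 0 := by
    intro f h1 h2
    by_contra hf
    exact hcon ⟨f, hf, h1, h2⟩
  exact kummer_core_false v harch m hm u M1 M2 M12 P Q hM1 hM2 hP1 hQ1 hP hQ hPM hQM k₀ hsep hsurj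
    (exists_bound_of_orthonormal v (M1 k₀) (M2 k₀) (M12 k₀) (hM1 k₀) (hM2 k₀) hinf bas horth)
    a₀ b₀ ha₀ hb₀ hva₀ hab₀ hsa₀ hsb₀

end Core

end Fermat.Agent.S18.helper1788
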