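import Mathlib
import Fermat.Prelude.Def_AlgebraicCurve_Repartitions

/-!
# Riemann's theorem for a function field with degree-one places (Prelude vocabulary)

Char-free, hypothesis-passing.  Setting: `K F` fields, `[Algebra K F]`,
`[HasPrincipalDivisors K F]`, `hdeg : ∀ v : Place K F, v.deg = 1`.
`l D := finrank K (riemannRochSpace D)`.
-/

set_option autoImplicit false

namespace Fermat.Agent.S18.helper981

open AlgebraicCurve WithZero Module

variable {K F : Type*} [Field K] [Field F] [Algebra K F]

/-! ## Part A: local lemmas at one place -/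

theorem val_lt_exp_succ_iff (v : Place K F) {f : F} {n : ℤ} :
    v.adicValuation f < exp (n + 1) ↔ v.adicValuation f ≤ exp n := by
  rcases eq_or_ne f 0 with rfl | hf
  · simp
  · rw [v.adicValuation_eq_exp_neg_ord hf, exp_lt_exp, exp_le_exp]
    omega

theorem mem_valuationSubring_of_val_le_one (v : Place K F) {g : F}
    (hg : v.adicValuation g ≤ 1) : g ∈ v.toValuationSubring := by
  rcases eq_or_ne g 0 with rfl | hg0
  · exact zero_mem _
  have hord : 0 ≤ v.ord g := by
    rcases v.adicValuation_le_one_iff.mp hg with h | h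
    · exact absurd h hg0
    · exact h
  obtain ⟨π, hπ⟩ := IsDiscreteValuationRing.exists_irreducible v.toValuationSubring
  obtain ⟨u, hu⟩ := v.exists_unit_mul_zpow hg0 hπ
  rw [hu]
  refine mul_mem u.1.2 ?_
  obtain ⟨n, hn⟩ := Int.eq_ofNat_of_zero_le hord
  rw [hn, zpow_natCast]
  exact pow_mem π.2 n

/-- At a place of degree one, every element of the valuation ring is congruent to a constant. -/
theorem exists_const_val_sub_lt_one (v : Place K F) (hv : v.deg = 1) {g : F}
    (hg : v.adicValuation g ≤ 1) : ∃ c : K, v.adicValuation (g - algebraMap K F c) < 1 := by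
  have hgO := mem_valuationSubring_of_val_le_one v hg
  have h1 : Module.finrank K v.ResidueField = 1 := hv
  obtain ⟨c, hc⟩ := (finrank_eq_one_iff_of_nonzero' (1 : v.ResidueField) one_ne_zero).mp h1
    (IsLocalRing.residue v.toValuationSubring ⟨g, hgO⟩)
  refine ⟨c, ?_⟩
  have hres : IsLocalRing.residue v.toValuationSubring
      (⟨g, hgO⟩ - algebraMap K v.toValuationSubring c) = 0 := by
    rw [map_sub, ← hc, Algebra.smul_def, mul_one]
    exact sub_eq_zero.mpr rfl
  have hmem := (IsLocalRing.residue_eq_zero_iff _).mp hres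
  have hlt : v.heightOneSpectrum.intValuation
      (⟨g, hgO⟩ - algebraMap K v.toValuationSubring c) < 1 :=
    (v.heightOneSpectrum.intValuation_lt_one_iff_mem _).mpr hmem
  have := v.adicValuation_coe (⟨g, hgO⟩ - algebraMap K v.toValuationSubring c)
  rw [← this] at hlt
  simpa using hlt

theorem val_algebraMap_smul_le (v : Place K F) (c : K) (f : F) :
    v.adicValuation (c • f) ≤ v.adicValuation f := by
  rw [Algebra.smul_def, map_mul]
  exact mul_le_of_le_one_left' (v.adicValuation_algebraMap_le_one c)

theorem riemannRochSpace_mono {D E : Divisor K F} (h : D ≤ E) :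
    riemannRochSpace D ≤ riemannRochSpace E := fun _ hf v =>
  (hf v).trans (exp_le_exp.mpr (Finsupp.le_def.mp h v))

theorem mem_riemannRochSpace {D : Divisor K F} {f : F} :
    f ∈ riemannRochSpace D ↔ ∀ v : Place K F, v.adicValuation f ≤ exp (D v) := Iff.rfl

/-- One-step lemma: `L(D + P) ≤ L(D) + K f₀` for any `f₀ ∈ L(D + P) \ L(D)`. -/
theorem riemannRochSpace_succ_le (hdeg : ∀ v : Place K F, v.deg = 1) (D : Divisor K F)
    (P : Place K F) {f₀ : F} (hf₀ : f₀ ∈ riemannRochSpace (D + Finsupp.single P 1))
    (hf₀' : f₀ ∉ riemannRochSpace D) :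
    riemannRochSpace (D + Finsupp.single P 1) ≤ riemannRochSpace D ⊔ Submodule.span K {f₀} := by
  classical
  -- the only place where `f₀` fails the `D`-bound is `P`
  have hother : ∀ w : Place K F, w ≠ P → ∀ f ∈ riemannRochSpace (D + Finsupp.single P 1),
      w.adicValuation f ≤ exp (D w) := by
    intro w hw f hf
    have := hf w
    rwa [Finsupp.add_apply, Finsupp.single_apply, if_neg (Ne.symm hw), add_zero] at this
  have hP : ∀ f ∈ riemannRochSpace (D + Finsupp.single P 1),
      P.adicValuation f ≤ exp (D P + 1) := by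
    intro f hf
    have := hf P
    rwa [Finsupp.add_apply, Finsupp.single_apply, if_pos rfl] at this
  have hf₀P : P.adicValuation f₀ = exp (D P + 1) := by
    refine le_antisymm (hP f₀ hf₀) ?_
    by_contra hlt
    rw [not_le, val_lt_exp_succ_iff] at hlt
    apply hf₀'
    intro w
    by_cases hw : w = P
    · subst hw; exact hlt
    · exact hother w hw f₀ hf₀
  have hf₀0 : f₀ ≠ 0 := by
    rintro rfl
    simp at hf₀P
  intro f hf
  have hg : P.adicValuation (f / f₀) ≤ 1 := by
    rw [map_div₀, hf₀P]
    exact div_le_one_of_le₀ (hP f hf) zero_le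
  obtain ⟨c, hc⟩ := exists_const_val_sub_lt_one P (hdeg P) hg
  have hmem : f - c • f₀ ∈ riemannRochSpace D := by
    intro w
    by_cases hw : w = P
    · subst hw
      have hfac : f - c • f₀ = (f / f₀ - algebraMap K F c) * f₀ := by
        rw [Algebra.smul_def]; field_simp
      refine (val_lt_exp_succ_iff w).mp ?_
      rw [hfac, map_mul, hf₀P]
      calc w.adicValuation (f / f₀ - algebraMap K F c) * exp (D w + 1)
          < 1 * exp (D w + 1) := by
            exact mul_lt_mul_of_pos_right hc (by simp [zero_lt_iff])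
        _ = exp (D w + 1) := one_mul _
    · have h1 := hother w hw f hf
      have h2 := (val_algebraMap_smul_le w c f₀).trans (hother w hw f₀ hf₀)
      exact (Valuation.map_sub _ _ _).trans (max_le h1 h2)
  have : f = (f - c • f₀) + c • f₀ := by ring
  rw [this]
  exact Submodule.add_mem_sup hmem (Submodule.smul_mem _ _ (Submodule.mem_span_singleton_self f₀))


/-! ## Part B: divisors, degrees, induction -/

theorem degree_eq_sum (hdeg : ∀ v : Place K F, v.deg = 1) (D : Divisor K F) :
    Divisor.degree D = D.sum fun _ n => n := by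
  simp only [Divisor.degree, Finsupp.liftAddHom_apply, AddMonoidHom.coe_mulRight, hdeg,
    Nat.cast_one, mul_one]

theorem degree_single_one (hdeg : ∀ v : Place K F, v.deg = 1) (P : Place K F) :
    Divisor.degree (Finsupp.single P (1 : ℤ)) = 1 := by
  rw [Divisor.degree_single, hdeg]; simp

theorem degree_nonneg (hdeg : ∀ v : Place K F, v.deg = 1) {G : Divisor K F} (hG : 0 ≤ G) :
    0 ≤ Divisor.degree G := by
  rw [degree_eq_sum hdeg]
  exact Finsupp.sum_nonneg fun v _ => Finsupp.le_def.mp hG v

theorem eq_zero_of_degree_eq_zero (hdeg : ∀ v : Place K F, v.deg = 1) {G : Divisor K F}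
    (hG : 0 ≤ G) (h : Divisor.degree G = 0) : G = 0 := by
  rw [degree_eq_sum hdeg, Finsupp.sum] at h
  have := (Finset.sum_eq_zero_iff_of_nonneg fun v _ => Finsupp.le_def.mp hG v).mp h
  ext v
  by_cases hv : v ∈ G.support
  · exact this v hv
  · simpa using hv

theorem degree_mono (hdeg : ∀ v : Place K F, v.deg = 1) {D E : Divisor K F} (h : D ≤ E) :
    Divisor.degree D ≤ Divisor.degree E := by
  have := degree_nonneg hdeg (sub_nonneg.mpr h)
  rw [map_sub] at this
  linarith

theorem exists_lt_of_le_of_ne {D E : Divisor K F} (h : D ≤ E) (hne : D ≠ E) :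
    ∃ P : Place K F, D P < E P := by
  by_contra hcon
  push Not at hcon
  exact hne (Finsupp.ext fun v => le_antisymm (Finsupp.le_def.mp h v) (hcon v))

theorem add_single_le {D E : Divisor K F} (h : D ≤ E) {P : Place K F} (hP : D P < E P) :
    D + Finsupp.single P 1 ≤ E := by
  classical
  rw [Finsupp.le_def]
  intro v
  rw [Finsupp.add_apply, Finsupp.single_apply]
  split_ifs with hv
  · subst hv; omega
  · simpa using Finsupp.le_def.mp h v

theorem le_add_single (D : Divisor K F) (P : Place K F) : D ≤ D + Finsupp.single P 1 := by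
  classical
  rw [Finsupp.le_def]
  intro v
  rw [Finsupp.add_apply, Finsupp.single_apply]
  split_ifs <;> omega

theorem induction_down_aux (hdeg : ∀ v : Place K F, v.deg = 1) (E : Divisor K F)
    (p : Divisor K F → Prop) (base : p E) :
    ∀ (n : ℕ) (A : Divisor K F), A ≤ E → Divisor.degree E - Divisor.degree A = n →
      (∀ (D : Divisor K F) (P : Place K F), A ≤ D → D + Finsupp.single P 1 ≤ E →
        p (D + Finsupp.single P 1) → p D) → p A := by
  intro n
  induction n with
  | zero =>
    intro A hAE hdiff _
    have h0 : Divisor.degree (E - A) = 0 := by rw [map_sub]; simpa using hdiff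
    have := eq_zero_of_degree_eq_zero hdeg (sub_nonneg.mpr hAE) h0
    rw [sub_eq_zero] at this
    rw [← this]; exact base
  | succ n ih =>
    intro A hAE hdiff step
    have hne : A ≠ E := by
      rintro rfl
      simp at hdiff
      omega
    obtain ⟨P, hP⟩ := exists_lt_of_le_of_ne hAE hne
    have hA'E := add_single_le hAE hP
    have hd : Divisor.degree E - Divisor.degree (A + Finsupp.single P 1) = n := by
      rw [map_add, degree_single_one hdeg]
      push_cast at hdiff
      linarith
    have hpA' := ih (A + Finsupp.single P 1) hA'E hd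
      (fun D Q hD hDQ h => step D Q ((le_add_single A P).trans hD) hDQ h)
    exact step A P le_rfl hA'E hpA'

/-- Downward induction on divisors between `A` and `E`. -/
theorem induction_down (hdeg : ∀ v : Place K F, v.deg = 1) {A E : Divisor K F} (hAE : A ≤ E)
    (p : Divisor K F → Prop) (base : p E)
    (step : ∀ (D : Divisor K F) (P : Place K F), A ≤ D → D + Finsupp.single P 1 ≤ E →
        p (D + Finsupp.single P 1) → p D) : p A := by
  have hnn : 0 ≤ Divisor.degree E - Divisor.degree A := sub_nonneg.mpr (degree_mono hdeg hAE)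
  obtain ⟨n, hn⟩ := Int.eq_ofNat_of_zero_le hnn
  exact induction_down_aux hdeg E p base n A hAE hn step

/-- Upward induction on divisors between `A` and `E`. -/
theorem induction_up (hdeg : ∀ v : Place K F, v.deg = 1) {A E : Divisor K F} (hAE : A ≤ E)
    (p : Divisor K F → Prop) (base : p A)
    (step : ∀ (D : Divisor K F) (P : Place K F), A ≤ D → D + Finsupp.single P 1 ≤ E →
        p D → p (D + Finsupp.single P 1)) : p E :=
  induction_down hdeg hAE (fun D => p D → p E) id
    (fun D P hD hDP h hpD => h (step D P hD hDP hpD)) base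

/-! ## Part C: dimensions of Riemann–Roch spaces -/

theorem riemannRochSpace_eq_bot_of_degree_neg [HasPrincipalDivisors K F]
    (hdeg : ∀ v : Place K F, v.deg = 1) {D : Divisor K F} (hD : Divisor.degree D < 0) :
    riemannRochSpace D = ⊥ := by
  rw [eq_bot_iff]
  intro f hf
  rw [Submodule.mem_bot]
  by_contra hf0
  obtain ⟨E, hE, hE0⟩ := HasPrincipalDivisors.exists_divisor (K := K) f hf0
  have hnn : 0 ≤ E + D := by
    rw [Finsupp.le_def]
    intro v
    rw [Finsupp.add_apply, hE v]
    rcases mem_riemannRochSpace_iff.mp hf v with h | h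
    · exact absurd h hf0
    · simp only [Finsupp.coe_zero, Pi.zero_apply]; omega
  have := degree_nonneg hdeg hnn
  rw [map_add, hE0] at this
  omega

theorem finite_succ (hdeg : ∀ v : Place K F, v.deg = 1) (D : Divisor K F) (P : Place K F)
    (hfin : Module.Finite K (riemannRochSpace D)) :
    Module.Finite K (riemannRochSpace (D + Finsupp.single P 1)) ∧
      finrank K (riemannRochSpace (D + Finsupp.single P 1)) ≤
        finrank K (riemannRochSpace D) + 1 := by
  by_cases h : riemannRochSpace (D + Finsupp.single P 1) ≤ riemannRochSpace D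
  · have heq : riemannRochSpace (D + Finsupp.single P 1) = riemannRochSpace D :=
      le_antisymm h (riemannRochSpace_mono (le_add_single D P))
    rw [heq]
    exact ⟨hfin, Nat.le_succ _⟩
  · obtain ⟨f₀, hf₀, hf₀'⟩ := SetLike.not_le_iff_exists.mp h
    have hle := riemannRochSpace_succ_le hdeg D P hf₀ hf₀'
    have : Module.Finite K (riemannRochSpace D) := hfin
    have : Module.Finite K ↥(riemannRochSpace D ⊔ Submodule.span K {f₀}) :=
      Submodule.finiteDimensional_sup _ _
    refine ⟨Submodule.finiteDimensional_of_le hle, ?_⟩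
    calc finrank K (riemannRochSpace (D + Finsupp.single P 1))
        ≤ finrank K ↥(riemannRochSpace D ⊔ Submodule.span K {f₀}) := Submodule.finrank_mono hle
      _ ≤ finrank K (riemannRochSpace D) + finrank K (Submodule.span K {f₀}) :=
          Submodule.finrank_add_le_finrank_add_finrank _ _
      _ ≤ finrank K (riemannRochSpace D) + 1 := by
          have := finrank_span_le_card (R := K) ({f₀} : Set F)
          simp only [Set.toFinset_singleton, Finset.card_singleton] at this
          omega

/-- `L(E)` is finite-dimensional if `L(D)` is (`D ≤ E`), and `l(E) ≤ l(D) + deg E - deg D`. -/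
theorem finite_and_le_of_le (hdeg : ∀ v : Place K F, v.deg = 1) {D E : Divisor K F} (hDE : D ≤ E)
    (hfin : Module.Finite K (riemannRochSpace D)) :
    Module.Finite K (riemannRochSpace E) ∧
      (finrank K (riemannRochSpace E) : ℤ) ≤
        finrank K (riemannRochSpace D) + (Divisor.degree E - Divisor.degree D) := by
  refine induction_up hdeg hDE (fun X => Module.Finite K (riemannRochSpace X) ∧
      (finrank K (riemannRochSpace X) : ℤ) ≤
        finrank K (riemannRochSpace D) + (Divisor.degree X - Divisor.degree D)) ⟨hfin, by simp⟩ ?_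
  rintro X P - - ⟨hX, hle⟩
  obtain ⟨h1, h2⟩ := finite_succ hdeg X P hX
  refine ⟨h1, ?_⟩
  rw [map_add, degree_single_one hdeg]
  have : (finrank K (riemannRochSpace (X + Finsupp.single P 1)) : ℤ) ≤
      finrank K (riemannRochSpace X) + 1 := by exact_mod_cast h2
  linarith

theorem sub_single_le (D : Divisor K F) (P : Place K F) {m : ℤ} (hm : 0 ≤ m) :
    D - Finsupp.single P m ≤ D := by
  classical
  rw [Finsupp.le_def]
  intro v
  rw [Finsupp.sub_apply, Finsupp.single_apply]
  split_ifs <;> omega

theorem degree_sub_single (hdeg : ∀ v : Place K F, v.deg = 1) (D : Divisor K F) (P : Place K F)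
    (m : ℤ) : Divisor.degree (D - Finsupp.single P m) = Divisor.degree D - m := by
  rw [map_sub, Divisor.degree_single, hdeg]; simp

/-- All Riemann–Roch spaces are finite-dimensional. -/
theorem finite_riemannRochSpace [HasPrincipalDivisors K F] (hdeg : ∀ v : Place K F, v.deg = 1)
    (P₀ : Place K F) (D : Divisor K F) : Module.Finite K (riemannRochSpace D) := by
  set m : ℤ := max (Divisor.degree D) 0 + 1 with hm
  have hm0 : 0 ≤ m := by omega
  have hneg : Divisor.degree (D - Finsupp.single P₀ m) < 0 := by
    rw [degree_sub_single hdeg]; omega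
  have hbot := riemannRochSpace_eq_bot_of_degree_neg hdeg hneg
  have hfin : Module.Finite K (riemannRochSpace (D - Finsupp.single P₀ m)) := by
    rw [hbot]; infer_instance
  exact (finite_and_le_of_le hdeg (sub_single_le D P₀ hm0) hfin).1

/-- `l(E) ≤ l(D) + deg E - deg D` for `D ≤ E`. -/
theorem finrank_le_of_le [HasPrincipalDivisors K F] (hdeg : ∀ v : Place K F, v.deg = 1)
    (P₀ : Place K F) {D E : Divisor K F} (hDE : D ≤ E) :
    (finrank K (riemannRochSpace E) : ℤ) ≤
        finrank K (riemannRochSpace D) + (Divisor.degree E - Divisor.degree D) :=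
  (finite_and_le_of_le hdeg hDE (finite_riemannRochSpace hdeg P₀ D)).2

theorem finrank_mono [HasPrincipalDivisors K F] (hdeg : ∀ v : Place K F, v.deg = 1)
    (P₀ : Place K F) {D E : Divisor K F} (hDE : D ≤ E) :
    finrank K (riemannRochSpace D) ≤ finrank K (riemannRochSpace E) := by
  have := finite_riemannRochSpace hdeg P₀ E
  exact Submodule.finrank_mono (riemannRochSpace_mono hDE)

/-- `l(D) ≤ deg D + 1` when `deg D ≥ 0`. -/
theorem finrank_le_degree_add_one [HasPrincipalDivisors K F] (hdeg : ∀ v : Place K F, v.deg = 1)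
    (P₀ : Place K F) {D : Divisor K F} (hD : 0 ≤ Divisor.degree D) :
    (finrank K (riemannRochSpace D) : ℤ) ≤ Divisor.degree D + 1 := by
  have hm0 : 0 ≤ Divisor.degree D + 1 := by omega
  have hneg : Divisor.degree (D - Finsupp.single P₀ (Divisor.degree D + 1)) < 0 := by
    rw [degree_sub_single hdeg]; omega
  have hbot := riemannRochSpace_eq_bot_of_degree_neg hdeg hneg
  have h := finrank_le_of_le hdeg P₀ (sub_single_le D P₀ hm0)
  rw [hbot, finrank_bot, degree_sub_single hdeg] at h
  push_cast at h
  linarith

theorem one_mem_riemannRochSpace_zero : (1 : F) ∈ riemannRochSpace (0 : Divisor K F) := by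
  intro v
  simp

/-- `l(0) = 1`. -/
theorem finrank_zero [HasPrincipalDivisors K F] (hdeg : ∀ v : Place K F, v.deg = 1)
    (P₀ : Place K F) : finrank K (riemannRochSpace (0 : Divisor K F)) = 1 := by
  have h1 := finrank_le_degree_add_one hdeg P₀ (D := (0 : Divisor K F)) (by simp)
  simp only [map_zero, zero_add] at h1
  have := finite_riemannRochSpace hdeg P₀ (0 : Divisor K F)
  have h2 : 0 < finrank K (riemannRochSpace (0 : Divisor K F)) := by
    rw [Module.finrank_pos_iff_exists_ne_zero]
    exact ⟨⟨1, one_mem_riemannRochSpace_zero⟩, fun h => one_ne_zero (congrArg Subtype.val h)⟩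
  have h3 : finrank K (riemannRochSpace (0 : Divisor K F)) ≤ 1 := by exact_mod_cast h1
  omega


/-! ## Part C2: linear equivalence -/

/-- Multiplication by a nonzero element as a `K`-linear automorphism of `F`. -/
noncomputable def mulRightEquiv (f : F) (hf : f ≠ 0) : F ≃ₗ[K] F where
  toFun g := g * f
  invFun g := g * f⁻¹
  map_add' a b := add_mul a b f
  map_smul' c a := by simp [Algebra.smul_def, mul_assoc]
  left_inv a := by simp [hf]
  right_inv a := by simp [hf]

theorem map_mulRightEquiv_riemannRochSpace {f : F} (hf : f ≠ 0) {Z : Divisor K F}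
    (hZ : ∀ v : Place K F, Z v = v.ord f) (D : Divisor K F) :
    (riemannRochSpace (D + Z)).map (mulRightEquiv (K := K) f hf).toLinearMap =
      riemannRochSpace D := by
  ext g
  rw [Submodule.mem_map_equiv]
  show (∀ v : Place K F, v.adicValuation (g * f⁻¹) ≤ exp ((D + Z) v)) ↔
    ∀ v : Place K F, v.adicValuation g ≤ exp (D v)
  refine forall_congr' fun v => ?_
  rw [map_mul, map_inv₀, v.adicValuation_eq_exp_neg_ord hf, Finsupp.add_apply, hZ v, exp_add,
    exp_neg, inv_inv]
  exact mul_le_mul_iff_left₀ (by simp [zero_lt_iff])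

/-- `l(D + div f) = l(D)`. -/
theorem finrank_add_principal {f : F} (hf : f ≠ 0) {Z : Divisor K F}
    (hZ : ∀ v : Place K F, Z v = v.ord f) (D : Divisor K F) :
    finrank K (riemannRochSpace (D + Z)) = finrank K (riemannRochSpace D) := by
  rw [← map_mulRightEquiv_riemannRochSpace hf hZ D]
  exact (LinearEquiv.finrank_map_eq (mulRightEquiv (K := K) f hf) _).symm

/-! ## Part C3: Riemann's inequality -/

variable (K F) in
/-- Riemann's inequality in the weak form: `deg D - l(D)` is bounded above. -/
def HasRiemannBound : Prop :=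
  ∃ γ : ℤ, ∀ D : Divisor K F, Divisor.degree D - (finrank K (riemannRochSpace D) : ℤ) ≤ γ

variable (K F) in
/-- The Riemann genus: the least `g : ℕ` such that `deg D + 1 - g ≤ l(D)` for all divisors. -/
noncomputable def riemannGenus : ℕ :=
  sInf {g : ℕ | ∀ D : Divisor K F,
    Divisor.degree D + 1 - (g : ℤ) ≤ (finrank K (riemannRochSpace D) : ℤ)}

theorem exists_place_of_input (B C : Divisor K F) (n : ℕ) (hn : 0 < n)
    (hX : ∀ k : ℕ, n * (k + 1) ≤ finrank K (riemannRochSpace (k • B + C))) :
    Nonempty (Place K F) := by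
  by_contra hne
  rw [not_nonempty_iff] at hne
  have hsub : ∀ D : Divisor K F, D = C := fun D => Subsingleton.elim _ _
  have := hX (finrank K (riemannRochSpace C))
  rw [hsub (_ • B + C)] at this
  nlinarith

/-- Riemann's inequality from the input (X): `n (k+1) ≤ l(kB + C)` with `deg B ≤ n`. -/
theorem riemann_bound [HasPrincipalDivisors K F] (hdeg : ∀ v : Place K F, v.deg = 1)
    (B C : Divisor K F) (hC : 0 ≤ C) (n : ℕ) (hn : 0 < n) (hB : Divisor.degree B ≤ n)
    (hX : ∀ k : ℕ, n * (k + 1) ≤ finrank K (riemannRochSpace (k • B + C))) (D : Divisor K F) :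
    Divisor.degree D - (finrank K (riemannRochSpace D) : ℤ) ≤ Divisor.degree C - n := by
  obtain ⟨P₀⟩ := exists_place_of_input B C n hn hX
  set A1 : Divisor K F := D ⊔ 0 with hA1
  have hDA1 : D ≤ A1 := le_sup_left
  have hA1nn : 0 ≤ A1 := le_sup_right
  have h1 := finrank_le_of_le hdeg P₀ hDA1
  have hd1 := degree_nonneg hdeg hA1nn
  have hdC := degree_nonneg hdeg hC
  obtain ⟨k, hk⟩ : ∃ k : ℕ, Divisor.degree C + Divisor.degree A1 < (k : ℤ) + 1 :=
    ⟨(Divisor.degree C + Divisor.degree A1).toNat, by omega⟩
  have h2 := finrank_le_of_le hdeg P₀ (D := k • B) (E := k • B + C) (le_add_of_nonneg_right hC)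
  have h3 := finrank_le_of_le hdeg P₀ (D := k • B - A1) (E := k • B) (sub_le_self _ hA1nn)
  have hXk : ((n * (k + 1) : ℕ) : ℤ) ≤ finrank K (riemannRochSpace (k • B + C)) := by
    exact_mod_cast hX k
  rw [map_add, add_sub_cancel_left] at h2
  rw [map_sub, sub_sub_cancel] at h3
  have hnk : (k : ℤ) + 1 ≤ ((n * (k + 1) : ℕ) : ℤ) := by
    have : k + 1 ≤ n * (k + 1) := Nat.le_mul_of_pos_left _ hn
    exact_mod_cast this
  have hpos : 0 < finrank K (riemannRochSpace (k • B - A1)) := by
    have : (0 : ℤ) < finrank K (riemannRochSpace (k • B - A1)) := by linarith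
    exact_mod_cast this
  have hfin := finite_riemannRochSpace hdeg P₀ (k • B - A1)
  obtain ⟨⟨z, hz⟩, hz0⟩ := Module.finrank_pos_iff_exists_ne_zero.mp hpos
  have hz0' : z ≠ 0 := fun h => hz0 (Subtype.ext h)
  obtain ⟨Z, hZ, hZ0⟩ := HasPrincipalDivisors.exists_divisor (K := K) z hz0'
  have hD'le : A1 + -Z ≤ k • B := by
    rw [Finsupp.le_def]
    intro v
    rw [Finsupp.add_apply, Finsupp.neg_apply, hZ v]
    rcases mem_riemannRochSpace_iff.mp hz v with h | h
    · exact absurd h hz0'
    · rw [Finsupp.sub_apply] at h; omega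
  have hZinv : ∀ v : Place K F, (-Z) v = v.ord z⁻¹ := fun v => by
    rw [Finsupp.neg_apply, hZ v, v.ord_inv]
  have hl := finrank_add_principal (K := K) (inv_ne_zero hz0') hZinv A1
  have h4 := finrank_le_of_le hdeg P₀ hD'le
  rw [hl, map_add, map_neg, hZ0, neg_zero, add_zero, map_nsmul, nsmul_eq_mul] at h4
  have hkB : (k : ℤ) * Divisor.degree B ≤ k * n :=
    mul_le_mul_of_nonneg_left hB (Nat.cast_nonneg k)
  push_cast at hXk
  nlinarith

theorem riemannGenus_mem (h : HasRiemannBound K F) (D : Divisor K F) :
    Divisor.degree D + 1 - (riemannGenus K F : ℤ) ≤ (finrank K (riemannRochSpace D) : ℤ) := by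
  obtain ⟨γ, hγ⟩ := h
  have hne : {g : ℕ | ∀ D : Divisor K F,
      Divisor.degree D + 1 - (g : ℤ) ≤ (finrank K (riemannRochSpace D) : ℤ)}.Nonempty := by
    refine ⟨(γ + 1).toNat, fun D => ?_⟩
    have := hγ D
    have h2 : γ + 1 ≤ ((γ + 1).toNat : ℤ) := Int.self_le_toNat _
    linarith
  exact Nat.sInf_mem hne D

/-- The Riemann genus is attained. -/
theorem exists_eq_riemannGenus [HasPrincipalDivisors K F] (hdeg : ∀ v : Place K F, v.deg = 1)
    (P₀ : Place K F) (h : HasRiemannBound K F) :
    ∃ D₀ : Divisor K F, (finrank K (riemannRochSpace D₀) : ℤ) =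
      Divisor.degree D₀ + 1 - (riemannGenus K F : ℤ) := by
  rcases Nat.eq_zero_or_pos (riemannGenus K F) with h0 | hpos
  · refine ⟨0, ?_⟩
    rw [finrank_zero hdeg P₀, h0]
    simp
  · have hnot : riemannGenus K F - 1 ∉ {g : ℕ | ∀ D : Divisor K F,
        Divisor.degree D + 1 - (g : ℤ) ≤ (finrank K (riemannRochSpace D) : ℤ)} :=
      Nat.notMem_of_lt_sInf (by unfold riemannGenus at hpos ⊢; omega)
    simp only [Set.mem_ofPred_eq, not_forall, not_le] at hnot
    obtain ⟨D₀, hD₀⟩ := hnot
    refine ⟨D₀, le_antisymm ?_ (riemannGenus_mem h D₀)⟩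
    have : ((riemannGenus K F - 1 : ℕ) : ℤ) = (riemannGenus K F : ℤ) - 1 := by
      rw [Nat.cast_sub hpos]; simp
    rw [this] at hD₀
    linarith

/-- Riemann's theorem: `l(D) = deg D + 1 - g` for all divisors of large degree. -/
theorem exists_forall_finrank_eq [HasPrincipalDivisors K F] (hdeg : ∀ v : Place K F, v.deg = 1)
    (P₀ : Place K F) (h : HasRiemannBound K F) :
    ∃ c : ℤ, ∀ D : Divisor K F, c ≤ Divisor.degree D →
      (finrank K (riemannRochSpace D) : ℤ) = Divisor.degree D + 1 - (riemannGenus K F : ℤ) := by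
  obtain ⟨D₀, hD₀⟩ := exists_eq_riemannGenus hdeg P₀ h
  refine ⟨Divisor.degree D₀ + riemannGenus K F, fun D hD => ?_⟩
  have hineq := riemannGenus_mem h (D - D₀)
  rw [map_sub] at hineq
  have hpos : 0 < finrank K (riemannRochSpace (D - D₀)) := by
    have : (0 : ℤ) < finrank K (riemannRochSpace (D - D₀)) := by linarith
    exact_mod_cast this
  have hfin := finite_riemannRochSpace hdeg P₀ (D - D₀)
  obtain ⟨⟨z, hz⟩, hz0⟩ := Module.finrank_pos_iff_exists_ne_zero.mp hpos
  have hz0' : z ≠ 0 := fun h => hz0 (Subtype.ext h)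
  obtain ⟨Z, hZ, hZ0⟩ := HasPrincipalDivisors.exists_divisor (K := K) z hz0'
  have hle : D₀ ≤ D + Z := by
    rw [Finsupp.le_def]
    intro v
    rw [Finsupp.add_apply, hZ v]
    rcases mem_riemannRochSpace_iff.mp hz v with h | h
    · exact absurd h hz0'
    · rw [Finsupp.sub_apply] at h; omega
  have hl := finrank_add_principal (K := K) hz0' hZ D
  have h4 := finrank_le_of_le hdeg P₀ hle
  rw [hl, map_add, hZ0, add_zero] at h4
  have h5 := riemannGenus_mem h D
  linarith

/-- Identification of the Riemann genus from divisors of arbitrarily large degree. -/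
theorem riemannGenus_eq_of [HasPrincipalDivisors K F] (hdeg : ∀ v : Place K F, v.deg = 1)
    (P₀ : Place K F) (h : HasRiemannBound K F) {g' : ℤ}
    (hg' : ∀ c : ℤ, ∃ D : Divisor K F, c ≤ Divisor.degree D ∧
      (finrank K (riemannRochSpace D) : ℤ) = Divisor.degree D + 1 - g') :
    (riemannGenus K F : ℤ) = g' := by
  obtain ⟨c, hc⟩ := exists_forall_finrank_eq hdeg P₀ h
  obtain ⟨D, hD, hD'⟩ := hg' c
  have := hc D hD
  linarith


/-! ## Part D: the input (X) from one transcendental element -/

section Transcendental

open IntermediateField Polynomial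

theorem val_le_exp_of_neg_ord_le (v : Place K F) {f : F} {n : ℤ} (h : -(v.ord f) ≤ n) :
    v.adicValuation f ≤ exp n := by
  rcases eq_or_ne f 0 with rfl | hf
  · simp
  · rw [v.adicValuation_eq_exp_neg_ord hf, exp_le_exp]; exact h

/-- The input (X) of Riemann's inequality for the pole divisor `B` of a transcendental `x`. -/
theorem exists_input_of_transcendental [HasPrincipalDivisors K F] (x : F)
    (hx : Transcendental K x) [FiniteDimensional K⟮x⟯ F] (P₀ : Place K F)
    (hdeg : ∀ v : Place K F, v.deg = 1)
    (B : Divisor K F) (hB : ∀ v : Place K F, B v = max 0 (-(v.ord x))) :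
    ∃ C : Divisor K F, 0 ≤ C ∧ ∀ k : ℕ,
      finrank K⟮x⟯ F * (k + 1) ≤ finrank K (riemannRochSpace (k • B + C)) := by
  classical
  set n := finrank K⟮x⟯ F with hn
  let b := Module.finBasis K⟮x⟯ F
  have hb0 : ∀ j, b j ≠ 0 := fun j => b.ne_zero j
  choose Z hZ hZ0 using fun j => HasPrincipalDivisors.exists_divisor (K := K) (b j) (hb0 j)
  refine ⟨∑ j, ((-Z j) ⊔ 0), Finset.sum_nonneg fun j _ => le_sup_right, fun k => ?_⟩
  set C : Divisor K F := ∑ j, ((-Z j) ⊔ 0) with hC
  have hCv : ∀ j (v : Place K F), -(v.ord (b j)) ≤ C v := by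
    intro j v
    have h1 : (-Z j) ⊔ 0 ≤ C :=
      Finset.single_le_sum (f := fun j => (-Z j) ⊔ 0) (fun j _ => le_sup_right)
        (Finset.mem_univ j)
    have h2 := Finsupp.le_def.mp h1 v
    rw [Finsupp.sup_apply, Finsupp.neg_apply, hZ j v] at h2
    exact le_sup_left.trans h2
  have hx0 : x ≠ 0 := fun h => hx (h ▸ isAlgebraic_zero)
  -- membership
  have hmem : ∀ (i : Fin (k + 1)) (j : Fin n), x ^ (i : ℕ) * b j ∈ riemannRochSpace (k • B + C) := by
    intro i j v
    have hBv : (0 : ℤ) ≤ B v := by rw [hB v]; exact le_max_left _ _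
    have hxv : v.adicValuation x ≤ exp (B v) :=
      val_le_exp_of_neg_ord_le v (by rw [hB v]; exact le_max_right _ _)
    have h1 : (1 : ℤᵐ⁰) ≤ exp (B v) := by rw [← exp_zero, exp_le_exp]; exact hBv
    have hpow : v.adicValuation x ^ (i : ℕ) ≤ exp (B v) ^ k :=
      (pow_le_pow_left₀ zero_le hxv _).trans (pow_le_pow_right₀ h1 (Nat.lt_succ_iff.mp i.2))
    have hbv : v.adicValuation (b j) ≤ exp (C v) := val_le_exp_of_neg_ord_le v (hCv j v)
    rw [map_mul, map_pow, Finsupp.add_apply, Finsupp.smul_apply, exp_add, exp_nsmul]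
    exact mul_le_mul' hpow hbv
  -- independence
  let gx : K⟮x⟯ := AdjoinSimple.gen K x
  have hgx : Function.Injective (Polynomial.aeval (R := K) gx) := by
    rw [injective_iff_map_eq_zero]
    intro p hp
    have : Polynomial.aeval x p = 0 := by
      have := congrArg (algebraMap K⟮x⟯ F) hp
      rwa [← Polynomial.aeval_algebraMap_apply, AdjoinSimple.algebraMap_gen, map_zero] at this
    by_contra hp0
    exact hx ⟨p, hp0, this⟩
  have hpowLI : LinearIndependent K (fun i : Fin (k + 1) => gx ^ (i : ℕ)) := by
    have h1 : LinearIndependent K (fun i : ℕ => (Polynomial.aeval (R := K) gx).toLinearMap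
        (Polynomial.basisMonomials K i)) :=
      (Polynomial.basisMonomials K).linearIndependent.map' _ (LinearMap.ker_eq_bot.mpr hgx)
    have h2 := h1.comp (fun i : Fin (k + 1) => (i : ℕ)) Fin.val_injective
    convert h2 using 1
    ext i
    simp [Polynomial.coe_basisMonomials]
  have hLI0 := linearIndependent_smul (R := K) hpowLI b.linearIndependent
  have hfun : (fun p : Fin (k + 1) × Fin n => x ^ (p.1 : ℕ) * b p.2) =
      fun p : Fin (k + 1) × Fin n => gx ^ (p.1 : ℕ) • b p.2 := by
    funext p
    rw [Algebra.smul_def, map_pow, AdjoinSimple.algebraMap_gen]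
  have hLI : LinearIndependent K (fun p : Fin (k + 1) × Fin n => x ^ (p.1 : ℕ) * b p.2) := by
    rw [hfun]; exact hLI0
  have hspan : Submodule.span K (Set.range fun p : Fin (k + 1) × Fin n => x ^ (p.1 : ℕ) * b p.2) ≤
      riemannRochSpace (k • B + C) := by
    rw [Submodule.span_le]
    rintro _ ⟨p, rfl⟩
    exact hmem p.1 p.2
  have hfin := finite_riemannRochSpace hdeg P₀ (k • B + C)
  have hcard := finrank_span_eq_card hLI
  rw [Fintype.card_prod, Fintype.card_fin, Fintype.card_fin] at hcard
  have := Submodule.finrank_mono hspan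
  rw [hcard] at this
  rw [mul_comm]
  exact this

/-- Riemann's inequality for a function field with a transcendental `x`, `[F : K(x)] < ∞`,
whose pole divisor has degree at most `[F : K(x)]`. -/
theorem hasRiemannBound_of_transcendental [HasPrincipalDivisors K F] (x : F)
    (hx : Transcendental K x) [FiniteDimensional K⟮x⟯ F] (P₀ : Place K F)
    (hdeg : ∀ v : Place K F, v.deg = 1)
    (B : Divisor K F) (hB : ∀ v : Place K F, B v = max 0 (-(v.ord x)))
    (hBdeg : Divisor.degree B ≤ finrank K⟮x⟯ F) : HasRiemannBound K F := by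
  obtain ⟨C, hC, hX⟩ := exists_input_of_transcendental x hx P₀ hdeg B hB
  exact ⟨Divisor.degree C - finrank K⟮x⟯ F, fun D =>
    riemann_bound hdeg B C hC _ Module.finrank_pos hBdeg hX D⟩

end Transcendental


/-! ## Part E: repartitions and `H1` -/

theorem finite_poles_of_ne_zero [HasPrincipalDivisors K F] {f : F} :
    {v : Place K F | ¬ v.adicValuation f ≤ 1}.Finite := by
  rcases eq_or_ne f 0 with rfl | hf
  · simp
  obtain ⟨Z, hZ, -⟩ := HasPrincipalDivisors.exists_divisor (K := K) f hf
  refine Z.support.finite_toSet.subset fun v hv => ?_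
  rw [Set.mem_ofPred_eq, v.not_adicValuation_le_one_iff] at hv
  rw [Finset.mem_coe, Finsupp.mem_support_iff, hZ v]
  omega

/-- Elements of `repartitions K F` have finitely many poles. -/
theorem finite_poles_of_mem_repartitions [HasPrincipalDivisors K F] {α : Place K F → F}
    (hα : α ∈ repartitions K F) : {v : Place K F | ¬ v.adicValuation (α v) ≤ 1}.Finite := by
  unfold repartitions at hα
  induction hα using Algebra.adjoin_induction with
  | mem x hx => exact hx
  | algebraMap r => exact finite_poles_of_ne_zero (f := r)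
  | add x y _ _ hx hy =>
    refine (hx.union hy).subset fun v hv => ?_
    by_contra hcon
    simp only [Set.mem_union, Set.mem_ofPred_eq, not_or, not_not] at hcon
    exact hv ((Valuation.map_add _ _ _).trans (max_le hcon.1 hcon.2))
  | mul x y _ _ hx hy =>
    refine (hx.union hy).subset fun v hv => ?_
    by_contra hcon
    simp only [Set.mem_union, Set.mem_ofPred_eq, not_or, not_not] at hcon
    apply hv
    rw [Pi.mul_apply, map_mul]
    exact mul_le_one' hcon.1 hcon.2

theorem mem_repartitions_iff [HasPrincipalDivisors K F] {α : Place K F → F} :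
    α ∈ repartitions K F ↔ {v : Place K F | ¬ v.adicValuation (α v) ≤ 1}.Finite :=
  ⟨finite_poles_of_mem_repartitions, mem_repartitions_of_finite⟩

/-- Every repartition lies in `repartitionsOf A₁` for some `A₁ ≥ A₀`. -/
theorem exists_ge_mem_repartitionsOf [HasPrincipalDivisors K F] (α : ↥(repartitions K F))
    (A₀ : Divisor K F) : ∃ A₁ : Divisor K F, A₀ ≤ A₁ ∧ α ∈ repartitionsOf A₁ := by
  classical
  have hfin := finite_poles_of_mem_repartitions α.2
  set S : Finset (Place K F) := hfin.toFinset ∪ A₀.support with hS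
  let A₁ : Divisor K F := Finsupp.onFinset S
    (fun v => if v ∈ S then max (A₀ v) (-(v.ord ((α : Place K F → F) v))) else 0)
    (fun v hv => by by_contra h; exact hv (if_neg h))
  have hA₁ : ∀ v, A₁ v = if v ∈ S then max (A₀ v) (-(v.ord ((α : Place K F → F) v))) else 0 :=
    fun v => rfl
  refine ⟨A₁, ?_, ?_⟩
  · rw [Finsupp.le_def]
    intro v
    rw [hA₁ v]
    split_ifs with hv
    · exact le_max_left _ _
    · have : v ∉ A₀.support := fun h => hv (Finset.mem_union_right _ h)
      rw [Finsupp.notMem_support_iff] at this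
      rw [this]
  · intro v
    rw [hA₁ v]
    split_ifs with hv
    · exact val_le_exp_of_neg_ord_le v (le_max_right _ _)
    · have : v ∉ hfin.toFinset := fun h => hv (Finset.mem_union_left _ h)
      rw [Set.Finite.mem_toFinset, Set.mem_ofPred_eq, not_not] at this
      simpa using this

theorem exists_uniformizer (P : Place K F) : ∃ t : F, P.adicValuation t = exp (-1 : ℤ) := by
  obtain ⟨π, hπ⟩ := IsDiscreteValuationRing.exists_irreducible P.toValuationSubring
  exact ⟨π, P.adicValuation_coe_irreducible hπ⟩

theorem exists_val_eq_exp (P : Place K F) (n : ℤ) : ∃ f : F, P.adicValuation f = exp n := by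
  obtain ⟨t, ht⟩ := exists_uniformizer P
  refine ⟨t ^ (-n), ?_⟩
  rw [map_zpow₀, ht, ← exp_zsmul]
  simp

open Classical in
/-- The repartition with value `f` at `P` and `0` elsewhere. -/
noncomputable def singleRep (P : Place K F) (f : F) : ↥(repartitions K F) :=
  ⟨Pi.single P f, mem_repartitions_of_finite <| (Set.finite_singleton P).subset fun v hv => by
    by_contra hne
    rw [Set.mem_singleton_iff] at hne
    apply hv
    rw [Pi.single_eq_of_ne hne]
    simp⟩

theorem singleRep_apply_self (P : Place K F) (f : F) :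
    (singleRep P f : Place K F → F) P = f := by
  classical
  simp [singleRep]

theorem singleRep_apply_of_ne {P v : Place K F} (h : v ≠ P) (f : F) :
    (singleRep P f : Place K F → F) v = 0 := by
  classical
  simp [singleRep, Pi.single_eq_of_ne h]

/-- The constant repartition. -/
noncomputable def constRep (f : F) : ↥(repartitions K F) := algebraMap F _ f

theorem constRep_apply (f : F) (v : Place K F) :
    ((constRep f : ↥(repartitions K F)) : Place K F → F) v = f := rfl

theorem constRep_mem_principal (f : F) :
    (constRep f : ↥(repartitions K F)) ∈ principalRepartitions K F :=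
  mem_principalRepartitions_iff.mpr ⟨f, rfl⟩

theorem mem_repartitionsOf {D : Divisor K F} {α : ↥(repartitions K F)} :
    α ∈ repartitionsOf D ↔
      ∀ v : Place K F, v.adicValuation ((α : Place K F → F) v) ≤ exp (D v) := Iff.rfl

theorem coe_smul_apply (c : K) (α : ↥(repartitions K F)) (v : Place K F) :
    ((c • α : ↥(repartitions K F)) : Place K F → F) v = c • (α : Place K F → F) v := rfl

theorem coe_sub_apply (α β : ↥(repartitions K F)) (v : Place K F) :
    ((α - β : ↥(repartitions K F)) : Place K F → F) v =
      (α : Place K F → F) v - (β : Place K F → F) v := rfl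

/-- One-step lemma for repartitions. -/
theorem repartitionsOf_succ_le (hdeg : ∀ v : Place K F, v.deg = 1) (D : Divisor K F)
    (P : Place K F) {f₀ : F} (hf₀ : P.adicValuation f₀ = exp (D P + 1)) :
    repartitionsOf (D + Finsupp.single P 1) ≤
      repartitionsOf D ⊔ Submodule.span K {singleRep P f₀} := by
  classical
  intro α hα
  have hf₀0 : f₀ ≠ 0 := by
    rintro rfl
    simp at hf₀
  have hαP : P.adicValuation ((α : Place K F → F) P) ≤ exp (D P + 1) := by
    have := hα P
    rwa [Finsupp.add_apply, Finsupp.single_apply, if_pos rfl] at this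
  have hg : P.adicValuation ((α : Place K F → F) P / f₀) ≤ 1 := by
    rw [map_div₀, hf₀]
    exact div_le_one_of_le₀ hαP zero_le
  obtain ⟨c, hc⟩ := exists_const_val_sub_lt_one P (hdeg P) hg
  have hmem : α - c • singleRep P f₀ ∈ repartitionsOf D := by
    intro w
    show w.adicValuation (((α - c • singleRep P f₀ : ↥(repartitions K F)) : Place K F → F) w) ≤ _
    rw [coe_sub_apply, coe_smul_apply]
    by_cases hw : w = P
    · subst hw
      rw [singleRep_apply_self]
      have hfac : (α : Place K F → F) w - c • f₀ =
          ((α : Place K F → F) w / f₀ - algebraMap K F c) * f₀ := by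
        rw [Algebra.smul_def]; field_simp
      refine (val_lt_exp_succ_iff w).mp ?_
      rw [hfac, map_mul, hf₀]
      calc w.adicValuation ((α : Place K F → F) w / f₀ - algebraMap K F c) * exp (D w + 1)
          < 1 * exp (D w + 1) := by
            exact mul_lt_mul_of_pos_right hc (by simp [zero_lt_iff])
        _ = exp (D w + 1) := one_mul _
    · rw [singleRep_apply_of_ne hw, smul_zero, sub_zero]
      have := hα w
      rwa [Finsupp.add_apply, Finsupp.single_apply, if_neg (Ne.symm hw), add_zero] at this
  have : α = (α - c • singleRep P f₀) + c • singleRep P f₀ := by abel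
  rw [this]
  exact Submodule.add_mem_sup hmem
    (Submodule.smul_mem _ _ (Submodule.mem_span_singleton_self _))

theorem singleRep_mem_repartitionsOf_succ (D : Divisor K F) (P : Place K F) {f₀ : F}
    (hf₀ : P.adicValuation f₀ = exp (D P + 1)) :
    singleRep P f₀ ∈ repartitionsOf (D + Finsupp.single P 1) := by
  classical
  intro w
  by_cases hw : w = P
  · subst hw
    rw [singleRep_apply_self, Finsupp.add_apply, Finsupp.single_apply, if_pos rfl, hf₀]
  · rw [singleRep_apply_of_ne hw]; simp

/-- Exact valuation at `P` of an element of `L(D + P) \ L(D)`. -/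
theorem val_eq_of_mem_succ_of_not_mem (D : Divisor K F) (P : Place K F) {f : F}
    (hf : f ∈ riemannRochSpace (D + Finsupp.single P 1)) (hf' : f ∉ riemannRochSpace D) :
    P.adicValuation f = exp (D P + 1) := by
  classical
  have hP : P.adicValuation f ≤ exp (D P + 1) := by
    have := hf P
    rwa [Finsupp.add_apply, Finsupp.single_apply, if_pos rfl] at this
  refine le_antisymm hP ?_
  by_contra hlt
  rw [not_le, val_lt_exp_succ_iff] at hlt
  apply hf'
  intro w
  by_cases hw : w = P
  · subst hw; exact hlt
  · have := hf w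
    rwa [Finsupp.add_apply, Finsupp.single_apply, if_neg (Ne.symm hw), add_zero] at this

/-- The local repartition at `P` is in `A(D) + F` iff `L(D + P) ≠ L(D)`. -/
theorem singleRep_mem_sup_iff (hdeg : ∀ v : Place K F, v.deg = 1) (D : Divisor K F)
    (P : Place K F) {f₀ : F} (hf₀ : P.adicValuation f₀ = exp (D P + 1)) :
    singleRep P f₀ ∈ repartitionsOf D ⊔ principalRepartitions K F ↔
      ¬ riemannRochSpace (D + Finsupp.single P 1) ≤ riemannRochSpace D := by
  classical
  have hf₀0 : f₀ ≠ 0 := by
    rintro rfl
    simp at hf₀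
  constructor
  · intro h
    obtain ⟨γ, hγ, δ, hδ, hsum⟩ := Submodule.mem_sup.mp h
    obtain ⟨f, hf⟩ := mem_principalRepartitions_iff.mp hδ
    have hval : ∀ v : Place K F, (singleRep P f₀ : Place K F → F) v =
        (γ : Place K F → F) v + f := by
      intro v
      rw [← hsum]
      show (γ : Place K F → F) v + (δ : Place K F → F) v = _
      rw [hf]
    have hfP : P.adicValuation (f₀ - f) ≤ exp (D P) := by
      have h1 := hval P
      rw [singleRep_apply_self] at h1
      have : f₀ - f = (γ : Place K F → F) P := by rw [h1]; ring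
      rw [this]; exact hγ P
    have hfP' : P.adicValuation f = exp (D P + 1) := by
      have hlt : P.adicValuation (f₀ - f) < P.adicValuation f₀ := by
        rw [hf₀]; exact (val_lt_exp_succ_iff P).mpr hfP
      have := Valuation.map_sub_eq_of_lt_left P.adicValuation hlt
      rw [sub_sub_cancel] at this
      rw [this, hf₀]
    have hfmem : f ∈ riemannRochSpace (D + Finsupp.single P 1) := by
      intro w
      by_cases hw : w = P
      · subst hw
        rw [Finsupp.add_apply, Finsupp.single_apply, if_pos rfl, hfP']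
      · rw [Finsupp.add_apply, Finsupp.single_apply, if_neg (Ne.symm hw), add_zero]
        have h1 := hval w
        rw [singleRep_apply_of_ne hw] at h1
        have : f = -(γ : Place K F → F) w := by linear_combination -h1
        rw [this, Valuation.map_neg]; exact hγ w
    intro hle
    have := hle hfmem P
    rw [hfP', exp_le_exp] at this
    omega
  · intro h
    obtain ⟨f, hf, hf'⟩ := SetLike.not_le_iff_exists.mp h
    have hfP := val_eq_of_mem_succ_of_not_mem D P hf hf'
    have hf0 : f ≠ 0 := by
      rintro rfl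
      simp at hfP
    have hg : P.adicValuation (f₀ / f) ≤ 1 := by
      rw [map_div₀, hf₀, hfP, div_self (by simp)]
    obtain ⟨c, hc⟩ := exists_const_val_sub_lt_one P (hdeg P) hg
    have hmem : singleRep P f₀ - constRep (c • f) ∈ repartitionsOf D := by
      intro w
      show w.adicValuation (((singleRep P f₀ - constRep (c • f) : ↥(repartitions K F)) :
        Place K F → F) w) ≤ _
      rw [coe_sub_apply, constRep_apply]
      by_cases hw : w = P
      · subst hw
        rw [singleRep_apply_self]
        have hfac : f₀ - c • f = (f₀ / f - algebraMap K F c) * f := by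
          rw [Algebra.smul_def]; field_simp
        refine (val_lt_exp_succ_iff w).mp ?_
        rw [hfac, map_mul, hfP]
        calc w.adicValuation (f₀ / f - algebraMap K F c) * exp (D w + 1)
            < 1 * exp (D w + 1) := by
              exact mul_lt_mul_of_pos_right hc (by simp [zero_lt_iff])
          _ = exp (D w + 1) := one_mul _
      · rw [singleRep_apply_of_ne hw, zero_sub, Valuation.map_neg]
        have := hf w
        rw [Finsupp.add_apply, Finsupp.single_apply, if_neg (Ne.symm hw), add_zero] at this
        exact (val_algebraMap_smul_le w c f).trans this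
    have : singleRep P f₀ = (singleRep P f₀ - constRep (c • f)) + constRep (c • f) := by abel
    rw [this]
    exact Submodule.add_mem_sup hmem (constRep_mem_principal _)


/-! ## Part F: `H1` is finite-dimensional; the Riemann–Roch formula with `h¹` -/

theorem sup_principal_mono {D E : Divisor K F} (h : D ≤ E) :
    repartitionsOf D ⊔ principalRepartitions K F ≤
      repartitionsOf E ⊔ principalRepartitions K F :=
  sup_le_sup_right (repartitionsOf_mono h) _

theorem sup_principal_succ_le (hdeg : ∀ v : Place K F, v.deg = 1) (D : Divisor K F)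
    (P : Place K F) {f₀ : F} (hf₀ : P.adicValuation f₀ = exp (D P + 1)) :
    repartitionsOf (D + Finsupp.single P 1) ⊔ principalRepartitions K F ≤
      (repartitionsOf D ⊔ principalRepartitions K F) ⊔ Submodule.span K {singleRep P f₀} := by
  refine sup_le ((repartitionsOf_succ_le hdeg D P hf₀).trans ?_) (le_sup_of_le_left le_sup_right)
  exact sup_le_sup_right le_sup_left _

/-- If `L(D + P) ≠ L(D)` then `A(D + P) + F = A(D) + F`. -/
theorem sup_principal_succ_eq (hdeg : ∀ v : Place K F, v.deg = 1) (D : Divisor K F)
    (P : Place K F)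
    (h : ¬ riemannRochSpace (D + Finsupp.single P 1) ≤ riemannRochSpace D) :
    repartitionsOf (D + Finsupp.single P 1) ⊔ principalRepartitions K F =
      repartitionsOf D ⊔ principalRepartitions K F := by
  obtain ⟨f₀, hf₀⟩ := exists_val_eq_exp P (D P + 1)
  refine le_antisymm ((sup_principal_succ_le hdeg D P hf₀).trans ?_)
    (sup_principal_mono (le_add_single D P))
  refine sup_le le_rfl ?_
  rw [Submodule.span_singleton_le_iff_mem]
  exact (singleRep_mem_sup_iff hdeg D P hf₀).mpr h

/-- The canonical surjection `H1 D → H1 E` for `D ≤ E`. -/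
noncomputable def H1map {D E : Divisor K F} (h : D ≤ E) : H1 D →ₗ[K] H1 E :=
  Submodule.mapQ _ _ LinearMap.id (by
    rw [Submodule.comap_id]; exact sup_principal_mono h)

theorem H1map_mk {D E : Divisor K F} (h : D ≤ E) (α : ↥(repartitions K F)) :
    H1map h (Submodule.Quotient.mk α) = Submodule.Quotient.mk α := rfl

theorem H1map_surjective {D E : Divisor K F} (h : D ≤ E) : Function.Surjective (H1map h) := by
  intro y
  obtain ⟨α, rfl⟩ := Submodule.Quotient.mk_surjective _ y
  exact ⟨Submodule.Quotient.mk α, rfl⟩

/-- The one-step relation between `l - h¹` at `D` and at `D + P`. -/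
theorem H1_succ [HasPrincipalDivisors K F] (hdeg : ∀ v : Place K F, v.deg = 1) (P₀ : Place K F)
    (D : Divisor K F) (P : Place K F) (hfin : Module.Finite K (H1 (D + Finsupp.single P 1))) :
    Module.Finite K (H1 D) ∧
      (finrank K (riemannRochSpace D) : ℤ) - finrank K (H1 D) + 1 =
        (finrank K (riemannRochSpace (D + Finsupp.single P 1)) : ℤ) -
          finrank K (H1 (D + Finsupp.single P 1)) := by
  have hDP := le_add_single D P
  have hfinL := finite_riemannRochSpace hdeg P₀ (D + Finsupp.single P 1)
  have hfinL0 := finite_riemannRochSpace hdeg P₀ D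
  have hsurj := H1map_surjective hDP
  by_cases h : riemannRochSpace (D + Finsupp.single P 1) ≤ riemannRochSpace D
  · -- `L(D + P) = L(D)`: the kernel of `H1 D → H1 (D + P)` is a line
    have hLeq : riemannRochSpace (D + Finsupp.single P 1) = riemannRochSpace D :=
      le_antisymm h (riemannRochSpace_mono hDP)
    obtain ⟨f₀, hf₀⟩ := exists_val_eq_exp P (D P + 1)
    set β : ↥(repartitions K F) := singleRep P f₀ with hβ
    have hβnot : β ∉ repartitionsOf D ⊔ principalRepartitions K F := fun hmem =>
      (singleRep_mem_sup_iff hdeg D P hf₀).mp hmem h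
    have hβin : β ∈ repartitionsOf (D + Finsupp.single P 1) ⊔ principalRepartitions K F :=
      Submodule.mem_sup_left (singleRep_mem_repartitionsOf_succ D P hf₀)
    set b : H1 D := Submodule.Quotient.mk β with hb
    have hb0 : b ≠ 0 := fun h0 => hβnot ((Submodule.Quotient.mk_eq_zero _).mp h0)
    have hker : LinearMap.ker (H1map hDP) = Submodule.span K {b} := by
      apply le_antisymm
      · intro y hy
        obtain ⟨α, rfl⟩ := Submodule.Quotient.mk_surjective _ y
        rw [LinearMap.mem_ker, H1map_mk, Submodule.Quotient.mk_eq_zero] at hy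
        have hα := sup_principal_succ_le hdeg D P hf₀ hy
        obtain ⟨u, hu, w, hw, rfl⟩ := Submodule.mem_sup.mp hα
        obtain ⟨c, rfl⟩ := Submodule.mem_span_singleton.mp hw
        rw [Submodule.mem_span_singleton]
        refine ⟨c, ?_⟩
        rw [Submodule.Quotient.mk_add, (Submodule.Quotient.mk_eq_zero _).mpr hu, zero_add,
          Submodule.Quotient.mk_smul]
      · rw [Submodule.span_singleton_le_iff_mem, LinearMap.mem_ker, hb, H1map_mk,
          Submodule.Quotient.mk_eq_zero]
        exact hβin
    have hkerfin : Module.Finite K (LinearMap.ker (H1map hDP)) := by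
      rw [hker]; infer_instance
    have hquotfin : Module.Finite K (H1 D ⧸ LinearMap.ker (H1map hDP)) :=
      Module.Finite.equiv ((H1map hDP).quotKerEquivOfSurjective hsurj).symm
    have hfinD : Module.Finite K (H1 D) :=
      Module.Finite.of_submodule_quotient (LinearMap.ker (H1map hDP))
    refine ⟨hfinD, ?_⟩
    have hrn := LinearMap.finrank_range_add_finrank_ker (H1map hDP)
    rw [LinearMap.range_eq_top.mpr hsurj, finrank_top, hker, finrank_span_singleton hb0] at hrn
    rw [hLeq, ← hrn]
    push_cast
    ring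
  · -- `L(D + P) ≠ L(D)`: `H1 D → H1 (D + P)` is an isomorphism
    have heq := sup_principal_succ_eq hdeg D P h
    have hinj : Function.Injective (H1map hDP) := by
      rw [← LinearMap.ker_eq_bot, eq_bot_iff]
      intro y hy
      obtain ⟨α, rfl⟩ := Submodule.Quotient.mk_surjective _ y
      rw [LinearMap.mem_ker, H1map_mk, Submodule.Quotient.mk_eq_zero, heq] at hy
      rw [Submodule.mem_bot, Submodule.Quotient.mk_eq_zero]
      exact hy
    let e := LinearEquiv.ofBijective (H1map hDP) ⟨hinj, hsurj⟩
    refine ⟨Module.Finite.equiv e.symm, ?_⟩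
    have hlt : riemannRochSpace D < riemannRochSpace (D + Finsupp.single P 1) :=
      lt_of_le_not_ge (riemannRochSpace_mono hDP) h
    have h1 := Submodule.finrank_lt_finrank_of_lt hlt
    have h2 := (finite_succ hdeg D P hfinL0).2
    have h3 : finrank K (riemannRochSpace (D + Finsupp.single P 1)) =
        finrank K (riemannRochSpace D) + 1 := by omega
    rw [h3, e.finrank_eq]
    push_cast
    ring

/-- For a divisor attaining the Riemann genus, `A(D₀) + F` is everything. -/
theorem sup_principal_eq_top [HasPrincipalDivisors K F] (hdeg : ∀ v : Place K F, v.deg = 1)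
    (P₀ : Place K F) (h : HasRiemannBound K F) {D₀ : Divisor K F}
    (hD₀ : (finrank K (riemannRochSpace D₀) : ℤ) =
      Divisor.degree D₀ + 1 - (riemannGenus K F : ℤ)) :
    repartitionsOf D₀ ⊔ principalRepartitions K F = ⊤ := by
  -- `l D = deg D + 1 - g` for all `D ≥ D₀`
  have hge : ∀ D : Divisor K F, D₀ ≤ D → (finrank K (riemannRochSpace D) : ℤ) =
      Divisor.degree D + 1 - (riemannGenus K F : ℤ) := by
    intro D hD
    have h1 := finrank_le_of_le hdeg P₀ hD
    have h2 := riemannGenus_mem h D
    linarith
  rw [eq_top_iff]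
  rintro α -
  obtain ⟨A₁, hA₁, hα⟩ := exists_ge_mem_repartitionsOf α D₀
  have key : repartitionsOf A₁ ⊔ principalRepartitions K F =
      repartitionsOf D₀ ⊔ principalRepartitions K F := by
    refine induction_up hdeg hA₁ (fun X => repartitionsOf X ⊔ principalRepartitions K F =
      repartitionsOf D₀ ⊔ principalRepartitions K F) rfl ?_
    intro X P hX _ hXeq
    rw [← hXeq]
    apply sup_principal_succ_eq hdeg X P
    intro hle
    have hLeq : riemannRochSpace (X + Finsupp.single P 1) = riemannRochSpace X :=
      le_antisymm hle (riemannRochSpace_mono (le_add_single X P))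
    have h1 := hge X hX
    have h2 := hge (X + Finsupp.single P 1) (hX.trans (le_add_single X P))
    rw [hLeq, map_add, degree_single_one hdeg] at h2
    linarith
  rw [← key]
  exact Submodule.mem_sup_left hα

/-- **Riemann–Roch with `h¹`** (weak form): `H1 D` is finite-dimensional and
`l(D) - h¹(D) = deg D + 1 - g`. -/
theorem finite_H1_and_formula [HasPrincipalDivisors K F] (hdeg : ∀ v : Place K F, v.deg = 1)
    (P₀ : Place K F) (h : HasRiemannBound K F) (D : Divisor K F) :
    Module.Finite K (H1 D) ∧
      (finrank K (riemannRochSpace D) : ℤ) - finrank K (H1 D) =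
        Divisor.degree D + 1 - (riemannGenus K F : ℤ) := by
  obtain ⟨D₀, hD₀⟩ := exists_eq_riemannGenus hdeg P₀ h
  have htop := sup_principal_eq_top hdeg P₀ h hD₀
  set E : Divisor K F := D ⊔ D₀ with hE
  have hDE : D ≤ E := le_sup_left
  have hD₀E : D₀ ≤ E := le_sup_right
  have htopE : repartitionsOf E ⊔ principalRepartitions K F = ⊤ :=
    eq_top_iff.mpr (htop ▸ sup_principal_mono hD₀E)
  have hsubE : Subsingleton (H1 E) := Submodule.Quotient.subsingleton_iff.mpr htopE
  have hlE : (finrank K (riemannRochSpace E) : ℤ) =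
      Divisor.degree E + 1 - (riemannGenus K F : ℤ) := by
    have h1 := finrank_le_of_le hdeg P₀ hD₀E
    have h2 := riemannGenus_mem h E
    linarith
  refine induction_down hdeg hDE (fun X => Module.Finite K (H1 X) ∧
      (finrank K (riemannRochSpace X) : ℤ) - finrank K (H1 X) =
        Divisor.degree X + 1 - (riemannGenus K F : ℤ)) ⟨inferInstance, ?_⟩ ?_
  · rw [Module.finrank_zero_of_subsingleton (M := H1 E), hlE]; simp
  · rintro X P - - ⟨hfin, hform⟩
    obtain ⟨h1, h2⟩ := H1_succ hdeg P₀ X P hfin
    refine ⟨h1, ?_⟩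
    rw [map_add, degree_single_one hdeg] at hform
    linarith

theorem finite_H1 [HasPrincipalDivisors K F] (hdeg : ∀ v : Place K F, v.deg = 1)
    (P₀ : Place K F) (h : HasRiemannBound K F) (D : Divisor K F) : Module.Finite K (H1 D) :=
  (finite_H1_and_formula hdeg P₀ h D).1

theorem finrank_sub_finrank_H1 [HasPrincipalDivisors K F] (hdeg : ∀ v : Place K F, v.deg = 1)
    (P₀ : Place K F) (h : HasRiemannBound K F) (D : Divisor K F) :
    (finrank K (riemannRochSpace D) : ℤ) - finrank K (H1 D) =
      Divisor.degree D + 1 - (riemannGenus K F : ℤ) :=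
  (finite_H1_and_formula hdeg P₀ h D).2

/-- The Prelude genus `genusFF` is the Riemann genus. -/
theorem genusFF_eq_riemannGenus [HasPrincipalDivisors K F] (hdeg : ∀ v : Place K F, v.deg = 1)
    (P₀ : Place K F) (h : HasRiemannBound K F) : genusFF K F = riemannGenus K F := by
  have := finrank_sub_finrank_H1 hdeg P₀ h (0 : Divisor K F)
  rw [finrank_zero hdeg P₀, map_zero] at this
  have h2 : (genusFF K F : ℤ) = riemannGenus K F := by
    unfold genusFF
    push_cast at this ⊢
    linarith
  exact_mod_cast h2

/-- `H1 D = 0` for all divisors of large degree. -/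
theorem exists_forall_subsingleton_H1 [HasPrincipalDivisors K F]
    (hdeg : ∀ v : Place K F, v.deg = 1) (P₀ : Place K F) (h : HasRiemannBound K F) :
    ∃ c : ℤ, ∀ D : Divisor K F, c ≤ Divisor.degree D → Subsingleton (H1 D) := by
  obtain ⟨c, hc⟩ := exists_forall_finrank_eq hdeg P₀ h
  refine ⟨c, fun D hD => ?_⟩
  have h1 := hc D hD
  have h2 := finrank_sub_finrank_H1 hdeg P₀ h D
  have hfin := finite_H1 hdeg P₀ h D
  have h0 : finrank K (H1 D) = 0 := by
    have : (finrank K (H1 D) : ℤ) = 0 := by linarith
    exact_mod_cast this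
  exact Module.finrank_zero_iff.mp h0

/-- `h¹` is antitone. -/
theorem finrank_H1_le_of_le [HasPrincipalDivisors K F] (hdeg : ∀ v : Place K F, v.deg = 1)
    (P₀ : Place K F) (h : HasRiemannBound K F) {D E : Divisor K F} (hDE : D ≤ E) :
    finrank K (H1 E) ≤ finrank K (H1 D) := by
  have := finite_H1 hdeg P₀ h D
  exact LinearMap.finrank_le_finrank_of_surjective (H1map_surjective hDE)

/-- `h¹` is invariant under linear equivalence. -/
theorem finrank_H1_add_principal [HasPrincipalDivisors K F] (hdeg : ∀ v : Place K F, v.deg = 1)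
    (P₀ : Place K F) (h : HasRiemannBound K F) {f : F} (hf : f ≠ 0) {Z : Divisor K F}
    (hZ : ∀ v : Place K F, Z v = v.ord f) (hZ0 : Divisor.degree Z = 0) (D : Divisor K F) :
    finrank K (H1 (D + Z)) = finrank K (H1 D) := by
  have h1 := finrank_sub_finrank_H1 hdeg P₀ h D
  have h2 := finrank_sub_finrank_H1 hdeg P₀ h (D + Z)
  rw [finrank_add_principal hf hZ D, map_add, hZ0, add_zero] at h2
  have : (finrank K (H1 (D + Z)) : ℤ) = finrank K (H1 D) := by linarith
  exact_mod_cast this

end Fermat.Agent.S18.helper981
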