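import Mathlib
import Fermat.Agent.S16.helper903_DeuringCore

/-!
# S18, track B: the DN lemma (trace-duality normality), consumer half (helper3791)

`IdemLift P L lam` : every "idempotent with denominator" `a / d` (`a` integral over `P`,
`d ∈ P`, `lam ∤ d`, `a² ≡ d a` modulo `lam`) of the special fibre of the normalisation of `P`
in `L` is congruent to an integral element: `d r ≡ a` modulo `lam`.

`oneComponent_of_idemLift` : `IdemLift` implies that two distinct minimal primes over `lam` of
the integral closure are comaximal ("one component through every closed point").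
-/

set_option autoImplicit false

namespace Fermat.Agent.S18.helper3791

/-- Every idempotent (with denominator prime to `lam`) of the special fibre of the integral
closure of `P` in `L` comes from an integral element. -/
def IdemLift (P L : Type*) [CommRing P] [Field L] [Algebra P L] (lam : P) : Prop :=
  ∀ a : L, IsIntegral P a → ∀ d : P, ¬ lam ∣ d →
    (∃ y : L, IsIntegral P y ∧ a * a - algebraMap P L d * a = algebraMap P L lam * y) →
    ∃ r y : L, IsIntegral P r ∧ IsIntegral P y ∧
      algebraMap P L d * r - a = algebraMap P L lam * y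

/-- Abstract form: `R` integral over `P`, noetherian, `R / lam` torsion-free over `P / lam`,
idempotents with denominators lift.  Then distinct minimal primes over `lam` are comaximal. -/
theorem sup_eq_top_of_idem {P R : Type*} [CommRing P] [CommRing R] [Algebra P R]
    [Algebra.IsIntegral P R] [IsNoetherianRing R] (lam : P) (hlam : Prime lam)
    (htf : ∀ d : P, ¬ lam ∣ d → ∀ y z : R, algebraMap P R d * y = algebraMap P R lam * z →
      ∃ w, y = algebraMap P R lam * w)
    (hidem : ∀ a : R, ∀ d : P, ¬ lam ∣ d →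
      (∃ y, a * a - algebraMap P R d * a = algebraMap P R lam * y) →
      ∃ r y, algebraMap P R d * r - a = algebraMap P R lam * y)
    (Q Q' : Ideal R) (hQ : Q ∈ (Ideal.span {algebraMap P R lam}).minimalPrimes)
    (hQ' : Q' ∈ (Ideal.span {algebraMap P R lam}).minimalPrimes) (hne : Q ≠ Q') :
    Q ⊔ Q' = ⊤ := by
  classical
  set p : R := algebraMap P R lam with hp
  set I : Ideal R := Ideal.span {p} with hI
  have hpI : p ∈ I := Ideal.subset_span rfl
  have hfin : I.minimalPrimes.Finite := Ideal.finite_minimalPrimes_of_isNoetherianRing R I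
  have hQprime : Q.IsPrime := hQ.1.1
  have hQ'prime : Q'.IsPrime := hQ'.1.1
  -- F1 : denominators are outside every minimal prime
  have hF1 : ∀ Q'' ∈ I.minimalPrimes, ∀ d : P, ¬ lam ∣ d → algebraMap P R d ∉ Q'' := by
    intro Q'' hQ'' d hd hmem
    obtain ⟨y, hyI, hxy⟩ := Ideal.exists_mul_mem_of_mem_minimalPrimes hQ'' hmem
    obtain ⟨z, hz⟩ := Ideal.mem_span_singleton'.mp hxy
    obtain ⟨w, hw⟩ := htf d hd y z (by rw [← hz]; ring)
    exact hyI (by rw [hw]; exact Ideal.mul_mem_right _ _ hpI)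
  -- the other minimal primes
  set T : Finset (Ideal R) := hfin.toFinset.erase Q with hT
  have hTmem : ∀ Q'', Q'' ∈ T ↔ Q'' ≠ Q ∧ Q'' ∈ I.minimalPrimes := by
    intro Q''
    simp [hT]
  have hmin_eq : ∀ Q₁ ∈ I.minimalPrimes, ∀ Q₂ ∈ I.minimalPrimes, Q₁ ≤ Q₂ → Q₁ = Q₂ := by
    intro Q₁ h₁ Q₂ h₂ hle
    exact le_antisymm hle (h₂.2 h₁.1 hle)
  -- choice of `a`
  have hex : ∀ Q'' : Ideal R, ∃ x : R, Q'' ∈ T → (x ∈ Q'' ∧ x ∉ Q) := by
    intro Q''
    by_cases hQ''T : Q'' ∈ T
    · obtain ⟨hne'', hmem''⟩ := (hTmem Q'').mp hQ''T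
      have : ¬ Q'' ≤ Q := fun hle => hne'' (hmin_eq Q'' hmem'' Q hQ hle)
      obtain ⟨x, hx, hxQ⟩ := SetLike.not_le_iff_exists.mp this
      exact ⟨x, fun _ => ⟨hx, hxQ⟩⟩
    · exact ⟨0, fun h => absurd h hQ''T⟩
  choose f hf using hex
  set a : R := ∏ Q'' ∈ T, f Q'' with ha
  have haQ : a ∉ Q := by
    rw [ha, hQprime.prod_mem_iff]
    rintro ⟨Q'', hQ''T, hmem⟩
    exact (hf Q'' hQ''T).2 hmem
  have haT : ∀ Q'' ∈ T, a ∈ Q'' := by
    intro Q'' hQ''T
    exact Ideal.mem_of_dvd _ (Finset.dvd_prod_of_mem f hQ''T) (hf Q'' hQ''T).1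
  -- choice of `b` by prime avoidance
  have hb : ∃ b ∈ Q, ∀ Q'' ∈ T, b ∉ Q'' := by
    by_contra hcon
    push Not at hcon
    have hsub : ((Q : Set R) ⊆ ⋃ i ∈ (↑T : Set (Ideal R)), ((fun J : Ideal R => J) i : Set R)) := by
      intro x hx
      obtain ⟨Q'', hQ''T, hxQ''⟩ := hcon x hx
      exact Set.mem_biUnion (by exact_mod_cast hQ''T) hxQ''
    obtain ⟨i, hiT, hle⟩ := (Ideal.subset_union_prime (f := fun J : Ideal R => J) Q Q
      (fun i hi _ _ => ((hTmem i).mp hi).2.1.1)).mp hsub
    obtain ⟨hne'', hmem''⟩ := (hTmem i).mp hiT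
    exact hne'' (hmin_eq Q hQ i hmem'' hle).symm
  obtain ⟨b, hbQ, hbT⟩ := hb
  -- `a * b` is nilpotent modulo `I`
  have hab : a * b ∈ I.radical := by
    rw [← Ideal.sInf_minimalPrimes, Ideal.mem_sInf]
    intro Q'' hQ''
    by_cases h : Q'' = Q
    · rw [h]; exact Ideal.mul_mem_left _ _ hbQ
    · exact Ideal.mul_mem_right _ _ (haT Q'' ((hTmem Q'').mpr ⟨h, hQ''⟩))
  obtain ⟨k, hk⟩ := hab
  set a' : R := a ^ (k + 1) with ha'
  set b' : R := b ^ (k + 1) with hb'
  have hab' : a' * b' ∈ I := by
    have : a' * b' = (a * b) ^ k * (a * b) := by rw [ha', hb']; ring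
    rw [this]
    exact Ideal.mul_mem_right _ _ hk
  have ha'Q : a' ∉ Q := fun h => haQ (hQprime.mem_of_pow_mem _ h)
  have ha'T : ∀ Q'' ∈ T, a' ∈ Q'' := fun Q'' h =>
    Ideal.pow_mem_of_mem _ (haT Q'' h) _ (Nat.succ_pos k)
  have hb'Q : b' ∈ Q := Ideal.pow_mem_of_mem _ hbQ _ (Nat.succ_pos k)
  have hb'T : ∀ Q'' ∈ T, b' ∉ Q'' := fun Q'' h hmem =>
    hbT Q'' h (((hTmem Q'').mp h).2.1.1.mem_of_pow_mem _ hmem)
  set t : R := a' + b' with ht
  have htmin : ∀ Q'' ∈ I.minimalPrimes, t ∉ Q'' := by
    intro Q'' hQ'' htQ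
    by_cases h : Q'' = Q
    · rw [h] at htQ
      apply ha'Q
      have : a' = t - b' := by rw [ht]; ring
      rw [this]
      exact Q.sub_mem htQ hb'Q
    · have hT'' := (hTmem Q'').mpr ⟨h, hQ''⟩
      apply hb'T Q'' hT''
      have : b' = t - a' := by rw [ht]; ring
      rw [this]
      exact Q''.sub_mem htQ (ha'T Q'' hT'')
  -- Step B : `t` is invertible modulo `lam` up to a denominator
  have hB : ∃ (w : R) (d : P), ¬ lam ∣ d ∧ ∃ y, t * w - algebraMap P R d = p * y := by
    by_contra hcon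
    push Not at hcon
    set J : Ideal R := Ideal.span {t, p} with hJ
    have hle : J.comap (algebraMap P R) ≤ Ideal.span {lam} := by
      intro d hd
      rw [Ideal.mem_span_singleton]
      by_contra hnd
      rw [Ideal.mem_comap, hJ, Ideal.mem_span_pair] at hd
      obtain ⟨c, e, hce⟩ := hd
      exact hcon c d hnd (-e) (by rw [← hce]; ring)
    have : (Ideal.span {lam}).IsPrime := (Ideal.span_singleton_prime hlam.ne_zero).mpr hlam
    obtain ⟨𝔔, h𝔔J, h𝔔prime, h𝔔comap⟩ :=
      Ideal.exists_ideal_over_prime_of_isIntegral (Ideal.span {lam}) J hle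
    have hI𝔔 : I ≤ 𝔔 := by
      rw [hI, Ideal.span_singleton_le_iff_mem]
      exact h𝔔J (Ideal.subset_span (by simp))
    obtain ⟨Q0, hQ0, hQ0le⟩ := Ideal.exists_minimalPrimes_le hI𝔔
    have hQ0eq : Q0 = 𝔔 := by
      by_contra hne0
      have := hQ0.1.1
      have hlt : Q0.comap (algebraMap P R) < 𝔔.comap (algebraMap P R) :=
        Ideal.IsIntegral.comap_lt_comap (lt_of_le_of_ne hQ0le hne0)
      rw [h𝔔comap] at hlt
      have : Ideal.span {lam} ≤ Q0.comap (algebraMap P R) := by
        rw [Ideal.span_singleton_le_iff_mem, Ideal.mem_comap]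
        exact hQ0.1.2 hpI
      exact absurd hlt (not_lt_of_ge this)
    apply htmin Q0 hQ0
    rw [hQ0eq]
    exact h𝔔J (Ideal.subset_span (by simp))
  obtain ⟨w, d, hd, y0, hy0⟩ := hB
  obtain ⟨c0, hc0⟩ := Ideal.mem_span_singleton'.mp hab'
  -- Step C : the idempotent
  obtain ⟨r, y1, hr⟩ := hidem (a' * w) d hd ⟨a' * w * y0 - c0 * w * w, by
    have h1 : algebraMap P R d = t * w - p * y0 := by rw [← hy0]; ring
    rw [h1, ht]
    linear_combination (w * w) * hc0⟩
  -- Step D
  have hdQ : algebraMap P R d ∉ Q := hF1 Q hQ d hd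
  have hdQ' : algebraMap P R d ∉ Q' := hF1 Q' hQ' d hd
  have hQ'T : Q' ∈ T := (hTmem Q').mpr ⟨fun h => hne h.symm, hQ'⟩
  have hrQ' : r ∈ Q' := by
    have : algebraMap P R d * r ∈ Q' := by
      have h1 : algebraMap P R d * r = a' * w + p * y1 := by rw [← hr]; ring
      rw [h1]
      exact Q'.add_mem (Ideal.mul_mem_right _ _ (ha'T Q' hQ'T))
        (Ideal.mul_mem_right _ _ (hQ'.1.2 hpI))
    exact (hQ'prime.mem_or_mem this).resolve_left hdQ'
  have hrQ : 1 - r ∈ Q := by
    have : algebraMap P R d * (1 - r) ∈ Q := by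
      have h1 : algebraMap P R d * (1 - r) = b' * w - p * (y0 + y1) := by
        have h2 : algebraMap P R d = t * w - p * y0 := by rw [← hy0]; ring
        have h3 : algebraMap P R d * r = a' * w + p * y1 := by rw [← hr]; ring
        rw [mul_sub, mul_one, h3, h2, ht]; ring
      rw [h1]
      exact Q.sub_mem (Ideal.mul_mem_right _ _ hb'Q) (Ideal.mul_mem_right _ _ (hQ.1.2 hpI))
    exact (hQprime.mem_or_mem this).resolve_left hdQ
  rw [Ideal.eq_top_iff_one]
  have : (1 : R) = (1 - r) + r := by ring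
  rw [this]
  exact Submodule.add_mem_sup hrQ hrQ'

section Closure

/-- `P → L` is injective. -/
theorem faithfulSMul_of_tower (P K L : Type*) [CommRing P] [Field K] [Field L] [Algebra P K]
    [IsFractionRing P K] [Algebra K L] [Algebra P L] [IsScalarTower P K L] : FaithfulSMul P L := by
  rw [faithfulSMul_iff_algebraMap_injective, IsScalarTower.algebraMap_eq P K L]
  exact (algebraMap K L).injective.comp (IsFractionRing.injective P K)

/-- The special fibre of the integral closure is torsion-free over `P / lam`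
(helper903's two-denominator lemma). -/
theorem exists_eq_mul_of_mul_eq_mul {P L : Type*} [CommRing P] [IsDomain P]
    [IsIntegrallyClosed P] [Field L] [Algebra P L] [FaithfulSMul P L]
    (lam : P) (hlam : Prime lam) (d : P) (hd : ¬ lam ∣ d)
    {y z : L} (hy : IsIntegral P y) (hz : IsIntegral P z)
    (h : algebraMap P L d * y = algebraMap P L lam * z) :
    ∃ w : L, IsIntegral P w ∧ y = algebraMap P L lam * w := by
  obtain ⟨w, hw, hyw⟩ := Fermat.Agent.S16.helper903.isIntegral_div_prime_pow hlam hd 1 hy hz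
    (by rw [pow_one]; exact h)
  exact ⟨w, hw, by rw [hyw, pow_one]⟩

variable {P K L : Type*} [CommRing P] [IsDomain P] [IsNoetherianRing P] [IsIntegrallyClosed P]
  [Field K] [Field L] [Algebra P K] [IsFractionRing P K] [Algebra K L] [Algebra P L]
  [IsScalarTower P K L] [FiniteDimensional K L] [Algebra.IsSeparable K L]

include K in
/-- **DN, consumer half**: if idempotents with denominators of the special fibre lift to the
integral closure, then two minimal primes over `lam` of the integral closure of `P` in `L`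
which are not comaximal coincide (`helper3578.OneComponent`, unfolded). -/
theorem oneComponent_of_idemLift (lam : P) (hlam : Prime lam) (h : IdemLift P L lam) :
    ∀ Q ∈ (Ideal.span {algebraMap P ↥(integralClosure P L) lam}).minimalPrimes,
    ∀ Q' ∈ (Ideal.span {algebraMap P ↥(integralClosure P L) lam}).minimalPrimes,
      Q ⊔ Q' ≠ ⊤ → Q = Q' := by
  intro Q hQ Q' hQ' hsup
  by_contra hne
  have : IsNoetherianRing ↥(integralClosure P L) :=
    IsIntegralClosure.isNoetherianRing P K L ↥(integralClosure P L)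
  have : FaithfulSMul P L := faithfulSMul_of_tower P K L
  refine hsup (sup_eq_top_of_idem (P := P) (R := ↥(integralClosure P L)) lam hlam ?_ ?_
    Q Q' hQ hQ' hne)
  · intro d hd y z hyz
    have hyz' : algebraMap P L d * (y : L) = algebraMap P L lam * (z : L) := by
      have := congrArg Subtype.val hyz
      simpa using this
    obtain ⟨w, hw, hyw⟩ := exists_eq_mul_of_mul_eq_mul lam hlam d hd y.2 z.2 hyz'
    exact ⟨⟨w, hw⟩, Subtype.ext (by simpa using hyw)⟩
  · rintro a d hd ⟨y, hy⟩
    have hy' : (a : L) * (a : L) - algebraMap P L d * (a : L) = algebraMap P L lam * (y : L) := by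
      have := congrArg Subtype.val hy
      simpa using this
    obtain ⟨r, y', hr, hy', hry⟩ := h a a.2 d hd ⟨y, y.2, hy'⟩
    exact ⟨⟨r, hr⟩, ⟨y', hy'⟩, Subtype.ext (by simpa using hry)⟩

end Closure

end Fermat.Agent.S18.helper3791
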