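import Mathlib

/-!
# S18-TRACECRIT, lattice form

The nilpotent-trace criterion for a *lattice* in a finite-dimensional algebra `E` over
`K = Frac D` which need not be a field (e.g. `E = R_(λ) / λ` in the trace-duality normality
lemma (DN), before one knows that the special fibre is a domain).

* `linearMap_trace_mem_span_of_pow` (TC0): an endomorphism `φ` of a finite free module with
  `φ ^ M (Λ) ⊆ P • Λ` and `(P)` radical has trace in `(P)`.
* `trace_mem_of_lattice` (TC8): `Λ ⊆ E` a finitely generated `D`-submodule spanning `E`, stable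
  under `v`, with `v ^ M • Λ ⊆ P • Λ` and `(P)` radical: `Tr_{E/K} v ∈ P • D`.
* `trace_mul_mem_of_pow_mem_order` (TC9) = step (3) of (DN): `O ⊆ E` a finite `D`-order spanning
  `E`, `G` squarefree, `G ^ (M - 1) * z ^ M ∈ O`, `s` integral over `D`: `Tr_{E/K} (s * z) ∈ D`.
-/

set_option autoImplicit false

open scoped nonZeroDivisors

namespace Fermat.Agent.S18.helper410

section TC0

variable {R Λ : Type*} [CommRing R] [AddCommGroup Λ] [Module R Λ] [Module.Free R Λ]
  [Module.Finite R Λ]

/-- (TC0) endomorphism form of the nilpotent-trace criterion. -/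
theorem linearMap_trace_mem_span_of_pow (P : R) (hP : (Ideal.span {P}).IsRadical)
    (φ : Λ →ₗ[R] Λ) (M : ℕ) (h : ∀ x, ∃ y, (φ ^ M) x = P • y) :
    LinearMap.trace R Λ φ ∈ Ideal.span {P} := by
  classical
  let b := Module.Free.chooseBasis R Λ
  rw [LinearMap.trace_eq_matrix_trace R b]
  set A := LinearMap.toMatrix b b φ with hA
  have hAM : ∀ i j, P ∣ (A ^ M) i j := by
    intro i j
    rw [hA, LinearMap.toMatrix_pow, LinearMap.toMatrix_apply]
    obtain ⟨y, hy⟩ := h (b j)
    rw [hy, map_smul, Finsupp.smul_apply, smul_eq_mul]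
    exact dvd_mul_right _ _
  let φq : R →+* R ⧸ Ideal.span {P} := Ideal.Quotient.mk (Ideal.span {P})
  have hnil : IsNilpotent (φq.mapMatrix A) := by
    refine ⟨M, ?_⟩
    rw [← map_pow]
    ext i j
    simp only [RingHom.mapMatrix_apply, Matrix.map_apply, Matrix.zero_apply]
    exact Ideal.Quotient.eq_zero_iff_mem.mpr (Ideal.mem_span_singleton.mpr (hAM i j))
  have htr : IsNilpotent (φq.mapMatrix A).trace := Matrix.isNilpotent_trace_of_isNilpotent hnil
  have hred : IsReduced (R ⧸ Ideal.span {P}) := (Ideal.isRadical_iff_quotient_reduced _).mp hP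
  have h0 : (φq.mapMatrix A).trace = 0 := htr.eq_zero
  rw [← Ideal.Quotient.eq_zero_iff_mem]
  have : φq A.trace = (φq.mapMatrix A).trace := by
    simp [Matrix.trace, RingHom.mapMatrix_apply, Matrix.map_apply, map_sum]
  exact this.trans h0

end TC0

section Lattice

variable {D K E : Type*} [CommRing D] [IsDomain D] [IsPrincipalIdealRing D] [Field K]
  [Algebra D K] [IsFractionRing D K] [CommRing E] [Algebra K E] [Algebra D E]
  [IsScalarTower D K E]

end Lattice

/-- A `D`-torsion element of a module over `K = Frac D` is zero. -/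
theorem smul_eq_zero_of_ne_zero_of_fraction {D : Type*} (K : Type*) {E : Type*} [CommRing D]
    [Field K] [Algebra D K] [IsFractionRing D K] [AddCommGroup E] [Module K E] [Module D E]
    [IsScalarTower D K E] {d : D} (hd : d ≠ 0) {e : E} (h : d • e = 0) : e = 0 := by
  have hdK : algebraMap D K d ≠ 0 := by
    intro h0
    apply hd
    apply IsFractionRing.injective D K
    rw [h0, map_zero]
  have h' : algebraMap D K d • e = 0 := by rwa [algebraMap_smul]
  exact (smul_eq_zero.mp h').resolve_left hdK

section Lattice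

variable {D K E : Type*} [CommRing D] [IsDomain D] [IsPrincipalIdealRing D] [Field K]
  [Algebra D K] [IsFractionRing D K] [CommRing E] [Algebra K E] [Algebra D E]
  [IsScalarTower D K E]

/-- (TC8) lattice form.  `Λ` is a finitely generated `D`-submodule of the `K`-algebra `E`
(`K = Frac D`, `D` a PID) which spans `E` and is stable under multiplication by `v`.
If `v ^ M * Λ ⊆ P • Λ` and `(P)` is radical, then `Tr_{E/K} v ∈ P • D`.
`E` need not be a field or reduced. -/
theorem trace_mem_of_lattice (Λ : Submodule D E) (hfg : Λ.FG)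
    (hspan : ∀ e : E, ∃ d : D, d ≠ 0 ∧ d • e ∈ Λ)
    (P : D) (hP : (Ideal.span {P}).IsRadical) (v : E) (M : ℕ)
    (hv : ∀ x ∈ Λ, v * x ∈ Λ) (hvM : ∀ x ∈ Λ, ∃ y ∈ Λ, v ^ M * x = P • y) :
    ∃ u : D, Algebra.trace K E v = algebraMap D K (P * u) := by
  classical
  have hfin : Module.Finite D Λ := Module.Finite.iff_fg.mpr hfg
  have hTF : Module.IsTorsionFree D Λ := by
    refine ⟨fun d hd x y hxy => ?_⟩
    have hd0 : d ≠ 0 := hd.ne_zero
    have h1 : d • ((x : E) - (y : E)) = 0 := by
      have := congrArg Subtype.val hxy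
      simp only [Submodule.coe_smul] at this
      rw [smul_sub, this, sub_self]
    exact Subtype.ext (sub_eq_zero.mp (smul_eq_zero_of_ne_zero_of_fraction K hd0 h1))
  have hfree : Module.Free D Λ := inferInstance
  have hloc : IsLocalizedModule D⁰ Λ.subtype := by
    refine ⟨?_, ?_, ?_⟩
    · intro x
      rw [Module.End.isUnit_iff]
      have hx0 : (x : D) ≠ 0 := nonZeroDivisors.ne_zero x.2
      have hxK : algebraMap D K x ≠ 0 :=
        (map_ne_zero_iff (algebraMap D K) (IsFractionRing.injective D K)).mpr hx0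
      constructor
      · intro a b hab
        simp only [Module.algebraMap_end_apply] at hab
        have : (x : D) • (a - b) = 0 := by rw [smul_sub, hab, sub_self]
        exact sub_eq_zero.mp (smul_eq_zero_of_ne_zero_of_fraction K hx0 this)
      · intro e
        refine ⟨(algebraMap D K x)⁻¹ • e, ?_⟩
        simp only [Module.algebraMap_end_apply]
        rw [← algebraMap_smul K (x : D) ((algebraMap D K x)⁻¹ • e), smul_smul,
          mul_inv_cancel₀ hxK, one_smul]
    · intro e
      obtain ⟨d, hd, hde⟩ := hspan e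
      exact ⟨(⟨d • e, hde⟩, ⟨d, mem_nonZeroDivisors_of_ne_zero hd⟩), rfl⟩
    · intro x₁ x₂ h
      exact ⟨1, by rw [one_smul, one_smul]; exact Subtype.ext h⟩
  let b := Module.Free.chooseBasis D Λ
  let b' := b.ofIsLocalizedModule K D⁰ Λ.subtype
  let φ : Λ →ₗ[D] Λ := (LinearMap.mulLeft D v).restrict hv
  have hφpow : ∀ (n : ℕ) (x : Λ), (((φ ^ n) x : Λ) : E) = v ^ n * x := by
    intro n
    induction n with
    | zero => intro x; simp
    | succ n ih =>
      intro x
      rw [pow_succ', Module.End.mul_apply, pow_succ', mul_assoc, ← ih x]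
      rfl
  have hφ : LinearMap.trace D Λ φ ∈ Ideal.span {P} :=
    linearMap_trace_mem_span_of_pow P hP φ M (by
      intro x
      obtain ⟨y, hy, hxy⟩ := hvM x x.2
      refine ⟨⟨y, hy⟩, Subtype.ext ?_⟩
      rw [hφpow, hxy]
      rfl)
  obtain ⟨u, hu⟩ := Ideal.mem_span_singleton'.mp hφ
  refine ⟨u, ?_⟩
  have hmat : Algebra.leftMulMatrix b' v = (LinearMap.toMatrix b b φ).map (algebraMap D K) := by
    ext i j
    rw [Algebra.leftMulMatrix_eq_repr_mul, Matrix.map_apply, LinearMap.toMatrix_apply]
    have h1 : v * b' j = Λ.subtype (φ (b j)) := by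
      rw [Module.Basis.ofIsLocalizedModule_apply]
      rfl
    rw [h1, Module.Basis.ofIsLocalizedModule_repr_apply]
  rw [Algebra.trace_eq_matrix_trace b', hmat, ← AddMonoidHom.map_trace (algebraMap D K),
    ← LinearMap.trace_eq_matrix_trace D b φ, ← hu, mul_comm]

/-- (TC9) = step (3) of the trace-duality normality lemma (DN).  `O ⊆ E` is a finite `D`-order
spanning `E`, `G : D` is squarefree (radical ideal), and `z : E` satisfies
`G ^ (M - 1) * z ^ M ∈ O` (e.g. `z` a dual-basis vector with tame denominators).  Then for every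
`s : E` integral over `D` the trace of `s * z` lies in `D`.
[Hence `s = ∑ Tr(s zᵢ) bᵢ ∈ O` when the `zᵢ` are the trace-dual basis of a `D`-basis `bᵢ` of `O`:
the order `O` is integrally closed in `E`.] -/
theorem trace_mul_mem_of_pow_mem_order (O : Subalgebra D E) (hO : O.toSubmodule.FG)
    (hspan : ∀ e : E, ∃ d : D, d ≠ 0 ∧ d • e ∈ O)
    (G : D) (hG0 : G ≠ 0) (hG : (Ideal.span {G}).IsRadical) (z : E) (M : ℕ) (hM : 0 < M)
    (hz : algebraMap D E G ^ (M - 1) * z ^ M ∈ O) (s : E) (hs : IsIntegral D s) :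
    ∃ u : D, Algebra.trace K E (s * z) = algebraMap D K u := by
  classical
  obtain ⟨T, hT⟩ := id hO
  set w : E := algebraMap D E G * z with hw
  have hOint : ∀ x ∈ O, IsIntegral D x := fun x hx => IsIntegral.of_mem_of_fg O hO x hx
  have hTO : ∀ x ∈ (T : Set E), x ∈ O := fun x hx => by
    rw [← Subalgebra.mem_toSubmodule, ← hT]
    exact Submodule.subset_span hx
  have hwM : w ^ M = G • (algebraMap D E G ^ (M - 1) * z ^ M) := by
    rw [hw, mul_pow, Algebra.smul_def, ← mul_assoc, ← pow_succ', Nat.sub_add_cancel hM]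
  have hwint : IsIntegral D w := by
    refine IsIntegral.of_pow hM ?_
    rw [hwM]
    exact (hOint _ hz).smul G
  let S : Set E := (T : Set E) ∪ {s, w}
  have hSfin : S.Finite := T.finite_toSet.union (by simp)
  have hSint : ∀ x ∈ S, IsIntegral D x := by
    rintro x (hx | hx)
    · exact hOint x (hTO x hx)
    · rcases hx with rfl | rfl
      · exact hs
      · exact hwint
  have hΛfg : (Algebra.adjoin D S).toSubmodule.FG := fg_adjoin_of_finite hSfin hSint
  have hOΛ : ∀ x ∈ O, x ∈ Algebra.adjoin D S := by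
    intro x hx
    have hx' : x ∈ Submodule.span D (T : Set E) := by
      rw [hT]
      exact hx
    have hle : Submodule.span D (T : Set E) ≤ (Algebra.adjoin D S).toSubmodule :=
      Submodule.span_le.mpr (fun y hy => Algebra.subset_adjoin (Or.inl hy))
    exact hle hx'
  have hsΛ : s ∈ Algebra.adjoin D S := Algebra.subset_adjoin (Or.inr (by simp))
  have hwΛ : w ∈ Algebra.adjoin D S := Algebra.subset_adjoin (Or.inr (by simp))
  obtain ⟨u, hu⟩ := trace_mem_of_lattice (K := K) (Algebra.adjoin D S).toSubmodule hΛfg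
    (fun e => by
      obtain ⟨d, hd, hde⟩ := hspan e
      exact ⟨d, hd, hOΛ _ hde⟩)
    G hG (s * w) M
    (fun x hx => (Algebra.adjoin D S).mul_mem ((Algebra.adjoin D S).mul_mem hsΛ hwΛ) hx)
    (fun x hx => ⟨s ^ M * (algebraMap D E G ^ (M - 1) * z ^ M) * x,
      (Algebra.adjoin D S).mul_mem ((Algebra.adjoin D S).mul_mem
        ((Algebra.adjoin D S).pow_mem hsΛ M) (hOΛ _ hz)) hx,
      by
        rw [mul_pow, hwM]
        simp only [Algebra.smul_def]
        ring⟩)
  refine ⟨u, ?_⟩
  have h2 : Algebra.trace K E (s * w) = algebraMap D K G * Algebra.trace K E (s * z) := by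
    have : s * w = algebraMap D K G • (s * z) := by
      rw [hw, Algebra.smul_def, ← IsScalarTower.algebraMap_apply D K E]
      ring
    rw [this, map_smul, smul_eq_mul]
  have hGK : algebraMap D K G ≠ 0 := by
    intro h0
    apply hG0
    apply IsFractionRing.injective D K
    rw [h0, map_zero]
  apply mul_left_cancel₀ hGK
  rw [← h2, hu, map_mul]

/-- (TC10) the special-fibre core of (DN): an order `O = ⊕ D bᵢ` of `E` whose trace-dual basis
`zᵢ` has tame denominators (`G ^ (M - 1) * zᵢ ^ M ∈ O` with `G` squarefree) is integrally closed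
in `E`: every `s : E` integral over `D` lies in `O`. -/
theorem mem_order_of_isIntegral_of_dual_basis {ι : Type*} [Fintype ι] [DecidableEq ι]
    (O : Subalgebra D E) (b : ι → E)
    (hO : O.toSubmodule = Submodule.span D (Set.range b))
    (hE : ∀ e : E, ∃ c : ι → K, e = ∑ i, c i • b i)
    (z : ι → E) (hdual : ∀ i j, Algebra.trace K E (b i * z j) = if i = j then 1 else 0)
    (G : D) (hG0 : G ≠ 0) (hG : (Ideal.span {G}).IsRadical) (M : ℕ) (hM : 0 < M)
    (hz : ∀ i, algebraMap D E G ^ (M - 1) * z i ^ M ∈ O) (s : E) (hs : IsIntegral D s) :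
    s ∈ O := by
  have hOfg : O.toSubmodule.FG := by
    rw [hO]
    exact Submodule.fg_span (Set.finite_range b)
  have hbO : ∀ i, b i ∈ O := fun i => by
    rw [← Subalgebra.mem_toSubmodule, hO]
    exact Submodule.subset_span ⟨i, rfl⟩
  have hspan : ∀ e : E, ∃ d : D, d ≠ 0 ∧ d • e ∈ O := by
    intro e
    obtain ⟨c, rfl⟩ := hE e
    obtain ⟨d, hd⟩ := IsLocalization.exist_integer_multiples (nonZeroDivisors D) Finset.univ c
    refine ⟨d, nonZeroDivisors.ne_zero d.2, ?_⟩
    rw [Finset.smul_sum]
    refine O.toSubmodule.sum_mem (fun i _ => ?_)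
    obtain ⟨a, ha⟩ := hd i (Finset.mem_univ i)
    have : (d : D) • c i • b i = a • b i := by
      rw [← algebraMap_smul K a (b i), ha, smul_assoc]
    rw [this]
    exact O.toSubmodule.smul_mem a (hbO i)
  obtain ⟨c, rfl⟩ := hE s
  have hc : ∀ j, ∃ u : D, c j = algebraMap D K u := by
    intro j
    obtain ⟨u, hu⟩ := trace_mul_mem_of_pow_mem_order (K := K) O hOfg hspan G hG0 hG (z j) M hM
      (hz j) _ hs
    refine ⟨u, ?_⟩
    rw [← hu, Finset.sum_mul, map_sum]
    simp only [smul_mul_assoc, map_smul, hdual, smul_eq_mul, mul_ite, mul_one, mul_zero,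
      Finset.sum_ite_eq', Finset.mem_univ, if_true]
  choose u hu using hc
  refine O.toSubmodule.sum_mem (fun i _ => ?_)
  rw [hu i, algebraMap_smul]
  exact O.toSubmodule.smul_mem (u i) (hbO i)

end Lattice

end Fermat.Agent.S18.helper410
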