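import Mathlib
import Fermat.Prelude.Def_ModularCurve_X0ModL
import Fermat.Prelude.Def_FLTPrelim_Ramification

set_option autoImplicit false

noncomputable section

namespace Fermat.Agent.S18.helper8351

open ModularCurve

/-! ## (N1) a valuation subring of a number field over a prime `ℓ` is a DVR -/

section DVR

variable {K : Type*} [Field K] (O : ValuationSubring K)

theorem valuation_intCast_le_one (m : ℤ) : O.valuation (m : K) ≤ 1 :=
  (O.valuation_le_one_iff _).mpr (intCast_mem O m)

theorem valuation_natCast_le_one (m : ℕ) : O.valuation (m : K) ≤ 1 :=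
  (O.valuation_le_one_iff _).mpr (natCast_mem O m)

/-- Naturals prime to `ℓ` are units of a valuation subring over `ℓ`. -/
theorem valuation_natCast_eq_one {ℓ : ℕ} (hℓ : ℓ.Prime) (hO : (ℓ : K) ∈ O.nonunits)
    {n : ℕ} (hn : ¬ ℓ ∣ n) : O.valuation (n : K) = 1 := by
  have hcop : Nat.Coprime n ℓ := ((Nat.Prime.coprime_iff_not_dvd hℓ).mpr hn).symm
  have hb := Nat.gcd_eq_gcd_ab n ℓ
  rw [hcop.gcd_eq_one] at hb
  have h1 : (1 : K) = (n : K) * ((Nat.gcdA n ℓ : ℤ) : K) + (ℓ : K) * ((Nat.gcdB n ℓ : ℤ) : K) := by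
    have := congrArg (fun z : ℤ => (z : K)) hb
    push_cast at this
    exact this
  have hℓ1 : O.valuation (ℓ : K) < 1 := O.mem_nonunits_iff.mp hO
  rcases lt_or_eq_of_le (valuation_natCast_le_one O n) with hlt | heq
  · exfalso
    have ha : O.valuation ((n : K) * ((Nat.gcdA n ℓ : ℤ) : K)) < 1 := by
      rw [map_mul]
      exact mul_lt_one_of_nonneg_of_lt_one_left zero_le hlt (valuation_intCast_le_one O _)
    have hb' : O.valuation ((ℓ : K) * ((Nat.gcdB n ℓ : ℤ) : K)) < 1 := by
      rw [map_mul]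
      exact mul_lt_one_of_nonneg_of_lt_one_left zero_le hℓ1 (valuation_intCast_le_one O _)
    have : O.valuation (1 : K) < 1 := by
      rw [h1]
      exact lt_of_le_of_lt (O.valuation.map_add _ _) (max_lt ha hb')
    simp at this
  · exact heq

/-- The valuation of a nonzero natural is a power of the valuation of `ℓ`. -/
theorem exists_valuation_natCast_eq_pow {ℓ : ℕ} (hℓ : ℓ.Prime) (hO : (ℓ : K) ∈ O.nonunits)
    {n : ℕ} (hn : n ≠ 0) : ∃ e : ℕ, O.valuation (n : K) = O.valuation (ℓ : K) ^ e := by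
  obtain ⟨e, n', hn', rfl⟩ := Nat.exists_eq_pow_mul_and_not_dvd hn ℓ hℓ.ne_one
  refine ⟨e, ?_⟩
  rw [Nat.cast_mul, Nat.cast_pow, map_mul, map_pow, valuation_natCast_eq_one O hℓ hO hn', mul_one]

theorem exists_valuation_intCast_eq_pow {ℓ : ℕ} (hℓ : ℓ.Prime) (hO : (ℓ : K) ∈ O.nonunits)
    {n : ℤ} (hn : n ≠ 0) : ∃ e : ℕ, O.valuation (n : K) = O.valuation (ℓ : K) ^ e := by
  obtain ⟨e, he⟩ := exists_valuation_natCast_eq_pow O hℓ hO (n := n.natAbs) (by simpa using hn)
  refine ⟨e, ?_⟩
  rw [← he]
  rcases Int.natAbs_eq n with h | h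
  · conv_lhs => rw [h]
    simp
  · conv_lhs => rw [h]
    simp

variable [Algebra ℚ K] [FiniteDimensional ℚ K]

/-- **Distinct cosets are independent**: among `[K:ℚ] + 1` nonzero elements two have values
differing by a power of the value of `ℓ`. -/
theorem exists_valuation_eq_mul_pow {ℓ : ℕ} (hℓ : ℓ.Prime) (hO : (ℓ : K) ∈ O.nonunits)
    (x : Fin (Module.finrank ℚ K + 1) → K) (hx : ∀ i, x i ≠ 0) :
    ∃ i j, i ≠ j ∧ ∃ c : ℕ, O.valuation (x i) = O.valuation (x j) * O.valuation (ℓ : K) ^ c := by
  classical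
  have : CharZero K := algebraRat.charZero K
  have hℓ0 : O.valuation (ℓ : K) ≠ 0 := by
    rw [Ne, map_eq_zero]
    exact_mod_cast hℓ.ne_zero
  have hnot : ¬ LinearIndependent ℤ x := by
    rw [LinearIndependent.iff_fractionRing ℤ ℚ]
    intro hli
    have := hli.fintype_card_le_finrank
    simp at this
  rw [Fintype.not_linearIndependent_iff] at hnot
  obtain ⟨g, hsum, i1, hi1⟩ := hnot
  set s : Finset (Fin (Module.finrank ℚ K + 1)) := Finset.univ.filter (fun i => g i ≠ 0) with hs
  have hsne : s.Nonempty := ⟨i1, by simp [hs, hi1]⟩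
  obtain ⟨i0, hi0s, hmax⟩ := Finset.exists_max_image s (fun i => O.valuation (g i • x i)) hsne
  have hgi0 : g i0 ≠ 0 := by simpa [hs] using hi0s
  have hterm0 : O.valuation (g i0 • x i0) ≠ 0 := by
    rw [Ne, map_eq_zero, zsmul_eq_mul]
    exact mul_ne_zero (by exact_mod_cast hgi0) (hx i0)
  -- there is another index with the same value
  have hex : ∃ j ∈ s, j ≠ i0 ∧ O.valuation (g j • x j) = O.valuation (g i0 • x i0) := by
    by_contra hcon
    push Not at hcon
    have hlt : ∀ j ∈ Finset.univ.erase i0, O.valuation (g j • x j) < O.valuation (g i0 • x i0) := by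
      intro j hj
      have hji : j ≠ i0 := Finset.ne_of_mem_erase hj
      by_cases hgj : g j = 0
      · rw [hgj, zero_smul, map_zero]
        exact zero_lt_iff.mpr hterm0
      · have hjs : j ∈ s := by simp [hs, hgj]
        exact lt_of_le_of_ne (hmax j hjs) (hcon j hjs hji)
    have h2 := O.valuation.map_sum_lt hterm0 hlt
    have h3 : ∑ j ∈ Finset.univ.erase i0, g j • x j = - (g i0 • x i0) := by
      rw [eq_neg_iff_add_eq_zero, add_comm,
        Finset.add_sum_erase Finset.univ (fun j => g j • x j) (Finset.mem_univ i0)]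
      exact hsum
    rw [h3, Valuation.map_neg] at h2
    exact lt_irrefl _ h2
  obtain ⟨j, hjs, hji, hval⟩ := hex
  have hgj : g j ≠ 0 := by simpa [hs] using hjs
  obtain ⟨a, ha⟩ := exists_valuation_intCast_eq_pow O hℓ hO hgj
  obtain ⟨b, hb⟩ := exists_valuation_intCast_eq_pow O hℓ hO hgi0
  rw [zsmul_eq_mul, zsmul_eq_mul, map_mul, map_mul, ha, hb] at hval
  -- `t^a * v(x j) = t^b * v(x i0)`
  rcases le_total a b with hab | hab
  · -- `v (x j) = v (x i0) * t^(b-a)`
    refine ⟨j, i0, hji, b - a, ?_⟩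
    have hb' : b = a + (b - a) := by omega
    rw [hb', pow_add, mul_assoc] at hval
    have := mul_left_cancel₀ (pow_ne_zero a hℓ0) hval
    rw [this, mul_comm]
  · refine ⟨i0, j, hji.symm, a - b, ?_⟩
    have ha' : a = b + (a - b) := by omega
    rw [ha', pow_add, mul_assoc] at hval
    have := mul_left_cancel₀ (pow_ne_zero b hℓ0) hval
    rw [← this, mul_comm]

/-- Archimedean property relative to `ℓ`: a power of any nonzero non-unit has the value of a
positive power of `ℓ`. -/
theorem exists_pow_valuation_eq_pow {ℓ : ℕ} (hℓ : ℓ.Prime) (hO : (ℓ : K) ∈ O.nonunits)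
    {y : K} (hy0 : y ≠ 0) (hy1 : O.valuation y < 1) :
    ∃ d c : ℕ, 0 < d ∧ 0 < c ∧ O.valuation y ^ d = O.valuation (ℓ : K) ^ c := by
  have ht1 : O.valuation (ℓ : K) < 1 := O.mem_nonunits_iff.mp hO
  have hvy0 : O.valuation y ≠ 0 := by rwa [Ne, map_eq_zero]
  obtain ⟨i, j, hij, c, hc⟩ := exists_valuation_eq_mul_pow O hℓ hO (fun i => y ^ (i : ℕ))
    (fun i => pow_ne_zero _ hy0)
  simp only [map_pow] at hc
  rcases lt_or_gt_of_ne (fun h => hij (Fin.ext h) : (i : ℕ) ≠ (j : ℕ)) with hlt | hgt
  · exfalso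
    have hj : (j : ℕ) = (i : ℕ) + ((j : ℕ) - (i : ℕ)) := by omega
    rw [hj, pow_add, mul_assoc] at hc
    have h1 : (1 : O.ValueGroup) = O.valuation y ^ ((j : ℕ) - (i : ℕ)) * O.valuation (ℓ : K) ^ c := by
      have := mul_left_cancel₀ (pow_ne_zero (i : ℕ) hvy0) ((mul_one _).trans hc)
      exact this
    have h2 : O.valuation y ^ ((j : ℕ) - (i : ℕ)) * O.valuation (ℓ : K) ^ c < 1 :=
      mul_lt_one_of_nonneg_of_lt_one_left zero_le
        (pow_lt_one₀ zero_le hy1 (by omega)) (pow_le_one₀ zero_le ht1.le)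
    exact lt_irrefl _ (h1 ▸ h2)
  · have hi : (i : ℕ) = (j : ℕ) + ((i : ℕ) - (j : ℕ)) := by omega
    rw [hi, pow_add] at hc
    have h1 := mul_left_cancel₀ (pow_ne_zero (j : ℕ) hvy0) hc
    refine ⟨(i : ℕ) - (j : ℕ), c, by omega, ?_, h1⟩
    rcases Nat.eq_zero_or_pos c with hc0 | hc0
    · exfalso
      rw [hc0, pow_zero] at h1
      have h2 : O.valuation y ^ ((i : ℕ) - (j : ℕ)) < 1 := pow_lt_one₀ zero_le hy1 (by omega)
      exact lt_irrefl _ (h1 ▸ h2)
    · exact hc0

/-- **(N1, core)** A valuation subring of a finite extension of `ℚ` in which a prime `ℓ` is a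
non-unit is a discrete valuation ring. -/
theorem isDiscreteValuationRing_of_finiteDimensional {ℓ : ℕ} (hℓ : ℓ.Prime)
    (hO : (ℓ : K) ∈ O.nonunits) : IsDiscreteValuationRing O := by
  classical
  have hchar : CharZero K := algebraRat.charZero K
  have ht1 : O.valuation (ℓ : K) < 1 := O.mem_nonunits_iff.mp hO
  have hℓK : (ℓ : K) ≠ 0 := by exact_mod_cast hℓ.ne_zero
  have ht0 : O.valuation (ℓ : K) ≠ 0 := by rwa [Ne, map_eq_zero]
  -- two values in `(t, 1]` differing by a power of `t` are equal
  have hkey : ∀ a b : O.ValueGroup, O.valuation (ℓ : K) < a → b ≤ 1 → ∀ c : ℕ,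
      a = b * O.valuation (ℓ : K) ^ c → c = 0 := by
    intro a b ha hb c hab
    by_contra hc
    obtain ⟨c', rfl⟩ := Nat.exists_eq_succ_of_ne_zero hc
    have hle : a ≤ O.valuation (ℓ : K) := by
      rw [hab, pow_succ, ← mul_assoc]
      calc b * O.valuation (ℓ : K) ^ c' * O.valuation (ℓ : K)
          ≤ 1 * O.valuation (ℓ : K) :=
            mul_le_mul_left (mul_le_one' hb (pow_le_one₀ zero_le ht1.le)) _
        _ = O.valuation (ℓ : K) := one_mul _
    exact absurd ha (not_lt.mpr hle)
  -- the set of values in `(t, 1)` is finite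
  let S : Set O.ValueGroup :=
    {γ | (∃ x : K, x ≠ 0 ∧ O.valuation x = γ) ∧ O.valuation (ℓ : K) < γ ∧ γ < 1}
  have hSfin : S.Finite := by
    by_contra hinf
    have hinf' : S.Infinite := hinf
    let f := hinf'.natEmbedding S
    choose y hy using fun i : Fin (Module.finrank ℚ K + 1) => (f (i : ℕ)).2.1
    obtain ⟨i, j, hij, c, hc⟩ := exists_valuation_eq_mul_pow O hℓ hO y (fun i => (hy i).1)
    rw [(hy i).2, (hy j).2] at hc
    have hc0 := hkey _ _ (f (i : ℕ)).2.2.1 (f (j : ℕ)).2.2.2.le c hc
    rw [hc0, pow_zero, mul_one] at hc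
    have h2 := f.injective (Subtype.ext hc)
    exact hij (Fin.ext h2)
  let T : Finset O.ValueGroup := insert (O.valuation (ℓ : K)) hSfin.toFinset
  have hTne : T.Nonempty := Finset.insert_nonempty _ _
  obtain ⟨γ0, hγ0T, hγ0max'⟩ : ∃ γ0 ∈ T, ∀ γ ∈ T, γ ≤ γ0 :=
    ⟨T.max' hTne, T.max'_mem hTne, fun γ hγ => T.le_max' γ hγ⟩
  have hγ0lt : γ0 < 1 := by
    rcases Finset.mem_insert.mp hγ0T with h | h
    · rw [h]; exact ht1
    · exact ((hSfin.mem_toFinset).mp h).2.2
  have htγ0 : O.valuation (ℓ : K) ≤ γ0 := hγ0max' _ (Finset.mem_insert_self _ _)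
  have hγ0ne : γ0 ≠ 0 := fun h => ht0 (le_antisymm (h ▸ htγ0) zero_le)
  have hγ0max : ∀ x : K, x ≠ 0 → O.valuation x < 1 → O.valuation x ≤ γ0 := by
    intro x hx0 hx1
    by_cases hxt : O.valuation (ℓ : K) < O.valuation x
    · exact hγ0max' _ (Finset.mem_insert_of_mem
        ((hSfin.mem_toFinset).mpr ⟨⟨x, hx0, rfl⟩, hxt, hx1⟩))
    · exact (not_lt.mp hxt).trans htγ0
  obtain ⟨π, hπ⟩ : ∃ π : K, O.valuation π = γ0 := O.valuation_surjective γ0
  have hπ0 : π ≠ 0 := by
    rintro rfl
    rw [map_zero] at hπ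
    exact hγ0ne hπ.symm
  have hπ1 : O.valuation π < 1 := hπ ▸ hγ0lt
  have hπO : π ∈ O := (O.valuation_le_one_iff π).mp hπ1.le
  -- every nonzero element of `O` has the value of a power of `π`
  have hfac : ∀ x : K, x ≠ 0 → x ∈ O → ∃ n : ℕ, O.valuation x = O.valuation π ^ n := by
    intro x hx0 hxO
    have hx1 : O.valuation x ≤ 1 := (O.valuation_le_one_iff x).mpr hxO
    -- some power of `π` has value `≤ v x`
    have hex : ∃ k : ℕ, O.valuation π ^ k ≤ O.valuation x := by
      rcases lt_or_eq_of_le hx1 with hlt | heq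
      · obtain ⟨d, c, hd, hc, hdc⟩ := exists_pow_valuation_eq_pow O hℓ hO hx0 hlt
        obtain ⟨d', c', hd', hc', hdc'⟩ := exists_pow_valuation_eq_pow O hℓ hO hπ0 hπ1
        refine ⟨d' * c, ?_⟩
        calc O.valuation π ^ (d' * c) = (O.valuation (ℓ : K) ^ c') ^ c := by
              rw [pow_mul, hdc']
          _ = (O.valuation (ℓ : K) ^ c) ^ c' := by rw [← pow_mul, ← pow_mul, mul_comm]
          _ ≤ O.valuation (ℓ : K) ^ c := by
              obtain ⟨c'', rfl⟩ := Nat.exists_eq_succ_of_ne_zero hc'.ne'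
              rw [pow_succ]
              exact mul_le_of_le_one_left' (pow_le_one₀ zero_le (pow_le_one₀ zero_le ht1.le))
          _ = O.valuation x ^ d := hdc.symm
          _ ≤ O.valuation x := by
              obtain ⟨d'', rfl⟩ := Nat.exists_eq_succ_of_ne_zero hd.ne'
              rw [pow_succ]
              exact mul_le_of_le_one_left' (pow_le_one₀ zero_le hx1)
      · exact ⟨0, by rw [pow_zero, heq]⟩
    refine ⟨Nat.find hex, le_antisymm ?_ (Nat.find_spec hex)⟩
    by_contra hnot
    have hlt : O.valuation π ^ Nat.find hex < O.valuation x := not_le.mp hnot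
    rcases Nat.eq_zero_or_pos (Nat.find hex) with h0 | hpos
    · rw [h0, pow_zero] at hlt
      exact absurd hx1 (not_le.mpr hlt)
    · obtain ⟨k, hk⟩ := Nat.exists_eq_succ_of_ne_zero hpos.ne'
      have hmin : ¬ O.valuation π ^ k ≤ O.valuation x :=
        Nat.find_min hex (by omega)
      have hπk0 : O.valuation π ^ k ≠ 0 := pow_ne_zero _ (by rwa [Ne, map_eq_zero])
      have hy1 : O.valuation (x / π ^ k) < 1 := by
        rw [map_div₀, map_pow]
        exact (div_lt_one₀ (zero_lt_iff.mpr hπk0)).mpr (not_le.mp hmin)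
      have hy0 : x / π ^ k ≠ 0 := div_ne_zero hx0 (pow_ne_zero _ hπ0)
      have hle := hγ0max _ hy0 hy1
      rw [map_div₀, map_pow, ← hπ, div_le_iff₀ (zero_lt_iff.mpr hπk0)] at hle
      rw [hk, pow_succ, mul_comm] at hlt
      exact absurd hle (not_le.mpr hlt)
  -- `π` is irreducible in `O`
  have hirr : Irreducible (⟨π, hπO⟩ : O) := by
    refine ⟨?_, ?_⟩
    · rw [O.valuation_eq_one_iff]
      exact hπ1.ne
    · intro a b hab
      by_contra hcon
      push Not at hcon
      obtain ⟨ha, hb⟩ := hcon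
      have ha1 : O.valuation (a : K) < 1 :=
        lt_of_le_of_ne (O.valuation_le_one a) (fun h => ha ((O.valuation_eq_one_iff a).mpr h))
      have hb1 : O.valuation (b : K) < 1 :=
        lt_of_le_of_ne (O.valuation_le_one b) (fun h => hb ((O.valuation_eq_one_iff b).mpr h))
      have hab' : π = (a : K) * (b : K) := congrArg Subtype.val hab
      have ha0 : (a : K) ≠ 0 := by
        rintro h
        rw [h, zero_mul] at hab'
        exact hπ0 hab'
      have hb0 : (b : K) ≠ 0 := by
        rintro h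
        rw [h, mul_zero] at hab'
        exact hπ0 hab'
      have h1 := hγ0max _ ha0 ha1
      have h2 := hγ0max _ hb0 hb1
      have h3 : O.valuation π ≤ γ0 * γ0 := by
        rw [hab', map_mul]
        exact mul_le_mul' h1 h2
      rw [hπ] at h3
      have h4 : γ0 * γ0 < γ0 := by
        calc γ0 * γ0 < γ0 * 1 := (mul_lt_mul_iff_right₀ (zero_lt_iff.mpr hγ0ne)).mpr hγ0lt
          _ = γ0 := mul_one _
      exact lt_irrefl _ (lt_of_le_of_lt h3 h4)
  refine IsDiscreteValuationRing.ofHasUnitMulPowIrreducibleFactorization ⟨⟨π, hπO⟩, hirr, ?_⟩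
  intro x hx
  have hx0 : (x : K) ≠ 0 := fun h => hx (Subtype.ext h)
  obtain ⟨n, hn⟩ := hfac x hx0 x.2
  rw [← map_pow] at hn
  obtain ⟨u, hu⟩ := (O.valuation_eq_iff _ _).mp hn
  refine ⟨n, u, Subtype.ext ?_⟩
  push_cast
  rw [mul_comm]
  exact hu

end DVR

/-! ## Generic functoriality of the Prelude function fields under coefficient maps -/

section Generic

variable {L L' : Type*} [Field L] [Field L']

theorem coeffMap_algebraMap_field (φ : L →+* L') (a : L) :
    coeffMap φ (algebraMap L (LaurentSeries L) a) = algebraMap L' (LaurentSeries L') (φ a) := by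
  rw [algebraMap_laurentSeries_eq_single, algebraMap_laurentSeries_eq_single, coeffMap_single]

theorem coeffMap_injective_of_injective {R S : Type*} [CommRing R] [CommRing S] (f : R →+* S)
    (hf : Function.Injective f) : Function.Injective (coeffMap f) := by
  intro x y hxy
  ext n
  have := congrArg (fun s => HahnSeries.coeff s n) hxy
  simp only [coeffMap_coeff] at this
  exact hf this

/-- A Laurent series all of whose coefficients lie in the range of an injective ring hom is a
`coeffMap`-image. -/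
theorem exists_coeffMap_eq {R S : Type*} [CommRing R] [CommRing S] (f : R →+* S)
    (hf : Function.Injective f) (x : LaurentSeries S) (h : ∀ n, x.coeff n ∈ f.range) :
    ∃ y : LaurentSeries R, coeffMap f y = x := by
  choose g hg using h
  have hsupp : Function.support g ⊆ x.support := by
    intro n hn
    rw [Function.mem_support] at hn
    rw [HahnSeries.mem_support, ← hg n]
    exact fun h0 => hn (hf (h0.trans (map_zero f).symm))
  refine ⟨⟨g, x.isPWO_support.mono hsupp⟩, ?_⟩
  ext n
  rw [coeffMap_coeff]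
  exact hg n

variable [Algebra ℚ L] [Algebra ℚ L']

theorem coeffMap_coeffEmb_field (φ : L →+* L') (z : LaurentSeries ℚ) :
    coeffMap φ (coeffEmb L z) = coeffEmb L' z := by
  rw [coeffEmb, coeffEmb, coeffMap_coeffMap]
  exact coeffMap_congr (RingHom.ext_rat _ _) z

/-- The image of the base-changed function field under a coefficient field map, as a closure. -/
theorem map_laurentBaseChange_toSubfield (F₀ : IntermediateField ℚ (LaurentSeries ℚ))
    (φ : L →+* L') :
    (laurentBaseChange L F₀).toSubfield.map (coeffMap φ) =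
      Subfield.closure ((algebraMap L' (LaurentSeries L')) '' (Set.range φ) ∪
        (coeffEmb L') '' (F₀ : Set (LaurentSeries ℚ))) := by
  rw [laurentBaseChange, IntermediateField.adjoin_toSubfield, RingHom.map_field_closure,
    Set.image_union]
  congr 2
  · ext x
    constructor
    · rintro ⟨_, ⟨a, rfl⟩, rfl⟩
      exact ⟨φ a, ⟨a, rfl⟩, (coeffMap_algebraMap_field φ a).symm⟩
    · rintro ⟨_, ⟨a, rfl⟩, rfl⟩
      exact ⟨_, ⟨a, rfl⟩, coeffMap_algebraMap_field φ a⟩
  · ext x
    constructor
    · rintro ⟨_, ⟨z, hz, rfl⟩, rfl⟩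
      exact ⟨z, hz, (coeffMap_coeffEmb_field φ z).symm⟩
    · rintro ⟨z, hz, rfl⟩
      exact ⟨_, ⟨z, hz, rfl⟩, coeffMap_coeffEmb_field φ z⟩

omit [Algebra ℚ L] [Algebra ℚ L'] in
theorem coeffMap_image_divisorExpansionsC (φ : L →+* L') (N : ℕ) :
    (coeffMap φ) '' (divisorExpansionsC L N) = divisorExpansionsC L' N := by
  ext x
  constructor
  · rintro ⟨_, ⟨d, hd, hdN, rfl⟩, rfl⟩
    exact ⟨d, hd, hdN, by rw [coeffMap_qExpand, coeffMap_jqModC]⟩
  · rintro ⟨d, hd, hdN, rfl⟩
    exact ⟨_, ⟨d, hd, hdN, rfl⟩, by rw [coeffMap_qExpand, coeffMap_jqModC]⟩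

omit [Algebra ℚ L] [Algebra ℚ L'] in
/-- The image of the characteristic-free function field `modularFunctionFieldFullC` under a
coefficient field map, as a closure. -/
theorem map_modularFunctionFieldFullC_toSubfield (φ : L →+* L') (N : ℕ) :
    (modularFunctionFieldFullC L N).toSubfield.map (coeffMap φ) =
      Subfield.closure ((algebraMap L' (LaurentSeries L')) '' (Set.range φ) ∪
        divisorExpansionsC L' N) := by
  rw [modularFunctionFieldFullC, IntermediateField.adjoin_toSubfield, RingHom.map_field_closure,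
    Set.image_union, coeffMap_image_divisorExpansionsC]
  congr 2
  ext x
  constructor
  · rintro ⟨_, ⟨a, rfl⟩, rfl⟩
    exact ⟨φ a, ⟨a, rfl⟩, (coeffMap_algebraMap_field φ a).symm⟩
  · rintro ⟨_, ⟨a, rfl⟩, rfl⟩
    exact ⟨_, ⟨a, rfl⟩, coeffMap_algebraMap_field φ a⟩

end Generic

/-! ## Descent from `(Qbar, A)` to a number field `K0` with the DVR `A ∩ K0` -/

section NF

local notation "Qb" => AlgebraicClosure ℚ

/-- **(N1)** `A ∩ K0` is a discrete valuation ring for every number field `K0 ⊆ Qbar` and every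
valuation subring `A` of `Qbar` over a prime `ℓ`. -/
theorem natCast_mem_nonunits_comap (A : ValuationSubring Qb) (K0 : IntermediateField ℚ Qb)
    {ℓ : ℕ} (hA : A.LiesOverPrime ℓ) :
    ((ℓ : ℕ) : K0) ∈ (A.comap (algebraMap K0 Qb)).nonunits := by
  rw [ValuationSubring.mem_nonunits_iff_or]
  have hA' := (A.mem_nonunits_iff_or).mp hA
  rcases hA' with h0 | hinv
  · left
    exact_mod_cast h0
  · right
    intro hmem
    apply hinv
    have := ValuationSubring.mem_comap.mp hmem
    simpa using this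

theorem isDiscreteValuationRing_comap (A : ValuationSubring Qb) (K0 : IntermediateField ℚ Qb)
    [FiniteDimensional ℚ K0] {ℓ : ℕ} (hℓ : ℓ.Prime) (hA : A.LiesOverPrime ℓ) :
    IsDiscreteValuationRing (A.comap (algebraMap K0 Qb)) :=
  isDiscreteValuationRing_of_finiteDimensional _ hℓ (natCast_mem_nonunits_comap A K0 hA)

/-! ### (N2) field descent on the characteristic-zero side -/

/-- The elements of `laurentBaseChange Qbar F₀` that are *defined over* `K0`. -/
def descField (F₀ : IntermediateField ℚ (LaurentSeries ℚ)) (K0 : IntermediateField ℚ Qb) :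
    Subfield (LaurentSeries Qb) :=
  Subfield.closure ((algebraMap Qb (LaurentSeries Qb)) '' (K0 : Set Qb) ∪
    (coeffEmb Qb) '' (F₀ : Set (LaurentSeries ℚ)))

theorem descField_eq_map (F₀ : IntermediateField ℚ (LaurentSeries ℚ))
    (K0 : IntermediateField ℚ Qb) :
    descField F₀ K0 =
      (laurentBaseChange K0 F₀).toSubfield.map (coeffMap (algebraMap K0 Qb)) := by
  rw [map_laurentBaseChange_toSubfield, descField]
  congr 3
  ext x
  simp

theorem mem_descField_iff {F₀ : IntermediateField ℚ (LaurentSeries ℚ)}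
    {K0 : IntermediateField ℚ Qb} {x : LaurentSeries Qb} :
    x ∈ descField F₀ K0 ↔
      ∃ x0 ∈ laurentBaseChange K0 F₀, coeffMap (algebraMap K0 Qb) x0 = x := by
  rw [descField_eq_map, Subfield.mem_map]
  rfl

theorem descField_mono (F₀ : IntermediateField ℚ (LaurentSeries ℚ))
    {K0 K1 : IntermediateField ℚ Qb} (h : K0 ≤ K1) : descField F₀ K0 ≤ descField F₀ K1 :=
  Subfield.closure_mono (Set.union_subset_union_left _ (Set.image_mono h))

theorem descField_le (F₀ : IntermediateField ℚ (LaurentSeries ℚ)) (K0 : IntermediateField ℚ Qb) :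
    descField F₀ K0 ≤ (laurentBaseChange Qb F₀).toSubfield := by
  rw [descField, Subfield.closure_le]
  rintro x (⟨a, -, rfl⟩ | ⟨z, hz, rfl⟩)
  · exact (laurentBaseChange Qb F₀).algebraMap_mem a
  · exact coeffEmb_mem_laurentBaseChange Qb hz

/-- **(N2)** Every element of `laurentBaseChange Qbar F₀` is defined over a number field. -/
theorem exists_mem_descField (F₀ : IntermediateField ℚ (LaurentSeries ℚ))
    {x : LaurentSeries Qb} (hx : x ∈ laurentBaseChange Qb F₀) :
    ∃ K0 : IntermediateField ℚ Qb, FiniteDimensional ℚ K0 ∧ x ∈ descField F₀ K0 := by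
  have halg : Algebra.IsAlgebraic ℚ Qb := AlgebraicClosure.isAlgebraic ℚ
  rw [mem_laurentBaseChange_iff] at hx
  induction hx using Subfield.closure_induction with
  | mem y hy =>
    rcases hy with ⟨a, rfl⟩ | hy
    · exact ⟨IntermediateField.adjoin ℚ {a},
        IntermediateField.adjoin.finiteDimensional (halg.isAlgebraic a).isIntegral,
        Subfield.subset_closure
          (Or.inl ⟨a, IntermediateField.mem_adjoin_simple_self ℚ a, rfl⟩)⟩
    · exact ⟨⊥, inferInstance, Subfield.subset_closure (Or.inr hy)⟩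
  | one => exact ⟨⊥, inferInstance, one_mem _⟩
  | add x y _ _ hx hy =>
    obtain ⟨K1, h1, hx1⟩ := hx
    obtain ⟨K2, h2, hy2⟩ := hy
    exact ⟨K1 ⊔ K2, IntermediateField.finiteDimensional_sup K1 K2,
      add_mem (descField_mono F₀ le_sup_left hx1) (descField_mono F₀ le_sup_right hy2)⟩
  | neg x _ hx =>
    obtain ⟨K1, h1, hx1⟩ := hx
    exact ⟨K1, h1, neg_mem hx1⟩
  | inv x _ hx =>
    obtain ⟨K1, h1, hx1⟩ := hx
    exact ⟨K1, h1, inv_mem hx1⟩
  | mul x y _ _ hx hy =>
    obtain ⟨K1, h1, hx1⟩ := hx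
    obtain ⟨K2, h2, hy2⟩ := hy
    exact ⟨K1 ⊔ K2, IntermediateField.finiteDimensional_sup K1 K2,
      mul_mem (descField_mono F₀ le_sup_left hx1) (descField_mono F₀ le_sup_right hy2)⟩

/-- **(N2)**, unbundled form with a prescribed lower bound for the number field. -/
theorem exists_descent (F₀ : IntermediateField ℚ (LaurentSeries ℚ))
    (K' : IntermediateField ℚ Qb) [FiniteDimensional ℚ K']
    {x : LaurentSeries Qb} (hx : x ∈ laurentBaseChange Qb F₀) :
    ∃ K0 : IntermediateField ℚ Qb, K' ≤ K0 ∧ FiniteDimensional ℚ K0 ∧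
      ∃ x0 ∈ laurentBaseChange K0 F₀, coeffMap (algebraMap K0 Qb) x0 = x := by
  obtain ⟨K1, h1, hx1⟩ := exists_mem_descField F₀ hx
  exact ⟨K' ⊔ K1, le_sup_left, IntermediateField.finiteDimensional_sup K' K1,
    mem_descField_iff.mp (descField_mono F₀ le_sup_right hx1)⟩

/-! ### (N3), (N4) the descended valuation ring, its inclusion and its residue field -/

variable (A : ValuationSubring Qb)

/-- The inclusion `A ∩ K0 → A`. -/
def descIncl (K0 : IntermediateField ℚ Qb) : (A.comap (algebraMap K0 Qb)) →+* A where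
  toFun x := ⟨algebraMap K0 Qb x, x.2⟩
  map_one' := Subtype.ext (map_one _)
  map_mul' _ _ := Subtype.ext (map_mul _ _ _)
  map_zero' := Subtype.ext (map_zero _)
  map_add' _ _ := Subtype.ext (map_add _ _ _)

@[simp] theorem coe_descIncl (K0 : IntermediateField ℚ Qb) (x : A.comap (algebraMap K0 Qb)) :
    ((descIncl A K0 x : A) : Qb) = ((x : K0) : Qb) := rfl

theorem subtype_comp_descIncl (K0 : IntermediateField ℚ Qb) :
    A.subtype.comp (descIncl A K0) =
      (algebraMap K0 Qb).comp (A.comap (algebraMap K0 Qb)).subtype := rfl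

theorem descIncl_injective (K0 : IntermediateField ℚ Qb) :
    Function.Injective (descIncl A K0) := by
  intro x y hxy
  have := congrArg (fun z : A => (z : Qb)) hxy
  exact Subtype.ext (Subtype.ext this)

instance isLocalHom_descIncl (K0 : IntermediateField ℚ Qb) : IsLocalHom (descIncl A K0) := by
  constructor
  intro x hx
  obtain ⟨y, hy⟩ := isUnit_iff_exists_inv.mp hx
  have hy' : ((x : K0) : Qb) * (y : Qb) = 1 := congrArg (fun z : A => (z : Qb)) hy
  have hx0 : (x : K0) ≠ 0 := by
    rintro h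
    rw [h] at hy'
    simp at hy'
  have hyeq : (y : Qb) = (((x : K0)⁻¹ : K0) : Qb) := by
    have hx0' : ((x : K0) : Qb) ≠ 0 := by
      simpa using hx0
    rw [IntermediateField.coe_inv]
    exact eq_inv_of_mul_eq_one_right hy'
  have hmem : (x : K0)⁻¹ ∈ A.comap (algebraMap K0 Qb) := by
    rw [ValuationSubring.mem_comap]
    show (((x : K0)⁻¹ : K0) : Qb) ∈ A
    rw [← hyeq]
    exact y.2
  exact isUnit_iff_exists_inv.mpr ⟨⟨(x : K0)⁻¹, hmem⟩, Subtype.ext (mul_inv_cancel₀ hx0)⟩

/-- The residue field map `κ(A ∩ K0) → κ(A)`. -/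
def resMap (K0 : IntermediateField ℚ Qb) :
    IsLocalRing.ResidueField (A.comap (algebraMap K0 Qb)) →+* IsLocalRing.ResidueField A :=
  IsLocalRing.ResidueField.map (descIncl A K0)

theorem resMap_residue (K0 : IntermediateField ℚ Qb) (x : A.comap (algebraMap K0 Qb)) :
    resMap A K0 (IsLocalRing.residue _ x) = IsLocalRing.residue A (descIncl A K0 x) :=
  IsLocalRing.ResidueField.map_residue (descIncl A K0) x

theorem resMap_comp_residue (K0 : IntermediateField ℚ Qb) :
    (resMap A K0).comp (IsLocalRing.residue _) = (IsLocalRing.residue A).comp (descIncl A K0) :=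
  RingHom.ext fun x => resMap_residue A K0 x

theorem resMap_injective (K0 : IntermediateField ℚ Qb) : Function.Injective (resMap A K0) :=
  (resMap A K0).injective

/-- The range of the residue field map: residues of elements of `A` lying in `K0`. -/
theorem range_resMap (K0 : IntermediateField ℚ Qb) :
    Set.range (resMap A K0) = (IsLocalRing.residue A) '' {a : A | (a : Qb) ∈ K0} := by
  ext c
  constructor
  · rintro ⟨c0, rfl⟩
    obtain ⟨x, rfl⟩ := IsLocalRing.residue_surjective c0
    exact ⟨descIncl A K0 x, (x : K0).2, (resMap_residue A K0 x).symm⟩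
  · rintro ⟨a, ha, rfl⟩
    exact ⟨IsLocalRing.residue _ (⟨⟨(a : Qb), ha⟩, a.2⟩ : A.comap (algebraMap K0 Qb)),
      resMap_residue A K0 _⟩

theorem range_resMap_mono {K0 K1 : IntermediateField ℚ Qb} (h : K0 ≤ K1) :
    Set.range (resMap A K0) ⊆ Set.range (resMap A K1) := by
  rw [range_resMap, range_resMap]
  exact Set.image_mono fun a ha => h ha

/-- **(N3)** A Laurent series over `A` whose image over `Qbar` has all coefficients in `K0`
descends uniquely to a Laurent series over `A ∩ K0`. -/
theorem exists_series_descent (K0 : IntermediateField ℚ Qb) (y : LaurentSeries A)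
    (x0 : LaurentSeries K0)
    (h : coeffMap A.subtype y = coeffMap (algebraMap K0 Qb) x0) :
    ∃ y0 : LaurentSeries (A.comap (algebraMap K0 Qb)),
      coeffMap (A.comap (algebraMap K0 Qb)).subtype y0 = x0 ∧
      coeffMap (descIncl A K0) y0 = y := by
  have hcoeff : ∀ n, x0.coeff n ∈ (A.comap (algebraMap K0 Qb)).subtype.range := by
    intro n
    have hn := congrArg (fun s => HahnSeries.coeff s n) h
    simp only [coeffMap_coeff] at hn
    have hmem : x0.coeff n ∈ A.comap (algebraMap K0 Qb) := by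
      rw [ValuationSubring.mem_comap, ← hn]
      exact (y.coeff n).2
    exact ⟨⟨x0.coeff n, hmem⟩, rfl⟩
  obtain ⟨y0, hy0⟩ := exists_coeffMap_eq (A.comap (algebraMap K0 Qb)).subtype
    (ValuationSubring.subtype_injective _) x0 hcoeff
  refine ⟨y0, hy0, ?_⟩
  apply coeffMap_injective_of_injective A.subtype (ValuationSubring.subtype_injective A)
  rw [h, ← hy0, coeffMap_coeffMap, coeffMap_coeffMap, subtype_comp_descIncl]

/-- **(N4)** Reduction commutes with descent. -/
theorem coeffMap_residue_descIncl (K0 : IntermediateField ℚ Qb)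
    (y0 : LaurentSeries (A.comap (algebraMap K0 Qb))) :
    coeffMap (IsLocalRing.residue A) (coeffMap (descIncl A K0) y0) =
      coeffMap (resMap A K0) (coeffMap (IsLocalRing.residue _) y0) := by
  rw [coeffMap_coeffMap, coeffMap_coeffMap, resMap_comp_residue]

/-! ### (N5) descent on the residue side -/

/-- The elements of `modularFunctionFieldFullC κ(A) N` that are *defined over* `κ(A ∩ K0)`. -/
def resDescField (N : ℕ) (K0 : IntermediateField ℚ Qb) :
    Subfield (LaurentSeries (IsLocalRing.ResidueField A)) :=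
  Subfield.closure ((algebraMap (IsLocalRing.ResidueField A)
      (LaurentSeries (IsLocalRing.ResidueField A))) '' (Set.range (resMap A K0)) ∪
    divisorExpansionsC (IsLocalRing.ResidueField A) N)

theorem resDescField_eq_map (N : ℕ) (K0 : IntermediateField ℚ Qb) :
    resDescField A N K0 =
      (modularFunctionFieldFullC (IsLocalRing.ResidueField (A.comap (algebraMap K0 Qb)))
        N).toSubfield.map (coeffMap (resMap A K0)) := by
  rw [map_modularFunctionFieldFullC_toSubfield, resDescField]

theorem mem_resDescField_iff {N : ℕ} {K0 : IntermediateField ℚ Qb}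
    {w : LaurentSeries (IsLocalRing.ResidueField A)} :
    w ∈ resDescField A N K0 ↔
      ∃ w0 ∈ modularFunctionFieldFullC (IsLocalRing.ResidueField (A.comap (algebraMap K0 Qb))) N,
        coeffMap (resMap A K0) w0 = w := by
  rw [resDescField_eq_map, Subfield.mem_map]
  rfl

theorem resDescField_mono (N : ℕ) {K0 K1 : IntermediateField ℚ Qb} (h : K0 ≤ K1) :
    resDescField A N K0 ≤ resDescField A N K1 :=
  Subfield.closure_mono (Set.union_subset_union_left _ (Set.image_mono (range_resMap_mono A h)))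

/-- **(N5)** Every element of the characteristic-`ℓ` function field over `κ(A)` is defined over
the residue field of `A ∩ K0` for some number field `K0`. -/
theorem exists_mem_resDescField (N : ℕ) {w : LaurentSeries (IsLocalRing.ResidueField A)}
    (hw : w ∈ modularFunctionFieldFullC (IsLocalRing.ResidueField A) N) :
    ∃ K0 : IntermediateField ℚ Qb, FiniteDimensional ℚ K0 ∧ w ∈ resDescField A N K0 := by
  have halg : Algebra.IsAlgebraic ℚ Qb := AlgebraicClosure.isAlgebraic ℚ
  replace hw : w ∈ Subfield.closure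
      (Set.range (algebraMap (IsLocalRing.ResidueField A)
        (LaurentSeries (IsLocalRing.ResidueField A))) ∪
        divisorExpansionsC (IsLocalRing.ResidueField A) N) := hw
  induction hw using Subfield.closure_induction with
  | mem y hy =>
    rcases hy with ⟨c, rfl⟩ | hy
    · obtain ⟨a, rfl⟩ := IsLocalRing.residue_surjective c
      refine ⟨IntermediateField.adjoin ℚ {(a : Qb)},
        IntermediateField.adjoin.finiteDimensional (halg.isAlgebraic (a : Qb)).isIntegral,
        Subfield.subset_closure (Or.inl ⟨_, ?_, rfl⟩)⟩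
      rw [range_resMap]
      exact ⟨a, IntermediateField.mem_adjoin_simple_self ℚ (a : Qb), rfl⟩
    · exact ⟨⊥, inferInstance, Subfield.subset_closure (Or.inr hy)⟩
  | one => exact ⟨⊥, inferInstance, one_mem _⟩
  | add x y _ _ hx hy =>
    obtain ⟨K1, h1, hx1⟩ := hx
    obtain ⟨K2, h2, hy2⟩ := hy
    exact ⟨K1 ⊔ K2, IntermediateField.finiteDimensional_sup K1 K2,
      add_mem (resDescField_mono A N le_sup_left hx1) (resDescField_mono A N le_sup_right hy2)⟩
  | neg x _ hx =>
    obtain ⟨K1, h1, hx1⟩ := hx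
    exact ⟨K1, h1, neg_mem hx1⟩
  | inv x _ hx =>
    obtain ⟨K1, h1, hx1⟩ := hx
    exact ⟨K1, h1, inv_mem hx1⟩
  | mul x y _ _ hx hy =>
    obtain ⟨K1, h1, hx1⟩ := hx
    obtain ⟨K2, h2, hy2⟩ := hy
    exact ⟨K1 ⊔ K2, IntermediateField.finiteDimensional_sup K1 K2,
      mul_mem (resDescField_mono A N le_sup_left hx1) (resDescField_mono A N le_sup_right hy2)⟩

/-- **(N5)**, unbundled form with a prescribed lower bound for the number field. -/
theorem exists_residue_descent (N : ℕ) (K' : IntermediateField ℚ Qb) [FiniteDimensional ℚ K']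
    {w : LaurentSeries (IsLocalRing.ResidueField A)}
    (hw : w ∈ modularFunctionFieldFullC (IsLocalRing.ResidueField A) N) :
    ∃ K0 : IntermediateField ℚ Qb, K' ≤ K0 ∧ FiniteDimensional ℚ K0 ∧
      ∃ w0 ∈ modularFunctionFieldFullC (IsLocalRing.ResidueField (A.comap (algebraMap K0 Qb))) N,
        coeffMap (resMap A K0) w0 = w := by
  obtain ⟨K1, h1, hw1⟩ := exists_mem_resDescField A N hw
  exact ⟨K' ⊔ K1, le_sup_left, IntermediateField.finiteDimensional_sup K' K1,
    (mem_resDescField_iff A).mp (resDescField_mono A N le_sup_right hw1)⟩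

/-- Constants of the residue field descend as well. -/
theorem exists_const_descent (K' : IntermediateField ℚ Qb) [FiniteDimensional ℚ K']
    (c : IsLocalRing.ResidueField A) :
    ∃ K0 : IntermediateField ℚ Qb, K' ≤ K0 ∧ FiniteDimensional ℚ K0 ∧
      c ∈ Set.range (resMap A K0) := by
  have halg : Algebra.IsAlgebraic ℚ Qb := AlgebraicClosure.isAlgebraic ℚ
  obtain ⟨a, rfl⟩ := IsLocalRing.residue_surjective c
  have hfd : FiniteDimensional ℚ (IntermediateField.adjoin ℚ {(a : Qb)}) :=
    IntermediateField.adjoin.finiteDimensional (halg.isAlgebraic (a : Qb)).isIntegral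
  refine ⟨K' ⊔ IntermediateField.adjoin ℚ {(a : Qb)}, le_sup_left,
    IntermediateField.finiteDimensional_sup K' _, ?_⟩
  rw [range_resMap]
  exact ⟨a, (le_sup_right : IntermediateField.adjoin ℚ {(a : Qb)} ≤ _)
    (IntermediateField.mem_adjoin_simple_self ℚ (a : Qb)), rfl⟩

end NF

end Fermat.Agent.S18.helper8351
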