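/-
S18 leaf HAUPT23 (helper1257): the level-2 and level-3 Hauptmodul packages.

Everything is derived from `E₂`-type weight 2 forms `eisP 2`, `eisP 3` (landed S16 brick), the
level one forms `E₄`, `E₆` at `z` and at `N z` (landed level-raising brick), and the Prelude Sturm
bound for `Γ₀(N)`; the transcendental input consists of three low-weight identities per level,
each checked on at most three `q`-coefficients.
-/
import Mathlib
import Fermat.Prelude.Thm_ModularForm_sturm_bound_Gamma0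
import Fermat.Agent.Lib.helper1219_LevelRaise
import Fermat.Agent.Lib.helper1356_Gamma0Index
import Fermat.Agent.S16.helper8794_EisensteinP

set_option autoImplicit false
set_option linter.unusedSimpArgs false

open UpperHalfPlane ModularForm EisensteinSeries CongruenceSubgroup
open scoped MatrixGroups

namespace Fermat.Agent.S18.helper1257

open Fermat.Agent.Lib.helper1219 Fermat.Agent.S16.helper8794

noncomputable section

/-! ### Generic tools: restriction, dilation, `q`-expansions of combinations -/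

/-- A level one form regarded as a form on `Γ₀(N)`. -/
def res (N : ℕ) {k : ℤ} (f : ModularForm 𝒮ℒ k) : ModularForm (Gamma0 N) k :=
  levelRaise N 1 (one_dvd N) f

/-- `τ ↦ f (N τ)` as a form on `Γ₀(N)`. -/
def dil (N : ℕ) [NeZero N] {k : ℤ} (f : ModularForm 𝒮ℒ k) : ModularForm (Gamma0 N) k :=
  levelRaise N N dvd_rfl f

/-- The point `N τ` of the upper half plane. -/
def mulPt (N : ℕ) [NeZero N] (τ : ℍ) : ℍ := diagMat N • τ

@[simp] lemma coe_mulPt (N : ℕ) [NeZero N] (τ : ℍ) : ((mulPt N τ : ℍ) : ℂ) = N * τ :=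
  coe_diagMat_smul N τ

lemma res_apply (N : ℕ) {k : ℤ} (f : ModularForm 𝒮ℒ k) (τ : ℍ) : res N f τ = f τ := by
  have h : (diagMat 1 • τ : ℍ) = τ := by
    apply UpperHalfPlane.ext
    rw [coe_diagMat_smul]
    simp
  rw [res, levelRaise_apply, h]

lemma dil_apply (N : ℕ) [NeZero N] {k : ℤ} (f : ModularForm 𝒮ℒ k) (τ : ℍ) :
    dil N f τ = f (mulPt N τ) := levelRaise_apply N N dvd_rfl f τ

lemma coeff_res (N : ℕ) {k : ℤ} (f : ModularForm 𝒮ℒ k) (m : ℕ) :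
    (qExpansion 1 (res N f)).coeff m = (qExpansion 1 f).coeff m := by
  rw [res, qExpansion_levelRaise_coeff]
  simp

lemma coeff_dil (N : ℕ) [NeZero N] {k : ℤ} (f : ModularForm 𝒮ℒ k) (m : ℕ) :
    (qExpansion 1 (dil N f)).coeff m = if N ∣ m then (qExpansion 1 f).coeff (m / N) else 0 :=
  qExpansion_levelRaise_coeff N N dvd_rfl f m

section QExp

variable {N : ℕ} {k a b : ℤ}

lemma hper (N : ℕ) :
    (1 : ℝ) ∈ ((Gamma0 N : Subgroup SL(2, ℤ)) : Subgroup (GL (Fin 2) ℝ)).strictPeriods :=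
  CongruenceSubgroup.one_mem_strictPeriods_Gamma0 N

lemma Q_add (f g : ModularForm (Gamma0 N) k) :
    qExpansion 1 ⇑(f + g) = qExpansion 1 f + qExpansion 1 g := by
  rw [FunLike.coe_add]
  exact ModularForm.qExpansion_add one_pos (hper N) f g

lemma Q_sub (f g : ModularForm (Gamma0 N) k) :
    qExpansion 1 ⇑(f - g) = qExpansion 1 f - qExpansion 1 g := by
  rw [FunLike.coe_sub]
  exact ModularForm.qExpansion_sub one_pos (hper N) f g

lemma Q_smul (c : ℂ) (f : ModularForm (Gamma0 N) k) :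
    qExpansion 1 ⇑(c • f) = c • qExpansion 1 f := by
  rw [FunLike.coe_smul]
  exact ModularForm.qExpansion_smul one_pos (hper N) c f

lemma Q_mul (f : ModularForm (Gamma0 N) a) (g : ModularForm (Gamma0 N) b) :
    qExpansion 1 (f.mul g) = qExpansion 1 f * qExpansion 1 g :=
  ModularForm.qExpansion_mul one_pos (hper N) f g

lemma Q_mcast (h : a = b) (f : ModularForm (Gamma0 N) a) :
    qExpansion 1 (ModularForm.mcast h f : ModularForm (Gamma0 N) b) = qExpansion 1 f := rfl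

end QExp

/-! ### Power series coefficients of products -/

lemma ps_coeff0_mul (φ ψ : PowerSeries ℂ) :
    (φ * ψ).coeff 0 = φ.coeff 0 * ψ.coeff 0 := by
  rw [PowerSeries.coeff_mul]
  simp

lemma ps_coeff1_mul (φ ψ : PowerSeries ℂ) :
    (φ * ψ).coeff 1 = φ.coeff 0 * ψ.coeff 1 + φ.coeff 1 * ψ.coeff 0 := by
  rw [PowerSeries.coeff_mul, Finset.Nat.sum_antidiagonal_eq_sum_range_succ_mk]
  simp [Finset.sum_range_succ]

lemma ps_coeff2_mul (φ ψ : PowerSeries ℂ) :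
    (φ * ψ).coeff 2 = φ.coeff 0 * ψ.coeff 2 + φ.coeff 1 * ψ.coeff 1 + φ.coeff 2 * ψ.coeff 0 := by
  rw [PowerSeries.coeff_mul, Finset.Nat.sum_antidiagonal_eq_sum_range_succ_mk]
  simp [Finset.sum_range_succ]

/-! ### Coefficients of `E₄`, `E₆` -/

lemma E4_coeff0 : (qExpansion 1 E₄).coeff 0 = 1 := E_qExpansion_coeff_zero _ ⟨2, rfl⟩
lemma E6_coeff0 : (qExpansion 1 E₆).coeff 0 = 1 := E_qExpansion_coeff_zero _ ⟨3, rfl⟩
lemma E4_coeff1 : (qExpansion 1 E₄).coeff 1 = 240 := E₄_qExpansion_coeff_one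
lemma E6_coeff1 : (qExpansion 1 E₆).coeff 1 = -504 := E₆_qExpansion_coeff_one

lemma E4_coeff2 : (qExpansion 1 E₄).coeff 2 = 2160 := by
  have hs : ArithmeticFunction.sigma 3 2 = 9 := by decide
  rw [E_qExpansion_coeff _ ⟨2, rfl⟩, if_neg (by norm_num), hs,
    show bernoulli 4 = -1 / 30 by decide +kernel]
  norm_num

lemma E6_coeff2 : (qExpansion 1 E₆).coeff 2 = -16632 := by
  have hs : ArithmeticFunction.sigma 5 2 = 33 := by decide
  rw [E_qExpansion_coeff _ ⟨3, rfl⟩, if_neg (by norm_num), hs,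
    show bernoulli 6 = 1 / 42 by decide +kernel]
  norm_num

/-! ### Level 3 -/

lemma index_Gamma0_three : (Gamma0 3).index = 4 := by
  rw [Fermat.Agent.Lib.helper1356.index_Gamma0 3 (by norm_num)]
  decide +kernel

lemma sturm3 {k : ℤ} (f : ModularForm (Gamma0 3) k) (B : ℕ)
    (hB : k * 4 < 12 * ((B : ℤ) + 1))
    (h : ∀ n : ℕ, n ≤ B → (qExpansion 1 f).coeff n = 0) : f = 0 := by
  apply ModularForm.sturm_bound_Gamma0 3 f
  intro n hn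
  rw [index_Gamma0_three] at hn
  apply h n
  push_cast at hn
  omega

/-- `b = (3 E₂(3z) - E₂(z)) / 2 = 1 + 12 q + 36 q² + ⋯`, weight 2 on `Γ₀(3)`. -/
def b3 : ModularForm (Gamma0 3) 2 := (12 : ℂ) • eisP 3

lemma b3_coeff0 : (qExpansion 1 b3).coeff 0 = 1 := by
  rw [b3, Q_smul, PowerSeries.coeff_smul, qExpansion_eisP_coeff_zero]
  norm_num

lemma b3_coeff1 : (qExpansion 1 b3).coeff 1 = 12 := by
  have hs : (∑ d ∈ (1 : ℕ).divisors with ¬ 3 ∣ d, d : ℕ) = 1 := by decide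
  rw [b3, Q_smul, PowerSeries.coeff_smul, qExpansion_eisP_coeff_of_pos 3 le_rfl, hs]
  norm_num

lemma b3_coeff2 : (qExpansion 1 b3).coeff 2 = 36 := by
  have hs : (∑ d ∈ (2 : ℕ).divisors with ¬ 3 ∣ d, d : ℕ) = 3 := by decide
  rw [b3, Q_smul, PowerSeries.coeff_smul, qExpansion_eisP_coeff_of_pos 3 (by norm_num), hs]
  norm_num

lemma dil3_coeff0 {k : ℤ} (f : ModularForm 𝒮ℒ k) :
    (qExpansion 1 (dil 3 f)).coeff 0 = (qExpansion 1 f).coeff 0 := by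
  rw [coeff_dil]; simp

lemma dil3_coeff1 {k : ℤ} (f : ModularForm 𝒮ℒ k) :
    (qExpansion 1 (dil 3 f)).coeff 1 = 0 := by
  rw [coeff_dil]; simp

lemma dil3_coeff2 {k : ℤ} (f : ModularForm 𝒮ℒ k) :
    (qExpansion 1 (dil 3 f)).coeff 2 = 0 := by
  rw [coeff_dil]; simp

/-- Weight 4 identity on `Γ₀(3)`: `E₄(z) + 9 E₄(3z) = 10 b²`. -/
theorem level3_wt4 :
    res 3 E₄ + (9 : ℂ) • dil 3 E₄
      - (10 : ℂ) • (ModularForm.mcast (by norm_num) (b3.mul b3) : ModularForm (Gamma0 3) 4) = 0 := by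
  apply sturm3 _ 1 (by norm_num)
  intro n hn
  interval_cases n
  · simp only [Q_sub, Q_add, Q_smul, Q_mcast, Q_mul, map_sub, map_add, PowerSeries.coeff_smul,
      ps_coeff0_mul, coeff_res, dil3_coeff0, E4_coeff0, b3_coeff0]
    norm_num
  · simp only [Q_sub, Q_add, Q_smul, Q_mcast, Q_mul, map_sub, map_add, PowerSeries.coeff_smul,
      ps_coeff1_mul, coeff_res, dil3_coeff1, E4_coeff1, b3_coeff0, b3_coeff1]
    norm_num

/-- Weight 6 identity on `Γ₀(3)`: `E₆(z) + 27 E₆(3z) + 35 b³ = 63 b E₄(3z)`. -/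
theorem level3_wt6 :
    res 3 E₆ + (27 : ℂ) • dil 3 E₆
      + (35 : ℂ) • (ModularForm.mcast (by norm_num) ((b3.mul b3).mul b3) : ModularForm (Gamma0 3) 6)
      - (63 : ℂ) • (ModularForm.mcast (by norm_num) (b3.mul (dil 3 E₄)) :
          ModularForm (Gamma0 3) 6) = 0 := by
  apply sturm3 _ 2 (by norm_num)
  intro n hn
  interval_cases n <;>
  · simp only [Q_sub, Q_add, Q_smul, Q_mcast, Q_mul, map_sub, map_add, PowerSeries.coeff_smul,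
      ps_coeff0_mul, ps_coeff1_mul, ps_coeff2_mul, coeff_res, dil3_coeff0, dil3_coeff1,
      dil3_coeff2, E4_coeff0, E4_coeff1, E4_coeff2, E6_coeff0, E6_coeff1, E6_coeff2,
      b3_coeff0, b3_coeff1, b3_coeff2]
    norm_num

/-- Weight 8 identity on `Γ₀(3)`: `b⁴ + 8 b E₆(3z) = 6 b² E₄(3z) + 3 E₄(3z)²`. -/
theorem level3_wt8 :
    (ModularForm.mcast (by norm_num) ((b3.mul b3).mul (b3.mul b3)) : ModularForm (Gamma0 3) 8)
      + (8 : ℂ) • (ModularForm.mcast (by norm_num) (b3.mul (dil 3 E₆)) : ModularForm (Gamma0 3) 8)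
      - (6 : ℂ) • (ModularForm.mcast (by norm_num) ((b3.mul b3).mul (dil 3 E₄)) :
          ModularForm (Gamma0 3) 8)
      - (3 : ℂ) • (ModularForm.mcast (by norm_num) ((dil 3 E₄).mul (dil 3 E₄)) :
          ModularForm (Gamma0 3) 8) = 0 := by
  apply sturm3 _ 2 (by norm_num)
  intro n hn
  interval_cases n <;>
  · simp only [Q_sub, Q_add, Q_smul, Q_mcast, Q_mul, map_sub, map_add, PowerSeries.coeff_smul,
      ps_coeff0_mul, ps_coeff1_mul, ps_coeff2_mul, coeff_res, dil3_coeff0, dil3_coeff1,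
      dil3_coeff2, E4_coeff0, E4_coeff1, E4_coeff2, E6_coeff0, E6_coeff1, E6_coeff2,
      b3_coeff0, b3_coeff1, b3_coeff2]
    norm_num

/-! #### Pointwise forms of the three identities -/

theorem level3_wt4_apply (τ : ℍ) : E₄ τ + 9 * E₄ (mulPt 3 τ) = 10 * b3 τ ^ 2 := by
  have h := DFunLike.congr_fun level3_wt4 τ
  have h' : res 3 E₄ τ + 9 * dil 3 E₄ τ - 10 * (b3 τ * b3 τ) = 0 := h
  rw [res_apply, dil_apply] at h'
  linear_combination h'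

theorem level3_wt6_apply (τ : ℍ) :
    E₆ τ + 27 * E₆ (mulPt 3 τ) + 35 * b3 τ ^ 3 = 63 * b3 τ * E₄ (mulPt 3 τ) := by
  have h := DFunLike.congr_fun level3_wt6 τ
  have h' : res 3 E₆ τ + 27 * dil 3 E₆ τ + 35 * (b3 τ * b3 τ * b3 τ)
      - 63 * (b3 τ * dil 3 E₄ τ) = 0 := h
  rw [res_apply, dil_apply, dil_apply] at h'
  linear_combination h'

theorem level3_wt8_apply (τ : ℍ) :
    b3 τ ^ 4 + 8 * b3 τ * E₆ (mulPt 3 τ)
      = 6 * b3 τ ^ 2 * E₄ (mulPt 3 τ) + 3 * E₄ (mulPt 3 τ) ^ 2 := by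
  have h := DFunLike.congr_fun level3_wt8 τ
  have h' : b3 τ * b3 τ * (b3 τ * b3 τ) + 8 * (b3 τ * dil 3 E₆ τ)
      - 6 * (b3 τ * b3 τ * dil 3 E₄ τ) - 3 * (dil 3 E₄ τ * dil 3 E₄ τ) = 0 := h
  rw [dil_apply, dil_apply] at h'
  linear_combination h'

/-! #### The functions `c`, `d` and the Hauptmodul `h₃` -/

/-- `c = (b² - E₄(3z)) / 24 = q + 9 q² + ⋯` (weight 4). -/
def c3 (τ : ℍ) : ℂ := (b3 τ ^ 2 - E₄ (mulPt 3 τ)) / 24

/-- `d = (E₆(3z) - b³ + 36 b c) / 216 = q² + ⋯` (weight 6). -/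
def d3 (τ : ℍ) : ℂ := (E₆ (mulPt 3 τ) - b3 τ ^ 3 + 36 * b3 τ * c3 τ) / 216

theorem E4_mulPt3 (τ : ℍ) : E₄ (mulPt 3 τ) = b3 τ ^ 2 - 24 * c3 τ := by
  rw [c3]; ring

theorem E6_mulPt3 (τ : ℍ) :
    E₆ (mulPt 3 τ) = b3 τ ^ 3 - 36 * b3 τ * c3 τ + 216 * d3 τ := by
  rw [d3]; ring

theorem E4_eq3 (τ : ℍ) : E₄ τ = b3 τ ^ 2 + 216 * c3 τ := by
  have h := level3_wt4_apply τ
  rw [E4_mulPt3] at h
  linear_combination h

theorem E6_eq3 (τ : ℍ) : E₆ τ = b3 τ ^ 3 - 540 * b3 τ * c3 τ - 5832 * d3 τ := by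
  have h := level3_wt6_apply τ
  rw [E4_mulPt3, E6_mulPt3] at h
  linear_combination h

theorem c3_sq (τ : ℍ) : c3 τ ^ 2 = b3 τ * d3 τ := by
  have h := level3_wt8_apply τ
  rw [E4_mulPt3, E6_mulPt3] at h
  linear_combination (-1 / 1728 : ℂ) * h

theorem discriminant_mulPt3 (τ : ℍ) :
    discriminant (mulPt 3 τ) = d3 τ * (b3 τ * c3 τ - 27 * d3 τ) := by
  rw [discriminant_eq_E₄_cube_sub_E₆_sq, E4_mulPt3, E6_mulPt3]
  linear_combination ((1 / 4 : ℂ) * b3 τ ^ 2 - 8 * c3 τ) * c3_sq τ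

theorem discriminant_eq3 (τ : ℍ) :
    discriminant τ
      = (b3 τ * c3 τ - 27 * d3 τ) * (b3 τ ^ 3 - 54 * b3 τ * c3 τ + 729 * d3 τ) := by
  rw [discriminant_eq_E₄_cube_sub_E₆_sq, E4_eq3, E6_eq3]
  linear_combination ((-135 / 4 : ℂ) * b3 τ ^ 2 + 5832 * c3 τ) * c3_sq τ

theorem d3_ne_zero (τ : ℍ) : d3 τ ≠ 0 := by
  intro h
  apply discriminant_ne_zero (mulPt 3 τ)
  rw [discriminant_mulPt3, h, zero_mul]

theorem b3c3_sub_ne_zero (τ : ℍ) : b3 τ * c3 τ - 27 * d3 τ ≠ 0 := by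
  intro h
  apply discriminant_ne_zero (mulPt 3 τ)
  rw [discriminant_mulPt3, h, mul_zero]

/-- The Hauptmodul of `Γ₀(3)`: `h₃ = (b c - 27 d) / d = (η(z)/η(3z))¹² = q⁻¹ - 12 + ⋯`. -/
def h3 (τ : ℍ) : ℂ := (b3 τ * c3 τ - 27 * d3 τ) / d3 τ

theorem h3_ne_zero (τ : ℍ) : h3 τ ≠ 0 := div_ne_zero (b3c3_sub_ne_zero τ) (d3_ne_zero τ)

theorem h3_mul_d3 (τ : ℍ) : h3 τ * d3 τ = b3 τ * c3 τ - 27 * d3 τ := by
  rw [h3, div_mul_cancel₀ _ (d3_ne_zero τ)]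

/-- `b c = (h₃ + 27) d`. -/
theorem b3_mul_c3 (τ : ℍ) : b3 τ * c3 τ = (h3 τ + 27) * d3 τ := by
  linear_combination - h3_mul_d3 τ

/-- `c³ = (h₃ + 27) d²`. -/
theorem c3_cube (τ : ℍ) : c3 τ ^ 3 = (h3 τ + 27) * d3 τ ^ 2 := by
  linear_combination c3 τ * c3_sq τ + d3 τ * b3_mul_c3 τ

/-- `b³ = (h₃ + 27)² d`: the weight 2 form `b` vanishes exactly where `h₃ = -27`. -/
theorem b3_cube (τ : ℍ) : b3 τ ^ 3 = (h3 τ + 27) ^ 2 * d3 τ := by
  have hd := d3_ne_zero τ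
  have h1 := b3_mul_c3 τ
  have h2 := c3_sq τ
  have h3' : b3 τ ^ 3 * d3 τ = (h3 τ + 27) ^ 2 * d3 τ * d3 τ := by
    linear_combination (b3 τ * c3 τ + (h3 τ + 27) * d3 τ) * h1 - b3 τ ^ 2 * h2
  exact mul_right_cancel₀ hd h3'

/-- `Δ(3z) = h₃ d²`. -/
theorem discriminant_mulPt3' (τ : ℍ) : discriminant (mulPt 3 τ) = h3 τ * d3 τ ^ 2 := by
  rw [discriminant_mulPt3]
  linear_combination - d3 τ * h3_mul_d3 τ

/-- `Δ(z) = h₃³ d²`. -/
theorem discriminant_eq3' (τ : ℍ) : discriminant τ = h3 τ ^ 3 * d3 τ ^ 2 := by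
  have h1 := b3_mul_c3 τ
  have h2 := b3_cube τ
  rw [discriminant_eq3]
  linear_combination (b3 τ ^ 3 - 54 * b3 τ * c3 τ + 729 * d3 τ - 54 * h3 τ * d3 τ) * h1
    + (h3 τ * d3 τ) * h2

/-- `h₃² = Δ(z) / Δ(3z)`. -/
theorem h3_sq (τ : ℍ) : h3 τ ^ 2 = discriminant τ / discriminant (mulPt 3 τ) := by
  rw [discriminant_eq3', discriminant_mulPt3']
  have hd := d3_ne_zero τ
  have hh := h3_ne_zero τ
  field_simp

/-- `E₄(z) = c (h₃ + 243)` up to the factor `d²`: `E₄(z) d² = c d² (h₃ + 243)`, in cubed form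
`E₄(z)³ = (h₃ + 27) (h₃ + 243)³ d²`. -/
theorem E4_cube3 (τ : ℍ) : E₄ τ ^ 3 = (h3 τ + 27) * (h3 τ + 243) ^ 3 * d3 τ ^ 2 := by
  have hd := d3_ne_zero τ
  have h1 := b3_mul_c3 τ
  have h2 := b3_cube τ
  have h5 := c3_cube τ
  have h6 := c3_sq τ
  rw [E4_eq3]
  have e1 : (b3 τ ^ 2 + 216 * c3 τ) ^ 3
      = b3 τ ^ 3 * b3 τ ^ 3 + 648 * b3 τ ^ 3 * (b3 τ * c3 τ) + 139968 * (b3 τ * c3 τ) ^ 2
        + 10077696 * c3 τ ^ 3 := by ring
  rw [e1, h2, h1, h5]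
  ring

/-- The `j`-relation on the `h₃`-line: `j(z) h₃³ = (h₃ + 27) (h₃ + 243)³`. -/
theorem j_rel3 (τ : ℍ) :
    E₄ τ ^ 3 * h3 τ ^ 3 = (h3 τ + 27) * (h3 τ + 243) ^ 3 * discriminant τ := by
  rw [E4_cube3, discriminant_eq3']
  ring

/-- `E₄(3z)³ = (h₃ + 27) (h₃ + 3)³ d²`. -/
theorem E4_mulPt3_cube (τ : ℍ) :
    E₄ (mulPt 3 τ) ^ 3 = (h3 τ + 27) * (h3 τ + 3) ^ 3 * d3 τ ^ 2 := by
  have h1 := b3_mul_c3 τ
  have h2 := b3_cube τ
  have h5 := c3_cube τ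
  rw [E4_mulPt3]
  have e1 : (b3 τ ^ 2 - 24 * c3 τ) ^ 3
      = b3 τ ^ 3 * b3 τ ^ 3 - 72 * b3 τ ^ 3 * (b3 τ * c3 τ) + 1728 * (b3 τ * c3 τ) ^ 2
        - 13824 * c3 τ ^ 3 := by ring
  rw [e1, h2, h1, h5]
  ring

/-- The `j`-relation for `j(3z)`: `j(3z) h₃ = (h₃ + 27) (h₃ + 3)³`. -/
theorem j_rel3_mulPt (τ : ℍ) :
    E₄ (mulPt 3 τ) ^ 3 * h3 τ = (h3 τ + 27) * (h3 τ + 3) ^ 3 * discriminant (mulPt 3 τ) := by
  rw [E4_mulPt3_cube, discriminant_mulPt3']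
  ring

/-- `E₆(z) = (h₃² - 486 h₃ - 19683) d`. -/
theorem E6_eq3' (τ : ℍ) : E₆ τ = (h3 τ ^ 2 - 486 * h3 τ - 19683) * d3 τ := by
  rw [E6_eq3]
  linear_combination b3_cube τ - 540 * b3_mul_c3 τ

/-- `E₆(3z) = (h₃² + 18 h₃ - 27) d`. -/
theorem E6_mulPt3' (τ : ℍ) : E₆ (mulPt 3 τ) = (h3 τ ^ 2 + 18 * h3 τ - 27) * d3 τ := by
  rw [E6_mulPt3]
  linear_combination b3_cube τ - 36 * b3_mul_c3 τ

/-- Consumer form: for any value `f`, `(f / b)³ (h₃ + 27)² = f³ / d` wherever `b ≠ 0`. -/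
theorem consumer3 (τ : ℍ) (hb : b3 τ ≠ 0) (f : ℂ) :
    (f / b3 τ) ^ 3 * (h3 τ + 27) ^ 2 = f ^ 3 / d3 τ := by
  have hd := d3_ne_zero τ
  have h2 := b3_cube τ
  rw [div_pow, h2]
  have hne : h3 τ + 27 ≠ 0 := by
    intro h0
    apply hb
    have : b3 τ ^ 3 = 0 := by rw [h2, h0]; ring
    exact pow_eq_zero_iff (by norm_num) |>.mp this
  field_simp

/-! ### Level 2 -/

lemma index_Gamma0_two : (Gamma0 2).index = 3 := by
  rw [Fermat.Agent.Lib.helper1356.index_Gamma0 2 (by norm_num)]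
  decide +kernel

lemma sturm2 {k : ℤ} (f : ModularForm (Gamma0 2) k) (B : ℕ)
    (hB : k * 3 < 12 * ((B : ℤ) + 1))
    (h : ∀ n : ℕ, n ≤ B → (qExpansion 1 f).coeff n = 0) : f = 0 := by
  apply ModularForm.sturm_bound_Gamma0 2 f
  intro n hn
  rw [index_Gamma0_two] at hn
  apply h n
  push_cast at hn
  omega

/-- `a = 2 E₂(2z) - E₂(z) = 1 + 24 q + 24 q² + ⋯`, weight 2 on `Γ₀(2)`. -/
def a2 : ModularForm (Gamma0 2) 2 := (24 : ℂ) • eisP 2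

lemma a2_coeff0 : (qExpansion 1 a2).coeff 0 = 1 := by
  rw [a2, Q_smul, PowerSeries.coeff_smul, qExpansion_eisP_coeff_zero]
  norm_num

lemma a2_coeff1 : (qExpansion 1 a2).coeff 1 = 24 := by
  have hs : (∑ d ∈ (1 : ℕ).divisors with ¬ 2 ∣ d, d : ℕ) = 1 := by decide
  rw [a2, Q_smul, PowerSeries.coeff_smul, qExpansion_eisP_coeff_of_pos 2 le_rfl, hs]
  norm_num

lemma dil2_coeff0 {k : ℤ} (f : ModularForm 𝒮ℒ k) :
    (qExpansion 1 (dil 2 f)).coeff 0 = (qExpansion 1 f).coeff 0 := by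
  rw [coeff_dil]; simp

lemma dil2_coeff1 {k : ℤ} (f : ModularForm 𝒮ℒ k) :
    (qExpansion 1 (dil 2 f)).coeff 1 = 0 := by
  rw [coeff_dil]; simp

/-- Weight 4 identity on `Γ₀(2)`: `E₄(z) + 4 E₄(2z) = 5 a²`. -/
theorem level2_wt4 :
    res 2 E₄ + (4 : ℂ) • dil 2 E₄
      - (5 : ℂ) • (ModularForm.mcast (by norm_num) (a2.mul a2) : ModularForm (Gamma0 2) 4) = 0 := by
  apply sturm2 _ 1 (by norm_num)
  intro n hn
  interval_cases n <;>
  · simp only [Q_sub, Q_add, Q_smul, Q_mcast, Q_mul, map_sub, map_add, PowerSeries.coeff_smul,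
      ps_coeff0_mul, ps_coeff1_mul, coeff_res, dil2_coeff0, dil2_coeff1, E4_coeff0, E4_coeff1,
      E6_coeff0, E6_coeff1, a2_coeff0, a2_coeff1]
    norm_num

/-- Weight 6 identity on `Γ₀(2)`: `5 E₆(z) = a (16 E₄(2z) - 11 E₄(z))`. -/
theorem level2_wt6 :
    (5 : ℂ) • res 2 E₆
      - (16 : ℂ) • (ModularForm.mcast (by norm_num) (a2.mul (dil 2 E₄)) : ModularForm (Gamma0 2) 6)
      + (11 : ℂ) • (ModularForm.mcast (by norm_num) (a2.mul (res 2 E₄)) :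
          ModularForm (Gamma0 2) 6) = 0 := by
  apply sturm2 _ 1 (by norm_num)
  intro n hn
  interval_cases n <;>
  · simp only [Q_sub, Q_add, Q_smul, Q_mcast, Q_mul, map_sub, map_add, PowerSeries.coeff_smul,
      ps_coeff0_mul, ps_coeff1_mul, coeff_res, dil2_coeff0, dil2_coeff1, E4_coeff0, E4_coeff1,
      E6_coeff0, E6_coeff1, a2_coeff0, a2_coeff1]
    norm_num

/-- Weight 6 identity on `Γ₀(2)`: `10 E₆(2z) = a (11 E₄(2z) - E₄(z))`. -/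
theorem level2_wt6' :
    (10 : ℂ) • dil 2 E₆
      - (11 : ℂ) • (ModularForm.mcast (by norm_num) (a2.mul (dil 2 E₄)) : ModularForm (Gamma0 2) 6)
      + (ModularForm.mcast (by norm_num) (a2.mul (res 2 E₄)) : ModularForm (Gamma0 2) 6) = 0 := by
  apply sturm2 _ 1 (by norm_num)
  intro n hn
  interval_cases n <;>
  · simp only [Q_sub, Q_add, Q_smul, Q_mcast, Q_mul, map_sub, map_add, PowerSeries.coeff_smul,
      ps_coeff0_mul, ps_coeff1_mul, coeff_res, dil2_coeff0, dil2_coeff1, E4_coeff0, E4_coeff1,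
      E6_coeff0, E6_coeff1, a2_coeff0, a2_coeff1]
    norm_num

/-! #### Pointwise forms -/

theorem level2_wt4_apply (τ : ℍ) : E₄ τ + 4 * E₄ (mulPt 2 τ) = 5 * a2 τ ^ 2 := by
  have h := DFunLike.congr_fun level2_wt4 τ
  have h' : res 2 E₄ τ + 4 * dil 2 E₄ τ - 5 * (a2 τ * a2 τ) = 0 := h
  rw [res_apply, dil_apply] at h'
  linear_combination h'

theorem level2_wt6_apply (τ : ℍ) :
    5 * E₆ τ = a2 τ * (16 * E₄ (mulPt 2 τ) - 11 * E₄ τ) := by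
  have h := DFunLike.congr_fun level2_wt6 τ
  have h' : 5 * res 2 E₆ τ - 16 * (a2 τ * dil 2 E₄ τ) + 11 * (a2 τ * res 2 E₄ τ) = 0 := h
  rw [res_apply, res_apply, dil_apply] at h'
  linear_combination h'

theorem level2_wt6'_apply (τ : ℍ) :
    10 * E₆ (mulPt 2 τ) = a2 τ * (11 * E₄ (mulPt 2 τ) - E₄ τ) := by
  have h := DFunLike.congr_fun level2_wt6' τ
  have h' : 10 * dil 2 E₆ τ - 11 * (a2 τ * dil 2 E₄ τ) + a2 τ * res 2 E₄ τ = 0 := h
  rw [res_apply, dil_apply, dil_apply] at h'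
  linear_combination h'

/-! #### The functions `c`, `d` and the Hauptmodul `h₂` -/

/-- `c = (E₄(z) - E₄(2z)) / 240 = q + 8 q² + ⋯` (weight 4). -/
def c2 (τ : ℍ) : ℂ := (E₄ τ - E₄ (mulPt 2 τ)) / 240

/-- `d = (16 E₄(2z) - E₄(z)) / 15 = 1 - 16 q + ⋯` (weight 4). -/
def d2 (τ : ℍ) : ℂ := (16 * E₄ (mulPt 2 τ) - E₄ τ) / 15

theorem E4_eq2 (τ : ℍ) : E₄ τ = d2 τ + 256 * c2 τ := by
  rw [c2, d2]; ring

theorem E4_mulPt2 (τ : ℍ) : E₄ (mulPt 2 τ) = d2 τ + 16 * c2 τ := by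
  rw [c2, d2]; ring

theorem a2_sq (τ : ℍ) : a2 τ ^ 2 = d2 τ + 64 * c2 τ := by
  have h := level2_wt4_apply τ
  rw [c2, d2]
  linear_combination (-1 / 5 : ℂ) * h

theorem E6_eq2 (τ : ℍ) : E₆ τ = a2 τ * (d2 τ - 512 * c2 τ) := by
  have h := level2_wt6_apply τ
  rw [c2, d2]
  linear_combination (1 / 5 : ℂ) * h

theorem E6_mulPt2 (τ : ℍ) : E₆ (mulPt 2 τ) = a2 τ * (d2 τ - 8 * c2 τ) := by
  have h := level2_wt6'_apply τ
  rw [c2, d2]
  linear_combination (1 / 10 : ℂ) * h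

/-- `Δ(z) = c d²`. -/
theorem discriminant_eq2 (τ : ℍ) : discriminant τ = c2 τ * d2 τ ^ 2 := by
  rw [discriminant_eq_E₄_cube_sub_E₆_sq, E4_eq2, E6_eq2]
  linear_combination (-(d2 τ - 512 * c2 τ) ^ 2 / 1728) * a2_sq τ

/-- `Δ(2z) = c² d`. -/
theorem discriminant_mulPt2 (τ : ℍ) : discriminant (mulPt 2 τ) = c2 τ ^ 2 * d2 τ := by
  rw [discriminant_eq_E₄_cube_sub_E₆_sq, E4_mulPt2, E6_mulPt2]
  linear_combination (-(d2 τ - 8 * c2 τ) ^ 2 / 1728) * a2_sq τ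

theorem c2_ne_zero (τ : ℍ) : c2 τ ≠ 0 := by
  intro h
  apply discriminant_ne_zero τ
  rw [discriminant_eq2, h, zero_mul]

theorem d2_ne_zero (τ : ℍ) : d2 τ ≠ 0 := by
  intro h
  apply discriminant_ne_zero τ
  rw [discriminant_eq2, h]
  ring

/-- The Hauptmodul of `Γ₀(2)`: `h₂ = d / c = Δ(z)/Δ(2z) = (η(z)/η(2z))²⁴ = q⁻¹ - 24 + ⋯`. -/
def h2 (τ : ℍ) : ℂ := d2 τ / c2 τ

theorem h2_ne_zero (τ : ℍ) : h2 τ ≠ 0 := div_ne_zero (d2_ne_zero τ) (c2_ne_zero τ)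

theorem h2_mul_c2 (τ : ℍ) : h2 τ * c2 τ = d2 τ := by
  rw [h2, div_mul_cancel₀ _ (c2_ne_zero τ)]

/-- `h₂ = Δ(z) / Δ(2z)`. -/
theorem h2_eq (τ : ℍ) : h2 τ = discriminant τ / discriminant (mulPt 2 τ) := by
  rw [discriminant_eq2, discriminant_mulPt2, h2]
  have hc := c2_ne_zero τ
  have hd := d2_ne_zero τ
  field_simp

/-- `E₄(z) = (h₂ + 256) c`. -/
theorem E4_eq2' (τ : ℍ) : E₄ τ = (h2 τ + 256) * c2 τ := by
  rw [E4_eq2]
  linear_combination - h2_mul_c2 τ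

/-- `E₄(2z) = (h₂ + 16) c`. -/
theorem E4_mulPt2' (τ : ℍ) : E₄ (mulPt 2 τ) = (h2 τ + 16) * c2 τ := by
  rw [E4_mulPt2]
  linear_combination - h2_mul_c2 τ

/-- `a² = (h₂ + 64) c`: the weight 2 form `a` vanishes exactly where `h₂ = -64`. -/
theorem a2_sq' (τ : ℍ) : a2 τ ^ 2 = (h2 τ + 64) * c2 τ := by
  rw [a2_sq]
  linear_combination - h2_mul_c2 τ

/-- `E₆(z) = a (h₂ - 512) c`. -/
theorem E6_eq2' (τ : ℍ) : E₆ τ = a2 τ * ((h2 τ - 512) * c2 τ) := by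
  rw [E6_eq2]
  linear_combination - a2 τ * h2_mul_c2 τ

/-- `E₆(2z) = a (h₂ - 8) c`. -/
theorem E6_mulPt2' (τ : ℍ) : E₆ (mulPt 2 τ) = a2 τ * ((h2 τ - 8) * c2 τ) := by
  rw [E6_mulPt2]
  linear_combination - a2 τ * h2_mul_c2 τ

/-- `Δ(z) = h₂² c³`. -/
theorem discriminant_eq2' (τ : ℍ) : discriminant τ = h2 τ ^ 2 * c2 τ ^ 3 := by
  rw [discriminant_eq2]
  linear_combination - c2 τ * (d2 τ + h2 τ * c2 τ) * h2_mul_c2 τ

/-- `Δ(2z) = h₂ c³`. -/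
theorem discriminant_mulPt2' (τ : ℍ) : discriminant (mulPt 2 τ) = h2 τ * c2 τ ^ 3 := by
  rw [discriminant_mulPt2]
  linear_combination - c2 τ ^ 2 * h2_mul_c2 τ

/-- The `j`-relation on the `h₂`-line: `j(z) h₂² = (h₂ + 256)³`. -/
theorem j_rel2 (τ : ℍ) : E₄ τ ^ 3 * h2 τ ^ 2 = (h2 τ + 256) ^ 3 * discriminant τ := by
  rw [E4_eq2', discriminant_eq2']
  ring

/-- The `j`-relation for `j(2z)`: `j(2z) h₂ = (h₂ + 16)³`. -/
theorem j_rel2_mulPt (τ : ℍ) :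
    E₄ (mulPt 2 τ) ^ 3 * h2 τ = (h2 τ + 16) ^ 3 * discriminant (mulPt 2 τ) := by
  rw [E4_mulPt2', discriminant_mulPt2']
  ring

/-- Consumer form: for any value `f`, `(f / a)² (h₂ + 64) = f² / c` wherever `a ≠ 0`. -/
theorem consumer2 (τ : ℍ) (ha : a2 τ ≠ 0) (f : ℂ) :
    (f / a2 τ) ^ 2 * (h2 τ + 64) = f ^ 2 / c2 τ := by
  have hc := c2_ne_zero τ
  have h := a2_sq' τ
  have hne : h2 τ + 64 ≠ 0 := by
    intro h0
    apply ha
    have : a2 τ ^ 2 = 0 := by rw [h, h0]; ring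
    exact pow_eq_zero_iff (by norm_num) |>.mp this
  rw [div_pow, h]
  field_simp

end

end Fermat.Agent.S18.helper1257
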