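/-
S18 leaf HAUPT-Z (helper1257): the Hauptmoduln of levels 2 and 3 as INTEGER Laurent series,
with the `j`-identities in the Prelude vocabulary (`ModularCurve.jqModC`, `ModularCurve.qExpand`).

  `jqModC ℤ * t2Z ^ 2 = (t2Z + 256) ^ 3`,  `qExpand ℤ 2 (jqModC ℤ) * t2Z = (t2Z + 16) ^ 3`,
  `jqModC ℤ * t3Z ^ 3 = (t3Z + 27) * (t3Z + 243) ^ 3`,
  `qExpand ℤ 3 (jqModC ℤ) * t3Z = (t3Z + 27) * (t3Z + 3) ^ 3`.

The transcendental input is the landed analytic package `helper1257_Hauptmodul`.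
-/
import Mathlib
import Fermat.Agent.S18.helper1257_Hauptmodul
import Fermat.Agent.Lib.helper386_QExpBridge

set_option autoImplicit false
set_option linter.unusedSimpArgs false

open UpperHalfPlane ModularForm EisensteinSeries CongruenceSubgroup
open scoped MatrixGroups

namespace Fermat.Agent.S18.helper1257

open Fermat.Agent.Lib.helper1219 Fermat.Agent.S16.helper8794

noncomputable section

/-! ### `Δ` as a modular form of level one, and the forms `c`, `d`, `n` of levels 2 and 3 -/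

/-- `Δ = (E₄³ - E₆²) / 1728` as a level one modular form of weight 12. -/
def deltaForm : ModularForm 𝒮ℒ 12 :=
  (1 / 1728 : ℂ) • ((ModularForm.mcast (by norm_num) ((E₄.mul E₄).mul E₄) : ModularForm 𝒮ℒ 12)
    - (ModularForm.mcast (by norm_num) (E₆.mul E₆) : ModularForm 𝒮ℒ 12))

lemma deltaForm_apply (τ : ℍ) : deltaForm τ = discriminant τ := by
  rw [discriminant_eq_E₄_cube_sub_E₆_sq]
  show (1 / 1728 : ℂ) * (E₄ τ * E₄ τ * E₄ τ - E₆ τ * E₆ τ) = _
  ring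

lemma coe_deltaForm : (⇑deltaForm : ℍ → ℂ) = discriminant := funext deltaForm_apply

/-- `c = (E₄(z) - E₄(2z)) / 240` as a modular form on `Γ₀(2)`. -/
def C2f : ModularForm (Gamma0 2) 4 := (1 / 240 : ℂ) • (res 2 E₄ - dil 2 E₄)

/-- `d = (16 E₄(2z) - E₄(z)) / 15` as a modular form on `Γ₀(2)`. -/
def D2f : ModularForm (Gamma0 2) 4 := (1 / 15 : ℂ) • ((16 : ℂ) • dil 2 E₄ - res 2 E₄)

lemma C2f_apply (τ : ℍ) : C2f τ = c2 τ := by
  show (1 / 240 : ℂ) * (res 2 E₄ τ - dil 2 E₄ τ) = _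
  rw [res_apply, dil_apply, c2]
  ring

lemma D2f_apply (τ : ℍ) : D2f τ = d2 τ := by
  show (1 / 15 : ℂ) * (16 * dil 2 E₄ τ - res 2 E₄ τ) = _
  rw [res_apply, dil_apply, d2]
  ring

/-- `Δ(z) = c d²` as modular forms on `Γ₀(2)`. -/
theorem res_deltaForm_two :
    res 2 deltaForm = ModularForm.mcast (by norm_num) (C2f.mul (D2f.mul D2f)) := by
  apply DFunLike.ext
  intro τ
  show res 2 deltaForm τ = C2f τ * (D2f τ * D2f τ)
  rw [res_apply, deltaForm_apply, C2f_apply, D2f_apply, discriminant_eq2]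
  ring

/-- `Δ(2z) = c² d` as modular forms on `Γ₀(2)`. -/
theorem dil_deltaForm_two :
    dil 2 deltaForm = ModularForm.mcast (by norm_num) ((C2f.mul C2f).mul D2f) := by
  apply DFunLike.ext
  intro τ
  show dil 2 deltaForm τ = C2f τ * C2f τ * D2f τ
  rw [dil_apply, deltaForm_apply, C2f_apply, D2f_apply, discriminant_mulPt2]
  ring

/-- `c = (E₄(z) - E₄(3z)) / 240` as a modular form on `Γ₀(3)`. -/
def C3f : ModularForm (Gamma0 3) 4 := (1 / 240 : ℂ) • (res 3 E₄ - dil 3 E₄)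

/-- `n = (81 E₄(3z) - E₄(z)) / 80 = b² - 27 c` as a modular form on `Γ₀(3)`. -/
def N3f : ModularForm (Gamma0 3) 4 := (1 / 80 : ℂ) • ((81 : ℂ) • dil 3 E₄ - res 3 E₄)

lemma C3f_apply (τ : ℍ) : C3f τ = c3 τ := by
  show (1 / 240 : ℂ) * (res 3 E₄ τ - dil 3 E₄ τ) = _
  rw [res_apply, dil_apply, E4_mulPt3, E4_eq3 τ]
  ring

lemma N3f_apply (τ : ℍ) : N3f τ = b3 τ ^ 2 - 27 * c3 τ := by
  show (1 / 80 : ℂ) * (81 * dil 3 E₄ τ - res 3 E₄ τ) = _
  rw [res_apply, dil_apply, E4_mulPt3, E4_eq3 τ]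
  ring

/-- `n³ c = (n + 27 c) Δ(z)` as modular forms on `Γ₀(3)` (weight 16). -/
theorem level3_delta :
    (ModularForm.mcast (by norm_num) (((N3f.mul N3f).mul N3f).mul C3f) :
        ModularForm (Gamma0 3) 16)
      = ModularForm.mcast (by norm_num) ((N3f + (27 : ℂ) • C3f).mul (res 3 deltaForm)) := by
  apply DFunLike.ext
  intro τ
  show N3f τ * N3f τ * N3f τ * C3f τ = (N3f τ + 27 * C3f τ) * res 3 deltaForm τ
  rw [res_apply, deltaForm_apply, C3f_apply, N3f_apply, discriminant_eq3]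
  linear_combination (-(27 * b3 τ ^ 4) + 2187 * b3 τ ^ 2 * c3 τ - 19683 * c3 τ ^ 2
    - 19683 * b3 τ * d3 τ) * c3_sq τ

/-- `n c³ = (n + 27 c) Δ(3z)` as modular forms on `Γ₀(3)` (weight 16). -/
theorem level3_delta' :
    (ModularForm.mcast (by norm_num) (N3f.mul ((C3f.mul C3f).mul C3f)) :
        ModularForm (Gamma0 3) 16)
      = ModularForm.mcast (by norm_num) ((N3f + (27 : ℂ) • C3f).mul (dil 3 deltaForm)) := by
  apply DFunLike.ext
  intro τ
  show N3f τ * (C3f τ * C3f τ * C3f τ) = (N3f τ + 27 * C3f τ) * dil 3 deltaForm τ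
  rw [dil_apply, deltaForm_apply, C3f_apply, N3f_apply, discriminant_mulPt3]
  linear_combination (b3 τ ^ 2 * c3 τ - 27 * c3 τ ^ 2 - 27 * b3 τ * d3 τ) * c3_sq τ

/-! ### Integer power series -/

section Series

open PowerSeries

lemma coeff_ofNat_mul {R : Type*} [CommRing R] (k : ℕ) [k.AtLeastTwo] (f : PowerSeries R)
    (m : ℕ) : coeff m ((ofNat(k) : PowerSeries R) * f) = (ofNat(k) : R) * coeff m f := by
  have : (OfNat.ofNat k : PowerSeries R) = C (OfNat.ofNat k : R) :=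
    (map_ofNat (C (R := R)) k).symm
  rw [this, coeff_C_mul]

/-- `S = ∑ σ₃(n) qⁿ`. -/
def S3 : PowerSeries ℤ := PowerSeries.mk fun n => ∑ d ∈ n.divisors, (d : ℤ) ^ 3

/-- `S(q^r) = ∑ σ₃(n) q^{rn}`. -/
def S3V (r : ℕ) [NeZero r] : PowerSeries ℤ := PowerSeries.expand r (NeZero.ne r) S3

lemma coeff_S3_zero : coeff 0 S3 = 0 := by
  simp [S3]

lemma coeff_S3_one : coeff 1 S3 = 1 := by
  simp [S3]

lemma coeff_S3V_zero (r : ℕ) [NeZero r] : coeff 0 (S3V r) = 0 := by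
  rw [S3V, PowerSeries.coeff_expand]
  simp [coeff_S3_zero]

lemma coeff_S3V_one (r : ℕ) [NeZero r] (hr : r ≠ 1) : coeff 1 (S3V r) = 0 := by
  rw [S3V, PowerSeries.coeff_expand, if_neg]
  simpa using hr

lemma eisenstein4_eq : ModularCurve.eisenstein4 = 1 + 240 * S3 := by
  ext n
  rw [ModularCurve.eisenstein4, map_add, coeff_ofNat_mul, S3, coeff_mk, coeff_mk, coeff_one]
  split_ifs with h
  · subst h; simp
  · simp

lemma expand_eisenstein4 (r : ℕ) [NeZero r] :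
    PowerSeries.expand r (NeZero.ne r) ModularCurve.eisenstein4 = 1 + 240 * S3V r := by
  rw [eisenstein4_eq, map_add, map_one, map_mul, map_ofNat, S3V]

/-- `c = ∑ (σ₃(n) - σ₃(n/2)) qⁿ = q + 8 q² + ⋯` (level 2). -/
def c2Z : PowerSeries ℤ := S3 - S3V 2

/-- `d = 1 + 16 ∑ (16 σ₃(n/2) - σ₃(n)) qⁿ = 1 - 16 q + ⋯` (level 2). -/
def d2Z : PowerSeries ℤ := 1 + 256 * S3V 2 - 16 * S3

lemma eisenstein4_eq_two : ModularCurve.eisenstein4 = d2Z + 256 * c2Z := by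
  rw [eisenstein4_eq, c2Z, d2Z]; ring

lemma expand_eisenstein4_two :
    PowerSeries.expand 2 two_ne_zero ModularCurve.eisenstein4 = d2Z + 16 * c2Z := by
  rw [expand_eisenstein4 2, c2Z, d2Z]; ring

/-- `c = ∑ (σ₃(n) - σ₃(n/3)) qⁿ = q + 9 q² + ⋯` (level 3). -/
def c3Z : PowerSeries ℤ := S3 - S3V 3

/-- `n = 1 + 3 ∑ (81 σ₃(n/3) - σ₃(n)) qⁿ = 1 - 3 q + ⋯` (level 3). -/
def n3Z : PowerSeries ℤ := 1 + 243 * S3V 3 - 3 * S3

lemma eisenstein4_eq_three : ModularCurve.eisenstein4 = n3Z + 243 * c3Z := by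
  rw [eisenstein4_eq, c3Z, n3Z]; ring

lemma expand_eisenstein4_three :
    PowerSeries.expand 3 three_ne_zero ModularCurve.eisenstein4 = n3Z + 3 * c3Z := by
  rw [expand_eisenstein4 3, c3Z, n3Z]; ring

/-! ### Comparison with the `q`-expansions over `ℂ` -/

/-- Coefficient embedding `ℤ⟦X⟧ → ℂ⟦X⟧`. -/
abbrev toCZ : PowerSeries ℤ →+* PowerSeries ℂ := PowerSeries.map (Int.castRingHom ℂ)

lemma toCZ_injective : Function.Injective toCZ :=
  PowerSeries.map_injective _ (RingHom.injective_int (Int.castRingHom ℂ))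

lemma qexp_res_E4 (N : ℕ) : qExpansion 1 (res N E₄) = toCZ ModularCurve.eisenstein4 := by
  ext m
  rw [coeff_res, Fermat.Agent.Lib.helper386.qExpansion_E4]

lemma qexp_dil_E4 (N : ℕ) [NeZero N] :
    qExpansion 1 (dil N E₄)
      = toCZ (PowerSeries.expand N (NeZero.ne N) ModularCurve.eisenstein4) := by
  ext m
  rw [coeff_dil, Fermat.Agent.Lib.helper386.qExpansion_E4, PowerSeries.coeff_map,
    PowerSeries.coeff_map, PowerSeries.coeff_expand]
  split_ifs <;> simp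

lemma qexp_deltaForm :
    qExpansion 1 deltaForm = toCZ Fermat.Agent.Lib.helper386.deltaSeries := by
  rw [coe_deltaForm, Fermat.Agent.Lib.helper386.qExpansion_discriminant]

lemma qexp_res_delta (N : ℕ) :
    qExpansion 1 (res N deltaForm) = toCZ Fermat.Agent.Lib.helper386.deltaSeries := by
  ext m
  rw [coeff_res, qexp_deltaForm]

lemma qexp_dil_delta (N : ℕ) [NeZero N] :
    qExpansion 1 (dil N deltaForm)
      = toCZ (PowerSeries.expand N (NeZero.ne N) Fermat.Agent.Lib.helper386.deltaSeries) := by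
  ext m
  rw [coeff_dil, qexp_deltaForm, PowerSeries.coeff_map, PowerSeries.coeff_map,
    PowerSeries.coeff_expand]
  split_ifs <;> simp

lemma qexp_C2f : qExpansion 1 C2f = toCZ c2Z := by
  rw [C2f, Q_smul, Q_sub, qexp_res_E4, qexp_dil_E4, expand_eisenstein4_two, eisenstein4_eq_two]
  ext m
  simp only [coeff_smul, map_sub, map_add, map_mul, map_ofNat, coeff_ofNat_mul, smul_eq_mul]
  ring

lemma qexp_D2f : qExpansion 1 D2f = toCZ d2Z := by
  rw [D2f, Q_smul, Q_sub, Q_smul, qexp_res_E4, qexp_dil_E4, expand_eisenstein4_two,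
    eisenstein4_eq_two]
  ext m
  simp only [coeff_smul, map_sub, map_add, map_mul, map_ofNat, coeff_ofNat_mul, smul_eq_mul]
  ring

lemma qexp_C3f : qExpansion 1 C3f = toCZ c3Z := by
  rw [C3f, Q_smul, Q_sub, qexp_res_E4, qexp_dil_E4, expand_eisenstein4_three,
    eisenstein4_eq_three]
  ext m
  simp only [coeff_smul, map_sub, map_add, map_mul, map_ofNat, coeff_ofNat_mul, smul_eq_mul]
  ring

lemma qexp_N3f : qExpansion 1 N3f = toCZ n3Z := by
  rw [N3f, Q_smul, Q_sub, Q_smul, qexp_res_E4, qexp_dil_E4, expand_eisenstein4_three,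
    eisenstein4_eq_three]
  ext m
  simp only [coeff_smul, map_sub, map_add, map_mul, map_ofNat, coeff_ofNat_mul, smul_eq_mul]
  ring

/-- `Δ = c d²` in `ℤ⟦q⟧` (level 2). -/
theorem deltaSeries_eq_two :
    Fermat.Agent.Lib.helper386.deltaSeries = c2Z * d2Z ^ 2 := by
  apply toCZ_injective
  have h := congrArg (fun F : ModularForm (Gamma0 2) 12 => qExpansion 1 ⇑F) res_deltaForm_two
  simp only [Q_mcast, Q_mul, qexp_res_delta, qexp_C2f, qexp_D2f] at h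
  rw [h, map_mul, map_pow]
  ring

/-- `Δ(q²) = c² d` in `ℤ⟦q⟧` (level 2). -/
theorem expand_deltaSeries_two :
    PowerSeries.expand 2 two_ne_zero Fermat.Agent.Lib.helper386.deltaSeries = c2Z ^ 2 * d2Z := by
  apply toCZ_injective
  have h := congrArg (fun F : ModularForm (Gamma0 2) 12 => qExpansion 1 ⇑F) dil_deltaForm_two
  simp only [Q_mcast, Q_mul, qexp_dil_delta, qexp_C2f, qexp_D2f] at h
  rw [h, map_mul, map_pow]
  ring

/-- `n³ c = (n + 27 c) Δ` in `ℤ⟦q⟧` (level 3). -/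
theorem deltaSeries_eq_three :
    n3Z ^ 3 * c3Z = (n3Z + 27 * c3Z) * Fermat.Agent.Lib.helper386.deltaSeries := by
  apply toCZ_injective
  have h := congrArg (fun F : ModularForm (Gamma0 3) 16 => qExpansion 1 ⇑F) level3_delta
  simp only [Q_mcast, Q_mul, Q_add, Q_smul, qexp_res_delta, qexp_C3f, qexp_N3f] at h
  rw [map_mul, map_pow, map_mul, map_add, map_mul, map_ofNat]
  rw [show (27 : ℂ) • toCZ c3Z = 27 * toCZ c3Z from by
    ext m; simp only [coeff_smul, coeff_ofNat_mul, smul_eq_mul]] at h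
  rw [← h]
  ring

/-- `n c³ = (n + 27 c) Δ(q³)` in `ℤ⟦q⟧` (level 3). -/
theorem expand_deltaSeries_three :
    n3Z * c3Z ^ 3 = (n3Z + 27 * c3Z) *
      PowerSeries.expand 3 three_ne_zero Fermat.Agent.Lib.helper386.deltaSeries := by
  apply toCZ_injective
  have h := congrArg (fun F : ModularForm (Gamma0 3) 16 => qExpansion 1 ⇑F) level3_delta'
  simp only [Q_mcast, Q_mul, Q_add, Q_smul, qexp_dil_delta, qexp_C3f, qexp_N3f] at h
  rw [map_mul, map_pow, map_mul, map_add, map_mul, map_ofNat]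
  rw [show (27 : ℂ) • toCZ c3Z = 27 * toCZ c3Z from by
    ext m; simp only [coeff_smul, coeff_ofNat_mul, smul_eq_mul]] at h
  rw [← h]
  ring

end Series

/-! ### Laurent series over `ℤ` -/

section Laurent

open ModularCurve

/-- `ℤ⟦q⟧ → ℤ((q))`. -/
abbrev ofZ : PowerSeries ℤ →+* LaurentSeries ℤ := HahnSeries.ofPowerSeries ℤ ℤ

/-- `q ↦ q^d` on Laurent series is `PowerSeries.expand` on power series (any coefficient ring). -/
theorem qExpand_ofPowerSeries (R : Type*) [CommRing R] (d : ℕ) [NeZero d] (s : PowerSeries R) :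
    qExpand R d (HahnSeries.ofPowerSeries ℤ R s)
      = HahnSeries.ofPowerSeries ℤ R (PowerSeries.expand d (NeZero.ne d) s) := by
  ext k
  by_cases hk : (d : ℤ) ∣ k
  · obtain ⟨k', rfl⟩ := hk
    rw [qExpand_coeff_mul]
    rcases le_or_gt 0 k' with h | h
    · lift k' to ℕ using h
      rw [show (d : ℤ) * (k' : ℤ) = ((d * k' : ℕ) : ℤ) by push_cast; rfl,
        HahnSeries.ofPowerSeries_apply_coeff, HahnSeries.ofPowerSeries_apply_coeff,
        PowerSeries.coeff_expand_mul]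
    · have hd : (0 : ℤ) < d := by exact_mod_cast Nat.pos_of_ne_zero (NeZero.ne d)
      rw [ofPowerSeries_coeff_of_neg _ h, ofPowerSeries_coeff_of_neg _ (by nlinarith)]
  · rw [qExpand_coeff_of_not_dvd d _ hk]
    rcases le_or_gt 0 k with h | h
    · lift k to ℕ using h
      rw [HahnSeries.ofPowerSeries_apply_coeff, PowerSeries.coeff_expand_of_not_dvd]
      exact fun h' => hk (Int.natCast_dvd_natCast.mpr h')
    · rw [ofPowerSeries_coeff_of_neg _ h]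

lemma map_intCast_self (f : PowerSeries ℤ) : PowerSeries.map (Int.castRingHom ℤ) f = f := by
  ext n
  simp

/-- `j Δ = E₄³` in `ℤ((q))`. -/
theorem jqModC_mul_delta_int :
    jqModC ℤ * ofZ Fermat.Agent.Lib.helper386.deltaSeries = ofZ eisenstein4 ^ 3 := by
  have h := Fermat.Agent.Lib.helper386.jqModC_mul_deltaSeries ℤ
  rw [map_intCast_self, map_intCast_self, map_pow] at h
  exact h

/-- `j(q^d) Δ(q^d) = E₄(q^d)³` in `ℤ((q))`. -/
theorem qExpand_jqModC_mul_delta_int (d : ℕ) [NeZero d] :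
    qExpand ℤ d (jqModC ℤ) *
        ofZ (PowerSeries.expand d (NeZero.ne d) Fermat.Agent.Lib.helper386.deltaSeries)
      = ofZ (PowerSeries.expand d (NeZero.ne d) eisenstein4) ^ 3 := by
  rw [← qExpand_ofPowerSeries, ← qExpand_ofPowerSeries, ← map_mul, ← map_pow]
  exact congrArg (qExpand ℤ d) jqModC_mul_delta_int

/-- The series `C / q` for a power series `C`. -/
def shiftDown (C : PowerSeries ℤ) : PowerSeries ℤ :=
  PowerSeries.mk fun n => PowerSeries.coeff (n + 1) C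

lemma X_mul_shiftDown (C : PowerSeries ℤ) (h0 : PowerSeries.coeff 0 C = 0) :
    PowerSeries.X * shiftDown C = C := by
  ext n
  rcases n with _ | n
  · simp [h0]
  · rw [PowerSeries.coeff_succ_X_mul, shiftDown, PowerSeries.coeff_mk]

lemma constantCoeff_shiftDown (C : PowerSeries ℤ) :
    PowerSeries.constantCoeff (shiftDown C) = PowerSeries.coeff 1 C := by
  rw [← PowerSeries.coeff_zero_eq_constantCoeff_apply, shiftDown, PowerSeries.coeff_mk]

/-- The inverse in `ℤ((q))` of a power series `C = q + ⋯`. -/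
def invLS (C : PowerSeries ℤ) : LaurentSeries ℤ :=
  HahnSeries.single (-1 : ℤ) (1 : ℤ) * ofZ ((shiftDown C).invOfUnit 1)

lemma ofZ_mul_invLS (C : PowerSeries ℤ) (h0 : PowerSeries.coeff 0 C = 0)
    (h1 : PowerSeries.coeff 1 C = 1) : ofZ C * invLS C = 1 := by
  have hu : shiftDown C * (shiftDown C).invOfUnit 1 = 1 :=
    PowerSeries.mul_invOfUnit _ _ (by rw [constantCoeff_shiftDown, h1]; rfl)
  have hC : ofZ C = HahnSeries.single (1 : ℤ) (1 : ℤ) * ofZ (shiftDown C) := by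
    conv_lhs => rw [← X_mul_shiftDown C h0]
    rw [map_mul, HahnSeries.ofPowerSeries_X]
  rw [hC, invLS]
  calc HahnSeries.single (1 : ℤ) (1 : ℤ) * ofZ (shiftDown C) *
        (HahnSeries.single (-1 : ℤ) (1 : ℤ) * ofZ ((shiftDown C).invOfUnit 1))
      = (HahnSeries.single (1 : ℤ) (1 : ℤ) * HahnSeries.single (-1 : ℤ) (1 : ℤ)) *
          ofZ (shiftDown C * (shiftDown C).invOfUnit 1) := by
        rw [map_mul]; ring
    _ = 1 := by
        rw [hu, show ofZ (1 : PowerSeries ℤ) = 1 from map_one ofZ, mul_one,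
          HahnSeries.single_mul_single]
        simp

lemma cancel_unit_pow {x y u v : LaurentSeries ℤ} (huv : u * v = 1) (n : ℕ)
    (h : x * u ^ n = y * u ^ n) : x = y := by
  have h2 := congrArg (· * v ^ n) h
  simp only [mul_assoc, ← mul_pow, huv, one_pow, mul_one] at h2
  exact h2

lemma coeff_c2Z_zero : PowerSeries.coeff 0 c2Z = 0 := by
  rw [c2Z, map_sub, coeff_S3_zero, coeff_S3V_zero, sub_zero]

lemma coeff_c2Z_one : PowerSeries.coeff 1 c2Z = 1 := by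
  rw [c2Z, map_sub, coeff_S3_one, coeff_S3V_one 2 (by norm_num), sub_zero]

lemma coeff_c3Z_zero : PowerSeries.coeff 0 c3Z = 0 := by
  rw [c3Z, map_sub, coeff_S3_zero, coeff_S3V_zero, sub_zero]

lemma coeff_c3Z_one : PowerSeries.coeff 1 c3Z = 1 := by
  rw [c3Z, map_sub, coeff_S3_one, coeff_S3V_one 3 (by norm_num), sub_zero]

/-- The Hauptmodul of level 2 as an integer Laurent series: `t₂ = d / c = q⁻¹ - 24 + ⋯`
(`= Δ(q) / Δ(q²)`). -/
def t2Z : LaurentSeries ℤ := ofZ d2Z * invLS c2Z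

/-- The Hauptmodul of level 3 as an integer Laurent series: `t₃ = n / c = q⁻¹ - 12 + ⋯`
(`t₃² = Δ(q) / Δ(q³)`). -/
def t3Z : LaurentSeries ℤ := ofZ n3Z * invLS c3Z

lemma t2Z_mul : t2Z * ofZ c2Z = ofZ d2Z := by
  rw [t2Z, mul_assoc, mul_comm (invLS c2Z), ofZ_mul_invLS c2Z coeff_c2Z_zero coeff_c2Z_one,
    mul_one]

lemma t3Z_mul : t3Z * ofZ c3Z = ofZ n3Z := by
  rw [t3Z, mul_assoc, mul_comm (invLS c3Z), ofZ_mul_invLS c3Z coeff_c3Z_zero coeff_c3Z_one,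
    mul_one]

/-- **Level 2, first identity**: `j · t₂² = (t₂ + 256)³` in `ℤ((q))`. -/
theorem jq_mul_t2Z_sq : jqModC ℤ * t2Z ^ 2 = (t2Z + 256) ^ 3 := by
  apply cancel_unit_pow (ofZ_mul_invLS c2Z coeff_c2Z_zero coeff_c2Z_one) 3
  have htu := t2Z_mul
  have hΔ := jqModC_mul_delta_int
  have hcd : ofZ Fermat.Agent.Lib.helper386.deltaSeries = ofZ c2Z * ofZ d2Z ^ 2 := by
    rw [deltaSeries_eq_two, map_mul, map_pow]
  have ha : ofZ eisenstein4 = ofZ d2Z + 256 * ofZ c2Z := by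
    conv_lhs => rw [eisenstein4_eq_two]
    rw [map_add, map_mul, map_ofNat]
  calc jqModC ℤ * t2Z ^ 2 * ofZ c2Z ^ 3
      = jqModC ℤ * (ofZ c2Z * (t2Z * ofZ c2Z) ^ 2) := by ring
    _ = jqModC ℤ * ofZ Fermat.Agent.Lib.helper386.deltaSeries := by rw [htu, hcd]
    _ = (ofZ d2Z + 256 * ofZ c2Z) ^ 3 := by rw [hΔ, ha]
    _ = (t2Z * ofZ c2Z + 256 * ofZ c2Z) ^ 3 := by rw [htu]
    _ = (t2Z + 256) ^ 3 * ofZ c2Z ^ 3 := by ring

/-- **Level 2, second identity**: `j(q²) · t₂ = (t₂ + 16)³` in `ℤ((q))`. -/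
theorem qExpand_jq_mul_t2Z : qExpand ℤ 2 (jqModC ℤ) * t2Z = (t2Z + 16) ^ 3 := by
  apply cancel_unit_pow (ofZ_mul_invLS c2Z coeff_c2Z_zero coeff_c2Z_one) 3
  have htu := t2Z_mul
  have hΔ := qExpand_jqModC_mul_delta_int 2
  have hcd : ofZ (PowerSeries.expand 2 (NeZero.ne 2) Fermat.Agent.Lib.helper386.deltaSeries)
      = ofZ c2Z ^ 2 * ofZ d2Z := by
    rw [expand_deltaSeries_two, map_mul, map_pow]
  have ha : ofZ (PowerSeries.expand 2 (NeZero.ne 2) eisenstein4) = ofZ d2Z + 16 * ofZ c2Z := by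
    rw [expand_eisenstein4_two, map_add, map_mul, map_ofNat]
  calc qExpand ℤ 2 (jqModC ℤ) * t2Z * ofZ c2Z ^ 3
      = qExpand ℤ 2 (jqModC ℤ) * (ofZ c2Z ^ 2 * (t2Z * ofZ c2Z)) := by ring
    _ = qExpand ℤ 2 (jqModC ℤ) *
          ofZ (PowerSeries.expand 2 (NeZero.ne 2) Fermat.Agent.Lib.helper386.deltaSeries) := by
        rw [htu, hcd]
    _ = (ofZ d2Z + 16 * ofZ c2Z) ^ 3 := by rw [hΔ, ha]
    _ = (t2Z * ofZ c2Z + 16 * ofZ c2Z) ^ 3 := by rw [htu]
    _ = (t2Z + 16) ^ 3 * ofZ c2Z ^ 3 := by ring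

/-- **Level 3, first identity**: `j · t₃³ = (t₃ + 27)(t₃ + 243)³` in `ℤ((q))`. -/
theorem jq_mul_t3Z_cube : jqModC ℤ * t3Z ^ 3 = (t3Z + 27) * (t3Z + 243) ^ 3 := by
  apply cancel_unit_pow (ofZ_mul_invLS c3Z coeff_c3Z_zero coeff_c3Z_one) 4
  have htu := t3Z_mul
  have hΔ := jqModC_mul_delta_int
  have hcd : ofZ n3Z ^ 3 * ofZ c3Z
      = (ofZ n3Z + 27 * ofZ c3Z) * ofZ Fermat.Agent.Lib.helper386.deltaSeries := by
    have := congrArg ofZ deltaSeries_eq_three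
    rwa [map_mul, map_pow, map_mul, map_add, map_mul, map_ofNat] at this
  have ha : ofZ eisenstein4 = ofZ n3Z + 243 * ofZ c3Z := by
    conv_lhs => rw [eisenstein4_eq_three]
    rw [map_add, map_mul, map_ofNat]
  calc jqModC ℤ * t3Z ^ 3 * ofZ c3Z ^ 4
      = jqModC ℤ * ((t3Z * ofZ c3Z) ^ 3 * ofZ c3Z) := by ring
    _ = jqModC ℤ * ((ofZ n3Z + 27 * ofZ c3Z) * ofZ Fermat.Agent.Lib.helper386.deltaSeries) := by
        rw [htu, hcd]
    _ = (ofZ n3Z + 27 * ofZ c3Z) *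
          (jqModC ℤ * ofZ Fermat.Agent.Lib.helper386.deltaSeries) := by ring
    _ = (ofZ n3Z + 27 * ofZ c3Z) * (ofZ n3Z + 243 * ofZ c3Z) ^ 3 := by rw [hΔ, ha]
    _ = (t3Z * ofZ c3Z + 27 * ofZ c3Z) * (t3Z * ofZ c3Z + 243 * ofZ c3Z) ^ 3 := by rw [htu]
    _ = (t3Z + 27) * (t3Z + 243) ^ 3 * ofZ c3Z ^ 4 := by ring

/-- **Level 3, second identity**: `j(q³) · t₃ = (t₃ + 27)(t₃ + 3)³` in `ℤ((q))`. -/
theorem qExpand_jq_mul_t3Z :
    qExpand ℤ 3 (jqModC ℤ) * t3Z = (t3Z + 27) * (t3Z + 3) ^ 3 := by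
  apply cancel_unit_pow (ofZ_mul_invLS c3Z coeff_c3Z_zero coeff_c3Z_one) 4
  have htu := t3Z_mul
  have hΔ := qExpand_jqModC_mul_delta_int 3
  have hcd : ofZ n3Z * ofZ c3Z ^ 3 = (ofZ n3Z + 27 * ofZ c3Z) *
      ofZ (PowerSeries.expand 3 (NeZero.ne 3) Fermat.Agent.Lib.helper386.deltaSeries) := by
    have := congrArg ofZ expand_deltaSeries_three
    rwa [map_mul, map_pow, map_mul, map_add, map_mul, map_ofNat] at this
  have ha : ofZ (PowerSeries.expand 3 (NeZero.ne 3) eisenstein4) = ofZ n3Z + 3 * ofZ c3Z := by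
    rw [expand_eisenstein4_three, map_add, map_mul, map_ofNat]
  calc qExpand ℤ 3 (jqModC ℤ) * t3Z * ofZ c3Z ^ 4
      = qExpand ℤ 3 (jqModC ℤ) * ((t3Z * ofZ c3Z) * ofZ c3Z ^ 3) := by ring
    _ = qExpand ℤ 3 (jqModC ℤ) * ((ofZ n3Z + 27 * ofZ c3Z) *
          ofZ (PowerSeries.expand 3 (NeZero.ne 3) Fermat.Agent.Lib.helper386.deltaSeries)) := by
        rw [htu, hcd]
    _ = (ofZ n3Z + 27 * ofZ c3Z) * (qExpand ℤ 3 (jqModC ℤ) *
          ofZ (PowerSeries.expand 3 (NeZero.ne 3) Fermat.Agent.Lib.helper386.deltaSeries)) := by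
        ring
    _ = (ofZ n3Z + 27 * ofZ c3Z) * (ofZ n3Z + 3 * ofZ c3Z) ^ 3 := by rw [hΔ, ha]
    _ = (t3Z * ofZ c3Z + 27 * ofZ c3Z) * (t3Z * ofZ c3Z + 3 * ofZ c3Z) ^ 3 := by rw [htu]
    _ = (t3Z + 27) * (t3Z + 3) ^ 3 * ofZ c3Z ^ 4 := by ring

/-! #### Leading terms: `t_r = q⁻¹ · (unit)` -/

lemma constantCoeff_S3 : PowerSeries.constantCoeff S3 = 0 := by
  rw [← PowerSeries.coeff_zero_eq_constantCoeff_apply, coeff_S3_zero]

lemma constantCoeff_S3V (r : ℕ) [NeZero r] : PowerSeries.constantCoeff (S3V r) = 0 := by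
  rw [← PowerSeries.coeff_zero_eq_constantCoeff_apply, coeff_S3V_zero]

lemma constantCoeff_d2Z : PowerSeries.constantCoeff d2Z = 1 := by
  rw [d2Z, map_sub, map_add, map_mul, map_mul, map_one, constantCoeff_S3, constantCoeff_S3V]
  simp

lemma constantCoeff_n3Z : PowerSeries.constantCoeff n3Z = 1 := by
  rw [n3Z, map_sub, map_add, map_mul, map_mul, map_one, constantCoeff_S3, constantCoeff_S3V]
  simp

/-- `q · t₂ ∈ ℤ⟦q⟧`, a power series with constant term `1`. -/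
def u2Z : PowerSeries ℤ := d2Z * (shiftDown c2Z).invOfUnit 1

/-- `q · t₃ ∈ ℤ⟦q⟧`, a power series with constant term `1`. -/
def u3Z : PowerSeries ℤ := n3Z * (shiftDown c3Z).invOfUnit 1

theorem t2Z_eq_single_mul : t2Z = HahnSeries.single (-1 : ℤ) (1 : ℤ) * ofZ u2Z := by
  rw [t2Z, invLS, u2Z, map_mul]; ring

theorem t3Z_eq_single_mul : t3Z = HahnSeries.single (-1 : ℤ) (1 : ℤ) * ofZ u3Z := by
  rw [t3Z, invLS, u3Z, map_mul]; ring

theorem constantCoeff_u2Z : PowerSeries.constantCoeff u2Z = 1 := by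
  rw [u2Z, map_mul, constantCoeff_d2Z, PowerSeries.constantCoeff_invOfUnit]
  simp

theorem constantCoeff_u3Z : PowerSeries.constantCoeff u3Z = 1 := by
  rw [u3Z, map_mul, constantCoeff_n3Z, PowerSeries.constantCoeff_invOfUnit]
  simp

/-! #### The Hauptmoduln as `Δ`-quotients -/

/-- `t₂ · Δ(q²) = Δ(q)`. -/
theorem t2Z_mul_delta :
    t2Z * ofZ (PowerSeries.expand 2 (NeZero.ne 2) Fermat.Agent.Lib.helper386.deltaSeries)
      = ofZ Fermat.Agent.Lib.helper386.deltaSeries := by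
  rw [expand_deltaSeries_two, deltaSeries_eq_two, map_mul, map_mul, map_pow, map_pow]
  calc t2Z * (ofZ c2Z ^ 2 * ofZ d2Z) = (t2Z * ofZ c2Z) * ofZ c2Z * ofZ d2Z := by ring
    _ = ofZ c2Z * ofZ d2Z ^ 2 := by rw [t2Z_mul]; ring

lemma n3Z_add_ne_zero : n3Z + 27 * c3Z ≠ 0 := by
  intro h
  have h1 := congrArg PowerSeries.constantCoeff h
  rw [map_add, map_mul, constantCoeff_n3Z, ← PowerSeries.coeff_zero_eq_constantCoeff_apply c3Z,
    coeff_c3Z_zero] at h1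
  simp at h1

/-- `n² Δ(q³) = c² Δ(q)` in `ℤ⟦q⟧`. -/
theorem n3Z_sq_mul_expand_delta :
    n3Z ^ 2 * PowerSeries.expand 3 three_ne_zero Fermat.Agent.Lib.helper386.deltaSeries
      = c3Z ^ 2 * Fermat.Agent.Lib.helper386.deltaSeries := by
  apply mul_left_cancel₀ n3Z_add_ne_zero
  have h1 := deltaSeries_eq_three
  have h2 := expand_deltaSeries_three
  linear_combination (- n3Z ^ 2) * h2 + c3Z ^ 2 * h1

/-- `t₃² · Δ(q³) = Δ(q)`. -/
theorem t3Z_sq_mul_delta :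
    t3Z ^ 2 * ofZ (PowerSeries.expand 3 (NeZero.ne 3) Fermat.Agent.Lib.helper386.deltaSeries)
      = ofZ Fermat.Agent.Lib.helper386.deltaSeries := by
  apply cancel_unit_pow (ofZ_mul_invLS c3Z coeff_c3Z_zero coeff_c3Z_one) 2
  have h := congrArg ofZ n3Z_sq_mul_expand_delta
  rw [map_mul, map_mul, map_pow, map_pow] at h
  calc t3Z ^ 2 * ofZ (PowerSeries.expand 3 (NeZero.ne 3) Fermat.Agent.Lib.helper386.deltaSeries) *
        ofZ c3Z ^ 2
      = (t3Z * ofZ c3Z) ^ 2 *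
          ofZ (PowerSeries.expand 3 (NeZero.ne 3) Fermat.Agent.Lib.helper386.deltaSeries) := by
        ring
    _ = ofZ c3Z ^ 2 * ofZ Fermat.Agent.Lib.helper386.deltaSeries := by rw [t3Z_mul, h]
    _ = ofZ Fermat.Agent.Lib.helper386.deltaSeries * ofZ c3Z ^ 2 := by ring

/-! #### The weight 2 Eisenstein series `eps_r` as integer series -/

/-- `eps₂ = 2 E₂(q²) - E₂(q) = 1 + 24 ∑ σ'(n) qⁿ` (`σ'` = sum of the odd divisors). -/
def a2Z : PowerSeries ℤ :=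
  PowerSeries.mk fun n => if n = 0 then 1 else 24 * (sigmaPrime 2 n : ℤ)

/-- `eps₃ = (3 E₂(q³) - E₂(q)) / 2 = 1 + 12 ∑ σ'(n) qⁿ` (`σ'` = sum of the divisors prime
to 3). -/
def b3Z : PowerSeries ℤ :=
  PowerSeries.mk fun n => if n = 0 then 1 else 12 * (sigmaPrime 3 n : ℤ)

lemma qexp_a2 : qExpansion 1 a2 = toCZ a2Z := by
  ext n
  rw [a2, Q_smul, PowerSeries.coeff_smul, qExpansion_eisP_coeff, PowerSeries.coeff_map, a2Z,
    PowerSeries.coeff_mk]
  by_cases h : n = 0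
  · subst h
    rw [eisCoeff_zero, if_pos rfl]
    norm_num
  · rw [eisCoeff_of_ne_zero 2 h, if_neg h]
    simp

lemma qexp_b3 : qExpansion 1 b3 = toCZ b3Z := by
  ext n
  rw [b3, Q_smul, PowerSeries.coeff_smul, qExpansion_eisP_coeff, PowerSeries.coeff_map, b3Z,
    PowerSeries.coeff_mk]
  by_cases h : n = 0
  · subst h
    rw [eisCoeff_zero, if_pos rfl]
    norm_num
  · rw [eisCoeff_of_ne_zero 3 h, if_neg h]
    simp

/-- `eps₂² = d + 64 c` as modular forms on `Γ₀(2)`. -/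
theorem a2_mul_self :
    (ModularForm.mcast (by norm_num) (a2.mul a2) : ModularForm (Gamma0 2) 4)
      = D2f + (64 : ℂ) • C2f := by
  apply DFunLike.ext
  intro τ
  show a2 τ * a2 τ = D2f τ + 64 * C2f τ
  rw [D2f_apply, C2f_apply, ← a2_sq]
  ring

/-- `eps₃² = n + 27 c` as modular forms on `Γ₀(3)`. -/
theorem b3_mul_self :
    (ModularForm.mcast (by norm_num) (b3.mul b3) : ModularForm (Gamma0 3) 4)
      = N3f + (27 : ℂ) • C3f := by
  apply DFunLike.ext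
  intro τ
  show b3 τ * b3 τ = N3f τ + 27 * C3f τ
  rw [N3f_apply, C3f_apply]
  ring

/-- `eps₂² = d + 64 c` in `ℤ⟦q⟧`. -/
theorem a2Z_sq : a2Z ^ 2 = d2Z + 64 * c2Z := by
  apply toCZ_injective
  have h := congrArg (fun F : ModularForm (Gamma0 2) 4 => qExpansion 1 ⇑F) a2_mul_self
  simp only [Q_mcast, Q_mul, Q_add, Q_smul, qexp_a2, qexp_C2f, qexp_D2f] at h
  rw [show (64 : ℂ) • toCZ c2Z = 64 * toCZ c2Z from by
    ext m; simp only [PowerSeries.coeff_smul, coeff_ofNat_mul, smul_eq_mul]] at h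
  rw [map_pow, map_add, map_mul, map_ofNat, sq, h]

/-- `eps₃² = n + 27 c` in `ℤ⟦q⟧`. -/
theorem b3Z_sq : b3Z ^ 2 = n3Z + 27 * c3Z := by
  apply toCZ_injective
  have h := congrArg (fun F : ModularForm (Gamma0 3) 4 => qExpansion 1 ⇑F) b3_mul_self
  simp only [Q_mcast, Q_mul, Q_add, Q_smul, qexp_b3, qexp_C3f, qexp_N3f] at h
  rw [show (27 : ℂ) • toCZ c3Z = 27 * toCZ c3Z from by
    ext m; simp only [PowerSeries.coeff_smul, coeff_ofNat_mul, smul_eq_mul]] at h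
  rw [map_pow, map_add, map_mul, map_ofNat, sq, h]

/-- `eps₂² = (t₂ + 64) c` in `ℤ((q))`. -/
theorem ofZ_a2Z_sq : ofZ a2Z ^ 2 = (t2Z + 64) * ofZ c2Z := by
  rw [← map_pow, a2Z_sq, map_add, map_mul, map_ofNat, add_mul, t2Z_mul]

/-- `eps₃² = (t₃ + 27) c` in `ℤ((q))`. -/
theorem ofZ_b3Z_sq : ofZ b3Z ^ 2 = (t3Z + 27) * ofZ c3Z := by
  rw [← map_pow, b3Z_sq, map_add, map_mul, map_ofNat, add_mul, t3Z_mul]

lemma constantCoeff_b3Z : PowerSeries.constantCoeff b3Z = 1 := by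
  rw [← PowerSeries.coeff_zero_eq_constantCoeff_apply, b3Z, PowerSeries.coeff_mk, if_pos rfl]

/-- `d = c² / eps₃ = q² + ⋯ ∈ ℤ⟦q⟧` (level 3, weight 6; `= η(3z)¹⁸ / η(z)⁶`). -/
def d3Z : PowerSeries ℤ := c3Z ^ 2 * b3Z.invOfUnit 1

theorem b3Z_mul_d3Z : b3Z * d3Z = c3Z ^ 2 := by
  have hu : b3Z * b3Z.invOfUnit 1 = 1 :=
    PowerSeries.mul_invOfUnit _ _ (by rw [constantCoeff_b3Z]; rfl)
  calc b3Z * d3Z = c3Z ^ 2 * (b3Z * b3Z.invOfUnit 1) := by rw [d3Z]; ring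
    _ = c3Z ^ 2 := by rw [hu, mul_one]

/-- `eps₃³ = (t₃ + 27)² d` in `ℤ((q))`. -/
theorem ofZ_b3Z_cube : ofZ b3Z ^ 3 = (t3Z + 27) ^ 2 * ofZ d3Z := by
  have hu : b3Z * b3Z.invOfUnit 1 = 1 :=
    PowerSeries.mul_invOfUnit _ _ (by rw [constantCoeff_b3Z]; rfl)
  have hu' : ofZ b3Z * ofZ (b3Z.invOfUnit 1) = 1 := by rw [← map_mul, hu, map_one]
  have h1 := ofZ_b3Z_sq
  have hd : ofZ d3Z = ofZ c3Z ^ 2 * ofZ (b3Z.invOfUnit 1) := by rw [d3Z, map_mul, map_pow]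
  rw [hd]
  calc ofZ b3Z ^ 3 = ofZ b3Z ^ 3 * (ofZ b3Z * ofZ (b3Z.invOfUnit 1)) := by rw [hu', mul_one]
    _ = (ofZ b3Z ^ 2) ^ 2 * ofZ (b3Z.invOfUnit 1) := by ring
    _ = (t3Z + 27) ^ 2 * (ofZ c3Z ^ 2 * ofZ (b3Z.invOfUnit 1)) := by rw [h1]; ring

end Laurent

end

end Fermat.Agent.S18.helper1257
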