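/-
S18-HLINE (helper6381): the Hauptmodul line `x = t_r` (`r = 2, 3`) inside the frozen function
fields `modularFunctionFieldFullC K N` over ANY field `K` in which `r` is invertible
(characteristic zero, or the residue field of a place over `ℓ ≠ r`).

Input: the two classical identities between `x` and `j(q)`, `j(q^r)` as identities of Laurent
series over `K` (they are the images under `coeffMap` of integer `q`-series identities):

* `r = 2` : `j * x^2 = (x + 256)^3`,            `j(q^2) * x = (x + 16)^3`;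
* `r = 3` : `j * x^3 = (x + 27) * (x + 243)^3`, `j(q^3) * x = (x + 27) * (x + 3)^3`.

Output (pure field algebra on top of the landed S28 degree theorem `[K(j(q^d) : d ∣ N) : K(j)] = ψ(N)`):

* `K(x) = modularFunctionFieldFullC K r`, so `x ∈ modularFunctionFieldFullC K N` for `r ∣ N`;
* `[K(x) : K(j)] = r + 1`;
* `x` is transcendental over `K`;
* `(r + 1) * [modularFunctionFieldFullC K N : K(x)] = ψ(N)` for `r ∣ N` (primes of `N` invertible
  in `K`): the SAME number on the generic and on the special fibre;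
* the same degree as `Module.finrank` over the simple subfield of the function field itself;
* `laurentBaseChange L (modularFunctionFieldFull N) = modularFunctionFieldFullC L N`.
-/
import Mathlib
import Fermat.Prelude.Def_ModularCurve_X0ModL
import Fermat.Prelude.Def_ModularCurve_ArithmeticGalois
import Fermat.Agent.S28.helper1457_TowerNoPhi
import Fermat.Agent.S28.helper559_TowerFromPrime
import Fermat.Agent.S28.helper508_FormalPrime
import Fermat.Agent.S28.helper3292_JqFacts

set_option autoImplicit false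

noncomputable section

namespace Fermat.Agent.S18.helper6381

open IntermediateField ModularCurve Polynomial

/-! ## Generic field algebra -/

section Generic

variable {K E : Type*} [Field K] [Field E] [Algebra K E]

theorem aeval_mem_adjoin_simple (x : E) (P : K[X]) : aeval x P ∈ K⟮x⟯ := by
  rw [Polynomial.aeval_eq_sum_range]
  refine sum_mem fun i _ => ?_
  rw [Algebra.smul_def]
  exact mul_mem (IntermediateField.algebraMap_mem _ _) (pow_mem (mem_adjoin_simple_self K x) i)

/-- If `j * x ^ a = P(x)` with `x ≠ 0` then `j ∈ K(x)`. -/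
theorem mem_adjoin_of_mul_pow_eq (j x : E) (a : ℕ) (P : K[X]) (hx : x ≠ 0)
    (hrel : j * x ^ a = aeval x P) : j ∈ K⟮x⟯ := by
  have hj : j = aeval x P / x ^ a := by
    rw [eq_div_iff (pow_ne_zero a hx)]
    exact hrel
  rw [hj]
  exact div_mem (aeval_mem_adjoin_simple x P) (pow_mem (mem_adjoin_simple_self K x) a)

/-- **Core.**  `K(j) ≤ F ≤ K(x)`, `x` a root of the monic polynomial `P(X) - j X^a` of degree
`n` over `K(j)`, and `[F : K(j)] = n`.  Then `F = K(x)` and `[K(x) : K(j)] = n`. -/
theorem hline_core (j x : E) (F : IntermediateField K E) (n a : ℕ)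
    (hjx : j ∈ K⟮x⟯) (hFx : F ≤ K⟮x⟯) (hjF : K⟮j⟯ ≤ F)
    (P : K[X]) (hP : P.Monic) (hPn : P.natDegree = n) (ha : a < n)
    (hrel : j * x ^ a = aeval x P)
    (hF : (K⟮j⟯).relrank F = (n : Cardinal)) :
    F = K⟮x⟯ ∧ (K⟮j⟯).relrank K⟮x⟯ = (n : Cardinal) := by
  have hSx : K⟮j⟯ ≤ K⟮x⟯ := by
    rw [adjoin_simple_le_iff]; exact hjx
  -- the monic polynomial over `K(j)`
  set jS : K⟮j⟯ := ⟨j, mem_adjoin_simple_self K j⟩ with hjS
  set Q : (K⟮j⟯)[X] := P.map (algebraMap K K⟮j⟯) - C jS * X ^ a with hQ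
  have hPm : (P.map (algebraMap K K⟮j⟯)).Monic := hP.map _
  have hPmn : (P.map (algebraMap K K⟮j⟯)).natDegree = n := by
    rw [hP.natDegree_map, hPn]
  have hlt : (C jS * X ^ a : (K⟮j⟯)[X]).natDegree < (P.map (algebraMap K K⟮j⟯)).natDegree := by
    rw [hPmn]
    exact lt_of_le_of_lt (natDegree_C_mul_X_pow_le jS a) ha
  have hQm : Q.Monic := by
    rw [hQ]
    exact hPm.sub_of_left (degree_lt_degree hlt)
  have hQn : Q.natDegree = n := by
    rw [hQ, natDegree_sub_eq_left_of_natDegree_lt hlt, hPmn]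
  have hroot : aeval x Q = 0 := by
    rw [hQ, map_sub, map_mul, aeval_C, map_pow, aeval_X, aeval_map_algebraMap, ← hrel]
    show j * x ^ a - j * x ^ a = 0
    exact sub_self _
  have hle : (K⟮j⟯).relrank K⟮x⟯ ≤ (n : Cardinal) := by
    have h := Fermat.Agent.S28.helper559.relrank_sup_simple_le (K⟮j⟯) hQm hroot
    rwa [hQn, sup_eq_right.mpr hSx] at h
  have htower := relrank_mul_relrank hjF hFx
  rw [hF] at htower
  have hn0 : (n : Cardinal) ≠ 0 := by
    exact_mod_cast (Nat.pos_of_ne_zero (by omega)).ne'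
  have hr0 : F.relrank K⟮x⟯ ≠ 0 := Fermat.Agent.S28.helper559.relrank_ne_zero _ _
  have hrfin : F.relrank K⟮x⟯ < Cardinal.aleph0 := by
    have h1 : F.relrank K⟮x⟯ ≤ (n : Cardinal) * F.relrank K⟮x⟯ := Cardinal.le_mul_left hn0
    rw [htower] at h1
    exact lt_of_le_of_lt (h1.trans hle) (Cardinal.natCast_lt_aleph0)
  obtain ⟨m, hm⟩ := Cardinal.lt_aleph0.mp hrfin
  have hm1 : m = 1 := by
    have h2 : ((n * m : ℕ) : Cardinal) ≤ (n : Cardinal) := by
      rw [Nat.cast_mul, ← hm, htower]; exact hle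
    have h3 : n * m ≤ n := by exact_mod_cast h2
    have hm0 : m ≠ 0 := by
      rintro rfl
      exact hr0 (by rw [hm]; simp)
    have hnpos : 0 < n := by omega
    have : m ≤ 1 := by
      by_contra hcon
      have : n * 2 ≤ n * m := Nat.mul_le_mul_left n (by omega)
      omega
    omega
  have hr1 : F.relrank K⟮x⟯ = 1 := by rw [hm, hm1]; simp
  have hxF : K⟮x⟯ ≤ F := relrank_eq_one_iff.mp hr1
  refine ⟨le_antisymm hFx hxF, ?_⟩
  rw [← htower, hr1, mul_one]

/-- The degree of a function field over a simple subfield, computed inside the field itself,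
equals the relative rank computed in the ambient field. -/
theorem rank_adjoin_subtype (F : IntermediateField K E) (x : F) :
    Module.rank (K⟮x⟯) F = (K⟮(x : E)⟯).relrank F := by
  have hc : (K⟮(x : E)⟯).comap F.val = K⟮x⟯ := by
    have hmap : (K⟮x⟯).map F.val = K⟮(x : E)⟯ := by
      rw [adjoin_map, Set.image_singleton]
      rfl
    ext y
    constructor
    · intro hy
      have hy' : F.val y ∈ K⟮(x : E)⟯ := hy
      rw [← hmap] at hy'
      obtain ⟨z, hz, hzy⟩ := hy'
      have : z = y := F.val.injective hzy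
      exact this ▸ hz
    · intro hy
      have hy' : F.val y ∈ (K⟮x⟯).map F.val := ⟨y, hy, rfl⟩
      rw [hmap] at hy'
      exact hy'
  have h := IntermediateField.rank_comap (A := K⟮(x : E)⟯) F.val
  rw [hc, IntermediateField.fieldRange_val] at h
  exact h

end Generic

/-! ## The landed degree theorem and the base change of the function field -/

section Degree

variable (K : Type) [Field K]

/-- The landed S28 degree theorem, for every field `K : Type` in which the primes dividing `N`
are invertible. -/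
theorem relrank_full_eq_psi (N : ℕ) [NeZero N]
    (hNk : ∀ p : ℕ, p.Prime → p ∣ N → (p : K) ≠ 0) :
    (K⟮jqModC K⟯).relrank (modularFunctionFieldFullC K N) = (dedekindPsi N : Cardinal) :=
  Fermat.Agent.S28.helper1457.relrank_full_eq_dedekindPsi_of_hub K N (NeZero.pos N)
    (Fermat.Agent.S28.helper559.hub_of_formalPrime K N (NeZero.pos N)
      (fun p _ _ => Fermat.Agent.S28.helper508.stmt_FormalPrime p)) hNk

theorem transcendental_jqModC : Transcendental K (jqModC K) := by
  rw [transcendental_iff_injective]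
  exact Fermat.Agent.S28.helper3292.aeval_jqModC_injective K

theorem adjoin_jqModC_le_full (N : ℕ) [NeZero N] :
    K⟮jqModC K⟯ ≤ modularFunctionFieldFullC K N := by
  rw [adjoin_simple_le_iff]
  exact jqModC_mem_full K N

theorem dedekindPsi_two : dedekindPsi 2 = 3 := by
  have h := Fermat.Agent.S28.helper1595.dedekindPsi_mul_prime_of_not_dvd (p := 2) (M := 1)
    Nat.prime_two one_pos (by norm_num)
  simpa using h

theorem dedekindPsi_three : dedekindPsi 3 = 4 := by
  have h := Fermat.Agent.S28.helper1595.dedekindPsi_mul_prime_of_not_dvd (p := 3) (M := 1)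
    Nat.prime_three one_pos (by norm_num)
  simpa using h

end Degree

section BaseChange

variable (L : Type*) [Field L] [Algebra ℚ L]

theorem coeffEmb_qExpand_jq (d : ℕ) [NeZero d] :
    coeffEmb L (qExpand ℚ d jq) = qExpand L d (jqModC L) := by
  rw [coeffEmb, coeffMap_qExpand, ← jqModC_rat, coeffMap_jqModC]

/-- The base change of the frozen function field is the field generated by the `j(q^d)` with
coefficients in `L`. -/
theorem laurentBaseChange_full_eq (N : ℕ) :
    laurentBaseChange L (modularFunctionFieldFull N) = modularFunctionFieldFullC L N := by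
  apply le_antisymm
  · rw [laurentBaseChange, adjoin_le_iff]
    rintro _ ⟨x, hx, rfl⟩
    have hx' : x ∈ IntermediateField.adjoin ℚ (divisorExpansions N) := hx
    clear hx
    induction hx' using IntermediateField.adjoin_induction with
    | mem x hx =>
        obtain ⟨d, hd0, hd, rfl⟩ := hx
        rw [coeffEmb_qExpand_jq]
        exact jqModCd_mem_full L N hd
    | algebraMap r =>
        have : coeffEmb L (algebraMap ℚ (LaurentSeries ℚ) r)
            = algebraMap L (LaurentSeries L) (algebraMap ℚ L r) := by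
          rw [algebraMap_laurentSeries_eq_single, algebraMap_laurentSeries_eq_single, coeffEmb,
            coeffMap_single]
        rw [this]
        exact (modularFunctionFieldFullC L N).algebraMap_mem _
    | add x y _ _ hx hy => rw [map_add]; exact add_mem hx hy
    | inv x _ hx => rw [map_inv₀]; exact inv_mem hx
    | mul x y _ _ hx hy => rw [map_mul]; exact mul_mem hx hy
  · rw [modularFunctionFieldFullC, adjoin_le_iff]
    rintro _ ⟨d, hd0, hd, rfl⟩
    rw [← coeffEmb_qExpand_jq]
    exact coeffEmb_mem_laurentBaseChange L (jqd_mem_full N hd)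

end BaseChange

/-! ## The two Hauptmodul lines -/

section Lines

variable (K : Type) [Field K]

theorem ofNat_pow_ne_zero_laurent (c : K) (hc : c ≠ 0) :
    algebraMap K (LaurentSeries K) c ≠ 0 := by
  intro h
  exact hc ((algebraMap K (LaurentSeries K)).injective (by rw [h, map_zero]))

/-- **Level 2.**  From `j x² = (x+256)³` and `j(q²) x = (x+16)³`:
`K(x) = K(j(q), j(q²))`, `[K(x):K(j)] = 3`, `x` transcendental. -/
theorem hline2 (h2 : (2 : K) ≠ 0) (x : LaurentSeries K)
    (hJ : jqModC K * x ^ 2 = (x + 256) ^ 3)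
    (hJ2 : qExpand K 2 (jqModC K) * x = (x + 16) ^ 3) :
    modularFunctionFieldFullC K 2 = K⟮x⟯ ∧
      (K⟮jqModC K⟯).relrank K⟮x⟯ = 3 ∧ Transcendental K x := by
  have hx : x ≠ 0 := by
    rintro rfl
    have h256 : (256 : LaurentSeries K) ^ 3 = algebraMap K (LaurentSeries K) (2 ^ 24) := by
      rw [map_pow, map_ofNat]; norm_num
    rw [zero_pow two_ne_zero, mul_zero, zero_add, h256] at hJ
    exact ofNat_pow_ne_zero_laurent K _ (pow_ne_zero 24 h2) hJ.symm
  set P : K[X] := (X + C 256) ^ 3 with hP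
  have hPm : P.Monic := (monic_X_add_C _).pow 3
  have hPn : P.natDegree = 3 := by
    rw [hP, natDegree_pow, natDegree_X_add_C]
  have hPx : aeval x P = (x + 256) ^ 3 := by
    rw [hP, map_pow, map_add, aeval_X, aeval_C, map_ofNat]
  set P2 : K[X] := (X + C 16) ^ 3 with hP2
  have hP2x : aeval x P2 = (x + 16) ^ 3 := by
    rw [hP2, map_pow, map_add, aeval_X, aeval_C, map_ofNat]
  have hjx : jqModC K ∈ K⟮x⟯ :=
    mem_adjoin_of_mul_pow_eq (jqModC K) x 2 P hx (by rw [hPx]; exact hJ)
  have hj2x : qExpand K 2 (jqModC K) ∈ K⟮x⟯ :=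
    mem_adjoin_of_mul_pow_eq _ x 1 P2 hx (by rw [hP2x, pow_one]; exact hJ2)
  have hFx : modularFunctionFieldFullC K 2 ≤ K⟮x⟯ := by
    rw [modularFunctionFieldFullC,
      Fermat.Agent.S28.helper1595.divisorExpansionsC_prime K 2 Nat.prime_two, adjoin_le_iff]
    rintro y (rfl | rfl)
    · exact hjx
    · exact hj2x
  have hF : (K⟮jqModC K⟯).relrank (modularFunctionFieldFullC K 2) = ((3 : ℕ) : Cardinal) := by
    rw [relrank_full_eq_psi K 2 (fun p hp hp2 => by
      rw [(Nat.prime_dvd_prime_iff_eq hp Nat.prime_two).mp hp2]; exact_mod_cast h2),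
      dedekindPsi_two]
  obtain ⟨h1, h3⟩ := hline_core (jqModC K) x (modularFunctionFieldFullC K 2) 3 2 hjx hFx
    (adjoin_jqModC_le_full K 2) P hPm hPn (by norm_num) (by rw [hPx]; exact hJ) hF
  refine ⟨h1, by simpa using h3, ?_⟩
  intro halg
  have hint : IsIntegral K x := halg.isIntegral
  have halgx : Algebra.IsAlgebraic K K⟮x⟯ := isAlgebraic_adjoin_simple hint
  have hj' : IsAlgebraic K (⟨jqModC K, hjx⟩ : K⟮x⟯) := Algebra.IsAlgebraic.isAlgebraic _
  exact transcendental_jqModC K ((isAlgebraic_iff (S := K⟮x⟯)).mp hj')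

/-- **Level 3.**  From `j x³ = (x+27)(x+243)³` and `j(q³) x = (x+27)(x+3)³`:
`K(x) = K(j(q), j(q³))`, `[K(x):K(j)] = 4`, `x` transcendental. -/
theorem hline3 (h3 : (3 : K) ≠ 0) (x : LaurentSeries K)
    (hJ : jqModC K * x ^ 3 = (x + 27) * (x + 243) ^ 3)
    (hJ3 : qExpand K 3 (jqModC K) * x = (x + 27) * (x + 3) ^ 3) :
    modularFunctionFieldFullC K 3 = K⟮x⟯ ∧
      (K⟮jqModC K⟯).relrank K⟮x⟯ = 4 ∧ Transcendental K x := by
  have hx : x ≠ 0 := by
    rintro rfl
    have h27 : (27 : LaurentSeries K) * (243 : LaurentSeries K) ^ 3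
        = algebraMap K (LaurentSeries K) (3 ^ 18) := by
      rw [map_pow, map_ofNat]; norm_num
    rw [zero_pow three_ne_zero, mul_zero, zero_add, zero_add, h27] at hJ
    exact ofNat_pow_ne_zero_laurent K _ (pow_ne_zero 18 h3) hJ.symm
  set P : K[X] := (X + C 27) * (X + C 243) ^ 3 with hP
  have hPm : P.Monic := (monic_X_add_C _).mul ((monic_X_add_C _).pow 3)
  have hPn : P.natDegree = 4 := by
    rw [hP, ((monic_X_add_C (27 : K)).natDegree_mul ((monic_X_add_C (243 : K)).pow 3)),
      natDegree_pow, natDegree_X_add_C, natDegree_X_add_C]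
  have hPx : aeval x P = (x + 27) * (x + 243) ^ 3 := by
    rw [hP, map_mul, map_pow, map_add, map_add, aeval_X, aeval_C, aeval_C, map_ofNat, map_ofNat]
  set P3 : K[X] := (X + C 27) * (X + C 3) ^ 3 with hP3
  have hP3x : aeval x P3 = (x + 27) * (x + 3) ^ 3 := by
    rw [hP3, map_mul, map_pow, map_add, map_add, aeval_X, aeval_C, aeval_C, map_ofNat, map_ofNat]
  have hjx : jqModC K ∈ K⟮x⟯ :=
    mem_adjoin_of_mul_pow_eq (jqModC K) x 3 P hx (by rw [hPx]; exact hJ)
  have hj3x : qExpand K 3 (jqModC K) ∈ K⟮x⟯ :=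
    mem_adjoin_of_mul_pow_eq _ x 1 P3 hx (by rw [hP3x, pow_one]; exact hJ3)
  have hFx : modularFunctionFieldFullC K 3 ≤ K⟮x⟯ := by
    rw [modularFunctionFieldFullC,
      Fermat.Agent.S28.helper1595.divisorExpansionsC_prime K 3 Nat.prime_three, adjoin_le_iff]
    rintro y (rfl | rfl)
    · exact hjx
    · exact hj3x
  have hF : (K⟮jqModC K⟯).relrank (modularFunctionFieldFullC K 3) = ((4 : ℕ) : Cardinal) := by
    rw [relrank_full_eq_psi K 3 (fun p hp hp3 => by
      rw [(Nat.prime_dvd_prime_iff_eq hp Nat.prime_three).mp hp3]; exact_mod_cast h3),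
      dedekindPsi_three]
  obtain ⟨h1, h4⟩ := hline_core (jqModC K) x (modularFunctionFieldFullC K 3) 4 3 hjx hFx
    (adjoin_jqModC_le_full K 3) P hPm hPn (by norm_num) (by rw [hPx]; exact hJ) hF
  refine ⟨h1, by simpa using h4, ?_⟩
  intro halg
  have hint : IsIntegral K x := halg.isIntegral
  have halgx : Algebra.IsAlgebraic K K⟮x⟯ := isAlgebraic_adjoin_simple hint
  have hj' : IsAlgebraic K (⟨jqModC K, hjx⟩ : K⟮x⟯) := Algebra.IsAlgebraic.isAlgebraic _
  exact transcendental_jqModC K ((isAlgebraic_iff (S := K⟮x⟯)).mp hj')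

/-- **Degree over the Hauptmodul line at level `N`.**  If `K(x) = modularFunctionFieldFullC K r`
has degree `n` over `K(j)` and `r ∣ N`, then `x` lies in the level-`N` field and
`n * [F_N : K(x)] = ψ(N)`. -/
theorem hline_level (x : LaurentSeries K) (r n : ℕ) [NeZero r]
    (hF : modularFunctionFieldFullC K r = K⟮x⟯)
    (hn : (K⟮jqModC K⟯).relrank K⟮x⟯ = (n : Cardinal))
    (N : ℕ) [NeZero N] (hrN : r ∣ N) (hNk : ∀ p : ℕ, p.Prime → p ∣ N → (p : K) ≠ 0) :
    x ∈ modularFunctionFieldFullC K N ∧
      (n : Cardinal) * (K⟮x⟯).relrank (modularFunctionFieldFullC K N) = (dedekindPsi N : Cardinal) ∧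
      n * (K⟮x⟯).relfinrank (modularFunctionFieldFullC K N) = dedekindPsi N := by
  have hle : K⟮x⟯ ≤ modularFunctionFieldFullC K N := by
    rw [← hF]; exact full_degeneracyC_le K hrN
  have hjx : K⟮jqModC K⟯ ≤ K⟮x⟯ := by
    rw [← hF]; exact adjoin_jqModC_le_full K r
  have htower := relrank_mul_relrank hjx hle
  rw [hn, relrank_full_eq_psi K N hNk] at htower
  refine ⟨hle (mem_adjoin_simple_self K x), htower, ?_⟩
  have h := congrArg Cardinal.toNat htower
  rw [Cardinal.toNat_mul, Cardinal.toNat_natCast, Cardinal.toNat_natCast] at h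
  rw [relfinrank_eq_toNat_relrank]
  exact h

/-- Level 2, all in one: membership and degree at every level `N` divisible by `2`. -/
theorem hline2_level (x : LaurentSeries K)
    (hJ : jqModC K * x ^ 2 = (x + 256) ^ 3)
    (hJ2 : qExpand K 2 (jqModC K) * x = (x + 16) ^ 3)
    (N : ℕ) [NeZero N] (h2N : 2 ∣ N) (hNk : ∀ p : ℕ, p.Prime → p ∣ N → (p : K) ≠ 0) :
    x ∈ modularFunctionFieldFullC K N ∧ Transcendental K x ∧
      3 * (K⟮x⟯).relfinrank (modularFunctionFieldFullC K N) = dedekindPsi N := by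
  have h2 : (2 : K) ≠ 0 := by exact_mod_cast hNk 2 Nat.prime_two h2N
  obtain ⟨hF, hn, htr⟩ := hline2 K h2 x hJ hJ2
  obtain ⟨hmem, -, hdeg⟩ := hline_level K x 2 3 hF (by simpa using hn) N h2N hNk
  exact ⟨hmem, htr, hdeg⟩

/-- Level 3, all in one: membership and degree at every level `N` divisible by `3`. -/
theorem hline3_level (x : LaurentSeries K)
    (hJ : jqModC K * x ^ 3 = (x + 27) * (x + 243) ^ 3)
    (hJ3 : qExpand K 3 (jqModC K) * x = (x + 27) * (x + 3) ^ 3)
    (N : ℕ) [NeZero N] (h3N : 3 ∣ N) (hNk : ∀ p : ℕ, p.Prime → p ∣ N → (p : K) ≠ 0) :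
    x ∈ modularFunctionFieldFullC K N ∧ Transcendental K x ∧
      4 * (K⟮x⟯).relfinrank (modularFunctionFieldFullC K N) = dedekindPsi N := by
  have h3 : (3 : K) ≠ 0 := by exact_mod_cast hNk 3 Nat.prime_three h3N
  obtain ⟨hF, hn, htr⟩ := hline3 K h3 x hJ hJ3
  obtain ⟨hmem, -, hdeg⟩ := hline_level K x 3 4 hF (by simpa using hn) N h3N hNk
  exact ⟨hmem, htr, hdeg⟩

/-- Subtype form: the degree of the level-`N` function field over the simple subfield generated
by `x` INSIDE the function field (the shape consumed by valued-field kits with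
`[Algebra L⟮x⟯ F]`). -/
theorem finrank_subtype_eq_relfinrank (N : ℕ) [NeZero N]
    (x : modularFunctionFieldFullC K N) :
    Module.finrank (K⟮x⟯) (modularFunctionFieldFullC K N)
      = (K⟮(x : LaurentSeries K)⟯).relfinrank (modularFunctionFieldFullC K N) := by
  rw [relfinrank_eq_toNat_relrank, ← rank_adjoin_subtype]
  rfl

end Lines

/-! ## Consumer forms -/

section Consumer

/-- Generic passage to the subtype: transcendence, finiteness and degree of `F` over `K(x)`
for `x : F`, from the corresponding facts in the ambient field. -/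
theorem subtype_of_relfinrank {K E : Type*} [Field K] [Field E] [Algebra K E]
    (F : IntermediateField K E) (x : F) (n d : ℕ) (hd : 0 < d)
    (htr : Transcendental K (x : E)) (h : n * (K⟮(x : E)⟯).relfinrank F = d) :
    Transcendental K x ∧ FiniteDimensional K⟮x⟯ F ∧ n * Module.finrank K⟮x⟯ F = d := by
  have hfr : Module.finrank K⟮x⟯ F = (K⟮(x : E)⟯).relfinrank F := by
    rw [relfinrank_eq_toNat_relrank, ← rank_adjoin_subtype]
    rfl
  refine ⟨fun halg => htr ((isAlgebraic_iff (S := F)).mp halg), ?_, by rw [hfr]; exact h⟩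
  refine Module.finite_of_finrank_pos ?_
  rw [hfr]
  rcases Nat.eq_zero_or_pos ((K⟮(x : E)⟯).relfinrank F) with h0 | h0
  · rw [h0, mul_zero] at h; omega
  · exact h0

variable (K : Type) [Field K]

/-- The level-2 identities are transported by coefficient maps (so ONE integer identity serves
every coefficient field). -/
theorem identities2_map {R : Type*} [CommRing R] (f : R →+* K) (h : LaurentSeries R)
    (hJ : jqModC R * h ^ 2 = (h + 256) ^ 3)
    (hJ2 : qExpand R 2 (jqModC R) * h = (h + 16) ^ 3) :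
    jqModC K * (coeffMap f h) ^ 2 = (coeffMap f h + 256) ^ 3 ∧
      qExpand K 2 (jqModC K) * coeffMap f h = (coeffMap f h + 16) ^ 3 := by
  constructor
  · have := congrArg (coeffMap f) hJ
    rwa [map_mul, map_pow, map_pow, map_add, coeffMap_jqModC, map_ofNat] at this
  · have := congrArg (coeffMap f) hJ2
    rwa [map_mul, map_pow, map_add, coeffMap_qExpand, coeffMap_jqModC, map_ofNat] at this

/-- The level-3 identities are transported by coefficient maps. -/
theorem identities3_map {R : Type*} [CommRing R] (f : R →+* K) (h : LaurentSeries R)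
    (hJ : jqModC R * h ^ 3 = (h + 27) * (h + 243) ^ 3)
    (hJ3 : qExpand R 3 (jqModC R) * h = (h + 27) * (h + 3) ^ 3) :
    jqModC K * (coeffMap f h) ^ 3 = (coeffMap f h + 27) * (coeffMap f h + 243) ^ 3 ∧
      qExpand K 3 (jqModC K) * coeffMap f h = (coeffMap f h + 27) * (coeffMap f h + 3) ^ 3 := by
  constructor
  · have := congrArg (coeffMap f) hJ
    rwa [map_mul, map_pow, map_mul, map_pow, map_add, map_add, coeffMap_jqModC, map_ofNat,
      map_ofNat] at this
  · have := congrArg (coeffMap f) hJ3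
    rwa [map_mul, map_mul, map_pow, map_add, map_add, coeffMap_qExpand, coeffMap_jqModC,
      map_ofNat, map_ofNat] at this

/-- **Level 2, subtype form over any field** (special fibre: `K` the residue field). -/
theorem hline2_subtype (N : ℕ) [NeZero N] (h2N : 2 ∣ N)
    (hNk : ∀ p : ℕ, p.Prime → p ∣ N → (p : K) ≠ 0) (x : modularFunctionFieldFullC K N)
    (hJ : jqModC K * (x : LaurentSeries K) ^ 2 = ((x : LaurentSeries K) + 256) ^ 3)
    (hJ2 : qExpand K 2 (jqModC K) * (x : LaurentSeries K) = ((x : LaurentSeries K) + 16) ^ 3) :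
    Transcendental K x ∧ FiniteDimensional K⟮x⟯ (modularFunctionFieldFullC K N) ∧
      3 * Module.finrank K⟮x⟯ (modularFunctionFieldFullC K N) = dedekindPsi N := by
  obtain ⟨-, htr, hdeg⟩ := hline2_level K (x : LaurentSeries K) hJ hJ2 N h2N hNk
  exact subtype_of_relfinrank _ x 3 _
    (Fermat.Agent.S28.helper1595.dedekindPsi_pos (NeZero.pos N)) htr hdeg

/-- **Level 3, subtype form over any field.** -/
theorem hline3_subtype (N : ℕ) [NeZero N] (h3N : 3 ∣ N)
    (hNk : ∀ p : ℕ, p.Prime → p ∣ N → (p : K) ≠ 0) (x : modularFunctionFieldFullC K N)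
    (hJ : jqModC K * (x : LaurentSeries K) ^ 3
      = ((x : LaurentSeries K) + 27) * ((x : LaurentSeries K) + 243) ^ 3)
    (hJ3 : qExpand K 3 (jqModC K) * (x : LaurentSeries K)
      = ((x : LaurentSeries K) + 27) * ((x : LaurentSeries K) + 3) ^ 3) :
    Transcendental K x ∧ FiniteDimensional K⟮x⟯ (modularFunctionFieldFullC K N) ∧
      4 * Module.finrank K⟮x⟯ (modularFunctionFieldFullC K N) = dedekindPsi N := by
  obtain ⟨-, htr, hdeg⟩ := hline3_level K (x : LaurentSeries K) hJ hJ3 N h3N hNk
  exact subtype_of_relfinrank _ x 4 _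
    (Fermat.Agent.S28.helper1595.dedekindPsi_pos (NeZero.pos N)) htr hdeg

end Consumer

/-! ## The generic fibre `modularFunctionFieldBar N` -/

section Bar

local notation "Qb" => AlgebraicClosure ℚ

theorem natCast_ne_zero_Qbar (N : ℕ) : ∀ p : ℕ, p.Prime → p ∣ N → (p : Qb) ≠ 0 :=
  fun _ hp _ => Nat.cast_ne_zero.mpr hp.ne_zero

/-- Level 2 on the generic fibre: a series with the two identities lies in
`modularFunctionFieldBar N` (`2 ∣ N`). -/
theorem hline2_mem_bar (N : ℕ) [NeZero N] (h2N : 2 ∣ N) (x : LaurentSeries Qb)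
    (hJ : jqModC Qb * x ^ 2 = (x + 256) ^ 3)
    (hJ2 : qExpand Qb 2 (jqModC Qb) * x = (x + 16) ^ 3) :
    x ∈ modularFunctionFieldBar N := by
  show x ∈ laurentBaseChange Qb (modularFunctionFieldFull N)
  rw [laurentBaseChange_full_eq]
  exact (hline2_level Qb x hJ hJ2 N h2N (natCast_ne_zero_Qbar N)).1

/-- Level 3 on the generic fibre: membership. -/
theorem hline3_mem_bar (N : ℕ) [NeZero N] (h3N : 3 ∣ N) (x : LaurentSeries Qb)
    (hJ : jqModC Qb * x ^ 3 = (x + 27) * (x + 243) ^ 3)
    (hJ3 : qExpand Qb 3 (jqModC Qb) * x = (x + 27) * (x + 3) ^ 3) :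
    x ∈ modularFunctionFieldBar N := by
  show x ∈ laurentBaseChange Qb (modularFunctionFieldFull N)
  rw [laurentBaseChange_full_eq]
  exact (hline3_level Qb x hJ hJ3 N h3N (natCast_ne_zero_Qbar N)).1

/-- **Level 2 on the generic fibre, subtype form.** -/
theorem hline2_bar (N : ℕ) [NeZero N] (h2N : 2 ∣ N) (x : modularFunctionFieldBar N)
    (hJ : jqModC Qb * (x : LaurentSeries Qb) ^ 2 = ((x : LaurentSeries Qb) + 256) ^ 3)
    (hJ2 : qExpand Qb 2 (jqModC Qb) * (x : LaurentSeries Qb)
      = ((x : LaurentSeries Qb) + 16) ^ 3) :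
    Transcendental Qb x ∧ FiniteDimensional Qb⟮x⟯ (modularFunctionFieldBar N) ∧
      3 * Module.finrank Qb⟮x⟯ (modularFunctionFieldBar N) = dedekindPsi N := by
  obtain ⟨-, htr, hdeg⟩ :=
    hline2_level Qb (x : LaurentSeries Qb) hJ hJ2 N h2N (natCast_ne_zero_Qbar N)
  rw [← laurentBaseChange_full_eq Qb N] at hdeg
  exact subtype_of_relfinrank (modularFunctionFieldBar N) x 3 _
    (Fermat.Agent.S28.helper1595.dedekindPsi_pos (NeZero.pos N)) htr hdeg

/-- **Level 3 on the generic fibre, subtype form.** -/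
theorem hline3_bar (N : ℕ) [NeZero N] (h3N : 3 ∣ N) (x : modularFunctionFieldBar N)
    (hJ : jqModC Qb * (x : LaurentSeries Qb) ^ 3
      = ((x : LaurentSeries Qb) + 27) * ((x : LaurentSeries Qb) + 243) ^ 3)
    (hJ3 : qExpand Qb 3 (jqModC Qb) * (x : LaurentSeries Qb)
      = ((x : LaurentSeries Qb) + 27) * ((x : LaurentSeries Qb) + 3) ^ 3) :
    Transcendental Qb x ∧ FiniteDimensional Qb⟮x⟯ (modularFunctionFieldBar N) ∧
      4 * Module.finrank Qb⟮x⟯ (modularFunctionFieldBar N) = dedekindPsi N := by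
  obtain ⟨-, htr, hdeg⟩ :=
    hline3_level Qb (x : LaurentSeries Qb) hJ hJ3 N h3N (natCast_ne_zero_Qbar N)
  rw [← laurentBaseChange_full_eq Qb N] at hdeg
  exact subtype_of_relfinrank (modularFunctionFieldBar N) x 4 _
    (Fermat.Agent.S28.helper1595.dedekindPsi_pos (NeZero.pos N)) htr hdeg

end Bar

end Fermat.Agent.S18.helper6381
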