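/-
S18 leaf HLINE-INST (helper6381): the PLAIN UNCONDITIONAL instances of HLINE
(`helper6381_HLine`) at the landed integer Hauptmodul series `helper1257.t2Z`, `helper1257.t3Z`.
No Gauss ring, no valuation: only coefficient maps and field algebra.

For every commutative ring `R`:
  `t2K R := coeffMap (Int.castRingHom R) t2Z`, `t3K R := coeffMap (Int.castRingHom R) t3Z`,
  compatible with every ring hom (`coeffMap_t2K`), with the two `j`-identities over `R`,
  of the shape `q⁻¹ · (1 + ⋯)`.

For every field `K : Type`, `r ∈ {2, 3}`, `r ∣ N`, the primes of `N` invertible in `K`: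
  `t_rK K ∈ modularFunctionFieldFullC K N`, transcendental, `K(t_r) = F_{K,r}`,
  `j ∈ K(t_r)`, `(r + 1) * [F_{K,N} : K(t_r)] = ψ(N)` (ambient and subtype forms).

The same on `laurentBaseChange L (modularFunctionFieldFull N)` for every `L : Type` over `ℚ`
(in particular on `modularFunctionFieldBar N`).
-/
import Mathlib
import Fermat.Agent.S18.helper6381_HLine
import Fermat.Agent.S18.helper1257_HauptFormal

set_option autoImplicit false

namespace Fermat.Agent.S18.helper6381

open IntermediateField ModularCurve Polynomial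

noncomputable section

/-! ## The integer Hauptmoduln over an arbitrary commutative ring -/

section Ring

variable (R : Type*) [CommRing R]

/-- The Hauptmodul of level 2 with coefficients in `R` (image of the integer series). -/
def t2K : LaurentSeries R := coeffMap (Int.castRingHom R) helper1257.t2Z

/-- The Hauptmodul of level 3 with coefficients in `R` (image of the integer series). -/
def t3K : LaurentSeries R := coeffMap (Int.castRingHom R) helper1257.t3Z

variable {R} in
/-- The Hauptmodul series are compatible with EVERY ring hom (inclusion of a valuation ring,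
reduction to the residue field, embeddings of coefficient fields, ...). -/
theorem coeffMap_t2K {S : Type*} [CommRing S] (f : R →+* S) : coeffMap f (t2K R) = t2K S := by
  rw [t2K, coeffMap_coeffMap, t2K]
  exact coeffMap_congr (RingHom.ext_int _ _) _

variable {R} in
theorem coeffMap_t3K {S : Type*} [CommRing S] (f : R →+* S) : coeffMap f (t3K R) = t3K S := by
  rw [t3K, coeffMap_coeffMap, t3K]
  exact coeffMap_congr (RingHom.ext_int _ _) _

/-- `j · t₂² = (t₂ + 256)³` over every commutative ring. -/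
theorem t2K_sq : jqModC R * t2K R ^ 2 = (t2K R + 256) ^ 3 := by
  rw [t2K]
  have := congrArg (coeffMap (Int.castRingHom R)) helper1257.jq_mul_t2Z_sq
  rwa [map_mul, map_pow, map_pow, map_add, coeffMap_jqModC, map_ofNat] at this

/-- `j(q²) · t₂ = (t₂ + 16)³` over every commutative ring. -/
theorem t2K_qExpand : qExpand R 2 (jqModC R) * t2K R = (t2K R + 16) ^ 3 := by
  rw [t2K]
  have := congrArg (coeffMap (Int.castRingHom R)) helper1257.qExpand_jq_mul_t2Z
  rwa [map_mul, map_pow, map_add, coeffMap_qExpand, coeffMap_jqModC, map_ofNat] at this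

/-- `j · t₃³ = (t₃ + 27)(t₃ + 243)³` over every commutative ring. -/
theorem t3K_cube : jqModC R * t3K R ^ 3 = (t3K R + 27) * (t3K R + 243) ^ 3 := by
  rw [t3K]
  have := congrArg (coeffMap (Int.castRingHom R)) helper1257.jq_mul_t3Z_cube
  rwa [map_mul, map_pow, map_mul, map_pow, map_add, map_add, coeffMap_jqModC, map_ofNat,
    map_ofNat] at this

/-- `j(q³) · t₃ = (t₃ + 27)(t₃ + 3)³` over every commutative ring. -/
theorem t3K_qExpand : qExpand R 3 (jqModC R) * t3K R = (t3K R + 27) * (t3K R + 3) ^ 3 := by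
  rw [t3K]
  have := congrArg (coeffMap (Int.castRingHom R)) helper1257.qExpand_jq_mul_t3Z
  rwa [map_mul, map_mul, map_pow, map_add, map_add, coeffMap_qExpand, coeffMap_jqModC,
    map_ofNat, map_ofNat] at this

/-- `t₂ = q⁻¹ · u₂` with `u₂ ∈ R⟦q⟧`, `u₂(0) = 1`. -/
theorem t2K_eq_single_mul :
    t2K R = HahnSeries.single (-1 : ℤ) (1 : R) *
      HahnSeries.ofPowerSeries ℤ R (PowerSeries.map (Int.castRingHom R) helper1257.u2Z) := by
  rw [t2K, helper1257.t2Z_eq_single_mul, map_mul, coeffMap_single, coeffMap_ofPowerSeries,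
    map_one]

/-- `t₃ = q⁻¹ · u₃` with `u₃ ∈ R⟦q⟧`, `u₃(0) = 1`. -/
theorem t3K_eq_single_mul :
    t3K R = HahnSeries.single (-1 : ℤ) (1 : R) *
      HahnSeries.ofPowerSeries ℤ R (PowerSeries.map (Int.castRingHom R) helper1257.u3Z) := by
  rw [t3K, helper1257.t3Z_eq_single_mul, map_mul, coeffMap_single, coeffMap_ofPowerSeries,
    map_one]

/-- Coefficients of `q⁻¹ · u`. -/
theorem coeff_single_neg_one_mul (u : PowerSeries R) (k : ℤ) :
    (HahnSeries.single (-1 : ℤ) (1 : R) * HahnSeries.ofPowerSeries ℤ R u).coeff k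
      = (HahnSeries.ofPowerSeries ℤ R u).coeff (k + 1) := by
  have h := HahnSeries.coeff_single_mul_add (r := (1 : R))
    (x := HahnSeries.ofPowerSeries ℤ R u) (a := k + 1) (b := (-1 : ℤ))
  rw [one_mul] at h
  rw [← h]
  congr 1
  ring

theorem t2K_coeff (k : ℤ) :
    (t2K R).coeff k = (HahnSeries.ofPowerSeries ℤ R
      (PowerSeries.map (Int.castRingHom R) helper1257.u2Z)).coeff (k + 1) := by
  rw [t2K_eq_single_mul, coeff_single_neg_one_mul]

theorem t3K_coeff (k : ℤ) :
    (t3K R).coeff k = (HahnSeries.ofPowerSeries ℤ R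
      (PowerSeries.map (Int.castRingHom R) helper1257.u3Z)).coeff (k + 1) := by
  rw [t3K_eq_single_mul, coeff_single_neg_one_mul]

/-- The coefficient of `q⁻¹` in `t₂` is `1`. -/
theorem t2K_coeff_neg_one : (t2K R).coeff (-1) = 1 := by
  rw [t2K_coeff]
  have h := HahnSeries.ofPowerSeries_apply_coeff (Γ := ℤ)
    (PowerSeries.map (Int.castRingHom R) helper1257.u2Z) 0
  rw [show ((-1 : ℤ) + 1) = ((0 : ℕ) : ℤ) by norm_num, h, PowerSeries.coeff_map,
    PowerSeries.coeff_zero_eq_constantCoeff_apply, helper1257.constantCoeff_u2Z]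
  simp

/-- The coefficient of `q⁻¹` in `t₃` is `1`. -/
theorem t3K_coeff_neg_one : (t3K R).coeff (-1) = 1 := by
  rw [t3K_coeff]
  have h := HahnSeries.ofPowerSeries_apply_coeff (Γ := ℤ)
    (PowerSeries.map (Int.castRingHom R) helper1257.u3Z) 0
  rw [show ((-1 : ℤ) + 1) = ((0 : ℕ) : ℤ) by norm_num, h, PowerSeries.coeff_map,
    PowerSeries.coeff_zero_eq_constantCoeff_apply, helper1257.constantCoeff_u3Z]
  simp

/-- `t₂` has no terms below `q⁻¹`. -/
theorem t2K_coeff_of_lt {k : ℤ} (hk : k < -1) : (t2K R).coeff k = 0 := by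
  rw [t2K_coeff]
  exact ofPowerSeries_coeff_of_neg _ (by omega)

/-- `t₃` has no terms below `q⁻¹`. -/
theorem t3K_coeff_of_lt {k : ℤ} (hk : k < -1) : (t3K R).coeff k = 0 := by
  rw [t3K_coeff]
  exact ofPowerSeries_coeff_of_neg _ (by omega)

theorem t2K_ne_zero [Nontrivial R] : t2K R ≠ 0 := by
  intro h
  have h1 := t2K_coeff_neg_one R
  rw [h] at h1
  simp at h1

theorem t3K_ne_zero [Nontrivial R] : t3K R ≠ 0 := by
  intro h
  have h1 := t3K_coeff_neg_one R
  rw [h] at h1
  simp at h1

/-- Generic: a Laurent series with coefficient `1` at `q⁻¹` and nothing below has order `-1`. -/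
theorem order_eq_neg_one_of_coeff [Nontrivial R] (x : LaurentSeries R)
    (h1 : x.coeff (-1) = 1) (hlt : ∀ k : ℤ, k < -1 → x.coeff k = 0) : x.order = -1 := by
  have hx : x ≠ 0 := by
    rintro rfl
    simp at h1
  refine le_antisymm (HahnSeries.order_le_of_coeff_ne_zero (by rw [h1]; exact one_ne_zero)) ?_
  by_contra hcon
  exact hx (HahnSeries.coeff_order_eq_zero.mp (hlt _ (not_le.mp hcon)))

/-- `t₂` has a simple pole in `q` (over every nontrivial ring: on both fibres). -/
theorem t2K_order [Nontrivial R] : (t2K R).order = -1 :=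
  order_eq_neg_one_of_coeff R _ (t2K_coeff_neg_one R) (fun _ hk => t2K_coeff_of_lt R hk)

/-- `t₃` has a simple pole in `q` (over every nontrivial ring: on both fibres). -/
theorem t3K_order [Nontrivial R] : (t3K R).order = -1 :=
  order_eq_neg_one_of_coeff R _ (t3K_coeff_neg_one R) (fun _ hk => t3K_coeff_of_lt R hk)

end Ring

/-! ## Generic subtype lemma -/

section Generic

variable {K E : Type*} [Field K] [Field E] [Algebra K E]

/-- Membership in a simple subfield can be checked in the ambient field. -/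
theorem mem_adjoin_subtype_of_coe (F : IntermediateField K E) (x y : F)
    (h : (y : E) ∈ K⟮(x : E)⟯) : y ∈ K⟮x⟯ := by
  have hmap : (K⟮x⟯).map F.val = K⟮(x : E)⟯ := by
    rw [adjoin_map, Set.image_singleton]
    rfl
  rw [← hmap] at h
  obtain ⟨z, hz, hzy⟩ := h
  have : z = y := F.val.injective hzy
  exact this ▸ hz

end Generic

/-! ## Every field `K : Type`: the Hauptmodul lines inside `modularFunctionFieldFullC K N` -/

section Field

variable (K : Type) [Field K]

/-- `j ∈ K(t₂)` (no hypothesis on the characteristic). -/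
theorem jqModC_mem_adjoin_t2K : jqModC K ∈ K⟮t2K K⟯ := by
  refine mem_adjoin_of_mul_pow_eq (jqModC K) (t2K K) 2 ((X + C 256) ^ 3) (t2K_ne_zero K) ?_
  rw [t2K_sq, map_pow, map_add, aeval_X, aeval_C, map_ofNat]

/-- `j(q²) ∈ K(t₂)` (no hypothesis on the characteristic). -/
theorem qExpand_jqModC_mem_adjoin_t2K : qExpand K 2 (jqModC K) ∈ K⟮t2K K⟯ := by
  refine mem_adjoin_of_mul_pow_eq _ (t2K K) 1 ((X + C 16) ^ 3) (t2K_ne_zero K) ?_
  rw [pow_one, t2K_qExpand, map_pow, map_add, aeval_X, aeval_C, map_ofNat]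

/-- `j ∈ K(t₃)` (no hypothesis on the characteristic). -/
theorem jqModC_mem_adjoin_t3K : jqModC K ∈ K⟮t3K K⟯ := by
  refine mem_adjoin_of_mul_pow_eq (jqModC K) (t3K K) 3 ((X + C 27) * (X + C 243) ^ 3)
    (t3K_ne_zero K) ?_
  rw [t3K_cube, map_mul, map_pow, map_add, map_add, aeval_X, aeval_C, aeval_C, map_ofNat,
    map_ofNat]

/-- `j(q³) ∈ K(t₃)` (no hypothesis on the characteristic). -/
theorem qExpand_jqModC_mem_adjoin_t3K : qExpand K 3 (jqModC K) ∈ K⟮t3K K⟯ := by
  refine mem_adjoin_of_mul_pow_eq _ (t3K K) 1 ((X + C 27) * (X + C 3) ^ 3) (t3K_ne_zero K) ?_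
  rw [pow_one, t3K_qExpand, map_mul, map_pow, map_add, map_add, aeval_X, aeval_C, aeval_C,
    map_ofNat, map_ofNat]

/-- **Level 2, unconditional**: `K(t₂) = K(j(q), j(q²))`, `[K(t₂) : K(j)] = 3`,
`t₂` transcendental, for every field in which `2 ≠ 0`. -/
theorem t2K_line (h2 : (2 : K) ≠ 0) :
    modularFunctionFieldFullC K 2 = K⟮t2K K⟯ ∧
      (K⟮jqModC K⟯).relrank K⟮t2K K⟯ = 3 ∧ Transcendental K (t2K K) :=
  hline2 K h2 (t2K K) (t2K_sq K) (t2K_qExpand K)

/-- **Level 3, unconditional**: `K(t₃) = K(j(q), j(q³))`, `[K(t₃) : K(j)] = 4`,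
`t₃` transcendental, for every field in which `3 ≠ 0`. -/
theorem t3K_line (h3 : (3 : K) ≠ 0) :
    modularFunctionFieldFullC K 3 = K⟮t3K K⟯ ∧
      (K⟮jqModC K⟯).relrank K⟮t3K K⟯ = 4 ∧ Transcendental K (t3K K) :=
  hline3 K h3 (t3K K) (t3K_cube K) (t3K_qExpand K)

/-- Level 2 at every level `N` divisible by `2`: membership, transcendence, degree. -/
theorem t2K_level (N : ℕ) [NeZero N] (h2N : 2 ∣ N)
    (hNk : ∀ p : ℕ, p.Prime → p ∣ N → (p : K) ≠ 0) :
    t2K K ∈ modularFunctionFieldFullC K N ∧ Transcendental K (t2K K) ∧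
      3 * (K⟮t2K K⟯).relfinrank (modularFunctionFieldFullC K N) = dedekindPsi N :=
  hline2_level K (t2K K) (t2K_sq K) (t2K_qExpand K) N h2N hNk

/-- Level 3 at every level `N` divisible by `3`: membership, transcendence, degree. -/
theorem t3K_level (N : ℕ) [NeZero N] (h3N : 3 ∣ N)
    (hNk : ∀ p : ℕ, p.Prime → p ∣ N → (p : K) ≠ 0) :
    t3K K ∈ modularFunctionFieldFullC K N ∧ Transcendental K (t3K K) ∧
      4 * (K⟮t3K K⟯).relfinrank (modularFunctionFieldFullC K N) = dedekindPsi N :=
  hline3_level K (t3K K) (t3K_cube K) (t3K_qExpand K) N h3N hNk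

/-- `t₂` as an element of the level-`N` function field over `K`. -/
def t2F (N : ℕ) [NeZero N] (h2N : 2 ∣ N) (hNk : ∀ p : ℕ, p.Prime → p ∣ N → (p : K) ≠ 0) :
    modularFunctionFieldFullC K N :=
  ⟨t2K K, (t2K_level K N h2N hNk).1⟩

/-- `t₃` as an element of the level-`N` function field over `K`. -/
def t3F (N : ℕ) [NeZero N] (h3N : 3 ∣ N) (hNk : ∀ p : ℕ, p.Prime → p ∣ N → (p : K) ≠ 0) :
    modularFunctionFieldFullC K N :=
  ⟨t3K K, (t3K_level K N h3N hNk).1⟩

@[simp] theorem coe_t2F (N : ℕ) [NeZero N] (h2N : 2 ∣ N)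
    (hNk : ∀ p : ℕ, p.Prime → p ∣ N → (p : K) ≠ 0) :
    ((t2F K N h2N hNk : modularFunctionFieldFullC K N) : LaurentSeries K) = t2K K := rfl

@[simp] theorem coe_t3F (N : ℕ) [NeZero N] (h3N : 3 ∣ N)
    (hNk : ∀ p : ℕ, p.Prime → p ∣ N → (p : K) ≠ 0) :
    ((t3F K N h3N hNk : modularFunctionFieldFullC K N) : LaurentSeries K) = t3K K := rfl

/-- **Level 2, subtype form over any field** (special fibre: `K` the residue field):
`t₂` is transcendental, `F_{K,N}` is finite over `K(t₂)` and `3 · [F_{K,N} : K(t₂)] = ψ(N)`. -/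
theorem t2F_spec (N : ℕ) [NeZero N] (h2N : 2 ∣ N)
    (hNk : ∀ p : ℕ, p.Prime → p ∣ N → (p : K) ≠ 0) :
    Transcendental K (t2F K N h2N hNk) ∧
      FiniteDimensional K⟮t2F K N h2N hNk⟯ (modularFunctionFieldFullC K N) ∧
      3 * Module.finrank K⟮t2F K N h2N hNk⟯ (modularFunctionFieldFullC K N) = dedekindPsi N :=
  hline2_subtype K N h2N hNk (t2F K N h2N hNk) (t2K_sq K) (t2K_qExpand K)

/-- **Level 3, subtype form over any field**:
`t₃` is transcendental, `F_{K,N}` is finite over `K(t₃)` and `4 · [F_{K,N} : K(t₃)] = ψ(N)`. -/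
theorem t3F_spec (N : ℕ) [NeZero N] (h3N : 3 ∣ N)
    (hNk : ∀ p : ℕ, p.Prime → p ∣ N → (p : K) ≠ 0) :
    Transcendental K (t3F K N h3N hNk) ∧
      FiniteDimensional K⟮t3F K N h3N hNk⟯ (modularFunctionFieldFullC K N) ∧
      4 * Module.finrank K⟮t3F K N h3N hNk⟯ (modularFunctionFieldFullC K N) = dedekindPsi N :=
  hline3_subtype K N h3N hNk (t3F K N h3N hNk) (t3K_cube K) (t3K_qExpand K)

/-- `j ∈ K(t₂)` inside the level-`N` function field (subtype form): every element of
`F_{K,N}` whose series is `j` lies in `K(t₂)`. -/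
theorem mem_adjoin_t2F_of_coe_eq_jq (N : ℕ) [NeZero N] (h2N : 2 ∣ N)
    (hNk : ∀ p : ℕ, p.Prime → p ∣ N → (p : K) ≠ 0) (y : modularFunctionFieldFullC K N)
    (hy : (y : LaurentSeries K) = jqModC K) : y ∈ K⟮t2F K N h2N hNk⟯ := by
  refine mem_adjoin_subtype_of_coe _ _ y ?_
  rw [hy]
  exact jqModC_mem_adjoin_t2K K

/-- `j ∈ K(t₃)` inside the level-`N` function field (subtype form). -/
theorem mem_adjoin_t3F_of_coe_eq_jq (N : ℕ) [NeZero N] (h3N : 3 ∣ N)
    (hNk : ∀ p : ℕ, p.Prime → p ∣ N → (p : K) ≠ 0) (y : modularFunctionFieldFullC K N)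
    (hy : (y : LaurentSeries K) = jqModC K) : y ∈ K⟮t3F K N h3N hNk⟯ := by
  refine mem_adjoin_subtype_of_coe _ _ y ?_
  rw [hy]
  exact jqModC_mem_adjoin_t3K K

end Field

/-! ## Characteristic zero: `laurentBaseChange L (modularFunctionFieldFull N)`,
in particular `modularFunctionFieldBar N` -/

section BaseChange

variable (L : Type) [Field L] [Algebra ℚ L]

theorem natCast_ne_zero_of_algebraRat (N : ℕ) : ∀ p : ℕ, p.Prime → p ∣ N → (p : L) ≠ 0 := by
  intro p hp _
  have : CharZero L := algebraRat.charZero L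
  exact Nat.cast_ne_zero.mpr hp.ne_zero

/-- `t₂ ∈ F_N ⊗ L` for `2 ∣ N`. -/
theorem t2K_mem_baseChange (N : ℕ) [NeZero N] (h2N : 2 ∣ N) :
    t2K L ∈ laurentBaseChange L (modularFunctionFieldFull N) := by
  rw [laurentBaseChange_full_eq]
  exact (t2K_level L N h2N (natCast_ne_zero_of_algebraRat L N)).1

/-- `t₃ ∈ F_N ⊗ L` for `3 ∣ N`. -/
theorem t3K_mem_baseChange (N : ℕ) [NeZero N] (h3N : 3 ∣ N) :
    t3K L ∈ laurentBaseChange L (modularFunctionFieldFull N) := by
  rw [laurentBaseChange_full_eq]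
  exact (t3K_level L N h3N (natCast_ne_zero_of_algebraRat L N)).1

/-- `t₂` as an element of `laurentBaseChange L (modularFunctionFieldFull N)`
(for `L = AlgebraicClosure ℚ`: of `modularFunctionFieldBar N`). -/
def t2L (N : ℕ) [NeZero N] (h2N : 2 ∣ N) : ↥(laurentBaseChange L (modularFunctionFieldFull N)) :=
  ⟨t2K L, t2K_mem_baseChange L N h2N⟩

/-- `t₃` as an element of `laurentBaseChange L (modularFunctionFieldFull N)`. -/
def t3L (N : ℕ) [NeZero N] (h3N : 3 ∣ N) : ↥(laurentBaseChange L (modularFunctionFieldFull N)) :=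
  ⟨t3K L, t3K_mem_baseChange L N h3N⟩

@[simp] theorem coe_t2L (N : ℕ) [NeZero N] (h2N : 2 ∣ N) :
    ((t2L L N h2N : ↥(laurentBaseChange L (modularFunctionFieldFull N))) : LaurentSeries L)
      = t2K L := rfl

@[simp] theorem coe_t3L (N : ℕ) [NeZero N] (h3N : 3 ∣ N) :
    ((t3L L N h3N : ↥(laurentBaseChange L (modularFunctionFieldFull N))) : LaurentSeries L)
      = t3K L := rfl

/-- **Level 2 on the generic fibre, subtype form** (any `L : Type` over `ℚ`). -/
theorem t2L_spec (N : ℕ) [NeZero N] (h2N : 2 ∣ N) :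
    Transcendental L (t2L L N h2N) ∧
      FiniteDimensional L⟮t2L L N h2N⟯ ↥(laurentBaseChange L (modularFunctionFieldFull N)) ∧
      3 * Module.finrank L⟮t2L L N h2N⟯ ↥(laurentBaseChange L (modularFunctionFieldFull N))
        = dedekindPsi N := by
  obtain ⟨-, htr, hdeg⟩ := t2K_level L N h2N (natCast_ne_zero_of_algebraRat L N)
  rw [← laurentBaseChange_full_eq L N] at hdeg
  exact subtype_of_relfinrank (laurentBaseChange L (modularFunctionFieldFull N)) (t2L L N h2N) 3 _
    (Fermat.Agent.S28.helper1595.dedekindPsi_pos (NeZero.pos N)) htr hdeg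

/-- **Level 3 on the generic fibre, subtype form** (any `L : Type` over `ℚ`). -/
theorem t3L_spec (N : ℕ) [NeZero N] (h3N : 3 ∣ N) :
    Transcendental L (t3L L N h3N) ∧
      FiniteDimensional L⟮t3L L N h3N⟯ ↥(laurentBaseChange L (modularFunctionFieldFull N)) ∧
      4 * Module.finrank L⟮t3L L N h3N⟯ ↥(laurentBaseChange L (modularFunctionFieldFull N))
        = dedekindPsi N := by
  obtain ⟨-, htr, hdeg⟩ := t3K_level L N h3N (natCast_ne_zero_of_algebraRat L N)
  rw [← laurentBaseChange_full_eq L N] at hdeg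
  exact subtype_of_relfinrank (laurentBaseChange L (modularFunctionFieldFull N)) (t3L L N h3N) 4 _
    (Fermat.Agent.S28.helper1595.dedekindPsi_pos (NeZero.pos N)) htr hdeg

/-- `j ∈ L(t₂)` inside `F_N ⊗ L` (subtype form; e.g. `y := helper1733.gaussJ L N`, `hy := rfl`). -/
theorem mem_adjoin_t2L_of_coe_eq_jq (N : ℕ) [NeZero N] (h2N : 2 ∣ N)
    (y : ↥(laurentBaseChange L (modularFunctionFieldFull N)))
    (hy : (y : LaurentSeries L) = jqModC L) : y ∈ L⟮t2L L N h2N⟯ := by
  refine mem_adjoin_subtype_of_coe _ _ y ?_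
  rw [hy]
  exact jqModC_mem_adjoin_t2K L

/-- `j ∈ L(t₃)` inside `F_N ⊗ L` (subtype form). -/
theorem mem_adjoin_t3L_of_coe_eq_jq (N : ℕ) [NeZero N] (h3N : 3 ∣ N)
    (y : ↥(laurentBaseChange L (modularFunctionFieldFull N)))
    (hy : (y : LaurentSeries L) = jqModC L) : y ∈ L⟮t3L L N h3N⟯ := by
  refine mem_adjoin_subtype_of_coe _ _ y ?_
  rw [hy]
  exact jqModC_mem_adjoin_t3K L

/-- **Both fibres have the same degree over the Hauptmodul line** (level 2): for `L/ℚ` and ANY
field `k` in which the primes of `N` are invertible,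
`[F_N ⊗ L : L(t₂)] = [F_{k,N} : k(t₂)]`. -/
theorem finrank_t2L_eq_finrank_t2F (k : Type) [Field k] (N : ℕ) [NeZero N] (h2N : 2 ∣ N)
    (hNk : ∀ p : ℕ, p.Prime → p ∣ N → (p : k) ≠ 0) :
    Module.finrank L⟮t2L L N h2N⟯ ↥(laurentBaseChange L (modularFunctionFieldFull N))
      = Module.finrank k⟮t2F k N h2N hNk⟯ (modularFunctionFieldFullC k N) := by
  have h1 := (t2L_spec L N h2N).2.2
  have h2 := (t2F_spec k N h2N hNk).2.2
  omega

/-- **Both fibres have the same degree over the Hauptmodul line** (level 3). -/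
theorem finrank_t3L_eq_finrank_t3F (k : Type) [Field k] (N : ℕ) [NeZero N] (h3N : 3 ∣ N)
    (hNk : ∀ p : ℕ, p.Prime → p ∣ N → (p : k) ≠ 0) :
    Module.finrank L⟮t3L L N h3N⟯ ↥(laurentBaseChange L (modularFunctionFieldFull N))
      = Module.finrank k⟮t3F k N h3N hNk⟯ (modularFunctionFieldFullC k N) := by
  have h1 := (t3L_spec L N h3N).2.2
  have h2 := (t3F_spec k N h3N hNk).2.2
  omega

end BaseChange

/-! ## Valuation rings: the integral lift and its reduction -/

section Valuation

variable {L : Type*} [Field L] (A : ValuationSubring L)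

/-- The `A`-integral lift of `t₂` maps to `t₂` over `L`. -/
theorem coeffMap_subtype_t2K : coeffMap A.subtype (t2K A) = t2K L := coeffMap_t2K _

/-- The `A`-integral lift of `t₃` maps to `t₃` over `L`. -/
theorem coeffMap_subtype_t3K : coeffMap A.subtype (t3K A) = t3K L := coeffMap_t3K _

/-- The reduction of the `A`-integral lift of `t₂` is `t₂` over the residue field. -/
theorem coeffMap_residue_t2K :
    coeffMap (IsLocalRing.residue A) (t2K A) = t2K (IsLocalRing.ResidueField A) :=
  coeffMap_t2K _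

/-- The reduction of the `A`-integral lift of `t₃` is `t₃` over the residue field. -/
theorem coeffMap_residue_t3K :
    coeffMap (IsLocalRing.residue A) (t3K A) = t3K (IsLocalRing.ResidueField A) :=
  coeffMap_t3K _

end Valuation

/-! ## The three inputs of the valued-field kits on the `t_r`-line, discharged

For a valuation subring `A` of `L : Type` (`L/ℚ`), `y := t_rK A : LaurentSeries A`:
`hy` (membership of `coeffMap A.subtype y` in `F_N ⊗ L`), `htr` (the reduction is transcendental
over the residue field), and `hj` is `mem_adjoin_t2L_of_coe_eq_jq` above. -/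

section Kits

variable {L : Type} [Field L] [Algebra ℚ L] (A : ValuationSubring L)

theorem coeffMap_subtype_t2K_mem (N : ℕ) [NeZero N] (h2N : 2 ∣ N) :
    coeffMap A.subtype (t2K A) ∈ laurentBaseChange L (modularFunctionFieldFull N) := by
  rw [coeffMap_subtype_t2K]
  exact t2K_mem_baseChange L N h2N

theorem coeffMap_subtype_t3K_mem (N : ℕ) [NeZero N] (h3N : 3 ∣ N) :
    coeffMap A.subtype (t3K A) ∈ laurentBaseChange L (modularFunctionFieldFull N) := by
  rw [coeffMap_subtype_t3K]
  exact t3K_mem_baseChange L N h3N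

/-- The element of `F_N ⊗ L` defined by the integral lift is `t2L`. -/
theorem subtype_coeffMap_t2K_eq (N : ℕ) [NeZero N] (h2N : 2 ∣ N) :
    (⟨coeffMap A.subtype (t2K A), coeffMap_subtype_t2K_mem A N h2N⟩ :
      ↥(laurentBaseChange L (modularFunctionFieldFull N))) = t2L L N h2N :=
  Subtype.ext (coeffMap_subtype_t2K A)

/-- The element of `F_N ⊗ L` defined by the integral lift is `t3L`. -/
theorem subtype_coeffMap_t3K_eq (N : ℕ) [NeZero N] (h3N : 3 ∣ N) :
    (⟨coeffMap A.subtype (t3K A), coeffMap_subtype_t3K_mem A N h3N⟩ :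
      ↥(laurentBaseChange L (modularFunctionFieldFull N))) = t3L L N h3N :=
  Subtype.ext (coeffMap_subtype_t3K A)

omit [Algebra ℚ L] in
/-- The reduction of `t₂` is transcendental over the residue field (residue characteristic
`≠ 2`). -/
theorem transcendental_coeffMap_residue_t2K (h2 : (2 : IsLocalRing.ResidueField A) ≠ 0) :
    Transcendental (IsLocalRing.ResidueField A) (coeffMap (IsLocalRing.residue A) (t2K A)) := by
  rw [coeffMap_residue_t2K]
  exact (t2K_line _ h2).2.2

omit [Algebra ℚ L] in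
/-- The reduction of `t₃` is transcendental over the residue field (residue characteristic
`≠ 3`). -/
theorem transcendental_coeffMap_residue_t3K (h3 : (3 : IsLocalRing.ResidueField A) ≠ 0) :
    Transcendental (IsLocalRing.ResidueField A) (coeffMap (IsLocalRing.residue A) (t3K A)) := by
  rw [coeffMap_residue_t3K]
  exact (t3K_line _ h3).2.2

end Kits

end

end Fermat.Agent.S18.helper6381
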