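/-
S18-HLINE-INST (helper1622): the UNCONDITIONAL Hauptmodul lines.

The landed integer Hauptmoduln `helper1257.t2Z`, `helper1257.t3Z : LaurentSeries ℤ` (with the four
formal identities against `j(q)`, `j(q²)`, `j(q³)`) are pushed to every coefficient ring by
`coeffMap` and plugged into the landed Hauptmodul-line algebra `helper6381_HLine`:

* `t2 K`, `t3 K : LaurentSeries K` for every commutative ring `K`, functorial in `K`
  (`coeffMap_t2`, `coeffMap_t3`: the SAME series on the generic and on the special fibre);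
  the identities over `K`; simple pole with leading coefficient `1`; transcendence over every
  field;
* for a field `K : Type` in which the primes of `N` are invertible and `r ∣ N`:
  `t_r ∈ modularFunctionFieldFullC K N`, `K(t_r) = modularFunctionFieldFullC K r`,
  `(r + 1) * [F_{K,N} : K(t_r)] = ψ(N)`, also in subtype form (`t2F`, `t3F`);
* the generic fibre over any `L ⊇ ℚ`: `t2L L N`, `t3L L N` in
  `laurentBaseChange L (modularFunctionFieldFull N)`; and over `ℚ̄`: `t2Bar N`, `t3Bar N : FN N`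
  with `jBar N * t2Bar ^ 2 = (t2Bar + 256) ^ 3`, `jBar N * t3Bar ^ 3 = (t3Bar + 27) (t3Bar + 243) ^ 3`
  (the hypothesis of the landed branch-locus files verbatim);
* the hypotheses of the Gauss-line consumers for the `A`-integral series `t2 A`, `t3 A`
  (`A` a valuation subring of `L`).
-/
import Mathlib
import Fermat.Prelude.Def_ModularCurve_X0ModL
import Fermat.Agent.S18.helper6381_HLine
import Fermat.Agent.S18.helper6381_HLineInst
import Fermat.Agent.S18.helper1257_HauptFormal
import Fermat.Agent.S24.helper60_DegreeAlg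
import Fermat.Agent.S24.helper24_Spec

set_option autoImplicit false

noncomputable section

namespace Fermat.Agent.S18.helper1622

open ModularCurve IntermediateField
open Fermat.Agent.S18.helper1257 (t2Z t3Z u2Z u3Z)

/-! ### The Hauptmoduln over an arbitrary commutative ring -/

section Ring

variable (K : Type*) [CommRing K]

/-- The Hauptmodul of level 2 with coefficients in `K`: the image of `helper1257.t2Z`. -/
def t2 : LaurentSeries K := coeffMap (Int.castRingHom K) t2Z

/-- The Hauptmodul of level 3 with coefficients in `K`: the image of `helper1257.t3Z`. -/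
def t3 : LaurentSeries K := coeffMap (Int.castRingHom K) t3Z

/-- Level 2: `j · t₂² = (t₂ + 256)³` in `K((q))`. -/
theorem t2_rel : jqModC K * t2 K ^ 2 = (t2 K + 256) ^ 3 := by
  have h := congrArg (coeffMap (Int.castRingHom K)) helper1257.jq_mul_t2Z_sq
  simpa only [map_mul, map_pow, map_add, map_ofNat, coeffMap_jqModC, t2] using h

/-- Level 2: `j(q²) · t₂ = (t₂ + 16)³` in `K((q))`. -/
theorem t2_rel_two : qExpand K 2 (jqModC K) * t2 K = (t2 K + 16) ^ 3 := by
  have h := congrArg (coeffMap (Int.castRingHom K)) helper1257.qExpand_jq_mul_t2Z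
  simpa only [map_mul, map_pow, map_add, map_ofNat, coeffMap_qExpand, coeffMap_jqModC, t2]
    using h

/-- Level 3: `j · t₃³ = (t₃ + 27)(t₃ + 243)³` in `K((q))`. -/
theorem t3_rel : jqModC K * t3 K ^ 3 = (t3 K + 27) * (t3 K + 243) ^ 3 := by
  have h := congrArg (coeffMap (Int.castRingHom K)) helper1257.jq_mul_t3Z_cube
  simpa only [map_mul, map_pow, map_add, map_ofNat, coeffMap_jqModC, t3] using h

/-- Level 3: `j(q³) · t₃ = (t₃ + 27)(t₃ + 3)³` in `K((q))`. -/
theorem t3_rel_three : qExpand K 3 (jqModC K) * t3 K = (t3 K + 27) * (t3 K + 3) ^ 3 := by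
  have h := congrArg (coeffMap (Int.castRingHom K)) helper1257.qExpand_jq_mul_t3Z
  simpa only [map_mul, map_pow, map_add, map_ofNat, coeffMap_qExpand, coeffMap_jqModC, t3]
    using h

variable {K} in
/-- Functoriality in the coefficient ring: the same series on every fibre. -/
theorem coeffMap_t2 {K' : Type*} [CommRing K'] (f : K →+* K') : coeffMap f (t2 K) = t2 K' := by
  rw [t2, t2, coeffMap_coeffMap]
  exact coeffMap_congr (RingHom.ext_int _ _) _

variable {K} in
theorem coeffMap_t3 {K' : Type*} [CommRing K'] (f : K →+* K') : coeffMap f (t3 K) = t3 K' := by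
  rw [t3, t3, coeffMap_coeffMap]
  exact coeffMap_congr (RingHom.ext_int _ _) _

theorem t2_int : t2 ℤ = t2Z := by
  rw [t2, coeffMap_congr (RingHom.ext_int (Int.castRingHom ℤ) (RingHom.id ℤ)), coeffMap_id]

theorem t3_int : t3 ℤ = t3Z := by
  rw [t3, coeffMap_congr (RingHom.ext_int (Int.castRingHom ℤ) (RingHom.id ℤ)), coeffMap_id]

/-- `t₂ = q⁻¹ · (unit with constant term 1)`. -/
theorem t2_eq_single_mul :
    t2 K = HahnSeries.single (-1 : ℤ) (1 : K) *
      HahnSeries.ofPowerSeries ℤ K (u2Z.map (Int.castRingHom K)) := by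
  rw [t2, helper1257.t2Z_eq_single_mul, map_mul, coeffMap_single, map_one]
  congr 1
  exact coeffMap_ofPowerSeries (Int.castRingHom K) u2Z

/-- `t₃ = q⁻¹ · (unit with constant term 1)`. -/
theorem t3_eq_single_mul :
    t3 K = HahnSeries.single (-1 : ℤ) (1 : K) *
      HahnSeries.ofPowerSeries ℤ K (u3Z.map (Int.castRingHom K)) := by
  rw [t3, helper1257.t3Z_eq_single_mul, map_mul, coeffMap_single, map_one]
  congr 1
  exact coeffMap_ofPowerSeries (Int.castRingHom K) u3Z

theorem constantCoeff_map_u2Z :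
    PowerSeries.constantCoeff (u2Z.map (Int.castRingHom K)) = 1 := by
  rw [← PowerSeries.coeff_zero_eq_constantCoeff, PowerSeries.coeff_map,
    PowerSeries.coeff_zero_eq_constantCoeff, helper1257.constantCoeff_u2Z, map_one]

theorem constantCoeff_map_u3Z :
    PowerSeries.constantCoeff (u3Z.map (Int.castRingHom K)) = 1 := by
  rw [← PowerSeries.coeff_zero_eq_constantCoeff, PowerSeries.coeff_map,
    PowerSeries.coeff_zero_eq_constantCoeff, helper1257.constantCoeff_u3Z, map_one]

variable {K} in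
theorem coeff_qinv_mul (p : PowerSeries K) (k : ℤ) :
    (HahnSeries.single (-1 : ℤ) (1 : K) * HahnSeries.ofPowerSeries ℤ K p).coeff k =
      (HahnSeries.ofPowerSeries ℤ K p).coeff (k + 1) := by
  rw [HahnSeries.coeff_single_mul, one_mul, sub_neg_eq_add]

variable {K} in
theorem coeff_neg_one_qinv_mul (p : PowerSeries K) (hp : PowerSeries.constantCoeff p = 1) :
    (HahnSeries.single (-1 : ℤ) (1 : K) * HahnSeries.ofPowerSeries ℤ K p).coeff (-1) = 1 := by
  rw [coeff_qinv_mul, show (-1 : ℤ) + 1 = ((0 : ℕ) : ℤ) by norm_num,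
    HahnSeries.ofPowerSeries_apply_coeff, PowerSeries.coeff_zero_eq_constantCoeff, hp]

variable {K} in
theorem coeff_qinv_mul_of_lt (p : PowerSeries K) {k : ℤ} (hk : k < -1) :
    (HahnSeries.single (-1 : ℤ) (1 : K) * HahnSeries.ofPowerSeries ℤ K p).coeff k = 0 := by
  rw [coeff_qinv_mul]
  exact ofPowerSeries_coeff_of_neg _ (by omega)

variable {K} in
theorem order_qinv_mul [Nontrivial K] (p : PowerSeries K)
    (hp : PowerSeries.constantCoeff p = 1) :
    (HahnSeries.single (-1 : ℤ) (1 : K) * HahnSeries.ofPowerSeries ℤ K p).order = -1 := by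
  have h1 := coeff_neg_one_qinv_mul p hp
  have hne : HahnSeries.single (-1 : ℤ) (1 : K) * HahnSeries.ofPowerSeries ℤ K p ≠ 0 := by
    intro h0
    rw [h0] at h1
    simp at h1
  have hle := HahnSeries.order_le_of_coeff_ne_zero (x := HahnSeries.single (-1 : ℤ) (1 : K) *
    HahnSeries.ofPowerSeries ℤ K p) (g := -1) (by rw [h1]; exact one_ne_zero)
  rcases lt_or_eq_of_le hle with hlt | heq
  · exact absurd (HahnSeries.coeff_order_eq_zero.mp (coeff_qinv_mul_of_lt p hlt)) hne
  · exact heq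

/-- The leading coefficient of `t₂` is `1`. -/
theorem t2_coeff_neg_one : (t2 K).coeff (-1) = 1 := by
  rw [t2_eq_single_mul]
  exact coeff_neg_one_qinv_mul _ (constantCoeff_map_u2Z K)

theorem t3_coeff_neg_one : (t3 K).coeff (-1) = 1 := by
  rw [t3_eq_single_mul]
  exact coeff_neg_one_qinv_mul _ (constantCoeff_map_u3Z K)

/-- `t₂` has at most a simple pole. -/
theorem t2_coeff_of_lt {k : ℤ} (hk : k < -1) : (t2 K).coeff k = 0 := by
  rw [t2_eq_single_mul]
  exact coeff_qinv_mul_of_lt _ hk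

theorem t3_coeff_of_lt {k : ℤ} (hk : k < -1) : (t3 K).coeff k = 0 := by
  rw [t3_eq_single_mul]
  exact coeff_qinv_mul_of_lt _ hk

/-- `t₂` has a simple pole at `q = 0`. -/
theorem t2_order [Nontrivial K] : (t2 K).order = -1 := by
  rw [t2_eq_single_mul]
  exact order_qinv_mul _ (constantCoeff_map_u2Z K)

theorem t3_order [Nontrivial K] : (t3 K).order = -1 := by
  rw [t3_eq_single_mul]
  exact order_qinv_mul _ (constantCoeff_map_u3Z K)

theorem t2_ne_zero [Nontrivial K] : t2 K ≠ 0 := by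
  intro h
  have h1 := t2_coeff_neg_one K
  rw [h] at h1
  simp at h1

theorem t3_ne_zero [Nontrivial K] : t3 K ≠ 0 := by
  intro h
  have h1 := t3_coeff_neg_one K
  rw [h] at h1
  simp at h1

end Ring

/-! ### Fields, any universe: transcendence, `j ∈ K(t_r)`, and the subtype forms of the identities -/

section FieldAny

variable (K : Type*) [Field K]

/-- `t₂` is transcendental over every field of coefficients (it has a pole). -/
theorem t2_transcendental : Transcendental K (t2 K) :=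
  Fermat.Agent.S24.helper60.transcendental_of_order_neg _ (by rw [t2_order]; norm_num)

theorem t3_transcendental : Transcendental K (t3 K) :=
  Fermat.Agent.S24.helper60.transcendental_of_order_neg _ (by rw [t3_order]; norm_num)

variable {K}

/-- The level-2 identity inside ANY subfield `F` of `K((q))` containing `j` and `t₂`
(`j' : F` with underlying series `j`, `t' : F` with underlying series `t₂`). -/
theorem subtype_rel_two (F : IntermediateField K (LaurentSeries K)) (j' t' : F)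
    (hj : (j' : LaurentSeries K) = jqModC K) (ht : (t' : LaurentSeries K) = t2 K) :
    j' * t' ^ 2 = (t' + 256) ^ 3 := by
  apply Subtype.ext
  have h := t2_rel K
  rw [← hj, ← ht] at h
  exact h

/-- The level-3 identity inside any subfield `F` of `K((q))` containing `j` and `t₃`. -/
theorem subtype_rel_three (F : IntermediateField K (LaurentSeries K)) (j' t' : F)
    (hj : (j' : LaurentSeries K) = jqModC K) (ht : (t' : LaurentSeries K) = t3 K) :
    j' * t' ^ 3 = (t' + 27) * (t' + 243) ^ 3 := by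
  apply Subtype.ext
  have h := t3_rel K
  rw [← hj, ← ht] at h
  exact h

theorem subtype_ne_zero_two (F : IntermediateField K (LaurentSeries K)) (t' : F)
    (ht : (t' : LaurentSeries K) = t2 K) : t' ≠ 0 := by
  rintro rfl
  exact t2_ne_zero K ht.symm

theorem subtype_ne_zero_three (F : IntermediateField K (LaurentSeries K)) (t' : F)
    (ht : (t' : LaurentSeries K) = t3 K) : t' ≠ 0 := by
  rintro rfl
  exact t3_ne_zero K ht.symm

/-- `j ∈ K(t₂)` inside any subfield `F` of `K((q))` containing both (the hypothesis `hj` of the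
Gauss-line consumers). -/
theorem subtype_mem_adjoin_two (F : IntermediateField K (LaurentSeries K)) (j' t' : F)
    (hj : (j' : LaurentSeries K) = jqModC K) (ht : (t' : LaurentSeries K) = t2 K) :
    j' ∈ K⟮t'⟯ := by
  have h0 := subtype_ne_zero_two F t' ht
  have hmem : t' ∈ K⟮t'⟯ := mem_adjoin_simple_self K t'
  have h : j' = (t' + 256) ^ 3 * (t' ^ 2)⁻¹ := by
    rw [eq_mul_inv_iff_mul_eq₀ (pow_ne_zero 2 h0)]
    exact subtype_rel_two F j' t' hj ht
  rw [h]
  exact mul_mem (pow_mem (add_mem hmem (ofNat_mem _ 256)) 3) (inv_mem (pow_mem hmem 2))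

/-- `j ∈ K(t₃)` inside any subfield `F` of `K((q))` containing both. -/
theorem subtype_mem_adjoin_three (F : IntermediateField K (LaurentSeries K)) (j' t' : F)
    (hj : (j' : LaurentSeries K) = jqModC K) (ht : (t' : LaurentSeries K) = t3 K) :
    j' ∈ K⟮t'⟯ := by
  have h0 := subtype_ne_zero_three F t' ht
  have hmem : t' ∈ K⟮t'⟯ := mem_adjoin_simple_self K t'
  have h : j' = (t' + 27) * (t' + 243) ^ 3 * (t' ^ 3)⁻¹ := by
    rw [eq_mul_inv_iff_mul_eq₀ (pow_ne_zero 3 h0)]
    exact subtype_rel_three F j' t' hj ht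
  rw [h]
  exact mul_mem (mul_mem (add_mem hmem (ofNat_mem _ 27)) (pow_mem (add_mem hmem (ofNat_mem _ 243)) 3))
    (inv_mem (pow_mem hmem 3))

/-- Transcendence in subtype form. -/
theorem subtype_transcendental_two (F : IntermediateField K (LaurentSeries K)) (t' : F)
    (ht : (t' : LaurentSeries K) = t2 K) : Transcendental K t' := by
  intro halg
  apply t2_transcendental K
  rw [← ht]
  exact (isAlgebraic_iff (S := F)).mp halg

theorem subtype_transcendental_three (F : IntermediateField K (LaurentSeries K)) (t' : F)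
    (ht : (t' : LaurentSeries K) = t3 K) : Transcendental K t' := by
  intro halg
  apply t3_transcendental K
  rw [← ht]
  exact (isAlgebraic_iff (S := F)).mp halg

end FieldAny

/-! ### Fields `K : Type` with the primes of `N` invertible: membership and degrees -/

section Field0

variable (K : Type) [Field K]

/-- `K(t₂) = K(j(q), j(q²))`, `[K(t₂) : K(j)] = 3`. -/
theorem t2_hline (h2 : (2 : K) ≠ 0) :
    modularFunctionFieldFullC K 2 = K⟮t2 K⟯ ∧ (K⟮jqModC K⟯).relrank K⟮t2 K⟯ = 3 ∧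
      Transcendental K (t2 K) :=
  helper6381.hline2 K h2 (t2 K) (t2_rel K) (t2_rel_two K)

/-- `K(t₃) = K(j(q), j(q³))`, `[K(t₃) : K(j)] = 4`. -/
theorem t3_hline (h3 : (3 : K) ≠ 0) :
    modularFunctionFieldFullC K 3 = K⟮t3 K⟯ ∧ (K⟮jqModC K⟯).relrank K⟮t3 K⟯ = 4 ∧
      Transcendental K (t3 K) :=
  helper6381.hline3 K h3 (t3 K) (t3_rel K) (t3_rel_three K)

/-- Level `N` divisible by `2`: `t₂ ∈ F_{K,N}` and `3 · [F_{K,N} : K(t₂)] = ψ(N)`. -/
theorem t2_level (N : ℕ) [NeZero N] (h2N : 2 ∣ N)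
    (hNk : ∀ p : ℕ, p.Prime → p ∣ N → (p : K) ≠ 0) :
    t2 K ∈ modularFunctionFieldFullC K N ∧ Transcendental K (t2 K) ∧
      3 * (K⟮t2 K⟯).relfinrank (modularFunctionFieldFullC K N) = dedekindPsi N :=
  helper6381.hline2_level K (t2 K) (t2_rel K) (t2_rel_two K) N h2N hNk

/-- Level `N` divisible by `3`: `t₃ ∈ F_{K,N}` and `4 · [F_{K,N} : K(t₃)] = ψ(N)`. -/
theorem t3_level (N : ℕ) [NeZero N] (h3N : 3 ∣ N)
    (hNk : ∀ p : ℕ, p.Prime → p ∣ N → (p : K) ≠ 0) :
    t3 K ∈ modularFunctionFieldFullC K N ∧ Transcendental K (t3 K) ∧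
      4 * (K⟮t3 K⟯).relfinrank (modularFunctionFieldFullC K N) = dedekindPsi N :=
  helper6381.hline3_level K (t3 K) (t3_rel K) (t3_rel_three K) N h3N hNk

/-- `j` as an element of `F_{K,N}`. -/
def jF (N : ℕ) [NeZero N] : modularFunctionFieldFullC K N := ⟨jqModC K, jqModC_mem_full K N⟩

/-- `t₂` as an element of `F_{K,N}` (`2 ∣ N`, primes of `N` invertible in `K`). -/
def t2F (N : ℕ) [NeZero N] (h2N : 2 ∣ N) (hNk : ∀ p : ℕ, p.Prime → p ∣ N → (p : K) ≠ 0) :
    modularFunctionFieldFullC K N := ⟨t2 K, (t2_level K N h2N hNk).1⟩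

/-- `t₃` as an element of `F_{K,N}` (`3 ∣ N`, primes of `N` invertible in `K`). -/
def t3F (N : ℕ) [NeZero N] (h3N : 3 ∣ N) (hNk : ∀ p : ℕ, p.Prime → p ∣ N → (p : K) ≠ 0) :
    modularFunctionFieldFullC K N := ⟨t3 K, (t3_level K N h3N hNk).1⟩

@[simp] theorem coe_jF (N : ℕ) [NeZero N] :
    ((jF K N : modularFunctionFieldFullC K N) : LaurentSeries K) = jqModC K := rfl

@[simp] theorem coe_t2F (N : ℕ) [NeZero N] (h2N : 2 ∣ N)
    (hNk : ∀ p : ℕ, p.Prime → p ∣ N → (p : K) ≠ 0) :
    ((t2F K N h2N hNk : modularFunctionFieldFullC K N) : LaurentSeries K) = t2 K := rfl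

@[simp] theorem coe_t3F (N : ℕ) [NeZero N] (h3N : 3 ∣ N)
    (hNk : ∀ p : ℕ, p.Prime → p ∣ N → (p : K) ≠ 0) :
    ((t3F K N h3N hNk : modularFunctionFieldFullC K N) : LaurentSeries K) = t3 K := rfl

/-- The level-2 identity inside `F_{K,N}`. -/
theorem t2F_rel (N : ℕ) [NeZero N] (h2N : 2 ∣ N)
    (hNk : ∀ p : ℕ, p.Prime → p ∣ N → (p : K) ≠ 0) :
    jF K N * t2F K N h2N hNk ^ 2 = (t2F K N h2N hNk + 256) ^ 3 :=
  subtype_rel_two _ _ _ rfl rfl

/-- The level-3 identity inside `F_{K,N}`. -/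
theorem t3F_rel (N : ℕ) [NeZero N] (h3N : 3 ∣ N)
    (hNk : ∀ p : ℕ, p.Prime → p ∣ N → (p : K) ≠ 0) :
    jF K N * t3F K N h3N hNk ^ 3 = (t3F K N h3N hNk + 27) * (t3F K N h3N hNk + 243) ^ 3 :=
  subtype_rel_three _ _ _ rfl rfl

theorem jF_mem_adjoin_t2F (N : ℕ) [NeZero N] (h2N : 2 ∣ N)
    (hNk : ∀ p : ℕ, p.Prime → p ∣ N → (p : K) ≠ 0) : jF K N ∈ K⟮t2F K N h2N hNk⟯ :=
  subtype_mem_adjoin_two _ _ _ rfl rfl

theorem jF_mem_adjoin_t3F (N : ℕ) [NeZero N] (h3N : 3 ∣ N)
    (hNk : ∀ p : ℕ, p.Prime → p ∣ N → (p : K) ≠ 0) : jF K N ∈ K⟮t3F K N h3N hNk⟯ :=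
  subtype_mem_adjoin_three _ _ _ rfl rfl

/-- **The `t₂`-line of `F_{K,N}`** (any field `K : Type`, e.g. a residue field): transcendence,
finiteness and degree `3 · [F_{K,N} : K(t₂)] = ψ(N)`. -/
theorem t2F_spec (N : ℕ) [NeZero N] (h2N : 2 ∣ N)
    (hNk : ∀ p : ℕ, p.Prime → p ∣ N → (p : K) ≠ 0) :
    Transcendental K (t2F K N h2N hNk) ∧
      FiniteDimensional K⟮t2F K N h2N hNk⟯ (modularFunctionFieldFullC K N) ∧
      3 * Module.finrank K⟮t2F K N h2N hNk⟯ (modularFunctionFieldFullC K N) = dedekindPsi N :=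
  helper6381.hline2_subtype K N h2N hNk (t2F K N h2N hNk) (t2_rel K) (t2_rel_two K)

/-- **The `t₃`-line of `F_{K,N}`**: `4 · [F_{K,N} : K(t₃)] = ψ(N)`. -/
theorem t3F_spec (N : ℕ) [NeZero N] (h3N : 3 ∣ N)
    (hNk : ∀ p : ℕ, p.Prime → p ∣ N → (p : K) ≠ 0) :
    Transcendental K (t3F K N h3N hNk) ∧
      FiniteDimensional K⟮t3F K N h3N hNk⟯ (modularFunctionFieldFullC K N) ∧
      4 * Module.finrank K⟮t3F K N h3N hNk⟯ (modularFunctionFieldFullC K N) = dedekindPsi N :=
  helper6381.hline3_subtype K N h3N hNk (t3F K N h3N hNk) (t3_rel K) (t3_rel_three K)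

end Field0

/-! ### The generic fibre over a field `L ⊇ ℚ` -/

section Generic

variable (L : Type*) [Field L] [Algebra ℚ L]

theorem coeffEmb_t2 : coeffEmb L (t2 ℚ) = t2 L := coeffMap_t2 (algebraMap ℚ L)

theorem coeffEmb_t3 : coeffEmb L (t3 ℚ) = t3 L := coeffMap_t3 (algebraMap ℚ L)

theorem t2_mem_full (N : ℕ) [NeZero N] (h2N : 2 ∣ N) : t2 ℚ ∈ modularFunctionFieldFull N := by
  rw [← modularFunctionFieldFullC_rat]
  exact (t2_level ℚ N h2N (fun p hp _ => Nat.cast_ne_zero.mpr hp.ne_zero)).1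

theorem t3_mem_full (N : ℕ) [NeZero N] (h3N : 3 ∣ N) : t3 ℚ ∈ modularFunctionFieldFull N := by
  rw [← modularFunctionFieldFullC_rat]
  exact (t3_level ℚ N h3N (fun p hp _ => Nat.cast_ne_zero.mpr hp.ne_zero)).1

/-- `t₂` lies in the generic function field of level `N` (`2 ∣ N`) over every `L ⊇ ℚ`
(any universe). -/
theorem t2_mem_laurentBaseChange (N : ℕ) [NeZero N] (h2N : 2 ∣ N) :
    t2 L ∈ laurentBaseChange L (modularFunctionFieldFull N) := by
  rw [← coeffEmb_t2]
  exact coeffEmb_mem_laurentBaseChange L (t2_mem_full N h2N)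

/-- `t₃` lies in the generic function field of level `N` (`3 ∣ N`) over every `L ⊇ ℚ`. -/
theorem t3_mem_laurentBaseChange (N : ℕ) [NeZero N] (h3N : 3 ∣ N) :
    t3 L ∈ laurentBaseChange L (modularFunctionFieldFull N) := by
  rw [← coeffEmb_t3]
  exact coeffEmb_mem_laurentBaseChange L (t3_mem_full N h3N)

/-- `t₂` as an element of the generic function field over `L`. -/
def t2L (N : ℕ) [NeZero N] (h2N : 2 ∣ N) : ↥(laurentBaseChange L (modularFunctionFieldFull N)) :=
  ⟨t2 L, t2_mem_laurentBaseChange L N h2N⟩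

/-- `t₃` as an element of the generic function field over `L`. -/
def t3L (N : ℕ) [NeZero N] (h3N : 3 ∣ N) : ↥(laurentBaseChange L (modularFunctionFieldFull N)) :=
  ⟨t3 L, t3_mem_laurentBaseChange L N h3N⟩

@[simp] theorem coe_t2L (N : ℕ) [NeZero N] (h2N : 2 ∣ N) :
    ((t2L L N h2N : ↥(laurentBaseChange L (modularFunctionFieldFull N))) : LaurentSeries L) =
      t2 L := rfl

@[simp] theorem coe_t3L (N : ℕ) [NeZero N] (h3N : 3 ∣ N) :
    ((t3L L N h3N : ↥(laurentBaseChange L (modularFunctionFieldFull N))) : LaurentSeries L) =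
      t3 L := rfl

theorem t2L_transcendental (N : ℕ) [NeZero N] (h2N : 2 ∣ N) : Transcendental L (t2L L N h2N) :=
  subtype_transcendental_two _ _ rfl

theorem t3L_transcendental (N : ℕ) [NeZero N] (h3N : 3 ∣ N) : Transcendental L (t3L L N h3N) :=
  subtype_transcendental_three _ _ rfl

end Generic

section Generic0

variable (L : Type) [Field L] [Algebra ℚ L]

theorem natCast_ne_zero_of_algebraRat (p : ℕ) (hp : p.Prime) : (p : L) ≠ 0 := by
  have : CharZero L := algebraRat.charZero L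
  exact Nat.cast_ne_zero.mpr hp.ne_zero

/-- **The `t₂`-line of the generic fibre** over `L ⊇ ℚ` (`L : Type`):
`3 · [F_{L,N} : L(t₂)] = ψ(N)`. -/
theorem t2L_spec (N : ℕ) [NeZero N] (h2N : 2 ∣ N) :
    Transcendental L (t2L L N h2N) ∧
      FiniteDimensional L⟮t2L L N h2N⟯ ↥(laurentBaseChange L (modularFunctionFieldFull N)) ∧
      3 * Module.finrank L⟮t2L L N h2N⟯ ↥(laurentBaseChange L (modularFunctionFieldFull N)) =
        dedekindPsi N := by
  obtain ⟨-, htr, hdeg⟩ := t2_level L N h2N (fun p hp _ => natCast_ne_zero_of_algebraRat L p hp)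
  rw [← helper6381.laurentBaseChange_full_eq L N] at hdeg
  exact helper6381.subtype_of_relfinrank (laurentBaseChange L (modularFunctionFieldFull N))
    (t2L L N h2N) 3 _ (Fermat.Agent.S28.helper1595.dedekindPsi_pos (NeZero.pos N)) htr hdeg

/-- **The `t₃`-line of the generic fibre** over `L ⊇ ℚ` (`L : Type`):
`4 · [F_{L,N} : L(t₃)] = ψ(N)`. -/
theorem t3L_spec (N : ℕ) [NeZero N] (h3N : 3 ∣ N) :
    Transcendental L (t3L L N h3N) ∧
      FiniteDimensional L⟮t3L L N h3N⟯ ↥(laurentBaseChange L (modularFunctionFieldFull N)) ∧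
      4 * Module.finrank L⟮t3L L N h3N⟯ ↥(laurentBaseChange L (modularFunctionFieldFull N)) =
        dedekindPsi N := by
  obtain ⟨-, htr, hdeg⟩ := t3_level L N h3N (fun p hp _ => natCast_ne_zero_of_algebraRat L p hp)
  rw [← helper6381.laurentBaseChange_full_eq L N] at hdeg
  exact helper6381.subtype_of_relfinrank (laurentBaseChange L (modularFunctionFieldFull N))
    (t3L L N h3N) 4 _ (Fermat.Agent.S28.helper1595.dedekindPsi_pos (NeZero.pos N)) htr hdeg

end Generic0

/-! ### The generic fibre over `ℚ̄`: `FN N = modularFunctionFieldBar N` -/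

section Bar

open Fermat.Agent.S24.helper24 (Kbar FN jBar)

theorem coe_jBar_eq_jqModC (N : ℕ) : ((jBar N : FN N) : LaurentSeries Kbar) = jqModC Kbar := by
  rw [Fermat.Agent.S24.helper24.coe_jBar, ← jqModC_rat]
  exact coeffMap_jqModC (algebraMap ℚ Kbar)

/-- `t₂` as an element of the function field `FN N` of `X₀(N)` over `ℚ̄` (`2 ∣ N`). -/
def t2Bar (N : ℕ) [NeZero N] (h2N : 2 ∣ N) : FN N := t2L Kbar N h2N

/-- `t₃` as an element of the function field `FN N` of `X₀(N)` over `ℚ̄` (`3 ∣ N`). -/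
def t3Bar (N : ℕ) [NeZero N] (h3N : 3 ∣ N) : FN N := t3L Kbar N h3N

@[simp] theorem coe_t2Bar (N : ℕ) [NeZero N] (h2N : 2 ∣ N) :
    ((t2Bar N h2N : FN N) : LaurentSeries Kbar) = t2 Kbar := rfl

@[simp] theorem coe_t3Bar (N : ℕ) [NeZero N] (h3N : 3 ∣ N) :
    ((t3Bar N h3N : FN N) : LaurentSeries Kbar) = t3 Kbar := rfl

/-- **The algebraic Hauptmodul identity of level 2 in `FN N`** (hypothesis `ht` of the landed
branch-locus files). -/
theorem t2Bar_rel (N : ℕ) [NeZero N] (h2N : 2 ∣ N) :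
    jBar N * t2Bar N h2N ^ 2 = (t2Bar N h2N + 256) ^ 3 :=
  subtype_rel_two _ _ _ (coe_jBar_eq_jqModC N) rfl

/-- **The algebraic Hauptmodul identity of level 3 in `FN N`**. -/
theorem t3Bar_rel (N : ℕ) [NeZero N] (h3N : 3 ∣ N) :
    jBar N * t3Bar N h3N ^ 3 = (t3Bar N h3N + 27) * (t3Bar N h3N + 243) ^ 3 :=
  subtype_rel_three _ _ _ (coe_jBar_eq_jqModC N) rfl

theorem t2Bar_ne_zero (N : ℕ) [NeZero N] (h2N : 2 ∣ N) : t2Bar N h2N ≠ 0 :=
  subtype_ne_zero_two _ _ rfl

theorem t3Bar_ne_zero (N : ℕ) [NeZero N] (h3N : 3 ∣ N) : t3Bar N h3N ≠ 0 :=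
  subtype_ne_zero_three _ _ rfl

theorem jBar_mem_adjoin_t2Bar (N : ℕ) [NeZero N] (h2N : 2 ∣ N) : jBar N ∈ Kbar⟮t2Bar N h2N⟯ :=
  subtype_mem_adjoin_two _ _ _ (coe_jBar_eq_jqModC N) rfl

theorem jBar_mem_adjoin_t3Bar (N : ℕ) [NeZero N] (h3N : 3 ∣ N) : jBar N ∈ Kbar⟮t3Bar N h3N⟯ :=
  subtype_mem_adjoin_three _ _ _ (coe_jBar_eq_jqModC N) rfl

/-- **The `t₂`-line of `X₀(N)` over `ℚ̄`**: `3 · [FN N : ℚ̄(t₂)] = ψ(N)`. -/
theorem t2Bar_spec (N : ℕ) [NeZero N] (h2N : 2 ∣ N) :
    Transcendental Kbar (t2Bar N h2N) ∧ FiniteDimensional Kbar⟮t2Bar N h2N⟯ (FN N) ∧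
      3 * Module.finrank Kbar⟮t2Bar N h2N⟯ (FN N) = dedekindPsi N :=
  t2L_spec Kbar N h2N

/-- **The `t₃`-line of `X₀(N)` over `ℚ̄`**: `4 · [FN N : ℚ̄(t₃)] = ψ(N)`. -/
theorem t3Bar_spec (N : ℕ) [NeZero N] (h3N : 3 ∣ N) :
    Transcendental Kbar (t3Bar N h3N) ∧ FiniteDimensional Kbar⟮t3Bar N h3N⟯ (FN N) ∧
      4 * Module.finrank Kbar⟮t3Bar N h3N⟯ (FN N) = dedekindPsi N :=
  t3L_spec Kbar N h3N

end Bar

/-! ### The `A`-integral series: hypotheses of the Gauss-line consumers

For a valuation subring `A` of `L ⊇ ℚ` the series `t2 A : LaurentSeries A` is `A`-integral, its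
image in `L((q))` is `t2 L` and its coefficientwise reduction is `t2 k` (`k` the residue field).
These are the inputs `y`, `hy`, `htr`, `hj` of `helper4665.resTranscendental_gaussValuationSubring`,
`gauss_orthoSys_line`, `gauss_integralityTransfer_line` and of
`helper1733.gauss_resTranscendental_of_series`. -/

section Integral

variable {L : Type*} [Field L] (A : ValuationSubring L)

theorem coeffMap_subtype_t2 : coeffMap A.subtype (t2 A) = t2 L := coeffMap_t2 A.subtype

theorem coeffMap_subtype_t3 : coeffMap A.subtype (t3 A) = t3 L := coeffMap_t3 A.subtype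

theorem coeffMap_residue_t2 :
    coeffMap (IsLocalRing.residue A) (t2 A) = t2 (IsLocalRing.ResidueField A) :=
  coeffMap_t2 (IsLocalRing.residue A)

theorem coeffMap_residue_t3 :
    coeffMap (IsLocalRing.residue A) (t3 A) = t3 (IsLocalRing.ResidueField A) :=
  coeffMap_t3 (IsLocalRing.residue A)

/-- (htr) for `y := t2 A`: the reduction is transcendental over the residue field. -/
theorem coeffMap_residue_t2_transcendental :
    Transcendental (IsLocalRing.ResidueField A) (coeffMap (IsLocalRing.residue A) (t2 A)) := by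
  rw [coeffMap_residue_t2]
  exact t2_transcendental _

/-- (htr) for `y := t3 A`. -/
theorem coeffMap_residue_t3_transcendental :
    Transcendental (IsLocalRing.ResidueField A) (coeffMap (IsLocalRing.residue A) (t3 A)) := by
  rw [coeffMap_residue_t3]
  exact t3_transcendental _

variable [Algebra ℚ L]

/-- (hy) for `y := t2 A`. -/
theorem coeffMap_subtype_t2_mem (N : ℕ) [NeZero N] (h2N : 2 ∣ N) :
    coeffMap A.subtype (t2 A) ∈ laurentBaseChange L (modularFunctionFieldFull N) := by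
  rw [coeffMap_subtype_t2]
  exact t2_mem_laurentBaseChange L N h2N

/-- (hy) for `y := t3 A`. -/
theorem coeffMap_subtype_t3_mem (N : ℕ) [NeZero N] (h3N : 3 ∣ N) :
    coeffMap A.subtype (t3 A) ∈ laurentBaseChange L (modularFunctionFieldFull N) := by
  rw [coeffMap_subtype_t3]
  exact t3_mem_laurentBaseChange L N h3N

/-- (hj) for `y := t2 A`: `j ∈ L(t₂)` inside the generic function field, for ANY element `j'`
with underlying series `j` (e.g. `helper1733.gaussJ L N`, whose coercion is `jqModC L` by `rfl`). -/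
theorem mem_adjoin_coeffMap_subtype_t2 (N : ℕ) [NeZero N] (h2N : 2 ∣ N)
    (j' : ↥(laurentBaseChange L (modularFunctionFieldFull N)))
    (hj : (j' : LaurentSeries L) = jqModC L) :
    j' ∈ L⟮(⟨coeffMap A.subtype (t2 A), coeffMap_subtype_t2_mem A N h2N⟩ :
      ↥(laurentBaseChange L (modularFunctionFieldFull N)))⟯ :=
  subtype_mem_adjoin_two _ _ _ hj (coeffMap_subtype_t2 A)

/-- (hj) for `y := t3 A`. -/
theorem mem_adjoin_coeffMap_subtype_t3 (N : ℕ) [NeZero N] (h3N : 3 ∣ N)
    (j' : ↥(laurentBaseChange L (modularFunctionFieldFull N)))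
    (hj : (j' : LaurentSeries L) = jqModC L) :
    j' ∈ L⟮(⟨coeffMap A.subtype (t3 A), coeffMap_subtype_t3_mem A N h3N⟩ :
      ↥(laurentBaseChange L (modularFunctionFieldFull N)))⟯ :=
  subtype_mem_adjoin_three _ _ _ hj (coeffMap_subtype_t3 A)

end Integral

/-! ### Bridges to the parallel vocabularies on main

`helper6381_HLineInst` (`t2K`, `t2L`, `t2F`) and `helper4665_TLineInst` (`zSeries`, `gaussT2`)
use the same underlying series `coeffMap (Int.castRingHom K) helper1257.t2Z`; the statements of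
this file apply to them through the following `rfl`-bridges and the `…_of_coe` forms. -/

section Bridges

theorem t2_eq_t2K (K : Type*) [CommRing K] : t2 K = helper6381.t2K K := rfl

theorem t3_eq_t3K (K : Type*) [CommRing K] : t3 K = helper6381.t3K K := rfl

theorem t2L_eq_t2L (L : Type) [Field L] [Algebra ℚ L] (N : ℕ) [NeZero N] (h2N : 2 ∣ N) :
    t2L L N h2N = helper6381.t2L L N h2N := rfl

theorem t3L_eq_t3L (L : Type) [Field L] [Algebra ℚ L] (N : ℕ) [NeZero N] (h3N : 3 ∣ N) :
    t3L L N h3N = helper6381.t3L L N h3N := rfl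

open Fermat.Agent.S24.helper24 (Kbar FN jBar)

/-- The algebraic identity of level 2 in `FN N` for ANY element whose underlying series is the
Hauptmodul (e.g. `helper6381.t2L Kbar N h2N`, `helper4665.gaussT2 Kbar N h2N`). -/
theorem jBar_rel_two_of_coe (N : ℕ) (t' : FN N) (ht : (t' : LaurentSeries Kbar) = t2 Kbar) :
    jBar N * t' ^ 2 = (t' + 256) ^ 3 :=
  subtype_rel_two _ _ _ (coe_jBar_eq_jqModC N) ht

/-- The algebraic identity of level 3 in `FN N` for any element whose underlying series is the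
Hauptmodul. -/
theorem jBar_rel_three_of_coe (N : ℕ) (t' : FN N) (ht : (t' : LaurentSeries Kbar) = t3 Kbar) :
    jBar N * t' ^ 3 = (t' + 27) * (t' + 243) ^ 3 :=
  subtype_rel_three _ _ _ (coe_jBar_eq_jqModC N) ht

end Bridges

end Fermat.Agent.S18.helper1622
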