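import Fermat.Agent.S24.helper1200_Final

/-!
# S18-RAMDATA (helper8185): ramification indices of `F_N / ℚ̄(j)` in "`e ∣ e₀`" form

The landed S24 modules prove the *number* of places of the function field `F_N` of `X₀(N)` over
`j = 0, 1728, ∞`.  The purity / tameness routes to S18 need the finer statement that every
ramification index over `0` (resp. `1728`, `∞`) divides `3` (resp. `2`, `N`).  This is contained
in the proof of the orbit counting lemma of S24; here it is extracted.

* `ord_eq_card_orbit`       : refined form of `helper384.card_zeros_eq_card_orbits`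
                              (every zero of `x` has order = cardinality of one orbit);
* `loc_ord_eq_card_orbit`   : the same in the shape of `helper24.Stmt_LOC`;
* `loc_ord_dvd`             : hence `ord_v y ∣ k` whenever `ρ ^ k = 1`;
* `ord_dvd_of_localDatum`   : the same for a `helper24.LocalDatum`;
* `ord_j_sub_eq_one`, `ord_j_dvd_three`, `ord_j_sub_1728_dvd_two`, `neg_ord_j_dvd_level` :
  the ramification data of `F_N / ℚ̄(j)`.
-/

set_option autoImplicit false

open AlgebraicCurve IntermediateField ModularCurve CongruenceSubgroup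
open scoped MatrixGroups

namespace Fermat.Agent.S18.helper8185

open Fermat.Agent.S24 Fermat.Agent.S24.helper24

/-! ## The generic engine -/

section Engine

open scoped IntermediateField.algebraAdjoinAdjoin

variable {K F : Type*} [Field K] [Field F] [Algebra K F]
variable (x : F) [FiniteDimensional K⟮x⟯ F] [CharZero K]

/-- **Refined orbit counting.** In the situation of `helper384.card_zeros_eq_card_orbits`, every
zero `v` of `x` has `ord_v x = ` the cardinality of one orbit. -/
theorem ord_eq_card_orbit (hx0 : x ≠ 0)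
    (hfund : ∃ s : Finset (Place K F), (∀ v, v ∈ s ↔ 0 < v.ord x) ∧
      ∑ v ∈ s, v.ord x = Module.finrank K⟮x⟯ F)
    {X O : Type*} [Fintype X] [Finite O]
    (hcard : Fintype.card X = Module.finrank K⟮x⟯ F)
    (w : X → F → ℤ)
    (hw_mul : ∀ g (a b : F), a ≠ 0 → b ≠ 0 → w g (a * b) = w g a + w g b)
    (hw_add : ∀ g (a b : F), a ≠ 0 → b ≠ 0 → a + b ≠ 0 → min (w g a) (w g b) ≤ w g (a + b))
    (hw_const : ∀ g (c : K), w g (algebraMap K F c) = 0)
    (e₀ : ℤ) (he₀ : 0 < e₀) (hw_x : ∀ g, w g x = e₀)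
    (hnorm : ∀ (f : F), f ≠ 0 → ∀ g₀ : X,
      ∑ g, w g f = w g₀ (algebraMap K⟮x⟯ F (Algebra.norm K⟮x⟯ f)))
    (orb : X → O) (horb : Function.Surjective orb)
    (hw_orb : ∀ g g', orb g = orb g' → ∀ f, w g f = w g' f)
    (hw_div : ∀ g (f : F), f ≠ 0 →
      e₀ ∣ (Nat.card {g' // orb g' = orb g} : ℤ) * w g f)
    (v : Place K F) (hv : 0 < v.ord x) :
    ∃ g : X, v.ord x = (Nat.card {g' // orb g' = orb g} : ℤ) := by
  classical
  obtain ⟨s, hs, hsum⟩ := hfund
  have hwx : ∀ g, 0 < w g x := fun g => by rw [hw_x]; exact he₀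
  -- the places attached to the valuations
  let V : X → Place K F := fun g =>
    helper384.ivPlace (w g) (hw_mul g) (hw_add g) (hw_const g) x hx0 (hwx g)
  have hκ : ∀ g, ∃ κ : ℤ, 0 < κ ∧ ∀ f : F, f ≠ 0 → w g f = (V g).ord f * κ := fun g =>
    helper384.ivPlace_ord (w g) (hw_mul g) (hw_add g) (hw_const g) x hx0 (hwx g)
  choose κ hκpos hκ using hκ
  have hVx : ∀ g, 0 < (V g).ord x := by
    intro g
    have h := hκ g x hx0
    rw [hw_x] at h
    by_contra hle
    rw [not_lt] at hle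
    have := mul_nonpos_of_nonpos_of_nonneg hle (hκpos g).le
    omega
  have hVorb : ∀ g g', orb g = orb g' → V g = V g' := by
    intro g g' h
    apply Place.ext
    ext f
    show f ∈ helper384.ivSubring (w g) (hw_mul g) (hw_add g) ↔
      f ∈ helper384.ivSubring (w g') (hw_mul g') (hw_add g')
    simp only [helper384.mem_ivSubring, hw_orb g g' h f]
  -- surjectivity onto the zeros of `x`
  have hsurj : ∀ v₀ : Place K F, 0 < v₀.ord x → ∃ g, V g = v₀ := by
    intro v₀ hv₀
    by_contra hcon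
    push Not at hcon
    obtain ⟨b, hb, hbv, hbV⟩ :=
      helper384.exists_integral_avoiding x v₀ hv₀ Finset.univ V hVx (fun g _ => hcon g)
    have hb0 : b ≠ 0 := by
      rintro rfl
      simp at hbv
    obtain ⟨h, hhA, hh0, hnm⟩ := helper384.norm_eq_mul_of_integral x v₀ hv₀ b hb hb0 hbv
    have hXne : Nonempty X := by
      have : 0 < Fintype.card X := by rw [hcard]; exact Module.finrank_pos
      exact Fintype.card_pos_iff.mp this
    obtain ⟨g₀⟩ := hXne
    have h1 := hnorm b hb0 g₀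
    rw [hnm, hw_mul g₀ h x hh0 hx0, hw_x] at h1
    have h2 : ∑ g, w g b = 0 := Finset.sum_eq_zero (fun g _ => by
      rw [hκ g b hb0, hbV g (Finset.mem_univ g), zero_mul])
    have h3 : 0 ≤ w g₀ h := by
      have hxmem : x ∈ (V g₀).toValuationSubring := helper384.mem_of_ord_nonneg _ (hVx g₀).le
      have hmem := helper384.mem_place_of_mem_adjoin x (V g₀) hxmem hhA
      exact (hmem : h = 0 ∨ 0 ≤ w g₀ h).resolve_left hh0
    omega
  -- orbits
  have : Fintype O := Fintype.ofFinite O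
  let Φ : O → Place K F := fun o => V (Function.surjInv horb o)
  have hΦ : ∀ g, Φ (orb g) = V g := fun g =>
    hVorb _ _ (Function.surjInv_eq horb (orb g))
  have hΦmem : ∀ o, Φ o ∈ s := fun o => (hs _).mpr (hVx _)
  have hΦsurj : ∀ v ∈ s, ∃ o, Φ o = v := by
    intro v hv
    obtain ⟨g, hg⟩ := hsurj v ((hs v).mp hv)
    exact ⟨orb g, (hΦ g).trans hg⟩
  have he : ∀ o, (Φ o).ord x ≤ (Nat.card {g' // orb g' = o} : ℤ) := by
    intro o
    set g := Function.surjInv horb o with hg
    have hgo : orb g = o := Function.surjInv_eq horb o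
    obtain ⟨π, hπ⟩ := IsDiscreteValuationRing.exists_irreducible (V g).toValuationSubring
    have hπ0 : (π : F) ≠ 0 := fun h => hπ.ne_zero (Subtype.ext h)
    have hπ1 : (V g).ord (π : F) = 1 := (V g).ord_coe_irreducible hπ
    have h1 := hw_div g (π : F) hπ0
    rw [hκ g _ hπ0, hπ1, one_mul, ← hw_x g, hκ g x hx0, hgo] at h1
    have h2 : (V g).ord x ∣ (Nat.card {g' // orb g' = o} : ℤ) :=
      Int.dvd_of_mul_dvd_mul_right (hκpos g).ne' h1
    have hpos : 0 < (Nat.card {g' // orb g' = o} : ℤ) := by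
      have : Nonempty {g' // orb g' = o} := ⟨⟨g, hgo⟩⟩
      exact_mod_cast Nat.card_pos
    exact Int.le_of_dvd hpos h2
  -- the counting
  have hS2 : ∑ o : O, (Nat.card {g' // orb g' = o} : ℤ) = Fintype.card X := by
    have h := Finset.card_eq_sum_card_fiberwise (s := (Finset.univ : Finset X))
      (t := (Finset.univ : Finset O)) (f := orb) (fun g _ => Finset.mem_univ _)
    rw [Finset.card_univ] at h
    rw [h]
    push_cast
    refine Finset.sum_congr rfl (fun o _ => ?_)
    rw [Nat.card_eq_fintype_card, Fintype.card_subtype]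
  have hS4 : ∑ o : O, (Φ o).ord x
      = ∑ v ∈ s, ((Finset.univ.filter (fun o => Φ o = v)).card : ℤ) * v.ord x := by
    rw [← Finset.sum_fiberwise_of_maps_to (s := (Finset.univ : Finset O)) (t := s) (g := Φ)
      (fun o _ => hΦmem o)]
    refine Finset.sum_congr rfl (fun v _ => ?_)
    rw [Finset.sum_congr rfl (fun o ho => by rw [(Finset.mem_filter.mp ho).2]),
      Finset.sum_const, nsmul_eq_mul]
  have hc1 : ∀ v ∈ s, 1 ≤ (Finset.univ.filter (fun o => Φ o = v)).card := by
    intro v hv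
    obtain ⟨o, ho⟩ := hΦsurj v hv
    exact Finset.card_pos.mpr ⟨o, Finset.mem_filter.mpr ⟨Finset.mem_univ _, ho⟩⟩
  -- new ending: the inequalities `he` are equalities
  have hS5 : ∑ v ∈ s, v.ord x ≤ ∑ o : O, (Φ o).ord x := by
    rw [hS4]
    refine Finset.sum_le_sum (fun u hu => ?_)
    have h1 : (1 : ℤ) ≤ ((Finset.univ.filter (fun o => Φ o = u)).card : ℤ) := by
      exact_mod_cast hc1 u hu
    have h2 : 0 < u.ord x := (hs u).mp hu
    nlinarith
  have hS6 : ∑ o : O, ((Nat.card {g' // orb g' = o} : ℤ) - (Φ o).ord x) = 0 := by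
    have hle : ∑ o : O, ((Nat.card {g' // orb g' = o} : ℤ) - (Φ o).ord x) ≤ 0 := by
      rw [Finset.sum_sub_distrib, hS2, hcard, ← hsum]
      linarith
    exact le_antisymm hle (Finset.sum_nonneg (fun o _ => sub_nonneg.mpr (he o)))
  have hz := (Finset.sum_eq_zero_iff_of_nonneg (fun o _ => sub_nonneg.mpr (he o))).mp hS6
  obtain ⟨g, hg⟩ := hsurj v hv
  refine ⟨g, ?_⟩
  have h := hz (orb g) (Finset.mem_univ _)
  rw [hΦ g, hg] at h
  omega

end Engine

/-! ## The `Stmt_LOC` shape -/

section LOC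

/-- The cardinality of the `⟨ρ⟩`-orbit class of `g` divides every `k` with `ρ ^ k g = g`. -/
theorem card_orbitClass_dvd {X : Type*} [Fintype X] (ρ : Equiv.Perm X) (g : X) (k : ℕ)
    (hk : (ρ ^ k) g = g) :
    Nat.card {g' : X // (Quotient.mk'' g' : MulAction.orbitRel.Quotient
        (Subgroup.zpowers ρ) X) = Quotient.mk'' g} ∣ k := by
  classical
  have hcard : Nat.card {g' : X // (Quotient.mk'' g' : MulAction.orbitRel.Quotient
        (Subgroup.zpowers ρ) X) = Quotient.mk'' g}
      = Function.minimalPeriod (ρ • ·) g := by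
    rw [MulAction.minimalPeriod_eq_card, ← Nat.card_eq_fintype_card]
    apply Nat.card_congr
    refine Equiv.subtypeEquivRight fun g' => ?_
    rw [Quotient.eq'']
    exact MulAction.orbitRel_apply
  rw [hcard]
  have h2 : ∀ n : ℕ, (ρ • · : X → X)^[n] g = (ρ ^ n) g := by
    intro n
    induction n with
    | zero => rfl
    | succ n ih => rw [Function.iterate_succ_apply', ih, pow_succ']; rfl
  apply Function.IsPeriodicPt.minimalPeriod_dvd
  show (ρ • · : X → X)^[k] g = g
  rw [h2, hk]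

/-- **Refined `Stmt_LOC`**: in the situation of `helper24.Stmt_LOC`, every zero `v` of `y` has
`ord_v y = ` the cardinality of one `⟨ρ⟩`-orbit. -/
theorem loc_ord_eq_card_orbit
    (K F : Type) [Field K] [Field F] [Algebra K F] [IsAlgClosed K] [CharZero K]
    (Ω : Type) [Field Ω] [Algebra K Ω] (y : F) (hy : Transcendental K y)
    [FiniteDimensional K⟮y⟯ F] (w : AddValuation Ω (WithTop ℤ))
    (hwK : ∀ a : K, a ≠ 0 → w (algebraMap K Ω a) = 0)
    (X : Type) [Fintype X] (hcard : Fintype.card X = Module.finrank K⟮y⟯ F)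
    (ι : X → (F →ₐ[K] Ω)) (hinj : Function.Injective ι)
    (ξ : Ω) (hξ : ∀ i, ι i y = ξ) (m : ℕ) (hm : 0 < m) (hwξ : w ξ = ((m : ℤ) : WithTop ℤ))
    (σ : Ω ≃ₐ[K] Ω) (hσ : ∀ z, w (σ z) = w z)
    (ρ : Equiv.Perm X) (hρ : ∀ i f, σ (ι i f) = ι (ρ i) f)
    (hdiv : ∀ (k : ℕ) (z : Ω), z ≠ 0 → (σ ^ k) z = z →
      ∃ l : ℤ, w z = (((m / Nat.gcd k m : ℕ) * l : ℤ) : WithTop ℤ))
    (v : Place K F) (hv : 0 < v.ord y) :
    ∃ i : X, v.ord y = (Nat.card {i' : X // (Quotient.mk'' i' :
        MulAction.orbitRel.Quotient (Subgroup.zpowers ρ) X) = Quotient.mk'' i} : ℤ) := by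
  classical
  have hy0 : y ≠ 0 := fun h => hy (h ▸ isAlgebraic_zero)
  have hne : ∀ (g : X) (f : F), f ≠ 0 → ι g f ≠ 0 := fun g f hf =>
    (map_ne_zero_iff (ι g) (ι g).toRingHom.injective).2 hf
  -- invariance of the valuations under `ρ`
  have hρw : ∀ (τ : Equiv.Perm X), τ ∈ Subgroup.zpowers ρ → ∀ i f, w (ι (τ i) f) = w (ι i f) := by
    let H : Subgroup (Equiv.Perm X) :=
      { carrier := {τ | ∀ i f, w (ι (τ i) f) = w (ι i f)}
        mul_mem' := by
          intro a b ha hb i f
          show w (ι (a (b i)) f) = w (ι i f)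
          rw [ha, hb]
        one_mem' := fun i f => rfl
        inv_mem' := by
          intro a ha i f
          have := ha (a⁻¹ i) f
          rw [show a (a⁻¹ i) = i from Equiv.apply_symm_apply a i] at this
          exact this.symm }
    have hρH : ρ ∈ H := fun i f => by rw [← hρ, hσ]
    intro τ hτ
    exact (Subgroup.zpowers_le.2 hρH) hτ
  have hσpow : ∀ (k : ℕ) (i : X) (f : F), (σ ^ k) (ι i f) = ι ((ρ ^ k) i) f := by
    intro k
    induction k with
    | zero => intro i f; rfl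
    | succ k ih =>
      intro i f
      rw [pow_succ', pow_succ']
      show σ ((σ ^ k) (ι i f)) = ι (ρ ((ρ ^ k) i)) f
      rw [ih, hρ]
  refine ord_eq_card_orbit y hy0 (leaf_FundId K F y hy) hcard
    (fun g f => helper264.valInt w (ι g f)) ?_ ?_ ?_ (m : ℤ) (by exact_mod_cast hm) ?_ ?_
    (fun g => (Quotient.mk'' g : MulAction.orbitRel.Quotient (Subgroup.zpowers ρ) X))
    Quotient.mk''_surjective ?_ ?_ v hv
  · intro g a b ha hb
    show helper264.valInt w (ι g (a * b)) = _
    rw [map_mul]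
    exact helper264.valInt_mul w (hne g a ha) (hne g b hb)
  · intro g a b ha hb hab
    show _ ≤ helper264.valInt w (ι g (a + b))
    rw [map_add]
    refine helper264.valInt_add w (hne g a ha) (hne g b hb) ?_
    rw [← map_add]
    exact hne g _ hab
  · intro g c
    show helper264.valInt w (ι g (algebraMap K F c)) = 0
    rw [AlgHom.commutes]
    by_cases hc : c = 0
    · rw [hc, map_zero]; exact helper264.valInt_zero w
    · unfold helper264.valInt
      rw [hwK c hc]; rfl
  · intro g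
    show helper264.valInt w (ι g y) = m
    unfold helper264.valInt
    rw [hξ g, hwξ]; rfl
  · intro f hf g₀
    show ∑ g, helper264.valInt w (ι g f) = helper264.valInt w (ι g₀ _)
    rw [← helper264.prod_algHom_eq_norm_adjoin y ι hinj hcard
        (fun g g' => by rw [hξ g, hξ g']) g₀ f,
      helper264.valInt_prod w Finset.univ (fun g => ι g f) (fun g _ => hne g f hf)]
  · intro g g' h f
    show helper264.valInt w (ι g f) = helper264.valInt w (ι g' f)
    rw [Quotient.eq''] at h
    have h' : g ∈ MulAction.orbit (Subgroup.zpowers ρ) g' := MulAction.orbitRel_apply.1 h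
    obtain ⟨⟨τ, hτ⟩, rfl⟩ := h'
    exact helper264.valInt_eq_of_eq w (hρw τ hτ g' f)
  · intro g f hf
    show (m : ℤ) ∣ _ * helper264.valInt w (ι g f)
    set p := Nat.card {g' : X // (Quotient.mk'' g' : MulAction.orbitRel.Quotient
        (Subgroup.zpowers ρ) X) = Quotient.mk'' g} with hp
    have hfix : (σ ^ p) (ι g f) = ι g f := by
      rw [hσpow, hp, helper264.pow_card_orbitClass_apply]
    obtain ⟨l, hl⟩ := hdiv p (ι g f) (hne g f hf) hfix
    rw [← helper264.coe_valInt w (hne g f hf)] at hl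
    have hl' : helper264.valInt w (ι g f) = ((m / Nat.gcd p m : ℕ) : ℤ) * l := by
      exact_mod_cast hl
    rw [hl']
    obtain ⟨a, ha⟩ := Nat.gcd_dvd_left p m
    obtain ⟨b, hb⟩ := Nat.gcd_dvd_right p m
    have hgpos : 0 < Nat.gcd p m := Nat.gcd_pos_of_pos_right p hm
    have hmdiv : m / Nat.gcd p m = b :=
      Nat.div_eq_of_eq_mul_right hgpos hb
    rw [hmdiv]
    refine ⟨(a : ℤ) * l, ?_⟩
    have : (p : ℤ) * ((b : ℤ) * l) = ((p * b : ℕ) : ℤ) * l := by push_cast; ring
    rw [this]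
    have h3 : p * b = m * a := by
      conv_lhs => rw [ha]
      conv_rhs => rw [hb]
      ring
    rw [h3]
    push_cast; ring

/-- In the situation of `helper24.Stmt_LOC`: if `ρ ^ k = 1` then every zero `v` of `y` has
`ord_v y ∣ k`. -/
theorem loc_ord_dvd
    (K F : Type) [Field K] [Field F] [Algebra K F] [IsAlgClosed K] [CharZero K]
    (Ω : Type) [Field Ω] [Algebra K Ω] (y : F) (hy : Transcendental K y)
    [FiniteDimensional K⟮y⟯ F] (w : AddValuation Ω (WithTop ℤ))
    (hwK : ∀ a : K, a ≠ 0 → w (algebraMap K Ω a) = 0)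
    (X : Type) [Fintype X] (hcard : Fintype.card X = Module.finrank K⟮y⟯ F)
    (ι : X → (F →ₐ[K] Ω)) (hinj : Function.Injective ι)
    (ξ : Ω) (hξ : ∀ i, ι i y = ξ) (m : ℕ) (hm : 0 < m) (hwξ : w ξ = ((m : ℤ) : WithTop ℤ))
    (σ : Ω ≃ₐ[K] Ω) (hσ : ∀ z, w (σ z) = w z)
    (ρ : Equiv.Perm X) (hρ : ∀ i f, σ (ι i f) = ι (ρ i) f)
    (hdiv : ∀ (k : ℕ) (z : Ω), z ≠ 0 → (σ ^ k) z = z →
      ∃ l : ℤ, w z = (((m / Nat.gcd k m : ℕ) * l : ℤ) : WithTop ℤ))
    (k : ℕ) (hk : ρ ^ k = 1)
    (v : Place K F) (hv : 0 < v.ord y) : v.ord y ∣ (k : ℤ) := by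
  obtain ⟨i, hi⟩ := loc_ord_eq_card_orbit K F Ω y hy w hwK X hcard ι hinj ξ hξ m hm hwξ σ hσ ρ hρ
    hdiv v hv
  rw [hi]
  exact_mod_cast card_orbitClass_dvd ρ i k (by rw [hk]; rfl)

end LOC

/-! ## The modular function field `F_N` -/

section Modular

/-- Orbit-size divisibility for a local datum: if `g ^ k` acts trivially on
`SL₂(ℤ) ⧸ Γ₀(N)`, every zero `v` of `y` has `ord_v y ∣ k`. -/
theorem ord_dvd_of_localDatum (N : ℕ) [NeZero N] (y : FN N) (m : ℕ)
    (g : SL(2, ℤ)) (hy : Transcendental Kbar y) [FiniteDimensional Kbar⟮y⟯ (FN N)]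
    (hcard : Nat.card (XN N) = Module.finrank Kbar⟮y⟯ (FN N))
    (hdat : LocalDatum N y m g) (k : ℕ) (hk : ∀ i : XN N, g ^ k • i = i)
    (v : Place Kbar (FN N)) (hv : 0 < v.ord y) : v.ord y ∣ (k : ℤ) := by
  obtain ⟨Ω, _, _, w, ι, σ, ξ, hwK, hι, hξ, hm, hwξ, hwσ, hσ, hdiv⟩ := hdat
  have hpos : 0 < Module.finrank Kbar⟮y⟯ (FN N) := Module.finrank_pos
  have : Finite (XN N) := Nat.finite_of_card_ne_zero (by omega)
  let : Fintype (XN N) := Fintype.ofFinite _
  have hcard' : Fintype.card (XN N) = Module.finrank Kbar⟮y⟯ (FN N) := by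
    rw [← Nat.card_eq_fintype_card]; exact hcard
  rcases hσ with hσ | hσ
  · refine loc_ord_dvd Kbar (FN N) Ω y hy w hwK (XN N) hcard' ι hι ξ hξ m hm hwξ σ hwσ
      (MulAction.toPerm g) (fun i f => by simpa using hσ i f) hdiv k ?_ v hv
    ext i
    have h : (MulAction.toPerm g ^ k : Equiv.Perm (XN N)) = MulAction.toPerm (g ^ k) := by
      rw [← MulAction.toPermHom_apply, ← map_pow]; rfl
    rw [h]
    exact hk i
  · refine loc_ord_dvd Kbar (FN N) Ω y hy w hwK (XN N) hcard' ι hι ξ hξ m hm hwξ σ hwσ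
      (MulAction.toPerm g⁻¹) (fun i f => by simpa using hσ i f) hdiv k ?_ v hv
    ext i
    have h : (MulAction.toPerm g⁻¹ ^ k : Equiv.Perm (XN N)) = MulAction.toPerm ((g ^ k)⁻¹) := by
      rw [← MulAction.toPermHom_apply, ← map_pow, inv_pow]; rfl
    rw [h]
    show (g ^ k)⁻¹ • i = i
    rw [inv_smul_eq_iff]
    exact (hk i).symm

/-- `[F_N : ℚ̄(j)] = [SL₂(ℤ) : Γ₀(N)]` (landed in S24). -/
theorem stmt_JFinrank : Stmt_JFinrank :=
  helper167.stmt_JFinrank_of (fun N _ => helper6180.evDatum N) helper1200.stmt_LocalInf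

/-- The three finite local data (landed in S24). -/
theorem stmt_LocalFinite : Stmt_LocalGeneric ∧ Stmt_Local1728 ∧ Stmt_LocalZero :=
  helper2064.local_of_merPackage helper1200.stmt_MerPackage

/-- The place counts (landed in S24, restated without hypotheses). -/
theorem stmt_Places : Stmt_Places :=
  helper1635.stmt_Places_of leaf_LOC leaf_FundId leaf_JTranscendental stmt_JFinrank
    stmt_LocalFinite.1 stmt_LocalFinite.2.1 stmt_LocalFinite.2.2 helper1200.stmt_LocalInf
    leaf_OrbitsT leaf_OrbitsS leaf_OrbitsST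

/-- `T ^ N` acts trivially on `SL₂(ℤ) ⧸ Γ₀(N)`. -/
theorem T_pow_level_smul (N : ℕ) (i : XN N) : ModularGroup.T ^ N • i = i := by
  obtain ⟨g, rfl⟩ := QuotientGroup.mk_surjective i
  have h := Lib.helper804.T_zpow_mul_col (N : ℤ) g
  rw [zpow_natCast] at h
  rw [Lib.helper804.smul_mk, Lib.helper804.mk_eq_mk_iff, h.1, h.2]
  exact ⟨g.1 1 0 * g.1 1 0, by ring⟩

variable (N : ℕ) [NeZero N]

/-- (R1) `F_N / ℚ̄(j)` is unramified over every `c ≠ 0, 1728`. -/
theorem ord_j_sub_eq_one (c : Kbar) (hc0 : c ≠ 0) (hc : c ≠ 1728) (v : Place Kbar (FN N))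
    (hv : 0 < v.ord (jBar N - algebraMap Kbar (FN N) c)) :
    v.ord (jBar N - algebraMap Kbar (FN N) c) = 1 :=
  (stmt_Places N).1 c hc0 hc v hv

/-- (R2) every ramification index of `F_N / ℚ̄(j)` over `j = 0` divides `3`. -/
theorem ord_j_dvd_three (v : Place Kbar (FN N)) (hv : 0 < v.ord (jBar N)) :
    v.ord (jBar N) ∣ 3 := by
  have : FiniteDimensional Kbar⟮jBar N⟯ (FN N) := (stmt_JFinrank N).1
  exact_mod_cast ord_dvd_of_localDatum N (jBar N) 3 (ModularGroup.S * ModularGroup.T)
    (leaf_JTranscendental N) (stmt_JFinrank N).2.symm (stmt_LocalFinite.2.2 N) 3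
    (fun i => Lib.helper804.ST_cube_smul N i) v hv

/-- (R3) every ramification index of `F_N / ℚ̄(j)` over `j = 1728` divides `2`. -/
theorem ord_j_sub_1728_dvd_two (v : Place Kbar (FN N))
    (hv : 0 < v.ord (jBar N - algebraMap Kbar (FN N) 1728)) :
    v.ord (jBar N - algebraMap Kbar (FN N) 1728) ∣ 2 := by
  have : FiniteDimensional Kbar⟮jBar N⟯ (FN N) := (stmt_JFinrank N).1
  have he := helper1635.adjoin_sub_algebraMap (K := Kbar) (jBar N) (1728 : Kbar)
  have : FiniteDimensional Kbar⟮jBar N - algebraMap Kbar (FN N) 1728⟯ (FN N) :=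
    helper1635.finiteDimensional_of_eq he.symm
  have hcard : Nat.card (XN N)
      = Module.finrank Kbar⟮jBar N - algebraMap Kbar (FN N) 1728⟯ (FN N) := by
    rw [helper1635.finrank_of_eq he, (stmt_JFinrank N).2]
  exact_mod_cast ord_dvd_of_localDatum N _ 2 ModularGroup.S
    (helper1635.transcendental_sub_algebraMap (leaf_JTranscendental N) (1728 : Kbar)) hcard
    (stmt_LocalFinite.2.1 N) 2 (fun i => Lib.helper804.S_sq_smul N i) v hv

/-- (R4) every ramification index of `F_N / ℚ̄(j)` over `j = ∞` divides `N`. -/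
theorem ord_j_inv_dvd_level (v : Place Kbar (FN N)) (hv : v.ord (jBar N) < 0) :
    v.ord (jBar N)⁻¹ ∣ (N : ℤ) := by
  have : FiniteDimensional Kbar⟮jBar N⟯ (FN N) := (stmt_JFinrank N).1
  have he := helper1635.adjoin_inv (K := Kbar) (jBar N)
  have : FiniteDimensional Kbar⟮(jBar N)⁻¹⟯ (FN N) := helper1635.finiteDimensional_of_eq he.symm
  have hcard : Nat.card (XN N) = Module.finrank Kbar⟮(jBar N)⁻¹⟯ (FN N) := by
    rw [helper1635.finrank_of_eq he, (stmt_JFinrank N).2]
  refine ord_dvd_of_localDatum N (jBar N)⁻¹ N ModularGroup.T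
    (helper1635.transcendental_inv (leaf_JTranscendental N)) hcard (helper1200.stmt_LocalInf N) N
    (fun i => T_pow_level_smul N i) v ?_
  rw [Place.ord_inv]
  omega

/-- (R4′) the pole orders of `j` on `F_N` divide `N`. -/
theorem ord_j_dvd_level (v : Place Kbar (FN N)) (hv : v.ord (jBar N) < 0) :
    v.ord (jBar N) ∣ (N : ℤ) := by
  have h := ord_j_inv_dvd_level N v hv
  rw [Place.ord_inv] at h
  exact (neg_dvd).mp h

end Modular

end Fermat.Agent.S18.helper8185
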