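import Fermat.Agent.S18.helper2866_Branch
import Fermat.Agent.S18.helper8185_RamData

/-!
# S18-BRANCH, modular instance (board row 1256, seat helper2866)

The branch locus of `F_N = modularFunctionFieldBar N` over the Hauptmodul lines `t_2`, `t_3`,
in Prelude `Place.ord` vocabulary, from the landed RAMDATA (`helper8185_RamData`, (R1)-(R4)) and
the generic valuation arithmetic of `helper2866_Branch`.  The Hauptmodul is ANY element
`t : FN N` satisfying the algebraic identity with `jBar N` (hypothesis-passing).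

* `FN_level2_ord_sub_eq_one`, `FN_level3_ord_sub_eq_one`: a zero of `t - c` is simple unless
  `c = 0` or `c = -64` (resp. `c = -27`);
* `FN_level2_ord_sub_neg64_dvd`, `FN_level3_ord_sub_neg27_dvd`: index `∣ 2` resp. `∣ 3` there;
* `FN_level2_ord_dvd_of_neg`, `FN_level2_two_mul_ord_dvd_of_pos`, `FN_level3_ord_dvd_of_neg`,
  `FN_level3_three_mul_ord_dvd_of_pos`: the indices at the poles / zeros of `t` divide `N`
  (after multiplication by `r` at the zeros).
-/

set_option autoImplicit false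

open AlgebraicCurve

namespace Fermat.Agent.S18.helper2866

open Fermat.Agent.S24.helper24 Fermat.Agent.S18.helper8185

variable (N : ℕ) [NeZero N]

/-! ## Level 2 -/

/-- Level 2: `F_N / ℚ̄(t)` is unramified over every `c ≠ 0, -64`. -/
theorem FN_level2_ord_sub_eq_one (t : FN N) (ht : jBar N * t ^ 2 = (t + 256) ^ 3)
    (c : Kbar) (hc0 : c ≠ 0) (hc : c ≠ -64) (v : Place Kbar (FN N))
    (hv : 0 < v.ord (t - algebraMap Kbar (FN N) c)) :
    v.ord (t - algebraMap Kbar (FN N) c) = 1 :=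
  level2_ord_sub_eq_one ht (fun v c h0 h1 h => ord_j_sub_eq_one N c h0 h1 v h)
    (ord_j_dvd_three N) (ord_j_sub_1728_dvd_two N) v c hc0 hc hv

/-- Level 2: every ramification index of `F_N / ℚ̄(t)` over `t = -64` divides `2`. -/
theorem FN_level2_ord_sub_neg64_dvd (t : FN N) (ht : jBar N * t ^ 2 = (t + 256) ^ 3)
    (v : Place Kbar (FN N)) (hv : 0 < v.ord (t - algebraMap Kbar (FN N) (-64))) :
    v.ord (t - algebraMap Kbar (FN N) (-64)) ∣ 2 :=
  level2_ord_sub_neg64_dvd ht (ord_j_sub_1728_dvd_two N) v hv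

/-- Level 2: every ramification index of `F_N / ℚ̄(t)` over `t = ∞` divides `N`. -/
theorem FN_level2_ord_dvd_of_neg (t : FN N) (ht : jBar N * t ^ 2 = (t + 256) ^ 3)
    (v : Place Kbar (FN N)) (hv : v.ord t < 0) : v.ord t ∣ (N : ℤ) := by
  have h := level2_ord_j_of_ord_neg (K := Kbar) ht v hv
  rw [← h]
  exact ord_j_dvd_level N v (by omega)

/-- Level 2: twice every ramification index of `F_N / ℚ̄(t)` over `t = 0` divides `N`. -/
theorem FN_level2_two_mul_ord_dvd_of_pos (t : FN N) (ht : jBar N * t ^ 2 = (t + 256) ^ 3)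
    (v : Place Kbar (FN N)) (hv : 0 < v.ord t) : 2 * v.ord t ∣ (N : ℤ) := by
  have h := level2_ord_j_of_ord_pos (K := Kbar) ht v hv
  have h1 := ord_j_dvd_level N v (by omega)
  rw [h] at h1
  have h2 : (-2 : ℤ) * v.ord t = -(2 * v.ord t) := by ring
  rw [h2] at h1
  exact (neg_dvd).mp h1

/-! ## Level 3 -/

/-- Level 3: `F_N / ℚ̄(t)` is unramified over every `c ≠ 0, -27`. -/
theorem FN_level3_ord_sub_eq_one (t : FN N) (ht : jBar N * t ^ 3 = (t + 27) * (t + 243) ^ 3)
    (c : Kbar) (hc0 : c ≠ 0) (hc : c ≠ -27) (v : Place Kbar (FN N))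
    (hv : 0 < v.ord (t - algebraMap Kbar (FN N) c)) :
    v.ord (t - algebraMap Kbar (FN N) c) = 1 :=
  level3_ord_sub_eq_one ht (fun v c h0 h1 h => ord_j_sub_eq_one N c h0 h1 v h)
    (ord_j_dvd_three N) (ord_j_sub_1728_dvd_two N) v c hc0 hc hv

/-- Level 3: every ramification index of `F_N / ℚ̄(t)` over `t = -27` divides `3`. -/
theorem FN_level3_ord_sub_neg27_dvd (t : FN N) (ht : jBar N * t ^ 3 = (t + 27) * (t + 243) ^ 3)
    (v : Place Kbar (FN N)) (hv : 0 < v.ord (t - algebraMap Kbar (FN N) (-27))) :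
    v.ord (t - algebraMap Kbar (FN N) (-27)) ∣ 3 :=
  level3_ord_sub_neg27_dvd ht (ord_j_dvd_three N) v hv

/-- Level 3: every ramification index of `F_N / ℚ̄(t)` over `t = ∞` divides `N`. -/
theorem FN_level3_ord_dvd_of_neg (t : FN N) (ht : jBar N * t ^ 3 = (t + 27) * (t + 243) ^ 3)
    (v : Place Kbar (FN N)) (hv : v.ord t < 0) : v.ord t ∣ (N : ℤ) := by
  have h := level3_ord_j_of_ord_neg (K := Kbar) ht v hv
  rw [← h]
  exact ord_j_dvd_level N v (by omega)

/-- Level 3: three times every ramification index of `F_N / ℚ̄(t)` over `t = 0` divides `N`. -/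
theorem FN_level3_three_mul_ord_dvd_of_pos (t : FN N)
    (ht : jBar N * t ^ 3 = (t + 27) * (t + 243) ^ 3)
    (v : Place Kbar (FN N)) (hv : 0 < v.ord t) : 3 * v.ord t ∣ (N : ℤ) := by
  have h := level3_ord_j_of_ord_pos (K := Kbar) ht v hv
  have h1 := ord_j_dvd_level N v (by omega)
  rw [h] at h1
  have h2 : (-3 : ℤ) * v.ord t = -(3 * v.ord t) := by ring
  rw [h2] at h1
  exact (neg_dvd).mp h1

end Fermat.Agent.S18.helper2866
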