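/-
S18, leaf S18-RC (helper6292): REDUCTION CONTAINMENT for Riemann-Roch spaces.

Two-chart integrality dictionary for `riemannRochSpace (n • Xinf)` (`Xinf` the pole divisor of a
function `x`) in Prelude `Place` vocabulary:

* (D0) easy direction, any field `K`, any characteristic: an element integral over `K[x]` lies in
  the valuation ring of every place containing `x`; hence
  `g` integral over `K[x]` and `x⁻¹ ^ n * g` integral over `K[x⁻¹]` imply
  `g ∈ riemannRochSpace (n • Xinf)`.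
* (D1) hard direction: if the integral closure of `K[x]` is a Dedekind domain with fraction field
  `F` (instances of S24/helper204 in characteristic zero; an abstract Dedekind chart otherwise),
  then `g ∈ riemannRochSpace (n • Xinf)` implies that `g` is integral over `K[x]` and
  `x⁻¹ ^ n * g` is integral over `K[x⁻¹]`.
* (RC) for a valuation subring `O` of `F` with a ring hom `red : O →+* Fk` and a unit `x` of `O`:
  if integrality over `L[x]`, `L[x⁻¹]` of elements of `O` is transferred by `red`, then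
  `red (riemannRochSpace (n • Xinf) ∩ O) ⊆ riemannRochSpace (n • Xinfbar)`.
* (RC-tw) twisted form: `u ∈ O`, `ord_P u = m * D0 P`, `red u = wbar ^ m`:
  `f ∈ riemannRochSpace (D0 + a • Xinf + b • X0) ∩ O` implies
  `red f * wbar ∈ riemannRochSpace (a • Xinfbar + b • X0bar)`.
-/
import Mathlib
import Fermat.Prelude.Def_AlgebraicCurve_Repartitions
import Fermat.Agent.S24.helper204_Places

set_option autoImplicit false

namespace Fermat.Agent.S18.helper6292

open AlgebraicCurve IntermediateField IsDedekindDomain WithZero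
open Fermat.Agent.S24.helper204

section Dictionary

variable {K F : Type*} [Field K] [Field F] [Algebra K F]

/-- `X` is the pole divisor of `x`. -/
def IsPoleDivisor (x : F) (X : Divisor K F) : Prop :=
  ∀ v : Place K F, X v = max 0 (-(v.ord x))

/-- `X` is the zero divisor of `x`. -/
def IsZeroDivisor (x : F) (X : Divisor K F) : Prop :=
  ∀ v : Place K F, X v = max 0 (v.ord x)

theorem IsPoleDivisor.nonneg {x : F} {X : Divisor K F} (hX : IsPoleDivisor x X) (v : Place K F) :
    0 ≤ X v := by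
  rw [hX v]; exact le_max_left _ _

theorem IsZeroDivisor.nonneg {x : F} {X : Divisor K F} (hX : IsZeroDivisor x X) (v : Place K F) :
    0 ≤ X v := by
  rw [hX v]; exact le_max_left _ _

/-- `ord x = X0 - Xinf`. -/
theorem ord_eq_zero_sub_pole {x : F} {X X0 : Divisor K F} (hX : IsPoleDivisor x X)
    (hX0 : IsZeroDivisor x X0) (v : Place K F) : v.ord x = X0 v - X v := by
  rw [hX v, hX0 v]
  rcases le_total 0 (v.ord x) with h | h
  · rw [max_eq_right h, max_eq_left (by omega)]; ring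
  · rw [max_eq_left h, max_eq_right (by omega)]; ring

/-- The zero divisor of `x` is the pole divisor of `x⁻¹`. -/
theorem IsZeroDivisor.isPoleDivisor_inv {x : F} {X0 : Divisor K F} (hX0 : IsZeroDivisor x X0) :
    IsPoleDivisor x⁻¹ X0 := by
  intro v
  rw [hX0 v, v.ord_inv, neg_neg]

/-- The pole divisor of `x` is the zero divisor of `x⁻¹`. -/
theorem IsPoleDivisor.isZeroDivisor_inv {x : F} {X : Divisor K F} (hX : IsPoleDivisor x X) :
    IsZeroDivisor x⁻¹ X := by
  intro v
  rw [hX v, v.ord_inv]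

/-- Adapter from the "split" presentation used by `helper2030.kummer_ff`
(`0 ≤ Xinf`, `0 ≤ X0`, disjoint supports, `ord x = X0 - Xinf`) to `IsPoleDivisor`. -/
theorem isPoleDivisor_of_split {x : F} {X X0 : Divisor K F} (hX : 0 ≤ X) (hX0 : 0 ≤ X0)
    (hdisj : ∀ v : Place K F, X v = 0 ∨ X0 v = 0) (hord : ∀ v : Place K F, v.ord x = X0 v - X v) :
    IsPoleDivisor x X := by
  intro v
  have h1 : 0 ≤ X v := hX v
  have h2 : 0 ≤ X0 v := hX0 v
  have h3 := hord v
  rcases hdisj v with h | h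
  · rw [h] at h3 ⊢
    rw [max_eq_left (by omega)]
  · rw [h] at h3
    rw [max_eq_right (by omega)]
    omega

/-- Adapter from the "split" presentation to `IsZeroDivisor`. -/
theorem isZeroDivisor_of_split {x : F} {X X0 : Divisor K F} (hX : 0 ≤ X) (hX0 : 0 ≤ X0)
    (hdisj : ∀ v : Place K F, X v = 0 ∨ X0 v = 0) (hord : ∀ v : Place K F, v.ord x = X0 v - X v) :
    IsZeroDivisor x X0 := by
  intro v
  have h1 : 0 ≤ X v := hX v
  have h2 : 0 ≤ X0 v := hX0 v
  have h3 := hord v
  rcases hdisj v with h | h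
  · rw [h] at h3
    rw [max_eq_right (by omega)]
    omega
  · rw [h] at h3 ⊢
    rw [max_eq_left (by omega)]

/-- Conversely, pole and zero divisors of `x` form a "split" presentation. -/
theorem split_of_isPoleDivisor {x : F} {X X0 : Divisor K F} (hX : IsPoleDivisor x X)
    (hX0 : IsZeroDivisor x X0) :
    0 ≤ X ∧ 0 ≤ X0 ∧ (∀ v : Place K F, X v = 0 ∨ X0 v = 0) ∧
      ∀ v : Place K F, v.ord x = X0 v - X v := by
  refine ⟨fun v => hX.nonneg v, fun v => hX0.nonneg v, fun v => ?_,
    fun v => ord_eq_zero_sub_pole hX hX0 v⟩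
  rw [hX v, hX0 v]
  rcases le_total 0 (v.ord x) with h | h
  · left; rw [max_eq_left (by omega)]
  · right; rw [max_eq_left h]

/-- (D0) An element integral over `K[x]` lies in the valuation ring of every place whose
valuation ring contains `x`.  Any field `K`, any characteristic. -/
theorem mem_of_isIntegral_adjoin (v : Place K F) {x g : F} (hx : x ∈ v.toValuationSubring)
    (hg : IsIntegral (Algebra.adjoin K {x}) g) : g ∈ v.toValuationSubring :=
  mem_of_isIntegral_of_le v.toValuationSubring (Algebra.adjoin K {x}) (adjoin_le_of_mem v hx) hg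

/-- (D0), `ord` form. -/
theorem ord_nonneg_of_isIntegral_adjoin (v : Place K F) {x g : F} (hx : 0 ≤ v.ord x)
    (hg : IsIntegral (Algebra.adjoin K {x}) g) : 0 ≤ v.ord g :=
  ord_nonneg_of_mem v (mem_of_isIntegral_adjoin v (mem_of_ord_nonneg v hx) hg)

/-- (D0) Two-chart integrality implies membership in `L(n • Xinf)`. -/
theorem mem_riemannRochSpace_of_isIntegral {x g : F} {X : Divisor K F} (hX : IsPoleDivisor x X)
    (n : ℕ) (h1 : IsIntegral (Algebra.adjoin K {x}) g)
    (h2 : IsIntegral (Algebra.adjoin K {x⁻¹}) (x⁻¹ ^ n * g)) :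
    g ∈ riemannRochSpace (n • X) := by
  rw [mem_riemannRochSpace_iff]
  intro v
  by_cases hg0 : g = 0
  · exact Or.inl hg0
  right
  rw [Finsupp.smul_apply, hX v, nsmul_eq_mul]
  rcases le_or_gt 0 (v.ord x) with hx | hx
  · have h3 := ord_nonneg_of_isIntegral_adjoin v hx h1
    rw [max_eq_left (by omega)]
    simpa using h3
  · have hx0 : x ≠ 0 := by
      rintro rfl
      simp at hx
    have hxi : 0 ≤ v.ord x⁻¹ := by rw [v.ord_inv]; omega
    have h3 := ord_nonneg_of_isIntegral_adjoin v hxi h2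
    rw [v.ord_mul (pow_ne_zero n (inv_ne_zero hx0)) hg0, ← zpow_natCast, v.ord_zpow,
      v.ord_inv] at h3
    rw [max_eq_right (by omega)]
    linarith

/-- Elements of `L(n • Xinf)` lie in the valuation ring of every place containing `x`. -/
theorem mem_of_mem_riemannRochSpace {x g : F} {X : Divisor K F} (hX : IsPoleDivisor x X)
    (n : ℕ) (hg : g ∈ riemannRochSpace (n • X)) (v : Place K F)
    (hxv : x ∈ v.toValuationSubring) : g ∈ v.toValuationSubring := by
  rcases (mem_riemannRochSpace_iff.mp hg) v with h0 | h0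
  · rw [h0]; exact zero_mem _
  · have hx := ord_nonneg_of_mem v hxv
    rw [Finsupp.smul_apply, hX v, nsmul_eq_mul, max_eq_left (by omega)] at h0
    exact mem_of_ord_nonneg v (by simpa using h0)

/-- For `g ∈ L(n • Xinf)`, the element `x⁻¹ ^ n * g` lies in the valuation ring of every place
containing `x⁻¹`. -/
theorem inv_pow_mul_mem_of_mem_riemannRochSpace {x g : F} (hx0 : x ≠ 0) {X : Divisor K F}
    (hX : IsPoleDivisor x X) (n : ℕ) (hg : g ∈ riemannRochSpace (n • X)) (v : Place K F)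
    (hxv : x⁻¹ ∈ v.toValuationSubring) : x⁻¹ ^ n * g ∈ v.toValuationSubring := by
  rcases (mem_riemannRochSpace_iff.mp hg) v with h0 | h0
  · rw [h0, mul_zero]; exact zero_mem _
  · by_cases hg0 : g = 0
    · rw [hg0, mul_zero]; exact zero_mem _
    have hx := ord_nonneg_of_mem v hxv
    rw [v.ord_inv] at hx
    rw [Finsupp.smul_apply, hX v, nsmul_eq_mul, max_eq_right (by omega)] at h0
    apply mem_of_ord_nonneg v
    rw [v.ord_mul (pow_ne_zero n (inv_ne_zero hx0)) hg0, ← zpow_natCast, v.ord_zpow, v.ord_inv]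
    linarith

/-- The hard direction of the chart dictionary, as a Prop on the pair `(K, F)` and the function
`x`: an element lying in the valuation ring of every place containing `x` is integral over
`K[x]`. -/
def ChartIntegral (K : Type*) {F : Type*} [Field K] [Field F] [Algebra K F] (x : F) : Prop :=
  ∀ g : F, (∀ v : Place K F, x ∈ v.toValuationSubring → g ∈ v.toValuationSubring) →
    IsIntegral (Algebra.adjoin K {x}) g

/-- (D1) hard direction, hypothesis-passing form: `g ∈ L(n • Xinf)` is integral over `K[x]`. -/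
theorem isIntegral_of_mem_riemannRochSpace {x g : F} {X : Divisor K F} (hX : IsPoleDivisor x X)
    (hC : ChartIntegral K x) (n : ℕ) (hg : g ∈ riemannRochSpace (n • X)) :
    IsIntegral (Algebra.adjoin K {x}) g :=
  hC g fun v hxv => mem_of_mem_riemannRochSpace hX n hg v hxv

/-- (D1) hard direction at infinity, hypothesis-passing form: for `g ∈ L(n • Xinf)` the element
`x⁻¹ ^ n * g` is integral over `K[x⁻¹]`. -/
theorem isIntegral_inv_pow_mul_of_mem_riemannRochSpace {x g : F} (hx0 : x ≠ 0)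
    {X : Divisor K F} (hX : IsPoleDivisor x X) (hC : ChartIntegral K x⁻¹) (n : ℕ)
    (hg : g ∈ riemannRochSpace (n • X)) :
    IsIntegral (Algebra.adjoin K {x⁻¹}) (x⁻¹ ^ n * g) :=
  hC _ fun v hxv => inv_pow_mul_mem_of_mem_riemannRochSpace hx0 hX n hg v hxv

/-- The two-chart dictionary: `L(n • Xinf)` is cut out by integrality over `K[x]` and
`K[x⁻¹]`. -/
theorem mem_riemannRochSpace_iff_isIntegral {x : F} (hx0 : x ≠ 0) {X : Divisor K F}
    (hX : IsPoleDivisor x X) (hC : ChartIntegral K x) (hC' : ChartIntegral K x⁻¹) (n : ℕ)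
    (g : F) :
    g ∈ riemannRochSpace (n • X) ↔
      IsIntegral (Algebra.adjoin K {x}) g ∧ IsIntegral (Algebra.adjoin K {x⁻¹}) (x⁻¹ ^ n * g) :=
  ⟨fun hg => ⟨isIntegral_of_mem_riemannRochSpace hX hC n hg,
      isIntegral_inv_pow_mul_of_mem_riemannRochSpace hx0 hX hC' n hg⟩,
    fun h => mem_riemannRochSpace_of_isIntegral hX n h.1 h.2⟩

section DedekindChart

variable {R : Type*} [CommRing R] [IsDedekindDomain R] [Algebra R F] [IsFractionRing R F]
  [Algebra K R] [IsScalarTower K R F]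

/-- An element lying in the valuation rings of all the places attached to the height-one primes
of a Dedekind chart `R` (fraction field `F`) lies in `R`. -/
theorem mem_range_of_forall_mem_ofHeightOneSpectrum {g : F}
    (hg : ∀ w : HeightOneSpectrum R,
      g ∈ (Place.ofHeightOneSpectrum (K := K) (F := F) w).toValuationSubring) :
    g ∈ (algebraMap R F).range := by
  refine HeightOneSpectrum.mem_integers_of_valuation_le_one F g fun w => ?_
  have h := hg w
  rwa [Place.ofHeightOneSpectrum_toValuationSubring, Valuation.mem_valuationSubring_iff] at h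

/-- (D1) for an abstract Dedekind chart: if `R` is a Dedekind domain with fraction field `F`,
containing `x` and integral over `K[x]`, then `ChartIntegral K x` holds.  Usable in any
characteristic. -/
theorem chartIntegral_of_dedekind {x : F} (hxR : x ∈ (algebraMap R F).range)
    (hR : ∀ r : R, IsIntegral (Algebra.adjoin K {x}) (algebraMap R F r)) :
    ChartIntegral K x := by
  intro g hg
  have h : g ∈ (algebraMap R F).range := by
    refine mem_range_of_forall_mem_ofHeightOneSpectrum (K := K) fun w => hg _ ?_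
    obtain ⟨r, rfl⟩ := hxR
    rw [Place.ofHeightOneSpectrum_toValuationSubring, Valuation.mem_valuationSubring_iff]
    exact w.valuation_le_one r
  obtain ⟨r, rfl⟩ := h
  exact hR r

end DedekindChart

section CharZero

open scoped IntermediateField.algebraAdjoinAdjoin

/-- (D1) in characteristic zero: for `F` finite over `K(x)`, `ChartIntegral K x` holds. -/
theorem chartIntegral_of_charZero [CharZero K] (x : F) [FiniteDimensional K⟮x⟯ F] :
    ChartIntegral K x := by
  refine chartIntegral_of_dedekind (K := K) (R := integralClosure (Algebra.adjoin K {x}) F)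
    ⟨⟨x, ?_⟩, rfl⟩ fun r => r.2
  exact isIntegral_algebraMap (R := Algebra.adjoin K {x}) (A := F)
    (x := ⟨x, Algebra.self_mem_adjoin_singleton K x⟩)

/-- (D1) in characteristic zero, chart at infinity. -/
theorem chartIntegral_inv_of_charZero [CharZero K] (x : F) [FiniteDimensional K⟮x⟯ F] :
    ChartIntegral K x⁻¹ := by
  have : FiniteDimensional K⟮x⁻¹⟯ F := finiteDimensional_adjoin_inv
  exact chartIntegral_of_charZero x⁻¹

/-- The two-chart dictionary in characteristic zero. -/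
theorem mem_riemannRochSpace_iff_isIntegral_of_charZero [CharZero K] {x : F} (hx0 : x ≠ 0)
    [FiniteDimensional K⟮x⟯ F] {X : Divisor K F} (hX : IsPoleDivisor x X) (n : ℕ) (g : F) :
    g ∈ riemannRochSpace (n • X) ↔
      IsIntegral (Algebra.adjoin K {x}) g ∧ IsIntegral (Algebra.adjoin K {x⁻¹}) (x⁻¹ ^ n * g) :=
  mem_riemannRochSpace_iff_isIntegral hx0 hX (chartIntegral_of_charZero x)
    (chartIntegral_inv_of_charZero x) n g

end CharZero

end Dictionary

section Reduction

variable {L F k Fk : Type*} [Field L] [Field F] [Algebra L F] [Field k] [Field Fk] [Algebra k Fk]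

/-- Integrality transfer along a "reduction" ring hom `red : O →+* Fk` for the chart `x`:
an element of `O` integral over `L[x]` has reduction integral over `k[xbar]`. -/
def IntegralityTransfer (L : Type*) {F : Type*} (k : Type*) {Fk : Type*} [Field L] [Field F]
    [Algebra L F] [Field k] [Field Fk] [Algebra k Fk] (O : ValuationSubring F) (red : O →+* Fk)
    (x : F) (xb : Fk) : Prop :=
  ∀ (g : F) (hg : g ∈ O), IsIntegral (Algebra.adjoin L {x}) g →
    IsIntegral (Algebra.adjoin k {xb}) (red ⟨g, hg⟩)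

theorem red_inv (O : ValuationSubring F) (red : O →+* Fk) {x : F} (hx0 : x ≠ 0) (hx : x ∈ O)
    (hxi : x⁻¹ ∈ O) : red ⟨x⁻¹, hxi⟩ = (red ⟨x, hx⟩)⁻¹ := by
  have h1 : (⟨x, hx⟩ * ⟨x⁻¹, hxi⟩ : O) = 1 := Subtype.ext (mul_inv_cancel₀ hx0)
  have h2 : red ⟨x, hx⟩ * red ⟨x⁻¹, hxi⟩ = 1 := by rw [← map_mul, h1, map_one]
  exact eq_inv_of_mul_eq_one_right h2

theorem red_ne_zero_of_unit (O : ValuationSubring F) (red : O →+* Fk) {x : F} (hx0 : x ≠ 0)
    (hx : x ∈ O) (hxi : x⁻¹ ∈ O) : red ⟨x, hx⟩ ≠ 0 := by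
  have h1 : (⟨x, hx⟩ * ⟨x⁻¹, hxi⟩ : O) = 1 := Subtype.ext (mul_inv_cancel₀ hx0)
  have h2 : red ⟨x, hx⟩ * red ⟨x⁻¹, hxi⟩ = 1 := by rw [← map_mul, h1, map_one]
  intro h
  rw [h, zero_mul] at h2
  exact zero_ne_one h2

/-- (RC) REDUCTION CONTAINMENT, hypothesis-passing form.
`O` a valuation subring of `F`, `red : O →+* Fk` a ring hom, `x` a unit of `O`, `X` the pole
divisor of `x` on `F`, `Xb` the pole divisor of `red x` on `Fk`.  If the chart dictionary holds on
`F` for `x` and `x⁻¹` and `red` transfers integrality on both charts, then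
`red (L(n • X) ∩ O) ⊆ L_k(n • Xb)`. -/
theorem red_mem_riemannRochSpace (O : ValuationSubring F) (red : O →+* Fk) {x : F} (hx0 : x ≠ 0)
    (hx : x ∈ O) (hxi : x⁻¹ ∈ O) {X : Divisor L F} (hX : IsPoleDivisor x X)
    {Xb : Divisor k Fk} (hXb : IsPoleDivisor (red ⟨x, hx⟩) Xb)
    (hC : ChartIntegral L x) (hC' : ChartIntegral L x⁻¹)
    (hIT : IntegralityTransfer L k O red x (red ⟨x, hx⟩))
    (hIT' : IntegralityTransfer L k O red x⁻¹ (red ⟨x, hx⟩)⁻¹)
    (n : ℕ) {f : F} (hf : f ∈ O) (hfL : f ∈ riemannRochSpace (n • X)) :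
    red ⟨f, hf⟩ ∈ riemannRochSpace (n • Xb) := by
  have h1 := isIntegral_of_mem_riemannRochSpace hX hC n hfL
  have h2 := isIntegral_inv_pow_mul_of_mem_riemannRochSpace hx0 hX hC' n hfL
  have hmem : x⁻¹ ^ n * f ∈ O := mul_mem (pow_mem hxi n) hf
  have h1b := hIT f hf h1
  have h2b := hIT' (x⁻¹ ^ n * f) hmem h2
  have hred : red ⟨x⁻¹ ^ n * f, hmem⟩ = (red ⟨x, hx⟩)⁻¹ ^ n * red ⟨f, hf⟩ := by
    have h3 : (⟨x⁻¹ ^ n * f, hmem⟩ : O) = ⟨x⁻¹, hxi⟩ ^ n * ⟨f, hf⟩ := Subtype.ext (by simp)
    rw [h3, map_mul, map_pow, red_inv O red hx0 hx hxi]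
  rw [hred] at h2b
  exact mem_riemannRochSpace_of_isIntegral hXb n h1b h2b

/-- (RC) in characteristic zero on the generic fibre: the chart dictionary is automatic for `F`
finite over `L(x)`. -/
theorem red_mem_riemannRochSpace_of_charZero [CharZero L] (O : ValuationSubring F)
    (red : O →+* Fk) {x : F} (hx0 : x ≠ 0) [FiniteDimensional L⟮x⟯ F]
    (hx : x ∈ O) (hxi : x⁻¹ ∈ O) {X : Divisor L F} (hX : IsPoleDivisor x X)
    {Xb : Divisor k Fk} (hXb : IsPoleDivisor (red ⟨x, hx⟩) Xb)
    (hIT : IntegralityTransfer L k O red x (red ⟨x, hx⟩))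
    (hIT' : IntegralityTransfer L k O red x⁻¹ (red ⟨x, hx⟩)⁻¹)
    (n : ℕ) {f : F} (hf : f ∈ O) (hfL : f ∈ riemannRochSpace (n • X)) :
    red ⟨f, hf⟩ ∈ riemannRochSpace (n • Xb) :=
  red_mem_riemannRochSpace O red hx0 hx hxi hX hXb (chartIntegral_of_charZero x)
    (chartIntegral_inv_of_charZero x) hIT hIT' n hf hfL

/-- (RC-tw) TWISTED REDUCTION CONTAINMENT, from (RC).
`u ∈ O` nonzero with `ord_P u = m * D0 P` for all places `P` of `F`, `red u = wb ^ m` with
`wb ≠ 0`, `m ≥ 1`.  Then for `f ∈ L(D0 + a • Xinf + b • X0) ∩ O`: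
`red f * wb ∈ L_k(a • Xinfbar + b • X0bar)`. -/
theorem red_mul_mem_riemannRochSpace_twisted (O : ValuationSubring F) (red : O →+* Fk) {x : F}
    (hx0 : x ≠ 0) (hx : x ∈ O) (hxi : x⁻¹ ∈ O)
    {X X0 : Divisor L F} (hX : IsPoleDivisor x X) (hX0 : IsZeroDivisor x X0)
    {Xb X0b : Divisor k Fk} (hXb : IsPoleDivisor (red ⟨x, hx⟩) Xb)
    (hX0b : IsZeroDivisor (red ⟨x, hx⟩) X0b)
    (hRC : ∀ (n : ℕ) (f : F) (hf : f ∈ O), f ∈ riemannRochSpace (n • X) →
      red ⟨f, hf⟩ ∈ riemannRochSpace (n • Xb))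
    {m : ℕ} (hm : 0 < m) {u : F} (hu : u ∈ O) (hu0 : u ≠ 0) {D0 : Divisor L F}
    (hD0 : ∀ P : Place L F, P.ord u = m * D0 P)
    {wb : Fk} (hwb : wb ≠ 0) (hred : red ⟨u, hu⟩ = wb ^ m)
    (a b : ℕ) {f : F} (hf : f ∈ O) (hfL : f ∈ riemannRochSpace (D0 + a • X + b • X0)) :
    red ⟨f, hf⟩ * wb ∈ riemannRochSpace (a • Xb + b • X0b) := by
  have hmZ : (0 : ℤ) < (m : ℤ) := by exact_mod_cast hm
  -- the auxiliary function `g = (x ^ b * f) ^ m * u`
  have hgO : (x ^ b * f) ^ m * u ∈ O := mul_mem (pow_mem (mul_mem (pow_mem hx b) hf) m) hu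
  have hgL : (x ^ b * f) ^ m * u ∈ riemannRochSpace ((m * (a + b)) • X) := by
    rw [mem_riemannRochSpace_iff]
    intro P
    by_cases hf0 : f = 0
    · left
      rw [hf0, mul_zero, zero_pow hm.ne', zero_mul]
    right
    have hxb : x ^ b ≠ 0 := pow_ne_zero b hx0
    have h1 : P.ord ((x ^ b * f) ^ m * u) = m * (b * P.ord x + P.ord f) + m * D0 P := by
      rw [P.ord_mul (pow_ne_zero m (mul_ne_zero hxb hf0)) hu0, ← zpow_natCast (x ^ b * f) m,
        P.ord_zpow, P.ord_mul hxb hf0, ← zpow_natCast x b, P.ord_zpow, hD0 P]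
    have h2 := (mem_riemannRochSpace_iff.mp hfL) P
    rcases h2 with h2 | h2
    · exact absurd h2 hf0
    rw [Finsupp.add_apply, Finsupp.add_apply, Finsupp.smul_apply, Finsupp.smul_apply,
      nsmul_eq_mul, nsmul_eq_mul] at h2
    rw [Finsupp.smul_apply, nsmul_eq_mul, h1, ord_eq_zero_sub_pole hX hX0 P]
    have key : (0 : ℤ) ≤ (m : ℤ) * (P.ord f + (D0 P + a * X P + b * X0 P)) :=
      mul_nonneg hmZ.le (by linarith)
    push_cast
    nlinarith [key]
  have hgb := hRC (m * (a + b)) _ hgO hgL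
  have hredg : red ⟨(x ^ b * f) ^ m * u, hgO⟩ =
      (red ⟨x, hx⟩ ^ b * red ⟨f, hf⟩ * wb) ^ m := by
    have h3 : (⟨(x ^ b * f) ^ m * u, hgO⟩ : O) = (⟨x, hx⟩ ^ b * ⟨f, hf⟩) ^ m * ⟨u, hu⟩ :=
      Subtype.ext (by simp)
    rw [h3, map_mul, map_pow, map_mul, map_pow, hred, ← mul_pow]
  rw [hredg] at hgb
  have hxb0 : red ⟨x, hx⟩ ≠ 0 := red_ne_zero_of_unit O red hx0 hx hxi
  rw [mem_riemannRochSpace_iff]
  intro Q
  by_cases hfb0 : red ⟨f, hf⟩ = 0
  · left
    rw [hfb0, zero_mul]
  right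
  have hxbb : red ⟨x, hx⟩ ^ b ≠ 0 := pow_ne_zero b hxb0
  have hne : red ⟨x, hx⟩ ^ b * red ⟨f, hf⟩ * wb ≠ 0 := mul_ne_zero (mul_ne_zero hxbb hfb0) hwb
  rcases (mem_riemannRochSpace_iff.mp hgb) Q with h4 | h4
  · exact absurd h4 (pow_ne_zero m hne)
  rw [Finsupp.smul_apply, nsmul_eq_mul, ← zpow_natCast (red ⟨x, hx⟩ ^ b * red ⟨f, hf⟩ * wb) m,
    Q.ord_zpow, mul_assoc, Q.ord_mul hxbb (mul_ne_zero hfb0 hwb), ← zpow_natCast (red ⟨x, hx⟩) b,
    Q.ord_zpow, ord_eq_zero_sub_pole hXb hX0b Q] at h4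
  rw [Finsupp.add_apply, Finsupp.smul_apply, Finsupp.smul_apply, nsmul_eq_mul, nsmul_eq_mul]
  push_cast at h4
  have h5 : (0 : ℤ) ≤ (m : ℤ) * ((b : ℤ) * (X0b Q - Xb Q) + Q.ord (red ⟨f, hf⟩ * wb)
      + ((a : ℤ) + b) * Xb Q) := by
    nlinarith [h4]
  have h6 := nonneg_of_mul_nonneg_right h5 hmZ
  linarith

end Reduction

end Fermat.Agent.S18.helper6292
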