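/-
S18 valued-field kit (helper1733): Gauss valuation, orthonormal families, cartesian subspaces,
integrality transfer.  Mathlib only; statement-agnostic.

Setting: `F` a field with a valuation `v : Valuation F Γ₀`, `M` a field with `Algebra M F`.
A family `u : ι → F` is `IsOrtho v M u` ("orthonormal over `M`") if `v (u k) ≤ 1` for all `k` and
every coefficient of a finite `M`-combination is bounded by the value of the combination.
-/
import Mathlib

set_option autoImplicit false

namespace Fermat.Agent.S18.helper1733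

open Polynomial

section Ortho

variable {F : Type*} [Field F] {Γ₀ : Type*} [LinearOrderedCommGroupWithZero Γ₀]
  (v : Valuation F Γ₀)

/-- Orthonormal family over a subfield: all members have value `≤ 1`, and every coefficient of a
finite combination is bounded by the value of the combination. -/
def IsOrtho (M : Type*) [Field M] [Algebra M F] {ι : Type*} (u : ι → F) : Prop :=
  (∀ k, v (u k) ≤ 1) ∧
    ∀ (s : Finset ι) (c : ι → M) (k : ι), k ∈ s →
      v (algebraMap M F (c k)) ≤ v (∑ i ∈ s, c i • u i)

variable {v}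
variable {M : Type*} [Field M] [Algebra M F] {ι : Type*} {u : ι → F}

theorem IsOrtho.le_one (h : IsOrtho v M u) (k : ι) : v (u k) ≤ 1 := h.1 k

theorem IsOrtho.coeff_le (h : IsOrtho v M u) (s : Finset ι) (c : ι → M) {k : ι} (hk : k ∈ s) :
    v (algebraMap M F (c k)) ≤ v (∑ i ∈ s, c i • u i) := h.2 s c k hk

theorem IsOrtho.map_eq_one (h : IsOrtho v M u) (k : ι) : v (u k) = 1 := by
  refine le_antisymm (h.1 k) ?_
  have := h.2 {k} (fun _ => 1) k (Finset.mem_singleton_self k)
  simpa using this

/-- Upper bound (ultrametric inequality): the value of a combination is at most any bound on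
the coefficients. -/
theorem IsOrtho.sum_le (h : IsOrtho v M u) (s : Finset ι) (c : ι → M) {g : Γ₀}
    (hg : ∀ i ∈ s, v (algebraMap M F (c i)) ≤ g) : v (∑ i ∈ s, c i • u i) ≤ g := by
  refine v.map_sum_le fun i hi => ?_
  rw [Algebra.smul_def, map_mul]
  calc v (algebraMap M F (c i)) * v (u i) ≤ g * 1 := mul_le_mul' (hg i hi) (h.1 i)
    _ = g := mul_one g

/-- The value of a combination is the value of one of its coefficients (the maximal one). -/
theorem IsOrtho.exists_eq (h : IsOrtho v M u) (s : Finset ι) (c : ι → M) (hs : s.Nonempty) :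
    ∃ k ∈ s, v (∑ i ∈ s, c i • u i) = v (algebraMap M F (c k)) ∧
      ∀ i ∈ s, v (algebraMap M F (c i)) ≤ v (algebraMap M F (c k)) := by
  obtain ⟨k, hk, hmax⟩ := s.exists_max_image (fun i => v (algebraMap M F (c i))) hs
  exact ⟨k, hk, le_antisymm (h.sum_le s c hmax) (h.coeff_le s c hk), hmax⟩

/-- Unit form: coefficients of value `≤ 1`, one of value `1`, give a combination of value `1`. -/
theorem IsOrtho.map_sum_eq_one (h : IsOrtho v M u) (s : Finset ι) (c : ι → M)
    (hc : ∀ i ∈ s, v (algebraMap M F (c i)) ≤ 1) {k : ι} (hk : k ∈ s)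
    (hk1 : v (algebraMap M F (c k)) = 1) : v (∑ i ∈ s, c i • u i) = 1 :=
  le_antisymm (h.sum_le s c hc) (hk1 ▸ h.coeff_le s c hk)

/-- Conversely, the unit form implies orthonormality (scaling by the maximal coefficient). -/
theorem isOrtho_of_unitForm
    (h : ∀ (s : Finset ι) (c : ι → M), (∀ i ∈ s, v (algebraMap M F (c i)) ≤ 1) →
      (∃ k ∈ s, v (algebraMap M F (c k)) = 1) → v (∑ i ∈ s, c i • u i) = 1) :
    IsOrtho v M u := by
  have hu1 : ∀ k, v (u k) = 1 := by
    intro k
    have := h {k} (fun _ => 1) (by simp) ⟨k, Finset.mem_singleton_self k, by simp⟩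
    simpa using this
  refine ⟨fun k => (hu1 k).le, fun s c k hk => ?_⟩
  obtain ⟨m, hm, hmax⟩ := s.exists_max_image (fun i => v (algebraMap M F (c i))) ⟨k, hk⟩
  by_cases hcm : c m = 0
  · have h0 : v (algebraMap M F (c k)) ≤ 0 := by
      have := hmax k hk
      simpa [hcm] using this
    exact h0.trans zero_le
  · have hvm : v (algebraMap M F (c m)) ≠ 0 := by
      rw [Valuation.ne_zero_iff]
      exact (map_ne_zero (algebraMap M F)).mpr hcm
    have key := h s (fun i => (c m)⁻¹ * c i)
      (fun i hi => by
        rw [map_mul, map_mul, map_inv₀, map_inv₀]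
        exact (inv_mul_le_one₀ (zero_lt_iff.mpr hvm)).mpr (hmax i hi))
      ⟨m, hm, by
        rw [inv_mul_cancel₀ hcm, map_one, map_one]⟩
    have hsum : ∑ i ∈ s, ((c m)⁻¹ * c i) • u i = (c m)⁻¹ • ∑ i ∈ s, c i • u i := by
      rw [Finset.smul_sum]
      exact Finset.sum_congr rfl fun i _ => by rw [mul_smul]
    rw [hsum, Algebra.smul_def, map_mul, map_inv₀, map_inv₀] at key
    have hval : v (∑ i ∈ s, c i • u i) = v (algebraMap M F (c m)) := by
      have := congrArg (fun t => v (algebraMap M F (c m)) * t) key
      simpa [mul_inv_cancel_left₀ hvm] using this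
    rw [hval]
    exact hmax k hk

/-- An orthonormal family is linearly independent. -/
theorem IsOrtho.linearIndependent (h : IsOrtho v M u) : LinearIndependent M u := by
  rw [linearIndependent_iff']
  intro s c hc i hi
  have := h.coeff_le s c hi
  rw [hc, map_zero] at this
  have h0 : v (algebraMap M F (c i)) = 0 := le_antisymm this zero_le
  rw [Valuation.zero_iff] at h0
  exact (map_eq_zero (algebraMap M F)).mp h0

/-- Finsupp form of the coefficient bound. -/
theorem IsOrtho.coeff_le_linearCombination (h : IsOrtho v M u) (c : ι →₀ M) (k : ι) :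
    v (algebraMap M F (c k)) ≤ v (Finsupp.linearCombination M u c) := by
  rw [Finsupp.linearCombination_apply, Finsupp.sum]
  by_cases hk : k ∈ c.support
  · exact h.coeff_le c.support c hk
  · rw [Finsupp.notMem_support_iff.mp hk, map_zero, map_zero]
    exact zero_le

/-- Multiplying an orthonormal family by an element of value one keeps it orthonormal. -/
theorem IsOrtho.mul_left (h : IsOrtho v M u) {γ : F} (hγ : v γ = 1) :
    IsOrtho v M (fun i => γ * u i) := by
  refine ⟨fun k => by rw [map_mul, hγ, one_mul]; exact h.1 k, fun s c k hk => ?_⟩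
  have hsum : ∑ i ∈ s, c i • (γ * u i) = γ * ∑ i ∈ s, c i • u i := by
    rw [Finset.mul_sum]
    exact Finset.sum_congr rfl fun i _ => by rw [mul_smul_comm]
  rw [hsum, map_mul, hγ, one_mul]
  exact h.coeff_le s c hk

/-- Fintype form of the coefficient bound. -/
theorem IsOrtho.coeff_le_univ [Fintype ι] (h : IsOrtho v M u) (c : ι → M) (k : ι) :
    v (algebraMap M F (c k)) ≤ v (∑ i, c i • u i) :=
  h.coeff_le Finset.univ c (Finset.mem_univ k)

end Ortho

section Elimination

variable {F : Type*} [Field F] {Γ₀ : Type*} [LinearOrderedCommGroupWithZero Γ₀]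
  {v : Valuation F Γ₀} {L : Type*} [Field L] [Algebra L F]

/-- Fintype form implies orthonormality. -/
theorem isOrtho_of_fintype {ι : Type*} [Fintype ι] {u : ι → F} (h1 : ∀ k, v (u k) ≤ 1)
    (h2 : ∀ (c : ι → L) (k : ι), v (algebraMap L F (c k)) ≤ v (∑ i, c i • u i)) :
    IsOrtho v L u := by
  classical
  refine ⟨h1, fun s c k hk => ?_⟩
  have := h2 (fun i => if i ∈ s then c i else 0) k
  rw [if_pos hk] at this
  refine this.trans (le_of_eq ?_)
  congr 1
  rw [← Finset.sum_subset (Finset.subset_univ s)]
  · exact Finset.sum_congr rfl fun i hi => by rw [if_pos hi]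
  · intro i _ hi
    rw [if_neg hi, zero_smul]

/-- **Max-pivot elimination.** A finite-dimensional subspace of the span of an orthonormal
family has an orthonormal basis. -/
theorem exists_isOrtho_of_le_span {κ : Type*} {u : κ → F} (hu : IsOrtho v L u) :
    ∀ (d : ℕ) (V : Submodule L F), V ≤ Submodule.span L (Set.range u) →
      FiniteDimensional L V → Module.finrank L V = d →
      ∃ e : Fin d → F, (∀ i, e i ∈ V) ∧ IsOrtho v L e ∧ Submodule.span L (Set.range e) = V := by
  classical
  intro d
  induction d with
  | zero =>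
    intro V _ hfd hV
    have hbot : V = ⊥ := Submodule.finrank_eq_zero.mp hV
    refine ⟨Fin.elim0, fun i => i.elim0, ⟨fun k => k.elim0, fun _ _ k _ => k.elim0⟩, ?_⟩
    rw [hbot]
    have : Set.range (Fin.elim0 : Fin 0 → F) = ∅ := Set.range_eq_empty _
    rw [this, Submodule.span_empty]
  | succ d ih =>
    intro V hVS hfd hV
    have hli := hu.linearIndependent
    have hVne : V ≠ ⊥ := by
      intro hbot
      rw [hbot, finrank_bot] at hV
      exact absurd hV (Nat.succ_ne_zero d).symm
    obtain ⟨w, hwV, hw0⟩ := Submodule.exists_mem_ne_zero_of_ne_bot hVne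
    set S := Submodule.span L (Set.range u) with hS
    set c := hli.repr ⟨w, hVS hwV⟩ with hc
    have hwc : Finsupp.linearCombination L u c = w := hli.linearCombination_repr ⟨w, hVS hwV⟩
    have hc0 : c ≠ 0 := by
      intro h0
      rw [h0, map_zero] at hwc
      exact hw0 hwc.symm
    obtain ⟨k0, hk0, hmax⟩ := c.support.exists_max_image (fun k => v (algebraMap L F (c k)))
      (Finsupp.support_nonempty_iff.mpr hc0)
    have ha0 : c k0 ≠ 0 := Finsupp.mem_support_iff.mp hk0
    have hva0 : v (algebraMap L F (c k0)) ≠ 0 := by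
      rw [Valuation.ne_zero_iff]
      exact (map_ne_zero (algebraMap L F)).mpr ha0
    -- the coordinate functional
    obtain ⟨ψ, hψ⟩ := LinearMap.exists_extend ((Finsupp.lapply k0).comp hli.repr)
    have hψS : ∀ (y : F) (hy : y ∈ S), ψ y = hli.repr ⟨y, hy⟩ k0 := by
      intro y hy
      have := LinearMap.congr_fun hψ ⟨y, hy⟩
      simpa using this
    have K1 : ∀ y ∈ S, v (algebraMap L F (ψ y)) ≤ v y := by
      intro y hy
      rw [hψS y hy]
      have := hu.coeff_le_linearCombination (hli.repr ⟨y, hy⟩) k0
      rwa [hli.linearCombination_repr ⟨y, hy⟩] at this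
    set e0 : F := (c k0)⁻¹ • w with he0
    have he0V : e0 ∈ V := V.smul_mem _ hwV
    have hψe0 : ψ e0 = 1 := by
      rw [he0, map_smul, hψS w (hVS hwV), smul_eq_mul, ← hc, inv_mul_cancel₀ ha0]
    have hve0 : v e0 ≤ 1 := by
      have hsum : e0 = ∑ k ∈ c.support, ((c k0)⁻¹ * c k) • u k := by
        rw [he0, ← hwc, Finsupp.linearCombination_apply, Finsupp.sum, Finset.smul_sum]
        exact Finset.sum_congr rfl fun k _ => by rw [mul_smul]
      rw [hsum]
      refine hu.sum_le _ _ fun k hk => ?_
      rw [map_mul, map_mul, map_inv₀, map_inv₀]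
      exact (inv_mul_le_one₀ (zero_lt_iff.mpr hva0)).mpr (hmax k hk)
    -- the complement
    set V' : Submodule L F := V ⊓ LinearMap.ker ψ with hV'
    have hV'V : V' ≤ V := inf_le_left
    have hfin' : Module.finrank L V' = d := by
      have hker : Submodule.map V.subtype (LinearMap.ker (ψ.domRestrict V)) = V' := by
        rw [LinearMap.ker_domRestrict, Submodule.map_comap_subtype]
      have hrange : LinearMap.range (ψ.domRestrict V) = ⊤ := by
        rw [LinearMap.range_eq_top]
        intro t
        refine ⟨⟨t • e0, V.smul_mem _ he0V⟩, ?_⟩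
        simp [LinearMap.domRestrict_apply, hψe0]
      have h1 := LinearMap.finrank_range_add_finrank_ker (ψ.domRestrict V)
      rw [hrange, finrank_top, Module.finrank_self, hV] at h1
      rw [← hker, Submodule.finrank_map_subtype_eq]
      omega
    obtain ⟨e', he'V, he'o, he'span⟩ := ih V' (hV'V.trans hVS) inferInstance hfin'
    have hψe' : ∀ i, ψ (e' i) = 0 := fun i => LinearMap.mem_ker.mp (he'V i).2
    refine ⟨Fin.cons e0 e', ?_, ?_, ?_⟩
    · intro i
      refine Fin.cases ?_ (fun j => ?_) i
      · simpa using he0V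
      · simpa using hV'V (he'V j)
    · refine isOrtho_of_fintype ?_ ?_
      · intro k
        refine Fin.cases ?_ (fun j => ?_) k
        · simpa using hve0
        · simpa using he'o.le_one j
      · intro c' k
        set y' : F := ∑ i : Fin d, c' i.succ • e' i with hy'
        have hy : ∑ i, c' i • (Fin.cons e0 e' : Fin (d + 1) → F) i = c' 0 • e0 + y' := by
          rw [Fin.sum_univ_succ]
          simp [hy']
        rw [hy]
        have hy'V' : y' ∈ V' := Submodule.sum_mem _ fun i _ => V'.smul_mem _ (he'V i)
        have hyV : c' 0 • e0 + y' ∈ V := V.add_mem (V.smul_mem _ he0V) (hV'V hy'V')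
        have hψy : ψ (c' 0 • e0 + y') = c' 0 := by
          rw [map_add, map_smul, hψe0, LinearMap.mem_ker.mp hy'V'.2]
          simp
        have h0 : v (algebraMap L F (c' 0)) ≤ v (c' 0 • e0 + y') := by
          have := K1 _ (hVS hyV)
          rwa [hψy] at this
        have hy'le : v y' ≤ v (c' 0 • e0 + y') := by
          have hsub : y' = (c' 0 • e0 + y') - c' 0 • e0 := by ring
          have hsm0 : v (c' 0 • e0) ≤ v (algebraMap L F (c' 0)) := by
            rw [Algebra.smul_def, map_mul]
            calc v (algebraMap L F (c' 0)) * v e0 ≤ v (algebraMap L F (c' 0)) * 1 :=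
                  mul_le_mul' le_rfl hve0
              _ = v (algebraMap L F (c' 0)) := mul_one _
          have hsm : v (c' 0 • e0) ≤ v (c' 0 • e0 + y') := hsm0.trans h0
          calc v y' = v ((c' 0 • e0 + y') - c' 0 • e0) := congrArg v hsub
            _ ≤ v (c' 0 • e0 + y') := v.map_sub_le le_rfl hsm
        refine Fin.cases ?_ (fun j => ?_) k
        · exact h0
        · exact (he'o.coeff_le_univ (fun i => c' i.succ) j).trans hy'le
    · rw [Fin.range_cons, Submodule.span_insert, he'span]
      apply le_antisymm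
      · exact sup_le ((Submodule.span_singleton_le_iff_mem _ _).mpr he0V) hV'V
      · intro y hyV
        have hdecomp : y = ψ y • e0 + (y - ψ y • e0) := by ring
        rw [hdecomp]
        have hker : y - ψ y • e0 ∈ LinearMap.ker ψ := by
          rw [LinearMap.mem_ker, map_sub, map_smul, hψe0]
          simp
        exact Submodule.add_mem_sup (Submodule.smul_mem _ _ (Submodule.mem_span_singleton_self _))
          (Submodule.mem_inf.mpr ⟨V.sub_mem hyV (V.smul_mem _ he0V), hker⟩)

end Elimination

section Gauss

variable {F : Type*} [Field F] {Γ₀ : Type*} [LinearOrderedCommGroupWithZero Γ₀]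
  (v : Valuation F Γ₀) (L : Type*) [Field L] [Algebra L F]

/-- Valuation form of "`v x = 1` and the residue of `x` is transcendental over the residue field
of `L`": a polynomial with coefficients of value `≤ 1`, one of them of value `1`, takes a value
of valuation `1` at `x`. -/
def ResTranscendental (x : F) : Prop :=
  ∀ p : L[X], (∀ i, v (algebraMap L F (p.coeff i)) ≤ 1) →
    (∃ i, v (algebraMap L F (p.coeff i)) = 1) → v (aeval x p) = 1

variable {v L} {x : F}

/-- **Gauss.** The powers of `x` are orthonormal over `L`. -/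
theorem ResTranscendental.isOrtho_pow (hx : ResTranscendental v L x) :
    IsOrtho v L (fun j : ℕ => x ^ j) := by
  classical
  refine isOrtho_of_unitForm fun s c hc hk => ?_
  obtain ⟨k, hk, hk1⟩ := hk
  set p : L[X] := ∑ i ∈ s, C (c i) * X ^ i with hp
  have hcoeff : ∀ j, p.coeff j = if j ∈ s then c j else 0 := by
    intro j
    rw [hp, finsetSum_coeff]
    simp only [coeff_C_mul_X_pow]
    rw [Finset.sum_ite_eq s j]
  have haeval : aeval x p = ∑ i ∈ s, c i • x ^ i := by
    rw [hp, map_sum]
    refine Finset.sum_congr rfl fun i _ => ?_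
    rw [map_mul, aeval_C, map_pow, aeval_X, Algebra.smul_def]
  rw [← haeval]
  refine hx p (fun j => ?_) ⟨k, ?_⟩
  · rw [hcoeff]
    split_ifs with hj
    · exact hc j hj
    · simp
  · rw [hcoeff, if_pos hk, hk1]

theorem isOrtho_pow_iff : IsOrtho v L (fun j : ℕ => x ^ j) ↔ ResTranscendental v L x := by
  refine ⟨fun h p hp1 hp2 => ?_, ResTranscendental.isOrtho_pow⟩
  obtain ⟨k, hk⟩ := hp2
  rw [aeval_eq_sum_range]
  have hk' : k ∈ Finset.range (p.natDegree + 1) := by
    rw [Finset.mem_range, Nat.lt_succ_iff]
    refine le_natDegree_of_ne_zero fun h0 => ?_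
    rw [h0, map_zero, map_zero] at hk
    exact zero_ne_one hk
  exact h.map_sum_eq_one _ p.coeff (fun i _ => hp1 i) hk' hk

theorem ResTranscendental.map_eq_one (hx : ResTranscendental v L x) : v x = 1 := by
  have := hx.isOrtho_pow.map_eq_one 1
  simpa using this

/-- Gauss formula: the value of `p(x)` is the maximal value of a coefficient of `p`. -/
theorem ResTranscendental.exists_coeff_eq (hx : ResTranscendental v L x) (p : L[X]) :
    ∃ k, v (aeval x p) = v (algebraMap L F (p.coeff k)) ∧
      ∀ i, v (algebraMap L F (p.coeff i)) ≤ v (algebraMap L F (p.coeff k)) := by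
  obtain ⟨k, -, hk, hmax⟩ := hx.isOrtho_pow.exists_eq (Finset.range (p.natDegree + 1)) p.coeff
    ⟨0, by simp⟩
  refine ⟨k, by rw [aeval_eq_sum_range]; exact hk, fun i => ?_⟩
  by_cases hi : i ∈ Finset.range (p.natDegree + 1)
  · exact hmax i hi
  · rw [Finset.mem_range, Nat.lt_succ_iff, not_le] at hi
    rw [coeff_eq_zero_of_natDegree_lt hi, map_zero, map_zero]
    exact zero_le

theorem ResTranscendental.coeff_le (hx : ResTranscendental v L x) (p : L[X]) (i : ℕ) :
    v (algebraMap L F (p.coeff i)) ≤ v (aeval x p) := by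
  obtain ⟨k, hk, hmax⟩ := hx.exists_coeff_eq p
  rw [hk]
  exact hmax i

theorem ResTranscendental.aeval_ne_zero (hx : ResTranscendental v L x) {p : L[X]} (hp : p ≠ 0) :
    aeval x p ≠ 0 := by
  intro h0
  obtain ⟨i, hi⟩ : ∃ i, p.coeff i ≠ 0 := by
    by_contra hcon
    push Not at hcon
    exact hp (Polynomial.ext fun i => by simpa using hcon i)
  have := hx.coeff_le p i
  rw [h0, map_zero] at this
  have h0' : v (algebraMap L F (p.coeff i)) = 0 := le_antisymm this zero_le
  rw [Valuation.zero_iff] at h0'
  exact hi ((map_eq_zero (algebraMap L F)).mp h0')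

theorem ResTranscendental.transcendental (hx : ResTranscendental v L x) : Transcendental L x := by
  intro halg
  obtain ⟨p, hp0, hp⟩ := halg
  exact hx.aeval_ne_zero hp0 hp

/-- A polynomial expression in `x` of value `≤ 1` has all coefficients of value `≤ 1`. -/
theorem ResTranscendental.coeff_le_one (hx : ResTranscendental v L x) {p : L[X]}
    (hp : v (aeval x p) ≤ 1) (i : ℕ) : v (algebraMap L F (p.coeff i)) ≤ 1 :=
  (hx.coeff_le p i).trans hp

/-- Normalisation: a nonzero polynomial expression in `x` is a constant times an element of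
value one. -/
theorem ResTranscendental.exists_smul_eq_one (hx : ResTranscendental v L x) {p : L[X]}
    (hp : p ≠ 0) : ∃ a : L, a ≠ 0 ∧ v (a • aeval x p) = 1 := by
  obtain ⟨k, hk, -⟩ := hx.exists_coeff_eq p
  have hne : v (aeval x p) ≠ 0 := (Valuation.ne_zero_iff _).mpr (hx.aeval_ne_zero hp)
  have hck : p.coeff k ≠ 0 := by
    intro h0
    rw [h0, map_zero, map_zero] at hk
    exact hne hk
  refine ⟨(p.coeff k)⁻¹, inv_ne_zero hck, ?_⟩
  rw [Algebra.smul_def, map_mul, map_inv₀, map_inv₀, ← hk]
  exact inv_mul_cancel₀ hne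

/-- The value group of `L(x)` equals the value group of `L`. -/
theorem ResTranscendental.exists_map_eq_of_mem_adjoin (hx : ResTranscendental v L x) {g : F}
    (hg : g ∈ IntermediateField.adjoin L {x}) : ∃ a : L, v g = v (algebraMap L F a) := by
  obtain ⟨r, s, rfl⟩ := (IntermediateField.mem_adjoin_simple_iff L g).mp hg
  obtain ⟨k, hk, -⟩ := hx.exists_coeff_eq r
  obtain ⟨m, hm, -⟩ := hx.exists_coeff_eq s
  exact ⟨r.coeff k / s.coeff m, by rw [map_div₀, map_div₀, map_div₀, hk, hm]⟩

/-- The double family `x ^ j * b i` is orthonormal over `L` when `b` is orthonormal over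
`L(x)`. -/
theorem ResTranscendental.isOrtho_pow_mul (hx : ResTranscendental v L x) {ι : Type*}
    {b : ι → F} (hb : IsOrtho v (IntermediateField.adjoin L {x}) b) :
    IsOrtho v L (fun p : ℕ × ι => x ^ p.1 * b p.2) := by
  classical
  refine ⟨fun p => ?_, fun s c k hk => ?_⟩
  · rw [map_mul, map_pow, hx.map_eq_one, one_pow, one_mul]
    exact hb.le_one _
  · set gen : IntermediateField.adjoin L {x} := IntermediateField.AdjoinSimple.gen L x with hgen
    have hgenx : (gen : F) = x := IntermediateField.AdjoinSimple.coe_gen L x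
    set g : ι → IntermediateField.adjoin L {x} :=
      fun i => ∑ p ∈ s.filter (fun p => p.2 = i), c p • gen ^ p.1 with hg
    have hgcoe : ∀ i, ((g i : IntermediateField.adjoin L {x}) : F)
        = ∑ p ∈ s.filter (fun p => p.2 = i), c p • x ^ p.1 := by
      intro i
      rw [hg]
      simp only [AddSubmonoidClass.coe_finsetSum, IntermediateField.coe_smul,
        IntermediateField.coe_pow, hgenx]
    have hy : ∑ p ∈ s, c p • (x ^ p.1 * b p.2) = ∑ i ∈ s.image Prod.snd, g i • b i := by
      rw [← Finset.sum_fiberwise_of_maps_to (g := Prod.snd) (t := s.image Prod.snd)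
        (fun p hp => Finset.mem_image_of_mem _ hp)]
      refine Finset.sum_congr rfl fun i _ => ?_
      have : g i • b i = ((g i : IntermediateField.adjoin L {x}) : F) * b i := rfl
      rw [this, hgcoe, Finset.sum_mul]
      refine Finset.sum_congr rfl fun p hp => ?_
      rw [(Finset.mem_filter.mp hp).2, smul_mul_assoc]
    rw [hy]
    have h1 := hb.coeff_le (s.image Prod.snd) g (Finset.mem_image_of_mem _ hk)
    refine le_trans ?_ h1
    have hcoe : algebraMap (IntermediateField.adjoin L {x}) F (g k.2)
        = ((g k.2 : IntermediateField.adjoin L {x}) : F) := rfl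
    rw [hcoe, hgcoe]
    have hinj : Set.InjOn Prod.fst (s.filter (fun p => p.2 = k.2) : Set (ℕ × ι)) := by
      intro p hp q hq hpq
      have hp2 := (Finset.mem_filter.mp hp).2
      have hq2 := (Finset.mem_filter.mp hq).2
      exact Prod.ext hpq (hp2.trans hq2.symm)
    have hre : ∑ p ∈ s.filter (fun p => p.2 = k.2), c p • x ^ p.1
        = ∑ j ∈ (s.filter (fun p => p.2 = k.2)).image Prod.fst, c (j, k.2) • x ^ j := by
      rw [Finset.sum_image hinj]
      refine Finset.sum_congr rfl fun p hp => ?_
      have hp2 := (Finset.mem_filter.mp hp).2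
      rw [← hp2]
    rw [hre]
    have hk' : k.1 ∈ (s.filter (fun p => p.2 = k.2)).image Prod.fst :=
      Finset.mem_image_of_mem _ (Finset.mem_filter.mpr ⟨hk, rfl⟩)
    exact hx.isOrtho_pow.coeff_le _ (fun j => c (j, k.2)) hk'

end Gauss

section Cartesian

variable {F : Type*} [Field F] {Γ₀ : Type*} [LinearOrderedCommGroupWithZero Γ₀]
  {v : Valuation F Γ₀} {L : Type*} [Field L] [Algebra L F] {x : F} {ι : Type*} {b : ι → F}

/-- The `L`-span of the double family `x ^ j * b i`. -/
def polySpan (L : Type*) [Field L] [Algebra L F] (x : F) (b : ι → F) : Submodule L F :=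
  Submodule.span L (Set.range fun p : ℕ × ι => x ^ p.1 * b p.2)

theorem mul_mem_polySpan {y : F} (hy : y ∈ polySpan L x b) : x * y ∈ polySpan L x b := by
  induction hy using Submodule.span_induction with
  | mem z hz =>
    obtain ⟨p, rfl⟩ := hz
    refine Submodule.subset_span ⟨(p.1 + 1, p.2), ?_⟩
    simp only
    ring
  | zero => simp
  | add z w _ _ hz hw => rw [mul_add]; exact Submodule.add_mem _ hz hw
  | smul a z _ hz => rw [mul_smul_comm]; exact Submodule.smul_mem _ a hz

theorem pow_mul_mem_polySpan (n : ℕ) {y : F} (hy : y ∈ polySpan L x b) :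
    x ^ n * y ∈ polySpan L x b := by
  induction n with
  | zero => simpa using hy
  | succ n ih => rw [pow_succ', mul_assoc]; exact mul_mem_polySpan ih

theorem aeval_mul_mem_polySpan (r : L[X]) {y : F} (hy : y ∈ polySpan L x b) :
    aeval x r * y ∈ polySpan L x b := by
  rw [aeval_eq_sum_range, Finset.sum_mul]
  refine Submodule.sum_mem _ fun i _ => ?_
  rw [smul_mul_assoc]
  exact Submodule.smul_mem _ _ (pow_mul_mem_polySpan i hy)

/-- Common denominators: every element of `F` is carried into the polynomial span by a nonzero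
polynomial expression in `x`. -/
theorem exists_aeval_mul_mem_polySpan
    (hspan : Submodule.span (IntermediateField.adjoin L {x}) (Set.range b) = ⊤) (w : F) :
    ∃ q : L[X], aeval x q ≠ 0 ∧ aeval x q * w ∈ polySpan L x b := by
  have hw : w ∈ Submodule.span (IntermediateField.adjoin L {x}) (Set.range b) := by
    rw [hspan]; exact Submodule.mem_top
  induction hw using Submodule.span_induction with
  | mem z hz =>
    obtain ⟨i, rfl⟩ := hz
    refine ⟨1, by simp, ?_⟩
    rw [map_one, one_mul]
    exact Submodule.subset_span ⟨(0, i), by simp⟩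
  | zero => exact ⟨1, by simp, by simp⟩
  | add z w _ _ hz hw =>
    obtain ⟨q1, h1, h1'⟩ := hz
    obtain ⟨q2, h2, h2'⟩ := hw
    refine ⟨q1 * q2, by rw [map_mul]; exact mul_ne_zero h1 h2, ?_⟩
    have : aeval x (q1 * q2) * (z + w)
        = aeval x q2 * (aeval x q1 * z) + aeval x q1 * (aeval x q2 * w) := by
      rw [map_mul]; ring
    rw [this]
    exact Submodule.add_mem _ (aeval_mul_mem_polySpan q2 h1') (aeval_mul_mem_polySpan q1 h2')
  | smul g z _ hz =>
    obtain ⟨q, hq, hq'⟩ := hz
    obtain ⟨r, s, hrs⟩ := (IntermediateField.mem_adjoin_simple_iff L (g : F)).mp g.2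
    have hsmul : g • z = (g : F) * z := rfl
    by_cases hs : aeval x s = 0
    · refine ⟨1, by simp, ?_⟩
      rw [hsmul, hrs, hs, div_zero, zero_mul, mul_zero]
      exact Submodule.zero_mem _
    · refine ⟨s * q, by rw [map_mul]; exact mul_ne_zero hs hq, ?_⟩
      have : aeval x (s * q) * (g • z) = aeval x r * (aeval x q * z) := by
        rw [hsmul, hrs, map_mul]
        field_simp
      rw [this]
      exact aeval_mul_mem_polySpan r hq'

/-- **Cartesian subspaces.** If `x` is residually transcendental over `L` and `F` has an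
orthonormal spanning family over `L(x)`, then every finite-dimensional `L`-subspace of `F` has an
orthonormal `L`-basis. -/
theorem exists_isOrtho_basis (hx : ResTranscendental v L x)
    (hb : IsOrtho v (IntermediateField.adjoin L {x}) b)
    (hspan : Submodule.span (IntermediateField.adjoin L {x}) (Set.range b) = ⊤)
    (V : Submodule L F) [FiniteDimensional L V] :
    ∃ e : Fin (Module.finrank L V) → F,
      (∀ i, e i ∈ V) ∧ IsOrtho v L e ∧ Submodule.span L (Set.range e) = V := by
  classical
  -- a common denominator for a finite generating set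
  obtain ⟨t, ht⟩ : V.FG := (Submodule.fg_iff_finiteDimensional V).mpr inferInstance
  choose q hq0 hqP using exists_aeval_mul_mem_polySpan (L := L) (x := x) (b := b) hspan
  set Q : L[X] := ∏ w ∈ t, q w with hQ
  have hQ0 : aeval x Q ≠ 0 := by
    rw [hQ, map_prod]
    exact Finset.prod_ne_zero_iff.mpr fun w _ => hq0 w
  have hQne : Q ≠ 0 := fun h => hQ0 (by rw [h, map_zero])
  have hQt : ∀ w ∈ t, aeval x Q * w ∈ polySpan L x b := by
    intro w hw
    have : Q = (∏ w' ∈ t.erase w, q w') * q w := by
      rw [hQ, Finset.prod_erase_mul t q hw]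
    rw [this, map_mul, mul_assoc]
    exact aeval_mul_mem_polySpan _ (hqP w)
  obtain ⟨a, ha0, ha1⟩ := hx.exists_smul_eq_one hQne
  set γ : F := a • aeval x Q with hγ
  have hγ0 : γ ≠ 0 := by
    intro h0
    rw [h0, map_zero] at ha1
    exact zero_ne_one ha1
  have hγV : ∀ y ∈ V, γ * y ∈ polySpan L x b := by
    intro y hy
    rw [← ht] at hy
    induction hy using Submodule.span_induction with
    | mem z hz =>
      rw [hγ, smul_mul_assoc]
      exact Submodule.smul_mem _ _ (hQt z hz)
    | zero => simp
    | add z w _ _ hz hw => rw [mul_add]; exact Submodule.add_mem _ hz hw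
    | smul c z _ hz => rw [mul_smul_comm]; exact Submodule.smul_mem _ c hz
  -- transport V into the polynomial span
  set mγ : F →ₗ[L] F := LinearMap.mulLeft L γ with hmγ
  have hmγinj : Function.Injective mγ := fun y z hyz => mul_left_cancel₀ hγ0 hyz
  set V1 : Submodule L F := V.map mγ with hV1
  have hV1le : V1 ≤ Submodule.span L (Set.range fun p : ℕ × ι => x ^ p.1 * b p.2) := by
    rintro _ ⟨y, hy, rfl⟩
    exact hγV y hy
  have eqv : V ≃ₗ[L] V1 := Submodule.equivMapOfInjective mγ hmγinj V
  have : FiniteDimensional L V1 := LinearEquiv.finiteDimensional eqv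
  obtain ⟨e1, he1V, he1o, he1span⟩ := exists_isOrtho_of_le_span (hx.isOrtho_pow_mul hb)
    (Module.finrank L V) V1 hV1le inferInstance eqv.finrank_eq.symm
  have hγinv : v γ⁻¹ = 1 := by rw [map_inv₀, ha1, inv_one]
  refine ⟨fun i => γ⁻¹ * e1 i, fun i => ?_, he1o.mul_left hγinv, ?_⟩
  · obtain ⟨y, hy, hy'⟩ := he1V i
    have : γ⁻¹ * e1 i = y := by
      rw [← hy']
      show γ⁻¹ * (γ * y) = y
      rw [inv_mul_cancel_left₀ hγ0]
    show γ⁻¹ * e1 i ∈ V
    rw [this]
    exact hy
  · have hrange : (Set.range fun i => γ⁻¹ * e1 i) = LinearMap.mulLeft L γ⁻¹ '' Set.range e1 := by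
      rw [← Set.range_comp]
      rfl
    rw [hrange, ← Submodule.map_span, he1span, hV1, ← Submodule.map_comp]
    have : (LinearMap.mulLeft L γ⁻¹).comp mγ = LinearMap.id := by
      ext y
      simp [hmγ, inv_mul_cancel_left₀ hγ0]
    rw [this, Submodule.map_id]

/-- Consequence of an orthonormal basis: elements of value `≤ 1` have coordinates of value
`≤ 1`. -/
theorem IsOrtho.exists_coeff_le_one {n : ℕ} {e : Fin n → F} (he : IsOrtho v L e) {y : F}
    (hy : y ∈ Submodule.span L (Set.range e)) (hy1 : v y ≤ 1) :
    ∃ a : Fin n → L, (∀ i, v (algebraMap L F (a i)) ≤ 1) ∧ y = ∑ i, a i • e i := by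
  obtain ⟨a, rfl⟩ := (Submodule.mem_span_range_iff_exists_fun L).mp hy
  exact ⟨a, fun i => (he.coeff_le_univ a i).trans hy1, rfl⟩

/-- The value group of `F` equals the value group of `L` (in the cartesian situation). -/
theorem exists_map_eq_algebraMap (hx : ResTranscendental v L x)
    (hb : IsOrtho v (IntermediateField.adjoin L {x}) b)
    (hspan : Submodule.span (IntermediateField.adjoin L {x}) (Set.range b) = ⊤) (y : F) :
    ∃ a : L, v y = v (algebraMap L F a) := by
  classical
  have hy : y ∈ Submodule.span (IntermediateField.adjoin L {x}) (Set.range b) := by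
    rw [hspan]; exact Submodule.mem_top
  obtain ⟨c, hc⟩ := (Finsupp.mem_span_range_iff_exists_finsupp).mp hy
  by_cases hs : c.support.Nonempty
  · obtain ⟨k, -, hk, -⟩ := hb.exists_eq c.support c hs
    obtain ⟨a, ha⟩ := hx.exists_map_eq_of_mem_adjoin (c k).2
    refine ⟨a, ?_⟩
    rw [← hc, Finsupp.sum, hk, ← ha]
    rfl
  · rw [Finset.not_nonempty_iff_eq_empty] at hs
    refine ⟨0, ?_⟩
    rw [← hc, Finsupp.sum, hs, Finset.sum_empty, map_zero, map_zero, map_zero]

end Cartesian

section Integrality

open scoped IntermediateField.algebraAdjoinAdjoin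

variable {F : Type*} [Field F] {Γ₀ : Type*} [LinearOrderedCommGroupWithZero Γ₀]
  {v : Valuation F Γ₀}

/-- In an orthonormal basis, the matrix of multiplication by an element of value `≤ 1` has
entries of value `≤ 1`. -/
theorem IsOrtho.leftMulMatrix_le_one {M : Type*} [Field M] [Algebra M F] {ι : Type*} [Fintype ι]
    [DecidableEq ι] (bb : Module.Basis ι M F) (hb : IsOrtho v M bb) {f : F} (hf : v f ≤ 1)
    (i j : ι) : v (algebraMap M F (Algebra.leftMulMatrix bb f i j)) ≤ 1 := by
  rw [Algebra.leftMulMatrix_eq_repr_mul]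
  have h := hb.coeff_le_univ (fun i => bb.repr (f * bb j) i) i
  rw [bb.sum_repr] at h
  refine h.trans ?_
  rw [map_mul]
  calc v f * v (bb j) ≤ 1 * 1 := mul_le_mul' hf (hb.le_one j)
    _ = 1 := mul_one 1

/-- If `F` has an orthonormal basis over `M`, the minimal polynomial over `M` of an element of
value `≤ 1` has coefficients of value `≤ 1`. -/
theorem IsOrtho.minpoly_coeff_le_one {M : Type*} [Field M] [Algebra M F] {ι : Type*} [Fintype ι]
    (bb : Module.Basis ι M F) (hb : IsOrtho v M bb) {f : F} (hf : v f ≤ 1) (n : ℕ) :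
    v (algebraMap M F ((minpoly M f).coeff n)) ≤ 1 := by
  classical
  set w : Valuation M Γ₀ := v.comap (algebraMap M F) with hw
  set O : ValuationSubring M := w.valuationSubring with hO
  have hfin : Module.Finite M F := Module.Finite.of_basis bb
  have hint : IsIntegral M f := IsIntegral.of_finite M f
  set A0 : Matrix ι ι M := Algebra.leftMulMatrix bb f with hA0
  have hA0O : ∀ i j, A0 i j ∈ O := fun i j =>
    (Valuation.mem_valuationSubring_iff w _).mpr (hb.leftMulMatrix_le_one bb hf i j)
  set N : Matrix ι ι O := fun i j => ⟨A0 i j, hA0O i j⟩ with hN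
  have hNmap : N.map (algebraMap O M) = A0 := by
    ext i j
    rfl
  have hchar : N.charpoly.map (algebraMap O M) = A0.charpoly := by
    rw [← hNmap, Matrix.charpoly_map]
  have hroot : aeval f A0.charpoly = 0 := by
    apply Algebra.leftMulMatrix_injective bb
    rw [← aeval_algHom_apply, map_zero]
    exact Matrix.aeval_self_charpoly _
  have hdvd : minpoly M f ∣ N.charpoly.map (algebraMap O M) := by
    rw [hchar]
    exact minpoly.dvd M f hroot
  obtain ⟨g, hg⟩ := IsIntegrallyClosed.eq_map_mul_C_of_dvd M (Matrix.charpoly_monic N) hdvd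
  rw [(minpoly.monic hint).leadingCoeff, map_one, mul_one] at hg
  rw [← hg, coeff_map]
  exact (Valuation.mem_valuationSubring_iff w _).mp (g.coeff n).2

variable {L : Type*} [Field L] [Algebra L F] {x : F}

/-- **Integrality transfer.** If `x` is residually transcendental over `L`, `F` has an orthonormal
basis over `L(x)`, and `f` is integral over `L[x]` with `v f ≤ 1`, then `f` is a root of a monic
polynomial `P(x, T)` where `P ∈ L[X][T]` has all coefficients of value `≤ 1`. -/
theorem exists_monic_of_isIntegral (hx : ResTranscendental v L x) {ι : Type*} [Fintype ι]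
    (bb : Module.Basis ι (IntermediateField.adjoin L {x}) F)
    (hb : IsOrtho v (IntermediateField.adjoin L {x}) bb) {f : F}
    (hfi : IsIntegral (Algebra.adjoin L {x}) f) (hf1 : v f ≤ 1) :
    ∃ P : L[X][X], P.Monic ∧ (∀ i j, v (algebraMap L F ((P.coeff i).coeff j)) ≤ 1) ∧
      (P.map ((aeval x : L[X] →ₐ[L] F) : L[X] →+* F)).eval f = 0 := by
  classical
  set e := Polynomial.algEquivOfTranscendental L x hx.transcendental with he
  have : IsIntegrallyClosed (Algebra.adjoin L {x}) := IsIntegrallyClosed.of_equiv e.toRingEquiv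
  have hmin := minpoly.isIntegrallyClosed_eq_field_fractions'
    (IntermediateField.adjoin L {x}) hfi
  have hcoe : ∀ r : Algebra.adjoin L {x}, aeval x (e.symm r) = (r : F) := by
    intro r
    have h1 : e (e.symm r) = r := e.apply_symm_apply r
    have h2 : ((e (e.symm r) : Algebra.adjoin L {x}) : F) = aeval x (e.symm r) := by
      rw [he, Polynomial.algEquivOfTranscendental_apply]
      rw [← Subalgebra.coe_val, ← aeval_algHom_apply]
      rfl
    rw [← h2, h1]
  refine ⟨(minpoly (Algebra.adjoin L {x}) f).map (e.symm : Algebra.adjoin L {x} →+* L[X]),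
    (minpoly.monic hfi).map _, fun i j => ?_, ?_⟩
  · rw [coeff_map]
    refine hx.coeff_le_one ?_ j
    have h3 : aeval x ((e.symm : Algebra.adjoin L {x} →+* L[X])
        ((minpoly (Algebra.adjoin L {x}) f).coeff i))
        = algebraMap (IntermediateField.adjoin L {x}) F
          ((minpoly (IntermediateField.adjoin L {x}) f).coeff i) := by
      rw [hmin, coeff_map]
      exact hcoe _
    rw [h3]
    exact hb.minpoly_coeff_le_one bb hf1 i
  · rw [eval_map, eval₂_map]
    have hcomp : (((aeval x : L[X] →ₐ[L] F) : L[X] →+* F)).comp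
        (e.symm : Algebra.adjoin L {x} →+* L[X]) = algebraMap (Algebra.adjoin L {x}) F := by
      ext r
      exact hcoe r
    rw [hcomp]
    exact minpoly.aeval (Algebra.adjoin L {x}) f

/-- **Integrality transfer, residue form.**  Model-agnostic: `OO → F` is any injective ring hom
whose image contains `x` and `f` (e.g. the inclusion of a valuation subring of `F`), `AA → L` any
ring hom whose image contains all elements of `L` of value `≤ 1` (e.g. the valuation subring of
`L`), `j : AA → OO` compatible with `L → F`, and `red : OO → Fk`, `res : AA → k` are compatible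
"reduction" homomorphisms.  If `f` is integral over `L[x]` with `v f ≤ 1`, then `red f` is
integral over `k[red x]`. -/
theorem isIntegral_red_of_isIntegral (hx : ResTranscendental v L x) {ι : Type*} [Fintype ι]
    (bb : Module.Basis ι (IntermediateField.adjoin L {x}) F)
    (hb : IsOrtho v (IntermediateField.adjoin L {x}) bb)
    {OO : Type*} [CommRing OO] (ιO : OO →+* F) (hιO : Function.Injective ιO)
    {AA : Type*} [CommRing AA] (ιA : AA →+* L)
    (hA : ∀ a : L, v (algebraMap L F a) ≤ 1 → a ∈ Set.range ιA)
    (j : AA →+* OO) (hj : ∀ a, ιO (j a) = algebraMap L F (ιA a))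
    {k Fk : Type*} [Field k] [Field Fk] [Algebra k Fk] (red : OO →+* Fk) (res : AA →+* k)
    (hcompat : ∀ a, red (j a) = algebraMap k Fk (res a))
    (xO fO : OO) (hxO : ιO xO = x)
    (hfi : IsIntegral (Algebra.adjoin L {x}) (ιO fO)) (hf1 : v (ιO fO) ≤ 1) :
    IsIntegral (Algebra.adjoin k {red xO}) (red fO) := by
  classical
  obtain ⟨P, hPmonic, hPcoeff, hProot⟩ := exists_monic_of_isIntegral hx bb hb hfi hf1
  -- lift `P` to a monic polynomial over `AA[X]`
  have hPlift : P ∈ lifts (mapRingHom ιA) := by
    rw [lifts_iff_coeff_lifts]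
    intro i
    have : P.coeff i ∈ lifts ιA := by
      rw [lifts_iff_coeff_lifts]
      intro n
      exact hA _ (hPcoeff i n)
    obtain ⟨q, hq⟩ := (mem_lifts _).mp this
    exact ⟨q, hq⟩
  obtain ⟨PA, hPA, -, hPAmonic⟩ := lifts_and_degree_eq_and_monic hPlift hPmonic
  -- evaluate in `OO`
  set g : AA[X] →+* OO := eval₂RingHom j xO with hg
  have hιg : ιO.comp g = (((aeval x : L[X] →ₐ[L] F) : L[X] →+* F)).comp (mapRingHom ιA) := by
    refine Polynomial.ringHom_ext (fun a => ?_) ?_
    · simp [hg, hj]
    · simp [hg, hxO]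
  have hzero : eval₂ g fO PA = 0 := by
    apply hιO
    rw [map_zero, hom_eval₂, hιg, ← eval₂_map, hPA, ← eval_map]
    exact hProot
  -- reduce
  set h : k[X] →+* Fk := ((aeval (red xO) : k[X] →ₐ[k] Fk) : k[X] →+* Fk) with hh
  have hredg : red.comp g = h.comp (mapRingHom res) := by
    refine Polynomial.ringHom_ext (fun a => ?_) ?_
    · simp [hg, hh, hcompat]
    · simp [hg, hh]
  have hzero' : eval₂ h (red fO) (PA.map (mapRingHom res)) = 0 := by
    rw [eval₂_map, ← hredg, ← hom_eval₂, hzero, map_zero]
  -- land in the subalgebra `k[red x]`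
  set S := Algebra.adjoin k {red xO} with hS
  set h' : k[X] →+* S :=
    ((aeval (⟨red xO, Algebra.self_mem_adjoin_singleton k (red xO)⟩ : S) : k[X] →ₐ[k] S) :
      k[X] →+* S) with hh'
  have hcomp : (algebraMap S Fk).comp h' = h := by
    refine Polynomial.ringHom_ext (fun a => ?_) ?_
    · simp [hh, hh']
    · simp [hh, hh']
  refine ⟨(PA.map (mapRingHom res)).map h', (hPAmonic.map _).map _, ?_⟩
  rw [eval₂_map, hcomp]
  exact hzero'

end Integrality

section PolyForm

variable {F : Type*} [Field F] {Γ₀ : Type*} [LinearOrderedCommGroupWithZero Γ₀]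
  (v : Valuation F Γ₀) (L : Type*) [Field L] [Algebra L F] {ι : Type*} [Fintype ι]

/-- Polynomial (residue-free) form of "the residue of `x` is transcendental and the residues of
the `b j` are linearly independent over `k(x̄)`": a combination `∑ c_j(x) b_j` with coefficients
of value `≤ 1` that has value `< 1` has all coefficients of value `< 1`.  (Same shape as the
field `indep` of `helper8020.OrthoSys`.) -/
def PolyIndep (x : F) (b : ι → F) : Prop :=
  ∀ c : ι → L[X], (∀ j i, v (algebraMap L F ((c j).coeff i)) ≤ 1) →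
    v (∑ j, aeval x (c j) * b j) < 1 → ∀ j i, v (algebraMap L F ((c j).coeff i)) < 1

variable {v L} {x : F} {b : ι → F}

theorem PolyIndep.map_eq_one (H : PolyIndep v L x b) (hb1 : ∀ j, v (b j) ≤ 1) (j0 : ι) :
    v (b j0) = 1 := by
  classical
  refine le_antisymm (hb1 j0) (not_lt.mp fun hlt => ?_)
  have := H (Pi.single j0 1) (fun j i => ?_) ?_ j0 0
  · simp at this
  · by_cases hj : j = j0
    · subst hj
      rw [Pi.single_eq_same, coeff_one]
      split_ifs <;> simp
    · rw [Pi.single_eq_of_ne hj]
      simp
  · rw [Finset.sum_eq_single j0]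
    · simpa using hlt
    · intro j _ hj
      rw [Pi.single_eq_of_ne hj]
      simp
    · intro h
      exact absurd (Finset.mem_univ j0) h

/-- The polynomial form implies that `x` is residually transcendental. -/
theorem PolyIndep.resTranscendental [Nonempty ι] (H : PolyIndep v L x b) (hx1 : v x ≤ 1)
    (hb1 : ∀ j, v (b j) ≤ 1) : ResTranscendental v L x := by
  classical
  obtain ⟨j0⟩ := ‹Nonempty ι›
  have hbj0 := H.map_eq_one hb1 j0
  intro p hp1 hp2
  obtain ⟨i0, hi0⟩ := hp2
  have hle : v (aeval x p) ≤ 1 := by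
    rw [aeval_eq_sum_range]
    refine v.map_sum_le fun i _ => ?_
    rw [Algebra.smul_def, map_mul, map_pow]
    calc v (algebraMap L F (p.coeff i)) * v x ^ i ≤ 1 * 1 :=
          mul_le_mul' (hp1 i) (pow_le_one' hx1 i)
      _ = 1 := mul_one 1
  refine le_antisymm hle (not_lt.mp fun hlt => ?_)
  have := H (Pi.single j0 p) (fun j i => ?_) ?_ j0 i0
  · rw [Pi.single_eq_same, hi0] at this
    exact lt_irrefl _ this
  · by_cases hj : j = j0
    · subst hj
      rw [Pi.single_eq_same]
      exact hp1 i
    · rw [Pi.single_eq_of_ne hj]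
      simp
  · rw [Finset.sum_eq_single j0]
    · rw [Pi.single_eq_same, map_mul, hbj0, mul_one]
      exact hlt
    · intro j _ hj
      rw [Pi.single_eq_of_ne hj]
      simp
    · intro h
      exact absurd (Finset.mem_univ j0) h

/-- The polynomial form implies orthonormality of `b` over `L(x)`. -/
theorem PolyIndep.isOrtho_adjoin (H : PolyIndep v L x b) (hx1 : v x ≤ 1)
    (hb1 : ∀ j, v (b j) ≤ 1) : IsOrtho v (IntermediateField.adjoin L {x}) b := by
  classical
  -- unit form over `univ`
  have U : ∀ g : ι → IntermediateField.adjoin L {x},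
      (∀ j, v (algebraMap (IntermediateField.adjoin L {x}) F (g j)) ≤ 1) →
      v (∑ j, g j • b j) < 1 →
      ∀ j, v (algebraMap (IntermediateField.adjoin L {x}) F (g j)) < 1 := by
    intro g hg hlt j1
    have : Nonempty ι := ⟨j1⟩
    have hx := H.resTranscendental hx1 hb1
    have hrep : ∀ j, ∃ r q : L[X], aeval x q ≠ 0 ∧
        ((g j : IntermediateField.adjoin L {x}) : F) * aeval x q = aeval x r := by
      intro j
      obtain ⟨r, q, hrq⟩ := (IntermediateField.mem_adjoin_simple_iff L (g j : F)).mp (g j).2
      by_cases hq : aeval x q = 0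
      · refine ⟨0, 1, by simp, ?_⟩
        rw [hrq, hq, div_zero, zero_mul, map_zero]
      · exact ⟨r, q, hq, by rw [hrq, div_mul_cancel₀ _ hq]⟩
    choose r q hq hrq using hrep
    set Q : L[X] := ∏ j, q j with hQ
    have hQ0 : aeval x Q ≠ 0 := by
      rw [hQ, map_prod]
      exact Finset.prod_ne_zero_iff.mpr fun j _ => hq j
    have hQne : Q ≠ 0 := fun h => hQ0 (by rw [h, map_zero])
    obtain ⟨a, ha0, ha1⟩ := hx.exists_smul_eq_one hQne
    set R : ι → L[X] := fun j => C a * (r j * ∏ i ∈ Finset.univ.erase j, q i) with hR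
    have hQR : ∀ j, ((g j : IntermediateField.adjoin L {x}) : F) * (a • aeval x Q)
        = aeval x (R j) := by
      intro j
      have hsplit : Q = q j * ∏ i ∈ Finset.univ.erase j, q i := by
        rw [hQ, Finset.mul_prod_erase Finset.univ q (Finset.mem_univ j)]
      rw [hR]
      simp only [map_mul, aeval_C, Algebra.smul_def]
      rw [← hrq j, hsplit, map_mul]
      ring
    have hRval : ∀ j, v (aeval x (R j))
        = v (algebraMap (IntermediateField.adjoin L {x}) F (g j)) := by
      intro j
      rw [← hQR j, map_mul, ha1, mul_one]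
      rfl
    have hsum : ∑ j, aeval x (R j) * b j = (a • aeval x Q) * ∑ j, g j • b j := by
      rw [Finset.mul_sum]
      refine Finset.sum_congr rfl fun j _ => ?_
      rw [← hQR j]
      have : g j • b j = ((g j : IntermediateField.adjoin L {x}) : F) * b j := rfl
      rw [this]
      ring
    have hcoef := H R (fun j i => hx.coeff_le_one (by rw [hRval]; exact hg j) i)
      (by rw [hsum, map_mul, ha1, one_mul]; exact hlt)
    obtain ⟨k, hk, -⟩ := hx.exists_coeff_eq (R j1)
    rw [← hRval, hk]
    exact hcoef j1 k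
  refine isOrtho_of_unitForm fun s c hc hk => ?_
  obtain ⟨k, hk, hk1⟩ := hk
  have hsum : ∑ i ∈ s, c i • b i = ∑ i, (if i ∈ s then c i else 0) • b i := by
    rw [← Finset.sum_subset (Finset.subset_univ s)]
    · exact Finset.sum_congr rfl fun i hi => by rw [if_pos hi]
    · intro i _ hi
      rw [if_neg hi, zero_smul]
  have hc' : ∀ j, v (algebraMap (IntermediateField.adjoin L {x}) F (if j ∈ s then c j else 0))
      ≤ 1 := by
    intro j
    split_ifs with hj
    · exact hc j hj
    · simp
  have hle : v (∑ i ∈ s, c i • b i) ≤ 1 := by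
    refine v.map_sum_le fun i hi => ?_
    rw [Algebra.smul_def, map_mul]
    calc v (algebraMap (IntermediateField.adjoin L {x}) F (c i)) * v (b i) ≤ 1 * 1 :=
          mul_le_mul' (hc i hi) (hb1 i)
      _ = 1 := mul_one 1
  refine le_antisymm hle (not_lt.mp fun hlt => ?_)
  rw [hsum] at hlt
  have := U _ hc' hlt k
  rw [if_pos hk, hk1] at this
  exact lt_irrefl _ this

end PolyForm

end Fermat.Agent.S18.helper1733
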