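import Fermat.Agent.S18.helper8020_OrthoRat
import Fermat.Agent.S18.helper1733_ValuedKit

/-!
# S18-ORTHO part 3 (helper8020): bridge to the valued-field kit of helper1733

The polynomial-coefficient hypothesis `OrthoSys L v x b` (the shape exported by the concrete
Gauss-valuation leaves) implies the two hypotheses of `helper1733_ValuedKit`:
`ResTranscendental v L x` and `IsOrtho v L⟮x⟯ b`.  Together with the degree equality
`finrank L⟮x⟯ F = card ι` this gives orthonormal `L`-bases of all finite-dimensional `L`-subspaces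
of `F` and the equality of value groups, in the shapes consumed by the Kummer-core engines.
-/

set_option autoImplicit false

namespace Fermat.Agent.S18.helper8020

open Polynomial IntermediateField
open Fermat.Agent.S18.helper1733 (IsOrtho ResTranscendental)

variable {L F : Type*} [Field L] [Field F] [Algebra L F]
variable {Γ₀ : Type*} [LinearOrderedCommGroupWithZero Γ₀]

/-- Sup form of orthonormality for a finite orthonormal family over `L`. -/
theorem v_sum_eq_sup_of_isOrtho {v : Valuation F Γ₀} {n : ℕ} {e : Fin n → F}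
    (he : IsOrtho v L e) (c : Fin n → L) :
    v (∑ i, c i • e i) = Finset.univ.sup fun i => v (algebraMap L F (c i)) := by
  apply le_antisymm
  · exact he.sum_le Finset.univ c fun i _ =>
      Finset.le_sup (f := fun i => v (algebraMap L F (c i))) (Finset.mem_univ i)
  · exact Finset.sup_le fun i _ => he.coeff_le_univ c i

namespace OrthoSys

variable {ι : Type*} [Fintype ι] {v : Valuation F Γ₀} {x : F} {b : ι → F}

/-- `x` is residually transcendental over `L` (unit form of the Gauss lemma). -/
theorem resTranscendental [Nonempty ι] (h : OrthoSys L v x b) : ResTranscendental v L x :=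
  fun p hp hp1 => h.v_aeval_eq_one p hp hp1

/-- `b` is orthonormal over `L⟮x⟯`. -/
theorem isOrtho_adjoin (h : OrthoSys L v x b) : IsOrtho v L⟮x⟯ b :=
  ⟨h.hb, fun s c _ hk => h.coeff_le_sum_adjoin s c hk⟩

/-- The double family `x ^ i * b j` is orthonormal over `L`. -/
theorem isOrtho_pow_mul [Nonempty ι] (h : OrthoSys L v x b) :
    IsOrtho v L (fun p : ℕ × ι => x ^ p.1 * b p.2) :=
  h.resTranscendental.isOrtho_pow_mul h.isOrtho_adjoin

/-- **Cartesian subspaces.** Every finite-dimensional `L`-subspace of `F` has an orthonormal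
`L`-basis. -/
theorem exists_isOrtho_basis [Nonempty ι] (h : OrthoSys L v x b)
    (hrank : Module.finrank L⟮x⟯ F = Fintype.card ι)
    (V : Submodule L F) [FiniteDimensional L V] :
    ∃ e : Fin (Module.finrank L V) → F,
      (∀ i, e i ∈ V) ∧ IsOrtho v L e ∧ Submodule.span L (Set.range e) = V :=
  helper1733.exists_isOrtho_basis h.resTranscendental h.isOrtho_adjoin
    (h.span_adjoin_eq_top hrank) V

/-- The value group of `F` is that of `L`. -/
theorem exists_v_eq_algebraMap [Nonempty ι] (h : OrthoSys L v x b)
    (hrank : Module.finrank L⟮x⟯ F = Fintype.card ι) (y : F) :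
    ∃ a : L, v y = v (algebraMap L F a) :=
  helper1733.exists_map_eq_algebraMap h.resTranscendental h.isOrtho_adjoin
    (h.span_adjoin_eq_top hrank) y

/-- Every nonzero element of `F` is a constant of `L` times a unit. -/
theorem exists_smul_eq_one [Nonempty ι] (h : OrthoSys L v x b)
    (hrank : Module.finrank L⟮x⟯ F = Fintype.card ι) {y : F} (hy : y ≠ 0) :
    ∃ a : L, a ≠ 0 ∧ v (a • y) = 1 := by
  obtain ⟨a, ha⟩ := h.exists_v_eq_algebraMap hrank y
  have hy0 : v y ≠ 0 := (Valuation.ne_zero_iff v).mpr hy
  have ha0 : a ≠ 0 := by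
    rintro rfl
    rw [map_zero, map_zero] at ha
    exact hy0 ha
  refine ⟨a⁻¹, inv_ne_zero ha0, ?_⟩
  rw [Algebra.smul_def, map_mul, map_inv₀, map_inv₀, ← ha, inv_mul_cancel₀ hy0]

/-- **Engine shape.** Every finite-dimensional `L`-subspace `V` of `F` is the `L`-span of a finite
family `w` of elements of `V` of value one with `v (∑ c j • w j) = max_j v (c j)`; in particular
the hypothesis `hw` of `helper4938.engine` and the closed/open unit-ball criteria hold. -/
theorem exists_orthonormal_family [Nonempty ι] (h : OrthoSys L v x b)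
    (hrank : Module.finrank L⟮x⟯ F = Fintype.card ι)
    (V : Submodule L F) [FiniteDimensional L V] :
    ∃ w : Fin (Module.finrank L V) → F,
      (∀ i, w i ∈ V) ∧ (∀ i, v (w i) = 1) ∧ LinearIndependent L w ∧
      Submodule.span L (Set.range w) = V ∧
      (∀ (c : Fin (Module.finrank L V) → L) (i : Fin (Module.finrank L V)),
        v (algebraMap L F (c i)) ≤ v (∑ j, c j • w j)) ∧
      (∀ c : Fin (Module.finrank L V) → L,
        v (∑ j, c j • w j) = Finset.univ.sup fun j => v (algebraMap L F (c j))) ∧
      (∀ c : Fin (Module.finrank L V) → L,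
        v (∑ j, c j • w j) ≤ 1 ↔ ∀ j, v (algebraMap L F (c j)) ≤ 1) ∧
      (∀ c : Fin (Module.finrank L V) → L,
        v (∑ j, c j • w j) < 1 ↔ ∀ j, v (algebraMap L F (c j)) < 1) := by
  obtain ⟨e, heV, heo, hespan⟩ := h.exists_isOrtho_basis hrank V
  refine ⟨e, heV, fun i => heo.map_eq_one i, heo.linearIndependent, hespan,
    fun c i => heo.coeff_le_univ c i, fun c => v_sum_eq_sup_of_isOrtho heo c, fun c => ?_,
    fun c => ?_⟩
  · rw [v_sum_eq_sup_of_isOrtho heo c, Finset.sup_le_iff]
    exact ⟨fun hc j => hc j (Finset.mem_univ j), fun hc j _ => hc j⟩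
  · rw [v_sum_eq_sup_of_isOrtho heo c, Finset.sup_lt_iff (by rw [bot_eq_zero]; exact zero_lt_one)]
    exact ⟨fun hc j => hc j (Finset.mem_univ j), fun hc j _ => hc j⟩

end OrthoSys

end Fermat.Agent.S18.helper8020
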