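import Fermat.Agent.S18.helper1733_ValuedKit
import Fermat.Agent.S18.helper6292_RedContain
import Fermat.Agent.S18.helper8020_OrthoKit

/-!
# S18 (helper1733): integrality transfer in the shape consumed by reduction containment

`helper6292.IntegralityTransfer L k O red x (red x)` and its `x⁻¹`-chart companion, VERBATIM, from

* an orthonormal `L⟮x⟯`-basis of `F` for the valuation of the valuation subring `O` (or the
  polynomial-coefficient hypothesis `helper8020.OrthoSys` plus the degree equality), and
* the weakest compatibility of the reduction map with constants: `red` maps the constants of `O`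
  into the image of `k`.

As a consequence, reduction containment `red (L(n • X) ∩ O) ⊆ L_k(n • Xb)` (helper6292) holds with
both integrality-transfer hypotheses discharged.
-/

set_option autoImplicit false

namespace Fermat.Agent.S18.helper1733

open Polynomial IntermediateField AlgebraicCurve

section InvChart

variable {F : Type*} [Field F] {Γ₀ : Type*} [LinearOrderedCommGroupWithZero Γ₀]
  {v : Valuation F Γ₀} {L : Type*} [Field L] [Algebra L F] {x : F}

/-- Residual transcendence passes to the inverse. -/
theorem ResTranscendental.inv (hx : ResTranscendental v L x) : ResTranscendental v L x⁻¹ := by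
  intro p hp hp1
  have hvx : v x = 1 := hx.map_eq_one
  have hx0 : x ≠ 0 := by
    intro h
    rw [h, map_zero] at hvx
    exact zero_ne_one hvx
  letI : Invertible x⁻¹ := invertibleOfNonzero (inv_ne_zero hx0)
  have hinv : ⅟(x⁻¹) = x := by rw [invOf_eq_inv, inv_inv]
  have key := eval₂_reverse_mul_pow (algebraMap L F) x⁻¹ p.reverse
  rw [hinv] at key
  -- `key : eval₂ _ x (reverse (reverse p)) * x⁻¹ ^ natDegree (reverse p) = eval₂ _ x⁻¹ (reverse p)`
  have key2 := eval₂_reverse_mul_pow (algebraMap L F) x⁻¹ p
  rw [hinv] at key2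
  -- `key2 : eval₂ _ x (reverse p) * x⁻¹ ^ natDegree p = eval₂ _ x⁻¹ p`
  have h1 : aeval x⁻¹ p = aeval x p.reverse * x⁻¹ ^ p.natDegree := by
    rw [aeval_def, aeval_def, key2]
  rw [h1, map_mul, map_pow, map_inv₀, hvx, inv_one, one_pow, mul_one]
  apply hx
  · intro i
    rw [coeff_reverse]
    exact hp _
  · obtain ⟨i, hi⟩ := hp1
    have hne : p.coeff i ≠ 0 := by
      intro h
      rw [h, map_zero, map_zero] at hi
      exact zero_ne_one hi
    have hile : i ≤ p.natDegree := le_natDegree_of_ne_zero hne
    refine ⟨p.natDegree - i, ?_⟩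
    rw [coeff_reverse, revAt_le (Nat.sub_le _ _), Nat.sub_sub_self hile]
    exact hi

variable (L) in
/-- `L(x⁻¹) = L(x)`. -/
theorem adjoin_simple_inv_eq (x : F) : L⟮x⁻¹⟯ = L⟮x⟯ := by
  apply le_antisymm
  · rw [adjoin_simple_le_iff]
    exact inv_mem (mem_adjoin_simple_self L x)
  · rw [adjoin_simple_le_iff]
    have h := inv_mem (mem_adjoin_simple_self L x⁻¹)
    rwa [inv_inv] at h

/-- Orthonormality and spanning only depend on the intermediate field as a set. -/
theorem isOrtho_span_of_eq {E E' : IntermediateField L F} (h : E = E') {ι : Type*} {b : ι → F}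
    (hb : IsOrtho v E b) (hspan : Submodule.span E (Set.range b) = ⊤) :
    IsOrtho v E' b ∧ Submodule.span E' (Set.range b) = ⊤ := by
  subst h
  exact ⟨hb, hspan⟩

/-- An orthonormal spanning family over `L(x)` is one over `L(x⁻¹)`. -/
theorem IsOrtho.adjoin_inv {ι : Type*} {b : ι → F} (hb : IsOrtho v L⟮x⟯ b)
    (hspan : Submodule.span L⟮x⟯ (Set.range b) = ⊤) :
    IsOrtho v L⟮x⁻¹⟯ b ∧ Submodule.span L⟮x⁻¹⟯ (Set.range b) = ⊤ :=
  isOrtho_span_of_eq (adjoin_simple_inv_eq L x).symm hb hspan

end InvChart

section Transfer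

variable {L F k Fk : Type*} [Field L] [Field F] [Algebra L F] [Field k] [Field Fk] [Algebra k Fk]

/-- If `red` maps the constants of `O` into the image of `k`, it induces a ring hom from the
valuation subring `O ∩ L` of `L` to `k`. -/
theorem exists_res_of_compat (O : ValuationSubring F) (red : O →+* Fk)
    (hcompat : ∀ (a : L) (ha : algebraMap L F a ∈ O),
      ∃ c : k, red ⟨algebraMap L F a, ha⟩ = algebraMap k Fk c) :
    ∃ res : (O.comap (algebraMap L F)) →+* k, ∀ a : O.comap (algebraMap L F),
      red ⟨algebraMap L F (a : L), a.2⟩ = algebraMap k Fk (res a) := by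
  classical
  have hinj : Function.Injective (algebraMap k Fk) := (algebraMap k Fk).injective
  choose c hc using fun a : O.comap (algebraMap L F) => hcompat (a : L) a.2
  have hone : c 1 = 1 := by
    apply hinj
    rw [← hc, map_one]
    have : (⟨algebraMap L F ((1 : O.comap (algebraMap L F)) : L), (1 : O.comap (algebraMap L F)).2⟩
        : O) = 1 := Subtype.ext (by simp)
    rw [this, map_one]
  have hmul : ∀ a b, c (a * b) = c a * c b := by
    intro a b
    apply hinj
    rw [← hc, map_mul, ← hc, ← hc, ← map_mul]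
    congr 1
    exact Subtype.ext (by simp)
  have hzero : c 0 = 0 := by
    apply hinj
    rw [← hc, map_zero]
    have : (⟨algebraMap L F ((0 : O.comap (algebraMap L F)) : L), (0 : O.comap (algebraMap L F)).2⟩
        : O) = 0 := Subtype.ext (by simp)
    rw [this, map_zero]
  have hadd : ∀ a b, c (a + b) = c a + c b := by
    intro a b
    apply hinj
    rw [← hc, map_add, ← hc, ← hc, ← map_add]
    congr 1
    exact Subtype.ext (by simp)
  exact ⟨{ toFun := c, map_one' := hone, map_mul' := hmul, map_zero' := hzero, map_add' := hadd },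
    fun a => hc a⟩

/-- **Integrality transfer on the chart `x`**, in the shape `helper6292.IntegralityTransfer`:
`O` a valuation subring of `F`, `red : O →+* Fk` mapping constants to constants, `x` residually
transcendental over `L`, and `F` with an orthonormal spanning family over `L(x)`.  Then an
element of `O` integral over `L[x]` has reduction integral over `k[red x]`. -/
theorem integralityTransfer_of_isOrtho (O : ValuationSubring F) (red : O →+* Fk)
    (hcompat : ∀ (a : L) (ha : algebraMap L F a ∈ O),
      ∃ c : k, red ⟨algebraMap L F a, ha⟩ = algebraMap k Fk c)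
    {x : F} (hx : x ∈ O) (hres : ResTranscendental O.valuation L x)
    {ι : Type*} [Fintype ι] {b : ι → F} (hb : IsOrtho O.valuation L⟮x⟯ b)
    (hspan : Submodule.span L⟮x⟯ (Set.range b) = ⊤) :
    helper6292.IntegralityTransfer L k O red x (red ⟨x, hx⟩) := by
  classical
  intro g hg hgi
  obtain ⟨res, hres'⟩ := exists_res_of_compat O red hcompat
  set bb : Module.Basis ι L⟮x⟯ F := Module.Basis.mk hb.linearIndependent hspan.ge with hbb
  have hbb' : IsOrtho O.valuation L⟮x⟯ bb := by
    have : (bb : ι → F) = b := Module.Basis.coe_mk _ _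
    rw [this]
    exact hb
  set j : (O.comap (algebraMap L F)) →+* O :=
    ((algebraMap L F).comp (O.comap (algebraMap L F)).subtype).codRestrict O (fun a => a.2)
    with hj
  exact isIntegral_red_of_isIntegral (v := O.valuation) hres bb hbb' O.subtype
    Subtype.val_injective (O.comap (algebraMap L F)).subtype
    (fun a ha => ⟨⟨a, (ValuationSubring.mem_comap).mpr ((O.valuation_le_one_iff _).mp ha)⟩, rfl⟩)
    j (fun a => rfl) red res (fun a => hres' a) ⟨x, hx⟩ ⟨g, hg⟩ rfl hgi
    ((O.valuation_le_one_iff g).mpr hg)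

/-- **Integrality transfer on the chart `x⁻¹`**, in the shape `helper6292.IntegralityTransfer`,
from the same data as `integralityTransfer_of_isOrtho`. -/
theorem integralityTransfer_inv_of_isOrtho (O : ValuationSubring F) (red : O →+* Fk)
    (hcompat : ∀ (a : L) (ha : algebraMap L F a ∈ O),
      ∃ c : k, red ⟨algebraMap L F a, ha⟩ = algebraMap k Fk c)
    {x : F} (hx : x ∈ O) (hres : ResTranscendental O.valuation L x)
    {ι : Type*} [Fintype ι] {b : ι → F} (hb : IsOrtho O.valuation L⟮x⟯ b)
    (hspan : Submodule.span L⟮x⟯ (Set.range b) = ⊤) :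
    helper6292.IntegralityTransfer L k O red x⁻¹ (red ⟨x, hx⟩)⁻¹ := by
  have hvx : O.valuation x = 1 := hres.map_eq_one
  have hx0 : x ≠ 0 := by
    intro h
    rw [h, map_zero] at hvx
    exact zero_ne_one hvx
  have hxi : x⁻¹ ∈ O := by
    rw [← O.valuation_le_one_iff, map_inv₀, hvx, inv_one]
  obtain ⟨hb', hspan'⟩ := hb.adjoin_inv hspan
  have h := integralityTransfer_of_isOrtho O red hcompat hxi hres.inv hb' hspan'
  rwa [helper6292.red_inv O red hx0 hx hxi] at h

/-- `x` residually transcendental: `x` and `x⁻¹` are in `O` and `x ≠ 0`. -/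
theorem ResTranscendental.mem_and_inv_mem (O : ValuationSubring F) {x : F}
    (hres : ResTranscendental O.valuation L x) : x ≠ 0 ∧ x ∈ O ∧ x⁻¹ ∈ O := by
  have hvx : O.valuation x = 1 := hres.map_eq_one
  refine ⟨?_, ?_, ?_⟩
  · intro h
    rw [h, map_zero] at hvx
    exact zero_ne_one hvx
  · rw [← O.valuation_le_one_iff, hvx]
  · rw [← O.valuation_le_one_iff, map_inv₀, hvx, inv_one]

/-- Both charts from the polynomial-coefficient hypothesis `helper8020.OrthoSys` and the degree
equality `[F : L(x)] = card ι`. -/
theorem integralityTransfer_of_orthoSys (O : ValuationSubring F) (red : O →+* Fk)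
    (hcompat : ∀ (a : L) (ha : algebraMap L F a ∈ O),
      ∃ c : k, red ⟨algebraMap L F a, ha⟩ = algebraMap k Fk c)
    {x : F} (hx : x ∈ O) {ι : Type*} [Fintype ι] [Nonempty ι] {b : ι → F}
    (h : helper8020.OrthoSys L O.valuation x b)
    (hrank : Module.finrank L⟮x⟯ F = Fintype.card ι) :
    helper6292.IntegralityTransfer L k O red x (red ⟨x, hx⟩) ∧
      helper6292.IntegralityTransfer L k O red x⁻¹ (red ⟨x, hx⟩)⁻¹ :=
  ⟨integralityTransfer_of_isOrtho O red hcompat hx h.resTranscendental h.isOrtho_adjoin
      (h.span_adjoin_eq_top hrank),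
    integralityTransfer_inv_of_isOrtho O red hcompat hx h.resTranscendental h.isOrtho_adjoin
      (h.span_adjoin_eq_top hrank)⟩

/-- **Reduction containment** (helper6292 (RC)) with both integrality transfers discharged,
characteristic zero on the generic fibre: for `f ∈ L(n • X) ∩ O`, `red f ∈ L_k(n • Xb)`, where
`X`, `Xb` are the pole divisors of `x`, `red x`. -/
theorem red_mem_riemannRochSpace_of_isOrtho [CharZero L] (O : ValuationSubring F)
    (red : O →+* Fk)
    (hcompat : ∀ (a : L) (ha : algebraMap L F a ∈ O),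
      ∃ c : k, red ⟨algebraMap L F a, ha⟩ = algebraMap k Fk c)
    {x : F} (hx : x ∈ O) (hres : ResTranscendental O.valuation L x)
    {ι : Type*} [Fintype ι] {b : ι → F} (hb : IsOrtho O.valuation L⟮x⟯ b)
    (hspan : Submodule.span L⟮x⟯ (Set.range b) = ⊤)
    {X : Divisor L F} (hX : helper6292.IsPoleDivisor x X)
    {Xb : Divisor k Fk} (hXb : helper6292.IsPoleDivisor (red ⟨x, hx⟩) Xb)
    (n : ℕ) {f : F} (hf : f ∈ O) (hfL : f ∈ riemannRochSpace (n • X)) :
    red ⟨f, hf⟩ ∈ riemannRochSpace (n • Xb) := by
  obtain ⟨hx0, -, hxi⟩ := hres.mem_and_inv_mem O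
  haveI : FiniteDimensional L⟮x⟯ F :=
    Module.Finite.of_basis (Module.Basis.mk hb.linearIndependent hspan.ge)
  exact helper6292.red_mem_riemannRochSpace_of_charZero O red hx0 hx hxi hX hXb
    (integralityTransfer_of_isOrtho O red hcompat hx hres hb hspan)
    (integralityTransfer_inv_of_isOrtho O red hcompat hx hres hb hspan) n hf hfL

/-- Reduction containment from `helper8020.OrthoSys` and the degree equality. -/
theorem red_mem_riemannRochSpace_of_orthoSys [CharZero L] (O : ValuationSubring F)
    (red : O →+* Fk)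
    (hcompat : ∀ (a : L) (ha : algebraMap L F a ∈ O),
      ∃ c : k, red ⟨algebraMap L F a, ha⟩ = algebraMap k Fk c)
    {x : F} (hx : x ∈ O) {ι : Type*} [Fintype ι] [Nonempty ι] {b : ι → F}
    (h : helper8020.OrthoSys L O.valuation x b)
    (hrank : Module.finrank L⟮x⟯ F = Fintype.card ι)
    {X : Divisor L F} (hX : helper6292.IsPoleDivisor x X)
    {Xb : Divisor k Fk} (hXb : helper6292.IsPoleDivisor (red ⟨x, hx⟩) Xb)
    (n : ℕ) {f : F} (hf : f ∈ O) (hfL : f ∈ riemannRochSpace (n • X)) :
    red ⟨f, hf⟩ ∈ riemannRochSpace (n • Xb) :=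
  red_mem_riemannRochSpace_of_isOrtho O red hcompat hx h.resTranscendental h.isOrtho_adjoin
    (h.span_adjoin_eq_top hrank) hX hXb n hf hfL

end Transfer

end Fermat.Agent.S18.helper1733
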