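import Mathlib
import Fermat.Agent.S18.helper1733_ValuedKit
import Fermat.Agent.S18.helper8020_OrthoKit
import Fermat.Agent.S18.helper8991_GaussInst

/-!
# S18-TLINE-VF (helper380): orthonormal bases along a tower, and the Hauptmodul line

Valued-field glue for a change of base line `x ↦ t` (e.g. `x = j`, `t = t_r` a Hauptmodul with
`j ∈ L(t_r)`):

* `exists_isOrtho_tower` (TW): if `F` has a finite orthonormal spanning family over `K0` and every
  element of `K0` comes from `K1`, then `F` has an orthonormal basis over `K1`, indexed by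
  `Fin (finrank K1 F)`.  Proof by descent on a generating family of the unit ball: a generating
  family which is not orthonormal has a redundant member.
* `orthoSys_of_isOrtho` (OS): `ResTranscendental v L x` and an orthonormal family over `L⟮x⟯` give
  `helper8020.OrthoSys L v x e`.
* `orthoSys_tower`: from `OrthoSys L v x b` (with `finrank L⟮x⟯ F = card`) to an `OrthoSys L v t e`
  with `e` indexed by `Fin (finrank L⟮t⟯ F)`, whenever `x ∈ L⟮t⟯` and `t` is residually
  transcendental.
* `resTranscendental_gaussSubring` (RT): for the landed Gauss valuation subring of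
  `helper8991`, an integral series whose coefficientwise reduction is transcendental over the
  residue field is residually transcendental.
-/

set_option autoImplicit false

namespace Fermat.Agent.S18.helper380

open Polynomial IntermediateField
open Fermat.Agent.S18.helper1733 Fermat.Agent.S18.helper8020

/-! ### Generating families of the unit ball -/

section Tower

variable {F : Type*} [Field F] {Γ₀ : Type*} [LinearOrderedCommGroupWithZero Γ₀]
  (v : Valuation F Γ₀) (K : Type*) [Field K] [Algebra K F]

/-- `e` generates the unit ball of `F` over the valuation ring of `K`. -/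
def UnitBallGen {n : ℕ} (e : Fin n → F) : Prop :=
  ∀ f : F, v f ≤ 1 →
    ∃ c : Fin n → K, (∀ i, v (algebraMap K F (c i)) ≤ 1) ∧ f = ∑ i, c i • e i

variable {v K}

/-- A generating family of the unit ball which is not orthonormal has a redundant member. -/
theorem exists_unitBallGen_pred {m : ℕ} (e : Fin (m + 1) → F) (he : ∀ i, v (e i) ≤ 1)
    (hVG : ∀ f : F, ∃ a : K, v f = v (algebraMap K F a))
    (hgen : UnitBallGen v K e) (hnot : ¬ IsOrtho v K e) :
    ∃ e' : Fin m → F, (∀ i, v (e' i) ≤ 1) ∧ UnitBallGen v K e' := by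
  classical
  -- a combination violating orthonormality
  have h1 : ∃ (c : Fin (m + 1) → K) (k : Fin (m + 1)),
      v (∑ i, c i • e i) < v (algebraMap K F (c k)) := by
    by_contra hcon
    push Not at hcon
    exact hnot (isOrtho_of_fintype he hcon)
  obtain ⟨c, k, hck⟩ := h1
  -- the coefficient of maximal value
  obtain ⟨k0, -, hmax⟩ := Finset.exists_max_image Finset.univ
    (fun i => v (algebraMap K F (c i))) Finset.univ_nonempty
  have hM : v (∑ i, c i • e i) < v (algebraMap K F (c k0)) :=
    lt_of_lt_of_le hck (hmax k (Finset.mem_univ k))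
  have hM0 : v (algebraMap K F (c k0)) ≠ 0 := ne_of_gt (lt_of_le_of_lt zero_le hM)
  have hc0 : c k0 ≠ 0 := by
    rintro h0
    rw [h0, map_zero, map_zero] at hM0
    exact hM0 rfl
  have hcF : algebraMap K F (c k0) ≠ 0 := by
    intro h0
    rw [h0, map_zero] at hM0
    exact hM0 rfl
  -- normalise
  set c' : Fin (m + 1) → K := fun i => c i / c k0 with hc'
  have hc'1 : ∀ i, v (algebraMap K F (c' i)) ≤ 1 := by
    intro i
    rw [hc', map_div₀, map_div₀]
    exact div_le_one_of_le₀ (hmax i (Finset.mem_univ i)) zero_le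
  have hc'k0 : c' k0 = 1 := div_self hc0
  set g : F := ∑ i, c' i • e i with hg
  have hg_eq : g = (algebraMap K F (c k0))⁻¹ * ∑ i, c i • e i := by
    rw [hg, Finset.mul_sum]
    refine Finset.sum_congr rfl fun i _ => ?_
    rw [hc', Algebra.smul_def, Algebra.smul_def, map_div₀]
    field_simp
  have hg1 : v g < 1 := by
    rw [hg_eq, map_mul, map_inv₀]
    rw [inv_mul_lt_iff₀ (lt_of_le_of_ne zero_le (Ne.symm hM0)), mul_one]
    exact hM
  -- `g = a * (integral combination)` with `v a < 1`
  have h2 : ∃ (a : K) (d : Fin (m + 1) → K), v (algebraMap K F a) < 1 ∧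
      (∀ i, v (algebraMap K F (d i)) ≤ 1) ∧ g = ∑ i, (a * d i) • e i := by
    obtain ⟨a, ha⟩ := hVG g
    by_cases ha0 : a = 0
    · refine ⟨0, fun _ => 0, by simp, by simp, ?_⟩
      rw [ha0, map_zero, map_zero, Valuation.zero_iff] at ha
      rw [ha]
      simp
    · have haF : algebraMap K F a ≠ 0 := by
        intro h0
        exact ha0 ((map_eq_zero (algebraMap K F)).mp h0)
      have hva : v (algebraMap K F a) ≠ 0 := (Valuation.ne_zero_iff v).mpr haF
      have h3 : v ((algebraMap K F a)⁻¹ * g) ≤ 1 := by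
        rw [map_mul, map_inv₀, ha, inv_mul_cancel₀ hva]
      obtain ⟨d, hd1, hd⟩ := hgen _ h3
      refine ⟨a, d, ha ▸ hg1, hd1, ?_⟩
      have h4 : g = algebraMap K F a * ((algebraMap K F a)⁻¹ * g) := by
        rw [← mul_assoc, mul_inv_cancel₀ haF, one_mul]
      rw [h4, hd, Finset.mul_sum]
      refine Finset.sum_congr rfl fun i _ => ?_
      rw [Algebra.smul_def, Algebra.smul_def, map_mul, mul_assoc]
  obtain ⟨a, d, ha1, hd1, hgd⟩ := h2
  -- the relation `∑ (c' i - a * d i) • e i = 0`, with unit pivot coefficient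
  set r : Fin (m + 1) → K := fun i => c' i - a * d i with hr
  have hr1 : ∀ i, v (algebraMap K F (r i)) ≤ 1 := by
    intro i
    rw [hr, map_sub, map_mul]
    refine v.map_sub_le (hc'1 i) ?_
    rw [map_mul]
    exact mul_le_one' ha1.le (hd1 i)
  have hrel : ∑ i, r i • e i = 0 := by
    have h5 : ∑ i, r i • e i = (∑ i, c' i • e i) - ∑ i, (a * d i) • e i := by
      rw [← Finset.sum_sub_distrib]
      refine Finset.sum_congr rfl fun i _ => ?_
      rw [hr, sub_smul]
    rw [h5, ← hg, ← hgd, sub_self]
  have hu1 : v (algebraMap K F (r k0)) = 1 := by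
    rw [hr]
    simp only
    rw [hc'k0, map_sub, map_one]
    apply Valuation.map_one_sub_of_lt
    rw [map_mul, map_mul]
    calc v (algebraMap K F a) * v (algebraMap K F (d k0))
        ≤ v (algebraMap K F a) * 1 := mul_le_mul_of_nonneg_left (hd1 k0) zero_le
      _ = v (algebraMap K F a) := mul_one _
      _ < 1 := ha1
  have hu0 : r k0 ≠ 0 := by
    intro h0
    rw [h0, map_zero, map_zero] at hu1
    exact zero_ne_one hu1
  have huF : algebraMap K F (r k0) ≠ 0 := fun h0 =>
    hu0 ((map_eq_zero (algebraMap K F)).mp h0)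
  -- solve for `e k0`
  have hsolve : e k0 = ∑ j : Fin m, (-(r (k0.succAbove j)) / r k0) • e (k0.succAbove j) := by
    rw [Fin.sum_univ_succAbove _ k0] at hrel
    have h6 : algebraMap K F (r k0) * e k0
        = -∑ j : Fin m, r (k0.succAbove j) • e (k0.succAbove j) := by
      rw [← Algebra.smul_def]
      exact eq_neg_of_add_eq_zero_left hrel
    have h7 : e k0 = (algebraMap K F (r k0))⁻¹ *
        -∑ j : Fin m, r (k0.succAbove j) • e (k0.succAbove j) := by
      rw [← h6, ← mul_assoc, inv_mul_cancel₀ huF, one_mul]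
    rw [h7, mul_neg, Finset.mul_sum, ← Finset.sum_neg_distrib]
    refine Finset.sum_congr rfl fun j _ => ?_
    rw [Algebra.smul_def, Algebra.smul_def, map_div₀, map_neg]
    field_simp
  have hq1 : ∀ j : Fin m, v (algebraMap K F (-(r (k0.succAbove j)) / r k0)) ≤ 1 := by
    intro j
    rw [map_div₀, map_neg, map_div₀, Valuation.map_neg, hu1, div_one]
    exact hr1 _
  -- the new family
  refine ⟨fun j => e (k0.succAbove j), fun j => he _, ?_⟩
  intro f hf
  obtain ⟨x, hx1, hx⟩ := hgen f hf
  refine ⟨fun j => x k0 * (-(r (k0.succAbove j)) / r k0) + x (k0.succAbove j), fun j => ?_, ?_⟩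
  · rw [map_add, map_mul]
    refine v.map_add_le ?_ (hx1 _)
    rw [map_mul]
    exact mul_le_one' (hx1 k0) (hq1 j)
  · rw [hx, Fin.sum_univ_succAbove _ k0]
    conv_lhs => rw [hsolve]
    rw [Finset.smul_sum, ← Finset.sum_add_distrib]
    refine Finset.sum_congr rfl fun j _ => ?_
    rw [add_smul, mul_smul]

/-- Descent: from a generating family of the unit ball to an orthonormal one. -/
theorem exists_isOrtho_of_unitBallGen (hVG : ∀ f : F, ∃ a : K, v f = v (algebraMap K F a)) :
    ∀ (n : ℕ) (e : Fin n → F), (∀ i, v (e i) ≤ 1) → UnitBallGen v K e →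
      ∃ (n' : ℕ) (e' : Fin n' → F), IsOrtho v K e' ∧ UnitBallGen v K e' := by
  intro n
  induction n with
  | zero =>
    intro e _ hgen
    exact ⟨0, e, isOrtho_of_fintype (fun k => k.elim0) (fun _ k => k.elim0), hgen⟩
  | succ m ih =>
    intro e he hgen
    by_cases ho : IsOrtho v K e
    · exact ⟨m + 1, e, ho, hgen⟩
    · obtain ⟨e', he', hgen'⟩ := exists_unitBallGen_pred e he hVG hgen ho
      exact ih e' he' hgen'

/-- A generating family of the unit ball spans `F` (when the value group of `F` is that of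
`K`). -/
theorem span_eq_top_of_unitBallGen (hVG : ∀ f : F, ∃ a : K, v f = v (algebraMap K F a))
    {n : ℕ} {e : Fin n → F} (hgen : UnitBallGen v K e) :
    Submodule.span K (Set.range e) = ⊤ := by
  rw [eq_top_iff]
  intro f _
  obtain ⟨a, ha⟩ := hVG f
  by_cases ha0 : a = 0
  · rw [ha0, map_zero, map_zero, Valuation.zero_iff] at ha
    rw [ha]
    exact Submodule.zero_mem _
  · have haF : algebraMap K F a ≠ 0 := fun h0 =>
      ha0 ((map_eq_zero (algebraMap K F)).mp h0)
    have hva : v (algebraMap K F a) ≠ 0 := (Valuation.ne_zero_iff v).mpr haF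
    have h3 : v ((algebraMap K F a)⁻¹ * f) ≤ 1 := by
      rw [map_mul, map_inv₀, ha, inv_mul_cancel₀ hva]
    obtain ⟨d, -, hd⟩ := hgen _ h3
    have h4 : f = a • ((algebraMap K F a)⁻¹ * f) := by
      rw [Algebra.smul_def, ← mul_assoc, mul_inv_cancel₀ haF, one_mul]
    rw [h4, hd]
    refine Submodule.smul_mem _ _ (Submodule.sum_mem _ fun i _ => ?_)
    exact Submodule.smul_mem _ _ (Submodule.subset_span ⟨i, rfl⟩)

/-- **(TW) Tower lemma.** If `F` has a finite orthonormal spanning family over `K0` and every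
element of `K0` comes from `K1`, then `F` has an orthonormal basis over `K1`. -/
theorem exists_isOrtho_tower {K0 K1 : Type*} [Field K0] [Field K1] [Algebra K0 F] [Algebra K1 F]
    (h01 : ∀ a : K0, ∃ a' : K1, algebraMap K1 F a' = algebraMap K0 F a)
    {ι : Type*} [Fintype ι] {b : ι → F} (hb : IsOrtho v K0 b)
    (hspan : Submodule.span K0 (Set.range b) = ⊤) :
    ∃ e : Fin (Module.finrank K1 F) → F,
      IsOrtho v K1 e ∧ Submodule.span K1 (Set.range e) = ⊤ := by
  classical
  -- coordinates in the family `b`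
  have hcoord : ∀ f : F, ∃ c : ι → K0, ∑ i, c i • b i = f := by
    intro f
    have hf : f ∈ Submodule.span K0 (Set.range b) := by rw [hspan]; exact Submodule.mem_top
    exact (Submodule.mem_span_range_iff_exists_fun K0).mp hf
  -- the value group of `F` is that of `K1`
  have hVG : ∀ f : F, ∃ a : K1, v f = v (algebraMap K1 F a) := by
    intro f
    obtain ⟨c, rfl⟩ := hcoord f
    by_cases hι : (Finset.univ : Finset ι).Nonempty
    · obtain ⟨k, -, hk, -⟩ := hb.exists_eq Finset.univ c hι
      obtain ⟨a', ha'⟩ := h01 (c k)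
      exact ⟨a', by rw [hk, ha']⟩
    · rw [Finset.not_nonempty_iff_eq_empty] at hι
      exact ⟨0, by simp [hι]⟩
  -- the family `b`, reindexed, generates the unit ball over `K1`
  set σ : ι ≃ Fin (Fintype.card ι) := Fintype.equivFin ι with hσ
  have hgen0 : UnitBallGen v K1 (fun j => b (σ.symm j)) := by
    intro f hf
    obtain ⟨c, hc⟩ := hcoord f
    have hc1 : ∀ i, v (algebraMap K0 F (c i)) ≤ 1 := fun i =>
      (hc ▸ hb.coeff_le_univ c i).trans hf
    choose c1 hc1' using fun i => h01 (c i)
    refine ⟨fun j => c1 (σ.symm j), fun j => by rw [hc1']; exact hc1 _, ?_⟩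
    rw [← hc, ← Equiv.sum_comp σ.symm (fun i => c i • b i)]
    refine Finset.sum_congr rfl fun j _ => ?_
    rw [Algebra.smul_def, Algebra.smul_def, hc1']
  obtain ⟨n', e', ho, hgen'⟩ :=
    exists_isOrtho_of_unitBallGen hVG _ _ (fun j => hb.le_one _) hgen0
  have hspan' : Submodule.span K1 (Set.range e') = ⊤ := span_eq_top_of_unitBallGen hVG hgen'
  have hn : n' = Module.finrank K1 F := by
    have hB := Module.finrank_eq_card_basis (Module.Basis.mk ho.linearIndependent hspan'.ge)
    rw [hB, Fintype.card_fin]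
  subst hn
  exact ⟨e', ho, hspan'⟩

end Tower

/-! ### From orthonormality over `L⟮x⟯` to `OrthoSys` -/

section OrthoSysForm

variable {L F : Type*} [Field L] [Field F] [Algebra L F]
variable {Γ₀ : Type*} [LinearOrderedCommGroupWithZero Γ₀] {v : Valuation F Γ₀}

/-- **(OS)** A residually transcendental `x` together with an orthonormal family over `L⟮x⟯`
is an `OrthoSys`. -/
theorem orthoSys_of_isOrtho {x : F} {ι : Type*} [Fintype ι] {e : ι → F}
    (hx : ResTranscendental v L x) (he : IsOrtho v L⟮x⟯ e) : OrthoSys L v x e := by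
  refine ⟨hx.map_eq_one.le, he.le_one, ?_⟩
  intro c hc hlt j i
  -- the coefficients as elements of `L⟮x⟯`
  have hmem : ∀ j, aeval x (c j) ∈ L⟮x⟯ := fun j =>
    IntermediateField.algebra_adjoin_le_adjoin L _ (Polynomial.aeval_mem_adjoin_singleton L x)
  set r : ι → L⟮x⟯ := fun j => ⟨aeval x (c j), hmem j⟩ with hr
  have hsum : ∑ j, r j • e j = ∑ j, aeval x (c j) * e j := by
    refine Finset.sum_congr rfl fun j _ => ?_
    rw [Algebra.smul_def]
    rfl
  have h1 : v (aeval x (c j)) < 1 := by
    have h2 := he.coeff_le_univ r j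
    rw [hsum] at h2
    exact lt_of_le_of_lt h2 hlt
  by_contra hcon
  have h3 : v (algebraMap L F ((c j).coeff i)) = 1 := le_antisymm (hc j i) (not_lt.mp hcon)
  have h4 := hx (c j) (hc j) ⟨i, h3⟩
  rw [h4] at h1
  exact lt_irrefl _ h1

/-- **Change of base line.** From an `OrthoSys` on the line `x` (of full rank) to an `OrthoSys`
on a line `t` with `x ∈ L⟮t⟯`, provided `t` is residually transcendental.  The new family is
indexed by `Fin (finrank L⟮t⟯ F)`, so the rank hypothesis of the consumers is `by simp`. -/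
theorem orthoSys_tower {x t : F} {ι : Type*} [Fintype ι] [Nonempty ι] {b : ι → F}
    (h : OrthoSys L v x b) (hrank : Module.finrank L⟮x⟯ F = Fintype.card ι)
    (hxt : x ∈ L⟮t⟯) (ht : ResTranscendental v L t) :
    ∃ e : Fin (Module.finrank L⟮t⟯ F) → F,
      OrthoSys L v t e ∧ IsOrtho v L⟮t⟯ e ∧ Submodule.span L⟮t⟯ (Set.range e) = ⊤ := by
  have hle : L⟮x⟯ ≤ L⟮t⟯ := adjoin_simple_le_iff.mpr hxt
  have h01 : ∀ a : L⟮x⟯, ∃ a' : L⟮t⟯, algebraMap L⟮t⟯ F a' = algebraMap L⟮x⟯ F a :=
    fun a => ⟨⟨a, hle a.2⟩, rfl⟩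
  obtain ⟨e, he, hspan⟩ := exists_isOrtho_tower h01 h.isOrtho_adjoin (h.span_adjoin_eq_top hrank)
  exact ⟨e, orthoSys_of_isOrtho ht he, he, hspan⟩

/-- The rank hypothesis for the family produced by `orthoSys_tower`. -/
theorem finrank_eq_card_fin (t : F) :
    Module.finrank L⟮t⟯ F = Fintype.card (Fin (Module.finrank L⟮t⟯ F)) := by
  rw [Fintype.card_fin]

end OrthoSysForm

/-! ### Residual transcendence for the landed Gauss valuation -/

section GaussRT

open HahnSeries ModularCurve
open Fermat.Agent.S18.helper8991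

variable {L : Type*} [Field L] (A : ValuationSubring L) {k : Type*} [Field k] (π : A →+* k)
  (E : IntermediateField L (LaurentSeries L))
  (hE : ∀ f : LaurentSeries L, f ∈ E → f ≠ 0 → IsNormalizable A π f)

/-- **(RT)** An integral series lying in `E` whose coefficientwise reduction is transcendental
over `k` is residually transcendental for the Gauss valuation of `E`. -/
theorem resTranscendental_gaussSubring
    (hπ0 : ∀ a : A, a ∈ IsLocalRing.maximalIdeal A → π a = 0)
    {y : LaurentSeries A} (hy : inc A y ∈ E)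
    (htr : ∀ p : k[X], p ≠ 0 →
      ∑ i ∈ p.support, HahnSeries.C (p.coeff i) * (red A π y) ^ i ≠ 0) :
    ResTranscendental (gaussSubring A π E hE).valuation L (⟨inc A y, hy⟩ : E) := by
  classical
  intro p hp hp1
  set O := gaussSubring A π E hE with hO
  -- the coefficients lie in `A`
  have hmemO : ∀ i, algebraMap L E (p.coeff i) ∈ O := fun i =>
    (ValuationSubring.valuation_le_one_iff O _).mp (hp i)
  have hA : ∀ i, p.coeff i ∈ A := fun i =>
    (algebraMap_mem_gaussSubring_iff A π E hE hπ0 _).mp (hmemO i)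
  -- the elements of `O`
  set Y : O := ⟨⟨inc A y, hy⟩, inc_mem_gaussSubring A π E hE hy⟩ with hY
  set cO : ℕ → O := fun i => ⟨algebraMap L E (p.coeff i), hmemO i⟩ with hcO
  set P : O := ∑ i ∈ p.support, cO i * Y ^ i with hP
  have hPval : ((P : O) : E) = aeval (⟨inc A y, hy⟩ : E) p := by
    rw [hP, aeval_def, eval₂_eq_sum, Polynomial.sum]
    push_cast
    rfl
  -- the reduction of `P`
  have hredc : ∀ i, gaussRed A π E hE (cO i) = HahnSeries.C (π ⟨p.coeff i, hA i⟩) := fun i =>
    gaussRed_algebraMap A π E hE (hA i)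
  have hredY : gaussRed A π E hE Y = red A π y := gaussRed_inc A π E hE hy
  have hredP : gaussRed A π E hE P
      = ∑ i ∈ p.support, HahnSeries.C (π ⟨p.coeff i, hA i⟩) * (red A π y) ^ i := by
    rw [hP, map_sum]
    refine Finset.sum_congr rfl fun i _ => ?_
    rw [map_mul, map_pow, hredc, hredY]
  -- the reduced polynomial
  set pbar : k[X] := ∑ i ∈ p.support, monomial i (π ⟨p.coeff i, hA i⟩) with hpbar
  have hcoeff : ∀ i, pbar.coeff i = if i ∈ p.support then π ⟨p.coeff i, hA i⟩ else 0 := by
    intro i
    rw [hpbar, finsetSum_coeff]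
    simp only [coeff_monomial]
    rw [Finset.sum_ite_eq' p.support i]
  obtain ⟨i0, hi0⟩ := hp1
  have hi0supp : i0 ∈ p.support := by
    rw [mem_support_iff]
    intro h0
    rw [h0, map_zero, map_zero] at hi0
    exact zero_ne_one hi0
  have hπi0 : π ⟨p.coeff i0, hA i0⟩ ≠ 0 := by
    have hunit : IsUnit (cO i0) := (ValuationSubring.valuation_eq_one_iff O (cO i0)).mpr hi0
    have h1 := (isUnit_iff_gaussRed_ne_zero A π E hE (cO i0)).mp hunit
    rw [hredc] at h1
    intro h0
    rw [h0, map_zero] at h1
    exact h1 rfl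
  have hpbar0 : pbar ≠ 0 := by
    intro h0
    have h1 := hcoeff i0
    rw [h0, Polynomial.coeff_zero, if_pos hi0supp] at h1
    exact hπi0 h1.symm
  have hsupp : pbar.support ⊆ p.support := by
    intro i hi
    rw [mem_support_iff, hcoeff] at hi
    by_contra hcon
    rw [if_neg hcon] at hi
    exact hi rfl
  have hredP' : gaussRed A π E hE P
      = ∑ i ∈ pbar.support, HahnSeries.C (pbar.coeff i) * (red A π y) ^ i := by
    rw [hredP]
    symm
    rw [Finset.sum_subset hsupp]
    · refine Finset.sum_congr rfl fun i hi => ?_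
      rw [hcoeff, if_pos hi]
    · intro i hi hni
      rw [notMem_support_iff.mp hni, map_zero, zero_mul]
  have hne : gaussRed A π E hE P ≠ 0 := by
    rw [hredP']
    exact htr pbar hpbar0
  have hunitP : IsUnit P := (isUnit_iff_gaussRed_ne_zero A π E hE P).mpr hne
  have hval := (ValuationSubring.valuation_eq_one_iff O P).mp hunitP
  rw [hPval] at hval
  exact hval

/-- The hypothesis `htr` of `resTranscendental_gaussSubring` for a transcendental series. -/
theorem sum_C_mul_pow_ne_zero_of_transcendental {t : LaurentSeries k}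
    (ht : Transcendental k t) (p : k[X]) (hp : p ≠ 0) :
    ∑ i ∈ p.support, HahnSeries.C (p.coeff i) * t ^ i ≠ 0 := by
  intro h0
  apply hp
  apply (transcendental_iff.mp ht) p
  rw [aeval_def, eval₂_eq_sum, Polynomial.sum, ← h0]
  refine Finset.sum_congr rfl fun i _ => ?_
  rw [Fermat.Agent.S18.helper8991.C_eq_algebraMap]

/-- **(RT)**, transcendence form. -/
theorem resTranscendental_gaussSubring_of_transcendental
    (hπ0 : ∀ a : A, a ∈ IsLocalRing.maximalIdeal A → π a = 0)
    {y : LaurentSeries A} (hy : inc A y ∈ E) (htr : Transcendental k (red A π y)) :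
    ResTranscendental (gaussSubring A π E hE).valuation L (⟨inc A y, hy⟩ : E) :=
  resTranscendental_gaussSubring A π E hE hπ0 hy
    (sum_C_mul_pow_ne_zero_of_transcendental htr)

end GaussRT

end Fermat.Agent.S18.helper380
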