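import Fermat.Agent.S18.helper508_GaussMod
import Fermat.Agent.S18.helper1733_ITAdapter
import Fermat.Agent.S18.helper380_TLineOrtho

/-!
# S18-GAUSS-ORTHO (helper1733): the concrete Gauss field feeds the abstract valued-field kits

Adapter only.  For `ℓ ∤ N`, a field `L ⊇ ℚ`, a valuation subring `A` of `L` over `ℓ`, the landed
concrete Gauss valuation ring `helper508.gaussValuationSubring` of
`F̄_N = laurentBaseChange L (modularFunctionFieldFull N)` with its residue map
`helper508.gaussResidue` onto `modularFunctionFieldFullC k N` satisfies, for `x = j` and the Gauss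
basis `b`:

* `helper8020.OrthoSys L v j b` (residue-free orthonormality),
* `span_{L(j)} b = ⊤` and `[F̄_N : L(j)] = ψ(N)`,
* the residue map sends constants to constants,

hence, with no hypothesis left: residual transcendence of `j`, an orthonormal `L(j)`-basis,
integrality transfer on both charts `j`, `j⁻¹` (in the shape of `helper6292`), orthonormal
`L`-bases of all finite-dimensional `L`-subspaces, and the equality of value groups.
-/

set_option autoImplicit false

noncomputable section

namespace Fermat.Agent.S18.helper1733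

open IntermediateField ModularCurve Polynomial

section GaussOrtho

variable (N : ℕ) [NeZero N] (ℓ : ℕ) [Fact ℓ.Prime] (hℓN : ¬ ℓ ∣ N)
variable {L : Type*} [Field L] [Algebra ℚ L] (A : ValuationSubring L)
  (hA : (ℓ : L) ∈ A.nonunits)

/-- `j` as an element of `F̄_N = laurentBaseChange L (modularFunctionFieldFull N)`. -/
def gaussJ (L : Type*) [Field L] [Algebra ℚ L] (N : ℕ) :
    ↥(laurentBaseChange L (modularFunctionFieldFull N)) :=
  ⟨jqModC L, helper508.jqModC_mem_bar L N⟩

omit [NeZero N] in
@[simp] theorem coe_gaussJ : ((gaussJ L N : ↥(laurentBaseChange L (modularFunctionFieldFull N))) :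
    LaurentSeries L) = jqModC L := rfl

/-- The Gauss basis (helper508) as a family of elements of `F̄_N`. -/
def gaussBasisF (L : Type*) [Field L] [Algebra ℚ L] (i : Fin (dedekindPsi N)) :
    ↥(laurentBaseChange L (modularFunctionFieldFull N)) :=
  ⟨helper508.zTo L (helper508.gaussBasis N ℓ hℓN i),
    helper508.zTo_mem_bar L N (helper508.gaussBasis_mem N ℓ hℓN i)⟩

@[simp] theorem coe_gaussBasisF (i : Fin (dedekindPsi N)) :
    ((gaussBasisF N ℓ hℓN L i : ↥(laurentBaseChange L (modularFunctionFieldFull N))) :
      LaurentSeries L) = helper508.zTo L (helper508.gaussBasis N ℓ hℓN i) := rfl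

omit [NeZero N] in
/-- Coercion of polynomial evaluation at `j`. -/
theorem coe_aeval_gaussJ (p : L[X]) :
    ((aeval (gaussJ L N) p : ↥(laurentBaseChange L (modularFunctionFieldFull N))) :
      LaurentSeries L) = aeval (jqModC L) p := by
  have h := aeval_algebraMap_apply (LaurentSeries L) (gaussJ L N) p
  exact h.symm

/-- The residue of an element of the Gauss valuation ring which is an `A`-integral `q`-series is
its coefficientwise reduction. -/
theorem gaussResidue_of_eq (f : ↥(helper508.gaussValuationSubring N ℓ hℓN A hA))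
    (y : LaurentSeries A)
    (h : ((f : ↥(laurentBaseChange L (modularFunctionFieldFull N))) : LaurentSeries L) =
      coeffMap A.subtype y) :
    ((helper508.gaussResidue N ℓ hℓN A hA f :
      ↥(modularFunctionFieldFullC (IsLocalRing.ResidueField A) N)) :
        LaurentSeries (IsLocalRing.ResidueField A)) = coeffMap (IsLocalRing.residue A) y := by
  have hy : coeffMap A.subtype y ∈ laurentBaseChange L (modularFunctionFieldFull N) :=
    h ▸ (f : ↥(laurentBaseChange L (modularFunctionFieldFull N))).2
  have hf : f = ⟨⟨coeffMap A.subtype y, hy⟩,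
      helper508.coeffMap_mem_gaussValuationSubring N ℓ hℓN A hA y hy⟩ :=
    Subtype.ext (Subtype.ext h)
  rw [hf]
  exact helper508.gaussResidue_coeffMap N ℓ hℓN A hA y hy

/-- An element of `F̄_N` which is an `A`-integral `q`-series lies in the Gauss valuation ring. -/
theorem mem_gaussValuationSubring_of_eq
    (f : ↥(laurentBaseChange L (modularFunctionFieldFull N))) (y : LaurentSeries A)
    (h : (f : LaurentSeries L) = coeffMap A.subtype y) :
    f ∈ helper508.gaussValuationSubring N ℓ hℓN A hA := by
  have hy : coeffMap A.subtype y ∈ laurentBaseChange L (modularFunctionFieldFull N) := h ▸ f.2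
  have hf : f = ⟨coeffMap A.subtype y, hy⟩ := Subtype.ext h
  rw [hf]
  exact helper508.coeffMap_mem_gaussValuationSubring N ℓ hℓN A hA y hy

/-- `j` lies in the Gauss valuation ring. -/
theorem gaussJ_mem : gaussJ L N ∈ helper508.gaussValuationSubring N ℓ hℓN A hA :=
  mem_gaussValuationSubring_of_eq N ℓ hℓN A hA _ (jqModC A) (coeffMap_jqModC _).symm

/-- The Gauss basis lies in the Gauss valuation ring. -/
theorem gaussBasisF_mem (i : Fin (dedekindPsi N)) :
    gaussBasisF N ℓ hℓN L i ∈ helper508.gaussValuationSubring N ℓ hℓN A hA :=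
  mem_gaussValuationSubring_of_eq N ℓ hℓN A hA _
    (helper508.zTo A (helper508.gaussBasis N ℓ hℓN i)) (helper508.coeffMap_zTo _ _).symm

/-- A constant of `A` with zero residue has Gauss valuation `< 1`. -/
theorem gauss_valuation_algebraMap_lt_one (a : A) (ha : IsLocalRing.residue A a = 0) :
    (helper508.gaussValuationSubring N ℓ hℓN A hA).valuation
      (algebraMap L ↥(laurentBaseChange L (modularFunctionFieldFull N)) (a : L)) < 1 := by
  by_contra hlt
  rw [not_lt] at hlt
  have hinv : (helper508.gaussValuationSubring N ℓ hℓN A hA).valuation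
      (algebraMap L ↥(laurentBaseChange L (modularFunctionFieldFull N)) ((a : L)⁻¹)) ≤ 1 := by
    rw [map_inv₀, map_inv₀]
    exact inv_le_one_of_one_le₀ hlt
  have hmem : ((a : L)⁻¹) ∈ A :=
    (helper508.algebraMap_mem_gaussValuationSubring_iff N ℓ hℓN A hA _).mp
      ((ValuationSubring.valuation_le_one_iff _ _).mp hinv)
  have ha0 : (a : L) ≠ 0 := by
    intro h0
    rw [h0, map_zero, map_zero] at hlt
    exact not_le_of_gt zero_lt_one hlt
  have hmul : a * ⟨(a : L)⁻¹, hmem⟩ = 1 := Subtype.ext (mul_inv_cancel₀ ha0)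
  have h1 := congrArg (IsLocalRing.residue A) hmul
  rw [map_mul, ha, zero_mul, map_one] at h1
  exact zero_ne_one h1

/-- **(GO1)** The Gauss basis is an orthonormal system over `L[j]` for the Gauss valuation, in
the residue-free shape `helper8020.OrthoSys`. -/
theorem gauss_orthoSys :
    helper8020.OrthoSys L (helper508.gaussValuationSubring N ℓ hℓN A hA).valuation
      (gaussJ L N) (gaussBasisF N ℓ hℓN L) := by
  classical
  haveI : CharP (IsLocalRing.ResidueField A) ℓ := helper508.charP_residueField ℓ A hA
  refine ⟨?_, ?_, ?_⟩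
  · exact (ValuationSubring.valuation_le_one_iff _ _).mpr (gaussJ_mem N ℓ hℓN A hA)
  · intro i
    exact (ValuationSubring.valuation_le_one_iff _ _).mpr (gaussBasisF_mem N ℓ hℓN A hA i)
  · intro c hc hlt
    -- the coefficients lie in `A`
    have hcA : ∀ j m, (c j).coeff m ∈ A := fun j m =>
      (helper508.algebraMap_mem_gaussValuationSubring_iff N ℓ hℓN A hA _).mp
        ((ValuationSubring.valuation_le_one_iff _ _).mp (hc j m))
    choose C hC using fun j => helper508.exists_map_subtype_eq A (c j) (hcA j)
    -- the combination is an `A`-integral `q`-series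
    set y : LaurentSeries A :=
      ∑ j, aeval (jqModC A) (C j) * helper508.zTo A (helper508.gaussBasis N ℓ hℓN j) with hy
    set S : ↥(laurentBaseChange L (modularFunctionFieldFull N)) :=
      ∑ j, aeval (gaussJ L N) (c j) * gaussBasisF N ℓ hℓN L j with hS
    have hSy : (S : LaurentSeries L) = coeffMap A.subtype y := by
      rw [hS, hy, map_sum]
      rw [show ((∑ j, aeval (gaussJ L N) (c j) * gaussBasisF N ℓ hℓN L j :
          ↥(laurentBaseChange L (modularFunctionFieldFull N))) : LaurentSeries L) =
          ∑ j, ((aeval (gaussJ L N) (c j) * gaussBasisF N ℓ hℓN L j :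
            ↥(laurentBaseChange L (modularFunctionFieldFull N))) : LaurentSeries L) from
        map_sum (algebraMap ↥(laurentBaseChange L (modularFunctionFieldFull N))
          (LaurentSeries L)) _ _]
      refine Finset.sum_congr rfl fun j _ => ?_
      rw [map_mul, helper508.coeffMap_zTo]
      have h1 : coeffMap A.subtype (aeval (jqModC A) (C j)) = aeval (jqModC L) (c j) := by
        rw [← hC j]
        exact helper508.cA_aeval A (C j)
      rw [h1]
      show ((aeval (gaussJ L N) (c j) : ↥(laurentBaseChange L (modularFunctionFieldFull N))) :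
        LaurentSeries L) * _ = _
      rw [coe_aeval_gaussJ]
      rfl
    have hSmem : S ∈ helper508.gaussValuationSubring N ℓ hℓN A hA :=
      mem_gaussValuationSubring_of_eq N ℓ hℓN A hA S y hSy
    -- its residue vanishes
    have hnu : ¬ IsUnit (⟨S, hSmem⟩ : ↥(helper508.gaussValuationSubring N ℓ hℓN A hA)) := by
      have hmax : (⟨S, hSmem⟩ : ↥(helper508.gaussValuationSubring N ℓ hℓN A hA)) ∈
          IsLocalRing.maximalIdeal ↥(helper508.gaussValuationSubring N ℓ hℓN A hA) :=
        (ValuationSubring.valuation_lt_one_iff _ _).mpr hlt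
      exact (IsLocalRing.mem_maximalIdeal _).mp hmax
    have hres0 := (helper508.gaussResidue_eq_zero_iff N ℓ hℓN A hA ⟨S, hSmem⟩).mpr hnu
    have hres := gaussResidue_of_eq N ℓ hℓN A hA ⟨S, hSmem⟩ y hSy
    rw [hres0] at hres
    have hsum : ∑ j, aeval (jqModC (IsLocalRing.ResidueField A))
        ((C j).map (IsLocalRing.residue A)) *
          helper508.zTo (IsLocalRing.ResidueField A) (helper508.gaussBasis N ℓ hℓN j) = 0 := by
      have h2 : coeffMap (IsLocalRing.residue A) y = 0 := hres.symm
      rw [hy, map_sum] at h2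
      rw [← h2]
      refine Finset.sum_congr rfl fun j _ => ?_
      rw [map_mul, helper508.coeffMap_zTo]
      congr 1
      exact (helper508.cπ_aeval A (C j)).symm
    have hzero := helper508.gaussBasis_indep_charP N ℓ hℓN (IsLocalRing.ResidueField A)
      (fun j => (C j).map (IsLocalRing.residue A)) hsum
    intro j m
    have hjm : IsLocalRing.residue A ((C j).coeff m) = 0 := by
      have := congrArg (fun P : Fin (dedekindPsi N) → (IsLocalRing.ResidueField A)[X] =>
        (P j).coeff m) hzero
      simpa [coeff_map] using this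
    have hcoe : (c j).coeff m = (((C j).coeff m : A) : L) := by
      rw [← hC j, coeff_map]
      rfl
    rw [hcoe]
    exact gauss_valuation_algebraMap_lt_one N ℓ hℓN A hA _ hjm

/-- `j` is residually transcendental over `L` for the Gauss valuation. -/
theorem gauss_resTranscendental :
    ResTranscendental (helper508.gaussValuationSubring N ℓ hℓN A hA).valuation L (gaussJ L N) := by
  haveI : Nonempty (Fin (dedekindPsi N)) := by
    by_contra hne
    rw [not_nonempty_iff] at hne
    -- the empty family would make `0 < 1` force `v 1 < 1`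
    have h := (gauss_orthoSys N ℓ hℓN A hA).indep (fun j => isEmptyElim j)
      (fun j => isEmptyElim j)
    simp only [Finset.univ_eq_empty, Finset.sum_empty, map_zero, zero_lt_one, forall_const] at h
    have h1 := (helper508.gaussBasis_spans_bar N ℓ hℓN A hA 1 (one_mem _))
    obtain ⟨Q, P, hQ, hrel⟩ := h1
    rw [Finset.univ_eq_empty, Finset.sum_empty, mul_one] at hrel
    exact helper508.aeval_jqModC_ne_zero hQ hrel
  exact (gauss_orthoSys N ℓ hℓN A hA).resTranscendental

/-- The Gauss basis is orthonormal over `L(j)`. -/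
theorem gauss_isOrtho :
    IsOrtho (helper508.gaussValuationSubring N ℓ hℓN A hA).valuation L⟮gaussJ L N⟯
      (gaussBasisF N ℓ hℓN L) :=
  (gauss_orthoSys N ℓ hℓN A hA).isOrtho_adjoin

include A hA in
/-- **(GO2)** The Gauss basis spans `F̄_N` over `L(j)`. -/
theorem gauss_span_eq_top :
    Submodule.span L⟮gaussJ L N⟯ (Set.range (gaussBasisF N ℓ hℓN L)) = ⊤ := by
  rw [eq_top_iff]
  rintro f -
  obtain ⟨Q, P, hQ, hrel⟩ := helper508.gaussBasis_spans_bar N ℓ hℓN A hA (f : LaurentSeries L) f.2
  have hQx : aeval (gaussJ L N) Q ≠ 0 := by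
    intro h0
    apply helper508.aeval_jqModC_ne_zero hQ
    rw [← coe_aeval_gaussJ (N := N), h0]
    rfl
  have hmem : ∀ p : L[X], aeval (gaussJ L N) p ∈ L⟮gaussJ L N⟯ := fun p => by
    rw [aeval_eq_sum_range]
    refine sum_mem fun i _ => ?_
    rw [Algebra.smul_def]
    exact mul_mem (IntermediateField.algebraMap_mem _ _) (pow_mem (mem_adjoin_simple_self L _) i)
  have hf : f = ∑ i, (⟨aeval (gaussJ L N) (P i) / aeval (gaussJ L N) Q,
      div_mem (hmem (P i)) (hmem Q)⟩ : L⟮gaussJ L N⟯) • gaussBasisF N ℓ hℓN L i := by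
    have hrelF : aeval (gaussJ L N) Q * f =
        ∑ i, aeval (gaussJ L N) (P i) * gaussBasisF N ℓ hℓN L i := by
      apply Subtype.ext
      rw [show ((∑ i, aeval (gaussJ L N) (P i) * gaussBasisF N ℓ hℓN L i :
          ↥(laurentBaseChange L (modularFunctionFieldFull N))) : LaurentSeries L) =
          ∑ i, ((aeval (gaussJ L N) (P i) * gaussBasisF N ℓ hℓN L i :
            ↥(laurentBaseChange L (modularFunctionFieldFull N))) : LaurentSeries L) from
        map_sum (algebraMap ↥(laurentBaseChange L (modularFunctionFieldFull N))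
          (LaurentSeries L)) _ _]
      show ((aeval (gaussJ L N) Q : ↥(laurentBaseChange L (modularFunctionFieldFull N))) :
        LaurentSeries L) * (f : LaurentSeries L) = _
      rw [coe_aeval_gaussJ, hrel]
      refine Finset.sum_congr rfl fun i _ => ?_
      show _ = ((aeval (gaussJ L N) (P i) : ↥(laurentBaseChange L (modularFunctionFieldFull N))) :
        LaurentSeries L) * _
      rw [coe_aeval_gaussJ]
      rfl
    have h2 : ∑ i, (⟨aeval (gaussJ L N) (P i) / aeval (gaussJ L N) Q,
        div_mem (hmem (P i)) (hmem Q)⟩ : L⟮gaussJ L N⟯) • gaussBasisF N ℓ hℓN L i =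
        (aeval (gaussJ L N) Q)⁻¹ * ∑ i, aeval (gaussJ L N) (P i) * gaussBasisF N ℓ hℓN L i := by
      rw [Finset.mul_sum]
      refine Finset.sum_congr rfl fun i _ => ?_
      rw [IntermediateField.smul_def]
      show aeval (gaussJ L N) (P i) / aeval (gaussJ L N) Q * _ = _
      ring
    rw [h2, ← hrelF, ← mul_assoc, inv_mul_cancel₀ hQx, one_mul]
  rw [hf]
  exact Submodule.sum_mem _ fun i _ =>
    Submodule.smul_mem _ _ (Submodule.subset_span (Set.mem_range_self i))

include ℓ hℓN A hA in
/-- **(GO2)** `[F̄_N : L(j)] = ψ(N)`. -/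
theorem gauss_finrank :
    Module.finrank L⟮gaussJ L N⟯ ↥(laurentBaseChange L (modularFunctionFieldFull N)) =
      dedekindPsi N := by
  have h := Module.finrank_eq_card_basis
    (Module.Basis.mk (gauss_isOrtho N ℓ hℓN A hA).linearIndependent
      (gauss_span_eq_top N ℓ hℓN A hA).ge)
  rw [h, Fintype.card_fin]

/-- **(GO3)** The residue map of the Gauss valuation ring sends constants to constants. -/
theorem gaussResidue_algebraMap (a : L)
    (ha : algebraMap L ↥(laurentBaseChange L (modularFunctionFieldFull N)) a ∈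
      helper508.gaussValuationSubring N ℓ hℓN A hA) :
    helper508.gaussResidue N ℓ hℓN A hA ⟨_, ha⟩ =
      algebraMap (IsLocalRing.ResidueField A)
        ↥(modularFunctionFieldFullC (IsLocalRing.ResidueField A) N)
        (IsLocalRing.residue A
          ⟨a, (helper508.algebraMap_mem_gaussValuationSubring_iff N ℓ hℓN A hA a).mp ha⟩) := by
  apply Subtype.ext
  have haA : a ∈ A := (helper508.algebraMap_mem_gaussValuationSubring_iff N ℓ hℓN A hA a).mp ha
  rw [gaussResidue_of_eq N ℓ hℓN A hA ⟨_, ha⟩ (algebraMap A (LaurentSeries A) ⟨a, haA⟩)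
    (by
      rw [S28.helper3292.coeffMap_algebraMap']
      rfl)]
  rw [S28.helper3292.coeffMap_algebraMap']
  rfl

/-- **(GO3)** Compatibility of the residue map with constants, in the shape consumed by the
integrality-transfer adapter. -/
theorem gauss_compat (a : L)
    (ha : algebraMap L ↥(laurentBaseChange L (modularFunctionFieldFull N)) a ∈
      helper508.gaussValuationSubring N ℓ hℓN A hA) :
    ∃ c : IsLocalRing.ResidueField A,
      helper508.gaussResidue N ℓ hℓN A hA ⟨_, ha⟩ =
        algebraMap (IsLocalRing.ResidueField A)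
          ↥(modularFunctionFieldFullC (IsLocalRing.ResidueField A) N) c :=
  ⟨_, gaussResidue_algebraMap N ℓ hℓN A hA a ha⟩

/-- **(GO4)** Integrality transfer on both charts `j`, `j⁻¹` for the concrete Gauss field, in the
shape `helper6292.IntegralityTransfer`: an element of the Gauss valuation ring integral over
`L[j]` (resp. `L[j⁻¹]`) has residue integral over `k[j̄]` (resp. `k[j̄⁻¹]`). -/
theorem gauss_integralityTransfer :
    helper6292.IntegralityTransfer L (IsLocalRing.ResidueField A)
        (helper508.gaussValuationSubring N ℓ hℓN A hA) (helper508.gaussResidue N ℓ hℓN A hA)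
        (gaussJ L N)
        (helper508.gaussResidue N ℓ hℓN A hA ⟨gaussJ L N, gaussJ_mem N ℓ hℓN A hA⟩) ∧
      helper6292.IntegralityTransfer L (IsLocalRing.ResidueField A)
        (helper508.gaussValuationSubring N ℓ hℓN A hA) (helper508.gaussResidue N ℓ hℓN A hA)
        (gaussJ L N)⁻¹
        (helper508.gaussResidue N ℓ hℓN A hA ⟨gaussJ L N, gaussJ_mem N ℓ hℓN A hA⟩)⁻¹ :=
  ⟨integralityTransfer_of_isOrtho _ _ (gauss_compat N ℓ hℓN A hA) (gaussJ_mem N ℓ hℓN A hA)
      (gauss_resTranscendental N ℓ hℓN A hA) (gauss_isOrtho N ℓ hℓN A hA)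
      (gauss_span_eq_top N ℓ hℓN A hA),
    integralityTransfer_inv_of_isOrtho _ _ (gauss_compat N ℓ hℓN A hA) (gaussJ_mem N ℓ hℓN A hA)
      (gauss_resTranscendental N ℓ hℓN A hA) (gauss_isOrtho N ℓ hℓN A hA)
      (gauss_span_eq_top N ℓ hℓN A hA)⟩

/-- **(GO4, CART)** Every finite-dimensional `L`-subspace of `F̄_N` has an orthonormal `L`-basis
for the Gauss valuation. -/
theorem gauss_exists_isOrtho_basis
    (V : Submodule L ↥(laurentBaseChange L (modularFunctionFieldFull N)))
    [FiniteDimensional L V] :
    ∃ e : Fin (Module.finrank L V) → ↥(laurentBaseChange L (modularFunctionFieldFull N)),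
      (∀ i, e i ∈ V) ∧
      IsOrtho (helper508.gaussValuationSubring N ℓ hℓN A hA).valuation L e ∧
      Submodule.span L (Set.range e) = V :=
  exists_isOrtho_basis (gauss_resTranscendental N ℓ hℓN A hA) (gauss_isOrtho N ℓ hℓN A hA)
    (gauss_span_eq_top N ℓ hℓN A hA) V

/-! ### The two landed Gauss rings coincide

`helper8991.gaussF A π N` (fractions `X / Y` of `A`-integral series, `Ȳ ≠ 0`; residue map with
values in `k((q))`) and `helper508.gaussValuationSubring` (denominators `Q(j)`; residue map with
values in `modularFunctionFieldFullC k N`) are the same valuation subring of `F̄_N` when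
`π = IsLocalRing.residue A` and `ℓ ∤ N`, with the same residue map.  In particular the residue
map of `gaussF` takes its values in `modularFunctionFieldFullC k N`. -/

/-- The Gauss ring of `helper508` is contained in the Gauss ring of `helper8991`. -/
theorem gaussValuationSubring_le_gaussF
    (f : ↥(laurentBaseChange L (modularFunctionFieldFull N)))
    (hf : f ∈ helper508.gaussValuationSubring N ℓ hℓN A hA) :
    f ∈ helper8991.gaussF A (IsLocalRing.residue A) N := by
  obtain ⟨Q, y, hQ, h⟩ := hf
  refine ⟨y, aeval (jqModC A) Q, ?_, ?_⟩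
  · show helper508.cπ A (aeval (jqModC A) Q) ≠ 0
    rw [helper508.cπ_aeval]
    exact helper508.aeval_jqModC_ne_zero hQ
  · show (f : LaurentSeries L) * helper508.cA A (aeval (jqModC A) Q) = coeffMap A.subtype y
    rw [helper508.cA_aeval, mul_comm]
    exact h

/-- On the Gauss ring of `helper508` the two residue maps agree. -/
theorem gaussFRed_eq_gaussResidue
    (f : ↥(laurentBaseChange L (modularFunctionFieldFull N)))
    (hf : f ∈ helper508.gaussValuationSubring N ℓ hℓN A hA)
    (hf' : f ∈ helper8991.gaussF A (IsLocalRing.residue A) N) :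
    helper8991.gaussFRed A (IsLocalRing.residue A) N ⟨f, hf'⟩ =
      ((helper508.gaussResidue N ℓ hℓN A hA ⟨f, hf⟩ :
        ↥(modularFunctionFieldFullC (IsLocalRing.ResidueField A) N)) :
          LaurentSeries (IsLocalRing.ResidueField A)) := by
  obtain ⟨Q, y, hQ, h⟩ := id hf
  have hY : helper8991.red A (IsLocalRing.residue A) (aeval (jqModC A) Q) ≠ 0 := by
    show helper508.cπ A (aeval (jqModC A) Q) ≠ 0
    rw [helper508.cπ_aeval]
    exact helper508.aeval_jqModC_ne_zero hQ
  have h' : (f : LaurentSeries L) * helper8991.inc A (aeval (jqModC A) Q) =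
      helper8991.inc A y := by
    show (f : LaurentSeries L) * helper508.cA A (aeval (jqModC A) Q) = coeffMap A.subtype y
    rw [helper508.cA_aeval, mul_comm]
    exact h
  rw [helper8991.gaussFRed_eq A (IsLocalRing.residue A) N ⟨f, hf'⟩ hY h',
    helper508.gaussResidue_eq N ℓ hℓN A hA ⟨f, hf⟩ Q y hQ h]
  show coeffMap (IsLocalRing.residue A) y / helper508.cπ A (aeval (jqModC A) Q) = _
  rw [helper508.cπ_aeval]

/-- **The two landed Gauss valuation rings coincide.** -/
theorem gaussF_eq :
    helper8991.gaussF A (IsLocalRing.residue A) N =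
      helper508.gaussValuationSubring N ℓ hℓN A hA := by
  apply SetLike.ext
  intro f
  refine ⟨fun hf' => ?_, gaussValuationSubring_le_gaussF N ℓ hℓN A hA f⟩
  by_contra hf
  have hg : f⁻¹ ∈ helper508.gaussValuationSubring N ℓ hℓN A hA :=
    ((helper508.gaussValuationSubring N ℓ hℓN A hA).mem_or_inv_mem f).resolve_left hf
  have hf0 : f ≠ 0 := fun h0 => hf (h0 ▸ zero_mem _)
  have hg' := gaussValuationSubring_le_gaussF N ℓ hℓN A hA f⁻¹ hg
  -- `f⁻¹` is not a unit of the smaller ring
  have hnu : ¬ IsUnit (⟨f⁻¹, hg⟩ : ↥(helper508.gaussValuationSubring N ℓ hℓN A hA)) := by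
    rintro ⟨u, hu⟩
    apply hf
    have h1 : ((u⁻¹ : (↥(helper508.gaussValuationSubring N ℓ hℓN A hA))ˣ) :
        ↥(helper508.gaussValuationSubring N ℓ hℓN A hA)) * ⟨f⁻¹, hg⟩ = 1 := by
      rw [← hu]
      exact u.inv_mul
    have h2 := congrArg (Subtype.val) h1
    have h3 : (((u⁻¹ : (↥(helper508.gaussValuationSubring N ℓ hℓN A hA))ˣ) :
        ↥(helper508.gaussValuationSubring N ℓ hℓN A hA)) :
          ↥(laurentBaseChange L (modularFunctionFieldFull N))) = f := by
      have h4 : (((u⁻¹ : (↥(helper508.gaussValuationSubring N ℓ hℓN A hA))ˣ) :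
          ↥(helper508.gaussValuationSubring N ℓ hℓN A hA)) :
            ↥(laurentBaseChange L (modularFunctionFieldFull N))) * f⁻¹ = 1 := h2
      exact eq_of_mul_inv_eq_one h4 |>.trans rfl
    rw [← h3]
    exact SetLike.coe_mem _
  have hres0 := (helper508.gaussResidue_eq_zero_iff N ℓ hℓN A hA ⟨f⁻¹, hg⟩).mpr hnu
  have hred0 : helper8991.gaussFRed A (IsLocalRing.residue A) N ⟨f⁻¹, hg'⟩ = 0 := by
    rw [gaussFRed_eq_gaussResidue N ℓ hℓN A hA f⁻¹ hg hg', hres0]
    rfl
  have hmul : (⟨f⁻¹, hg'⟩ : ↥(helper8991.gaussF A (IsLocalRing.residue A) N)) * ⟨f, hf'⟩ = 1 :=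
    Subtype.ext (inv_mul_cancel₀ hf0)
  have h1 := congrArg (helper8991.gaussFRed A (IsLocalRing.residue A) N) hmul
  rw [map_mul, hred0, zero_mul, map_one] at h1
  exact zero_ne_one h1

include ℓ hℓN hA in
/-- **The range hypothesis (`hrange` of `helper375.gaussRedDatum`) holds**: the residue map of
`helper8991.gaussF` takes its values in the function field of the special fibre. -/
theorem gaussFRed_mem_fullC (f : ↥(helper8991.gaussF A (IsLocalRing.residue A) N)) :
    helper8991.gaussFRed A (IsLocalRing.residue A) N f ∈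
      modularFunctionFieldFullC (IsLocalRing.ResidueField A) N := by
  have hf : (f : ↥(laurentBaseChange L (modularFunctionFieldFull N))) ∈
      helper508.gaussValuationSubring N ℓ hℓN A hA := by
    rw [← gaussF_eq N ℓ hℓN A hA]
    exact f.2
  have h := gaussFRed_eq_gaussResidue N ℓ hℓN A hA f hf f.2
  have h2 : helper8991.gaussFRed A (IsLocalRing.residue A) N f =
      helper8991.gaussFRed A (IsLocalRing.residue A) N ⟨(f : ↥(laurentBaseChange L
        (modularFunctionFieldFull N))), f.2⟩ := rfl
  rw [h2, h]
  exact SetLike.coe_mem _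

include hA in
/-- (GO1) for the Gauss ring of `helper8991`. -/
theorem gaussF_orthoSys :
    helper8020.OrthoSys L (helper8991.gaussF A (IsLocalRing.residue A) N).valuation
      (gaussJ L N) (gaussBasisF N ℓ hℓN L) := by
  rw [gaussF_eq N ℓ hℓN A hA]
  exact gauss_orthoSys N ℓ hℓN A hA

include ℓ hℓN hA in
/-- Residual transcendence of `j` for the Gauss ring of `helper8991`. -/
theorem gaussF_resTranscendental :
    ResTranscendental (helper8991.gaussF A (IsLocalRing.residue A) N).valuation L
      (gaussJ L N) := by
  rw [gaussF_eq N ℓ hℓN A hA]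
  exact gauss_resTranscendental N ℓ hℓN A hA

include hA in
/-- Orthonormality of the Gauss basis over `L(j)` for the Gauss ring of `helper8991`. -/
theorem gaussF_isOrtho :
    IsOrtho (helper8991.gaussF A (IsLocalRing.residue A) N).valuation L⟮gaussJ L N⟯
      (gaussBasisF N ℓ hℓN L) := by
  rw [gaussF_eq N ℓ hℓN A hA]
  exact gauss_isOrtho N ℓ hℓN A hA

/-! ### A second base line `t` with `j ∈ L(t)` (Hauptmodul lines) -/

/-- **Residual transcendence on a second line.** An element of `F̄_N` which is an `A`-integral
`q`-series whose coefficientwise reduction is transcendental over `k` is residually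
transcendental for the Gauss valuation. -/
theorem gauss_resTranscendental_of_series (y : LaurentSeries A)
    (hy : coeffMap A.subtype y ∈ laurentBaseChange L (modularFunctionFieldFull N))
    (htr : Transcendental (IsLocalRing.ResidueField A) (coeffMap (IsLocalRing.residue A) y)) :
    ResTranscendental (helper508.gaussValuationSubring N ℓ hℓN A hA).valuation L
      (⟨coeffMap A.subtype y, hy⟩ : ↥(laurentBaseChange L (modularFunctionFieldFull N))) := by
  rw [← gaussF_eq N ℓ hℓN A hA]
  exact helper380.resTranscendental_gaussSubring_of_transcendental A (IsLocalRing.residue A)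
    (laurentBaseChange L (modularFunctionFieldFull N)) _
    (fun a ha => (IsLocalRing.residue_eq_zero_iff a).mpr ha) hy htr

/-- **Orthonormal system on a second line.** If `t` is residually transcendental and
`j ∈ L(t)`, then `F̄_N` has an orthonormal basis over `L(t)`, which is an `OrthoSys` on the line
`t`. -/
theorem gauss_exists_orthoSys_of_mem_adjoin
    {t : ↥(laurentBaseChange L (modularFunctionFieldFull N))}
    (ht : ResTranscendental (helper508.gaussValuationSubring N ℓ hℓN A hA).valuation L t)
    (hj : gaussJ L N ∈ L⟮t⟯) :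
    ∃ e : Fin (Module.finrank L⟮t⟯ ↥(laurentBaseChange L (modularFunctionFieldFull N))) →
        ↥(laurentBaseChange L (modularFunctionFieldFull N)),
      helper8020.OrthoSys L (helper508.gaussValuationSubring N ℓ hℓN A hA).valuation t e ∧
      IsOrtho (helper508.gaussValuationSubring N ℓ hℓN A hA).valuation L⟮t⟯ e ∧
      Submodule.span L⟮t⟯ (Set.range e) = ⊤ := by
  haveI : Nonempty (Fin (dedekindPsi N)) :=
    ⟨⟨0, S28.helper1595.dedekindPsi_pos (NeZero.pos N)⟩⟩
  exact helper380.orthoSys_tower (gauss_orthoSys N ℓ hℓN A hA)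
    (by rw [gauss_finrank N ℓ hℓN A hA, Fintype.card_fin]) hj ht

/-- **Integrality transfer on a second line**, both charts `t`, `t⁻¹`, in the shape
`helper6292.IntegralityTransfer`. -/
theorem gauss_integralityTransfer_of_mem_adjoin
    {t : ↥(laurentBaseChange L (modularFunctionFieldFull N))}
    (ht : ResTranscendental (helper508.gaussValuationSubring N ℓ hℓN A hA).valuation L t)
    (hj : gaussJ L N ∈ L⟮t⟯)
    (htO : t ∈ helper508.gaussValuationSubring N ℓ hℓN A hA) :
    helper6292.IntegralityTransfer L (IsLocalRing.ResidueField A)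
        (helper508.gaussValuationSubring N ℓ hℓN A hA) (helper508.gaussResidue N ℓ hℓN A hA)
        t (helper508.gaussResidue N ℓ hℓN A hA ⟨t, htO⟩) ∧
      helper6292.IntegralityTransfer L (IsLocalRing.ResidueField A)
        (helper508.gaussValuationSubring N ℓ hℓN A hA) (helper508.gaussResidue N ℓ hℓN A hA)
        t⁻¹ (helper508.gaussResidue N ℓ hℓN A hA ⟨t, htO⟩)⁻¹ := by
  obtain ⟨e, -, he, hspan⟩ := gauss_exists_orthoSys_of_mem_adjoin N ℓ hℓN A hA ht hj
  exact ⟨integralityTransfer_of_isOrtho _ _ (gauss_compat N ℓ hℓN A hA) htO ht he hspan,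
    integralityTransfer_inv_of_isOrtho _ _ (gauss_compat N ℓ hℓN A hA) htO ht he hspan⟩

end GaussOrtho

end Fermat.Agent.S18.helper1733
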