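/-
S18, track A, leaf S18-A-GENUSGLUE (helper1364).

Glue between the Prelude-place Riemann theorem (`helper981_Riemann`: `riemannGenus`) and the
place-free two-chart description of `L(n · X∞)` (`helper6292_RedContain`):

* `chartSpace K x n` is the `K`-space `B₁ ∩ xⁿ B₂` (`B₁`, `B₂` the integral closures of `K[x]`,
  `K[x⁻¹]` in `F`), and `riemannRochSpace (n • X∞) = chartSpace K x n` when `X∞` is the pole
  divisor of `x` and both charts are "chart integral" (hard direction of the dictionary).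
* `ChartRiemann K x d γ`: the chart form of Riemann's theorem (DU2):
  `dim (B₁ ∩ xⁿ B₂) = n * d + 1 - γ` for `n ≥ n₀`.
* (GG1) `riemannGenus_eq_of_chartRiemann`: the Riemann genus of `helper981` equals `γ`.
* (GG2) `riem_generic`: `∀ D, deg D + 1 - γ ≤ l(D)`       (the input `(Riem_F)` of KC-FF).
* (GG3) `riem_special`: `∃ c, ∀ E, c ≤ deg E → l(E) ≤ deg E + 1 - γ'` for every `γ' ≤ γ`
  (the input `(Riem_k)` of KC-FF on the special fibre, `γ'` the chart genus of the generic fibre).

Everything is characteristic free and hypothesis-passing.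
-/
import Mathlib
import Fermat.Prelude.Def_AlgebraicCurve_Repartitions
import Fermat.Agent.S18.helper981_Riemann
import Fermat.Agent.S18.helper6292_RedContain

set_option autoImplicit false

namespace Fermat.Agent.S18.helper1364

open AlgebraicCurve Module IntermediateField
open Fermat.Agent.S18.helper981 Fermat.Agent.S18.helper6292

section ChartSpace

variable {K F : Type*} [Field K] [Field F] [Algebra K F]

/-- Constants are integral over `K[x]`. -/
theorem isIntegral_adjoin_algebraMap (x : F) (c : K) :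
    IsIntegral (Algebra.adjoin K {x}) (algebraMap K F c) := by
  have h : algebraMap K F c =
      algebraMap (Algebra.adjoin K {x}) F (algebraMap K (Algebra.adjoin K {x}) c) := rfl
  rw [h]
  exact isIntegral_algebraMap

/-- The place-free two-chart space `B₁ ∩ xⁿ B₂`: elements integral over `K[x]` whose product
with `x⁻ⁿ` is integral over `K[x⁻¹]`. -/
def chartSpace (K : Type*) {F : Type*} [Field K] [Field F] [Algebra K F] (x : F) (n : ℕ) :
    Submodule K F where
  carrier := {g | IsIntegral (Algebra.adjoin K {x}) g ∧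
    IsIntegral (Algebra.adjoin K {x⁻¹}) (x⁻¹ ^ n * g)}
  zero_mem' := ⟨isIntegral_zero, by rw [mul_zero]; exact isIntegral_zero⟩
  add_mem' := fun {a b} ha hb => ⟨ha.1.add hb.1, by rw [mul_add]; exact ha.2.add hb.2⟩
  smul_mem' := fun c g hg => by
    refine ⟨?_, ?_⟩
    · rw [Algebra.smul_def]
      exact (isIntegral_adjoin_algebraMap x c).mul hg.1
    · rw [Algebra.smul_def, mul_left_comm]
      exact (isIntegral_adjoin_algebraMap x⁻¹ c).mul hg.2

theorem mem_chartSpace {x : F} {n : ℕ} {g : F} :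
    g ∈ chartSpace K x n ↔ IsIntegral (Algebra.adjoin K {x}) g ∧
      IsIntegral (Algebra.adjoin K {x⁻¹}) (x⁻¹ ^ n * g) := Iff.rfl

/-- The chart dictionary: `L(n · X∞) = B₁ ∩ xⁿ B₂`. -/
theorem riemannRochSpace_nsmul_eq_chartSpace {x : F} (hx0 : x ≠ 0) {X : Divisor K F}
    (hX : IsPoleDivisor x X) (hC : ChartIntegral K x) (hC' : ChartIntegral K x⁻¹) (n : ℕ) :
    riemannRochSpace (n • X) = chartSpace K x n := by
  ext g
  exact mem_riemannRochSpace_iff_isIntegral hx0 hX hC hC' n g

/-- Chart form of Riemann's theorem (DU2): `dim (B₁ ∩ xⁿ B₂) = n * d + 1 - γ` for `n ≥ n₀`. -/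
def ChartRiemann (K : Type*) {F : Type*} [Field K] [Field F] [Algebra K F] (x : F) (d : ℕ)
    (γ : ℤ) : Prop :=
  ∃ n₀ : ℕ, ∀ n : ℕ, n₀ ≤ n → (finrank K (chartSpace K x n) : ℤ) = (n : ℤ) * d + 1 - γ

/-- `ChartRiemann` from any family of subspaces with the two-chart membership criterion. -/
theorem chartRiemann_of_family {x : F} {d : ℕ} {γ : ℤ} (V : ℕ → Submodule K F)
    (hV : ∀ n g, g ∈ V n ↔ IsIntegral (Algebra.adjoin K {x}) g ∧
      IsIntegral (Algebra.adjoin K {x⁻¹}) (x⁻¹ ^ n * g))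
    (hdim : ∃ n₀ : ℕ, ∀ n : ℕ, n₀ ≤ n → (finrank K (V n) : ℤ) = (n : ℤ) * d + 1 - γ) :
    ChartRiemann K x d γ := by
  obtain ⟨n₀, hn₀⟩ := hdim
  refine ⟨n₀, fun n hn => ?_⟩
  have : V n = chartSpace K x n := by
    ext g
    exact (hV n g).trans mem_chartSpace.symm
  rw [← this]
  exact hn₀ n hn

end ChartSpace

section Glue

variable {K F : Type*} [Field K] [Field F] [Algebra K F]

/-- (GG1) The Riemann genus (Prelude places, `helper981`) equals the chart genus `γ` as soon as
the chart form of Riemann's theorem holds and the pole divisor of `x` has degree `d > 0`. -/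
theorem riemannGenus_eq_of_chartRiemann [HasPrincipalDivisors K F]
    (hdeg : ∀ v : Place K F, v.deg = 1) (P₀ : Place K F) (h : HasRiemannBound K F)
    {x : F} (hx0 : x ≠ 0) {X : Divisor K F} (hX : IsPoleDivisor x X)
    (hC : ChartIntegral K x) (hC' : ChartIntegral K x⁻¹)
    {d : ℕ} (hd : 0 < d) (hXdeg : Divisor.degree X = d) {γ : ℤ}
    (hCR : ChartRiemann K x d γ) : (riemannGenus K F : ℤ) = γ := by
  obtain ⟨n₀, hn₀⟩ := hCR
  refine riemannGenus_eq_of hdeg P₀ h (fun c => ?_)
  refine ⟨(max n₀ c.toNat) • X, ?_, ?_⟩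
  · rw [map_nsmul, hXdeg, nsmul_eq_mul]
    have h1 : c ≤ (c.toNat : ℤ) := Int.self_le_toNat c
    have h2 : (c.toNat : ℤ) ≤ ((max n₀ c.toNat : ℕ) : ℤ) := by
      exact_mod_cast le_max_right n₀ c.toNat
    have h3 : (1 : ℤ) ≤ (d : ℤ) := by exact_mod_cast hd
    have h4 : (0 : ℤ) ≤ ((max n₀ c.toNat : ℕ) : ℤ) := Int.natCast_nonneg _
    nlinarith
  · rw [riemannRochSpace_nsmul_eq_chartSpace hx0 hX hC hC', hn₀ _ (le_max_left _ _),
      map_nsmul, hXdeg, nsmul_eq_mul]

/-- (GG2) Riemann's inequality with the chart genus: the input `(Riem_F)` of KC-FF. -/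
theorem riem_generic [HasPrincipalDivisors K F]
    (hdeg : ∀ v : Place K F, v.deg = 1) (P₀ : Place K F) (h : HasRiemannBound K F)
    {x : F} (hx0 : x ≠ 0) {X : Divisor K F} (hX : IsPoleDivisor x X)
    (hC : ChartIntegral K x) (hC' : ChartIntegral K x⁻¹)
    {d : ℕ} (hd : 0 < d) (hXdeg : Divisor.degree X = d) {γ : ℤ}
    (hCR : ChartRiemann K x d γ) (D : Divisor K F) :
    Divisor.degree D + 1 - γ ≤ (finrank K (riemannRochSpace D) : ℤ) := by
  have h1 := riemannGenus_mem h D
  rwa [riemannGenus_eq_of_chartRiemann hdeg P₀ h hx0 hX hC hC' hd hXdeg hCR] at h1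

/-- Riemann's theorem with the chart genus: equality for divisors of large degree. -/
theorem exists_forall_finrank_eq_chart [HasPrincipalDivisors K F]
    (hdeg : ∀ v : Place K F, v.deg = 1) (P₀ : Place K F) (h : HasRiemannBound K F)
    {x : F} (hx0 : x ≠ 0) {X : Divisor K F} (hX : IsPoleDivisor x X)
    (hC : ChartIntegral K x) (hC' : ChartIntegral K x⁻¹)
    {d : ℕ} (hd : 0 < d) (hXdeg : Divisor.degree X = d) {γ : ℤ}
    (hCR : ChartRiemann K x d γ) :
    ∃ c : ℤ, ∀ D : Divisor K F, c ≤ Divisor.degree D →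
      (finrank K (riemannRochSpace D) : ℤ) = Divisor.degree D + 1 - γ := by
  obtain ⟨c, hc⟩ := exists_forall_finrank_eq hdeg P₀ h
  refine ⟨c, fun D hD => ?_⟩
  rw [hc D hD, riemannGenus_eq_of_chartRiemann hdeg P₀ h hx0 hX hC hC' hd hXdeg hCR]

/-- (GG3) The one-sided bound on the special fibre: the input `(Riem_k)` of KC-FF, for every
`γ'` (the chart genus of the generic fibre) below the chart genus `γ` of this fibre. -/
theorem riem_special [HasPrincipalDivisors K F]
    (hdeg : ∀ v : Place K F, v.deg = 1) (P₀ : Place K F) (h : HasRiemannBound K F)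
    {x : F} (hx0 : x ≠ 0) {X : Divisor K F} (hX : IsPoleDivisor x X)
    (hC : ChartIntegral K x) (hC' : ChartIntegral K x⁻¹)
    {d : ℕ} (hd : 0 < d) (hXdeg : Divisor.degree X = d) {γ : ℤ}
    (hCR : ChartRiemann K x d γ) {γ' : ℤ} (hγ : γ' ≤ γ) :
    ∃ c : ℤ, ∀ E : Divisor K F, c ≤ Divisor.degree E →
      (finrank K (riemannRochSpace E) : ℤ) ≤ Divisor.degree E + 1 - γ' := by
  obtain ⟨c, hc⟩ := exists_forall_finrank_eq_chart hdeg P₀ h hx0 hX hC hC' hd hXdeg hCR
  refine ⟨c, fun E hE => ?_⟩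
  rw [hc E hE]
  linarith

end Glue

section Transcendental

variable {K F : Type*} [Field K] [Field F] [Algebra K F]

/-- `HasRiemannBound` from one transcendental `x` whose pole divisor has degree `[F : K(x)]`. -/
theorem hasRiemannBound_of_poleDivisor [HasPrincipalDivisors K F]
    (hdeg : ∀ v : Place K F, v.deg = 1) (P₀ : Place K F)
    (x : F) (hx : Transcendental K x) [FiniteDimensional K⟮x⟯ F]
    {X : Divisor K F} (hX : IsPoleDivisor x X)
    (hXdeg : Divisor.degree X = (finrank K⟮x⟯ F : ℤ)) : HasRiemannBound K F :=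
  hasRiemannBound_of_transcendental x hx P₀ hdeg X hX hXdeg.le

/-- (GG1), packaged: `x` transcendental, `[F : K(x)] = d`, pole divisor of degree `d`. -/
theorem riemannGenus_eq_chartGenus [HasPrincipalDivisors K F]
    (hdeg : ∀ v : Place K F, v.deg = 1) (P₀ : Place K F)
    (x : F) (hx : Transcendental K x) [FiniteDimensional K⟮x⟯ F]
    {X : Divisor K F} (hX : IsPoleDivisor x X)
    (hXdeg : Divisor.degree X = (finrank K⟮x⟯ F : ℤ))
    (hC : ChartIntegral K x) (hC' : ChartIntegral K x⁻¹) {γ : ℤ}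
    (hCR : ChartRiemann K x (finrank K⟮x⟯ F) γ) : (riemannGenus K F : ℤ) = γ := by
  have hx0 : x ≠ 0 := fun h0 => hx (h0 ▸ isAlgebraic_zero)
  exact riemannGenus_eq_of_chartRiemann hdeg P₀
    (hasRiemannBound_of_poleDivisor hdeg P₀ x hx hX hXdeg) hx0 hX hC hC'
    Module.finrank_pos hXdeg hCR

/-- (GG2), packaged. -/
theorem riem_generic_of_transcendental [HasPrincipalDivisors K F]
    (hdeg : ∀ v : Place K F, v.deg = 1) (P₀ : Place K F)
    (x : F) (hx : Transcendental K x) [FiniteDimensional K⟮x⟯ F]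
    {X : Divisor K F} (hX : IsPoleDivisor x X)
    (hXdeg : Divisor.degree X = (finrank K⟮x⟯ F : ℤ))
    (hC : ChartIntegral K x) (hC' : ChartIntegral K x⁻¹) {γ : ℤ}
    (hCR : ChartRiemann K x (finrank K⟮x⟯ F) γ) (D : Divisor K F) :
    Divisor.degree D + 1 - γ ≤ (finrank K (riemannRochSpace D) : ℤ) := by
  have hx0 : x ≠ 0 := fun h0 => hx (h0 ▸ isAlgebraic_zero)
  exact riem_generic hdeg P₀ (hasRiemannBound_of_poleDivisor hdeg P₀ x hx hX hXdeg) hx0 hX hC hC'
    Module.finrank_pos hXdeg hCR D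

/-- (GG3), packaged. -/
theorem riem_special_of_transcendental [HasPrincipalDivisors K F]
    (hdeg : ∀ v : Place K F, v.deg = 1) (P₀ : Place K F)
    (x : F) (hx : Transcendental K x) [FiniteDimensional K⟮x⟯ F]
    {X : Divisor K F} (hX : IsPoleDivisor x X)
    (hXdeg : Divisor.degree X = (finrank K⟮x⟯ F : ℤ))
    (hC : ChartIntegral K x) (hC' : ChartIntegral K x⁻¹) {γ : ℤ}
    (hCR : ChartRiemann K x (finrank K⟮x⟯ F) γ) {γ' : ℤ} (hγ : γ' ≤ γ) :
    ∃ c : ℤ, ∀ E : Divisor K F, c ≤ Divisor.degree E →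
      (finrank K (riemannRochSpace E) : ℤ) ≤ Divisor.degree E + 1 - γ' := by
  have hx0 : x ≠ 0 := fun h0 => hx (h0 ▸ isAlgebraic_zero)
  exact riem_special hdeg P₀ (hasRiemannBound_of_poleDivisor hdeg P₀ x hx hX hXdeg) hx0 hX hC hC'
    Module.finrank_pos hXdeg hCR hγ

end Transcendental

end Fermat.Agent.S18.helper1364
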