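/-
S18 — Kummer core, FUNCTION-FIELD INSTANTIATION (board #1018, helper2030).

The generic theorem of route #1924 (1), in Prelude vocabulary (`Place`, `Divisor`,
`riemannRochSpace`), obtained from the landed abstract core `helper1788.kummer_core`.
-/
import Mathlib
import Fermat.Prelude.Def_AlgebraicCurve_Repartitions
import Fermat.Agent.S18.helper1788_KummerCore

set_option autoImplicit false

noncomputable section

namespace Fermat.Agent.S18.helper2030

open AlgebraicCurve WithZero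

section RR

variable {K F : Type*} [Field K] [Field F] [Algebra K F]

theorem mem_rr {D : Divisor K F} {f : F} :
    f ∈ riemannRochSpace D ↔ ∀ v : Place K F, v.adicValuation f ≤ exp (D v) := Iff.rfl

theorem rr_mono {D D' : Divisor K F} (h : D ≤ D') :
    riemannRochSpace D ≤ riemannRochSpace D' :=
  fun _ hf v => (hf v).trans (exp_le_exp.mpr (Finsupp.le_def.mp h v))

theorem mul_mem_rr {D E : Divisor K F} {f g : F} (hf : f ∈ riemannRochSpace D)
    (hg : g ∈ riemannRochSpace E) : f * g ∈ riemannRochSpace (D + E) := fun v => by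
  rw [map_mul, Finsupp.add_apply, exp_add]
  exact mul_le_mul' (hf v) (hg v)

theorem one_mem_rr {D : Divisor K F} (h : 0 ≤ D) : (1 : F) ∈ riemannRochSpace D := fun v => by
  rw [map_one]
  have h0 : (0 : ℤ) ≤ D v := by simpa using Finsupp.le_def.mp h v
  calc (1 : ℤᵐ⁰) = exp (0 : ℤ) := exp_zero.symm
    _ ≤ exp (D v) := exp_le_exp.mpr h0

/-- The divisor `a X + b Y`. -/
def twoDiv (X Y : Divisor K F) (a b : ℕ) : Divisor K F := a • X + b • Y

@[simp] theorem twoDiv_apply (X Y : Divisor K F) (a b : ℕ) (v : Place K F) :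
    twoDiv X Y a b v = a * X v + b * Y v := by
  simp [twoDiv]

theorem twoDiv_nonneg {X Y : Divisor K F} (hX : 0 ≤ X) (hY : 0 ≤ Y) (a b : ℕ) :
    0 ≤ twoDiv X Y a b := by
  rw [Finsupp.le_def]
  intro v
  have h1 : (0 : ℤ) ≤ X v := by simpa using Finsupp.le_def.mp hX v
  have h2 : (0 : ℤ) ≤ Y v := by simpa using Finsupp.le_def.mp hY v
  rw [twoDiv_apply]
  simp only [Finsupp.coe_zero, Pi.zero_apply]
  positivity

theorem twoDiv_mono {X Y : Divisor K F} (hX : 0 ≤ X) (hY : 0 ≤ Y) {a a' b b' : ℕ}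
    (ha : a ≤ a') (hb : b ≤ b') : twoDiv X Y a b ≤ twoDiv X Y a' b' := by
  rw [Finsupp.le_def]
  intro v
  have h1 : (0 : ℤ) ≤ X v := by simpa using Finsupp.le_def.mp hX v
  have h2 : (0 : ℤ) ≤ Y v := by simpa using Finsupp.le_def.mp hY v
  rw [twoDiv_apply, twoDiv_apply]
  have ha' : (a : ℤ) ≤ a' := by exact_mod_cast ha
  have hb' : (b : ℤ) ≤ b' := by exact_mod_cast hb
  exact add_le_add (mul_le_mul_of_nonneg_right ha' h1) (mul_le_mul_of_nonneg_right hb' h2)

theorem degree_twoDiv (X Y : Divisor K F) (a b : ℕ) :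
    Divisor.degree (twoDiv X Y a b) = a * Divisor.degree X + b * Divisor.degree Y := by
  simp [twoDiv]

/-- Chart separation. -/
theorem rr_sep {D0 X Y : Divisor K F} (hX : 0 ≤ X) (hY : 0 ≤ Y)
    (hdisj : ∀ v : Place K F, X v = 0 ∨ Y v = 0) {k k0 : ℕ} {a b : F}
    (ha : a ∈ riemannRochSpace (D0 + twoDiv X Y k 0))
    (hb : b ∈ riemannRochSpace (D0 + twoDiv X Y 0 k))
    (hab : a - b ∈ riemannRochSpace (D0 + twoDiv X Y k0 k0)) :
    a ∈ riemannRochSpace (D0 + twoDiv X Y k0 0) ∧ b ∈ riemannRochSpace (D0 + twoDiv X Y 0 k0) := by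
  have hXv : ∀ v : Place K F, (0 : ℤ) ≤ X v := fun v => by simpa using Finsupp.le_def.mp hX v
  have hYv : ∀ v : Place K F, (0 : ℤ) ≤ Y v := fun v => by simpa using Finsupp.le_def.mp hY v
  constructor
  · intro v
    have ha' := ha v
    have hb' := hb v
    have hab' := hab v
    simp only [Finsupp.add_apply, twoDiv_apply, Nat.cast_zero, zero_mul, add_zero, zero_add]
      at ha' hb' hab' ⊢
    rcases hdisj v with h | h
    · rw [h, mul_zero, add_zero] at ha' ⊢
      exact ha'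
    · rw [h, mul_zero, add_zero] at hb' hab'
      have : a = (a - b) + b := by ring
      rw [this]
      refine (Valuation.map_add _ _ _).trans (max_le hab' (hb'.trans (exp_le_exp.mpr ?_)))
      have := hXv v
      nlinarith [mul_nonneg (Nat.cast_nonneg (α := ℤ) k0) this]
  · intro v
    have ha' := ha v
    have hb' := hb v
    have hab' := hab v
    simp only [Finsupp.add_apply, twoDiv_apply, Nat.cast_zero, zero_mul, add_zero, zero_add]
      at ha' hb' hab' ⊢
    rcases hdisj v with h | h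
    · rw [h, mul_zero, add_zero] at ha'
      rw [h, mul_zero, zero_add] at hab'
      have : b = a - (a - b) := by ring
      rw [this]
      refine (Valuation.map_sub _ _ _).trans (max_le (ha'.trans (exp_le_exp.mpr ?_)) hab')
      have := hYv v
      nlinarith [mul_nonneg (Nat.cast_nonneg (α := ℤ) k0) this]
    · rw [h, mul_zero, add_zero] at hb' ⊢
      exact hb'

/-- Intersection of the two charts. -/
theorem rr_inter {D0 X Y : Divisor K F}
    (hdisj : ∀ v : Place K F, X v = 0 ∨ Y v = 0) {k : ℕ} {f : F}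
    (h1 : f ∈ riemannRochSpace (D0 + twoDiv X Y k 0))
    (h2 : f ∈ riemannRochSpace (D0 + twoDiv X Y 0 k)) :
    f ∈ riemannRochSpace D0 := by
  intro v
  have h1' := h1 v
  have h2' := h2 v
  simp only [Finsupp.add_apply, twoDiv_apply, Nat.cast_zero, zero_mul, add_zero, zero_add]
    at h1' h2'
  rcases hdisj v with h | h
  · rw [h, mul_zero, add_zero] at h1'
    exact h1'
  · rw [h, mul_zero, add_zero] at h2'
    exact h2'


theorem nsmul_twoDiv (X Y : Divisor K F) (m a b : ℕ) :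
    m • twoDiv X Y a b = twoDiv X Y (m * a) (m * b) := by
  ext v
  simp only [Finsupp.smul_apply, twoDiv_apply, nsmul_eq_mul, Nat.cast_mul]
  ring

theorem twoDiv_zero_right (X Y : Divisor K F) (n : ℕ) : twoDiv X Y n 0 = n • X := by
  simp [twoDiv]

/-- `a ∈ L(D0 + E)` and `div u = m D0` imply `a^m u ∈ L(m E)`. -/
theorem pow_mul_mem_rr {D0 E : Divisor K F} {u : F} (hu0 : u ≠ 0) {m : ℕ}
    (hu : ∀ v : Place K F, v.ord u = m * D0 v) {a : F}
    (ha : a ∈ riemannRochSpace (D0 + E)) : a ^ m * u ∈ riemannRochSpace (m • E) := fun v => by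
  rw [map_mul, map_pow, v.adicValuation_eq_exp_neg_ord hu0, hu v]
  have h1 : v.adicValuation a ^ m ≤ exp ((D0 + E) v) ^ m := pow_le_pow_left₀ zero_le (ha v) m
  calc v.adicValuation a ^ m * exp (-((m : ℤ) * D0 v))
      ≤ exp ((D0 + E) v) ^ m * exp (-((m : ℤ) * D0 v)) := mul_le_mul' h1 le_rfl
    _ = exp ((m • E) v) := by
        rw [← exp_nsmul, ← exp_add]
        congr 1
        simp only [Finsupp.add_apply, Finsupp.smul_apply, nsmul_eq_mul]
        ring

/-- Conversely `g^m ∈ L(m E)` implies `g ∈ L(E)`. -/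
theorem mem_rr_of_pow_mem {E : Divisor K F} {m : ℕ} (hm : m ≠ 0) {g : F}
    (hg : g ^ m ∈ riemannRochSpace (m • E)) : g ∈ riemannRochSpace E := fun v => by
  have h := hg v
  rw [map_pow, Finsupp.smul_apply, exp_nsmul] at h
  exact le_of_pow_le_pow_left₀ hm zero_le h

/-- Multiplication by `x^b` moves `L(a X + b Y)` into `L((a+b) X)` when `div x = Y - X`. -/
theorem xpow_mul_mem_rr {X Y : Divisor K F} {x : F} (hx0 : x ≠ 0)
    (hordx : ∀ v : Place K F, v.ord x = Y v - X v) {a b : ℕ} {f : F}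
    (hf : f ∈ riemannRochSpace (twoDiv X Y a b)) :
    x ^ b * f ∈ riemannRochSpace (twoDiv X Y (a + b) 0) := fun v => by
  rw [map_mul, map_pow, v.adicValuation_eq_exp_neg_ord hx0, hordx v]
  calc exp (-(Y v - X v)) ^ b * v.adicValuation f
      ≤ exp (-(Y v - X v)) ^ b * exp (twoDiv X Y a b v) := mul_le_mul' le_rfl (hf v)
    _ = exp (twoDiv X Y (a + b) 0 v) := by
        rw [← exp_nsmul, ← exp_add]
        congr 1
        simp only [twoDiv_apply, nsmul_eq_mul, Nat.cast_add, Nat.cast_zero]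
        ring

/-- Conversely. -/
theorem mem_rr_of_xpow_mul {X Y : Divisor K F} {x : F} (hx0 : x ≠ 0)
    (hordx : ∀ v : Place K F, v.ord x = Y v - X v) {a b : ℕ} {f : F}
    (hf : x ^ b * f ∈ riemannRochSpace (twoDiv X Y (a + b) 0)) :
    f ∈ riemannRochSpace (twoDiv X Y a b) := fun v => by
  have h := hf v
  rw [map_mul, map_pow, v.adicValuation_eq_exp_neg_ord hx0, hordx v] at h
  have h2 : exp (twoDiv X Y (a + b) 0 v) = exp (-(Y v - X v)) ^ b * exp (twoDiv X Y a b v) := by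
    rw [← exp_nsmul, ← exp_add]
    congr 1
    simp only [twoDiv_apply, nsmul_eq_mul, Nat.cast_add, Nat.cast_zero]
    ring
  rw [h2] at h
  have hpos : (0 : ℤᵐ⁰) < exp (-(Y v - X v)) ^ b := by
    rw [← exp_nsmul]; exact zero_lt_iff.mpr exp_ne_zero
  exact (mul_le_mul_iff_right₀ hpos).mp h

end RR


section Main

variable {L F k Fk : Type*} [Field L] [Field F] [Algebra L F] [Field k] [Field Fk] [Algebra k Fk]

/-- The data of the function-field Kummer core: a valued function field `F / L` with valuation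
ring `O`, a reduction `red : O → Fk` onto (a subfield of) a function field `Fk / k`, a function
`x` with pole divisor `Xinf` and zero divisor `X0` on both sides, one genus bound `γ` for both
fibres, and the Kummer datum `u` with `div u = m D0`, `red u = w ^ m`. -/
structure FFData (L F k Fk : Type*) [Field L] [Field F] [Algebra L F] [Field k] [Field Fk]
    [Algebra k Fk] where
  O : ValuationSubring F
  red : O →+* Fk
  hVG : ∀ f : F, f ≠ 0 → ∃ c : L, O.valuation (algebraMap L F c) = O.valuation f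
  harch : ∀ ε κ : O.ValueGroup, ε < 1 → κ ≠ 0 → ∃ n : ℕ, ε ^ n < κ
  hred : ∀ f : O, red f = 0 ↔ O.valuation (f : F) < 1
  hredk_surj : ∀ c' : k, ∃ (c : L) (hc : algebraMap L F c ∈ O),
    red ⟨algebraMap L F c, hc⟩ = algebraMap k Fk c'
  x : F
  hx : x ∈ O
  hxne : red ⟨x, hx⟩ ≠ 0
  Xinf : Divisor L F
  X0 : Divisor L F
  hXinf : 0 ≤ Xinf
  hX0 : 0 ≤ X0
  hdisj : ∀ P : Place L F, Xinf P = 0 ∨ X0 P = 0
  hordx : ∀ P : Place L F, P.ord x = X0 P - Xinf P
  Yinf : Divisor k Fk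
  Y0 : Divisor k Fk
  hYinf : 0 ≤ Yinf
  hY0 : 0 ≤ Y0
  hdisjk : ∀ Q : Place k Fk, Yinf Q = 0 ∨ Y0 Q = 0
  hordxk : ∀ Q : Place k Fk, Q.ord (red ⟨x, hx⟩) = Y0 Q - Yinf Q
  d : ℤ
  hdpos : 0 < d
  hdX : Divisor.degree Xinf = d
  hdX0 : Divisor.degree X0 = d
  hdY : Divisor.degree Yinf = d
  hdY0 : Divisor.degree Y0 = d
  hRC : ∀ (n : ℕ) (f : F) (hf : f ∈ O), f ∈ riemannRochSpace (twoDiv Xinf X0 n 0) →
    red ⟨f, hf⟩ ∈ riemannRochSpace (twoDiv Yinf Y0 n 0)
  D0 : Divisor L F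
  hD0 : Divisor.degree D0 = 0
  hcart : ∀ a b : ℕ, ∃ (r : ℕ) (e : Fin r → F), LinearIndependent L e ∧
    Submodule.span L (Set.range e) = riemannRochSpace (D0 + twoDiv Xinf X0 a b) ∧
    ∀ c : Fin r → L, (∑ i, c i • e i ∈ O ↔ ∀ i, algebraMap L F (c i) ∈ O)
  γ : ℤ
  hRiemF : ∀ a b : ℕ, Divisor.degree (D0 + twoDiv Xinf X0 a b) + 1 - γ ≤
    (Module.finrank L (riemannRochSpace (D0 + twoDiv Xinf X0 a b)) : ℤ)
  hfink : ∀ a b : ℕ, Module.Finite k (riemannRochSpace (twoDiv Yinf Y0 a b))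
  cK : ℤ
  hRiemk : ∀ a b : ℕ, cK ≤ Divisor.degree (twoDiv Yinf Y0 a b) →
    (Module.finrank k (riemannRochSpace (twoDiv Yinf Y0 a b)) : ℤ) ≤
      Divisor.degree (twoDiv Yinf Y0 a b) + 1 - γ
  m : ℕ
  hm : O.valuation (m : F) = 1
  u : F
  hu : u ∈ O
  hordu : ∀ P : Place L F, P.ord u = m * D0 P
  w : Fk
  hw : w ≠ 0
  hredu : red ⟨u, hu⟩ = w ^ m

namespace FFData

variable (S : FFData L F k Fk)

theorem m_ne_zero : S.m ≠ 0 := by
  intro h
  have := S.hm
  rw [h, Nat.cast_zero, map_zero] at this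
  exact zero_ne_one this

theorem u_ne_zero : S.u ≠ 0 := by
  intro h
  have h1 : S.red ⟨S.u, S.hu⟩ = 0 := by
    have : (⟨S.u, S.hu⟩ : S.O) = 0 := Subtype.ext h
    rw [this, map_zero]
  rw [S.hredu] at h1
  exact S.hw (pow_eq_zero_iff S.m_ne_zero |>.mp h1)

theorem x_ne_zero : S.x ≠ 0 := by
  intro h
  have : (⟨S.x, S.hx⟩ : S.O) = 0 := Subtype.ext h
  exact S.hxne (by rw [this, map_zero])

/-- Elements of `O` with nonzero reduction have valuation one. -/
theorem val_eq_one_of_red_ne_zero {f : F} (hf : f ∈ S.O) (h : S.red ⟨f, hf⟩ ≠ 0) :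
    S.O.valuation f = 1 := by
  have h1 : ¬ S.O.valuation f < 1 := fun h' => h ((S.hred ⟨f, hf⟩).mpr h')
  exact le_antisymm ((S.O.valuation_le_one_iff f).mpr hf) (not_lt.mp h1)

/-- Reduction containment for all `a X∞ + b X₀`. -/
theorem red_mem_of_mem (a b : ℕ) {f : F} (hf : f ∈ S.O)
    (h : f ∈ riemannRochSpace (twoDiv S.Xinf S.X0 a b)) :
    S.red ⟨f, hf⟩ ∈ riemannRochSpace (twoDiv S.Yinf S.Y0 a b) := by
  have h1 : S.x ^ b * f ∈ riemannRochSpace (twoDiv S.Xinf S.X0 (a + b) 0) :=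
    xpow_mul_mem_rr S.x_ne_zero S.hordx h
  have h2 : S.x ^ b * f ∈ S.O := S.O.mul_mem _ _ (S.O.pow_mem S.hx b) hf
  have h3 := S.hRC (a + b) _ h2 h1
  have h4 : S.red ⟨S.x ^ b * f, h2⟩ = S.red ⟨S.x, S.hx⟩ ^ b * S.red ⟨f, hf⟩ := by
    rw [← map_pow, ← map_mul]
    rfl
  rw [h4] at h3
  exact mem_rr_of_xpow_mul S.hxne S.hordxk h3

/-- Twisted reduction containment. -/
theorem red_mul_w_mem (a b : ℕ) {f : F} (hf : f ∈ S.O)
    (h : f ∈ riemannRochSpace (S.D0 + twoDiv S.Xinf S.X0 a b)) :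
    S.red ⟨f, hf⟩ * S.w ∈ riemannRochSpace (twoDiv S.Yinf S.Y0 a b) := by
  have h1 : f ^ S.m * S.u ∈ riemannRochSpace (twoDiv S.Xinf S.X0 (S.m * a) (S.m * b)) := by
    rw [← nsmul_twoDiv]
    exact pow_mul_mem_rr S.u_ne_zero S.hordu h
  have h2 : f ^ S.m * S.u ∈ S.O := S.O.mul_mem _ _ (S.O.pow_mem hf _) S.hu
  have h3 := S.red_mem_of_mem _ _ h2 h1
  have h4 : S.red ⟨f ^ S.m * S.u, h2⟩ = (S.red ⟨f, hf⟩ * S.w) ^ S.m := by
    rw [mul_pow, ← S.hredu, ← map_pow, ← map_mul]
    rfl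
  rw [h4, ← nsmul_twoDiv] at h3
  exact mem_rr_of_pow_mem S.m_ne_zero h3


/-- Reduction of an integral linear combination. -/
theorem red_sum {r : ℕ} (e : Fin r → F) (he : ∀ i, e i ∈ S.O) (c : Fin r → L)
    (hc : ∀ i, algebraMap L F (c i) ∈ S.O) (hf : ∑ i, c i • e i ∈ S.O) :
    S.red ⟨∑ i, c i • e i, hf⟩ =
      ∑ i, S.red ⟨algebraMap L F (c i), hc i⟩ * S.red ⟨e i, he i⟩ := by
  have h1 : (⟨∑ i, c i • e i, hf⟩ : S.O) =
      ∑ i, (⟨algebraMap L F (c i), hc i⟩ : S.O) * ⟨e i, he i⟩ := by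
    apply Subtype.ext
    show ∑ i, c i • e i =
      S.O.subtype (∑ i, (⟨algebraMap L F (c i), hc i⟩ : S.O) * ⟨e i, he i⟩)
    rw [map_sum]
    refine Finset.sum_congr rfl fun i _ => ?_
    rw [Algebra.smul_def]
    rfl
  rw [h1, map_sum]
  simp only [map_mul]

/-- In an orthonormal family, coordinates are bounded by the norm. -/
theorem orth_le {r : ℕ} {e : Fin r → F} (he_li : LinearIndependent L e)
    (he_orth : ∀ c : Fin r → L, (∑ i, c i • e i ∈ S.O ↔ ∀ i, algebraMap L F (c i) ∈ S.O))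
    (c : Fin r → L) (i : Fin r) :
    S.O.valuation (algebraMap L F (c i)) ≤ S.O.valuation (∑ i, c i • e i) := by
  by_cases hf0 : ∑ i, c i • e i = 0
  · have := Fintype.linearIndependent_iff.mp he_li c hf0 i
    rw [this, map_zero, map_zero]
    exact zero_le
  · obtain ⟨l, hl⟩ := S.hVG _ hf0
    have hl0 : l ≠ 0 := by
      intro h
      rw [h, map_zero, map_zero] at hl
      exact hf0 ((map_eq_zero _).mp hl.symm)
    have hlF : algebraMap L F l ≠ 0 := (map_ne_zero _).mpr hl0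
    have hvl : S.O.valuation (algebraMap L F l) ≠ 0 := (map_ne_zero _).mpr hlF
    have key : ∑ i, (l⁻¹ * c i) • e i ∈ S.O := by
      have h1 : ∑ i, (l⁻¹ * c i) • e i = algebraMap L F l⁻¹ * ∑ i, c i • e i := by
        rw [Finset.mul_sum]
        refine Finset.sum_congr rfl fun i _ => ?_
        rw [mul_smul, Algebra.smul_def]
      rw [h1, ← S.O.valuation_le_one_iff, map_mul, map_inv₀, map_inv₀, hl, inv_mul_cancel₀]
      rw [← hl]; exact hvl
    have h2 := (he_orth _).mp key i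
    rw [← S.O.valuation_le_one_iff, map_mul, map_mul, map_inv₀, map_inv₀] at h2
    rw [← hl]
    calc S.O.valuation (algebraMap L F (c i))
        = S.O.valuation (algebraMap L F l) *
          ((S.O.valuation (algebraMap L F l))⁻¹ * S.O.valuation (algebraMap L F (c i))) := by
          rw [← mul_assoc, mul_inv_cancel₀ hvl, one_mul]
      _ ≤ S.O.valuation (algebraMap L F l) * 1 := mul_le_mul' le_rfl h2
      _ = S.O.valuation (algebraMap L F l) := mul_one _

theorem orth_mem {r : ℕ} {e : Fin r → F}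
    (he_orth : ∀ c : Fin r → L, (∑ i, c i • e i ∈ S.O ↔ ∀ i, algebraMap L F (c i) ∈ S.O))
    (i : Fin r) : e i ∈ S.O := by
  classical
  have h := (he_orth (Pi.single i 1)).mpr (fun j => by
    by_cases hj : j = i
    · subst hj; rw [Pi.single_eq_same, map_one]; exact S.O.one_mem
    · rw [Pi.single_eq_of_ne hj, map_zero]; exact S.O.zero_mem)
  have h2 : ∑ j, (Pi.single i (1 : L) : Fin r → L) j • e j = e i := by
    rw [Finset.sum_eq_single i]
    · rw [Pi.single_eq_same, one_smul]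
    · intro j _ hj
      rw [Pi.single_eq_of_ne hj, zero_smul]
    · intro h; exact absurd (Finset.mem_univ i) h
  rwa [h2] at h

/-- The reduced family `red (e i) * w` is linearly independent over `k`. -/
theorem red_linearIndependent {r : ℕ} {e : Fin r → F} (he_li : LinearIndependent L e)
    (he_orth : ∀ c : Fin r → L, (∑ i, c i • e i ∈ S.O ↔ ∀ i, algebraMap L F (c i) ∈ S.O)) :
    LinearIndependent k (fun i => S.red ⟨e i, S.orth_mem he_orth i⟩ * S.w) := by
  rw [Fintype.linearIndependent_iff]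
  intro g hg i
  choose c hc hcred using fun i => S.hredk_surj (g i)
  have hfO : ∑ i, c i • e i ∈ S.O := (he_orth c).mpr hc
  have hredf : S.red ⟨∑ i, c i • e i, hfO⟩ * S.w =
      ∑ i, g i • (S.red ⟨e i, S.orth_mem he_orth i⟩ * S.w) := by
    rw [S.red_sum e (S.orth_mem he_orth) c hc hfO, Finset.sum_mul]
    refine Finset.sum_congr rfl fun i _ => ?_
    rw [hcred i, Algebra.smul_def, mul_assoc]
  rw [hg] at hredf
  have h0 : S.red ⟨∑ i, c i • e i, hfO⟩ = 0 := by
    rcases mul_eq_zero.mp hredf with h | h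
    · exact h
    · exact absurd h S.hw
  have hlt : S.O.valuation (∑ i, c i • e i) < 1 := (S.hred _).mp h0
  have hci : S.O.valuation (algebraMap L F (c i)) < 1 :=
    lt_of_le_of_lt (S.orth_le he_li he_orth c i) hlt
  have h1 : S.red ⟨algebraMap L F (c i), hc i⟩ = 0 := (S.hred _).mpr hci
  rw [hcred i] at h1
  exact (map_eq_zero (algebraMap k Fk)).mp h1

/-- Lifting of `k`-combinations of the reduced family. -/
theorem red_lift {r : ℕ} {e : Fin r → F}
    (he_orth : ∀ c : Fin r → L, (∑ i, c i • e i ∈ S.O ↔ ∀ i, algebraMap L F (c i) ∈ S.O))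
    (g : Fin r → k) :
    ∃ f ∈ Submodule.span L (Set.range e), ∃ hf : f ∈ S.O,
      S.red ⟨f, hf⟩ * S.w = ∑ i, g i • (S.red ⟨e i, S.orth_mem he_orth i⟩ * S.w) := by
  choose c hc hcred using fun i => S.hredk_surj (g i)
  have hfO : ∑ i, c i • e i ∈ S.O := (he_orth c).mpr hc
  refine ⟨∑ i, c i • e i, ?_, hfO, ?_⟩
  · exact Submodule.sum_mem _ fun i _ =>
      Submodule.smul_mem _ _ (Submodule.subset_span (Set.mem_range_self i))
  · rw [S.red_sum e (S.orth_mem he_orth) c hc hfO, Finset.sum_mul]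
    refine Finset.sum_congr rfl fun i _ => ?_
    rw [hcred i, Algebra.smul_def, mul_assoc]

theorem degree_Ek (a b : ℕ) :
    Divisor.degree (twoDiv S.Yinf S.Y0 a b) = ((a : ℤ) + b) * S.d := by
  rw [degree_twoDiv, S.hdY, S.hdY0]; ring

theorem degree_E (a b : ℕ) :
    Divisor.degree (S.D0 + twoDiv S.Xinf S.X0 a b) = ((a : ℤ) + b) * S.d := by
  rw [map_add, degree_twoDiv, S.hdX, S.hdX0, S.hD0]; ring

/-- The squeeze: in the Riemann range the twisted reduction map is onto and the dimension on the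
special fibre is the expected one. -/
theorem surj_and_finrank (a b : ℕ) (hab : S.cK ≤ ((a : ℤ) + b) * S.d) :
    (Module.finrank k (riemannRochSpace (twoDiv S.Yinf S.Y0 a b)) : ℤ) =
        ((a : ℤ) + b) * S.d + 1 - S.γ ∧
      ∀ g ∈ riemannRochSpace (twoDiv S.Yinf S.Y0 a b),
        ∃ f ∈ riemannRochSpace (S.D0 + twoDiv S.Xinf S.X0 a b), ∃ hf : f ∈ S.O,
          S.red ⟨f, hf⟩ * S.w = g := by
  obtain ⟨r, e, he_li, he_span, he_orth⟩ := S.hcart a b
  have := S.hfink a b
  have hr : Module.finrank L (riemannRochSpace (S.D0 + twoDiv S.Xinf S.X0 a b)) = r := by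
    rw [← he_span, finrank_span_eq_card he_li, Fintype.card_fin]
  have hmem : ∀ i, e i ∈ riemannRochSpace (S.D0 + twoDiv S.Xinf S.X0 a b) := fun i => by
    rw [← he_span]; exact Submodule.subset_span (Set.mem_range_self i)
  let e' : Fin r → riemannRochSpace (twoDiv S.Yinf S.Y0 a b) := fun i =>
    ⟨S.red ⟨e i, S.orth_mem he_orth i⟩ * S.w, S.red_mul_w_mem a b _ (hmem i)⟩
  have hli' : LinearIndependent k e' :=
    LinearIndependent.of_comp (riemannRochSpace (twoDiv S.Yinf S.Y0 a b)).subtype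
      (S.red_linearIndependent he_li he_orth)
  have h1 : r ≤ Module.finrank k (riemannRochSpace (twoDiv S.Yinf S.Y0 a b)) := by
    have := hli'.fintype_card_le_finrank
    rwa [Fintype.card_fin] at this
  have h2 := S.hRiemk a b (by rw [S.degree_Ek]; exact hab)
  rw [S.degree_Ek] at h2
  have h3 := S.hRiemF a b
  rw [S.degree_E, hr] at h3
  have h4 : (r : ℤ) ≤ (Module.finrank k (riemannRochSpace (twoDiv S.Yinf S.Y0 a b)) : ℤ) := by
    exact_mod_cast h1
  have hcard : (Module.finrank k (riemannRochSpace (twoDiv S.Yinf S.Y0 a b)) : ℤ) = r := by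
    linarith
  refine ⟨by linarith, fun g hg => ?_⟩
  have hspan : Submodule.span k (Set.range e') = ⊤ :=
    hli'.span_eq_top_of_card_eq_finrank' (by rw [Fintype.card_fin]; exact_mod_cast hcard.symm)
  have hg' : (⟨g, hg⟩ : riemannRochSpace (twoDiv S.Yinf S.Y0 a b)) ∈
      Submodule.span k (Set.range e') := by rw [hspan]; trivial
  obtain ⟨coef, hcoef⟩ := (Submodule.mem_span_range_iff_exists_fun k).mp hg'
  obtain ⟨f, hf1, hf2, hf3⟩ := S.red_lift he_orth coef
  refine ⟨f, by rwa [he_span] at hf1, hf2, ?_⟩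
  rw [hf3]
  have := congrArg (fun z : riemannRochSpace (twoDiv S.Yinf S.Y0 a b) => (z : Fk)) hcoef
  simpa [e'] using this


/-- Sum formula on the special fibre. -/
theorem rrk_sup (a a' b b' : ℕ) (ha : a ≤ a') (hb : b' ≤ b)
    (hc : S.cK ≤ ((a : ℤ) + b') * S.d) :
    riemannRochSpace (twoDiv S.Yinf S.Y0 a' b) ≤
      riemannRochSpace (twoDiv S.Yinf S.Y0 a b) ⊔ riemannRochSpace (twoDiv S.Yinf S.Y0 a' b') := by
  have hd := S.hdpos
  have ha' : (a : ℤ) ≤ a' := by exact_mod_cast ha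
  have hb' : (b' : ℤ) ≤ b := by exact_mod_cast hb
  have hle : riemannRochSpace (twoDiv S.Yinf S.Y0 a b) ⊔
      riemannRochSpace (twoDiv S.Yinf S.Y0 a' b') ≤ riemannRochSpace (twoDiv S.Yinf S.Y0 a' b) :=
    sup_le (rr_mono (twoDiv_mono S.hYinf S.hY0 ha le_rfl))
      (rr_mono (twoDiv_mono S.hYinf S.hY0 le_rfl hb))
  have hinf : riemannRochSpace (twoDiv S.Yinf S.Y0 a b) ⊓
      riemannRochSpace (twoDiv S.Yinf S.Y0 a' b') = riemannRochSpace (twoDiv S.Yinf S.Y0 a b') := by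
    apply le_antisymm
    · rintro f ⟨h1, h2⟩ Q
      have h1' := h1 Q
      have h2' := h2 Q
      rw [twoDiv_apply] at h1' h2' ⊢
      rcases S.hdisjk Q with h | h
      · rw [h, mul_zero, zero_add] at h2' ⊢
        exact h2'
      · rw [h, mul_zero, add_zero] at h1' ⊢
        exact h1'
    · exact le_inf (rr_mono (twoDiv_mono S.hYinf S.hY0 le_rfl hb))
        (rr_mono (twoDiv_mono S.hYinf S.hY0 ha le_rfl))
  have := S.hfink a b
  have := S.hfink a' b'
  have := S.hfink a' b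
  have hsum := Submodule.finrank_sup_add_finrank_inf_eq
    (riemannRochSpace (twoDiv S.Yinf S.Y0 a b)) (riemannRochSpace (twoDiv S.Yinf S.Y0 a' b'))
  rw [hinf] at hsum
  have e1 := (S.surj_and_finrank a b (by nlinarith)).1
  have e2 := (S.surj_and_finrank a' b' (by nlinarith)).1
  have e3 := (S.surj_and_finrank a b' hc).1
  have e4 := (S.surj_and_finrank a' b (by nlinarith)).1
  have hsumZ : ((Module.finrank k ↥(riemannRochSpace (twoDiv S.Yinf S.Y0 a b) ⊔
      riemannRochSpace (twoDiv S.Yinf S.Y0 a' b')) : ℕ) : ℤ) +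
      (Module.finrank k (riemannRochSpace (twoDiv S.Yinf S.Y0 a b')) : ℤ) =
      (Module.finrank k (riemannRochSpace (twoDiv S.Yinf S.Y0 a b)) : ℤ) +
      (Module.finrank k (riemannRochSpace (twoDiv S.Yinf S.Y0 a' b')) : ℤ) := by
    exact_mod_cast hsum
  have hfin : Module.finrank k ↥(riemannRochSpace (twoDiv S.Yinf S.Y0 a b) ⊔
      riemannRochSpace (twoDiv S.Yinf S.Y0 a' b')) =
      Module.finrank k (riemannRochSpace (twoDiv S.Yinf S.Y0 a' b)) := by
    have : ((Module.finrank k ↥(riemannRochSpace (twoDiv S.Yinf S.Y0 a b) ⊔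
      riemannRochSpace (twoDiv S.Yinf S.Y0 a' b')) : ℕ) : ℤ) =
      (Module.finrank k (riemannRochSpace (twoDiv S.Yinf S.Y0 a' b)) : ℤ) := by
      rw [e4]; linarith
    exact_mod_cast this
  exact (Submodule.eq_of_le_of_finrank_eq hle hfin).ge

theorem rrk_decomp (k0 k' : ℕ) (hk : k0 ≤ k') (hc : S.cK ≤ (k0 : ℤ) * S.d) :
    riemannRochSpace (twoDiv S.Yinf S.Y0 k' k') ≤
      riemannRochSpace (twoDiv S.Yinf S.Y0 k0 k0) ⊔ riemannRochSpace (twoDiv S.Yinf S.Y0 k' 0) ⊔
        riemannRochSpace (twoDiv S.Yinf S.Y0 0 k') := by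
  have h1 := S.rrk_sup k0 k' k0 0 hk (Nat.zero_le _) (by simpa using hc)
  have h2 := S.rrk_sup 0 k' k' k0 (Nat.zero_le _) hk (by simpa using hc)
  refine h2.trans ?_
  rw [sup_comm]
  exact sup_le_sup_right h1 _

/-- The valuation ring of `L`. -/
def A : ValuationSubring L := S.O.comap (algebraMap L F)

theorem mem_A {c : L} : c ∈ S.A ↔ algebraMap L F c ∈ S.O := Iff.rfl

theorem smul_A_def (r : S.A) (f : F) : r • f = algebraMap L F (r : L) * f := by
  rw [← Algebra.smul_def]; rfl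

/-- The unit ball of a Riemann–Roch space, as a module over the valuation ring of `L`. -/
def ball (D : Divisor L F) : Submodule S.A F where
  carrier := {f | f ∈ riemannRochSpace D ∧ f ∈ S.O}
  zero_mem' := ⟨Submodule.zero_mem _, S.O.zero_mem⟩
  add_mem' := fun h1 h2 => ⟨Submodule.add_mem _ h1.1 h2.1, S.O.add_mem _ _ h1.2 h2.2⟩
  smul_mem' := fun r f hf => by
    refine ⟨?_, ?_⟩
    · show r • f ∈ riemannRochSpace D
      exact Submodule.smul_mem _ (r : L) hf.1
    · show r • f ∈ S.O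
      rw [S.smul_A_def]
      exact S.O.mul_mem _ _ r.2 hf.2

theorem mem_ball {D : Divisor L F} {f : F} :
    f ∈ S.ball D ↔ f ∈ riemannRochSpace D ∧ f ∈ S.O := Iff.rfl

theorem ball_fg (a b : ℕ) : (S.ball (S.D0 + twoDiv S.Xinf S.X0 a b)).FG := by
  obtain ⟨r, e, he_li, he_span, he_orth⟩ := S.hcart a b
  have hle : S.ball (S.D0 + twoDiv S.Xinf S.X0 a b) = Submodule.span S.A (Set.range e) := by
    apply le_antisymm
    · rintro f ⟨hf1, hf2⟩
      rw [← he_span] at hf1
      obtain ⟨c, rfl⟩ := (Submodule.mem_span_range_iff_exists_fun L).mp hf1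
      have hc := (he_orth c).mp hf2
      have : ∑ i, c i • e i = ∑ i, (⟨c i, hc i⟩ : S.A) • e i := rfl
      rw [this]
      exact Submodule.sum_mem _ fun i _ =>
        Submodule.smul_mem _ _ (Submodule.subset_span (Set.mem_range_self i))
    · rw [Submodule.span_le]
      rintro _ ⟨i, rfl⟩
      refine ⟨?_, S.orth_mem he_orth i⟩
      rw [← he_span]
      exact Submodule.subset_span (Set.mem_range_self i)
  rw [hle]
  exact Submodule.fg_span (Set.finite_range e)


/-- Integral Čech decomposition (Nakayama on the unit ball). -/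
theorem ball_decomp (k0 k' : ℕ) (hk : k0 ≤ k') (hcK : S.cK ≤ (k0 : ℤ) * S.d) :
    S.ball (S.D0 + twoDiv S.Xinf S.X0 k' k') ≤
      S.ball (S.D0 + twoDiv S.Xinf S.X0 k0 k0) ⊔ S.ball (S.D0 + twoDiv S.Xinf S.X0 k' 0) ⊔
        S.ball (S.D0 + twoDiv S.Xinf S.X0 0 k') := by
  have hd := S.hdpos
  have hk' : (k0 : ℤ) ≤ k' := by exact_mod_cast hk
  refine Submodule.le_of_le_smul_of_le_jacobson_bot (S.ball_fg k' k')
    (I := IsLocalRing.maximalIdeal S.A)
    (IsLocalRing.jacobson_eq_maximalIdeal ⊥ bot_ne_top).ge ?_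
  rintro c ⟨hc1, hc2⟩
  have hcw := S.red_mul_w_mem k' k' hc2 hc1
  obtain ⟨g01, hg01, g2, hg2, hsum⟩ := Submodule.mem_sup.mp (S.rrk_decomp k0 k' hk hcK hcw)
  obtain ⟨g0, hg0, g1, hg1, hsum01⟩ := Submodule.mem_sup.mp hg01
  obtain ⟨c0, hc0, hc0O, hc0red⟩ :=
    (S.surj_and_finrank k0 k0 (by nlinarith)).2 g0 hg0
  obtain ⟨a1, ha1, ha1O, ha1red⟩ :=
    (S.surj_and_finrank k' 0 (by push_cast; nlinarith)).2 g1 hg1
  obtain ⟨b1, hb1, hb1O, hb1red⟩ :=
    (S.surj_and_finrank 0 k' (by push_cast; nlinarith)).2 g2 hg2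
  have hc0' : c0 ∈ riemannRochSpace (S.D0 + twoDiv S.Xinf S.X0 k' k') :=
    rr_mono (add_le_add le_rfl (twoDiv_mono S.hXinf S.hX0 hk hk)) hc0
  have ha1' : a1 ∈ riemannRochSpace (S.D0 + twoDiv S.Xinf S.X0 k' k') :=
    rr_mono (add_le_add le_rfl (twoDiv_mono S.hXinf S.hX0 le_rfl (Nat.zero_le _))) ha1
  have hb1' : b1 ∈ riemannRochSpace (S.D0 + twoDiv S.Xinf S.X0 k' k') :=
    rr_mono (add_le_add le_rfl (twoDiv_mono S.hXinf S.hX0 (Nat.zero_le _) le_rfl)) hb1
  have ht1 : c - c0 - a1 - b1 ∈ riemannRochSpace (S.D0 + twoDiv S.Xinf S.X0 k' k') :=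
    Submodule.sub_mem _ (Submodule.sub_mem _ (Submodule.sub_mem _ hc1 hc0') ha1') hb1'
  have ht2 : c - c0 - a1 - b1 ∈ S.O :=
    sub_mem (sub_mem (sub_mem hc2 hc0O) ha1O) hb1O
  have htred : S.red ⟨c - c0 - a1 - b1, ht2⟩ = 0 := by
    have h1 : (⟨c - c0 - a1 - b1, ht2⟩ : S.O) =
        ⟨c, hc2⟩ - ⟨c0, hc0O⟩ - ⟨a1, ha1O⟩ - ⟨b1, hb1O⟩ := rfl
    have h2 : S.red ⟨c - c0 - a1 - b1, ht2⟩ * S.w = 0 := by
      rw [h1, map_sub, map_sub, map_sub, sub_mul, sub_mul, sub_mul, hc0red, ha1red, hb1red,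
        ← hsum, ← hsum01]
      ring
    rcases mul_eq_zero.mp h2 with h | h
    · exact h
    · exact absurd h S.hw
  have htlt : S.O.valuation (c - c0 - a1 - b1) < 1 := (S.hred _).mp htred
  have hN : c0 + a1 + b1 ∈ S.ball (S.D0 + twoDiv S.Xinf S.X0 k0 k0) ⊔
      S.ball (S.D0 + twoDiv S.Xinf S.X0 k' 0) ⊔ S.ball (S.D0 + twoDiv S.Xinf S.X0 0 k') :=
    Submodule.add_mem_sup (Submodule.add_mem_sup ⟨hc0, hc0O⟩ ⟨ha1, ha1O⟩) ⟨hb1, hb1O⟩
  have hcsum : c = (c0 + a1 + b1) + (c - c0 - a1 - b1) := by ring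
  rw [hcsum]
  refine Submodule.add_mem_sup hN ?_
  by_cases ht0 : c - c0 - a1 - b1 = 0
  · rw [ht0]; exact Submodule.zero_mem _
  · obtain ⟨l, hl⟩ := S.hVG _ ht0
    have hl0 : l ≠ 0 := by
      intro h
      rw [h, map_zero, map_zero] at hl
      exact ht0 ((map_eq_zero _).mp hl.symm)
    have hlF : algebraMap L F l ≠ 0 := (map_ne_zero _).mpr hl0
    have hvl : S.O.valuation (algebraMap L F l) ≠ 0 := (map_ne_zero _).mpr hlF
    have hlA : l ∈ S.A := by
      rw [S.mem_A, ← S.O.valuation_le_one_iff, hl]; exact htlt.le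
    have hlm : (⟨l, hlA⟩ : S.A) ∈ IsLocalRing.maximalIdeal S.A := by
      rw [IsLocalRing.mem_maximalIdeal, mem_nonunits_iff]
      rintro ⟨y, hy⟩
      have h1 : l * ((y⁻¹ : (S.A)ˣ) : S.A) = 1 := by
        have := congrArg (fun z : S.A => (z : L)) (y.mul_inv)
        rw [hy] at this
        exact this
      have h2 : S.O.valuation (algebraMap L F l) *
          S.O.valuation (algebraMap L F (((y⁻¹ : (S.A)ˣ) : S.A) : L)) = 1 := by
        rw [← map_mul, ← map_mul, h1, map_one, map_one]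
      have h3 : S.O.valuation (algebraMap L F (((y⁻¹ : (S.A)ˣ) : S.A) : L)) ≤ 1 :=
        (S.O.valuation_le_one_iff _).mpr ((y⁻¹ : (S.A)ˣ) : S.A).2
      have h4 : S.O.valuation (algebraMap L F l) *
          S.O.valuation (algebraMap L F (((y⁻¹ : (S.A)ˣ) : S.A) : L)) < 1 := by
        calc _ ≤ S.O.valuation (algebraMap L F l) * 1 := mul_le_mul' le_rfl h3
          _ = S.O.valuation (algebraMap L F l) := mul_one _
          _ < 1 := by rw [hl]; exact htlt
      rw [h2] at h4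
      exact lt_irrefl _ h4
    have ht' : l⁻¹ • (c - c0 - a1 - b1) ∈ S.ball (S.D0 + twoDiv S.Xinf S.X0 k' k') := by
      refine ⟨Submodule.smul_mem _ _ ht1, ?_⟩
      rw [Algebra.smul_def, ← S.O.valuation_le_one_iff, map_mul, map_inv₀, map_inv₀, hl,
        inv_mul_cancel₀]
      rw [← hl]; exact hvl
    have heq : c - c0 - a1 - b1 = (⟨l, hlA⟩ : S.A) • (l⁻¹ • (c - c0 - a1 - b1)) := by
      show c - c0 - a1 - b1 = l • (l⁻¹ • (c - c0 - a1 - b1))
      rw [smul_smul, mul_inv_cancel₀ hl0, one_smul]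
    rw [heq]
    exact Submodule.smul_mem_smul hlm ht'

/-- Norm-controlled Čech decomposition, in the shape of `helper1788.kummer_core`. -/
theorem hsurj (k0 k' : ℕ) (hk : k0 ≤ k') (hcK : S.cK ≤ (k0 : ℤ) * S.d) :
    ∀ c ∈ riemannRochSpace (S.D0 + twoDiv S.Xinf S.X0 k' k'),
      ∃ c₀ ∈ riemannRochSpace (S.D0 + twoDiv S.Xinf S.X0 k0 k0),
      ∃ a₁ ∈ riemannRochSpace (S.D0 + twoDiv S.Xinf S.X0 k' 0),
      ∃ b₁ ∈ riemannRochSpace (S.D0 + twoDiv S.Xinf S.X0 0 k'),
        c = c₀ + a₁ - b₁ ∧ S.O.valuation a₁ ≤ S.O.valuation c ∧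
          S.O.valuation b₁ ≤ S.O.valuation c ∧ S.O.valuation c₀ ≤ S.O.valuation c := by
  intro c hc
  by_cases hc0 : c = 0
  · refine ⟨0, Submodule.zero_mem _, 0, Submodule.zero_mem _, 0, Submodule.zero_mem _, ?_⟩
    simp [hc0]
  · obtain ⟨l, hl⟩ := S.hVG _ hc0
    have hl0 : l ≠ 0 := by
      intro h
      rw [h, map_zero, map_zero] at hl
      exact hc0 ((map_eq_zero _).mp hl.symm)
    have hlF : algebraMap L F l ≠ 0 := (map_ne_zero _).mpr hl0
    have hvl : S.O.valuation (algebraMap L F l) ≠ 0 := (map_ne_zero _).mpr hlF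
    have hc' : l⁻¹ • c ∈ S.ball (S.D0 + twoDiv S.Xinf S.X0 k' k') := by
      refine ⟨Submodule.smul_mem _ _ hc, ?_⟩
      rw [Algebra.smul_def, ← S.O.valuation_le_one_iff, map_mul, map_inv₀, map_inv₀, hl,
        inv_mul_cancel₀]
      rw [← hl]; exact hvl
    obtain ⟨y01, hy01, b1, hb1, hsum⟩ := Submodule.mem_sup.mp (S.ball_decomp k0 k' hk hcK hc')
    obtain ⟨c0, hc0', a1, ha1, hsum01⟩ := Submodule.mem_sup.mp hy01
    have hval : ∀ y : F, y ∈ S.O → S.O.valuation (l • y) ≤ S.O.valuation c := by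
      intro y hy
      rw [Algebra.smul_def, map_mul, hl]
      calc S.O.valuation c * S.O.valuation y ≤ S.O.valuation c * 1 :=
            mul_le_mul' le_rfl ((S.O.valuation_le_one_iff y).mpr hy)
        _ = S.O.valuation c := mul_one _
    refine ⟨l • c0, Submodule.smul_mem _ _ hc0'.1, l • a1, Submodule.smul_mem _ _ ha1.1,
      -(l • b1), Submodule.neg_mem _ (Submodule.smul_mem _ _ hb1.1), ?_, hval _ ha1.2, ?_,
      hval _ hc0'.2⟩
    · rw [sub_neg_eq_add, ← smul_add, ← smul_add, hsum01, hsum, smul_smul, mul_inv_cancel₀ hl0,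
        one_smul]
    · rw [Valuation.map_neg]; exact hval _ hb1.2

/-- **Function-field Kummer core.** -/
theorem exists_mem_rr : ∃ f : F, f ≠ 0 ∧ f ∈ riemannRochSpace S.D0 := by
  have hd := S.hdpos
  obtain ⟨k0, hk0⟩ : ∃ k0 : ℕ, S.cK ≤ (k0 : ℤ) * S.d := by
    refine ⟨S.cK.toNat, ?_⟩
    have h1 : S.cK ≤ (S.cK.toNat : ℤ) := Int.self_le_toNat _
    have h2 : (0 : ℤ) ≤ (S.cK.toNat : ℤ) := Int.natCast_nonneg _
    nlinarith
  -- seeds
  obtain ⟨a0, ha0, ha0O, ha0red⟩ := (S.surj_and_finrank k0 0 (by simpa using hk0)).2 1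
    (one_mem_rr (twoDiv_nonneg S.hYinf S.hY0 _ _))
  obtain ⟨b0, hb0, hb0O, hb0red⟩ := (S.surj_and_finrank 0 k0 (by simpa using hk0)).2 1
    (one_mem_rr (twoDiv_nonneg S.hYinf S.hY0 _ _))
  have hra0 : S.red ⟨a0, ha0O⟩ ≠ 0 := by
    intro h; rw [h, zero_mul] at ha0red; exact zero_ne_one ha0red
  have hva0 : S.O.valuation a0 = 1 := S.val_eq_one_of_red_ne_zero ha0O hra0
  have hab0 : S.O.valuation (a0 - b0) < 1 := by
    have hO : a0 - b0 ∈ S.O := sub_mem ha0O hb0O
    have h1 : (⟨a0 - b0, hO⟩ : S.O) = ⟨a0, ha0O⟩ - ⟨b0, hb0O⟩ := rfl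
    have h2 : S.red ⟨a0 - b0, hO⟩ * S.w = 0 := by
      rw [h1, map_sub, sub_mul, ha0red, hb0red, sub_self]
    have h3 : S.red ⟨a0 - b0, hO⟩ = 0 := by
      rcases mul_eq_zero.mp h2 with h | h
      · exact h
      · exact absurd h S.hw
    exact (S.hred _).mp h3
  have hseed : ∀ (a : F) (haO : a ∈ S.O), S.red ⟨a, haO⟩ * S.w = 1 →
      S.O.valuation (a ^ S.m * S.u - 1) < 1 := by
    intro a haO hared
    have hO : a ^ S.m * S.u - 1 ∈ S.O :=
      sub_mem (S.O.mul_mem _ _ (S.O.pow_mem haO _) S.hu) S.O.one_mem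
    have h1 : (⟨a ^ S.m * S.u - 1, hO⟩ : S.O) = ⟨a, haO⟩ ^ S.m * ⟨S.u, S.hu⟩ - 1 := rfl
    have h2 : S.red ⟨a ^ S.m * S.u - 1, hO⟩ = 0 := by
      rw [h1, map_sub, map_mul, map_pow, map_one, S.hredu, ← mul_pow, hared, one_pow, sub_self]
    exact (S.hred _).mp h2
  -- orthonormal basis at level k0
  obtain ⟨r, e, he_li, he_span, he_orth⟩ := S.hcart k0 k0
  let bas : Module.Basis (Fin r) L (riemannRochSpace (S.D0 + twoDiv S.Xinf S.X0 k0 k0)) :=
    (Module.Basis.span he_li).map (LinearEquiv.ofEq _ _ he_span)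
  have hbas : ∀ i, ((bas i : riemannRochSpace (S.D0 + twoDiv S.Xinf S.X0 k0 k0)) : F) = e i := by
    intro i
    simp only [bas, Module.Basis.map_apply, LinearEquiv.coe_ofEq_apply]
    exact congrArg Subtype.val (Module.Basis.span_apply he_li i)
  have horth : ∀ (x : riemannRochSpace (S.D0 + twoDiv S.Xinf S.X0 k0 k0)) (i : Fin r),
      S.O.valuation (algebraMap L F (bas.repr x i)) ≤ S.O.valuation (x : F) := by
    intro x i
    have hx : (x : F) = ∑ i, bas.repr x i • e i := by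
      have h1 := congrArg (fun z : riemannRochSpace (S.D0 + twoDiv S.Xinf S.X0 k0 k0) => (z : F))
        (bas.sum_repr x)
      simp only [Submodule.coe_sum, Submodule.coe_smul, hbas] at h1
      exact h1.symm
    rw [hx]
    exact S.orth_le he_li he_orth _ i
  obtain ⟨f, hf0, hf1, hf2⟩ := helper1788.kummer_core S.O.valuation S.harch S.m S.hm S.u
    (fun j => riemannRochSpace (S.D0 + twoDiv S.Xinf S.X0 j 0))
    (fun j => riemannRochSpace (S.D0 + twoDiv S.Xinf S.X0 0 j))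
    (fun j => riemannRochSpace (S.D0 + twoDiv S.Xinf S.X0 j j))
    (fun j => riemannRochSpace (twoDiv S.Xinf S.X0 j 0))
    (fun j => riemannRochSpace (twoDiv S.Xinf S.X0 0 j))
    (fun j => rr_mono (add_le_add le_rfl (twoDiv_mono S.hXinf S.hX0 le_rfl (Nat.zero_le _))))
    (fun j => rr_mono (add_le_add le_rfl (twoDiv_mono S.hXinf S.hX0 (Nat.zero_le _) le_rfl)))
    (fun j => one_mem_rr (twoDiv_nonneg S.hXinf S.hX0 _ _))
    (fun j => one_mem_rr (twoDiv_nonneg S.hXinf S.hX0 _ _))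
    (fun j a ha => by
      have := pow_mul_mem_rr S.u_ne_zero S.hordu ha
      rwa [nsmul_twoDiv, Nat.mul_zero] at this)
    (fun j b hb => by
      have := pow_mul_mem_rr S.u_ne_zero S.hordu hb
      rwa [nsmul_twoDiv, Nat.mul_zero] at this)
    (fun i j s hs a ha => by
      have h := mul_mem_rr hs ha
      have hE : twoDiv S.Xinf S.X0 i 0 + (S.D0 + twoDiv S.Xinf S.X0 j 0) =
          S.D0 + twoDiv S.Xinf S.X0 (i + j) 0 := by
        ext v
        simp only [Finsupp.add_apply, twoDiv_apply, Nat.cast_add, Nat.cast_zero]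
        ring
      rwa [hE] at h)
    (fun i j s hs b hb => by
      have h := mul_mem_rr hs hb
      have hE : twoDiv S.Xinf S.X0 0 i + (S.D0 + twoDiv S.Xinf S.X0 0 j) =
          S.D0 + twoDiv S.Xinf S.X0 0 (i + j) := by
        ext v
        simp only [Finsupp.add_apply, twoDiv_apply, Nat.cast_add, Nat.cast_zero]
        ring
      rwa [hE] at h)
    k0
    (fun j _ a ha b hb hab => rr_sep S.hXinf S.hX0 S.hdisj ha hb hab)
    (fun j hj => S.hsurj k0 j hj hk0)
    bas horth a0 b0 ha0 hb0 hva0 hab0 (hseed a0 ha0O ha0red) (hseed b0 hb0O hb0red)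
  exact ⟨f, hf0, rr_inter S.hdisj hf1 hf2⟩

end FFData


/-- **Function-field Kummer core, explicit form** (route #1924 (1) in Prelude vocabulary).

`F / L` and `Fk / k` are fields with Prelude places; `O` is a valuation subring of `F` whose
value group is that of `L` (`hVG`) and of rank one (`harch`); `red : O → Fk` has kernel the
maximal ideal (`hred`) and hits every constant of `k` on constants of `L` (`hredk_surj`).
`x` is a function with pole divisor `Xinf` and zero divisor `X0` on `F`, its reduction has pole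
divisor `Yinf` and zero divisor `Y0` on `Fk`, all four of the same degree `d > 0`.
`hRC` is the reduction containment for the multiples of the pole divisor of `x`
("integral over `L[x]` with norm `≤ 1` ⟹ reduction integral over `k[x̄]`", both charts).
`hcart`: every Riemann–Roch space of `F` has an orthonormal basis.
`γ` is ONE integer which is an upper bound for the Riemann genus of `F` (`hRiemF`) and a lower
bound for the Riemann genus of `Fk` (`hRiemk`).
If `u` is a unit of `O` with `div u = m • D0`, `deg D0 = 0`, `|m| = 1` and `red u = w ^ m`,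
then `L(D0) ≠ 0`. -/
theorem kummer_ff
    (O : ValuationSubring F)
    (hVG : ∀ f : F, f ≠ 0 → ∃ c : L, O.valuation (algebraMap L F c) = O.valuation f)
    (harch : ∀ ε κ : O.ValueGroup, ε < 1 → κ ≠ 0 → ∃ n : ℕ, ε ^ n < κ)
    (red : O →+* Fk)
    (hred : ∀ f : O, red f = 0 ↔ O.valuation (f : F) < 1)
    (hredk_surj : ∀ c' : k, ∃ (c : L) (hc : algebraMap L F c ∈ O),
      red ⟨algebraMap L F c, hc⟩ = algebraMap k Fk c')
    (x : F) (hx : x ∈ O) (hxne : red ⟨x, hx⟩ ≠ 0)
    (Xinf X0 : Divisor L F) (hXinf : 0 ≤ Xinf) (hX0 : 0 ≤ X0)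
    (hdisj : ∀ P : Place L F, Xinf P = 0 ∨ X0 P = 0)
    (hordx : ∀ P : Place L F, P.ord x = X0 P - Xinf P)
    (Yinf Y0 : Divisor k Fk) (hYinf : 0 ≤ Yinf) (hY0 : 0 ≤ Y0)
    (hdisjk : ∀ Q : Place k Fk, Yinf Q = 0 ∨ Y0 Q = 0)
    (hordxk : ∀ Q : Place k Fk, Q.ord (red ⟨x, hx⟩) = Y0 Q - Yinf Q)
    (d : ℤ) (hdpos : 0 < d)
    (hdX : Divisor.degree Xinf = d) (hdX0 : Divisor.degree X0 = d)
    (hdY : Divisor.degree Yinf = d) (hdY0 : Divisor.degree Y0 = d)
    (hRC : ∀ (n : ℕ) (f : F) (hf : f ∈ O), f ∈ riemannRochSpace (n • Xinf) →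
      red ⟨f, hf⟩ ∈ riemannRochSpace (n • Yinf))
    (D0 : Divisor L F) (hD0 : Divisor.degree D0 = 0)
    (hcart : ∀ E : Divisor L F, ∃ (r : ℕ) (e : Fin r → F), LinearIndependent L e ∧
      Submodule.span L (Set.range e) = riemannRochSpace E ∧
      ∀ c : Fin r → L, (∑ i, c i • e i ∈ O ↔ ∀ i, algebraMap L F (c i) ∈ O))
    (γ : ℤ)
    (hRiemF : ∀ D : Divisor L F,
      Divisor.degree D + 1 - γ ≤ (Module.finrank L (riemannRochSpace D) : ℤ))
    (hfink : ∀ E : Divisor k Fk, Module.Finite k (riemannRochSpace E))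
    (cK : ℤ)
    (hRiemk : ∀ E : Divisor k Fk, cK ≤ Divisor.degree E →
      (Module.finrank k (riemannRochSpace E) : ℤ) ≤ Divisor.degree E + 1 - γ)
    (m : ℕ) (hm : O.valuation (m : F) = 1)
    (u : F) (hu : u ∈ O) (hordu : ∀ P : Place L F, P.ord u = m * D0 P)
    (w : Fk) (hw : w ≠ 0) (hredu : red ⟨u, hu⟩ = w ^ m) :
    ∃ f : F, f ≠ 0 ∧ f ∈ riemannRochSpace D0 := by
  exact FFData.exists_mem_rr
    { O := O, red := red, hVG := hVG, harch := harch, hred := hred, hredk_surj := hredk_surj,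
      x := x, hx := hx, hxne := hxne, Xinf := Xinf, X0 := X0, hXinf := hXinf, hX0 := hX0,
      hdisj := hdisj, hordx := hordx, Yinf := Yinf, Y0 := Y0, hYinf := hYinf, hY0 := hY0,
      hdisjk := hdisjk, hordxk := hordxk, d := d, hdpos := hdpos, hdX := hdX, hdX0 := hdX0,
      hdY := hdY, hdY0 := hdY0,
      hRC := fun n f hf h => by
        rw [twoDiv_zero_right] at h ⊢
        exact hRC n f hf h,
      D0 := D0, hD0 := hD0,
      hcart := fun a b => hcart _, γ := γ, hRiemF := fun a b => hRiemF _,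
      hfink := fun a b => hfink _, cK := cK, hRiemk := fun a b => hRiemk _,
      m := m, hm := hm, u := u, hu := hu, hordu := hordu, w := w, hw := hw, hredu := hredu }

/-- Adapter: the rank-one hypothesis `harch` of `kummer_ff` from the archimedean property of the
valuation on constants. -/
theorem harch_of_constants (O : ValuationSubring F)
    (hVG : ∀ f : F, f ≠ 0 → ∃ c : L, O.valuation (algebraMap L F c) = O.valuation f)
    (hrk : ∀ t c : L, O.valuation (algebraMap L F t) < 1 → c ≠ 0 →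
      ∃ n : ℕ, O.valuation (algebraMap L F (t ^ n)) ≤ O.valuation (algebraMap L F c)) :
    ∀ ε κ : O.ValueGroup, ε < 1 → κ ≠ 0 → ∃ n : ℕ, ε ^ n < κ := by
  intro ε κ hε hκ
  obtain ⟨f, rfl⟩ := O.valuation_surjective ε
  obtain ⟨g, rfl⟩ := O.valuation_surjective κ
  have hg0 : g ≠ 0 := fun h => hκ (by rw [h, map_zero])
  by_cases hf0 : f = 0
  · refine ⟨1, ?_⟩
    rw [hf0, map_zero, pow_one]
    exact zero_lt_iff.mpr hκ
  · obtain ⟨t, ht⟩ := hVG f hf0
    obtain ⟨c, hc⟩ := hVG g hg0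
    have ht0 : t ≠ 0 := by
      intro h
      rw [h, map_zero, map_zero] at ht
      exact hf0 ((map_eq_zero _).mp ht.symm)
    have hc0 : c ≠ 0 := by
      intro h
      rw [h, map_zero, map_zero] at hc
      exact hg0 ((map_eq_zero _).mp hc.symm)
    obtain ⟨n, hn⟩ := hrk t (c * t) (by rw [ht]; exact hε) (mul_ne_zero hc0 ht0)
    refine ⟨n, ?_⟩
    rw [map_pow, map_pow, ht] at hn
    rw [map_mul, map_mul, hc, ht] at hn
    refine lt_of_le_of_lt hn ?_
    calc O.valuation g * O.valuation f < O.valuation g * 1 :=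
          mul_lt_mul_of_pos_left hε (zero_lt_iff.mpr hκ)
      _ = O.valuation g := mul_one _

end Main

section Principal

variable {K F : Type*} [Field K] [Field F] [Algebra K F]

/-- Adapter: a nonzero element of `L(D0)` for a divisor of degree zero makes `D0` principal. -/
theorem isPrincipal_of_mem_rr [HasPrincipalDivisors K F]
    (hdegpos : ∀ P : Place K F, 0 < P.deg) {D0 : Divisor K F} (hD0 : Divisor.degree D0 = 0)
    {f : F} (hf0 : f ≠ 0) (hf : f ∈ riemannRochSpace D0) : Divisor.IsPrincipal D0 := by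
  obtain ⟨E, hE, hEdeg⟩ := HasPrincipalDivisors.exists_divisor (K := K) f hf0
  have hnonneg : ∀ P : Place K F, 0 ≤ (D0 + E) P := by
    intro P
    have := (mem_riemannRochSpace_iff.mp hf P).resolve_left hf0
    rw [Finsupp.add_apply, hE P]
    linarith
  have hdeg : Divisor.degree (D0 + E) = 0 := by rw [map_add, hD0, hEdeg, add_zero]
  have hsum : Divisor.degree (D0 + E) = ∑ P ∈ (D0 + E).support, (D0 + E) P * (P.deg : ℤ) := by
    simp [Divisor.degree, Finsupp.sum]
  rw [hsum] at hdeg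
  have hzero : ∀ P : Place K F, (D0 + E) P = 0 := by
    intro P
    by_contra hP
    have hPs : P ∈ (D0 + E).support := Finsupp.mem_support_iff.mpr hP
    have h1 := (Finset.sum_eq_zero_iff_of_nonneg (fun Q _ =>
      mul_nonneg (hnonneg Q) (Int.natCast_nonneg _))).mp hdeg P hPs
    rcases mul_eq_zero.mp h1 with h | h
    · exact hP h
    · have := hdegpos P
      omega
  refine ⟨f⁻¹, inv_ne_zero hf0, fun P => ?_⟩
  have := hzero P
  rw [Finsupp.add_apply, hE P] at this
  rw [Place.ord_inv]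
  linarith

end Principal


end Fermat.Agent.S18.helper2030
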