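/-
S18, leaf S18-GENBRIDGE (helper8566): chart genus = Riemann genus.

Glue between the place-free genus step of track A (chart spaces `x⁻ᵇ B₁ ⊓ xᵃ B₂`, chart genus
`γ`) and the Prelude-vocabulary Riemann inequalities consumed by the function-field Kummer core.

Setting (one fibre, any characteristic): fields `K ⊆ F`, `[HasPrincipalDivisors K F]`, all places
of degree one, `x ≠ 0` with pole divisor `Xinf` and zero divisor `X0`
(`helper6292.IsPoleDivisor`, `IsZeroDivisor`), and the hard direction of the chart dictionary on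
both charts (`helper6292.ChartIntegral K x`, `ChartIntegral K x⁻¹`).

* `chartSpace K x a b`: the `K`-subspace of `F` of all `f` with `x ^ b * f` integral over `K[x]`
  and `x⁻¹ ^ a * f` integral over `K[x⁻¹]`.
* `riemannRochSpace_eq_chartSpace` (GB1): `L(a • Xinf + b • X0) = chartSpace K x a b`.
* `riemannGenus_eq_of_chart` (GB2): if `dim chartSpace K x a b = (a + b) * d + 1 - γ` for all
  large `a`, `b` (`d = deg Xinf > 0`), then the Riemann genus (`helper981.riemannGenus`) is `γ`.
* `riemann_le_of_chart`, `exists_riemann_eq_of_chart`: Riemann's inequality and Riemann's theorem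
  with the chart genus.
* `exists_genus_two_fibres` (GB3): from `γ_F ≤ γ_k` the two Props `(Riem_F)`, `(Riem_k)` with the
  same `g`.
* `chartIntegral_of_perfect`, `chartIntegral_inv_of_perfect` (GB0): the chart dictionary for a
  perfect constant field, any characteristic (via the Dedekind chart of INSEP).
-/
import Mathlib
import Fermat.Prelude.Def_AlgebraicCurve_Repartitions
import Fermat.Agent.S18.helper981_Riemann
import Fermat.Agent.S18.helper6292_RedContain
import Fermat.Agent.S18.helper8246_IntClosureFinite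

set_option autoImplicit false

namespace Fermat.Agent.S18.helper8566

open AlgebraicCurve IntermediateField Module
open Fermat.Agent.S18.helper981 Fermat.Agent.S18.helper6292

/-- The chart space `x⁻ᵇ B₁ ⊓ xᵃ B₂`: all `f` with `x ^ b * f` integral over `K[x]` and
`x⁻¹ ^ a * f` integral over `K[x⁻¹]`. -/
def chartSpace (K : Type*) {F : Type*} [Field K] [Field F] [Algebra K F] (x : F) (a b : ℕ) :
    Submodule K F where
  carrier := {f | IsIntegral (Algebra.adjoin K {x}) (x ^ b * f) ∧
    IsIntegral (Algebra.adjoin K {x⁻¹}) (x⁻¹ ^ a * f)}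
  zero_mem' := by
    refine ⟨?_, ?_⟩
    · rw [mul_zero]; exact isIntegral_zero
    · rw [mul_zero]; exact isIntegral_zero
  add_mem' := by
    rintro f g ⟨hf1, hf2⟩ ⟨hg1, hg2⟩
    refine ⟨?_, ?_⟩
    · rw [mul_add]; exact hf1.add hg1
    · rw [mul_add]; exact hf2.add hg2
  smul_mem' := by
    rintro c f ⟨hf1, hf2⟩
    refine ⟨?_, ?_⟩
    · rw [mul_smul_comm]; exact hf1.smul c
    · rw [mul_smul_comm]; exact hf2.smul c

variable {K F : Type*} [Field K] [Field F] [Algebra K F]

theorem mem_chartSpace {x : F} {a b : ℕ} {f : F} :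
    f ∈ chartSpace K x a b ↔ IsIntegral (Algebra.adjoin K {x}) (x ^ b * f) ∧
      IsIntegral (Algebra.adjoin K {x⁻¹}) (x⁻¹ ^ a * f) := Iff.rfl

/-- Multiplication by `x ^ b` moves `L(a • Xinf + b • X0)` onto `L((a + b) • Xinf)`. -/
theorem pow_mul_mem_riemannRochSpace_iff {x : F} (hx0 : x ≠ 0) {Xinf X0 : Divisor K F}
    (hXinf : IsPoleDivisor x Xinf) (hX0 : IsZeroDivisor x X0) (a b : ℕ) (f : F) :
    x ^ b * f ∈ riemannRochSpace ((a + b) • Xinf) ↔
      f ∈ riemannRochSpace (a • Xinf + b • X0) := by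
  rw [mem_riemannRochSpace_iff, mem_riemannRochSpace_iff]
  refine forall_congr' fun v => ?_
  by_cases hf : f = 0
  · simp [hf]
  have hxb : x ^ b ≠ 0 := pow_ne_zero b hx0
  have hne : x ^ b * f ≠ 0 := mul_ne_zero hxb hf
  have hord : v.ord (x ^ b * f) = b * v.ord x + v.ord f := by
    rw [v.ord_mul hxb hf, ← zpow_natCast, v.ord_zpow]
  have hx := ord_eq_zero_sub_pole hXinf hX0 v
  simp only [hf, hne, false_or, Finsupp.add_apply, Finsupp.smul_apply, nsmul_eq_mul, hord, hx]
  push_cast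
  constructor <;> intro h <;> linarith

/-- (GB1) The chart dictionary: `L(a • Xinf + b • X0) = x⁻ᵇ B₁ ⊓ xᵃ B₂`. -/
theorem riemannRochSpace_eq_chartSpace {x : F} (hx0 : x ≠ 0) {Xinf X0 : Divisor K F}
    (hXinf : IsPoleDivisor x Xinf) (hX0 : IsZeroDivisor x X0)
    (hC : ChartIntegral K x) (hC' : ChartIntegral K x⁻¹) (a b : ℕ) :
    riemannRochSpace (a • Xinf + b • X0) = chartSpace K x a b := by
  ext f
  rw [← pow_mul_mem_riemannRochSpace_iff hx0 hXinf hX0 a b f,
    mem_riemannRochSpace_iff_isIntegral hx0 hXinf hC hC' (a + b) (x ^ b * f), mem_chartSpace]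
  have h : x⁻¹ ^ (a + b) * (x ^ b * f) = x⁻¹ ^ a * f := by
    rw [pow_add, mul_assoc, ← mul_assoc (x⁻¹ ^ b), ← mul_pow, inv_mul_cancel₀ hx0, one_pow,
      one_mul]
  rw [h]

/-- The zero divisor and the pole divisor of a function have the same degree. -/
theorem degree_zero_eq_degree_pole [HasPrincipalDivisors K F] {x : F} (hx0 : x ≠ 0)
    {Xinf X0 : Divisor K F} (hXinf : IsPoleDivisor x Xinf) (hX0 : IsZeroDivisor x X0) :
    Divisor.degree X0 = Divisor.degree Xinf := by
  obtain ⟨Z, hZ, hZ0⟩ := HasPrincipalDivisors.exists_divisor (K := K) x hx0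
  have hZeq : Z = X0 - Xinf := by
    ext v
    rw [hZ v, Finsupp.sub_apply, ord_eq_zero_sub_pole hXinf hX0 v]
  rw [hZeq, map_sub] at hZ0
  linarith

/-- (GB2) **Chart genus = Riemann genus.**  If the chart spaces have dimension
`(a + b) * d + 1 - γ` for all large `a`, `b`, where `d = deg Xinf > 0`, then the Riemann genus
is `γ`. -/
theorem riemannGenus_eq_of_chart [HasPrincipalDivisors K F] (hdeg : ∀ v : Place K F, v.deg = 1)
    (P₀ : Place K F) (hRB : HasRiemannBound K F) {x : F} (hx0 : x ≠ 0)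
    {Xinf X0 : Divisor K F} (hXinf : IsPoleDivisor x Xinf) (hX0 : IsZeroDivisor x X0)
    (hC : ChartIntegral K x) (hC' : ChartIntegral K x⁻¹)
    {d : ℕ} (hd : Divisor.degree Xinf = d) (hdpos : 0 < d) {γ : ℤ}
    (hchart : ∃ n₀ : ℕ, ∀ a b : ℕ, n₀ ≤ a → n₀ ≤ b →
      (finrank K (chartSpace K x a b) : ℤ) = ((a : ℤ) + b) * d + 1 - γ) :
    (riemannGenus K F : ℤ) = γ := by
  obtain ⟨n₀, hn₀⟩ := hchart
  have hd0 : Divisor.degree X0 = d := (degree_zero_eq_degree_pole hx0 hXinf hX0).trans hd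
  refine riemannGenus_eq_of hdeg P₀ hRB fun c => ?_
  set a : ℕ := max n₀ c.toNat with ha
  have hdegD : Divisor.degree (a • Xinf + a • X0) = ((a : ℤ) + a) * d := by
    rw [map_add, map_nsmul, map_nsmul, hd, hd0]
    simp only [nsmul_eq_mul]
    ring
  refine ⟨a • Xinf + a • X0, ?_, ?_⟩
  · rw [hdegD]
    have h1 : c ≤ (a : ℤ) := by
      have : c.toNat ≤ a := le_max_right _ _
      have h2 : c ≤ (c.toNat : ℤ) := Int.self_le_toNat c
      exact h2.trans (by exact_mod_cast this)
    have h3 : (1 : ℤ) ≤ d := by exact_mod_cast hdpos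
    have h4 : (0 : ℤ) ≤ a := Int.natCast_nonneg a
    nlinarith
  · rw [riemannRochSpace_eq_chartSpace hx0 hXinf hX0 hC hC' a a, hdegD]
    exact hn₀ a a (le_max_left _ _) (le_max_left _ _)

/-- Riemann's inequality with the chart genus. -/
theorem riemann_le_of_chart [HasPrincipalDivisors K F] (hdeg : ∀ v : Place K F, v.deg = 1)
    (P₀ : Place K F) (hRB : HasRiemannBound K F) {x : F} (hx0 : x ≠ 0)
    {Xinf X0 : Divisor K F} (hXinf : IsPoleDivisor x Xinf) (hX0 : IsZeroDivisor x X0)
    (hC : ChartIntegral K x) (hC' : ChartIntegral K x⁻¹)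
    {d : ℕ} (hd : Divisor.degree Xinf = d) (hdpos : 0 < d) {γ : ℤ}
    (hchart : ∃ n₀ : ℕ, ∀ a b : ℕ, n₀ ≤ a → n₀ ≤ b →
      (finrank K (chartSpace K x a b) : ℤ) = ((a : ℤ) + b) * d + 1 - γ)
    (D : Divisor K F) :
    Divisor.degree D + 1 - γ ≤ (finrank K (riemannRochSpace D) : ℤ) := by
  rw [← riemannGenus_eq_of_chart hdeg P₀ hRB hx0 hXinf hX0 hC hC' hd hdpos hchart]
  exact riemannGenus_mem hRB D

/-- Riemann's theorem with the chart genus: equality for all divisors of large degree. -/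
theorem exists_riemann_eq_of_chart [HasPrincipalDivisors K F]
    (hdeg : ∀ v : Place K F, v.deg = 1)
    (P₀ : Place K F) (hRB : HasRiemannBound K F) {x : F} (hx0 : x ≠ 0)
    {Xinf X0 : Divisor K F} (hXinf : IsPoleDivisor x Xinf) (hX0 : IsZeroDivisor x X0)
    (hC : ChartIntegral K x) (hC' : ChartIntegral K x⁻¹)
    {d : ℕ} (hd : Divisor.degree Xinf = d) (hdpos : 0 < d) {γ : ℤ}
    (hchart : ∃ n₀ : ℕ, ∀ a b : ℕ, n₀ ≤ a → n₀ ≤ b →
      (finrank K (chartSpace K x a b) : ℤ) = ((a : ℤ) + b) * d + 1 - γ) :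
    ∃ c : ℤ, ∀ D : Divisor K F, c ≤ Divisor.degree D →
      (finrank K (riemannRochSpace D) : ℤ) = Divisor.degree D + 1 - γ := by
  rw [← riemannGenus_eq_of_chart hdeg P₀ hRB hx0 hXinf hX0 hC hC' hd hdpos hchart]
  exact exists_forall_finrank_eq hdeg P₀ hRB

/-- The chart genus is a natural number (it is the Riemann genus). -/
theorem chart_genus_nonneg [HasPrincipalDivisors K F] (hdeg : ∀ v : Place K F, v.deg = 1)
    (P₀ : Place K F) (hRB : HasRiemannBound K F) {x : F} (hx0 : x ≠ 0)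
    {Xinf X0 : Divisor K F} (hXinf : IsPoleDivisor x Xinf) (hX0 : IsZeroDivisor x X0)
    (hC : ChartIntegral K x) (hC' : ChartIntegral K x⁻¹)
    {d : ℕ} (hd : Divisor.degree Xinf = d) (hdpos : 0 < d) {γ : ℤ}
    (hchart : ∃ n₀ : ℕ, ∀ a b : ℕ, n₀ ≤ a → n₀ ≤ b →
      (finrank K (chartSpace K x a b) : ℤ) = ((a : ℤ) + b) * d + 1 - γ) :
    0 ≤ γ := by
  rw [← riemannGenus_eq_of_chart hdeg P₀ hRB hx0 hXinf hX0 hC hC' hd hdpos hchart]
  exact Int.natCast_nonneg _

section TwoFibres

variable {L E k Ek : Type*} [Field L] [Field E] [Algebra L E] [Field k] [Field Ek] [Algebra k Ek]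

/-- (GB3) **The genus inputs of the function-field Kummer core.**  `E / L` the generic fibre,
`Ek / k` the special fibre, each with a base function (`x`, resp. `y`) and the chart Riemann
count with chart genus `γ`, resp. `γk`.  If `γ ≤ γk` (semicontinuity of the chart genus), there
is ONE natural number `g` with Riemann's inequality `deg D + 1 - g ≤ l(D)` on the generic fibre
and the reverse inequality `l(D') ≤ deg D' + 1 - g` for all divisors of large degree on the
special fibre. -/
theorem exists_genus_two_fibres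
    [HasPrincipalDivisors L E] (hdegE : ∀ v : Place L E, v.deg = 1) (P₀ : Place L E)
    (hRBE : HasRiemannBound L E) {x : E} (hx0 : x ≠ 0)
    {Xinf X0 : Divisor L E} (hXinf : IsPoleDivisor x Xinf) (hX0 : IsZeroDivisor x X0)
    (hC : ChartIntegral L x) (hC' : ChartIntegral L x⁻¹)
    {d : ℕ} (hd : Divisor.degree Xinf = d) (hdpos : 0 < d) {γ : ℤ}
    (hchart : ∃ n₀ : ℕ, ∀ a b : ℕ, n₀ ≤ a → n₀ ≤ b →
      (finrank L (chartSpace L x a b) : ℤ) = ((a : ℤ) + b) * d + 1 - γ)
    [HasPrincipalDivisors k Ek] (hdegk : ∀ v : Place k Ek, v.deg = 1) (Q₀ : Place k Ek)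
    (hRBk : HasRiemannBound k Ek) {y : Ek} (hy0 : y ≠ 0)
    {Yinf Y0 : Divisor k Ek} (hYinf : IsPoleDivisor y Yinf) (hY0 : IsZeroDivisor y Y0)
    (hCk : ChartIntegral k y) (hCk' : ChartIntegral k y⁻¹)
    {dk : ℕ} (hdk : Divisor.degree Yinf = dk) (hdkpos : 0 < dk) {γk : ℤ}
    (hchartk : ∃ n₀ : ℕ, ∀ a b : ℕ, n₀ ≤ a → n₀ ≤ b →
      (finrank k (chartSpace k y a b) : ℤ) = ((a : ℤ) + b) * dk + 1 - γk)
    (hγ : γ ≤ γk) :
    ∃ g : ℕ,
      (∀ D : Divisor L E,
        Divisor.degree D + 1 - (g : ℤ) ≤ (finrank L (riemannRochSpace D) : ℤ)) ∧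
      (∃ c : ℤ, ∀ D' : Divisor k Ek, c ≤ Divisor.degree D' →
        (finrank k (riemannRochSpace D') : ℤ) ≤ Divisor.degree D' + 1 - (g : ℤ)) := by
  have hg := riemannGenus_eq_of_chart hdegE P₀ hRBE hx0 hXinf hX0 hC hC' hd hdpos hchart
  refine ⟨riemannGenus L E, fun D => riemannGenus_mem hRBE D, ?_⟩
  obtain ⟨c, hc⟩ := exists_riemann_eq_of_chart hdegk Q₀ hRBk hy0 hYinf hY0 hCk hCk' hdk hdkpos
    hchartk
  refine ⟨c, fun D' hD' => ?_⟩
  rw [hc D' hD', hg]
  linarith

end TwoFibres

section Perfect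

/-- (GB0) The hard direction of the chart dictionary for a perfect constant field, in any
characteristic: if `F` is finite over `K(x)`, an element lying in the valuation ring of every
place containing `x` is integral over `K[x]`. -/
theorem chartIntegral_of_perfect [PerfectField K] (x : F) [FiniteDimensional K⟮x⟯ F] :
    ChartIntegral K x := by
  have := Fermat.Agent.S18.helper8246.isDedekindDomain_integralClosure_adjoin (K := K) x
  have := Fermat.Agent.S18.helper8246.isFractionRing_integralClosure_adjoin (K := K) x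
  refine chartIntegral_of_dedekind (K := K) (R := integralClosure (Algebra.adjoin K {x}) F)
    ⟨⟨x, ?_⟩, rfl⟩ fun r => r.2
  exact isIntegral_algebraMap (R := Algebra.adjoin K {x}) (A := F)
    (x := ⟨x, Algebra.self_mem_adjoin_singleton K x⟩)

/-- (GB0) at infinity. -/
theorem chartIntegral_inv_of_perfect [PerfectField K] (x : F) [FiniteDimensional K⟮x⟯ F] :
    ChartIntegral K x⁻¹ := by
  have : FiniteDimensional K⟮x⁻¹⟯ F := Fermat.Agent.S24.helper204.finiteDimensional_adjoin_inv
  exact chartIntegral_of_perfect x⁻¹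

/-- (GB1) for a perfect constant field: no chart hypotheses left. -/
theorem riemannRochSpace_eq_chartSpace_of_perfect [PerfectField K] {x : F} (hx0 : x ≠ 0)
    [FiniteDimensional K⟮x⟯ F] {Xinf X0 : Divisor K F}
    (hXinf : IsPoleDivisor x Xinf) (hX0 : IsZeroDivisor x X0) (a b : ℕ) :
    riemannRochSpace (a • Xinf + b • X0) = chartSpace K x a b :=
  riemannRochSpace_eq_chartSpace hx0 hXinf hX0 (chartIntegral_of_perfect x)
    (chartIntegral_inv_of_perfect x) a b

end Perfect

end Fermat.Agent.S18.helper8566
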