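/-
S18 — Kummer core, function-field instantiation with an ABSTRACT / CHART-ONLY special fibre
(track A closing theorem, helper2030).

`FFDataG.exists_mem_rr` is `helper2030.kummer_ff` with the Riemann–Roch spaces of the special fibre
replaced by an arbitrary family `Nk a b` of `k`-subspaces of `Fk` (monotone, `Nk a b ⊓ Nk a' b' ≤
Nk a b'`, containing `1`, receiving the twisted reductions, of dimension `≤ (a + b) d + 1 - γ`).
`kummer_ff_chart` is the instance `Nk a b = helper8566.chartSpace k x̄ a b`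
(`x̄ ^ b * z` integral over `k[x̄]`, `x̄⁻¹ ^ a * z` integral over `k[x̄⁻¹]`): NO places, divisors or
Riemann–Roch spaces on the special fibre.
-/
import Mathlib
import Fermat.Prelude.Def_AlgebraicCurve_Repartitions
import Fermat.Agent.S18.helper2030_KummerFF
import Fermat.Agent.S18.helper8566_GenusBridge

set_option autoImplicit false

noncomputable section

namespace Fermat.Agent.S18.helper2030

open AlgebraicCurve WithZero

section MainG

variable {L F k Fk : Type*} [Field L] [Field F] [Algebra L F] [Field k] [Field Fk] [Algebra k Fk]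

/-- The data of the function-field Kummer core: a valued function field `F / L` with valuation
ring `O`, a reduction `red : O → Fk` onto (a subfield of) a function field `Fk / k`, a function
`x` with pole divisor `Xinf` and zero divisor `X0` on both sides, one genus bound `γ` for both
fibres, and the Kummer datum `u` with `div u = m D0`, `red u = w ^ m`. -/
structure FFDataG (L F k Fk : Type*) [Field L] [Field F] [Algebra L F] [Field k] [Field Fk]
    [Algebra k Fk] where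
  O : ValuationSubring F
  red : O →+* Fk
  hVG : ∀ f : F, f ≠ 0 → ∃ c : L, O.valuation (algebraMap L F c) = O.valuation f
  harch : ∀ ε κ : O.ValueGroup, ε < 1 → κ ≠ 0 → ∃ n : ℕ, ε ^ n < κ
  hred : ∀ f : O, red f = 0 ↔ O.valuation (f : F) < 1
  hredk_surj : ∀ c' : k, ∃ (c : L) (hc : algebraMap L F c ∈ O),
    red ⟨algebraMap L F c, hc⟩ = algebraMap k Fk c'
  Xinf : Divisor L F
  X0 : Divisor L F
  hXinf : 0 ≤ Xinf
  hX0 : 0 ≤ X0
  hdisj : ∀ P : Place L F, Xinf P = 0 ∨ X0 P = 0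
  d : ℤ
  hdpos : 0 < d
  hdX : Divisor.degree Xinf = d
  hdX0 : Divisor.degree X0 = d
  D0 : Divisor L F
  hD0 : Divisor.degree D0 = 0
  hcart : ∀ a b : ℕ, ∃ (r : ℕ) (e : Fin r → F), LinearIndependent L e ∧
    Submodule.span L (Set.range e) = riemannRochSpace (D0 + twoDiv Xinf X0 a b) ∧
    ∀ c : Fin r → L, (∑ i, c i • e i ∈ O ↔ ∀ i, algebraMap L F (c i) ∈ O)
  γ : ℤ
  hRiemF : ∀ a b : ℕ, Divisor.degree (D0 + twoDiv Xinf X0 a b) + 1 - γ ≤
    (Module.finrank L (riemannRochSpace (D0 + twoDiv Xinf X0 a b)) : ℤ)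
  w : Fk
  hw : w ≠ 0
  Nk : ℕ → ℕ → Submodule k Fk
  hNmono : ∀ a a' b b' : ℕ, a ≤ a' → b ≤ b' → Nk a b ≤ Nk a' b'
  hNinf : ∀ a a' b b' : ℕ, a ≤ a' → b' ≤ b → Nk a b ⊓ Nk a' b' ≤ Nk a b'
  hNone : ∀ a b : ℕ, (1 : Fk) ∈ Nk a b
  hNred : ∀ (a b : ℕ) (f : F) (hf : f ∈ O), f ∈ riemannRochSpace (D0 + twoDiv Xinf X0 a b) →
    red ⟨f, hf⟩ * w ∈ Nk a b
  hfink : ∀ a b : ℕ, Module.Finite k (Nk a b)
  cK : ℤ
  hRiemk : ∀ a b : ℕ, cK ≤ ((a : ℤ) + b) * d →
    (Module.finrank k (Nk a b) : ℤ) ≤ ((a : ℤ) + b) * d + 1 - γ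
  m : ℕ
  hm : O.valuation (m : F) = 1
  u : F
  hu : u ∈ O
  hordu : ∀ P : Place L F, P.ord u = m * D0 P
  hredu : red ⟨u, hu⟩ = w ^ m

namespace FFDataG

variable (S : FFDataG L F k Fk)

theorem m_ne_zero : S.m ≠ 0 := by
  intro h
  have := S.hm
  rw [h, Nat.cast_zero, map_zero] at this
  exact zero_ne_one this

theorem u_ne_zero : S.u ≠ 0 := by
  intro h
  have h1 : S.red ⟨S.u, S.hu⟩ = 0 := by
    have : (⟨S.u, S.hu⟩ : S.O) = 0 := Subtype.ext h
    rw [this, map_zero]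
  rw [S.hredu] at h1
  exact S.hw (pow_eq_zero_iff S.m_ne_zero |>.mp h1)

/-- Elements of `O` with nonzero reduction have valuation one. -/
theorem val_eq_one_of_red_ne_zero {f : F} (hf : f ∈ S.O) (h : S.red ⟨f, hf⟩ ≠ 0) :
    S.O.valuation f = 1 := by
  have h1 : ¬ S.O.valuation f < 1 := fun h' => h ((S.hred ⟨f, hf⟩).mpr h')
  exact le_antisymm ((S.O.valuation_le_one_iff f).mpr hf) (not_lt.mp h1)

/-- Twisted reduction containment. -/
theorem red_mul_w_mem (a b : ℕ) {f : F} (hf : f ∈ S.O)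
    (h : f ∈ riemannRochSpace (S.D0 + twoDiv S.Xinf S.X0 a b)) :
    S.red ⟨f, hf⟩ * S.w ∈ S.Nk a b := S.hNred a b f hf h

/-- Reduction of an integral linear combination. -/
theorem red_sum {r : ℕ} (e : Fin r → F) (he : ∀ i, e i ∈ S.O) (c : Fin r → L)
    (hc : ∀ i, algebraMap L F (c i) ∈ S.O) (hf : ∑ i, c i • e i ∈ S.O) :
    S.red ⟨∑ i, c i • e i, hf⟩ =
      ∑ i, S.red ⟨algebraMap L F (c i), hc i⟩ * S.red ⟨e i, he i⟩ := by
  have h1 : (⟨∑ i, c i • e i, hf⟩ : S.O) =
      ∑ i, (⟨algebraMap L F (c i), hc i⟩ : S.O) * ⟨e i, he i⟩ := by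
    apply Subtype.ext
    show ∑ i, c i • e i =
      S.O.subtype (∑ i, (⟨algebraMap L F (c i), hc i⟩ : S.O) * ⟨e i, he i⟩)
    rw [map_sum]
    refine Finset.sum_congr rfl fun i _ => ?_
    rw [Algebra.smul_def]
    rfl
  rw [h1, map_sum]
  simp only [map_mul]

/-- In an orthonormal family, coordinates are bounded by the norm. -/
theorem orth_le {r : ℕ} {e : Fin r → F} (he_li : LinearIndependent L e)
    (he_orth : ∀ c : Fin r → L, (∑ i, c i • e i ∈ S.O ↔ ∀ i, algebraMap L F (c i) ∈ S.O))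
    (c : Fin r → L) (i : Fin r) :
    S.O.valuation (algebraMap L F (c i)) ≤ S.O.valuation (∑ i, c i • e i) := by
  by_cases hf0 : ∑ i, c i • e i = 0
  · have := Fintype.linearIndependent_iff.mp he_li c hf0 i
    rw [this, map_zero, map_zero]
    exact zero_le
  · obtain ⟨l, hl⟩ := S.hVG _ hf0
    have hl0 : l ≠ 0 := by
      intro h
      rw [h, map_zero, map_zero] at hl
      exact hf0 ((map_eq_zero _).mp hl.symm)
    have hlF : algebraMap L F l ≠ 0 := (map_ne_zero _).mpr hl0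
    have hvl : S.O.valuation (algebraMap L F l) ≠ 0 := (map_ne_zero _).mpr hlF
    have key : ∑ i, (l⁻¹ * c i) • e i ∈ S.O := by
      have h1 : ∑ i, (l⁻¹ * c i) • e i = algebraMap L F l⁻¹ * ∑ i, c i • e i := by
        rw [Finset.mul_sum]
        refine Finset.sum_congr rfl fun i _ => ?_
        rw [mul_smul, Algebra.smul_def]
      rw [h1, ← S.O.valuation_le_one_iff, map_mul, map_inv₀, map_inv₀, hl, inv_mul_cancel₀]
      rw [← hl]; exact hvl
    have h2 := (he_orth _).mp key i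
    rw [← S.O.valuation_le_one_iff, map_mul, map_mul, map_inv₀, map_inv₀] at h2
    rw [← hl]
    calc S.O.valuation (algebraMap L F (c i))
        = S.O.valuation (algebraMap L F l) *
          ((S.O.valuation (algebraMap L F l))⁻¹ * S.O.valuation (algebraMap L F (c i))) := by
          rw [← mul_assoc, mul_inv_cancel₀ hvl, one_mul]
      _ ≤ S.O.valuation (algebraMap L F l) * 1 := mul_le_mul' le_rfl h2
      _ = S.O.valuation (algebraMap L F l) := mul_one _

theorem orth_mem {r : ℕ} {e : Fin r → F}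
    (he_orth : ∀ c : Fin r → L, (∑ i, c i • e i ∈ S.O ↔ ∀ i, algebraMap L F (c i) ∈ S.O))
    (i : Fin r) : e i ∈ S.O := by
  classical
  have h := (he_orth (Pi.single i 1)).mpr (fun j => by
    by_cases hj : j = i
    · subst hj; rw [Pi.single_eq_same, map_one]; exact S.O.one_mem
    · rw [Pi.single_eq_of_ne hj, map_zero]; exact S.O.zero_mem)
  have h2 : ∑ j, (Pi.single i (1 : L) : Fin r → L) j • e j = e i := by
    rw [Finset.sum_eq_single i]
    · rw [Pi.single_eq_same, one_smul]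
    · intro j _ hj
      rw [Pi.single_eq_of_ne hj, zero_smul]
    · intro h; exact absurd (Finset.mem_univ i) h
  rwa [h2] at h

/-- The reduced family `red (e i) * w` is linearly independent over `k`. -/
theorem red_linearIndependent {r : ℕ} {e : Fin r → F} (he_li : LinearIndependent L e)
    (he_orth : ∀ c : Fin r → L, (∑ i, c i • e i ∈ S.O ↔ ∀ i, algebraMap L F (c i) ∈ S.O)) :
    LinearIndependent k (fun i => S.red ⟨e i, S.orth_mem he_orth i⟩ * S.w) := by
  rw [Fintype.linearIndependent_iff]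
  intro g hg i
  choose c hc hcred using fun i => S.hredk_surj (g i)
  have hfO : ∑ i, c i • e i ∈ S.O := (he_orth c).mpr hc
  have hredf : S.red ⟨∑ i, c i • e i, hfO⟩ * S.w =
      ∑ i, g i • (S.red ⟨e i, S.orth_mem he_orth i⟩ * S.w) := by
    rw [S.red_sum e (S.orth_mem he_orth) c hc hfO, Finset.sum_mul]
    refine Finset.sum_congr rfl fun i _ => ?_
    rw [hcred i, Algebra.smul_def, mul_assoc]
  rw [hg] at hredf
  have h0 : S.red ⟨∑ i, c i • e i, hfO⟩ = 0 := by
    rcases mul_eq_zero.mp hredf with h | h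
    · exact h
    · exact absurd h S.hw
  have hlt : S.O.valuation (∑ i, c i • e i) < 1 := (S.hred _).mp h0
  have hci : S.O.valuation (algebraMap L F (c i)) < 1 :=
    lt_of_le_of_lt (S.orth_le he_li he_orth c i) hlt
  have h1 : S.red ⟨algebraMap L F (c i), hc i⟩ = 0 := (S.hred _).mpr hci
  rw [hcred i] at h1
  exact (map_eq_zero (algebraMap k Fk)).mp h1

/-- Lifting of `k`-combinations of the reduced family. -/
theorem red_lift {r : ℕ} {e : Fin r → F}
    (he_orth : ∀ c : Fin r → L, (∑ i, c i • e i ∈ S.O ↔ ∀ i, algebraMap L F (c i) ∈ S.O))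
    (g : Fin r → k) :
    ∃ f ∈ Submodule.span L (Set.range e), ∃ hf : f ∈ S.O,
      S.red ⟨f, hf⟩ * S.w = ∑ i, g i • (S.red ⟨e i, S.orth_mem he_orth i⟩ * S.w) := by
  choose c hc hcred using fun i => S.hredk_surj (g i)
  have hfO : ∑ i, c i • e i ∈ S.O := (he_orth c).mpr hc
  refine ⟨∑ i, c i • e i, ?_, hfO, ?_⟩
  · exact Submodule.sum_mem _ fun i _ =>
      Submodule.smul_mem _ _ (Submodule.subset_span (Set.mem_range_self i))
  · rw [S.red_sum e (S.orth_mem he_orth) c hc hfO, Finset.sum_mul]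
    refine Finset.sum_congr rfl fun i _ => ?_
    rw [hcred i, Algebra.smul_def, mul_assoc]

theorem degree_E (a b : ℕ) :
    Divisor.degree (S.D0 + twoDiv S.Xinf S.X0 a b) = ((a : ℤ) + b) * S.d := by
  rw [map_add, degree_twoDiv, S.hdX, S.hdX0, S.hD0]; ring

/-- The squeeze: in the Riemann range the twisted reduction map is onto and the dimension on the
special fibre is the expected one. -/
theorem surj_and_finrank (a b : ℕ) (hab : S.cK ≤ ((a : ℤ) + b) * S.d) :
    (Module.finrank k ((S.Nk a b)) : ℤ) =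
        ((a : ℤ) + b) * S.d + 1 - S.γ ∧
      ∀ g ∈ (S.Nk a b),
        ∃ f ∈ riemannRochSpace (S.D0 + twoDiv S.Xinf S.X0 a b), ∃ hf : f ∈ S.O,
          S.red ⟨f, hf⟩ * S.w = g := by
  obtain ⟨r, e, he_li, he_span, he_orth⟩ := S.hcart a b
  have := S.hfink a b
  have hr : Module.finrank L (riemannRochSpace (S.D0 + twoDiv S.Xinf S.X0 a b)) = r := by
    rw [← he_span, finrank_span_eq_card he_li, Fintype.card_fin]
  have hmem : ∀ i, e i ∈ riemannRochSpace (S.D0 + twoDiv S.Xinf S.X0 a b) := fun i => by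
    rw [← he_span]; exact Submodule.subset_span (Set.mem_range_self i)
  let e' : Fin r → (S.Nk a b) := fun i =>
    ⟨S.red ⟨e i, S.orth_mem he_orth i⟩ * S.w, S.red_mul_w_mem a b _ (hmem i)⟩
  have hli' : LinearIndependent k e' :=
    LinearIndependent.of_comp ((S.Nk a b)).subtype
      (S.red_linearIndependent he_li he_orth)
  have h1 : r ≤ Module.finrank k ((S.Nk a b)) := by
    have := hli'.fintype_card_le_finrank
    rwa [Fintype.card_fin] at this
  have h2 := S.hRiemk a b hab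
  have h3 := S.hRiemF a b
  rw [S.degree_E, hr] at h3
  have h4 : (r : ℤ) ≤ (Module.finrank k ((S.Nk a b)) : ℤ) := by
    exact_mod_cast h1
  have hcard : (Module.finrank k ((S.Nk a b)) : ℤ) = r := by
    linarith
  refine ⟨by linarith, fun g hg => ?_⟩
  have hspan : Submodule.span k (Set.range e') = ⊤ :=
    hli'.span_eq_top_of_card_eq_finrank' (by rw [Fintype.card_fin]; exact_mod_cast hcard.symm)
  have hg' : (⟨g, hg⟩ : (S.Nk a b)) ∈
      Submodule.span k (Set.range e') := by rw [hspan]; trivial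
  obtain ⟨coef, hcoef⟩ := (Submodule.mem_span_range_iff_exists_fun k).mp hg'
  obtain ⟨f, hf1, hf2, hf3⟩ := S.red_lift he_orth coef
  refine ⟨f, by rwa [he_span] at hf1, hf2, ?_⟩
  rw [hf3]
  have := congrArg (fun z : (S.Nk a b) => (z : Fk)) hcoef
  simpa [e'] using this


/-- Sum formula on the special fibre. -/
theorem rrk_sup (a a' b b' : ℕ) (ha : a ≤ a') (hb : b' ≤ b)
    (hc : S.cK ≤ ((a : ℤ) + b') * S.d) :
    (S.Nk a' b) ≤
      (S.Nk a b) ⊔ (S.Nk a' b') := by
  have hd := S.hdpos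
  have ha' : (a : ℤ) ≤ a' := by exact_mod_cast ha
  have hb' : (b' : ℤ) ≤ b := by exact_mod_cast hb
  have hle : (S.Nk a b) ⊔ (S.Nk a' b') ≤ (S.Nk a' b) :=
    sup_le (S.hNmono a a' b b ha le_rfl) (S.hNmono a' a' b' b le_rfl hb)
  have hinf : (S.Nk a b) ⊓ (S.Nk a' b') = (S.Nk a b') :=
    le_antisymm (S.hNinf a a' b b' ha hb)
      (le_inf (S.hNmono a a b' b le_rfl hb) (S.hNmono a a' b' b' ha le_rfl))
  have := S.hfink a b
  have := S.hfink a' b'
  have := S.hfink a' b
  have hsum := Submodule.finrank_sup_add_finrank_inf_eq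
    ((S.Nk a b)) ((S.Nk a' b'))
  rw [hinf] at hsum
  have e1 := (S.surj_and_finrank a b (by nlinarith)).1
  have e2 := (S.surj_and_finrank a' b' (by nlinarith)).1
  have e3 := (S.surj_and_finrank a b' hc).1
  have e4 := (S.surj_and_finrank a' b (by nlinarith)).1
  have hsumZ : ((Module.finrank k ↥((S.Nk a b) ⊔
      (S.Nk a' b')) : ℕ) : ℤ) +
      (Module.finrank k ((S.Nk a b')) : ℤ) =
      (Module.finrank k ((S.Nk a b)) : ℤ) +
      (Module.finrank k ((S.Nk a' b')) : ℤ) := by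
    exact_mod_cast hsum
  have hfin : Module.finrank k ↥((S.Nk a b) ⊔
      (S.Nk a' b')) =
      Module.finrank k ((S.Nk a' b)) := by
    have : ((Module.finrank k ↥((S.Nk a b) ⊔
      (S.Nk a' b')) : ℕ) : ℤ) =
      (Module.finrank k ((S.Nk a' b)) : ℤ) := by
      rw [e4]; linarith
    exact_mod_cast this
  exact (Submodule.eq_of_le_of_finrank_eq hle hfin).ge

theorem rrk_decomp (k0 k' : ℕ) (hk : k0 ≤ k') (hc : S.cK ≤ (k0 : ℤ) * S.d) :
    (S.Nk k' k') ≤
      (S.Nk k0 k0) ⊔ (S.Nk k' 0) ⊔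
        (S.Nk 0 k') := by
  have h1 := S.rrk_sup k0 k' k0 0 hk (Nat.zero_le _) (by simpa using hc)
  have h2 := S.rrk_sup 0 k' k' k0 (Nat.zero_le _) hk (by simpa using hc)
  refine h2.trans ?_
  rw [sup_comm]
  exact sup_le_sup_right h1 _

/-- The valuation ring of `L`. -/
def A : ValuationSubring L := S.O.comap (algebraMap L F)

theorem mem_A {c : L} : c ∈ S.A ↔ algebraMap L F c ∈ S.O := Iff.rfl

theorem smul_A_def (r : S.A) (f : F) : r • f = algebraMap L F (r : L) * f := by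
  rw [← Algebra.smul_def]; rfl

/-- The unit ball of a Riemann–Roch space, as a module over the valuation ring of `L`. -/
def ball (D : Divisor L F) : Submodule S.A F where
  carrier := {f | f ∈ riemannRochSpace D ∧ f ∈ S.O}
  zero_mem' := ⟨Submodule.zero_mem _, S.O.zero_mem⟩
  add_mem' := fun h1 h2 => ⟨Submodule.add_mem _ h1.1 h2.1, S.O.add_mem _ _ h1.2 h2.2⟩
  smul_mem' := fun r f hf => by
    refine ⟨?_, ?_⟩
    · show r • f ∈ riemannRochSpace D
      exact Submodule.smul_mem _ (r : L) hf.1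
    · show r • f ∈ S.O
      rw [S.smul_A_def]
      exact S.O.mul_mem _ _ r.2 hf.2

theorem mem_ball {D : Divisor L F} {f : F} :
    f ∈ S.ball D ↔ f ∈ riemannRochSpace D ∧ f ∈ S.O := Iff.rfl

theorem ball_fg (a b : ℕ) : (S.ball (S.D0 + twoDiv S.Xinf S.X0 a b)).FG := by
  obtain ⟨r, e, he_li, he_span, he_orth⟩ := S.hcart a b
  have hle : S.ball (S.D0 + twoDiv S.Xinf S.X0 a b) = Submodule.span S.A (Set.range e) := by
    apply le_antisymm
    · rintro f ⟨hf1, hf2⟩
      rw [← he_span] at hf1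
      obtain ⟨c, rfl⟩ := (Submodule.mem_span_range_iff_exists_fun L).mp hf1
      have hc := (he_orth c).mp hf2
      have : ∑ i, c i • e i = ∑ i, (⟨c i, hc i⟩ : S.A) • e i := rfl
      rw [this]
      exact Submodule.sum_mem _ fun i _ =>
        Submodule.smul_mem _ _ (Submodule.subset_span (Set.mem_range_self i))
    · rw [Submodule.span_le]
      rintro _ ⟨i, rfl⟩
      refine ⟨?_, S.orth_mem he_orth i⟩
      rw [← he_span]
      exact Submodule.subset_span (Set.mem_range_self i)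
  rw [hle]
  exact Submodule.fg_span (Set.finite_range e)


/-- Integral Čech decomposition (Nakayama on the unit ball). -/
theorem ball_decomp (k0 k' : ℕ) (hk : k0 ≤ k') (hcK : S.cK ≤ (k0 : ℤ) * S.d) :
    S.ball (S.D0 + twoDiv S.Xinf S.X0 k' k') ≤
      S.ball (S.D0 + twoDiv S.Xinf S.X0 k0 k0) ⊔ S.ball (S.D0 + twoDiv S.Xinf S.X0 k' 0) ⊔
        S.ball (S.D0 + twoDiv S.Xinf S.X0 0 k') := by
  have hd := S.hdpos
  have hk' : (k0 : ℤ) ≤ k' := by exact_mod_cast hk
  refine Submodule.le_of_le_smul_of_le_jacobson_bot (S.ball_fg k' k')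
    (I := IsLocalRing.maximalIdeal S.A)
    (IsLocalRing.jacobson_eq_maximalIdeal ⊥ bot_ne_top).ge ?_
  rintro c ⟨hc1, hc2⟩
  have hcw := S.red_mul_w_mem k' k' hc2 hc1
  obtain ⟨g01, hg01, g2, hg2, hsum⟩ := Submodule.mem_sup.mp (S.rrk_decomp k0 k' hk hcK hcw)
  obtain ⟨g0, hg0, g1, hg1, hsum01⟩ := Submodule.mem_sup.mp hg01
  obtain ⟨c0, hc0, hc0O, hc0red⟩ :=
    (S.surj_and_finrank k0 k0 (by nlinarith)).2 g0 hg0
  obtain ⟨a1, ha1, ha1O, ha1red⟩ :=
    (S.surj_and_finrank k' 0 (by push_cast; nlinarith)).2 g1 hg1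
  obtain ⟨b1, hb1, hb1O, hb1red⟩ :=
    (S.surj_and_finrank 0 k' (by push_cast; nlinarith)).2 g2 hg2
  have hc0' : c0 ∈ riemannRochSpace (S.D0 + twoDiv S.Xinf S.X0 k' k') :=
    rr_mono (add_le_add le_rfl (twoDiv_mono S.hXinf S.hX0 hk hk)) hc0
  have ha1' : a1 ∈ riemannRochSpace (S.D0 + twoDiv S.Xinf S.X0 k' k') :=
    rr_mono (add_le_add le_rfl (twoDiv_mono S.hXinf S.hX0 le_rfl (Nat.zero_le _))) ha1
  have hb1' : b1 ∈ riemannRochSpace (S.D0 + twoDiv S.Xinf S.X0 k' k') :=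
    rr_mono (add_le_add le_rfl (twoDiv_mono S.hXinf S.hX0 (Nat.zero_le _) le_rfl)) hb1
  have ht1 : c - c0 - a1 - b1 ∈ riemannRochSpace (S.D0 + twoDiv S.Xinf S.X0 k' k') :=
    Submodule.sub_mem _ (Submodule.sub_mem _ (Submodule.sub_mem _ hc1 hc0') ha1') hb1'
  have ht2 : c - c0 - a1 - b1 ∈ S.O :=
    sub_mem (sub_mem (sub_mem hc2 hc0O) ha1O) hb1O
  have htred : S.red ⟨c - c0 - a1 - b1, ht2⟩ = 0 := by
    have h1 : (⟨c - c0 - a1 - b1, ht2⟩ : S.O) =
        ⟨c, hc2⟩ - ⟨c0, hc0O⟩ - ⟨a1, ha1O⟩ - ⟨b1, hb1O⟩ := rfl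
    have h2 : S.red ⟨c - c0 - a1 - b1, ht2⟩ * S.w = 0 := by
      rw [h1, map_sub, map_sub, map_sub, sub_mul, sub_mul, sub_mul, hc0red, ha1red, hb1red,
        ← hsum, ← hsum01]
      ring
    rcases mul_eq_zero.mp h2 with h | h
    · exact h
    · exact absurd h S.hw
  have htlt : S.O.valuation (c - c0 - a1 - b1) < 1 := (S.hred _).mp htred
  have hN : c0 + a1 + b1 ∈ S.ball (S.D0 + twoDiv S.Xinf S.X0 k0 k0) ⊔
      S.ball (S.D0 + twoDiv S.Xinf S.X0 k' 0) ⊔ S.ball (S.D0 + twoDiv S.Xinf S.X0 0 k') :=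
    Submodule.add_mem_sup (Submodule.add_mem_sup ⟨hc0, hc0O⟩ ⟨ha1, ha1O⟩) ⟨hb1, hb1O⟩
  have hcsum : c = (c0 + a1 + b1) + (c - c0 - a1 - b1) := by ring
  rw [hcsum]
  refine Submodule.add_mem_sup hN ?_
  by_cases ht0 : c - c0 - a1 - b1 = 0
  · rw [ht0]; exact Submodule.zero_mem _
  · obtain ⟨l, hl⟩ := S.hVG _ ht0
    have hl0 : l ≠ 0 := by
      intro h
      rw [h, map_zero, map_zero] at hl
      exact ht0 ((map_eq_zero _).mp hl.symm)
    have hlF : algebraMap L F l ≠ 0 := (map_ne_zero _).mpr hl0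
    have hvl : S.O.valuation (algebraMap L F l) ≠ 0 := (map_ne_zero _).mpr hlF
    have hlA : l ∈ S.A := by
      rw [S.mem_A, ← S.O.valuation_le_one_iff, hl]; exact htlt.le
    have hlm : (⟨l, hlA⟩ : S.A) ∈ IsLocalRing.maximalIdeal S.A := by
      rw [IsLocalRing.mem_maximalIdeal, mem_nonunits_iff]
      rintro ⟨y, hy⟩
      have h1 : l * ((y⁻¹ : (S.A)ˣ) : S.A) = 1 := by
        have := congrArg (fun z : S.A => (z : L)) (y.mul_inv)
        rw [hy] at this
        exact this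
      have h2 : S.O.valuation (algebraMap L F l) *
          S.O.valuation (algebraMap L F (((y⁻¹ : (S.A)ˣ) : S.A) : L)) = 1 := by
        rw [← map_mul, ← map_mul, h1, map_one, map_one]
      have h3 : S.O.valuation (algebraMap L F (((y⁻¹ : (S.A)ˣ) : S.A) : L)) ≤ 1 :=
        (S.O.valuation_le_one_iff _).mpr ((y⁻¹ : (S.A)ˣ) : S.A).2
      have h4 : S.O.valuation (algebraMap L F l) *
          S.O.valuation (algebraMap L F (((y⁻¹ : (S.A)ˣ) : S.A) : L)) < 1 := by
        calc _ ≤ S.O.valuation (algebraMap L F l) * 1 := mul_le_mul' le_rfl h3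
          _ = S.O.valuation (algebraMap L F l) := mul_one _
          _ < 1 := by rw [hl]; exact htlt
      rw [h2] at h4
      exact lt_irrefl _ h4
    have ht' : l⁻¹ • (c - c0 - a1 - b1) ∈ S.ball (S.D0 + twoDiv S.Xinf S.X0 k' k') := by
      refine ⟨Submodule.smul_mem _ _ ht1, ?_⟩
      rw [Algebra.smul_def, ← S.O.valuation_le_one_iff, map_mul, map_inv₀, map_inv₀, hl,
        inv_mul_cancel₀]
      rw [← hl]; exact hvl
    have heq : c - c0 - a1 - b1 = (⟨l, hlA⟩ : S.A) • (l⁻¹ • (c - c0 - a1 - b1)) := by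
      show c - c0 - a1 - b1 = l • (l⁻¹ • (c - c0 - a1 - b1))
      rw [smul_smul, mul_inv_cancel₀ hl0, one_smul]
    rw [heq]
    exact Submodule.smul_mem_smul hlm ht'

/-- Norm-controlled Čech decomposition, in the shape of `helper1788.kummer_core`. -/
theorem hsurj (k0 k' : ℕ) (hk : k0 ≤ k') (hcK : S.cK ≤ (k0 : ℤ) * S.d) :
    ∀ c ∈ riemannRochSpace (S.D0 + twoDiv S.Xinf S.X0 k' k'),
      ∃ c₀ ∈ riemannRochSpace (S.D0 + twoDiv S.Xinf S.X0 k0 k0),
      ∃ a₁ ∈ riemannRochSpace (S.D0 + twoDiv S.Xinf S.X0 k' 0),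
      ∃ b₁ ∈ riemannRochSpace (S.D0 + twoDiv S.Xinf S.X0 0 k'),
        c = c₀ + a₁ - b₁ ∧ S.O.valuation a₁ ≤ S.O.valuation c ∧
          S.O.valuation b₁ ≤ S.O.valuation c ∧ S.O.valuation c₀ ≤ S.O.valuation c := by
  intro c hc
  by_cases hc0 : c = 0
  · refine ⟨0, Submodule.zero_mem _, 0, Submodule.zero_mem _, 0, Submodule.zero_mem _, ?_⟩
    simp [hc0]
  · obtain ⟨l, hl⟩ := S.hVG _ hc0
    have hl0 : l ≠ 0 := by
      intro h
      rw [h, map_zero, map_zero] at hl
      exact hc0 ((map_eq_zero _).mp hl.symm)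
    have hlF : algebraMap L F l ≠ 0 := (map_ne_zero _).mpr hl0
    have hvl : S.O.valuation (algebraMap L F l) ≠ 0 := (map_ne_zero _).mpr hlF
    have hc' : l⁻¹ • c ∈ S.ball (S.D0 + twoDiv S.Xinf S.X0 k' k') := by
      refine ⟨Submodule.smul_mem _ _ hc, ?_⟩
      rw [Algebra.smul_def, ← S.O.valuation_le_one_iff, map_mul, map_inv₀, map_inv₀, hl,
        inv_mul_cancel₀]
      rw [← hl]; exact hvl
    obtain ⟨y01, hy01, b1, hb1, hsum⟩ := Submodule.mem_sup.mp (S.ball_decomp k0 k' hk hcK hc')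
    obtain ⟨c0, hc0', a1, ha1, hsum01⟩ := Submodule.mem_sup.mp hy01
    have hval : ∀ y : F, y ∈ S.O → S.O.valuation (l • y) ≤ S.O.valuation c := by
      intro y hy
      rw [Algebra.smul_def, map_mul, hl]
      calc S.O.valuation c * S.O.valuation y ≤ S.O.valuation c * 1 :=
            mul_le_mul' le_rfl ((S.O.valuation_le_one_iff y).mpr hy)
        _ = S.O.valuation c := mul_one _
    refine ⟨l • c0, Submodule.smul_mem _ _ hc0'.1, l • a1, Submodule.smul_mem _ _ ha1.1,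
      -(l • b1), Submodule.neg_mem _ (Submodule.smul_mem _ _ hb1.1), ?_, hval _ ha1.2, ?_,
      hval _ hc0'.2⟩
    · rw [sub_neg_eq_add, ← smul_add, ← smul_add, hsum01, hsum, smul_smul, mul_inv_cancel₀ hl0,
        one_smul]
    · rw [Valuation.map_neg]; exact hval _ hb1.2

/-- **Function-field Kummer core.** -/
theorem exists_mem_rr : ∃ f : F, f ≠ 0 ∧ f ∈ riemannRochSpace S.D0 := by
  have hd := S.hdpos
  obtain ⟨k0, hk0⟩ : ∃ k0 : ℕ, S.cK ≤ (k0 : ℤ) * S.d := by
    refine ⟨S.cK.toNat, ?_⟩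
    have h1 : S.cK ≤ (S.cK.toNat : ℤ) := Int.self_le_toNat _
    have h2 : (0 : ℤ) ≤ (S.cK.toNat : ℤ) := Int.natCast_nonneg _
    nlinarith
  -- seeds
  obtain ⟨a0, ha0, ha0O, ha0red⟩ := (S.surj_and_finrank k0 0 (by simpa using hk0)).2 1
    (S.hNone _ _)
  obtain ⟨b0, hb0, hb0O, hb0red⟩ := (S.surj_and_finrank 0 k0 (by simpa using hk0)).2 1
    (S.hNone _ _)
  have hra0 : S.red ⟨a0, ha0O⟩ ≠ 0 := by
    intro h; rw [h, zero_mul] at ha0red; exact zero_ne_one ha0red
  have hva0 : S.O.valuation a0 = 1 := S.val_eq_one_of_red_ne_zero ha0O hra0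
  have hab0 : S.O.valuation (a0 - b0) < 1 := by
    have hO : a0 - b0 ∈ S.O := sub_mem ha0O hb0O
    have h1 : (⟨a0 - b0, hO⟩ : S.O) = ⟨a0, ha0O⟩ - ⟨b0, hb0O⟩ := rfl
    have h2 : S.red ⟨a0 - b0, hO⟩ * S.w = 0 := by
      rw [h1, map_sub, sub_mul, ha0red, hb0red, sub_self]
    have h3 : S.red ⟨a0 - b0, hO⟩ = 0 := by
      rcases mul_eq_zero.mp h2 with h | h
      · exact h
      · exact absurd h S.hw
    exact (S.hred _).mp h3
  have hseed : ∀ (a : F) (haO : a ∈ S.O), S.red ⟨a, haO⟩ * S.w = 1 →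
      S.O.valuation (a ^ S.m * S.u - 1) < 1 := by
    intro a haO hared
    have hO : a ^ S.m * S.u - 1 ∈ S.O :=
      sub_mem (S.O.mul_mem _ _ (S.O.pow_mem haO _) S.hu) S.O.one_mem
    have h1 : (⟨a ^ S.m * S.u - 1, hO⟩ : S.O) = ⟨a, haO⟩ ^ S.m * ⟨S.u, S.hu⟩ - 1 := rfl
    have h2 : S.red ⟨a ^ S.m * S.u - 1, hO⟩ = 0 := by
      rw [h1, map_sub, map_mul, map_pow, map_one, S.hredu, ← mul_pow, hared, one_pow, sub_self]
    exact (S.hred _).mp h2
  -- orthonormal basis at level k0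
  obtain ⟨r, e, he_li, he_span, he_orth⟩ := S.hcart k0 k0
  let bas : Module.Basis (Fin r) L (riemannRochSpace (S.D0 + twoDiv S.Xinf S.X0 k0 k0)) :=
    (Module.Basis.span he_li).map (LinearEquiv.ofEq _ _ he_span)
  have hbas : ∀ i, ((bas i : riemannRochSpace (S.D0 + twoDiv S.Xinf S.X0 k0 k0)) : F) = e i := by
    intro i
    simp only [bas, Module.Basis.map_apply, LinearEquiv.coe_ofEq_apply]
    exact congrArg Subtype.val (Module.Basis.span_apply he_li i)
  have horth : ∀ (x : riemannRochSpace (S.D0 + twoDiv S.Xinf S.X0 k0 k0)) (i : Fin r),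
      S.O.valuation (algebraMap L F (bas.repr x i)) ≤ S.O.valuation (x : F) := by
    intro x i
    have hx : (x : F) = ∑ i, bas.repr x i • e i := by
      have h1 := congrArg (fun z : riemannRochSpace (S.D0 + twoDiv S.Xinf S.X0 k0 k0) => (z : F))
        (bas.sum_repr x)
      simp only [Submodule.coe_sum, Submodule.coe_smul, hbas] at h1
      exact h1.symm
    rw [hx]
    exact S.orth_le he_li he_orth _ i
  obtain ⟨f, hf0, hf1, hf2⟩ := helper1788.kummer_core S.O.valuation S.harch S.m S.hm S.u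
    (fun j => riemannRochSpace (S.D0 + twoDiv S.Xinf S.X0 j 0))
    (fun j => riemannRochSpace (S.D0 + twoDiv S.Xinf S.X0 0 j))
    (fun j => riemannRochSpace (S.D0 + twoDiv S.Xinf S.X0 j j))
    (fun j => riemannRochSpace (twoDiv S.Xinf S.X0 j 0))
    (fun j => riemannRochSpace (twoDiv S.Xinf S.X0 0 j))
    (fun j => rr_mono (add_le_add le_rfl (twoDiv_mono S.hXinf S.hX0 le_rfl (Nat.zero_le _))))
    (fun j => rr_mono (add_le_add le_rfl (twoDiv_mono S.hXinf S.hX0 (Nat.zero_le _) le_rfl)))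
    (fun j => one_mem_rr (twoDiv_nonneg S.hXinf S.hX0 _ _))
    (fun j => one_mem_rr (twoDiv_nonneg S.hXinf S.hX0 _ _))
    (fun j a ha => by
      have := pow_mul_mem_rr S.u_ne_zero S.hordu ha
      rwa [nsmul_twoDiv, Nat.mul_zero] at this)
    (fun j b hb => by
      have := pow_mul_mem_rr S.u_ne_zero S.hordu hb
      rwa [nsmul_twoDiv, Nat.mul_zero] at this)
    (fun i j s hs a ha => by
      have h := mul_mem_rr hs ha
      have hE : twoDiv S.Xinf S.X0 i 0 + (S.D0 + twoDiv S.Xinf S.X0 j 0) =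
          S.D0 + twoDiv S.Xinf S.X0 (i + j) 0 := by
        ext v
        simp only [Finsupp.add_apply, twoDiv_apply, Nat.cast_add, Nat.cast_zero]
        ring
      rwa [hE] at h)
    (fun i j s hs b hb => by
      have h := mul_mem_rr hs hb
      have hE : twoDiv S.Xinf S.X0 0 i + (S.D0 + twoDiv S.Xinf S.X0 0 j) =
          S.D0 + twoDiv S.Xinf S.X0 0 (i + j) := by
        ext v
        simp only [Finsupp.add_apply, twoDiv_apply, Nat.cast_add, Nat.cast_zero]
        ring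
      rwa [hE] at h)
    k0
    (fun j _ a ha b hb hab => rr_sep S.hXinf S.hX0 S.hdisj ha hb hab)
    (fun j hj => S.hsurj k0 j hj hk0)
    bas horth a0 b0 ha0 hb0 hva0 hab0 (hseed a0 ha0O ha0red) (hseed b0 hb0O hb0red)
  exact ⟨f, hf0, rr_inter S.hdisj hf1 hf2⟩

end FFDataG

end MainG

section ChartInst

open Fermat.Agent.S18.helper6292 Fermat.Agent.S18.helper8566

variable {L F k Fk : Type*} [Field L] [Field F] [Algebra L F] [Field k] [Field Fk] [Algebra k Fk]

theorem isIntegral_self_adjoin (t : Fk) : IsIntegral (Algebra.adjoin k {t}) t :=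
  isIntegral_algebraMap (R := Algebra.adjoin k {t}) (A := Fk)
    (x := ⟨t, Algebra.self_mem_adjoin_singleton k t⟩)

theorem chartSpace_mono (xb : Fk) {a a' b b' : ℕ} (ha : a ≤ a') (hb : b ≤ b') :
    chartSpace k xb a b ≤ chartSpace k xb a' b' := by
  rintro z ⟨h1, h2⟩
  refine ⟨?_, ?_⟩
  · have h : xb ^ b' * z = xb ^ (b' - b) * (xb ^ b * z) := by
      rw [← mul_assoc, ← pow_add, Nat.sub_add_cancel hb]
    rw [h]
    exact (IsIntegral.pow (isIntegral_self_adjoin xb) _).mul h1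
  · have h : xb⁻¹ ^ a' * z = xb⁻¹ ^ (a' - a) * (xb⁻¹ ^ a * z) := by
      rw [← mul_assoc, ← pow_add, Nat.sub_add_cancel ha]
    rw [h]
    exact (IsIntegral.pow (isIntegral_self_adjoin xb⁻¹) _).mul h2

theorem one_mem_chartSpace (xb : Fk) (a b : ℕ) : (1 : Fk) ∈ chartSpace k xb a b := by
  refine ⟨?_, ?_⟩
  · rw [mul_one]; exact IsIntegral.pow (isIntegral_self_adjoin xb) _
  · rw [mul_one]; exact IsIntegral.pow (isIntegral_self_adjoin xb⁻¹) _

theorem chartSpace_inf_le (xb : Fk) (a a' b b' : ℕ) :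
    chartSpace k xb a b ⊓ chartSpace k xb a' b' ≤ chartSpace k xb a b' :=
  fun _ hz => ⟨hz.2.1, hz.1.2⟩

/-- **Twisted reduction containment, chart form.** If `f ∈ L(D0 + a X∞ + b X₀)` is integral for
the valuation, `div u = m D0` and `red u = w ^ m`, then `red f * w` lies in the chart space
`x̄⁻ᵇ B̄₁ ⊓ x̄ᵃ B̄₂` of the special fibre. Inputs: the chart dictionary on the generic fibre and
integrality transfer on the two charts. -/
theorem red_mul_w_mem_chartSpace (O : ValuationSubring F) (red : O →+* Fk)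
    {x : F} (hx0 : x ≠ 0) (hx : x ∈ O) (hxi : x⁻¹ ∈ O)
    {Xinf X0 : Divisor L F} (hXinf : IsPoleDivisor x Xinf) (hX0 : IsZeroDivisor x X0)
    (hC : ChartIntegral L x) (hC' : ChartIntegral L x⁻¹)
    (hIT : IntegralityTransfer L k O red x (red ⟨x, hx⟩))
    (hIT' : IntegralityTransfer L k O red x⁻¹ (red ⟨x, hx⟩)⁻¹)
    {m : ℕ} (hm : m ≠ 0) {u : F} (hu : u ∈ O) (hu0 : u ≠ 0) {D0 : Divisor L F}
    (hordu : ∀ P : Place L F, P.ord u = m * D0 P) {w : Fk} (hredu : red ⟨u, hu⟩ = w ^ m)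
    (a b : ℕ) {f : F} (hf : f ∈ O) (hfL : f ∈ riemannRochSpace (D0 + twoDiv Xinf X0 a b)) :
    red ⟨f, hf⟩ * w ∈ chartSpace k (red ⟨x, hx⟩) a b := by
  have h1 : f ^ m * u ∈ riemannRochSpace (twoDiv Xinf X0 (m * a) (m * b)) := by
    rw [← nsmul_twoDiv]
    exact pow_mul_mem_rr hu0 hordu hfL
  have h2 : f ^ m * u ∈ chartSpace L x (m * a) (m * b) := by
    rw [← riemannRochSpace_eq_chartSpace hx0 hXinf hX0 hC hC' (m * a) (m * b)]
    exact h1
  obtain ⟨h3, h4⟩ := h2
  have hmpos : 0 < m := Nat.pos_of_ne_zero hm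
  have hfu : f ^ m * u ∈ O := O.mul_mem _ _ (O.pow_mem hf _) hu
  refine ⟨?_, ?_⟩
  · have hO : x ^ (m * b) * (f ^ m * u) ∈ O := O.mul_mem _ _ (O.pow_mem hx _) hfu
    have h5 := hIT _ hO h3
    have h6 : red ⟨x ^ (m * b) * (f ^ m * u), hO⟩ =
        (red ⟨x, hx⟩ ^ b * (red ⟨f, hf⟩ * w)) ^ m := by
      have h7 : (⟨x ^ (m * b) * (f ^ m * u), hO⟩ : O) =
          ⟨x, hx⟩ ^ (m * b) * (⟨f, hf⟩ ^ m * ⟨u, hu⟩) := rfl
      rw [h7, map_mul, map_mul, map_pow, map_pow, hredu, mul_pow, mul_pow, ← pow_mul, mul_comm b m]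
    rw [h6] at h5
    exact IsIntegral.of_pow hmpos h5
  · have hO : x⁻¹ ^ (m * a) * (f ^ m * u) ∈ O := O.mul_mem _ _ (O.pow_mem hxi _) hfu
    have h5 := hIT' _ hO h4
    have h6 : red ⟨x⁻¹ ^ (m * a) * (f ^ m * u), hO⟩ =
        ((red ⟨x, hx⟩)⁻¹ ^ a * (red ⟨f, hf⟩ * w)) ^ m := by
      have h7 : (⟨x⁻¹ ^ (m * a) * (f ^ m * u), hO⟩ : O) =
          ⟨x⁻¹, hxi⟩ ^ (m * a) * (⟨f, hf⟩ ^ m * ⟨u, hu⟩) := rfl
      rw [h7, map_mul, map_mul, map_pow, map_pow, hredu, red_inv O red hx0 hx hxi, mul_pow,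
        mul_pow, ← pow_mul, mul_comm a m]
    rw [h6] at h5
    exact IsIntegral.of_pow hmpos h5

/-- **Function-field Kummer core with a chart-only special fibre** (track A closing theorem).

Generic fibre `F / L` in Prelude vocabulary (places, divisors, Riemann–Roch spaces); special fibre
`Fk / k` only through the chart spaces `helper8566.chartSpace k x̄ a b`
(`x̄ ^ b * z` integral over `k[x̄]` and `x̄⁻¹ ^ a * z` integral over `k[x̄⁻¹]`).

* `O`, `red`: a valuation subring of `F` with the value group of `L` (`hVG`), of rank one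
  (`harch`), with reduction map `red` of kernel the maximal ideal (`hred`), onto the constants
  (`hredk_surj`);
* `x`: a unit of `O` with pole divisor `Xinf` and zero divisor `X0`, both of degree `d > 0`;
* `hC`, `hC'`: the chart dictionary on the generic fibre (automatic in characteristic zero:
  `helper6292.chartIntegral_of_charZero`); `hIT`, `hIT'`: integrality transfer on the two charts;
* `hcart`: every Riemann–Roch space of `F` has an orthonormal basis;
* ONE integer `γ` with Riemann's inequality on `F` (`hRiemF`) and the reverse inequality for the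
  chart spaces of the special fibre in large degree (`hGapk`);
* `u`: a unit of `O` with `div u = m • D0`, `deg D0 = 0`, `|m| = 1`, `red u = w ^ m`.

Conclusion: `L(D0) ≠ 0`. -/
theorem kummer_ff_chart
    (O : ValuationSubring F)
    (hVG : ∀ f : F, f ≠ 0 → ∃ c : L, O.valuation (algebraMap L F c) = O.valuation f)
    (harch : ∀ ε κ : O.ValueGroup, ε < 1 → κ ≠ 0 → ∃ n : ℕ, ε ^ n < κ)
    (red : O →+* Fk)
    (hred : ∀ f : O, red f = 0 ↔ O.valuation (f : F) < 1)
    (hredk_surj : ∀ c' : k, ∃ (c : L) (hc : algebraMap L F c ∈ O),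
      red ⟨algebraMap L F c, hc⟩ = algebraMap k Fk c')
    (x : F) (hx0 : x ≠ 0) (hx : x ∈ O) (hxi : x⁻¹ ∈ O)
    (Xinf X0 : Divisor L F) (hXinf : IsPoleDivisor x Xinf) (hX0 : IsZeroDivisor x X0)
    (hC : ChartIntegral L x) (hC' : ChartIntegral L x⁻¹)
    (hIT : IntegralityTransfer L k O red x (red ⟨x, hx⟩))
    (hIT' : IntegralityTransfer L k O red x⁻¹ (red ⟨x, hx⟩)⁻¹)
    (d : ℤ) (hdpos : 0 < d)
    (hdX : Divisor.degree Xinf = d) (hdX0 : Divisor.degree X0 = d)
    (D0 : Divisor L F) (hD0 : Divisor.degree D0 = 0)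
    (hcart : ∀ E : Divisor L F, ∃ (r : ℕ) (e : Fin r → F), LinearIndependent L e ∧
      Submodule.span L (Set.range e) = riemannRochSpace E ∧
      ∀ c : Fin r → L, (∑ i, c i • e i ∈ O ↔ ∀ i, algebraMap L F (c i) ∈ O))
    (γ : ℤ)
    (hRiemF : ∀ D : Divisor L F,
      Divisor.degree D + 1 - γ ≤ (Module.finrank L (riemannRochSpace D) : ℤ))
    (hfink : ∀ a b : ℕ, Module.Finite k (chartSpace k (red ⟨x, hx⟩) a b))
    (cK : ℤ)
    (hGapk : ∀ a b : ℕ, cK ≤ ((a : ℤ) + b) * d →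
      (Module.finrank k (chartSpace k (red ⟨x, hx⟩) a b) : ℤ) ≤ ((a : ℤ) + b) * d + 1 - γ)
    (m : ℕ) (hm : O.valuation (m : F) = 1)
    (u : F) (hu : u ∈ O) (hordu : ∀ P : Place L F, P.ord u = m * D0 P)
    (w : Fk) (hw : w ≠ 0) (hredu : red ⟨u, hu⟩ = w ^ m) :
    ∃ f : F, f ≠ 0 ∧ f ∈ riemannRochSpace D0 := by
  have hm0 : m ≠ 0 := by
    intro h
    rw [h, Nat.cast_zero, map_zero] at hm
    exact zero_ne_one hm
  have hu0 : u ≠ 0 := by
    intro h
    have h1 : red ⟨u, hu⟩ = 0 := by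
      have : (⟨u, hu⟩ : O) = 0 := Subtype.ext h
      rw [this, map_zero]
    rw [hredu] at h1
    exact hw (pow_eq_zero_iff hm0 |>.mp h1)
  exact FFDataG.exists_mem_rr
    { O := O, red := red, hVG := hVG, harch := harch, hred := hred, hredk_surj := hredk_surj,
      Xinf := Xinf, X0 := X0,
      hXinf := Finsupp.le_def.mpr fun v => by simpa using hXinf.nonneg v,
      hX0 := Finsupp.le_def.mpr fun v => by simpa using hX0.nonneg v,
      hdisj := fun P => by
        rw [hXinf P, hX0 P]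
        rcases le_total 0 (P.ord x) with h | h
        · left; exact max_eq_left (by omega)
        · right; exact max_eq_left h
      d := d, hdpos := hdpos, hdX := hdX, hdX0 := hdX0, D0 := D0, hD0 := hD0,
      hcart := fun a b => hcart _, γ := γ, hRiemF := fun a b => hRiemF _,
      w := w, hw := hw,
      Nk := fun a b => chartSpace k (red ⟨x, hx⟩) a b,
      hNmono := fun a a' b b' ha hb => chartSpace_mono _ ha hb,
      hNinf := fun a a' b b' _ _ => chartSpace_inf_le _ a a' b b',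
      hNone := fun a b => one_mem_chartSpace _ a b,
      hNred := fun a b f hf hfL =>
        red_mul_w_mem_chartSpace O red hx0 hx hxi hXinf hX0 hC hC' hIT hIT' hm0 hu hu0 hordu
          hredu a b hf hfL,
      hfink := hfink, cK := cK, hRiemk := hGapk,
      m := m, hm := hm, u := u, hu := hu, hordu := hordu, hredu := hredu }

end ChartInst

end Fermat.Agent.S18.helper2030
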