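import Mathlib
import Fermat.Prelude.Def_ModularCurve_ReductionModL
import Fermat.Agent.S24.helper204_Places

/-!
# S18: the special fibre needs no place theory of its own

Let `r` be a place reduction in the sense of `ModularCurve.IsPlaceReductionAlong A π N r`
(the datum behind `ReductionInputsModL`), with `π : A →+* k` surjective.  Every element of the
special function field `F_k = modularFunctionFieldFullC k N` is a quotient of reductions of
integral series (polynomials in the `j(q^d)` with coefficients in `A`), and the order of such a
reduction at a place `Q` of `F_k` is read off from the generic fibre through `r`.  Hence,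
as soon as the generic fibre has principal divisors (landed S24 theory):

* `surjective_of_isPlaceReductionAlong`: `r` is surjective (a place outside the range would have
  order `0` on every nonzero function);
* `deg_eq_one_of_isPlaceReductionAlong`: all places of `F_k` have degree one when those of the
  generic fibre have;
* `hasPrincipalDivisors_of_isPlaceReductionAlong`: `HasPrincipalDivisors k F_k`;
* `exists_eq_algebraMap_of_ord_nonneg`: a function of `F_k` without poles is constant;
* `exists_eq_algebraMap_mul_of_ord_eq`: two functions with the same divisor differ by a constant.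

No separability, no integral closure and no characteristic hypothesis is used on the special
fibre.
-/

set_option autoImplicit false
set_option synthInstance.maxHeartbeats 400000

noncomputable section

namespace Fermat.Agent.S18.helper3537

open ModularCurve AlgebraicCurve HahnSeries IntermediateField

section Integral

variable {L : Type*} [Field L] [Algebra ℚ L] (A : ValuationSubring L)
variable {k : Type*} [Field k] (π : A →+* k) (N : ℕ)

/-- Series with coefficients in `A` whose generic member lies in the generic function field and
whose coefficientwise reduction lies in the special function field. -/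
def integralSubring : Subring (LaurentSeries A) :=
  (laurentBaseChange L (modularFunctionFieldFull N)).toSubfield.toSubring.comap
      (coeffMap A.subtype) ⊓
    (modularFunctionFieldFullC k N).toSubfield.toSubring.comap (coeffMap π)

variable {A π N}

theorem mem_integralSubring {y : LaurentSeries A} :
    y ∈ integralSubring A π N ↔
      coeffMap A.subtype y ∈ laurentBaseChange L (modularFunctionFieldFull N) ∧
        coeffMap π y ∈ modularFunctionFieldFullC k N :=
  Iff.rfl

theorem qExpand_jqModC_mem_integralSubring {d : ℕ} [NeZero d] (hd : d ∣ N) :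
    qExpand A d (jqModC A) ∈ integralSubring A π N := by
  refine mem_integralSubring.mpr ⟨?_, ?_⟩
  · have h1 : coeffMap A.subtype (qExpand A d (jqModC A)) = coeffEmb L (qExpand ℚ d jq) := by
      rw [coeffMap_qExpand, coeffMap_jqModC, coeffEmb, coeffMap_qExpand, ← jqModC_rat,
        coeffMap_jqModC]
    rw [h1]
    exact coeffEmb_mem_laurentBaseChange L (jqd_mem_full N hd)
  · rw [coeffMap_qExpand, coeffMap_jqModC]
    exact jqModCd_mem_full k N hd

theorem single_zero_mem_integralSubring (a : A) :
    (HahnSeries.single 0 a : LaurentSeries A) ∈ integralSubring A π N := by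
  refine mem_integralSubring.mpr ⟨?_, ?_⟩
  · rw [coeffMap_single, ← algebraMap_laurentSeries_eq_single]
    exact IntermediateField.algebraMap_mem _ _
  · rw [coeffMap_single, ← algebraMap_laurentSeries_eq_single]
    exact IntermediateField.algebraMap_mem _ _

/-- Every polynomial in the `j(q^d)` over `k` is the reduction of an integral series. -/
theorem exists_integral_of_mem_algebraAdjoin (hπ : Function.Surjective π)
    {f : LaurentSeries k} (hf : f ∈ Algebra.adjoin k (divisorExpansionsC k N)) :
    ∃ y ∈ integralSubring A π N, coeffMap π y = f := by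
  induction hf using Algebra.adjoin_induction with
  | mem x hx =>
    obtain ⟨d, hne, hd, rfl⟩ := hx
    have := hne
    refine ⟨qExpand A d (jqModC A), qExpand_jqModC_mem_integralSubring hd, ?_⟩
    rw [coeffMap_qExpand, coeffMap_jqModC]
  | algebraMap c =>
    obtain ⟨a, rfl⟩ := hπ c
    refine ⟨HahnSeries.single 0 a, single_zero_mem_integralSubring a, ?_⟩
    rw [coeffMap_single, ← algebraMap_laurentSeries_eq_single]
  | add x y _ _ hx hy =>
    obtain ⟨u, hu, rfl⟩ := hx
    obtain ⟨v, hv, rfl⟩ := hy
    exact ⟨u + v, add_mem hu hv, map_add _ _ _⟩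
  | mul x y _ _ hx hy =>
    obtain ⟨u, hu, rfl⟩ := hx
    obtain ⟨v, hv, rfl⟩ := hy
    exact ⟨u * v, mul_mem hu hv, map_mul _ _ _⟩

/-- Every element of the special function field is a quotient of reductions of integral
series. -/
theorem exists_integral_mul_eq (hπ : Function.Surjective π)
    {f : LaurentSeries k} (hf : f ∈ modularFunctionFieldFullC k N) :
    ∃ y₁ ∈ integralSubring A π N, ∃ y₂ ∈ integralSubring A π N,
      coeffMap π y₂ ≠ 0 ∧ f * coeffMap π y₂ = coeffMap π y₁ := by
  rw [modularFunctionFieldFullC, IntermediateField.mem_adjoin_iff_div] at hf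
  obtain ⟨p, hp, s, hs, rfl⟩ := hf
  obtain ⟨y₁, hy₁, rfl⟩ := exists_integral_of_mem_algebraAdjoin (A := A) hπ hp
  obtain ⟨y₂, hy₂, rfl⟩ := exists_integral_of_mem_algebraAdjoin (A := A) hπ hs
  by_cases h0 : coeffMap π y₂ = 0
  · refine ⟨0, zero_mem _, 1, one_mem _, ?_, ?_⟩
    · rw [map_one]; exact one_ne_zero
    · rw [h0, div_zero, zero_mul, map_zero]
  · exact ⟨y₁, hy₁, y₂, hy₂, h0, div_mul_cancel₀ _ h0⟩

omit [Algebra ℚ L] in
theorem coeffMap_subtype_injective :
    Function.Injective (coeffMap A.subtype : LaurentSeries A → LaurentSeries L) := by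
  intro x y hxy
  ext n
  have := congrArg (fun s => HahnSeries.coeff s n) hxy
  simpa using this

end Integral

section Reduction

variable {L : Type*} [Field L] [Algebra ℚ L] {A : ValuationSubring L}
variable {k : Type*} [Field k] {π : A →+* k} {N : ℕ}
variable {r : Place L (laurentBaseChange L (modularFunctionFieldFull N)) →
  Place k (modularFunctionFieldFullC k N)}

/-- The divisor of an integral function specialises to the divisor of its reduction. -/
theorem exists_divisor_of_integral
    [HasPrincipalDivisors L (laurentBaseChange L (modularFunctionFieldFull N))]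
    (hr : IsPlaceReductionAlong A π N r) {y : LaurentSeries A}
    (hy : y ∈ integralSubring A π N) (hne : coeffMap π y ≠ 0) :
    ∃ D : Divisor L (laurentBaseChange L (modularFunctionFieldFull N)),
      Divisor.degree D = 0 ∧
        ∀ Q, Finsupp.mapDomain r D Q =
          Q.ord (⟨coeffMap π y, (mem_integralSubring.mp hy).2⟩ : modularFunctionFieldFullC k N) := by
  have hy0 : y ≠ 0 := fun h => hne (by rw [h, map_zero])
  have hgen : (⟨coeffMap A.subtype y, (mem_integralSubring.mp hy).1⟩ :
      laurentBaseChange L (modularFunctionFieldFull N)) ≠ 0 := by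
    intro h
    apply hy0
    apply coeffMap_subtype_injective
    rw [map_zero]
    exact congrArg Subtype.val h
  obtain ⟨D, hD, hdeg⟩ := HasPrincipalDivisors.exists_divisor (K := L) _ hgen
  exact ⟨D, hdeg, hr.2 y _ _ hne D hD⟩

/-- The divisor of any nonzero function of the special fibre is the specialisation of a
degree-zero divisor of the generic fibre. -/
theorem exists_divisor_mapDomain
    [HasPrincipalDivisors L (laurentBaseChange L (modularFunctionFieldFull N))]
    (hr : IsPlaceReductionAlong A π N r) (hπ : Function.Surjective π)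
    (f : modularFunctionFieldFullC k N) (hf : f ≠ 0) :
    ∃ E : Divisor L (laurentBaseChange L (modularFunctionFieldFull N)),
      Divisor.degree E = 0 ∧ ∀ Q, Finsupp.mapDomain r E Q = Q.ord f := by
  obtain ⟨y₁, hy₁, y₂, hy₂, h2, hmul⟩ := exists_integral_mul_eq (A := A) hπ f.2
  have hf' : (f : LaurentSeries k) ≠ 0 := fun h => hf (Subtype.ext h)
  have h1 : coeffMap π y₁ ≠ 0 := by
    rw [← hmul]
    exact mul_ne_zero hf' h2
  obtain ⟨D₁, hd₁, hD₁⟩ := exists_divisor_of_integral hr hy₁ h1
  obtain ⟨D₂, hd₂, hD₂⟩ := exists_divisor_of_integral hr hy₂ h2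
  refine ⟨D₁ - D₂, by rw [map_sub, hd₁, hd₂, sub_zero], fun Q => ?_⟩
  have hsub : Finsupp.mapDomain r (D₁ - D₂) = Finsupp.mapDomain r D₁ - Finsupp.mapDomain r D₂ :=
    map_sub (Finsupp.mapDomain.addMonoidHom r) D₁ D₂
  rw [hsub, Finsupp.sub_apply, hD₁ Q, hD₂ Q]
  have hmul' : f * (⟨coeffMap π y₂, (mem_integralSubring.mp hy₂).2⟩ : modularFunctionFieldFullC k N)
      = ⟨coeffMap π y₁, (mem_integralSubring.mp hy₁).2⟩ := Subtype.ext hmul
  have h2' : (⟨coeffMap π y₂, (mem_integralSubring.mp hy₂).2⟩ : modularFunctionFieldFullC k N) ≠ 0 :=
    fun h => h2 (congrArg Subtype.val h)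
  rw [← hmul', Q.ord_mul hf h2']
  ring

/-- **A place reduction is surjective.** -/
theorem surjective_of_isPlaceReductionAlong
    [HasPrincipalDivisors L (laurentBaseChange L (modularFunctionFieldFull N))]
    (hr : IsPlaceReductionAlong A π N r) (hπ : Function.Surjective π) :
    Function.Surjective r := by
  intro Q
  by_contra hQ
  have hQ' : Q ∉ Set.range r := hQ
  apply Q.ne_top'
  rw [eq_top_iff]
  intro f _
  rcases eq_or_ne f 0 with rfl | hf
  · exact zero_mem _
  obtain ⟨E, -, hE⟩ := exists_divisor_mapDomain hr hπ f hf
  have h0 : Q.ord f = 0 := by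
    rw [← hE Q]
    exact Finsupp.mapDomain_of_notMem_range E Q hQ'
  exact Fermat.Agent.S24.helper204.mem_of_ord_nonneg Q h0.ge

/-- All places of the special fibre have degree one as soon as those of the generic fibre
have. -/
theorem deg_eq_one_of_isPlaceReductionAlong
    [HasPrincipalDivisors L (laurentBaseChange L (modularFunctionFieldFull N))]
    (hr : IsPlaceReductionAlong A π N r) (hπ : Function.Surjective π)
    (hdeg : ∀ P : Place L (laurentBaseChange L (modularFunctionFieldFull N)), P.deg = 1)
    (Q : Place k (modularFunctionFieldFullC k N)) : Q.deg = 1 := by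
  obtain ⟨P, rfl⟩ := surjective_of_isPlaceReductionAlong hr hπ Q
  rw [hr.1 P, hdeg P]

/-- **Principal divisors of the special fibre have degree zero.** -/
theorem hasPrincipalDivisors_of_isPlaceReductionAlong
    [HasPrincipalDivisors L (laurentBaseChange L (modularFunctionFieldFull N))]
    (hr : IsPlaceReductionAlong A π N r) (hπ : Function.Surjective π) :
    HasPrincipalDivisors k (modularFunctionFieldFullC k N) := by
  refine ⟨fun f hf => ?_⟩
  obtain ⟨E, hdeg, hE⟩ := exists_divisor_mapDomain hr hπ f hf
  exact ⟨Finsupp.mapDomain r E, hE, by rw [degree_mapDomain_of_deg_eq hr.1, hdeg]⟩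

end Reduction

section Constants

variable {K F : Type*} [Field K] [Field F] [Algebra K F]

/-- Generic: in a function field with principal divisors of degree zero and all places of
degree one, a function without poles which vanishes at one place is zero. -/
theorem eq_zero_of_ord_nonneg_of_ord_pos [HasPrincipalDivisors K F]
    (hdeg : ∀ v : Place K F, v.deg = 1) (g : F) (hnn : ∀ v : Place K F, 0 ≤ v.ord g)
    (v₀ : Place K F) (hpos : 0 < v₀.ord g) : False := by
  have hg : g ≠ 0 := by
    rintro rfl
    simp at hpos
  obtain ⟨D, hD, hd⟩ := HasPrincipalDivisors.exists_divisor (K := K) g hg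
  have hsum : Divisor.degree D = ∑ v ∈ D.support, D v := by
    rw [Divisor.degree, Finsupp.liftAddHom_apply, Finsupp.sum]
    apply Finset.sum_congr rfl
    intro v _
    simp [hdeg v]
  have hmem : v₀ ∈ D.support := by
    rw [Finsupp.mem_support_iff, hD v₀]
    exact hpos.ne'
  have hle : D v₀ ≤ ∑ v ∈ D.support, D v :=
    Finset.single_le_sum (f := fun v => D v) (fun v _ => by rw [hD v]; exact hnn v) hmem
  rw [← hsum, hd, hD v₀] at hle
  exact absurd hpos (not_lt.mpr hle)

/-- Generic: in a function field with principal divisors of degree zero, all places of degree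
one and at least one place, a function without poles is constant. -/
theorem exists_eq_algebraMap_of_forall_ord_nonneg [HasPrincipalDivisors K F]
    (hdeg : ∀ v : Place K F, v.deg = 1) (v₀ : Place K F) (f : F)
    (hnn : ∀ v : Place K F, 0 ≤ v.ord f) : ∃ c : K, f = algebraMap K F c := by
  have hf₀ : f ∈ v₀.toValuationSubring := Fermat.Agent.S24.helper204.mem_of_ord_nonneg v₀ (hnn v₀)
  -- the residue field of `v₀` is `K`
  have h1 : Module.finrank K v₀.ResidueField = 1 := hdeg v₀
  obtain ⟨c, hc⟩ := (finrank_eq_one_iff_of_nonzero' (1 : v₀.ResidueField) one_ne_zero).mp h1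
    (IsLocalRing.residue v₀.toValuationSubring ⟨f, hf₀⟩)
  refine ⟨c, ?_⟩
  by_contra hne
  set g : F := f - algebraMap K F c with hg
  have hg0 : g ≠ 0 := sub_ne_zero.mpr hne
  have hgmem : ∀ v : Place K F, g ∈ v.toValuationSubring := fun v =>
    sub_mem (Fermat.Agent.S24.helper204.mem_of_ord_nonneg v (hnn v)) (v.algebraMap_mem' c)
  have hnn' : ∀ v : Place K F, 0 ≤ v.ord g := fun v =>
    Fermat.Agent.S24.helper204.ord_nonneg_of_mem v (hgmem v)
  have hpos : 0 < v₀.ord g := by
    rw [Fermat.Agent.S24.helper204.ord_pos_iff]
    refine ⟨hg0, hgmem v₀, ?_⟩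
    rw [← IsLocalRing.residue_eq_zero_iff]
    have h2 : (⟨g, hgmem v₀⟩ : v₀.toValuationSubring)
        = ⟨f, hf₀⟩ - algebraMap K v₀.toValuationSubring c := Subtype.ext rfl
    rw [h2, map_sub, ← hc, Algebra.smul_def, mul_one, sub_eq_zero]
    rfl
  exact eq_zero_of_ord_nonneg_of_ord_pos hdeg g hnn' v₀ hpos

/-- Generic: two functions with the same orders everywhere differ by a nonzero constant. -/
theorem exists_eq_algebraMap_mul_of_forall_ord_eq [HasPrincipalDivisors K F]
    (hdeg : ∀ v : Place K F, v.deg = 1) (v₀ : Place K F) (f g : F) (hf : f ≠ 0) (hg : g ≠ 0)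
    (h : ∀ v : Place K F, v.ord f = v.ord g) :
    ∃ c : K, c ≠ 0 ∧ f = algebraMap K F c * g := by
  have hnn : ∀ v : Place K F, 0 ≤ v.ord (f * g⁻¹) := fun v => by
    rw [v.ord_mul hf (inv_ne_zero hg), v.ord_inv, h v, add_neg_cancel]
  obtain ⟨c, hc⟩ := exists_eq_algebraMap_of_forall_ord_nonneg hdeg v₀ (f * g⁻¹) hnn
  refine ⟨c, ?_, ?_⟩
  · rintro rfl
    rw [map_zero] at hc
    exact mul_ne_zero hf (inv_ne_zero hg) hc
  · rw [← hc, mul_assoc, inv_mul_cancel₀ hg, mul_one]

end Constants

section SpecialFibre

variable {L : Type*} [Field L] [Algebra ℚ L] {A : ValuationSubring L}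
variable {k : Type*} [Field k] {π : A →+* k} {N : ℕ}
variable {r : Place L (laurentBaseChange L (modularFunctionFieldFull N)) →
  Place k (modularFunctionFieldFullC k N)}

/-- **Constants of the special fibre**: a function without poles is constant. -/
theorem exists_eq_algebraMap_of_ord_nonneg
    [HasPrincipalDivisors L (laurentBaseChange L (modularFunctionFieldFull N))]
    (hr : IsPlaceReductionAlong A π N r) (hπ : Function.Surjective π)
    (hdeg : ∀ P : Place L (laurentBaseChange L (modularFunctionFieldFull N)), P.deg = 1)
    (P₀ : Place L (laurentBaseChange L (modularFunctionFieldFull N)))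
    (f : modularFunctionFieldFullC k N)
    (hnn : ∀ Q : Place k (modularFunctionFieldFullC k N), 0 ≤ Q.ord f) :
    ∃ c : k, f = algebraMap k (modularFunctionFieldFullC k N) c := by
  have := hasPrincipalDivisors_of_isPlaceReductionAlong hr hπ
  exact exists_eq_algebraMap_of_forall_ord_nonneg
    (deg_eq_one_of_isPlaceReductionAlong hr hπ hdeg) (r P₀) f hnn

/-- **Constants of the special fibre**: two functions with the same divisor differ by a nonzero
constant. -/
theorem exists_eq_algebraMap_mul_of_ord_eq
    [HasPrincipalDivisors L (laurentBaseChange L (modularFunctionFieldFull N))]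
    (hr : IsPlaceReductionAlong A π N r) (hπ : Function.Surjective π)
    (hdeg : ∀ P : Place L (laurentBaseChange L (modularFunctionFieldFull N)), P.deg = 1)
    (P₀ : Place L (laurentBaseChange L (modularFunctionFieldFull N)))
    (f g : modularFunctionFieldFullC k N) (hf : f ≠ 0) (hg : g ≠ 0)
    (h : ∀ Q : Place k (modularFunctionFieldFullC k N), Q.ord f = Q.ord g) :
    ∃ c : k, c ≠ 0 ∧ f = algebraMap k (modularFunctionFieldFullC k N) c * g := by
  have := hasPrincipalDivisors_of_isPlaceReductionAlong hr hπ
  exact exists_eq_algebraMap_mul_of_forall_ord_eq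
    (deg_eq_one_of_isPlaceReductionAlong hr hπ hdeg) (r P₀) f g hf hg h

end SpecialFibre

section ModL

open scoped IntermediateField.algebraAdjoinAdjoin

/-- A function field of characteristic zero over an algebraically closed field has a place. -/
theorem nonempty_place {K F : Type*} [Field K] [Field F] [Algebra K F] [IsAlgClosed K] [CharZero K]
    (x : F) (hx : Transcendental K x) [FiniteDimensional K⟮x⟯ F] : Nonempty (Place K F) := by
  obtain ⟨s, -, hs⟩ := Fermat.Agent.S24.helper204.exists_finset_zeros (K := K) (x := x) hx 0
  have hpos : 0 < Module.finrank K⟮x⟯ F := Module.finrank_pos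
  rcases s.eq_empty_or_nonempty with rfl | ⟨v, -⟩
  · rw [Finset.sum_empty] at hs
    omega
  · exact ⟨v⟩

variable {A : ValuationSubring (AlgebraicClosure ℚ)} {N : ℕ}

/-- The place reduction of `ReductionInputsModL` is surjective. -/
theorem placeReductionModL_surjective
    [HasPrincipalDivisors (AlgebraicClosure ℚ) (modularFunctionFieldBar N)]
    (h : ReductionInputsModL A N) : Function.Surjective (placeReductionModL h) :=
  surjective_of_isPlaceReductionAlong (isPlaceReductionModL_placeReductionModL h)
    IsLocalRing.residue_surjective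

/-- Under `ReductionInputsModL`, every place of the special fibre has degree one. -/
theorem deg_eq_one_of_reductionInputs
    [HasPrincipalDivisors (AlgebraicClosure ℚ) (modularFunctionFieldBar N)]
    (h : ReductionInputsModL A N)
    (hdeg : ∀ P : Place (AlgebraicClosure ℚ) (modularFunctionFieldBar N), P.deg = 1)
    (Q : Place (IsLocalRing.ResidueField A)
      (modularFunctionFieldFullC (IsLocalRing.ResidueField A) N)) : Q.deg = 1 :=
  deg_eq_one_of_isPlaceReductionAlong (isPlaceReductionModL_placeReductionModL h)
    IsLocalRing.residue_surjective hdeg Q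

/-- Under `ReductionInputsModL`, principal divisors of the special fibre have degree zero. -/
theorem hasPrincipalDivisors_of_reductionInputs
    [HasPrincipalDivisors (AlgebraicClosure ℚ) (modularFunctionFieldBar N)]
    (h : ReductionInputsModL A N) :
    HasPrincipalDivisors (IsLocalRing.ResidueField A)
      (modularFunctionFieldFullC (IsLocalRing.ResidueField A) N) :=
  hasPrincipalDivisors_of_isPlaceReductionAlong (isPlaceReductionModL_placeReductionModL h)
    IsLocalRing.residue_surjective

/-- Under `ReductionInputsModL`, a function of the special fibre without poles is constant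
(the generic fibre enters through one transcendental `x` over which it is finite). -/
theorem constant_of_reductionInputs (h : ReductionInputsModL A N)
    (x : modularFunctionFieldBar N) (hx : Transcendental (AlgebraicClosure ℚ) x)
    [FiniteDimensional (AlgebraicClosure ℚ)⟮x⟯ (modularFunctionFieldBar N)]
    (f : modularFunctionFieldFullC (IsLocalRing.ResidueField A) N)
    (hnn : ∀ Q : Place (IsLocalRing.ResidueField A)
      (modularFunctionFieldFullC (IsLocalRing.ResidueField A) N), 0 ≤ Q.ord f) :
    ∃ c : IsLocalRing.ResidueField A,
      f = algebraMap (IsLocalRing.ResidueField A)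
        (modularFunctionFieldFullC (IsLocalRing.ResidueField A) N) c := by
  have := Fermat.Agent.S24.helper204.hasPrincipalDivisors (K := AlgebraicClosure ℚ) x hx
  obtain ⟨P₀⟩ := nonempty_place (K := AlgebraicClosure ℚ) x hx
  exact exists_eq_algebraMap_of_ord_nonneg (isPlaceReductionModL_placeReductionModL h)
    IsLocalRing.residue_surjective
    (Fermat.Agent.S24.helper204.place_deg_eq_one (K := AlgebraicClosure ℚ) x hx) P₀ f hnn

/-- Under `ReductionInputsModL`, two functions of the special fibre with the same divisor differ
by a nonzero constant. -/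
theorem eq_const_mul_of_reductionInputs (h : ReductionInputsModL A N)
    (x : modularFunctionFieldBar N) (hx : Transcendental (AlgebraicClosure ℚ) x)
    [FiniteDimensional (AlgebraicClosure ℚ)⟮x⟯ (modularFunctionFieldBar N)]
    (f g : modularFunctionFieldFullC (IsLocalRing.ResidueField A) N) (hf : f ≠ 0) (hg : g ≠ 0)
    (hfg : ∀ Q : Place (IsLocalRing.ResidueField A)
      (modularFunctionFieldFullC (IsLocalRing.ResidueField A) N), Q.ord f = Q.ord g) :
    ∃ c : IsLocalRing.ResidueField A, c ≠ 0 ∧
      f = algebraMap (IsLocalRing.ResidueField A)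
        (modularFunctionFieldFullC (IsLocalRing.ResidueField A) N) c * g := by
  have := Fermat.Agent.S24.helper204.hasPrincipalDivisors (K := AlgebraicClosure ℚ) x hx
  obtain ⟨P₀⟩ := nonempty_place (K := AlgebraicClosure ℚ) x hx
  exact exists_eq_algebraMap_mul_of_ord_eq (isPlaceReductionModL_placeReductionModL h)
    IsLocalRing.residue_surjective
    (Fermat.Agent.S24.helper204.place_deg_eq_one (K := AlgebraicClosure ℚ) x hx) P₀ f g hf hg hfg

end ModL

end Fermat.Agent.S18.helper3537
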