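import Fermat.Agent.S18.helper3054_Top

/-!
# S18: from the Kummer field form `(KF)` to `Stmt_Core`

`Stmt_KF N ℓ` is the route-independent *field form* of the Kummer statement, in Prelude
vocabulary. It mentions no divisor, no place-reduction map and no `ReductionInputsModL`, so it
makes sense verbatim at every level (in particular at an auxiliary level `N'`):

> `a`, `b` integral functions at a place `A` over `ℓ`, `ℓ ∤ m`, every order of `a / b` divisible
> by `m`, and on the special fibre `ā = c • w ^ m * b̄` with a nonzero constant `c`.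
> Then `a = c' • V ^ m * b` for a function `V` and a constant `c'`.

`Stmt_KF0` is the same with `c = 1`; it implies `Stmt_KF` when the residue fields are
algebraically closed (`kf_of_kf0`).

`Stmt_ConstL N ℓ` is the constants lemma on the characteristic-`ℓ` side: a nonzero function
without zeros and poles is a constant.

`core_of_kf : Stmt_KF N ℓ → Stmt_ConstL N ℓ → Stmt_Core N ℓ`, and `result_of_kf` is the frozen
statement S18 from these two.
-/

set_option autoImplicit false
set_option synthInstance.maxHeartbeats 400000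

noncomputable section

namespace Fermat.Agent.S18.helper3054

open ModularCurve AlgebraicCurve HahnSeries

/-- **Kummer field form `(KF)` of S18** (route independent, level independent). -/
def Stmt_KF (N : ℕ) [NeZero N] (ℓ : ℕ) : Prop :=
  ∀ (A : ValuationSubring (AlgebraicClosure ℚ)), A.LiesOverPrime ℓ →
  ∀ (m : ℕ), ¬ ℓ ∣ m →
  ∀ (a b : IntegralFn A N),
    (∀ P : Place (AlgebraicClosure ℚ) (modularFunctionFieldBar N),
      (m : ℤ) ∣ P.ord a.gen - P.ord b.gen) →
    ∀ (w : modularFunctionFieldFullC (IsLocalRing.ResidueField A) N)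
      (c : IsLocalRing.ResidueField A), w ≠ 0 → c ≠ 0 →
      a.red = algebraMap (IsLocalRing.ResidueField A)
          (modularFunctionFieldFullC (IsLocalRing.ResidueField A) N) c * w ^ m * b.red →
      ∃ (V : modularFunctionFieldBar N) (c' : AlgebraicClosure ℚ),
        a.gen = algebraMap (AlgebraicClosure ℚ) (modularFunctionFieldBar N) c' * V ^ m * b.gen

/-- The Kummer field form with reduced function an exact `m`-th power (`c = 1`). -/
def Stmt_KF0 (N : ℕ) [NeZero N] (ℓ : ℕ) : Prop :=
  ∀ (A : ValuationSubring (AlgebraicClosure ℚ)), A.LiesOverPrime ℓ →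
  ∀ (m : ℕ), ¬ ℓ ∣ m →
  ∀ (a b : IntegralFn A N),
    (∀ P : Place (AlgebraicClosure ℚ) (modularFunctionFieldBar N),
      (m : ℤ) ∣ P.ord a.gen - P.ord b.gen) →
    ∀ (w : modularFunctionFieldFullC (IsLocalRing.ResidueField A) N), w ≠ 0 →
      a.red = w ^ m * b.red →
      ∃ (V : modularFunctionFieldBar N) (c' : AlgebraicClosure ℚ),
        a.gen = algebraMap (AlgebraicClosure ℚ) (modularFunctionFieldBar N) c' * V ^ m * b.gen

/-- **Constants lemma** on the characteristic-`ℓ` side: a nonzero function of the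
characteristic-`ℓ` function field without zeros and poles is a constant. -/
def Stmt_ConstL (N : ℕ) [NeZero N] (ℓ : ℕ) : Prop :=
  ∀ (A : ValuationSubring (AlgebraicClosure ℚ)), A.LiesOverPrime ℓ →
  ∀ f : modularFunctionFieldFullC (IsLocalRing.ResidueField A) N, f ≠ 0 →
    (∀ Q : Place (IsLocalRing.ResidueField A)
        (modularFunctionFieldFullC (IsLocalRing.ResidueField A) N), Q.ord f = 0) →
    ∃ c : IsLocalRing.ResidueField A,
      f = algebraMap (IsLocalRing.ResidueField A)
        (modularFunctionFieldFullC (IsLocalRing.ResidueField A) N) c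

section PlaceLemmas

variable {K F : Type*} [Field K] [Field F] [Algebra K F]

/-- A nonzero constant has order `0` at every place. -/
theorem ord_algebraMap_eq_zero (P : Place K F) {c : K} (hc : c ≠ 0) :
    P.ord (algebraMap K F c) = 0 := by
  let u : P.toValuationSubringˣ :=
    { val := ⟨algebraMap K F c, P.algebraMap_mem' c⟩
      inv := ⟨algebraMap K F c⁻¹, P.algebraMap_mem' c⁻¹⟩
      val_inv := Subtype.ext (by
        show algebraMap K F c * algebraMap K F c⁻¹ = 1
        rw [← map_mul, mul_inv_cancel₀ hc, map_one])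
      inv_val := Subtype.ext (by
        show algebraMap K F c⁻¹ * algebraMap K F c = 1
        rw [← map_mul, inv_mul_cancel₀ hc, map_one]) }
  exact P.ord_coe_unit u

theorem ord_pow (P : Place K F) (f : F) (n : ℕ) : P.ord (f ^ n) = n * P.ord f := by
  have := P.ord_zpow f (n : ℤ)
  simpa using this

end PlaceLemmas

/-- `Stmt_KF0` implies `Stmt_KF` when the residue fields are algebraically closed. -/
theorem kf_of_kf0 (N : ℕ) [NeZero N] (ℓ : ℕ)
    (halg : ∀ A : ValuationSubring (AlgebraicClosure ℚ), A.LiesOverPrime ℓ →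
      IsAlgClosed (IsLocalRing.ResidueField A))
    (h0 : Stmt_KF0 N ℓ) : Stmt_KF N ℓ := by
  intro A hA m hm a b hdvd w c hw0 hc0 hred
  have := halg A hA
  have hmpos : 0 < m := by
    rcases Nat.eq_zero_or_pos m with rfl | h
    · exact absurd (dvd_zero ℓ) hm
    · exact h
  obtain ⟨c0, hc0m⟩ := IsAlgClosed.exists_pow_nat_eq c hmpos
  have hc00 : c0 ≠ 0 := by
    rintro rfl
    rw [zero_pow hmpos.ne'] at hc0m
    exact hc0 hc0m.symm
  refine h0 A hA m hm a b hdvd
    (algebraMap (IsLocalRing.ResidueField A)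
      (modularFunctionFieldFullC (IsLocalRing.ResidueField A) N) c0 * w)
    (mul_ne_zero (by simpa using hc00) hw0) ?_
  rw [hred, mul_pow, ← map_pow, hc0m]

/-- The Kummer field form together with the constants lemma in characteristic `ℓ` gives the
core. -/
theorem core_of_kf (N : ℕ) [NeZero N] (ℓ : ℕ)
    (hK : Stmt_KF N ℓ) (hC : Stmt_ConstL N ℓ) : Stmt_Core N ℓ := by
  intro A hA _h m hm a b D _hdeg hD w hw0 _hw hred
  have hmne : m ≠ 0 := by
    rintro rfl
    exact hm (dvd_zero ℓ)
  have hm0 : (m : ℤ) ≠ 0 := by exact_mod_cast hmne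
  -- the function `ā / (b̄ * w ^ m)` has trivial divisor
  set f : modularFunctionFieldFullC (IsLocalRing.ResidueField A) N :=
    a.red * (b.red * w ^ m)⁻¹ with hf
  have hbw : b.red * w ^ m ≠ 0 := mul_ne_zero b.red_ne_zero (pow_ne_zero m hw0)
  have hf0 : f ≠ 0 := mul_ne_zero a.red_ne_zero (inv_ne_zero hbw)
  have hford : ∀ Q : Place (IsLocalRing.ResidueField A)
      (modularFunctionFieldFullC (IsLocalRing.ResidueField A) N), Q.ord f = 0 := by
    intro Q
    rw [hf, Q.ord_mul a.red_ne_zero (inv_ne_zero hbw), Q.ord_inv,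
      Q.ord_mul b.red_ne_zero (pow_ne_zero m hw0), ord_pow]
    have := hred Q
    linarith
  obtain ⟨c, hc⟩ := hC A hA f hf0 hford
  have hc0 : c ≠ 0 := by
    rintro rfl
    rw [map_zero] at hc
    exact hf0 hc
  have hared : a.red = algebraMap (IsLocalRing.ResidueField A)
      (modularFunctionFieldFullC (IsLocalRing.ResidueField A) N) c * w ^ m * b.red := by
    have hb0 := b.red_ne_zero
    have hwm : w ^ m ≠ 0 := pow_ne_zero m hw0
    rw [← hc, hf]
    field_simp
  obtain ⟨V, c', hgen⟩ := hK A hA m hm a b (fun P => ⟨D P, (hD P).symm⟩) w c hw0 hc0 hared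
  have hprod : algebraMap (AlgebraicClosure ℚ) (modularFunctionFieldBar N) c' * V ^ m ≠ 0 := by
    intro h0
    rw [h0, zero_mul] at hgen
    exact a.gen_ne_zero hgen
  have hc'0 : c' ≠ 0 := by
    rintro rfl
    rw [map_zero, zero_mul] at hprod
    exact hprod rfl
  have hV0 : V ≠ 0 := by
    rintro rfl
    rw [zero_pow hmne, mul_zero] at hprod
    exact hprod rfl
  refine ⟨V, hV0, fun P => ?_⟩
  have h1 := hD P
  rw [hgen, P.ord_mul hprod b.gen_ne_zero,
    P.ord_mul (by simpa using hc'0) (pow_ne_zero m hV0), ord_algebraMap_eq_zero P hc'0,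
    ord_pow] at h1
  have h2 : (m : ℤ) * D P = (m : ℤ) * P.ord V := by linarith
  exact mul_left_cancel₀ hm0 h2

/-- The frozen statement S18 from the Kummer field form and the constants lemma. -/
theorem result_of_kf (N : ℕ) [NeZero N] {ℓ : ℕ}
    (hK : Stmt_KF N ℓ) (hC : Stmt_ConstL N ℓ)
    (A : ValuationSubring (AlgebraicClosure ℚ)) (hA : A.LiesOverPrime ℓ)
    (h : ModularCurve.ReductionInputsModL A N) (m : ℕ) (hm : ¬ ℓ ∣ m) (z : ModularCurve.JZero N)
    (hmz : m • z = 0) (hz : ModularCurve.reductionModL A N z = 0) :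
    z = 0 :=
  result_of_core N (core_of_kf N ℓ hK hC) A hA h m hm z hmz hz

end Fermat.Agent.S18.helper3054
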