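/-
S18, generic-fibre instance of the abstract Kummer core (helper4226).

Setting: fields `K ⊆ F` (any characteristic), Prelude places / divisors / Riemann-Roch spaces.
`E1`, `E2` effective divisors with disjoint supports (for instance the pole divisor and the zero
divisor of a function `x`), `D0` any divisor, `u ≠ 0` with `div u = m • D0`.

Families (Prelude convention `f ∈ L(D) ↔ ord f ≥ -D`):
  `M1 k = L(D0 + k E1)`, `M2 k = L(D0 + k E2)`, `M12 k = L(D0 + k E1 + k E2)`,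
  `P k = L(k E1)`, `Q k = L(k E2)`.

This file proves the nine generic hypotheses of `helper1788.kummer_core` for these families,
the identity `M1 k ⊓ M2 k = L(D0)`, and the wrapper: the special-fibre inputs of `kummer_core`
(stated for the Riemann-Roch families) imply that `D0` is principal when `deg D0 = 0`.
-/
import Mathlib
import Fermat.Prelude.Def_AlgebraicCurve_Repartitions
import Fermat.Agent.S18.helper1788_KummerCore

set_option autoImplicit false

open AlgebraicCurve WithZero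

namespace Fermat.Agent.S18.helper4226

variable {K F : Type*} [Field K] [Field F] [Algebra K F]

/-! ### Riemann-Roch spaces through the adic valuations -/

theorem mem_rr_iff_val {D : Divisor K F} {f : F} :
    f ∈ riemannRochSpace D ↔ ∀ v : Place K F, v.adicValuation f ≤ exp (D v) := Iff.rfl

theorem mem_rr_iff_ord {D : Divisor K F} {f : F} (hf : f ≠ 0) :
    f ∈ riemannRochSpace D ↔ ∀ v : Place K F, -D v ≤ v.ord f := by
  rw [mem_riemannRochSpace_iff]
  exact forall_congr' fun v => or_iff_right hf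

theorem rr_le_of_le {D D' : Divisor K F} (h : ∀ v : Place K F, D v ≤ D' v) :
    riemannRochSpace D ≤ riemannRochSpace D' := fun _ hf =>
  mem_rr_iff_val.mpr fun v => (mem_rr_iff_val.mp hf v).trans (exp_le_exp.mpr (h v))

theorem one_mem_rr {D : Divisor K F} (h : ∀ v : Place K F, 0 ≤ D v) :
    (1 : F) ∈ riemannRochSpace D :=
  mem_rr_iff_val.mpr fun v => by
    rw [map_one, ← exp_zero]
    exact exp_le_exp.mpr (h v)

theorem mul_mem_rr {D D' D'' : Divisor K F} {f g : F} (hf : f ∈ riemannRochSpace D)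
    (hg : g ∈ riemannRochSpace D') (h : ∀ v : Place K F, D v + D' v ≤ D'' v) :
    f * g ∈ riemannRochSpace D'' :=
  mem_rr_iff_val.mpr fun v => by
    rw [map_mul]
    calc v.adicValuation f * v.adicValuation g ≤ exp (D v) * exp (D' v) :=
          mul_le_mul' (mem_rr_iff_val.mp hf v) (mem_rr_iff_val.mp hg v)
      _ = exp (D v + D' v) := (exp_add _ _).symm
      _ ≤ exp (D'' v) := exp_le_exp.mpr (h v)

theorem pow_mem_rr {D D' : Divisor K F} {f : F} (m : ℕ) (hf : f ∈ riemannRochSpace D)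
    (h : ∀ v : Place K F, (m : ℤ) * D v ≤ D' v) : f ^ m ∈ riemannRochSpace D' :=
  mem_rr_iff_val.mpr fun v => by
    rw [map_pow]
    calc v.adicValuation f ^ m ≤ exp (D v) ^ m := pow_le_pow_left' (mem_rr_iff_val.mp hf v) m
      _ = exp ((m : ℤ) * D v) := by rw [← exp_nsmul, nsmul_eq_mul]
      _ ≤ exp (D' v) := exp_le_exp.mpr (h v)

theorem add_nsmul_apply (D E : Divisor K F) (k : ℕ) (v : Place K F) :
    (D + k • E) v = D v + k * E v := by
  rw [Finsupp.add_apply, Finsupp.smul_apply, nsmul_eq_mul]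

theorem nsmul_apply' (E : Divisor K F) (k : ℕ) (v : Place K F) :
    (k • E) v = k * E v := by
  rw [Finsupp.smul_apply, nsmul_eq_mul]

theorem add_nsmul_add_nsmul_apply (D E E' : Divisor K F) (k : ℕ) (v : Place K F) :
    (D + k • E + k • E') v = D v + k * E v + k * E' v := by
  rw [Finsupp.add_apply, Finsupp.add_apply, Finsupp.smul_apply, Finsupp.smul_apply,
    nsmul_eq_mul, nsmul_eq_mul]

/-- A unit `u` with `m • D0 ≤ div u` lies in `L(-(m • D0))`, pointwise form. -/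
theorem val_le_of_ord_ge {u : F} (hu : u ≠ 0) {n : ℤ} (v : Place K F) (h : n ≤ v.ord u) :
    v.adicValuation u ≤ exp (-n) := by
  rw [v.adicValuation_eq_exp_neg_ord hu]
  exact exp_le_exp.mpr (by linarith)

/-! ### The nine generic hypotheses of `helper1788.kummer_core` -/

section Hyps

variable (D0 E1 E2 : Divisor K F)

/-- `hM1`. -/
theorem kc_hM1 (hE2 : ∀ v : Place K F, 0 ≤ E2 v) :
    ∀ k : ℕ, riemannRochSpace (D0 + k • E1) ≤ riemannRochSpace (D0 + k • E1 + k • E2) :=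
  fun k => rr_le_of_le fun v => by
    rw [add_nsmul_add_nsmul_apply, add_nsmul_apply]
    have := mul_nonneg (Nat.cast_nonneg (α := ℤ) k) (hE2 v)
    linarith

/-- `hM2`. -/
theorem kc_hM2 (hE1 : ∀ v : Place K F, 0 ≤ E1 v) :
    ∀ k : ℕ, riemannRochSpace (D0 + k • E2) ≤ riemannRochSpace (D0 + k • E1 + k • E2) :=
  fun k => rr_le_of_le fun v => by
    rw [add_nsmul_add_nsmul_apply, add_nsmul_apply]
    have := mul_nonneg (Nat.cast_nonneg (α := ℤ) k) (hE1 v)
    linarith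

/-- `hP1` (and `hQ1` with `E2`). -/
theorem kc_hP1 (hE1 : ∀ v : Place K F, 0 ≤ E1 v) :
    ∀ k : ℕ, (1 : F) ∈ riemannRochSpace (k • E1) :=
  fun k => one_mem_rr fun v => by
    rw [nsmul_apply']
    exact mul_nonneg (Nat.cast_nonneg (α := ℤ) k) (hE1 v)

/-- `hP` (and `hQ` with `E2`): `a ∈ L(D0 + k E1) → a ^ m * u ∈ L(m k E1)`. -/
theorem kc_hP (m : ℕ) (u : F) (hu : u ≠ 0) (hord : ∀ v : Place K F, (m : ℤ) * D0 v ≤ v.ord u) :
    ∀ k : ℕ, ∀ a ∈ riemannRochSpace (D0 + k • E1), a ^ m * u ∈ riemannRochSpace ((m * k) • E1) := by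
  intro k a ha
  refine mem_rr_iff_val.mpr fun v => ?_
  rw [map_mul, map_pow]
  calc v.adicValuation a ^ m * v.adicValuation u
      ≤ exp ((D0 + k • E1) v) ^ m * exp (-((m : ℤ) * D0 v)) :=
        mul_le_mul' (pow_le_pow_left' (mem_rr_iff_val.mp ha v) m) (val_le_of_ord_ge hu v (hord v))
    _ = exp (((m * k : ℕ) • E1) v) := by
        rw [← exp_nsmul, ← exp_add, add_nsmul_apply, nsmul_apply', nsmul_eq_mul]
        congr 1
        push_cast
        ring

/-- `hPM` (and `hQM` with `E2`): `L(j E1) * L(D0 + k E1) ⊆ L(D0 + (j + k) E1)`. -/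
theorem kc_hPM :
    ∀ j k : ℕ, ∀ s ∈ riemannRochSpace (j • E1), ∀ a ∈ riemannRochSpace (D0 + k • E1),
      s * a ∈ riemannRochSpace (D0 + (j + k) • E1) := by
  intro j k s hs a ha
  refine mul_mem_rr hs ha fun v => ?_
  rw [add_nsmul_apply, add_nsmul_apply, nsmul_apply']
  push_cast
  linarith

/-- `hsep`: separation of the two charts (the bound `k₀ ≤ k` is not needed). -/
theorem kc_hsep (hE1 : ∀ v : Place K F, 0 ≤ E1 v) (hE2 : ∀ v : Place K F, 0 ≤ E2 v)
    (hdisj : ∀ v : Place K F, E1 v = 0 ∨ E2 v = 0) (k₀ : ℕ) :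
    ∀ k : ℕ, k₀ ≤ k → ∀ a ∈ riemannRochSpace (D0 + k • E1), ∀ b ∈ riemannRochSpace (D0 + k • E2),
      a - b ∈ riemannRochSpace (D0 + k₀ • E1 + k₀ • E2) →
      a ∈ riemannRochSpace (D0 + k₀ • E1) ∧ b ∈ riemannRochSpace (D0 + k₀ • E2) := by
  intro k _ a ha b hb hab
  have h1 := fun v => mul_nonneg (Nat.cast_nonneg (α := ℤ) k₀) (hE1 v)
  have h2 := fun v => mul_nonneg (Nat.cast_nonneg (α := ℤ) k₀) (hE2 v)
  constructor
  · refine mem_rr_iff_val.mpr fun v => ?_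
    rcases hdisj v with h | h
    · refine (mem_rr_iff_val.mp ha v).trans (exp_le_exp.mpr ?_)
      rw [add_nsmul_apply, add_nsmul_apply, h]
      simp
    · have hb' : v.adicValuation b ≤ exp ((D0 + k₀ • E1) v) := by
        refine (mem_rr_iff_val.mp hb v).trans (exp_le_exp.mpr ?_)
        rw [add_nsmul_apply, add_nsmul_apply, h]
        have := h1 v
        simp only [mul_zero, add_zero]
        linarith
      have hab' : v.adicValuation (a - b) ≤ exp ((D0 + k₀ • E1) v) := by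
        refine (mem_rr_iff_val.mp hab v).trans (exp_le_exp.mpr ?_)
        rw [add_nsmul_add_nsmul_apply, add_nsmul_apply, h]
        simp
      have : a = (a - b) + b := by ring
      rw [this]
      exact (Valuation.map_add _ _ _).trans (max_le hab' hb')
  · refine mem_rr_iff_val.mpr fun v => ?_
    rcases hdisj v with h | h
    · have ha' : v.adicValuation a ≤ exp ((D0 + k₀ • E2) v) := by
        refine (mem_rr_iff_val.mp ha v).trans (exp_le_exp.mpr ?_)
        rw [add_nsmul_apply, add_nsmul_apply, h]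
        have := h2 v
        simp only [mul_zero, add_zero]
        linarith
      have hab' : v.adicValuation (a - b) ≤ exp ((D0 + k₀ • E2) v) := by
        refine (mem_rr_iff_val.mp hab v).trans (exp_le_exp.mpr ?_)
        rw [add_nsmul_add_nsmul_apply, add_nsmul_apply, h]
        simp
      have : b = a - (a - b) := by ring
      rw [this]
      exact (Valuation.map_sub _ _ _).trans (max_le ha' hab')
    · refine (mem_rr_iff_val.mp hb v).trans (exp_le_exp.mpr ?_)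
      rw [add_nsmul_apply, add_nsmul_apply, h]
      simp

/-- `M1 k ⊓ M2 k = L(D0)`. -/
theorem rr_inf_eq (hE1 : ∀ v : Place K F, 0 ≤ E1 v) (hE2 : ∀ v : Place K F, 0 ≤ E2 v)
    (hdisj : ∀ v : Place K F, E1 v = 0 ∨ E2 v = 0) (k : ℕ) :
    riemannRochSpace (D0 + k • E1) ⊓ riemannRochSpace (D0 + k • E2) = riemannRochSpace D0 := by
  apply le_antisymm
  · rintro f ⟨hf1, hf2⟩
    refine mem_rr_iff_val.mpr fun v => ?_
    rcases hdisj v with h | h
    · refine (mem_rr_iff_val.mp hf1 v).trans (exp_le_exp.mpr ?_)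
      rw [add_nsmul_apply, h]
      simp
    · refine (mem_rr_iff_val.mp hf2 v).trans (exp_le_exp.mpr ?_)
      rw [add_nsmul_apply, h]
      simp
  · refine le_inf (rr_le_of_le fun v => ?_) (rr_le_of_le fun v => ?_)
    · rw [add_nsmul_apply]
      have := mul_nonneg (Nat.cast_nonneg (α := ℤ) k) (hE1 v)
      linarith
    · rw [add_nsmul_apply]
      have := mul_nonneg (Nat.cast_nonneg (α := ℤ) k) (hE2 v)
      linarith

end Hyps

/-! ### Degree zero: a nonzero element of `L(D0)` makes `D0` principal -/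

theorem degree_eq_sum (D : Divisor K F) :
    Divisor.degree D = D.sum fun v n => n * (v.deg : ℤ) := by
  simp [Divisor.degree, Finsupp.liftAddHom_apply]

/-- An effective divisor of degree zero is zero, when all places have positive degree. -/
theorem eq_zero_of_nonneg_of_degree_eq_zero (hdeg : ∀ v : Place K F, 0 < v.deg)
    {E : Divisor K F} (hE : ∀ v : Place K F, 0 ≤ E v) (h0 : Divisor.degree E = 0) :
    ∀ v : Place K F, E v = 0 := by
  intro v
  by_contra hv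
  have hmem : v ∈ E.support := Finsupp.mem_support_iff.mpr hv
  rw [degree_eq_sum, Finsupp.sum] at h0
  have hnn : ∀ w ∈ E.support, 0 ≤ E w * (w.deg : ℤ) := fun w _ =>
    mul_nonneg (hE w) (Nat.cast_nonneg _)
  have := (Finset.sum_eq_zero_iff_of_nonneg hnn).mp h0 v hmem
  rcases mul_eq_zero.mp this with h | h
  · exact hv h
  · have := hdeg v
    omega

/-- With `deg D0 = 0`, a nonzero `f ∈ L(D0)` satisfies `div f = -D0`. -/
theorem ord_eq_neg_of_mem_rr [HasPrincipalDivisors K F] (hdeg : ∀ v : Place K F, 0 < v.deg)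
    {D0 : Divisor K F} (hD0 : Divisor.degree D0 = 0) {f : F} (hf : f ≠ 0)
    (hmem : f ∈ riemannRochSpace D0) : ∀ v : Place K F, v.ord f = -D0 v := by
  obtain ⟨D, hD, hDdeg⟩ := HasPrincipalDivisors.exists_divisor (K := K) f hf
  have hE : ∀ v : Place K F, 0 ≤ (D + D0) v := fun v => by
    rw [Finsupp.add_apply, hD v]
    have := (mem_rr_iff_ord hf).mp hmem v
    linarith
  have h0 : Divisor.degree (D + D0) = 0 := by rw [map_add, hDdeg, hD0, add_zero]
  intro v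
  have := eq_zero_of_nonneg_of_degree_eq_zero hdeg hE h0 v
  rw [Finsupp.add_apply, hD v] at this
  linarith

/-- With `deg D0 = 0`, a nonzero element of `L(D0)` makes `D0` principal. -/
theorem isPrincipal_of_mem_rr [HasPrincipalDivisors K F] (hdeg : ∀ v : Place K F, 0 < v.deg)
    {D0 : Divisor K F} (hD0 : Divisor.degree D0 = 0) {f : F} (hf : f ≠ 0)
    (hmem : f ∈ riemannRochSpace D0) : Divisor.IsPrincipal D0 :=
  ⟨f⁻¹, inv_ne_zero hf, fun v => by
    rw [v.ord_inv, ord_eq_neg_of_mem_rr hdeg hD0 hf hmem v, neg_neg]⟩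

theorem deg_pos_of_finiteResidue (v : Place K F) [v.FiniteResidue] : 0 < v.deg := by
  have : Module.Finite K v.ResidueField := Place.FiniteResidue.finite
  exact Module.finrank_pos

/-! ### The wrapper -/

/-- **Generic-fibre instance of `helper1788.kummer_core`**: for the Riemann-Roch families
attached to `D0`, `E1`, `E2` (effective, disjoint supports) and a unit `u` with `div u ≥ m • D0`,
the special-fibre inputs of `kummer_core` produce a nonzero element of `L(D0)`. -/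
theorem exists_ne_zero_mem_rr
    (D0 E1 E2 : Divisor K F) (hE1 : ∀ v : Place K F, 0 ≤ E1 v) (hE2 : ∀ v : Place K F, 0 ≤ E2 v)
    (hdisj : ∀ v : Place K F, E1 v = 0 ∨ E2 v = 0)
    (m : ℕ) (u : F) (hu : u ≠ 0) (hord : ∀ v : Place K F, (m : ℤ) * D0 v ≤ v.ord u)
    {Γ₀ : Type*} [LinearOrderedCommGroupWithZero Γ₀] (w : Valuation F Γ₀)
    (harch : ∀ ε κ : Γ₀, ε < 1 → κ ≠ 0 → ∃ n : ℕ, ε ^ n < κ) (hm : w (m : F) = 1)
    (k₀ : ℕ)
    (hsurj : ∀ k : ℕ, k₀ ≤ k → ∀ c ∈ riemannRochSpace (D0 + k • E1 + k • E2),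
      ∃ c₀ ∈ riemannRochSpace (D0 + k₀ • E1 + k₀ • E2),
      ∃ a₁ ∈ riemannRochSpace (D0 + k • E1), ∃ b₁ ∈ riemannRochSpace (D0 + k • E2),
        c = c₀ + a₁ - b₁ ∧ w a₁ ≤ w c ∧ w b₁ ≤ w c ∧ w c₀ ≤ w c)
    {ι : Type*} [Finite ι] (bas : Module.Basis ι K (riemannRochSpace (D0 + k₀ • E1 + k₀ • E2)))
    (horth : ∀ (x : riemannRochSpace (D0 + k₀ • E1 + k₀ • E2)) (i : ι),
      w (algebraMap K F (bas.repr x i)) ≤ w (x : F))
    (a₀ b₀ : F) (ha₀ : a₀ ∈ riemannRochSpace (D0 + k₀ • E1))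
    (hb₀ : b₀ ∈ riemannRochSpace (D0 + k₀ • E2)) (hva₀ : w a₀ = 1) (hab₀ : w (a₀ - b₀) < 1)
    (hsa₀ : w (a₀ ^ m * u - 1) < 1) (hsb₀ : w (b₀ ^ m * u - 1) < 1) :
    ∃ f : F, f ≠ 0 ∧ f ∈ riemannRochSpace D0 := by
  obtain ⟨f, hf0, hf1, hf2⟩ := helper1788.kummer_core w harch m hm u
    (fun k : ℕ => riemannRochSpace (D0 + k • E1)) (fun k : ℕ => riemannRochSpace (D0 + k • E2))
    (fun k : ℕ => riemannRochSpace (D0 + k • E1 + k • E2))
    (fun k : ℕ => riemannRochSpace (k • E1)) (fun k : ℕ => riemannRochSpace (k • E2))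
    (kc_hM1 D0 E1 E2 hE2) (kc_hM2 D0 E1 E2 hE1) (kc_hP1 E1 hE1) (kc_hP1 E2 hE2)
    (kc_hP D0 E1 m u hu hord) (kc_hP D0 E2 m u hu hord) (kc_hPM D0 E1) (kc_hPM D0 E2)
    k₀ (kc_hsep D0 E1 E2 hE1 hE2 hdisj k₀) hsurj bas horth a₀ b₀ ha₀ hb₀ hva₀ hab₀ hsa₀ hsb₀
  refine ⟨f, hf0, ?_⟩
  rw [← rr_inf_eq D0 E1 E2 hE1 hE2 hdisj k₀]
  exact ⟨hf1, hf2⟩

/-- **Wrapper**: the special-fibre inputs of `helper1788.kummer_core` for the Riemann-Roch
families of `D0`, `E1`, `E2` imply that the degree zero divisor `D0` (with `m • D0 = div u`)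
is principal. -/
theorem isPrincipal_of_kummer_core [HasPrincipalDivisors K F]
    (hdeg : ∀ v : Place K F, 0 < v.deg)
    (D0 E1 E2 : Divisor K F) (hE1 : ∀ v : Place K F, 0 ≤ E1 v) (hE2 : ∀ v : Place K F, 0 ≤ E2 v)
    (hdisj : ∀ v : Place K F, E1 v = 0 ∨ E2 v = 0) (hD0 : Divisor.degree D0 = 0)
    (m : ℕ) (u : F) (hu : u ≠ 0) (hord : ∀ v : Place K F, (m : ℤ) * D0 v = v.ord u)
    {Γ₀ : Type*} [LinearOrderedCommGroupWithZero Γ₀] (w : Valuation F Γ₀)
    (harch : ∀ ε κ : Γ₀, ε < 1 → κ ≠ 0 → ∃ n : ℕ, ε ^ n < κ) (hm : w (m : F) = 1)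
    (k₀ : ℕ)
    (hsurj : ∀ k : ℕ, k₀ ≤ k → ∀ c ∈ riemannRochSpace (D0 + k • E1 + k • E2),
      ∃ c₀ ∈ riemannRochSpace (D0 + k₀ • E1 + k₀ • E2),
      ∃ a₁ ∈ riemannRochSpace (D0 + k • E1), ∃ b₁ ∈ riemannRochSpace (D0 + k • E2),
        c = c₀ + a₁ - b₁ ∧ w a₁ ≤ w c ∧ w b₁ ≤ w c ∧ w c₀ ≤ w c)
    {ι : Type*} [Finite ι] (bas : Module.Basis ι K (riemannRochSpace (D0 + k₀ • E1 + k₀ • E2)))
    (horth : ∀ (x : riemannRochSpace (D0 + k₀ • E1 + k₀ • E2)) (i : ι),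
      w (algebraMap K F (bas.repr x i)) ≤ w (x : F))
    (a₀ b₀ : F) (ha₀ : a₀ ∈ riemannRochSpace (D0 + k₀ • E1))
    (hb₀ : b₀ ∈ riemannRochSpace (D0 + k₀ • E2)) (hva₀ : w a₀ = 1) (hab₀ : w (a₀ - b₀) < 1)
    (hsa₀ : w (a₀ ^ m * u - 1) < 1) (hsb₀ : w (b₀ ^ m * u - 1) < 1) :
    Divisor.IsPrincipal D0 := by
  obtain ⟨f, hf0, hf⟩ := exists_ne_zero_mem_rr D0 E1 E2 hE1 hE2 hdisj m u hu
    (fun v => (hord v).le) w harch hm k₀ hsurj bas horth a₀ b₀ ha₀ hb₀ hva₀ hab₀ hsa₀ hsb₀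
  exact isPrincipal_of_mem_rr hdeg hD0 hf0 hf

/-- `Stmt_Core` shape of the wrapper: `m • D0 = div a - div b`, with `u := a * b⁻¹`. -/
theorem isPrincipal_of_kummer_core_div [HasPrincipalDivisors K F]
    (hdeg : ∀ v : Place K F, 0 < v.deg)
    (D0 E1 E2 : Divisor K F) (hE1 : ∀ v : Place K F, 0 ≤ E1 v) (hE2 : ∀ v : Place K F, 0 ≤ E2 v)
    (hdisj : ∀ v : Place K F, E1 v = 0 ∨ E2 v = 0) (hD0 : Divisor.degree D0 = 0)
    (m : ℕ) (a b : F) (ha : a ≠ 0) (hb : b ≠ 0)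
    (hord : ∀ v : Place K F, (m : ℤ) * D0 v = v.ord a - v.ord b)
    {Γ₀ : Type*} [LinearOrderedCommGroupWithZero Γ₀] (w : Valuation F Γ₀)
    (harch : ∀ ε κ : Γ₀, ε < 1 → κ ≠ 0 → ∃ n : ℕ, ε ^ n < κ) (hm : w (m : F) = 1)
    (k₀ : ℕ)
    (hsurj : ∀ k : ℕ, k₀ ≤ k → ∀ c ∈ riemannRochSpace (D0 + k • E1 + k • E2),
      ∃ c₀ ∈ riemannRochSpace (D0 + k₀ • E1 + k₀ • E2),
      ∃ a₁ ∈ riemannRochSpace (D0 + k • E1), ∃ b₁ ∈ riemannRochSpace (D0 + k • E2),
        c = c₀ + a₁ - b₁ ∧ w a₁ ≤ w c ∧ w b₁ ≤ w c ∧ w c₀ ≤ w c)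
    {ι : Type*} [Finite ι] (bas : Module.Basis ι K (riemannRochSpace (D0 + k₀ • E1 + k₀ • E2)))
    (horth : ∀ (x : riemannRochSpace (D0 + k₀ • E1 + k₀ • E2)) (i : ι),
      w (algebraMap K F (bas.repr x i)) ≤ w (x : F))
    (a₀ b₀ : F) (ha₀ : a₀ ∈ riemannRochSpace (D0 + k₀ • E1))
    (hb₀ : b₀ ∈ riemannRochSpace (D0 + k₀ • E2)) (hva₀ : w a₀ = 1) (hab₀ : w (a₀ - b₀) < 1)
    (hsa₀ : w (a₀ ^ m * (a * b⁻¹) - 1) < 1) (hsb₀ : w (b₀ ^ m * (a * b⁻¹) - 1) < 1) :
    Divisor.IsPrincipal D0 :=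
  isPrincipal_of_kummer_core hdeg D0 E1 E2 hE1 hE2 hdisj hD0 m (a * b⁻¹)
    (mul_ne_zero ha (inv_ne_zero hb))
    (fun v => by rw [v.ord_mul ha (inv_ne_zero hb), v.ord_inv, hord v]; ring)
    w harch hm k₀ hsurj bas horth a₀ b₀ ha₀ hb₀ hva₀ hab₀ hsa₀ hsb₀

end Fermat.Agent.S18.helper4226
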