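/-
S18, track A end adapter (helper4226).

Every track-A Kummer core ends with "there is a nonzero `f ∈ L(D0)`", where `D0` is the degree
zero divisor with `m • D0 = div (a / b)`.  This file turns that output into the conclusion of
`helper3054.Stmt_KF0` (`a = c' • V ^ m * b`):

* `exists_divisor_of_dvd_ord`  (E1): `m ∣ ord_P u` for all `P`  ⟹  a divisor `D0` of degree `0`
  with `m * D0 P = ord_P u`;
* `exists_const_mul_pow_of_isPrincipal` (E2): `m * D0 P = ord_P a - ord_P b` and `D0` principal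
  ⟹ `a = c' • V ^ m * b` (constants lemma of `helper7885`, any characteristic);
* `exists_const_mul_pow_of_forall_mem_rr` : the generic combination;
* `stmt_KF0_of_forall_mem_rr` (E3): the modular wrapper, `Stmt_KF0 N ℓ` from the divisor form.
-/
import Fermat.Agent.S24.helper204_Places
import Fermat.Agent.S24.helper167_JFinrank
import Fermat.Agent.S24.helper6180_EvDatum
import Fermat.Agent.S24.helper1200_StmtLocalInf
import Fermat.Agent.S24.helper3176_FieldAlg
import Fermat.Agent.S18.helper7885_PlacesFF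
import Fermat.Agent.S18.helper3054_Kummer
import Fermat.Agent.S18.helper4226_KummerInst

set_option autoImplicit false
set_option synthInstance.maxHeartbeats 400000

open AlgebraicCurve IntermediateField

namespace Fermat.Agent.S18.helper4226

section GenericKF

variable {K F : Type*} [Field K] [Field F] [Algebra K F]

/-- (E1) A function all of whose orders are divisible by `m` has an `m`-th root divisor of
degree zero. -/
theorem exists_divisor_of_dvd_ord [HasPrincipalDivisors K F] {m : ℕ} (hm : m ≠ 0) {u : F}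
    (hu : u ≠ 0) (hdvd : ∀ P : Place K F, (m : ℤ) ∣ P.ord u) :
    ∃ D0 : Divisor K F, Divisor.degree D0 = 0 ∧ ∀ P : Place K F, (m : ℤ) * D0 P = P.ord u := by
  obtain ⟨D, hD, hDdeg⟩ := HasPrincipalDivisors.exists_divisor (K := K) u hu
  have h0 : (fun n : ℤ => n / (m : ℤ)) 0 = 0 := by simp
  have hsmul : m • (D.mapRange (fun n : ℤ => n / (m : ℤ)) h0) = D := by
    ext P
    rw [Finsupp.smul_apply, Finsupp.mapRange_apply, nsmul_eq_mul, hD P]
    exact Int.mul_ediv_cancel' (hdvd P)
  refine ⟨D.mapRange (fun n : ℤ => n / (m : ℤ)) h0, ?_, fun P => ?_⟩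
  · have h1 : (m : ℤ) * Divisor.degree (D.mapRange (fun n : ℤ => n / (m : ℤ)) h0) = 0 := by
      rw [← nsmul_eq_mul, ← map_nsmul, hsmul, hDdeg]
    rcases mul_eq_zero.mp h1 with h | h
    · exact absurd (by exact_mod_cast h) hm
    · exact h
  · rw [Finsupp.mapRange_apply, hD P]
    exact Int.mul_ediv_cancel' (hdvd P)

/-- (E1'), quotient form: `m ∣ ord_P a - ord_P b` for all `P`. -/
theorem exists_divisor_of_dvd_ord_sub [HasPrincipalDivisors K F] {m : ℕ} (hm : m ≠ 0) {a b : F}
    (ha : a ≠ 0) (hb : b ≠ 0) (hdvd : ∀ P : Place K F, (m : ℤ) ∣ P.ord a - P.ord b) :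
    ∃ D0 : Divisor K F, Divisor.degree D0 = 0 ∧
      ∀ P : Place K F, (m : ℤ) * D0 P = P.ord a - P.ord b := by
  have hu : a * b⁻¹ ≠ 0 := mul_ne_zero ha (inv_ne_zero hb)
  have hord : ∀ P : Place K F, P.ord (a * b⁻¹) = P.ord a - P.ord b := fun P => by
    rw [P.ord_mul ha (inv_ne_zero hb), P.ord_inv, sub_eq_add_neg]
  obtain ⟨D0, hdeg0, hD0⟩ := exists_divisor_of_dvd_ord (K := K) hm hu
    (fun P => by rw [hord P]; exact hdvd P)
  exact ⟨D0, hdeg0, fun P => by rw [hD0 P, hord P]⟩

/-- (E2) If `m • D0 = div a - div b` and `D0` is principal, then `a = c' • V ^ m * b`. -/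
theorem exists_const_mul_pow_of_isPrincipal [IsAlgClosed K] (x : F) [FiniteDimensional K⟮x⟯ F]
    {m : ℕ} {a b : F} (ha : a ≠ 0) (hb : b ≠ 0) {D0 : Divisor K F}
    (hD0 : ∀ P : Place K F, (m : ℤ) * D0 P = P.ord a - P.ord b)
    (hprin : Divisor.IsPrincipal D0) :
    ∃ (V : F) (c' : K), a = algebraMap K F c' * V ^ m * b := by
  obtain ⟨f, hf, hfD⟩ := hprin
  have hfm : f ^ m * b ≠ 0 := mul_ne_zero (pow_ne_zero m hf) hb
  obtain ⟨c, -, hc⟩ := helper7885.exists_const_mul_of_forall_ord_eq (K := K) x ha hfm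
    (fun v => by
      rw [v.ord_mul (pow_ne_zero m hf) hb, helper3054.ord_pow, ← hfD v, hD0 v]; ring)
  exact ⟨f, c, by rw [hc, mul_assoc]⟩

/-- Generic end adapter of track A: if every degree zero divisor `D0` with
`m • D0 = div a - div b` has a nonzero section, then `a = c' • V ^ m * b`. -/
theorem exists_const_mul_pow_of_forall_mem_rr [IsAlgClosed K] [HasPrincipalDivisors K F] (x : F)
    [FiniteDimensional K⟮x⟯ F] {m : ℕ} (hm : m ≠ 0) {a b : F} (ha : a ≠ 0) (hb : b ≠ 0)
    (hdvd : ∀ P : Place K F, (m : ℤ) ∣ P.ord a - P.ord b)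
    (H : ∀ D0 : Divisor K F, Divisor.degree D0 = 0 →
      (∀ P : Place K F, (m : ℤ) * D0 P = P.ord a - P.ord b) →
      ∃ f : F, f ≠ 0 ∧ f ∈ riemannRochSpace D0) :
    ∃ (V : F) (c' : K), a = algebraMap K F c' * V ^ m * b := by
  obtain ⟨D0, hdeg0, hD0⟩ := exists_divisor_of_dvd_ord_sub (K := K) hm ha hb hdvd
  obtain ⟨f, hf0, hf⟩ := H D0 hdeg0 hD0
  have hprin : Divisor.IsPrincipal D0 :=
    isPrincipal_of_mem_rr
      (fun v => by rw [helper7885.place_deg_eq_one x v]; exact one_pos) hdeg0 hf0 hf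
  exact exists_const_mul_pow_of_isPrincipal x ha hb hD0 hprin

end GenericKF

section ModularKF

open ModularCurve Fermat.Agent.S24.helper24 Fermat.Agent.S18.helper3054

/-- `F_N` is finite over `ℚ̄(j)` (re-export from the landed S24 closure). -/
theorem finiteDimensional_jBar_FN (N : ℕ) [NeZero N] : FiniteDimensional Kbar⟮jBar N⟯ (FN N) :=
  ((Fermat.Agent.S24.helper167.stmt_JFinrank_of
    (fun N _ => Fermat.Agent.S24.helper6180.evDatum N)
    Fermat.Agent.S24.helper1200.stmt_LocalInf) N).1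

/-- Principal divisors exist on `F_N` (re-export from the landed S24 closure). -/
theorem hasPrincipalDivisors_FN (N : ℕ) [NeZero N] : HasPrincipalDivisors Kbar (FN N) := by
  have := finiteDimensional_jBar_FN N
  exact Fermat.Agent.S24.helper204.hasPrincipalDivisors (jBar N)
    (Fermat.Agent.S24.helper3176.transcendental_jBar N)

/-- Every place of `F_N` has degree one (re-export from the landed S24 closure). -/
theorem place_deg_eq_one_FN (N : ℕ) [NeZero N] (w : Place Kbar (FN N)) : w.deg = 1 := by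
  have := finiteDimensional_jBar_FN N
  exact Fermat.Agent.S24.helper204.place_deg_eq_one (jBar N)
    (Fermat.Agent.S24.helper3176.transcendental_jBar N) w

/-- (E3) **Track A end adapter.**  `Stmt_KF0 N ℓ` follows from its divisor form: for all Kummer
data and every degree zero divisor `D0` with `m • D0 = div a - div b`, there is a nonzero
`f ∈ L(D0)`. -/
theorem stmt_KF0_of_forall_mem_rr (N : ℕ) [NeZero N] (ℓ : ℕ)
    (H : ∀ (A : ValuationSubring (AlgebraicClosure ℚ)), A.LiesOverPrime ℓ →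
      ∀ (m : ℕ), ¬ ℓ ∣ m →
      ∀ (a b : IntegralFn A N) (D0 : Divisor (AlgebraicClosure ℚ) (modularFunctionFieldBar N)),
        Divisor.degree D0 = 0 →
        (∀ P : Place (AlgebraicClosure ℚ) (modularFunctionFieldBar N),
          (m : ℤ) * D0 P = P.ord a.gen - P.ord b.gen) →
        ∀ w : modularFunctionFieldFullC (IsLocalRing.ResidueField A) N, w ≠ 0 →
          a.red = w ^ m * b.red →
          ∃ f : modularFunctionFieldBar N, f ≠ 0 ∧ f ∈ riemannRochSpace D0) :
    Stmt_KF0 N ℓ := by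
  intro A hA m hm a b hdvd w hw hred
  have hm0 : m ≠ 0 := by
    rintro rfl
    exact hm (dvd_zero ℓ)
  have : HasPrincipalDivisors Kbar (FN N) := hasPrincipalDivisors_FN N
  have : FiniteDimensional Kbar⟮jBar N⟯ (FN N) := finiteDimensional_jBar_FN N
  exact exists_const_mul_pow_of_forall_mem_rr (K := Kbar) (F := FN N) (jBar N) hm0
    a.gen_ne_zero b.gen_ne_zero hdvd
    (fun D0 hdeg0 hD0 => H A hA m hm a b D0 hdeg0 hD0 w hw hred)

/-- (E3'), unit form: the same with the hypothesis stated for `u := a.gen * b.gen⁻¹`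
(`ord_P u = m * D0 P`), the shape consumed by the closing theorems of track A. -/
theorem stmt_KF0_of_forall_mem_rr_unit (N : ℕ) [NeZero N] (ℓ : ℕ)
    (H : ∀ (A : ValuationSubring (AlgebraicClosure ℚ)), A.LiesOverPrime ℓ →
      ∀ (m : ℕ), ¬ ℓ ∣ m →
      ∀ (a b : IntegralFn A N) (D0 : Divisor (AlgebraicClosure ℚ) (modularFunctionFieldBar N)),
        Divisor.degree D0 = 0 →
        (∀ P : Place (AlgebraicClosure ℚ) (modularFunctionFieldBar N),
          P.ord (a.gen * b.gen⁻¹) = (m : ℤ) * D0 P) →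
        ∀ w : modularFunctionFieldFullC (IsLocalRing.ResidueField A) N, w ≠ 0 →
          a.red = w ^ m * b.red →
          ∃ f : modularFunctionFieldBar N, f ≠ 0 ∧ f ∈ riemannRochSpace D0) :
    Stmt_KF0 N ℓ :=
  stmt_KF0_of_forall_mem_rr N ℓ fun A hA m hm a b D0 hdeg0 hD0 w hw hred =>
    H A hA m hm a b D0 hdeg0
      (fun P => by
        rw [P.ord_mul a.gen_ne_zero (inv_ne_zero b.gen_ne_zero), P.ord_inv, hD0 P,
          sub_eq_add_neg])
      w hw hred

end ModularKF

end Fermat.Agent.S18.helper4226
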