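import Fermat.Agent.S28.helper1595_RouteP
import Fermat.Agent.S28.helper508_FormalPrime
import Fermat.Prelude.Def_ModularCurve_ReductionModL

/-!
# GAUSSMOD: the concrete Gauss-valued function field of `X₀(N)` at a prime `ℓ ∤ N` (helper508)

Shared brick for S18 / S37 / S29, built on the landed S28 closure.
-/

set_option autoImplicit false

noncomputable section

namespace Fermat.Agent.S18.helper508

open IntermediateField ModularCurve Polynomial
open Fermat.Agent.S28

/-- **The S28 route-P basis, with its provenance.**  For `ℓ ∤ N` there are `ψ(N)` integer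
`q`-series, monomials in the `j(q^d)` (`d ∣ N`), integral over `ℤ[j]`, whose reductions mod `ℓ`
are linearly independent over `𝔽_ℓ[j̄]`; and `[F_N : ℚ(j)] ≤ ψ(N)`. -/
theorem exists_basisZ (N : ℕ) [NeZero N] (ℓ : ℕ) [Fact ℓ.Prime] (hℓN : ¬ ℓ ∣ N) :
    ∃ b : Fin (dedekindPsi N) → LaurentSeries ℤ,
      (∀ i, b i ∈ Submonoid.closure (helper1595.genZ N)) ∧
      (∀ i, Spec.IsIntegralOverZj (b i)) ∧
      Spec.DegLE (modularFunctionFieldFull N) (dedekindPsi N) ∧
      Spec.LinIndepModL ℓ b := by
  classical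
  have h : ∀ (p : ℕ) [Fact p.Prime], p ∣ N → helper328.Stmt_FormalPrime p :=
    fun p _ _ => S28.helper508.stmt_FormalPrime p
  have hrel : ∀ (p : ℕ) [NeZero p], p.Prime → p ∣ N → helper1595.PrimeRelZ p := by
    intro p _ hp hpN
    have : Fact p.Prime := ⟨hp⟩
    exact helper28.primeRel_int p (h p hpN)
  have hnr : ∀ (p : ℕ) [NeZero p], p.Prime → p ∣ N →
      qExpand (ZMod ℓ) p (jqModC (ZMod ℓ)) ∉ (ZMod ℓ)⟮jqModC (ZMod ℓ)⟯ := by
    intro p _ hp hpN
    have : Fact p.Prime := ⟨hp⟩
    have hpl : p ≠ ℓ := by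
      rintro rfl
      exact hℓN hpN
    exact helper28.nonrat p ℓ hpl (h p hpN)
  have hub := helper559.hub_of_formalPrime (ZMod ℓ) N (NeZero.pos N) h
  have hdeg := helper559.degLE_of_formalPrime N h
  set J := jqModC (ZMod ℓ) with hJ
  have hrank := helper1595.relrank_full_eq_dedekindPsi (ZMod ℓ) N (NeZero.pos N) hub
    (fun p _ hp hpN => helper1595.primeData_of_relZ (ZMod ℓ) p hp (hrel p hp hpN) (hnr p hp hpN))
  have h' : (ZMod ℓ)⟮J⟯ ≤ adjoin (ZMod ℓ) (divisorExpansionsC (ZMod ℓ) N) :=
    helper1595.adjoin_jqModC_le (ZMod ℓ) N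
  have hrank' : Module.rank ↥((ZMod ℓ)⟮J⟯) ↥(extendScalars h') = (dedekindPsi N : Cardinal) := by
    rw [← relrank_eq_rank_of_le h']; exact hrank
  have halg : ∀ x ∈ divisorExpansionsC (ZMod ℓ) N, IsAlgebraic ↥((ZMod ℓ)⟮J⟯) x := by
    intro x hx
    rw [← helper1595.toFl_image_genZ N ℓ] at hx
    obtain ⟨b, hb, rfl⟩ := hx
    exact (helper1595.isIntegral_toFl ℓ (helper1595.isIntegral_of_mem_closure N hrel
      (Submonoid.subset_closure hb))).isAlgebraic
  have hspan : Module.rank ↥((ZMod ℓ)⟮J⟯) ↥(Submodule.span ↥((ZMod ℓ)⟮J⟯)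
      (Submonoid.closure (divisorExpansionsC (ZMod ℓ) N) : Set (LaurentSeries (ZMod ℓ)))) =
      (dedekindPsi N : Cardinal) := by
    rw [← hrank', extendScalars_adjoin h', ← Algebra.adjoin_eq_span,
      Subalgebra.rank_toSubmodule, ← adjoin_toSubalgebra_of_isAlgebraic halg,
      IntermediateField.rank_eq_rank_subalgebra]
  obtain ⟨B, hBT, hBspan, hBli⟩ := exists_linearIndependent ↥((ZMod ℓ)⟮J⟯)
    (Submonoid.closure (divisorExpansionsC (ZMod ℓ) N) : Set (LaurentSeries (ZMod ℓ)))
  have hcard : Cardinal.mk B = (dedekindPsi N : Cardinal) := by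
    rw [← hspan, ← hBspan]
    exact (rank_span_set hBli).symm
  obtain ⟨e⟩ := Cardinal.mk_eq_nat_iff.mp hcard
  have hlift : ∀ i : Fin (dedekindPsi N), ∃ b : LaurentSeries ℤ,
      b ∈ Submonoid.closure (helper1595.genZ N) ∧
        Spec.toFl ℓ b = ((e.symm i : B) : LaurentSeries (ZMod ℓ)) := by
    intro i
    have := hBT (e.symm i).2
    rw [← helper1595.toFl_image_closure N ℓ] at this
    obtain ⟨b, hb, hb'⟩ := this
    exact ⟨b, hb, hb'⟩
  choose bZ hbZ_mem hbZ_red using hlift
  refine ⟨bZ, hbZ_mem, fun i => helper1595.isIntegral_of_mem_closure N hrel (hbZ_mem i), hdeg, ?_⟩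
  intro c hc
  have hli : LinearIndependent ↥((ZMod ℓ)⟮J⟯)
      (fun i : Fin (dedekindPsi N) => ((e.symm i : B) : LaurentSeries (ZMod ℓ))) :=
    hBli.comp _ e.symm.injective
  rw [Fintype.linearIndependent_iff] at hli
  have hsum : ∑ i, (helper1595.toAdj J (c i)) • ((e.symm i : B) : LaurentSeries (ZMod ℓ)) = 0 := by
    rw [← hc]
    refine Finset.sum_congr rfl (fun i _ => ?_)
    rw [Algebra.smul_def, hbZ_red i]
    congr 1
    have e1 := helper1595.algebraMap_comp_toAdj (k := ZMod ℓ) J
    rw [← RingHom.comp_apply, e1]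
    rfl
  funext i
  have h0 := hli _ hsum i
  have h1 : aeval J (c i) = 0 := by
    have e1 := helper1595.algebraMap_comp_toAdj (k := ZMod ℓ) J
    have : algebraMap ↥((ZMod ℓ)⟮J⟯) (LaurentSeries (ZMod ℓ)) (helper1595.toAdj J (c i)) =
        aeval J (c i) := by
      rw [← RingHom.comp_apply, e1]; rfl
    rw [← this, h0, map_zero]
  exact helper3292.aeval_jqModC_injective (ZMod ℓ) (by rw [h1, Pi.zero_apply, map_zero])


/-! ### Coefficient maps -/

section CoeffMaps

variable {R S : Type*} [CommRing R] [CommRing S]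

theorem coeffMap_injective (f : R →+* S) (hf : Function.Injective f) :
    Function.Injective (coeffMap f) := by
  intro x y h
  ext t
  exact hf (by simpa using congrArg (fun z : LaurentSeries S => z.coeff t) h)

/-- The canonical image of an integer `q`-series over any commutative ring. -/
abbrev zTo (R : Type*) [CommRing R] : LaurentSeries ℤ →+* LaurentSeries R :=
  coeffMap (Int.castRingHom R)

theorem coeffMap_zTo (f : R →+* S) (x : LaurentSeries ℤ) : coeffMap f (zTo R x) = zTo S x := by
  rw [zTo, coeffMap_coeffMap]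
  exact coeffMap_congr (RingHom.ext_int _ _) x

theorem zTo_jqModC (R : Type*) [CommRing R] : zTo R (jqModC ℤ) = jqModC R :=
  coeffMap_jqModC _

end CoeffMaps

/-! ### Linear disjointness: independence mod `ℓ` over any field of characteristic `ℓ` -/

section Disjoint

variable {ℓ : ℕ} [Fact ℓ.Prime] {n : ℕ}

/-- The reductions of the `b i` stay linearly independent over `k[j̄]` for every field `k` of
characteristic `ℓ`. -/
theorem linIndep_extend (b : Fin n → LaurentSeries ℤ) (hb : Spec.LinIndepModL ℓ b)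
    (k : Type*) [Field k] [CharP k ℓ] (c : Fin n → k[X])
    (hc : ∑ i, aeval (jqModC k) (c i) * zTo k (b i) = 0) : c = 0 := by
  classical
  let _ : Algebra (ZMod ℓ) k := ZMod.algebra k ℓ
  set M : ℕ := (Finset.univ.sup fun i => (c i).natDegree) + 1 with hM
  have hdeg : ∀ i, (c i).natDegree < M := fun i =>
    Nat.lt_succ_of_le (Finset.le_sup (f := fun i => (c i).natDegree) (Finset.mem_univ i))
  set J := jqModC (ZMod ℓ) with hJ
  -- the coefficient identity
  have hcoef : ∀ (i : Fin n) (m : ℕ) (t : ℤ),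
      (jqModC k ^ m * zTo k (b i)).coeff t =
        algebraMap (ZMod ℓ) k ((J ^ m * Spec.toFl ℓ (b i)).coeff t) := by
    intro i m t
    have h1 : jqModC k ^ m * zTo k (b i) =
        coeffMap (algebraMap (ZMod ℓ) k) (J ^ m * Spec.toFl ℓ (b i)) := by
      rw [map_mul, map_pow, hJ, coeffMap_jqModC]
      congr 1
      exact (coeffMap_zTo (algebraMap (ZMod ℓ) k) (b i)).symm
    rw [h1, coeffMap_coeff]
  have hexp : ∀ t : ℤ, ∑ i, ∑ m ∈ Finset.range M,
      ((J ^ m * Spec.toFl ℓ (b i)).coeff t) • (c i).coeff m = 0 := by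
    intro t
    have h := congrArg (fun z : LaurentSeries k => z.coeff t) hc
    simp only [HahnSeries.coeff_zero] at h
    rw [← h, HahnSeries.coeff_sum]
    refine Finset.sum_congr rfl (fun i _ => ?_)
    rw [Polynomial.aeval_eq_sum_range' (hdeg i), Finset.sum_mul, HahnSeries.coeff_sum]
    refine Finset.sum_congr rfl (fun m _ => ?_)
    rw [Algebra.smul_def (R := k), mul_assoc, helper3292.coeff_algebraMap_mul, hcoef,
      Algebra.smul_def (R := ZMod ℓ), mul_comm]
  have key : ∀ φ : Module.Dual (ZMod ℓ) k, ∀ i m, φ ((c i).coeff m) = 0 := by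
    intro φ
    set cφ : Fin n → (ZMod ℓ)[X] :=
      fun i => ∑ m ∈ Finset.range M, monomial m (φ ((c i).coeff m)) with hcφ
    have h0 : ∑ i, aeval J (cφ i) * Spec.toFl ℓ (b i) = 0 := by
      ext t
      rw [HahnSeries.coeff_zero, HahnSeries.coeff_sum]
      have h := congrArg φ (hexp t)
      rw [map_zero, map_sum] at h
      rw [← h]
      refine Finset.sum_congr rfl (fun i _ => ?_)
      rw [map_sum]
      simp only [map_sum, Polynomial.aeval_monomial, Finset.sum_mul, HahnSeries.coeff_sum]
      refine Finset.sum_congr rfl (fun m _ => ?_)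
      rw [mul_assoc, helper3292.coeff_algebraMap_mul, map_smul, smul_eq_mul, mul_comm]
    have h1 := hb cφ h0
    intro i m
    by_cases hm : m < M
    · have h2 := congrArg (fun p : (ZMod ℓ)[X] => p.coeff m) (congrFun h1 i)
      simpa [hcφ, Polynomial.finsetSum_coeff, Polynomial.coeff_monomial, hm] using h2
    · rw [Polynomial.coeff_eq_zero_of_natDegree_lt (lt_of_lt_of_le (hdeg i) (not_lt.mp hm)),
        map_zero]
  funext i
  ext m
  rw [Pi.zero_apply, Polynomial.coeff_zero]
  exact (Module.forall_dual_apply_eq_zero_iff (ZMod ℓ) _).mp (fun φ => key φ i m)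

end Disjoint

/-! ### Primitive scaling over a valuation ring -/

section Scaling

variable {L : Type*} [Field L] (A : ValuationSubring L)

/-- A polynomial over `L` with all coefficients in `A` comes from `A[X]`. -/
theorem exists_map_subtype_eq (p : L[X]) (hp : ∀ m, p.coeff m ∈ A) :
    ∃ q : A[X], q.map A.subtype = p := by
  have : p ∈ Polynomial.lifts A.subtype := by
    rw [Polynomial.lifts_iff_coeff_lifts]
    intro m
    exact ⟨⟨p.coeff m, hp m⟩, rfl⟩
  exact (Polynomial.mem_lifts p).mp this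

/-- **Primitive scaling.**  A nonzero finite family of polynomials over `L` can be scaled by a
nonzero constant into `A[X]` so that some member has nonzero reduction. -/
theorem exists_primitive_scaling {ι : Type*} [Fintype ι] (Q : ι → L[X]) (hQ : Q ≠ 0) :
    ∃ (c₀ : L) (Q' : ι → A[X]), c₀ ≠ 0 ∧ (∀ i, (Q' i).map A.subtype = C c₀⁻¹ * Q i) ∧
      ∃ i, (Q' i).map (IsLocalRing.residue A) ≠ 0 := by
  classical
  set S : Finset L := Finset.univ.biUnion (fun i => (Q i).coeffs) with hS
  obtain ⟨i₁, m₁, hne₁⟩ : ∃ i m, (Q i).coeff m ≠ 0 := by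
    by_contra hcon
    refine hQ (funext fun i => Polynomial.ext fun m => ?_)
    by_contra hne
    exact hcon ⟨i, m, hne⟩
  have hSne : S.Nonempty :=
    ⟨_, Finset.mem_biUnion.mpr ⟨i₁, Finset.mem_univ _, Polynomial.coeff_mem_coeffs hne₁⟩⟩
  obtain ⟨c₀, hc₀S, hmax⟩ := Finset.exists_max_image S (fun c => A.valuation c) hSne
  obtain ⟨i₀, -, hc₀⟩ := Finset.mem_biUnion.mp hc₀S
  obtain ⟨m₀, hm₀, hc₀'⟩ := Polynomial.mem_coeffs_iff.mp hc₀
  have hc₀0 : c₀ ≠ 0 := by
    rw [hc₀']
    exact Polynomial.mem_support_iff.mp hm₀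
  have hv0 : A.valuation c₀ ≠ 0 := (Valuation.ne_zero_iff _).mpr hc₀0
  have hA : ∀ i m, c₀⁻¹ * (Q i).coeff m ∈ A := by
    intro i m
    by_cases h0 : (Q i).coeff m = 0
    · rw [h0, mul_zero]; exact A.zero_mem
    · have hmem : (Q i).coeff m ∈ S :=
        Finset.mem_biUnion.mpr ⟨i, Finset.mem_univ _, Polynomial.coeff_mem_coeffs h0⟩
      have hle := hmax _ hmem
      rw [← A.valuation_le_one_iff, map_mul, map_inv₀]
      exact (inv_mul_le_iff₀ (zero_lt_iff.mpr hv0)).mpr (by simpa using hle)
  have hex : ∀ i, ∃ q : A[X], q.map A.subtype = C c₀⁻¹ * Q i := fun i =>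
    exists_map_subtype_eq A _ (fun m => by rw [Polynomial.coeff_C_mul]; exact hA i m)
  choose Q' hQ' using hex
  refine ⟨c₀, Q', hc₀0, hQ', i₀, fun h => ?_⟩
  have h1 : (Q' i₀).coeff m₀ = 1 := by
    apply Subtype.ext
    have := congrArg (fun p : L[X] => p.coeff m₀) (hQ' i₀)
    simp only [Polynomial.coeff_map, Polynomial.coeff_C_mul] at this
    rw [← hc₀', inv_mul_cancel₀ hc₀0] at this
    exact this
  have h2 := congrArg (fun p : (IsLocalRing.ResidueField A)[X] => p.coeff m₀) h
  simp only [Polynomial.coeff_map, h1, map_one, Polynomial.coeff_zero] at h2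
  exact one_ne_zero h2

end Scaling

/-! ### Orthonormality of the basis over a valuation ring -/

section Core

variable {L : Type*} [Field L] (A : ValuationSubring L) {n : ℕ} (b : Fin n → LaurentSeries ℤ)

/-- Coefficient embedding `A((q)) → L((q))`. -/
abbrev cA : LaurentSeries A →+* LaurentSeries L := coeffMap A.subtype

/-- Coefficient reduction `A((q)) → k((q))`, `k` the residue field of `A`. -/
abbrev cπ : LaurentSeries A →+* LaurentSeries (IsLocalRing.ResidueField A) :=
  coeffMap (IsLocalRing.residue A)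

theorem cA_injective : Function.Injective (cA A) :=
  coeffMap_injective _ Subtype.val_injective

theorem cA_aeval (p : A[X]) :
    cA A (aeval (jqModC A) p) = aeval (jqModC L) (p.map A.subtype) :=
  helper3292.coeffMap_aeval_jqModC _ p

theorem cπ_aeval (p : A[X]) :
    cπ A (aeval (jqModC A) p) =
      aeval (jqModC (IsLocalRing.ResidueField A)) (p.map (IsLocalRing.residue A)) :=
  helper3292.coeffMap_aeval_jqModC _ p

/-- The independence hypothesis on the special fibre: the reductions of the `b i` are linearly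
independent over `k[j̄]`, `k` the residue field of `A`. -/
def IndepRes : Prop :=
  ∀ c : Fin n → (IsLocalRing.ResidueField A)[X],
    ∑ i, aeval (jqModC (IsLocalRing.ResidueField A)) (c i) *
      zTo (IsLocalRing.ResidueField A) (b i) = 0 → c = 0

variable {A b}

theorem rel_of_map {Q' : A[X]} {P' : Fin n → A[X]} {y : LaurentSeries A}
    (h : aeval (jqModC L) (Q'.map A.subtype) * cA A y =
      ∑ i, aeval (jqModC L) ((P' i).map A.subtype) * zTo L (b i)) :
    aeval (jqModC A) Q' * y = ∑ i, aeval (jqModC A) (P' i) * zTo A (b i) := by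
  apply cA_injective A
  rw [map_mul, map_sum, cA_aeval, h]
  refine Finset.sum_congr rfl fun i _ => ?_
  rw [map_mul, cA_aeval, coeffMap_zTo]

theorem rel_reduce {Q' : A[X]} {P' : Fin n → A[X]} {y : LaurentSeries A}
    (h : aeval (jqModC A) Q' * y = ∑ i, aeval (jqModC A) (P' i) * zTo A (b i)) :
    aeval (jqModC (IsLocalRing.ResidueField A)) (Q'.map (IsLocalRing.residue A)) * cπ A y =
      ∑ i, aeval (jqModC (IsLocalRing.ResidueField A)) ((P' i).map (IsLocalRing.residue A)) *
        zTo (IsLocalRing.ResidueField A) (b i) := by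
  have h' := congrArg (cπ A) h
  rw [map_mul, map_sum, cπ_aeval] at h'
  rw [h']
  refine Finset.sum_congr rfl fun i _ => ?_
  rw [map_mul, cπ_aeval, coeffMap_zTo]

/-- **Generic independence**: the `b i` are linearly independent over `L[j]`. -/
theorem indep_L (hk : IndepRes A b) (P : Fin n → L[X])
    (h : ∑ i, aeval (jqModC L) (P i) * zTo L (b i) = 0) : P = 0 := by
  by_contra hP
  obtain ⟨c₀, P', hc₀, hP', i₀, hi₀⟩ := exists_primitive_scaling A P hP
  have hrel : aeval (jqModC A) (0 : A[X]) * (0 : LaurentSeries A) =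
      ∑ i, aeval (jqModC A) (P' i) * zTo A (b i) := by
    apply rel_of_map
    rw [Polynomial.map_zero, map_zero, zero_mul]
    have : ∑ i, aeval (jqModC L) ((P' i).map A.subtype) * zTo L (b i) =
        algebraMap L (LaurentSeries L) c₀⁻¹ * ∑ i, aeval (jqModC L) (P i) * zTo L (b i) := by
      rw [Finset.mul_sum]
      refine Finset.sum_congr rfl fun i _ => ?_
      rw [hP', map_mul, Polynomial.aeval_C, mul_assoc]
    rw [this, h, mul_zero]
  have hred := rel_reduce hrel
  rw [Polynomial.map_zero, map_zero, zero_mul] at hred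
  exact hi₀ (congrFun (hk _ hred.symm) i₀)

/-- **Normal form**: a relation `Q(j)·y = ∑ P_i(j) b_i` over `L` with `y` an `A`-integral series
and `Q ≠ 0` can be rescaled to a relation over `A` whose denominator has nonzero reduction. -/
theorem exists_normal_form (hk : IndepRes A b) (y : LaurentSeries A) (Q : L[X])
    (P : Fin n → L[X]) (hQ : Q ≠ 0)
    (hrel : aeval (jqModC L) Q * cA A y = ∑ i, aeval (jqModC L) (P i) * zTo L (b i)) :
    ∃ (Q' : A[X]) (P' : Fin n → A[X]), Q'.map (IsLocalRing.residue A) ≠ 0 ∧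
      aeval (jqModC A) Q' * y = ∑ i, aeval (jqModC A) (P' i) * zTo A (b i) := by
  obtain ⟨c₀, R, hc₀, hR, o, ho⟩ := exists_primitive_scaling A
    (fun o : Option (Fin n) => o.elim Q P) (fun h => hQ (congrFun h none))
  have hrelA : aeval (jqModC A) (R none) * y =
      ∑ i, aeval (jqModC A) (R (some i)) * zTo A (b i) := by
    apply rel_of_map
    have h1 := hR none
    simp only [Option.elim_none] at h1
    rw [h1, map_mul, Polynomial.aeval_C, mul_assoc, hrel, Finset.mul_sum]
    refine Finset.sum_congr rfl fun i _ => ?_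
    have h2 := hR (some i)
    simp only [Option.elim_some] at h2
    rw [h2, map_mul, Polynomial.aeval_C, mul_assoc]
  refine ⟨R none, fun i => R (some i), fun h0 => ?_, hrelA⟩
  have hred := rel_reduce hrelA
  rw [h0, map_zero, zero_mul] at hred
  have hall := hk _ hred.symm
  cases o with
  | none => exact ho h0
  | some i => exact ho (congrFun hall i)

end Core

/-! ### Spans over `K(j)` inside `K((q))` -/

section Span

variable (K : Type*) [Field K] {n : ℕ} (B : Fin n → LaurentSeries K)

/-- The `K(j)`-span of a finite family of `q`-series. -/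
abbrev jSpan : Submodule ↥K⟮jqModC K⟯ (LaurentSeries K) :=
  Submodule.span ↥K⟮jqModC K⟯ (Set.range B)

variable {K}

theorem algebraMap_toAdj (p : K[X]) :
    algebraMap ↥K⟮jqModC K⟯ (LaurentSeries K) (helper1595.toAdj (jqModC K) p) =
      aeval (jqModC K) p :=
  RingHom.congr_fun (helper1595.algebraMap_comp_toAdj (k := K) (jqModC K)) p

theorem aeval_jqModC_ne_zero {Q : K[X]} (hQ : Q ≠ 0) : aeval (jqModC K) Q ≠ 0 :=
  fun h => hQ ((helper3292.aeval_jqModC_eq_zero_iff K Q).mp h)

theorem exists_common_denominator (c : Fin n → ↥K⟮jqModC K⟯) :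
    ∃ (Q : K[X]) (P : Fin n → K[X]), Q ≠ 0 ∧
      ∀ i, aeval (jqModC K) Q * (c i : LaurentSeries K) = aeval (jqModC K) (P i) := by
  classical
  have h : ∀ i, ∃ r s : K[X], s ≠ 0 ∧
      aeval (jqModC K) s * (c i : LaurentSeries K) = aeval (jqModC K) r := by
    intro i
    obtain ⟨r, s, hrs⟩ := (IntermediateField.mem_adjoin_simple_iff K _).mp (c i).2
    by_cases hs : s = 0
    · refine ⟨0, 1, one_ne_zero, ?_⟩
      rw [hrs, hs, map_zero, div_zero, mul_zero]
    · exact ⟨r, s, hs, by rw [hrs, mul_div_cancel₀ _ (aeval_jqModC_ne_zero hs)]⟩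
  choose r s hs hrs using h
  refine ⟨∏ i, s i, fun i => r i * ∏ m ∈ Finset.univ.erase i, s m,
    Finset.prod_ne_zero_iff.mpr (fun i _ => hs i), fun i => ?_⟩
  rw [← Finset.mul_prod_erase Finset.univ s (Finset.mem_univ i), map_mul, map_mul, ← hrs i]
  ring

theorem mem_jSpan_of_rel {z : LaurentSeries K} (Q : K[X]) (P : Fin n → K[X]) (hQ : Q ≠ 0)
    (h : aeval (jqModC K) Q * z = ∑ i, aeval (jqModC K) (P i) * B i) : z ∈ jSpan K B := by
  have hQ0 := aeval_jqModC_ne_zero hQ
  have hz : z = ∑ i, (helper1595.toAdj (jqModC K) (P i) / helper1595.toAdj (jqModC K) Q) • B i := by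
    apply mul_left_cancel₀ hQ0
    rw [h, Finset.mul_sum]
    refine Finset.sum_congr rfl fun i _ => ?_
    rw [Algebra.smul_def, map_div₀, algebraMap_toAdj, algebraMap_toAdj]
    field_simp
  rw [hz]
  exact Submodule.sum_mem _ fun i _ => Submodule.smul_mem _ _ (Submodule.subset_span ⟨i, rfl⟩)

theorem exists_rel_of_mem_jSpan {z : LaurentSeries K} (hz : z ∈ jSpan K B) :
    ∃ (Q : K[X]) (P : Fin n → K[X]), Q ≠ 0 ∧
      aeval (jqModC K) Q * z = ∑ i, aeval (jqModC K) (P i) * B i := by
  obtain ⟨c, rfl⟩ := (Submodule.mem_span_range_iff_exists_fun _).mp hz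
  obtain ⟨Q, P, hQ, hP⟩ := exists_common_denominator c
  refine ⟨Q, P, hQ, ?_⟩
  rw [Finset.mul_sum]
  refine Finset.sum_congr rfl fun i _ => ?_
  rw [Algebra.smul_def, ← mul_assoc, ← hP i]
  rfl

theorem linearIndependent_of_indep
    (hind : ∀ P : Fin n → K[X], ∑ i, aeval (jqModC K) (P i) * B i = 0 → P = 0) :
    LinearIndependent ↥K⟮jqModC K⟯ B := by
  rw [Fintype.linearIndependent_iff]
  intro c hc i
  obtain ⟨Q, P, hQ, hP⟩ := exists_common_denominator c
  have h0 : ∑ i, aeval (jqModC K) (P i) * B i = 0 := by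
    have := congrArg (fun z => aeval (jqModC K) Q * z) hc
    simp only [mul_zero, Finset.mul_sum] at this
    rw [← this]
    refine Finset.sum_congr rfl fun i _ => ?_
    rw [Algebra.smul_def, ← mul_assoc, ← hP i]
    rfl
  have hPi := congrFun (hind P h0) i
  have h1 := hP i
  rw [hPi, Pi.zero_apply, map_zero] at h1
  have h2 := (mul_eq_zero.mp h1).resolve_left (aeval_jqModC_ne_zero hQ)
  exact Subtype.ext h2

theorem jSpan_mul_mem (hmul : ∀ i j, B i * B j ∈ jSpan K B) {x y : LaurentSeries K}
    (hx : x ∈ jSpan K B) (hy : y ∈ jSpan K B) : x * y ∈ jSpan K B := by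
  have h1 : jSpan K B * jSpan K B ≤ jSpan K B := by
    rw [Submodule.span_mul_span, Submodule.span_le]
    rintro _ ⟨_, ⟨i, rfl⟩, _, ⟨j, rfl⟩, rfl⟩
    exact hmul i j
  exact h1 (Submodule.mul_mem_mul hx hy)

theorem jSpan_inv_mem (h1 : (1 : LaurentSeries K) ∈ jSpan K B)
    (hmul : ∀ i j, B i * B j ∈ jSpan K B) {x : LaurentSeries K} (hx : x ∈ jSpan K B) :
    x⁻¹ ∈ jSpan K B := by
  rcases eq_or_ne x 0 with rfl | hx0
  · rw [inv_zero]; exact Submodule.zero_mem _
  have : FiniteDimensional ↥K⟮jqModC K⟯ ↥(jSpan K B) :=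
    FiniteDimensional.span_of_finite _ (Set.finite_range B)
  let f : ↥(jSpan K B) →ₗ[↥K⟮jqModC K⟯] ↥(jSpan K B) :=
    { toFun := fun w => ⟨x * w, jSpan_mul_mem B hmul hx w.2⟩
      map_add' := fun w w' => Subtype.ext (mul_add x w w')
      map_smul' := fun c w => Subtype.ext (by
        show x * (c • (w : LaurentSeries K)) = c • (x * (w : LaurentSeries K))
        rw [mul_smul_comm]) }
  have hinj : Function.Injective f := by
    intro w w' h
    have h' : x * (w : LaurentSeries K) = x * (w' : LaurentSeries K) := congrArg Subtype.val h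
    exact Subtype.ext (mul_left_cancel₀ hx0 h')
  obtain ⟨w, hw⟩ := LinearMap.surjective_of_injective hinj ⟨1, h1⟩
  have hw' : x * (w : LaurentSeries K) = 1 := congrArg Subtype.val hw
  rw [← eq_inv_of_mul_eq_one_right hw']
  exact w.2

/-- The span as an intermediate field, when it contains `1` and the products `B i * B j`. -/
def jSpanField (h1 : (1 : LaurentSeries K) ∈ jSpan K B)
    (hmul : ∀ i j, B i * B j ∈ jSpan K B) : IntermediateField K (LaurentSeries K) where
  carrier := jSpan K B
  mul_mem' := jSpan_mul_mem B hmul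
  one_mem' := h1
  add_mem' := Submodule.add_mem _
  zero_mem' := Submodule.zero_mem _
  algebraMap_mem' c := by
    have : algebraMap K (LaurentSeries K) c =
        (algebraMap K ↥K⟮jqModC K⟯ c) • (1 : LaurentSeries K) := by
      rw [Algebra.smul_def, mul_one]
      rfl
    rw [this]
    exact Submodule.smul_mem _ _ h1
  inv_mem' _ hx := jSpan_inv_mem B h1 hmul hx

theorem mem_jSpanField (h1 : (1 : LaurentSeries K) ∈ jSpan K B)
    (hmul : ∀ i j, B i * B j ∈ jSpan K B) (z : LaurentSeries K) :
    z ∈ jSpanField B h1 hmul ↔ z ∈ jSpan K B := Iff.rfl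

end Span

/-! ### The modular function field: generic fibre -/

/-- `b` is an integer `q`-series family at level `N`: monomials in the `j(q^d)`, `d ∣ N`, and
`[F_N : ℚ(j)] ≤ n`. -/
structure IsBasisZ (N : ℕ) {n : ℕ} (b : Fin n → LaurentSeries ℤ) : Prop where
  mem : ∀ i, b i ∈ Submonoid.closure (helper1595.genZ N)
  deg : Spec.DegLE (modularFunctionFieldFull N) n

section Monomials

theorem zTo_mem_fullC (K : Type*) [Field K] (N : ℕ) {x : LaurentSeries ℤ}
    (hx : x ∈ Submonoid.closure (helper1595.genZ N)) :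
    zTo K x ∈ modularFunctionFieldFullC K N := by
  induction hx using Submonoid.closure_induction with
  | mem x hx =>
    obtain ⟨d, hd, hdN, rfl⟩ := hx
    have : zTo K (qExpand ℤ d (jqModC ℤ)) = qExpand K d (jqModC K) := by
      show coeffMap (Int.castRingHom K) (qExpand ℤ d (jqModC ℤ)) = _
      rw [coeffMap_qExpand, coeffMap_jqModC]
    rw [this]
    exact jqModCd_mem_full K N hdN
  | one => rw [map_one]; exact one_mem _
  | mul x y _ _ hx hy => rw [map_mul]; exact mul_mem hx hy

variable (L : Type*) [Field L] [Algebra ℚ L]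

theorem coeffEmb_toQ (x : LaurentSeries ℤ) : coeffEmb L (Spec.toQ x) = zTo L x := by
  show coeffMap (algebraMap ℚ L) (coeffMap (Int.castRingHom ℚ) x) = _
  rw [coeffMap_coeffMap]
  exact coeffMap_congr (RingHom.ext_int _ _) x

theorem coeffEmb_aeval_jq (p : ℤ[X]) :
    coeffEmb L (aeval jq p) = aeval (jqModC L) (p.map (Int.castRingHom L)) := by
  have h1 : aeval jq p = aeval (jqModC ℚ) (p.map (Int.castRingHom ℚ)) := by
    rw [jqModC_rat, Polynomial.aeval_def, Polynomial.aeval_def, Polynomial.eval₂_map]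
    congr 1
    exact RingHom.ext_int _ _
  rw [h1]
  show coeffMap (algebraMap ℚ L) _ = _
  rw [helper3292.coeffMap_aeval_jqModC, Polynomial.map_map]
  congr 2
  exact RingHom.ext_int _ _

theorem zTo_mem_bar (N : ℕ) {x : LaurentSeries ℤ}
    (hx : x ∈ Submonoid.closure (helper1595.genZ N)) :
    zTo L x ∈ laurentBaseChange L (modularFunctionFieldFull N) := by
  rw [← coeffEmb_toQ]
  exact coeffEmb_mem_laurentBaseChange L (helper1595.toQ_mem_full_of_mem_closure N hx)

theorem jqModC_mem_bar (N : ℕ) :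
    jqModC L ∈ laurentBaseChange L (modularFunctionFieldFull N) := by
  rw [← zTo_jqModC, ← coeffEmb_toQ]
  refine coeffEmb_mem_laurentBaseChange L ?_
  have : Spec.toQ (jqModC ℤ) = jq := by
    show coeffMap (Int.castRingHom ℚ) (jqModC ℤ) = _
    rw [coeffMap_jqModC, jqModC_rat]
  rw [this]
  have h := jqd_mem_full N (one_dvd N)
  rwa [qExpand_one_apply] at h

end Monomials

section Generic

variable {N : ℕ} {L : Type*} [Field L] [Algebra ℚ L] {A : ValuationSubring L}
  {n : ℕ} {b : Fin n → LaurentSeries ℤ}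

/-- Every element of `F_N` (over `ℚ`) lies in the `L(j)`-span of the basis. -/
theorem coeffEmb_mem_jSpan (hb : IsBasisZ N b) (hk : IndepRes A b) {f : LaurentSeries ℚ}
    (hf : f ∈ modularFunctionFieldFull N) :
    coeffEmb L f ∈ jSpan L (fun i => zTo L (b i)) := by
  have : CharZero L := algebraRat.charZero L
  obtain ⟨c, hc0, hrel⟩ := hb.deg (Fin.cons f (fun i => Spec.toQ (b i))) (by
    intro i
    refine Fin.cases ?_ (fun i => ?_) i
    · simpa using hf
    · simpa using helper1595.toQ_mem_full_of_mem_closure N (hb.mem i))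
  rw [Fin.sum_univ_succ] at hrel
  simp only [Fin.cons_zero, Fin.cons_succ] at hrel
  have hrelL := congrArg (coeffEmb L) hrel
  rw [map_add, map_mul, map_sum, map_zero, coeffEmb_aeval_jq] at hrelL
  have hsum : ∑ i : Fin n, coeffEmb L (aeval jq (c i.succ) * Spec.toQ (b i)) =
      ∑ i : Fin n, aeval (jqModC L) ((c i.succ).map (Int.castRingHom L)) * zTo L (b i) :=
    Finset.sum_congr rfl fun i _ => by rw [map_mul, coeffEmb_aeval_jq, coeffEmb_toQ]
  rw [hsum] at hrelL
  have hinj : Function.Injective (Polynomial.map (Int.castRingHom L)) :=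
    Polynomial.map_injective _ Int.cast_injective
  have hc0' : (c 0).map (Int.castRingHom L) ≠ 0 := by
    intro h0
    rw [h0, map_zero, zero_mul, zero_add] at hrelL
    have hall := indep_L hk _ hrelL
    refine hc0 (funext fun i => ?_)
    refine Fin.cases ?_ (fun i => ?_) i
    · exact hinj (by rw [h0, Pi.zero_apply, Polynomial.map_zero])
    · exact hinj (by rw [congrFun hall i, Pi.zero_apply, Pi.zero_apply, Polynomial.map_zero])
  refine mem_jSpan_of_rel _ ((c 0).map (Int.castRingHom L))
    (fun i => -(c i.succ).map (Int.castRingHom L)) hc0' ?_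
  simp only [map_neg, neg_mul, Finset.sum_neg_distrib]
  exact eq_neg_of_add_eq_zero_left hrelL

theorem one_mem_jSpan_L (hb : IsBasisZ N b) (hk : IndepRes A b) :
    (1 : LaurentSeries L) ∈ jSpan L (fun i => zTo L (b i)) := by
  have := coeffEmb_mem_jSpan (L := L) hb hk (one_mem (modularFunctionFieldFull N))
  rwa [map_one] at this

theorem mul_mem_jSpan_L (hb : IsBasisZ N b) (hk : IndepRes A b) (i j : Fin n) :
    zTo L (b i) * zTo L (b j) ∈ jSpan L (fun i => zTo L (b i)) := by
  have := coeffEmb_mem_jSpan (L := L) hb hk (mul_mem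
    (helper1595.toQ_mem_full_of_mem_closure N (hb.mem i))
    (helper1595.toQ_mem_full_of_mem_closure N (hb.mem j)))
  rwa [map_mul, coeffEmb_toQ, coeffEmb_toQ] at this

/-- **Generic fibre**: `F̄_N = L·F_N` is exactly the `L(j)`-span of the basis. -/
theorem mem_bar_iff (hb : IsBasisZ N b) (hk : IndepRes A b) (z : LaurentSeries L) :
    z ∈ laurentBaseChange L (modularFunctionFieldFull N) ↔
      z ∈ jSpan L (fun i => zTo L (b i)) := by
  constructor
  · intro hz
    have hle : laurentBaseChange L (modularFunctionFieldFull N) ≤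
        jSpanField (fun i => zTo L (b i)) (one_mem_jSpan_L hb hk) (mul_mem_jSpan_L hb hk) := by
      rw [laurentBaseChange, IntermediateField.adjoin_le_iff]
      rintro _ ⟨f, hf, rfl⟩
      exact coeffEmb_mem_jSpan hb hk hf
    exact hle hz
  · intro hz
    obtain ⟨c, rfl⟩ := (Submodule.mem_span_range_iff_exists_fun _).mp hz
    refine sum_mem fun i _ => ?_
    rw [Algebra.smul_def]
    refine mul_mem ?_ (zTo_mem_bar L N (hb.mem i))
    have hle : L⟮jqModC L⟯ ≤ laurentBaseChange L (modularFunctionFieldFull N) := by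
      rw [IntermediateField.adjoin_le_iff]
      rintro _ rfl
      exact jqModC_mem_bar L N
    exact hle (c i).2

omit [Algebra ℚ L] in
/-- The basis is linearly independent over `L(j)`. -/
theorem linearIndependent_L (hk : IndepRes A b) :
    LinearIndependent ↥L⟮jqModC L⟯ (fun i => zTo L (b i)) :=
  linearIndependent_of_indep _ (indep_L hk)

end Generic

/-! ### Monic polynomials in `j` are units of `R((q))` -/

section Units

theorem coeff_aeval_jqModC_of_lt (R : Type*) [CommRing R] (p : R[X]) {m : ℤ}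
    (hm : m < -(p.natDegree : ℤ)) : (aeval (jqModC R) p).coeff m = 0 := by
  rw [Polynomial.aeval_eq_sum_range, HahnSeries.coeff_sum]
  simp only [Algebra.smul_def]
  refine Finset.sum_eq_zero fun i hi => ?_
  have hle : i ≤ p.natDegree := Nat.lt_succ_iff.mp (Finset.mem_range.mp hi)
  have hlt : m < -(i : ℤ) := lt_of_lt_of_le hm (neg_le_neg (Int.ofNat_le.mpr hle))
  rw [helper3292.coeff_algebraMap_mul, coeff_jqModC_pow_of_lt R hlt, mul_zero]

theorem isUnit_aeval_jqModC_of_monic {R : Type*} [CommRing R] [IsDomain R] (Q : R[X])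
    (hQ : Q.Monic) : IsUnit (aeval (jqModC R) Q) := by
  rw [HahnSeries.isUnit_iff, HahnSeries.leadingCoeff_eq]
  have hc : (aeval (jqModC R) Q).coeff (-(Q.natDegree : ℤ)) = 1 := by
    rw [helper3292.coeff_aeval_jqModC_neg_natDegree, hQ.leadingCoeff]
  have hne : aeval (jqModC R) Q ≠ 0 := by
    intro h
    rw [h, HahnSeries.coeff_zero] at hc
    exact zero_ne_one hc
  have hord : (aeval (jqModC R) Q).order = -(Q.natDegree : ℤ) := by
    refine le_antisymm (HahnSeries.order_le_of_coeff_ne_zero (by rw [hc]; exact one_ne_zero)) ?_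
    by_contra hlt
    rw [not_le] at hlt
    exact hne (HahnSeries.coeff_order_eq_zero.mp (coeff_aeval_jqModC_of_lt R Q hlt))
  rw [hord, hc]
  exact isUnit_one

end Units

/-! ### The modular function field: special fibre -/

section Special

variable {N : ℕ} {L : Type*} [Field L] [Algebra ℚ L] {A : ValuationSubring L}
  {n : ℕ} {b : Fin n → LaurentSeries ℤ}

/-- **(RED), span form**: an `A`-integral `q`-series lying in `F̄_N` reduces into the
`k(j̄)`-span of the reduced basis. -/
theorem cπ_mem_jSpan (hb : IsBasisZ N b) (hk : IndepRes A b) (y : LaurentSeries A)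
    (hy : cA A y ∈ laurentBaseChange L (modularFunctionFieldFull N)) :
    cπ A y ∈ jSpan (IsLocalRing.ResidueField A)
      (fun i => zTo (IsLocalRing.ResidueField A) (b i)) := by
  obtain ⟨Q, P, hQ, hrel⟩ := exists_rel_of_mem_jSpan _ ((mem_bar_iff hb hk _).mp hy)
  obtain ⟨Q', P', hQ', hrel'⟩ := exists_normal_form hk y Q P hQ hrel
  exact mem_jSpan_of_rel _ _ _ hQ' (rel_reduce hrel')

theorem one_mem_jSpan_k (hb : IsBasisZ N b) (hk : IndepRes A b) :
    (1 : LaurentSeries (IsLocalRing.ResidueField A)) ∈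
      jSpan (IsLocalRing.ResidueField A) (fun i => zTo (IsLocalRing.ResidueField A) (b i)) := by
  have := cπ_mem_jSpan hb hk (1 : LaurentSeries A) (by rw [map_one]; exact one_mem _)
  rwa [map_one] at this

theorem mul_mem_jSpan_k (hb : IsBasisZ N b) (hk : IndepRes A b) (i j : Fin n) :
    zTo (IsLocalRing.ResidueField A) (b i) * zTo (IsLocalRing.ResidueField A) (b j) ∈
      jSpan (IsLocalRing.ResidueField A) (fun i => zTo (IsLocalRing.ResidueField A) (b i)) := by
  have := cπ_mem_jSpan hb hk (zTo A (b i) * zTo A (b j)) (by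
    rw [map_mul, coeffMap_zTo, coeffMap_zTo]
    exact mul_mem (zTo_mem_bar L N (hb.mem i)) (zTo_mem_bar L N (hb.mem j)))
  rwa [map_mul, coeffMap_zTo, coeffMap_zTo] at this

/-- **Special fibre**: `modularFunctionFieldFullC k N` is exactly the `k(j̄)`-span of the reduced
basis (`k` the residue field of `A`). -/
theorem mem_fullC_iff (hb : IsBasisZ N b) (hk : IndepRes A b)
    (z : LaurentSeries (IsLocalRing.ResidueField A)) :
    z ∈ modularFunctionFieldFullC (IsLocalRing.ResidueField A) N ↔
      z ∈ jSpan (IsLocalRing.ResidueField A)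
        (fun i => zTo (IsLocalRing.ResidueField A) (b i)) := by
  constructor
  · intro hz
    have hle : modularFunctionFieldFullC (IsLocalRing.ResidueField A) N ≤
        jSpanField _ (one_mem_jSpan_k hb hk) (mul_mem_jSpan_k hb hk) := by
      rw [modularFunctionFieldFullC, IntermediateField.adjoin_le_iff]
      rintro _ ⟨d, hd, hdN, rfl⟩
      have hx : qExpand ℤ d (jqModC ℤ) ∈ Submonoid.closure (helper1595.genZ N) :=
        Submonoid.subset_closure ⟨d, hd, hdN, rfl⟩
      have h1 := cπ_mem_jSpan hb hk (zTo A (qExpand ℤ d (jqModC ℤ))) (by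
        rw [coeffMap_zTo]; exact zTo_mem_bar L N hx)
      rw [coeffMap_zTo] at h1
      have e : zTo (IsLocalRing.ResidueField A) (qExpand ℤ d (jqModC ℤ)) =
          qExpand (IsLocalRing.ResidueField A) d (jqModC (IsLocalRing.ResidueField A)) := by
        show coeffMap _ _ = _
        rw [coeffMap_qExpand, coeffMap_jqModC]
      rw [e] at h1
      exact h1
    exact hle hz
  · intro hz
    obtain ⟨c, rfl⟩ := (Submodule.mem_span_range_iff_exists_fun _).mp hz
    refine sum_mem fun i _ => ?_
    rw [Algebra.smul_def]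
    exact mul_mem (helper1595.adjoin_jqModC_le (IsLocalRing.ResidueField A) N (c i).2)
      (zTo_mem_fullC (IsLocalRing.ResidueField A) N (hb.mem i))

/-- **(RED)**: an `A`-integral `q`-series lying in `F̄_N` reduces into
`modularFunctionFieldFullC k N`. -/
theorem cπ_mem_fullC (hb : IsBasisZ N b) (hk : IndepRes A b) (y : LaurentSeries A)
    (hy : cA A y ∈ laurentBaseChange L (modularFunctionFieldFull N)) :
    cπ A y ∈ modularFunctionFieldFullC (IsLocalRing.ResidueField A) N :=
  (mem_fullC_iff hb hk _).mpr (cπ_mem_jSpan hb hk y hy)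

omit [Algebra ℚ L] in
/-- The reduced basis is linearly independent over `k(j̄)`. -/
theorem linearIndependent_k (hk : IndepRes A b) :
    LinearIndependent ↥(IsLocalRing.ResidueField A)⟮jqModC (IsLocalRing.ResidueField A)⟯
      (fun i => zTo (IsLocalRing.ResidueField A) (b i)) :=
  linearIndependent_of_indep _ hk

end Special

/-! ### Lifting from the special fibre -/

section Lift

variable {N : ℕ} {L : Type*} [Field L] [Algebra ℚ L] {A : ValuationSubring L}
  {n : ℕ} {b : Fin n → LaurentSeries ℤ}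

theorem aeval_mem_of_mem {K E : Type*} [Field K] [Field E] [Algebra K E]
    (F : IntermediateField K E) {x : E} (hx : x ∈ F) (p : K[X]) : aeval x p ∈ F := by
  rw [Polynomial.aeval_eq_sum_range]
  exact sum_mem fun i _ => F.smul_mem (pow_mem hx i)

/-- **(LIFT)**: every element of `modularFunctionFieldFullC k N` is the coefficientwise reduction
of an `A`-integral `q`-series lying in `F̄_N`. -/
theorem exists_lift (hb : IsBasisZ N b) (hk : IndepRes A b)
    (z : LaurentSeries (IsLocalRing.ResidueField A))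
    (hz : z ∈ modularFunctionFieldFullC (IsLocalRing.ResidueField A) N) :
    ∃ y : LaurentSeries A, cA A y ∈ laurentBaseChange L (modularFunctionFieldFull N) ∧
      cπ A y = z := by
  obtain ⟨q, p, hq, hrel⟩ := exists_rel_of_mem_jSpan _ ((mem_fullC_iff hb hk z).mp hz)
  -- normalise the denominator to be monic
  set q₁ : (IsLocalRing.ResidueField A)[X] := q * C q.leadingCoeff⁻¹ with hq₁
  have hq₁monic : q₁.Monic := Polynomial.monic_mul_leadingCoeff_inv hq
  have hrel₁ : aeval (jqModC (IsLocalRing.ResidueField A)) q₁ * z =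
      ∑ i, aeval (jqModC (IsLocalRing.ResidueField A)) (p i * C q.leadingCoeff⁻¹) *
        zTo (IsLocalRing.ResidueField A) (b i) := by
    rw [hq₁, map_mul, mul_right_comm, hrel, Finset.sum_mul]
    refine Finset.sum_congr rfl fun i _ => ?_
    rw [map_mul]
    ring
  obtain ⟨Q, hQmap, -, hQmonic⟩ := Polynomial.lifts_and_natDegree_eq_and_monic
    (f := IsLocalRing.residue A) (p := q₁)
    ((Polynomial.mem_lifts _).mpr
      (Polynomial.map_surjective _ IsLocalRing.residue_surjective q₁)) hq₁monic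
  have hP : ∀ i, ∃ P : A[X], P.map (IsLocalRing.residue A) = p i * C q.leadingCoeff⁻¹ :=
    fun i => Polynomial.map_surjective _ IsLocalRing.residue_surjective _
  choose P hPmap using hP
  obtain ⟨v, hv⟩ := (isUnit_aeval_jqModC_of_monic Q hQmonic).exists_right_inv
  set w : LaurentSeries A := ∑ i, aeval (jqModC A) (P i) * zTo A (b i) with hw
  have hjL := jqModC_mem_bar L N
  have hwL : cA A w ∈ laurentBaseChange L (modularFunctionFieldFull N) := by
    rw [hw, map_sum]
    refine sum_mem fun i _ => ?_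
    rw [map_mul, cA_aeval, coeffMap_zTo]
    exact mul_mem (aeval_mem_of_mem _ hjL _) (zTo_mem_bar L N (hb.mem i))
  have hvL : cA A v ∈ laurentBaseChange L (modularFunctionFieldFull N) := by
    have h1 : cA A (aeval (jqModC A) Q) * cA A v = 1 := by rw [← map_mul, hv, map_one]
    rw [eq_inv_of_mul_eq_one_right h1]
    refine inv_mem ?_
    rw [cA_aeval]
    exact aeval_mem_of_mem _ hjL _
  refine ⟨v * w, by rw [map_mul]; exact mul_mem hvL hwL, ?_⟩
  have hu0 : aeval (jqModC (IsLocalRing.ResidueField A)) q₁ ≠ 0 :=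
    aeval_jqModC_ne_zero hq₁monic.ne_zero
  apply mul_left_cancel₀ hu0
  have h2 : aeval (jqModC (IsLocalRing.ResidueField A)) q₁ * cπ A (v * w) = cπ A w := by
    rw [← hQmap, ← cπ_aeval, ← map_mul, ← mul_assoc, hv, one_mul]
  rw [h2, hrel₁, hw, map_sum]
  refine Finset.sum_congr rfl fun i _ => ?_
  rw [map_mul, cπ_aeval, coeffMap_zTo, hPmap]

end Lift

/-! ### The Gauss valuation ring -/

section GaussIntegral

variable {L : Type*} [Field L]

/-- `f ∈ L((q))` is *Gauss-integral*: some polynomial `Q(j)`, `Q ∈ A[X]` with nonzero reduction,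
multiplies `f` into `A((q))`. -/
def IsGaussIntegral (A : ValuationSubring L) (f : LaurentSeries L) : Prop :=
  ∃ (Q : A[X]) (y : LaurentSeries A), Q.map (IsLocalRing.residue A) ≠ 0 ∧
    aeval (jqModC L) (Q.map A.subtype) * f = cA A y

variable {A : ValuationSubring L}

theorem isGaussIntegral_cA (y : LaurentSeries A) : IsGaussIntegral A (cA A y) :=
  ⟨1, y, by rw [Polynomial.map_one]; exact one_ne_zero, by
    rw [Polynomial.map_one, map_one, one_mul]⟩

theorem isGaussIntegral_zero : IsGaussIntegral A (0 : LaurentSeries L) := by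
  simpa using isGaussIntegral_cA (A := A) 0

theorem isGaussIntegral_one : IsGaussIntegral A (1 : LaurentSeries L) := by
  simpa using isGaussIntegral_cA (A := A) 1

theorem IsGaussIntegral.add {f g : LaurentSeries L} (hf : IsGaussIntegral A f)
    (hg : IsGaussIntegral A g) : IsGaussIntegral A (f + g) := by
  obtain ⟨Q₁, y₁, hQ₁, h₁⟩ := hf
  obtain ⟨Q₂, y₂, hQ₂, h₂⟩ := hg
  refine ⟨Q₁ * Q₂, aeval (jqModC A) Q₂ * y₁ + aeval (jqModC A) Q₁ * y₂, ?_, ?_⟩
  · rw [Polynomial.map_mul]; exact mul_ne_zero hQ₁ hQ₂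
  · rw [Polynomial.map_mul, map_mul, map_add, map_mul, map_mul, cA_aeval, cA_aeval, ← h₁, ← h₂]
    ring

theorem IsGaussIntegral.mul {f g : LaurentSeries L} (hf : IsGaussIntegral A f)
    (hg : IsGaussIntegral A g) : IsGaussIntegral A (f * g) := by
  obtain ⟨Q₁, y₁, hQ₁, h₁⟩ := hf
  obtain ⟨Q₂, y₂, hQ₂, h₂⟩ := hg
  refine ⟨Q₁ * Q₂, y₁ * y₂, ?_, ?_⟩
  · rw [Polynomial.map_mul]; exact mul_ne_zero hQ₁ hQ₂
  · rw [Polynomial.map_mul, map_mul, map_mul, ← h₁, ← h₂]
    ring

theorem IsGaussIntegral.neg {f : LaurentSeries L} (hf : IsGaussIntegral A f) :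
    IsGaussIntegral A (-f) := by
  obtain ⟨Q, y, hQ, h⟩ := hf
  exact ⟨Q, -y, hQ, by rw [map_neg, ← h, mul_neg]⟩

theorem isGaussIntegral_algebraMap {c : L} (hc : c ∈ A) :
    IsGaussIntegral A (algebraMap L (LaurentSeries L) c) := by
  have := isGaussIntegral_cA (algebraMap A (LaurentSeries A) ⟨c, hc⟩)
  rwa [helper3292.coeffMap_algebraMap'] at this

theorem isGaussIntegral_aeval (Q : A[X]) :
    IsGaussIntegral A (aeval (jqModC L) (Q.map A.subtype)) := by
  have := isGaussIntegral_cA (aeval (jqModC A) Q)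
  rwa [cA_aeval] at this

end GaussIntegral

section Aux

variable {L : Type*} [Field L] {A : ValuationSubring L}

theorem aeval_map_subtype_ne_zero {Q : A[X]} (hQ : Q.map (IsLocalRing.residue A) ≠ 0) :
    aeval (jqModC L) (Q.map A.subtype) ≠ 0 := by
  apply aeval_jqModC_ne_zero
  intro h
  apply hQ
  have h0 : Q = 0 := Polynomial.map_injective _ Subtype.val_injective
    (by rw [h, Polynomial.map_zero])
  rw [h0, Polynomial.map_zero]

theorem residue_inv_eq_zero {c : L} (hc : c ∉ A) (hinv : c⁻¹ ∈ A) :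
    IsLocalRing.residue A ⟨c⁻¹, hinv⟩ = 0 := by
  have hc0 : c ≠ 0 := fun h => hc (h ▸ A.zero_mem)
  rw [IsLocalRing.residue_eq_zero_iff, IsLocalRing.mem_maximalIdeal, mem_nonunits_iff]
  intro hunit
  obtain ⟨v, hv⟩ := hunit.exists_right_inv
  have h1 : c⁻¹ * (v : L) = 1 := congrArg Subtype.val hv
  have h2 : c = (v : L) := by
    have h3 := congrArg (fun t => c * t) h1
    simp only [mul_one] at h3
    rw [← h3, ← mul_assoc, mul_inv_cancel₀ hc0, one_mul]
  exact hc (h2 ▸ v.2)

end Aux

section Valuation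

variable {N : ℕ} {L : Type*} [Field L] [Algebra ℚ L] {A : ValuationSubring L}
  {n : ℕ} {b : Fin n → LaurentSeries ℤ}

/-- **Unit form**: every nonzero `g ∈ F̄_N` is `c · u / Q(j)` with `c ∈ Lˣ`, `u` an `A`-integral
series of `F̄_N` with nonzero reduction, and `Q ∈ A[X]` with nonzero reduction. -/
theorem exists_unit_form (hb : IsBasisZ N b) (hk : IndepRes A b) {g : LaurentSeries L}
    (hg : g ∈ laurentBaseChange L (modularFunctionFieldFull N)) (hg0 : g ≠ 0) :
    ∃ (c : L) (Q : A[X]) (u : LaurentSeries A), c ≠ 0 ∧ Q.map (IsLocalRing.residue A) ≠ 0 ∧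
      cπ A u ≠ 0 ∧ cA A u ∈ laurentBaseChange L (modularFunctionFieldFull N) ∧
      aeval (jqModC L) (Q.map A.subtype) * g = algebraMap L (LaurentSeries L) c * cA A u := by
  obtain ⟨Q, P, hQ, hrel⟩ := exists_rel_of_mem_jSpan _ ((mem_bar_iff hb hk g).mp hg)
  have hP : P ≠ 0 := by
    rintro rfl
    simp only [Pi.zero_apply, map_zero, zero_mul, Finset.sum_const_zero] at hrel
    exact (mul_ne_zero (aeval_jqModC_ne_zero hQ) hg0) hrel
  obtain ⟨cQ, Q', hcQ, hQ', i, hi⟩ := exists_primitive_scaling A (fun _ : Unit => Q)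
    (fun h => hQ (congrFun h ()))
  have hQ'' := hQ' ()
  obtain ⟨cP, P', hcP, hP', i₀, hi₀⟩ := exists_primitive_scaling A P hP
  set u : LaurentSeries A := ∑ i, aeval (jqModC A) (P' i) * zTo A (b i) with hu
  have hcAu : cA A u = algebraMap L (LaurentSeries L) cP⁻¹ * (aeval (jqModC L) Q * g) := by
    rw [hrel, Finset.mul_sum, hu, map_sum]
    refine Finset.sum_congr rfl fun i _ => ?_
    rw [map_mul, cA_aeval, coeffMap_zTo, hP', map_mul, Polynomial.aeval_C, mul_assoc]
  refine ⟨cP * cQ⁻¹, Q' (), u, mul_ne_zero hcP (inv_ne_zero hcQ), hi, ?_, ?_, ?_⟩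
  · intro h0
    have h1 : ∑ i, aeval (jqModC (IsLocalRing.ResidueField A))
        ((P' i).map (IsLocalRing.residue A)) * zTo (IsLocalRing.ResidueField A) (b i) = 0 := by
      rw [← h0, hu, map_sum]
      refine Finset.sum_congr rfl fun i _ => ?_
      rw [map_mul, cπ_aeval, coeffMap_zTo]
    exact hi₀ (congrFun (hk _ h1) i₀)
  · rw [hu, map_sum]
    refine sum_mem fun i _ => ?_
    rw [map_mul, cA_aeval, coeffMap_zTo]
    exact mul_mem (aeval_mem_of_mem _ (jqModC_mem_bar L N) _) (zTo_mem_bar L N (hb.mem i))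
  · have e : algebraMap L (LaurentSeries L) (cP * cQ⁻¹) * algebraMap L (LaurentSeries L) cP⁻¹ =
        algebraMap L (LaurentSeries L) cQ⁻¹ := by
      rw [← map_mul]
      congr 1
      field_simp
    rw [hQ'', map_mul, Polynomial.aeval_C, hcAu, ← mul_assoc (algebraMap L (LaurentSeries L) _),
      e, mul_assoc]

/-- **Units**: the inverse of an `A`-integral series of `F̄_N` with nonzero reduction is
Gauss-integral. -/
theorem isGaussIntegral_inv_cA (hb : IsBasisZ N b) (hk : IndepRes A b) (u : LaurentSeries A)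
    (hu : cA A u ∈ laurentBaseChange L (modularFunctionFieldFull N)) (hu0 : cπ A u ≠ 0) :
    IsGaussIntegral A (cA A u)⁻¹ := by
  have hcu0 : cA A u ≠ 0 := by
    intro h
    apply hu0
    have : u = 0 := cA_injective A (by rw [h, map_zero])
    rw [this, map_zero]
  obtain ⟨c, Q, u', hc, hQ, hu'0, hu', hrel⟩ :=
    exists_unit_form hb hk (inv_mem hu) (inv_ne_zero hcu0)
  have hrel2 : aeval (jqModC L) (Q.map A.subtype) =
      algebraMap L (LaurentSeries L) c * cA A (u' * u) := by
    rw [map_mul, ← mul_assoc, ← hrel, mul_assoc, inv_mul_cancel₀ hcu0, mul_one]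
  have hcA : c ∈ A := by
    by_contra hcA
    have hinv : c⁻¹ ∈ A := (A.mem_or_inv_mem c).resolve_left hcA
    have hres : IsLocalRing.residue A ⟨c⁻¹, hinv⟩ = 0 := by
      rw [IsLocalRing.residue_eq_zero_iff, IsLocalRing.mem_maximalIdeal, mem_nonunits_iff]
      intro hunit
      obtain ⟨v, hv⟩ := hunit.exists_right_inv
      have h1 : c⁻¹ * (v : L) = 1 := congrArg Subtype.val hv
      have h2 : c = (v : L) := by
        have h3 := congrArg (fun t => c * t) h1
        simp only [mul_one] at h3
        rw [← h3, ← mul_assoc, mul_inv_cancel₀ hc, one_mul]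
      exact hcA (h2 ▸ v.2)
    have hA : algebraMap A (LaurentSeries A) ⟨c⁻¹, hinv⟩ * aeval (jqModC A) Q = u' * u := by
      apply cA_injective A
      rw [map_mul, cA_aeval, hrel2, helper3292.coeffMap_algebraMap', ← mul_assoc, ← map_mul]
      have : A.subtype ⟨c⁻¹, hinv⟩ * c = 1 := inv_mul_cancel₀ hc
      rw [this, map_one, one_mul]
    have hred := congrArg (cπ A) hA
    rw [map_mul, helper3292.coeffMap_algebraMap', hres, map_zero, zero_mul, map_mul] at hred
    exact mul_ne_zero hu'0 hu0 hred.symm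
  refine ⟨Q, algebraMap A (LaurentSeries A) ⟨c, hcA⟩ * u', hQ, ?_⟩
  rw [hrel, map_mul, helper3292.coeffMap_algebraMap']
  rfl

/-- Every element of `F̄_N` or its inverse is Gauss-integral. -/
theorem isGaussIntegral_or_inv (hb : IsBasisZ N b) (hk : IndepRes A b) {g : LaurentSeries L}
    (hg : g ∈ laurentBaseChange L (modularFunctionFieldFull N)) :
    IsGaussIntegral A g ∨ IsGaussIntegral A g⁻¹ := by
  rcases eq_or_ne g 0 with rfl | hg0
  · exact Or.inl isGaussIntegral_zero
  obtain ⟨c, Q, u, hc, hQ, hu0, hu, hrel⟩ := exists_unit_form hb hk hg hg0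
  have hQ0 : aeval (jqModC L) (Q.map A.subtype) ≠ 0 := by
    apply aeval_jqModC_ne_zero
    intro h
    apply hQ
    have := congrArg (Polynomial.map (IsLocalRing.residue A)) (Polynomial.map_injective _
      Subtype.val_injective (by rw [h, Polynomial.map_zero]) : Q = 0)
    rwa [Polynomial.map_zero] at this
  rcases A.mem_or_inv_mem c with hcA | hcA
  · left
    refine ⟨Q, algebraMap A (LaurentSeries A) ⟨c, hcA⟩ * u, hQ, ?_⟩
    rw [hrel, map_mul, helper3292.coeffMap_algebraMap']
    rfl
  · right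
    have hcu0 : cA A u ≠ 0 := by
      intro h
      apply hu0
      have : u = 0 := cA_injective A (by rw [h, map_zero])
      rw [this, map_zero]
    have hg' : g⁻¹ = algebraMap L (LaurentSeries L) c⁻¹ *
        (aeval (jqModC L) (Q.map A.subtype) * (cA A u)⁻¹) := by
      have hc' : algebraMap L (LaurentSeries L) c ≠ 0 := by
        rw [Ne, map_eq_zero]; exact hc
      rw [map_inv₀]
      field_simp
      rw [← hrel]
      field_simp
    rw [hg']
    exact (isGaussIntegral_algebraMap hcA).mul
      ((isGaussIntegral_aeval Q).mul (isGaussIntegral_inv_cA hb hk u hu hu0))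

end Valuation

/-! ### The residue map -/

section ResFun

variable {L : Type*} [Field L] {A : ValuationSubring L}

open Classical in
/-- The residue of a Gauss-integral series: `ȳ / Q̄(j̄)` if `Q(j)·f = y` (and `0` for series that
are not Gauss-integral). -/
def gaussResFun (A : ValuationSubring L) (f : LaurentSeries L) :
    LaurentSeries (IsLocalRing.ResidueField A) :=
  if h : IsGaussIntegral A f then
    cπ A h.choose_spec.choose /
      aeval (jqModC (IsLocalRing.ResidueField A)) (h.choose.map (IsLocalRing.residue A))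
  else 0

theorem gaussResFun_eq {f : LaurentSeries L} {Q : A[X]} {y : LaurentSeries A}
    (hQ : Q.map (IsLocalRing.residue A) ≠ 0)
    (h : aeval (jqModC L) (Q.map A.subtype) * f = cA A y) :
    gaussResFun A f = cπ A y /
      aeval (jqModC (IsLocalRing.ResidueField A)) (Q.map (IsLocalRing.residue A)) := by
  have hf : IsGaussIntegral A f := ⟨Q, y, hQ, h⟩
  rw [gaussResFun, dif_pos hf]
  obtain ⟨hQ₀, h₀⟩ := hf.choose_spec.choose_spec
  have hA : aeval (jqModC A) Q * hf.choose_spec.choose = aeval (jqModC A) hf.choose * y := by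
    apply cA_injective A
    rw [map_mul, map_mul, cA_aeval, cA_aeval, ← h₀, ← h]
    ring
  have hred := congrArg (cπ A) hA
  rw [map_mul, map_mul, cπ_aeval, cπ_aeval] at hred
  rw [div_eq_div_iff (aeval_jqModC_ne_zero hQ₀) (aeval_jqModC_ne_zero hQ)]
  linear_combination hred

theorem gaussResFun_cA (y : LaurentSeries A) : gaussResFun A (cA A y) = cπ A y := by
  have h1 : ((1 : A[X]).map (IsLocalRing.residue A)) ≠ 0 := by
    rw [Polynomial.map_one]; exact one_ne_zero
  rw [gaussResFun_eq (Q := 1) (y := y) h1 (by rw [Polynomial.map_one, map_one, one_mul]),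
    Polynomial.map_one, map_one, div_one]

theorem gaussResFun_add {f g : LaurentSeries L} (hf : IsGaussIntegral A f)
    (hg : IsGaussIntegral A g) :
    gaussResFun A (f + g) = gaussResFun A f + gaussResFun A g := by
  obtain ⟨Q₁, y₁, hQ₁, h₁⟩ := hf
  obtain ⟨Q₂, y₂, hQ₂, h₂⟩ := hg
  have h12 : (Q₁ * Q₂).map (IsLocalRing.residue A) ≠ 0 := by
    rw [Polynomial.map_mul]; exact mul_ne_zero hQ₁ hQ₂
  have h : aeval (jqModC L) ((Q₁ * Q₂).map A.subtype) * (f + g) =
      cA A (aeval (jqModC A) Q₂ * y₁ + aeval (jqModC A) Q₁ * y₂) := by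
    rw [Polynomial.map_mul, map_mul, map_add, map_mul, map_mul, cA_aeval, cA_aeval, ← h₁, ← h₂]
    ring
  rw [gaussResFun_eq h12 h, gaussResFun_eq hQ₁ h₁, gaussResFun_eq hQ₂ h₂, Polynomial.map_mul,
    map_mul, map_add, map_mul, map_mul, cπ_aeval, cπ_aeval]
  have e1 := aeval_jqModC_ne_zero hQ₁
  have e2 := aeval_jqModC_ne_zero hQ₂
  field_simp

theorem gaussResFun_mul {f g : LaurentSeries L} (hf : IsGaussIntegral A f)
    (hg : IsGaussIntegral A g) :
    gaussResFun A (f * g) = gaussResFun A f * gaussResFun A g := by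
  obtain ⟨Q₁, y₁, hQ₁, h₁⟩ := hf
  obtain ⟨Q₂, y₂, hQ₂, h₂⟩ := hg
  have h12 : (Q₁ * Q₂).map (IsLocalRing.residue A) ≠ 0 := by
    rw [Polynomial.map_mul]; exact mul_ne_zero hQ₁ hQ₂
  have h : aeval (jqModC L) ((Q₁ * Q₂).map A.subtype) * (f * g) = cA A (y₁ * y₂) := by
    rw [Polynomial.map_mul, map_mul, map_mul, ← h₁, ← h₂]
    ring
  rw [gaussResFun_eq h12 h, gaussResFun_eq hQ₁ h₁, gaussResFun_eq hQ₂ h₂, Polynomial.map_mul,
    map_mul, map_mul]
  have e1 := aeval_jqModC_ne_zero hQ₁
  have e2 := aeval_jqModC_ne_zero hQ₂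
  field_simp

end ResFun

section Subring

variable {N : ℕ} {L : Type*} [Field L] [Algebra ℚ L] {A : ValuationSubring L}
  {n : ℕ} {b : Fin n → LaurentSeries ℤ}

/-- The Gauss valuation subring of `F̄_N = L·F_N`: the Gauss-integral elements. -/
def gaussSubring (hb : IsBasisZ N b) (hk : IndepRes A b) :
    ValuationSubring ↥(laurentBaseChange L (modularFunctionFieldFull N)) where
  carrier := {f | IsGaussIntegral A (f : LaurentSeries L)}
  mul_mem' := fun hf hg => IsGaussIntegral.mul hf hg
  one_mem' := isGaussIntegral_one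
  add_mem' := fun hf hg => IsGaussIntegral.add hf hg
  zero_mem' := isGaussIntegral_zero
  neg_mem' := fun hf => IsGaussIntegral.neg hf
  mem_or_inv_mem' := fun f => isGaussIntegral_or_inv hb hk f.2

theorem mem_gaussSubring (hb : IsBasisZ N b) (hk : IndepRes A b)
    (f : ↥(laurentBaseChange L (modularFunctionFieldFull N))) :
    f ∈ gaussSubring hb hk ↔ IsGaussIntegral A (f : LaurentSeries L) := Iff.rfl

theorem gaussResFun_mem_fullC (hb : IsBasisZ N b) (hk : IndepRes A b) {f : LaurentSeries L}
    (hfF : f ∈ laurentBaseChange L (modularFunctionFieldFull N)) (hf : IsGaussIntegral A f) :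
    gaussResFun A f ∈ modularFunctionFieldFullC (IsLocalRing.ResidueField A) N := by
  obtain ⟨Q, y, hQ, h⟩ := hf
  rw [gaussResFun_eq hQ h]
  refine div_mem (cπ_mem_fullC hb hk y ?_)
    (aeval_mem_of_mem _ (jqModC_mem_full (IsLocalRing.ResidueField A) N) _)
  rw [← h]
  exact mul_mem (aeval_mem_of_mem _ (jqModC_mem_bar L N) _) hfF

/-- The residue homomorphism of the Gauss valuation ring, with values in the function field of
the special fibre. -/
def gaussRes (hb : IsBasisZ N b) (hk : IndepRes A b) :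
    ↥(gaussSubring hb hk) →+* ↥(modularFunctionFieldFullC (IsLocalRing.ResidueField A) N) where
  toFun f := ⟨gaussResFun A ((f : ↥(laurentBaseChange L (modularFunctionFieldFull N))) :
    LaurentSeries L), gaussResFun_mem_fullC hb hk
      (f : ↥(laurentBaseChange L (modularFunctionFieldFull N))).2 f.2⟩
  map_one' := Subtype.ext (by simpa using gaussResFun_cA (A := A) 1)
  map_mul' f g := Subtype.ext (gaussResFun_mul f.2 g.2)
  map_zero' := Subtype.ext (by simpa using gaussResFun_cA (A := A) 0)
  map_add' f g := Subtype.ext (gaussResFun_add f.2 g.2)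

theorem coe_gaussRes (hb : IsBasisZ N b) (hk : IndepRes A b) (f : ↥(gaussSubring hb hk)) :
    ((gaussRes hb hk f : ↥(modularFunctionFieldFullC (IsLocalRing.ResidueField A) N)) :
      LaurentSeries (IsLocalRing.ResidueField A)) =
      gaussResFun A ((f : ↥(laurentBaseChange L (modularFunctionFieldFull N))) :
        LaurentSeries L) := rfl

end Subring

/-! ### Properties of the Gauss valuation ring and its residue map -/

section Properties

variable {N : ℕ} {L : Type*} [Field L] [Algebra ℚ L] {A : ValuationSubring L}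
  {n : ℕ} {b : Fin n → LaurentSeries ℤ}

/-- `A`-integral `q`-series of `F̄_N` lie in the Gauss valuation ring … -/
theorem cA_mem_gaussSubring (hb : IsBasisZ N b) (hk : IndepRes A b) (y : LaurentSeries A)
    (hy : cA A y ∈ laurentBaseChange L (modularFunctionFieldFull N)) :
    (⟨cA A y, hy⟩ : ↥(laurentBaseChange L (modularFunctionFieldFull N))) ∈ gaussSubring hb hk :=
  isGaussIntegral_cA y

/-- … and their residue is the coefficientwise reduction. -/
theorem gaussRes_cA (hb : IsBasisZ N b) (hk : IndepRes A b) (y : LaurentSeries A)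
    (hy : cA A y ∈ laurentBaseChange L (modularFunctionFieldFull N)) :
    ((gaussRes hb hk ⟨⟨cA A y, hy⟩, cA_mem_gaussSubring hb hk y hy⟩ :
      ↥(modularFunctionFieldFullC (IsLocalRing.ResidueField A) N)) :
        LaurentSeries (IsLocalRing.ResidueField A)) = cπ A y :=
  gaussResFun_cA y

/-- The residue map is onto the function field of the special fibre. -/
theorem gaussRes_surjective (hb : IsBasisZ N b) (hk : IndepRes A b) :
    Function.Surjective (gaussRes hb hk) := by
  rintro ⟨z, hz⟩
  obtain ⟨y, hy, rfl⟩ := exists_lift hb hk z hz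
  exact ⟨⟨⟨cA A y, hy⟩, isGaussIntegral_cA y⟩, Subtype.ext (gaussResFun_cA y)⟩

/-- The kernel of the residue map is the set of non-units. -/
theorem gaussRes_eq_zero_iff (hb : IsBasisZ N b) (hk : IndepRes A b)
    (f : ↥(gaussSubring hb hk)) : gaussRes hb hk f = 0 ↔ ¬ IsUnit f := by
  constructor
  · intro h0 hu
    exact (hu.map (gaussRes hb hk)).ne_zero h0
  · intro hnu
    by_contra hne
    apply hnu
    obtain ⟨⟨f₀, hF⟩, hI⟩ := f
    obtain ⟨Q, y, hQ, h⟩ := id hI
    have hval : gaussResFun A f₀ ≠ 0 := fun h0 => hne (Subtype.ext h0)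
    rw [gaussResFun_eq hQ h] at hval
    have hy0 : cπ A y ≠ 0 := fun h0 => hval (by rw [h0, zero_div])
    have hQ0 := aeval_map_subtype_ne_zero hQ
    have hyF : cA A y ∈ laurentBaseChange L (modularFunctionFieldFull N) :=
      h ▸ mul_mem (aeval_mem_of_mem _ (jqModC_mem_bar L N) _) hF
    have hf0 : f₀ ≠ 0 := by
      rintro rfl
      rw [mul_zero] at h
      have : y = 0 := cA_injective A (by rw [← h, map_zero])
      exact hy0 (by rw [this, map_zero])
    have hinv : IsGaussIntegral A f₀⁻¹ := by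
      have : f₀⁻¹ = aeval (jqModC L) (Q.map A.subtype) * (cA A y)⁻¹ := by
        rw [← h, mul_inv, ← mul_assoc, mul_inv_cancel₀ hQ0, one_mul]
      rw [this]
      exact (isGaussIntegral_aeval Q).mul (isGaussIntegral_inv_cA hb hk y hyF hy0)
    refine IsUnit.of_mul_eq_one (⟨⟨f₀⁻¹, inv_mem hF⟩, hinv⟩ : ↥(gaussSubring hb hk)) ?_
    apply Subtype.ext
    apply Subtype.ext
    exact mul_inv_cancel₀ hf0

/-- The Gauss valuation ring restricts to `A` on the constants. -/
theorem algebraMap_mem_gaussSubring_iff (hb : IsBasisZ N b) (hk : IndepRes A b) (c : L) :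
    algebraMap L ↥(laurentBaseChange L (modularFunctionFieldFull N)) c ∈ gaussSubring hb hk ↔
      c ∈ A := by
  constructor
  · intro hmem
    by_contra hc
    obtain ⟨Q, y, hQ, h⟩ := id hmem
    have h' : aeval (jqModC L) (Q.map A.subtype) * algebraMap L (LaurentSeries L) c = cA A y := h
    have hc0 : c ≠ 0 := fun h0 => hc (h0 ▸ A.zero_mem)
    have hinv : c⁻¹ ∈ A := (A.mem_or_inv_mem c).resolve_left hc
    have hA : aeval (jqModC A) Q = algebraMap A (LaurentSeries A) ⟨c⁻¹, hinv⟩ * y := by
      apply cA_injective A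
      rw [map_mul, cA_aeval, helper3292.coeffMap_algebraMap', ← h', mul_comm, mul_assoc,
        ← map_mul]
      have : c * A.subtype ⟨c⁻¹, hinv⟩ = 1 := mul_inv_cancel₀ hc0
      rw [this, map_one, mul_one]
    have hred := congrArg (cπ A) hA
    rw [cπ_aeval, map_mul, helper3292.coeffMap_algebraMap', residue_inv_eq_zero hc hinv,
      map_zero, zero_mul] at hred
    exact aeval_jqModC_ne_zero hQ hred
  · intro hc
    exact isGaussIntegral_algebraMap hc

/-- **Same value group as `A`**: every nonzero element of `F̄_N` is a constant times a unit of the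
Gauss valuation ring. -/
theorem exists_scalar_mul_unit (hb : IsBasisZ N b) (hk : IndepRes A b)
    (f : ↥(laurentBaseChange L (modularFunctionFieldFull N))) (hf : f ≠ 0) :
    ∃ (c : L) (w : ↥(laurentBaseChange L (modularFunctionFieldFull N))), c ≠ 0 ∧
      f = algebraMap L ↥(laurentBaseChange L (modularFunctionFieldFull N)) c * w ∧
      w ∈ gaussSubring hb hk ∧ w⁻¹ ∈ gaussSubring hb hk := by
  have hf0 : (f : LaurentSeries L) ≠ 0 := fun h => hf (Subtype.ext h)
  obtain ⟨c, Q, u, hc, hQ, hu0, hu, hrel⟩ := exists_unit_form hb hk f.2 hf0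
  have hQ0 := aeval_map_subtype_ne_zero hQ
  have hQF : aeval (jqModC L) (Q.map A.subtype) ∈
      laurentBaseChange L (modularFunctionFieldFull N) :=
    aeval_mem_of_mem _ (jqModC_mem_bar L N) _
  have hcu0 : cA A u ≠ 0 := by
    intro h
    apply hu0
    have : u = 0 := cA_injective A (by rw [h, map_zero])
    rw [this, map_zero]
  refine ⟨c, ⟨cA A u * (aeval (jqModC L) (Q.map A.subtype))⁻¹, mul_mem hu (inv_mem hQF)⟩, hc,
    ?_, ?_, ?_⟩
  · apply Subtype.ext
    show (f : LaurentSeries L) = algebraMap L (LaurentSeries L) c *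
      (cA A u * (aeval (jqModC L) (Q.map A.subtype))⁻¹)
    rw [← mul_assoc, ← hrel, mul_comm (aeval (jqModC L) (Q.map A.subtype)), mul_assoc,
      mul_inv_cancel₀ hQ0, mul_one]
  · refine ⟨Q, u, hQ, ?_⟩
    show aeval (jqModC L) (Q.map A.subtype) *
      (cA A u * (aeval (jqModC L) (Q.map A.subtype))⁻¹) = cA A u
    rw [mul_comm (cA A u), ← mul_assoc, mul_inv_cancel₀ hQ0, one_mul]
  · show IsGaussIntegral A (cA A u * (aeval (jqModC L) (Q.map A.subtype))⁻¹)⁻¹
    rw [mul_inv, inv_inv, mul_comm]
    exact (isGaussIntegral_aeval Q).mul (isGaussIntegral_inv_cA hb hk u hu hu0)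

end Properties

/-! ### Final packaging: the chosen basis and the statements in Prelude vocabulary -/

section Final

theorem charP_residueField (ℓ : ℕ) [Fact ℓ.Prime] {L : Type*} [Field L] (A : ValuationSubring L)
    (hA : (ℓ : L) ∈ A.nonunits) : CharP (IsLocalRing.ResidueField A) ℓ := by
  have h0 : ((ℓ : ℕ) : IsLocalRing.ResidueField A) = 0 := by
    obtain ⟨ha, hm⟩ := A.mem_nonunits_iff_exists_mem_maximalIdeal.mp hA
    have e : ((ℓ : ℕ) : IsLocalRing.ResidueField A) =
        IsLocalRing.residue A (⟨(ℓ : L), ha⟩ : A) := by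
      rw [← map_natCast (IsLocalRing.residue A) ℓ]
      congr 1
    rw [e, IsLocalRing.residue_eq_zero_iff]
    exact hm
  obtain ⟨p, hp⟩ := CharP.exists (IsLocalRing.ResidueField A)
  have hdvd : p ∣ ℓ := (CharP.cast_eq_zero_iff (IsLocalRing.ResidueField A) p ℓ).mp h0
  have hp1 : p ≠ 1 := CharP.char_ne_one (IsLocalRing.ResidueField A) p
  have hpl : p = ℓ := ((Nat.dvd_prime (Fact.out : ℓ.Prime)).mp hdvd).resolve_left hp1
  exact hpl ▸ hp

variable (N : ℕ) [NeZero N] (ℓ : ℕ) [Fact ℓ.Prime] (hℓN : ¬ ℓ ∣ N)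

/-- **The Gauss basis at level `N`, for `ℓ ∤ N`**: `ψ(N)` integer `q`-series, monomials in the
`j(q^d)`, `d ∣ N` (the S28 route-P basis, chosen once and for all). -/
def gaussBasis : Fin (dedekindPsi N) → LaurentSeries ℤ := (exists_basisZ N ℓ hℓN).choose

theorem gaussBasis_isBasisZ : IsBasisZ N (gaussBasis N ℓ hℓN) :=
  ⟨(exists_basisZ N ℓ hℓN).choose_spec.1, (exists_basisZ N ℓ hℓN).choose_spec.2.2.1⟩

theorem gaussBasis_mem (i : Fin (dedekindPsi N)) :
    gaussBasis N ℓ hℓN i ∈ Submonoid.closure (helper1595.genZ N) :=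
  (exists_basisZ N ℓ hℓN).choose_spec.1 i

theorem gaussBasis_integral (i : Fin (dedekindPsi N)) :
    Spec.IsIntegralOverZj (gaussBasis N ℓ hℓN i) :=
  (exists_basisZ N ℓ hℓN).choose_spec.2.1 i

theorem gaussBasis_linIndepModL : Spec.LinIndepModL ℓ (gaussBasis N ℓ hℓN) :=
  (exists_basisZ N ℓ hℓN).choose_spec.2.2.2

/-- The reductions of the Gauss basis are linearly independent over `k[j̄]` for EVERY field `k`
of characteristic `ℓ`. -/
theorem gaussBasis_indep_charP (k : Type*) [Field k] [CharP k ℓ]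
    (c : Fin (dedekindPsi N) → k[X])
    (hc : ∑ i, aeval (jqModC k) (c i) * zTo k (gaussBasis N ℓ hℓN i) = 0) : c = 0 :=
  linIndep_extend _ (gaussBasis_linIndepModL N ℓ hℓN) k c hc

theorem gaussBasis_indepRes {L : Type*} [Field L] (A : ValuationSubring L)
    (hA : (ℓ : L) ∈ A.nonunits) : IndepRes A (gaussBasis N ℓ hℓN) := by
  have := charP_residueField ℓ A hA
  exact fun c hc => gaussBasis_indep_charP N ℓ hℓN _ c hc

variable {L : Type*} [Field L] [Algebra ℚ L] (A : ValuationSubring L)
  (hA : (ℓ : L) ∈ A.nonunits)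

include hℓN hA

/-- **(B), generic fibre**: every element of `F̄_N = L·F_N` is an `L(j)`-combination of the Gauss
basis (polynomial form, with a common nonzero denominator). -/
theorem gaussBasis_spans_bar (f : LaurentSeries L)
    (hf : f ∈ laurentBaseChange L (modularFunctionFieldFull N)) :
    ∃ (Q : L[X]) (P : Fin (dedekindPsi N) → L[X]), Q ≠ 0 ∧
      aeval (jqModC L) Q * f =
        ∑ i, aeval (jqModC L) (P i) * zTo L (gaussBasis N ℓ hℓN i) :=
  exists_rel_of_mem_jSpan _
    ((mem_bar_iff (gaussBasis_isBasisZ N ℓ hℓN) (gaussBasis_indepRes N ℓ hℓN A hA) f).mp hf)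

omit [Algebra ℚ L] in
/-- **(B), generic fibre**: the Gauss basis is linearly independent over `L[j]`. -/
theorem gaussBasis_indep_bar (P : Fin (dedekindPsi N) → L[X])
    (h : ∑ i, aeval (jqModC L) (P i) * zTo L (gaussBasis N ℓ hℓN i) = 0) : P = 0 :=
  indep_L (gaussBasis_indepRes N ℓ hℓN A hA) P h

/-- **(B), special fibre**: every element of `modularFunctionFieldFullC k N` is a
`k(j̄)`-combination of the reduced Gauss basis. -/
theorem gaussBasis_spans_fullC (z : LaurentSeries (IsLocalRing.ResidueField A))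
    (hz : z ∈ modularFunctionFieldFullC (IsLocalRing.ResidueField A) N) :
    ∃ (Q : (IsLocalRing.ResidueField A)[X])
      (P : Fin (dedekindPsi N) → (IsLocalRing.ResidueField A)[X]), Q ≠ 0 ∧
      aeval (jqModC (IsLocalRing.ResidueField A)) Q * z =
        ∑ i, aeval (jqModC (IsLocalRing.ResidueField A)) (P i) *
          zTo (IsLocalRing.ResidueField A) (gaussBasis N ℓ hℓN i) :=
  exists_rel_of_mem_jSpan _
    ((mem_fullC_iff (gaussBasis_isBasisZ N ℓ hℓN) (gaussBasis_indepRes N ℓ hℓN A hA) z).mp hz)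

/-- **(RED)**: if an `A`-integral `q`-series lies in `F̄_N`, its coefficientwise reduction lies in
the function field `modularFunctionFieldFullC k N` of the special fibre.  (So the side condition
`hyk` of the frozen `integralPrincipalDivisors` / `IsPlaceReductionAlong` is automatic.) -/
theorem coeffMap_residue_mem_fullC (y : LaurentSeries A)
    (hy : coeffMap A.subtype y ∈ laurentBaseChange L (modularFunctionFieldFull N)) :
    coeffMap (IsLocalRing.residue A) y ∈
      modularFunctionFieldFullC (IsLocalRing.ResidueField A) N :=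
  cπ_mem_fullC (gaussBasis_isBasisZ N ℓ hℓN) (gaussBasis_indepRes N ℓ hℓN A hA) y hy

/-- **(LIFT)**: every element of `modularFunctionFieldFullC k N` is the coefficientwise reduction
of an `A`-integral `q`-series lying in `F̄_N`. -/
theorem exists_coeffMap_residue_eq (z : LaurentSeries (IsLocalRing.ResidueField A))
    (hz : z ∈ modularFunctionFieldFullC (IsLocalRing.ResidueField A) N) :
    ∃ y : LaurentSeries A,
      coeffMap A.subtype y ∈ laurentBaseChange L (modularFunctionFieldFull N) ∧
      coeffMap (IsLocalRing.residue A) y = z :=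
  exists_lift (gaussBasis_isBasisZ N ℓ hℓN) (gaussBasis_indepRes N ℓ hℓN A hA) z hz

omit [Algebra ℚ L] in
/-- **(DEG), generic fibre**: `[F̄_N : L(j)] = ψ(N)` (as the dimension of the span of the Gauss
basis, which is `F̄_N` by `mem_bar_iff`). -/
theorem finrank_jSpan_bar :
    Module.finrank ↥L⟮jqModC L⟯ ↥(jSpan L (fun i => zTo L (gaussBasis N ℓ hℓN i))) =
      dedekindPsi N := by
  have := finrank_span_eq_card (linearIndependent_L (gaussBasis_indepRes N ℓ hℓN A hA))
  simpa using this

omit [Algebra ℚ L] in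
/-- **(DEG), special fibre**: `[F_{k,N} : k(j̄)] = ψ(N)` (as the dimension of the span of the
reduced Gauss basis, which is `modularFunctionFieldFullC k N` by `mem_fullC_iff`). -/
theorem finrank_jSpan_fullC :
    Module.finrank
      ↥(IsLocalRing.ResidueField A)⟮jqModC (IsLocalRing.ResidueField A)⟯
      ↥(jSpan (IsLocalRing.ResidueField A)
        (fun i => zTo (IsLocalRing.ResidueField A) (gaussBasis N ℓ hℓN i))) =
      dedekindPsi N := by
  have := finrank_span_eq_card (linearIndependent_k (gaussBasis_indepRes N ℓ hℓN A hA))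
  simpa using this

/-- **(VAL)** The Gauss valuation subring of `F̄_N = laurentBaseChange L (modularFunctionFieldFull N)`
at a valuation ring `A` of `L` over `ℓ ∤ N`. -/
def gaussValuationSubring :
    ValuationSubring ↥(laurentBaseChange L (modularFunctionFieldFull N)) :=
  gaussSubring (gaussBasis_isBasisZ N ℓ hℓN) (gaussBasis_indepRes N ℓ hℓN A hA)

theorem mem_gaussValuationSubring_iff
    (f : ↥(laurentBaseChange L (modularFunctionFieldFull N))) :
    f ∈ gaussValuationSubring N ℓ hℓN A hA ↔
      ∃ (Q : A[X]) (y : LaurentSeries A), Q.map (IsLocalRing.residue A) ≠ 0 ∧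
        aeval (jqModC L) (Q.map A.subtype) * (f : LaurentSeries L) = coeffMap A.subtype y :=
  Iff.rfl

/-- **(VAL)** The residue homomorphism of the Gauss valuation ring onto the function field of the
special fibre. -/
def gaussResidue : ↥(gaussValuationSubring N ℓ hℓN A hA) →+*
    ↥(modularFunctionFieldFullC (IsLocalRing.ResidueField A) N) :=
  gaussRes (gaussBasis_isBasisZ N ℓ hℓN) (gaussBasis_indepRes N ℓ hℓN A hA)

theorem gaussResidue_surjective : Function.Surjective (gaussResidue N ℓ hℓN A hA) :=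
  gaussRes_surjective _ _

theorem gaussResidue_eq_zero_iff (f : ↥(gaussValuationSubring N ℓ hℓN A hA)) :
    gaussResidue N ℓ hℓN A hA f = 0 ↔ ¬ IsUnit f :=
  gaussRes_eq_zero_iff _ _ f

theorem coeffMap_mem_gaussValuationSubring (y : LaurentSeries A)
    (hy : coeffMap A.subtype y ∈ laurentBaseChange L (modularFunctionFieldFull N)) :
    (⟨coeffMap A.subtype y, hy⟩ : ↥(laurentBaseChange L (modularFunctionFieldFull N))) ∈
      gaussValuationSubring N ℓ hℓN A hA :=
  isGaussIntegral_cA y

/-- The residue of an `A`-integral `q`-series is its coefficientwise reduction. -/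
theorem gaussResidue_coeffMap (y : LaurentSeries A)
    (hy : coeffMap A.subtype y ∈ laurentBaseChange L (modularFunctionFieldFull N)) :
    ((gaussResidue N ℓ hℓN A hA
        ⟨⟨coeffMap A.subtype y, hy⟩, coeffMap_mem_gaussValuationSubring N ℓ hℓN A hA y hy⟩ :
      ↥(modularFunctionFieldFullC (IsLocalRing.ResidueField A) N)) :
        LaurentSeries (IsLocalRing.ResidueField A)) = coeffMap (IsLocalRing.residue A) y :=
  gaussResFun_cA y

/-- General formula for the residue: `res f = ȳ / Q̄(j̄)` whenever `Q(j)·f = y`. -/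
theorem gaussResidue_eq (f : ↥(gaussValuationSubring N ℓ hℓN A hA)) (Q : A[X])
    (y : LaurentSeries A) (hQ : Q.map (IsLocalRing.residue A) ≠ 0)
    (h : aeval (jqModC L) (Q.map A.subtype) *
      ((f : ↥(laurentBaseChange L (modularFunctionFieldFull N))) : LaurentSeries L) =
        coeffMap A.subtype y) :
    ((gaussResidue N ℓ hℓN A hA f :
      ↥(modularFunctionFieldFullC (IsLocalRing.ResidueField A) N)) :
        LaurentSeries (IsLocalRing.ResidueField A)) =
      coeffMap (IsLocalRing.residue A) y /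
        aeval (jqModC (IsLocalRing.ResidueField A)) (Q.map (IsLocalRing.residue A)) :=
  gaussResFun_eq hQ h

/-- The Gauss valuation ring restricts to `A` on constants. -/
theorem algebraMap_mem_gaussValuationSubring_iff (c : L) :
    algebraMap L ↥(laurentBaseChange L (modularFunctionFieldFull N)) c ∈
      gaussValuationSubring N ℓ hℓN A hA ↔ c ∈ A :=
  algebraMap_mem_gaussSubring_iff _ _ c

/-- Same value group as `A`: every nonzero element of `F̄_N` is a constant times a unit of the
Gauss valuation ring. -/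
theorem exists_const_mul_unit (f : ↥(laurentBaseChange L (modularFunctionFieldFull N)))
    (hf : f ≠ 0) :
    ∃ (c : L) (w : ↥(laurentBaseChange L (modularFunctionFieldFull N))), c ≠ 0 ∧
      f = algebraMap L ↥(laurentBaseChange L (modularFunctionFieldFull N)) c * w ∧
      w ∈ gaussValuationSubring N ℓ hℓN A hA ∧ w⁻¹ ∈ gaussValuationSubring N ℓ hℓN A hA :=
  exists_scalar_mul_unit _ _ f hf

end Final

end Fermat.Agent.S18.helper508
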