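import Mathlib
import Fermat.Prelude.Def_FLTPrelim_Ramification

/-!
# The place `A` of `ℚ̄` over a prime `ℓ` has rank one (helper9428, S18-RANK1)

For a valuation subring `A` of a field `K` of characteristic zero, algebraic over `ℤ` (e.g.
`K = ℚ̄`, instance `isAlgebraic_int_Qbar`), in which a prime number `ℓ`
is a non-unit, the value group of `A` is archimedean relative to `v(ℓ)`:

* `exists_pow_prime_le` (R1): for `c ≠ 0` there is `n` with `v(ℓ)^n ≤ v(c)`;
* `exists_pow_le_prime` (R2): for `t` a non-unit of `A` there is `e > 0` with `v(t)^e ≤ v(ℓ)`;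
* `exists_pow_le` (R3): for `t` a non-unit and `c ≠ 0` there is `n` with `v(t)^n ≤ v(c)`;
* `exists_pow_two_pow_le`: the squaring form used by Newton iterations, `v(t)^(2^j) ≤ v(c)`;
* membership forms `exists_pow_eq_mul`, `exists_pow_two_pow_eq_mul`;
* `_Qbar` versions for `A : ValuationSubring (AlgebraicClosure ℚ)` with `A.LiesOverPrime ℓ`;
* adapters `exists_pow_two_pow_le_of_le`, `exists_pow_le_of_le` for a valuation subring `O` of
  an extension field `F` lying over `A`.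

Everything is Mathlib-only apart from the definition `ValuationSubring.LiesOverPrime`.
-/

set_option autoImplicit false

namespace Fermat.Agent.S18.helper9428

open Polynomial

section general

variable {K : Type*} [Field K] (A : ValuationSubring K)

/-- Integers lie in every valuation subring. -/
theorem intCast_mem (m : ℤ) : (m : K) ∈ A := by
  have : (m : K) = ((m : A) : K) := by simp
  rw [this]
  exact (m : A).2

theorem valuation_intCast_le_one (m : ℤ) : A.valuation (m : K) ≤ 1 :=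
  (A.valuation_le_one_iff _).2 (intCast_mem A m)

variable {A}

/-- An integer prime to `ℓ` is a unit at a valuation subring in which `ℓ` is a non-unit. -/
theorem valuation_intCast_of_not_dvd {ℓ : ℕ} (hℓ : ℓ.Prime) (hA : (ℓ : K) ∈ A.nonunits)
    (m : ℤ) (hm : ¬ (ℓ : ℤ) ∣ m) : A.valuation (m : K) = 1 := by
  refine le_antisymm (valuation_intCast_le_one A m) (not_lt.mp fun hlt => ?_)
  have hcop : IsCoprime (ℓ : ℤ) m :=
    (Nat.prime_iff_prime_int.mp hℓ).irreducible.coprime_iff_not_dvd.mpr hm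
  obtain ⟨s, t, hst⟩ := hcop
  have hq' : A.valuation (ℓ : K) < 1 := (ValuationSubring.mem_nonunits_iff A).1 hA
  have h1 : A.valuation ((s : K) * (ℓ : K) + (t : K) * (m : K)) < 1 := by
    refine lt_of_le_of_lt (A.valuation.map_add _ _) (max_lt ?_ ?_)
    · rw [map_mul]
      calc A.valuation (s : K) * A.valuation (ℓ : K) ≤ 1 * A.valuation (ℓ : K) :=
            mul_le_mul_left (valuation_intCast_le_one A s) _
        _ < 1 := by rw [one_mul]; exact hq'
    · rw [map_mul]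
      calc A.valuation (t : K) * A.valuation (m : K) ≤ 1 * A.valuation (m : K) :=
            mul_le_mul_left (valuation_intCast_le_one A t) _
        _ < 1 := by rw [one_mul]; exact hlt
  have h2 : (s : K) * (ℓ : K) + (t : K) * (m : K) = 1 := by
    have := congrArg (Int.cast : ℤ → K) hst
    push_cast at this
    exact this
  rw [h2, map_one] at h1
  exact lt_irrefl _ h1

/-- An integer divisible by `ℓ` has valuation at most that of `ℓ`. -/
theorem valuation_intCast_le_of_dvd {ℓ : ℕ} (m : ℤ) (hm : (ℓ : ℤ) ∣ m) :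
    A.valuation (m : K) ≤ A.valuation (ℓ : K) := by
  obtain ⟨k, rfl⟩ := hm
  push_cast
  rw [map_mul]
  calc A.valuation (ℓ : K) * A.valuation (k : K) ≤ A.valuation (ℓ : K) * 1 :=
        mul_le_mul_right (valuation_intCast_le_one A k) _
    _ = A.valuation (ℓ : K) := mul_one _

/-- A nonzero integer has valuation at least a power of that of `ℓ`. -/
theorem exists_pow_prime_le_intCast {ℓ : ℕ} (hℓ : ℓ.Prime) (hA : (ℓ : K) ∈ A.nonunits)
    (D : ℤ) (hD : D ≠ 0) : ∃ n : ℕ, A.valuation (ℓ : K) ^ n ≤ A.valuation (D : K) := by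
  obtain ⟨e, n', hn', he⟩ :=
    Nat.exists_eq_pow_mul_and_not_dvd (Int.natAbs_ne_zero.mpr hD) ℓ hℓ.ne_one
  refine ⟨e, le_of_eq ?_⟩
  have h1 : A.valuation (D : K) = A.valuation ((D.natAbs : ℤ) : K) := by
    rcases Int.natAbs_eq D with h | h
    · rw [← h]
    · conv_lhs => rw [h]
      rw [Int.cast_neg, Valuation.map_neg]
  have h2 : ((D.natAbs : ℤ) : K) = (ℓ : K) ^ e * ((n' : ℤ) : K) := by
    rw [he]
    push_cast
    ring
  rw [h1, h2, map_mul, map_pow,
    valuation_intCast_of_not_dvd hℓ hA (n' : ℤ) (by exact_mod_cast hn'), mul_one]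

/-- Elements integral over `ℤ` lie in every valuation subring. -/
theorem mem_of_isIntegral_int (A : ValuationSubring K) {x : K} (hx : IsIntegral ℤ x) : x ∈ A := by
  have h1 : IsIntegral A x := hx.tower_top
  obtain ⟨y, rfl⟩ := (IsIntegrallyClosed.isIntegral_iff (R := A) (K := K)).mp h1
  exact y.2

variable [Algebra.IsAlgebraic ℤ K]

/-- **(R1)** Every nonzero element has valuation at least a power of that of `ℓ`. -/
theorem exists_pow_prime_le {ℓ : ℕ} (hℓ : ℓ.Prime) (hA : (ℓ : K) ∈ A.nonunits)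
    {c : K} (hc : c ≠ 0) : ∃ n : ℕ, A.valuation (ℓ : K) ^ n ≤ A.valuation c := by
  have halg : IsAlgebraic ℤ c⁻¹ := Algebra.IsAlgebraic.isAlgebraic c⁻¹
  obtain ⟨D, hD0, hD⟩ := halg.exists_integral_multiple
  have hmem : D • c⁻¹ ∈ A := mem_of_isIntegral_int A hD
  rw [zsmul_eq_mul] at hmem
  have hle : A.valuation ((D : K) * c⁻¹) ≤ 1 := (A.valuation_le_one_iff _).2 hmem
  have hc0 : A.valuation c ≠ 0 := (Valuation.ne_zero_iff _).mpr hc
  rw [map_mul, map_inv₀, mul_inv_le_iff₀ (zero_lt_iff.mpr hc0), one_mul] at hle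
  obtain ⟨n, hn⟩ := exists_pow_prime_le_intCast hℓ hA D hD0
  exact ⟨n, hn.trans hle⟩

variable [CharZero K]

/-- **(R2)** Every non-unit of `A` has a positive power of valuation at most that of `ℓ`. -/
theorem exists_pow_le_prime {ℓ : ℕ} (hℓ : ℓ.Prime) (hA : (ℓ : K) ∈ A.nonunits)
    {t : K} (ht : t ∈ A.nonunits) : ∃ e : ℕ, 0 < e ∧ A.valuation t ^ e ≤ A.valuation (ℓ : K) := by
  have hπ1 : A.valuation (ℓ : K) < 1 := (ValuationSubring.mem_nonunits_iff A).1 hA
  have ht1 : A.valuation t < 1 := (ValuationSubring.mem_nonunits_iff A).1 ht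
  by_cases ht0 : t = 0
  · exact ⟨1, one_pos, by rw [ht0, map_zero, pow_one]; exact zero_le⟩
  have hvt0 : A.valuation t ≠ 0 := (Valuation.ne_zero_iff _).mpr ht0
  have hvtpos : 0 < A.valuation t := zero_lt_iff.mpr hvt0
  have halg : IsAlgebraic ℤ t := Algebra.IsAlgebraic.isAlgebraic t
  obtain ⟨P, hP0, hPt⟩ := halg
  have hQt : aeval t P.primPart = 0 := aeval_primPart_eq_zero hP0 hPt
  have hprim : P.primPart.IsPrimitive := P.isPrimitive_primPart
  set Q := P.primPart with hQdef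
  have hex : ∃ i, ¬ (ℓ : ℤ) ∣ Q.coeff i := by
    by_contra hall
    push Not at hall
    have hdvd : C (ℓ : ℤ) ∣ Q := (C_dvd_iff_dvd_coeff _ _).mpr hall
    have hu : IsUnit (ℓ : ℤ) := hprim _ hdvd
    exact (Nat.prime_iff_prime_int.mp hℓ).not_isUnit hu
  classical
  set j := Nat.find hex with hjdef
  have hj : ¬ (ℓ : ℤ) ∣ Q.coeff j := Nat.find_spec hex
  have hlt : ∀ i < j, (ℓ : ℤ) ∣ Q.coeff i := fun i hi => by
    by_contra h
    exact Nat.find_min hex hi h
  have hjdeg : j ≤ Q.natDegree := le_natDegree_of_ne_zero (fun h => hj (by rw [h]; exact dvd_zero _))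
  have hjmem : j ∈ Finset.range (Q.natDegree + 1) := Finset.mem_range.mpr (by omega)
  have hsum := aeval_eq_sum_range (p := Q) t
  rw [hQt, ← Finset.add_sum_erase _ _ hjmem] at hsum
  have hjeq : Q.coeff j • t ^ j
      = -∑ i ∈ (Finset.range (Q.natDegree + 1)).erase j, Q.coeff i • t ^ i :=
    eq_neg_of_add_eq_zero_left hsum.symm
  have hvj : A.valuation (Q.coeff j • t ^ j) = A.valuation t ^ j := by
    rw [zsmul_eq_mul, map_mul, valuation_intCast_of_not_dvd hℓ hA _ hj, one_mul, map_pow]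
  have hbound : A.valuation (∑ i ∈ (Finset.range (Q.natDegree + 1)).erase j, Q.coeff i • t ^ i)
      ≤ max (A.valuation (ℓ : K)) (A.valuation t ^ (j + 1)) := by
    refine Valuation.map_sum_le _ fun i hi => ?_
    have hij : i ≠ j := Finset.ne_of_mem_erase hi
    rw [zsmul_eq_mul, map_mul, map_pow]
    rcases lt_or_gt_of_ne hij with h | h
    · refine le_max_of_le_left ?_
      calc A.valuation ((Q.coeff i : ℤ) : K) * A.valuation t ^ i
          ≤ A.valuation (ℓ : K) * 1 :=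
            mul_le_mul' (valuation_intCast_le_of_dvd _ (hlt i h)) (pow_le_one₀ zero_le ht1.le)
        _ = A.valuation (ℓ : K) := mul_one _
    · refine le_max_of_le_right ?_
      calc A.valuation ((Q.coeff i : ℤ) : K) * A.valuation t ^ i
          ≤ 1 * A.valuation t ^ (j + 1) :=
            mul_le_mul' (valuation_intCast_le_one A _)
              (pow_le_pow_of_le_one zero_le ht1.le (by omega))
        _ = A.valuation t ^ (j + 1) := one_mul _
  have hkey : A.valuation t ^ j ≤ max (A.valuation (ℓ : K)) (A.valuation t ^ (j + 1)) := by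
    rw [← hvj, hjeq, Valuation.map_neg]
    exact hbound
  rcases le_max_iff.mp hkey with h | h
  · refine ⟨j, Nat.pos_of_ne_zero fun hj0 => ?_, h⟩
    rw [hj0, pow_zero] at h
    exact absurd hπ1 (not_lt.mpr h)
  · exfalso
    have hpos : 0 < A.valuation t ^ j := pow_pos hvtpos j
    have : A.valuation t ^ (j + 1) < A.valuation t ^ j := by
      rw [pow_succ]
      calc A.valuation t ^ j * A.valuation t < A.valuation t ^ j * 1 :=
            mul_lt_mul_of_pos_left ht1 hpos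
        _ = A.valuation t ^ j := mul_one _
    exact absurd h (not_le.mpr this)

/-- **(R3)** Rank one: powers of a non-unit get below any nonzero value. -/
theorem exists_pow_le {ℓ : ℕ} (hℓ : ℓ.Prime) (hA : (ℓ : K) ∈ A.nonunits)
    {t c : K} (ht : t ∈ A.nonunits) (hc : c ≠ 0) :
    ∃ n : ℕ, A.valuation t ^ n ≤ A.valuation c := by
  obtain ⟨e, -, he⟩ := exists_pow_le_prime hℓ hA ht
  obtain ⟨n, hn⟩ := exists_pow_prime_le hℓ hA hc
  refine ⟨e * n, ?_⟩
  rw [pow_mul]
  exact (pow_le_pow_left₀ zero_le he n).trans hn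

/-- Rank one, all large exponents. -/
theorem exists_forall_pow_le {ℓ : ℕ} (hℓ : ℓ.Prime) (hA : (ℓ : K) ∈ A.nonunits)
    {t c : K} (ht : t ∈ A.nonunits) (hc : c ≠ 0) :
    ∃ n : ℕ, ∀ n' ≥ n, A.valuation t ^ n' ≤ A.valuation c := by
  obtain ⟨n, hn⟩ := exists_pow_le hℓ hA ht hc
  have ht1 : A.valuation t < 1 := (ValuationSubring.mem_nonunits_iff A).1 ht
  exact ⟨n, fun n' hn' => (pow_le_pow_of_le_one zero_le ht1.le hn').trans hn⟩

/-- Rank one, squaring form (Newton iteration): `v(t)^(2^j) ≤ v(c)` for some `j`. -/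
theorem exists_pow_two_pow_le {ℓ : ℕ} (hℓ : ℓ.Prime) (hA : (ℓ : K) ∈ A.nonunits)
    {t c : K} (ht : t ∈ A.nonunits) (hc : c ≠ 0) :
    ∃ j : ℕ, A.valuation t ^ (2 ^ j) ≤ A.valuation c := by
  obtain ⟨n, hn⟩ := exists_forall_pow_le hℓ hA ht hc
  exact ⟨n, hn _ (Nat.lt_two_pow_self).le⟩

/-- Rank one, squaring form, all large `j`. -/
theorem exists_forall_pow_two_pow_le {ℓ : ℕ} (hℓ : ℓ.Prime) (hA : (ℓ : K) ∈ A.nonunits)
    {t c : K} (ht : t ∈ A.nonunits) (hc : c ≠ 0) :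
    ∃ j : ℕ, ∀ j' ≥ j, A.valuation t ^ (2 ^ j') ≤ A.valuation c := by
  obtain ⟨n, hn⟩ := exists_forall_pow_le hℓ hA ht hc
  exact ⟨n, fun j' hj' => hn _ (hj'.trans (Nat.lt_two_pow_self).le)⟩

/-- Rank one, membership form: some power of a non-unit `t` is divisible in `A` by `c ≠ 0`. -/
theorem exists_pow_eq_mul {ℓ : ℕ} (hℓ : ℓ.Prime) (hA : (ℓ : K) ∈ A.nonunits)
    {t c : K} (ht : t ∈ A.nonunits) (hc : c ≠ 0) :
    ∃ n : ℕ, ∃ b ∈ A, t ^ n = c * b := by
  obtain ⟨n, hn⟩ := exists_pow_le hℓ hA ht hc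
  refine ⟨n, c⁻¹ * t ^ n, ?_, by field_simp⟩
  have hc0 : A.valuation c ≠ 0 := (Valuation.ne_zero_iff _).mpr hc
  rw [← A.valuation_le_one_iff, map_mul, map_inv₀, map_pow, inv_mul_le_iff₀ (zero_lt_iff.mpr hc0),
    mul_one]
  exact hn

/-- Rank one, squaring membership form. -/
theorem exists_pow_two_pow_eq_mul {ℓ : ℕ} (hℓ : ℓ.Prime) (hA : (ℓ : K) ∈ A.nonunits)
    {t c : K} (ht : t ∈ A.nonunits) (hc : c ≠ 0) :
    ∃ j : ℕ, ∃ b ∈ A, t ^ (2 ^ j) = c * b := by
  obtain ⟨j, hj⟩ := exists_pow_two_pow_le hℓ hA ht hc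
  refine ⟨j, c⁻¹ * t ^ (2 ^ j), ?_, by field_simp⟩
  have hc0 : A.valuation c ≠ 0 := (Valuation.ne_zero_iff _).mpr hc
  rw [← A.valuation_le_one_iff, map_mul, map_inv₀, map_pow, inv_mul_le_iff₀ (zero_lt_iff.mpr hc0),
    mul_one]
  exact hj

/-- Adapter for a valuation subring `O` of an extension field `F` lying over `A`: if
`|ε| ≤ |t|` for a non-unit `t` of `A`, then `|ε|^(2^j) ≤ |c|` for some `j` (any `c ≠ 0` in `K`). -/
theorem exists_pow_two_pow_le_of_le {F : Type*} [Field F] [Algebra K F] (O : ValuationSubring F)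
    (hO : ∀ x : K, x ∈ A → algebraMap K F x ∈ O)
    {ℓ : ℕ} (hℓ : ℓ.Prime) (hA : (ℓ : K) ∈ A.nonunits)
    {t c : K} (ht : t ∈ A.nonunits) (hc : c ≠ 0) {ε : F}
    (hε : O.valuation ε ≤ O.valuation (algebraMap K F t)) :
    ∃ j : ℕ, O.valuation (ε ^ (2 ^ j)) ≤ O.valuation (algebraMap K F c) := by
  obtain ⟨j, b, hb, hj⟩ := exists_pow_two_pow_eq_mul hℓ hA ht hc
  refine ⟨j, ?_⟩
  have hb1 : O.valuation (algebraMap K F b) ≤ 1 := (O.valuation_le_one_iff _).2 (hO b hb)
  calc O.valuation (ε ^ (2 ^ j)) = O.valuation ε ^ (2 ^ j) := map_pow _ _ _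
    _ ≤ O.valuation (algebraMap K F t) ^ (2 ^ j) := pow_le_pow_left₀ zero_le hε _
    _ = O.valuation (algebraMap K F c) * O.valuation (algebraMap K F b) := by
        rw [← map_pow, ← map_pow, hj, map_mul, map_mul]
    _ ≤ O.valuation (algebraMap K F c) * 1 := mul_le_mul_right hb1 _
    _ = O.valuation (algebraMap K F c) := mul_one _

/-- Same adapter, plain powers. -/
theorem exists_pow_le_of_le {F : Type*} [Field F] [Algebra K F] (O : ValuationSubring F)
    (hO : ∀ x : K, x ∈ A → algebraMap K F x ∈ O)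
    {ℓ : ℕ} (hℓ : ℓ.Prime) (hA : (ℓ : K) ∈ A.nonunits)
    {t c : K} (ht : t ∈ A.nonunits) (hc : c ≠ 0) {ε : F}
    (hε : O.valuation ε ≤ O.valuation (algebraMap K F t)) :
    ∃ n : ℕ, O.valuation (ε ^ n) ≤ O.valuation (algebraMap K F c) := by
  obtain ⟨j, hj⟩ := exists_pow_two_pow_le_of_le O hO hℓ hA ht hc hε
  exact ⟨2 ^ j, hj⟩

end general

/-! ### The case of `ℚ̄` with `A.LiesOverPrime ℓ` -/

section Qbar

local notation "Qb" => AlgebraicClosure ℚ

/-- `ℚ̄` is algebraic over `ℤ`. -/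
instance isAlgebraic_int_Qbar : @Algebra.IsAlgebraic ℤ Qb _ _ (Ring.toIntAlgebra Qb) := by
  let _ : Algebra ℤ Qb := Ring.toIntAlgebra Qb
  exact ⟨fun x => (IsFractionRing.isAlgebraic_iff ℤ ℚ Qb).mpr
    ((AlgebraicClosure.isAlgebraic ℚ).isAlgebraic x)⟩

variable {ℓ : ℕ} [Fact ℓ.Prime] {A : ValuationSubring Qb}

theorem exists_pow_prime_le_Qbar (hA : A.LiesOverPrime ℓ) {c : Qb} (hc : c ≠ 0) :
    ∃ n : ℕ, A.valuation (ℓ : Qb) ^ n ≤ A.valuation c :=
  exists_pow_prime_le (Fact.out : ℓ.Prime) hA hc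

theorem exists_pow_le_prime_Qbar (hA : A.LiesOverPrime ℓ) {t : Qb} (ht : t ∈ A.nonunits) :
    ∃ e : ℕ, 0 < e ∧ A.valuation t ^ e ≤ A.valuation (ℓ : Qb) :=
  exists_pow_le_prime (Fact.out : ℓ.Prime) hA ht

theorem exists_pow_le_Qbar (hA : A.LiesOverPrime ℓ) {t c : Qb} (ht : t ∈ A.nonunits)
    (hc : c ≠ 0) : ∃ n : ℕ, A.valuation t ^ n ≤ A.valuation c :=
  exists_pow_le (Fact.out : ℓ.Prime) hA ht hc

theorem exists_pow_two_pow_le_Qbar (hA : A.LiesOverPrime ℓ) {t c : Qb} (ht : t ∈ A.nonunits)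
    (hc : c ≠ 0) : ∃ j : ℕ, A.valuation t ^ (2 ^ j) ≤ A.valuation c :=
  exists_pow_two_pow_le (Fact.out : ℓ.Prime) hA ht hc

theorem exists_forall_pow_two_pow_le_Qbar (hA : A.LiesOverPrime ℓ) {t c : Qb}
    (ht : t ∈ A.nonunits) (hc : c ≠ 0) :
    ∃ j : ℕ, ∀ j' ≥ j, A.valuation t ^ (2 ^ j') ≤ A.valuation c :=
  exists_forall_pow_two_pow_le (Fact.out : ℓ.Prime) hA ht hc

theorem exists_pow_eq_mul_Qbar (hA : A.LiesOverPrime ℓ) {t c : Qb} (ht : t ∈ A.nonunits)
    (hc : c ≠ 0) : ∃ n : ℕ, ∃ b ∈ A, t ^ n = c * b :=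
  exists_pow_eq_mul (Fact.out : ℓ.Prime) hA ht hc

theorem exists_pow_two_pow_eq_mul_Qbar (hA : A.LiesOverPrime ℓ) {t c : Qb}
    (ht : t ∈ A.nonunits) (hc : c ≠ 0) : ∃ j : ℕ, ∃ b ∈ A, t ^ (2 ^ j) = c * b :=
  exists_pow_two_pow_eq_mul (Fact.out : ℓ.Prime) hA ht hc

end Qbar

end Fermat.Agent.S18.helper9428
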