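/-
S18 — TRACK A SPEC (helper2030, track-A architect).

The closing chain of track A (route #1924: Kummer core on lattices + Riemann on the generic fibre
+ one-sided genus bound on the special fibre), wired against LANDED names:

* Gauss valuation ring and residue map of `F̄_N`         : `helper508_GaussMod` (landed);
* rank one of the place `A` of `ℚ̄` over `ℓ`              : `helper9428_RankOne` (landed);
* function-field Kummer core, chart-only special fibre   : `helper2030.kummer_ff_chart` (landed);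
* end adapter `L(D0) ≠ 0 ⟹ Stmt_KF0`                     : `helper4226_KummerKF` (landed).

What is LEFT for track A is exactly the two Props below, for a base line `x` of the level:

* `Stmt_Cart N ℓ hℓN A hA`   — (CART) every Riemann–Roch space of `F̄_N` has an orthonormal basis
  for the Gauss valuation;
* `LineData N ℓ hℓN A hA x`  — `x` is a transcendental unit of the Gauss ring with
  (IT) integrality transfer on the charts `x`, `x⁻¹`, and (GENUS) ONE integer `γ` with Riemann's
  inequality on `F̄_N` and the reverse inequality for the chart spaces of the special fibre.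

`kf0_of_lineData` : these give `helper3054.Stmt_KF0 N ℓ`;
`stmt_KFr_of_lineData` : the captain's `helper2118.Stmt_KFr r` (Hauptmodul line `x = t_r`);
`stmt_KFj_of_lineData` : the captain's `helper2118.Stmt_KFj` (`j`-line, `ℓ ≥ 5`).
-/
import Fermat.Agent.S18.helper2030_KummerChart
import Fermat.Agent.S18.helper4226_KummerKF
import Fermat.Agent.S18.helper508_GaussMod
import Fermat.Agent.S18.helper8991_GaussInst
import Fermat.Agent.S18.helper9428_RankOne
import Fermat.Agent.S18.helper2118_Spec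
import Fermat.Agent.S18.helper1733_ITAdapter
import Fermat.Agent.S18.helper1364_GenusGlue
import Fermat.Agent.S18.helper3537_InputsPlaces

set_option autoImplicit false
set_option synthInstance.maxHeartbeats 400000

noncomputable section

namespace Fermat.Agent.S18.helper2030

open ModularCurve AlgebraicCurve HahnSeries IntermediateField
open Fermat.Agent.S18.helper3054 Fermat.Agent.S18.helper6292 Fermat.Agent.S18.helper8566

section Generic

variable {K F : Type*} [Field K] [Field F] [Algebra K F]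

/-- Pole and zero divisors of a nonzero function exist. -/
theorem exists_pole_zero_divisor [HasPrincipalDivisors K F] {x : F} (hx0 : x ≠ 0) :
    ∃ Xinf X0 : Divisor K F, IsPoleDivisor x Xinf ∧ IsZeroDivisor x X0 := by
  obtain ⟨E, hE, -⟩ := HasPrincipalDivisors.exists_divisor (K := K) x hx0
  refine ⟨E.mapRange (fun n : ℤ => max 0 (-n)) (by simp),
    E.mapRange (fun n : ℤ => max 0 n) (by simp), fun v => ?_, fun v => ?_⟩
  · rw [Finsupp.mapRange_apply, hE v]
  · rw [Finsupp.mapRange_apply, hE v]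

/-- An element of a valuation subring whose inverse is also in it has valuation one. -/
theorem valuation_eq_one_of_mem_of_inv_mem (O : ValuationSubring F) {w : F} (hw0 : w ≠ 0)
    (hw : w ∈ O) (hwi : w⁻¹ ∈ O) : O.valuation w = 1 := by
  have h1 := (O.valuation_le_one_iff w).mpr hw
  have h2 := (O.valuation_le_one_iff w⁻¹).mpr hwi
  rw [map_inv₀] at h2
  have h0 : O.valuation w ≠ 0 := (map_ne_zero _).mpr hw0
  exact le_antisymm h1 ((inv_le_one₀ (zero_lt_iff.mpr h0)).mp h2)

end Generic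

section Modular

variable (N : ℕ) [NeZero N] (ℓ : ℕ) [Fact ℓ.Prime] (hℓN : ¬ ℓ ∣ N)
  (A : ValuationSubring (AlgebraicClosure ℚ)) (hA : A.LiesOverPrime ℓ)

/-- The Gauss valuation ring of `F̄_N` at the place `A` of `ℚ̄` over `ℓ ∤ N` (landed GAUSSMOD). -/
abbrev gaussO : ValuationSubring (modularFunctionFieldBar N) :=
  helper508.gaussValuationSubring N ℓ hℓN A hA

/-- The residue map of the Gauss valuation ring onto the function field of the special fibre. -/
abbrev gaussRed : gaussO N ℓ hℓN A hA →+*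
    modularFunctionFieldFullC (IsLocalRing.ResidueField A) N :=
  helper508.gaussResidue N ℓ hℓN A hA

theorem gaussO_algebraMap_mem_iff (c : AlgebraicClosure ℚ) :
    algebraMap (AlgebraicClosure ℚ) (modularFunctionFieldBar N) c ∈ gaussO N ℓ hℓN A hA ↔ c ∈ A :=
  helper508.algebraMap_mem_gaussValuationSubring_iff N ℓ hℓN A hA c

/-- Same value group as `A`. -/
theorem gaussO_hVG (f : modularFunctionFieldBar N) (hf : f ≠ 0) :
    ∃ c : AlgebraicClosure ℚ,
      (gaussO N ℓ hℓN A hA).valuation (algebraMap (AlgebraicClosure ℚ) (modularFunctionFieldBar N) c) =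
        (gaussO N ℓ hℓN A hA).valuation f := by
  obtain ⟨c, w, -, hfw, hw, hwi⟩ := helper508.exists_const_mul_unit N ℓ hℓN A hA f hf
  have hw0 : w ≠ 0 := by
    rintro rfl
    rw [mul_zero] at hfw
    exact hf hfw
  refine ⟨c, ?_⟩
  rw [hfw, map_mul, valuation_eq_one_of_mem_of_inv_mem _ hw0 hw hwi, mul_one]

/-- Rank one. -/
theorem gaussO_harch :
    ∀ ε κ : (gaussO N ℓ hℓN A hA).ValueGroup, ε < 1 → κ ≠ 0 → ∃ n : ℕ, ε ^ n < κ := by
  refine harch_of_constants _ (gaussO_hVG N ℓ hℓN A hA) (fun t c ht hc => ?_)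
  have hO : ∀ x : AlgebraicClosure ℚ, x ∈ A →
      algebraMap (AlgebraicClosure ℚ) (modularFunctionFieldBar N) x ∈ gaussO N ℓ hℓN A hA :=
    fun x hx => (gaussO_algebraMap_mem_iff N ℓ hℓN A hA x).mpr hx
  have htA : t ∈ A.nonunits := by
    rw [ValuationSubring.mem_nonunits_iff]
    by_cases ht0 : t = 0
    · rw [ht0, map_zero]; exact zero_lt_one
    by_contra hcon
    have h1 : A.valuation t⁻¹ ≤ 1 := by
      rw [map_inv₀]
      exact inv_le_one_of_one_le₀ (not_lt.mp hcon)
    have h3 := hO _ ((A.valuation_le_one_iff _).mp h1)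
    have h4 := ((gaussO N ℓ hℓN A hA).valuation_le_one_iff _).mpr h3
    rw [map_inv₀, map_inv₀] at h4
    have h0 : (gaussO N ℓ hℓN A hA).valuation
        (algebraMap (AlgebraicClosure ℚ) (modularFunctionFieldBar N) t) ≠ 0 :=
      (map_ne_zero _).mpr ((map_ne_zero _).mpr ht0)
    exact absurd ((inv_le_one₀ (zero_lt_iff.mpr h0)).mp h4) (not_le.mpr ht)
  obtain ⟨n, hn⟩ := helper9428.exists_pow_le_of_le (gaussO N ℓ hℓN A hA) hO
    (Fact.out : ℓ.Prime) hA htA hc (le_refl _)
  exact ⟨n, by rw [map_pow]; exact hn⟩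

/-- The kernel of the residue map is the maximal ideal. -/
theorem gaussRed_eq_zero_iff (f : gaussO N ℓ hℓN A hA) :
    gaussRed N ℓ hℓN A hA f = 0 ↔
      (gaussO N ℓ hℓN A hA).valuation (f : modularFunctionFieldBar N) < 1 := by
  refine (helper508.gaussResidue_eq_zero_iff N ℓ hℓN A hA f).trans ?_
  rw [ValuationSubring.valuation_eq_one_iff]
  have h := (gaussO N ℓ hℓN A hA).valuation_le_one f
  exact ⟨fun h1 => lt_of_le_of_ne h h1, fun h1 => ne_of_lt h1⟩

/-- The residue map on an `A`-integral series is the coefficientwise reduction. -/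
theorem gaussRed_integralFn (a : IntegralFn A N) :
    ∃ ha : a.gen ∈ gaussO N ℓ hℓN A hA, gaussRed N ℓ hℓN A hA ⟨a.gen, ha⟩ = a.red :=
  ⟨helper508.coeffMap_mem_gaussValuationSubring N ℓ hℓN A hA a.y a.mem,
    Subtype.ext (helper508.gaussResidue_coeffMap N ℓ hℓN A hA a.y a.mem)⟩

/-- The residue map is onto the constants. -/
theorem gaussRed_const_surj (c' : IsLocalRing.ResidueField A) :
    ∃ (c : AlgebraicClosure ℚ)
      (hc : algebraMap (AlgebraicClosure ℚ) (modularFunctionFieldBar N) c ∈ gaussO N ℓ hℓN A hA),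
      gaussRed N ℓ hℓN A hA ⟨algebraMap (AlgebraicClosure ℚ) (modularFunctionFieldBar N) c, hc⟩ =
        algebraMap (IsLocalRing.ResidueField A)
          (modularFunctionFieldFullC (IsLocalRing.ResidueField A) N) c' := by
  obtain ⟨a, rfl⟩ := IsLocalRing.residue_surjective (R := A) c'
  have hy : coeffMap A.subtype (HahnSeries.C a : LaurentSeries A) ∈
      laurentBaseChange (AlgebraicClosure ℚ) (modularFunctionFieldFull N) := by
    have h1 : coeffMap A.subtype (HahnSeries.C a : LaurentSeries A) =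
        algebraMap (AlgebraicClosure ℚ) (LaurentSeries (AlgebraicClosure ℚ)) (a : AlgebraicClosure ℚ) := by
      rw [← helper8991.C_eq_algebraMap]
      exact helper8991.inc_C A a
    rw [h1]
    exact IntermediateField.algebraMap_mem _ _
  have hel : (⟨coeffMap A.subtype (HahnSeries.C a : LaurentSeries A), hy⟩ :
      modularFunctionFieldBar N) =
      algebraMap (AlgebraicClosure ℚ) (modularFunctionFieldBar N) (a : AlgebraicClosure ℚ) := by
    apply Subtype.ext
    show coeffMap A.subtype (HahnSeries.C a : LaurentSeries A) =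
      algebraMap (AlgebraicClosure ℚ) (LaurentSeries (AlgebraicClosure ℚ)) (a : AlgebraicClosure ℚ)
    rw [← helper8991.C_eq_algebraMap]
    exact helper8991.inc_C A a
  have hmem := helper508.coeffMap_mem_gaussValuationSubring N ℓ hℓN A hA (HahnSeries.C a) hy
  have hres := helper508.gaussResidue_coeffMap N ℓ hℓN A hA (HahnSeries.C a) hy
  refine ⟨(a : AlgebraicClosure ℚ), (gaussO_algebraMap_mem_iff N ℓ hℓN A hA _).mpr a.2, ?_⟩
  apply Subtype.ext
  have h2 : (⟨algebraMap (AlgebraicClosure ℚ) (modularFunctionFieldBar N) (a : AlgebraicClosure ℚ),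
      (gaussO_algebraMap_mem_iff N ℓ hℓN A hA _).mpr a.2⟩ : gaussO N ℓ hℓN A hA) =
      ⟨⟨coeffMap A.subtype (HahnSeries.C a : LaurentSeries A), hy⟩, hmem⟩ :=
    Subtype.ext hel.symm
  rw [h2]
  refine hres.trans ?_
  show coeffMap (IsLocalRing.residue A) (HahnSeries.C a : LaurentSeries A) =
    algebraMap (IsLocalRing.ResidueField A) (LaurentSeries (IsLocalRing.ResidueField A))
      (IsLocalRing.residue A a)
  rw [← helper8991.C_eq_algebraMap]
  exact helper8991.red_C A (IsLocalRing.residue A) a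

/-- An integer prime to `ℓ` is a unit of the Gauss ring. -/
theorem gaussO_valuation_natCast (m : ℕ) (hm : ¬ ℓ ∣ m) :
    (gaussO N ℓ hℓN A hA).valuation (m : modularFunctionFieldBar N) = 1 := by
  have h1 : A.valuation (((m : ℤ) : AlgebraicClosure ℚ)) = 1 :=
    helper9428.valuation_intCast_of_not_dvd (Fact.out : ℓ.Prime) hA (m : ℤ)
      (by exact_mod_cast hm)
  have hm0 : ((m : ℤ) : AlgebraicClosure ℚ) ≠ 0 := by
    intro h
    rw [h, map_zero] at h1
    exact zero_ne_one h1
  have hmA : ((m : ℤ) : AlgebraicClosure ℚ) ∈ A := (A.valuation_le_one_iff _).mp h1.le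
  have hmiA : ((m : ℤ) : AlgebraicClosure ℚ)⁻¹ ∈ A := by
    rw [← A.valuation_le_one_iff, map_inv₀, h1, inv_one]
  have hcast : (m : modularFunctionFieldBar N) =
      algebraMap (AlgebraicClosure ℚ) (modularFunctionFieldBar N) ((m : ℤ) : AlgebraicClosure ℚ) := by
    simp
  rw [hcast]
  refine valuation_eq_one_of_mem_of_inv_mem _ ((map_ne_zero _).mpr hm0)
    ((gaussO_algebraMap_mem_iff N ℓ hℓN A hA _).mpr hmA) ?_
  rw [← map_inv₀]
  exact (gaussO_algebraMap_mem_iff N ℓ hℓN A hA _).mpr hmiA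

/-- **(CART)** Every Riemann–Roch space of `F̄_N` has an orthonormal basis for the Gauss
valuation. -/
def Stmt_Cart : Prop :=
  ∀ E : Divisor (AlgebraicClosure ℚ) (modularFunctionFieldBar N),
    ∃ (r : ℕ) (e : Fin r → modularFunctionFieldBar N), LinearIndependent (AlgebraicClosure ℚ) e ∧
      Submodule.span (AlgebraicClosure ℚ) (Set.range e) = riemannRochSpace E ∧
      ∀ c : Fin r → AlgebraicClosure ℚ, (∑ i, c i • e i ∈ gaussO N ℓ hℓN A hA ↔
        ∀ i, algebraMap (AlgebraicClosure ℚ) (modularFunctionFieldBar N) (c i) ∈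
          gaussO N ℓ hℓN A hA)

/-- **Track A inputs on the base line `x`** (`x = t_r` on a Hauptmodul line, or `x = j`).

* `hx`, `hxi`, `htr` : `x` is a transcendental unit of the Gauss ring;
* `hIT`, `hIT'` : **(IT)** integrality transfer on the two charts `x`, `x⁻¹`
  (`helper6292.IntegralityTransfer`; suppliers: `helper1733_ITAdapter` from an orthonormal
  `L(x)`-basis);
* `genus` : **(GENUS)** there are `d > 0` and ONE integer `γ` such that
  - the pole divisor of `x` has degree `d`,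
  - Riemann's inequality `deg D + 1 - γ ≤ l(D)` holds on `F̄_N`,
  - the chart spaces `helper8566.chartSpace k x̄ a b` of the special fibre are finite-dimensional
    of dimension `≤ (a + b) d + 1 - γ` as soon as `(a + b) d ≥ cK`. -/
structure LineData (x : modularFunctionFieldBar N) : Prop where
  hx : x ∈ gaussO N ℓ hℓN A hA
  hxi : x⁻¹ ∈ gaussO N ℓ hℓN A hA
  htr : Transcendental (AlgebraicClosure ℚ) x
  hIT : IntegralityTransfer (AlgebraicClosure ℚ) (IsLocalRing.ResidueField A)
    (gaussO N ℓ hℓN A hA) (gaussRed N ℓ hℓN A hA) x (gaussRed N ℓ hℓN A hA ⟨x, hx⟩)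
  hIT' : IntegralityTransfer (AlgebraicClosure ℚ) (IsLocalRing.ResidueField A)
    (gaussO N ℓ hℓN A hA) (gaussRed N ℓ hℓN A hA) x⁻¹ (gaussRed N ℓ hℓN A hA ⟨x, hx⟩)⁻¹
  genus : ∃ (d : ℕ) (γ : ℤ), 0 < d ∧
    (∀ Xinf : Divisor (AlgebraicClosure ℚ) (modularFunctionFieldBar N),
      IsPoleDivisor x Xinf → Divisor.degree Xinf = d) ∧
    (∀ D : Divisor (AlgebraicClosure ℚ) (modularFunctionFieldBar N),
      Divisor.degree D + 1 - γ ≤
        (Module.finrank (AlgebraicClosure ℚ) (riemannRochSpace D) : ℤ)) ∧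
    (∀ a b : ℕ, Module.Finite (IsLocalRing.ResidueField A)
      (chartSpace (IsLocalRing.ResidueField A) (gaussRed N ℓ hℓN A hA ⟨x, hx⟩) a b)) ∧
    ∃ cK : ℤ, ∀ a b : ℕ, cK ≤ ((a : ℤ) + b) * d →
      (Module.finrank (IsLocalRing.ResidueField A)
        (chartSpace (IsLocalRing.ResidueField A) (gaussRed N ℓ hℓN A hA ⟨x, hx⟩) a b) : ℤ) ≤
        ((a : ℤ) + b) * d + 1 - γ

end Modular

/-- **Track A, closing theorem at one level and one prime.** If for every place `A` of `ℚ̄` over
`ℓ ∤ N` the Gauss valuation of `F̄_N` is cartesian on Riemann–Roch spaces and there is a base line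
`x` with `LineData`, then the Kummer field form `Stmt_KF0 N ℓ` holds. -/
theorem kf0_of_lineData (N : ℕ) [NeZero N] (ℓ : ℕ) [Fact ℓ.Prime] (hℓN : ¬ ℓ ∣ N)
    (hcart : ∀ (A : ValuationSubring (AlgebraicClosure ℚ)) (hA : A.LiesOverPrime ℓ),
      Stmt_Cart N ℓ hℓN A hA)
    (hline : ∀ (A : ValuationSubring (AlgebraicClosure ℚ)) (hA : A.LiesOverPrime ℓ),
      ∃ x : modularFunctionFieldBar N, LineData N ℓ hℓN A hA x) :
    Stmt_KF0 N ℓ := by
  refine helper4226.stmt_KF0_of_forall_mem_rr_unit N ℓ ?_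
  intro A hA m hm a b D0 hdeg0 hD0 w hw hred
  obtain ⟨x, hL⟩ := hline A hA
  obtain ⟨d, γ, hdpos, hdeg, hRiemF, hfink, cK, hGapk⟩ := hL.genus
  have hx0 : x ≠ 0 := fun h => hL.htr (h ▸ isAlgebraic_zero)
  have := helper4226.hasPrincipalDivisors_FN N
  have := helper4226.finiteDimensional_jBar_FN N
  have : FiniteDimensional (AlgebraicClosure ℚ)⟮x⟯ (modularFunctionFieldBar N) :=
    helper7885.finiteDimensional_adjoin_of_transcendental (Fermat.Agent.S24.helper24.jBar N) hL.htr
  obtain ⟨Xinf, X0, hXinf, hX0⟩ :=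
    exists_pole_zero_divisor (K := AlgebraicClosure ℚ) hx0
  have hdX : Divisor.degree Xinf = (d : ℤ) := hdeg Xinf hXinf
  have hdX0 : Divisor.degree X0 = (d : ℤ) := by
    rw [degree_zero_eq_degree_pole hx0 hXinf hX0, hdX]
  -- the Kummer datum
  obtain ⟨haO, hared⟩ := gaussRed_integralFn N ℓ hℓN A hA a
  obtain ⟨hbO, hbred⟩ := gaussRed_integralFn N ℓ hℓN A hA b
  have hbunit : IsUnit (⟨b.gen, hbO⟩ : gaussO N ℓ hℓN A hA) := by
    by_contra hcon
    have := (helper508.gaussResidue_eq_zero_iff N ℓ hℓN A hA ⟨b.gen, hbO⟩).mpr hcon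
    exact b.red_ne_zero (hbred ▸ this)
  have hbiO : b.gen⁻¹ ∈ gaussO N ℓ hℓN A hA := by
    obtain ⟨v, hv⟩ := hbunit
    have h1 : b.gen * ((v⁻¹ : (gaussO N ℓ hℓN A hA)ˣ) : gaussO N ℓ hℓN A hA) = 1 := by
      have := congrArg (fun z : gaussO N ℓ hℓN A hA => (z : modularFunctionFieldBar N)) v.mul_inv
      rw [hv] at this
      exact this
    have h2 : b.gen⁻¹ = ((v⁻¹ : (gaussO N ℓ hℓN A hA)ˣ) : gaussO N ℓ hℓN A hA) :=
      (eq_inv_of_mul_eq_one_right h1).symm ▸ rfl
    rw [h2]
    exact ((v⁻¹ : (gaussO N ℓ hℓN A hA)ˣ) : gaussO N ℓ hℓN A hA).2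
  have huO : a.gen * b.gen⁻¹ ∈ gaussO N ℓ hℓN A hA :=
    (gaussO N ℓ hℓN A hA).mul_mem _ _ haO hbiO
  have hredu : gaussRed N ℓ hℓN A hA ⟨a.gen * b.gen⁻¹, huO⟩ = w ^ m := by
    have h1 : (⟨a.gen * b.gen⁻¹, huO⟩ : gaussO N ℓ hℓN A hA) =
        ⟨a.gen, haO⟩ * ⟨b.gen⁻¹, hbiO⟩ := rfl
    rw [h1, map_mul, hared, red_inv (gaussO N ℓ hℓN A hA) (gaussRed N ℓ hℓN A hA)
      b.gen_ne_zero hbO hbiO, hbred, hred, mul_assoc, mul_inv_cancel₀ b.red_ne_zero, mul_one]
  exact kummer_ff_chart (gaussO N ℓ hℓN A hA) (gaussO_hVG N ℓ hℓN A hA)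
    (gaussO_harch N ℓ hℓN A hA) (gaussRed N ℓ hℓN A hA) (gaussRed_eq_zero_iff N ℓ hℓN A hA)
    (gaussRed_const_surj N ℓ hℓN A hA) x hx0 hL.hx hL.hxi Xinf X0 hXinf hX0
    (chartIntegral_of_charZero x) (chartIntegral_inv_of_charZero x) hL.hIT hL.hIT'
    (d : ℤ) (by exact_mod_cast hdpos) hdX hdX0 D0 hdeg0 (hcart A hA) γ hRiemF hfink cK hGapk
    m (gaussO_valuation_natCast N ℓ hℓN A hA m hm) (a.gen * b.gen⁻¹) huO hD0 w hw hredu

/-- **Track A ⟹ the captain's obligation on the Hauptmodul line `t_r`** (`helper2118.Stmt_KFr r`).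
The two Props are to be supplied with `x = t_r ∈ F̄_{N'}` for every level `N'` divisible by `r` and
every prime `ℓ ∤ N'`, `ℓ ≠ r`. -/
theorem stmt_KFr_of_lineData (r : ℕ)
    (H : ∀ (N' : ℕ) [NeZero N'] (ℓ : ℕ) [Fact ℓ.Prime] (hℓN : ¬ ℓ ∣ N'), r ∣ N' → ℓ ≠ r →
      ∀ (A : ValuationSubring (AlgebraicClosure ℚ)) (hA : A.LiesOverPrime ℓ),
        Stmt_Cart N' ℓ hℓN A hA ∧ ∃ x : modularFunctionFieldBar N', LineData N' ℓ hℓN A hA x) :
    helper2118.Stmt_KFr r := by
  intro N' _ ℓ hℓ hr hℓN hℓr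
  have : Fact ℓ.Prime := ⟨hℓ⟩
  exact kf0_of_lineData N' ℓ hℓN (fun A hA => (H N' ℓ hℓN hr hℓr A hA).1)
    (fun A hA => (H N' ℓ hℓN hr hℓr A hA).2)

/-- **Track A ⟹ the captain's obligation on the `j`-line** (`helper2118.Stmt_KFj`, `ℓ ≥ 5`). -/
theorem stmt_KFj_of_lineData
    (H : ∀ (N : ℕ) [NeZero N] (ℓ : ℕ) [Fact ℓ.Prime] (hℓN : ¬ ℓ ∣ N), 5 ≤ ℓ →
      ∀ (A : ValuationSubring (AlgebraicClosure ℚ)) (hA : A.LiesOverPrime ℓ),
        Stmt_Cart N ℓ hℓN A hA ∧ ∃ x : modularFunctionFieldBar N, LineData N ℓ hℓN A hA x) :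
    helper2118.Stmt_KFj := by
  intro N _ ℓ hℓ h5 hℓN
  have : Fact ℓ.Prime := ⟨hℓ⟩
  exact kf0_of_lineData N ℓ hℓN (fun A hA => (H N ℓ hℓN h5 A hA).1)
    (fun A hA => (H N ℓ hℓN h5 A hA).2)

/-! ## Adapters: the two Props from the landed supplier shapes

* `stmt_Cart_of_isOrtho`, `stmt_Cart_of_gauss` : (CART) from orthonormal bases in
  `helper1733.IsOrtho` form (output of `helper1733.exists_isOrtho_basis`);
* `degree_poleDivisor_eq_finrank` : the pole divisor of a transcendental `x` has degree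
  `[F : K(x)]` (landed S24 fundamental identity);
* `lineData_of_ortho` : `LineData` from (RT) `helper1733.ResTranscendental`, an orthonormal
  `ℚ̄(x)`-basis of `F̄_N`, the chart Riemann count on the generic fibre with chart genus `γ`, and
  the chart upper bound on the special fibre with the same `γ`;
* `cart_and_lineData_of_ortho` : both Props at once.
-/

section Adapters

variable {K F : Type*} [Field K] [Field F] [Algebra K F]

/-- The pole divisor of a transcendental function `x` has degree `[F : K(x)]`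
(`K` algebraically closed of characteristic zero; landed S24 fundamental identity). -/
theorem degree_poleDivisor_eq_finrank [IsAlgClosed K] [CharZero K] (x : F)
    (hx : Transcendental K x) [FiniteDimensional K⟮x⟯ F] {Xinf : Divisor K F}
    (hX : IsPoleDivisor x Xinf) : Divisor.degree Xinf = (Module.finrank K⟮x⟯ F : ℤ) := by
  classical
  obtain ⟨s, hs1, hs2⟩ := Fermat.Agent.S24.helper204.exists_finset_poles x hx
  have hsupp : Xinf.support = s := by
    ext v
    rw [Finsupp.mem_support_iff, hs1 v, hX v]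
    constructor
    · intro h
      by_contra hcon
      exact h (max_eq_left (by omega))
    · intro h
      rw [max_eq_right (by omega)]
      omega
  have hsum : Divisor.degree Xinf = ∑ P ∈ Xinf.support, Xinf P * (P.deg : ℤ) := by
    simp [Divisor.degree, Finsupp.sum]
  rw [hsum, hsupp, ← hs2]
  refine Finset.sum_congr rfl fun v hv => ?_
  have hv' := (hs1 v).mp hv
  rw [Fermat.Agent.S24.helper204.place_deg_eq_one x hx v, hX v, max_eq_right (by omega)]
  simp

end Adapters

section ModularAdapters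

variable (N : ℕ) [NeZero N] (ℓ : ℕ) [Fact ℓ.Prime] (hℓN : ¬ ℓ ∣ N)
  (A : ValuationSubring (AlgebraicClosure ℚ)) (hA : A.LiesOverPrime ℓ)

/-- The residue of a constant of `A` is its residue class. -/
theorem gaussRed_algebraMap_coe (a : A)
    (ha : algebraMap (AlgebraicClosure ℚ) (modularFunctionFieldBar N) (a : AlgebraicClosure ℚ) ∈
      gaussO N ℓ hℓN A hA) :
    gaussRed N ℓ hℓN A hA
        ⟨algebraMap (AlgebraicClosure ℚ) (modularFunctionFieldBar N) (a : AlgebraicClosure ℚ), ha⟩ =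
      algebraMap (IsLocalRing.ResidueField A)
        (modularFunctionFieldFullC (IsLocalRing.ResidueField A) N) (IsLocalRing.residue A a) := by
  have hy : coeffMap A.subtype (HahnSeries.C a : LaurentSeries A) ∈
      laurentBaseChange (AlgebraicClosure ℚ) (modularFunctionFieldFull N) := by
    have h1 : coeffMap A.subtype (HahnSeries.C a : LaurentSeries A) =
        algebraMap (AlgebraicClosure ℚ) (LaurentSeries (AlgebraicClosure ℚ)) (a : AlgebraicClosure ℚ) := by
      rw [← helper8991.C_eq_algebraMap]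
      exact helper8991.inc_C A a
    rw [h1]
    exact IntermediateField.algebraMap_mem _ _
  have hel : (⟨coeffMap A.subtype (HahnSeries.C a : LaurentSeries A), hy⟩ :
      modularFunctionFieldBar N) =
      algebraMap (AlgebraicClosure ℚ) (modularFunctionFieldBar N) (a : AlgebraicClosure ℚ) := by
    apply Subtype.ext
    show coeffMap A.subtype (HahnSeries.C a : LaurentSeries A) =
      algebraMap (AlgebraicClosure ℚ) (LaurentSeries (AlgebraicClosure ℚ)) (a : AlgebraicClosure ℚ)
    rw [← helper8991.C_eq_algebraMap]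
    exact helper8991.inc_C A a
  have hmem := helper508.coeffMap_mem_gaussValuationSubring N ℓ hℓN A hA (HahnSeries.C a) hy
  have hres := helper508.gaussResidue_coeffMap N ℓ hℓN A hA (HahnSeries.C a) hy
  apply Subtype.ext
  have h2 : (⟨algebraMap (AlgebraicClosure ℚ) (modularFunctionFieldBar N) (a : AlgebraicClosure ℚ),
      ha⟩ : gaussO N ℓ hℓN A hA) =
      ⟨⟨coeffMap A.subtype (HahnSeries.C a : LaurentSeries A), hy⟩, hmem⟩ :=
    Subtype.ext hel.symm
  rw [h2]
  refine hres.trans ?_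
  show coeffMap (IsLocalRing.residue A) (HahnSeries.C a : LaurentSeries A) =
    algebraMap (IsLocalRing.ResidueField A) (LaurentSeries (IsLocalRing.ResidueField A))
      (IsLocalRing.residue A a)
  rw [← helper8991.C_eq_algebraMap]
  exact helper8991.red_C A (IsLocalRing.residue A) a

/-- (`hcompat` of `helper1733_ITAdapter`) the residue map sends constants to constants. -/
theorem gaussRed_compat (a : AlgebraicClosure ℚ)
    (ha : algebraMap (AlgebraicClosure ℚ) (modularFunctionFieldBar N) a ∈ gaussO N ℓ hℓN A hA) :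
    ∃ c : IsLocalRing.ResidueField A, gaussRed N ℓ hℓN A hA
        ⟨algebraMap (AlgebraicClosure ℚ) (modularFunctionFieldBar N) a, ha⟩ =
      algebraMap (IsLocalRing.ResidueField A)
        (modularFunctionFieldFullC (IsLocalRing.ResidueField A) N) c :=
  ⟨IsLocalRing.residue A ⟨a, (gaussO_algebraMap_mem_iff N ℓ hℓN A hA a).mp ha⟩,
    gaussRed_algebraMap_coe N ℓ hℓN A hA ⟨a, (gaussO_algebraMap_mem_iff N ℓ hℓN A hA a).mp ha⟩ ha⟩

/-- `F̄_N` has a place. -/
theorem nonempty_place_FN : Nonempty (Place (AlgebraicClosure ℚ) (modularFunctionFieldBar N)) := by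
  have := helper4226.finiteDimensional_jBar_FN N
  exact helper3537.nonempty_place (Fermat.Agent.S24.helper24.jBar N)
    (Fermat.Agent.S24.helper3176.transcendental_jBar N)

/-- **(CART) from orthonormal bases in `helper1733.IsOrtho` form.** -/
theorem stmt_Cart_of_isOrtho
    (h : ∀ V : Submodule (AlgebraicClosure ℚ) (modularFunctionFieldBar N),
      FiniteDimensional (AlgebraicClosure ℚ) V → ∃ (n : ℕ) (e : Fin n → modularFunctionFieldBar N),
        helper1733.IsOrtho (gaussO N ℓ hℓN A hA).valuation (AlgebraicClosure ℚ) e ∧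
          Submodule.span (AlgebraicClosure ℚ) (Set.range e) = V) :
    Stmt_Cart N ℓ hℓN A hA := by
  intro E
  have := helper4226.hasPrincipalDivisors_FN N
  obtain ⟨P₀⟩ := nonempty_place_FN N
  have hfin : Module.Finite (AlgebraicClosure ℚ) (riemannRochSpace E) :=
    helper981.finite_riemannRochSpace (helper4226.place_deg_eq_one_FN N) P₀ E
  obtain ⟨n, e, he, hspan⟩ := h (riemannRochSpace E) hfin
  refine ⟨n, e, he.linearIndependent, hspan, fun c => ⟨fun hc i => ?_, fun hc => ?_⟩⟩
  · exact ((gaussO N ℓ hℓN A hA).valuation_le_one_iff _).mp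
      ((he.coeff_le_univ c i).trans (((gaussO N ℓ hℓN A hA).valuation_le_one_iff _).mpr hc))
  · exact ((gaussO N ℓ hℓN A hA).valuation_le_one_iff _).mp
      (he.sum_le Finset.univ c fun i _ =>
        ((gaussO N ℓ hℓN A hA).valuation_le_one_iff _).mpr (hc i))

/-- **(CART) from the Gauss data on ANY line `x0`** (e.g. `x0 = j`): residual transcendence of
`x0` and one orthonormal `ℚ̄(x0)`-basis of `F̄_N`. -/
theorem stmt_Cart_of_gauss {ι : Type*} (x0 : modularFunctionFieldBar N)
    (b : ι → modularFunctionFieldBar N)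
    (hRT : helper1733.ResTranscendental (gaussO N ℓ hℓN A hA).valuation (AlgebraicClosure ℚ) x0)
    (hb : helper1733.IsOrtho (gaussO N ℓ hℓN A hA).valuation (AlgebraicClosure ℚ)⟮x0⟯ b)
    (hspan : Submodule.span (AlgebraicClosure ℚ)⟮x0⟯ (Set.range b) = ⊤) :
    Stmt_Cart N ℓ hℓN A hA :=
  stmt_Cart_of_isOrtho N ℓ hℓN A hA fun V hV => by
    obtain ⟨e, -, he, hs⟩ := helper1733.exists_isOrtho_basis hRT hb hspan V
    exact ⟨_, e, he, hs⟩

/-- **`LineData` from the landed supplier shapes.** Inputs on the line `x`: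
* (RT) `helper1733.ResTranscendental` for the Gauss valuation;
* one orthonormal `ℚ̄(x)`-basis `b` of `F̄_N` (finite index type);
* (CR-F) the chart Riemann count on the generic fibre with chart genus `γ` and
  `d = [F̄_N : ℚ̄(x)]`;
* (GAP-k) finite-dimensionality and the upper bound `≤ (a + b) d + 1 - γ` for the chart spaces of
  the special fibre. -/
theorem lineData_of_ortho {ι : Type*} [Fintype ι] (x : modularFunctionFieldBar N)
    (b : ι → modularFunctionFieldBar N)
    (hRT : helper1733.ResTranscendental (gaussO N ℓ hℓN A hA).valuation (AlgebraicClosure ℚ) x)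
    (hb : helper1733.IsOrtho (gaussO N ℓ hℓN A hA).valuation (AlgebraicClosure ℚ)⟮x⟯ b)
    (hspan : Submodule.span (AlgebraicClosure ℚ)⟮x⟯ (Set.range b) = ⊤)
    (hx : x ∈ gaussO N ℓ hℓN A hA) (γ : ℤ)
    (hchart : ∃ n₀ : ℕ, ∀ a b : ℕ, n₀ ≤ a → n₀ ≤ b →
      (Module.finrank (AlgebraicClosure ℚ) (chartSpace (AlgebraicClosure ℚ) x a b) : ℤ) =
        ((a : ℤ) + b) *
          (Module.finrank (AlgebraicClosure ℚ)⟮x⟯ (modularFunctionFieldBar N) : ℕ) + 1 - γ)
    (hfink : ∀ a b : ℕ, Module.Finite (IsLocalRing.ResidueField A)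
      (chartSpace (IsLocalRing.ResidueField A) (gaussRed N ℓ hℓN A hA ⟨x, hx⟩) a b))
    (hgap : ∃ cK : ℤ, ∀ a b : ℕ,
      cK ≤ ((a : ℤ) + b) *
        (Module.finrank (AlgebraicClosure ℚ)⟮x⟯ (modularFunctionFieldBar N) : ℕ) →
      (Module.finrank (IsLocalRing.ResidueField A)
        (chartSpace (IsLocalRing.ResidueField A) (gaussRed N ℓ hℓN A hA ⟨x, hx⟩) a b) : ℤ) ≤
        ((a : ℤ) + b) *
          (Module.finrank (AlgebraicClosure ℚ)⟮x⟯ (modularFunctionFieldBar N) : ℕ) + 1 - γ) :
    LineData N ℓ hℓN A hA x := by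
  have htr : Transcendental (AlgebraicClosure ℚ) x := hRT.transcendental
  obtain ⟨hx0, -, hxi⟩ := hRT.mem_and_inv_mem (gaussO N ℓ hℓN A hA)
  have := helper4226.hasPrincipalDivisors_FN N
  have := helper4226.finiteDimensional_jBar_FN N
  have : FiniteDimensional (AlgebraicClosure ℚ)⟮x⟯ (modularFunctionFieldBar N) :=
    helper7885.finiteDimensional_adjoin_of_transcendental (Fermat.Agent.S24.helper24.jBar N) htr
  obtain ⟨P₀⟩ := nonempty_place_FN N
  have hdeg := helper4226.place_deg_eq_one_FN N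
  obtain ⟨Xinf, X0, hXinf, hX0⟩ := exists_pole_zero_divisor (K := AlgebraicClosure ℚ) hx0
  have hdX := degree_poleDivisor_eq_finrank x htr hXinf
  have hRB : helper981.HasRiemannBound (AlgebraicClosure ℚ) (modularFunctionFieldBar N) :=
    helper1364.hasRiemannBound_of_poleDivisor hdeg P₀ x htr hXinf hdX
  have hdpos : 0 < Module.finrank (AlgebraicClosure ℚ)⟮x⟯ (modularFunctionFieldBar N) :=
    Module.finrank_pos
  exact
    { hx := hx
      hxi := hxi
      htr := htr
      hIT := helper1733.integralityTransfer_of_isOrtho (gaussO N ℓ hℓN A hA)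
        (gaussRed N ℓ hℓN A hA) (gaussRed_compat N ℓ hℓN A hA) hx hRT hb hspan
      hIT' := helper1733.integralityTransfer_inv_of_isOrtho (gaussO N ℓ hℓN A hA)
        (gaussRed N ℓ hℓN A hA) (gaussRed_compat N ℓ hℓN A hA) hx hRT hb hspan
      genus := ⟨_, γ, hdpos, fun Y hY => degree_poleDivisor_eq_finrank x htr hY,
        fun D => riemann_le_of_chart hdeg P₀ hRB hx0 hXinf hX0 (chartIntegral_of_charZero x)
          (chartIntegral_inv_of_charZero x) hdX hdpos hchart D,
        hfink, hgap⟩ }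

/-- **Both track-A Props at once** from the landed supplier shapes (see `lineData_of_ortho`). -/
theorem cart_and_lineData_of_ortho {ι : Type*} [Fintype ι] (x : modularFunctionFieldBar N)
    (b : ι → modularFunctionFieldBar N)
    (hRT : helper1733.ResTranscendental (gaussO N ℓ hℓN A hA).valuation (AlgebraicClosure ℚ) x)
    (hb : helper1733.IsOrtho (gaussO N ℓ hℓN A hA).valuation (AlgebraicClosure ℚ)⟮x⟯ b)
    (hspan : Submodule.span (AlgebraicClosure ℚ)⟮x⟯ (Set.range b) = ⊤)
    (hx : x ∈ gaussO N ℓ hℓN A hA) (γ : ℤ)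
    (hchart : ∃ n₀ : ℕ, ∀ a b : ℕ, n₀ ≤ a → n₀ ≤ b →
      (Module.finrank (AlgebraicClosure ℚ) (chartSpace (AlgebraicClosure ℚ) x a b) : ℤ) =
        ((a : ℤ) + b) *
          (Module.finrank (AlgebraicClosure ℚ)⟮x⟯ (modularFunctionFieldBar N) : ℕ) + 1 - γ)
    (hfink : ∀ a b : ℕ, Module.Finite (IsLocalRing.ResidueField A)
      (chartSpace (IsLocalRing.ResidueField A) (gaussRed N ℓ hℓN A hA ⟨x, hx⟩) a b))
    (hgap : ∃ cK : ℤ, ∀ a b : ℕ,
      cK ≤ ((a : ℤ) + b) *
        (Module.finrank (AlgebraicClosure ℚ)⟮x⟯ (modularFunctionFieldBar N) : ℕ) →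
      (Module.finrank (IsLocalRing.ResidueField A)
        (chartSpace (IsLocalRing.ResidueField A) (gaussRed N ℓ hℓN A hA ⟨x, hx⟩) a b) : ℤ) ≤
        ((a : ℤ) + b) *
          (Module.finrank (AlgebraicClosure ℚ)⟮x⟯ (modularFunctionFieldBar N) : ℕ) + 1 - γ) :
    Stmt_Cart N ℓ hℓN A hA ∧ LineData N ℓ hℓN A hA x :=
  ⟨stmt_Cart_of_gauss N ℓ hℓN A hA x b hRT hb hspan,
    lineData_of_ortho N ℓ hℓN A hA x b hRT hb hspan hx γ hchart hfink hgap⟩

end ModularAdapters

end Fermat.Agent.S18.helper2030
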