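/-
S18, leaf S18-DUAL (helper3927): perfect chart duality.

Abstract core: `K ⊆ E ⊆ F` fields, `F / E` finite separable, `X : E` a unit, `c0 : E →ₗ[K] K`
a "constant term" functional on `E` (think `E = K(X)`, `c0` = coefficient of `X^0` of the Laurent
expansion).  For `K`-subspaces `B1, B2 ≤ B12` of `F` (think: the integral closures of `K[x]`,
`K[1/x]`, `K[x, 1/x]`), the space
  `Ω = {y | Tr(y B1) ⊆ X K[X], Tr(y B2) ⊆ X⁻¹ K[X⁻¹]}`
is in perfect duality with `B12 / (B1 + B2)` through `(y, φ) ↦ c0 (Tr (y φ))`.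
Mathlib only.
-/
import Mathlib

set_option autoImplicit false
set_option linter.unusedSectionVars false

namespace Fermat.Agent.S18.helper3927

open Polynomial Module

section Core

variable {K E F : Type*} [Field K] [Field E] [Field F] [Algebra K E] [Algebra K F] [Algebra E F]
  [IsScalarTower K E F]

/-- The two-chart "regular differentials": `y` with `Tr(y B1) ⊆ X·K[X]`, `Tr(y B2) ⊆ X⁻¹·K[X⁻¹]`. -/
def omegaCore (X : E) (B1 B2 : Submodule K F) : Submodule K F where
  carrier := {y | (∀ φ ∈ B1, ∃ p : K[X], Algebra.trace E F (y * φ) = X * aeval X p) ∧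
    (∀ φ ∈ B2, ∃ p : K[X], Algebra.trace E F (y * φ) = X⁻¹ * aeval X⁻¹ p)}
  add_mem' := by
    rintro y y' ⟨h1, h2⟩ ⟨h1', h2'⟩
    refine ⟨fun φ hφ => ?_, fun φ hφ => ?_⟩
    · obtain ⟨p, hp⟩ := h1 φ hφ
      obtain ⟨p', hp'⟩ := h1' φ hφ
      exact ⟨p + p', by rw [add_mul, map_add, hp, hp', map_add, mul_add]⟩
    · obtain ⟨p, hp⟩ := h2 φ hφ
      obtain ⟨p', hp'⟩ := h2' φ hφ
      exact ⟨p + p', by rw [add_mul, map_add, hp, hp', map_add, mul_add]⟩
  zero_mem' := by
    refine ⟨fun φ _ => ⟨0, by simp⟩, fun φ _ => ⟨0, by simp⟩⟩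
  smul_mem' := by
    rintro c y ⟨h1, h2⟩
    refine ⟨fun φ hφ => ?_, fun φ hφ => ?_⟩
    · obtain ⟨p, hp⟩ := h1 φ hφ
      refine ⟨C c * p, ?_⟩
      rw [smul_mul_assoc, ← algebraMap_smul E c (y * φ), map_smul, hp, map_mul, aeval_C,
        smul_eq_mul]
      ring
    · obtain ⟨p, hp⟩ := h2 φ hφ
      refine ⟨C c * p, ?_⟩
      rw [smul_mul_assoc, ← algebraMap_smul E c (y * φ), map_smul, hp, map_mul, aeval_C,
        smul_eq_mul]
      ring

theorem mem_omegaCore {X : E} {B1 B2 : Submodule K F} {y : F} :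
    y ∈ omegaCore X B1 B2 ↔
      (∀ φ ∈ B1, ∃ p : K[X], Algebra.trace E F (y * φ) = X * aeval X p) ∧
      (∀ φ ∈ B2, ∃ p : K[X], Algebra.trace E F (y * φ) = X⁻¹ * aeval X⁻¹ p) := Iff.rfl

/-- The pairing `(y, φ) ↦ c0 (Tr (y φ))`. -/
noncomputable def tracePair (c0 : E →ₗ[K] K) : F →ₗ[K] F →ₗ[K] K :=
  (LinearMap.mul K F).compr₂ (c0 ∘ₗ (Algebra.trace E F).restrictScalars K)

@[simp]
theorem tracePair_apply (c0 : E →ₗ[K] K) (y φ : F) :
    tracePair c0 y φ = c0 (Algebra.trace E F (y * φ)) := rfl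

variable {X : E} {c0 : E →ₗ[K] K}

theorem c0_X_mul_aeval (hc0 : ∀ n : ℤ, c0 (X ^ n) = if n = 0 then 1 else 0) (p : K[X]) :
    c0 (X * aeval X p) = 0 := by
  rw [aeval_eq_sum_range, Finset.mul_sum, map_sum]
  refine Finset.sum_eq_zero fun i _ => ?_
  rw [mul_smul_comm, map_smul, ← pow_succ', ← zpow_natCast, hc0, if_neg (by omega), smul_zero]

theorem c0_inv_mul_aeval (hc0 : ∀ n : ℤ, c0 (X ^ n) = if n = 0 then 1 else 0) (p : K[X]) :
    c0 (X⁻¹ * aeval X⁻¹ p) = 0 := by
  rw [aeval_eq_sum_range, Finset.mul_sum, map_sum]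
  refine Finset.sum_eq_zero fun i _ => ?_
  rw [mul_smul_comm, map_smul, ← pow_succ', inv_pow, ← zpow_natCast, ← zpow_neg, hc0,
    if_neg (by omega), smul_zero]

/-- Elements of `Ω` pair to zero with `B1 + B2`. -/
theorem tracePair_eq_zero_of_mem (hc0 : ∀ n : ℤ, c0 (X ^ n) = if n = 0 then 1 else 0)
    {B1 B2 : Submodule K F} {y : F} (hy : y ∈ omegaCore X B1 B2) {φ : F} (hφ : φ ∈ B1 ⊔ B2) :
    tracePair c0 y φ = 0 := by
  obtain ⟨φ1, h1, φ2, h2, rfl⟩ := Submodule.mem_sup.mp hφ
  obtain ⟨p, hp⟩ := hy.1 φ1 h1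
  obtain ⟨p', hp'⟩ := hy.2 φ2 h2
  rw [map_add, tracePair_apply, tracePair_apply, hp, hp', c0_X_mul_aeval hc0, c0_inv_mul_aeval hc0,
    add_zero]

end Core

section CoreDuality

variable {K E F : Type*} [Field K] [Field E] [Field F] [Algebra K E] [Algebra K F] [Algebra E F]
  [IsScalarTower K E F]
variable {X : E} {c0 : E →ₗ[K] K} {B1 B2 B12 : Submodule K F}

/-- The chart hypotheses shared by all statements of the core. -/
structure ChartData (X : E) (B1 B2 B12 : Submodule K F) : Prop where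
  hX : X ≠ 0
  le1 : B1 ≤ B12
  le2 : B2 ≤ B12
  mul1 : ∀ φ ∈ B1, algebraMap E F X * φ ∈ B1
  mul2 : ∀ φ ∈ B2, (algebraMap E F X)⁻¹ * φ ∈ B2
  mul12 : ∀ φ ∈ B12, algebraMap E F X * φ ∈ B12
  inv12 : ∀ φ ∈ B12, (algebraMap E F X)⁻¹ * φ ∈ B12
  ex1 : ∀ φ ∈ B12, ∃ n : ℕ, algebraMap E F X ^ n * φ ∈ B1
  ex2 : ∀ φ ∈ B12, ∃ n : ℕ, (algebraMap E F X)⁻¹ ^ n * φ ∈ B2

namespace ChartData

variable (h : ChartData X B1 B2 B12)
include h

theorem x_ne_zero : algebraMap E F X ≠ 0 := by
  simpa using h.hX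

theorem pow_mem1 {φ : F} (hφ : φ ∈ B1) (k : ℕ) : algebraMap E F X ^ k * φ ∈ B1 := by
  induction k with
  | zero => simpa using hφ
  | succ k ih => rw [pow_succ', mul_assoc]; exact h.mul1 _ ih

theorem pow_mem2 {φ : F} (hφ : φ ∈ B2) (k : ℕ) : (algebraMap E F X)⁻¹ ^ k * φ ∈ B2 := by
  induction k with
  | zero => simpa using hφ
  | succ k ih => rw [pow_succ', mul_assoc]; exact h.mul2 _ ih

theorem zpow_mem12 {φ : F} (hφ : φ ∈ B12) (n : ℤ) : algebraMap E F X ^ n * φ ∈ B12 := by
  have hp : ∀ k : ℕ, algebraMap E F X ^ k * φ ∈ B12 := by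
    intro k
    induction k with
    | zero => simpa using hφ
    | succ k ih => rw [pow_succ', mul_assoc]; exact h.mul12 _ ih
  have hn : ∀ k : ℕ, (algebraMap E F X)⁻¹ ^ k * φ ∈ B12 := by
    intro k
    induction k with
    | zero => simpa using hφ
    | succ k ih => rw [pow_succ', mul_assoc]; exact h.inv12 _ ih
  obtain ⟨k, rfl | rfl⟩ := n.eq_nat_or_neg
  · simpa using hp k
  · simpa using hn k

theorem aeval_mem12 {φ : F} (hφ : φ ∈ B12) (p : K[X]) : aeval (algebraMap E F X) p * φ ∈ B12 := by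
  induction p using Polynomial.induction_on with
  | C a =>
    rw [aeval_C, ← Algebra.smul_def]
    exact B12.smul_mem _ hφ
  | add p q hp hq =>
    rw [map_add, add_mul]
    exact B12.add_mem hp hq
  | monomial n a ih =>
    have e : aeval (algebraMap E F X) (C a * Polynomial.X ^ (n + 1)) * φ =
        algebraMap E F X * (aeval (algebraMap E F X) (C a * Polynomial.X ^ n) * φ) := by
      rw [pow_succ, ← mul_assoc, map_mul, aeval_X]
      ring
    rw [e]
    exact h.mul12 _ ih

/-- For `φ ∈ B12` and large `n`, `x^n φ ∈ B1`. -/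
theorem zpow_mem1_of_le {φ : F} {N : ℕ} (hN : algebraMap E F X ^ N * φ ∈ B1) {n : ℤ}
    (hn : (N : ℤ) ≤ n) : algebraMap E F X ^ n * φ ∈ B1 := by
  obtain ⟨k, rfl⟩ := Int.le.dest hn
  have := h.pow_mem1 hN k
  rwa [← mul_assoc, ← pow_add, add_comm, ← zpow_natCast, Nat.cast_add] at this

/-- For `φ ∈ B12` and very negative `n`, `x^n φ ∈ B2`. -/
theorem zpow_mem2_of_le {φ : F} {N : ℕ} (hN : (algebraMap E F X)⁻¹ ^ N * φ ∈ B2) {n : ℤ}
    (hn : n ≤ -(N : ℤ)) : algebraMap E F X ^ n * φ ∈ B2 := by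
  obtain ⟨k, hk⟩ := Int.le.dest hn
  have := h.pow_mem2 hN k
  have e : n = -((k + N : ℕ) : ℤ) := by push_cast; omega
  rw [← mul_assoc, ← pow_add, inv_pow, ← zpow_natCast, ← zpow_neg] at this
  rwa [e]

end ChartData

end CoreDuality

section BigLam

variable {K E F : Type*} [Field K] [Field E] [Field F] [Algebra K E] [Algebra K F] [Algebra E F]
  [IsScalarTower K E F]
variable {X : E} {c0 : E →ₗ[K] K} {B1 B2 B12 : Submodule K F}

/-- The Laurent-polynomial valued map `φ ↦ ∑ₙ g(xⁿ φ) X⁻ⁿ` attached to a functional `g`. -/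
noncomputable def bigLam (X : E) (g : F →ₗ[K] K) (φ : F) : E :=
  ∑ᶠ n : ℤ, g (algebraMap E F X ^ n * φ) • X ^ (-n)

variable {g : F →ₗ[K] K}

theorem ChartData.support_finite (h : ChartData X B1 B2 B12) (hg1 : ∀ φ ∈ B1, g φ = 0)
    (hg2 : ∀ φ ∈ B2, g φ = 0) {φ : F} (hφ : φ ∈ B12) :
    (Function.support fun n : ℤ => g (algebraMap E F X ^ n * φ)).Finite := by
  obtain ⟨N1, hN1⟩ := h.ex1 φ hφ
  obtain ⟨N2, hN2⟩ := h.ex2 φ hφ
  refine (Set.finite_Ioo (-(N2 : ℤ)) (N1 : ℤ)).subset fun n hn => ?_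
  rw [Function.mem_support] at hn
  by_contra hcon
  rw [Set.mem_Ioo, not_and_or, not_lt, not_lt] at hcon
  rcases hcon with hc | hc
  · exact hn (hg2 _ (h.zpow_mem2_of_le hN2 hc))
  · exact hn (hg1 _ (h.zpow_mem1_of_le hN1 hc))

theorem ChartData.support_finite' (h : ChartData X B1 B2 B12) (hg1 : ∀ φ ∈ B1, g φ = 0)
    (hg2 : ∀ φ ∈ B2, g φ = 0) {φ : F} (hφ : φ ∈ B12) :
    (Function.support fun n : ℤ => g (algebraMap E F X ^ n * φ) • X ^ (-n)).Finite := by
  refine (h.support_finite hg1 hg2 hφ).subset fun n hn => ?_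
  rw [Function.mem_support] at hn ⊢
  intro h0
  exact hn (by rw [h0, zero_smul])

theorem ChartData.bigLam_add (h : ChartData X B1 B2 B12) (hg1 : ∀ φ ∈ B1, g φ = 0)
    (hg2 : ∀ φ ∈ B2, g φ = 0) {φ ψ : F} (hφ : φ ∈ B12) (hψ : ψ ∈ B12) :
    bigLam X g (φ + ψ) = bigLam X g φ + bigLam X g ψ := by
  unfold bigLam
  rw [← finsum_add_distrib (h.support_finite' hg1 hg2 hφ) (h.support_finite' hg1 hg2 hψ)]
  refine finsum_congr fun n => ?_
  rw [mul_add, map_add, add_smul]

theorem bigLam_smul (c : K) (φ : F) : bigLam X g (c • φ) = c • bigLam X g φ := by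
  unfold bigLam
  rw [smul_finsum]
  refine finsum_congr fun n => ?_
  rw [mul_smul_comm, map_smul, smul_eq_mul, mul_smul]

theorem bigLam_x_mul (hX : X ≠ 0) (φ : F) :
    bigLam X g (algebraMap E F X * φ) = X * bigLam X g φ := by
  have hx : algebraMap E F X ≠ 0 := by simpa using hX
  unfold bigLam
  rw [mul_finsum]
  rw [← finsum_comp_equiv (Equiv.addRight (1 : ℤ))
    (f := fun m : ℤ => X * g (algebraMap E F X ^ m * φ) • X ^ (-m))]
  refine finsum_congr fun n => ?_
  simp only [Equiv.coe_addRight]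
  rw [zpow_add_one₀ hx, mul_assoc, mul_smul_comm, neg_add, zpow_add₀ hX, zpow_neg_one,
    mul_comm X, mul_assoc, inv_mul_cancel₀ hX, mul_one]

theorem ChartData.bigLam_aeval (h : ChartData X B1 B2 B12) (hg1 : ∀ φ ∈ B1, g φ = 0)
    (hg2 : ∀ φ ∈ B2, g φ = 0) {φ : F} (hφ : φ ∈ B12) (p : K[X]) :
    bigLam X g (aeval (algebraMap E F X) p * φ) = aeval X p * bigLam X g φ := by
  induction p using Polynomial.induction_on with
  | C a =>
    rw [aeval_C, ← Algebra.smul_def, bigLam_smul, aeval_C, Algebra.smul_def]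
  | add p q hp hq =>
    rw [map_add, add_mul, h.bigLam_add hg1 hg2 (h.aeval_mem12 hφ p) (h.aeval_mem12 hφ q), hp, hq,
      map_add, add_mul]
  | monomial n a ih =>
    have e : aeval (algebraMap E F X) (C a * Polynomial.X ^ (n + 1)) * φ =
        algebraMap E F X * (aeval (algebraMap E F X) (C a * Polynomial.X ^ n) * φ) := by
      rw [pow_succ, ← mul_assoc, map_mul, aeval_X]
      ring
    rw [e, bigLam_x_mul h.hX, ih]
    simp only [map_mul, map_pow, aeval_C, aeval_X]
    ring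

theorem ChartData.c0_zpow_mul_bigLam (h : ChartData X B1 B2 B12)
    (hc0 : ∀ n : ℤ, c0 (X ^ n) = if n = 0 then 1 else 0) (hg1 : ∀ φ ∈ B1, g φ = 0)
    (hg2 : ∀ φ ∈ B2, g φ = 0) {φ : F} (hφ : φ ∈ B12) (k : ℤ) :
    c0 (X ^ k * bigLam X g φ) = g (algebraMap E F X ^ k * φ) := by
  unfold bigLam
  rw [mul_finsum, map_finsum c0]
  · rw [finsum_eq_single _ k]
    · rw [mul_smul_comm, map_smul, ← zpow_add₀ h.hX, hc0, if_pos (by omega), smul_eq_mul, mul_one]
    · intro n hn
      rw [mul_smul_comm, map_smul, ← zpow_add₀ h.hX, hc0, if_neg (by omega), smul_zero]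
  · refine (h.support_finite hg1 hg2 hφ).subset fun n hn => ?_
    rw [Function.mem_support] at hn ⊢
    intro h0
    exact hn (by rw [h0, zero_smul, mul_zero])

end BigLam

section Main

variable {K E F : Type*} [Field K] [Field E] [Field F] [Algebra K E] [Algebra K F] [Algebra E F]
  [IsScalarTower K E F] [FiniteDimensional E F] [Algebra.IsSeparable E F]
variable {X : E} {c0 : E →ₗ[K] K} {B1 B2 B12 : Submodule K F}

omit [FiniteDimensional E F] [Algebra.IsSeparable E F] in
theorem bigLam_zero (g : F →ₗ[K] K) : bigLam X g 0 = 0 := by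
  unfold bigLam
  simp

omit [FiniteDimensional E F] [Algebra.IsSeparable E F] in
theorem ChartData.bigLam_sum (h : ChartData X B1 B2 B12) {g : F →ₗ[K] K}
    (hg1 : ∀ φ ∈ B1, g φ = 0) (hg2 : ∀ φ ∈ B2, g φ = 0) {ι : Type*} (s : Finset ι) (f : ι → F)
    (hf : ∀ i ∈ s, f i ∈ B12) : bigLam X g (∑ i ∈ s, f i) = ∑ i ∈ s, bigLam X g (f i) := by
  classical
  induction s using Finset.induction_on with
  | empty => simp [bigLam_zero]
  | insert a s ha ih =>
    rw [Finset.sum_insert ha, Finset.sum_insert ha,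
      h.bigLam_add hg1 hg2 (hf a (Finset.mem_insert_self a s))
        (B12.sum_mem fun i hi => hf i (Finset.mem_insert_of_mem hi)),
      ih fun i hi => hf i (Finset.mem_insert_of_mem hi)]

omit [IsScalarTower K E F] [FiniteDimensional E F] [Algebra.IsSeparable E F] [Algebra K E]
  [Algebra K F] in
theorem trace_mul_algebraMap_mul (y z : F) (c : E) :
    Algebra.trace E F (y * (algebraMap E F c * z)) = c * Algebra.trace E F (y * z) := by
  rw [mul_left_comm, ← Algebra.smul_def, map_smul, smul_eq_mul]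

/-- Representability of "finite" functionals by the trace form. -/
theorem ChartData.exists_trace_eq_bigLam (h : ChartData X B1 B2 B12)
    (hFrac : ∀ r : E, ∃ p q : K[X], aeval X p ≠ 0 ∧ aeval X p * r = aeval X q)
    {ι : Type*} [Fintype ι] (b : Basis ι E F) (hb : ∀ i, b i ∈ B12)
    {g : F →ₗ[K] K} (hg1 : ∀ φ ∈ B1, g φ = 0) (hg2 : ∀ φ ∈ B2, g φ = 0) :
    ∃ y : F, ∀ φ ∈ B12, Algebra.trace E F (y * φ) = bigLam X g φ := by
  classical
  have hB : (Algebra.traceForm E F).Nondegenerate := traceForm_nondegenerate E F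
  set b' := (Algebra.traceForm E F).dualBasis hB b with hb'
  set y : F := ∑ i, bigLam X g (b i) • b' i with hy
  have key : ∀ j, Algebra.trace E F (y * b j) = bigLam X g (b j) := by
    intro j
    rw [hy, Finset.sum_mul, map_sum, Finset.sum_eq_single j]
    · rw [smul_mul_assoc, map_smul, ← Algebra.traceForm_apply,
        LinearMap.BilinForm.apply_dualBasis_left, if_pos rfl, smul_eq_mul, mul_one]
    · intro i _ hij
      rw [smul_mul_assoc, map_smul, ← Algebra.traceForm_apply,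
        LinearMap.BilinForm.apply_dualBasis_left, if_neg (Ne.symm hij), smul_zero]
    · intro hj
      exact absurd (Finset.mem_univ j) hj
  refine ⟨y, fun φ hφ => ?_⟩
  choose p q hp hpq using fun i => hFrac (b.repr φ i)
  set P : K[X] := ∏ i, p i with hPdef
  have hP : aeval X P ≠ 0 := by
    rw [hPdef, map_prod]
    exact Finset.prod_ne_zero_iff.mpr fun i _ => hp i
  set Q : ι → K[X] := fun i => q i * ∏ j ∈ Finset.univ.erase i, p j with hQdef
  have hQ : ∀ i, aeval X P * b.repr φ i = aeval X (Q i) := by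
    intro i
    rw [hPdef, ← Finset.mul_prod_erase _ _ (Finset.mem_univ i), hQdef, map_mul, map_mul, ← hpq i]
    ring
  have e1 : aeval (algebraMap E F X) P * φ = ∑ i, aeval (algebraMap E F X) (Q i) * b i := by
    conv_lhs => rw [← b.sum_repr φ]
    rw [Finset.mul_sum]
    refine Finset.sum_congr rfl fun i _ => ?_
    rw [aeval_algebraMap_apply, aeval_algebraMap_apply, ← hQ i, Algebra.smul_def, map_mul]
    ring
  have e2 := h.bigLam_aeval hg1 hg2 hφ P
  have e3 : bigLam X g (∑ i, aeval (algebraMap E F X) (Q i) * b i) =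
      ∑ i, aeval X (Q i) * bigLam X g (b i) := by
    rw [h.bigLam_sum hg1 hg2 _ _ fun i _ => h.aeval_mem12 (hb i) (Q i)]
    exact Finset.sum_congr rfl fun i _ => h.bigLam_aeval hg1 hg2 (hb i) (Q i)
  have e4 : Algebra.trace E F (y * (aeval (algebraMap E F X) P * φ)) =
      aeval X P * Algebra.trace E F (y * φ) := by
    rw [aeval_algebraMap_apply, trace_mul_algebraMap_mul]
  have e5 : Algebra.trace E F (y * ∑ i, aeval (algebraMap E F X) (Q i) * b i) =
      ∑ i, aeval X (Q i) * bigLam X g (b i) := by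
    rw [Finset.mul_sum, map_sum]
    refine Finset.sum_congr rfl fun i _ => ?_
    rw [aeval_algebraMap_apply, trace_mul_algebraMap_mul, key]
  have : aeval X P * Algebra.trace E F (y * φ) = aeval X P * bigLam X g φ := by
    rw [← e4, e1, e5, ← e3, ← e1, e2]
  exact mul_left_cancel₀ hP this

end Main

section Main2

variable {K E F : Type*} [Field K] [Field E] [Field F] [Algebra K E] [Algebra K F] [Algebra E F]
  [IsScalarTower K E F] [FiniteDimensional E F] [Algebra.IsSeparable E F]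
variable {X : E} {c0 : E →ₗ[K] K} {B1 B2 B12 : Submodule K F}

omit [FiniteDimensional E F] [Algebra.IsSeparable E F] in
theorem ChartData.bigLam_mem_pol (h : ChartData X B1 B2 B12) {g : F →ₗ[K] K}
    (hg1 : ∀ φ ∈ B1, g φ = 0) (hg2 : ∀ φ ∈ B2, g φ = 0) {φ : F} (hφ : φ ∈ B1) :
    ∃ p : K[X], bigLam X g φ = X * aeval X p := by
  obtain ⟨N2, hN2⟩ := h.ex2 φ (h.le1 hφ)
  have hsub : (Function.support fun n : ℤ => g (algebraMap E F X ^ n * φ) • X ^ (-n)) ⊆
      ↑(Finset.image (fun m : ℕ => -((m : ℤ) + 1)) (Finset.range N2)) := by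
    intro n hn
    rw [Function.mem_support] at hn
    have hgn : g (algebraMap E F X ^ n * φ) ≠ 0 := fun h0 => hn (by rw [h0, zero_smul])
    have h1 : n < 0 := by
      by_contra hcon
      rw [not_lt] at hcon
      exact hgn (hg1 _ (h.zpow_mem1_of_le (N := 0) (by simpa using hφ) (by simpa using hcon)))
    have h2 : -(N2 : ℤ) < n := by
      by_contra hcon
      rw [not_lt] at hcon
      exact hgn (hg2 _ (h.zpow_mem2_of_le hN2 hcon))
    rw [Finset.mem_coe, Finset.mem_image]
    exact ⟨(-n - 1).toNat, Finset.mem_range.mpr (by omega), by omega⟩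
  refine ⟨∑ m ∈ Finset.range N2, monomial m (g (algebraMap E F X ^ (-((m : ℤ) + 1)) * φ)), ?_⟩
  unfold bigLam
  rw [finsum_eq_sum_of_support_subset _ hsub, Finset.sum_image
    (fun a _ b _ hab => by have : (a : ℤ) = b := by linarith
                           exact_mod_cast this), map_sum, Finset.mul_sum]
  refine Finset.sum_congr rfl fun m _ => ?_
  rw [aeval_monomial, neg_neg, zpow_add_one₀ h.hX, zpow_natCast, Algebra.smul_def]
  ring

omit [FiniteDimensional E F] [Algebra.IsSeparable E F] in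
theorem ChartData.bigLam_mem_polInv (h : ChartData X B1 B2 B12) {g : F →ₗ[K] K}
    (hg1 : ∀ φ ∈ B1, g φ = 0) (hg2 : ∀ φ ∈ B2, g φ = 0) {φ : F} (hφ : φ ∈ B2) :
    ∃ p : K[X], bigLam X g φ = X⁻¹ * aeval X⁻¹ p := by
  obtain ⟨N1, hN1⟩ := h.ex1 φ (h.le2 hφ)
  have hsub : (Function.support fun n : ℤ => g (algebraMap E F X ^ n * φ) • X ^ (-n)) ⊆
      ↑(Finset.image (fun m : ℕ => (m : ℤ) + 1) (Finset.range N1)) := by
    intro n hn
    rw [Function.mem_support] at hn
    have hgn : g (algebraMap E F X ^ n * φ) ≠ 0 := fun h0 => hn (by rw [h0, zero_smul])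
    have h1 : 0 < n := by
      by_contra hcon
      rw [not_lt] at hcon
      exact hgn (hg2 _ (h.zpow_mem2_of_le (N := 0) (by simpa using hφ) (by simpa using hcon)))
    have h2 : n < (N1 : ℤ) := by
      by_contra hcon
      rw [not_lt] at hcon
      exact hgn (hg1 _ (h.zpow_mem1_of_le hN1 hcon))
    rw [Finset.mem_coe, Finset.mem_image]
    exact ⟨(n - 1).toNat, Finset.mem_range.mpr (by omega), by omega⟩
  refine ⟨∑ m ∈ Finset.range N1, monomial m (g (algebraMap E F X ^ ((m : ℤ) + 1) * φ)), ?_⟩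
  unfold bigLam
  rw [finsum_eq_sum_of_support_subset _ hsub, Finset.sum_image
    (fun a _ b _ hab => by have : (a : ℤ) = b := by linarith
                           exact_mod_cast this), map_sum, Finset.mul_sum]
  refine Finset.sum_congr rfl fun m _ => ?_
  rw [aeval_monomial, zpow_neg, zpow_add_one₀ h.hX, zpow_natCast, Algebra.smul_def, mul_inv,
    inv_pow]
  ring

/-- Surjectivity half of the duality: every functional on `F` killing `B1` and `B2` is, on
`B12`, the pairing with an element of `Ω`. -/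
theorem ChartData.exists_mem_omegaCore (h : ChartData X B1 B2 B12)
    (hc0 : ∀ n : ℤ, c0 (X ^ n) = if n = 0 then 1 else 0)
    (hFrac : ∀ r : E, ∃ p q : K[X], aeval X p ≠ 0 ∧ aeval X p * r = aeval X q)
    {ι : Type*} [Fintype ι] (b : Basis ι E F) (hb : ∀ i, b i ∈ B12)
    {g : F →ₗ[K] K} (hg1 : ∀ φ ∈ B1, g φ = 0) (hg2 : ∀ φ ∈ B2, g φ = 0) :
    ∃ y ∈ omegaCore X B1 B2, ∀ φ ∈ B12, tracePair c0 y φ = g φ := by
  obtain ⟨y, hy⟩ := h.exists_trace_eq_bigLam hFrac b hb hg1 hg2
  refine ⟨y, ⟨fun φ hφ => ?_, fun φ hφ => ?_⟩, fun φ hφ => ?_⟩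
  · rw [hy φ (h.le1 hφ)]
    exact h.bigLam_mem_pol hg1 hg2 hφ
  · rw [hy φ (h.le2 hφ)]
    exact h.bigLam_mem_polInv hg1 hg2 hφ
  · have := h.c0_zpow_mul_bigLam hc0 hg1 hg2 hφ 0
    rw [zpow_zero, one_mul, zpow_zero, one_mul] at this
    rw [tracePair_apply, hy φ hφ, this]

/-- Injectivity half of the duality. -/
theorem ChartData.eq_zero_of_tracePair (h : ChartData X B1 B2 B12)
    (hNZ : ∀ r : E, (∀ n : ℤ, c0 (X ^ n * r) = 0) → r = 0)
    {ι : Type*} [Fintype ι] (b : Basis ι E F) (hb : ∀ i, b i ∈ B12)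
    {y : F} (hy : ∀ φ ∈ B12, tracePair c0 y φ = 0) : y = 0 := by
  have h0 : ∀ φ ∈ B12, Algebra.trace E F (y * φ) = 0 := by
    intro φ hφ
    refine hNZ _ fun n => ?_
    have := hy _ (h.zpow_mem12 hφ n)
    rwa [tracePair_apply, ← map_zpow₀, trace_mul_algebraMap_mul] at this
  have hB : (Algebra.traceForm E F).Nondegenerate := traceForm_nondegenerate E F
  refine hB.1 y fun z => ?_
  rw [Algebra.traceForm_apply, ← b.sum_repr z, Finset.mul_sum, map_sum]
  refine Finset.sum_eq_zero fun i _ => ?_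
  rw [Algebra.smul_def, trace_mul_algebraMap_mul, h0 _ (hb i), mul_zero]

/-- **Perfect chart duality**, as an isomorphism: `Ω ≃ (B12 / (B1 + B2))^*`, induced by
`(y, φ) ↦ c0 (Tr (y φ))`. -/
theorem ChartData.nonempty_omegaCore_equiv_dual (h : ChartData X B1 B2 B12)
    (hc0 : ∀ n : ℤ, c0 (X ^ n) = if n = 0 then 1 else 0)
    (hNZ : ∀ r : E, (∀ n : ℤ, c0 (X ^ n * r) = 0) → r = 0)
    (hFrac : ∀ r : E, ∃ p q : K[X], aeval X p ≠ 0 ∧ aeval X p * r = aeval X q)
    {ι : Type*} [Fintype ι] (b : Basis ι E F) (hb : ∀ i, b i ∈ B12) :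
    Nonempty (omegaCore X B1 B2 ≃ₗ[K]
      Module.Dual K (B12 ⧸ (B1 ⊔ B2).comap B12.subtype)) := by
  set W : Submodule K B12 := (B1 ⊔ B2).comap B12.subtype with hW
  -- the map `Ω → W.dualAnnihilator`
  let T0 : omegaCore X B1 B2 →ₗ[K] Module.Dual K B12 :=
    (LinearMap.lcomp K K B12.subtype) ∘ₗ (tracePair c0) ∘ₗ (omegaCore X B1 B2).subtype
  have hT0 : ∀ (y : omegaCore X B1 B2) (φ : B12), T0 y φ = tracePair c0 (y : F) (φ : F) :=
    fun y φ => rfl
  have hmem : ∀ y, T0 y ∈ W.dualAnnihilator := by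
    intro y
    rw [Submodule.mem_dualAnnihilator]
    intro w hw
    rw [hT0]
    exact tracePair_eq_zero_of_mem hc0 y.2 hw
  let T : omegaCore X B1 B2 →ₗ[K] W.dualAnnihilator := T0.codRestrict _ hmem
  have hT : ∀ (y : omegaCore X B1 B2) (φ : B12),
      (T y : Module.Dual K B12) φ = tracePair c0 (y : F) (φ : F) := fun y φ => rfl
  have hinj : Function.Injective T := by
    refine (injective_iff_map_eq_zero T).mpr fun y hy => ?_
    apply Subtype.ext
    refine h.eq_zero_of_tracePair hNZ b hb fun φ hφ => ?_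
    have h1 := hT y ⟨φ, hφ⟩
    rw [hy] at h1
    exact h1.symm
  have hsurj : Function.Surjective T := by
    intro ℓ
    obtain ⟨g, hg⟩ := LinearMap.exists_extend (ℓ : Module.Dual K B12)
    have hgφ : ∀ φ (hφ : φ ∈ B12), g φ = (ℓ : Module.Dual K B12) ⟨φ, hφ⟩ := by
      intro φ hφ
      rw [← hg]
      rfl
    have hℓ := (Submodule.mem_dualAnnihilator _).mp ℓ.2
    have hg1 : ∀ φ ∈ B1, g φ = 0 := by
      intro φ hφ
      rw [hgφ φ (h.le1 hφ)]
      exact hℓ _ (Submodule.mem_sup_left hφ)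
    have hg2 : ∀ φ ∈ B2, g φ = 0 := by
      intro φ hφ
      rw [hgφ φ (h.le2 hφ)]
      exact hℓ _ (Submodule.mem_sup_right hφ)
    obtain ⟨y, hyΩ, hy⟩ := h.exists_mem_omegaCore hc0 hFrac b hb hg1 hg2
    refine ⟨⟨y, hyΩ⟩, ?_⟩
    apply Subtype.ext
    apply LinearMap.ext
    intro φ
    rw [hT, hy _ φ.2, hgφ _ φ.2]
  exact ⟨(LinearEquiv.ofBijective T ⟨hinj, hsurj⟩).trans
    (Submodule.dualQuotEquivDualAnnihilator W).symm⟩

/-- **Perfect chart duality**: `dim Ω = dim B12 / (B1 + B2)`. -/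
theorem ChartData.finrank_omegaCore (h : ChartData X B1 B2 B12)
    (hc0 : ∀ n : ℤ, c0 (X ^ n) = if n = 0 then 1 else 0)
    (hNZ : ∀ r : E, (∀ n : ℤ, c0 (X ^ n * r) = 0) → r = 0)
    (hFrac : ∀ r : E, ∃ p q : K[X], aeval X p ≠ 0 ∧ aeval X p * r = aeval X q)
    {ι : Type*} [Fintype ι] (b : Basis ι E F) (hb : ∀ i, b i ∈ B12) :
    finrank K (omegaCore X B1 B2) =
      finrank K (B12 ⧸ (B1 ⊔ B2).comap B12.subtype) := by
  obtain ⟨e⟩ := h.nonempty_omegaCore_equiv_dual hc0 hNZ hFrac b hb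
  rw [e.finrank_eq, Subspace.dual_finrank_eq]

end Main2

/-! ## The concrete charts of a function field `F / K(x)` -/

section Charts

open IntermediateField

variable (K : Type*) [Field K] {F : Type*} [Field F] [Algebra K F] (x : F)

/-- The chart `x ≠ ∞`: elements of `F` integral over `K[x]`, as a `K`-subspace of `F`. -/
def chartFin : Submodule K F :=
  Subalgebra.toSubmodule ((integralClosure (Algebra.adjoin K {x}) F).restrictScalars K)

/-- The chart `x ≠ 0`: elements of `F` integral over `K[x⁻¹]`. -/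
def chartInf : Submodule K F := chartFin K x⁻¹

variable {K x}

theorem mem_chartFin {φ : F} : φ ∈ chartFin K x ↔ IsIntegral (Algebra.adjoin K {x}) φ := Iff.rfl

theorem mem_chartInf {φ : F} : φ ∈ chartInf K x ↔ IsIntegral (Algebra.adjoin K {x⁻¹}) φ := Iff.rfl

/-- Integrality over the subalgebra `K[x]` is integrality along `aeval x : K[X] → F`. -/
theorem mem_chartFin_iff {φ : F} :
    φ ∈ chartFin K x ↔ ((aeval x : K[X] →ₐ[K] F) : K[X] →+* F).IsIntegralElem φ := by
  rw [mem_chartFin]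
  -- the corestriction of `aeval x` to `K[x]`
  let f' : K[X] →+* Algebra.adjoin K {x} :=
    ((aeval x : K[X] →ₐ[K] F) : K[X] →+* F).codRestrict (Algebra.adjoin K {x}).toSubring
      fun p => aeval_mem_adjoin_singleton K x
  have hcomp : (algebraMap (Algebra.adjoin K {x}) F).comp f' =
      ((aeval x : K[X] →ₐ[K] F) : K[X] →+* F) := by
    ext <;> rfl
  have hsurj : Function.Surjective f' := by
    rintro ⟨y, hy⟩
    rw [Algebra.adjoin_singleton_eq_range_aeval] at hy
    obtain ⟨p, rfl⟩ := hy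
    exact ⟨p, rfl⟩
  constructor
  · rintro ⟨p, hp, hp0⟩
    obtain ⟨q, hq, -, hqm⟩ := Polynomial.lifts_and_natDegree_eq_and_monic
      (f := f') (p := p) ((Polynomial.mem_lifts p).mpr (Polynomial.map_surjective f' hsurj p)) hp
    refine ⟨q, hqm, ?_⟩
    rw [← hcomp, ← Polynomial.eval₂_map, hq]
    exact hp0
  · intro h
    rw [← hcomp] at h
    exact RingHom.IsIntegralElem.of_comp h

theorem self_mem_chartFin : x ∈ chartFin K x := by
  rw [mem_chartFin]
  exact isIntegral_algebraMap (x := (⟨x, Algebra.self_mem_adjoin_singleton K x⟩ :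
    Algebra.adjoin K {x}))

theorem mul_mem_chartFin {φ ψ : F} (hφ : φ ∈ chartFin K x) (hψ : ψ ∈ chartFin K x) :
    φ * ψ ∈ chartFin K x := by
  rw [mem_chartFin] at *
  exact hφ.mul hψ

theorem pow_mul_mem_chartFin {φ : F} (hφ : φ ∈ chartFin K x) (n : ℕ) :
    x ^ n * φ ∈ chartFin K x := by
  induction n with
  | zero => simpa using hφ
  | succ n ih => rw [pow_succ', mul_assoc]; exact mul_mem_chartFin self_mem_chartFin ih

variable (K x)

/-- The overlap chart `x ≠ 0, ∞`, presented as `B1[1/x]`. -/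
def chartMid : Submodule K F where
  carrier := {φ | ∃ n : ℕ, x ^ n * φ ∈ chartFin K x}
  add_mem' := by
    rintro φ ψ ⟨n, hn⟩ ⟨m, hm⟩
    refine ⟨n + m, ?_⟩
    rw [mul_add]
    refine (chartFin K x).add_mem ?_ ?_
    · rw [add_comm, pow_add, mul_assoc]
      exact pow_mul_mem_chartFin hn m
    · rw [pow_add, mul_assoc]
      exact pow_mul_mem_chartFin hm n
  zero_mem' := ⟨0, by simp⟩
  smul_mem' := by
    rintro c φ ⟨n, hn⟩
    exact ⟨n, by rw [mul_smul_comm]; exact (chartFin K x).smul_mem c hn⟩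

variable {K x}

theorem mem_chartMid {φ : F} : φ ∈ chartMid K x ↔ ∃ n : ℕ, x ^ n * φ ∈ chartFin K x := Iff.rfl

theorem chartFin_le_chartMid : chartFin K x ≤ chartMid K x := fun φ hφ => ⟨0, by simpa using hφ⟩

end Charts

/-! ## The chart hypotheses for the integral closures -/

section Inst

open IntermediateField

variable {K : Type*} [Field K] {F : Type*} [Field F] [Algebra K F]

/-- If `φ` is integral over `K[u⁻¹]` then `u^n φ` is integral over `K[u]` for some `n`. -/
theorem exists_pow_mul_mem_chartFin {u : F} (hu : u ≠ 0) {φ : F}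
    (hφ : φ ∈ chartFin K u⁻¹) : ∃ n : ℕ, u ^ n * φ ∈ chartFin K u := by
  rw [mem_chartFin_iff] at hφ
  let uu : Fˣ := Units.mk0 u hu
  let f1 : K[X] →+* F := ((aeval u : K[X] →ₐ[K] F) : K[X] →+* F)
  let f2 : LaurentPolynomial K →+* F := LaurentPolynomial.eval₂ (algebraMap K F) uu
  let _ : Algebra K[X] F := f1.toAlgebra
  let _ : Algebra (LaurentPolynomial K) F := f2.toAlgebra
  have : IsScalarTower K[X] (LaurentPolynomial K) F := IsScalarTower.of_algebraMap_eq fun p => by
    show f1 p = f2 (algebraMap K[X] (LaurentPolynomial K) p)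
    rw [LaurentPolynomial.algebraMap_eq_toLaurent, LaurentPolynomial.eval₂_toLaurent]
    rfl
  have h2 : IsIntegral (LaurentPolynomial K) φ := by
    let ρ : K[X] →+* LaurentPolynomial K :=
      Polynomial.eval₂RingHom (LaurentPolynomial.C) (LaurentPolynomial.T (-1))
    have hρ : f2.comp ρ = ((aeval u⁻¹ : K[X] →ₐ[K] F) : K[X] →+* F) := by
      ext c
      · simp [ρ, f2]
      · have := LaurentPolynomial.eval₂_T_neg_n (algebraMap K F) uu 1
        simp [ρ, f2, uu] at this ⊢
    rw [← hρ] at hφ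
    exact RingHom.IsIntegralElem.of_comp hφ
  obtain ⟨⟨_, n, rfl⟩, hm⟩ := IsIntegral.exists_multiple_integral_of_isLocalization
    (Submonoid.powers (X : K[X])) φ h2
  refine ⟨n, ?_⟩
  rw [mem_chartFin_iff]
  have e : (⟨(X : K[X]) ^ n, n, rfl⟩ : Submonoid.powers (X : K[X])) • φ = u ^ n * φ := by
    show f1 (X ^ n) * φ = u ^ n * φ
    simp [f1]
  rw [e] at hm
  exact hm

/-- The three charts of `F / K(x)` satisfy the chart hypotheses of the core. -/
theorem chartData {x : F} (hx : x ≠ 0) :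
    ChartData (E := K⟮x⟯) (AdjoinSimple.gen K x) (chartFin K x) (chartInf K x) (chartMid K x) := by
  have hgen : algebraMap K⟮x⟯ F (AdjoinSimple.gen K x) = x := rfl
  refine ⟨?_, chartFin_le_chartMid, ?_, ?_, ?_, ?_, ?_, ?_, ?_⟩
  · intro h0
    apply hx
    rw [← hgen, h0, map_zero]
  · intro φ hφ
    exact exists_pow_mul_mem_chartFin hx hφ
  · intro φ hφ
    rw [hgen]
    exact mul_mem_chartFin self_mem_chartFin hφ
  · intro φ hφ
    rw [hgen]
    exact mul_mem_chartFin (x := x⁻¹) self_mem_chartFin hφ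
  · rintro φ ⟨n, hn⟩
    rw [hgen]
    refine ⟨n, ?_⟩
    rw [mul_left_comm]
    exact mul_mem_chartFin self_mem_chartFin hn
  · rintro φ ⟨n, hn⟩
    rw [hgen]
    refine ⟨n + 1, ?_⟩
    rw [pow_succ, mul_assoc, mul_inv_cancel_left₀ hx]
    exact hn
  · rintro φ ⟨n, hn⟩
    rw [hgen]
    exact ⟨n, hn⟩
  · rintro φ ⟨n, hn⟩
    rw [hgen]
    have hn' : x ^ n * φ ∈ chartFin K (x⁻¹)⁻¹ := by rwa [inv_inv]
    obtain ⟨m, hm⟩ := exists_pow_mul_mem_chartFin (inv_ne_zero hx) hn'
    refine ⟨m, ?_⟩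
    have := pow_mul_mem_chartFin hm n
    have e : x⁻¹ ^ n * (x⁻¹ ^ m * (x ^ n * φ)) = x⁻¹ ^ m * φ := by
      have : x⁻¹ ^ n * x ^ n = 1 := by
        rw [← mul_pow, inv_mul_cancel₀ hx, one_pow]
      calc x⁻¹ ^ n * (x⁻¹ ^ m * (x ^ n * φ)) = (x⁻¹ ^ n * x ^ n) * (x⁻¹ ^ m * φ) := by ring
        _ = x⁻¹ ^ m * φ := by rw [this, one_mul]
    rw [e] at this
    exact this

end Inst

/-! ## The constant-coefficient functional on `K(x)` -/

section C0

open IntermediateField

open scoped RatFunc LaurentSeries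

variable {K : Type*} [Field K] {F : Type*} [Field F] [Algebra K F] (x : F) (hx : Transcendental K x)

/-- The Laurent expansion `K(x) → K((X))` at `x = 0`. -/
noncomputable def laurentExp : K⟮x⟯ →+* LaurentSeries K :=
  (algebraMap (RatFunc K) (LaurentSeries K)).comp
    ((RatFunc.algEquivOfTranscendental x hx).symm : K⟮x⟯ →+* RatFunc K)

theorem laurentExp_gen : laurentExp x hx (AdjoinSimple.gen K x) = HahnSeries.single 1 1 := by
  show algebraMap (RatFunc K) (LaurentSeries K)
    ((RatFunc.algEquivOfTranscendental x hx).symm (AdjoinSimple.gen K x)) = _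
  rw [RatFunc.algEquivOfTranscendental_symm_gen, RatFunc.coe_X]

theorem laurentExp_algebraMap (c : K) :
    laurentExp x hx (algebraMap K K⟮x⟯ c) = HahnSeries.C c := by
  show algebraMap (RatFunc K) (LaurentSeries K)
    ((RatFunc.algEquivOfTranscendental x hx).symm (algebraMap K K⟮x⟯ c)) = _
  rw [AlgEquiv.commutes]
  have : algebraMap K (RatFunc K) c = algebraMap K[X] (RatFunc K) (C c) := by
    rw [RatFunc.algebraMap_C]; rfl
  rw [this, ← IsScalarTower.algebraMap_apply K[X] (RatFunc K) (LaurentSeries K)]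
  simp

theorem laurentExp_gen_zpow (n : ℤ) :
    laurentExp x hx (AdjoinSimple.gen K x ^ n) = HahnSeries.single n 1 := by
  rw [map_zpow₀, laurentExp_gen, ← RatFunc.single_zpow]

/-- The coefficient of `x^0` in the Laurent expansion at `x = 0`, as a `K`-linear form
on `K(x)`. -/
noncomputable def coeffZero : K⟮x⟯ →ₗ[K] K where
  toFun r := (laurentExp x hx r).coeff 0
  map_add' r s := by rw [map_add, HahnSeries.coeff_add]
  map_smul' c r := by
    rw [Algebra.smul_def, map_mul, laurentExp_algebraMap, HahnSeries.C_mul_eq_smul,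
      HahnSeries.coeff_smul]
    rfl

theorem coeffZero_apply (r : K⟮x⟯) : coeffZero x hx r = (laurentExp x hx r).coeff 0 := rfl

theorem coeffZero_gen_zpow (n : ℤ) :
    coeffZero x hx (AdjoinSimple.gen K x ^ n) = if n = 0 then 1 else 0 := by
  rw [coeffZero_apply, laurentExp_gen_zpow, HahnSeries.coeff_single]
  by_cases h : n = 0
  · simp [h]
  · rw [if_neg h, if_neg (Ne.symm h)]

theorem eq_zero_of_coeffZero (r : K⟮x⟯)
    (h : ∀ n : ℤ, coeffZero x hx (AdjoinSimple.gen K x ^ n * r) = 0) : r = 0 := by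
  have h0 : laurentExp x hx r = 0 := by
    ext m
    have := h (-m)
    rw [coeffZero_apply, map_mul, laurentExp_gen_zpow, HahnSeries.coeff_single_mul] at this
    simpa using this
  exact (map_eq_zero (laurentExp x hx)).mp h0

include hx in
theorem exists_frac (r : K⟮x⟯) : ∃ p q : K[X], aeval (AdjoinSimple.gen K x) p ≠ 0 ∧
    aeval (AdjoinSimple.gen K x) p * r = aeval (AdjoinSimple.gen K x) q := by
  set e := RatFunc.algEquivOfTranscendental x hx
  set u := e.symm r with hu
  have hr : r = e u := by rw [hu, AlgEquiv.apply_symm_apply]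
  have hd : algebraMap K[X] (RatFunc K) u.denom ≠ 0 := by
    rw [Ne, map_eq_zero_iff _ (IsFractionRing.injective K[X] (RatFunc K))]
    exact u.denom_ne_zero
  refine ⟨u.denom, u.num, ?_, ?_⟩
  · rw [← RatFunc.algEquivOfTranscendental_algebraMap x hx, Ne, map_eq_zero_iff _ e.injective]
    exact hd
  · rw [← RatFunc.algEquivOfTranscendental_algebraMap x hx,
      ← RatFunc.algEquivOfTranscendental_algebraMap x hx, hr, ← map_mul]
    congr 1
    have := RatFunc.num_div_denom u
    rw [div_eq_iff hd] at this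
    rw [mul_comm]
    exact this.symm

end C0

/-! ## Chart duality for a function field `F / K(x)` -/

section Final

open IntermediateField

variable {K : Type*} [Field K] {F : Type*} [Field F] [Algebra K F]

/-- `B ⧸ (P ∩ B) ≃ (B + P) / P`, in the two shapes used by consumers. -/
theorem nonempty_quot_comap_equiv_map (P B : Submodule K F) :
    Nonempty ((B ⧸ P.comap B.subtype) ≃ₗ[K] B.map P.mkQ) := by
  have hker : LinearMap.ker (P.mkQ.comp B.subtype) = P.comap B.subtype := by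
    rw [LinearMap.ker_comp, Submodule.ker_mkQ]
  have hrange : LinearMap.range (P.mkQ.comp B.subtype) = B.map P.mkQ := by
    rw [LinearMap.range_comp, Submodule.range_subtype]
  exact ⟨(Submodule.quotEquivOfEq _ _ hker.symm).trans
    ((P.mkQ.comp B.subtype).quotKerEquivRange.trans (LinearEquiv.ofEq _ _ hrange))⟩

variable (K) in
/-- The space `Ω(F, x)` of regular chart differentials (`y` such that `y dx/x` is regular):
`Tr_{F/K(x)}(y B₁) ⊆ x K[x]` and `Tr_{F/K(x)}(y B₂) ⊆ x⁻¹ K[x⁻¹]`. -/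
def omega (x : F) : Submodule K F :=
  omegaCore (E := K⟮x⟯) (AdjoinSimple.gen K x) (chartFin K x) (chartInf K x)

theorem coe_aeval_gen (x : F) (p : K[X]) :
    ((aeval (AdjoinSimple.gen K x) p : K⟮x⟯) : F) = aeval x p := by
  have := aeval_algebraMap_apply F (AdjoinSimple.gen K x) p
  exact this.symm

theorem coe_aeval_gen_inv (x : F) (p : K[X]) :
    ((aeval (AdjoinSimple.gen K x)⁻¹ p : K⟮x⟯) : F) = aeval x⁻¹ p := by
  have := aeval_algebraMap_apply F (AdjoinSimple.gen K x)⁻¹ p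
  rw [map_inv₀] at this
  exact this.symm

/-- Membership in `Ω(F, x)` in `F`-level form (the shape of `helper4445.IsOmega`). -/
theorem mem_omega {x y : F} : y ∈ omega K x ↔
    (∀ b : F, IsIntegral (Algebra.adjoin K {x}) b →
      ∃ p : K[X], ((Algebra.trace K⟮x⟯ F (y * b) : K⟮x⟯) : F) = x * aeval x p) ∧
    (∀ b : F, IsIntegral (Algebra.adjoin K {x⁻¹}) b →
      ∃ p : K[X], ((Algebra.trace K⟮x⟯ F (y * b) : K⟮x⟯) : F) = x⁻¹ * aeval x⁻¹ p) := by
  rw [omega, mem_omegaCore]
  refine and_congr (forall₂_congr fun b _ => exists_congr fun p => ?_)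
    (forall₂_congr fun b _ => exists_congr fun p => ?_)
  · rw [← Subtype.coe_inj, MulMemClass.coe_mul, coe_aeval_gen]
    rfl
  · rw [← Subtype.coe_inj, MulMemClass.coe_mul, coe_aeval_gen_inv]
    rfl

open scoped IntermediateField.algebraAdjoinAdjoin in
/-- A `K(x)`-basis of `F` inside the chart `B₁`. -/
theorem exists_basis_mem_chartFin (x : F) [FiniteDimensional K⟮x⟯ F] :
    ∃ (s : Finset F) (b : Basis s K⟮x⟯ F), ∀ i, b i ∈ chartFin K x :=
  FiniteDimensional.exists_is_basis_integral (Algebra.adjoin K {x}) K⟮x⟯ F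

theorem ne_zero_of_transcendental {x : F} (hx : Transcendental K x) : x ≠ 0 := by
  rintro rfl
  exact hx (isAlgebraic_zero)

/-- The overlap chart is also `B₂[x]`. -/
theorem mem_chartMid_iff_inv {x : F} (hx : x ≠ 0) {φ : F} :
    φ ∈ chartMid K x ↔ ∃ n : ℕ, x⁻¹ ^ n * φ ∈ chartInf K x := by
  have h := chartData (K := K) hx
  constructor
  · intro hφ
    exact h.ex2 φ hφ
  · rintro ⟨n, hn⟩
    have h1 := h.zpow_mem12 (h.le2 hn) n
    have e : algebraMap K⟮x⟯ F (AdjoinSimple.gen K x) ^ (n : ℤ) * (x⁻¹ ^ n * φ) = φ := by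
      have hgen : algebraMap K⟮x⟯ F (AdjoinSimple.gen K x) = x := rfl
      rw [hgen, zpow_natCast, ← mul_assoc, ← mul_pow, mul_inv_cancel₀ hx, one_pow, one_mul]
    rwa [e] at h1

/-- **Chart duality (DU1)**, isomorphism form: `Ω(F, x) ≃ (B₁₂ / (B₁ + B₂))^*`.
Any characteristic; `F / K(x)` finite separable, `x` transcendental over `K`. -/
theorem nonempty_omega_equiv_dual {x : F} (hx : Transcendental K x)
    [FiniteDimensional K⟮x⟯ F] [Algebra.IsSeparable K⟮x⟯ F] :
    Nonempty (omega K x ≃ₗ[K] Module.Dual K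
      (chartMid K x ⧸ (chartFin K x ⊔ chartInf K x).comap (chartMid K x).subtype)) := by
  obtain ⟨s, b, hb⟩ := exists_basis_mem_chartFin (K := K) x
  exact (chartData (ne_zero_of_transcendental hx)).nonempty_omegaCore_equiv_dual
    (c0 := coeffZero x hx) (coeffZero_gen_zpow x hx) (eq_zero_of_coeffZero x hx)
    (exists_frac x hx) b (fun i => chartFin_le_chartMid (hb i))

/-- **Chart duality (DU1)**: `dim_K Ω(F, x) = dim_K B₁₂ / (B₁ + B₂)` (quotient form). -/
theorem finrank_omega_eq_quot {x : F} (hx : Transcendental K x)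
    [FiniteDimensional K⟮x⟯ F] [Algebra.IsSeparable K⟮x⟯ F] :
    finrank K (omega K x) = finrank K
      (chartMid K x ⧸ (chartFin K x ⊔ chartInf K x).comap (chartMid K x).subtype) := by
  obtain ⟨e⟩ := nonempty_omega_equiv_dual (K := K) hx
  rw [e.finrank_eq, Subspace.dual_finrank_eq]

/-- **Chart duality (DU1)**: `dim_K Ω(F, x) = dim_K (B₁₂ + B₁ + B₂) / (B₁ + B₂)`
(image-in-the-quotient form, `= helper4464.relDim (B₁ ⊔ B₂) B₁₂`). -/
theorem finrank_omega {x : F} (hx : Transcendental K x)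
    [FiniteDimensional K⟮x⟯ F] [Algebra.IsSeparable K⟮x⟯ F] :
    finrank K (omega K x) =
      finrank K ((chartMid K x).map (chartFin K x ⊔ chartInf K x).mkQ) := by
  obtain ⟨e⟩ := nonempty_quot_comap_equiv_map (chartFin K x ⊔ chartInf K x) (chartMid K x)
  rw [finrank_omega_eq_quot hx, e.finrank_eq]

/-- `Ω(F, x)` is finite-dimensional as soon as `B₁₂ / (B₁ + B₂)` is (Serre finiteness). -/
theorem finite_omega {x : F} (hx : Transcendental K x)
    [FiniteDimensional K⟮x⟯ F] [Algebra.IsSeparable K⟮x⟯ F]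
    [Module.Finite K ((chartMid K x).map (chartFin K x ⊔ chartInf K x).mkQ)] :
    Module.Finite K (omega K x) := by
  obtain ⟨e⟩ := nonempty_omega_equiv_dual (K := K) hx
  obtain ⟨e'⟩ := nonempty_quot_comap_equiv_map (chartFin K x ⊔ chartInf K x) (chartMid K x)
  have : Module.Finite K
      (chartMid K x ⧸ (chartFin K x ⊔ chartInf K x).comap (chartMid K x).subtype) :=
    Module.Finite.equiv e'.symm
  exact Module.Finite.equiv e.symm

/-- **Chart duality (DU1)**, unbundled consumer form: for ANY submodules `Ω B1 B2 B12` of `F`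
described by the usual membership conditions. -/
theorem finrank_eq_of_charts {x : F} (hx : Transcendental K x)
    [FiniteDimensional K⟮x⟯ F] [Algebra.IsSeparable K⟮x⟯ F]
    (Ω B1 B2 B12 : Submodule K F)
    (hΩ : ∀ y, y ∈ Ω ↔
      (∀ b : F, IsIntegral (Algebra.adjoin K {x}) b →
        ∃ p : K[X], ((Algebra.trace K⟮x⟯ F (y * b) : K⟮x⟯) : F) = x * aeval x p) ∧
      (∀ b : F, IsIntegral (Algebra.adjoin K {x⁻¹}) b →
        ∃ p : K[X], ((Algebra.trace K⟮x⟯ F (y * b) : K⟮x⟯) : F) = x⁻¹ * aeval x⁻¹ p))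
    (hB1 : ∀ φ, φ ∈ B1 ↔ IsIntegral (Algebra.adjoin K {x}) φ)
    (hB2 : ∀ φ, φ ∈ B2 ↔ IsIntegral (Algebra.adjoin K {x⁻¹}) φ)
    (hB12 : ∀ φ, φ ∈ B12 ↔ ∃ n : ℕ, x ^ n * φ ∈ B1) :
    finrank K Ω = finrank K (B12.map (B1 ⊔ B2).mkQ) ∧
      (Module.Finite K (B12.map (B1 ⊔ B2).mkQ) → Module.Finite K Ω) := by
  obtain rfl : Ω = omega K x := Submodule.ext fun y => (hΩ y).trans mem_omega.symm
  obtain rfl : B1 = chartFin K x := Submodule.ext fun φ => (hB1 φ).trans mem_chartFin.symm
  obtain rfl : B2 = chartInf K x := Submodule.ext fun φ => (hB2 φ).trans mem_chartInf.symm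
  obtain rfl : B12 = chartMid K x := Submodule.ext fun φ => (hB12 φ).trans mem_chartMid.symm
  exact ⟨finrank_omega hx, fun _ => finite_omega hx⟩

end Final

/-! ## Serre finiteness: `B₁₂ / (B₁ + B₂)` and `Ω(F, x)` are finite-dimensional -/

section Serre

open IntermediateField

variable {K : Type*} [Field K] {F : Type*} [Field F] [Algebra K F]

theorem isIntegrallyClosed_adjoin_singleton {x : F} (hx : Transcendental K x) :
    IsIntegrallyClosed (Algebra.adjoin K {x}) :=
  IsIntegrallyClosed.of_equiv (Polynomial.algEquivOfTranscendental K x hx).toRingEquiv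

theorem isNoetherianRing_adjoin_singleton {x : F} (hx : Transcendental K x) :
    IsNoetherianRing (Algebra.adjoin K {x}) :=
  isNoetherianRing_of_surjective K[X] (Algebra.adjoin K {x})
    (Polynomial.algEquivOfTranscendental K x hx).toRingEquiv.toRingHom
    (Polynomial.algEquivOfTranscendental K x hx).surjective

open scoped IntermediateField.algebraAdjoinAdjoin in
/-- `B₁` is a finitely generated `K[x]`-module (`F / K(x)` finite separable). -/
theorem exists_fin_span_chartFin {x : F} (hx : Transcendental K x)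
    [FiniteDimensional K⟮x⟯ F] [Algebra.IsSeparable K⟮x⟯ F] :
    ∃ (n : ℕ) (e : Fin n → F), (∀ i, e i ∈ chartFin K x) ∧
      ∀ φ ∈ chartFin K x, ∃ p : Fin n → K[X], φ = ∑ i, aeval x (p i) * e i := by
  have h1 := isIntegrallyClosed_adjoin_singleton hx
  have h2 := isNoetherianRing_adjoin_singleton hx
  have hfin : Module.Finite (Algebra.adjoin K {x}) (integralClosure (Algebra.adjoin K {x}) F) :=
    IsIntegralClosure.finite (Algebra.adjoin K {x}) K⟮x⟯ F (integralClosure (Algebra.adjoin K {x}) F)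
  obtain ⟨n, s, hs⟩ := Module.Finite.exists_fin (R := Algebra.adjoin K {x})
    (M := integralClosure (Algebra.adjoin K {x}) F)
  have hA : ∀ a : Algebra.adjoin K {x}, ∃ p : K[X], aeval x p = (a : F) := by
    intro a
    have h : (a : F) ∈ (aeval x : K[X] →ₐ[K] F).range := by
      rw [← Algebra.adjoin_singleton_eq_range_aeval]
      exact a.2
    exact h
  choose P hP using hA
  refine ⟨n, fun i => (s i : F), fun i => (s i).2, fun φ hφ => ?_⟩
  have hmem : (⟨φ, hφ⟩ : integralClosure (Algebra.adjoin K {x}) F) ∈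
      Submodule.span (Algebra.adjoin K {x}) (Set.range s) := by rw [hs]; trivial
  rw [Submodule.mem_span_range_iff_exists_fun] at hmem
  obtain ⟨c, hc⟩ := hmem
  refine ⟨fun i => P (c i), ?_⟩
  have := congrArg (fun z : integralClosure (Algebra.adjoin K {x}) F => (z : F)) hc
  simp only at this
  rw [← this]
  simp only [AddSubmonoidClass.coe_finsetSum, hP]
  rfl

/-- **Serre finiteness** for the two-chart model of `F / K(x)`: `B₁₂ / (B₁ + B₂)` is
finite-dimensional over `K`. -/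
theorem finite_chartGenus {x : F} (hx : Transcendental K x)
    [FiniteDimensional K⟮x⟯ F] [Algebra.IsSeparable K⟮x⟯ F] :
    Module.Finite K ((chartMid K x).map (chartFin K x ⊔ chartInf K x).mkQ) := by
  obtain ⟨n, e, he, hspan⟩ := exists_fin_span_chartFin hx
  have hx0 := ne_zero_of_transcendental hx
  have h := chartData (K := K) hx0
  have hgen : algebraMap K⟮x⟯ F (AdjoinSimple.gen K x) = x := rfl
  -- a common exponent `N` with `x⁻ᴺ eᵢ ∈ B₂`
  have hN : ∃ N : ℕ, ∀ i, x⁻¹ ^ N * e i ∈ chartInf K x := by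
    choose m hm using fun i => h.ex2 (e i) (chartFin_le_chartMid (he i))
    refine ⟨Finset.univ.sup m, fun i => ?_⟩
    have hle : m i ≤ Finset.univ.sup m := Finset.le_sup (Finset.mem_univ i)
    obtain ⟨k, hk⟩ := Nat.exists_eq_add_of_le hle
    have := h.pow_mem2 (hm i) k
    rw [hgen, ← mul_assoc, ← pow_add, add_comm, ← hk] at this
    exact this
  obtain ⟨N, hN⟩ := hN
  let T : Submodule K F :=
    Submodule.span K (Set.range fun p : Fin n × Fin N => x⁻¹ ^ (p.2 : ℕ) * e p.1)
  have hT : Module.Finite K T := Module.Finite.span_of_finite K (Set.finite_range _)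
  -- every Laurent monomial multiple of a generator lies in `B₁ + B₂ + T`
  have key : ∀ (i : Fin n) (m : ℤ), x ^ m * e i ∈ chartFin K x ⊔ chartInf K x ⊔ T := by
    intro i m
    by_cases h0 : 0 ≤ m
    · lift m to ℕ using h0
      refine Submodule.mem_sup_left (Submodule.mem_sup_left ?_)
      rw [zpow_natCast]
      exact pow_mul_mem_chartFin (he i) m
    · by_cases h1 : m ≤ -(N : ℤ)
      · refine Submodule.mem_sup_left (Submodule.mem_sup_right ?_)
        have := h.zpow_mem2_of_le (N := N) (φ := e i) (by rw [hgen]; exact hN i) h1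
        rwa [hgen] at this
      · refine Submodule.mem_sup_right (Submodule.subset_span ?_)
        have hj : (-m).toNat < N := by omega
        refine ⟨(i, ⟨(-m).toNat, hj⟩), ?_⟩
        have hm : m = -((-m).toNat : ℤ) := by omega
        show x⁻¹ ^ (-m).toNat * e i = x ^ m * e i
        conv_rhs => rw [hm]
        rw [zpow_neg, zpow_natCast, inv_pow]
  have hle : chartMid K x ≤ chartFin K x ⊔ chartInf K x ⊔ T := by
    rintro φ ⟨k, hk⟩
    obtain ⟨p, hp⟩ := hspan _ hk
    have hφ : φ = ∑ i, x⁻¹ ^ k * (aeval x (p i) * e i) := by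
      rw [← Finset.mul_sum, ← hp, ← mul_assoc, ← mul_pow, inv_mul_cancel₀ hx0, one_pow, one_mul]
    rw [hφ]
    refine Submodule.sum_mem _ fun i _ => ?_
    induction p i using Polynomial.induction_on' with
    | add q r hq hr =>
      rw [map_add, add_mul, mul_add]
      exact Submodule.add_mem _ hq hr
    | monomial j a =>
      have e1 : x⁻¹ ^ k * (aeval x (monomial j a) * e i) =
          a • (x ^ ((j : ℤ) - (k : ℤ)) * e i) := by
        rw [aeval_monomial, zpow_sub₀ hx0, zpow_natCast, zpow_natCast, Algebra.smul_def,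
          div_eq_mul_inv, inv_pow]
        ring
      rw [e1]
      exact Submodule.smul_mem _ _ (key i _)
  have hmap : (chartMid K x).map (chartFin K x ⊔ chartInf K x).mkQ ≤
      T.map (chartFin K x ⊔ chartInf K x).mkQ := by
    rintro _ ⟨φ, hφ, rfl⟩
    obtain ⟨u, hu, t, ht, rfl⟩ := Submodule.mem_sup.mp (hle hφ)
    refine ⟨t, ht, ?_⟩
    rw [map_add, (Submodule.mkQ_apply _ u).trans ((Submodule.Quotient.mk_eq_zero _).mpr hu),
      zero_add]
  have hfinT : Module.Finite K (T.map (chartFin K x ⊔ chartInf K x).mkQ) :=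
    Module.Finite.map T _
  exact Submodule.finiteDimensional_of_le hmap

/-- `Ω(F, x)` is finite-dimensional (no hypothesis beyond `F / K(x)` finite separable). -/
theorem finite_omega' {x : F} (hx : Transcendental K x)
    [FiniteDimensional K⟮x⟯ F] [Algebra.IsSeparable K⟮x⟯ F] : Module.Finite K (omega K x) :=
  have := finite_chartGenus (K := K) hx
  finite_omega hx

/-- **Chart duality (DU1)**, unbundled consumer form with finiteness included. -/
theorem finite_and_finrank_eq_of_charts {x : F} (hx : Transcendental K x)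
    [FiniteDimensional K⟮x⟯ F] [Algebra.IsSeparable K⟮x⟯ F]
    (Ω B1 B2 B12 : Submodule K F)
    (hΩ : ∀ y, y ∈ Ω ↔
      (∀ b : F, IsIntegral (Algebra.adjoin K {x}) b →
        ∃ p : K[X], ((Algebra.trace K⟮x⟯ F (y * b) : K⟮x⟯) : F) = x * aeval x p) ∧
      (∀ b : F, IsIntegral (Algebra.adjoin K {x⁻¹}) b →
        ∃ p : K[X], ((Algebra.trace K⟮x⟯ F (y * b) : K⟮x⟯) : F) = x⁻¹ * aeval x⁻¹ p))
    (hB1 : ∀ φ, φ ∈ B1 ↔ IsIntegral (Algebra.adjoin K {x}) φ)
    (hB2 : ∀ φ, φ ∈ B2 ↔ IsIntegral (Algebra.adjoin K {x⁻¹}) φ)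
    (hB12 : ∀ φ, φ ∈ B12 ↔ ∃ n : ℕ, x ^ n * φ ∈ B1) :
    Module.Finite K (B12.map (B1 ⊔ B2).mkQ) ∧ Module.Finite K Ω ∧
      finrank K Ω = finrank K (B12.map (B1 ⊔ B2).mkQ) := by
  have h := finrank_eq_of_charts hx Ω B1 B2 B12 hΩ hB1 hB2 hB12
  have hfin : Module.Finite K (B12.map (B1 ⊔ B2).mkQ) := by
    obtain rfl : B1 = chartFin K x := Submodule.ext fun φ => (hB1 φ).trans mem_chartFin.symm
    obtain rfl : B2 = chartInf K x := Submodule.ext fun φ => (hB2 φ).trans mem_chartInf.symm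
    obtain rfl : B12 = chartMid K x := Submodule.ext fun φ => (hB12 φ).trans mem_chartMid.symm
    exact finite_chartGenus hx
  exact ⟨hfin, h.2 hfin, h.1⟩

end Serre

end Fermat.Agent.S18.helper3927
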