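import Mathlib

/-!
# S18-DU4: reduction of regular chart differentials and the chart-genus inequality

Mathlib-only, hypothesis-passing.

* `trace_eq_algebraMap_mul_of_pow_eq` : nilpotent-trace criterion over an integrally closed
  domain (via embeddings; no freeness of the integral closure is needed).
* `TraceCrit`, `traceCrit_adjoin_simple`, `traceCrit_of_eq`, `traceCrit_inv` : the criterion on a
  function field `Fk` over `k⟮t⟯` (`t` transcendental), for the two charts `t = x` and `t = x⁻¹`.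
* `IsOmega`, `omega` : regular chart differentials `Ω(F, x)`.
* `isOmega_of_cert` : certificates `(P y)^M ∈ x P B₁`, `(P' y)^M' ∈ x⁻¹ P' B₂` imply `y ∈ Ω`.
* `cert_red` : certificates reduce along a valuation subring, given integrality transfer.
* `isOmega_red`, `finrank_omega_le` : reduction of `Ω` and the inequality of dimensions.
-/

set_option autoImplicit false

namespace Fermat.Agent.S18.helper4445

open Polynomial IntermediateField

section TraceAbstract

/-- **Nilpotent-trace criterion** (embedding form). `R` an integrally closed domain with fraction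
field `K`, `F / K` finite separable, `b ∈ F` integral over `R` with `b ^ M = q * z`, `z` integral,
and `q ∈ R` "radical" (`q ∣ r ^ N → q ∣ r`). Then `Tr_{F/K} b ∈ q R`. -/
theorem trace_eq_algebraMap_mul_of_pow_eq
    {R K F : Type*} [CommRing R] [IsDomain R] [IsIntegrallyClosed R] [Field K] [Field F]
    [Algebra R K] [IsFractionRing R K] [Algebra K F] [Algebra R F] [IsScalarTower R K F]
    [FiniteDimensional K F] [Algebra.IsSeparable K F]
    (q : R) (hq : ∀ (r : R) (N : ℕ), q ∣ r ^ N → q ∣ r) (b z : F) (hbi : IsIntegral R b)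
    (hz : IsIntegral R z) (M : ℕ) (hb : b ^ M = algebraMap R F q * z) :
    ∃ r : R, Algebra.trace K F b = algebraMap R K (q * r) := by
  classical
  have hs : algebraMap K (AlgebraicClosure K) (Algebra.trace K F b) =
      ∑ σ : F →ₐ[K] AlgebraicClosure K, σ b := trace_eq_sum_embeddings (AlgebraicClosure K)
  have hσb : ∀ σ : F →ₐ[K] AlgebraicClosure K, IsIntegral R (σ b) := fun σ => hbi.map σ
  have hσz : ∀ σ : F →ₐ[K] AlgebraicClosure K, IsIntegral R (σ z) := fun σ => hz.map σ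
  have hmem : ∀ σ : F →ₐ[K] AlgebraicClosure K,
      (⟨σ b, hσb σ⟩ : integralClosure R (AlgebraicClosure K)) ∈
        (Ideal.span {algebraMap R (integralClosure R (AlgebraicClosure K)) q}).radical := by
    intro σ
    refine ⟨M, ?_⟩
    rw [Ideal.mem_span_singleton']
    refine ⟨⟨σ z, hσz σ⟩, ?_⟩
    apply Subtype.ext
    have h1 : σ (algebraMap R F q) = algebraMap R (AlgebraicClosure K) q := by
      rw [IsScalarTower.algebraMap_apply R K F, AlgHom.commutes,
        ← IsScalarTower.algebraMap_apply R K (AlgebraicClosure K)]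
    simp only [MulMemClass.coe_mul, SubmonoidClass.coe_pow, Subalgebra.coe_algebraMap]
    rw [← map_pow, hb, map_mul, h1, mul_comm]
  have hsum : (∑ σ : F →ₐ[K] AlgebraicClosure K,
      (⟨σ b, hσb σ⟩ : integralClosure R (AlgebraicClosure K))) ∈
        (Ideal.span {algebraMap R (integralClosure R (AlgebraicClosure K)) q}).radical :=
    Ideal.sum_mem _ (fun σ _ => hmem σ)
  obtain ⟨N, hN⟩ := hsum
  rw [Ideal.mem_span_singleton'] at hN
  obtain ⟨c, hc⟩ := hN
  have hc' : (c : AlgebraicClosure K) * algebraMap R (AlgebraicClosure K) q =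
      algebraMap K (AlgebraicClosure K) (Algebra.trace K F b) ^ N := by
    have := congrArg (Subtype.val) hc
    simp only [MulMemClass.coe_mul, SubmonoidClass.coe_pow, Subalgebra.coe_algebraMap,
      AddSubmonoidClass.coe_finsetSum] at this
    rw [this, hs]
  have hinj : Function.Injective (algebraMap K (AlgebraicClosure K)) :=
    FaithfulSMul.algebraMap_injective K (AlgebraicClosure K)
  have hT : IsIntegral R (Algebra.trace K F b) := by
    rw [← isIntegral_algebraMap_iff hinj, hs]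
    exact IsIntegral.sum _ (fun σ _ => hσb σ)
  obtain ⟨r0, hr0⟩ := IsIntegrallyClosed.isIntegral_iff.mp hT
  have hinjR : Function.Injective (algebraMap R K) := IsFractionRing.injective R K
  have hdvd : q ∣ r0 ^ N := by
    by_cases hq0 : q = 0
    · have h0 : algebraMap K (AlgebraicClosure K) (Algebra.trace K F b ^ N) = 0 := by
        rw [map_pow, ← hc', hq0, map_zero, mul_zero]
      have h1 : Algebra.trace K F b ^ N = 0 := by
        apply hinj
        rw [h0, map_zero]
      have h2 : r0 ^ N = 0 := by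
        apply hinjR
        rw [map_pow, hr0, h1, map_zero]
      rw [h2]
      exact dvd_zero q
    · have hqK : algebraMap R K q ≠ 0 := fun h => hq0 (hinjR (by rw [h, map_zero]))
      have hcK : algebraMap K (AlgebraicClosure K) (Algebra.trace K F b ^ N / algebraMap R K q) =
          (c : AlgebraicClosure K) := by
        have hqΩ : algebraMap K (AlgebraicClosure K) (algebraMap R K q) ≠ 0 := fun h =>
          hqK (hinj (by rw [h, map_zero]))
        rw [map_div₀, map_pow, ← hc', IsScalarTower.algebraMap_apply R K (AlgebraicClosure K),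
          mul_div_assoc, div_self hqΩ, mul_one]
      have hci : IsIntegral R (Algebra.trace K F b ^ N / algebraMap R K q) := by
        rw [← isIntegral_algebraMap_iff hinj, hcK]
        exact c.2
      obtain ⟨r1, hr1⟩ := IsIntegrallyClosed.isIntegral_iff.mp hci
      refine ⟨r1, ?_⟩
      apply hinjR
      rw [map_pow, hr0, map_mul, hr1, mul_div_cancel₀ _ hqK]
  obtain ⟨r, hr⟩ := hq r0 N hdvd
  exact ⟨r, by rw [← hr, hr0]⟩

end TraceAbstract

section TraceCrit

open scoped IntermediateField.algebraAdjoinAdjoin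

/-- The **trace criterion** for the chart parameter `t` over the base field `E` (in the
applications `E = k⟮x⟯` and `t = x` or `t = x⁻¹`): if `Q` is squarefree, `Q(t) y` is integral over
`k[t]` and `(Q(t) y)^M ∈ Q(t) B` (`B` the integral closure of `k[t]`), then `Tr_{Fk/E} y ∈ k[t]`. -/
def TraceCrit (k : Type*) {Fk : Type*} [Field k] [Field Fk] [Algebra k Fk]
    (E : IntermediateField k Fk) (t : Fk) : Prop :=
  ∀ (Q : k[X]) (y : Fk) (M : ℕ), Squarefree Q →
    IsIntegral (Algebra.adjoin k {t}) (aeval t Q * y) →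
    (∃ z : Fk, IsIntegral (Algebra.adjoin k {t}) z ∧ (aeval t Q * y) ^ M = aeval t Q * z) →
    ∃ p : k[X], ((Algebra.trace E Fk y : E) : Fk) = aeval t p

variable {k Fk : Type*} [Field k] [Field Fk] [Algebra k Fk]

theorem isIntegrallyClosed_adjoin_of_transcendental (t : Fk) (ht : Transcendental k t) :
    IsIntegrallyClosed (Algebra.adjoin k {t}) := by
  have hinj : Function.Injective (aeval (R := k) t) := transcendental_iff_injective.mp ht
  let e1 : k[X] ≃ₐ[k] (aeval (R := k) t).range := AlgEquiv.ofInjective (aeval t) hinj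
  let e2 : (aeval (R := k) t).range ≃ₐ[k] Algebra.adjoin k {t} :=
    Subalgebra.equivOfEq _ _ (Algebra.adjoin_singleton_eq_range_aeval k t).symm
  exact IsIntegrallyClosed.of_equiv (e1.trans e2).toRingEquiv

theorem traceCrit_adjoin_simple (t : Fk) (ht : Transcendental k t)
    [FiniteDimensional k⟮t⟯ Fk] [Algebra.IsSeparable k⟮t⟯ Fk] : TraceCrit k k⟮t⟯ t := by
  intro Q y M hQ hb hz
  obtain ⟨z, hzi, hz⟩ := hz
  have hinj : Function.Injective (aeval (R := k) t) := transcendental_iff_injective.mp ht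
  have := isIntegrallyClosed_adjoin_of_transcendental t ht
  have hmemQ : aeval t Q ∈ Algebra.adjoin k {t} := by
    rw [Algebra.adjoin_singleton_eq_range_aeval]; exact ⟨Q, rfl⟩
  have hQ0 : Q ≠ 0 := hQ.ne_zero
  -- radical property of `q`
  have hrad : ∀ (r : Algebra.adjoin k {t}) (N : ℕ),
      (⟨aeval t Q, hmemQ⟩ : Algebra.adjoin k {t}) ∣ r ^ N →
        (⟨aeval t Q, hmemQ⟩ : Algebra.adjoin k {t}) ∣ r := by
    rintro ⟨r, hr⟩ N ⟨⟨c, hc⟩, hrc⟩
    rw [Algebra.adjoin_singleton_eq_range_aeval] at hr hc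
    obtain ⟨p, rfl⟩ := hr
    obtain ⟨c0, rfl⟩ := hc
    have h1 : aeval t (p ^ N) = aeval t (Q * c0) := by
      have := congrArg Subtype.val hrc
      simpa using this
    have h2 : p ^ N = Q * c0 := hinj h1
    have h3 : Q ∣ p := by
      by_cases hN : N = 0
      · subst hN
        rw [pow_zero] at h2
        exact (IsUnit.of_mul_eq_one _ h2.symm).dvd
      · exact (hQ.dvd_pow_iff_dvd hN).mp ⟨c0, h2⟩
    obtain ⟨p1, rfl⟩ := h3
    refine ⟨⟨aeval t p1, by rw [Algebra.adjoin_singleton_eq_range_aeval]; exact ⟨p1, rfl⟩⟩, ?_⟩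
    apply Subtype.ext
    simp
  obtain ⟨r, hr⟩ := trace_eq_algebraMap_mul_of_pow_eq (R := Algebra.adjoin k {t}) (K := k⟮t⟯)
    (F := Fk) ⟨aeval t Q, hmemQ⟩ hrad (aeval t Q * y) z hb hzi M hz
  -- `Tr (q • y) = q * Tr y`
  have hqE : algebraMap (Algebra.adjoin k {t}) k⟮t⟯ ⟨aeval t Q, hmemQ⟩ ≠ 0 := by
    intro h
    have h1 : (aeval t Q : Fk) = 0 := by
      have := congrArg (Subtype.val) h
      simpa using this
    exact hQ0 (hinj (by rw [h1, map_zero]))
  have hsm : aeval t Q * y =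
      (algebraMap (Algebra.adjoin k {t}) k⟮t⟯ ⟨aeval t Q, hmemQ⟩) • y := by
    rw [Algebra.smul_def]
    rfl
  rw [hsm, map_smul, smul_eq_mul, map_mul] at hr
  have hr' : Algebra.trace k⟮t⟯ Fk y = algebraMap (Algebra.adjoin k {t}) k⟮t⟯ r :=
    mul_left_cancel₀ hqE hr
  obtain ⟨r, hrm⟩ := r
  have hrm' := hrm
  rw [Algebra.adjoin_singleton_eq_range_aeval] at hrm'
  obtain ⟨p, hp⟩ := hrm'
  refine ⟨p, ?_⟩
  rw [hr']
  exact hp.symm

theorem traceCrit_of_eq (E : IntermediateField k Fk) (t : Fk) (hE : E = k⟮t⟯)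
    (ht : Transcendental k t) [FiniteDimensional E Fk] [Algebra.IsSeparable E Fk] :
    TraceCrit k E t := by
  subst hE
  exact traceCrit_adjoin_simple t ht

theorem adjoin_simple_inv_eq (x : Fk) : k⟮x⁻¹⟯ = k⟮x⟯ := by
  apply le_antisymm
  · rw [adjoin_simple_le_iff]
    exact inv_mem (mem_adjoin_simple_self k x)
  · rw [adjoin_simple_le_iff]
    have := inv_mem (mem_adjoin_simple_self k x⁻¹)
    rwa [inv_inv] at this

theorem transcendental_inv {x : Fk} (hx : Transcendental k x) : Transcendental k x⁻¹ := by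
  intro h
  apply hx
  have h1 : IsAlgebraic k (x⁻¹)⁻¹ := h.inv
  rwa [inv_inv] at h1

/-- The trace criterion on the chart `x⁻¹`, with base field still written `k⟮x⟯`. -/
theorem traceCrit_inv (x : Fk) (hx : Transcendental k x)
    [FiniteDimensional k⟮x⟯ Fk] [Algebra.IsSeparable k⟮x⟯ Fk] : TraceCrit k k⟮x⟯ x⁻¹ :=
  traceCrit_of_eq k⟮x⟯ x⁻¹ (adjoin_simple_inv_eq x).symm (transcendental_inv hx)

end TraceCrit

section Omega

/-- `y` is a **regular chart differential** of `F` with respect to `x` (i.e. `y dx/x` is regular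
everywhere): `Tr_{F/L(x)}(y B₁) ⊆ x L[x]` and `Tr_{F/L(x)}(y B₂) ⊆ x⁻¹ L[x⁻¹]`, where `B₁`, `B₂`
are the integral closures of `L[x]`, `L[x⁻¹]` in `F`. -/
def IsOmega (L : Type*) {F : Type*} [Field L] [Field F] [Algebra L F] (x y : F) : Prop :=
  (∀ b : F, IsIntegral (Algebra.adjoin L {x}) b →
      ∃ p : L[X], ((Algebra.trace L⟮x⟯ F (y * b) : L⟮x⟯) : F) = x * aeval x p) ∧
  (∀ b : F, IsIntegral (Algebra.adjoin L {x⁻¹}) b →
      ∃ p : L[X], ((Algebra.trace L⟮x⟯ F (y * b) : L⟮x⟯) : F) = x⁻¹ * aeval x⁻¹ p)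

variable {L F : Type*} [Field L] [Field F] [Algebra L F]

theorem IsOmega.zero (x : F) : IsOmega L x 0 := by
  refine ⟨fun b _ => ⟨0, by simp⟩, fun b _ => ⟨0, by simp⟩⟩

theorem IsOmega.add {x y₁ y₂ : F} (h₁ : IsOmega L x y₁) (h₂ : IsOmega L x y₂) :
    IsOmega L x (y₁ + y₂) := by
  refine ⟨fun b hb => ?_, fun b hb => ?_⟩
  · obtain ⟨p₁, hp₁⟩ := h₁.1 b hb
    obtain ⟨p₂, hp₂⟩ := h₂.1 b hb
    refine ⟨p₁ + p₂, ?_⟩
    rw [add_mul, map_add, AddMemClass.coe_add, hp₁, hp₂, map_add, mul_add]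
  · obtain ⟨p₁, hp₁⟩ := h₁.2 b hb
    obtain ⟨p₂, hp₂⟩ := h₂.2 b hb
    refine ⟨p₁ + p₂, ?_⟩
    rw [add_mul, map_add, AddMemClass.coe_add, hp₁, hp₂, map_add, mul_add]

theorem trace_smul_coe (x : F) (c : L) (v : F) :
    ((Algebra.trace L⟮x⟯ F (c • v) : L⟮x⟯) : F) =
      algebraMap L F c * ((Algebra.trace L⟮x⟯ F v : L⟮x⟯) : F) := by
  have h : c • v = (algebraMap L L⟮x⟯ c) • v := by
    rw [algebraMap_smul]
  rw [h, map_smul, smul_eq_mul, MulMemClass.coe_mul]
  rfl

theorem IsOmega.smul {x y : F} (c : L) (h : IsOmega L x y) : IsOmega L x (c • y) := by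
  refine ⟨fun b hb => ?_, fun b hb => ?_⟩
  · obtain ⟨p, hp⟩ := h.1 b hb
    refine ⟨C c * p, ?_⟩
    rw [smul_mul_assoc, trace_smul_coe, hp, map_mul, aeval_C]
    ring
  · obtain ⟨p, hp⟩ := h.2 b hb
    refine ⟨C c * p, ?_⟩
    rw [smul_mul_assoc, trace_smul_coe, hp, map_mul, aeval_C]
    ring

/-- The space `Ω(F, x)` of regular chart differentials, as an `L`-subspace of `F`. -/
def omega (L : Type*) {F : Type*} [Field L] [Field F] [Algebra L F] (x : F) : Submodule L F where
  carrier := {y | IsOmega L x y}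
  add_mem' := fun h₁ h₂ => IsOmega.add h₁ h₂
  zero_mem' := IsOmega.zero x
  smul_mem' := fun c _ h => IsOmega.smul c h

@[simp] theorem mem_omega {x y : F} : y ∈ omega L x ↔ IsOmega L x y := Iff.rfl

end Omega

section Cert

variable {k Fk : Type*} [Field k] [Field Fk] [Algebra k Fk]

theorem isIntegral_adjoin_of_mem {t a : Fk} (ha : a ∈ Algebra.adjoin k {t}) :
    IsIntegral (Algebra.adjoin k {t}) a :=
  isIntegral_algebraMap (R := Algebra.adjoin k {t}) (A := Fk) (x := ⟨a, ha⟩)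

theorem aeval_mem_adjoin_singleton (t : Fk) (P : k[X]) : aeval t P ∈ Algebra.adjoin k {t} := by
  rw [Algebra.adjoin_singleton_eq_range_aeval]; exact ⟨P, rfl⟩

/-- One chart: a certificate `(P(t) y)^M ∈ t P(t) B` (with `X * P` squarefree) gives the trace
condition `Tr(y φ) ∈ t k[t]` for every `φ ∈ B` (the integral closure of `k[t]`). -/
theorem trace_chart_of_cert (E : IntermediateField k Fk) (t : Fk) (htE : t ∈ E) (ht0 : t ≠ 0)
    (hTC : TraceCrit k E t) (y : Fk) (Pb : k[X]) (hsq : Squarefree (X * Pb)) (M : ℕ) (hM : 0 < M)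
    (h : ∃ zb : Fk, IsIntegral (Algebra.adjoin k {t}) zb ∧
      (aeval t Pb * y) ^ M = t * aeval t Pb * zb)
    (φ : Fk) (hφ : IsIntegral (Algebra.adjoin k {t}) φ) :
    ∃ p : k[X], ((Algebra.trace E Fk (y * φ) : E) : Fk) = t * aeval t p := by
  obtain ⟨zb, hzb, hz⟩ := h
  have ht_int : IsIntegral (Algebra.adjoin k {t}) t :=
    isIntegral_adjoin_of_mem (Algebra.self_mem_adjoin_singleton k t)
  have hP_int : IsIntegral (Algebra.adjoin k {t}) (aeval t Pb) :=
    isIntegral_adjoin_of_mem (aeval_mem_adjoin_singleton t Pb)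
  have hb : IsIntegral (Algebra.adjoin k {t}) (aeval t Pb * y) :=
    IsIntegral.of_pow hM (by rw [hz]; exact (ht_int.mul hP_int).mul hzb)
  have e : aeval t (X * Pb) * (y * φ / t) = (aeval t Pb * y) * φ := by
    rw [map_mul, aeval_X]
    field_simp
  obtain ⟨p, hp⟩ := hTC (X * Pb) (y * φ / t) M hsq (by rw [e]; exact hb.mul hφ)
    ⟨zb * φ ^ M, hzb.mul (hφ.pow M), by
      rw [e, mul_pow, hz, map_mul, aeval_X]; ring⟩
  refine ⟨p, ?_⟩
  have hsm : y * φ = (⟨t, htE⟩ : E) • (y * φ / t) := by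
    rw [Algebra.smul_def]
    show y * φ = t * (y * φ / t)
    field_simp
  rw [hsm, map_smul, smul_eq_mul, MulMemClass.coe_mul, hp]

/-- **Certificates imply regularity** (any characteristic): if `X * P` and `X * P'` are squarefree
and `(P(x) y)^M ∈ x P(x) B₁`, `(P'(x⁻¹) y)^M' ∈ x⁻¹ P'(x⁻¹) B₂`, then `y ∈ Ω(Fk, x)`. -/
theorem isOmega_of_cert (x : Fk) (hx0 : x ≠ 0)
    (hTC₁ : TraceCrit k k⟮x⟯ x) (hTC₂ : TraceCrit k k⟮x⟯ x⁻¹) (y : Fk)
    (Pb : k[X]) (hsq : Squarefree (X * Pb)) (M : ℕ) (hM : 0 < M)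
    (h₁ : ∃ zb : Fk, IsIntegral (Algebra.adjoin k {x}) zb ∧
      (aeval x Pb * y) ^ M = x * aeval x Pb * zb)
    (Pb' : k[X]) (hsq' : Squarefree (X * Pb')) (M' : ℕ) (hM' : 0 < M')
    (h₂ : ∃ zb : Fk, IsIntegral (Algebra.adjoin k {x⁻¹}) zb ∧
      (aeval x⁻¹ Pb' * y) ^ M' = x⁻¹ * aeval x⁻¹ Pb' * zb) :
    IsOmega k x y :=
  ⟨fun φ hφ => trace_chart_of_cert k⟮x⟯ x (mem_adjoin_simple_self k x) hx0 hTC₁ y Pb hsq M hM
      h₁ φ hφ,
   fun φ hφ => trace_chart_of_cert k⟮x⟯ x⁻¹ (inv_mem (mem_adjoin_simple_self k x))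
      (inv_ne_zero hx0) hTC₂ y Pb' hsq' M' hM' h₂ φ hφ⟩

variable {L F : Type*} [Field L] [Field F] [Algebra L F]

/-- **Certificates reduce.** `O` a valuation subring of `F` with a ring hom `red : O →+* Fk` killing
the non-units, integrality transfer `hIT` on the chart `t ↦ tb`, `s` with nonzero reduction:
an integrality certificate `(w y)^M ∈ s B` reduces to `(w̄ ȳ)^M ∈ s̄ B̄`. -/
theorem cert_red (O : ValuationSubring F) (red : O →+* Fk)
    (hker : ∀ g : O, ¬ IsUnit g → red g = 0) (t : F) (tb : Fk)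
    (hIT : ∀ g : O, IsIntegral (Algebra.adjoin L {t}) (g : F) →
      IsIntegral (Algebra.adjoin k {tb}) (red g))
    (w s y : O) (hs : red s ≠ 0) (M : ℕ)
    (hcert : ∃ z : F, IsIntegral (Algebra.adjoin L {t}) z ∧ ((w : F) * y) ^ M = (s : F) * z) :
    ∃ zb : Fk, IsIntegral (Algebra.adjoin k {tb}) zb ∧ (red w * red y) ^ M = red s * zb := by
  obtain ⟨z, hzi, hz⟩ := hcert
  have hsu : IsUnit s := by
    by_contra h
    exact hs (hker s h)
  obtain ⟨u, rfl⟩ := hsu
  have hu0 : ((u : O) : F) ≠ 0 := by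
    intro h
    have h1 : ((u : O) : F) * ((u⁻¹ : Oˣ) : O) = 1 := by
      rw [← MulMemClass.coe_mul, Units.mul_inv]; rfl
    rw [h, zero_mul] at h1
    exact zero_ne_one h1
  have hz' : (((u⁻¹ : Oˣ) : O) * (w * y) ^ M : O) = z := by
    apply mul_left_cancel₀ hu0
    rw [← hz, MulMemClass.coe_mul, ← mul_assoc, ← MulMemClass.coe_mul, Units.mul_inv]
    simp
  refine ⟨red (((u⁻¹ : Oˣ) : O) * (w * y) ^ M), hIT _ (by rw [hz']; exact hzi), ?_⟩
  rw [← map_mul, ← map_pow, ← map_mul, ← mul_assoc, Units.mul_inv, one_mul]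

/-- **Reduction of regular chart differentials.** -/
theorem isOmega_red (O : ValuationSubring F) (red : O →+* Fk)
    (hker : ∀ g : O, ¬ IsUnit g → red g = 0) (x xi : O) (hxi : x * xi = 1)
    (hIT₁ : ∀ g : O, IsIntegral (Algebra.adjoin L {(x : F)}) (g : F) →
      IsIntegral (Algebra.adjoin k {red x}) (red g))
    (hIT₂ : ∀ g : O, IsIntegral (Algebra.adjoin L {(x : F)⁻¹}) (g : F) →
      IsIntegral (Algebra.adjoin k {(red x)⁻¹}) (red g))
    (hTC₁ : TraceCrit k k⟮red x⟯ (red x)) (hTC₂ : TraceCrit k k⟮red x⟯ (red x)⁻¹)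
    (w₁ : O) (Pb : k[X]) (hw₁ : red w₁ = aeval (red x) Pb) (hw₁0 : red w₁ ≠ 0)
    (hsq : Squarefree (X * Pb)) (M : ℕ) (hM : 0 < M)
    (w₂ : O) (Pb' : k[X]) (hw₂ : red w₂ = aeval (red x)⁻¹ Pb') (hw₂0 : red w₂ ≠ 0)
    (hsq' : Squarefree (X * Pb')) (M' : ℕ) (hM' : 0 < M')
    (y : O)
    (hc₁ : ∃ z : F, IsIntegral (Algebra.adjoin L {(x : F)}) z ∧
      ((w₁ : F) * y) ^ M = (x : F) * w₁ * z)
    (hc₂ : ∃ z : F, IsIntegral (Algebra.adjoin L {(x : F)⁻¹}) z ∧
      ((w₂ : F) * y) ^ M' = (x : F)⁻¹ * w₂ * z) :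
    IsOmega k (red x) (red y) := by
  have hredx : red x * red xi = 1 := by rw [← map_mul, hxi, map_one]
  have hx0 : red x ≠ 0 := left_ne_zero_of_mul_eq_one hredx
  have hxi0 : red xi ≠ 0 := right_ne_zero_of_mul_eq_one hredx
  have hredxi : red xi = (red x)⁻¹ := eq_inv_of_mul_eq_one_right hredx
  have hxiF : (xi : F) = (x : F)⁻¹ := by
    apply eq_inv_of_mul_eq_one_right
    rw [← MulMemClass.coe_mul, hxi]; rfl
  refine isOmega_of_cert (red x) hx0 hTC₁ hTC₂ (red y) Pb hsq M hM ?_ Pb' hsq' M' hM' ?_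
  · have h := cert_red (L := L) O red hker (x : F) (red x) hIT₁ w₁ (x * w₁) y
      (by rw [map_mul]; exact mul_ne_zero hx0 hw₁0) M
      (by simpa only [MulMemClass.coe_mul] using hc₁)
    simpa only [map_mul, hw₁] using h
  · have h := cert_red (L := L) O red hker (x : F)⁻¹ (red x)⁻¹ hIT₂ w₂ (xi * w₂) y
      (by rw [map_mul]; exact mul_ne_zero hxi0 hw₂0) M'
      (by simpa only [MulMemClass.coe_mul, hxiF] using hc₂)
    simpa only [map_mul, hw₂, hredxi] using h

/-- **Chart-genus inequality, existence form**: an orthonormal basis of `Ω(F, x)` (a spanning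
family in `O` whose reductions are linearly independent) all of whose members have certificates
reduces to a linearly independent family of the same size inside `Ω(Fk, x̄)`. -/
theorem exists_linearIndependent_omega_red (O : ValuationSubring F) (red : O →+* Fk)
    (hker : ∀ g : O, ¬ IsUnit g → red g = 0) (x xi : O) (hxi : x * xi = 1)
    (hIT₁ : ∀ g : O, IsIntegral (Algebra.adjoin L {(x : F)}) (g : F) →
      IsIntegral (Algebra.adjoin k {red x}) (red g))
    (hIT₂ : ∀ g : O, IsIntegral (Algebra.adjoin L {(x : F)⁻¹}) (g : F) →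
      IsIntegral (Algebra.adjoin k {(red x)⁻¹}) (red g))
    (hTC₁ : TraceCrit k k⟮red x⟯ (red x)) (hTC₂ : TraceCrit k k⟮red x⟯ (red x)⁻¹)
    (w₁ : O) (Pb : k[X]) (hw₁ : red w₁ = aeval (red x) Pb) (hw₁0 : red w₁ ≠ 0)
    (hsq : Squarefree (X * Pb)) (M : ℕ) (hM : 0 < M)
    (w₂ : O) (Pb' : k[X]) (hw₂ : red w₂ = aeval (red x)⁻¹ Pb') (hw₂0 : red w₂ ≠ 0)
    (hsq' : Squarefree (X * Pb')) (M' : ℕ) (hM' : 0 < M')
    (hcert₁ : ∀ y : O, IsOmega L (x : F) (y : F) →
      ∃ z : F, IsIntegral (Algebra.adjoin L {(x : F)}) z ∧ ((w₁ : F) * y) ^ M = (x : F) * w₁ * z)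
    (hcert₂ : ∀ y : O, IsOmega L (x : F) (y : F) →
      ∃ z : F, IsIntegral (Algebra.adjoin L {(x : F)⁻¹}) z ∧
        ((w₂ : F) * y) ^ M' = (x : F)⁻¹ * w₂ * z)
    {n : ℕ} (e : Fin n → O) (he : ∀ i, IsOmega L (x : F) (e i : F))
    (hspan : omega L (x : F) ≤ Submodule.span L (Set.range fun i => (e i : F)))
    (hind : LinearIndependent k (fun i => red (e i))) :
    Module.finrank L (omega L (x : F)) ≤ n ∧
      ∃ f : Fin n → omega k (red x), LinearIndependent k f := by
  constructor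
  · have hfin : Module.Finite L (Submodule.span L (Set.range fun i => (e i : F))) :=
      FiniteDimensional.span_of_finite L (Set.finite_range _)
    calc Module.finrank L (omega L (x : F))
        ≤ Module.finrank L (Submodule.span L (Set.range fun i => (e i : F))) :=
          Submodule.finrank_mono hspan
      _ ≤ Fintype.card (Fin n) := finrank_range_le_card _
      _ = n := Fintype.card_fin n
  · refine ⟨fun i => ⟨red (e i), isOmega_red O red hker x xi hxi hIT₁ hIT₂ hTC₁ hTC₂ w₁ Pb hw₁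
      hw₁0 hsq M hM w₂ Pb' hw₂ hw₂0 hsq' M' hM' (e i) (hcert₁ (e i) (he i)) (hcert₂ (e i) (he i))⟩,
      ?_⟩
    exact LinearIndependent.of_comp (omega k (red x)).subtype hind

/-- **Chart-genus inequality** `dim_L Ω(F, x) ≤ dim_k Ω(Fk, x̄)`, packaged: `x̄` transcendental over
`k`, `Fk / k(x̄)` finite separable (this discharges the trace criterion on both charts),
integrality transfer on both charts, tame certificates for every element of `Ω(F, x) ∩ O`, and an
orthonormal basis of `Ω(F, x)`. -/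
theorem finrank_omega_le (O : ValuationSubring F) (red : O →+* Fk)
    (hker : ∀ g : O, ¬ IsUnit g → red g = 0) (x xi : O) (hxi : x * xi = 1)
    (hxt : Transcendental k (red x))
    [FiniteDimensional k⟮red x⟯ Fk] [Algebra.IsSeparable k⟮red x⟯ Fk]
    (hIT₁ : ∀ g : O, IsIntegral (Algebra.adjoin L {(x : F)}) (g : F) →
      IsIntegral (Algebra.adjoin k {red x}) (red g))
    (hIT₂ : ∀ g : O, IsIntegral (Algebra.adjoin L {(x : F)⁻¹}) (g : F) →
      IsIntegral (Algebra.adjoin k {(red x)⁻¹}) (red g))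
    (w₁ : O) (Pb : k[X]) (hw₁ : red w₁ = aeval (red x) Pb)
    (hsq : Squarefree (X * Pb)) (M : ℕ) (hM : 0 < M)
    (w₂ : O) (Pb' : k[X]) (hw₂ : red w₂ = aeval (red x)⁻¹ Pb')
    (hsq' : Squarefree (X * Pb')) (M' : ℕ) (hM' : 0 < M')
    (hcert₁ : ∀ y : O, IsOmega L (x : F) (y : F) →
      ∃ z : F, IsIntegral (Algebra.adjoin L {(x : F)}) z ∧ ((w₁ : F) * y) ^ M = (x : F) * w₁ * z)
    (hcert₂ : ∀ y : O, IsOmega L (x : F) (y : F) →
      ∃ z : F, IsIntegral (Algebra.adjoin L {(x : F)⁻¹}) z ∧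
        ((w₂ : F) * y) ^ M' = (x : F)⁻¹ * w₂ * z)
    {n : ℕ} (e : Fin n → O) (he : ∀ i, IsOmega L (x : F) (e i : F))
    (hspan : omega L (x : F) ≤ Submodule.span L (Set.range fun i => (e i : F)))
    (hind : LinearIndependent k (fun i => red (e i)))
    [Module.Finite k (omega k (red x))] :
    Module.finrank L (omega L (x : F)) ≤ Module.finrank k (omega k (red x)) := by
  have hinj : Function.Injective (aeval (R := k) (red x)) := transcendental_iff_injective.mp hxt
  have hinj' : Function.Injective (aeval (R := k) (red x)⁻¹) :=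
    transcendental_iff_injective.mp (transcendental_inv hxt)
  have hPb : Pb ≠ 0 := fun h => hsq.ne_zero (by rw [h, mul_zero])
  have hPb' : Pb' ≠ 0 := fun h => hsq'.ne_zero (by rw [h, mul_zero])
  have hw₁0 : red w₁ ≠ 0 := by
    rw [hw₁]; exact fun h => hPb (hinj (by rw [h, map_zero]))
  have hw₂0 : red w₂ ≠ 0 := by
    rw [hw₂]; exact fun h => hPb' (hinj' (by rw [h, map_zero]))
  obtain ⟨h1, f, hf⟩ := exists_linearIndependent_omega_red O red hker x xi hxi hIT₁ hIT₂
    (traceCrit_adjoin_simple (red x) hxt) (traceCrit_inv (red x) hxt)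
    w₁ Pb hw₁ hw₁0 hsq M hM w₂ Pb' hw₂ hw₂0 hsq' M' hM' hcert₁ hcert₂ e he hspan hind
  calc Module.finrank L (omega L (x : F)) ≤ n := h1
    _ = Fintype.card (Fin n) := (Fintype.card_fin n).symm
    _ ≤ Module.finrank k (omega k (red x)) := hf.fintype_card_le_finrank

end Cert

end Fermat.Agent.S18.helper4445
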