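import Mathlib

/-!
# S18: place-free chart Riemann (index count for two charts)

Abstract form: `K` a field, `E` a `K`-vector space, two increasing chains of subspaces
`U b` (think `x⁻ᵇ B₁`) and `V a` (think `xᵃ B₂`) with the same union `B₁₂`, all steps of
relative dimension `d`. Then
`dim (U b ⊓ V a)/(U 0 ⊓ V 0) + dim (U b ⊔ V a)/(U 0 ⊔ V 0) = (a + b) * d`,
and `U b ⊔ V a = B₁₂` as soon as `a` or `b` is large (when `B₁₂/(U 0 ⊔ V 0)` is
finite-dimensional). No places, no divisors, no characteristic hypothesis.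
-/

set_option autoImplicit false

namespace Fermat.Agent.S18.helper4464

open Module Submodule

universe u v

variable {K : Type u} [Field K] {E : Type v} [AddCommGroup E] [Module K E]

/-- Relative dimension `dim W / (W ⊓ P)` (a cardinal), as the dimension of the image of `W`
in `E ⧸ P`. -/
noncomputable def relRank (P W : Submodule K E) : Cardinal.{v} := Module.rank K (W.map P.mkQ)

/-- Relative dimension `dim W / (W ⊓ P)` as a natural number (`0` if infinite). -/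
noncomputable def relDim (P W : Submodule K E) : ℕ := finrank K (W.map P.mkQ)

theorem map_mkQ_inf_of_le {P Q : Submodule K E} (W : Submodule K E) (hPQ : P ≤ Q) :
    W.map P.mkQ ⊓ Q.map P.mkQ = (W ⊓ Q).map P.mkQ := by
  apply le_antisymm
  · rintro y ⟨⟨w, hw, rfl⟩, ⟨q, hq, hqe⟩⟩
    refine ⟨w, ⟨hw, ?_⟩, rfl⟩
    have h1 : q - w ∈ P := (Submodule.Quotient.eq P).mp hqe
    have h2 : w = q - (q - w) := by abel
    rw [h2]
    exact Q.sub_mem hq (hPQ h1)
  · exact le_inf (Submodule.map_mono inf_le_left) (Submodule.map_mono inf_le_right)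

/-- Master lemma: `dim W/(W ⊓ P) = dim W/(W ⊓ Q) + dim (W ⊓ Q)/(W ⊓ P)` for `P ≤ Q`. -/
theorem relRank_eq_add {P Q : Submodule K E} (W : Submodule K E) (hPQ : P ≤ Q) :
    relRank P W = relRank Q W + relRank P (W ⊓ Q) := by
  classical
  set ρ : (E ⧸ P) →ₗ[K] (E ⧸ Q) := P.mapQ Q LinearMap.id (by simpa using hPQ) with hρ
  have hρπ : ρ ∘ₗ P.mkQ = Q.mkQ := by
    ext e; simp [hρ]
  have hrn := LinearMap.rank_range_add_rank_ker (ρ ∘ₗ (W.map P.mkQ).subtype)
  have hrange : LinearMap.range (ρ ∘ₗ (W.map P.mkQ).subtype) = W.map Q.mkQ := by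
    rw [LinearMap.range_comp, Submodule.range_subtype, ← Submodule.map_comp, hρπ]
  have hkerρ : LinearMap.ker ρ = Q.map P.mkQ := by
    rw [hρ, Submodule.mapQ, Submodule.ker_liftQ]
    simp
  have hker : Module.rank K (LinearMap.ker (ρ ∘ₗ (W.map P.mkQ).subtype))
      = Module.rank K ((W ⊓ Q).map P.mkQ) := by
    rw [LinearMap.ker_comp,
      (Submodule.equivSubtypeMap (W.map P.mkQ) (comap (W.map P.mkQ).subtype (LinearMap.ker ρ))).rank_eq,
      Submodule.map_comap_subtype, hkerρ, map_mkQ_inf_of_le W hPQ]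
  rw [hrange, hker] at hrn
  unfold relRank
  exact hrn.symm

theorem relRank_eq_zero {P W : Submodule K E} (h : W ≤ P) : relRank P W = 0 := by
  unfold relRank
  have : W.map P.mkQ = ⊥ := by
    rw [eq_bot_iff]
    rintro y ⟨w, hw, rfl⟩
    simp [h hw]
  rw [this]
  exact rank_bot K (E ⧸ P)

/-- `relRank P W` only depends on `P ⊓ W`. -/
theorem relRank_inf_left (P W : Submodule K E) : relRank (P ⊓ W) W = relRank P W := by
  have h := relRank_eq_add W (inf_le_left : P ⊓ W ≤ P)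
  rw [relRank_eq_zero (P := P ⊓ W) (W := W ⊓ P) (by rw [inf_comm]), add_zero] at h
  exact h

/-- Adding to `W` something contained in `P` does not change `relRank P W`. -/
theorem relRank_sup_right {P R : Submodule K E} (W : Submodule K E) (hR : R ≤ P) :
    relRank P (W ⊔ R) = relRank P W := by
  unfold relRank
  have : R.map P.mkQ = ⊥ := by
    rw [eq_bot_iff]
    rintro y ⟨w, hw, rfl⟩
    simp [hR hw]
  rw [Submodule.map_sup, this, sup_bot_eq]

theorem relRank_mono_right (P : Submodule K E) {W W' : Submodule K E} (h : W ≤ W') :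
    relRank P W ≤ relRank P W' :=
  Submodule.rank_mono (Submodule.map_mono h)

/-- Additivity along a chain `W₀ ≤ W₁ ≤ W₂`. -/
theorem relRank_add_of_le {W₀ W₁ W₂ : Submodule K E} (h₀₁ : W₀ ≤ W₁) (h₁₂ : W₁ ≤ W₂) :
    relRank W₀ W₂ = relRank W₀ W₁ + relRank W₁ W₂ := by
  have h := relRank_eq_add W₂ h₀₁
  rw [inf_eq_right.mpr h₁₂] at h
  rw [h, add_comm]

/-- One step in the first chart: for `U ≤ U'`,
`dim (U' ⊓ V)/(U ⊓ V) + dim (U' ⊔ V)/(U ⊔ V) = dim U'/U`. -/
theorem relRank_step_left {U U' : Submodule K E} (V : Submodule K E) (hU : U ≤ U') :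
    relRank (U ⊓ V) (U' ⊓ V) + relRank (U ⊔ V) (U' ⊔ V) = relRank U U' := by
  have h := relRank_eq_add U' (le_sup_left : U ≤ U ⊔ V)
  have h1 : relRank (U ⊔ V) U' = relRank (U ⊔ V) (U' ⊔ V) :=
    (relRank_sup_right U' le_sup_right).symm
  have h2 : U' ⊓ (U ⊔ V) = (U' ⊓ V) ⊔ U := by
    rw [inf_comm, sup_inf_assoc_of_le V hU, sup_comm, inf_comm]
  have h3 : relRank U (U' ⊓ (U ⊔ V)) = relRank (U ⊓ V) (U' ⊓ V) := by
    rw [h2, relRank_sup_right _ le_rfl, ← relRank_inf_left U (U' ⊓ V)]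
    congr 1
    rw [← inf_assoc, inf_eq_left.mpr hU]
  rw [h, h1, h3, add_comm]

/-- One step in the second chart: for `V ≤ V'`,
`dim (U ⊓ V')/(U ⊓ V) + dim (U ⊔ V')/(U ⊔ V) = dim V'/V`. -/
theorem relRank_step_right (U : Submodule K E) {V V' : Submodule K E} (hV : V ≤ V') :
    relRank (U ⊓ V) (U ⊓ V') + relRank (U ⊔ V) (U ⊔ V') = relRank V V' := by
  have h := relRank_step_left U hV
  rwa [inf_comm V U, inf_comm V' U, sup_comm V U, sup_comm V' U] at h

/-! ## The two-chart index count -/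

section Chains

variable (U V : ℕ → Submodule K E)

/-- **Chart Riemann, cardinal form.** Two increasing chains with all steps of relative
dimension `d`: the "kernel" and the "cokernel" of the two-chart Čech map grow by exactly
`(a + b) * d` in total. -/
theorem relRank_chart (hU : Monotone U) (hV : Monotone V) (d : ℕ)
    (hdU : ∀ n, relRank (U n) (U (n + 1)) = d) (hdV : ∀ n, relRank (V n) (V (n + 1)) = d)
    (a b : ℕ) :
    relRank (U 0 ⊓ V 0) (U b ⊓ V a) + relRank (U 0 ⊔ V 0) (U b ⊔ V a)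
      = (((a + b) * d : ℕ) : Cardinal) := by
  -- first move in the `V`-direction with `U 0` fixed, then in the `U`-direction
  have hV' : ∀ a : ℕ, relRank (U 0 ⊓ V 0) (U 0 ⊓ V a) + relRank (U 0 ⊔ V 0) (U 0 ⊔ V a)
      = ((a * d : ℕ) : Cardinal) := by
    intro a
    induction a with
    | zero =>
      rw [relRank_eq_zero le_rfl, relRank_eq_zero le_rfl]
      simp
    | succ a ih =>
      have hle : V a ≤ V (a + 1) := hV (Nat.le_succ a)
      have hstep := relRank_step_right (U 0) hle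
      rw [hdV a] at hstep
      have h1 := relRank_add_of_le (W₀ := U 0 ⊓ V 0) (W₁ := U 0 ⊓ V a) (W₂ := U 0 ⊓ V (a + 1))
        (inf_le_inf_left _ (hV (Nat.zero_le a))) (inf_le_inf_left _ hle)
      have h2 := relRank_add_of_le (W₀ := U 0 ⊔ V 0) (W₁ := U 0 ⊔ V a) (W₂ := U 0 ⊔ V (a + 1))
        (sup_le_sup_left (hV (Nat.zero_le a)) _) (sup_le_sup_left hle _)
      rw [h1, h2]
      have : ((((a + 1) * d : ℕ) : Cardinal)) = ((a * d : ℕ) : Cardinal) + (d : Cardinal) := by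
        push_cast; ring
      rw [this, ← ih, ← hstep]
      ac_rfl
  induction b with
  | zero => simpa using hV' a
  | succ b ih =>
    have hle : U b ≤ U (b + 1) := hU (Nat.le_succ b)
    have hstep := relRank_step_left (V a) hle
    rw [hdU b] at hstep
    have h1 := relRank_add_of_le (W₀ := U 0 ⊓ V 0) (W₁ := U b ⊓ V a) (W₂ := U (b + 1) ⊓ V a)
      (inf_le_inf (hU (Nat.zero_le b)) (hV (Nat.zero_le a))) (inf_le_inf_right _ hle)
    have h2 := relRank_add_of_le (W₀ := U 0 ⊔ V 0) (W₁ := U b ⊔ V a) (W₂ := U (b + 1) ⊔ V a)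
      (sup_le_sup (hU (Nat.zero_le b)) (hV (Nat.zero_le a))) (sup_le_sup_right hle _)
    rw [h1, h2]
    have : ((((a + (b + 1)) * d : ℕ) : Cardinal)) = (((a + b) * d : ℕ) : Cardinal) + (d : Cardinal) := by
      push_cast; ring
    rw [this, ← ih, ← hstep]
    ac_rfl

/-- `dim W = dim W/P + dim P` for `P ≤ W`. -/
theorem rank_eq_relRank_add {P W : Submodule K E} (h : P ≤ W) :
    Module.rank K W = relRank P W + Module.rank K P := by
  have hrn := LinearMap.rank_range_add_rank_ker (P.mkQ ∘ₗ W.subtype)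
  rw [LinearMap.range_comp, Submodule.range_subtype, LinearMap.ker_comp, Submodule.ker_mkQ,
    (Submodule.comapSubtypeEquivOfLe h).rank_eq] at hrn
  exact hrn.symm

theorem natCast_relDim {P W : Submodule K E} (h : relRank P W < Cardinal.aleph0) :
    ((relDim P W : ℕ) : Cardinal) = relRank P W :=
  Cardinal.cast_toNat_of_lt_aleph0 h

theorem relRank_eq_natCast {P W : Submodule K E} [Module.Finite K (W.map P.mkQ)] :
    relRank P W = ((relDim P W : ℕ) : Cardinal) :=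
  (Module.finrank_eq_rank K (W.map P.mkQ)).symm

theorem relRank_eq_of_relDim_eq {P W : Submodule K E} [Module.Finite K (W.map P.mkQ)] {d : ℕ}
    (h : relDim P W = d) : relRank P W = (d : Cardinal) := by
  rw [relRank_eq_natCast, h]

theorem finite_of_relRank_lt {P W : Submodule K E} (h : relRank P W < Cardinal.aleph0) :
    Module.Finite K (W.map P.mkQ) :=
  Module.rank_lt_aleph0_iff.mp h

/-- A finite-dimensional quotient of an increasing union is reached at a finite stage. -/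
theorem exists_le_sup_of_finite (W : ℕ → Submodule K E) (hW : Monotone W) (P : Submodule K E)
    [Module.Finite K ((⨆ n, W n).map P.mkQ)] : ∃ n, (⨆ n, W n) ≤ W n ⊔ P := by
  have hfg : ((⨆ n, W n).map P.mkQ).FG := Module.Finite.iff_fg.mp inferInstance
  have hcomp := (Submodule.fg_iff_compact _).mp hfg
  rw [CompleteLattice.isCompactElement_iff_le_of_directed_sSup_le] at hcomp
  have hdir : DirectedOn (· ≤ ·) (Set.range fun n => (W n).map P.mkQ) := by
    apply directedOn_range.mpr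
    exact Monotone.directed_le (fun i j hij => Submodule.map_mono (hW hij))
  obtain ⟨_, ⟨n, rfl⟩, hn⟩ := hcomp (Set.range fun n => (W n).map P.mkQ) ⟨_, ⟨0, rfl⟩⟩ hdir
    (by rw [Submodule.map_iSup]; exact le_of_eq rfl)
  refine ⟨n, ?_⟩
  calc (⨆ n, W n) ≤ ((⨆ n, W n).map P.mkQ).comap P.mkQ := Submodule.le_comap_map _ _
    _ ≤ ((W n).map P.mkQ).comap P.mkQ := Submodule.comap_mono hn
    _ = W n ⊔ P := by rw [Submodule.comap_map_eq, Submodule.ker_mkQ]

/-- **Chart Riemann, stabilisation.** If `B₁₂/(U 0 + V 0)` is finite-dimensional, then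
`U b + V a = B₁₂` as soon as `a` or `b` is large. -/
theorem exists_sup_eq (hU : Monotone U) (hV : Monotone V) (B12 : Submodule K E)
    (hBU : B12 = ⨆ n, U n) (hBV : B12 = ⨆ n, V n)
    [Module.Finite K (B12.map (U 0 ⊔ V 0).mkQ)] :
    ∃ n0, ∀ a b, (n0 ≤ a ∨ n0 ≤ b) → U b ⊔ V a = B12 := by
  have hle : ∀ a b, U b ⊔ V a ≤ B12 := fun a b =>
    sup_le (hBU ▸ le_iSup U b) (hBV ▸ le_iSup V a)
  have : Module.Finite K ((⨆ n, U n).map (U 0 ⊔ V 0).mkQ) := by rw [← hBU]; infer_instance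
  have : Module.Finite K ((⨆ n, V n).map (U 0 ⊔ V 0).mkQ) := by rw [← hBV]; infer_instance
  obtain ⟨n1, h1⟩ := exists_le_sup_of_finite U hU (U 0 ⊔ V 0)
  obtain ⟨n2, h2⟩ := exists_le_sup_of_finite V hV (U 0 ⊔ V 0)
  rw [← hBU] at h1
  rw [← hBV] at h2
  refine ⟨max n1 n2, fun a b hab => le_antisymm (hle a b) ?_⟩
  rcases hab with h | h
  · refine h2.trans (sup_le ?_ (sup_le ?_ ?_))
    · exact le_sup_of_le_right (hV ((le_max_right n1 n2).trans h))
    · exact le_sup_of_le_left (hU (Nat.zero_le b))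
    · exact le_sup_of_le_right (hV (Nat.zero_le a))
  · refine h1.trans (sup_le ?_ (sup_le ?_ ?_))
    · exact le_sup_of_le_left (hU ((le_max_left n1 n2).trans h))
    · exact le_sup_of_le_left (hU (Nat.zero_le b))
    · exact le_sup_of_le_right (hV (Nat.zero_le a))

/-- **Chart Riemann–Roch, natural-number form.** With `ℓ₀ = dim (U 0 ⊓ V 0)` (the constants),
`γ = dim B₁₂/(U 0 + V 0)` (the chart genus) and `h¹(a,b) = dim B₁₂/(U b + V a)`:
`dim (U b ⊓ V a) + γ = (a + b) * d + ℓ₀ + h¹(a,b)`, and `U b ⊓ V a` is finite-dimensional. -/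
theorem chart_riemann_roch (hU : Monotone U) (hV : Monotone V) (d : ℕ)
    (hdU : ∀ n, relRank (U n) (U (n + 1)) = d) (hdV : ∀ n, relRank (V n) (V (n + 1)) = d)
    (B12 : Submodule K E) (hBU : ∀ n, U n ≤ B12) (hBV : ∀ n, V n ≤ B12)
    [Module.Finite K ↥(U 0 ⊓ V 0)] [Module.Finite K (B12.map (U 0 ⊔ V 0).mkQ)] (a b : ℕ) :
    Module.Finite K ↥(U b ⊓ V a) ∧
      finrank K ↥(U b ⊓ V a) + relDim (U 0 ⊔ V 0) B12
        = (a + b) * d + finrank K ↥(U 0 ⊓ V 0) + relDim (U b ⊔ V a) B12 := by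
  have hmain := relRank_chart U V hU hV d hdU hdV a b
  have h00 : U 0 ⊓ V 0 ≤ U b ⊓ V a := inf_le_inf (hU (Nat.zero_le b)) (hV (Nat.zero_le a))
  have hsup0 : U 0 ⊔ V 0 ≤ U b ⊔ V a := sup_le_sup (hU (Nat.zero_le b)) (hV (Nat.zero_le a))
  have hsupB : U b ⊔ V a ≤ B12 := sup_le (hBU b) (hBV a)
  have hrk := rank_eq_relRank_add h00
  have hadd := relRank_add_of_le hsup0 hsupB
  have hγ : relRank (U 0 ⊔ V 0) B12 = ((relDim (U 0 ⊔ V 0) B12 : ℕ) : Cardinal) :=
    relRank_eq_natCast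
  have hℓ0 : Module.rank K ↥(U 0 ⊓ V 0) = ((finrank K ↥(U 0 ⊓ V 0) : ℕ) : Cardinal) :=
    (Module.finrank_eq_rank K _).symm
  -- finiteness of the pieces
  have hlt1 : relRank (U 0 ⊔ V 0) (U b ⊔ V a) < Cardinal.aleph0 ∧
      relRank (U b ⊔ V a) B12 < Cardinal.aleph0 := by
    rw [← Cardinal.add_lt_aleph0_iff, ← hadd, hγ]
    exact Cardinal.natCast_lt_aleph0
  have hlt2 : relRank (U 0 ⊓ V 0) (U b ⊓ V a) < Cardinal.aleph0 := by
    have : relRank (U 0 ⊓ V 0) (U b ⊓ V a) + relRank (U 0 ⊔ V 0) (U b ⊔ V a)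
        < Cardinal.aleph0 := by
      rw [hmain]; exact Cardinal.natCast_lt_aleph0
    exact (Cardinal.add_lt_aleph0_iff.mp this).1
  have hlt3 : Module.rank K ↥(U b ⊓ V a) < Cardinal.aleph0 := by
    rw [hrk, hℓ0]
    exact Cardinal.add_lt_aleph0 hlt2 (Cardinal.natCast_lt_aleph0)
  have hfin : Module.Finite K ↥(U b ⊓ V a) := Module.rank_lt_aleph0_iff.mp hlt3
  refine ⟨hfin, ?_⟩
  have e1 := natCast_relDim hlt1.1
  have e2 := natCast_relDim hlt1.2
  have e3 := natCast_relDim hlt2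
  have e4 : ((finrank K ↥(U b ⊓ V a) : ℕ) : Cardinal) = Module.rank K ↥(U b ⊓ V a) :=
    Module.finrank_eq_rank K _
  rw [← e3, ← e1] at hmain
  rw [← e4, ← e3, hℓ0] at hrk
  rw [hγ, ← e1, ← e2] at hadd
  have hmain' : relDim (U 0 ⊓ V 0) (U b ⊓ V a) + relDim (U 0 ⊔ V 0) (U b ⊔ V a) = (a + b) * d := by
    exact_mod_cast hmain
  have hrk' : finrank K ↥(U b ⊓ V a)
      = relDim (U 0 ⊓ V 0) (U b ⊓ V a) + finrank K ↥(U 0 ⊓ V 0) := by
    exact_mod_cast hrk
  have hadd' : relDim (U 0 ⊔ V 0) B12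
      = relDim (U 0 ⊔ V 0) (U b ⊔ V a) + relDim (U b ⊔ V a) B12 := by
    exact_mod_cast hadd
  omega

theorem relDim_eq_zero {P W : Submodule K E} (h : W ≤ P) : relDim P W = 0 := by
  have h0 := relRank_eq_zero h
  unfold relRank at h0
  unfold relDim
  rw [Module.finrank, h0]
  simp

/-- **Chart Riemann inequality**: `(a + b) * d + ℓ₀ ≤ dim (U b ⊓ V a) + γ`. -/
theorem chart_riemann_ge (hU : Monotone U) (hV : Monotone V) (d : ℕ)
    (hdU : ∀ n, relRank (U n) (U (n + 1)) = d) (hdV : ∀ n, relRank (V n) (V (n + 1)) = d)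
    (B12 : Submodule K E) (hBU : ∀ n, U n ≤ B12) (hBV : ∀ n, V n ≤ B12)
    [Module.Finite K ↥(U 0 ⊓ V 0)] [Module.Finite K (B12.map (U 0 ⊔ V 0).mkQ)] (a b : ℕ) :
    (a + b) * d + finrank K ↥(U 0 ⊓ V 0)
      ≤ finrank K ↥(U b ⊓ V a) + relDim (U 0 ⊔ V 0) B12 := by
  have h := (chart_riemann_roch U V hU hV d hdU hdV B12 hBU hBV a b).2
  omega

/-- **Chart Riemann equality** when the two charts at level `(a, b)` already cover `B₁₂`. -/
theorem chart_riemann_eq (hU : Monotone U) (hV : Monotone V) (d : ℕ)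
    (hdU : ∀ n, relRank (U n) (U (n + 1)) = d) (hdV : ∀ n, relRank (V n) (V (n + 1)) = d)
    (B12 : Submodule K E) (hBU : ∀ n, U n ≤ B12) (hBV : ∀ n, V n ≤ B12)
    [Module.Finite K ↥(U 0 ⊓ V 0)] [Module.Finite K (B12.map (U 0 ⊔ V 0).mkQ)] (a b : ℕ)
    (hab : U b ⊔ V a = B12) :
    finrank K ↥(U b ⊓ V a) + relDim (U 0 ⊔ V 0) B12
      = (a + b) * d + finrank K ↥(U 0 ⊓ V 0) := by
  have h := (chart_riemann_roch U V hU hV d hdU hdV B12 hBU hBV a b).2
  rw [relDim_eq_zero (le_of_eq hab.symm)] at h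
  omega

/-- **Chart Riemann theorem**: there is `n₀` such that for all `a, b` with `n₀ ≤ a` or
`n₀ ≤ b`: `U b + V a = B₁₂`, `U b ⊓ V a` is finite-dimensional and
`dim (U b ⊓ V a) + γ = (a + b) * d + ℓ₀`; for all `a, b` the inequality `≥` holds. -/
theorem chart_riemann (hU : Monotone U) (hV : Monotone V) (d : ℕ)
    (hdU : ∀ n, relRank (U n) (U (n + 1)) = d) (hdV : ∀ n, relRank (V n) (V (n + 1)) = d)
    (B12 : Submodule K E) (hBU : B12 = ⨆ n, U n) (hBV : B12 = ⨆ n, V n)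
    [Module.Finite K ↥(U 0 ⊓ V 0)] [Module.Finite K (B12.map (U 0 ⊔ V 0).mkQ)] :
    (∀ a b, Module.Finite K ↥(U b ⊓ V a) ∧
      (a + b) * d + finrank K ↥(U 0 ⊓ V 0)
        ≤ finrank K ↥(U b ⊓ V a) + relDim (U 0 ⊔ V 0) B12) ∧
    ∃ n0, ∀ a b, (n0 ≤ a ∨ n0 ≤ b) → U b ⊔ V a = B12 ∧
      finrank K ↥(U b ⊓ V a) + relDim (U 0 ⊔ V 0) B12
        = (a + b) * d + finrank K ↥(U 0 ⊓ V 0) := by
  have hBU' : ∀ n, U n ≤ B12 := fun n => hBU ▸ le_iSup U n
  have hBV' : ∀ n, V n ≤ B12 := fun n => hBV ▸ le_iSup V n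
  refine ⟨fun a b => ⟨(chart_riemann_roch U V hU hV d hdU hdV B12 hBU' hBV' a b).1,
    chart_riemann_ge U V hU hV d hdU hdV B12 hBU' hBV' a b⟩, ?_⟩
  obtain ⟨n0, hn0⟩ := exists_sup_eq U V hU hV B12 hBU hBV
  exact ⟨n0, fun a b hab => ⟨hn0 a b hab,
    chart_riemann_eq U V hU hV d hdU hdV B12 hBU' hBV' a b (hn0 a b hab)⟩⟩

end Chains

end Fermat.Agent.S18.helper4464
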