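/-
S18, track A, genus input (DU2): place-free CHART RIEMANN in abstract lattice form (helper789).

Mathlib-only and spec-independent.  Setting: fields `K ⊆ F`, `x : F` nonzero, two `K`-subspaces
`B1`, `B2` of `F` (think: integral closures of `K[x]` and `K[1/x]` in `F`) which are free over
`K[x]` resp. `K[1/x]` on finite bases `e`, `f`, and which generate the same overlap
`B12 = B1[1/x] = B2[x]`.

* `euler_step`      : the five-term exact sequence count for `U ≤ U'`, `V` inside `T`.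
* `TwoChart`        : the hypotheses.
* `TwoChart.L a b`  : `x⁻ᵇ B1 ∩ xᵃ B2` ("`L(a X∞ + b X₀)`").
-/
import Mathlib

set_option autoImplicit false

namespace Fermat.Agent.S18.helper789

open Polynomial Module

section Euler

variable {K E : Type*} [Field K] [AddCommGroup E] [Module K E]

/-- Five-term exact sequence count
`0 → U ⊓ V → U' ⊓ V → U'/U → T/(U+V) → T/(U'+V) → 0` for `U ≤ U' ≤ T`:
finiteness of `T/(U+V)` and the dimension identity. -/
theorem euler_step (U U' V T : Submodule K E) (hUU' : U ≤ U') (hU'T : U' ≤ T)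
    [Module.Finite K (↥T ⧸ (U' ⊔ V).submoduleOf T)] [Module.Finite K (↥U' ⧸ U.submoduleOf U')]
    [Module.Finite K ↥(U' ⊓ V)] :
    Module.Finite K (↥T ⧸ (U ⊔ V).submoduleOf T) ∧
    finrank K (↥T ⧸ (U ⊔ V).submoduleOf T) + finrank K ↥(U' ⊓ V) =
      finrank K (↥T ⧸ (U' ⊔ V).submoduleOf T) + finrank K (↥U' ⧸ U.submoduleOf U')
        + finrank K ↥(U ⊓ V) := by
  classical
  have hSS' : (U ⊔ V).submoduleOf T ≤ ((U' ⊔ V).submoduleOf T).comap LinearMap.id := by
    intro t ht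
    exact (sup_le_sup_right hUU' V) ht
  -- the three maps
  let π : (↥T ⧸ (U ⊔ V).submoduleOf T) →ₗ[K] (↥T ⧸ (U' ⊔ V).submoduleOf T) :=
    ((U ⊔ V).submoduleOf T).mapQ ((U' ⊔ V).submoduleOf T) LinearMap.id hSS'
  let g₀ : ↥U' →ₗ[K] (↥T ⧸ (U ⊔ V).submoduleOf T) :=
    ((U ⊔ V).submoduleOf T).mkQ ∘ₗ Submodule.inclusion hU'T
  have hg₀ : U.submoduleOf U' ≤ LinearMap.ker g₀ := by
    intro u hu
    rw [LinearMap.mem_ker]
    show ((U ⊔ V).submoduleOf T).mkQ (Submodule.inclusion hU'T u) = 0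
    rw [Submodule.mkQ_apply, Submodule.Quotient.mk_eq_zero]
    exact Submodule.mem_sup_left hu
  let g : (↥U' ⧸ U.submoduleOf U') →ₗ[K] (↥T ⧸ (U ⊔ V).submoduleOf T) :=
    (U.submoduleOf U').liftQ g₀ hg₀
  let f : ↥(U' ⊓ V) →ₗ[K] (↥U' ⧸ U.submoduleOf U') :=
    (U.submoduleOf U').mkQ ∘ₗ Submodule.inclusion inf_le_left
  -- surjectivity of π
  have hπ : Function.Surjective π := by
    intro y
    obtain ⟨t, rfl⟩ := Submodule.mkQ_surjective _ y
    exact ⟨((U ⊔ V).submoduleOf T).mkQ t, rfl⟩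
  -- exactness at T/(U+V)
  have h1 : LinearMap.range g = LinearMap.ker π := by
    apply le_antisymm
    · rintro _ ⟨z, rfl⟩
      obtain ⟨u, rfl⟩ := Submodule.mkQ_surjective _ z
      rw [LinearMap.mem_ker]
      show ((U' ⊔ V).submoduleOf T).mkQ (Submodule.inclusion hU'T u) = 0
      rw [Submodule.mkQ_apply, Submodule.Quotient.mk_eq_zero]
      exact Submodule.mem_sup_left u.2
    · intro y hy
      obtain ⟨t, rfl⟩ := Submodule.mkQ_surjective _ y
      rw [LinearMap.mem_ker] at hy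
      have hy' : ((U' ⊔ V).submoduleOf T).mkQ t = 0 := hy
      rw [Submodule.mkQ_apply, Submodule.Quotient.mk_eq_zero] at hy'
      obtain ⟨u, hu, v, hv, huv⟩ := Submodule.mem_sup.mp hy'
      refine ⟨(U.submoduleOf U').mkQ ⟨u, hu⟩, ?_⟩
      show ((U ⊔ V).submoduleOf T).mkQ (Submodule.inclusion hU'T ⟨u, hu⟩) = _
      rw [Submodule.mkQ_apply, Submodule.mkQ_apply, Submodule.Quotient.eq]
      show ((Submodule.inclusion hU'T ⟨u, hu⟩ - t : ↥T) : E) ∈ U ⊔ V
      have : ((Submodule.inclusion hU'T ⟨u, hu⟩ - t : ↥T) : E) = -v := by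
        show u - (t : E) = -v
        have huv' : (t : E) = u + v := huv.symm
        rw [huv']; abel
      rw [this]
      exact Submodule.mem_sup_right (V.neg_mem hv)
  -- exactness at U'/U
  have h2 : LinearMap.range f = LinearMap.ker g := by
    apply le_antisymm
    · rintro _ ⟨w, rfl⟩
      rw [LinearMap.mem_ker]
      show ((U ⊔ V).submoduleOf T).mkQ (Submodule.inclusion hU'T (Submodule.inclusion inf_le_left w)) = 0
      rw [Submodule.mkQ_apply, Submodule.Quotient.mk_eq_zero]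
      exact Submodule.mem_sup_right w.2.2
    · intro z hz
      obtain ⟨u, rfl⟩ := Submodule.mkQ_surjective _ z
      rw [LinearMap.mem_ker] at hz
      have hz' : ((U ⊔ V).submoduleOf T).mkQ (Submodule.inclusion hU'T u) = 0 := hz
      rw [Submodule.mkQ_apply, Submodule.Quotient.mk_eq_zero] at hz'
      obtain ⟨a, ha, v, hv, hav⟩ := Submodule.mem_sup.mp hz'
      have hvU' : v ∈ U' := by
        have : v = (u : E) - a := by
          have : (u : E) = a + v := hav.symm
          rw [this]; abel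
        rw [this]
        exact U'.sub_mem u.2 (hUU' ha)
      refine ⟨⟨v, hvU', hv⟩, ?_⟩
      show (U.submoduleOf U').mkQ (Submodule.inclusion inf_le_left ⟨v, hvU', hv⟩) = _
      rw [Submodule.mkQ_apply, Submodule.mkQ_apply, Submodule.Quotient.eq]
      show ((Submodule.inclusion inf_le_left ⟨v, hvU', hv⟩ - u : ↥U') : E) ∈ U
      have : ((Submodule.inclusion inf_le_left (⟨v, hvU', hv⟩ : ↥(U' ⊓ V)) - u : ↥U') : E) = -a := by
        show v - (u : E) = -a
        have : (u : E) = a + v := hav.symm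
        rw [this]; abel
      rw [this]
      exact U.neg_mem ha
  -- the kernel of f
  have h3 : finrank K (LinearMap.ker f) = finrank K ↥(U ⊓ V) := by
    have hmap : (LinearMap.ker f).map (U' ⊓ V).subtype = U ⊓ V := by
      apply le_antisymm
      · rintro _ ⟨w, hw, rfl⟩
        rw [SetLike.mem_coe, LinearMap.mem_ker] at hw
        have hw' : (U.submoduleOf U').mkQ (Submodule.inclusion inf_le_left w) = 0 := hw
        rw [Submodule.mkQ_apply, Submodule.Quotient.mk_eq_zero] at hw'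
        exact ⟨hw', w.2.2⟩
      · rintro e ⟨heU, heV⟩
        refine ⟨⟨e, hUU' heU, heV⟩, ?_, rfl⟩
        rw [SetLike.mem_coe, LinearMap.mem_ker]
        show (U.submoduleOf U').mkQ (Submodule.inclusion inf_le_left ⟨e, hUU' heU, heV⟩) = 0
        rw [Submodule.mkQ_apply, Submodule.Quotient.mk_eq_zero]
        exact heU
    rw [← hmap]
    exact (Submodule.equivSubtypeMap (U' ⊓ V) (LinearMap.ker f)).finrank_eq
  -- finiteness of `T/(U+V)`
  have hfin : Module.Finite K (↥T ⧸ (U ⊔ V).submoduleOf T) := by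
    have : Module.Finite K ↥(LinearMap.ker π) := by
      rw [← h1]
      infer_instance
    have : Module.Finite K ((↥T ⧸ (U ⊔ V).submoduleOf T) ⧸ LinearMap.ker π) :=
      Module.Finite.equiv (π.quotKerEquivOfSurjective hπ).symm
    exact Module.Finite.of_submodule_quotient (LinearMap.ker π)
  refine ⟨hfin, ?_⟩
  have r1 := LinearMap.finrank_range_add_finrank_ker π
  have r2 := LinearMap.finrank_range_add_finrank_ker g
  have r3 := LinearMap.finrank_range_add_finrank_ker f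
  have hπr : finrank K (LinearMap.range π) = finrank K (↥T ⧸ (U' ⊔ V).submoduleOf T) := by
    rw [LinearMap.range_eq_top.mpr hπ, finrank_top]
  rw [h1] at r2
  rw [h2, h3] at r3
  omega

end Euler

section Chart

variable {K F : Type*} [Field K] [Field F] [Algebra K F]

/-- `shift y B n = y⁻ⁿ B = {φ | yⁿ φ ∈ B}`. -/
def shift (y : F) (B : Submodule K F) (n : ℕ) : Submodule K F :=
  B.comap (LinearMap.mulLeft K (y ^ n))

theorem mem_shift {y : F} {B : Submodule K F} {n : ℕ} {φ : F} :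
    φ ∈ shift y B n ↔ y ^ n * φ ∈ B := Iff.rfl

theorem shift_zero (y : F) (B : Submodule K F) : shift y B 0 = B := by
  ext φ
  rw [mem_shift, pow_zero, one_mul]

/-- Reflection of a polynomial: `x⁻ᴰ p(x) = (reflect D p)(x⁻¹)`. -/
theorem aeval_inv_reflect {x : F} (hx : x ≠ 0) (p : K[X]) {D : ℕ} (hD : p.natDegree ≤ D) :
    aeval x⁻¹ (p.reflect D) = x⁻¹ ^ D * aeval x p := by
  let _ := invertibleOfNonzero hx
  have h := eval₂_reflect_mul_pow (algebraMap K F) x D p hD
  rw [invOf_eq_inv] at h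
  rw [aeval_def, aeval_def, ← h, mul_comm, mul_assoc, ← mul_pow, mul_inv_cancel₀ hx, one_pow,
    mul_one]

theorem aeval_reflect_inv {x : F} (hx : x ≠ 0) (p : K[X]) {D : ℕ} (hD : p.natDegree ≤ D) :
    aeval x (p.reflect D) = x ^ D * aeval x⁻¹ p := by
  have h := aeval_inv_reflect (inv_ne_zero hx) p hD
  rwa [inv_inv] at h

/-- A `K`-subspace `B` of `F` which is free over `K[y]` on the finite family `e`. -/
structure FreeChart {ι : Type*} [Fintype ι] (y : F) (B : Submodule K F) (e : ι → F) : Prop where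
  mem : ∀ φ, φ ∈ B ↔ ∃ p : ι → K[X], φ = ∑ i, aeval y (p i) * e i
  indep : ∀ p : ι → K[X], ∑ i, aeval y (p i) * e i = 0 → p = 0

namespace FreeChart

variable {ι : Type*} [Fintype ι] {y : F} {B : Submodule K F} {e : ι → F}

theorem aeval_mul_mem (h : FreeChart y B e) (q : K[X]) {φ : F} (hφ : φ ∈ B) :
    aeval y q * φ ∈ B := by
  obtain ⟨p, rfl⟩ := (h.mem φ).mp hφ
  refine (h.mem _).mpr ⟨fun i => q * p i, ?_⟩
  rw [Finset.mul_sum]
  refine Finset.sum_congr rfl fun i _ => ?_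
  rw [map_mul, mul_assoc]

theorem pow_mul_mem (h : FreeChart y B e) (n : ℕ) {φ : F} (hφ : φ ∈ B) : y ^ n * φ ∈ B := by
  have := h.aeval_mul_mem (X ^ n) hφ
  simpa using this

theorem basis_mem (h : FreeChart y B e) (i : ι) : e i ∈ B := by
  classical
  refine (h.mem _).mpr ⟨Pi.single i 1, ?_⟩
  rw [Finset.sum_eq_single i]
  · simp
  · intro j _ hj
    simp [Pi.single_eq_of_ne hj]
  · intro hi
    exact absurd (Finset.mem_univ i) hi

theorem shift_le_shift (h : FreeChart y B e) {m n : ℕ} (hmn : m ≤ n) :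
    shift y B m ≤ shift y B n := by
  intro φ hφ
  rw [mem_shift] at hφ ⊢
  obtain ⟨k, rfl⟩ := Nat.exists_eq_add_of_le hmn
  have := h.pow_mul_mem k hφ
  rwa [← mul_assoc, ← pow_add, add_comm k m] at this

theorem le_shift (h : FreeChart y B e) (n : ℕ) : B ≤ shift y B n := by
  have := h.shift_le_shift (Nat.zero_le n)
  rwa [shift_zero] at this

/-- One-step index: `y⁻⁽ᵇ⁺¹⁾ B / y⁻ᵇ B` has dimension the rank of `B`. -/
theorem finrank_shift_succ (h : FreeChart y B e) (hy : y ≠ 0) (b : ℕ) :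
    Module.Finite K (↥(shift y B (b + 1)) ⧸ (shift y B b).submoduleOf (shift y B (b + 1))) ∧
    finrank K (↥(shift y B (b + 1)) ⧸ (shift y B b).submoduleOf (shift y B (b + 1)))
      = Fintype.card ι := by
  classical
  -- the parametrisation of a complement
  let c₀ : (ι → K) →ₗ[K] F :=
    (LinearMap.mulLeft K (y⁻¹ ^ (b + 1))) ∘ₗ (Fintype.linearCombination K e)
  have hc₀ : ∀ w : ι → K, c₀ w = y⁻¹ ^ (b + 1) * ∑ i, w i • e i := fun w => by
    show y⁻¹ ^ (b + 1) * (Fintype.linearCombination K e w) = _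
    rw [Fintype.linearCombination_apply]
  have hcancel : ∀ z : F, y ^ (b + 1) * (y⁻¹ ^ (b + 1) * z) = z := fun z => by
    rw [← mul_assoc, ← mul_pow, mul_inv_cancel₀ hy, one_pow, one_mul]
  have hc₀mem : ∀ w, c₀ w ∈ shift y B (b + 1) := fun w => by
    rw [mem_shift, hc₀, hcancel]
    exact B.sum_mem fun i _ => B.smul_mem _ (h.basis_mem i)
  let c : (ι → K) →ₗ[K] ↥(shift y B (b + 1)) := c₀.codRestrict _ hc₀mem
  let q : (ι → K) →ₗ[K] (↥(shift y B (b + 1)) ⧸ (shift y B b).submoduleOf (shift y B (b + 1))) :=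
    ((shift y B b).submoduleOf (shift y B (b + 1))).mkQ ∘ₗ c
  have hyb : ∀ z : F, y ^ b * (y⁻¹ ^ (b + 1) * z) = y⁻¹ * z := fun z => by
    rw [pow_succ, ← mul_assoc, ← mul_assoc, ← mul_pow, mul_inv_cancel₀ hy, one_pow, one_mul]
  have hinj : Function.Injective q := by
    rw [← LinearMap.ker_eq_bot, LinearMap.ker_eq_bot']
    intro w hw
    have hw' : ((shift y B b).submoduleOf (shift y B (b + 1))).mkQ (c w) = 0 := hw
    rw [Submodule.mkQ_apply, Submodule.Quotient.mk_eq_zero] at hw'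
    have hw'' : y ^ b * c₀ w ∈ B := hw'
    rw [hc₀, hyb] at hw''
    obtain ⟨p, hp⟩ := (h.mem _).mp hw''
    have hzero : ∑ i, aeval y (C (w i) - X * p i) * e i = 0 := by
      have h1 : ∑ i, w i • e i = y * ∑ i, aeval y (p i) * e i := by
        rw [← hp, ← mul_assoc, mul_inv_cancel₀ hy, one_mul]
      simp only [map_sub, map_mul, aeval_C, aeval_X, sub_mul, Finset.sum_sub_distrib]
      rw [sub_eq_zero]
      calc ∑ i, algebraMap K F (w i) * e i = ∑ i, w i • e i :=
            Finset.sum_congr rfl fun i _ => (Algebra.smul_def _ _).symm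
        _ = y * ∑ i, aeval y (p i) * e i := h1
        _ = ∑ i, y * aeval y (p i) * e i := by
            rw [Finset.mul_sum]
            exact Finset.sum_congr rfl fun i _ => (mul_assoc _ _ _).symm
    have hp0 := h.indep _ hzero
    funext i
    have hi : C (w i) - X * p i = 0 := congrFun hp0 i
    have := congrArg (fun r : K[X] => r.coeff 0) hi
    simpa using this
  have hsurj : Function.Surjective q := by
    intro z
    obtain ⟨φ, rfl⟩ := Submodule.mkQ_surjective _ z
    obtain ⟨p, hp⟩ := (h.mem _).mp (mem_shift.mp φ.2)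
    refine ⟨fun i => (p i).coeff 0, ?_⟩
    show ((shift y B b).submoduleOf (shift y B (b + 1))).mkQ (c fun i => (p i).coeff 0) = _
    rw [Submodule.mkQ_apply, Submodule.mkQ_apply, Submodule.Quotient.eq]
    show y ^ b * (c₀ (fun i => (p i).coeff 0) - (φ : F)) ∈ B
    have hφ : (φ : F) = y⁻¹ ^ (b + 1) * ∑ i, aeval y (p i) * e i := by
      rw [← hp, ← mul_assoc, ← mul_pow, inv_mul_cancel₀ hy, one_pow, one_mul]
    rw [hc₀, hφ, ← mul_sub, hyb]
    refine (h.mem _).mpr ⟨fun i => -(p i).divX, ?_⟩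
    rw [← Finset.sum_sub_distrib, Finset.mul_sum]
    refine Finset.sum_congr rfl fun i _ => ?_
    have hdiv : p i = (p i).divX * X + C ((p i).coeff 0) := (divX_mul_X_add (p i)).symm
    have h2 : aeval y (p i) = aeval y (p i).divX * y + algebraMap K F ((p i).coeff 0) := by
      conv_lhs => rw [hdiv]
      simp
    rw [h2, Algebra.smul_def, map_neg]
    field_simp
    ring
  let eq := LinearEquiv.ofBijective q ⟨hinj, hsurj⟩
  exact ⟨Module.Finite.equiv eq, by rw [← eq.finrank_eq, Module.finrank_fintype_fun_eq_card]⟩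

end FreeChart

/-- Two-chart data: `B1` free over `K[x]` on `e`, `B2` free over `K[x⁻¹]` on `f`, and
`B1[x⁻¹] = B2[x]`. -/
structure TwoChart {ι₁ ι₂ : Type*} [Fintype ι₁] [Fintype ι₂] (x : F) (B1 B2 : Submodule K F)
    (e : ι₁ → F) (f : ι₂ → F) : Prop where
  x_ne : x ≠ 0
  chart1 : FreeChart x B1 e
  chart2 : FreeChart x⁻¹ B2 f
  f_mem : ∀ j, ∃ n : ℕ, x ^ n * f j ∈ B1
  e_mem : ∀ i, ∃ n : ℕ, x⁻¹ ^ n * e i ∈ B2

/-- The overlap `B12 = ⋃ₙ x⁻ⁿ B1`. -/
def overlap (x : F) (B1 : Submodule K F) : Submodule K F := ⨆ n, shift x B1 n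

/-- `L(a X∞ + b X₀) = x⁻ᵇ B1 ∩ xᵃ B2`. -/
def chartL (x : F) (B1 B2 : Submodule K F) (a b : ℕ) : Submodule K F :=
  shift x B1 b ⊓ shift x⁻¹ B2 a

theorem mem_chartL {x : F} {B1 B2 : Submodule K F} {a b : ℕ} {φ : F} :
    φ ∈ chartL x B1 B2 a b ↔ x ^ b * φ ∈ B1 ∧ x⁻¹ ^ a * φ ∈ B2 := Iff.rfl

/-- `h¹(a X∞ + b X₀) = dim B12 / (x⁻ᵇ B1 + xᵃ B2)`. -/
noncomputable def chartH (x : F) (B1 B2 : Submodule K F) (a b : ℕ) : ℕ :=
  finrank K (↥(overlap x B1) ⧸ (shift x B1 b ⊔ shift x⁻¹ B2 a).submoduleOf (overlap x B1))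

namespace TwoChart

variable {ι₁ ι₂ : Type*} [Fintype ι₁] [Fintype ι₂] {x : F} {B1 B2 : Submodule K F}
  {e : ι₁ → F} {f : ι₂ → F}

theorem symm (h : TwoChart x B1 B2 e f) : TwoChart x⁻¹ B2 B1 f e where
  x_ne := inv_ne_zero h.x_ne
  chart1 := h.chart2
  chart2 := by rw [inv_inv]; exact h.chart1
  f_mem := h.e_mem
  e_mem := by simpa only [inv_inv] using h.f_mem

theorem exists_f_mem (h : TwoChart x B1 B2 e f) : ∃ n : ℕ, ∀ j, x ^ n * f j ∈ B1 := by
  choose n hn using h.f_mem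
  refine ⟨Finset.univ.sup n, fun j => ?_⟩
  have hle : n j ≤ Finset.univ.sup n := Finset.le_sup (Finset.mem_univ j)
  obtain ⟨k, hk⟩ := Nat.exists_eq_add_of_le hle
  rw [hk, add_comm, pow_add, mul_assoc]
  exact h.chart1.pow_mul_mem k (hn j)

theorem exists_e_mem (h : TwoChart x B1 B2 e f) : ∃ n : ℕ, ∀ i, x⁻¹ ^ n * e i ∈ B2 :=
  h.symm.exists_f_mem

theorem mem_overlap (h : TwoChart x B1 B2 e f) {φ : F} :
    φ ∈ overlap x B1 ↔ ∃ n : ℕ, x ^ n * φ ∈ B1 := by
  let a : ℕ →o Submodule K F :=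
    ⟨shift x B1, fun _ _ hmn => h.chart1.shift_le_shift hmn⟩
  exact Submodule.mem_iSup_of_chain a φ

theorem shift_le_overlap (x : F) (B1 : Submodule K F) (b : ℕ) : shift x B1 b ≤ overlap x B1 :=
  le_iSup (shift x B1) b

/-- `B1[x⁻¹] ⊆ B2[x]`. -/
theorem exists_inv_pow_mem (h : TwoChart x B1 B2 e f) {φ : F} {n : ℕ} (hφ : x ^ n * φ ∈ B1) :
    ∃ N : ℕ, x⁻¹ ^ N * φ ∈ B2 := by
  obtain ⟨p, hp⟩ := (h.chart1.mem _).mp hφ
  obtain ⟨m, hm⟩ := h.exists_e_mem
  let D := Finset.univ.sup fun i => (p i).natDegree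
  have hD : ∀ i, (p i).natDegree ≤ D := fun i =>
    Finset.le_sup (f := fun i => (p i).natDegree) (Finset.mem_univ i)
  have hψ : x⁻¹ ^ (D + m) * (x ^ n * φ) ∈ B2 := by
    rw [hp, Finset.mul_sum]
    refine B2.sum_mem fun i _ => ?_
    have : x⁻¹ ^ (D + m) * (aeval x (p i) * e i)
        = aeval x⁻¹ ((p i).reflect D) * (x⁻¹ ^ m * e i) := by
      rw [aeval_inv_reflect h.x_ne (p i) (hD i), pow_add]
      ring
    rw [this]
    exact h.chart2.aeval_mul_mem _ (hm i)
  refine ⟨D + m, ?_⟩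
  have h2 := h.chart2.pow_mul_mem n hψ
  have h3 : x⁻¹ ^ n * (x⁻¹ ^ (D + m) * (x ^ n * φ)) = x⁻¹ ^ (D + m) * φ := by
    have : x⁻¹ ^ n * x ^ n = 1 := by rw [← mul_pow, inv_mul_cancel₀ h.x_ne, one_pow]
    calc x⁻¹ ^ n * (x⁻¹ ^ (D + m) * (x ^ n * φ))
        = (x⁻¹ ^ n * x ^ n) * (x⁻¹ ^ (D + m) * φ) := by ring
      _ = x⁻¹ ^ (D + m) * φ := by rw [this, one_mul]
  rwa [h3] at h2

theorem exists_pow_mem (h : TwoChart x B1 B2 e f) {φ : F} {n : ℕ} (hφ : x⁻¹ ^ n * φ ∈ B2) :
    ∃ N : ℕ, x ^ N * φ ∈ B1 := by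
  have := h.symm.exists_inv_pow_mem hφ
  simpa only [inv_inv] using this

theorem shift_inv_le_overlap (h : TwoChart x B1 B2 e f) (a : ℕ) :
    shift x⁻¹ B2 a ≤ overlap x B1 := by
  intro φ hφ
  exact h.mem_overlap.mpr (h.exists_pow_mem (mem_shift.mp hφ))

theorem overlap_symm (h : TwoChart x B1 B2 e f) : overlap x⁻¹ B2 = overlap x B1 := by
  ext φ
  rw [h.symm.mem_overlap, h.mem_overlap]
  exact ⟨fun ⟨n, hn⟩ => h.exists_pow_mem hn, fun ⟨n, hn⟩ => h.exists_inv_pow_mem hn⟩

/-- Serre vanishing, one direction: for `b` large, `B12 = x⁻ᵇ B1 + B2`. -/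
theorem exists_overlap_le (h : TwoChart x B1 B2 e f) :
    ∃ n₀ : ℕ, ∀ b : ℕ, n₀ ≤ b → overlap x B1 ≤ shift x B1 b ⊔ B2 := by
  obtain ⟨n₀, hn₀⟩ := h.exists_f_mem
  refine ⟨n₀, fun b hb φ hφ => ?_⟩
  obtain ⟨n, hn⟩ := h.mem_overlap.mp hφ
  obtain ⟨N, hN⟩ := h.exists_inv_pow_mem hn
  obtain ⟨q, hq⟩ := (h.chart2.mem _).mp hN
  -- monomials
  have hmono : ∀ (k : ℕ) (j : ι₂), x ^ N * (x⁻¹ ^ k * f j) ∈ shift x B1 b ⊔ B2 := by
    intro k j
    rcases le_total N k with hNk | hkN
    · obtain ⟨s, rfl⟩ := Nat.exists_eq_add_of_le hNk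
      have : x ^ N * (x⁻¹ ^ (N + s) * f j) = x⁻¹ ^ s * f j := by
        have h1 : x ^ N * x⁻¹ ^ N = 1 := by rw [← mul_pow, mul_inv_cancel₀ h.x_ne, one_pow]
        calc x ^ N * (x⁻¹ ^ (N + s) * f j) = (x ^ N * x⁻¹ ^ N) * (x⁻¹ ^ s * f j) := by
              rw [pow_add]; ring
          _ = x⁻¹ ^ s * f j := by rw [h1, one_mul]
      rw [this]
      exact Submodule.mem_sup_right (h.chart2.pow_mul_mem s (h.chart2.basis_mem j))
    · obtain ⟨s, rfl⟩ := Nat.exists_eq_add_of_le hkN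
      have : x ^ (k + s) * (x⁻¹ ^ k * f j) = x ^ s * f j := by
        have h1 : x ^ k * x⁻¹ ^ k = 1 := by rw [← mul_pow, mul_inv_cancel₀ h.x_ne, one_pow]
        calc x ^ (k + s) * (x⁻¹ ^ k * f j) = (x ^ k * x⁻¹ ^ k) * (x ^ s * f j) := by
              rw [pow_add]; ring
          _ = x ^ s * f j := by rw [h1, one_mul]
      rw [this]
      refine Submodule.mem_sup_left ?_
      rw [mem_shift]
      obtain ⟨t, rfl⟩ := Nat.exists_eq_add_of_le hb
      have : x ^ (n₀ + t) * (x ^ s * f j) = x ^ (t + s) * (x ^ n₀ * f j) := by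
        rw [pow_add, pow_add]; ring
      rw [this]
      exact h.chart1.pow_mul_mem _ (hn₀ j)
  have hφ' : φ = x ^ N * ∑ j, aeval x⁻¹ (q j) * f j := by
    rw [← hq, ← mul_assoc, ← mul_pow, mul_inv_cancel₀ h.x_ne, one_pow, one_mul]
  rw [hφ', Finset.mul_sum]
  refine Submodule.sum_mem _ fun j _ => ?_
  rw [aeval_eq_sum_range, Finset.sum_mul, Finset.mul_sum]
  refine Submodule.sum_mem _ fun k _ => ?_
  rw [smul_mul_assoc, mul_smul_comm]
  exact Submodule.smul_mem _ _ (hmono k j)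

/-- Serre vanishing: for `max a b` large, `B12 = x⁻ᵇ B1 + xᵃ B2`. -/
theorem exists_serre (h : TwoChart x B1 B2 e f) :
    ∃ n₀ : ℕ, ∀ a b : ℕ, n₀ ≤ max a b → shift x B1 b ⊔ shift x⁻¹ B2 a = overlap x B1 := by
  obtain ⟨n₁, hn₁⟩ := h.exists_overlap_le
  obtain ⟨n₂, hn₂⟩ := h.symm.exists_overlap_le
  refine ⟨max n₁ n₂, fun a b hab => ?_⟩
  apply le_antisymm
  · exact sup_le (shift_le_overlap x B1 b) (h.shift_inv_le_overlap a)
  · rcases le_max_iff.mp hab with ha | hb
    · have h2 := hn₂ a (le_trans (le_max_right _ _) ha)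
      rw [h.overlap_symm] at h2
      refine le_trans h2 ?_
      rw [sup_comm]
      exact sup_le_sup_right (h.chart1.le_shift b) _
    · have h1 := hn₁ b (le_trans (le_max_left _ _) hb)
      exact le_trans h1 (sup_le_sup_left (h.chart2.le_shift a) _)

/-- (R0) The spaces `L(a X∞ + b X₀)` are finite-dimensional. -/
theorem finite_chartL (h : TwoChart x B1 B2 e f) (a b : ℕ) :
    Module.Finite K ↥(chartL x B1 B2 a b) := by
  classical
  obtain ⟨n, hn⟩ := h.exists_f_mem
  choose c hc using fun j => (h.chart1.mem _).mp (hn j)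
  let D := Finset.univ.sup fun j => Finset.univ.sup fun i => (c j i).natDegree
  have hD : ∀ j i, (c j i).natDegree ≤ D := fun j i =>
    le_trans (Finset.le_sup (f := fun i => (c j i).natDegree) (Finset.mem_univ i))
      (Finset.le_sup (f := fun j => Finset.univ.sup fun i => (c j i).natDegree)
        (Finset.mem_univ j))
  let S : Set F := Set.range fun ik : ι₁ × Fin (a + b + D + 1) =>
    x⁻¹ ^ b * (x ^ (ik.2 : ℕ) * e ik.1)
  have hfin : S.Finite := Set.finite_range _
  suffices hle : chartL x B1 B2 a b ≤ Submodule.span K S by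
    have : Module.Finite K ↥(Submodule.span K S) := FiniteDimensional.span_of_finite K hfin
    exact Submodule.finiteDimensional_of_le hle
  intro φ hφL
  obtain ⟨h1, h2⟩ := mem_chartL.mp hφL
  obtain ⟨p, hp⟩ := (h.chart1.mem _).mp h1
  obtain ⟨q, hq⟩ := (h.chart2.mem _).mp h2
  let M := Finset.univ.sup fun j => (q j).natDegree
  have hM : ∀ j, (q j).natDegree ≤ M := fun j =>
    Finset.le_sup (f := fun j => (q j).natDegree) (Finset.mem_univ j)
  have hR : ∀ j, aeval x ((q j).reflect M) = x ^ M * aeval x⁻¹ (q j) := fun j =>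
    aeval_reflect_inv h.x_ne (q j) (hM j)
  -- two expressions of the same element in the basis `e`
  have hA : x ^ (M + n) * (x ^ b * φ) = ∑ i, aeval x (X ^ (M + n) * p i) * e i := by
    rw [hp, Finset.mul_sum]
    refine Finset.sum_congr rfl fun i _ => ?_
    simp only [map_mul, map_pow, aeval_X]
    ring
  have hB : x ^ (a + b) * (x ^ (M + n) * (x⁻¹ ^ a * φ))
      = ∑ i, aeval x (X ^ (a + b) * ∑ j, (q j).reflect M * c j i) * e i := by
    have hj : ∀ j, x ^ (M + n) * (aeval x⁻¹ (q j) * f j)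
        = ∑ i, x ^ M * aeval x⁻¹ (q j) * aeval x (c j i) * e i := by
      intro j
      calc x ^ (M + n) * (aeval x⁻¹ (q j) * f j)
          = x ^ M * aeval x⁻¹ (q j) * (x ^ n * f j) := by rw [pow_add]; ring
        _ = _ := by
          rw [hc j, Finset.mul_sum]
          exact Finset.sum_congr rfl fun i _ => by ring
    rw [hq, Finset.mul_sum]
    simp only [hj]
    rw [Finset.sum_comm, Finset.mul_sum]
    refine Finset.sum_congr rfl fun i _ => ?_
    simp only [map_mul, map_pow, aeval_X, map_sum, hR]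
    rw [← Finset.sum_mul, mul_assoc]
  have hC : x ^ (M + n) * (x ^ b * φ) = x ^ (a + b) * (x ^ (M + n) * (x⁻¹ ^ a * φ)) := by
    have h1 : x ^ a * x⁻¹ ^ a = 1 := by rw [← mul_pow, mul_inv_cancel₀ h.x_ne, one_pow]
    calc x ^ (M + n) * (x ^ b * φ) = (x ^ a * x⁻¹ ^ a) * (x ^ (M + n) * (x ^ b * φ)) := by
          rw [h1, one_mul]
      _ = _ := by rw [pow_add x a b]; ring
  have key : ∀ i, X ^ (M + n) * p i = X ^ (a + b) * ∑ j, (q j).reflect M * c j i := by
    have hzero : ∑ i, aeval x (X ^ (M + n) * p i - X ^ (a + b) * ∑ j, (q j).reflect M * c j i)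
        * e i = 0 := by
      have : ∀ i, aeval x (X ^ (M + n) * p i - X ^ (a + b) * ∑ j, (q j).reflect M * c j i) * e i
          = aeval x (X ^ (M + n) * p i) * e i
            - aeval x (X ^ (a + b) * ∑ j, (q j).reflect M * c j i) * e i := fun i => by
        rw [map_sub, sub_mul]
      simp only [this]
      rw [Finset.sum_sub_distrib, ← hA, ← hB, hC, sub_self]
    intro i
    exact sub_eq_zero.mp (congrFun (h.chart1.indep _ hzero) i)
  have hdeg : ∀ i, (p i).natDegree ≤ a + b + D := by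
    intro i
    by_cases hpi : p i = 0
    · simp [hpi]
    have h1 : (X ^ (M + n) * p i).natDegree = M + n + (p i).natDegree := by
      rw [natDegree_mul (pow_ne_zero _ X_ne_zero) hpi, natDegree_X_pow]
    have h2 : (X ^ (a + b) * ∑ j, (q j).reflect M * c j i).natDegree ≤ a + b + (M + D) := by
      refine le_trans natDegree_mul_le (add_le_add (natDegree_X_pow_le _) ?_)
      refine natDegree_sum_le_of_forall_le _ _ fun j _ => ?_
      refine le_trans natDegree_mul_le (add_le_add ?_ (hD j i))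
      exact le_trans (natDegree_reflect_le) (max_le le_rfl (hM j))
    rw [key i] at h1
    omega
  have hφ : φ = x⁻¹ ^ b * ∑ i, aeval x (p i) * e i := by
    rw [← hp, ← mul_assoc, ← mul_pow, inv_mul_cancel₀ h.x_ne, one_pow, one_mul]
  rw [hφ, Finset.mul_sum]
  refine Submodule.sum_mem _ fun i _ => ?_
  rw [aeval_eq_sum_range' (Nat.lt_succ_of_le (hdeg i)), Finset.sum_mul, Finset.mul_sum]
  refine Submodule.sum_mem _ fun k hk => ?_
  rw [smul_mul_assoc, mul_smul_comm]
  exact Submodule.smul_mem _ _ (Submodule.subset_span ⟨(i, ⟨k, Finset.mem_range.mp hk⟩), rfl⟩)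

/-- Serre finiteness: every `h¹(a X∞ + b X₀)` is finite. -/
theorem finite_H (h : TwoChart x B1 B2 e f) (a b : ℕ) :
    Module.Finite K (↥(overlap x B1) ⧸
      (shift x B1 b ⊔ shift x⁻¹ B2 a).submoduleOf (overlap x B1)) := by
  obtain ⟨n₀, hn₀⟩ := h.exists_serre
  suffices H : ∀ k b, n₀ ≤ b + k → Module.Finite K (↥(overlap x B1) ⧸
      (shift x B1 b ⊔ shift x⁻¹ B2 a).submoduleOf (overlap x B1)) from
    H n₀ b (Nat.le_add_left _ _)
  intro k
  induction k with
  | zero =>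
    intro b hb
    have htop : (shift x B1 b ⊔ shift x⁻¹ B2 a).submoduleOf (overlap x B1) = ⊤ := by
      rw [hn₀ a b (le_trans hb (le_max_right a b))]
      exact Submodule.submoduleOf_self _
    have : Subsingleton (↥(overlap x B1) ⧸
        (shift x B1 b ⊔ shift x⁻¹ B2 a).submoduleOf (overlap x B1)) :=
      Submodule.Quotient.subsingleton_iff.mpr htop
    infer_instance
  | succ k ih =>
    intro b hb
    have hfin' := ih (b + 1) (by omega)
    have hidx := (h.chart1.finrank_shift_succ h.x_ne b).1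
    have hL : Module.Finite K ↥(shift x B1 (b + 1) ⊓ shift x⁻¹ B2 a) := h.finite_chartL a (b + 1)
    exact (euler_step (shift x B1 b) (shift x B1 (b + 1)) (shift x⁻¹ B2 a) (overlap x B1)
      (h.chart1.shift_le_shift (Nat.le_succ b)) (shift_le_overlap x B1 (b + 1))).1

theorem chartH_eq_zero {x : F} {B1 B2 : Submodule K F} {a b : ℕ}
    (hab : shift x B1 b ⊔ shift x⁻¹ B2 a = overlap x B1) : chartH x B1 B2 a b = 0 := by
  have htop : (shift x B1 b ⊔ shift x⁻¹ B2 a).submoduleOf (overlap x B1) = ⊤ := by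
    rw [hab]
    exact Submodule.submoduleOf_self _
  have : Subsingleton (↥(overlap x B1) ⧸
      (shift x B1 b ⊔ shift x⁻¹ B2 a).submoduleOf (overlap x B1)) :=
    Submodule.Quotient.subsingleton_iff.mpr htop
  exact Module.finrank_zero_of_subsingleton

/-- One step in the `X₀`-direction. -/
theorem euler_b (h : TwoChart x B1 B2 e f) (a b : ℕ) :
    finrank K ↥(chartL x B1 B2 a (b + 1)) + chartH x B1 B2 a b
      = chartH x B1 B2 a (b + 1) + Fintype.card ι₁ + finrank K ↥(chartL x B1 B2 a b) := by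
  have hfin' := h.finite_H a (b + 1)
  have hidx := h.chart1.finrank_shift_succ h.x_ne b
  have hidx1 := hidx.1
  have hL : Module.Finite K ↥(shift x B1 (b + 1) ⊓ shift x⁻¹ B2 a) := h.finite_chartL a (b + 1)
  have hstep := (euler_step (shift x B1 b) (shift x B1 (b + 1)) (shift x⁻¹ B2 a) (overlap x B1)
    (h.chart1.shift_le_shift (Nat.le_succ b)) (shift_le_overlap x B1 (b + 1))).2
  rw [hidx.2] at hstep
  unfold chartH chartL
  omega

/-- One step in the `X∞`-direction. -/
theorem euler_a (h : TwoChart x B1 B2 e f) (a b : ℕ) :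
    finrank K ↥(chartL x B1 B2 (a + 1) b) + chartH x B1 B2 a b
      = chartH x B1 B2 (a + 1) b + Fintype.card ι₂ + finrank K ↥(chartL x B1 B2 a b) := by
  have hfin' : Module.Finite K (↥(overlap x B1) ⧸
      (shift x⁻¹ B2 (a + 1) ⊔ shift x B1 b).submoduleOf (overlap x B1)) := by
    rw [sup_comm]
    exact h.finite_H (a + 1) b
  have hidx := h.chart2.finrank_shift_succ (inv_ne_zero h.x_ne) a
  have hidx1 := hidx.1
  have hL : Module.Finite K ↥(shift x⁻¹ B2 (a + 1) ⊓ shift x B1 b) := by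
    rw [inf_comm]
    exact h.finite_chartL (a + 1) b
  have hstep := (euler_step (shift x⁻¹ B2 a) (shift x⁻¹ B2 (a + 1)) (shift x B1 b) (overlap x B1)
    (h.chart2.shift_le_shift (Nat.le_succ a)) (h.shift_inv_le_overlap (a + 1))).2
  rw [hidx.2, sup_comm (shift x⁻¹ B2 a), sup_comm (shift x⁻¹ B2 (a + 1)),
    inf_comm (shift x⁻¹ B2 (a + 1)), inf_comm (shift x⁻¹ B2 a)] at hstep
  unfold chartH chartL
  omega

/-- **Chart Riemann–Roch** (Euler characteristic form), for all `a b`: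
`l(a X∞ + b X₀) + γ = b d₁ + a d₂ + l(0) + h¹(a X∞ + b X₀)`. -/
theorem euler (h : TwoChart x B1 B2 e f) (a b : ℕ) :
    finrank K ↥(chartL x B1 B2 a b) + chartH x B1 B2 0 0
      = b * Fintype.card ι₁ + a * Fintype.card ι₂ + finrank K ↥(chartL x B1 B2 0 0)
        + chartH x B1 B2 a b := by
  have ha : ∀ a, finrank K ↥(chartL x B1 B2 a 0) + chartH x B1 B2 0 0
      = a * Fintype.card ι₂ + finrank K ↥(chartL x B1 B2 0 0) + chartH x B1 B2 a 0 := by
    intro a
    induction a with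
    | zero => simp
    | succ a ih =>
      have := h.euler_a a 0
      rw [add_mul, one_mul]
      omega
  induction b with
  | zero =>
    have := ha a
    simpa using this
  | succ b ih =>
    have := h.euler_b a b
    rw [add_mul, one_mul]
    omega

/-- **Chart Riemann inequality**, for all `a b`. -/
theorem riemann_ge (h : TwoChart x B1 B2 e f) (a b : ℕ) :
    b * Fintype.card ι₁ + a * Fintype.card ι₂ + finrank K ↥(chartL x B1 B2 0 0)
      ≤ finrank K ↥(chartL x B1 B2 a b) + chartH x B1 B2 0 0 := by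
  have := h.euler a b
  omega

/-- **Chart Riemann theorem**: equality as soon as `a` or `b` is large. -/
theorem riemann (h : TwoChart x B1 B2 e f) :
    ∃ n₀ : ℕ, ∀ a b : ℕ, n₀ ≤ max a b →
      finrank K ↥(chartL x B1 B2 a b) + chartH x B1 B2 0 0
        = b * Fintype.card ι₁ + a * Fintype.card ι₂ + finrank K ↥(chartL x B1 B2 0 0) := by
  obtain ⟨n₀, hn₀⟩ := h.exists_serre
  refine ⟨n₀, fun a b hab => ?_⟩
  have := h.euler a b
  rw [chartH_eq_zero (hn₀ a b hab)] at this
  omega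

end TwoChart

end Chart

end Fermat.Agent.S18.helper789
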