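import Mathlib

/-!
# S18 brick INSEP: finiteness of integral closures without separability

For a **perfect** field `K` (any characteristic), an element `y` of an extension field `F`
with `F` finite over `K⟮y⟯`, the integral closure of `K[y] = Algebra.adjoin K {y}` in `F`
is a finite `K[y]`-module and a Dedekind domain.  No separability of `F / K⟮y⟯` is assumed.

This is what makes the place theory of a function field (fundamental identity for the zeros
of an arbitrary transcendental `y`, principal divisors of degree zero) available in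
characteristic `ℓ`.

Proof: Frobenius descent.  Let `E_s` be the separable closure of `K⟮y⟯` in `F`; `F / E_s` is
purely inseparable of some exponent `n`; `q = p ^ n`.  The map `b ↦ b ^ q` sends the integral
closure `B` into the image of the integral closure of `K[y]` in `E_s` (finite by the separable
case), semilinearly with respect to `r ↦ r ^ q` on `K[y]`.  As `K` is perfect, `K[y]` is finite
over the subring of `q`-th powers, and is noetherian; pulling back along the injective Frobenius
gives finitely many generators of `B`.
-/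

set_option autoImplicit false

namespace Fermat.Agent.S18.helper8246

open IntermediateField

section Abstract

/-- **Semilinear descent of finite generation.**  `σ` an endomorphism of a noetherian ring `R`
over which `R` is finite (family `t`), `φ` an injective additive `σ`-semilinear endomorphism of
an `R`-module `M`.  If `φ` maps a submodule `B` into a finitely generated submodule `N`, then
`B` is finitely generated. -/
theorem fg_of_semilinear_image_le
    {R M : Type*} [CommRing R] [IsNoetherianRing R] [AddCommGroup M] [Module R M]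
    (σ : R →+* R) (φ : M →+ M) (hφinj : Function.Injective φ)
    (hφ : ∀ (r : R) (b : M), φ (r • b) = σ r • φ b)
    {ι : Type*} [Fintype ι] (t : ι → R)
    (hσ : ∀ r : R, ∃ c : ι → R, r = ∑ i, σ (c i) * t i)
    (B N : Submodule R M) (hN : N.FG) (hBN : ∀ b ∈ B, φ b ∈ N) : B.FG := by
  classical
  obtain ⟨G, hG⟩ := hN
  -- the free module `P` and the semilinear surjection `ψ` onto (a module containing) `N`
  let ψ : (ι × G → R) → M := fun c => ∑ i : ι × G, σ (c i) • (t i.1 • (i.2 : M))
  have hψ_add : ∀ c d, ψ (c + d) = ψ c + ψ d := by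
    intro c d
    simp only [ψ, Pi.add_apply, map_add, add_smul, Finset.sum_add_distrib]
  have hψ_zero : ψ 0 = 0 := by
    simp only [ψ, Pi.zero_apply, map_zero, zero_smul, Finset.sum_const_zero]
  have hψ_smul : ∀ (r : R) c, ψ (r • c) = σ r • ψ c := by
    intro r c
    simp only [ψ, Pi.smul_apply, smul_eq_mul, map_mul, mul_smul, Finset.smul_sum]
  have hψ_surj : ∀ n ∈ N, ∃ c, ψ c = n := by
    intro n hn
    rw [← hG, Submodule.mem_span_finset] at hn
    obtain ⟨f, -, rfl⟩ := hn
    choose c hc using hσ
    refine ⟨fun i => c (f i.2) i.1, ?_⟩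
    simp only [ψ]
    rw [Fintype.sum_prod_type, Finset.sum_comm, ← Finset.sum_coe_sort G]
    refine Finset.sum_congr rfl fun g _ => ?_
    conv_rhs => rw [hc (f g), Finset.sum_smul]
    refine Finset.sum_congr rfl fun i _ => ?_
    rw [mul_smul]
  -- the pull-back of `φ B` is a submodule of the noetherian module `P`
  let Q : Submodule R (ι × G → R) :=
    { carrier := {c | ∃ b ∈ B, φ b = ψ c}
      add_mem' := by
        rintro c d ⟨b, hb, hbc⟩ ⟨b', hb', hbd⟩
        exact ⟨b + b', B.add_mem hb hb', by rw [map_add, hbc, hbd, hψ_add]⟩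
      zero_mem' := ⟨0, B.zero_mem, by rw [map_zero, hψ_zero]⟩
      smul_mem' := by
        rintro r c ⟨b, hb, hbc⟩
        exact ⟨r • b, B.smul_mem r hb, by rw [hφ, hbc, hψ_smul]⟩ }
  obtain ⟨S, hS⟩ : Q.FG := IsNoetherian.noetherian Q
  have hSQ : ∀ c ∈ S, ∃ b ∈ B, φ b = ψ c := fun c hc => by
    have : c ∈ Q := hS ▸ Submodule.subset_span hc
    exact this
  choose! β hβB hβ using hSQ
  refine ⟨S.image β, le_antisymm ?_ ?_⟩
  · rw [Submodule.span_le]
    intro b hb
    rw [Finset.coe_image] at hb
    obtain ⟨c, hc, rfl⟩ := hb
    exact hβB c hc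
  · intro b hb
    obtain ⟨c, hc⟩ := hψ_surj (φ b) (hBN b hb)
    have hcQ : c ∈ Q := ⟨b, hb, hc.symm⟩
    rw [← hS] at hcQ
    -- every element of `span S` has a `φ`-preimage in the span of `β '' S`
    have key : ∀ c ∈ Submodule.span R (S : Set (ι × G → R)),
        ∃ b' ∈ Submodule.span R ((S.image β : Finset M) : Set M), φ b' = ψ c := by
      intro c hc
      induction hc using Submodule.span_induction with
      | mem c hc =>
        exact ⟨β c, Submodule.subset_span (Finset.mem_coe.mpr (Finset.mem_image_of_mem β hc)),
          hβ c hc⟩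
      | zero => exact ⟨0, Submodule.zero_mem _, by rw [map_zero, hψ_zero]⟩
      | add c d _ _ hc hd =>
        obtain ⟨b₁, hb₁, h₁⟩ := hc
        obtain ⟨b₂, hb₂, h₂⟩ := hd
        exact ⟨b₁ + b₂, Submodule.add_mem _ hb₁ hb₂, by rw [map_add, h₁, h₂, hψ_add]⟩
      | smul r c _ hc =>
        obtain ⟨b₁, hb₁, h₁⟩ := hc
        exact ⟨r • b₁, Submodule.smul_mem _ r hb₁, by rw [hφ, h₁, hψ_smul]⟩
    obtain ⟨b', hb', hb'c⟩ := key c hcQ
    have : b = b' := hφinj (by rw [hb'c, hc])
    rw [this]
    exact hb'

end Abstract

section Adjoin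

variable {K F : Type*} [Field K] [Field F] [Algebra K F]

/-- The generator `x` as an element of `K[x]`. -/
def gen (x : F) : Algebra.adjoin K {x} := ⟨x, Algebra.self_mem_adjoin_singleton K x⟩

@[simp] theorem coe_gen (x : F) : ((gen x : Algebra.adjoin K {x}) : F) = x := rfl

theorem aeval_gen_surjective (x : F) :
    Function.Surjective (Polynomial.aeval (R := K) (gen (K := K) x)) := by
  intro a
  have h : (a : F) ∈ (Polynomial.aeval (R := K) x).range := by
    rw [← Algebra.adjoin_singleton_eq_range_aeval]
    exact a.2
  obtain ⟨q, hq⟩ := h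
  refine ⟨q, Subtype.ext ?_⟩
  rw [Polynomial.aeval_subalgebra_coe]
  exact hq

theorem isPrincipalIdealRing_adjoin (x : F) : IsPrincipalIdealRing (Algebra.adjoin K {x}) :=
  IsPrincipalIdealRing.of_surjective (Polynomial.aeval (R := K) (gen (K := K) x)).toRingHom
    (aeval_gen_surjective x)

/-- For a perfect field `K` of exponential characteristic `p`, the ring `K[x]` is generated as a
module over its subring of `p ^ n`-th powers by `1, x, …, x ^ (p ^ n - 1)`. -/
theorem exists_frobenius_decomp [PerfectField K] (p : ℕ) [ExpChar K p] (x : F) (n : ℕ)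
    [ExpChar (Algebra.adjoin K {x}) p] (r : Algebra.adjoin K {x}) :
    ∃ c : Fin (p ^ n) → Algebra.adjoin K {x},
      r = ∑ i, iterateFrobenius (Algebra.adjoin K {x}) p n (c i) * gen x ^ (i : ℕ) := by
  classical
  have hq : 0 < p ^ n := pow_pos (expChar_pos K p) n
  obtain ⟨g, rfl⟩ := aeval_gen_surjective x r
  induction g using Polynomial.induction_on' with
  | add g₁ g₂ h₁ h₂ =>
    obtain ⟨c₁, hc₁⟩ := h₁
    obtain ⟨c₂, hc₂⟩ := h₂
    refine ⟨c₁ + c₂, ?_⟩
    rw [map_add, hc₁, hc₂, ← Finset.sum_add_distrib]
    refine Finset.sum_congr rfl fun i _ => ?_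
    rw [Pi.add_apply, map_add, add_mul]
  | monomial m a =>
    obtain ⟨a', rfl⟩ := (iterateFrobeniusEquiv K p n).surjective a
    refine ⟨fun i => if (i : ℕ) = m % p ^ n then
      algebraMap K (Algebra.adjoin K {x}) a' * gen x ^ (m / p ^ n) else 0, ?_⟩
    rw [Finset.sum_eq_single (⟨m % p ^ n, Nat.mod_lt m hq⟩ : Fin (p ^ n))]
    · simp only [if_true, Polynomial.aeval_monomial, iterateFrobenius_def, mul_pow,
        iterateFrobeniusEquiv_apply]
      rw [← map_pow, ← pow_mul, mul_assoc, ← pow_add, Nat.div_add_mod']
    · intro i _ hi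
      have : (i : ℕ) ≠ m % p ^ n := fun h => hi (Fin.ext h)
      simp only [if_neg this, map_zero, zero_mul]
    · intro h
      exact absurd (Finset.mem_univ _) h

end Adjoin

section Main

/-- The separable case (Mathlib), in submodule form and with generic types (so that instance
search is trivial at the use site). -/
theorem integralClosure_fg_of_isSeparable (A K L : Type*) [CommRing A] [Field K] [Algebra A K]
    [IsFractionRing A K] [Field L] [Algebra K L] [Algebra A L] [IsScalarTower A K L]
    [FiniteDimensional K L] [IsDomain A] [Algebra.IsSeparable K L] [IsIntegrallyClosed A]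
    [IsNoetherianRing A] : (Subalgebra.toSubmodule (integralClosure A L)).FG :=
  Module.Finite.iff_fg.mp (IsIntegralClosure.finite A K L (integralClosure A L))

variable {K F : Type*} [Field K] [Field F] [Algebra K F]

/-- **Finiteness of the integral closure without separability.**  `K` perfect, `F` finite over
`K⟮x⟯`: the integral closure of `K[x]` in `F` is a finitely generated `K[x]`-module. -/
theorem integralClosure_adjoin_fg [PerfectField K] (x : F) [FiniteDimensional K⟮x⟯ F] :
    (Subalgebra.toSubmodule (integralClosure (Algebra.adjoin K {x}) F)).FG := by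
  classical
  obtain ⟨p, hp⟩ := ExpChar.exists K
  have : ExpChar F p := expChar_of_injective_algebraMap (algebraMap K F).injective p
  have : ExpChar (Algebra.adjoin K {x}) p :=
    expChar_of_injective_algebraMap (algebraMap K (Algebra.adjoin K {x})).injective p
  have : IsPrincipalIdealRing (Algebra.adjoin K {x}) := isPrincipalIdealRing_adjoin x
  let _ : Algebra (Algebra.adjoin K {x}) K⟮x⟯ :=
    IntermediateField.algebraAdjoinAdjoin.instAlgebraSubtypeMemSubalgebraAdjoinAdjoin K {x}
  have : IsFractionRing (Algebra.adjoin K {x}) K⟮x⟯ :=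
    IntermediateField.algebraAdjoinAdjoin.instIsFractionRingSubtypeMemSubalgebraAdjoinAdjoin K {x}
  -- the separable closure of `K(x)` in `F`
  let Es : IntermediateField K⟮x⟯ F := separableClosure K⟮x⟯ F
  let _ : Algebra (Algebra.adjoin K {x}) Es :=
    ((algebraMap K⟮x⟯ Es).comp (algebraMap (Algebra.adjoin K {x}) K⟮x⟯)).toAlgebra
  have : IsScalarTower (Algebra.adjoin K {x}) K⟮x⟯ Es := IsScalarTower.of_algebraMap_eq fun _ => rfl
  have : IsScalarTower (Algebra.adjoin K {x}) Es F := IsScalarTower.of_algebraMap_eq fun _ => rfl
  have : ExpChar Es p := expChar_of_injective_algebraMap (algebraMap K⟮x⟯ Es).injective p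
  have : IsPurelyInseparable Es F := separableClosure.isPurelyInseparable K⟮x⟯ F
  have : IsPurelyInseparable.HasExponent Es F :=
    IsPurelyInseparable.hasExponent_of_finiteDimensional
  set n := IsPurelyInseparable.exponent Es F with hn
  have hpow : ∀ a : F, a ^ p ^ n ∈ (algebraMap Es F).range :=
    fun a => IsPurelyInseparable.exponent_def' Es p a
  -- the separable part is finite
  have hfinS := integralClosure_fg_of_isSeparable (Algebra.adjoin K {x}) K⟮x⟯ Es
  -- its image in `F`
  let N : Submodule (Algebra.adjoin K {x}) F :=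
    (Subalgebra.toSubmodule (integralClosure (Algebra.adjoin K {x}) Es)).map
      (IsScalarTower.toAlgHom (Algebra.adjoin K {x}) Es F).toLinearMap
  have hN : N.FG := hfinS.map _
  refine fg_of_semilinear_image_le (iterateFrobenius (Algebra.adjoin K {x}) p n)
    (iterateFrobenius F p n).toAddMonoidHom (iterateFrobenius_inj F p n) ?_
    (fun i : Fin (p ^ n) => gen x ^ (i : ℕ)) (exists_frobenius_decomp p x n) _ N hN ?_
  · intro r b
    simp only [RingHom.toAddMonoidHom_eq_coe, AddMonoidHom.coe_coe, iterateFrobenius_def,
      Algebra.smul_def, mul_pow, map_pow]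
  · intro b hb
    obtain ⟨e, he⟩ := hpow b
    refine ⟨e, ?_, he⟩
    have hb' : IsIntegral (Algebra.adjoin K {x}) b := hb
    have : IsIntegral (Algebra.adjoin K {x}) (algebraMap Es F e) := by
      rw [he]; exact hb'.pow _
    exact (isIntegral_algebraMap_iff (algebraMap Es F).injective).mp this

/-- **Finiteness of the integral closure without separability**, instance form. -/
theorem finite_integralClosure_adjoin [PerfectField K] (x : F) [FiniteDimensional K⟮x⟯ F] :
    Module.Finite (Algebra.adjoin K {x}) (integralClosure (Algebra.adjoin K {x}) F) :=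
  Module.Finite.iff_fg.mpr (integralClosure_adjoin_fg x)

/-- The integral closure of `K[x]` in `F` is a noetherian ring (`K` perfect, no separability). -/
theorem isNoetherianRing_integralClosure_adjoin [PerfectField K] (x : F)
    [FiniteDimensional K⟮x⟯ F] :
    IsNoetherianRing (integralClosure (Algebra.adjoin K {x}) F) := by
  have : IsPrincipalIdealRing (Algebra.adjoin K {x}) := isPrincipalIdealRing_adjoin x
  have := finite_integralClosure_adjoin (K := K) x
  exact isNoetherian_of_tower (Algebra.adjoin K {x})
    (isNoetherian_of_isNoetherianRing_of_finite (Algebra.adjoin K {x}) _)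

/-- **Dedekind without separability.**  `K` perfect, `F` finite over `K⟮x⟯`: the integral closure
of `K[x]` in `F` is a Dedekind domain. -/
theorem isDedekindDomain_integralClosure_adjoin [PerfectField K] (x : F)
    [FiniteDimensional K⟮x⟯ F] :
    IsDedekindDomain (integralClosure (Algebra.adjoin K {x}) F) := by
  have : IsPrincipalIdealRing (Algebra.adjoin K {x}) := isPrincipalIdealRing_adjoin x
  let _ : Algebra (Algebra.adjoin K {x}) K⟮x⟯ :=
    IntermediateField.algebraAdjoinAdjoin.instAlgebraSubtypeMemSubalgebraAdjoinAdjoin K {x}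
  have : IsFractionRing (Algebra.adjoin K {x}) K⟮x⟯ :=
    IntermediateField.algebraAdjoinAdjoin.instIsFractionRingSubtypeMemSubalgebraAdjoinAdjoin K {x}
  have : IsScalarTower (Algebra.adjoin K {x}) K⟮x⟯ F := IsScalarTower.of_algebraMap_eq fun _ => rfl
  have h1 : IsNoetherianRing (integralClosure (Algebra.adjoin K {x}) F) :=
    isNoetherianRing_integralClosure_adjoin x
  have h2 : Ring.DimensionLEOne (integralClosure (Algebra.adjoin K {x}) F) :=
    Ring.DimensionLEOne.integralClosure _ _
  have h3 : IsIntegrallyClosed (integralClosure (Algebra.adjoin K {x}) F) :=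
    integralClosure.isIntegrallyClosedOfFiniteExtension K⟮x⟯
  exact { h1, h2, h3 with : IsDedekindDomain (integralClosure (Algebra.adjoin K {x}) F) }

/-- `F` is the fraction field of the integral closure of `K[x]` (Mathlib; recorded for
convenience, no hypothesis on `K`). -/
theorem isFractionRing_integralClosure_adjoin (x : F) [FiniteDimensional K⟮x⟯ F] :
    IsFractionRing (integralClosure (Algebra.adjoin K {x}) F) F := by
  let _ : Algebra (Algebra.adjoin K {x}) K⟮x⟯ :=
    IntermediateField.algebraAdjoinAdjoin.instAlgebraSubtypeMemSubalgebraAdjoinAdjoin K {x}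
  have : IsFractionRing (Algebra.adjoin K {x}) K⟮x⟯ :=
    IntermediateField.algebraAdjoinAdjoin.instIsFractionRingSubtypeMemSubalgebraAdjoinAdjoin K {x}
  have : IsScalarTower (Algebra.adjoin K {x}) K⟮x⟯ F := IsScalarTower.of_algebraMap_eq fun _ => rfl
  exact integralClosure.isFractionRing_of_finite_extension K⟮x⟯ F

end Main

end Fermat.Agent.S18.helper8246
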