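/-
S18, track A, genus input (CR4): the INTEGRAL-CLOSURE INSTANCE of the chart Riemann theorem
(helper789).  Imports Mathlib, `helper789_ChartRiemann` (abstract two-chart theory) and
`helper5122_CechInst` (denominator clearing for integral closures).

`K ⊆ F` fields, `x : F` transcendental over `K`, `F` finite over `K(x)`;
`B₁`, `B₂` = integral closures of `K[x]`, `K[x⁻¹]` in `F`, assumed finite over `K[x]`, `K[x⁻¹]`.
-/
import Mathlib
import Fermat.Agent.S18.helper789_ChartRiemann
import Fermat.Agent.S18.helper5122_CechInst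
import Fermat.Agent.S18.helper8246_IntClosureFinite
import Fermat.Agent.S18.helper4464_ChartRiemann

set_option autoImplicit false

namespace Fermat.Agent.S18.helper789

open Polynomial Module IntermediateField
open scoped IntermediateField.algebraAdjoinAdjoin

section Instance

variable {K F : Type*} [Field K] [Field F] [Algebra K F]

theorem isIntegral_aeval_adjoin (y : F) (p : K[X]) :
    IsIntegral (Algebra.adjoin K {y}) (aeval y p) := by
  have hmem : aeval y p ∈ Algebra.adjoin K {y} := by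
    rw [Algebra.adjoin_singleton_eq_range_aeval]
    exact ⟨p, rfl⟩
  exact isIntegral_algebraMap (R := Algebra.adjoin K {y}) (x := ⟨aeval y p, hmem⟩)

/-- The chart ring: the integral closure of `K[y]` in `F`, as a `K`-subspace of `F`. -/
def chartB (K : Type*) {F : Type*} [Field K] [Field F] [Algebra K F] (y : F) : Submodule K F where
  carrier := {g | IsIntegral (Algebra.adjoin K {y}) g}
  zero_mem' := isIntegral_zero
  add_mem' := fun ha hb => ha.add hb
  smul_mem' := fun c g hg => by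
    have h : algebraMap K F c = aeval y (C c) := by simp
    show IsIntegral (Algebra.adjoin K {y}) (c • g)
    rw [Algebra.smul_def, h]
    exact (isIntegral_aeval_adjoin y (C c)).mul hg

theorem mem_chartB {y g : F} : g ∈ chartB K y ↔ IsIntegral (Algebra.adjoin K {y}) g := Iff.rfl

/-- A `K[y]`-basis of the chart ring (finite torsion-free over the PID `K[y]`). -/
theorem exists_freeChart (y : F) (hy : Transcendental K y)
    (hfin : Module.Finite (Algebra.adjoin K {y}) (integralClosure (Algebra.adjoin K {y}) F)) :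
    ∃ (n : ℕ) (e : Fin n → F), FreeChart y (chartB K y) e := by
  classical
  let _ : Module K[X] F := Module.compHom F (aeval y : K[X] →ₐ[K] F).toRingHom
  have hsmul : ∀ (p : K[X]) (φ : F), p • φ = aeval y p * φ := fun p φ => rfl
  let B' : Submodule K[X] F :=
    { carrier := {g | IsIntegral (Algebra.adjoin K {y}) g}
      zero_mem' := isIntegral_zero
      add_mem' := fun ha hb => ha.add hb
      smul_mem' := fun p g hg => by
        show IsIntegral (Algebra.adjoin K {y}) (p • g)
        rw [hsmul]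
        exact (isIntegral_aeval_adjoin y p).mul hg }
  have hmemB' : ∀ g : F, g ∈ B' ↔ IsIntegral (Algebra.adjoin K {y}) g := fun g => Iff.rfl
  -- finite generation
  have hfg : Module.Finite K[X] ↥B' := by
    obtain ⟨G, hG, hgen⟩ := helper5122.exists_gens_adjoin (A := K) y hfin
    rw [Module.Finite.iff_fg]
    refine ⟨G, le_antisymm (Submodule.span_le.mpr fun g hg => hG g hg) fun g hg => ?_⟩
    obtain ⟨c, rfl⟩ := hgen g hg
    refine Submodule.sum_mem _ fun g' hg' => ?_
    rw [← hsmul]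
    exact Submodule.smul_mem _ _ (Submodule.subset_span hg')
  -- torsion-freeness
  have htf : Module.IsTorsionFree K[X] ↥B' := by
    refine Module.IsTorsionFree.of_smul_eq_zero fun p g hpg => ?_
    have h1 : aeval y p * (g : F) = 0 := by
      have := congrArg (fun z : ↥B' => (z : F)) hpg
      simpa [hsmul] using this
    rcases mul_eq_zero.mp h1 with h2 | h2
    · left
      exact (transcendental_iff_injective.mp hy) (by rw [h2, map_zero])
    · right
      exact Subtype.ext h2
  obtain ⟨n, b⟩ : Σ n : ℕ, Basis (Fin n) K[X] ↥B' := Module.basisOfFiniteTypeTorsionFree'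
  refine ⟨n, fun i => (b i : F), ⟨fun φ => ⟨fun hφ => ?_, ?_⟩, fun p hp => ?_⟩⟩
  · refine ⟨fun i => b.repr ⟨φ, hφ⟩ i, ?_⟩
    have h1 := congrArg (fun z : ↥B' => (z : F)) (b.sum_repr ⟨φ, hφ⟩)
    simp only [Submodule.coe_sum, Submodule.coe_smul, hsmul] at h1
    exact h1.symm
  · rintro ⟨p, rfl⟩
    refine Submodule.sum_mem _ fun i _ => ?_
    exact (isIntegral_aeval_adjoin y (p i)).mul (b i).2
  · have h1 : ∑ i, p i • b i = 0 := by
      apply Subtype.ext
      simp only [Submodule.coe_sum, Submodule.coe_smul, hsmul, Submodule.coe_zero]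
      exact hp
    have h2 := Fintype.linearIndependent_iff.mp b.linearIndependent p h1
    funext i
    exact h2 i

/-- The rank of a free chart is `[F : K(y)]`. -/
theorem card_eq_finrank_of_freeChart {ι : Type*} [Fintype ι] {y : F} {e : ι → F}
    (h : FreeChart y (chartB K y) e) (hy : Transcendental K y) [FiniteDimensional K⟮y⟯ F] :
    Fintype.card ι = finrank K⟮y⟯ F := by
  classical
  have hinj : Function.Injective (aeval (R := K) y) := transcendental_iff_injective.mp hy
  have hsm : ∀ (c : K⟮y⟯) (z : F), c • z = (c : F) * z := fun c z => rfl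
  have hli : LinearIndependent K⟮y⟯ e := by
    rw [Fintype.linearIndependent_iff]
    intro c hc
    have hrs : ∀ i, ∃ r s : K[X], s ≠ 0 ∧ (c i : F) * aeval y s = aeval y r := by
      intro i
      obtain ⟨r, s, hrs⟩ := (mem_adjoin_simple_iff K (c i : F)).mp (c i).2
      by_cases hs : s = 0
      · refine ⟨0, 1, one_ne_zero, ?_⟩
        rw [hrs, hs]
        simp
      · refine ⟨r, s, hs, ?_⟩
        have : aeval y s ≠ 0 := fun h0 => hs (hinj (by rw [h0, map_zero]))
        rw [hrs, div_mul_cancel₀ _ this]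
    choose r s hs hrs using hrs
    have hzero : ∑ i, aeval y (r i * ∏ j ∈ Finset.univ.erase i, s j) * e i = 0 := by
      have h1 : ∀ i, aeval y (r i * ∏ j ∈ Finset.univ.erase i, s j) * e i
          = aeval y (∏ j, s j) * (c i • e i) := by
        intro i
        rw [← Finset.mul_prod_erase Finset.univ s (Finset.mem_univ i), map_mul, map_mul,
          ← hrs i, hsm]
        ring
      simp only [h1]
      rw [← Finset.mul_sum, hc, mul_zero]
    have h2 := h.indep _ hzero
    intro i
    have h3 : r i * ∏ j ∈ Finset.univ.erase i, s j = 0 := congrFun h2 i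
    have h4 : r i = 0 := by
      rcases mul_eq_zero.mp h3 with h | h
      · exact h
      · exact absurd h (Finset.prod_ne_zero_iff.mpr fun j _ => hs j)
    have h5 : (c i : F) * aeval y (s i) = 0 := by rw [hrs, h4, map_zero]
    have h6 : aeval y (s i) ≠ 0 := fun h0 => hs i (hinj (by rw [h0, map_zero]))
    exact Subtype.ext ((mul_eq_zero.mp h5).resolve_right h6)
  have hspan : ⊤ ≤ Submodule.span K⟮y⟯ (Set.range e) := by
    intro φ _
    have halg : IsAlgebraic K⟮y⟯ φ := Algebra.IsAlgebraic.isAlgebraic φ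
    have halg' : IsAlgebraic (Algebra.adjoin K {y}) φ :=
      (IsFractionRing.isAlgebraic_iff (Algebra.adjoin K {y}) K⟮y⟯ F).mpr halg
    obtain ⟨s, hs0, hs⟩ := halg'.exists_integral_multiple
    have hs' : ((s : F) * φ) ∈ chartB K y := hs
    obtain ⟨p, hp⟩ := (h.mem _).mp hs'
    have hsF : (s : F) ≠ 0 := fun h0 => hs0 (Subtype.ext h0)
    have hsmem : (s : F) ∈ K⟮y⟯ := algebra_adjoin_le_adjoin K _ s.2
    have hpmem : ∀ i, aeval y (p i) ∈ K⟮y⟯ := fun i =>
      algebra_adjoin_le_adjoin K _ (by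
        rw [Algebra.adjoin_singleton_eq_range_aeval]
        exact ⟨p i, rfl⟩)
    have hφ : φ = ∑ i, (⟨aeval y (p i) / (s : F), div_mem (hpmem i) hsmem⟩ : K⟮y⟯) • e i := by
      simp only [hsm]
      have : φ = (s : F)⁻¹ * ((s : F) * φ) := by
        rw [← mul_assoc, inv_mul_cancel₀ hsF, one_mul]
      rw [this, hp, Finset.mul_sum]
      refine Finset.sum_congr rfl fun i _ => ?_
      rw [div_eq_mul_inv]
      ring
    rw [hφ]
    exact Submodule.sum_mem _ fun i _ =>
      Submodule.smul_mem _ _ (Submodule.subset_span (Set.mem_range_self i))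
  exact (Module.finrank_eq_card_basis (Basis.mk hli hspan)).symm

theorem transcendental_inv' {x : F} (hx : Transcendental K x) : Transcendental K x⁻¹ :=
  fun h => hx (IsAlgebraic.inv_iff.mp h)

theorem ne_zero_of_transcendental {x : F} (hx : Transcendental K x) : x ≠ 0 :=
  fun h0 => hx (h0 ▸ isAlgebraic_zero)

theorem adjoin_simple_inv (x : F) : K⟮x⁻¹⟯ = K⟮x⟯ := by
  apply le_antisymm
  · rw [adjoin_simple_le_iff]
    exact inv_mem (mem_adjoin_simple_self K x)
  · rw [adjoin_simple_le_iff]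
    have h := inv_mem (mem_adjoin_simple_self K x⁻¹)
    rwa [inv_inv] at h

/-- The two integral closures form a `TwoChart`. -/
theorem exists_twoChart (x : F) (hx : Transcendental K x)
    (hfin1 : Module.Finite (Algebra.adjoin K {x}) (integralClosure (Algebra.adjoin K {x}) F))
    (hfin2 : Module.Finite (Algebra.adjoin K {x⁻¹})
      (integralClosure (Algebra.adjoin K {x⁻¹}) F)) :
    ∃ (n₁ n₂ : ℕ) (e : Fin n₁ → F) (f : Fin n₂ → F),
      TwoChart x (chartB K x) (chartB K x⁻¹) e f := by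
  have hx0 : x ≠ 0 := ne_zero_of_transcendental hx
  obtain ⟨n₁, e, he⟩ := exists_freeChart x hx hfin1
  obtain ⟨n₂, f, hf⟩ := exists_freeChart x⁻¹ (transcendental_inv' hx) hfin2
  refine ⟨n₁, n₂, e, f, ⟨hx0, he, hf, fun j => ?_, fun i => ?_⟩⟩
  · have h1 : IsIntegral (Algebra.adjoin K {x⁻¹}) (f j) := hf.basis_mem j
    have h2 : IsIntegral (Algebra.adjoin K {x, x⁻¹}) (f j) :=
      helper5122.isIntegral_mono (Algebra.adjoin_mono (by simp)) h1
    exact helper5122.icl_pair_scale (A := K) x hx0 (f j) h2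
  · have h1 : IsIntegral (Algebra.adjoin K {x}) (e i) := he.basis_mem i
    have h2 : IsIntegral (Algebra.adjoin K {x, x⁻¹}) (e i) :=
      helper5122.isIntegral_mono (Algebra.adjoin_mono (by simp)) h1
    exact helper5122.icl_pair_scale' (A := K) x hx0 (e i) h2

/-- The **chart genus** `γ(F, x) = dim_K B₁₂ / (B₁ + B₂)`. -/
noncomputable def chartGenus (K : Type*) {F : Type*} [Field K] [Field F] [Algebra K F] (x : F) :
    ℕ :=
  chartH x (chartB K x) (chartB K x⁻¹) 0 0

/-- The place-free space `L(a X∞ + b X₀) = x⁻ᵇ B₁ ∩ xᵃ B₂`. -/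
def chartSp (K : Type*) {F : Type*} [Field K] [Field F] [Algebra K F] (x : F) (a b : ℕ) :
    Submodule K F :=
  chartL x (chartB K x) (chartB K x⁻¹) a b

theorem mem_chartSp {x g : F} {a b : ℕ} :
    g ∈ chartSp K x a b ↔ IsIntegral (Algebra.adjoin K {x}) (x ^ b * g) ∧
      IsIntegral (Algebra.adjoin K {x⁻¹}) (x⁻¹ ^ a * g) := Iff.rfl

/-- Elements integral over both `K[x]` and `K[x⁻¹]` are integral over `K`. -/
theorem isIntegral_of_mem_both {x : F} (hx : Transcendental K x)
    (hfin1 : Module.Finite (Algebra.adjoin K {x}) (integralClosure (Algebra.adjoin K {x}) F))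
    (hfin2 : Module.Finite (Algebra.adjoin K {x⁻¹})
      (integralClosure (Algebra.adjoin K {x⁻¹}) F))
    {g : F} (h1 : IsIntegral (Algebra.adjoin K {x}) g)
    (h2 : IsIntegral (Algebra.adjoin K {x⁻¹}) g) : IsIntegral K g := by
  obtain ⟨n₁, n₂, e, f, h⟩ := exists_twoChart x hx hfin1 hfin2
  let S : Subalgebra K F :=
    helper5122.icl (Algebra.adjoin K {x}) ⊓ helper5122.icl (Algebra.adjoin K {x⁻¹})
  have hS : S.toSubmodule = chartL x (chartB K x) (chartB K x⁻¹) 0 0 := by
    ext φ
    rw [mem_chartL, pow_zero, pow_zero, one_mul]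
    exact Iff.rfl
  have hfg : S.toSubmodule.FG := by
    rw [hS]
    have := h.finite_chartL 0 0
    exact Module.Finite.iff_fg.mp this
  exact IsIntegral.of_mem_of_fg S hfg g ⟨h1, h2⟩

/-- `B₁ ∩ B₂ = K` when `K` is algebraically closed in `F`. -/
theorem finrank_chartSp_zero {x : F} (hx : Transcendental K x)
    (hfin1 : Module.Finite (Algebra.adjoin K {x}) (integralClosure (Algebra.adjoin K {x}) F))
    (hfin2 : Module.Finite (Algebra.adjoin K {x⁻¹})
      (integralClosure (Algebra.adjoin K {x⁻¹}) F))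
    (hK : ∀ g : F, IsIntegral K g → g ∈ (algebraMap K F).range) :
    finrank K ↥(chartSp K x 0 0) = 1 := by
  have h1 : chartSp K x 0 0 = Submodule.span K {(1 : F)} := by
    apply le_antisymm
    · intro g hg
      obtain ⟨hg1, hg2⟩ := mem_chartSp.mp hg
      rw [pow_zero, one_mul] at hg1 hg2
      obtain ⟨c, rfl⟩ := hK g (isIntegral_of_mem_both hx hfin1 hfin2 hg1 hg2)
      rw [Submodule.mem_span_singleton]
      exact ⟨c, by rw [Algebra.smul_def, mul_one]⟩
    · rw [Submodule.span_le, Set.singleton_subset_iff]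
      refine mem_chartSp.mpr ⟨?_, ?_⟩
      · rw [mul_one, pow_zero]
        exact isIntegral_one
      · rw [mul_one, pow_zero]
        exact isIntegral_one
  rw [h1]
  exact finrank_span_singleton one_ne_zero

/-- **Chart Riemann theorem for integral closures** (CR4): for `max a b ≥ n₀`,
`dim (x⁻ᵇ B₁ ∩ xᵃ B₂) + γ = (a + b) [F : K(x)] + dim (B₁ ∩ B₂)`; for all `a b` the inequality
`≥` holds; all the spaces are finite-dimensional and `B₁₂/(B₁ + B₂)` is finite-dimensional. -/
theorem chart_riemann_integralClosure (x : F) (hx : Transcendental K x) [FiniteDimensional K⟮x⟯ F]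
    (hfin1 : Module.Finite (Algebra.adjoin K {x}) (integralClosure (Algebra.adjoin K {x}) F))
    (hfin2 : Module.Finite (Algebra.adjoin K {x⁻¹})
      (integralClosure (Algebra.adjoin K {x⁻¹}) F)) :
    (∀ a b : ℕ, Module.Finite K ↥(chartSp K x a b)) ∧
    (∀ a b : ℕ, (a + b) * finrank K⟮x⟯ F + finrank K ↥(chartSp K x 0 0)
      ≤ finrank K ↥(chartSp K x a b) + chartGenus K x) ∧
    ∃ n₀ : ℕ, ∀ a b : ℕ, n₀ ≤ max a b →
      finrank K ↥(chartSp K x a b) + chartGenus K x
        = (a + b) * finrank K⟮x⟯ F + finrank K ↥(chartSp K x 0 0) := by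
  obtain ⟨n₁, n₂, e, f, h⟩ := exists_twoChart x hx hfin1 hfin2
  have hc1 : n₁ = finrank K⟮x⟯ F := by
    have := card_eq_finrank_of_freeChart h.chart1 hx
    rwa [Fintype.card_fin] at this
  have hc2 : n₂ = finrank K⟮x⟯ F := by
    have hfd : FiniteDimensional K⟮x⁻¹⟯ F := by
      rw [adjoin_simple_inv]
      infer_instance
    have := card_eq_finrank_of_freeChart h.chart2 (transcendental_inv' hx)
    rw [Fintype.card_fin] at this
    rw [this, adjoin_simple_inv]
  have e1 : ∀ a b : ℕ, (a + b) * finrank K⟮x⟯ F = b * n₁ + a * n₂ := fun a b => by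
    rw [hc1, hc2]
    ring
  refine ⟨fun a b => h.finite_chartL a b, fun a b => ?_, ?_⟩
  · have := h.riemann_ge a b
    rw [Fintype.card_fin, Fintype.card_fin] at this
    rw [e1]
    exact this
  · obtain ⟨n₀, hn₀⟩ := h.riemann
    refine ⟨n₀, fun a b hab => ?_⟩
    have := hn₀ a b hab
    rw [Fintype.card_fin, Fintype.card_fin] at this
    rw [e1]
    exact this

/-! ### Presentation-independent forms of the chart genus -/

theorem mem_overlap_chartB {x φ : F} :
    φ ∈ overlap x (chartB K x) ↔ ∃ n : ℕ, IsIntegral (Algebra.adjoin K {x}) (x ^ n * φ) := by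
  let c : ℕ →o Submodule K F :=
    ⟨shift x (chartB K x), fun m n hmn φ hφ => by
      obtain ⟨k, rfl⟩ := Nat.exists_eq_add_of_le hmn
      have h1 : IsIntegral (Algebra.adjoin K {x}) (x ^ m * φ) := hφ
      have h2 : x ^ (m + k) * φ = aeval x (X ^ k : K[X]) * (x ^ m * φ) := by
        rw [map_pow, aeval_X, pow_add]
        ring
      show IsIntegral (Algebra.adjoin K {x}) (x ^ (m + k) * φ)
      rw [h2]
      exact (isIntegral_aeval_adjoin x _).mul h1⟩
  exact Submodule.mem_iSup_of_chain c φ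

/-- `dim W/(W ⊓ P)` as the dimension of the image of `W` in `E ⧸ P`. -/
theorem finrank_map_mkQ_eq {E : Type*} [AddCommGroup E] [Module K E] (P W : Submodule K E) :
    finrank K ↥(W.map P.mkQ) = finrank K (↥W ⧸ P.submoduleOf W) := by
  have hker : LinearMap.ker (P.mkQ ∘ₗ W.subtype) = P.submoduleOf W := by
    rw [LinearMap.ker_comp, Submodule.ker_mkQ]
    rfl
  have hrange : LinearMap.range (P.mkQ ∘ₗ W.subtype) = W.map P.mkQ := by
    rw [LinearMap.range_comp, Submodule.range_subtype]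
  rw [← hrange, ← hker]
  exact (P.mkQ ∘ₗ W.subtype).quotKerEquivRange.finrank_eq.symm

theorem finite_map_mkQ_iff {E : Type*} [AddCommGroup E] [Module K E] (P W : Submodule K E) :
    Module.Finite K ↥(W.map P.mkQ) ↔ Module.Finite K (↥W ⧸ P.submoduleOf W) := by
  have hker : LinearMap.ker (P.mkQ ∘ₗ W.subtype) = P.submoduleOf W := by
    rw [LinearMap.ker_comp, Submodule.ker_mkQ]
    rfl
  have hrange : LinearMap.range (P.mkQ ∘ₗ W.subtype) = W.map P.mkQ := by
    rw [LinearMap.range_comp, Submodule.range_subtype]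
  rw [← hrange, ← hker]
  exact ⟨fun h => Module.Finite.equiv (P.mkQ ∘ₗ W.subtype).quotKerEquivRange.symm,
    fun h => Module.Finite.equiv (P.mkQ ∘ₗ W.subtype).quotKerEquivRange⟩

/-- The chart genus is `dim B₁₂/(B₁ + B₂)` for ANY presentation of the three chart spaces
(quotient form). -/
theorem chartGenus_eq_finrank_quot {x : F} (B1 B2 B12 : Submodule K F)
    (hB1 : ∀ φ, φ ∈ B1 ↔ IsIntegral (Algebra.adjoin K {x}) φ)
    (hB2 : ∀ φ, φ ∈ B2 ↔ IsIntegral (Algebra.adjoin K {x⁻¹}) φ)
    (hB12 : ∀ φ, φ ∈ B12 ↔ ∃ n : ℕ, x ^ n * φ ∈ B1) :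
    chartGenus K x = finrank K (↥B12 ⧸ Submodule.comap B12.subtype (B1 ⊔ B2)) := by
  obtain rfl : B1 = chartB K x := Submodule.ext hB1
  obtain rfl : B2 = chartB K x⁻¹ := Submodule.ext hB2
  obtain rfl : B12 = overlap x (chartB K x) :=
    Submodule.ext fun φ => (hB12 φ).trans mem_overlap_chartB.symm
  unfold chartGenus chartH
  rw [shift_zero, shift_zero]
  rfl

/-- The chart genus in the `relDim` form of `helper4464_ChartRiemann`. -/
theorem chartGenus_eq_relDim {x : F} (B1 B2 B12 : Submodule K F)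
    (hB1 : ∀ φ, φ ∈ B1 ↔ IsIntegral (Algebra.adjoin K {x}) φ)
    (hB2 : ∀ φ, φ ∈ B2 ↔ IsIntegral (Algebra.adjoin K {x⁻¹}) φ)
    (hB12 : ∀ φ, φ ∈ B12 ↔ ∃ n : ℕ, x ^ n * φ ∈ B1) :
    chartGenus K x = helper4464.relDim (B1 ⊔ B2) B12 := by
  rw [chartGenus_eq_finrank_quot B1 B2 B12 hB1 hB2 hB12]
  unfold helper4464.relDim
  exact (finrank_map_mkQ_eq (B1 ⊔ B2) B12).symm

/-- Serre finiteness for integral closures, in both forms. -/
theorem finite_chartQuot {x : F} (hx : Transcendental K x)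
    (hfin1 : Module.Finite (Algebra.adjoin K {x}) (integralClosure (Algebra.adjoin K {x}) F))
    (hfin2 : Module.Finite (Algebra.adjoin K {x⁻¹})
      (integralClosure (Algebra.adjoin K {x⁻¹}) F))
    (B1 B2 B12 : Submodule K F)
    (hB1 : ∀ φ, φ ∈ B1 ↔ IsIntegral (Algebra.adjoin K {x}) φ)
    (hB2 : ∀ φ, φ ∈ B2 ↔ IsIntegral (Algebra.adjoin K {x⁻¹}) φ)
    (hB12 : ∀ φ, φ ∈ B12 ↔ ∃ n : ℕ, x ^ n * φ ∈ B1) :
    Module.Finite K (↥B12 ⧸ Submodule.comap B12.subtype (B1 ⊔ B2)) ∧
      Module.Finite K ↥(B12.map (B1 ⊔ B2).mkQ) := by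
  obtain rfl : B1 = chartB K x := Submodule.ext hB1
  obtain rfl : B2 = chartB K x⁻¹ := Submodule.ext hB2
  obtain rfl : B12 = overlap x (chartB K x) :=
    Submodule.ext fun φ => (hB12 φ).trans mem_overlap_chartB.symm
  obtain ⟨n₁, n₂, e, f, h⟩ := exists_twoChart x hx hfin1 hfin2
  have h0 := h.finite_H 0 0
  rw [shift_zero, shift_zero] at h0
  exact ⟨h0, (finite_map_mkQ_iff _ _).mpr h0⟩

/-! ### Packaged forms -/

/-- (CR4), perfect base field: no finiteness hypotheses. -/
theorem chart_riemann_perfect [PerfectField K] (x : F) (hx : Transcendental K x)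
    [FiniteDimensional K⟮x⟯ F] :
    (∀ a b : ℕ, Module.Finite K ↥(chartSp K x a b)) ∧
    (∀ a b : ℕ, (a + b) * finrank K⟮x⟯ F + finrank K ↥(chartSp K x 0 0)
      ≤ finrank K ↥(chartSp K x a b) + chartGenus K x) ∧
    ∃ n₀ : ℕ, ∀ a b : ℕ, n₀ ≤ max a b →
      finrank K ↥(chartSp K x a b) + chartGenus K x
        = (a + b) * finrank K⟮x⟯ F + finrank K ↥(chartSp K x 0 0) := by
  have hfd : FiniteDimensional K⟮x⁻¹⟯ F := by
    rw [adjoin_simple_inv]
    infer_instance
  exact chart_riemann_integralClosure x hx (helper8246.finite_integralClosure_adjoin x)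
    (helper8246.finite_integralClosure_adjoin x⁻¹)

theorem mem_range_of_isIntegral_of_isAlgClosed [IsAlgClosed K] {g : F} (hg : IsIntegral K g) :
    g ∈ (algebraMap K F).range := by
  refine ⟨-(minpoly K g).coeff 0, ?_⟩
  have hq : (minpoly K g).leadingCoeff = 1 := minpoly.monic hg
  have h : (minpoly K g).degree = 1 :=
    IsAlgClosed.degree_eq_one_of_irreducible K (minpoly.irreducible hg)
  have h0 : aeval g (minpoly K g) = 0 := minpoly.aeval K g
  rw [eq_X_add_C_of_degree_eq_one h, hq, C_1, one_mul, aeval_add, aeval_X, aeval_C,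
    add_eq_zero_iff_eq_neg] at h0
  rw [map_neg]
  exact h0.symm

/-- (CR4), algebraically closed base field: the **chart Riemann theorem**
`dim (x⁻ᵇ B₁ ∩ xᵃ B₂) + γ = (a + b) [F : K(x)] + 1` for `max a b ≥ n₀`, and `≥` always. -/
theorem chart_riemann_isAlgClosed [IsAlgClosed K] (x : F) (hx : Transcendental K x)
    [FiniteDimensional K⟮x⟯ F] :
    (∀ a b : ℕ, Module.Finite K ↥(chartSp K x a b)) ∧
    (∀ a b : ℕ, (a + b) * finrank K⟮x⟯ F + 1 ≤ finrank K ↥(chartSp K x a b) + chartGenus K x) ∧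
    ∃ n₀ : ℕ, ∀ a b : ℕ, n₀ ≤ max a b →
      finrank K ↥(chartSp K x a b) + chartGenus K x = (a + b) * finrank K⟮x⟯ F + 1 := by
  have hfd : FiniteDimensional K⟮x⁻¹⟯ F := by
    rw [adjoin_simple_inv]
    infer_instance
  have h1 := helper8246.finite_integralClosure_adjoin (K := K) x
  have h2 := helper8246.finite_integralClosure_adjoin (K := K) x⁻¹
  have h0 : finrank K ↥(chartSp K x 0 0) = 1 :=
    finrank_chartSp_zero hx h1 h2 fun g hg => mem_range_of_isIntegral_of_isAlgClosed hg
  have h := chart_riemann_integralClosure x hx h1 h2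
  rw [h0] at h
  exact h

/-- Consumer form (`helper8566.riemannGenus_eq_of_chart`, hypothesis `hchart`), for any family
with the two-chart membership criterion. -/
theorem hchart_of_isAlgClosed [IsAlgClosed K] (x : F) (hx : Transcendental K x)
    [FiniteDimensional K⟮x⟯ F] (V : ℕ → ℕ → Submodule K F)
    (hV : ∀ a b g, g ∈ V a b ↔ IsIntegral (Algebra.adjoin K {x}) (x ^ b * g) ∧
      IsIntegral (Algebra.adjoin K {x⁻¹}) (x⁻¹ ^ a * g)) :
    ∃ n₀ : ℕ, ∀ a b : ℕ, n₀ ≤ a → n₀ ≤ b →
      (finrank K (V a b) : ℤ) = ((a : ℤ) + b) * (finrank K⟮x⟯ F : ℕ) + 1 - (chartGenus K x : ℕ) := by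
  obtain ⟨n₀, hn₀⟩ := (chart_riemann_isAlgClosed x hx).2.2
  refine ⟨n₀, fun a b ha _ => ?_⟩
  have hVab : V a b = chartSp K x a b :=
    Submodule.ext fun g => (hV a b g).trans mem_chartSp.symm
  have := hn₀ a b (le_trans ha (le_max_left a b))
  rw [hVab]
  have h2 : ((finrank K ↥(chartSp K x a b) : ℕ) : ℤ) + (chartGenus K x : ℕ)
      = (((a + b) * finrank K⟮x⟯ F + 1 : ℕ) : ℤ) := by exact_mod_cast this
  push_cast at h2
  linarith

/-- Consumer form (`helper1364.chartRiemann_of_family`, hypothesis `hdim`). -/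
theorem hdim_of_isAlgClosed [IsAlgClosed K] (x : F) (hx : Transcendental K x)
    [FiniteDimensional K⟮x⟯ F] (V : ℕ → Submodule K F)
    (hV : ∀ n g, g ∈ V n ↔ IsIntegral (Algebra.adjoin K {x}) g ∧
      IsIntegral (Algebra.adjoin K {x⁻¹}) (x⁻¹ ^ n * g)) :
    ∃ n₀ : ℕ, ∀ n : ℕ, n₀ ≤ n →
      (finrank K (V n) : ℤ) = (n : ℤ) * (finrank K⟮x⟯ F : ℕ) + 1 - (chartGenus K x : ℕ) := by
  obtain ⟨n₀, hn₀⟩ := (chart_riemann_isAlgClosed x hx).2.2
  refine ⟨n₀, fun n hn => ?_⟩
  have hVn : V n = chartSp K x n 0 :=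
    Submodule.ext fun g => by
      rw [hV n g, mem_chartSp, pow_zero, one_mul]
  have := hn₀ n 0 (le_trans hn (le_max_left n 0))
  rw [hVn]
  have h2 : ((finrank K ↥(chartSp K x n 0) : ℕ) : ℤ) + (chartGenus K x : ℕ)
      = (((n + 0) * finrank K⟮x⟯ F + 1 : ℕ) : ℤ) := by exact_mod_cast this
  push_cast at h2
  linarith

/-! ### Symmetry `x ↔ x⁻¹` -/

/-- `h¹` is symmetric under the exchange of the two charts. -/
theorem chartH_symm {ι₁ ι₂ : Type*} [Fintype ι₁] [Fintype ι₂] {x : F} {B1 B2 : Submodule K F}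
    {e : ι₁ → F} {f : ι₂ → F} (h : TwoChart x B1 B2 e f) (a b : ℕ) :
    chartH x⁻¹ B2 B1 b a = chartH x B1 B2 a b := by
  unfold chartH
  rw [h.overlap_symm, inv_inv, sup_comm]

theorem finrank_adjoin_simple_inv (x : F) : finrank K⟮x⁻¹⟯ F = finrank K⟮x⟯ F := by
  rw [adjoin_simple_inv]

/-- The chart genus of `x⁻¹` is the chart genus of `x`. -/
theorem chartGenus_inv {x : F} (hx : Transcendental K x)
    (hfin1 : Module.Finite (Algebra.adjoin K {x}) (integralClosure (Algebra.adjoin K {x}) F))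
    (hfin2 : Module.Finite (Algebra.adjoin K {x⁻¹})
      (integralClosure (Algebra.adjoin K {x⁻¹}) F)) :
    chartGenus K x⁻¹ = chartGenus K x := by
  obtain ⟨n₁, n₂, e, f, h⟩ := exists_twoChart x hx hfin1 hfin2
  unfold chartGenus
  rw [inv_inv]
  exact chartH_symm h 0 0

theorem chartGenus_inv_of_perfect [PerfectField K] {x : F} (hx : Transcendental K x)
    [FiniteDimensional K⟮x⟯ F] : chartGenus K x⁻¹ = chartGenus K x := by
  have hfd : FiniteDimensional K⟮x⁻¹⟯ F := by
    rw [adjoin_simple_inv]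
    infer_instance
  exact chartGenus_inv hx (helper8246.finite_integralClosure_adjoin x)
    (helper8246.finite_integralClosure_adjoin x⁻¹)

/-- Consumer form (`helper1364.chartRiemann_of_family` at `x⁻¹`, hypothesis `hdim`), with the
degree and the genus of `x`: the chart Riemann theorem for `x⁻¹` has the SAME `d` and `γ`. -/
theorem hdim_inv_of_isAlgClosed [IsAlgClosed K] (x : F) (hx : Transcendental K x)
    [FiniteDimensional K⟮x⟯ F] (V : ℕ → Submodule K F)
    (hV : ∀ n g, g ∈ V n ↔ IsIntegral (Algebra.adjoin K {x⁻¹}) g ∧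
      IsIntegral (Algebra.adjoin K {x⁻¹⁻¹}) (x⁻¹⁻¹ ^ n * g)) :
    ∃ n₀ : ℕ, ∀ n : ℕ, n₀ ≤ n →
      (finrank K (V n) : ℤ) = (n : ℤ) * (finrank K⟮x⟯ F : ℕ) + 1 - (chartGenus K x : ℕ) := by
  have hfd : FiniteDimensional K⟮x⁻¹⟯ F := by
    rw [adjoin_simple_inv]
    infer_instance
  have h := hdim_of_isAlgClosed x⁻¹ (transcendental_inv' hx) V hV
  rwa [finrank_adjoin_simple_inv, chartGenus_inv_of_perfect hx] at h

/-- Consumer form (`helper8566` shape) at `x⁻¹`, with the degree and the genus of `x`. -/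
theorem hchart_inv_of_isAlgClosed [IsAlgClosed K] (x : F) (hx : Transcendental K x)
    [FiniteDimensional K⟮x⟯ F] (V : ℕ → ℕ → Submodule K F)
    (hV : ∀ a b g, g ∈ V a b ↔ IsIntegral (Algebra.adjoin K {x⁻¹}) (x⁻¹ ^ b * g) ∧
      IsIntegral (Algebra.adjoin K {x⁻¹⁻¹}) (x⁻¹⁻¹ ^ a * g)) :
    ∃ n₀ : ℕ, ∀ a b : ℕ, n₀ ≤ a → n₀ ≤ b →
      (finrank K (V a b) : ℤ) = ((a : ℤ) + b) * (finrank K⟮x⟯ F : ℕ) + 1 - (chartGenus K x : ℕ) := by
  have hfd : FiniteDimensional K⟮x⁻¹⟯ F := by
    rw [adjoin_simple_inv]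
    infer_instance
  have h := hchart_of_isAlgClosed x⁻¹ (transcendental_inv' hx) V hV
  rwa [finrank_adjoin_simple_inv, chartGenus_inv_of_perfect hx] at h

end Instance

end Fermat.Agent.S18.helper789
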