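/-
S18, leaf S18-DUAL (helper3927): chart duality (DU1) in the vocabulary of the landed consumers
`helper4445.omega` (regular chart differentials) and `helper4464.relDim` (chart genus).
-/
import Fermat.Agent.S18.helper3927_ChartDuality
import Fermat.Agent.S18.helper4445_GenusRed
import Fermat.Agent.S18.helper4464_ChartRiemann
import Fermat.Agent.S18.helper789_ChartInst

set_option autoImplicit false

namespace Fermat.Agent.S18.helper3927

open Polynomial Module IntermediateField

variable {K F : Type*} [Field K] [Field F] [Algebra K F]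

/-- `helper4445.omega` is the `Ω` of `helper3927_ChartDuality`. -/
theorem omega_eq_omega (x : F) : helper4445.omega K x = omega K x :=
  Submodule.ext fun _ => mem_omega.symm

/-- **(DU1)** `dim_K Ω(F, x) = γ(F, x)`, no finiteness hypothesis: both sides are `finrank`s. -/
theorem finrank_omega_eq_relDim' (x : F) (hx : Transcendental K x)
    [FiniteDimensional K⟮x⟯ F] [Algebra.IsSeparable K⟮x⟯ F] (B1 B2 B12 : Submodule K F)
    (hB1 : ∀ φ, φ ∈ B1 ↔ IsIntegral (Algebra.adjoin K {x}) φ)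
    (hB2 : ∀ φ, φ ∈ B2 ↔ IsIntegral (Algebra.adjoin K {x⁻¹}) φ)
    (hB12 : ∀ φ, φ ∈ B12 ↔ ∃ n : ℕ, x ^ n * φ ∈ B1) :
    Module.finrank K (helper4445.omega K x) = helper4464.relDim (B1 ⊔ B2) B12 :=
  (finrank_eq_of_charts hx (helper4445.omega K x) B1 B2 B12 (fun _ => Iff.rfl) hB1 hB2 hB12).1

/-- **(DU1)** `Ω(F, x)` is finite-dimensional of dimension the chart genus
`γ(F, x) = dim_K B₁₂ / (B₁ + B₂)`. Any characteristic. -/
theorem finrank_omega_eq_relDim (x : F) (hx : Transcendental K x)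
    [FiniteDimensional K⟮x⟯ F] [Algebra.IsSeparable K⟮x⟯ F] (B1 B2 B12 : Submodule K F)
    (hB1 : ∀ φ, φ ∈ B1 ↔ IsIntegral (Algebra.adjoin K {x}) φ)
    (hB2 : ∀ φ, φ ∈ B2 ↔ IsIntegral (Algebra.adjoin K {x⁻¹}) φ)
    (hB12 : ∀ φ, φ ∈ B12 ↔ ∃ n : ℕ, x ^ n * φ ∈ B1)
    [Module.Finite K (B12.map (B1 ⊔ B2).mkQ)] :
    Module.Finite K (helper4445.omega K x) ∧
      Module.finrank K (helper4445.omega K x) = helper4464.relDim (B1 ⊔ B2) B12 := by
  have h := finrank_eq_of_charts hx (helper4445.omega K x) B1 B2 B12 (fun _ => Iff.rfl)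
    hB1 hB2 hB12
  exact ⟨h.2 inferInstance, h.1⟩

/-- **(DU1)**, hypothesis-free on the finiteness side: for `x` transcendental and `F / K(x)`
finite separable, `Ω(F, x)` is finite-dimensional of dimension `relDim (B₁ ⊔ B₂) B₁₂`, and the
latter quotient is finite-dimensional (Serre finiteness). -/
theorem finite_and_finrank_omega_eq_relDim (x : F) (hx : Transcendental K x)
    [FiniteDimensional K⟮x⟯ F] [Algebra.IsSeparable K⟮x⟯ F] (B1 B2 B12 : Submodule K F)
    (hB1 : ∀ φ, φ ∈ B1 ↔ IsIntegral (Algebra.adjoin K {x}) φ)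
    (hB2 : ∀ φ, φ ∈ B2 ↔ IsIntegral (Algebra.adjoin K {x⁻¹}) φ)
    (hB12 : ∀ φ, φ ∈ B12 ↔ ∃ n : ℕ, x ^ n * φ ∈ B1) :
    Module.Finite K (B12.map (B1 ⊔ B2).mkQ) ∧ Module.Finite K (helper4445.omega K x) ∧
      Module.finrank K (helper4445.omega K x) = helper4464.relDim (B1 ⊔ B2) B12 :=
  finite_and_finrank_eq_of_charts hx (helper4445.omega K x) B1 B2 B12 (fun _ => Iff.rfl)
    hB1 hB2 hB12

/-- **(DU1)** in the vocabulary of the landed chart Riemann theorem `helper789_ChartInst`:
`Ω(F, x)` is finite-dimensional and `dim_K Ω(F, x) = chartGenus K x`. Any characteristic;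
only `x` transcendental and `F / K(x)` finite separable. -/
theorem finrank_omega_eq_chartGenus (x : F) (hx : Transcendental K x)
    [FiniteDimensional K⟮x⟯ F] [Algebra.IsSeparable K⟮x⟯ F] :
    Module.Finite K (helper4445.omega K x) ∧
      Module.finrank K (helper4445.omega K x) = helper789.chartGenus K x := by
  have h := finite_and_finrank_omega_eq_relDim x hx (chartFin K x) (chartInf K x) (chartMid K x)
    (fun _ => Iff.rfl) (fun _ => Iff.rfl) (fun _ => Iff.rfl)
  refine ⟨h.2.1, h.2.2.trans ?_⟩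
  exact (helper789.chartGenus_eq_relDim (chartFin K x) (chartInf K x) (chartMid K x)
    (fun _ => Iff.rfl) (fun _ => Iff.rfl) (fun _ => Iff.rfl)).symm

end Fermat.Agent.S18.helper3927
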