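import Mathlib
import Fermat.Agent.S24.helper204_Places
import Fermat.Agent.S18.helper8246_IntClosureFinite

/-!
# S18 (shared S18/S37/S29): places of a function field in ANY characteristic

Port of `S24/helper204_Places` (characteristic zero) to an arbitrary algebraically closed
constant field, following the recipe of helper8246 (chat #136): the two instances
"the integral closure of `K[x]` in `F` is a finite `K[x]`-module and a Dedekind domain"
are taken from the landed `helper8246_IntClosureFinite` (perfect `K`, NO separability),
and every `[CharZero K]` disappears.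

`K` algebraically closed (any characteristic), `x : F` transcendental over `K`, `F` finite over
`K⟮x⟯`; `x` need NOT be separating.

* `exists_finset_zeros`  : the places with `0 < ord (x - c)` are finitely many and the orders
  sum to `[F : K(x)]`;
* `exists_finset_poles`  : the same for the poles of `x`;
* `place_deg_eq_one`     : every place has degree one;
* `hasPrincipalDivisors` : `HasPrincipalDivisors K F` (principal divisors have degree `0`);
* `exists_zero_pole_divisors` : the zero divisor `X0` and the pole divisor `Xinf` of `x`, with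
  `ord x = X0 - Xinf`, disjoint supports and `deg X0 = deg Xinf = [F : K(x)]` (the exact shape
  of the divisor hypotheses of `helper2030.kummer_ff`, on either fibre);
* `degree_eq_zero_of_forall_ord` : a divisor with `D v = ord_v f` for all `v` has degree `0`.
-/

set_option autoImplicit false

namespace Fermat.Agent.S18.helper4307

open AlgebraicCurve IntermediateField IsDedekindDomain WithZero Polynomial
open Fermat.Agent.S24.helper204

variable {K F : Type*} [Field K] [Field F] [Algebra K F]

section IntegralClosure

open scoped IntermediateField.algebraAdjoinAdjoin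

variable (K) (x : F) [PerfectField K] [FiniteDimensional K⟮x⟯ F]

/-- The integral closure of `K[x]` in `F` is a Dedekind domain (perfect `K`, no separability). -/
theorem isDedekindDomain_B :
    IsDedekindDomain (integralClosure (Algebra.adjoin K {x}) F) :=
  Fermat.Agent.S18.helper8246.isDedekindDomain_integralClosure_adjoin x

/-- The integral closure of `K[x]` in `F` is a finite `K[x]`-module (perfect `K`, no
separability). -/
theorem finite_B :
    Module.Finite (Algebra.adjoin K {x}) (integralClosure (Algebra.adjoin K {x}) F) :=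
  Fermat.Agent.S18.helper8246.finite_integralClosure_adjoin x

attribute [local instance] isDedekindDomain_B finite_B

variable {K x}

theorem exists_heightOneSpectrum_of_ord_pos (hx : Transcendental K x)
    (c : K) (v : Place K F) (hv : 0 < v.ord (x - algebraMap K F c)) :
    ∃ w : HeightOneSpectrum (integralClosure (Algebra.adjoin K {x}) F),
      w.asIdeal.LiesOver (pc K x c) ∧ Place.ofHeightOneSpectrum (K := K) (F := F) w = v := by
  have hxc : x - algebraMap K F c ∈ v.toValuationSubring := mem_of_ord_nonneg v hv.le
  have hxv : x ∈ v.toValuationSubring := by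
    have := add_mem hxc (v.algebraMap_mem' c)
    simpa using this
  -- the ring hom B → O_v
  let φ : integralClosure (Algebra.adjoin K {x}) F →+* v.toValuationSubring :=
    { toFun := fun b => ⟨b, integralClosure_le_of_mem v hxv b⟩
      map_one' := rfl
      map_mul' := fun _ _ => rfl
      map_zero' := rfl
      map_add' := fun _ _ => rfl }
  let P : Ideal (integralClosure (Algebra.adjoin K {x}) F) :=
    Ideal.comap φ (IsLocalRing.maximalIdeal v.toValuationSubring)
  have hPprime : P.IsPrime := Ideal.comap_isPrime φ _
  -- the element x - c of B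
  let xc : integralClosure (Algebra.adjoin K {x}) F :=
    algebraMap (Algebra.adjoin K {x}) _ (gen K x - algebraMap K _ c)
  have hxc_coe : (xc : F) = x - algebraMap K F c := rfl
  have hxc_mem : xc ∈ P := by
    show φ xc ∈ IsLocalRing.maximalIdeal v.toValuationSubring
    rw [IsLocalRing.mem_maximalIdeal, mem_nonunits_iff]
    intro hu
    have h0 := v.ord_coe_unit hu.unit
    rw [IsUnit.unit_spec] at h0
    have : ((φ xc : v.toValuationSubring) : F) = x - algebraMap K F c := rfl
    rw [this] at h0
    omega
  have hxc_ne : xc ≠ 0 := by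
    intro h0
    have := congrArg (fun b : integralClosure (Algebra.adjoin K {x}) F => (b : F)) h0
    simp only [hxc_coe, ZeroMemClass.coe_zero] at this
    exact sub_ne_zero_of_transcendental hx c this
  have hPne : P ≠ ⊥ := fun h => hxc_ne (by rw [h] at hxc_mem; exact hxc_mem)
  let w : HeightOneSpectrum (integralClosure (Algebra.adjoin K {x}) F) := ⟨P, hPprime, hPne⟩
  refine ⟨w, ?_, ?_⟩
  · -- lies over
    constructor
    have hmax := pc_isMaximal hx c
    have hle : pc K x c ≤ P.under (Algebra.adjoin K {x}) := by
      rw [pc, Ideal.span_le, Set.singleton_subset_iff]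
      exact hxc_mem
    have hne : P.under (Algebra.adjoin K {x}) ≠ ⊤ := by
      have : (P.under (Algebra.adjoin K {x})).IsPrime := Ideal.IsPrime.under _ _
      exact this.ne_top
    exact hmax.eq_of_le hne hle
  · apply ofHeightOneSpectrum_eq_of_le
    · intro r
      exact integralClosure_le_of_mem v hxv r
    · intro r hr
      have hr' : ¬ (φ r ∈ IsLocalRing.maximalIdeal v.toValuationSubring) := hr
      rw [IsLocalRing.mem_maximalIdeal, mem_nonunits_iff, not_not] at hr'
      obtain ⟨u, hu⟩ := hr'
      have h1 : ((u⁻¹ : v.toValuationSubringˣ) : v.toValuationSubring) * φ r = 1 := by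
        rw [← hu]; simp
      have h2 := congrArg (fun z : v.toValuationSubring => (z : F)) h1
      simp only [MulMemClass.coe_mul, OneMemClass.coe_one] at h2
      have h3 : ((φ r : v.toValuationSubring) : F) = algebraMap _ F r := rfl
      rw [h3] at h2
      have h4 : (algebraMap (integralClosure (Algebra.adjoin K {x}) F) F r)⁻¹
          = ((u⁻¹ : v.toValuationSubringˣ) : v.toValuationSubring) :=
        (eq_inv_of_mul_eq_one_left h2).symm
      rw [h4]
      exact SetLike.coe_mem _

/-- The order of `x - c` at the place of a prime is the ramification index. -/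
theorem ord_ofHeightOneSpectrum_eq_ramificationIdx (hx : Transcendental K x) (c : K)
    (w : HeightOneSpectrum (integralClosure (Algebra.adjoin K {x}) F)) :
    (Place.ofHeightOneSpectrum (K := K) (F := F) w).ord (x - algebraMap K F c)
      = ((pc K x c).ramificationIdx' w.asIdeal : ℤ) := by
  rw [ord_ofHeightOneSpectrum]
  have h1 : x - algebraMap K F c = algebraMap (integralClosure (Algebra.adjoin K {x}) F) F
      (algebraMap (Algebra.adjoin K {x}) _ (gen K x - algebraMap K _ c)) := rfl
  have hne : algebraMap (Algebra.adjoin K {x}) (integralClosure (Algebra.adjoin K {x}) F)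
      (gen K x - algebraMap K _ c) ≠ 0 := by
    intro h0
    have := congrArg (algebraMap (integralClosure (Algebra.adjoin K {x}) F) F) h0
    rw [← h1, map_zero] at this
    exact sub_ne_zero_of_transcendental hx c this
  have hmap : Ideal.map (algebraMap (Algebra.adjoin K {x}) (integralClosure (Algebra.adjoin K {x}) F))
      (pc K x c) = Ideal.span {algebraMap (Algebra.adjoin K {x}) _ (gen K x - algebraMap K _ c)} := by
    rw [pc, Ideal.map_span, Set.image_singleton]
  have hmap0 : Ideal.map (algebraMap (Algebra.adjoin K {x})
      (integralClosure (Algebra.adjoin K {x}) F)) (pc K x c) ≠ ⊥ := by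
    rw [hmap, Ne, Ideal.span_singleton_eq_bot]
    exact hne
  rw [h1, HeightOneSpectrum.valuation_of_algebraMap, w.intValuation_eq_exp_neg_multiplicity hne,
    log_exp, neg_neg, Ideal.IsDedekindDomain.ramificationIdx'_eq_multiplicity hmap0 w.isPrime, hmap]

omit [PerfectField K] in
/-- (FF-A1, any characteristic) zeros of `x - c`: finitely many, and the orders sum to the
degree `[F : K(x)]`. -/
theorem exists_finset_zeros [IsAlgClosed K] (hx : Transcendental K x) (c : K) :
    ∃ s : Finset (Place K F), (∀ v, v ∈ s ↔ 0 < v.ord (x - algebraMap K F c)) ∧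
      ∑ v ∈ s, v.ord (x - algebraMap K F c) = Module.finrank K⟮x⟯ F := by
  classical
  haveI := pc_isMaximal hx c
  have hp0 := pc_ne_bot hx c
  set S := IsDedekindDomain.primesOverFinset (pc K x c)
    (integralClosure (Algebra.adjoin K {x}) F) with hSdef
  have hS : ∀ P ∈ S, P.IsPrime ∧ P.LiesOver (pc K x c) := fun P hP =>
    (IsDedekindDomain.mem_primesOverFinset_iff hp0 _).mp hP
  let g : {P // P ∈ S} → HeightOneSpectrum (integralClosure (Algebra.adjoin K {x}) F) :=
    fun P => ⟨P.1, (hS P.1 P.2).1,
      haveI := (hS P.1 P.2).2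
      Ideal.ne_bot_of_liesOver_of_ne_bot hp0 P.1⟩
  have hg : Function.Injective g := by
    intro P Q h
    have := congrArg HeightOneSpectrum.asIdeal h
    exact Subtype.ext this
  let pl : {P // P ∈ S} → Place K F := fun P => Place.ofHeightOneSpectrum (K := K) (F := F) (g P)
  have hpl : Function.Injective pl := ofHeightOneSpectrum_injective.comp hg
  refine ⟨S.attach.image pl, ?_, ?_⟩
  · intro v
    rw [Finset.mem_image]
    constructor
    · rintro ⟨P, -, rfl⟩
      show 0 < (Place.ofHeightOneSpectrum (K := K) (F := F) (g P)).ord (x - algebraMap K F c)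
      rw [ord_ofHeightOneSpectrum_eq_ramificationIdx hx c]
      have hmap0 : Ideal.map (algebraMap (Algebra.adjoin K {x})
          (integralClosure (Algebra.adjoin K {x}) F)) (pc K x c) ≠ ⊥ := by
        rw [Ne, Ideal.map_eq_bot_iff_of_injective (FaithfulSMul.algebraMap_injective _ _)]
        exact hp0
      haveI := (hS P.1 P.2).2
      have hle : Ideal.map (algebraMap (Algebra.adjoin K {x})
          (integralClosure (Algebra.adjoin K {x}) F)) (pc K x c) ≤ P.1 := by
        rw [Ideal.map_le_iff_le_comap]
        exact le_of_eq (Ideal.over_def P.1 (pc K x c))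
      have := Ideal.IsDedekindDomain.ramificationIdx'_ne_zero hmap0 (hS P.1 P.2).1 hle
      show (0 : ℤ) < ((pc K x c).ramificationIdx' (g P).asIdeal : ℤ)
      exact_mod_cast Nat.pos_of_ne_zero this
    · intro hv
      obtain ⟨w, hw1, hw2⟩ := exists_heightOneSpectrum_of_ord_pos hx c v hv
      have hwS : w.asIdeal ∈ S := (IsDedekindDomain.mem_primesOverFinset_iff hp0 _).mpr ⟨w.isPrime, hw1⟩
      refine ⟨⟨w.asIdeal, hwS⟩, Finset.mem_attach _ _, ?_⟩
      rw [← hw2]
  · rw [Finset.sum_image (fun a _ b _ h => hpl h)]
    have h1 : ∀ P ∈ S.attach, (pl P).ord (x - algebraMap K F c)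
        = (((pc K x c).ramificationIdx' P.1 * (pc K x c).inertiaDeg' P.1 : ℕ) : ℤ) := by
      intro P _
      haveI := (hS P.1 P.2).1
      haveI := (hS P.1 P.2).2
      rw [inertiaDeg_eq_one hx c P.1, mul_one]
      exact ord_ofHeightOneSpectrum_eq_ramificationIdx hx c (g P)
    rw [Finset.sum_congr rfl h1, Finset.sum_attach S
      (fun P => (((pc K x c).ramificationIdx' P * (pc K x c).inertiaDeg' P : ℕ) : ℤ)),
      ← Nat.cast_sum]
    congr 1
    exact Ideal.sum_ramification_inertia (integralClosure (Algebra.adjoin K {x}) F) K⟮x⟯ F hp0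

end IntegralClosure

section Main

open scoped IntermediateField.algebraAdjoinAdjoin

variable {x : F}

theorem deg_eq_one_of_ord_pos [IsAlgClosed K] [FiniteDimensional K⟮x⟯ F]
    (hx : Transcendental K x) (c : K) (v : Place K F)
    (hv : 0 < v.ord (x - algebraMap K F c)) : v.deg = 1 := by
  haveI := isDedekindDomain_B K x
  obtain ⟨w, hw1, hw2⟩ := exists_heightOneSpectrum_of_ord_pos hx c v hv
  rw [← hw2]
  haveI := w.isPrime
  exact deg_ofHeightOneSpectrum_eq_one w (algebraMap_quotient_surjective c w.asIdeal)

/-- (FF-A2, any characteristic) every place has degree one. -/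
theorem place_deg_eq_one [IsAlgClosed K] (x : F) (hx : Transcendental K x)
    [FiniteDimensional K⟮x⟯ F] (v : Place K F) : v.deg = 1 := by
  rcases place_center x hx v with hneg | ⟨c, hc, -⟩
  · haveI : FiniteDimensional K⟮x⁻¹⟯ F := finiteDimensional_adjoin_inv
    apply deg_eq_one_of_ord_pos (x := x⁻¹) (transcendental_inv hx) 0 v
    rw [map_zero, sub_zero, v.ord_inv]
    omega
  · exact deg_eq_one_of_ord_pos hx c v hc

/-- (FF-A1∞, any characteristic) poles of `x`: finitely many, and the pole orders sum to the
degree `[F : K(x)]`. -/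
theorem exists_finset_poles [IsAlgClosed K] (x : F) (hx : Transcendental K x)
    [FiniteDimensional K⟮x⟯ F] :
    ∃ s : Finset (Place K F), (∀ v, v ∈ s ↔ v.ord x < 0) ∧
      ∑ v ∈ s, -v.ord x = Module.finrank K⟮x⟯ F := by
  haveI : FiniteDimensional K⟮x⁻¹⟯ F := finiteDimensional_adjoin_inv
  obtain ⟨s, hs1, hs2⟩ := exists_finset_zeros (x := x⁻¹) (transcendental_inv hx) 0
  have hfin : Module.finrank K⟮x⁻¹⟯ F = Module.finrank K⟮x⟯ F := by
    rw [adjoin_inv_eq]
  refine ⟨s, fun v => ?_, ?_⟩
  · rw [hs1 v, map_zero, sub_zero, v.ord_inv]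
    omega
  · rw [← hfin, ← hs2]
    apply Finset.sum_congr rfl
    intro v _
    rw [map_zero, sub_zero, v.ord_inv]

/-- (FF-A3, any characteristic) principal divisors exist and have degree zero. -/
theorem hasPrincipalDivisors [IsAlgClosed K] (x : F) (hx : Transcendental K x)
    [FiniteDimensional K⟮x⟯ F] : HasPrincipalDivisors K F := by
  classical
  refine ⟨fun f hf => ?_⟩
  by_cases hfK : f ∈ Set.range (algebraMap K F)
  · obtain ⟨k, rfl⟩ := hfK
    exact ⟨0, fun v => by rw [ord_algebraMap_eq_zero]; rfl, map_zero _⟩
  · have hft : Transcendental K f := transcendental_of_not_mem_range hfK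
    haveI : FiniteDimensional K⟮f⟯ F := finiteDimensional_adjoin_of_transcendental (x := x) hft
    obtain ⟨s0, hs0, hsum0⟩ := exists_finset_zeros (x := f) hft 0
    obtain ⟨sI, hsI, hsumI⟩ := exists_finset_poles f hft
    simp only [map_zero, sub_zero] at hs0 hsum0
    have hsupp : ∀ v : Place K F, v.ord f ≠ 0 → v ∈ s0 ∪ sI := by
      intro v hv
      rcases lt_trichotomy (v.ord f) 0 with h | h | h
      · exact Finset.mem_union_right _ ((hsI v).mpr h)
      · exact absurd h hv
      · exact Finset.mem_union_left _ ((hs0 v).mpr h)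
    refine ⟨Finsupp.onFinset (s0 ∪ sI) (fun v => v.ord f) hsupp, fun v => rfl, ?_⟩
    have hdeg : ∀ v : Place K F, v.deg = 1 := place_deg_eq_one x hx
    have hdisj : Disjoint s0 sI := by
      rw [Finset.disjoint_left]
      intro v h0 hI
      have a := (hs0 v).mp h0
      have b := (hsI v).mp hI
      omega
    rw [Divisor.degree, Finsupp.liftAddHom_apply, Finsupp.onFinset_sum]
    · simp only [AddMonoidHom.coe_mulRight, hdeg, Nat.cast_one, mul_one]
      rw [Finset.sum_union hdisj, hsum0]
      have : ∑ v ∈ sI, v.ord f = -(Module.finrank K⟮f⟯ F : ℤ) := by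
        rw [← hsumI, Finset.sum_neg_distrib, neg_neg]
      rw [this]
      ring
    · intro v
      simp

/-- A divisor whose coefficients are the orders of a nonzero function has degree zero. -/
theorem degree_eq_zero_of_forall_ord [HasPrincipalDivisors K F] {f : F} (hf : f ≠ 0)
    {D : Divisor K F} (hD : ∀ v : Place K F, D v = v.ord f) : Divisor.degree D = 0 := by
  obtain ⟨E, hE, hdeg⟩ := HasPrincipalDivisors.exists_divisor (K := K) f hf
  have : D = E := Finsupp.ext fun v => by rw [hD v, hE v]
  rw [this]
  exact hdeg

/-- **Zero and pole divisors** of a transcendental `x` (any characteristic): `X0 = (x)_0`,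
`Xinf = (x)_∞`, effective with disjoint supports, `ord x = X0 - Xinf`, and both of degree
`[F : K(x)]`.  The first two clauses are `helper6292.IsZeroDivisor x X0` and
`helper6292.IsPoleDivisor x Xinf` verbatim; the others are the divisor hypotheses of
`helper2030.kummer_ff` verbatim. -/
theorem exists_zero_pole_divisors [IsAlgClosed K] (x : F) (hx : Transcendental K x)
    [FiniteDimensional K⟮x⟯ F] :
    ∃ X0 Xinf : Divisor K F,
      (∀ v : Place K F, X0 v = max 0 (v.ord x)) ∧
      (∀ v : Place K F, Xinf v = max 0 (-(v.ord x))) ∧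
      0 ≤ X0 ∧ 0 ≤ Xinf ∧
      (∀ v : Place K F, Xinf v = 0 ∨ X0 v = 0) ∧
      (∀ v : Place K F, v.ord x = X0 v - Xinf v) ∧
      Divisor.degree X0 = Module.finrank K⟮x⟯ F ∧
      Divisor.degree Xinf = Module.finrank K⟮x⟯ F := by
  classical
  obtain ⟨s0, hs0, hsum0⟩ := exists_finset_zeros (x := x) hx 0
  obtain ⟨sI, hsI, hsumI⟩ := exists_finset_poles x hx
  simp only [map_zero, sub_zero] at hs0 hsum0
  have hdeg : ∀ v : Place K F, v.deg = 1 := place_deg_eq_one x hx
  have hsupp0 : ∀ v : Place K F, max 0 (v.ord x) ≠ 0 → v ∈ s0 := by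
    intro v hv
    rw [hs0 v]
    by_contra hle
    exact hv (max_eq_left (not_lt.mp hle))
  have hsuppI : ∀ v : Place K F, max 0 (-(v.ord x)) ≠ 0 → v ∈ sI := by
    intro v hv
    rw [hsI v]
    by_contra hle
    exact hv (max_eq_left (by omega))
  refine ⟨Finsupp.onFinset s0 (fun v => max 0 (v.ord x)) hsupp0,
    Finsupp.onFinset sI (fun v => max 0 (-(v.ord x))) hsuppI,
    fun v => rfl, fun v => rfl, ?_, ?_, ?_, ?_, ?_, ?_⟩
  · rw [Finsupp.le_def]
    intro v
    simp
  · rw [Finsupp.le_def]
    intro v
    simp
  · intro v
    simp only [Finsupp.onFinset_apply]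
    rcases le_or_gt 0 (v.ord x) with h | h
    · left; exact max_eq_left (by omega)
    · right; exact max_eq_left h.le
  · intro v
    simp only [Finsupp.onFinset_apply]
    rcases le_or_gt 0 (v.ord x) with h | h
    · rw [max_eq_right h, max_eq_left (by omega)]; ring
    · rw [max_eq_left h.le, max_eq_right (by omega)]; ring
  · rw [Divisor.degree, Finsupp.liftAddHom_apply, Finsupp.onFinset_sum]
    · simp only [AddMonoidHom.coe_mulRight, hdeg, Nat.cast_one, mul_one]
      rw [← hsum0]
      refine Finset.sum_congr rfl fun v hv => ?_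
      exact max_eq_right ((hs0 v).mp hv).le
    · intro v
      simp
  · rw [Divisor.degree, Finsupp.liftAddHom_apply, Finsupp.onFinset_sum]
    · simp only [AddMonoidHom.coe_mulRight, hdeg, Nat.cast_one, mul_one]
      rw [← hsumI]
      refine Finset.sum_congr rfl fun v hv => ?_
      have := (hsI v).mp hv
      exact max_eq_right (by omega)
    · intro v
      simp

end Main

end Fermat.Agent.S18.helper4307
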