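import Fermat.Agent.S18.helper5198_TameCert
import Fermat.Agent.S18.helper4445_GenusRed
import Fermat.Agent.S24.helper204_Places

/-!
# S18-DU3, chart instance: tame certificates of regular chart differentials

`L` algebraically closed of characteristic zero, `x : F` transcendental over `L`, `F` finite over
`L⟮x⟯`.  The branch hypothesis is stated in the Prelude `Place.ord` vocabulary (the compiled shape
of the ramification data of the modular function fields), the conclusion is the pair of
integrality certificates consumed by the reduction step of the chart-genus inequality.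
-/

set_option autoImplicit false

namespace Fermat.Agent.S18.helper3384

open AlgebraicCurve IntermediateField IsDedekindDomain Polynomial
open Fermat.Agent.S24.helper204
open scoped IntermediateField.algebraAdjoinAdjoin

variable {L F : Type*} [Field L] [Field F] [Algebra L F]

section Prime

variable [IsAlgClosed L] [CharZero L] {x : F} [FiniteDimensional L⟮x⟯ F]

/-- A nonzero prime of the integral closure of `L[x]` lies over a point `x = c`. -/
theorem exists_liesOver_pc (hx : Transcendental L x)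
    (Q : Ideal (integralClosure (Algebra.adjoin L {x}) F)) [hQ : Q.IsPrime] (hQ0 : Q ≠ ⊥) :
    ∃ c : L, Q.LiesOver (pc L x c) ∧
      0 < (Place.ofHeightOneSpectrum (K := L) (F := F)
        (⟨Q, hQ, hQ0⟩ : HeightOneSpectrum (integralClosure (Algebra.adjoin L {x}) F))).ord
          (x - algebraMap L F c) := by
  set w : HeightOneSpectrum (integralClosure (Algebra.adjoin L {x}) F) := ⟨Q, hQ, hQ0⟩ with hw
  set v : Place L F := Place.ofHeightOneSpectrum (K := L) (F := F) w with hv
  have hxB : IsIntegral (Algebra.adjoin L {x}) x :=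
    isIntegral_algebraMap (R := Algebra.adjoin L {x}) (A := F) (x := gen L x)
  have hval : w.valuation F x ≤ 1 :=
    w.valuation_le_one (K := F) (⟨x, hxB⟩ : integralClosure (Algebra.adjoin L {x}) F)
  have hxv : 0 ≤ v.ord x := by
    rw [hv, ord_ofHeightOneSpectrum]
    rcases eq_or_ne (w.valuation F x) 0 with h0 | h0
    · rw [h0]; simp
    · rw [neg_nonneg]
      have := (WithZero.log_le_log h0 one_ne_zero).mpr hval
      simpa using this
  rcases place_center x hx v with hneg | ⟨c, hc, -⟩
  · exact absurd hneg (not_lt.mpr hxv)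
  · obtain ⟨w', hw'over, hw'v⟩ := exists_heightOneSpectrum_of_ord_pos hx c v hc
    have hww : w' = w := ofHeightOneSpectrum_injective (K := L) (F := F) hw'v
    refine ⟨c, ?_, hc⟩
    rw [hww] at hw'over
    exact hw'over

open UniqueFactorizationMonoid in
/-- In a Dedekind domain, `Q ^ e ∣ D` iff `e` is at most the multiplicity of the prime `Q`
in `D`. -/
theorem pow_dvd_iff_le_count {T : Type*} [CommRing T] [IsDedekindDomain T] {Q D : Ideal T}
    (hQ : Prime Q) (hD : D ≠ ⊥) (e : ℕ) :
    Q ^ e ∣ D ↔ e ≤ Multiset.count Q (normalizedFactors D) := by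
  rw [dvd_iff_normalizedFactors_le_normalizedFactors (pow_ne_zero e hQ.ne_zero) hD,
    normalizedFactors_pow, normalizedFactors_irreducible hQ.irreducible, normalize_eq,
    Multiset.nsmul_singleton, ← Multiset.le_count_iff_replicate_le]

/-- **Place form ⟹ ideal form of the branch hypothesis.**  If every point `x = c` with `c ≠ 0`,
`P(c) ≠ 0` is unramified in the `Place.ord` sense, then every nonzero prime `Q` of the integral
closure of `L[x]` not containing `x * P(x)` is unramified over `L[x]`. -/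
theorem not_sq_dvd_of_place_unramified (hx : Transcendental L x) (P : L[X])
    (hunr : ∀ (v : Place L F) (c : L), c ≠ 0 → P.eval c ≠ 0 →
      0 < v.ord (x - algebraMap L F c) → v.ord (x - algebraMap L F c) = 1)
    (Q : Ideal (integralClosure (Algebra.adjoin L {x}) F)) [hQ : Q.IsPrime] (hQ0 : Q ≠ ⊥)
    (hgQ : algebraMap (Algebra.adjoin L {x}) (integralClosure (Algebra.adjoin L {x}) F)
      (gen L x * aeval (gen L x) P) ∉ Q) :
    ¬ Q ^ 2 ∣ (Q.under (Algebra.adjoin L {x})).map
      (algebraMap (Algebra.adjoin L {x}) (integralClosure (Algebra.adjoin L {x}) F)) := by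
  classical
  have hinj : Function.Injective (algebraMap (Algebra.adjoin L {x})
      (integralClosure (Algebra.adjoin L {x}) F)) := by
    intro a b h
    have h2 : ((algebraMap (Algebra.adjoin L {x}) (integralClosure (Algebra.adjoin L {x}) F) a :
        integralClosure (Algebra.adjoin L {x}) F) : F) =
        ((algebraMap (Algebra.adjoin L {x}) (integralClosure (Algebra.adjoin L {x}) F) b :
        integralClosure (Algebra.adjoin L {x}) F) : F) := by rw [h]
    exact Subtype.ext h2
  obtain ⟨c, hover, hc⟩ := exists_liesOver_pc hx Q hQ0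
  have hunder : Q.under (Algebra.adjoin L {x}) = pc L x c := hover.over.symm
  have hmem : ∀ a : Algebra.adjoin L {x}, a ∈ pc L x c →
      algebraMap (Algebra.adjoin L {x}) (integralClosure (Algebra.adjoin L {x}) F) a ∈ Q := by
    intro a ha
    rw [← hunder] at ha
    exact ha
  have hgen : gen L x - algebraMap L (Algebra.adjoin L {x}) c ∈ pc L x c :=
    Ideal.subset_span rfl
  have hc0 : c ≠ 0 := by
    rintro rfl
    apply hgQ
    rw [map_zero, sub_zero] at hgen
    rw [map_mul]
    exact Q.mul_mem_right _ (hmem _ hgen)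
  have hPc : P.eval c ≠ 0 := by
    intro h0
    apply hgQ
    obtain ⟨q, hq⟩ := (Polynomial.dvd_iff_isRoot.mpr h0 : X - C c ∣ P)
    have : aeval (gen L x) P = (gen L x - algebraMap L (Algebra.adjoin L {x}) c) *
        aeval (gen L x) q := by
      rw [hq, map_mul, map_sub, aeval_X, aeval_C]
    rw [map_mul, this]
    exact Q.mul_mem_left _ (hmem _ ((pc L x c).mul_mem_right _ hgen))
  set w : HeightOneSpectrum (integralClosure (Algebra.adjoin L {x}) F) := ⟨Q, hQ, hQ0⟩ with hw
  have h1 := hunr (Place.ofHeightOneSpectrum (K := L) (F := F) w) c hc0 hPc hc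
  rw [ord_ofHeightOneSpectrum_eq_ramificationIdx hx c w] at h1
  have h1' : (pc L x c).ramificationIdx' Q = 1 := by exact_mod_cast h1
  have hp0 : Ideal.map (algebraMap (Algebra.adjoin L {x})
      (integralClosure (Algebra.adjoin L {x}) F)) (pc L x c) ≠ ⊥ :=
    (Ideal.map_eq_bot_iff_of_injective hinj).not.mpr (pc_ne_bot hx c)
  rw [Ideal.IsDedekindDomain.ramificationIdx'_eq_normalizedFactors_count hp0 hQ hQ0] at h1'
  rw [hunder, pow_dvd_iff_le_count (Ideal.prime_of_isPrime hQ0 hQ) hp0, h1']
  norm_num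

end Prime

section Chart

variable [IsAlgClosed L] [CharZero L]

/-- **(C1) Tame certificate on the chart `L[x]`.**  If every point `x = c` with `c ≠ 0`,
`P(c) ≠ 0` is unramified and `Tr_{F/L(x)}(y B₁) ⊆ x L[x]` (`B₁` the integral closure of `L[x]`),
then `(P(x) y) ^ [F : L(x)] ∈ x P(x) B₁`. -/
theorem cert_chart (x : F) (hx : Transcendental L x) [FiniteDimensional L⟮x⟯ F] (P : L[X])
    (hunr : ∀ (v : Place L F) (c : L), c ≠ 0 → P.eval c ≠ 0 →
      0 < v.ord (x - algebraMap L F c) → v.ord (x - algebraMap L F c) = 1)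
    (y : F)
    (hy : ∀ b : F, IsIntegral (Algebra.adjoin L {x}) b →
      ∃ p : L[X], ((Algebra.trace L⟮x⟯ F (y * b) : L⟮x⟯) : F) = x * aeval x p) :
    ∃ z : F, IsIntegral (Algebra.adjoin L {x}) z ∧
      (aeval x P * y) ^ Module.finrank L⟮x⟯ F = x * aeval x P * z := by
  have hgen0 : gen L x ≠ 0 := by
    intro h
    have h2 : ((gen L x : Algebra.adjoin L {x}) : F) = 0 := by rw [h]; rfl
    rw [coe_gen] at h2
    have := sub_ne_zero_of_transcendental hx 0
    rw [map_zero, sub_zero] at this
    exact this h2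
  let : Algebra ℚ (Algebra.adjoin L {x}) :=
    ((algebraMap L (Algebra.adjoin L {x})).comp (algebraMap ℚ L)).toAlgebra
  obtain ⟨w, hw⟩ := helper5198.tame_cert (A := Algebra.adjoin L {x}) (K := L⟮x⟯) (L := F)
    (B := integralClosure (Algebra.adjoin L {x}) F) (gen L x) (aeval (gen L x) P) hgen0
    (fun Q hQ hQ0 hgQ => not_sq_dvd_of_place_unramified hx P hunr Q hQ0 hgQ) y
    (fun b => by
      obtain ⟨p, hp⟩ := hy (b : F) b.2
      refine ⟨aeval (gen L x) p, ?_⟩
      apply Subtype.ext
      rw [show algebraMap (integralClosure (Algebra.adjoin L {x}) F) F b = (b : F) from rfl, hp]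
      show x * aeval x p = ((gen L x * aeval (gen L x) p : Algebra.adjoin L {x}) : F)
      rw [MulMemClass.coe_mul, coe_gen, Polynomial.aeval_subalgebra_coe, coe_gen])
  refine ⟨(w : F), w.2, ?_⟩
  have h1 : algebraMap (Algebra.adjoin L {x}) F (aeval (gen L x) P) = aeval x P := by
    show ((aeval (gen L x) P : Algebra.adjoin L {x}) : F) = aeval x P
    rw [Polynomial.aeval_subalgebra_coe, coe_gen]
  have h2 : algebraMap (Algebra.adjoin L {x}) F (gen L x * aeval (gen L x) P) = x * aeval x P := by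
    show ((gen L x * aeval (gen L x) P : Algebra.adjoin L {x}) : F) = x * aeval x P
    rw [MulMemClass.coe_mul, coe_gen, Polynomial.aeval_subalgebra_coe, coe_gen]
  rw [h1, h2] at hw
  exact hw

end Chart

section PlaceInv

/-- If `t ≡ d` at `v` with `d ≠ 0` a constant, then `t` is a unit at `v`. -/
theorem ord_eq_zero_of_ord_sub_const_pos (v : Place L F) {t : F} {d : L} (hd : d ≠ 0)
    (h : 0 < v.ord (t - algebraMap L F d)) : v.ord t = 0 := by
  have hdF : v.ord (algebraMap L F d) = 0 := ord_algebraMap_eq_zero v d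
  have hmem : t ∈ v.toValuationSubring := by
    have h1 : t - algebraMap L F d ∈ v.toValuationSubring := mem_of_ord_nonneg v h.le
    have h2 := add_mem h1 (v.algebraMap_mem' d)
    simpa using h2
  have h0 : 0 ≤ v.ord t := ord_nonneg_of_mem v hmem
  rcases h0.lt_or_eq with hpos | heq
  · exfalso
    have hne : t - (t - algebraMap L F d) ≠ 0 := by
      rw [sub_sub_cancel, Ne, map_eq_zero]
      exact hd
    have := ord_sub_pos v hpos h hne
    rw [sub_sub_cancel, hdF] at this
    exact lt_irrefl _ this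
  · exact heq.symm

/-- Orders at a finite nonzero point in the two coordinates `x`, `x⁻¹` agree. -/
theorem ord_inv_sub_eq (v : Place L F) {x : F} (hx : Transcendental L x) {d : L} (hd : d ≠ 0)
    (h : 0 < v.ord (x⁻¹ - algebraMap L F d)) :
    v.ord (x⁻¹ - algebraMap L F d) = v.ord (x - algebraMap L F d⁻¹) := by
  have hx0 : x ≠ 0 := by
    have := sub_ne_zero_of_transcendental hx 0
    rwa [map_zero, sub_zero] at this
  have hxi : v.ord x⁻¹ = 0 := ord_eq_zero_of_ord_sub_const_pos v hd h
  have hdF : algebraMap L F d ≠ 0 := by rw [Ne, map_eq_zero]; exact hd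
  have hne : x - algebraMap L F d⁻¹ ≠ 0 := sub_ne_zero_of_transcendental hx d⁻¹
  have hfac : x⁻¹ - algebraMap L F d =
      algebraMap L F (-d) * (x⁻¹ * (x - algebraMap L F d⁻¹)) := by
    rw [map_neg, map_inv₀]
    field_simp
    ring
  have hnd : algebraMap L F (-d) ≠ 0 := by rw [Ne, map_eq_zero, neg_eq_zero]; exact hd
  rw [hfac, v.ord_mul hnd (mul_ne_zero (inv_ne_zero hx0) hne),
    v.ord_mul (inv_ne_zero hx0) hne, ord_algebraMap_eq_zero, hxi]
  ring

/-- The trace only depends on the intermediate field as a set. -/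
theorem trace_coe_congr {E₁ E₂ : IntermediateField L F} (h : E₁ = E₂) (z : F) :
    ((Algebra.trace E₁ F z : E₁) : F) = ((Algebra.trace E₂ F z : E₂) : F) := by
  subst h
  rfl

theorem finrank_congr_intermediate {E₁ E₂ : IntermediateField L F} (h : E₁ = E₂) :
    Module.finrank E₁ F = Module.finrank E₂ F := by
  subst h
  rfl

end PlaceInv

section ChartInv

variable [IsAlgClosed L] [CharZero L]

/-- **(C2) Tame certificate on the chart `L[x⁻¹]`** (trace still over `L⟮x⟯`).  If every point
`x = c` with `c ≠ 0`, `P'(c⁻¹) ≠ 0` is unramified and `Tr_{F/L(x)}(y B₂) ⊆ x⁻¹ L[x⁻¹]`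
(`B₂` the integral closure of `L[x⁻¹]`), then `(P'(x⁻¹) y) ^ [F : L(x)] ∈ x⁻¹ P'(x⁻¹) B₂`. -/
theorem cert_chart_inv (x : F) (hx : Transcendental L x) [FiniteDimensional L⟮x⟯ F] (P' : L[X])
    (hunr : ∀ (v : Place L F) (c : L), c ≠ 0 → P'.eval c⁻¹ ≠ 0 →
      0 < v.ord (x - algebraMap L F c) → v.ord (x - algebraMap L F c) = 1)
    (y : F)
    (hy : ∀ b : F, IsIntegral (Algebra.adjoin L {x⁻¹}) b →
      ∃ p : L[X], ((Algebra.trace L⟮x⟯ F (y * b) : L⟮x⟯) : F) = x⁻¹ * aeval x⁻¹ p) :
    ∃ z : F, IsIntegral (Algebra.adjoin L {x⁻¹}) z ∧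
      (aeval x⁻¹ P' * y) ^ Module.finrank L⟮x⟯ F = x⁻¹ * aeval x⁻¹ P' * z := by
  have heq : L⟮x⁻¹⟯ = L⟮x⟯ := adjoin_inv_eq x
  have hfin : FiniteDimensional L⟮x⁻¹⟯ F := finiteDimensional_adjoin_inv
  have hxi : Transcendental L x⁻¹ := transcendental_inv hx
  have key := cert_chart x⁻¹ hxi P'
    (fun v d hd hPd h => by
      have h1 := ord_inv_sub_eq v hx hd h
      rw [h1] at h ⊢
      exact hunr v d⁻¹ (inv_ne_zero hd) (by rwa [inv_inv]) h)
    y
    (fun b hb => by
      obtain ⟨p, hp⟩ := hy b hb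
      exact ⟨p, (trace_coe_congr heq (y * b)).trans hp⟩)
  rwa [finrank_congr_intermediate heq] at key

end ChartInv

section Omega

variable [IsAlgClosed L] [CharZero L]

open Fermat.Agent.S18.helper4445 in
/-- **(C3) DU3, general polynomial form.**  A regular chart differential `y ∈ Ω(F, x)` has both
tame certificates, with exponent `[F : L(x)]`, for any `P`, `P'` vanishing on the nonzero finite
branch values (`P` at `c`, `P'` at `c⁻¹`). -/
theorem cert_of_isOmega (x : F) (hx : Transcendental L x) [FiniteDimensional L⟮x⟯ F]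
    (P P' : L[X])
    (hunr : ∀ (v : Place L F) (c : L), c ≠ 0 → P.eval c ≠ 0 →
      0 < v.ord (x - algebraMap L F c) → v.ord (x - algebraMap L F c) = 1)
    (hunr' : ∀ (v : Place L F) (c : L), c ≠ 0 → P'.eval c⁻¹ ≠ 0 →
      0 < v.ord (x - algebraMap L F c) → v.ord (x - algebraMap L F c) = 1)
    (y : F) (hy : IsOmega L x y) :
    (∃ z : F, IsIntegral (Algebra.adjoin L {x}) z ∧
      (aeval x P * y) ^ Module.finrank L⟮x⟯ F = x * aeval x P * z) ∧
    (∃ z : F, IsIntegral (Algebra.adjoin L {x⁻¹}) z ∧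
      (aeval x⁻¹ P' * y) ^ Module.finrank L⟮x⟯ F = x⁻¹ * aeval x⁻¹ P' * z) :=
  ⟨cert_chart x hx P hunr y hy.1, cert_chart_inv x hx P' hunr' y hy.2⟩

open Fermat.Agent.S18.helper4445 in
/-- **(C3) DU3, finite set of nonzero branch values.**  If `F / L(x)` is unramified over every
`x = c` with `c ≠ 0`, `c ∉ S`, then every `y ∈ Ω(F, x)` satisfies
`(P y) ^ M ∈ x P B₁` and `(P' y) ^ M ∈ x⁻¹ P' B₂` with `P = ∏_{c ∈ S} (x - c)`,
`P' = ∏_{c ∈ S} (1 - c x⁻¹)`, `M = [F : L(x)]`. -/
theorem cert_of_isOmega_finset (x : F) (hx : Transcendental L x) [FiniteDimensional L⟮x⟯ F]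
    (S : Finset L)
    (hunr : ∀ (v : Place L F) (c : L), c ≠ 0 → c ∉ S →
      0 < v.ord (x - algebraMap L F c) → v.ord (x - algebraMap L F c) = 1)
    (y : F) (hy : IsOmega L x y) :
    (∃ z : F, IsIntegral (Algebra.adjoin L {x}) z ∧
      (aeval x (∏ c ∈ S, (X - C c)) * y) ^ Module.finrank L⟮x⟯ F =
        x * aeval x (∏ c ∈ S, (X - C c)) * z) ∧
    (∃ z : F, IsIntegral (Algebra.adjoin L {x⁻¹}) z ∧
      (aeval x⁻¹ (∏ c ∈ S, (1 - C c * X)) * y) ^ Module.finrank L⟮x⟯ F =
        x⁻¹ * aeval x⁻¹ (∏ c ∈ S, (1 - C c * X)) * z) := by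
  refine cert_of_isOmega x hx _ _ (fun v c hc0 hPc h => hunr v c hc0 ?_ h)
    (fun v c hc0 hPc h => hunr v c hc0 ?_ h) y hy
  · intro hcS
    apply hPc
    rw [eval_prod]
    exact Finset.prod_eq_zero hcS (by simp)
  · intro hcS
    apply hPc
    rw [eval_prod]
    exact Finset.prod_eq_zero hcS (by simp [mul_inv_cancel₀ hc0])

open Fermat.Agent.S18.helper4445 in
/-- **(C3) DU3, one nonzero finite branch value `c₀`** (`1728` on the `j`-line, `-64` on the
`t₂`-line, `-27` on the `t₃`-line): every `y ∈ Ω(F, x)` satisfies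
`((x - c₀) y) ^ M ∈ x (x - c₀) B₁` and `((1 - c₀ x⁻¹) y) ^ M ∈ x⁻¹ (1 - c₀ x⁻¹) B₂`. -/
theorem cert_of_isOmega_single (x : F) (hx : Transcendental L x) [FiniteDimensional L⟮x⟯ F]
    (c₀ : L)
    (hunr : ∀ (v : Place L F) (c : L), c ≠ 0 → c ≠ c₀ →
      0 < v.ord (x - algebraMap L F c) → v.ord (x - algebraMap L F c) = 1)
    (y : F) (hy : IsOmega L x y) :
    (∃ z : F, IsIntegral (Algebra.adjoin L {x}) z ∧
      ((x - algebraMap L F c₀) * y) ^ Module.finrank L⟮x⟯ F =
        x * (x - algebraMap L F c₀) * z) ∧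
    (∃ z : F, IsIntegral (Algebra.adjoin L {x⁻¹}) z ∧
      ((1 - algebraMap L F c₀ * x⁻¹) * y) ^ Module.finrank L⟮x⟯ F =
        x⁻¹ * (1 - algebraMap L F c₀ * x⁻¹) * z) := by
  have h := cert_of_isOmega x hx (X - C c₀) (1 - C c₀ * X)
    (fun v c hc0 hPc h => hunr v c hc0 (fun hcc => hPc (by rw [hcc]; simp)) h)
    (fun v c hc0 hPc h => hunr v c hc0
      (fun hcc => hPc (by rw [hcc]; simp [mul_inv_cancel₀ (hcc ▸ hc0)])) h) y hy
  simpa only [map_sub, map_mul, map_one, aeval_X, aeval_C] using h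

end Omega

section GenusLe

variable [IsAlgClosed L] [CharZero L] {k Fk : Type*} [Field k] [Field Fk] [Algebra k Fk]

theorem squarefree_X_mul_X_sub_C {c : k} (hc : c ≠ 0) : Squarefree (X * (X - C c) : k[X]) := by
  have h0 : (X : k[X]) = X - C 0 := by rw [C_0, sub_zero]
  have hsep : ((X - C 0) * (X - C c) : k[X]).Separable := by
    refine (separable_X_sub_C).mul (separable_X_sub_C) ?_
    exact isCoprime_X_sub_C_of_isUnit_sub (sub_ne_zero.mpr (fun h => hc h.symm)).isUnit
  have hsq := hsep.squarefree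
  rwa [← h0] at hsq

theorem squarefree_X_mul_one_sub_C_mul_X {c : k} (hc : c ≠ 0) :
    Squarefree (X * (1 - C c * X) : k[X]) := by
  refine Squarefree.squarefree_of_dvd ⟨C (-c⁻¹), ?_⟩
    (squarefree_X_mul_X_sub_C (inv_ne_zero hc))
  have h1 : (C c * C c⁻¹ : k[X]) = 1 := by rw [← C_mul, mul_inv_cancel₀ hc, C_1]
  rw [C_neg]
  linear_combination (-(X * X : k[X])) * h1

open Fermat.Agent.S18.helper4445 in
/-- **Chart-genus inequality from place data, one nonzero finite branch value `c₀`.**
`helper4445.finrank_omega_le` with its two certificate hypotheses discharged by (C3):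
the only char-0 input is that `F / L(x)` is unramified over every `x = c`, `c ≠ 0, c₀`
(Prelude `Place.ord` form), and the only mod-`ℓ` condition is that `c₀` reduces to a nonzero
constant `c̄₀`. -/
theorem finrank_omega_le_of_place_unramified (O : ValuationSubring F) (red : O →+* Fk)
    (hker : ∀ g : O, ¬ IsUnit g → red g = 0) (x xi : O) (hxi : x * xi = 1)
    (hxL : Transcendental L (x : F)) [FiniteDimensional L⟮(x : F)⟯ F]
    (hxt : Transcendental k (red x))
    [FiniteDimensional k⟮red x⟯ Fk] [Algebra.IsSeparable k⟮red x⟯ Fk]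
    (hIT₁ : ∀ g : O, IsIntegral (Algebra.adjoin L {(x : F)}) (g : F) →
      IsIntegral (Algebra.adjoin k {red x}) (red g))
    (hIT₂ : ∀ g : O, IsIntegral (Algebra.adjoin L {(x : F)⁻¹}) (g : F) →
      IsIntegral (Algebra.adjoin k {(red x)⁻¹}) (red g))
    (c₀ : O) (cL : L) (hcL : (c₀ : F) = algebraMap L F cL) (cb : k) (hcb : cb ≠ 0)
    (hred : red c₀ = algebraMap k Fk cb)
    (hunr : ∀ (v : Place L F) (c : L), c ≠ 0 → c ≠ cL →
      0 < v.ord ((x : F) - algebraMap L F c) → v.ord ((x : F) - algebraMap L F c) = 1)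
    {n : ℕ} (e : Fin n → O) (he : ∀ i, IsOmega L (x : F) (e i : F))
    (hspan : omega L (x : F) ≤ Submodule.span L (Set.range fun i => (e i : F)))
    (hind : LinearIndependent k (fun i => red (e i)))
    [Module.Finite k (omega k (red x))] :
    Module.finrank L (omega L (x : F)) ≤ Module.finrank k (omega k (red x)) := by
  have hredx : red x * red xi = 1 := by rw [← map_mul, hxi, map_one]
  have hredxi : red xi = (red x)⁻¹ := eq_inv_of_mul_eq_one_right hredx
  have hxiF : (xi : F) = (x : F)⁻¹ := by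
    apply eq_inv_of_mul_eq_one_right
    rw [← MulMemClass.coe_mul, hxi]; rfl
  refine finrank_omega_le (L := L) O red hker x xi hxi hxt hIT₁ hIT₂
    (x - c₀) (X - C cb) ?_ (squarefree_X_mul_X_sub_C hcb)
    (Module.finrank L⟮(x : F)⟯ F) Module.finrank_pos
    (1 - c₀ * xi) (1 - C cb * X) ?_ (squarefree_X_mul_one_sub_C_mul_X hcb)
    (Module.finrank L⟮(x : F)⟯ F) Module.finrank_pos ?_ ?_ e he hspan hind
  · rw [map_sub, hred, map_sub, aeval_X, aeval_C]
  · rw [map_sub, map_one, map_mul, hred, hredxi, map_sub, map_one, map_mul, aeval_X, aeval_C]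
  · intro y hy
    have h := (cert_of_isOmega_single (x : F) hxL cL hunr (y : F) hy).1
    simpa only [AddSubgroupClass.coe_sub, hcL] using h
  · intro y hy
    have h := (cert_of_isOmega_single (x : F) hxL cL hunr (y : F) hy).2
    simpa only [AddSubgroupClass.coe_sub, MulMemClass.coe_mul, OneMemClass.coe_one, hcL, hxiF]
      using h

end GenusLe

end Fermat.Agent.S18.helper3384
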