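import Mathlib
import Fermat.Prelude.Def_AlgebraicCurve_Repartitions
import Fermat.Agent.S18.helper981_Riemann
import Fermat.Agent.S27.helper1070_Approx

/-!
# The fundamental equality `deg (x)_∞ = [F : K(x)]` (char-free, Prelude vocabulary)

Continuation of `helper981_Riemann`.  Setting: `K F` fields, `[Algebra K F]`,
`[HasPrincipalDivisors K F]`, `hdeg : ∀ v : Place K F, v.deg = 1`.  No characteristic
hypothesis, no separability.

* `degree_poleDivisor_le_finrank`: the pole divisor `B` of `x` has `deg B ≤ [F : K(x)]`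
  (weak approximation + the leading-term argument; no `HasPrincipalDivisors` needed).
* `degree_poleDivisor_eq_finrank`: `deg B = [F : K(x)]` for transcendental `x`.
* `degree_zeroDivisor_eq_finrank`: the same for the zero divisor.
* `hasRiemannBound_of_transcendental'`: `HasRiemannBound K F` with no hypothesis on `deg B`.
* `exists_forall_finrank_eq_of_transcendental`: Riemann's theorem in consumer form.
-/

set_option autoImplicit false

namespace Fermat.Agent.S18.helper981

open AlgebraicCurve WithZero Module Polynomial IntermediateField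

variable {K F : Type*} [Field K] [Field F] [Algebra K F]

/-! ## Valuation of a rational function of `x` at a pole of `x` -/

theorem val_algebraMap_eq_one (v : Place K F) {c : K} (hc : c ≠ 0) :
    v.adicValuation (algebraMap K F c) = 1 := by
  refine le_antisymm (v.adicValuation_algebraMap_le_one c) ?_
  have h := v.adicValuation_algebraMap_le_one c⁻¹
  rw [map_inv₀, map_inv₀] at h
  have hne : v.adicValuation (algebraMap K F c) ≠ 0 :=
    v.adicValuation_ne_zero ((_root_.map_ne_zero _).mpr hc)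
  exact (inv_le_one₀ (zero_lt_iff.mpr hne)).mp h

theorem val_aeval_le_pow (v : Place K F) {x : F} (hx : 1 ≤ v.adicValuation x) (p : K[X]) :
    v.adicValuation (aeval x p) ≤ v.adicValuation x ^ p.natDegree := by
  rw [aeval_eq_sum_range]
  refine Valuation.map_sum_le _ fun i hi => ?_
  rw [Algebra.smul_def, map_mul, map_pow]
  have hi' : i ≤ p.natDegree := Nat.lt_succ_iff.mp (Finset.mem_range.mp hi)
  calc v.adicValuation (algebraMap K F (p.coeff i)) * v.adicValuation x ^ i
      ≤ 1 * v.adicValuation x ^ i :=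
        mul_le_mul' (v.adicValuation_algebraMap_le_one _) le_rfl
    _ = v.adicValuation x ^ i := one_mul _
    _ ≤ v.adicValuation x ^ p.natDegree := pow_le_pow_right₀ hx hi'

theorem val_aeval_eq_pow (v : Place K F) {x : F} (hx : 1 < v.adicValuation x) {p : K[X]}
    (hp : p ≠ 0) : v.adicValuation (aeval x p) = v.adicValuation x ^ p.natDegree := by
  have hsplit : aeval x p
      = algebraMap K F p.leadingCoeff * x ^ p.natDegree + aeval x p.eraseLead := by
    conv_lhs => rw [← p.eraseLead_add_C_mul_X_pow]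
    rw [map_add, map_mul, aeval_C, map_pow, aeval_X, add_comm]
  have hlead : v.adicValuation (algebraMap K F p.leadingCoeff * x ^ p.natDegree)
      = v.adicValuation x ^ p.natDegree := by
    rw [map_mul, map_pow, val_algebraMap_eq_one v (leadingCoeff_ne_zero.mpr hp), one_mul]
  have hpos : (0 : ℤᵐ⁰) < v.adicValuation x ^ p.natDegree :=
    pow_pos (lt_trans zero_lt_one hx) _
  have hlt : v.adicValuation (aeval x p.eraseLead)
      < v.adicValuation (algebraMap K F p.leadingCoeff * x ^ p.natDegree) := by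
    rw [hlead]
    rcases p.eraseLead_natDegree_lt_or_eraseLead_eq_zero with h | h
    · exact lt_of_le_of_lt (val_aeval_le_pow v hx.le _) (pow_lt_pow_right₀ hx h)
    · rw [h, map_zero, map_zero]; exact hpos
  rw [hsplit, Valuation.map_add_eq_of_lt_left _ hlt, hlead]

/-- A nonzero element of `K(x)` has, at every pole `v` of `x`, valuation `v(x) ^ m` with the
same integer `m` (its degree as a rational function). -/
theorem exists_val_eq_zpow_of_mem_adjoin {x c : F} (hc : c ∈ K⟮x⟯) (hc0 : c ≠ 0) :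
    ∃ m : ℤ, ∀ v : Place K F, 1 < v.adicValuation x →
      v.adicValuation c = v.adicValuation x ^ m := by
  obtain ⟨r, s, rfl⟩ := (IntermediateField.mem_adjoin_simple_iff K c).mp hc
  have hr : r ≠ 0 := by
    rintro rfl
    simp at hc0
  have hs : s ≠ 0 := by
    rintro rfl
    simp at hc0
  refine ⟨(r.natDegree : ℤ) - s.natDegree, fun v hv => ?_⟩
  have hx0 : v.adicValuation x ≠ 0 := ne_of_gt (lt_trans zero_lt_one hv)
  rw [map_div₀, val_aeval_eq_pow v hv hr, val_aeval_eq_pow v hv hs, zpow_sub₀ hx0,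
    zpow_natCast, zpow_natCast]

theorem ord_eq_mul_of_val_eq_zpow (v : Place K F) {x c : F} {m : ℤ}
    (h : v.adicValuation c = v.adicValuation x ^ m) : v.ord c = m * v.ord x := by
  simp only [Place.ord, h, WithZero.log_zpow, smul_eq_mul]
  ring

/-- A finite sum with a term of strictly smallest order is nonzero. -/
theorem sum_ne_zero_of_ord_lt {ι : Type*} (v : Place K F) (s : Finset ι) (g : ι → F) (i₀ : ι)
    (hi₀ : i₀ ∈ s) (h0 : g i₀ ≠ 0)
    (h : ∀ i ∈ s, i ≠ i₀ → g i ≠ 0 → v.ord (g i₀) < v.ord (g i)) : ∑ i ∈ s, g i ≠ 0 := by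
  classical
  have hv0 : v.adicValuation (g i₀) ≠ 0 := v.adicValuation_ne_zero h0
  have hlt : v.adicValuation (∑ i ∈ s.erase i₀, g i) < v.adicValuation (g i₀) := by
    refine Valuation.map_sum_lt _ hv0 fun i hi => ?_
    have hi' := Finset.mem_erase.mp hi
    rcases eq_or_ne (g i) 0 with hg | hg
    · rw [hg, map_zero]; exact zero_lt_iff.mpr hv0
    · rw [v.adicValuation_eq_exp_neg_ord hg, v.adicValuation_eq_exp_neg_ord h0, exp_lt_exp]
      have := h i hi'.2 hi'.1 hg
      omega
  have hsum : ∑ i ∈ s, g i = g i₀ + ∑ i ∈ s.erase i₀, g i :=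
    (Finset.add_sum_erase s g hi₀).symm
  intro hzero
  have hval : v.adicValuation (∑ i ∈ s, g i) = v.adicValuation (g i₀) := by
    rw [hsum, Valuation.map_add_eq_of_lt_left _ hlt]
  rw [hzero, map_zero] at hval
  exact hv0 hval.symm

/-! ## The inequality `deg (x)_∞ ≤ [F : K(x)]` -/

section Upper

theorem sigma_fin_ext {S : Finset (Place K F)} {n : Place K F → ℕ}
    {i i' : Σ v : S, Fin (n v)} (h1 : (i.1 : Place K F) = i'.1) (h2 : (i.2 : ℕ) = i'.2) :
    i = i' := by
  obtain ⟨⟨w, hw⟩, j⟩ := i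
  obtain ⟨⟨w', hw'⟩, j'⟩ := i'
  simp only at h1
  subst h1
  simp only at h2
  have : j = j' := Fin.ext h2
  subst this
  rfl

/-- **Fundamental inequality** (Stichtenoth 1.3.3): the pole divisor of `x` has degree at most
`[F : K(x)]`.  Any characteristic; only weak approximation is used. -/
theorem degree_poleDivisor_le_finrank (hdeg : ∀ v : Place K F, v.deg = 1) (x : F)
    [FiniteDimensional K⟮x⟯ F] (B : Divisor K F)
    (hB : ∀ v : Place K F, B v = max 0 (-(v.ord x))) :
    Divisor.degree B ≤ (finrank K⟮x⟯ F : ℤ) := by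
  classical
  set S : Finset (Place K F) := B.support with hS
  set n : Place K F → ℕ := fun v => (B v).toNat with hn
  have hBnonneg : ∀ v, 0 ≤ B v := fun v => by rw [hB v]; exact le_max_left _ _
  have hnB : ∀ v, (n v : ℤ) = B v := fun v => Int.toNat_of_nonneg (hBnonneg v)
  have hSpole : ∀ v ∈ S, v.ord x = -(n v : ℤ) ∧ 0 < n v := by
    intro v hv
    have hne : B v ≠ 0 := Finsupp.mem_support_iff.mp hv
    have h1 := hB v
    have h2 := hnB v
    have h3 := hBnonneg v
    constructor <;> omega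
  have hSval : ∀ v ∈ S, 1 < v.adicValuation x := fun v hv => by
    rw [Fermat.Agent.S27.helper1070.one_lt_val_iff]
    have := hSpole v hv
    omega
  -- the family with prescribed orders
  have hz : ∀ i : (Σ v : S, Fin (n v)), ∃ f : F, f ≠ 0 ∧ ∀ w ∈ S,
      w.ord f = if w = (i.1 : Place K F) then ((i.2 : ℕ) : ℤ) else (n w : ℤ) := fun i =>
    Fermat.Agent.S27.helper1070.exists_ord_eq S _
  choose z hz0 hzord using hz
  have hli : LinearIndependent K⟮x⟯ z := by
    rw [Fintype.linearIndependent_iff]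
    intro c hsum
    by_contra hex
    push Not at hex
    obtain ⟨i₁, hi₁⟩ := hex
    -- degrees of the coefficients
    have hm : ∀ i, ∃ m : ℤ, c i ≠ 0 → ∀ v : Place K F, 1 < v.adicValuation x →
        v.adicValuation ((c i : K⟮x⟯) : F) = v.adicValuation x ^ m := by
      intro i
      by_cases hci : c i = 0
      · exact ⟨0, fun h => absurd hci h⟩
      · have hci' : ((c i : K⟮x⟯) : F) ≠ 0 := fun h => hci (Subtype.ext h)
        obtain ⟨m, hm⟩ := exists_val_eq_zpow_of_mem_adjoin (c i).2 hci'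
        exact ⟨m, fun _ => hm⟩
    choose μ hμ using hm
    have hordc : ∀ i, c i ≠ 0 → ∀ v ∈ S, v.ord ((c i : K⟮x⟯) : F) = -(μ i * (n v : ℤ)) := by
      intro i hci v hv
      rw [ord_eq_mul_of_val_eq_zpow v (hμ i hci v (hSval v hv)), (hSpole v hv).1]
      ring
    set T : Finset (Σ v : S, Fin (n v)) := Finset.univ.filter fun i => c i ≠ 0 with hT
    have hTne : T.Nonempty := ⟨i₁, by simp [hT, hi₁]⟩
    obtain ⟨i₂, hi₂T, hi₂max⟩ := Finset.exists_max_image T μ hTne
    set v₀ : Place K F := (i₂.1 : Place K F) with hv₀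
    have hv₀S : v₀ ∈ S := i₂.1.2
    set T' : Finset (Σ v : S, Fin (n v)) :=
      T.filter fun i => μ i = μ i₂ ∧ (i.1 : Place K F) = v₀ with hT'
    have hT'ne : T'.Nonempty := ⟨i₂, Finset.mem_filter.mpr ⟨hi₂T, rfl, rfl⟩⟩
    obtain ⟨i₀, hi₀T', hi₀min⟩ := Finset.exists_min_image T' (fun i => (i.2 : ℕ)) hT'ne
    have hi₀ : c i₀ ≠ 0 ∧ μ i₀ = μ i₂ ∧ (i₀.1 : Place K F) = v₀ := by
      have := Finset.mem_filter.mp hi₀T'
      have h2 := Finset.mem_filter.mp this.1
      exact ⟨h2.2, this.2.1, this.2.2⟩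
    -- the terms
    set g : (Σ v : S, Fin (n v)) → F := fun i => ((c i : K⟮x⟯) : F) * z i with hg
    have hgsum : ∑ i, g i = 0 := by
      rw [← hsum]
      refine Finset.sum_congr rfl fun i _ => ?_
      rw [hg, IntermediateField.smul_def, smul_eq_mul]
    have hgord : ∀ i, c i ≠ 0 → v₀.ord (g i) = -(μ i * (n v₀ : ℤ)) +
        (if v₀ = (i.1 : Place K F) then ((i.2 : ℕ) : ℤ) else (n v₀ : ℤ)) := by
      intro i hci
      have hci' : ((c i : K⟮x⟯) : F) ≠ 0 := fun h => hci (Subtype.ext h)
      rw [hg]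
      simp only
      rw [v₀.ord_mul hci' (hz0 i), hordc i hci v₀ hv₀S, hzord i v₀ hv₀S]
    have hg0 : g i₀ ≠ 0 := by
      have hci' : ((c i₀ : K⟮x⟯) : F) ≠ 0 := fun h => hi₀.1 (Subtype.ext h)
      exact mul_ne_zero hci' (hz0 i₀)
    have hn₀ : 0 < n v₀ := (hSpole v₀ hv₀S).2
    have hj₀ : (i₀.2 : ℕ) < n v₀ := by
      have h1 : (i₀.2 : ℕ) < n (i₀.1 : Place K F) := i₀.2.2
      have h2 : n (i₀.1 : Place K F) = n v₀ := congrArg n hi₀.2.2
      omega
    refine sum_ne_zero_of_ord_lt v₀ Finset.univ g i₀ (Finset.mem_univ _) hg0 ?_ hgsum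
    intro i _ hine hgi
    have hci : c i ≠ 0 := by
      intro h
      apply hgi
      rw [hg]
      simp only
      rw [h]
      simp
    have hiT : i ∈ T := by simp [hT, hci]
    have hμle : μ i ≤ μ i₂ := hi₂max i hiT
    rw [hgord i hci, hgord i₀ hi₀.1, if_pos hi₀.2.2.symm, hi₀.2.1]
    have hn₀' : (0 : ℤ) < (n v₀ : ℤ) := by exact_mod_cast hn₀
    have hj₀' : ((i₀.2 : ℕ) : ℤ) < (n v₀ : ℤ) := by exact_mod_cast hj₀
    have hmul : μ i * (n v₀ : ℤ) ≤ μ i₂ * (n v₀ : ℤ) :=
      mul_le_mul_of_nonneg_right hμle hn₀'.le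
    by_cases hv : v₀ = (i.1 : Place K F)
    · rw [if_pos hv]
      rcases hμle.lt_or_eq with hlt | heq
      · have h1 : μ i + 1 ≤ μ i₂ := hlt
        have h2 : (μ i + 1) * (n v₀ : ℤ) ≤ μ i₂ * (n v₀ : ℤ) :=
          mul_le_mul_of_nonneg_right h1 hn₀'.le
        have h3 : (0 : ℤ) ≤ ((i.2 : ℕ) : ℤ) := Int.natCast_nonneg _
        nlinarith
      · have hiT' : i ∈ T' := by
          rw [hT']
          exact Finset.mem_filter.mpr ⟨hiT, heq, hv.symm⟩
        have hle : (i₀.2 : ℕ) ≤ (i.2 : ℕ) := hi₀min i hiT'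
        have hne : (i₀.2 : ℕ) ≠ (i.2 : ℕ) := by
          intro h
          exact hine (sigma_fin_ext (hv.symm.trans hi₀.2.2.symm) h.symm)
        have hlt : ((i₀.2 : ℕ) : ℤ) < ((i.2 : ℕ) : ℤ) := by
          exact_mod_cast lt_of_le_of_ne hle hne
        rw [heq]
        linarith
    · rw [if_neg hv]
      linarith
  have hcard := hli.fintype_card_le_finrank
  have hcard' : Fintype.card (Σ v : S, Fin (n v)) = ∑ v ∈ S, n v := by
    rw [Fintype.card_sigma]
    simp only [Fintype.card_fin]
    exact Finset.sum_coe_sort S n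
  have hdegB : Divisor.degree B = ((∑ v ∈ S, n v : ℕ) : ℤ) := by
    rw [degree_eq_sum hdeg, Finsupp.sum, Nat.cast_sum]
    exact Finset.sum_congr rfl fun v _ => (hnB v).symm
  rw [hdegB]
  rw [hcard'] at hcard
  exact_mod_cast hcard

end Upper

/-! ## The fundamental equality and Riemann's inequality without side conditions -/

theorem adjoin_simple_inv_eq (x : F) : K⟮x⁻¹⟯ = K⟮x⟯ := by
  apply le_antisymm
  · rw [IntermediateField.adjoin_simple_le_iff]
    exact inv_mem (IntermediateField.mem_adjoin_simple_self K x)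
  · rw [IntermediateField.adjoin_simple_le_iff]
    have := inv_mem (IntermediateField.mem_adjoin_simple_self K x⁻¹)
    rwa [inv_inv] at this

section Equality

variable [HasPrincipalDivisors K F]

/-- The pole divisor of a nonzero function exists. -/
theorem exists_poleDivisor {x : F} (hx0 : x ≠ 0) :
    ∃ B : Divisor K F, ∀ v : Place K F, B v = max 0 (-(v.ord x)) := by
  obtain ⟨Z, hZ, -⟩ := HasPrincipalDivisors.exists_divisor (K := K) x hx0
  refine ⟨(-Z) ⊔ 0, fun v => ?_⟩
  rw [Finsupp.sup_apply, Finsupp.neg_apply, hZ v, Finsupp.zero_apply, max_comm]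

/-- The zero divisor of a nonzero function exists. -/
theorem exists_zeroDivisor {x : F} (hx0 : x ≠ 0) :
    ∃ B : Divisor K F, ∀ v : Place K F, B v = max 0 (v.ord x) := by
  obtain ⟨Z, hZ, -⟩ := HasPrincipalDivisors.exists_divisor (K := K) x hx0
  refine ⟨Z ⊔ 0, fun v => ?_⟩
  rw [Finsupp.sup_apply, hZ v, Finsupp.zero_apply, max_comm]

/-- `HasRiemannBound` for a function field with a transcendental `x` and `[F : K(x)] < ∞`:
no hypothesis on the degree of the pole divisor. -/
theorem hasRiemannBound_of_transcendental' (x : F) (hx : Transcendental K x)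
    [FiniteDimensional K⟮x⟯ F] (P₀ : Place K F) (hdeg : ∀ v : Place K F, v.deg = 1) :
    HasRiemannBound K F := by
  have hx0 : x ≠ 0 := fun h => hx (h ▸ isAlgebraic_zero)
  obtain ⟨B, hB⟩ := exists_poleDivisor (K := K) hx0
  exact hasRiemannBound_of_transcendental x hx P₀ hdeg B hB
    (degree_poleDivisor_le_finrank hdeg x B hB)

/-- **Fundamental equality**: the pole divisor of a transcendental `x` has degree
`[F : K(x)]`. -/
theorem degree_poleDivisor_eq_finrank (hdeg : ∀ v : Place K F, v.deg = 1) (P₀ : Place K F)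
    (x : F) (hx : Transcendental K x) [FiniteDimensional K⟮x⟯ F] (B : Divisor K F)
    (hB : ∀ v : Place K F, B v = max 0 (-(v.ord x))) :
    Divisor.degree B = (finrank K⟮x⟯ F : ℤ) := by
  refine le_antisymm (degree_poleDivisor_le_finrank hdeg x B hB) ?_
  obtain ⟨C, hC, hX⟩ := exists_input_of_transcendental x hx P₀ hdeg B hB
  have hB0 : 0 ≤ B := Finsupp.le_def.mpr fun v => by
    rw [hB v, Finsupp.zero_apply]; exact le_max_left _ _
  by_contra hlt
  push Not at hlt
  set k : ℕ := (Divisor.degree C + 1).toNat + 1 with hk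
  have hkC : 0 ≤ (k : ℕ) • B + C := add_nonneg (nsmul_nonneg hB0 k) hC
  have h1 := finrank_le_degree_add_one hdeg P₀ (degree_nonneg hdeg hkC)
  have h2 := hX k
  rw [map_add, map_nsmul, nsmul_eq_mul] at h1
  have h2' : ((finrank K⟮x⟯ F : ℕ) : ℤ) * ((k : ℤ) + 1)
      ≤ (finrank K (riemannRochSpace ((k : ℕ) • B + C)) : ℤ) := by exact_mod_cast h2
  have h3 : Divisor.degree B + 1 ≤ (finrank K⟮x⟯ F : ℤ) := hlt
  have h4 : Divisor.degree C + 1 ≤ ((Divisor.degree C + 1).toNat : ℤ) := Int.self_le_toNat _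
  have h5 : (k : ℤ) = ((Divisor.degree C + 1).toNat : ℤ) + 1 := by rw [hk]; push_cast; ring
  have h6 : (0 : ℤ) ≤ (k : ℤ) := Int.natCast_nonneg _
  have h7 : (0 : ℤ) ≤ (finrank K⟮x⟯ F : ℤ) := Int.natCast_nonneg _
  nlinarith

/-- **Fundamental equality**, zero divisor form. -/
theorem degree_zeroDivisor_eq_finrank (hdeg : ∀ v : Place K F, v.deg = 1) (P₀ : Place K F)
    (x : F) (hx : Transcendental K x) [FiniteDimensional K⟮x⟯ F] (Z : Divisor K F)
    (hZ : ∀ v : Place K F, Z v = max 0 (v.ord x)) :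
    Divisor.degree Z = (finrank K⟮x⟯ F : ℤ) := by
  have hx0 : x ≠ 0 := fun h => hx (h ▸ isAlgebraic_zero)
  have hxi : Transcendental K x⁻¹ := fun h => hx (by simpa using h.inv)
  have heq : K⟮x⁻¹⟯ = K⟮x⟯ := adjoin_simple_inv_eq x
  have : FiniteDimensional K⟮x⁻¹⟯ F := by rw [heq]; infer_instance
  have h := degree_poleDivisor_eq_finrank hdeg P₀ x⁻¹ hxi Z
    (fun v => by rw [hZ v, v.ord_inv, neg_neg])
  rw [h, heq]

/-- **Riemann's theorem**, consumer form: for a function field with principal divisors, places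
of degree one, a transcendental `x` with `[F : K(x)] < ∞`: `deg D + 1 - g ≤ l(D)` for all `D`,
with equality for all `D` of large degree (`g = riemannGenus K F`). -/
theorem exists_forall_finrank_eq_of_transcendental (x : F) (hx : Transcendental K x)
    [FiniteDimensional K⟮x⟯ F] (P₀ : Place K F) (hdeg : ∀ v : Place K F, v.deg = 1) :
    (∀ D : Divisor K F,
      Divisor.degree D + 1 - (riemannGenus K F : ℤ) ≤ (finrank K (riemannRochSpace D) : ℤ)) ∧
    ∃ c : ℤ, ∀ D : Divisor K F, c ≤ Divisor.degree D →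
      (finrank K (riemannRochSpace D) : ℤ) = Divisor.degree D + 1 - (riemannGenus K F : ℤ) := by
  have h := hasRiemannBound_of_transcendental' x hx P₀ hdeg
  exact ⟨riemannGenus_mem h, exists_forall_finrank_eq hdeg P₀ h⟩

end Equality

end Fermat.Agent.S18.helper981
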