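import Fermat.Agent.S18.helper4445_GenusRed
import Fermat.Agent.S18.helper1733_ITAdapter
import Fermat.Agent.S18.helper789_ChartInst
import Fermat.Agent.S18.helper3927_ChartDualityInst
import Fermat.Agent.S18.helper8566_GenusBridge
import Fermat.Agent.S18.helper981_FundEq
import Fermat.Agent.S18.helper3384_TameChart

/-!
# S18-GENUSLE-ASM: the chart-genus inequality `γ ≤ γk` from landed shapes

Assembly of `helper4445_GenusRed` (DU4) with the valued-field kit of helper1733
(orthonormal bases, integrality transfer).  The chart duality (DU1) enters through its two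
one-sided halves, each on one fibre only:

* generic fibre (surjective half): a finite-dimensional subspace `V ≤ Ω(F, x)` with `γ ≤ dim V`;
* special fibre (injective half): every linearly independent family in `Ω(Fk, x̄)` has at most
  `γk` members.

Main statements: `exists_linearIndependent_red_of_le_omega`, `chartGenus_le`,
`chartGenus_le_of_finrank_eq`, `chartGenus_le_one_branch`.

Second part (track A, SpecA leaf A4-DUAL): with the landed chart duality (`helper3927`) and chart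
Riemann theorem (`helper789`),

* `finrank_omega_eq_chartGenus`: `dim Ω(F, x) = γ(F, x)` (the chart genus of `helper789`);
* `chartGenus_le_chart`, `chartGenus_le_chart_one_branch`: `γ(F, x) ≤ γ(Fk, x̄)`;
* `genus_special`, `genus_generic`: the special-fibre and generic-fibre clauses of
  `helper2030.LineData.genus`;
* `genus_field_of_unramified`: the whole `genus` field for abstract Gauss data.
-/

set_option autoImplicit false

namespace Fermat.Agent.S18.helper4445

open Polynomial IntermediateField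
open Fermat.Agent.S18

section Adapters

variable {L F k Fk : Type*} [Field L] [Field F] [Algebra L F] [Field k] [Field Fk] [Algebra k Fk]

/-- A ring hom `red : O →+* Fk` whose kernel is the maximal ideal kills the non-units. -/
theorem red_eq_zero_of_not_isUnit (O : ValuationSubring F) (red : O →+* Fk)
    (hred : ∀ f : O, red f = 0 ↔ O.valuation (f : F) < 1) (g : O) (hg : ¬ IsUnit g) :
    red g = 0 := by
  rw [hred]
  have h1 : O.valuation (g : F) ≤ 1 := O.valuation_le_one g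
  have h2 : O.valuation (g : F) ≠ 1 := fun h => hg ((O.valuation_eq_one_iff g).mpr h)
  exact lt_of_le_of_ne h1 h2

/-- The reductions of an orthonormal family are linearly independent over the residue field
(in the form: `red` kills exactly the elements of value `< 1`, and every element of `k` is the
reduction of a constant). -/
theorem linearIndependent_red_of_isOrtho (O : ValuationSubring F) (red : O →+* Fk)
    (hred : ∀ f : O, red f = 0 ↔ O.valuation (f : F) < 1)
    (hredk_surj : ∀ c' : k, ∃ (c : L) (hc : algebraMap L F c ∈ O),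
      red ⟨algebraMap L F c, hc⟩ = algebraMap k Fk c')
    {n : ℕ} (e : Fin n → O) (he : helper1733.IsOrtho O.valuation L (fun i => (e i : F))) :
    LinearIndependent k (fun i => red (e i)) := by
  classical
  rw [Fintype.linearIndependent_iff]
  intro g hg i
  choose c hc hcg using fun j => hredk_surj (g j)
  have hsum : red (∑ j, (⟨algebraMap L F (c j), hc j⟩ : O) * e j) = 0 := by
    rw [map_sum, ← hg]
    refine Finset.sum_congr rfl fun j _ => ?_
    rw [map_mul, hcg j, Algebra.smul_def]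
  rw [hred] at hsum
  have hcoe : ((∑ j, (⟨algebraMap L F (c j), hc j⟩ : O) * e j : O) : F) =
      ∑ j, c j • (e j : F) := by
    rw [AddSubmonoidClass.coe_finsetSum]
    refine Finset.sum_congr rfl fun j _ => ?_
    rw [MulMemClass.coe_mul, Algebra.smul_def]
  rw [hcoe] at hsum
  have hle := he.coeff_le_univ c i
  have hlt : O.valuation (algebraMap L F (c i)) < 1 := lt_of_le_of_lt hle hsum
  have h0 : red ⟨algebraMap L F (c i), hc i⟩ = 0 := (hred _).mpr hlt
  rw [hcg i] at h0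
  exact (map_eq_zero (algebraMap k Fk)).mp h0

end Adapters

section Asm

variable {L F k Fk : Type*} [Field L] [Field F] [Algebra L F] [Field k] [Field Fk] [Algebra k Fk]

/-- Subspace form of the reduction count: members of `Ω(F, x) ∩ O` with certificates whose
reductions are linearly independent give a linearly independent family in `Ω(Fk, x̄)`. -/
theorem exists_linearIndependent_red_of_le_omega (O : ValuationSubring F) (red : O →+* Fk)
    (hker : ∀ g : O, ¬ IsUnit g → red g = 0) (x xi : O) (hxi : x * xi = 1)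
    (hIT₁ : ∀ g : O, IsIntegral (Algebra.adjoin L {(x : F)}) (g : F) →
      IsIntegral (Algebra.adjoin k {red x}) (red g))
    (hIT₂ : ∀ g : O, IsIntegral (Algebra.adjoin L {(x : F)⁻¹}) (g : F) →
      IsIntegral (Algebra.adjoin k {(red x)⁻¹}) (red g))
    (hTC₁ : TraceCrit k k⟮red x⟯ (red x)) (hTC₂ : TraceCrit k k⟮red x⟯ (red x)⁻¹)
    (w₁ : O) (Pb : k[X]) (hw₁ : red w₁ = aeval (red x) Pb) (hw₁0 : red w₁ ≠ 0)
    (hsq : Squarefree (X * Pb)) (M : ℕ) (hM : 0 < M)
    (w₂ : O) (Pb' : k[X]) (hw₂ : red w₂ = aeval (red x)⁻¹ Pb') (hw₂0 : red w₂ ≠ 0)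
    (hsq' : Squarefree (X * Pb')) (M' : ℕ) (hM' : 0 < M')
    (hcert₁ : ∀ y : F, IsOmega L (x : F) y →
      ∃ z : F, IsIntegral (Algebra.adjoin L {(x : F)}) z ∧ ((w₁ : F) * y) ^ M = (x : F) * w₁ * z)
    (hcert₂ : ∀ y : F, IsOmega L (x : F) y →
      ∃ z : F, IsIntegral (Algebra.adjoin L {(x : F)⁻¹}) z ∧
        ((w₂ : F) * y) ^ M' = (x : F)⁻¹ * w₂ * z)
    {n : ℕ} (e : Fin n → O) (he : ∀ i, IsOmega L (x : F) (e i : F))
    (hind : LinearIndependent k (fun i => red (e i))) :
    ∃ f : Fin n → omega k (red x), LinearIndependent k f :=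
  ⟨fun i => ⟨red (e i), isOmega_red O red hker x xi hxi hIT₁ hIT₂ hTC₁ hTC₂ w₁ Pb hw₁
      hw₁0 hsq M hM w₂ Pb' hw₂ hw₂0 hsq' M' hM' (e i) (hcert₁ (e i) (he i)) (hcert₂ (e i) (he i))⟩,
    LinearIndependent.of_comp (omega k (red x)).subtype hind⟩

/-- **The chart-genus inequality `γ ≤ γk`** from landed shapes.

* `O`, `red`, `hred`, `hredk_surj`, `hcompat`: the Gauss valuation ring of `F` and its residue map
  (GAUSSMOD surface, as in `helper2030.kummer_ff`);
* `hres`, `hb`, `hspan`: `x` residually transcendental and an orthonormal `L(x)`-basis of `F`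
  (helper1733 / helper8020 shapes);
* `hxt` + instances: `x̄` transcendental, `Fk / k(x̄)` finite separable;
* `w₁ = P(x)`, `w₂ = P'(x⁻¹)` with reductions `Pb(x̄)`, `Pb'(x̄⁻¹)`, `X * Pb`, `X * Pb'` squarefree,
  and the tame certificates `hcert₁`, `hcert₂` (DU3) for every element of `Ω(F, x)`;
* `hF`, `hk`: the two one-sided halves of the chart duality (DU1).
-/
theorem chartGenus_le (O : ValuationSubring F) (red : O →+* Fk)
    (hred : ∀ f : O, red f = 0 ↔ O.valuation (f : F) < 1)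
    (hredk_surj : ∀ c' : k, ∃ (c : L) (hc : algebraMap L F c ∈ O),
      red ⟨algebraMap L F c, hc⟩ = algebraMap k Fk c')
    (hcompat : ∀ (a : L) (ha : algebraMap L F a ∈ O),
      ∃ c : k, red ⟨algebraMap L F a, ha⟩ = algebraMap k Fk c)
    {x : F} (hx : x ∈ O) (hres : helper1733.ResTranscendental O.valuation L x)
    {ι : Type*} [Fintype ι] {b : ι → F} (hb : helper1733.IsOrtho O.valuation L⟮x⟯ b)
    (hspan : Submodule.span L⟮x⟯ (Set.range b) = ⊤)
    (hxt : Transcendental k (red ⟨x, hx⟩))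
    [FiniteDimensional k⟮red ⟨x, hx⟩⟯ Fk] [Algebra.IsSeparable k⟮red ⟨x, hx⟩⟯ Fk]
    (w₁ : O) (Pb : k[X]) (hw₁ : red w₁ = aeval (red ⟨x, hx⟩) Pb)
    (hsq : Squarefree (X * Pb)) (M : ℕ) (hM : 0 < M)
    (w₂ : O) (Pb' : k[X]) (hw₂ : red w₂ = aeval (red ⟨x, hx⟩)⁻¹ Pb')
    (hsq' : Squarefree (X * Pb')) (M' : ℕ) (hM' : 0 < M')
    (hcert₁ : ∀ y : F, IsOmega L x y →
      ∃ z : F, IsIntegral (Algebra.adjoin L {x}) z ∧ ((w₁ : F) * y) ^ M = x * w₁ * z)
    (hcert₂ : ∀ y : F, IsOmega L x y →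
      ∃ z : F, IsIntegral (Algebra.adjoin L {x⁻¹}) z ∧ ((w₂ : F) * y) ^ M' = x⁻¹ * w₂ * z)
    (γ γk : ℤ)
    (hF : ∃ V : Submodule L F, V ≤ omega L x ∧ FiniteDimensional L V ∧
      γ ≤ (Module.finrank L V : ℤ))
    (hk : ∀ (n : ℕ) (f : Fin n → omega k (red ⟨x, hx⟩)), LinearIndependent k f → (n : ℤ) ≤ γk) :
    γ ≤ γk := by
  obtain ⟨V, hVle, hVfin, hγV⟩ := hF
  obtain ⟨hx0, -, hxi⟩ := helper1733.ResTranscendental.mem_and_inv_mem O hres
  -- orthonormal basis of `V`
  obtain ⟨e, heV, heO, -⟩ := helper1733.exists_isOrtho_basis hres hb hspan V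
  have hemem : ∀ i, e i ∈ O := fun i => (O.valuation_le_one_iff _).mp (heO.le_one i)
  have hind : LinearIndependent k (fun i => red ⟨e i, hemem i⟩) :=
    linearIndependent_red_of_isOrtho O red hred hredk_surj (fun i => ⟨e i, hemem i⟩) heO
  -- integrality transfer on both charts
  have hIT₁ := helper1733.integralityTransfer_of_isOrtho O red hcompat hx hres hb hspan
  have hIT₂ := helper1733.integralityTransfer_inv_of_isOrtho O red hcompat hx hres hb hspan
  have hker := red_eq_zero_of_not_isUnit O red hred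
  have hinj : Function.Injective (aeval (R := k) (red ⟨x, hx⟩)) :=
    transcendental_iff_injective.mp hxt
  have hinj' : Function.Injective (aeval (R := k) (red ⟨x, hx⟩)⁻¹) :=
    transcendental_iff_injective.mp (transcendental_inv hxt)
  have hPb : Pb ≠ 0 := fun h => hsq.ne_zero (by rw [h, mul_zero])
  have hPb' : Pb' ≠ 0 := fun h => hsq'.ne_zero (by rw [h, mul_zero])
  have hw₁0 : red w₁ ≠ 0 := by
    rw [hw₁]; exact fun h => hPb (hinj (by rw [h, map_zero]))
  have hw₂0 : red w₂ ≠ 0 := by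
    rw [hw₂]; exact fun h => hPb' (hinj' (by rw [h, map_zero]))
  obtain ⟨f, hf⟩ := exists_linearIndependent_red_of_le_omega (L := L) O red hker ⟨x, hx⟩
    ⟨x⁻¹, hxi⟩ (Subtype.ext (mul_inv_cancel₀ hx0))
    (fun g hg => hIT₁ (g : F) g.2 hg) (fun g hg => hIT₂ (g : F) g.2 hg)
    (traceCrit_adjoin_simple (red ⟨x, hx⟩) hxt) (traceCrit_inv (red ⟨x, hx⟩) hxt)
    w₁ Pb hw₁ hw₁0 hsq M hM w₂ Pb' hw₂ hw₂0 hsq' M' hM' hcert₁ hcert₂
    (fun i => ⟨e i, hemem i⟩) (fun i => hVle (heV i)) hind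
  exact hγV.trans (hk _ f hf)

/-- `chartGenus_le` when the chart duality is known as an equality on both fibres:
`dim Ω(F, x) = γ` and `dim Ω(Fk, x̄) = γk` (both finite-dimensional). -/
theorem chartGenus_le_of_finrank_eq (O : ValuationSubring F) (red : O →+* Fk)
    (hred : ∀ f : O, red f = 0 ↔ O.valuation (f : F) < 1)
    (hredk_surj : ∀ c' : k, ∃ (c : L) (hc : algebraMap L F c ∈ O),
      red ⟨algebraMap L F c, hc⟩ = algebraMap k Fk c')
    (hcompat : ∀ (a : L) (ha : algebraMap L F a ∈ O),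
      ∃ c : k, red ⟨algebraMap L F a, ha⟩ = algebraMap k Fk c)
    {x : F} (hx : x ∈ O) (hres : helper1733.ResTranscendental O.valuation L x)
    {ι : Type*} [Fintype ι] {b : ι → F} (hb : helper1733.IsOrtho O.valuation L⟮x⟯ b)
    (hspan : Submodule.span L⟮x⟯ (Set.range b) = ⊤)
    (hxt : Transcendental k (red ⟨x, hx⟩))
    [FiniteDimensional k⟮red ⟨x, hx⟩⟯ Fk] [Algebra.IsSeparable k⟮red ⟨x, hx⟩⟯ Fk]
    (w₁ : O) (Pb : k[X]) (hw₁ : red w₁ = aeval (red ⟨x, hx⟩) Pb)
    (hsq : Squarefree (X * Pb)) (M : ℕ) (hM : 0 < M)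
    (w₂ : O) (Pb' : k[X]) (hw₂ : red w₂ = aeval (red ⟨x, hx⟩)⁻¹ Pb')
    (hsq' : Squarefree (X * Pb')) (M' : ℕ) (hM' : 0 < M')
    (hcert₁ : ∀ y : F, IsOmega L x y →
      ∃ z : F, IsIntegral (Algebra.adjoin L {x}) z ∧ ((w₁ : F) * y) ^ M = x * w₁ * z)
    (hcert₂ : ∀ y : F, IsOmega L x y →
      ∃ z : F, IsIntegral (Algebra.adjoin L {x⁻¹}) z ∧ ((w₂ : F) * y) ^ M' = x⁻¹ * w₂ * z)
    (γ γk : ℤ)
    [FiniteDimensional L (omega L x)] (hγ : (Module.finrank L (omega L x) : ℤ) = γ)
    [FiniteDimensional k (omega k (red ⟨x, hx⟩))]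
    (hγk : (Module.finrank k (omega k (red ⟨x, hx⟩)) : ℤ) = γk) :
    γ ≤ γk := by
  refine chartGenus_le O red hred hredk_surj hcompat hx hres hb hspan hxt w₁ Pb hw₁ hsq M hM
    w₂ Pb' hw₂ hsq' M' hM' hcert₁ hcert₂ γ γk ⟨omega L x, le_rfl, inferInstance, hγ.ge⟩ ?_
  intro n f hf
  rw [← hγk]
  have := hf.fintype_card_le_finrank
  rw [Fintype.card_fin] at this
  exact_mod_cast this

end Asm

section OneBranch

variable {k : Type*} [Field k]

theorem squarefree_X_mul_X_sub_C {c : k} (hc : c ≠ 0) : Squarefree ((X : k[X]) * (X - C c)) := by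
  rw [squarefree_mul_iff]
  refine ⟨?_, irreducible_X.squarefree, (irreducible_X_sub_C c).squarefree⟩
  apply IsCoprime.isRelPrime
  refine ⟨C c⁻¹, -C c⁻¹, ?_⟩
  have h : (C c⁻¹ : k[X]) * C c = 1 := by rw [← C_mul, inv_mul_cancel₀ hc, C_1]
  linear_combination h

theorem squarefree_X_mul_one_sub_C_mul_X {c : k} (hc : c ≠ 0) :
    Squarefree ((X : k[X]) * (1 - C c * X)) := by
  have hirr : Irreducible (1 - C c * X : k[X]) := by
    apply irreducible_of_degree_eq_one
    have h1 : (1 - C c * X : k[X]) = C (-c) * X + C 1 := by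
      rw [C_neg, C_1]; ring
    rw [h1]
    exact degree_linear (neg_ne_zero.mpr hc)
  rw [squarefree_mul_iff]
  refine ⟨?_, irreducible_X.squarefree, hirr.squarefree⟩
  apply IsCoprime.isRelPrime
  exact ⟨C c, 1, by ring⟩

variable {L F Fk : Type*} [Field L] [Field F] [Algebra L F] [Field Fk] [Algebra k Fk]

/-- `chartGenus_le` for a single nonzero finite branch value `c0` with nonzero reduction `c0b`
(`c0 = 1728` on the `j`-line, `-64` on the `t₂`-line, `-27` on the `t₃`-line): certificates in the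
shape `P = X - C c0`, `P' = 1 - C c0 * X`. -/
theorem chartGenus_le_one_branch (O : ValuationSubring F) (red : O →+* Fk)
    (hred : ∀ f : O, red f = 0 ↔ O.valuation (f : F) < 1)
    (hredk_surj : ∀ c' : k, ∃ (c : L) (hc : algebraMap L F c ∈ O),
      red ⟨algebraMap L F c, hc⟩ = algebraMap k Fk c')
    (hcompat : ∀ (a : L) (ha : algebraMap L F a ∈ O),
      ∃ c : k, red ⟨algebraMap L F a, ha⟩ = algebraMap k Fk c)
    {x : F} (hx : x ∈ O) (hres : helper1733.ResTranscendental O.valuation L x)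
    {ι : Type*} [Fintype ι] {b : ι → F} (hb : helper1733.IsOrtho O.valuation L⟮x⟯ b)
    (hspan : Submodule.span L⟮x⟯ (Set.range b) = ⊤)
    (hxt : Transcendental k (red ⟨x, hx⟩))
    [FiniteDimensional k⟮red ⟨x, hx⟩⟯ Fk] [Algebra.IsSeparable k⟮red ⟨x, hx⟩⟯ Fk]
    (c0 : L) (hc0 : algebraMap L F c0 ∈ O) (c0b : k)
    (hc0b : red ⟨algebraMap L F c0, hc0⟩ = algebraMap k Fk c0b) (hc0b0 : c0b ≠ 0)
    (M : ℕ) (hM : 0 < M) (M' : ℕ) (hM' : 0 < M')
    (hcert₁ : ∀ y : F, IsOmega L x y →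
      ∃ z : F, IsIntegral (Algebra.adjoin L {x}) z ∧
        (aeval x (X - C c0 : L[X]) * y) ^ M = x * aeval x (X - C c0 : L[X]) * z)
    (hcert₂ : ∀ y : F, IsOmega L x y →
      ∃ z : F, IsIntegral (Algebra.adjoin L {x⁻¹}) z ∧
        (aeval x⁻¹ (1 - C c0 * X : L[X]) * y) ^ M' = x⁻¹ * aeval x⁻¹ (1 - C c0 * X : L[X]) * z)
    (γ γk : ℤ)
    (hF : ∃ V : Submodule L F, V ≤ omega L x ∧ FiniteDimensional L V ∧
      γ ≤ (Module.finrank L V : ℤ))
    (hk : ∀ (n : ℕ) (f : Fin n → omega k (red ⟨x, hx⟩)), LinearIndependent k f → (n : ℤ) ≤ γk) :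
    γ ≤ γk := by
  obtain ⟨hx0, -, hxi⟩ := helper1733.ResTranscendental.mem_and_inv_mem O hres
  have hw₁mem : aeval x (X - C c0 : L[X]) ∈ O := by
    rw [map_sub, aeval_X, aeval_C]
    exact O.sub_mem hx hc0
  have hw₂mem : aeval x⁻¹ (1 - C c0 * X : L[X]) ∈ O := by
    rw [map_sub, map_one, map_mul, aeval_X, aeval_C]
    exact O.sub_mem O.one_mem (O.mul_mem _ _ hc0 hxi)
  have hw₁ : red ⟨aeval x (X - C c0 : L[X]), hw₁mem⟩ = aeval (red ⟨x, hx⟩) (X - C c0b : k[X]) := by
    have h1 : (⟨aeval x (X - C c0 : L[X]), hw₁mem⟩ : O) = ⟨x, hx⟩ - ⟨algebraMap L F c0, hc0⟩ :=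
      Subtype.ext (by simp)
    rw [h1, map_sub, hc0b, map_sub, aeval_X, aeval_C]
  have hw₂ : red ⟨aeval x⁻¹ (1 - C c0 * X : L[X]), hw₂mem⟩ =
      aeval (red ⟨x, hx⟩)⁻¹ (1 - C c0b * X : k[X]) := by
    have h1 : (⟨aeval x⁻¹ (1 - C c0 * X : L[X]), hw₂mem⟩ : O) =
        1 - ⟨algebraMap L F c0, hc0⟩ * ⟨x⁻¹, hxi⟩ := Subtype.ext (by simp)
    rw [h1, map_sub, map_one, map_mul, hc0b, helper6292.red_inv O red hx0 hx hxi, map_sub,
      map_one, map_mul, aeval_X, aeval_C]
  exact chartGenus_le O red hred hredk_surj hcompat hx hres hb hspan hxt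
    ⟨aeval x (X - C c0 : L[X]), hw₁mem⟩ (X - C c0b) hw₁ (squarefree_X_mul_X_sub_C hc0b0) M hM
    ⟨aeval x⁻¹ (1 - C c0 * X : L[X]), hw₂mem⟩ (1 - C c0b * X) hw₂
    (squarefree_X_mul_one_sub_C_mul_X hc0b0) M' hM' hcert₁ hcert₂ γ γk hF hk

end OneBranch

section ChartGenusOpen

open Module AlgebraicCurve

section ChartGenus

variable {K F : Type*} [Field K] [Field F] [Algebra K F]

/-- **DU1 + CR4 on one fibre**: for a perfect constant field, `Ω(F, x)` is finite-dimensional of
dimension the chart genus `γ(F, x)` of `helper789`. -/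
theorem finrank_omega_eq_chartGenus [PerfectField K] (x : F) (hx : Transcendental K x)
    [FiniteDimensional K⟮x⟯ F] [Algebra.IsSeparable K⟮x⟯ F] :
    Module.Finite K (omega K x) ∧
      Module.finrank K (omega K x) = helper789.chartGenus K x := by
  have hfd : FiniteDimensional K⟮x⁻¹⟯ F := by
    rw [helper789.adjoin_simple_inv]
    infer_instance
  have hB1 : ∀ φ, φ ∈ helper789.chartB K x ↔ IsIntegral (Algebra.adjoin K {x}) φ :=
    fun _ => Iff.rfl
  have hB2 : ∀ φ, φ ∈ helper789.chartB K x⁻¹ ↔ IsIntegral (Algebra.adjoin K {x⁻¹}) φ :=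
    fun _ => Iff.rfl
  have hB12 : ∀ φ, φ ∈ helper789.overlap x (helper789.chartB K x) ↔
      ∃ n : ℕ, x ^ n * φ ∈ helper789.chartB K x := fun φ => helper789.mem_overlap_chartB
  have := (helper789.finite_chartQuot hx (helper8246.finite_integralClosure_adjoin x)
    (helper8246.finite_integralClosure_adjoin x⁻¹) _ _ _ hB1 hB2 hB12).2
  have h := helper3927.finrank_omega_eq_relDim x hx _ _ _ hB1 hB2 hB12
  exact ⟨h.1, h.2.trans (helper789.chartGenus_eq_relDim _ _ _ hB1 hB2 hB12).symm⟩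

end ChartGenus

section Line

variable {L F k Fk : Type*} [Field L] [Field F] [Algebra L F] [Field k] [Field Fk] [Algebra k Fk]

/-- **(G1) The chart-genus inequality** `γ(F, x) ≤ γ(Fk, x̄)` for the chart genus of `helper789`,
two-certificate form: `chartGenus_le` with the chart duality discharged on both fibres. -/
theorem chartGenus_le_chart [PerfectField L] [PerfectField k]
    (O : ValuationSubring F) (red : O →+* Fk)
    (hred : ∀ f : O, red f = 0 ↔ O.valuation (f : F) < 1)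
    (hredk_surj : ∀ c' : k, ∃ (c : L) (hc : algebraMap L F c ∈ O),
      red ⟨algebraMap L F c, hc⟩ = algebraMap k Fk c')
    (hcompat : ∀ (a : L) (ha : algebraMap L F a ∈ O),
      ∃ c : k, red ⟨algebraMap L F a, ha⟩ = algebraMap k Fk c)
    {x : F} (hx : x ∈ O) (hres : helper1733.ResTranscendental O.valuation L x)
    {ι : Type*} [Fintype ι] {b : ι → F} (hb : helper1733.IsOrtho O.valuation L⟮x⟯ b)
    (hspan : Submodule.span L⟮x⟯ (Set.range b) = ⊤)
    [Algebra.IsSeparable L⟮x⟯ F]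
    (hxt : Transcendental k (red ⟨x, hx⟩))
    [FiniteDimensional k⟮red ⟨x, hx⟩⟯ Fk] [Algebra.IsSeparable k⟮red ⟨x, hx⟩⟯ Fk]
    (w₁ : O) (Pb : k[X]) (hw₁ : red w₁ = aeval (red ⟨x, hx⟩) Pb)
    (hsq : Squarefree (X * Pb)) (M : ℕ) (hM : 0 < M)
    (w₂ : O) (Pb' : k[X]) (hw₂ : red w₂ = aeval (red ⟨x, hx⟩)⁻¹ Pb')
    (hsq' : Squarefree (X * Pb')) (M' : ℕ) (hM' : 0 < M')
    (hcert₁ : ∀ y : F, IsOmega L x y →
      ∃ z : F, IsIntegral (Algebra.adjoin L {x}) z ∧ ((w₁ : F) * y) ^ M = x * w₁ * z)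
    (hcert₂ : ∀ y : F, IsOmega L x y →
      ∃ z : F, IsIntegral (Algebra.adjoin L {x⁻¹}) z ∧ ((w₂ : F) * y) ^ M' = x⁻¹ * w₂ * z) :
    helper789.chartGenus L x ≤ helper789.chartGenus k (red ⟨x, hx⟩) := by
  have hxL : Transcendental L x := hres.transcendental
  have : FiniteDimensional L⟮x⟯ F :=
    Module.Finite.of_basis (Basis.mk hb.linearIndependent hspan.ge)
  obtain ⟨hfinL, hγL⟩ := finrank_omega_eq_chartGenus (K := L) x hxL
  obtain ⟨hfink, hγk⟩ := finrank_omega_eq_chartGenus (K := k) (red ⟨x, hx⟩) hxt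
  have h := chartGenus_le_of_finrank_eq O red hred hredk_surj hcompat hx hres hb hspan hxt
    w₁ Pb hw₁ hsq M hM w₂ Pb' hw₂ hsq' M' hM' hcert₁ hcert₂
    (helper789.chartGenus L x : ℤ) (helper789.chartGenus k (red ⟨x, hx⟩) : ℤ)
    (by exact_mod_cast hγL) (by exact_mod_cast hγk)
  exact_mod_cast h

/-- **(G2) The special-fibre clauses of `helper2030.LineData.genus`** (chart-only, generic):
finiteness of the chart spaces `helper8566.chartSpace k x̄ a b` and the upper bound
`dim ≤ (a + b) d + 1 - γ` in large degree, for every `d ≥ [Fk : k(x̄)]` and every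
`γ ≤ γ(Fk, x̄)`. -/
theorem genus_special [IsAlgClosed k] {xb : Fk} (hxb : Transcendental k xb)
    [FiniteDimensional k⟮xb⟯ Fk] (d : ℕ) (hdk : finrank k⟮xb⟯ Fk ≤ d)
    (γ : ℤ) (hγ : γ ≤ (helper789.chartGenus k xb : ℤ)) :
    (∀ a b : ℕ, Module.Finite k (helper8566.chartSpace k xb a b)) ∧
    ∃ cK : ℤ, ∀ a b : ℕ, cK ≤ ((a : ℤ) + b) * d →
      (finrank k (helper8566.chartSpace k xb a b) : ℤ) ≤ ((a : ℤ) + b) * d + 1 - γ := by
  have hsp : ∀ a b, helper8566.chartSpace k xb a b = helper789.chartSp k xb a b :=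
    fun a b => Submodule.ext fun g => Iff.rfl
  obtain ⟨hfin, -, n₀, hn₀⟩ := helper789.chart_riemann_isAlgClosed xb hxb
  refine ⟨fun a b => by rw [hsp]; exact hfin a b, 2 * (n₀ : ℤ) * d, fun a b hab => ?_⟩
  have hdpos : (0 : ℤ) < d := by
    have : 0 < finrank k⟮xb⟯ Fk := finrank_pos
    exact_mod_cast lt_of_lt_of_le this hdk
  have hmax : n₀ ≤ max a b := by
    by_contra hlt
    rw [not_le] at hlt
    have ha : (a : ℤ) < n₀ := by exact_mod_cast lt_of_le_of_lt (le_max_left a b) hlt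
    have hb : (b : ℤ) < n₀ := by exact_mod_cast lt_of_le_of_lt (le_max_right a b) hlt
    nlinarith
  have h := hn₀ a b hmax
  rw [hsp]
  have h2 : ((finrank k ↥(helper789.chartSp k xb a b) : ℕ) : ℤ) + (helper789.chartGenus k xb : ℕ)
      = (((a + b) * finrank k⟮xb⟯ Fk + 1 : ℕ) : ℤ) := by exact_mod_cast h
  push_cast at h2
  have h3 : ((a : ℤ) + b) * (finrank k⟮xb⟯ Fk : ℤ) ≤ ((a : ℤ) + b) * d :=
    mul_le_mul_of_nonneg_left (by exact_mod_cast hdk) (by positivity)
  linarith

/-- **The generic-fibre clauses of `helper2030.LineData.genus`** with `d = [F : L(x)]` and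
`γ` the chart genus: pole degree and Riemann's inequality. -/
theorem genus_generic [IsAlgClosed L] [HasPrincipalDivisors L F]
    (hdeg : ∀ v : Place L F, v.deg = 1) (P₀ : Place L F)
    (x : F) (hx : Transcendental L x) [FiniteDimensional L⟮x⟯ F] :
    0 < finrank L⟮x⟯ F ∧
    (∀ Xinf : Divisor L F, helper6292.IsPoleDivisor x Xinf →
      Divisor.degree Xinf = (finrank L⟮x⟯ F : ℕ)) ∧
    (∀ D : Divisor L F, Divisor.degree D + 1 - (helper789.chartGenus L x : ℤ) ≤
      (finrank L (riemannRochSpace D) : ℤ)) := by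
  have hx0 : x ≠ 0 := fun h => hx (h ▸ isAlgebraic_zero)
  have hpole : ∀ Xinf : Divisor L F, helper6292.IsPoleDivisor x Xinf →
      Divisor.degree Xinf = (finrank L⟮x⟯ F : ℕ) := fun Xinf hXinf =>
    helper981.degree_poleDivisor_eq_finrank hdeg P₀ x hx Xinf hXinf
  refine ⟨finrank_pos, hpole, fun D => ?_⟩
  obtain ⟨Xinf, hXinf⟩ := helper981.exists_poleDivisor (K := L) hx0
  obtain ⟨X0, hX0⟩ := helper981.exists_zeroDivisor (K := L) hx0
  have hRB := helper981.hasRiemannBound_of_transcendental' x hx P₀ hdeg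
  exact helper8566.riemann_le_of_chart hdeg P₀ hRB hx0 (Xinf := Xinf) (X0 := X0) hXinf hX0
    (helper8566.chartIntegral_of_perfect x) (helper8566.chartIntegral_inv_of_perfect x)
    (hpole Xinf hXinf) finrank_pos
    (helper789.hchart_of_isAlgClosed x hx (helper8566.chartSpace L x) fun a b g => Iff.rfl) D

/-- **(G1), one branch value.** `chartGenus_le_one_branch` with the chart duality discharged. -/
theorem chartGenus_le_chart_one_branch [PerfectField L] [PerfectField k]
    (O : ValuationSubring F) (red : O →+* Fk)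
    (hred : ∀ f : O, red f = 0 ↔ O.valuation (f : F) < 1)
    (hredk_surj : ∀ c' : k, ∃ (c : L) (hc : algebraMap L F c ∈ O),
      red ⟨algebraMap L F c, hc⟩ = algebraMap k Fk c')
    (hcompat : ∀ (a : L) (ha : algebraMap L F a ∈ O),
      ∃ c : k, red ⟨algebraMap L F a, ha⟩ = algebraMap k Fk c)
    {x : F} (hx : x ∈ O) (hres : helper1733.ResTranscendental O.valuation L x)
    {ι : Type*} [Fintype ι] {b : ι → F} (hb : helper1733.IsOrtho O.valuation L⟮x⟯ b)
    (hspan : Submodule.span L⟮x⟯ (Set.range b) = ⊤)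
    [Algebra.IsSeparable L⟮x⟯ F]
    (hxt : Transcendental k (red ⟨x, hx⟩))
    [FiniteDimensional k⟮red ⟨x, hx⟩⟯ Fk] [Algebra.IsSeparable k⟮red ⟨x, hx⟩⟯ Fk]
    (c0 : L) (hc0 : algebraMap L F c0 ∈ O) (c0b : k)
    (hc0b : red ⟨algebraMap L F c0, hc0⟩ = algebraMap k Fk c0b) (hc0b0 : c0b ≠ 0)
    (M : ℕ) (hM : 0 < M) (M' : ℕ) (hM' : 0 < M')
    (hcert₁ : ∀ y : F, IsOmega L x y →
      ∃ z : F, IsIntegral (Algebra.adjoin L {x}) z ∧
        (aeval x (X - C c0 : L[X]) * y) ^ M = x * aeval x (X - C c0 : L[X]) * z)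
    (hcert₂ : ∀ y : F, IsOmega L x y →
      ∃ z : F, IsIntegral (Algebra.adjoin L {x⁻¹}) z ∧
        (aeval x⁻¹ (1 - C c0 * X : L[X]) * y) ^ M' =
          x⁻¹ * aeval x⁻¹ (1 - C c0 * X : L[X]) * z) :
    helper789.chartGenus L x ≤ helper789.chartGenus k (red ⟨x, hx⟩) := by
  have hxL : Transcendental L x := hres.transcendental
  have : FiniteDimensional L⟮x⟯ F :=
    Module.Finite.of_basis (Basis.mk hb.linearIndependent hspan.ge)
  obtain ⟨hfinL, hγL⟩ := finrank_omega_eq_chartGenus (K := L) x hxL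
  obtain ⟨hfink, hγk⟩ := finrank_omega_eq_chartGenus (K := k) (red ⟨x, hx⟩) hxt
  have h := chartGenus_le_one_branch O red hred hredk_surj hcompat hx hres hb hspan hxt
    c0 hc0 c0b hc0b hc0b0 M hM M' hM' hcert₁ hcert₂
    (helper789.chartGenus L x : ℤ) (helper789.chartGenus k (red ⟨x, hx⟩) : ℤ)
    ⟨omega L x, le_rfl, hfinL, by rw [hγL]⟩
    (fun n f hf => by
      have h1 := hf.fintype_card_le_finrank
      rw [Fintype.card_fin, hγk] at h1
      exact_mod_cast h1)
  exact_mod_cast h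

/-- **(G3) The `genus` field of `helper2030.LineData`, for abstract Gauss data.**
`d = [F : L(x)]`, `γ = γ(F, x)` (chart genus).  Inputs:

* generic fibre: `L` algebraically closed of characteristic zero, principal divisors, places of
  degree one, one place `P₀`;
* Gauss data `O`, `red`, `hred`, `hredk_surj`, `hcompat`, `x` residually transcendental with an
  orthonormal `L(x)`-basis of `F` (helper1733 shapes, as in `chartGenus_le`);
* special fibre: `k` algebraically closed, `x̄` transcendental, `Fk / k(x̄)` finite separable of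
  degree `≤ [F : L(x)]`;
* ONE nonzero finite branch value `c0` with nonzero reduction, `F / L(x)` unramified over every
  `x = c`, `c ≠ 0, c0` (Prelude `Place.ord` form: the compiled RAMDATA / BRANCH shape). -/
theorem genus_field_of_unramified [IsAlgClosed L] [CharZero L] [IsAlgClosed k]
    [HasPrincipalDivisors L F] (hdeg : ∀ v : Place L F, v.deg = 1) (P₀ : Place L F)
    (O : ValuationSubring F) (red : O →+* Fk)
    (hred : ∀ f : O, red f = 0 ↔ O.valuation (f : F) < 1)
    (hredk_surj : ∀ c' : k, ∃ (c : L) (hc : algebraMap L F c ∈ O),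
      red ⟨algebraMap L F c, hc⟩ = algebraMap k Fk c')
    (hcompat : ∀ (a : L) (ha : algebraMap L F a ∈ O),
      ∃ c : k, red ⟨algebraMap L F a, ha⟩ = algebraMap k Fk c)
    {x : F} (hx : x ∈ O) (hres : helper1733.ResTranscendental O.valuation L x)
    {ι : Type*} [Fintype ι] {b : ι → F} (hb : helper1733.IsOrtho O.valuation L⟮x⟯ b)
    (hspan : Submodule.span L⟮x⟯ (Set.range b) = ⊤)
    (hxt : Transcendental k (red ⟨x, hx⟩))
    [FiniteDimensional k⟮red ⟨x, hx⟩⟯ Fk] [Algebra.IsSeparable k⟮red ⟨x, hx⟩⟯ Fk]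
    (hdk : finrank k⟮red ⟨x, hx⟩⟯ Fk ≤ finrank L⟮x⟯ F)
    (c0 : L) (hc0 : algebraMap L F c0 ∈ O) (c0b : k)
    (hc0b : red ⟨algebraMap L F c0, hc0⟩ = algebraMap k Fk c0b) (hc0b0 : c0b ≠ 0)
    (hunr : ∀ (v : Place L F) (c : L), c ≠ 0 → c ≠ c0 →
      0 < v.ord (x - algebraMap L F c) → v.ord (x - algebraMap L F c) = 1) :
    ∃ (d : ℕ) (γ : ℤ), 0 < d ∧
      (∀ Xinf : Divisor L F, helper6292.IsPoleDivisor x Xinf → Divisor.degree Xinf = d) ∧
      (∀ D : Divisor L F, Divisor.degree D + 1 - γ ≤ (finrank L (riemannRochSpace D) : ℤ)) ∧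
      (∀ a b : ℕ, Module.Finite k (helper8566.chartSpace k (red ⟨x, hx⟩) a b)) ∧
      ∃ cK : ℤ, ∀ a b : ℕ, cK ≤ ((a : ℤ) + b) * d →
        (finrank k (helper8566.chartSpace k (red ⟨x, hx⟩) a b) : ℤ) ≤
          ((a : ℤ) + b) * d + 1 - γ := by
  have hxL : Transcendental L x := hres.transcendental
  have : FiniteDimensional L⟮x⟯ F :=
    Module.Finite.of_basis (Basis.mk hb.linearIndependent hspan.ge)
  have hdpos : 0 < finrank L⟮x⟯ F := finrank_pos
  have hγ : helper789.chartGenus L x ≤ helper789.chartGenus k (red ⟨x, hx⟩) := by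
    refine chartGenus_le_chart_one_branch O red hred hredk_surj hcompat hx hres hb hspan hxt
      c0 hc0 c0b hc0b hc0b0 (finrank L⟮x⟯ F) hdpos (finrank L⟮x⟯ F) hdpos ?_ ?_
    · intro y hy
      have h := (helper3384.cert_of_isOmega_single x hxL c0 hunr y hy).1
      simpa only [map_sub, aeval_X, aeval_C] using h
    · intro y hy
      have h := (helper3384.cert_of_isOmega_single x hxL c0 hunr y hy).2
      simpa only [map_sub, map_mul, map_one, aeval_X, aeval_C] using h
  obtain ⟨h1, h2, h3⟩ := genus_generic hdeg P₀ x hxL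
  obtain ⟨h4, h5⟩ := genus_special hxt (finrank L⟮x⟯ F) hdk (helper789.chartGenus L x : ℤ)
    (by exact_mod_cast hγ)
  exact ⟨finrank L⟮x⟯ F, (helper789.chartGenus L x : ℤ), h1, h2, h3, h4, h5⟩

end Line

end ChartGenusOpen

end Fermat.Agent.S18.helper4445
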