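/-
S18, track A, genus input: the cusp-form-free chart-genus chain, COMPOSED (helper789).

`γ(F, x) := chartGenus L x` (helper789_ChartInst) and
* (DU1, helper3927) `dim Ω(F, x) = γ(F, x)` in the `chartGenus` vocabulary, with the Serre
  finiteness discharged (`finrank_omega_eq_chartGenus`);
* (DU1 + DU3 + DU4 + CR4) the semicontinuity `chartGenus L x ≤ chartGenus k x̄` for a Gauss-valued
  function field, with NO hypothesis on differentials, charts or genera left: only the valued
  field data (orthonormal basis over `L(x)`), separability of `Fk / k(x̄)` and the char-0 branch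
  locus of `F / L(x)` (`chartGenus_le_chartGenus`);
* `exists_genus_data`: the `genus` field of `helper2030.LineData` (track A, SpecA) VERBATIM for
  such a valued function field: one `d > 0` and one `γ` with the pole degree of `x`, Riemann's
  inequality on the generic fibre and the reverse chart inequality on the special fibre.
-/
import Fermat.Agent.S18.helper789_ChartInst
import Fermat.Agent.S18.helper3927_ChartDualityInst
import Fermat.Agent.S18.helper4445_GenusAsm
import Fermat.Agent.S18.helper3384_TameChart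
import Fermat.Agent.S18.helper8566_GenusBridge
import Fermat.Agent.S18.helper4307_PlacesAnyChar

set_option autoImplicit false

namespace Fermat.Agent.S18.helper789

open Polynomial Module IntermediateField AlgebraicCurve

section Duality

variable {K F : Type*} [Field K] [Field F] [Algebra K F]

/-- **(DU1) in `chartGenus` form**: over a perfect constant field, the space of regular chart
differentials `Ω(F, x)` is finite-dimensional of dimension the chart genus. -/
theorem finrank_omega_eq_chartGenus [PerfectField K] (x : F) (hx : Transcendental K x)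
    [FiniteDimensional K⟮x⟯ F] [Algebra.IsSeparable K⟮x⟯ F] :
    Module.Finite K (helper4445.omega K x) ∧
      finrank K (helper4445.omega K x) = chartGenus K x := by
  have hfd : FiniteDimensional K⟮x⁻¹⟯ F := by
    rw [adjoin_simple_inv]
    infer_instance
  have hfin := (finite_chartQuot hx (helper8246.finite_integralClosure_adjoin x)
    (helper8246.finite_integralClosure_adjoin x⁻¹) (chartB K x) (chartB K x⁻¹)
    (overlap x (chartB K x)) (fun _ => Iff.rfl) (fun _ => Iff.rfl)
    (fun _ => mem_overlap_chartB)).2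
  have h := helper3927.finrank_omega_eq_relDim x hx (chartB K x) (chartB K x⁻¹)
    (overlap x (chartB K x)) (fun _ => Iff.rfl) (fun _ => Iff.rfl) (fun _ => mem_overlap_chartB)
  refine ⟨h.1, ?_⟩
  rw [h.2]
  exact (chartGenus_eq_relDim (chartB K x) (chartB K x⁻¹) (overlap x (chartB K x))
    (fun _ => Iff.rfl) (fun _ => Iff.rfl) (fun _ => mem_overlap_chartB)).symm

end Duality

section TwoFibres

variable {L F k Fk : Type*} [Field L] [Field F] [Algebra L F] [Field k] [Field Fk] [Algebra k Fk]

/-- **Semicontinuity of the chart genus** `γ(F, x) ≤ γ(Fk, x̄)` for a Gauss-valued function field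
(`L` algebraically closed of characteristic zero, `k` perfect), one nonzero finite branch value
`c0` with nonzero reduction (`1728` on the `j`-line, `-64` on the `t₂`-line, `-27` on the
`t₃`-line).  Composition of DU1 (helper3927), DU3 (helper3384), DU4 (helper4445) and the Serre
finiteness of CR4. -/
theorem chartGenus_le_chartGenus [IsAlgClosed L] [CharZero L] [PerfectField k]
    (O : ValuationSubring F) (red : O →+* Fk)
    (hred : ∀ f : O, red f = 0 ↔ O.valuation (f : F) < 1)
    (hredk_surj : ∀ c' : k, ∃ (c : L) (hc : algebraMap L F c ∈ O),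
      red ⟨algebraMap L F c, hc⟩ = algebraMap k Fk c')
    (hcompat : ∀ (a : L) (ha : algebraMap L F a ∈ O),
      ∃ c : k, red ⟨algebraMap L F a, ha⟩ = algebraMap k Fk c)
    {x : F} (hx : x ∈ O) (hres : helper1733.ResTranscendental O.valuation L x)
    {ι : Type*} [Fintype ι] {b : ι → F} (hb : helper1733.IsOrtho O.valuation L⟮x⟯ b)
    (hspan : Submodule.span L⟮x⟯ (Set.range b) = ⊤)
    (hxt : Transcendental k (red ⟨x, hx⟩))
    [FiniteDimensional k⟮red ⟨x, hx⟩⟯ Fk] [Algebra.IsSeparable k⟮red ⟨x, hx⟩⟯ Fk]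
    (c0 : L) (hc0 : algebraMap L F c0 ∈ O) (c0b : k)
    (hc0b : red ⟨algebraMap L F c0, hc0⟩ = algebraMap k Fk c0b) (hc0b0 : c0b ≠ 0)
    (hunr : ∀ (v : Place L F) (c : L), c ≠ 0 → c ≠ c0 →
      0 < v.ord (x - algebraMap L F c) → v.ord (x - algebraMap L F c) = 1) :
    chartGenus L x ≤ chartGenus k (red ⟨x, hx⟩) := by
  have hxL : Transcendental L x := hres.transcendental
  have hfdL : FiniteDimensional L⟮x⟯ F := by
    classical
    refine Module.finite_def.mpr ⟨Finset.univ.image b, ?_⟩
    rw [Finset.coe_image, Finset.coe_univ, Set.image_univ]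
    exact hspan
  obtain ⟨hfinL, hγL⟩ := finrank_omega_eq_chartGenus (K := L) x hxL
  obtain ⟨hfink, hγk⟩ := finrank_omega_eq_chartGenus (K := k) (red ⟨x, hx⟩) hxt
  have hP : ∀ (v : Place L F) (c : L), c ≠ 0 → (X - C c0 : L[X]).eval c ≠ 0 →
      0 < v.ord (x - algebraMap L F c) → v.ord (x - algebraMap L F c) = 1 :=
    fun v c hc hPc h => hunr v c hc (fun hcc => hPc (by rw [hcc]; simp)) h
  have hP' : ∀ (v : Place L F) (c : L), c ≠ 0 → (1 - C c0 * X : L[X]).eval c⁻¹ ≠ 0 →
      0 < v.ord (x - algebraMap L F c) → v.ord (x - algebraMap L F c) = 1 :=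
    fun v c hc hPc h => hunr v c hc
      (fun hcc => hPc (by rw [← hcc]; simp [mul_inv_cancel₀ hc])) h
  have key : (chartGenus L x : ℤ) ≤ (chartGenus k (red ⟨x, hx⟩) : ℤ) := by
    refine helper4445.chartGenus_le_one_branch O red hred hredk_surj hcompat hx hres hb hspan hxt
      c0 hc0 c0b hc0b hc0b0 (finrank L⟮x⟯ F) finrank_pos (finrank L⟮x⟯ F) finrank_pos
      (fun y hy => (helper3384.cert_of_isOmega x hxL _ _ hP hP' y hy).1)
      (fun y hy => (helper3384.cert_of_isOmega x hxL _ _ hP hP' y hy).2)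
      (chartGenus L x) (chartGenus k (red ⟨x, hx⟩))
      ⟨helper4445.omega L x, le_rfl, hfinL, by rw [hγL]⟩ ?_
    intro n f hf
    have h1 := hf.fintype_card_le_finrank
    rw [Fintype.card_fin, hγk] at h1
    exact_mod_cast h1
  exact_mod_cast key

/-- The place-free chart space of helper8566 is `chartSp`. -/
theorem chartSpace_eq_chartSp (x : Fk) (a b : ℕ) :
    helper8566.chartSpace k x a b = chartSp k x a b :=
  Submodule.ext fun _ => Iff.rfl

/-- **Special-fibre clauses of the genus input** from the chart Riemann theorem: for an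
algebraically closed `k`, `x̄` transcendental, `[Fk : k(x̄)] ≤ d` and `γ ≤ γ(Fk, x̄)`, the chart
spaces are finite-dimensional and `dim ≤ (a + b) d + 1 - γ` as soon as `(a + b) d ≥ cK`. -/
theorem chartSpace_bound [IsAlgClosed k] (xb : Fk) (hxb : Transcendental k xb)
    [FiniteDimensional k⟮xb⟯ Fk] (d : ℕ) (hd : finrank k⟮xb⟯ Fk ≤ d) (γ : ℤ)
    (hγ : γ ≤ (chartGenus k xb : ℤ)) :
    (∀ a b : ℕ, Module.Finite k (helper8566.chartSpace k xb a b)) ∧
    ∃ cK : ℤ, ∀ a b : ℕ, cK ≤ ((a : ℤ) + b) * d →
      (finrank k (helper8566.chartSpace k xb a b) : ℤ) ≤ ((a : ℤ) + b) * d + 1 - γ := by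
  obtain ⟨hfin, -, n₀, hn₀⟩ := chart_riemann_isAlgClosed (K := k) xb hxb
  refine ⟨fun a b => by rw [chartSpace_eq_chartSp]; exact hfin a b, 2 * (n₀ : ℤ) * d + 1, ?_⟩
  intro a b hab
  rw [chartSpace_eq_chartSp]
  have hmax : n₀ ≤ max a b := by
    by_contra hlt
    rw [not_le, max_lt_iff] at hlt
    have h1 : ((a : ℤ) + b) * d ≤ 2 * (n₀ : ℤ) * d := by
      have ha : (a : ℤ) + 1 ≤ n₀ := by exact_mod_cast hlt.1
      have hb : (b : ℤ) + 1 ≤ n₀ := by exact_mod_cast hlt.2
      have hd0 : (0 : ℤ) ≤ d := Int.natCast_nonneg d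
      nlinarith
    linarith
  have h := hn₀ a b hmax
  have h2 : ((finrank k ↥(chartSp k xb a b) : ℕ) : ℤ) + (chartGenus k xb : ℕ)
      = ((a : ℤ) + b) * (finrank k⟮xb⟯ Fk : ℕ) + 1 := by exact_mod_cast h
  have h3 : ((a : ℤ) + b) * (finrank k⟮xb⟯ Fk : ℕ) ≤ ((a : ℤ) + b) * d := by
    have h4 : ((finrank k⟮xb⟯ Fk : ℕ) : ℤ) ≤ d := by exact_mod_cast hd
    have h5 : (0 : ℤ) ≤ (a : ℤ) + b := by positivity
    exact mul_le_mul_of_nonneg_left h4 h5
  linarith

/-- **Generic-fibre clauses of the genus input**: for an algebraically closed `L` (any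
characteristic) and `x` transcendental with `F / L(x)` finite, the pole divisor of `x` has degree
`[F : L(x)]` and Riemann's inequality holds with `γ = chartGenus L x`.  No place-theoretic
hypothesis: the place theory is `helper4307_PlacesAnyChar`. -/
theorem riemann_chartGenus [IsAlgClosed L] (x : F) (hx : Transcendental L x)
    [FiniteDimensional L⟮x⟯ F] :
    (∀ Xinf : Divisor L F, helper6292.IsPoleDivisor x Xinf →
      Divisor.degree Xinf = (finrank L⟮x⟯ F : ℕ)) ∧
    (∀ D : Divisor L F, Divisor.degree D + 1 - (chartGenus L x : ℤ) ≤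
      (finrank L (riemannRochSpace D) : ℤ)) := by
  have := helper4307.hasPrincipalDivisors x hx
  have hdeg : ∀ v : Place L F, v.deg = 1 := helper4307.place_deg_eq_one x hx
  obtain ⟨X0, Xinf, hX0, hXinf, -, -, -, -, -, hdXinf⟩ := helper4307.exists_zero_pole_divisors x hx
  have hx0 : x ≠ 0 := ne_zero_of_transcendental hx
  have hdpos : 0 < finrank L⟮x⟯ F := finrank_pos
  -- a place
  have hne : Xinf ≠ 0 := by
    intro h0
    rw [h0, map_zero] at hdXinf
    have : (0 : ℤ) < (finrank L⟮x⟯ F : ℤ) := by exact_mod_cast hdpos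
    omega
  obtain ⟨P₀, -⟩ := Finsupp.support_nonempty_iff.mpr hne
  have hRB : helper981.HasRiemannBound L F :=
    helper981.hasRiemannBound_of_transcendental x hx P₀ hdeg Xinf hXinf hdXinf.le
  refine ⟨fun Xinf' hX' => ?_, fun D => ?_⟩
  · have : Xinf' = Xinf := Finsupp.ext fun v => by rw [hX' v, hXinf v]
    rw [this]
    exact hdXinf
  · exact helper8566.riemann_le_of_chart hdeg P₀ hRB hx0 hXinf hX0
      (helper8566.chartIntegral_of_perfect x) (helper8566.chartIntegral_inv_of_perfect x)
      hdXinf hdpos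
      (hchart_of_isAlgClosed x hx (helper8566.chartSpace L x) fun _ _ _ => Iff.rfl) D

/-- **The genus input of track A** (`genus` field of `helper2030.LineData`, verbatim) for a
Gauss-valued function field: `L` algebraically closed of characteristic zero, `k` algebraically
closed, an orthonormal `L(x)`-basis of `F`, `x̄` transcendental with `Fk / k(x̄)` finite separable
of degree `≤ [F : L(x)]`, and one nonzero finite branch value `c0` of `F / L(x)` with nonzero
reduction.  `d = [F : L(x)]`, `γ = chartGenus L x`. -/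
theorem exists_genus_data [IsAlgClosed L] [CharZero L] [IsAlgClosed k]
    (O : ValuationSubring F) (red : O →+* Fk)
    (hred : ∀ f : O, red f = 0 ↔ O.valuation (f : F) < 1)
    (hredk_surj : ∀ c' : k, ∃ (c : L) (hc : algebraMap L F c ∈ O),
      red ⟨algebraMap L F c, hc⟩ = algebraMap k Fk c')
    (hcompat : ∀ (a : L) (ha : algebraMap L F a ∈ O),
      ∃ c : k, red ⟨algebraMap L F a, ha⟩ = algebraMap k Fk c)
    {x : F} (hx : x ∈ O) (hres : helper1733.ResTranscendental O.valuation L x)
    {ι : Type*} [Fintype ι] {b : ι → F} (hb : helper1733.IsOrtho O.valuation L⟮x⟯ b)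
    (hspan : Submodule.span L⟮x⟯ (Set.range b) = ⊤)
    (hxt : Transcendental k (red ⟨x, hx⟩))
    [FiniteDimensional k⟮red ⟨x, hx⟩⟯ Fk] [Algebra.IsSeparable k⟮red ⟨x, hx⟩⟯ Fk]
    (hdk : finrank k⟮red ⟨x, hx⟩⟯ Fk ≤ finrank L⟮x⟯ F)
    (c0 : L) (hc0 : algebraMap L F c0 ∈ O) (c0b : k)
    (hc0b : red ⟨algebraMap L F c0, hc0⟩ = algebraMap k Fk c0b) (hc0b0 : c0b ≠ 0)
    (hunr : ∀ (v : Place L F) (c : L), c ≠ 0 → c ≠ c0 →
      0 < v.ord (x - algebraMap L F c) → v.ord (x - algebraMap L F c) = 1) :
    ∃ (d : ℕ) (γ : ℤ), 0 < d ∧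
      (∀ Xinf : Divisor L F, helper6292.IsPoleDivisor x Xinf → Divisor.degree Xinf = d) ∧
      (∀ D : Divisor L F, Divisor.degree D + 1 - γ ≤ (finrank L (riemannRochSpace D) : ℤ)) ∧
      (∀ a b : ℕ, Module.Finite k (helper8566.chartSpace k (red ⟨x, hx⟩) a b)) ∧
      ∃ cK : ℤ, ∀ a b : ℕ, cK ≤ ((a : ℤ) + b) * d →
        (finrank k (helper8566.chartSpace k (red ⟨x, hx⟩) a b) : ℤ) ≤ ((a : ℤ) + b) * d + 1 - γ := by
  have hxL : Transcendental L x := hres.transcendental
  have hfdL : FiniteDimensional L⟮x⟯ F := by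
    classical
    refine Module.finite_def.mpr ⟨Finset.univ.image b, ?_⟩
    rw [Finset.coe_image, Finset.coe_univ, Set.image_univ]
    exact hspan
  have hγ : (chartGenus L x : ℤ) ≤ (chartGenus k (red ⟨x, hx⟩) : ℤ) := by
    exact_mod_cast chartGenus_le_chartGenus O red hred hredk_surj hcompat hx hres hb hspan hxt
      c0 hc0 c0b hc0b hc0b0 hunr
  obtain ⟨h1, h2⟩ := riemann_chartGenus x hxL
  obtain ⟨h3, h4⟩ := chartSpace_bound (red ⟨x, hx⟩) hxt (finrank L⟮x⟯ F) hdk (chartGenus L x) hγ
  exact ⟨finrank L⟮x⟯ F, chartGenus L x, finrank_pos, h1, h2, h3, h4⟩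

end TwoFibres

end Fermat.Agent.S18.helper789
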