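/-
S18, track A (SpecA of helper2030): `LineData` on ANY base line of the modular function field
from the composed chart-genus chain (helper789).

`lineData_of_line`: for the Gauss valuation of `F̄_N` at a place `A` of `ℚ̄` over `ℓ ∤ N`, a
residually transcendental `t` with `j ∈ ℚ̄(t)` (a Hauptmodul line `t = t_r`, or `t = j`) has
`helper2030.LineData` as soon as
* the special fibre `F_k / k(t̄)` is finite separable of degree `≤ [F̄_N : ℚ̄(t)]`,
* `F̄_N / ℚ̄(t)` has at most one nonzero finite branch value `c0`, and `c0` is a unit at `A`.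
Everything else (integrality transfer on both charts, pole degree, Riemann's inequality with the
chart genus, chart Riemann theorem on the special fibre, semicontinuity of the chart genus) is
proved: `helper789_GenusLe.exists_genus_data` + `helper1733_GaussOrtho`.
-/
import Fermat.Agent.S18.helper789_GenusLe
import Fermat.Agent.S18.helper2030_SpecA
import Fermat.Agent.S18.helper1733_GaussOrtho
import Fermat.Agent.Lib.helper6879_ResidueQbar

set_option autoImplicit false
set_option synthInstance.maxHeartbeats 400000

namespace Fermat.Agent.S18.helper789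

open ModularCurve AlgebraicCurve IntermediateField Module
open Fermat.Agent.S18.helper2030

section Line

variable (N : ℕ) [NeZero N] (ℓ : ℕ) [Fact ℓ.Prime] (hℓN : ¬ ℓ ∣ N)
  (A : ValuationSubring (AlgebraicClosure ℚ)) (hA : A.LiesOverPrime ℓ)

/-- **`LineData` on a base line `t`** of `F̄_N` (track A, SpecA): the whole `genus` field and both
integrality transfers from the Gauss data of the line, separability and the degree on the special
fibre, and the branch locus in characteristic zero. -/
theorem lineData_of_line (t : modularFunctionFieldBar N)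
    (ht : helper1733.ResTranscendental (gaussO N ℓ hℓN A hA).valuation (AlgebraicClosure ℚ) t)
    (hj : helper1733.gaussJ (AlgebraicClosure ℚ) N ∈ (AlgebraicClosure ℚ)⟮t⟯)
    (htO : t ∈ gaussO N ℓ hℓN A hA)
    (hxt : Transcendental (IsLocalRing.ResidueField A) (gaussRed N ℓ hℓN A hA ⟨t, htO⟩))
    [FiniteDimensional (IsLocalRing.ResidueField A)⟮gaussRed N ℓ hℓN A hA ⟨t, htO⟩⟯
      (modularFunctionFieldFullC (IsLocalRing.ResidueField A) N)]
    [Algebra.IsSeparable (IsLocalRing.ResidueField A)⟮gaussRed N ℓ hℓN A hA ⟨t, htO⟩⟯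
      (modularFunctionFieldFullC (IsLocalRing.ResidueField A) N)]
    (hdk : finrank (IsLocalRing.ResidueField A)⟮gaussRed N ℓ hℓN A hA ⟨t, htO⟩⟯
        (modularFunctionFieldFullC (IsLocalRing.ResidueField A) N) ≤
      finrank (AlgebraicClosure ℚ)⟮t⟯ (modularFunctionFieldBar N))
    (c0 : AlgebraicClosure ℚ) (hc0 : A.valuation c0 = 1)
    (hunr : ∀ (v : Place (AlgebraicClosure ℚ) (modularFunctionFieldBar N))
      (c : AlgebraicClosure ℚ), c ≠ 0 → c ≠ c0 →
      0 < v.ord (t - algebraMap (AlgebraicClosure ℚ) (modularFunctionFieldBar N) c) →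
      v.ord (t - algebraMap (AlgebraicClosure ℚ) (modularFunctionFieldBar N) c) = 1) :
    LineData N ℓ hℓN A hA t := by
  have := Lib.helper6879.isAlgClosed_residueField A
  obtain ⟨e, -, he, hspan⟩ := helper1733.gauss_exists_orthoSys_of_mem_adjoin N ℓ hℓN A hA ht hj
  obtain ⟨hIT, hIT'⟩ := helper1733.gauss_integralityTransfer_of_mem_adjoin N ℓ hℓN A hA ht hj htO
  have hc0A : c0 ∈ A := (A.valuation_le_one_iff c0).mp hc0.le
  have hc0O : algebraMap (AlgebraicClosure ℚ) (modularFunctionFieldBar N) c0 ∈
      gaussO N ℓ hℓN A hA := (gaussO_algebraMap_mem_iff N ℓ hℓN A hA c0).mpr hc0A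
  have hc0b := helper1733.gaussResidue_algebraMap N ℓ hℓN A hA c0 hc0O
  have hc0b0 : IsLocalRing.residue A
      ⟨c0, (helper508.algebraMap_mem_gaussValuationSubring_iff N ℓ hℓN A hA c0).mp hc0O⟩ ≠ 0 := by
    rw [Ne, IsLocalRing.residue_eq_zero_iff, IsLocalRing.mem_maximalIdeal, mem_nonunits_iff,
      not_not]
    exact (A.valuation_eq_one_iff _).mpr hc0
  exact
    { hx := htO
      hxi := (helper1733.ResTranscendental.mem_and_inv_mem _ ht).2.2
      htr := ht.transcendental
      hIT := hIT
      hIT' := hIT'
      genus := exists_genus_data (gaussO N ℓ hℓN A hA) (gaussRed N ℓ hℓN A hA)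
        (gaussRed_eq_zero_iff N ℓ hℓN A hA) (gaussRed_const_surj N ℓ hℓN A hA)
        (helper1733.gauss_compat N ℓ hℓN A hA) htO ht he hspan hxt hdk c0 hc0O _ hc0b hc0b0 hunr }

end Line

end Fermat.Agent.S18.helper789
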