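/-
S18, track A (SpecA of helper2030): `LineData` on the Hauptmodul lines `t_2`, `t_3`, each as
ONE call of `helper789.lineData_of_line` (helper789).

Suppliers (all landed): `helper4665_TLineInst` / `helper4665_TLineDeg` (Gauss data, degrees,
separability on the `t_r`-lines), `helper2866_BranchFN` (branch locus of `F̄_N / ℚ̄(t_r)`),
`helper1622_HLineInst` (`j` as an element of `F̄_N`).
-/
import Fermat.Agent.S18.helper789_LineData
import Fermat.Agent.S18.helper4665_TLineDeg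
import Fermat.Agent.S18.helper2866_BranchFN
import Fermat.Agent.S18.helper1622_HLineInst

set_option autoImplicit false
set_option synthInstance.maxHeartbeats 400000

namespace Fermat.Agent.S18.helper789

open ModularCurve AlgebraicCurve IntermediateField Module
open Fermat.Agent.S18.helper2030

section Lines

variable (N : ℕ) [NeZero N] (ℓ : ℕ) [Fact ℓ.Prime] (hℓN : ¬ ℓ ∣ N)
  (A : ValuationSubring (AlgebraicClosure ℚ)) (hA : A.LiesOverPrime ℓ)

/-- `j` as an element of `F̄_N`: the two landed names agree. -/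
theorem jBar_eq_gaussJ : Fermat.Agent.S24.helper24.jBar N =
    helper1733.gaussJ (AlgebraicClosure ℚ) N :=
  Subtype.ext (helper1622.coe_jBar_eq_jqModC N)

include hA in
/-- An integer prime to `ℓ` is a unit at `A`. -/
theorem valuation_intCast_eq_one (m : ℤ) (hm : ¬ (ℓ : ℤ) ∣ m) :
    A.valuation ((m : ℤ) : AlgebraicClosure ℚ) = 1 :=
  helper9428.valuation_intCast_of_not_dvd (Fact.out : ℓ.Prime) hA m hm

/-- **`LineData` on the `t_2`-line** (`2 ∣ N`, `ℓ ∤ N`). -/
theorem lineData_t2 (h2N : 2 ∣ N) :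
    LineData N ℓ hℓN A hA (helper4665.gaussT2 (AlgebraicClosure ℚ) N h2N) := by
  have hk := Lib.helper6879.isAlgClosed_residueField A
  have hdeg := helper4665.gaussResidue_gaussT2_degree N ℓ hℓN A hA h2N
  have hfd := hdeg.2.1
  have hsep := helper4665.gaussResidue_gaussT2_isSeparable N ℓ hℓN A hA h2N
  have hℓ2 : ℓ ≠ 2 := fun h => hℓN (h ▸ h2N)
  have hc0 : A.valuation (-64 : AlgebraicClosure ℚ) = 1 := by
    have h := valuation_intCast_eq_one ℓ A hA (-64) (by
      intro hd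
      have h1 : (ℓ : ℤ) ∣ 2 ^ 6 := by
        rw [show (2 : ℤ) ^ 6 = -(-64) by norm_num]
        exact (dvd_neg).mpr hd
      have h2 : ℓ ∣ 2 ^ 6 := by exact_mod_cast h1
      have h3 : ℓ ∣ 2 := (Fact.out : ℓ.Prime).dvd_of_dvd_pow h2
      exact hℓ2 ((Nat.prime_dvd_prime_iff_eq (Fact.out : ℓ.Prime) Nat.prime_two).mp h3))
    simpa using h
  refine lineData_of_line N ℓ hℓN A hA _
    (helper4665.gauss_resTranscendental_t2 N ℓ hℓN A hA h2N)
    (helper4665.gaussJ_mem_adjoin_gaussT2 N h2N) (helper4665.gaussT2_mem N ℓ hℓN A hA h2N)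
    hdeg.1 (helper4665.gauss_finrank_t2 N ℓ hℓN A hA h2N).le (-64) hc0 ?_
  intro v c hc0' hc hv
  refine helper2866.FN_level2_ord_sub_eq_one N _ ?_ c hc0' hc v hv
  rw [jBar_eq_gaussJ]
  exact helper4665.gaussJ_mul_gaussT2_sq N h2N

/-- **`LineData` on the `t_3`-line** (`3 ∣ N`, `ℓ ∤ N`). -/
theorem lineData_t3 (h3N : 3 ∣ N) :
    LineData N ℓ hℓN A hA (helper4665.gaussT3 (AlgebraicClosure ℚ) N h3N) := by
  have hk := Lib.helper6879.isAlgClosed_residueField A
  have hdeg := helper4665.gaussResidue_gaussT3_degree N ℓ hℓN A hA h3N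
  have hfd := hdeg.2.1
  have hsep := helper4665.gaussResidue_gaussT3_isSeparable N ℓ hℓN A hA h3N
  have hℓ3 : ℓ ≠ 3 := fun h => hℓN (h ▸ h3N)
  have hc0 : A.valuation (-27 : AlgebraicClosure ℚ) = 1 := by
    have h := valuation_intCast_eq_one ℓ A hA (-27) (by
      intro hd
      have h1 : (ℓ : ℤ) ∣ 3 ^ 3 := by
        rw [show (3 : ℤ) ^ 3 = -(-27) by norm_num]
        exact (dvd_neg).mpr hd
      have h2 : ℓ ∣ 3 ^ 3 := by exact_mod_cast h1
      have h3 : ℓ ∣ 3 := (Fact.out : ℓ.Prime).dvd_of_dvd_pow h2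
      exact hℓ3 ((Nat.prime_dvd_prime_iff_eq (Fact.out : ℓ.Prime) Nat.prime_three).mp h3))
    simpa using h
  refine lineData_of_line N ℓ hℓN A hA _
    (helper4665.gauss_resTranscendental_t3 N ℓ hℓN A hA h3N)
    (helper4665.gaussJ_mem_adjoin_gaussT3 N h3N) (helper4665.gaussT3_mem N ℓ hℓN A hA h3N)
    hdeg.1 (helper4665.gauss_finrank_t3 N ℓ hℓN A hA h3N).le (-27) hc0 ?_
  intro v c hc0' hc hv
  refine helper2866.FN_level3_ord_sub_eq_one N _ ?_ c hc0' hc v hv
  rw [jBar_eq_gaussJ]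
  exact helper4665.gaussJ_mul_gaussT3_cube N h3N

end Lines

end Fermat.Agent.S18.helper789

namespace Fermat.Agent.S18.helper789

open ModularCurve AlgebraicCurve IntermediateField Module
open Fermat.Agent.S18.helper2030

/-- (CART) for the Gauss valuation of `F̄_N` (landed `helper1733_GaussOrtho` through the SpecA
adapter). -/
theorem stmt_Cart_gauss (N : ℕ) [NeZero N] (ℓ : ℕ) [Fact ℓ.Prime] (hℓN : ¬ ℓ ∣ N)
    (A : ValuationSubring (AlgebraicClosure ℚ)) (hA : A.LiesOverPrime ℓ) :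
    Stmt_Cart N ℓ hℓN A hA :=
  stmt_Cart_of_gauss N ℓ hℓN A hA (helper1733.gaussJ (AlgebraicClosure ℚ) N)
    (helper1733.gaussBasisF N ℓ hℓN (AlgebraicClosure ℚ))
    (helper1733.gauss_resTranscendental N ℓ hℓN A hA) (helper1733.gauss_isOrtho N ℓ hℓN A hA)
    (helper1733.gauss_span_eq_top N ℓ hℓN A hA)

/-- **Track A on the `t_2`-line**: the captain's obligation `Stmt_KFr 2`. -/
theorem stmt_KFr_two : helper2118.Stmt_KFr 2 :=
  stmt_KFr_of_lineData 2 fun N' _ ℓ _ hℓN h2N _ A hA =>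
    ⟨stmt_Cart_gauss N' ℓ hℓN A hA, _, lineData_t2 N' ℓ hℓN A hA h2N⟩

/-- **Track A on the `t_3`-line**: the captain's obligation `Stmt_KFr 3`. -/
theorem stmt_KFr_three : helper2118.Stmt_KFr 3 :=
  stmt_KFr_of_lineData 3 fun N' _ ℓ _ hℓN h3N _ A hA =>
    ⟨stmt_Cart_gauss N' ℓ hℓN A hA, _, lineData_t3 N' ℓ hℓN A hA h3N⟩

end Fermat.Agent.S18.helper789
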