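import Mathlib
import Fermat.Prelude.Def_AlgebraicCurve_DivisorClassGroup
import Fermat.Agent.S24.helper204_Places

set_option autoImplicit false
set_option linter.style.haveILetI false

namespace Fermat.Agent.S18.helper6458

open IsDedekindDomain

section Abstract

open Ideal


variable {R S : Type*} [CommRing R] [IsDedekindDomain R] [CommRing S] [IsDedekindDomain S]
  [Algebra R S] [Module.Finite R S] [Module.IsTorsionFree R S]

/-- Lemma A: if all residue degrees over the maximal ideal `p` are one, the relative norm of every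
prime over `p` is `p` (no perfectness or separability hypothesis). -/
theorem relNorm_eq_of_inertiaDeg_eq_one (p : Ideal R) [p.IsMaximal] (hp : p ≠ ⊥)
    (hf : ∀ P ∈ p.primesOver S, P.inertiaDeg R = 1)
    (P : Ideal S) (hP : P ∈ p.primesOver S) : relNorm R P = p := by
  classical
  have hp1 : p ≠ ⊤ := IsMaximal.ne_top inferInstance
  have hs : ∀ Q : p.primesOver S, ∃ s : ℕ, relNorm R Q.1 = p ^ s := fun Q => by
    haveI := Q.2.1
    haveI := Q.2.2
    exact exists_relNorm_eq_pow_of_isPrime Q.1 p
  choose s hs using hs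
  have hspos : ∀ Q : p.primesOver S, s Q ≠ 0 := by
    intro Q h0
    have h := relNorm_le_comap (R := R) Q.1
    rw [hs Q, h0, pow_zero, Ideal.one_eq_top] at h
    haveI := Q.2.2
    have h' : Q.1.under R = p := (Ideal.over_def Q.1 p).symm
    apply hp1
    rw [← h']
    exact top_le_iff.mp h
  have h1 : map (algebraMap R S) p = ∏ Q ∈ p.primesOver S, Q ^ Q.ramificationIdx R :=
    Ideal.map_algebraMap_eq_finsetProd_pow hp
  have h2 := relNorm_algebraMap S p
  have h3 := Ideal.sum_ramification_inertia_eq_finrank p S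
  rw [h1, map_prod, ← Finset.prod_set_coe] at h2
  have h4 : ∀ Q : p.primesOver S,
      relNorm R ((Q : Ideal S) ^ (Q : Ideal S).ramificationIdx R)
        = p ^ (s Q * (Q : Ideal S).ramificationIdx R) := by
    intro Q
    rw [map_pow, hs Q, ← pow_mul]
  rw [Finset.prod_congr rfl (fun Q _ => h4 Q), Finset.prod_pow_eq_pow_sum] at h2
  have h5 := (Ideal.pow_right_strictAnti p hp hp1).injective h2
  have h6 : ∑ Q : p.primesOver S, (Q : Ideal S).ramificationIdx R = Module.finrank R S := by
    rw [← h3]
    refine Finset.sum_congr rfl fun Q _ => ?_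
    rw [hf Q.1 Q.2, mul_one]
  have h7 : ∑ Q : p.primesOver S, (s Q - 1) * (Q : Ideal S).ramificationIdx R = 0 := by
    have h8 : ∀ Q : p.primesOver S, s Q * (Q : Ideal S).ramificationIdx R
        = (s Q - 1) * (Q : Ideal S).ramificationIdx R + (Q : Ideal S).ramificationIdx R := by
      intro Q
      have := hspos Q
      obtain ⟨t, ht⟩ : ∃ t, s Q = t + 1 := ⟨s Q - 1, by omega⟩
      rw [ht]
      simp [add_mul]
    rw [Finset.sum_congr rfl (fun Q _ => h8 Q), Finset.sum_add_distrib, h6] at h5
    omega
  have h9 := (Finset.sum_eq_zero_iff.mp h7) ⟨P, hP⟩ (Finset.mem_univ _)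
  have hePos : 0 < P.ramificationIdx R := by
    haveI := hP.1
    exact Ideal.ramificationIdx_pos P R
  have h10 : s ⟨P, hP⟩ = 1 := by
    have := hspos ⟨P, hP⟩
    rcases Nat.mul_eq_zero.mp h9 with h | h
    · omega
    · simp only at h; omega
  have := hs ⟨P, hP⟩
  rw [h10, pow_one] at this
  exact this

/-- Lemma B: local norm formula for ideals: the multiplicity of `p` in the relative norm of `I` is
the sum of the multiplicities in `I` of the primes over `p`. -/
theorem multiplicity_relNorm (p : Ideal R) [p.IsMaximal] (hp : p ≠ ⊥)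
    (hf : ∀ P ∈ p.primesOver S, P.inertiaDeg R = 1)
    (I : Ideal S) (hI : I ≠ ⊥) :
    multiplicity p (relNorm R I) = ∑ P : p.primesOver S, multiplicity (P : Ideal S) I := by
  classical
  have hpprime : Prime p := Ideal.prime_of_isPrime hp inferInstance
  have hPprime : ∀ P : p.primesOver S, Prime (P : Ideal S) := fun P =>
    Ideal.prime_of_isPrime (ne_bot_of_mem_primesOver hp P.2) P.2.1
  revert hI
  induction I using UniqueFactorizationMonoid.induction_on_prime with
  | h₁ => intro h; exact absurd rfl h
  | h₂ I hI =>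
    intro _
    rw [multiplicity_of_isUnit_right hpprime.not_isUnit (hI.map (relNorm R))]
    symm
    refine Finset.sum_eq_zero fun P _ => ?_
    exact multiplicity_of_isUnit_right (hPprime P).not_isUnit hI
  | h₃ J Q hJ hQ ih =>
    intro hQJ
    have hQ0 : Q ≠ ⊥ := hQ.ne_zero
    have hrel0 : relNorm R (Q * J) ≠ ⊥ := by
      rw [Ne, relNorm_eq_bot_iff]; exact hQJ
    rw [map_mul] at hrel0 ⊢
    rw [multiplicity_mul hpprime (FiniteMultiplicity.of_prime_left hpprime hrel0), ih hJ]
    have hsum : ∑ P : p.primesOver S, multiplicity (P : Ideal S) (Q * J)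
        = ∑ P : p.primesOver S, multiplicity (P : Ideal S) Q
          + ∑ P : p.primesOver S, multiplicity (P : Ideal S) J := by
      rw [← Finset.sum_add_distrib]
      refine Finset.sum_congr rfl fun P _ => ?_
      exact multiplicity_mul (hPprime P) (FiniteMultiplicity.of_prime_left (hPprime P) hQJ)
    rw [hsum]
    congr 1
    -- the prime case
    haveI hQp : Q.IsPrime := Ideal.isPrime_of_prime hQ
    haveI hQm : Q.IsMaximal := hQp.isMaximal hQ0
    by_cases hQover : Q ∈ p.primesOver S
    · rw [relNorm_eq_of_inertiaDeg_eq_one p hp hf Q hQover, multiplicity_self]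
      rw [Finset.sum_eq_single (⟨Q, hQover⟩ : p.primesOver S)]
      · simp
      · intro P _ hPQ
        rw [multiplicity_eq_zero, Ideal.dvd_iff_le]
        intro hle
        apply hPQ
        haveI := P.2.1
        exact Subtype.ext (hQm.eq_of_le (Ideal.IsPrime.ne_top inferInstance) hle).symm
      · intro h; exact absurd (Finset.mem_univ _) h
    · -- `Q` does not lie over `p`
      have hq : Q.under R ≠ p := by
        intro h
        exact hQover ⟨hQp, ⟨h.symm⟩⟩
      haveI : (Q.under R).IsPrime := Ideal.IsPrime.under R Q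
      haveI : Q.LiesOver (Q.under R) := ⟨rfl⟩
      obtain ⟨s, hs⟩ := exists_relNorm_eq_pow_of_isPrime (R := R) Q (Q.under R)
      have h1 : multiplicity p (relNorm R Q) = 0 := by
        rw [multiplicity_eq_zero, hs]
        intro hdvd
        have h2 := hpprime.dvd_of_dvd_pow hdvd
        rw [Ideal.dvd_iff_le] at h2
        exact hq (IsMaximal.eq_of_le (Ideal.IsMaximal.under R Q) (IsMaximal.ne_top inferInstance) h2 |>.symm ▸ rfl)
      rw [h1]
      symm
      refine Finset.sum_eq_zero fun P _ => ?_
      rw [multiplicity_eq_zero, Ideal.dvd_iff_le]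
      intro hle
      apply hQover
      haveI := P.2.1
      have : Q = P := hQm.eq_of_le (Ideal.IsPrime.ne_top inferInstance) hle
      rw [this]
      exact P.2

end Abstract

section Local

open AlgebraicCurve IntermediateField WithZero Polynomial
open Fermat.Agent.S24.helper204
open scoped IntermediateField.algebraAdjoinAdjoin

variable {K F : Type*} [Field K] [Field F] [Algebra K F]
variable {x : F} [FiniteDimensional K⟮x⟯ F]
  [IsDedekindDomain (integralClosure (Algebra.adjoin K {x}) F)]
  [Module.Finite (Algebra.adjoin K {x}) (integralClosure (Algebra.adjoin K {x}) F)]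

/-- The place of `F` attached to a prime of the integral closure of `K[x]` lying over `(x - c)`. -/
noncomputable def placeOf (hx : Transcendental K x) (c : K)
    (P : (pc K x c).primesOver (integralClosure (Algebra.adjoin K {x}) F)) : Place K F :=
  Place.ofHeightOneSpectrum (K := K) (F := F)
    (⟨P.1, P.2.1, Ideal.ne_bot_of_mem_primesOver (pc_ne_bot hx c) P.2⟩ :
      HeightOneSpectrum (integralClosure (Algebra.adjoin K {x}) F))

theorem placeOf_injective (hx : Transcendental K x) (c : K) :
    Function.Injective (placeOf (F := F) hx c) := by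
  intro P Q h
  have h' := ofHeightOneSpectrum_injective (K := K) (F := F) h
  exact Subtype.ext (congrArg HeightOneSpectrum.asIdeal h')

/-- The order of an integral element at the place of a prime is its multiplicity. -/
theorem ord_placeOf (hx : Transcendental K x) (c : K)
    (P : (pc K x c).primesOver (integralClosure (Algebra.adjoin K {x}) F))
    (a : integralClosure (Algebra.adjoin K {x}) F) (ha : a ≠ 0) :
    (placeOf hx c P).ord (a : F) = (multiplicity P.1 (Ideal.span {a}) : ℤ) := by
  rw [placeOf, ord_ofHeightOneSpectrum]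
  have h1 : (a : F) = algebraMap (integralClosure (Algebra.adjoin K {x}) F) F a := rfl
  rw [h1, HeightOneSpectrum.valuation_of_algebraMap,
    HeightOneSpectrum.intValuation_eq_exp_neg_multiplicity _ ha, log_exp, neg_neg]

/-- Dictionary: the zeros of `x - c` are the places of the primes over `(x - c)`. -/
theorem ord_pos_iff_exists_placeOf (hx : Transcendental K x) (c : K) (v : Place K F) :
    0 < v.ord (x - algebraMap K F c) ↔ ∃ P, placeOf hx c P = v := by
  constructor
  · intro hv
    have hxc : x - algebraMap K F c ∈ v.toValuationSubring := mem_of_ord_nonneg v hv.le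
    have hxv : x ∈ v.toValuationSubring := by
      have := add_mem hxc (v.algebraMap_mem' c)
      simpa using this
    let φ : integralClosure (Algebra.adjoin K {x}) F →+* v.toValuationSubring :=
      { toFun := fun b => ⟨b, integralClosure_le_of_mem v hxv b⟩
        map_one' := rfl
        map_mul' := fun _ _ => rfl
        map_zero' := rfl
        map_add' := fun _ _ => rfl }
    let P : Ideal (integralClosure (Algebra.adjoin K {x}) F) :=
      Ideal.comap φ (IsLocalRing.maximalIdeal v.toValuationSubring)
    have hPprime : P.IsPrime := Ideal.comap_isPrime φ _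
    let xc : integralClosure (Algebra.adjoin K {x}) F :=
      algebraMap (Algebra.adjoin K {x}) _ (gen K x - algebraMap K _ c)
    have hxc_coe : (xc : F) = x - algebraMap K F c := rfl
    have hxc_mem : xc ∈ P := by
      show φ xc ∈ IsLocalRing.maximalIdeal v.toValuationSubring
      rw [IsLocalRing.mem_maximalIdeal, mem_nonunits_iff]
      intro hu
      have h0 := v.ord_coe_unit hu.unit
      rw [IsUnit.unit_spec] at h0
      have : ((φ xc : v.toValuationSubring) : F) = x - algebraMap K F c := rfl
      rw [this] at h0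
      omega
    have hover : P.LiesOver (pc K x c) := by
      constructor
      have hmax := pc_isMaximal hx c
      have hle : pc K x c ≤ P.under (Algebra.adjoin K {x}) := by
        rw [pc, Ideal.span_le, Set.singleton_subset_iff]
        exact hxc_mem
      have hne : P.under (Algebra.adjoin K {x}) ≠ ⊤ := by
        have : (P.under (Algebra.adjoin K {x})).IsPrime := Ideal.IsPrime.under _ _
        exact this.ne_top
      exact hmax.eq_of_le hne hle
    refine ⟨⟨P, hPprime, hover⟩, ?_⟩
    rw [placeOf]
    apply ofHeightOneSpectrum_eq_of_le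
    · intro r
      exact integralClosure_le_of_mem v hxv r
    · intro r hr
      have hr' : ¬ (φ r ∈ IsLocalRing.maximalIdeal v.toValuationSubring) := hr
      rw [IsLocalRing.mem_maximalIdeal, mem_nonunits_iff, not_not] at hr'
      obtain ⟨u, hu⟩ := hr'
      have h1 : ((u⁻¹ : v.toValuationSubringˣ) : v.toValuationSubring) * φ r = 1 := by
        rw [← hu]; simp
      have h2 := congrArg (fun z : v.toValuationSubring => (z : F)) h1
      simp only [MulMemClass.coe_mul, OneMemClass.coe_one] at h2
      have h3 : ((φ r : v.toValuationSubring) : F) = algebraMap _ F r := rfl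
      rw [h3] at h2
      have h4 : (algebraMap (integralClosure (Algebra.adjoin K {x}) F) F r)⁻¹
          = ((u⁻¹ : v.toValuationSubringˣ) : v.toValuationSubring) :=
        (eq_inv_of_mul_eq_one_left h2).symm
      rw [h4]
      exact SetLike.coe_mem _
  · rintro ⟨P, rfl⟩
    haveI := P.2.2
    let xc : integralClosure (Algebra.adjoin K {x}) F :=
      algebraMap (Algebra.adjoin K {x}) _ (gen K x - algebraMap K _ c)
    have hxc_coe : (xc : F) = x - algebraMap K F c := rfl
    have hxc_ne : xc ≠ 0 := by
      intro h0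
      have := congrArg (fun b : integralClosure (Algebra.adjoin K {x}) F => (b : F)) h0
      simp only [hxc_coe, ZeroMemClass.coe_zero] at this
      exact sub_ne_zero_of_transcendental hx c this
    have hxc_mem : xc ∈ P.1 := by
      have h1 : gen K x - algebraMap K _ c ∈ pc K x c := Ideal.subset_span rfl
      rw [Ideal.over_def P.1 (pc K x c)] at h1
      exact h1
    rw [← hxc_coe, ord_placeOf hx c P xc hxc_ne]
    have : multiplicity P.1 (Ideal.span {xc}) ≠ 0 := by
      rw [Ne, multiplicity_eq_zero, not_not, Ideal.dvd_iff_le, Ideal.span_le,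
        Set.singleton_subset_iff]
      exact hxc_mem
    omega

omit [FiniteDimensional K⟮x⟯ F]
  [IsDedekindDomain (integralClosure (Algebra.adjoin K {x}) F)]
  [Module.Finite (Algebra.adjoin K {x}) (integralClosure (Algebra.adjoin K {x}) F)] in
theorem inertiaDeg_eq_one' [IsAlgClosed K] (hx : Transcendental K x) (c : K) :
    ∀ P ∈ (pc K x c).primesOver (integralClosure (Algebra.adjoin K {x}) F),
      P.inertiaDeg (Algebra.adjoin K {x}) = 1 := by
  intro P hP
  haveI := pc_isMaximal hx c
  haveI := hP.1
  haveI := hP.2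
  haveI : P.IsMaximal := Ideal.IsMaximal.of_liesOver_isMaximal P (pc K x c)
  rw [← Ideal.inertiaDeg'_eq_inertiaDeg (pc K x c) P]
  exact inertiaDeg_eq_one hx c P

/-- The zeros of `x - c` are finitely many. -/
theorem finite_zeros (hx : Transcendental K x) (c : K) :
    {v : Place K F | 0 < v.ord (x - algebraMap K F c)}.Finite := by
  haveI := pc_isMaximal hx c
  have : {v : Place K F | 0 < v.ord (x - algebraMap K F c)} = Set.range (placeOf hx c) := by
    ext v
    exact ord_pos_iff_exists_placeOf hx c v
  rw [this]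
  exact Set.finite_range _

/-- Local norm formula: the orders of an integral element `a` at the zeros of `x - c` add up to
the multiplicity of `(x - c)` in the norm of `a`. -/
theorem sum_zeros_ord [IsAlgClosed K] (hx : Transcendental K x) (c : K)
    (a : integralClosure (Algebra.adjoin K {x}) F) (ha : a ≠ 0) :
    ∑ v ∈ (finite_zeros hx c).toFinset, v.ord (a : F)
      = (multiplicity (pc K x c) (Ideal.span {Algebra.intNorm (Algebra.adjoin K {x})
          (integralClosure (Algebra.adjoin K {x}) F) a}) : ℤ) := by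
  classical
  haveI := pc_isMaximal hx c
  have hset : (finite_zeros hx c).toFinset = Finset.univ.image (placeOf hx c) := by
    ext v
    rw [Set.Finite.mem_toFinset, Set.mem_ofPred_eq, ord_pos_iff_exists_placeOf hx c v,
      Finset.mem_image]
    constructor
    · rintro ⟨P, rfl⟩
      exact ⟨P, Finset.mem_univ _, rfl⟩
    · rintro ⟨P, -, rfl⟩
      exact ⟨P, rfl⟩
  rw [hset, Finset.sum_image (fun P _ Q _ h => placeOf_injective hx c h)]
  rw [Finset.sum_congr rfl (fun P _ => ord_placeOf hx c P a ha), ← Nat.cast_sum]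
  congr 1
  rw [← Ideal.relNorm_singleton, multiplicity_relNorm (pc K x c) (pc_ne_bot hx c)
    (inertiaDeg_eq_one' hx c) _ (by simpa using ha)]

omit [FiniteDimensional K⟮x⟯ F]
  [IsDedekindDomain (integralClosure (Algebra.adjoin K {x}) F)]
  [Module.Finite (Algebra.adjoin K {x}) (integralClosure (Algebra.adjoin K {x}) F)] in
theorem aeval_gen_injective (hx : Transcendental K x) :
    Function.Injective (Polynomial.aeval (R := K) (gen K x)) := by
  intro p q h
  have h' := congrArg (fun a : Algebra.adjoin K {x} => (a : F)) h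
  simp only [Polynomial.aeval_subalgebra_coe, coe_gen] at h'
  exact transcendental_iff_injective.mp hx h'

omit [FiniteDimensional K⟮x⟯ F]
  [IsDedekindDomain (integralClosure (Algebra.adjoin K {x}) F)]
  [Module.Finite (Algebra.adjoin K {x}) (integralClosure (Algebra.adjoin K {x}) F)] in
/-- The multiplicity of `(x - c)` in the ideal generated by `q(x)` is the root multiplicity. -/
theorem multiplicity_pc_span_aeval (hx : Transcendental K x) (c : K) (q : K[X]) (hq : q ≠ 0) :
    multiplicity (pc K x c) (Ideal.span {Polynomial.aeval (gen K x) q}) = q.rootMultiplicity c := by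
  haveI := pc_isMaximal hx c
  have hprime : Prime (pc K x c) := Ideal.prime_of_isPrime (pc_ne_bot hx c) inferInstance
  obtain ⟨q1, hq1, hnd⟩ := Polynomial.exists_eq_pow_rootMultiplicity_mul_and_not_dvd q hq c
  have hq10 : q1 ≠ 0 := by
    rintro rfl
    rw [mul_zero] at hq1
    exact hq hq1
  have hXc : Polynomial.aeval (gen K x) (X - C c) = gen K x - algebraMap K _ c := by
    simp [Polynomial.aeval_C]
  have h1 : Ideal.span {Polynomial.aeval (gen K x) q}
      = pc K x c ^ q.rootMultiplicity c * Ideal.span {Polynomial.aeval (gen K x) q1} := by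
    conv_lhs => rw [hq1]
    rw [map_mul, map_pow, ← Ideal.span_singleton_mul_span_singleton, ← Ideal.span_singleton_pow,
      pc, hXc]
  have h2 : ¬ pc K x c ∣ Ideal.span {Polynomial.aeval (gen K x) q1} := by
    rw [Ideal.dvd_iff_le, Ideal.span_le, Set.singleton_subset_iff, SetLike.mem_coe, pc,
      Ideal.mem_span_singleton]
    rintro ⟨r, hr⟩
    obtain ⟨q2, rfl⟩ := aeval_gen_surjective K x r
    apply hnd
    refine ⟨q2, aeval_gen_injective hx ?_⟩
    rw [hr, map_mul, hXc]
  have hne : pc K x c ^ q.rootMultiplicity c * Ideal.span {Polynomial.aeval (gen K x) q1} ≠ 0 := by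
    apply mul_ne_zero (pow_ne_zero _ (pc_ne_bot hx c))
    rw [Ne, Ideal.zero_eq_bot, Ideal.span_singleton_eq_bot]
    intro h0
    exact hq10 (aeval_gen_injective hx (h0.trans (map_zero _).symm))
  rw [h1, multiplicity_mul hprime (FiniteMultiplicity.of_prime_left hprime hne),
    multiplicity_pow_self_of_prime hprime, multiplicity_eq_zero.mpr h2, add_zero]

omit [Algebra K F] in
theorem sum_rootMultiplicity [IsAlgClosed K] [DecidableEq K] (q : K[X]) :
    ∑ c ∈ q.roots.toFinset, q.rootMultiplicity c = q.natDegree := by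
  rw [(IsAlgClosed.splits q).natDegree_eq_card_roots, ← Multiset.toFinset_sum_count_eq]
  exact Finset.sum_congr rfl fun c _ => (Polynomial.count_roots q).symm

theorem deg_placeOf [IsAlgClosed K] (hx : Transcendental K x) (c : K)
    (P : (pc K x c).primesOver (integralClosure (Algebra.adjoin K {x}) F)) :
    (placeOf hx c P).deg = 1 := by
  haveI := P.2.1
  haveI := P.2.2
  exact deg_ofHeightOneSpectrum_eq_one _ (algebraMap_quotient_surjective c P.1)

omit [Module.Finite (Algebra.adjoin K {x}) (integralClosure (Algebra.adjoin K {x}) F)] in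
/-- The integral norm is the field norm. -/
theorem coe_intNorm (a : integralClosure (Algebra.adjoin K {x}) F) :
    ((Algebra.intNorm (Algebra.adjoin K {x}) (integralClosure (Algebra.adjoin K {x}) F) a
        : Algebra.adjoin K {x}) : F)
      = algebraMap K⟮x⟯ F (Algebra.norm K⟮x⟯ (a : F)) := by
  have h := Algebra.algebraMap_intNorm (A := Algebra.adjoin K {x}) (K := K⟮x⟯) (L := F)
    (B := integralClosure (Algebra.adjoin K {x}) F) a
  exact congrArg (algebraMap K⟮x⟯ F) h

end Local

section Global

open AlgebraicCurve IntermediateField WithZero Polynomial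
open Fermat.Agent.S24.helper204
open scoped IntermediateField.algebraAdjoinAdjoin

variable {K F : Type*} [Field K] [Field F] [Algebra K F] [IsAlgClosed K]

omit [IsAlgClosed K] in
theorem norm_transport {E₁ E₂ : IntermediateField K F} (h : E₁ = E₂) (f : F) :
    algebraMap E₁ F (Algebra.norm E₁ f) = algebraMap E₂ F (Algebra.norm E₂ f) := by
  subst h
  rfl

variable {x : F} [FiniteDimensional K⟮x⟯ F]
  [IsDedekindDomain (integralClosure (Algebra.adjoin K {x}) F)]
  [Module.Finite (Algebra.adjoin K {x}) (integralClosure (Algebra.adjoin K {x}) F)]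
  [FiniteDimensional K⟮x⁻¹⟯ F]
  [IsDedekindDomain (integralClosure (Algebra.adjoin K {x⁻¹}) F)]
  [Module.Finite (Algebra.adjoin K {x⁻¹}) (integralClosure (Algebra.adjoin K {x⁻¹}) F)]

omit [IsAlgClosed K] [FiniteDimensional K⟮x⟯ F]
  [IsDedekindDomain (integralClosure (Algebra.adjoin K {x}) F)]
  [Module.Finite (Algebra.adjoin K {x}) (integralClosure (Algebra.adjoin K {x}) F)] in
theorem mem_zeros_inv (hx : Transcendental K x) (v : Place K F) :
    v ∈ (finite_zeros (x := x⁻¹) (transcendental_inv hx) (0 : K)).toFinset ↔ v.ord x < 0 := by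
  rw [Set.Finite.mem_toFinset, Set.mem_ofPred_eq, map_zero, sub_zero, v.ord_inv]
  omega

/-- Every place has degree one. -/
theorem place_deg_eq_one (hx : Transcendental K x) (v : Place K F) : v.deg = 1 := by
  rcases place_center x hx v with hneg | ⟨c, hc, -⟩
  · have h : 0 < v.ord (x⁻¹ - algebraMap K F 0) := by
      rw [map_zero, sub_zero, v.ord_inv]
      omega
    obtain ⟨P, rfl⟩ := (ord_pos_iff_exists_placeOf (transcendental_inv hx) 0 v).mp h
    exact deg_placeOf _ _ P
  · obtain ⟨P, rfl⟩ := (ord_pos_iff_exists_placeOf hx c v).mp hc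
    exact deg_placeOf hx c P

/-- The orders of an integral element at the poles of `x` add up to minus the degree of its
norm. -/
theorem sum_poles_ord (hx : Transcendental K x)
    (a : integralClosure (Algebra.adjoin K {x}) F) (ha : a ≠ 0) (q : K[X])
    (hq : Algebra.intNorm (Algebra.adjoin K {x}) (integralClosure (Algebra.adjoin K {x}) F) a
      = Polynomial.aeval (gen K x) q) :
    ∑ v ∈ (finite_zeros (x := x⁻¹) (transcendental_inv hx) (0 : K)).toFinset, v.ord (a : F)
      = -(q.natDegree : ℤ) := by
  classical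
  have hx' : Transcendental K x⁻¹ := transcendental_inv hx
  have hx0 : x ≠ 0 := by
    rintro rfl
    exact hx isAlgebraic_zero
  have haF : (a : F) ≠ 0 := by
    intro h
    exact ha (Subtype.ext h)
  have hq0 : q ≠ 0 := by
    rintro rfl
    rw [map_zero, Algebra.intNorm_eq_zero] at hq
    exact ha hq
  obtain ⟨a2, b2, hb2, hab⟩ := IsFractionRing.div_surjective
    (A := integralClosure (Algebra.adjoin K {x⁻¹}) F) (a : F)
  have hb20 : b2 ≠ 0 := nonZeroDivisors.ne_zero hb2
  have hb2F : (b2 : F) ≠ 0 := by
    intro h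
    exact hb20 (Subtype.ext h)
  have ha2F : (a2 : F) = (a : F) * (b2 : F) := by
    rw [← hab]
    have : algebraMap (integralClosure (Algebra.adjoin K {x⁻¹}) F) F b2 = (b2 : F) := rfl
    rw [this, div_mul_cancel₀ _ hb2F]
    rfl
  have ha20 : a2 ≠ 0 := by
    rintro rfl
    have : (a : F) * (b2 : F) = 0 := ha2F.symm
    exact mul_ne_zero haF hb2F this
  have hord : ∀ v : Place K F, v.ord (a : F) = v.ord (a2 : F) - v.ord (b2 : F) := by
    intro v
    rw [ha2F, v.ord_mul haF hb2F]
    ring
  rw [Finset.sum_congr rfl (fun v _ => hord v), Finset.sum_sub_distrib,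
    sum_zeros_ord hx' 0 a2 ha20, sum_zeros_ord hx' 0 b2 hb20]
  obtain ⟨qa, hqa⟩ := aeval_gen_surjective K x⁻¹
    (Algebra.intNorm (Algebra.adjoin K {x⁻¹}) (integralClosure (Algebra.adjoin K {x⁻¹}) F) a2)
  obtain ⟨qb, hqb⟩ := aeval_gen_surjective K x⁻¹
    (Algebra.intNorm (Algebra.adjoin K {x⁻¹}) (integralClosure (Algebra.adjoin K {x⁻¹}) F) b2)
  have hqa0 : qa ≠ 0 := by
    rintro rfl
    rw [map_zero] at hqa
    exact ha20 (Algebra.intNorm_eq_zero.mp hqa.symm)
  have hqb0 : qb ≠ 0 := by
    rintro rfl
    rw [map_zero] at hqb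
    exact hb20 (Algebra.intNorm_eq_zero.mp hqb.symm)
  rw [← hqa, ← hqb, multiplicity_pc_span_aeval hx' 0 qa hqa0,
    multiplicity_pc_span_aeval hx' 0 qb hqb0]
  -- the polynomial identity `X ^ d * qa = reverse q * qb`
  have h1 : Polynomial.aeval x⁻¹ qa = algebraMap K⟮x⟯ F (Algebra.norm K⟮x⟯ (a2 : F)) := by
    rw [← norm_transport (adjoin_inv_eq x) (a2 : F), ← coe_intNorm a2, ← hqa,
      Polynomial.aeval_subalgebra_coe, coe_gen]
  have h2 : Polynomial.aeval x⁻¹ qb = algebraMap K⟮x⟯ F (Algebra.norm K⟮x⟯ (b2 : F)) := by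
    rw [← norm_transport (adjoin_inv_eq x) (b2 : F), ← coe_intNorm b2, ← hqb,
      Polynomial.aeval_subalgebra_coe, coe_gen]
  have h3 : Polynomial.aeval x q = algebraMap K⟮x⟯ F (Algebra.norm K⟮x⟯ (a : F)) := by
    rw [← coe_intNorm a, hq, Polynomial.aeval_subalgebra_coe, coe_gen]
  have h4 : Polynomial.aeval x⁻¹ q.reverse * x ^ q.natDegree = Polynomial.aeval x q := by
    letI : Invertible x := invertibleOfNonzero hx0
    have := Polynomial.eval₂_reverse_mul_pow (algebraMap K F) x q
    rw [invOf_eq_inv] at this
    exact this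
  have key : X ^ q.natDegree * qa = q.reverse * qb := by
    apply transcendental_iff_injective.mp hx'
    have hxd : x⁻¹ ^ q.natDegree * x ^ q.natDegree = 1 := by
      rw [← mul_pow, inv_mul_cancel₀ hx0, one_pow]
    rw [map_mul, map_mul, map_pow, Polynomial.aeval_X, h1, h2, ha2F, map_mul, map_mul, ← h3, ← h4]
    linear_combination (Polynomial.aeval x⁻¹ q.reverse *
      algebraMap K⟮x⟯ F (Algebra.norm K⟮x⟯ (b2 : F))) * hxd
  have hrev : ¬ Polynomial.IsRoot q.reverse 0 := by
    rw [Polynomial.IsRoot, ← Polynomial.coeff_zero_eq_eval_zero, Polynomial.coeff_zero_reverse]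
    exact Polynomial.leadingCoeff_ne_zero.mpr hq0
  have hrev0 : q.reverse ≠ 0 := by
    rintro h
    apply hrev
    rw [h]
    simp
  have hXpow : (X : K[X]) ^ q.natDegree = (X - C (0 : K)) ^ q.natDegree := by simp
  have hrm := congrArg (Polynomial.rootMultiplicity (0 : K)) key
  rw [Polynomial.rootMultiplicity_mul (mul_ne_zero (pow_ne_zero _ Polynomial.X_ne_zero) hqa0),
    Polynomial.rootMultiplicity_mul (mul_ne_zero hrev0 hqb0), hXpow,
    Polynomial.rootMultiplicity_X_sub_C_pow, Polynomial.rootMultiplicity_eq_zero hrev] at hrm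
  omega

/-- An integral element has a divisor, of degree zero. -/
theorem exists_divisor_integral (hx : Transcendental K x)
    (a : integralClosure (Algebra.adjoin K {x}) F) (ha : a ≠ 0) :
    ∃ D : Divisor K F, (∀ v : Place K F, D v = v.ord (a : F)) ∧ Divisor.degree D = 0 := by
  classical
  have hx' : Transcendental K x⁻¹ := transcendental_inv hx
  obtain ⟨q, hq⟩ := aeval_gen_surjective K x
    (Algebra.intNorm (Algebra.adjoin K {x}) (integralClosure (Algebra.adjoin K {x}) F) a)
  have hq0 : q ≠ 0 := by
    rintro rfl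
    rw [map_zero] at hq
    exact ha (Algebra.intNorm_eq_zero.mp hq.symm)
  set Z : K → Finset (Place K F) := fun c => (finite_zeros hx c).toFinset with hZ
  set Zinf : Finset (Place K F) := (finite_zeros hx' (0 : K)).toFinset with hZinf
  have hmemZ : ∀ c v, v ∈ Z c ↔ 0 < v.ord (x - algebraMap K F c) := fun c v => by
    rw [hZ, Set.Finite.mem_toFinset, Set.mem_ofPred_eq]
  have hmemZinf : ∀ v, v ∈ Zinf ↔ v.ord x < 0 := fun v => mem_zeros_inv hx v
  have hfin : ∀ c, ∑ v ∈ Z c, v.ord (a : F) = (q.rootMultiplicity c : ℤ) := fun c => by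
    rw [hZ, sum_zeros_ord hx c a ha, ← hq, multiplicity_pc_span_aeval hx c q hq0]
  have hinf : ∑ v ∈ Zinf, v.ord (a : F) = -(q.natDegree : ℤ) := sum_poles_ord hx a ha q hq.symm
  have hxmem : ∀ c, ∀ v ∈ Z c, x ∈ v.toValuationSubring := by
    intro c v hv
    have h1 : x - algebraMap K F c ∈ v.toValuationSubring :=
      mem_of_ord_nonneg v ((hmemZ c v).mp hv).le
    have := add_mem h1 (v.algebraMap_mem' c)
    simpa using this
  have hnonneg : ∀ c, ∀ v ∈ Z c, 0 ≤ v.ord (a : F) := fun c v hv =>
    ord_nonneg_of_mem v (integralClosure_le_of_mem v (hxmem c v hv) a)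
  set T : Finset (Place K F) := (q.roots.toFinset.biUnion Z) ∪ Zinf with hT
  have hsupp : ∀ v : Place K F, v.ord (a : F) ≠ 0 → v ∈ T := by
    intro v hv
    rcases place_center x hx v with hneg | ⟨c, hc, -⟩
    · exact Finset.mem_union_right _ ((hmemZinf v).mpr hneg)
    · apply Finset.mem_union_left
      rw [Finset.mem_biUnion]
      have hvZ : v ∈ Z c := (hmemZ c v).mpr hc
      refine ⟨c, ?_, hvZ⟩
      have hpos : 0 < v.ord (a : F) := lt_of_le_of_ne (hnonneg c v hvZ) (Ne.symm hv)
      have hle : v.ord (a : F) ≤ ∑ w ∈ Z c, w.ord (a : F) :=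
        Finset.single_le_sum (fun w hw => hnonneg c w hw) hvZ
      rw [hfin c] at hle
      have hrm : 0 < q.rootMultiplicity c := by exact_mod_cast lt_of_lt_of_le hpos hle
      rw [Multiset.mem_toFinset, Polynomial.mem_roots hq0]
      exact (Polynomial.rootMultiplicity_pos hq0).mp hrm
  refine ⟨Finsupp.onFinset T (fun v => v.ord (a : F)) hsupp, fun v => rfl, ?_⟩
  have hdeg : ∀ v : Place K F, v.deg = 1 := place_deg_eq_one hx
  have hdisj1 : Disjoint (q.roots.toFinset.biUnion Z) Zinf := by
    rw [Finset.disjoint_left]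
    intro v hv hv'
    rw [Finset.mem_biUnion] at hv
    obtain ⟨c, -, hvc⟩ := hv
    have h1 := ord_nonneg_of_mem v (hxmem c v hvc)
    have h2 := (hmemZinf v).mp hv'
    omega
  have hdisj2 : ∀ c ∈ q.roots.toFinset, ∀ c' ∈ q.roots.toFinset, c ≠ c' →
      Disjoint (Z c) (Z c') := by
    intro c _ c' _ hcc'
    rw [Finset.disjoint_left]
    intro v hv hv'
    rcases place_center x hx v with hneg | ⟨c₀, -, huniq⟩
    · have h1 := ord_nonneg_of_mem v (hxmem c v hv)
      omega
    · exact hcc' ((huniq c ((hmemZ c v).mp hv)).trans (huniq c' ((hmemZ c' v).mp hv')).symm)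
  rw [Divisor.degree, Finsupp.liftAddHom_apply, Finsupp.onFinset_sum]
  · simp only [AddMonoidHom.coe_mulRight, hdeg, Nat.cast_one, mul_one]
    rw [Finset.sum_union hdisj1, Finset.sum_biUnion hdisj2, hinf,
      Finset.sum_congr rfl (fun c _ => hfin c), ← Nat.cast_sum, sum_rootMultiplicity]
    ring
  · intro v
    simp

/-- Principal divisors exist and have degree zero (hypothesis-passing form). -/
theorem hasPrincipalDivisors_aux (hx : Transcendental K x) : HasPrincipalDivisors K F := by
  refine ⟨fun f hf => ?_⟩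
  obtain ⟨a, b, hb, hab⟩ := IsFractionRing.div_surjective
    (A := integralClosure (Algebra.adjoin K {x}) F) f
  have hb0 : b ≠ 0 := nonZeroDivisors.ne_zero hb
  have hbF : (b : F) ≠ 0 := fun h => hb0 (Subtype.ext h)
  have hfab : f = (a : F) / (b : F) := hab.symm
  have ha0 : a ≠ 0 := by
    rintro rfl
    apply hf
    rw [hfab]
    simp
  have haF : (a : F) ≠ 0 := fun h => ha0 (Subtype.ext h)
  obtain ⟨Da, hDa, hdega⟩ := exists_divisor_integral hx a ha0
  obtain ⟨Db, hDb, hdegb⟩ := exists_divisor_integral hx b hb0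
  refine ⟨Da - Db, fun v => ?_, ?_⟩
  · rw [Finsupp.sub_apply, hDa, hDb, hfab, div_eq_mul_inv,
      v.ord_mul haF (inv_ne_zero hbF), v.ord_inv]
    ring
  · rw [map_sub, hdega, hdegb, sub_zero]

end Global

section Main

open AlgebraicCurve IntermediateField
open Fermat.Agent.S24.helper204
open scoped IntermediateField.algebraAdjoinAdjoin

variable {K F : Type*} [Field K] [Field F] [Algebra K F] [IsAlgClosed K]

/-- **Principal divisors have degree zero in any characteristic**: `K` algebraically closed,
`x : F` transcendental over `K` with `F` finite and separable over `K(x)`. -/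
theorem hasPrincipalDivisors_of_isSeparable (x : F) (hx : Transcendental K x)
    [FiniteDimensional K⟮x⟯ F] [Algebra.IsSeparable K⟮x⟯ F] : HasPrincipalDivisors K F := by
  haveI : IsDedekindDomain (integralClosure (Algebra.adjoin K {x}) F) :=
    integralClosure.isDedekindDomain (Algebra.adjoin K {x}) K⟮x⟯ F
  haveI : Module.Finite (Algebra.adjoin K {x}) (integralClosure (Algebra.adjoin K {x}) F) :=
    IsIntegralClosure.finite (Algebra.adjoin K {x}) K⟮x⟯ F _
  haveI : FiniteDimensional K⟮x⁻¹⟯ F := finiteDimensional_adjoin_inv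
  haveI : Algebra.IsSeparable K⟮x⁻¹⟯ F := by
    rw [adjoin_inv_eq]
    infer_instance
  haveI : IsDedekindDomain (integralClosure (Algebra.adjoin K {x⁻¹}) F) :=
    integralClosure.isDedekindDomain (Algebra.adjoin K {x⁻¹}) K⟮x⁻¹⟯ F
  haveI : Module.Finite (Algebra.adjoin K {x⁻¹}) (integralClosure (Algebra.adjoin K {x⁻¹}) F) :=
    IsIntegralClosure.finite (Algebra.adjoin K {x⁻¹}) K⟮x⁻¹⟯ F _
  exact hasPrincipalDivisors_aux hx

/-- Every place has degree one (any characteristic, one separating element). -/
theorem place_deg_eq_one_of_isSeparable (x : F) (hx : Transcendental K x)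
    [FiniteDimensional K⟮x⟯ F] [Algebra.IsSeparable K⟮x⟯ F] (v : Place K F) : v.deg = 1 := by
  haveI : IsDedekindDomain (integralClosure (Algebra.adjoin K {x}) F) :=
    integralClosure.isDedekindDomain (Algebra.adjoin K {x}) K⟮x⟯ F
  haveI : Module.Finite (Algebra.adjoin K {x}) (integralClosure (Algebra.adjoin K {x}) F) :=
    IsIntegralClosure.finite (Algebra.adjoin K {x}) K⟮x⟯ F _
  haveI : FiniteDimensional K⟮x⁻¹⟯ F := finiteDimensional_adjoin_inv
  haveI : Algebra.IsSeparable K⟮x⁻¹⟯ F := by
    rw [adjoin_inv_eq]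
    infer_instance
  haveI : IsDedekindDomain (integralClosure (Algebra.adjoin K {x⁻¹}) F) :=
    integralClosure.isDedekindDomain (Algebra.adjoin K {x⁻¹}) K⟮x⁻¹⟯ F
  haveI : Module.Finite (Algebra.adjoin K {x⁻¹}) (integralClosure (Algebra.adjoin K {x⁻¹}) F) :=
    IsIntegralClosure.finite (Algebra.adjoin K {x⁻¹}) K⟮x⁻¹⟯ F _
  exact place_deg_eq_one hx v

end Main

end Fermat.Agent.S18.helper6458
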