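import Mathlib
import Fermat.Prelude.Def_AlgebraicCurve_Repartitions

/-!
# S18 (shared S18/S37/S29): places of a function field in ANY characteristic, no separability

`K` algebraically closed, `F/K` a field extension which is finite over `K(x)` for ONE
transcendental `x` (any characteristic; `x` need not be separating).  Everything is done
directly on the Prelude type `AlgebraicCurve.Place` (Stichtenoth, *Algebraic function fields
and codes*, 1.1-1.4): no integral closures, no Dedekind domains, no norms.
-/

set_option autoImplicit false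

namespace Fermat.Agent.S18.helper7885

open AlgebraicCurve IntermediateField WithZero Polynomial

variable {K F : Type*} [Field K] [Field F] [Algebra K F]

section Exchange

open scoped IntermediateField.algebraAdjoinAdjoin

/-- Exchange (char-free; proof as in S24/helper204): if `F` is finite over `K(x)` and `f` is
transcendental, `F` is finite over `K(f)`. -/
theorem finiteDimensional_adjoin_of_transcendental (x : F) [FiniteDimensional K⟮x⟯ F]
    {f : F} (hf : Transcendental K f) : FiniteDimensional K⟮f⟯ F := by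
  have : Algebra.IsAlgebraic (Algebra.adjoin K {x}) F :=
    Algebra.IsAlgebraic.trans (Algebra.adjoin K {x}) K⟮x⟯ F
  have h1 : Algebra.trdeg K F ≤ 1 := by
    have := Algebra.IsAlgebraic.trdeg_le_cardinalMk K ({x} : Set F)
    rwa [Cardinal.mk_singleton] at this
  have : Algebra.Transcendental K K⟮f⟯ := by
    refine ⟨⟨AdjoinSimple.gen K f, ?_⟩⟩
    rw [← transcendental_algebraMap_iff (FaithfulSMul.algebraMap_injective K⟮f⟯ F)]
    exact hf
  have h2 : 0 < Algebra.trdeg K K⟮f⟯ := trdeg_pos K K⟮f⟯
  have h3 := trdeg_add_eq K K⟮f⟯ (A := F)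
  have h4 : Algebra.trdeg K⟮f⟯ F = 0 := by
    by_contra hne
    have h5 : 1 ≤ Algebra.trdeg K⟮f⟯ F := Cardinal.one_le_iff_ne_zero.mpr hne
    have h6 : 1 ≤ Algebra.trdeg K K⟮f⟯ := Cardinal.one_le_iff_pos.mpr h2
    have h7 : (1 : Cardinal) + 1 ≤ 1 := by
      calc (1 : Cardinal) + 1 ≤ Algebra.trdeg K K⟮f⟯ + Algebra.trdeg K⟮f⟯ F := add_le_add h6 h5
        _ = Algebra.trdeg K F := h3
        _ ≤ 1 := h1
    rw [one_add_one_eq_two] at h7
    exact absurd h7 (not_le.mpr Cardinal.one_lt_two)
  have : Algebra.IsAlgebraic K⟮f⟯ F := trdeg_eq_zero_iff.mp h4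
  have : Algebra.EssFiniteType K K⟮x⟯ := by
    rw [IntermediateField.essFiniteType_iff]
    have := IntermediateField.fg_adjoin_finset (F := K) ({x} : Finset F)
    simpa using this
  have : Algebra.EssFiniteType K F := Algebra.EssFiniteType.comp K K⟮x⟯ F
  have : Algebra.EssFiniteType K⟮f⟯ F := Algebra.EssFiniteType.of_comp K K⟮f⟯ F
  exact Algebra.finite_of_essFiniteType_of_isAlgebraic

theorem transcendental_of_not_mem_range [IsAlgClosed K] {f : F}
    (hf : f ∉ Set.range (algebraMap K F)) : Transcendental K f := by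
  intro halg
  apply hf
  have : Algebra.IsAlgebraic K K⟮f⟯ := isAlgebraic_adjoin_simple halg.isIntegral
  have hbot := IntermediateField.eq_bot_of_isAlgClosed_of_isAlgebraic K⟮f⟯
  have hmem : f ∈ K⟮f⟯ := mem_adjoin_simple_self K f
  rw [hbot, IntermediateField.mem_bot] at hmem
  exact hmem

theorem not_mem_range_of_transcendental {f : F} (hf : Transcendental K f) :
    f ∉ Set.range (algebraMap K F) := by
  rintro ⟨c, rfl⟩
  exact hf (isAlgebraic_algebraMap c)

end Exchange

/-! ### Valuations that are trivial on `K` -/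

section TrivialOnK

variable {Γ : Type*} [LinearOrderedCommGroupWithZero Γ]

/-- `w` is trivial on the constants. -/
def TrivOn (K : Type*) {F : Type*} [Field K] [Field F] [Algebra K F]
    {Γ : Type*} [LinearOrderedCommGroupWithZero Γ] (w : Valuation F Γ) : Prop :=
  ∀ c : K, c ≠ 0 → w (algebraMap K F c) = 1

variable {w : Valuation F Γ}

theorem TrivOn.le_one (hw : TrivOn K w) (c : K) : w (algebraMap K F c) ≤ 1 := by
  rcases eq_or_ne c 0 with rfl | hc
  · simp
  · exact (hw c hc).le

theorem TrivOn.aeval_le_one (hw : TrivOn K w) {t : F} (ht : w t ≤ 1) (p : K[X]) :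
    w (aeval t p) ≤ 1 := by
  rw [aeval_eq_sum_range]
  refine Valuation.map_sum_le w fun i _ => ?_
  rw [Algebra.smul_def, map_mul, map_pow]
  exact mul_le_one' (hw.le_one _) (pow_le_one' ht i)

theorem TrivOn.aeval_eq_one (hw : TrivOn K w) {t : F} (ht : w t < 1) {p : K[X]}
    (hp : p.coeff 0 ≠ 0) : w (aeval t p) = 1 := by
  have h := congrArg (aeval t) (divX_mul_X_add p)
  rw [map_add, map_mul, aeval_X, aeval_C] at h
  rw [← h]
  have h1 : w (aeval t p.divX * t) < w (algebraMap K F (p.coeff 0)) := by
    rw [hw _ hp, map_mul]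
    calc w (aeval t p.divX) * w t ≤ 1 * w t := by
          gcongr
          exact hw.aeval_le_one ht.le _
      _ = w t := one_mul _
      _ < 1 := ht
  rw [Valuation.map_add_eq_of_lt_right _ h1, hw _ hp]

theorem TrivOn.aeval_eq_pow (hw : TrivOn K w) {t : F} (ht : w t < 1) {p : K[X]}
    (hp : p ≠ 0) : w (aeval t p) = w t ^ p.rootMultiplicity 0 := by
  obtain ⟨q, hq, hndvd⟩ := exists_eq_pow_rootMultiplicity_mul_and_not_dvd p hp 0
  rw [C_0, sub_zero] at hq hndvd
  have hq0 : q.coeff 0 ≠ 0 := fun h => hndvd (X_dvd_iff.mpr h)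
  conv_lhs => rw [hq]
  rw [map_mul, map_pow, aeval_X, map_mul, map_pow, hw.aeval_eq_one ht hq0, mul_one]

theorem sum_ne_zero_of_strict_max {ι : Type*} (w : Valuation F Γ) (s : Finset ι) (g : ι → F)
    {j : ι} (hj : j ∈ s) (hgj : g j ≠ 0) (h : ∀ i ∈ s, i ≠ j → w (g i) < w (g j)) :
    ∑ i ∈ s, g i ≠ 0 := by
  classical
  have h1 : w (∑ i ∈ s, g i) = w (g j) :=
    Valuation.map_sum_eq_of_lt w hj fun i hi => by
      rw [Finset.mem_sdiff, Finset.mem_singleton] at hi
      exact h i hi.1 hi.2
  intro h0
  rw [h0, map_zero] at h1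
  exact hgj ((Valuation.zero_iff w).mp h1.symm)

end TrivialOnK

/-! ### Valuation subrings containing the constants -/

section ValSub

variable (O : ValuationSubring F)

theorem mem_of_isIntegral_of_forall_mem {S : Type*} [CommRing S] [Algebra S F]
    (hS : ∀ s : S, algebraMap S F s ∈ O) {b : F} (hb : IsIntegral S b) : b ∈ O := by
  let _ : Algebra S O := ((algebraMap S F).codRestrict O.toSubring hS).toAlgebra
  have : IsScalarTower S O F := IsScalarTower.of_algebraMap_eq (fun _ => rfl)
  have h : IsIntegral O b := hb.tower_top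
  obtain ⟨y, hy⟩ := IsIntegrallyClosed.isIntegral_iff.mp h
  rw [← hy]
  exact y.2

theorem trivOn_valuation (hK : ∀ c : K, algebraMap K F c ∈ O) : TrivOn K O.valuation := by
  intro c hc
  have h1 : O.valuation (algebraMap K F c) ≤ 1 := (O.valuation_le_one_iff _).mpr (hK c)
  have h2 : O.valuation (algebraMap K F c⁻¹) ≤ 1 := (O.valuation_le_one_iff _).mpr (hK c⁻¹)
  have h3 : O.valuation (algebraMap K F c) * O.valuation (algebraMap K F c⁻¹) = 1 := by
    rw [← map_mul, ← map_mul, mul_inv_cancel₀ hc, map_one, map_one]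
  refine le_antisymm h1 ?_
  calc (1 : O.ValueGroup) = O.valuation (algebraMap K F c) * O.valuation (algebraMap K F c⁻¹) :=
        h3.symm
    _ ≤ O.valuation (algebraMap K F c) * 1 := by gcongr
    _ = _ := mul_one _

variable {Γ : Type*} [LinearOrderedCommGroupWithZero Γ] {w : Valuation F Γ}

theorem TrivOn.aeval_eq_one_of_forall [IsAlgClosed K] (hw : TrivOn K w) {y : F}
    (h : ∀ c : K, w (y - algebraMap K F c) = 1) {p : K[X]} (hp : p ≠ 0) :
    w (aeval y p) = 1 := by
  have hsplit := IsAlgClosed.splits p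
  have hp' := hsplit.eq_prod_roots
  have h1 : aeval y p = algebraMap K F p.leadingCoeff *
      (p.roots.map (fun r => y - algebraMap K F r)).prod := by
    conv_lhs => rw [hp']
    rw [map_mul, aeval_C, map_multiset_prod, Multiset.map_map]
    congr 2
    apply Multiset.map_congr rfl
    intro r _
    simp
  rw [h1, map_mul, hw _ (leadingCoeff_ne_zero.mpr hp), one_mul, map_multiset_prod,
    Multiset.map_map]
  apply Multiset.prod_eq_one
  intro a ha
  obtain ⟨r, -, rfl⟩ := Multiset.mem_map.mp ha
  exact h r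

/-- A valuation subring of `F` containing `K(y)` with `F/K(y)` finite is everything. -/
theorem eq_top_of_adjoin_le (y : F) [FiniteDimensional K⟮y⟯ F]
    (h : ∀ z : K⟮y⟯, (z : F) ∈ O) : O = ⊤ := by
  rw [eq_top_iff]
  intro b _
  exact mem_of_isIntegral_of_forall_mem O (S := K⟮y⟯) h
    (Algebra.IsIntegral.isIntegral (R := K⟮y⟯) b)

/-- Residue classes of a proper valuation subring containing `K` are constants
(Stichtenoth 1.1.15 for algebraically closed `K`). -/
theorem exists_const_sub_mem_nonunits [IsAlgClosed K] (x : F) [FiniteDimensional K⟮x⟯ F]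
    (hK : ∀ c : K, algebraMap K F c ∈ O) (hO : O ≠ ⊤) {y : F} (hy : y ∈ O) :
    ∃ c : K, y - algebraMap K F c ∈ O.nonunits := by
  by_contra hno
  simp only [not_exists] at hno
  have hw := trivOn_valuation O hK
  have h1 : ∀ c : K, O.valuation (y - algebraMap K F c) = 1 := by
    intro c
    have hle : O.valuation (y - algebraMap K F c) ≤ 1 :=
      (O.valuation_le_one_iff _).mpr (sub_mem hy (hK c))
    have hnlt : ¬ O.valuation (y - algebraMap K F c) < 1 := fun h =>
      hno c (O.mem_nonunits_iff.mpr h)
    exact le_antisymm hle (not_lt.mp hnlt)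
  have hyK : y ∉ Set.range (algebraMap K F) := by
    rintro ⟨c, rfl⟩
    have := h1 c
    rw [sub_self, map_zero] at this
    exact zero_ne_one this
  have hyt : Transcendental K y := transcendental_of_not_mem_range hyK
  have : FiniteDimensional K⟮y⟯ F := finiteDimensional_adjoin_of_transcendental x hyt
  apply hO
  apply eq_top_of_adjoin_le (K := K) O y
  intro z
  obtain ⟨r, s, hrs⟩ := (IntermediateField.mem_adjoin_simple_iff K (z : F)).mp z.2
  rw [hrs]
  rcases eq_or_ne s 0 with rfl | hs
  · simp
  · rw [← O.valuation_le_one_iff, map_div₀, hw.aeval_eq_one_of_forall h1 hs, div_one]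
    exact hw.aeval_le_one ((O.valuation_le_one_iff _).mpr hy) r

end ValSub

/-! ### Basics on places -/

section PlaceBasics

variable (v : Place K F)

theorem mem_iff_adicValuation_le_one {f : F} :
    f ∈ v.toValuationSubring ↔ v.adicValuation f ≤ 1 := by
  constructor
  · exact v.adicValuation_le_one_of_mem
  · intro h
    rcases v.adicValuation_le_one_iff.mp h with rfl | h0
    · exact zero_mem _
    · rcases eq_or_ne f 0 with rfl | hf0
      · exact zero_mem _
      obtain ⟨π, hπ⟩ := IsDiscreteValuationRing.exists_irreducible v.toValuationSubring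
      obtain ⟨u, hu⟩ := v.exists_unit_mul_zpow hf0 hπ
      rw [hu]
      refine mul_mem u.1.2 ?_
      obtain ⟨n, hn⟩ := Int.eq_ofNat_of_zero_le h0
      rw [hn, zpow_natCast]
      exact pow_mem π.2 n

theorem adicValuation_trivOn : TrivOn K v.adicValuation := by
  intro c hc
  have h1 := v.adicValuation_algebraMap_le_one c
  have h2 := v.adicValuation_algebraMap_le_one c⁻¹
  have h3 : v.adicValuation (algebraMap K F c) * v.adicValuation (algebraMap K F c⁻¹) = 1 := by
    rw [← map_mul, ← map_mul, mul_inv_cancel₀ hc, map_one, map_one]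
  refine le_antisymm h1 ?_
  calc (1 : ℤᵐ⁰) = v.adicValuation (algebraMap K F c) * v.adicValuation (algebraMap K F c⁻¹) :=
        h3.symm
    _ ≤ v.adicValuation (algebraMap K F c) * 1 := by gcongr
    _ = _ := mul_one _

theorem exists_adicValuation_eq_exp (n : ℤ) : ∃ t : F, v.adicValuation t = exp n := by
  obtain ⟨π, hπ⟩ := IsDiscreteValuationRing.exists_irreducible v.toValuationSubring
  refine ⟨(π : F) ^ (-n), ?_⟩
  rw [map_zpow₀, v.adicValuation_coe_irreducible hπ, ← exp_zsmul]
  simp

theorem lt_exp_iff_le_exp_sub_one (a : ℤᵐ⁰) (n : ℤ) : a < exp n ↔ a ≤ exp (n - 1) := by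
  rcases eq_or_ne a 0 with rfl | ha
  · simp
  · rw [← exp_log ha, exp_lt_exp, exp_le_exp]
    omega

theorem lt_one_iff_le_exp_neg_one (a : ℤᵐ⁰) : a < 1 ↔ a ≤ exp (-1 : ℤ) := by
  rw [← exp_zero, lt_exp_iff_le_exp_sub_one]
  simp

theorem mem_nonunits_iff_adicValuation_lt_one {f : F} :
    f ∈ v.toValuationSubring.nonunits ↔ v.adicValuation f < 1 := by
  rw [ValuationSubring.mem_nonunits_iff_or]
  constructor
  · rintro (rfl | h)
    · simp
    · rw [mem_iff_adicValuation_le_one, map_inv₀] at h
      by_contra hlt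
      apply h
      rw [not_lt] at hlt
      exact inv_le_one_of_one_le₀ hlt
  · intro h
    rcases eq_or_ne f 0 with rfl | hf
    · exact Or.inl rfl
    · right
      rw [mem_iff_adicValuation_le_one, map_inv₀, not_le]
      exact (one_lt_inv₀ (zero_lt_iff.mpr (v.adicValuation_ne_zero hf))).mpr h

theorem ord_eq_iff {f : F} (hf : f ≠ 0) (n : ℤ) :
    v.ord f = n ↔ v.adicValuation f = exp (-n) := by
  rw [v.adicValuation_eq_exp_neg_ord hf, exp_inj, neg_inj]

theorem ord_pos_iff {f : F} (hf : f ≠ 0) : 0 < v.ord f ↔ v.adicValuation f < 1 := by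
  rw [v.adicValuation_eq_exp_neg_ord hf, ← exp_zero, exp_lt_exp]
  omega

theorem ord_neg_iff {f : F} : v.ord f < 0 ↔ 1 < v.adicValuation f := by
  rw [← v.not_adicValuation_le_one_iff, not_le]

/-- Residue classes at a place are constants: the key to `deg = 1`. -/
theorem exists_const_adicValuation_sub_lt_one [IsAlgClosed K] (x : F)
    [FiniteDimensional K⟮x⟯ F] {y : F} (hy : v.adicValuation y ≤ 1) :
    ∃ c : K, v.adicValuation (y - algebraMap K F c) < 1 := by
  obtain ⟨c, hc⟩ := exists_const_sub_mem_nonunits v.toValuationSubring x v.algebraMap_mem'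
    v.ne_top' ((mem_iff_adicValuation_le_one v).mpr hy)
  exact ⟨c, (mem_nonunits_iff_adicValuation_lt_one v).mp hc⟩

/-- (Q1) every place has degree one. -/
theorem place_deg_eq_one [IsAlgClosed K] (x : F) [FiniteDimensional K⟮x⟯ F]
    (v : Place K F) : v.deg = 1 := by
  have hsurj : Function.Surjective (algebraMap K v.ResidueField) := by
    intro ybar
    obtain ⟨y, rfl⟩ := IsLocalRing.residue_surjective ybar
    obtain ⟨c, hc⟩ := exists_const_sub_mem_nonunits v.toValuationSubring x v.algebraMap_mem'
      v.ne_top' y.2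
    refine ⟨c, ?_⟩
    have hmem : y - algebraMap K v.toValuationSubring c ∈
        IsLocalRing.maximalIdeal v.toValuationSubring := by
      rw [ValuationSubring.valuation_lt_one_iff]
      exact v.toValuationSubring.mem_nonunits_iff.mp hc
    have h0 : IsLocalRing.residue v.toValuationSubring
        (y - algebraMap K v.toValuationSubring c) = 0 :=
      (IsLocalRing.residue_eq_zero_iff _).mpr hmem
    rw [map_sub, sub_eq_zero] at h0
    rw [h0]
    rfl
  have hbij : Function.Bijective (Algebra.linearMap K v.ResidueField) :=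
    ⟨(algebraMap K v.ResidueField).injective, hsurj⟩
  show Module.finrank K v.ResidueField = 1
  rw [← (LinearEquiv.ofBijective (Algebra.linearMap K v.ResidueField) hbij).finrank_eq,
    Module.finrank_self]

end PlaceBasics

/-! ### The chain principle (Stichtenoth 1.1.7) and discreteness (1.1.6) -/

section Chain

open scoped IntermediateField.algebraAdjoinAdjoin

variable {Γ : Type*} [LinearOrderedCommGroupWithZero Γ]

theorem pow_mul_lt_of_lt {γ β β' : Γ} (hγ0 : γ ≠ 0) (hγ1 : γ < 1) (hβ : γ ≤ β)
    (hβ'1 : β' < 1) {k k' : ℕ} (hk : k < k') : γ ^ k' * β' < γ ^ k * β := by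
  have hpos : 0 < γ ^ k' := pow_pos (zero_lt_iff.mpr hγ0) k'
  calc γ ^ k' * β' < γ ^ k' * 1 := by gcongr
    _ = γ ^ k' := mul_one _
    _ ≤ γ ^ (k + 1) := pow_le_pow_right_of_le_one' hγ1.le hk
    _ = γ ^ k * γ := pow_succ _ _
    _ ≤ γ ^ k * β := by gcongr

theorem pow_mul_eq_imp {γ β β' : Γ} (hγ0 : γ ≠ 0) (hγ1 : γ < 1) (hβ : γ ≤ β) (hβ1 : β < 1)
    (hβ' : γ ≤ β') (hβ'1 : β' < 1) {k k' : ℕ} (h : γ ^ k * β = γ ^ k' * β') : β = β' := by
  rcases lt_trichotomy k k' with hk | rfl | hk
  · exact absurd h (pow_mul_lt_of_lt hγ0 hγ1 hβ hβ'1 hk).ne'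
  · exact mul_left_cancel₀ (pow_ne_zero _ hγ0) h
  · exact absurd h (pow_mul_lt_of_lt hγ0 hγ1 hβ' hβ1 hk).ne

/-- **Chain principle.** If `w` is trivial on `K` and `0 < w t < 1`, then elements of `F` with
pairwise distinct values in `[w t, 1)` are linearly independent over `K(t)`. -/
theorem card_le_finrank_of_injOn (w : Valuation F Γ) (hw : TrivOn K w) {t : F} (ht0 : t ≠ 0)
    (ht : w t < 1) [FiniteDimensional K⟮t⟯ F] (s : Finset F)
    (hs : ∀ y ∈ s, w t ≤ w y ∧ w y < 1) (hinj : Set.InjOn w (s : Set F)) :
    s.card ≤ Module.finrank K⟮t⟯ F := by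
  classical
  have hγ0 : w t ≠ 0 := (Valuation.ne_zero_iff w).mpr ht0
  have hLI : LinearIndependent (Algebra.adjoin K {t}) (fun y : s => (y : F)) := by
    rw [linearIndependent_iff']
    intro T g hsum
    by_contra hne
    simp only [not_forall] at hne
    obtain ⟨i0, hi0T, hi0⟩ := hne
    -- polynomial representatives
    have hrep : ∀ i : s, ∃ p : K[X], aeval t p = ((g i : Algebra.adjoin K {t}) : F) := by
      intro i
      have h : ((g i : Algebra.adjoin K {t}) : F) ∈ (aeval (R := K) t).range := by
        rw [← Algebra.adjoin_singleton_eq_range_aeval]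
        exact (g i).2
      exact h
    choose p hp using hrep
    have hp0 : ∀ i : s, g i ≠ 0 → p i ≠ 0 := by
      intro i hi h0
      apply hi
      apply Subtype.ext
      rw [← hp i, h0, map_zero]
      rfl
    have hval : ∀ i : s, g i ≠ 0 →
        w (g i • (i : F)) = w t ^ (p i).rootMultiplicity 0 * w (i : F) := by
      intro i hi
      rw [Subalgebra.smul_def, smul_eq_mul, map_mul, ← hp i, hw.aeval_eq_pow ht (hp0 i hi)]
    obtain ⟨j, hjT', hjmax⟩ := Finset.exists_max_image (T.filter fun i => g i ≠ 0)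
      (fun i => w (g i • (i : F))) ⟨i0, Finset.mem_filter.mpr ⟨hi0T, hi0⟩⟩
    obtain ⟨hjT, hgj⟩ := Finset.mem_filter.mp hjT'
    have hjne : g j • (j : F) ≠ 0 := by
      rw [← Valuation.ne_zero_iff w, hval j hgj]
      exact mul_ne_zero (pow_ne_zero _ hγ0) (ne_of_gt (lt_of_lt_of_le (zero_lt_iff.mpr hγ0)
        (hs j j.2).1))
    refine sum_ne_zero_of_strict_max w T (fun i => g i • (i : F)) hjT hjne ?_ hsum
    intro i hiT hij
    by_cases hgi : g i = 0
    · rw [hgi, zero_smul, map_zero]
      exact zero_lt_iff.mpr ((Valuation.ne_zero_iff w).mpr hjne)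
    · refine lt_of_le_of_ne (hjmax i (Finset.mem_filter.mpr ⟨hiT, hgi⟩)) ?_
      intro heq
      rw [hval i hgi, hval j hgj] at heq
      have := pow_mul_eq_imp hγ0 ht (hs i i.2).1 (hs i i.2).2 (hs j j.2).1 (hs j j.2).2 heq
      exact hij (Subtype.ext (hinj i.2 j.2 this))
  have hLI' : LinearIndependent K⟮t⟯ (fun y : s => (y : F)) :=
    (LinearIndependent.iff_fractionRing (Algebra.adjoin K {t}) K⟮t⟯).mp hLI
  have := hLI'.fintype_card_le_finrank
  rwa [Fintype.card_coe] at this

end Chain

section Discrete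

variable (O : ValuationSubring F)

/-- In a proper valuation subring containing `K`, nonzero nonunits are transcendental. -/
theorem transcendental_of_mem_nonunits [IsAlgClosed K] (hK : ∀ c : K, algebraMap K F c ∈ O)
    {t : F} (ht0 : t ≠ 0) (ht : O.valuation t < 1) : Transcendental K t := by
  apply transcendental_of_not_mem_range
  rintro ⟨c, rfl⟩
  have hc : c ≠ 0 := by
    rintro rfl
    exact ht0 (map_zero _)
  rw [trivOn_valuation O hK c hc] at ht
  exact lt_irrefl _ ht

/-- (Q2) Stichtenoth 1.1.6: a proper valuation subring of `F` containing `K` is a discrete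
valuation ring. -/
theorem isDiscreteValuationRing_of_ne_top [IsAlgClosed K] (x : F) [FiniteDimensional K⟮x⟯ F]
    (hK : ∀ c : K, algebraMap K F c ∈ O) (hO : O ≠ ⊤) : IsDiscreteValuationRing O := by
  classical
  have hw := trivOn_valuation O hK
  -- a nonzero element of the maximal ideal
  obtain ⟨t, ht0, ht⟩ : ∃ t : F, t ≠ 0 ∧ O.valuation t < 1 := by
    by_contra hno
    apply hO
    rw [eq_top_iff]
    intro y _
    by_contra hy
    have hy0 : y ≠ 0 := fun h => hy (h ▸ zero_mem _)
    refine hno ⟨y⁻¹, inv_ne_zero hy0, ?_⟩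
    have : 1 < O.valuation y := by
      rw [← not_le, O.valuation_le_one_iff]
      exact hy
    rw [map_inv₀]
    exact inv_lt_one_of_one_lt₀ this
  have htt : Transcendental K t := transcendental_of_mem_nonunits O hK ht0 ht
  have : FiniteDimensional K⟮t⟯ F := finiteDimensional_adjoin_of_transcendental x htt
  -- the finitely many values in `[w t, 1)`
  let V : Set O.ValueGroup := {γ | (∃ y : F, O.valuation y = γ) ∧ O.valuation t ≤ γ ∧ γ < 1}
  have hVfin : V.Finite := by
    by_contra hinf
    obtain ⟨T, hTV, hTcard⟩ := Set.Infinite.exists_subset_card_eq hinf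
      (Module.finrank K⟮t⟯ F + 1)
    have hrep : ∀ γ : O.ValueGroup, ∃ y : F, γ ∈ V → O.valuation y = γ := by
      intro γ
      by_cases hγ : γ ∈ V
      · obtain ⟨y, hy⟩ := hγ.1
        exact ⟨y, fun _ => hy⟩
      · exact ⟨0, fun h => absurd h hγ⟩
    choose rep hrep using hrep
    have hinjT : Set.InjOn rep (T : Set O.ValueGroup) := by
      intro a ha b hb hab
      rw [← hrep a (hTV ha), ← hrep b (hTV hb), hab]
    have hcard := card_le_finrank_of_injOn O.valuation hw ht0 ht (T.image rep)
      (by
        intro y hy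
        obtain ⟨γ, hγT, rfl⟩ := Finset.mem_image.mp hy
        rw [hrep γ (hTV hγT)]
        exact (hTV hγT).2)
      (by
        intro a ha b hb hab
        rw [Finset.coe_image] at ha hb
        obtain ⟨γ, hγT, rfl⟩ := ha
        obtain ⟨δ, hδT, rfl⟩ := hb
        rw [hrep γ (hTV hγT), hrep δ (hTV hδT)] at hab
        rw [hab])
    rw [Finset.card_image_of_injOn hinjT, hTcard] at hcard
    omega
  have hVne : V.Nonempty := ⟨O.valuation t, ⟨t, rfl⟩, le_rfl, ht⟩
  obtain ⟨β, hβV, hβmax⟩ := Set.exists_max_image V id hVfin hVne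
  obtain ⟨π, hπ⟩ := hβV.1
  have hβ1 : β < 1 := hβV.2.2
  have hβ0 : β ≠ 0 := ne_of_gt (lt_of_lt_of_le (zero_lt_iff.mpr
    ((Valuation.ne_zero_iff _).mpr ht0)) hβV.2.1)
  have hπ0 : π ≠ 0 := by
    rw [← Valuation.ne_zero_iff O.valuation, hπ]
    exact hβ0
  -- every nonunit has value at most `β`
  have hmax : ∀ z : F, O.valuation z < 1 → O.valuation z ≤ β := by
    intro z hz
    by_cases hzt : O.valuation t ≤ O.valuation z
    · exact hβmax _ ⟨⟨z, rfl⟩, hzt, hz⟩
    · exact (lt_of_lt_of_le (not_le.mp hzt) hβV.2.1).le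
  have hπO : π ∈ O := (O.valuation_le_one_iff _).mp (hπ ▸ hβ1.le)
  -- every nonzero element of `O` has value a power of `β`
  have hpow : ∀ y : F, y ≠ 0 → O.valuation y ≤ 1 → ∃ n : ℕ, O.valuation y = β ^ n := by
    intro y hy0 hy1
    rcases eq_or_lt_of_le hy1 with h1 | h1
    · exact ⟨0, by rw [h1, pow_zero]⟩
    have hyt : Transcendental K y := transcendental_of_mem_nonunits O hK hy0 h1
    have : FiniteDimensional K⟮y⟯ F := finiteDimensional_adjoin_of_transcendental x hyt
    have hex : ∃ j : ℕ, ¬ O.valuation y ≤ β ^ (j + 1) := by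
      by_contra hall
      simp only [not_exists, not_not] at hall
      have hinj : Function.Injective fun j : ℕ => π ^ (j + 1) := by
        intro a b hab
        have h2 : O.valuation (π ^ (a + 1)) = O.valuation (π ^ (b + 1)) := congrArg _ hab
        rw [map_pow, map_pow, hπ] at h2
        by_contra hne
        rcases lt_or_gt_of_ne hne with h | h
        · have := pow_lt_pow_right_of_lt_one₀ (zero_lt_iff.mpr hβ0) hβ1
            (Nat.succ_lt_succ h)
          exact this.ne h2.symm
        · have := pow_lt_pow_right_of_lt_one₀ (zero_lt_iff.mpr hβ0) hβ1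
            (Nat.succ_lt_succ h)
          exact this.ne h2
      have hcard := card_le_finrank_of_injOn O.valuation hw hy0 h1
        ((Finset.range (Module.finrank K⟮y⟯ F + 1)).image fun j : ℕ => π ^ (j + 1))
        (by
          intro z hz
          obtain ⟨j, -, rfl⟩ := Finset.mem_image.mp hz
          rw [map_pow, hπ]
          exact ⟨hall j, pow_lt_one' hβ1 (Nat.succ_ne_zero j)⟩)
        (by
          intro a ha b hb hab
          rw [Finset.coe_image] at ha hb
          obtain ⟨i, -, rfl⟩ := ha
          obtain ⟨j, -, rfl⟩ := hb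
          rw [map_pow, map_pow, hπ] at hab
          by_contra hne
          have hij : i ≠ j := fun h => hne (by rw [h])
          rcases lt_or_gt_of_ne hij with h | h
          · have := pow_lt_pow_right_of_lt_one₀ (zero_lt_iff.mpr hβ0) hβ1
              (Nat.succ_lt_succ h)
            exact this.ne hab.symm
          · have := pow_lt_pow_right_of_lt_one₀ (zero_lt_iff.mpr hβ0) hβ1
              (Nat.succ_lt_succ h)
            exact this.ne hab)
      rw [Finset.card_image_of_injective _ hinj, Finset.card_range] at hcard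
      omega
    let n := Nat.find hex
    have hn : ¬ O.valuation y ≤ β ^ (n + 1) := Nat.find_spec hex
    have hn' : O.valuation y ≤ β ^ n := by
      rcases Nat.eq_zero_or_pos n with h0 | hpos
      · rw [h0, pow_zero]
        exact hy1
      · have := Nat.find_min hex (Nat.sub_lt hpos Nat.one_pos)
        rw [not_not, Nat.sub_add_cancel hpos] at this
        exact this
    refine ⟨n, ?_⟩
    -- z = y / π^n has value in (β, 1], hence 1
    have hz1 : O.valuation (y / π ^ n) ≤ 1 := by
      rw [map_div₀, map_pow, hπ]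
      exact div_le_one_of_le₀ hn' zero_le
    have hz2 : ¬ O.valuation (y / π ^ n) ≤ β := by
      rw [map_div₀, map_pow, hπ, div_le_iff₀ (pow_pos (zero_lt_iff.mpr hβ0) n), ← pow_succ']
      exact hn
    have hz3 : O.valuation (y / π ^ n) = 1 := by
      rcases eq_or_lt_of_le hz1 with h | h
      · exact h
      · exact absurd (hmax _ h) hz2
    rw [map_div₀, map_pow, hπ, div_eq_one_iff_eq (pow_ne_zero _ hβ0)] at hz3
    exact hz3
  apply IsDiscreteValuationRing.ofHasUnitMulPowIrreducibleFactorization
  refine ⟨⟨π, hπO⟩, ?_, ?_⟩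
  · -- irreducible
    refine ⟨?_, ?_⟩
    · rw [O.valuation_eq_one_iff]
      exact fun h => hβ1.ne (hπ ▸ h)
    · intro a b hab
      by_contra hno
      simp only [not_or] at hno
      have ha : O.valuation (a : F) < 1 := by
        rcases O.valuation_lt_one_or_eq_one a with h | h
        · exact h
        · exact absurd ((O.valuation_eq_one_iff a).mpr h) hno.1
      have hb : O.valuation (b : F) < 1 := by
        rcases O.valuation_lt_one_or_eq_one b with h | h
        · exact h
        · exact absurd ((O.valuation_eq_one_iff b).mpr h) hno.2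
      have hab' : π = (a : F) * (b : F) := congrArg Subtype.val hab
      have ha0 : O.valuation (a : F) ≠ 0 := by
        rw [Valuation.ne_zero_iff]
        rintro h
        rw [h, zero_mul] at hab'
        exact hπ0 hab'
      have h1 : β = O.valuation (a : F) * O.valuation (b : F) := by
        rw [← hπ, hab', map_mul]
      have h2 : O.valuation (a : F) * O.valuation (b : F) < O.valuation (a : F) * 1 := by
        gcongr
        exact zero_lt_iff.mpr ha0
      rw [mul_one, ← h1] at h2
      exact absurd (hmax _ ha) (not_le.mpr h2)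
  · intro y hy
    have hy0 : (y : F) ≠ 0 := fun h => hy (Subtype.ext h)
    obtain ⟨n, hn⟩ := hpow y hy0 (O.valuation_le_one y)
    have hu1 : O.valuation ((y : F) / π ^ n) = 1 := by
      rw [map_div₀, map_pow, hπ, hn, div_self (pow_ne_zero _ hβ0)]
    have huO : (y : F) / π ^ n ∈ O := (O.valuation_le_one_iff _).mp hu1.le
    have hu : IsUnit (⟨(y : F) / π ^ n, huO⟩ : O) := (O.valuation_eq_one_iff _).mpr hu1
    refine ⟨n, hu.unit, ?_⟩
    apply Subtype.ext
    show π ^ n * ((y : F) / π ^ n) = y
    field_simp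

/-- (Q2) a proper valuation subring containing `K` is a place. -/
noncomputable def placeOfValuationSubring [IsAlgClosed K] (x : F) [FiniteDimensional K⟮x⟯ F]
    (hK : ∀ c : K, algebraMap K F c ∈ O) (hO : O ≠ ⊤) : Place K F where
  toValuationSubring := O
  algebraMap_mem' := hK
  ne_top' := hO
  isPrincipalIdealRing' :=
    haveI := isDiscreteValuationRing_of_ne_top O x hK hO
    inferInstance

@[simp]
theorem placeOfValuationSubring_toValuationSubring [IsAlgClosed K] (x : F)
    [FiniteDimensional K⟮x⟯ F] (hK : ∀ c : K, algebraMap K F c ∈ O) (hO : O ≠ ⊤) :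
    (placeOfValuationSubring O x hK hO).toValuationSubring = O := rfl

end Discrete

/-! ### Existence of zeros and poles (Stichtenoth 1.1.19/1.1.20) -/

section Existence

/-- (Q3) a transcendental element has a zero. -/
theorem exists_place_adicValuation_lt_one [IsAlgClosed K] (x : F) [FiniteDimensional K⟮x⟯ F]
    {f : F} (hf : Transcendental K f) : ∃ v : Place K F, v.adicValuation f < 1 := by
  let A : Subring F := (Algebra.adjoin K {f}).toSubring
  let fA : A := ⟨f, Algebra.self_mem_adjoin_singleton K f⟩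
  have hf0 : f ≠ 0 := by
    rintro rfl
    exact hf (isAlgebraic_zero)
  have hI : Ideal.span {fA} ≠ ⊤ := by
    intro htop
    have h1 : (1 : A) ∈ Ideal.span {fA} := htop ▸ Submodule.mem_top
    obtain ⟨g, hg⟩ := Ideal.mem_span_singleton'.mp h1
    have hgmem : (g : F) ∈ (aeval (R := K) f).range := by
      rw [← Algebra.adjoin_singleton_eq_range_aeval]
      exact g.2
    obtain ⟨p, hp⟩ := hgmem
    have h2 : (g : F) * f = 1 := congrArg Subtype.val hg
    have hinj : Function.Injective (aeval (R := K) f) := transcendental_iff_injective.mp hf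
    have h3 : aeval f (p * X) = aeval f (1 : K[X]) := by
      rw [map_mul, aeval_X, map_one]
      exact hp ▸ h2
    have h4 := congrArg (Polynomial.eval 0) (hinj h3)
    simp at h4
  obtain ⟨B, hAB, hIB⟩ := Ideal.image_subset_nonunits_valuationSubring (Ideal.span {fA}) hI
  have hK : ∀ c : K, algebraMap K F c ∈ B := fun c =>
    hAB ((Algebra.adjoin K {f}).algebraMap_mem c)
  have hfB : f ∈ B.nonunits := hIB ⟨fA, Ideal.subset_span rfl, rfl⟩
  have hB : B ≠ ⊤ := by
    rintro rfl
    rcases (ValuationSubring.mem_nonunits_iff_or _).mp hfB with h | h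
    · exact hf0 h
    · exact h (ValuationSubring.mem_top _)
  refine ⟨placeOfValuationSubring B x hK hB, ?_⟩
  exact (mem_nonunits_iff_adicValuation_lt_one _).mp hfB

theorem transcendental_inv {f : F} (hf : Transcendental K f) : Transcendental K f⁻¹ := by
  intro h
  apply hf
  have := h.inv
  rwa [inv_inv] at this

/-- (Q3) a transcendental element has a pole. -/
theorem exists_place_one_lt_adicValuation [IsAlgClosed K] (x : F) [FiniteDimensional K⟮x⟯ F]
    {f : F} (hf : Transcendental K f) : ∃ v : Place K F, 1 < v.adicValuation f := by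
  obtain ⟨v, hv⟩ := exists_place_adicValuation_lt_one x (transcendental_inv hf)
  refine ⟨v, ?_⟩
  rw [map_inv₀] at hv
  have hf0 : f ≠ 0 := by
    rintro rfl
    exact hf isAlgebraic_zero
  exact (inv_lt_one₀ (zero_lt_iff.mpr (v.adicValuation_ne_zero hf0))).mp hv

/-- (Q7) an element without poles is a constant. -/
theorem exists_const_of_forall_adicValuation_le_one [IsAlgClosed K] (x : F)
    [FiniteDimensional K⟮x⟯ F] {f : F} (h : ∀ v : Place K F, v.adicValuation f ≤ 1) :
    ∃ c : K, f = algebraMap K F c := by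
  by_contra hno
  have hf : f ∉ Set.range (algebraMap K F) := fun ⟨c, hc⟩ => hno ⟨c, hc.symm⟩
  obtain ⟨v, hv⟩ := exists_place_one_lt_adicValuation x (transcendental_of_not_mem_range hf)
  exact absurd (h v) (not_le.mpr hv)

/-- (Q7) constants lemma in `ord` form. -/
theorem exists_const_of_forall_ord_eq_zero [IsAlgClosed K] (x : F)
    [FiniteDimensional K⟮x⟯ F] {f : F} (hf : f ≠ 0) (h : ∀ v : Place K F, v.ord f = 0) :
    ∃ c : K, f = algebraMap K F c := by
  apply exists_const_of_forall_adicValuation_le_one x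
  intro v
  rw [v.adicValuation_eq_exp_neg_ord hf, h v]
  simp

/-- (Q7) two functions with the same divisor differ by a constant. -/
theorem exists_const_mul_of_forall_ord_eq [IsAlgClosed K] (x : F)
    [FiniteDimensional K⟮x⟯ F] {f g : F} (hf : f ≠ 0) (hg : g ≠ 0)
    (h : ∀ v : Place K F, v.ord f = v.ord g) :
    ∃ c : K, c ≠ 0 ∧ f = algebraMap K F c * g := by
  have hfg : f / g ≠ 0 := div_ne_zero hf hg
  obtain ⟨c, hc⟩ := exists_const_of_forall_ord_eq_zero (K := K) x hfg (fun v => by
    rw [div_eq_mul_inv, v.ord_mul hf (inv_ne_zero hg), v.ord_inv, h v, add_neg_cancel])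
  refine ⟨c, ?_, ?_⟩
  · rintro rfl
    rw [(algebraMap K F).map_zero] at hc
    exact hfg hc
  · rw [← hc, div_mul_cancel₀ _ hg]

end Existence

end Fermat.Agent.S18.helper7885
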