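import Mathlib
import Fermat.Prelude.Def_ModularCurve_X0ModL

/-!
# S18-SEP: separability for free from a discrete valuation (helper9392)

Let `k` be a perfect field of characteristic `p`, `F` a field extension of `k` carrying an
additive valuation `w : F → WithTop ℤ`, and `t : F` with `p ∤ w t`.  Then every element of `F`
which is algebraic over `k(t)` is separable over `k(t)`.

Typical use: `F ⊆ k((q))`, `w = ord_q`, `t = j̄` (of `q`-order `-1`).
-/

set_option autoImplicit false

namespace Fermat.Agent.S18.helper9392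

open Polynomial IntermediateField

section Independence

variable {F : Type*} [Field F]

/-- `1, t, …, t^(p-1)` are linearly independent over `F^p` when `p ∤ w t`. -/
theorem eq_zero_of_sum_pow_mul_pow_eq_zero (p : ℕ) [hp : Fact p.Prime]
    (w : AddValuation F (WithTop ℤ)) (t : F) (c : ℤ) (hc : ¬ (p : ℤ) ∣ c)
    (ht : w t = (c : WithTop ℤ)) (z : ℕ → F)
    (h : ∑ r ∈ Finset.range p, t ^ r * z r ^ p = 0) : ∀ r < p, z r = 0 := by
  classical
  by_contra hne
  push Not at hne
  set S : Finset ℕ := (Finset.range p).filter (fun r => z r ≠ 0) with hS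
  have hSne : S.Nonempty := by
    obtain ⟨r, hr, hz⟩ := hne
    exact ⟨r, by simp [hS, hr, hz]⟩
  have hval : ∀ r : ℕ, ∃ n : ℤ, z r ≠ 0 →
      w (t ^ r * z r ^ p) = (((r : ℤ) * c + p * n : ℤ) : WithTop ℤ) := by
    intro r
    by_cases hz : z r = 0
    · exact ⟨0, fun h => absurd hz h⟩
    · obtain ⟨n, hn⟩ := WithTop.ne_top_iff_exists.mp ((w.ne_top_iff).mpr hz)
      refine ⟨n, fun _ => ?_⟩
      rw [w.map_mul, w.map_pow, w.map_pow, ht, ← hn, ← WithTop.coe_nsmul, ← WithTop.coe_nsmul,
        ← WithTop.coe_add, nsmul_eq_mul, nsmul_eq_mul]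
  choose n hn using hval
  set val : ℕ → ℤ := fun r => (r : ℤ) * c + p * n r with hvaldef
  have hinj : ∀ r ∈ S, ∀ r' ∈ S, val r = val r' → r = r' := by
    intro r hr r' hr' hrr'
    simp only [hS, Finset.mem_filter, Finset.mem_range] at hr hr'
    have h1 : ((r : ℤ) - r') * c = p * (n r' - n r) := by
      simp only [hvaldef] at hrr'
      linear_combination hrr'
    have h2 : (p : ℤ) ∣ ((r : ℤ) - r') * c := ⟨_, h1⟩
    have hpi : Prime (p : ℤ) := Nat.prime_iff_prime_int.mp hp.out
    rcases hpi.dvd_or_dvd h2 with h3 | h3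
    · obtain ⟨d, hd⟩ := h3
      have hr1 : (r : ℤ) < p := by exact_mod_cast hr.1
      have hr2 : (r' : ℤ) < p := by exact_mod_cast hr'.1
      have hp0 : (0 : ℤ) < p := by exact_mod_cast hp.out.pos
      have hd0 : d = 0 := by
        by_contra hd0
        rcases lt_or_gt_of_ne hd0 with hlt | hgt
        · have : (p : ℤ) * d ≤ -p := by nlinarith
          omega
        · have : (p : ℤ) ≤ p * d := by nlinarith
          omega
      rw [hd0, mul_zero] at hd
      omega
    · exact absurd h3 hc
  obtain ⟨r0, hr0S, hr0min⟩ := S.exists_min_image val hSne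
  have hr0 : r0 < p ∧ z r0 ≠ 0 := by
    simpa [hS] using hr0S
  have hsplit : t ^ r0 * z r0 ^ p + ∑ r ∈ (Finset.range p).erase r0, t ^ r * z r ^ p
      = ∑ r ∈ Finset.range p, t ^ r * z r ^ p :=
    Finset.add_sum_erase _ (fun r => t ^ r * z r ^ p) (Finset.mem_range.mpr hr0.1)
  have hlt : w (t ^ r0 * z r0 ^ p) <
      w (∑ r ∈ (Finset.range p).erase r0, t ^ r * z r ^ p) := by
    refine AddValuation.map_lt_sum w ?_ ?_
    · rw [hn r0 hr0.2]
      exact WithTop.coe_ne_top
    · intro r hr
      rw [Finset.mem_erase, Finset.mem_range] at hr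
      by_cases hz : z r = 0
      · rw [hz, zero_pow hp.out.ne_zero, mul_zero, w.map_zero, hn r0 hr0.2]
        exact WithTop.coe_lt_top _
      · have hrS : r ∈ S := by simp [hS, hr.2, hz]
        rw [hn r0 hr0.2, hn r hz, WithTop.coe_lt_coe]
        have hle := hr0min r hrS
        have hne' : val r0 ≠ val r := fun heq => hr.1 (hinj r0 hr0S r hrS heq).symm
        exact lt_of_le_of_ne hle hne'
  have hfin := w.map_add_eq_of_lt_left hlt
  rw [hsplit, h, w.map_zero, hn r0 hr0.2] at hfin
  exact WithTop.coe_ne_top hfin.symm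

end Independence

section Decomposition

variable (k : Type*) {F : Type*} [Field k] [Field F] [Algebra k F] (p : ℕ)

/-- `x = ∑_{r<p} t^r e_r^p` with all `e_r ∈ k(t)`. -/
def IsPDecomp (t x : F) : Prop :=
  ∃ e : ℕ → F, (∀ r, e r ∈ k⟮t⟯) ∧ x = ∑ r ∈ Finset.range p, t ^ r * e r ^ p

variable {k p}

theorem IsPDecomp.zero [hp : Fact p.Prime] (t : F) : IsPDecomp k p t 0 :=
  ⟨fun _ => 0, fun _ => zero_mem _, by simp [hp.out.ne_zero]⟩

theorem IsPDecomp.add [hp : Fact p.Prime] [CharP k p] {t x y : F}
    (hx : IsPDecomp k p t x) (hy : IsPDecomp k p t y) : IsPDecomp k p t (x + y) := by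
  have : CharP F p := charP_of_injective_algebraMap (algebraMap k F).injective p
  obtain ⟨e, he, rfl⟩ := hx
  obtain ⟨e', he', rfl⟩ := hy
  refine ⟨fun r => e r + e' r, fun r => add_mem (he r) (he' r), ?_⟩
  rw [← Finset.sum_add_distrib]
  refine Finset.sum_congr rfl fun r _ => ?_
  rw [add_pow_char, mul_add]

theorem IsPDecomp.sum [hp : Fact p.Prime] [CharP k p] {t : F} {ι : Type*} (s : Finset ι)
    (f : ι → F) (h : ∀ i ∈ s, IsPDecomp k p t (f i)) : IsPDecomp k p t (∑ i ∈ s, f i) :=
  Finset.sum_induction f (IsPDecomp k p t) (fun _ _ => IsPDecomp.add) (IsPDecomp.zero t) h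

theorem IsPDecomp.pow_mul {t x : F} (hx : IsPDecomp k p t x) {y : F} (hy : y ∈ k⟮t⟯) :
    IsPDecomp k p t (y ^ p * x) := by
  obtain ⟨e, he, rfl⟩ := hx
  refine ⟨fun r => y * e r, fun r => mul_mem hy (he r), ?_⟩
  rw [Finset.mul_sum]
  refine Finset.sum_congr rfl fun r _ => ?_
  rw [mul_pow]
  ring

theorem IsPDecomp.t_mul [hp : Fact p.Prime] {t x : F} (hx : IsPDecomp k p t x) :
    IsPDecomp k p t (t * x) := by
  obtain ⟨e, he, rfl⟩ := hx
  obtain ⟨n, rfl⟩ : ∃ n, p = n + 1 := Nat.exists_eq_succ_of_ne_zero hp.out.ne_zero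
  refine ⟨fun r => if r = 0 then t * e n else e (r - 1), fun r => ?_, ?_⟩
  · by_cases hr : r = 0
    · simp only [hr, if_true]
      exact mul_mem (mem_adjoin_simple_self k t) (he n)
    · simp only [hr, if_false]
      exact he _
  · rw [Finset.mul_sum, Finset.sum_range_succ, Finset.sum_range_succ']
    simp only [Nat.add_sub_cancel, if_true, Nat.succ_ne_zero, if_false, pow_zero, one_mul]
    congr 1
    · refine Finset.sum_congr rfl fun r _ => ?_
      ring
    · ring

theorem IsPDecomp.t_pow_mul [hp : Fact p.Prime] {t x : F} (hx : IsPDecomp k p t x) (s : ℕ) :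
    IsPDecomp k p t (t ^ s * x) := by
  induction s with
  | zero => simpa using hx
  | succ s ih =>
    have := ih.t_mul
    rwa [← mul_assoc, ← pow_succ'] at this

theorem IsPDecomp.mul [hp : Fact p.Prime] [CharP k p] {t x y : F}
    (hx : IsPDecomp k p t x) (hy : IsPDecomp k p t y) : IsPDecomp k p t (x * y) := by
  obtain ⟨e, he, rfl⟩ := hx
  rw [Finset.sum_mul]
  refine IsPDecomp.sum _ _ fun r _ => ?_
  have h1 := (hy.pow_mul (he r)).t_pow_mul r
  rwa [← mul_assoc] at h1

theorem IsPDecomp.one [hp : Fact p.Prime] (t : F) : IsPDecomp k p t 1 := by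
  refine ⟨fun r => if r = 0 then 1 else 0, fun r => ?_, ?_⟩
  · by_cases hr : r = 0
    · simp only [hr, if_true]; exact one_mem _
    · simp only [hr, if_false]; exact zero_mem _
  · rw [Finset.sum_eq_single 0]
    · simp
    · intro r _ hr
      simp [hr, hp.out.ne_zero]
    · intro h
      exact absurd (Finset.mem_range.mpr hp.out.pos) h

theorem IsPDecomp.pow [hp : Fact p.Prime] [CharP k p] {t x : F}
    (hx : IsPDecomp k p t x) (s : ℕ) : IsPDecomp k p t (x ^ s) := by
  induction s with
  | zero => simpa using IsPDecomp.one t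
  | succ s ih => rw [pow_succ]; exact ih.mul hx

theorem IsPDecomp.of_algebraMap [hp : Fact p.Prime] [CharP k p] [PerfectRing k p] (t : F) (a : k) :
    IsPDecomp k p t (algebraMap k F a) := by
  have h := (IsPDecomp.one (k := k) (p := p) t).pow_mul
    (y := algebraMap k F ((frobeniusEquiv k p).symm a)) (IntermediateField.algebraMap_mem _ _)
  rwa [mul_one, ← map_pow, frobeniusEquiv_symm_pow_p] at h

theorem IsPDecomp.self [hp : Fact p.Prime] (t : F) : IsPDecomp k p t t := by
  simpa using (IsPDecomp.one (k := k) (p := p) t).t_mul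

theorem IsPDecomp.inv [hp : Fact p.Prime] [CharP k p] {t x : F}
    (hx : IsPDecomp k p t x) (hxm : x ∈ k⟮t⟯) : IsPDecomp k p t x⁻¹ := by
  rcases eq_or_ne x 0 with rfl | hx0
  · simpa using IsPDecomp.zero (k := k) (p := p) t
  · have h := (hx.pow (p - 1)).pow_mul (inv_mem hxm)
    have hp1 : p = (p - 1) + 1 := (Nat.sub_add_cancel hp.out.one_le).symm
    have : x⁻¹ ^ p * x ^ (p - 1) = x⁻¹ := by
      conv_lhs => rw [hp1, pow_succ, Nat.add_sub_cancel, mul_assoc, mul_comm x⁻¹, ← mul_assoc,
        ← mul_pow, inv_mul_cancel₀ hx0, one_pow, one_mul]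
    rwa [this] at h

/-- every element of `k(t)` is of the form `∑_{r<p} t^r e_r^p` with `e_r ∈ k(t)`. -/
theorem isPDecomp_of_mem [hp : Fact p.Prime] [CharP k p] [PerfectRing k p] (t : F) {x : F}
    (hx : x ∈ k⟮t⟯) : IsPDecomp k p t x := by
  induction hx using IntermediateField.adjoin_induction with
  | mem x hx =>
    rw [Set.mem_singleton_iff] at hx
    rw [hx]
    exact IsPDecomp.self t
  | algebraMap a => exact IsPDecomp.of_algebraMap t a
  | add x y _ _ hx hy => exact hx.add hy
  | inv x hxm hx => exact hx.inv hxm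
  | mul x y _ _ hx hy => exact hx.mul hy

end Decomposition

section Main

variable {k F : Type*} [Field k] [Field F] [Algebra k F] (p : ℕ) [hp : Fact p.Prime] [CharP k p]
  [PerfectRing k p]

/-- **Element form.** `k` perfect of characteristic `p`, `w` an additive valuation on `F`,
`p ∤ w t`: every element of `F` integral over `k(t)` is separable over `k(t)`. -/
theorem isSeparable_of_isIntegral (w : AddValuation F (WithTop ℤ)) (t : F) (c : ℤ)
    (hc : ¬ (p : ℤ) ∣ c) (ht : w t = (c : WithTop ℤ)) (x : F) (hx : IsIntegral k⟮t⟯ x) :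
    IsSeparable k⟮t⟯ x := by
  classical
  have hcharF : CharP F p := charP_of_injective_algebraMap (algebraMap k F).injective p
  have hcharE : CharP k⟮t⟯ p := charP_of_injective_algebraMap (algebraMap k k⟮t⟯).injective p
  have hirr := minpoly.irreducible hx
  rcases Polynomial.separable_or p hirr with hsep | ⟨-, h, hh_irr, hexp⟩
  · exact hsep
  exfalso
  have h0 : aeval (x ^ p) h = 0 := by
    have h1 := minpoly.aeval k⟮t⟯ x
    rwa [← hexp, expand_aeval] at h1
  have hdec : ∀ i : ℕ, IsPDecomp k p t ((h.coeff i : k⟮t⟯) : F) :=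
    fun i => isPDecomp_of_mem t (h.coeff i).2
  choose e heE he using hdec
  let H : ℕ → (k⟮t⟯)[X] := fun r =>
    ∑ i ∈ Finset.range (h.natDegree + 1), C (⟨e i r, heE i r⟩ : k⟮t⟯) * X ^ i
  have hHeval : ∀ r, aeval x (H r) = ∑ i ∈ Finset.range (h.natDegree + 1), e i r * x ^ i := by
    intro r
    simp only [H, map_sum, map_mul, aeval_C, map_pow, aeval_X]
    rfl
  have hRHS : aeval (x ^ p) h = ∑ i ∈ Finset.range (h.natDegree + 1),
      (∑ r ∈ Finset.range p, t ^ r * e i r ^ p) * (x ^ p) ^ i := by
    rw [aeval_eq_sum_range]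
    refine Finset.sum_congr rfl fun i _ => ?_
    rw [Algebra.smul_def, IntermediateField.algebraMap_apply, he i]
  have key : ∑ r ∈ Finset.range p, t ^ r * (aeval x (H r)) ^ p = 0 := by
    rw [← h0, hRHS]
    simp only [hHeval]
    simp_rw [sum_pow_char, Finset.mul_sum, Finset.sum_mul]
    rw [Finset.sum_comm]
    refine Finset.sum_congr rfl fun i _ => Finset.sum_congr rfl fun r _ => ?_
    rw [mul_pow]
    ring
  have hz := eq_zero_of_sum_pow_mul_pow_eq_zero p w t c hc ht (fun r => aeval x (H r)) key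
  have hdeg : ∀ r, (H r).natDegree ≤ h.natDegree := by
    intro r
    refine natDegree_sum_le_of_forall_le _ _ fun i hi => ?_
    exact (natDegree_C_mul_X_pow_le _ _).trans (Nat.lt_succ_iff.mp (Finset.mem_range.mp hi))
  have hnat : (minpoly k⟮t⟯ x).natDegree = h.natDegree * p := by
    rw [← hexp, natDegree_expand]
  have hpos : 0 < h.natDegree * p := hnat ▸ minpoly.natDegree_pos hx
  have hh1 : 1 ≤ h.natDegree := Nat.pos_of_mul_pos_right hpos
  have hlt : h.natDegree < h.natDegree * p := by
    have := hp.out.two_le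
    nlinarith
  have hH0 : ∀ r < p, H r = 0 := by
    intro r hr
    by_contra hne
    have h1 := natDegree_le_natDegree (minpoly.degree_le_of_ne_zero k⟮t⟯ x hne (hz r hr))
    have h2 := hdeg r
    omega
  have hcoeff : ∀ r, ∀ i ∈ Finset.range (h.natDegree + 1),
      (H r).coeff i = (⟨e i r, heE i r⟩ : k⟮t⟯) := by
    intro r i hi
    simp only [H, finsetSum_coeff, coeff_C_mul_X_pow]
    rw [Finset.sum_eq_single i]
    · simp
    · intro j _ hj
      simp [hj.symm]
    · intro hni
      exact absurd hi hni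
  have he0 : ∀ r < p, ∀ i ∈ Finset.range (h.natDegree + 1), e i r = 0 := by
    intro r hr i hi
    have h1 := hcoeff r i hi
    rw [hH0 r hr, coeff_zero] at h1
    exact (congrArg Subtype.val h1).symm
  have hlead : h.coeff h.natDegree = 0 := by
    apply Subtype.ext
    rw [he h.natDegree]
    refine Finset.sum_eq_zero fun r hr => ?_
    rw [he0 r (Finset.mem_range.mp hr) h.natDegree (Finset.self_mem_range_succ _),
      zero_pow hp.out.ne_zero, mul_zero]
  exact hh_irr.ne_zero (leadingCoeff_eq_zero.mp hlead)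

/-- **Algebra form.** Under the same hypotheses, if `F` is algebraic over `k(t)` then it is a
separable extension of `k(t)`. -/
theorem algebra_isSeparable_of_addValuation (w : AddValuation F (WithTop ℤ)) (t : F) (c : ℤ)
    (hc : ¬ (p : ℤ) ∣ c) (ht : w t = (c : WithTop ℤ)) [Algebra.IsAlgebraic k⟮t⟯ F] :
    Algebra.IsSeparable k⟮t⟯ F :=
  ⟨fun x => isSeparable_of_isIntegral p w t c hc ht x (Algebra.IsIntegral.isIntegral x)⟩

end Main

section Laurent

variable {k : Type*} [Field k] (p : ℕ) [hp : Fact p.Prime] [CharP k p] [PerfectRing k p]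

/-- **Laurent-series form.** A subfield `F` of `k((q))` which is algebraic over `k(t)`, where
`t ∈ F` is nonzero of `q`-order prime to `p`, is separable over `k(t)`. -/
theorem algebra_isSeparable_of_order (F : IntermediateField k (LaurentSeries k)) (t : F)
    (ht0 : (t : LaurentSeries k) ≠ 0) (hc : ¬ (p : ℤ) ∣ (t : LaurentSeries k).order)
    [Algebra.IsAlgebraic k⟮t⟯ F] : Algebra.IsSeparable k⟮t⟯ F :=
  algebra_isSeparable_of_addValuation p
    ((HahnSeries.addVal ℤ k).comap (algebraMap F (LaurentSeries k))) t _ hc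
    (HahnSeries.addVal_apply_of_ne ht0)

end Laurent

section Modular

open ModularCurve

variable (k : Type*) [Field k]

theorem order_jqModC : (jqModC k).order = -1 := by
  have hne : jqModC k ≠ 0 := jqModC_ne_zero_of_nontrivial k
  have h1 : (jqModC k).coeff (-1) ≠ 0 := by
    rw [coeff_jqModC_neg_one]
    exact one_ne_zero
  refine le_antisymm (HahnSeries.order_le_of_coeff_ne_zero h1) ?_
  by_contra hlt
  rw [not_le] at hlt
  exact hne (HahnSeries.coeff_order_eq_zero.mp (coeff_jqModC_of_lt k hlt))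

/-- `j̄` as an element of the characteristic-`p` modular function field. -/
noncomputable def jbarC (N : ℕ) : modularFunctionFieldFullC k N :=
  ⟨jqModC k, jqModC_mem_full k N⟩

/-- **Modular instance.** For a perfect field `k` of characteristic `p` (any level `N`, no
hypothesis `p ∤ N`): if `k(j̄(q^d) : d ∣ N)` is algebraic over `k(j̄)` then it is separable
over `k(j̄)`. -/
theorem isSeparable_modularFunctionFieldFullC (p : ℕ) [hp : Fact p.Prime] [CharP k p]
    [PerfectRing k p] (N : ℕ)
    [Algebra.IsAlgebraic k⟮jbarC k N⟯ (modularFunctionFieldFullC k N)] :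
    Algebra.IsSeparable k⟮jbarC k N⟯ (modularFunctionFieldFullC k N) := by
  have hp2 := hp.out.two_le
  refine algebra_isSeparable_of_order p (modularFunctionFieldFullC k N) (jbarC k N)
    (jqModC_ne_zero_of_nontrivial k) ?_
  show ¬ (p : ℤ) ∣ (jqModC k).order
  rw [order_jqModC]
  intro hdvd
  have := Int.le_of_dvd (by norm_num) (Int.dvd_neg.mp hdvd)
  omega

/-- The same for an algebraically closed `k` and a finite extension. -/
theorem isSeparable_modularFunctionFieldFullC_of_isAlgClosed (p : ℕ) [Fact p.Prime] [CharP k p]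
    [IsAlgClosed k] (N : ℕ)
    [FiniteDimensional k⟮jbarC k N⟯ (modularFunctionFieldFullC k N)] :
    Algebra.IsSeparable k⟮jbarC k N⟯ (modularFunctionFieldFullC k N) :=
  haveI : Algebra.IsAlgebraic k⟮jbarC k N⟯ (modularFunctionFieldFullC k N) :=
    Algebra.IsAlgebraic.of_finite _ _
  isSeparable_modularFunctionFieldFullC k p N

end Modular

end Fermat.Agent.S18.helper9392
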