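import Mathlib
import Fermat.Prelude.Def_AlgebraicCurve_DivisorClassGroup

/-!
# S18-LEVEL, part 1: pure field theory (Mathlib + Prelude `Place` only)

* `norm_descent`: if `E/F` is finite of degree prime to `m` and `U ∈ F` is (constant) · (`m`-th power)
  in `E`, then it already is one in `F`.
* `Place.restrictTo`: restriction of a Prelude place along an algebraic extension `E/F`,
  with `ord_{P}(f) = e · ord_{P|F}(f)` on `F` (`exists_ramificationIdx`).
-/

set_option autoImplicit false

noncomputable section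

namespace Fermat.Agent.S18.helper2557

open AlgebraicCurve

section NormDescent

variable {K F E : Type*} [Field K] [Field F] [Field E] [Algebra K F] [Algebra F E] [Algebra K E]
  [IsScalarTower K F E]

/-- **Norm descent.** `E/F` finite of degree prime to `m`; if `U ∈ F` is `c · V ^ m` in `E`
(`c ∈ K` a constant), then `U = c' · W ^ m` with `W ∈ F`, `c' ∈ K`. -/
theorem norm_descent [FiniteDimensional F E] {m : ℕ}
    (hm : Nat.Coprime (Module.finrank F E) m) {U : F} {V : E} {c : K}
    (h : algebraMap F E U = algebraMap K E c * V ^ m) :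
    ∃ (c' : K) (W : F), U = algebraMap K F c' * W ^ m := by
  rcases eq_or_ne U 0 with rfl | hU
  · rcases Nat.eq_zero_or_pos m with rfl | hm0
    · -- `m = 0` forces `[E:F] = 1`; then `0 = c`
      refine ⟨0, 1, by simp⟩
    · exact ⟨1, 0, by simp [hm0.ne']⟩
  set d := Module.finrank F E with hd
  have hnorm : U ^ d = algebraMap K F c ^ d * (Algebra.norm F V) ^ m := by
    have h1 := congrArg (Algebra.norm F) h
    rw [Algebra.norm_algebraMap, map_mul, map_pow, IsScalarTower.algebraMap_apply K F E,
      Algebra.norm_algebraMap] at h1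
    exact h1
  have hc : c ≠ 0 := by
    rintro rfl
    rw [map_zero, zero_mul] at h
    exact hU ((algebraMap F E).injective (by rw [h, map_zero]))
  -- Bezout
  have hgcd : Int.gcd (d : ℤ) (m : ℤ) = 1 := by
    rw [Int.gcd_natCast_natCast]; exact hm
  have hbez := Int.gcd_eq_gcd_ab (d : ℤ) (m : ℤ)
  rw [hgcd] at hbez
  set a := Int.gcdA (d : ℤ) (m : ℤ)
  set b := Int.gcdB (d : ℤ) (m : ℤ)
  refine ⟨c ^ ((d : ℤ) * a), (Algebra.norm F V) ^ a * U ^ b, ?_⟩
  have hcF : algebraMap K F c ≠ 0 := by
    rw [Ne, map_eq_zero]; exact hc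
  calc U = U ^ (1 : ℤ) := (zpow_one U).symm
    _ = U ^ ((d : ℤ) * a + (m : ℤ) * b) := by rw [← hbez]; norm_cast
    _ = (U ^ d) ^ a * (U ^ b) ^ m := by
        rw [zpow_add₀ hU, zpow_mul, zpow_natCast, mul_comm (m : ℤ) b, zpow_mul, zpow_natCast]
    _ = (algebraMap K F c ^ d * (Algebra.norm F V) ^ m) ^ a * (U ^ b) ^ m := by rw [hnorm]
    _ = algebraMap K F (c ^ ((d : ℤ) * a)) * ((Algebra.norm F V) ^ a * U ^ b) ^ m := by
        rw [map_zpow₀, zpow_mul, zpow_natCast, mul_zpow, mul_pow, ← zpow_natCast (_ ^ a) m,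
          ← zpow_natCast (Algebra.norm F V) m, ← zpow_mul, ← zpow_mul, mul_comm (m : ℤ) a]
        ring

end NormDescent


section Restrict

variable {K F E : Type*} [Field K] [Field F] [Field E] [Algebra K F] [Algebra F E] [Algebra K E]
  [IsScalarTower K F E]

/-- Membership in the valuation ring of a place is `0 ≤ ord`. -/
theorem mem_iff_ord_nonneg (P : Place K E) {x : E} (hx : x ≠ 0) :
    x ∈ P.toValuationSubring ↔ 0 ≤ P.ord x := by
  obtain ⟨π, hπ⟩ := IsDiscreteValuationRing.exists_irreducible P.toValuationSubring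
  obtain ⟨u, hu⟩ := P.exists_unit_mul_zpow hx hπ
  have hπE : (π : E) ≠ 0 := by
    simpa [ne_eq, ZeroMemClass.coe_eq_zero] using hπ.ne_zero
  constructor
  · intro hmem
    by_contra hneg
    push Not at hneg
    -- `x * π ^ k = u` with `k = -ord x > 0`
    obtain ⟨k, hk⟩ : ∃ k : ℕ, P.ord x = -((k : ℤ) + 1) :=
      ⟨(-P.ord x - 1).toNat, by omega⟩
    have h1 : (⟨x, hmem⟩ : P.toValuationSubring) * π ^ (k + 1) = (u : P.toValuationSubring) := by
      apply Subtype.ext
      show x * (π : E) ^ (k + 1) = ((u : P.toValuationSubring) : E)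
      conv_lhs => rw [hu, hk]
      rw [mul_assoc, zpow_neg, ← zpow_natCast (π : E) (k + 1)]
      push_cast
      rw [inv_mul_cancel₀ (zpow_ne_zero _ hπE), mul_one]
    have h2 : IsUnit (π ^ (k + 1)) := isUnit_of_mul_isUnit_right (h1 ▸ u.isUnit)
    exact hπ.not_isUnit ((isUnit_pow_iff (Nat.succ_ne_zero k)).mp h2)
  · intro h0
    obtain ⟨k, hk⟩ : ∃ k : ℕ, P.ord x = (k : ℤ) := ⟨(P.ord x).toNat, by omega⟩
    rw [hu, hk, zpow_natCast]
    exact mul_mem (u : P.toValuationSubring).2 (pow_mem π.2 k)

variable [Algebra.IsAlgebraic F E]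

/-- The restriction of a place of `E` to a subfield `F` over which `E` is algebraic. -/
def restrictTo (P : Place K E) : Place K F where
  toValuationSubring := P.toValuationSubring.comap (algebraMap F E)
  algebraMap_mem' a := by
    show algebraMap F E (algebraMap K F a) ∈ P.toValuationSubring
    rw [← IsScalarTower.algebraMap_apply]
    exact P.algebraMap_mem' a
  ne_top' := by
    intro htop
    apply P.ne_top'
    have hF : ∀ f : F, algebraMap F E f ∈ P.toValuationSubring := fun f => by
      have : f ∈ P.toValuationSubring.comap (algebraMap F E) := by rw [htop]; trivial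
      exact this
    refine SetLike.ext fun x => ⟨fun _ => ValuationSubring.mem_top x, fun _ => ?_⟩
    -- `x` is integral over `F ⊆ P`, and `P` is integrally closed
    have hint : IsIntegral F x := Algebra.IsIntegral.isIntegral x
    obtain ⟨p, hp, hpx⟩ := hint
    let φ : F →+* P.toValuationSubring :=
      (algebraMap F E).codRestrict P.toValuationSubring.toSubring hF
    have hint' : IsIntegral P.toValuationSubring x := by
      refine ⟨p.map φ, hp.map φ, ?_⟩
      rw [Polynomial.eval₂_map]
      exact hpx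
    obtain ⟨y, rfl⟩ := (IsIntegrallyClosed.isIntegral_iff (R := P.toValuationSubring)
      (K := E)).mp hint'
    exact y.2
  isPrincipalIdealRing' := by
    refine ⟨fun I => ?_⟩
    by_cases hI : I = ⊥
    · rw [hI]; exact bot_isPrincipal
    -- choose a nonzero element of `I` of minimal order
    have hex : ∃ n : ℕ, ∃ b : P.toValuationSubring.comap (algebraMap F E), b ∈ I ∧ b ≠ 0 ∧
        P.ord (algebraMap F E (b : F)) = (n : ℤ) := by
      obtain ⟨b, hbI, hb0⟩ := Submodule.exists_mem_ne_zero_of_ne_bot hI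
      have hbE : algebraMap F E (b : F) ≠ 0 := by
        rw [Ne, map_eq_zero]; exact fun h => hb0 (Subtype.ext h)
      have h0 : 0 ≤ P.ord (algebraMap F E (b : F)) := (mem_iff_ord_nonneg P hbE).mp b.2
      exact ⟨(P.ord (algebraMap F E (b : F))).toNat, b, hbI, hb0, by omega⟩
    classical
    obtain ⟨b, hbI, hb0, hbn⟩ := Nat.find_spec hex
    have hmin := fun k hk => Nat.find_min hex (m := k) hk
    have hbF : (b : F) ≠ 0 := fun h => hb0 (Subtype.ext h)
    have hbE : algebraMap F E (b : F) ≠ 0 := by rw [Ne, map_eq_zero]; exact hbF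
    refine ⟨⟨b, le_antisymm ?_ ?_⟩⟩
    · intro c hcI
      rw [Submodule.mem_span_singleton]
      rcases eq_or_ne c 0 with rfl | hc0
      · exact ⟨0, by simp⟩
      have hcF : (c : F) ≠ 0 := fun h => hc0 (Subtype.ext h)
      have hcE : algebraMap F E (c : F) ≠ 0 := by rw [Ne, map_eq_zero]; exact hcF
      have hc0' : 0 ≤ P.ord (algebraMap F E (c : F)) := (mem_iff_ord_nonneg P hcE).mp c.2
      have hle : P.ord (algebraMap F E (b : F)) ≤ P.ord (algebraMap F E (c : F)) := by
        by_contra hlt
        push Not at hlt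
        have := hmin (P.ord (algebraMap F E (c : F))).toNat (by omega)
        exact this ⟨c, hcI, hc0, by omega⟩
      have hquot : (c : F) / (b : F) ∈ P.toValuationSubring.comap (algebraMap F E) := by
        show algebraMap F E ((c : F) / (b : F)) ∈ P.toValuationSubring
        rw [map_div₀, mem_iff_ord_nonneg P (div_ne_zero hcE hbE), div_eq_mul_inv,
          P.ord_mul hcE (inv_ne_zero hbE), P.ord_inv]
        omega
      refine ⟨⟨(c : F) / (b : F), hquot⟩, Subtype.ext ?_⟩
      show (c : F) / (b : F) * (b : F) = (c : F)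
      rw [div_mul_cancel₀ _ hbF]
    · rw [Submodule.span_singleton_le_iff_mem]
      exact hbI

theorem restrictTo_toValuationSubring (P : Place K E) :
    (restrictTo (F := F) P).toValuationSubring = P.toValuationSubring.comap (algebraMap F E) :=
  rfl

theorem mem_restrictTo_iff (P : Place K E) (f : F) :
    f ∈ (restrictTo (F := F) P).toValuationSubring ↔ algebraMap F E f ∈ P.toValuationSubring :=
  Iff.rfl

/-- **Ramification index**: on the subfield, `ord_P = e · ord_{P|F}` with `e ≥ 1`. -/
theorem exists_ramificationIdx (P : Place K E) :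
    ∃ e : ℕ, 0 < e ∧ ∀ f : F, P.ord (algebraMap F E f) = (e : ℤ) * (restrictTo (F := F) P).ord f := by
  set Q : Place K F := restrictTo (F := F) P with hQ
  obtain ⟨t, ht⟩ := IsDiscreteValuationRing.exists_irreducible Q.toValuationSubring
  have htF : (t : F) ≠ 0 := by
    simpa [ne_eq, ZeroMemClass.coe_eq_zero] using ht.ne_zero
  have htE : algebraMap F E (t : F) ≠ 0 := by rw [Ne, map_eq_zero]; exact htF
  have ht0 : 0 ≤ P.ord (algebraMap F E (t : F)) := (mem_iff_ord_nonneg P htE).mp t.2
  -- units of `Q` have order `0` at `P`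
  have hunit : ∀ u : Q.toValuationSubringˣ, P.ord (algebraMap F E ((u : Q.toValuationSubring) : F)) = 0 := by
    intro u
    have hu0 : ((u : Q.toValuationSubring) : F) ≠ 0 := by
      simp [ne_eq, ZeroMemClass.coe_eq_zero]
    have huE : algebraMap F E ((u : Q.toValuationSubring) : F) ≠ 0 := by
      rw [Ne, map_eq_zero]; exact hu0
    have h1 : 0 ≤ P.ord (algebraMap F E ((u : Q.toValuationSubring) : F)) :=
      (mem_iff_ord_nonneg P huE).mp (u : Q.toValuationSubring).2
    have hinv : (((u⁻¹ : Q.toValuationSubringˣ) : Q.toValuationSubring) : F)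
        = ((u : Q.toValuationSubring) : F)⁻¹ := by
      have h' : (((u⁻¹ : Q.toValuationSubringˣ) : Q.toValuationSubring) : F)
          * ((u : Q.toValuationSubring) : F) = 1 := congrArg (Subtype.val) (u.inv_mul)
      exact eq_inv_of_mul_eq_one_left h'
    have h2 : 0 ≤ P.ord (algebraMap F E ((u : Q.toValuationSubring) : F))⁻¹ := by
      rw [← map_inv₀, ← hinv]
      refine (mem_iff_ord_nonneg P ?_).mp ((u⁻¹ : Q.toValuationSubringˣ) : Q.toValuationSubring).2
      rw [hinv, map_inv₀]
      exact inv_ne_zero huE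
    rw [P.ord_inv] at h2
    omega
  have htpos : 0 < P.ord (algebraMap F E (t : F)) := by
    rcases ht0.lt_or_eq with h | h
    · exact h
    · exfalso
      -- then `t⁻¹ ∈ Q`, so `t` is a unit
      have hinv : (t : F)⁻¹ ∈ Q.toValuationSubring := by
        show algebraMap F E (t : F)⁻¹ ∈ P.toValuationSubring
        rw [map_inv₀, mem_iff_ord_nonneg P (inv_ne_zero htE), P.ord_inv, ← h]
        simp
      apply ht.not_isUnit
      refine IsUnit.of_mul_eq_one ⟨(t : F)⁻¹, hinv⟩ (Subtype.ext ?_)
      show (t : F) * (t : F)⁻¹ = 1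
      exact mul_inv_cancel₀ htF
  refine ⟨(P.ord (algebraMap F E (t : F))).toNat, by omega, fun f => ?_⟩
  rcases eq_or_ne f 0 with rfl | hf
  · simp
  obtain ⟨u, hu⟩ := Q.exists_unit_mul_zpow hf ht
  have huE : algebraMap F E ((u : Q.toValuationSubring) : F) ≠ 0 := by
    rw [Ne, map_eq_zero]; simp [ZeroMemClass.coe_eq_zero]
  conv_lhs => rw [hu]
  rw [map_mul, map_zpow₀, P.ord_mul huE (zpow_ne_zero _ htE), hunit u, P.ord_zpow, zero_add,
    Int.toNat_of_nonneg ht0, mul_comm]

/-- Divisibility of orders passes up: if `m ∣ ord_Q f` for all places `Q` of `F`, then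
`m ∣ ord_P f` for all places `P` of `E`. -/
theorem dvd_ord_of_restrict {m : ℤ} {f : F} (h : ∀ Q : Place K F, m ∣ Q.ord f) (P : Place K E) :
    m ∣ P.ord (algebraMap F E f) := by
  obtain ⟨e, -, he⟩ := exists_ramificationIdx (F := F) P
  rw [he f]
  exact Dvd.dvd.mul_left (h _) _

end Restrict

end Fermat.Agent.S18.helper2557
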