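import Mathlib
import Fermat.Prelude.Def_ModularCurve_ReductionModL
import Fermat.Prelude.Def_FLTPrelim_Ramification

/-!
# S18, top reduction (Prelude glue)

The frozen statement S18 (injectivity of reduction mod `ℓ` on prime-to-`ℓ` torsion of `J₀(N)`)
is reduced to a *Kummer core* statement `Stmt_Core` in which no `Pic0`, no quotient and no
`reductionModL` appear any more: only two "integral functions" `a`, `b` (Laurent series with
coefficients in the valuation ring `A`, lying in the characteristic-zero function field, with
nonzero reduction lying in the characteristic-`ℓ` function field), a divisor `D` with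
`m • D = div a - div b`, and an element `w` of the characteristic-`ℓ` function field with
`div (ā) - div (b̄) = m • div w`.
-/

set_option autoImplicit false
set_option synthInstance.maxHeartbeats 400000

noncomputable section

namespace Fermat.Agent.S18.helper3054

open ModularCurve AlgebraicCurve HahnSeries

/-- An *integral function* at the valuation subring `A`: a Laurent series `y` with coefficients
in `A` which lies in the characteristic-zero function field of `X₀(N)` and whose coefficientwise
reduction is a nonzero element of the characteristic-`ℓ` function field. These are exactly the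
witnesses occurring in `ModularCurve.integralPrincipalDivisors`. -/
structure IntegralFn (A : ValuationSubring (AlgebraicClosure ℚ)) (N : ℕ) where
  /-- the Laurent series with coefficients in `A` -/
  y : LaurentSeries A
  mem : coeffMap A.subtype y ∈ modularFunctionFieldBar N
  memk : coeffMap (IsLocalRing.residue A) y ∈
    modularFunctionFieldFullC (IsLocalRing.ResidueField A) N
  ne : coeffMap (IsLocalRing.residue A) y ≠ 0

namespace IntegralFn

variable {A : ValuationSubring (AlgebraicClosure ℚ)} {N : ℕ}

/-- The function in characteristic zero. -/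
def gen (a : IntegralFn A N) : modularFunctionFieldBar N := ⟨coeffMap A.subtype a.y, a.mem⟩

/-- The reduced function in characteristic `ℓ`. -/
def red (a : IntegralFn A N) : modularFunctionFieldFullC (IsLocalRing.ResidueField A) N :=
  ⟨coeffMap (IsLocalRing.residue A) a.y, a.memk⟩

@[simp] theorem coe_gen (a : IntegralFn A N) :
    (a.gen : LaurentSeries (AlgebraicClosure ℚ)) = coeffMap A.subtype a.y := rfl

@[simp] theorem coe_red (a : IntegralFn A N) :
    (a.red : LaurentSeries (IsLocalRing.ResidueField A)) =
      coeffMap (IsLocalRing.residue A) a.y := rfl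

theorem red_ne_zero (a : IntegralFn A N) : a.red ≠ 0 := fun h =>
  a.ne (by simpa using congrArg Subtype.val h)

theorem y_ne_zero (a : IntegralFn A N) : a.y ≠ 0 := fun h => a.ne (by rw [h, map_zero])

theorem coeffMap_subtype_injective :
    Function.Injective (coeffMap (A.subtype) : LaurentSeries A → LaurentSeries _) := by
  intro x y hxy
  ext k
  have := congrArg (fun s => HahnSeries.coeff s k) hxy
  simpa using this

theorem gen_ne_zero (a : IntegralFn A N) : a.gen ≠ 0 := fun h =>
  a.y_ne_zero (coeffMap_subtype_injective (by
    have := congrArg Subtype.val h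
    simpa using this))

/-- The constant integral function `1`. -/
def one : IntegralFn A N where
  y := 1
  mem := by rw [map_one]; exact one_mem _
  memk := by rw [map_one]; exact one_mem _
  ne := by rw [map_one]; exact one_ne_zero

@[simp] theorem gen_one : (one : IntegralFn A N).gen = 1 :=
  Subtype.ext (by simp [one])

@[simp] theorem red_one : (one : IntegralFn A N).red = 1 :=
  Subtype.ext (by simp [one])

/-- The product of two integral functions. -/
def mul (a b : IntegralFn A N) : IntegralFn A N where
  y := a.y * b.y
  mem := by rw [map_mul]; exact mul_mem a.mem b.mem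
  memk := by rw [map_mul]; exact mul_mem a.memk b.memk
  ne := by rw [map_mul]; exact mul_ne_zero a.ne b.ne

@[simp] theorem gen_mul (a b : IntegralFn A N) : (a.mul b).gen = a.gen * b.gen :=
  Subtype.ext (by simp [mul])

@[simp] theorem red_mul (a b : IntegralFn A N) : (a.mul b).red = a.red * b.red :=
  Subtype.ext (by simp [mul])

end IntegralFn

/-- **Kummer core** of S18. -/
def Stmt_Core (N : ℕ) [NeZero N] (ℓ : ℕ) : Prop :=
  ∀ (A : ValuationSubring (AlgebraicClosure ℚ)), A.LiesOverPrime ℓ →
  ∀ (h : ReductionInputsModL A N) (m : ℕ), ¬ ℓ ∣ m →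
  ∀ (a b : IntegralFn A N) (D : Divisor (AlgebraicClosure ℚ) (modularFunctionFieldBar N)),
    Divisor.degree D = 0 →
    (∀ P : Place (AlgebraicClosure ℚ) (modularFunctionFieldBar N),
      (m : ℤ) * D P = P.ord a.gen - P.ord b.gen) →
    ∀ w : modularFunctionFieldFullC (IsLocalRing.ResidueField A) N, w ≠ 0 →
    (∀ Q, Finsupp.mapDomain (placeReductionModL h) D Q = Q.ord w) →
    (∀ Q : Place (IsLocalRing.ResidueField A)
        (modularFunctionFieldFullC (IsLocalRing.ResidueField A) N),
      Q.ord a.red - Q.ord b.red = (m : ℤ) * Q.ord w) →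
    Divisor.IsPrincipal D

section Glue

variable {N : ℕ} {A : ValuationSubring (AlgebraicClosure ℚ)}

/-- Every divisor in the closure of the integral principal divisors is `div a - div b` for two
integral functions, compatibly with the place reduction. -/
theorem exists_integralFn_of_mem_closure
    {r : Place (AlgebraicClosure ℚ) (modularFunctionFieldBar N) →
      Place (IsLocalRing.ResidueField A) (modularFunctionFieldFullC (IsLocalRing.ResidueField A) N)}
    (hr : IsPlaceReductionModL A N r)
    {E : Divisor (AlgebraicClosure ℚ) (modularFunctionFieldBar N)}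
    (hE : E ∈ AddSubgroup.closure (integralPrincipalDivisors A (IsLocalRing.residue A) N)) :
    ∃ a b : IntegralFn A N,
      (∀ P, E P = P.ord a.gen - P.ord b.gen) ∧
      ∀ Q, Finsupp.mapDomain r E Q = Q.ord a.red - Q.ord b.red := by
  induction hE using AddSubgroup.closure_induction with
  | mem E hE =>
    obtain ⟨y, hy, hyk, hne, hDy⟩ := hE
    refine ⟨⟨y, hy, hyk, hne⟩, IntegralFn.one, fun P => ?_, fun Q => ?_⟩
    · rw [IntegralFn.gen_one, Place.ord_one, sub_zero]
      exact hDy P
    · rw [IntegralFn.red_one, Place.ord_one, sub_zero]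
      exact hr.2 y hy hyk hne E hDy Q
  | zero =>
    refine ⟨IntegralFn.one, IntegralFn.one, fun P => ?_, fun Q => ?_⟩
    · simp
    · simp
  | add E E' _ _ hE hE' =>
    obtain ⟨a, b, h1, h2⟩ := hE
    obtain ⟨a', b', h1', h2'⟩ := hE'
    refine ⟨a.mul a', b.mul b', fun P => ?_, fun Q => ?_⟩
    · rw [Finsupp.add_apply, h1 P, h1' P, IntegralFn.gen_mul, IntegralFn.gen_mul,
        P.ord_mul a.gen_ne_zero a'.gen_ne_zero, P.ord_mul b.gen_ne_zero b'.gen_ne_zero]
      ring
    · rw [Finsupp.mapDomain_add, Finsupp.add_apply, h2 Q, h2' Q, IntegralFn.red_mul,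
        IntegralFn.red_mul, Q.ord_mul a.red_ne_zero a'.red_ne_zero,
        Q.ord_mul b.red_ne_zero b'.red_ne_zero]
      ring
  | neg E _ hE =>
    obtain ⟨a, b, h1, h2⟩ := hE
    refine ⟨b, a, fun P => ?_, fun Q => ?_⟩
    · rw [Finsupp.neg_apply, h1 P]; ring
    · rw [← Finsupp.mapDomain.addMonoidHom_apply, map_neg, Finsupp.mapDomain.addMonoidHom_apply,
        Finsupp.neg_apply, h2 Q]
      ring

end Glue

/-- **Top reduction**: the Kummer core implies the frozen statement S18. -/
theorem result_of_core (N : ℕ) [NeZero N] {ℓ : ℕ} (hcore : Stmt_Core N ℓ)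
    (A : ValuationSubring (AlgebraicClosure ℚ)) (hA : A.LiesOverPrime ℓ)
    (h : ModularCurve.ReductionInputsModL A N) (m : ℕ) (hm : ¬ ℓ ∣ m) (z : ModularCurve.JZero N)
    (hmz : m • z = 0) (hz : ModularCurve.reductionModL A N z = 0) :
    z = 0 := by
  obtain ⟨D, rfl⟩ := Pic0.mk_surjective z
  have hr := isPlaceReductionModL_placeReductionModL h
  have hgen : PrincipalGeneratedByIntegral A (IsLocalRing.residue A) N := h.choose_spec.2
  -- `m • D` is principal
  have hmD : (m • (D : Divisor (AlgebraicClosure ℚ) (modularFunctionFieldBar N))) ∈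
      Divisor.principal (K := AlgebraicClosure ℚ) (F := modularFunctionFieldBar N) := by
    have h1 : ((m • D : Divisor.degZero (K := AlgebraicClosure ℚ) (F := modularFunctionFieldBar N)) :
        Divisor.degZero (K := AlgebraicClosure ℚ) (F := modularFunctionFieldBar N)) ∈
        (Divisor.principal (K := AlgebraicClosure ℚ) (F := modularFunctionFieldBar N)).addSubgroupOf
          (Divisor.degZero (K := AlgebraicClosure ℚ) (F := modularFunctionFieldBar N)) := by
      rw [← QuotientAddGroup.eq_zero_iff, QuotientAddGroup.mk_nsmul]
      exact hmz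
    rw [AddSubgroup.mem_addSubgroupOf, AddSubgroupClass.coe_nsmul] at h1
    exact h1
  -- the reduction of `D` is principal
  have hred : Finsupp.mapDomain (placeReductionModL h)
      (D : Divisor (AlgebraicClosure ℚ) (modularFunctionFieldBar N)) ∈
      Divisor.principal (K := IsLocalRing.ResidueField A)
        (F := modularFunctionFieldFullC (IsLocalRing.ResidueField A) N) := by
    rw [reductionModL_mk h D] at hz
    have h1 := (QuotientAddGroup.eq_zero_iff _).mp hz
    rw [AddSubgroup.mem_addSubgroupOf, coe_reductionDegZeroAlong] at h1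
    exact h1
  obtain ⟨w, hw0, hw⟩ := hred
  obtain ⟨a, b, hab, habred⟩ := exists_integralFn_of_mem_closure hr (hgen hmD)
  have hDprin : Divisor.IsPrincipal (D : Divisor (AlgebraicClosure ℚ) (modularFunctionFieldBar N)) := by
    refine hcore A hA h m hm a b D (Divisor.mem_degZero.mp D.2) (fun P => ?_) w hw0 hw (fun Q => ?_)
    · rw [← hab P, Finsupp.smul_apply, nsmul_eq_mul]
    · rw [← habred Q, Finsupp.mapDomain_smul, Finsupp.smul_apply, hw Q, nsmul_eq_mul]
  show Pic0.mk D = 0
  exact (QuotientAddGroup.eq_zero_iff _).mpr (AddSubgroup.mem_addSubgroupOf.mpr hDprin)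

end Fermat.Agent.S18.helper3054
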