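import Mathlib
import Fermat.Agent.S18.helper3054_Top
import Fermat.Agent.S18.helper2557_LevelNorm

/-!
# S18-LEVEL, part 2: the Kummer statement in field form and its descent along `N ∣ N'`

* `Stmt_KummerField N ℓ`: the field form of the Kummer core at level `N`.
* `kummerField_descent`: if `N ∣ N'` and `[F_{N'} : F_N]` is a power of `ℓ`, then
  `Stmt_KummerField N' ℓ → Stmt_KummerField N ℓ` (restriction of places + norm descent).
* `core_of_kummerField`: `Stmt_KummerField N ℓ` and the constants lemma in characteristic `ℓ`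
  give `helper3054.Stmt_Core N ℓ`, hence the frozen S18 by `helper3054.result_of_core`.
-/

set_option autoImplicit false
set_option synthInstance.maxHeartbeats 400000

noncomputable section

namespace Fermat.Agent.S18.helper2557

open ModularCurve AlgebraicCurve HahnSeries IntermediateField
open Fermat.Agent.S18.helper3054

section Mono

/-- Monotonicity of the characteristic-`ℓ` (any field) function fields in the level. -/
theorem fullC_mono (K : Type*) [Field K] {N N' : ℕ} (h : N ∣ N') :
    modularFunctionFieldFullC K N ≤ modularFunctionFieldFullC K N' := by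
  rw [modularFunctionFieldFullC, adjoin_le_iff]
  rintro x ⟨d, hne, hdvd, rfl⟩
  have := hne
  exact jqModCd_mem_full K N' (hdvd.trans h)

/-- Monotonicity of the characteristic-zero function fields over `ℚ̄` in the level. -/
theorem bar_mono {N N' : ℕ} (h : N ∣ N') :
    modularFunctionFieldBar N ≤ modularFunctionFieldBar N' := by
  have h0 : modularFunctionFieldFull N ≤ modularFunctionFieldFull N' := by
    rw [modularFunctionFieldFull, adjoin_le_iff]
    rintro x ⟨d, hne, hdvd, rfl⟩
    have := hne
    exact jqd_mem_full N' (hdvd.trans h)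
  refine IntermediateField.adjoin.mono _ _ _ ?_
  exact Set.image_mono h0

end Mono


section Inclusion

variable {L E : Type*} [Field L] [Field E] [Algebra L E] {F₁ F₂ : IntermediateField L E}

/-- The algebra structure of a larger intermediate field over a smaller one. -/
abbrev inclAlgebra (h : F₁ ≤ F₂) : Algebra F₁ F₂ := (IntermediateField.inclusion h).toRingHom.toAlgebra

theorem inclAlgebra_algebraMap_coe (h : F₁ ≤ F₂) (x : F₁) :
    ((@algebraMap F₁ F₂ _ _ (inclAlgebra h) x : F₂) : E) = (x : E) := rfl

theorem inclAlgebra_isScalarTower (h : F₁ ≤ F₂) :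
    @IsScalarTower L F₁ F₂ _ (inclAlgebra h).toSMul _ := by
  let := inclAlgebra h
  exact IsScalarTower.of_algebraMap_eq fun x => rfl

theorem finrank_inclAlgebra (h : F₁ ≤ F₂) :
    @Module.finrank F₁ F₂ _ _ (inclAlgebra h).toModule = F₁.relfinrank F₂ := by
  rw [relfinrank_eq_finrank_of_le h]
  let := inclAlgebra h
  exact LinearEquiv.finrank_eq
    { toFun := fun x => ⟨x.1, x.2⟩
      invFun := fun x => ⟨x.1, x.2⟩
      map_add' := fun _ _ => rfl
      map_smul' := fun _ _ => rfl
      left_inv := fun _ => rfl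
      right_inv := fun _ => rfl }

end Inclusion


section Kummer

/-- `ord` of a constant is `0`. -/
theorem ord_algebraMap_eq_zero {K F : Type*} [Field K] [Field F] [Algebra K F] (P : Place K F)
    (c : K) : P.ord (algebraMap K F c) = 0 := by
  rcases eq_or_ne c 0 with rfl | hc
  · simp
  have hcF : algebraMap K F c ≠ 0 := by rw [Ne, map_eq_zero]; exact hc
  have h1 : 0 ≤ P.ord (algebraMap K F c) := (mem_iff_ord_nonneg P hcF).mp (P.algebraMap_mem' c)
  have h2 : 0 ≤ P.ord (algebraMap K F c)⁻¹ := by
    rw [← map_inv₀]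
    refine (mem_iff_ord_nonneg P ?_).mp (P.algebraMap_mem' c⁻¹)
    rw [map_inv₀]; exact inv_ne_zero hcF
  rw [P.ord_inv] at h2
  omega

/-- **Field form of the Kummer core** at level `N` and residue characteristic `ℓ`:
a quotient `a/b` of integral functions whose divisor is divisible by `m` (`ℓ ∤ m`) and whose
reduction is (constant)·(`m`-th power) in the characteristic-`ℓ` function field is
(constant)·(`m`-th power) in the characteristic-zero function field. -/
def Stmt_KummerField (N : ℕ) (ℓ : ℕ) : Prop :=
  ∀ (A : ValuationSubring (AlgebraicClosure ℚ)), A.LiesOverPrime ℓ →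
  ∀ (m : ℕ), ¬ ℓ ∣ m →
  ∀ (a b : IntegralFn A N),
    (∀ P : Place (AlgebraicClosure ℚ) (modularFunctionFieldBar N),
      (m : ℤ) ∣ P.ord a.gen - P.ord b.gen) →
    (∃ (c : IsLocalRing.ResidueField A)
        (w : modularFunctionFieldFullC (IsLocalRing.ResidueField A) N),
      a.red = algebraMap (IsLocalRing.ResidueField A) _ c * (b.red * w ^ m)) →
    ∃ (c : AlgebraicClosure ℚ) (V : modularFunctionFieldBar N),
      a.gen = algebraMap (AlgebraicClosure ℚ) _ c * (b.gen * V ^ m)

/-- The constants lemma in characteristic `ℓ` at level `N`: a nonzero function without zeros and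
poles is constant. -/
def Stmt_ConstantsModL (N : ℕ) (ℓ : ℕ) : Prop :=
  ∀ (A : ValuationSubring (AlgebraicClosure ℚ)), A.LiesOverPrime ℓ →
  ∀ f : modularFunctionFieldFullC (IsLocalRing.ResidueField A) N, f ≠ 0 →
    (∀ Q : Place (IsLocalRing.ResidueField A)
        (modularFunctionFieldFullC (IsLocalRing.ResidueField A) N), Q.ord f = 0) →
    ∃ c : IsLocalRing.ResidueField A, f = algebraMap (IsLocalRing.ResidueField A) _ c

variable {A : ValuationSubring (AlgebraicClosure ℚ)} {N N' : ℕ}

/-- Transport of an integral function to a higher level (same Laurent series). -/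
def liftLevel (h : N ∣ N') (a : IntegralFn A N) : IntegralFn A N' where
  y := a.y
  mem := bar_mono h a.mem
  memk := fullC_mono _ h a.memk
  ne := a.ne

@[simp] theorem liftLevel_y (h : N ∣ N') (a : IntegralFn A N) : (liftLevel h a).y = a.y := rfl

theorem coe_liftLevel_gen (h : N ∣ N') (a : IntegralFn A N) :
    ((liftLevel h a).gen : LaurentSeries (AlgebraicClosure ℚ)) = (a.gen : LaurentSeries _) := rfl

theorem coe_liftLevel_red (h : N ∣ N') (a : IntegralFn A N) :
    ((liftLevel h a).red : LaurentSeries (IsLocalRing.ResidueField A)) = (a.red : LaurentSeries _) :=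
  rfl

theorem liftLevel_red_eq (h : N ∣ N') (a b : IntegralFn A N) (c : IsLocalRing.ResidueField A)
    (w : modularFunctionFieldFullC (IsLocalRing.ResidueField A) N) (m : ℕ)
    (hcw : a.red = algebraMap (IsLocalRing.ResidueField A) _ c * (b.red * w ^ m)) :
    (liftLevel h a).red = algebraMap (IsLocalRing.ResidueField A) _ c *
      ((liftLevel h b).red *
        (⟨(w : LaurentSeries _), fullC_mono _ h w.2⟩ :
          modularFunctionFieldFullC (IsLocalRing.ResidueField A) N') ^ m) := by
  apply Subtype.ext
  have h1 := congrArg Subtype.val hcw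
  simp only [IntermediateField.coe_mul, IntermediateField.coe_pow,
    IntermediateField.algebraMap_apply] at h1 ⊢
  rw [coe_liftLevel_red, coe_liftLevel_red]
  exact h1

theorem liftLevel_gen_eq (h : N ∣ N') (x : IntegralFn A N) :
    (liftLevel h x).gen
      = @algebraMap (modularFunctionFieldBar N) (modularFunctionFieldBar N') _ _
          (inclAlgebra (bar_mono h)) x.gen :=
  Subtype.ext rfl

/-- **Descent of the Kummer statement** along `N ∣ N'` when `[F_{N'} : F_N]` is a power of `ℓ`. -/
theorem kummerField_descent (h : N ∣ N') {ℓ : ℕ} [Fact ℓ.Prime]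
    (hdeg : ∃ k : ℕ, (modularFunctionFieldBar N).relfinrank (modularFunctionFieldBar N') = ℓ ^ k)
    (H : Stmt_KummerField N' ℓ) : Stmt_KummerField N ℓ := by
  intro A hA m hm a b hdiv hred
  obtain ⟨c, w, hcw⟩ := hred
  have hle := bar_mono h
  letI alg : Algebra (modularFunctionFieldBar N) (modularFunctionFieldBar N') := inclAlgebra hle
  have tower : IsScalarTower (AlgebraicClosure ℚ) (modularFunctionFieldBar N)
      (modularFunctionFieldBar N') := inclAlgebra_isScalarTower hle
  obtain ⟨k, hk⟩ := hdeg
  have hfr : Module.finrank (modularFunctionFieldBar N) (modularFunctionFieldBar N') = ℓ ^ k := by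
    rw [← hk]; exact finrank_inclAlgebra hle
  have hℓ : ℓ.Prime := Fact.out
  have fin : FiniteDimensional (modularFunctionFieldBar N) (modularFunctionFieldBar N') :=
    Module.finite_of_finrank_pos (by rw [hfr]; exact pow_pos hℓ.pos k)
  have hgenA : ∀ x : IntegralFn A N, (liftLevel h x).gen
      = algebraMap (modularFunctionFieldBar N) (modularFunctionFieldBar N') x.gen :=
    fun x => liftLevel_gen_eq h x
  -- apply the statement at level `N'`
  obtain ⟨c', V, hV⟩ := H A hA m hm (liftLevel h a) (liftLevel h b) (fun P => by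
      obtain ⟨e, -, he⟩ := exists_ramificationIdx (F := modularFunctionFieldBar N) P
      rw [hgenA, hgenA, he, he, ← mul_sub]
      exact Dvd.dvd.mul_left (hdiv _) _)
    ⟨c, _, liftLevel_red_eq h a b c w m hcw⟩
  -- norm descent for `U = a / b`
  have hb0 : b.gen ≠ 0 := b.gen_ne_zero
  have hb0' : algebraMap (modularFunctionFieldBar N) (modularFunctionFieldBar N') b.gen ≠ 0 := by
    rw [Ne, map_eq_zero]; exact hb0
  have hU : algebraMap (modularFunctionFieldBar N) (modularFunctionFieldBar N') (a.gen / b.gen)
      = algebraMap (AlgebraicClosure ℚ) (modularFunctionFieldBar N') c' * V ^ m := by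
    rw [map_div₀, ← hgenA, ← hgenA, hV, hgenA b]
    field_simp
  have hcop : Nat.Coprime (Module.finrank (modularFunctionFieldBar N) (modularFunctionFieldBar N')) m := by
    rw [hfr]
    exact Nat.Coprime.pow_left k ((Nat.Prime.coprime_iff_not_dvd hℓ).mpr hm)
  obtain ⟨c'', W, hW⟩ := norm_descent (K := AlgebraicClosure ℚ) hcop hU
  refine ⟨c'', W, ?_⟩
  rw [div_eq_iff hb0] at hW
  rw [hW]; ring

/-- **From the field form to `helper3054.Stmt_Core`**, given the constants lemma in
characteristic `ℓ` at level `N`. -/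
theorem core_of_kummerField [NeZero N] {ℓ : ℕ} (H : Stmt_KummerField N ℓ)
    (hconst : Stmt_ConstantsModL N ℓ) : Stmt_Core N ℓ := by
  intro A hA h m hm a b D _ hD w hw _ hab
  have hm0 : m ≠ 0 := fun h0 => hm (h0 ▸ dvd_zero ℓ)
  -- the reduction of `a / b` is a constant times `w ^ m`
  have hbr : b.red ≠ 0 := b.red_ne_zero
  have har : a.red ≠ 0 := a.red_ne_zero
  have hwm : w ^ m ≠ 0 := pow_ne_zero m hw
  have hf0 : a.red / (b.red * w ^ m) ≠ 0 := div_ne_zero har (mul_ne_zero hbr hwm)
  obtain ⟨c, hc⟩ := hconst A hA (a.red / (b.red * w ^ m)) hf0 (fun Q => by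
    rw [div_eq_mul_inv, Q.ord_mul har (inv_ne_zero (mul_ne_zero hbr hwm)), Q.ord_inv,
      Q.ord_mul hbr hwm, ← zpow_natCast, Q.ord_zpow]
    have := hab Q
    omega)
  obtain ⟨c', V, hV⟩ := H A hA m hm a b (fun P => ⟨D P, (hD P).symm⟩)
    ⟨c, w, by rw [div_eq_iff (mul_ne_zero hbr hwm)] at hc; exact hc⟩
  have ha0 : a.gen ≠ 0 := a.gen_ne_zero
  have hb0 : b.gen ≠ 0 := b.gen_ne_zero
  have hc'0 : algebraMap (AlgebraicClosure ℚ) (modularFunctionFieldBar N) c' ≠ 0 := by
    intro h0; rw [h0, zero_mul] at hV; exact ha0 hV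
  have hV0 : V ≠ 0 := by
    rintro rfl
    rw [zero_pow hm0, mul_zero, mul_zero] at hV
    exact ha0 hV
  refine ⟨V, hV0, fun P => ?_⟩
  have h1 := hD P
  rw [hV, P.ord_mul hc'0 (mul_ne_zero hb0 (pow_ne_zero m hV0)), P.ord_mul hb0 (pow_ne_zero m hV0),
    ord_algebraMap_eq_zero, ← zpow_natCast, P.ord_zpow] at h1
  have h2 : (m : ℤ) * D P = (m : ℤ) * P.ord V := by rw [h1]; ring
  exact mul_left_cancel₀ (by exact_mod_cast hm0) h2

end Kummer

end Fermat.Agent.S18.helper2557
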