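import Mathlib
import Fermat.Agent.S18.helper2557_LevelKummer
import Fermat.Agent.S24.helper1944_Degree
import Fermat.Agent.S24.helper1200_StmtLocalInf
import Fermat.Agent.S24.helper1356_StmtComb

/-!
# S18-LEVEL, part 3: the degree `[F_{N'} : F_N] = ψ(N') / ψ(N)` and the auxiliary levels

From the landed S24 degree theorem `[ℚ̄(X₀(M)) : ℚ̄(j)] = ψ(M)`:

* `relfinrank_bar_mul`: `[F_{N'} : F_N] · ψ(N) = ψ(N')` for `N ∣ N'`;
* `kummerField_of_lcm_two`: `Stmt_KummerField (lcm N 2) 3 → Stmt_KummerField N 3`;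
* `kummerField_of_lcm_three`: `Stmt_KummerField (lcm N 3) 2 → Stmt_KummerField N 2`.
-/

set_option autoImplicit false
set_option synthInstance.maxHeartbeats 400000

noncomputable section

namespace Fermat.Agent.S18.helper2557

open ModularCurve AlgebraicCurve HahnSeries IntermediateField
open Fermat.Agent.S18.helper3054 Fermat.Agent.S24.helper24

section Bridge

variable {K E : Type*} [Field K] [Field E] [Algebra K E]

/-- The degree of an intermediate field `F` over the subfield generated by one of its elements,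
as a relative degree in the ambient field. -/
theorem finrank_adjoin_simple_eq_relfinrank (F : IntermediateField K E) (x : F) :
    Module.finrank K⟮x⟯ F = (K⟮(x : E)⟯).relfinrank F := by
  have h1 : (K⟮x⟯).map F.val = K⟮(x : E)⟯ := by
    rw [IntermediateField.adjoin_map, Set.image_singleton]; rfl
  have h2 : (⊤ : IntermediateField K F).map F.val = F := by
    rw [← AlgHom.fieldRange_eq_map, IntermediateField.fieldRange_val]
  have h3 := relfinrank_map_map (A := K⟮x⟯) (B := (⊤ : IntermediateField K F)) F.val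
  rw [h1, h2, relfinrank_top_right] at h3
  exact h3.symm

end Bridge

/-- The subfield `ℚ̄(j)` of `ℚ̄((q))`. -/
def jField : IntermediateField Kbar (LaurentSeries Kbar) := Kbar⟮((jBar 1 : FN 1) : LaurentSeries Kbar)⟯

theorem coe_jBar_eq (N : ℕ) : ((jBar N : FN N) : LaurentSeries Kbar) = ((jBar 1 : FN 1) : LaurentSeries Kbar) := by
  rw [coe_jBar, coe_jBar]

/-- `[F_N : ℚ̄(j)] = ψ(N)` as a relative degree in `ℚ̄((q))`. -/
theorem relfinrank_jField_bar (N : ℕ) [NeZero N] :
    jField.relfinrank (modularFunctionFieldBar N) = dedekindPsi N := by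
  have h := (Fermat.Agent.S24.helper1944.stmt_JFinrank_of_localInf
    Fermat.Agent.S24.helper1200.stmt_LocalInf N).2
  rw [Fermat.Agent.S24.helper1356.stmt_Index N] at h
  rw [← h, finrank_adjoin_simple_eq_relfinrank, jField, coe_jBar_eq N]

theorem jField_le_bar (N : ℕ) : jField ≤ modularFunctionFieldBar N := by
  rw [jField, ← coe_jBar_eq N, IntermediateField.adjoin_simple_le_iff]
  exact (jBar N).2

/-- `[F_{N'} : F_N] · ψ(N) = ψ(N')` for `N ∣ N'`. -/
theorem relfinrank_bar_mul {N N' : ℕ} [NeZero N] [NeZero N'] (h : N ∣ N') :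
    (modularFunctionFieldBar N).relfinrank (modularFunctionFieldBar N') * dedekindPsi N
      = dedekindPsi N' := by
  rw [← relfinrank_jField_bar N, ← relfinrank_jField_bar N', mul_comm]
  exact relfinrank_mul_relfinrank (jField_le_bar N) (bar_mono h)


theorem dedekindPsi_pos' (N : ℕ) [NeZero N] : 0 < dedekindPsi N := by
  unfold dedekindPsi
  have h1 : (1 : ℕ) ∈ N.divisors.filter Squarefree := by simp [NeZero.ne N]
  calc 0 < N / 1 := by simp [Nat.pos_of_ne_zero (NeZero.ne N)]
    _ ≤ _ := Finset.single_le_sum (f := fun d => N / d) (fun _ _ => Nat.zero_le _) h1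

/-- `[F_{lcm(N,p)} : F_N]` is `1` if `p ∣ N` and `p + 1` otherwise. -/
theorem relfinrank_bar_lcm_prime (N : ℕ) [NeZero N] {p : ℕ} (hp : p.Prime) :
    (modularFunctionFieldBar N).relfinrank (modularFunctionFieldBar (N.lcm p))
      = if p ∣ N then 1 else p + 1 := by
  split_ifs with hpN
  · rw [Nat.lcm_eq_left hpN]
    exact IntermediateField.relfinrank_self (modularFunctionFieldBar N)
  · have hcop : Nat.Coprime N p := (Nat.coprime_comm.mp ((Nat.Prime.coprime_iff_not_dvd hp).mpr hpN))
    have hlcm : N.lcm p = N * p := hcop.lcm_eq_mul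
    have : NeZero (N.lcm p) := ⟨Nat.lcm_ne_zero (NeZero.ne N) hp.ne_zero⟩
    have h := relfinrank_bar_mul (Nat.dvd_lcm_left N p)
    have hψ : dedekindPsi (N.lcm p) = (p + 1) * dedekindPsi N := by
      rw [hlcm]
      exact Fermat.Agent.Lib.helper1356.dedekindPsi_mul_prime_of_not_dvd hp (NeZero.ne N) hpN
    rw [hψ] at h
    exact Nat.eq_of_mul_eq_mul_right (dedekindPsi_pos' N) h

theorem exists_relfinrank_lcm_two (N : ℕ) [NeZero N] :
    ∃ k : ℕ, (modularFunctionFieldBar N).relfinrank (modularFunctionFieldBar (N.lcm 2)) = 3 ^ k := by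
  rw [relfinrank_bar_lcm_prime N Nat.prime_two]
  split_ifs
  · exact ⟨0, rfl⟩
  · exact ⟨1, rfl⟩

theorem exists_relfinrank_lcm_three (N : ℕ) [NeZero N] :
    ∃ k : ℕ, (modularFunctionFieldBar N).relfinrank (modularFunctionFieldBar (N.lcm 3)) = 2 ^ k := by
  rw [relfinrank_bar_lcm_prime N Nat.prime_three]
  split_ifs
  · exact ⟨0, rfl⟩
  · exact ⟨2, rfl⟩

/-- `ℓ = 3`: the Kummer statement at the auxiliary level `lcm(N, 2)` gives it at level `N`. -/
theorem kummerField_of_lcm_two (N : ℕ) [NeZero N] (H : Stmt_KummerField (N.lcm 2) 3) :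
    Stmt_KummerField N 3 :=
  haveI : Fact (Nat.Prime 3) := ⟨Nat.prime_three⟩
  kummerField_descent (Nat.dvd_lcm_left N 2) (exists_relfinrank_lcm_two N) H

/-- `ℓ = 2`: the Kummer statement at the auxiliary level `lcm(N, 3)` gives it at level `N`. -/
theorem kummerField_of_lcm_three (N : ℕ) [NeZero N] (H : Stmt_KummerField (N.lcm 3) 2) :
    Stmt_KummerField N 2 :=
  haveI : Fact (Nat.Prime 2) := ⟨Nat.prime_two⟩
  kummerField_descent (Nat.dvd_lcm_left N 3) (exists_relfinrank_lcm_three N) H

/-- The auxiliary level of route #1924: `N` for `ℓ ≥ 5`, `lcm(N, 2)` for `ℓ = 3`,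
`lcm(N, 3)` for `ℓ = 2`. -/
def auxLevel (N ℓ : ℕ) : ℕ := if ℓ = 3 then N.lcm 2 else if ℓ = 2 then N.lcm 3 else N

theorem dvd_auxLevel (N ℓ : ℕ) : N ∣ auxLevel N ℓ := by
  unfold auxLevel
  split_ifs
  · exact Nat.dvd_lcm_left N 2
  · exact Nat.dvd_lcm_left N 3
  · exact dvd_rfl

theorem auxLevel_ne_zero (N ℓ : ℕ) [NeZero N] : auxLevel N ℓ ≠ 0 := by
  unfold auxLevel
  split_ifs
  · exact Nat.lcm_ne_zero (NeZero.ne N) (by norm_num)
  · exact Nat.lcm_ne_zero (NeZero.ne N) (by norm_num)
  · exact NeZero.ne N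

theorem not_dvd_auxLevel {N ℓ : ℕ} (hℓ : ℓ.Prime) (h : ¬ ℓ ∣ N) : ¬ ℓ ∣ auxLevel N ℓ := by
  unfold auxLevel
  split_ifs with h3 h2
  · subst h3
    intro hd
    rcases (Nat.Prime.dvd_mul Nat.prime_three).mp (hd.trans (Nat.lcm_dvd_mul N 2)) with h' | h'
    · exact h h'
    · exact absurd (Nat.le_of_dvd (by norm_num) h') (by norm_num)
  · subst h2
    intro hd
    rcases (Nat.Prime.dvd_mul Nat.prime_two).mp (hd.trans (Nat.lcm_dvd_mul N 3)) with h' | h'
    · exact h h'
    · exact absurd ((Nat.prime_dvd_prime_iff_eq Nat.prime_two Nat.prime_three).mp h') (by norm_num)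
  · exact h

/-- **Uniform descent**: the Kummer statement at the auxiliary level gives it at level `N`. -/
theorem kummerField_of_auxLevel (N : ℕ) [NeZero N] (ℓ : ℕ) (H : Stmt_KummerField (auxLevel N ℓ) ℓ) :
    Stmt_KummerField N ℓ := by
  unfold auxLevel at H
  split_ifs at H with h3 h2
  · subst h3; exact kummerField_of_lcm_two N H
  · subst h2; exact kummerField_of_lcm_three N H
  · exact H

/-- **S18 from the Kummer statement at the auxiliary level** and the constants lemma at
level `N` (the frozen statement's shape, via `helper3054.result_of_core`). -/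
theorem s18_of_kummerField_auxLevel (N : ℕ) [NeZero N] {ℓ : ℕ}
    (H : Stmt_KummerField (auxLevel N ℓ) ℓ) (hconst : Stmt_ConstantsModL N ℓ)
    (A : ValuationSubring (AlgebraicClosure ℚ)) (hA : A.LiesOverPrime ℓ)
    (h : ModularCurve.ReductionInputsModL A N) (m : ℕ) (hm : ¬ ℓ ∣ m) (z : ModularCurve.JZero N)
    (hmz : m • z = 0) (hz : ModularCurve.reductionModL A N z = 0) : z = 0 :=
  result_of_core N (core_of_kummerField (kummerField_of_auxLevel N ℓ H) hconst) A hA h m hm z hmz hz

end Fermat.Agent.S18.helper2557
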