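import Mathlib
import Fermat.Agent.S18.helper3054_Top
import Fermat.Agent.S18.helper3054_Kummer

/-!
# S18, track B (purity / tame specialisation): Spec

Track B proves the Kummer form of S18 at level `N` itself: for an integral pair `a, b` with
`m ∣ div (a / b)` and `ā / b̄ = c * w ^ m`, the quotient `a / b` is an `m`-th power in the
characteristic zero function field.  The proof has two halves which meet in ONE bundled object,
`KData` (a number-field model of the Kummer extension):

* `Stmt_KummerGlobal` (pure commutative algebra, no modular input): in a model in which each of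
  the two charts of the normal model over the `t`-line has "one component through every closed
  point of the special fibre" (`OneComponent`), the Kummer generator `θ` lies in the base field.
  Ingredients: two-chart Cech rigidity, the assembly by idempotents, Dedekind-Kummer splitting.
* `Stmt_Model N ℓ` (the modular side): a model exists whenever `a / b` is not an `m`-th power,
  and it has the `OneComponent` property on both charts (purity in dimension two, Abhyankar,
  Legendre / Hesse covers, with the ramification data of `X₀(N)` in characteristic zero and the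
  Igusa integrality at the Gauss prime).

The last theorem `kf_of_specB` derives the Kummer form from these two Props.
-/

set_option autoImplicit false
set_option synthInstance.maxHeartbeats 400000

noncomputable section

namespace Fermat.Agent.S18.helper3578

open Polynomial ModularCurve AlgebraicCurve

/-- "One component through every closed point": two minimal primes over `p` which are not
comaximal coincide.  (Shape of `hone0`, `hone1` in `helper2128.eq_of_mem_minimalPrimes_of_cech`.) -/
def OneComponent (M : Type*) [CommRing M] (p : M) : Prop :=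
  ∀ Q ∈ (Ideal.span {p}).minimalPrimes, ∀ Q' ∈ (Ideal.span {p}).minimalPrimes,
    Q ⊔ Q' ≠ ⊤ → Q = Q'

/-- The chart ring: integral closure of `A0[t]` in `L0` (vocabulary of `helper5122_CechInst`:
`x ∈ Chart A0 t ↔ IsIntegral (Algebra.adjoin A0 {t}) x`). -/
abbrev Chart (A0 : Type*) {L0 : Type*} [CommRing A0] [Field L0] [Algebra A0 L0] (t : L0) :
    Subalgebra (Algebra.adjoin A0 {t}) L0 :=
  integralClosure (Algebra.adjoin A0 {t}) L0

/-- The Gauss place of the base function field `F0 ⊇ K0(t)`, in the only form track B uses: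
a valuation subring `O` of `F0` containing `A0[t]`, in which `ϖ` is a non-unit, a polynomial in
`t` is a non-unit only if all its coefficients are divisible by `ϖ`, and every element of `O`
becomes integral over `A0[t]` after multiplication by a primitive polynomial in `t`
(i.e. `O` is the integral closure of the Gauss valuation ring of `K0(t)`: the Gauss valuation
has a unique extension to `F0`). -/
structure GaussData {A0 F0 : Type*} [CommRing A0] [Field F0] [Algebra A0 F0]
    (ϖ : A0) (t : F0) (O : ValuationSubring F0) : Prop where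
  le : ∀ x : A0, algebraMap A0 F0 x ∈ O
  unif : algebraMap A0 F0 ϖ ∈ O.nonunits
  t_mem : t ∈ O
  prim : ∀ p : A0[X], aeval t p ∈ O.nonunits → ∀ i, ϖ ∣ p.coeff i
  int : ∀ x ∈ O, ∃ s : A0[X], (∃ i, ¬ ϖ ∣ s.coeff i) ∧
    IsIntegral (Algebra.adjoin A0 {t}) (aeval t s * x)

/-- The bundled integration object of track B: a discrete valuation ring `A0` with fraction
field `K0` (a number field with the place induced by `A`), the function field `F0 ⊇ K0(t)`
with its Gauss place `O`, a Gauss unit `U` with residual `m`-th root `h`, and an extension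
`L0 ⊇ F0` containing an `m`-th root `θ` of `U`. -/
structure KData where
  A0 : Type
  K0 : Type
  F0 : Type
  L0 : Type
  [instA : CommRing A0]
  [domA : IsDomain A0]
  [dvrA : IsDiscreteValuationRing A0]
  [instK : Field K0]
  [czK : CharZero K0]
  [algAK : Algebra A0 K0]
  [fracAK : IsFractionRing A0 K0]
  [instF : Field F0]
  [algKF : Algebra K0 F0]
  [algAF : Algebra A0 F0]
  [towerAKF : IsScalarTower A0 K0 F0]
  [instL : Field L0]
  [algFL : Algebra F0 L0]
  [algKL : Algebra K0 L0]
  [algAL : Algebra A0 L0]
  [towerKFL : IsScalarTower K0 F0 L0]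
  [towerAKL : IsScalarTower A0 K0 L0]
  [towerAFL : IsScalarTower A0 F0 L0]
  ϖ : A0
  t : F0
  O : ValuationSubring F0
  ζ : A0
  U : F0
  h : F0
  θ : L0

namespace KData

attribute [instance] instA domA dvrA instK czK algAK fracAK instF algKF algAF towerAKF instL
  algFL algKL algAL towerKFL towerAKL towerAFL

variable (D : KData)

/-- The coordinate `t` of the base line, inside `L0`. -/
def tL : D.L0 := algebraMap D.F0 D.L0 D.t

/-- The uniformiser inside the finite chart (integral closure of `A0[t]` in `L0`). -/
def ϖ0 : ↥(Chart D.A0 D.tL) := algebraMap D.A0 ↥(Chart D.A0 D.tL) D.ϖ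

/-- The uniformiser inside the chart at infinity (integral closure of `A0[1/t]` in `L0`). -/
def ϖ1 : ↥(Chart D.A0 D.tL⁻¹) := algebraMap D.A0 ↥(Chart D.A0 D.tL⁻¹) D.ϖ

/-- The standing hypotheses on a model (everything except the `OneComponent` property). -/
structure Good (m : ℕ) : Prop where
  irr : Irreducible D.ϖ
  gauss : GaussData D.ϖ D.t D.O
  transc : Transcendental D.K0 D.t
  finite : FiniteDimensional ↥(IntermediateField.adjoin D.K0 ({D.tL} : Set D.L0)) D.L0
  const : ∀ z : D.L0, IsAlgebraic D.K0 z → z ∈ Set.range (algebraMap D.K0 D.L0)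
  unit_m : IsUnit (m : D.A0)
  prim_root : IsPrimitiveRoot D.ζ m
  U_mem : D.U ∈ D.O
  U_inv_mem : D.U⁻¹ ∈ D.O
  h_mem : D.h ∈ D.O
  h_pow : D.h ^ m - D.U ∈ D.O.nonunits
  θ_pow : D.θ ^ m = algebraMap D.F0 D.L0 D.U

/-- Both charts have one component through every closed point of the special fibre. -/
def OneComp : Prop := OneComponent ↥(Chart D.A0 D.tL) D.ϖ0 ∧ OneComponent ↥(Chart D.A0 D.tL⁻¹) D.ϖ1

end KData

/-- **Abstract half of track B** (Mathlib-only): in a good model with one component through
every closed point of both charts, the Gauss unit `U` is an `m`-th power in `F0`.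
Proof: `helper5122.icl_two_chart_idempotent` (Cech) + `helper2128.eq_of_mem_minimalPrimes_of_cech`
(unique minimal prime over `ϖ` in the finite chart) + Dedekind-Kummer (`helper2720`, DK2 with
`B := O`, using `GaussData.int` to compare primes of the integral closure of `O` with minimal
primes of the chart). -/
def Stmt_KummerGlobal : Prop :=
  ∀ (D : KData) (m : ℕ), D.Good m → D.OneComp → ∃ V : D.F0, V ^ m = D.U

/-- **Concrete half of track B**: for an integral Kummer pair at level `N` there is a good
model with the `OneComponent` property, whose base field `F0` maps to the function field of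
`X₀(N)` over `ℚ̄` sending `U` to `a / b`. -/
def Stmt_Model (N : ℕ) [NeZero N] (ℓ : ℕ) : Prop :=
  ∀ (A : ValuationSubring (AlgebraicClosure ℚ)), A.LiesOverPrime ℓ → ∀ m : ℕ, ¬ ℓ ∣ m →
  ∀ a b : helper3054.IntegralFn A N,
    (∀ P : Place (AlgebraicClosure ℚ) (modularFunctionFieldBar N),
      (m : ℤ) ∣ P.ord a.gen - P.ord b.gen) →
    (∃ w : modularFunctionFieldFullC (IsLocalRing.ResidueField A) N, w ≠ 0 ∧
      ∃ c : IsLocalRing.ResidueField A, c ≠ 0 ∧
        a.red = algebraMap _ (modularFunctionFieldFullC (IsLocalRing.ResidueField A) N) c *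
          w ^ m * b.red) →
    ∃ D : KData, D.Good m ∧ D.OneComp ∧
      ∃ ι : D.F0 →+* modularFunctionFieldBar N, ι D.U * b.gen = a.gen

/-- **Track B, top theorem**: the two halves give the Kummer form at level `N`
(the body of `helper702.Stmt_KF N ℓ`, with constant `c' = 1`). -/
theorem kf_of_specB (N : ℕ) [NeZero N] (ℓ : ℕ) (hG : Stmt_KummerGlobal) (hM : Stmt_Model N ℓ)
    (A : ValuationSubring (AlgebraicClosure ℚ)) (hA : A.LiesOverPrime ℓ) (m : ℕ) (hm : ¬ ℓ ∣ m)
    (a b : helper3054.IntegralFn A N)
    (hdiv : ∀ P : Place (AlgebraicClosure ℚ) (modularFunctionFieldBar N),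
      (m : ℤ) ∣ P.ord a.gen - P.ord b.gen)
    (hred : ∃ w : modularFunctionFieldFullC (IsLocalRing.ResidueField A) N, w ≠ 0 ∧
      ∃ c : IsLocalRing.ResidueField A, c ≠ 0 ∧
        a.red = algebraMap _ (modularFunctionFieldFullC (IsLocalRing.ResidueField A) N) c *
          w ^ m * b.red) :
    ∃ V : modularFunctionFieldBar N, a.gen = V ^ m * b.gen := by
  obtain ⟨D, hgood, hone, ι, hι⟩ := hM A hA m hm a b hdiv hred
  obtain ⟨V, hV⟩ := hG D m hgood hone
  exact ⟨ι V, by rw [← hι, ← hV, map_pow]⟩

/-! ## Version 2 (additions only; nothing above is changed)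

Canonical conclusion `helper3054.Stmt_KF0` (captain ruling R1): `Stmt_Model0`, `kf0_of_specB`.
The concrete side of track B has to prove `Stmt_Model0 N ℓ` (for the families of `(N, ℓ)` of
`helper2118.Stmt_KFj` / `Stmt_KFr`, see `helper3578_SpecBTop`); the abstract side proves
`Stmt_KummerGlobal`.  `OneComp` is supplied chart by chart (`KData.OneCompAt`), primarily by
trace-duality normality (lemma DN) from the vertical unit discriminant and the characteristic
zero trace-dual bound; purity / Abhyankar / Legendre-Hesse is the second supply.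
-/

namespace KData

variable (D : KData)

/-- The base-line field `K0(t)` inside `L0`. -/
abbrev Kt : IntermediateField D.K0 D.L0 := IntermediateField.adjoin D.K0 ({D.tL} : Set D.L0)

/-- One component through every closed point of the chart with coordinate `t'`
(`t' = tL` or `t' = tL⁻¹`). -/
def OneCompAt (t' : D.L0) : Prop :=
  OneComponent ↥(Chart D.A0 t') (algebraMap D.A0 ↥(Chart D.A0 t') D.ϖ)

theorem oneComp_iff : D.OneComp ↔ D.OneCompAt D.tL ∧ D.OneCompAt D.tL⁻¹ := Iff.rfl

end KData

/-- The hypotheses of the Kummer form `helper3054.Stmt_KF0` give a model with the `OneComp`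
property (`c = 1` form of `Stmt_Model`; THIS is the target of the concrete side). -/
def Stmt_Model0 (N : ℕ) [NeZero N] (ℓ : ℕ) : Prop :=
  ∀ (A : ValuationSubring (AlgebraicClosure ℚ)), A.LiesOverPrime ℓ → ∀ m : ℕ, ¬ ℓ ∣ m →
  ∀ a b : helper3054.IntegralFn A N,
    (∀ P : Place (AlgebraicClosure ℚ) (modularFunctionFieldBar N),
      (m : ℤ) ∣ P.ord a.gen - P.ord b.gen) →
    ∀ w : modularFunctionFieldFullC (IsLocalRing.ResidueField A) N, w ≠ 0 →
      a.red = w ^ m * b.red →
      ∃ D : KData, D.Good m ∧ D.OneComp ∧
        ∃ ι : D.F0 →+* modularFunctionFieldBar N, ι D.U * b.gen = a.gen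

/-- **Track B, top theorem (canonical form)**: the Kummer form `helper3054.Stmt_KF0 N ℓ`. -/
theorem kf0_of_specB (N : ℕ) [NeZero N] (ℓ : ℕ) (hG : Stmt_KummerGlobal)
    (hM : Stmt_Model0 N ℓ) : helper3054.Stmt_KF0 N ℓ := by
  intro A hA m hm a b hdiv w hw hred
  obtain ⟨D, hgood, hone, ι, hι⟩ := hM A hA m hm a b hdiv w hw hred
  obtain ⟨V, hV⟩ := hG D m hgood hone
  exact ⟨ι V, 1, by rw [map_one, one_mul, ← hι, ← hV, map_pow]⟩

/-! ## Version 3 (additions only; nothing above is changed)

The trace-duality route ("B-DN") to `OneComp`, as exact interface Props.  For a chart coordinate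
`s ∈ {tL, tL⁻¹}` of a good model:

* `KData.VertAt s` : **(c)** vertical unit discriminant of `L0 / K0(s)` at the Gauss prime
  (`KData.VertF τ` is the same statement with the chart coordinate `τ ∈ F0`;
  `KData.vertAt_of_vertF` transports it);
* `KData.HorizAt s G` : horizontal tameness of the generic fibre away from `G(s) = 0`;
* `Stmt_DNChart` : (c) + horizontal tameness + `G` squarefree mod `ϖ` ⟹ `OneCompAt s`
  (trace-duality normality composed with the trace-dual bound);
* `KData.Supply`, `Stmt_ModelS`, `model0_of_modelS` : the concrete side has to produce a model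
  with `KData.Supply` for the branch polynomials of the base line.
-/

/-- Transport of a basis with prescribed discriminant along `F → L`: from the base-line field
`K(τ) ⊆ F` to `K(s) ⊆ L`, `s` the image of `τ`. -/
theorem vert_transport {A K F L : Type*} [CommRing A] [Field K] [Field F] [Field L]
    [Algebra A K] [Algebra K F] [Algebra A F] [IsScalarTower A K F] [Algebra F L] [Algebra K L]
    [Algebra A L] [IsScalarTower K F L] [IsScalarTower A F L] (τ : F)
    {ι : Type*} [Fintype ι] [DecidableEq ι]
    (c : Module.Basis ι ↥(IntermediateField.adjoin K ({τ} : Set F)) L) (dp : A[X])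
    (hint : ∀ i, IsIntegral ↥(Algebra.adjoin A ({τ} : Set F)) (c i))
    (hd : algebraMap ↥(IntermediateField.adjoin K ({τ} : Set F)) F
      (Algebra.discr ↥(IntermediateField.adjoin K ({τ} : Set F)) c) = aeval τ dp) :
    ∃ c' : Module.Basis ι ↥(IntermediateField.adjoin K ({algebraMap F L τ} : Set L)) L,
      (∀ i, IsIntegral ↥(Algebra.adjoin A ({algebraMap F L τ} : Set L)) (c' i)) ∧
      algebraMap ↥(IntermediateField.adjoin K ({algebraMap F L τ} : Set L)) L
        (Algebra.discr ↥(IntermediateField.adjoin K ({algebraMap F L τ} : Set L)) c') =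
        aeval (algebraMap F L τ) dp := by
  classical
  let f : F →ₐ[K] L := IsScalarTower.toAlgHom K F L
  have hmap : (IntermediateField.adjoin K ({τ} : Set F)).map f =
      IntermediateField.adjoin K ({algebraMap F L τ} : Set L) := by
    rw [IntermediateField.adjoin_map, Set.image_singleton]
    rfl
  let e : ↥(IntermediateField.adjoin K ({τ} : Set F)) ≃+*
      ↥(IntermediateField.adjoin K ({algebraMap F L τ} : Set L)) :=
    ((IntermediateField.adjoin K ({τ} : Set F)).equivMap f).toRingEquiv.trans
      (IntermediateField.equivOfEq hmap).toRingEquiv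
  have he : ∀ x : ↥(IntermediateField.adjoin K ({τ} : Set F)),
      ((e x : ↥(IntermediateField.adjoin K ({algebraMap F L τ} : Set L))) : L) =
        algebraMap F L (x : F) := fun _ => rfl
  have hsmul : ∀ (k : ↥(IntermediateField.adjoin K ({τ} : Set F))) (x : L), e k • x = k • x :=
    fun k x => by
      rw [Algebra.smul_def, Algebra.smul_def]
      rfl
  refine ⟨c.mapCoeffs e hsmul, ?_, ?_⟩
  · intro i
    rw [Module.Basis.mapCoeffs_apply]
    obtain ⟨p, hp, hp0⟩ := hint i
    have hmapA : (Algebra.adjoin A ({τ} : Set F)).map (IsScalarTower.toAlgHom A F L) =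
        Algebra.adjoin A ({algebraMap F L τ} : Set L) := by
      rw [AlgHom.map_adjoin_singleton]
      rfl
    let g : ↥(Algebra.adjoin A ({τ} : Set F)) →+*
        ↥(Algebra.adjoin A ({algebraMap F L τ} : Set L)) :=
      { toFun := fun x => ⟨algebraMap F L (x : F), by
          rw [← hmapA]
          exact ⟨x, x.2, rfl⟩⟩
        map_one' := Subtype.ext (map_one _)
        map_mul' := fun x y => Subtype.ext (map_mul _ _ _)
        map_zero' := Subtype.ext (map_zero _)
        map_add' := fun x y => Subtype.ext (map_add _ _ _) }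
    refine ⟨p.map g, hp.map g, ?_⟩
    rw [Polynomial.eval₂_map]
    exact hp0
  · have htr : ∀ x : L,
        Algebra.trace ↥(IntermediateField.adjoin K ({algebraMap F L τ} : Set L)) L x =
          e (Algebra.trace ↥(IntermediateField.adjoin K ({τ} : Set F)) L x) := by
      intro x
      exact (Algebra.trace_eq_of_ringEquiv e (by ext k; rfl) x).symm
    have hdisc : Algebra.discr ↥(IntermediateField.adjoin K ({algebraMap F L τ} : Set L))
        (c.mapCoeffs e hsmul) =
        e (Algebra.discr ↥(IntermediateField.adjoin K ({τ} : Set F)) c) := by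
      rw [Algebra.discr_def, Algebra.discr_def, RingEquiv.map_det]
      congr 1
      ext i j
      simp only [Algebra.traceMatrix_apply, Algebra.traceForm_apply, Module.Basis.mapCoeffs_apply,
        RingEquiv.mapMatrix_apply, Matrix.map_apply]
      rw [htr]
    rw [hdisc]
    show ((e (Algebra.discr ↥(IntermediateField.adjoin K ({τ} : Set F)) c) :
      ↥(IntermediateField.adjoin K ({algebraMap F L τ} : Set L))) : L) = _
    rw [he]
    have h2 : ((Algebra.discr ↥(IntermediateField.adjoin K ({τ} : Set F)) c :
        ↥(IntermediateField.adjoin K ({τ} : Set F))) : F) = aeval τ dp := hd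
    rw [h2, ← Polynomial.aeval_algebraMap_apply]

namespace KData

variable (D : KData)

/-- **(c), `F0`-level.** Vertical unit discriminant of `L0 / K0(τ)` for a chart coordinate
`τ ∈ F0` (`τ = t` or `τ = t⁻¹`): a `K0(τ)`-basis of `L0`, integral over `A0[τ]`, whose
discriminant is `dp(τ)` with `dp ∈ A0[X]` primitive at `ϖ` (some coefficient is not divisible
by `ϖ`).  Supplied by VERT (orthonormal lift of a residue basis + the Kummer layer). -/
def VertF (τ : D.F0) : Prop :=
  ∃ (ι : Type) (_ : Fintype ι) (_ : DecidableEq ι)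
    (c : Module.Basis ι ↥(IntermediateField.adjoin D.K0 ({τ} : Set D.F0)) D.L0) (dp : D.A0[X]),
    (∀ i, IsIntegral ↥(Algebra.adjoin D.A0 ({τ} : Set D.F0)) (c i)) ∧
    algebraMap ↥(IntermediateField.adjoin D.K0 ({τ} : Set D.F0)) D.F0
      (Algebra.discr ↥(IntermediateField.adjoin D.K0 ({τ} : Set D.F0)) c) = aeval τ dp ∧
    ∃ i, ¬ D.ϖ ∣ dp.coeff i

/-- **(c), chart level** (everything inside `L0`): the same statement for the chart coordinate
`s ∈ L0` (`s = tL` or `s = tL⁻¹`).  With `P := A0[s]`, `K := K0(s)`, `d := dp(s)` this is the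
hypothesis `hc` of the trace-duality normality lemma and of `helper1148.dualBound`. -/
def VertAt (s : D.L0) : Prop :=
  ∃ (ι : Type) (_ : Fintype ι) (_ : DecidableEq ι)
    (c : Module.Basis ι ↥(IntermediateField.adjoin D.K0 ({s} : Set D.L0)) D.L0) (dp : D.A0[X]),
    (∀ i, IsIntegral ↥(Algebra.adjoin D.A0 ({s} : Set D.L0)) (c i)) ∧
    algebraMap ↥(IntermediateField.adjoin D.K0 ({s} : Set D.L0)) D.L0
      (Algebra.discr ↥(IntermediateField.adjoin D.K0 ({s} : Set D.L0)) c) = aeval s dp ∧
    ∃ i, ¬ D.ϖ ∣ dp.coeff i

/-- Transport of (c) from the `F0`-level chart to the chart inside `L0`. -/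
theorem vertAt_of_vertF (τ : D.F0) (h : D.VertF τ) : D.VertAt (algebraMap D.F0 D.L0 τ) := by
  obtain ⟨ι, hF, hDec, c, dp, hint, hd, hprim⟩ := h
  obtain ⟨c', hint', hd'⟩ := vert_transport (A := D.A0) (K := D.K0) τ c dp hint hd
  exact ⟨ι, hF, hDec, c', dp, hint', hd', hprim⟩

/-- **(a')-input, chart level.** Horizontal tameness of the generic fibre on the chart with
coordinate `s ∈ L0`: every nonzero prime `Q` of the integral closure of `K0[s]` in `L0` which
does not contain `G(s)` is unramified over `K0[s]` (shape `hs` of `helper1148.dualBound`, with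
`A' := K0[s]`; the condition `G(s) ∉ Q` is stated elementwise). -/
def HorizAt (s : D.L0) (G : D.A0[X]) : Prop :=
  ∀ Q : Ideal ↥(integralClosure ↥(Algebra.adjoin D.K0 ({s} : Set D.L0)) D.L0), Q.IsPrime → Q ≠ ⊥ →
    (∀ x ∈ Q, (x : D.L0) ≠ aeval s G) →
    ¬ Q ^ 2 ∣ (Q.under ↥(Algebra.adjoin D.K0 ({s} : Set D.L0))).map
      (algebraMap ↥(Algebra.adjoin D.K0 ({s} : Set D.L0))
        ↥(integralClosure ↥(Algebra.adjoin D.K0 ({s} : Set D.L0)) D.L0))

/-- **The supply of the concrete side** for the trace-duality route: a good model, the vertical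
unit discriminant on both charts (`F0`-level) and the horizontal tameness away from the branch
polynomials `G₀` (chart `t`) and `G₁` (chart `1/t`), both squarefree modulo `ϖ`. -/
structure Supply (m : ℕ) (G₀ G₁ : D.A0[X]) : Prop where
  good : D.Good m
  sq₀ : Squarefree (G₀.map (Ideal.Quotient.mk (Ideal.span {D.ϖ})))
  sq₁ : Squarefree (G₁.map (Ideal.Quotient.mk (Ideal.span {D.ϖ})))
  vert₀ : D.VertF D.t
  vert₁ : D.VertF D.t⁻¹
  horiz₀ : D.HorizAt D.tL G₀
  horiz₁ : D.HorizAt D.tL⁻¹ G₁

end KData

/-- **Chart form of trace-duality normality (DN ∘ DN-A)**: on a chart of a good model, the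
vertical unit discriminant and the horizontal tameness away from a polynomial which is
squarefree modulo `ϖ` give one component through every closed point of the special fibre. -/
def Stmt_DNChart : Prop :=
  ∀ (D : KData) (m : ℕ), D.Good m → ∀ s : D.L0, (s = D.tL ∨ s = D.tL⁻¹) →
    ∀ G : D.A0[X], Squarefree (G.map (Ideal.Quotient.mk (Ideal.span {D.ϖ}))) →
      D.VertAt s → D.HorizAt s G → D.OneCompAt s

theorem oneComp_of_supply (hDN : Stmt_DNChart) (D : KData) (m : ℕ)
    (G₀ G₁ : D.A0[X]) (hS : D.Supply m G₀ G₁) : D.OneComp := by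
  refine ⟨hDN D m hS.good D.tL (Or.inl rfl) G₀ hS.sq₀ (D.vertAt_of_vertF D.t hS.vert₀)
    hS.horiz₀, hDN D m hS.good D.tL⁻¹ (Or.inr rfl) G₁ hS.sq₁ ?_ hS.horiz₁⟩
  have h := D.vertAt_of_vertF D.t⁻¹ hS.vert₁
  rwa [map_inv₀] at h

/-- **Concrete half, trace-duality form**: the hypotheses of `helper3054.Stmt_KF0` give a model
with `KData.Supply` for the branch polynomials `G₀`, `G₁ ∈ ℤ[X]` of the base line. -/
def Stmt_ModelS (N : ℕ) [NeZero N] (ℓ : ℕ) (G₀ G₁ : ℤ[X]) : Prop :=
  ∀ (A : ValuationSubring (AlgebraicClosure ℚ)), A.LiesOverPrime ℓ → ∀ m : ℕ, ¬ ℓ ∣ m →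
  ∀ a b : helper3054.IntegralFn A N,
    (∀ P : Place (AlgebraicClosure ℚ) (modularFunctionFieldBar N),
      (m : ℤ) ∣ P.ord a.gen - P.ord b.gen) →
    ∀ w : modularFunctionFieldFullC (IsLocalRing.ResidueField A) N, w ≠ 0 →
      a.red = w ^ m * b.red →
      ∃ D : KData, D.Supply m (G₀.map (Int.castRingHom D.A0)) (G₁.map (Int.castRingHom D.A0)) ∧
        ∃ ι : D.F0 →+* modularFunctionFieldBar N, ι D.U * b.gen = a.gen

/-- The trace-duality route: `Stmt_DNChart` and a model with `KData.Supply` give
`Stmt_Model0`. -/
theorem model0_of_modelS (hDN : Stmt_DNChart) (N : ℕ) [NeZero N]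
    (ℓ : ℕ) (G₀ G₁ : ℤ[X]) (hM : Stmt_ModelS N ℓ G₀ G₁) : Stmt_Model0 N ℓ := by
  intro A hA m hm a b hdiv w hw hred
  obtain ⟨D, hS, hι⟩ := hM A hA m hm a b hdiv w hw hred
  exact ⟨D, hS.good, oneComp_of_supply hDN D m _ _ hS, hι⟩

end Fermat.Agent.S18.helper3578
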