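import Mathlib
import Fermat.Prelude.Def_AlgebraicCurve_DivisorPushPull
import Fermat.Agent.S18.helper3054_Kummer

/-!
# S18: level change of the Kummer form by the norm

Everything is stated on the canonical interface `helper3054.Stmt_KF` / `helper3054.Stmt_KF0`
(`Fermat/Agent/S18/helper3054_Kummer.lean`); no Kummer form is defined here.

* `exists_pow_eq_mul_pow_of_le` : **norm form**, for intermediate fields `E ≤ E'` of a common
  field: if `x / y` (`x y : E`, all orders of `x / y` divisible by `m`) becomes a constant times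
  an `m`-th power in `E'` (under the pulled-back divisibility of orders), then
  `(x / y) ^ [E' : E]` is a constant times an `m`-th power in `E`.
* `exists_eq_mul_pow_of_bezout` : if `(x / y) ^ d₁` and `(x / y) ^ d₂` are constants times
  `m`-th powers and `gcd (gcd d₁ d₂) m = 1`, so is `x / y`.
* `kf_descent` : `N ∣ N'`, `[F_{N'} : F_N]` prime to every `m` prime to `ℓ`:
  `Stmt_KF N' ℓ → Stmt_KF N ℓ`.
* `kf_descent_two` : `N ∣ N₂`, `N ∣ N₃`, `gcd [F_{N₂} : F_N] [F_{N₃} : F_N]` prime to every `m`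
  prime to `ℓ`: `Stmt_KF N₂ ℓ → Stmt_KF N₃ ℓ → Stmt_KF N ℓ`.
* `kf_descent_of_dvd`, `kf_descent_two_of_dvd` : the same with the degrees given by divisibility
  (`[F_{N'} : F_N] ∣ ℓ ^ k`, resp. the two degrees dividing coprime numbers).
* `kf0_descent`, `kf0_descent_two` : the same statements for `Stmt_KF0`.
-/

set_option autoImplicit false
set_option synthInstance.maxHeartbeats 400000

noncomputable section

namespace Fermat.Agent.S18.helper702

open ModularCurve AlgebraicCurve HahnSeries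
open Fermat.Agent.S18.helper3054

/-! ### Abstract part -/

section Abstract

variable {K F F' : Type*} [Field K] [Field F] [Field F'] [Algebra K F] [Algebra K F']
  [Algebra F F'] [IsScalarTower K F F']

/-- **Norm form.**  If `x = c * V ^ m * y` in a finite extension `F'` of `F` (`x y : F`), then
`x ^ d = c' * W ^ m * y ^ d` in `F`, where `d = [F' : F]`. -/
theorem exists_pow_eq_mul_pow_of_finrank [FiniteDimensional F F'] (m : ℕ) (x y : F) (V : F')
    (c : K) (h : algebraMap F F' x = algebraMap K F' c * V ^ m * algebraMap F F' y) :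
    ∃ (W : F) (c' : K),
      x ^ Module.finrank F F' = algebraMap K F c' * W ^ m * y ^ Module.finrank F F' := by
  refine ⟨Algebra.norm F V, c ^ Module.finrank F F', ?_⟩
  have h1 := congrArg (Algebra.norm F) h
  rw [IsScalarTower.algebraMap_apply K F F', map_mul, map_mul, Algebra.norm_algebraMap,
    Algebra.norm_algebraMap, Algebra.norm_algebraMap, map_pow] at h1
  rw [h1, map_pow]

/-- **Bezout.**  If `(x / y) ^ d₁` and `(x / y) ^ d₂` are constants times `m`-th powers and
`gcd (gcd d₁ d₂) m = 1`, then `x / y` is a constant times an `m`-th power. -/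
theorem exists_eq_mul_pow_of_bezout (m : ℕ) (x y : F) (hy : y ≠ 0) (d₁ d₂ : ℕ)
    (hcop : Nat.Coprime (Nat.gcd d₁ d₂) m)
    (h₁ : ∃ (W : F) (c : K), x ^ d₁ = algebraMap K F c * W ^ m * y ^ d₁)
    (h₂ : ∃ (W : F) (c : K), x ^ d₂ = algebraMap K F c * W ^ m * y ^ d₂) :
    ∃ (W : F) (c : K), x = algebraMap K F c * W ^ m * y := by
  rcases eq_or_ne x 0 with rfl | hx
  · exact ⟨1, 0, by simp⟩
  obtain ⟨W₁, c₁, hW₁⟩ := h₁
  obtain ⟨W₂, c₂, hW₂⟩ := h₂
  set u : F := x / y with hu
  have hu0 : u ≠ 0 := div_ne_zero hx hy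
  have hu₁ : u ^ d₁ = algebraMap K F c₁ * W₁ ^ m := by
    rw [hu, div_pow, hW₁, mul_div_assoc, div_self (pow_ne_zero _ hy), mul_one]
  have hu₂ : u ^ d₂ = algebraMap K F c₂ * W₂ ^ m := by
    rw [hu, div_pow, hW₂, mul_div_assoc, div_self (pow_ne_zero _ hy), mul_one]
  -- Bezout coefficients
  obtain ⟨s₁, s₂, t, hst⟩ : ∃ s₁ s₂ t : ℤ, (d₁ : ℤ) * s₁ + (d₂ : ℤ) * s₂ + (m : ℤ) * t = 1 := by
    obtain ⟨p, q, hpq⟩ := Nat.Coprime.isCoprime hcop
    have hg : ((Nat.gcd d₁ d₂ : ℕ) : ℤ) = (d₁ : ℤ) * Nat.gcdA d₁ d₂ + (d₂ : ℤ) * Nat.gcdB d₁ d₂ :=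
      Nat.gcd_eq_gcd_ab d₁ d₂
    refine ⟨p * Nat.gcdA d₁ d₂, p * Nat.gcdB d₁ d₂, q, ?_⟩
    rw [hg] at hpq
    linarith
  refine ⟨W₁ ^ s₁ * W₂ ^ s₂ * u ^ t, c₁ ^ s₁ * c₂ ^ s₂, ?_⟩
  have key : u = algebraMap K F (c₁ ^ s₁ * c₂ ^ s₂) * (W₁ ^ s₁ * W₂ ^ s₂ * u ^ t) ^ m := by
    calc u = u ^ ((d₁ : ℤ) * s₁ + (d₂ : ℤ) * s₂ + (m : ℤ) * t) := by rw [hst, zpow_one]
      _ = (u ^ d₁) ^ s₁ * (u ^ d₂) ^ s₂ * (u ^ t) ^ m := by
        rw [zpow_add₀ hu0, zpow_add₀ hu0, zpow_mul, zpow_mul, zpow_natCast, zpow_natCast,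
          mul_comm (m : ℤ) t, zpow_mul, zpow_natCast]
      _ = (algebraMap K F c₁ * W₁ ^ m) ^ s₁ * (algebraMap K F c₂ * W₂ ^ m) ^ s₂ * (u ^ t) ^ m := by
        rw [hu₁, hu₂]
      _ = algebraMap K F (c₁ ^ s₁ * c₂ ^ s₂) * (W₁ ^ s₁ * W₂ ^ s₂ * u ^ t) ^ m := by
        rw [map_mul, map_zpow₀, map_zpow₀, mul_zpow, mul_zpow, mul_pow, mul_pow,
          ← zpow_natCast (W₁ ^ s₁) m, ← zpow_natCast (W₂ ^ s₂) m, ← zpow_mul, ← zpow_mul,
          ← zpow_natCast W₁ m, ← zpow_natCast W₂ m, ← zpow_mul, ← zpow_mul,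
          mul_comm s₁ (m : ℤ), mul_comm s₂ (m : ℤ)]
        ring
  rw [← key, hu, div_mul_cancel₀ _ hy]

/-- Divisibility of all orders by `m` passes to a finite extension. -/
theorem dvd_ord_sub_ord_of_restrict [Algebra.IsIntegral F F'] (m : ℤ) (x y : F)
    (h : ∀ v : Place K F, m ∣ v.ord x - v.ord y) (w : Place K F') :
    m ∣ w.ord (algebraMap F F' x) - w.ord (algebraMap F F' y) := by
  rw [w.ord_restrict x, w.ord_restrict y, ← mul_sub]
  exact Dvd.dvd.mul_left (h (w.restrict F)) _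

end Abstract

/-! ### Intermediate-field form -/

section Intermediate

variable {K L : Type*} [Field K] [Field L] [Algebra K L]

/-- **Norm form for intermediate fields** `E ≤ E'` of a common field `L`, with
`d = E.relfinrank E'` the relative degree: if the Kummer conclusion holds in `E'` for the pair
`x y : E` (given the pulled-back divisibility of orders), then `x ^ d = c' * W ^ m * y ^ d` in
`E`.  (For `d = 0`, i.e. an infinite extension, the conclusion is trivially true.) -/
theorem exists_pow_eq_mul_pow_of_le {E E' : IntermediateField K L} (hle : E ≤ E') (m : ℕ)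
    (x y : E) (hord : ∀ v : Place K E, (m : ℤ) ∣ v.ord x - v.ord y)
    (hKF : (∀ w : Place K E', (m : ℤ) ∣ w.ord (IntermediateField.inclusion hle x) -
        w.ord (IntermediateField.inclusion hle y)) →
      ∃ (V : E') (c : K), (x : L) = algebraMap K L c * (V : L) ^ m * (y : L)) :
    ∃ (W : E) (c' : K),
      x ^ E.relfinrank E' = algebraMap K E c' * W ^ m * y ^ E.relfinrank E' := by
  rcases Nat.eq_zero_or_pos (E.relfinrank E') with h0 | hpos
  · exact ⟨1, 1, by rw [h0]; simp⟩
  -- the algebra structure given by the inclusion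
  let alg : Algebra E E' := (IntermediateField.inclusion hle).toRingHom.toAlgebra
  have tower : IsScalarTower K E E' := IsScalarTower.of_algebraMap_eq fun x => rfl
  -- the degree is the relative degree
  have hfr : Module.finrank E E' = E.relfinrank E' := by
    rw [IntermediateField.relfinrank_eq_finrank_of_le hle]
    let e : E' ≃ₗ[E] (IntermediateField.extendScalars hle) :=
      { toFun := fun x => ⟨x.1, x.2⟩
        invFun := fun x => ⟨x.1, x.2⟩
        left_inv := fun x => rfl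
        right_inv := fun x => rfl
        map_add' := fun x y => rfl
        map_smul' := fun r x => rfl }
    exact e.finrank_eq
  rw [← hfr] at hpos ⊢
  have hfin : FiniteDimensional E E' := Module.finite_of_finrank_pos hpos
  obtain ⟨V, c, hV⟩ := hKF (fun w => dvd_ord_sub_ord_of_restrict (m : ℤ) x y hord w)
  have hV' : algebraMap E E' x = algebraMap K E' c * V ^ m * algebraMap E E' y :=
    Subtype.ext hV
  exact exists_pow_eq_mul_pow_of_finrank m x y V c hV'

end Intermediate

/-! ### The Kummer form on the modular function fields -/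

section Modular

/-- The function field of level `N` is contained in that of level `N'` when `N ∣ N'`. -/
theorem modularFunctionFieldBar_le {N N' : ℕ} [NeZero N] [NeZero N'] (hNN' : N ∣ N') :
    modularFunctionFieldBar N ≤ modularFunctionFieldBar N' :=
  IntermediateField.adjoin.mono _ _ _ (Set.image_mono (full_degeneracy_le hNN'))

/-- Transport of an integral function to a higher level (same Laurent series). -/
def liftFn {A : ValuationSubring (AlgebraicClosure ℚ)} {N N' : ℕ} [NeZero N]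
    [NeZero N'] (hNN' : N ∣ N') (a : IntegralFn A N) : IntegralFn A N' where
  y := a.y
  mem := modularFunctionFieldBar_le hNN' a.mem
  memk := full_degeneracyC_le (IsLocalRing.ResidueField A) hNN' a.memk
  ne := a.ne

theorem coe_gen_liftFn {A : ValuationSubring (AlgebraicClosure ℚ)} {N N' : ℕ} [NeZero N]
    [NeZero N'] (hNN' : N ∣ N') (a : IntegralFn A N) :
    ((liftFn hNN' a).gen : LaurentSeries (AlgebraicClosure ℚ)) = a.gen := rfl

theorem coe_red_liftFn {A : ValuationSubring (AlgebraicClosure ℚ)} {N N' : ℕ} [NeZero N]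
    [NeZero N'] (hNN' : N ∣ N') (a : IntegralFn A N) :
    ((liftFn hNN' a).red : LaurentSeries (IsLocalRing.ResidueField A)) = a.red := rfl

theorem gen_liftFn {A : ValuationSubring (AlgebraicClosure ℚ)} {N N' : ℕ} [NeZero N]
    [NeZero N'] (hNN' : N ∣ N') (a : IntegralFn A N) :
    (liftFn hNN' a).gen = IntermediateField.inclusion (modularFunctionFieldBar_le hNN') a.gen :=
  rfl

/-- The reduction hypothesis of `Stmt_KF` moves up along `liftFn`. -/
theorem red_liftFn_eq {A : ValuationSubring (AlgebraicClosure ℚ)} {N N' : ℕ} [NeZero N]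
    [NeZero N'] (hNN' : N ∣ N') (m : ℕ) (a b : IntegralFn A N)
    (w : modularFunctionFieldFullC (IsLocalRing.ResidueField A) N)
    (c : IsLocalRing.ResidueField A)
    (hred : a.red = algebraMap (IsLocalRing.ResidueField A)
      (modularFunctionFieldFullC (IsLocalRing.ResidueField A) N) c * w ^ m * b.red) :
    (liftFn hNN' a).red = algebraMap (IsLocalRing.ResidueField A)
      (modularFunctionFieldFullC (IsLocalRing.ResidueField A) N') c *
        (IntermediateField.inclusion
          (full_degeneracyC_le (IsLocalRing.ResidueField A) hNN') w) ^ m *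
        (liftFn hNN' b).red := by
  have hr := congrArg Subtype.val hred
  apply Subtype.ext
  push_cast at hr ⊢
  rw [coe_red_liftFn, coe_red_liftFn, IntermediateField.coe_inclusion]
  exact hr

/-- The reduction hypothesis of `Stmt_KF0` moves up along `liftFn`. -/
theorem red_liftFn_eq₀ {A : ValuationSubring (AlgebraicClosure ℚ)} {N N' : ℕ} [NeZero N]
    [NeZero N'] (hNN' : N ∣ N') (m : ℕ) (a b : IntegralFn A N)
    (w : modularFunctionFieldFullC (IsLocalRing.ResidueField A) N)
    (hred : a.red = w ^ m * b.red) :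
    (liftFn hNN' a).red =
        (IntermediateField.inclusion
          (full_degeneracyC_le (IsLocalRing.ResidueField A) hNN') w) ^ m *
        (liftFn hNN' b).red := by
  have hr := congrArg Subtype.val hred
  apply Subtype.ext
  push_cast at hr ⊢
  rw [coe_red_liftFn, coe_red_liftFn, IntermediateField.coe_inclusion]
  exact hr

theorem inclusionC_ne_zero {A : ValuationSubring (AlgebraicClosure ℚ)} {N N' : ℕ} [NeZero N]
    [NeZero N'] (hNN' : N ∣ N')
    {w : modularFunctionFieldFullC (IsLocalRing.ResidueField A) N} (hw0 : w ≠ 0) :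
    IntermediateField.inclusion
      (full_degeneracyC_le (IsLocalRing.ResidueField A) hNN') w ≠ 0 := by
  intro h0
  have hr := congrArg Subtype.val h0
  apply hw0
  apply Subtype.ext
  push_cast at hr ⊢
  rw [IntermediateField.coe_inclusion] at hr
  exact hr

/-- **Norm form of the level change**, for one pair of integral functions: if the Kummer
conclusion holds at level `N'` for the lifted pair (given the divisibility of all orders at
level `N'`), then `a.gen ^ d = c * W ^ m * b.gen ^ d` at level `N`, `d = [F_{N'} : F_N]`. -/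
theorem exists_gen_pow_eq {N N' : ℕ} [NeZero N] [NeZero N'] (hNN' : N ∣ N')
    {A : ValuationSubring (AlgebraicClosure ℚ)} (m : ℕ) (a b : IntegralFn A N)
    (hord : ∀ P : Place (AlgebraicClosure ℚ) (modularFunctionFieldBar N),
      (m : ℤ) ∣ P.ord a.gen - P.ord b.gen)
    (hK : (∀ P : Place (AlgebraicClosure ℚ) (modularFunctionFieldBar N'),
        (m : ℤ) ∣ P.ord (liftFn hNN' a).gen - P.ord (liftFn hNN' b).gen) →
      ∃ (V : modularFunctionFieldBar N') (c' : AlgebraicClosure ℚ),
        (liftFn hNN' a).gen =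
          algebraMap (AlgebraicClosure ℚ) (modularFunctionFieldBar N') c' * V ^ m *
            (liftFn hNN' b).gen) :
    ∃ (W : modularFunctionFieldBar N) (c : AlgebraicClosure ℚ),
      a.gen ^ (modularFunctionFieldBar N).relfinrank (modularFunctionFieldBar N') =
        algebraMap (AlgebraicClosure ℚ) (modularFunctionFieldBar N) c * W ^ m *
          b.gen ^ (modularFunctionFieldBar N).relfinrank (modularFunctionFieldBar N') := by
  refine exists_pow_eq_mul_pow_of_le (modularFunctionFieldBar_le hNN') m a.gen b.gen hord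
    (fun hord' => ?_)
  obtain ⟨V, c', hV⟩ := hK hord'
  have hr := congrArg Subtype.val hV
  push_cast at hr
  rw [coe_gen_liftFn, coe_gen_liftFn] at hr
  exact ⟨V, c', hr⟩

/-- **Level change by the norm** (`Stmt_KF`).  If `N ∣ N'` and the degree `[F_{N'} : F_N]` is
prime to every `m` prime to `ℓ`, the Kummer form at level `N'` implies it at level `N`. -/
theorem kf_descent {N N' : ℕ} [NeZero N] [NeZero N'] (hNN' : N ∣ N') (ℓ : ℕ)
    (hdeg : ∀ m : ℕ, ¬ ℓ ∣ m → Nat.Coprime
      ((modularFunctionFieldBar N).relfinrank (modularFunctionFieldBar N')) m)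
    (h : Stmt_KF N' ℓ) : Stmt_KF N ℓ := by
  intro A hA m hm a b hord w c hw0 hc0 hred
  have h1 := exists_gen_pow_eq hNN' m a b hord (fun hord' =>
    h A hA m hm (liftFn hNN' a) (liftFn hNN' b) hord' _ c (inclusionC_ne_zero hNN' hw0) hc0
      (red_liftFn_eq hNN' m a b w c hred))
  exact exists_eq_mul_pow_of_bezout m a.gen b.gen b.gen_ne_zero _ _
    (by rw [Nat.gcd_self]; exact hdeg m hm) h1 h1

/-- **Level change by the norm through two auxiliary levels** (`Stmt_KF`).  If `N ∣ N₂`,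
`N ∣ N₃` and `gcd [F_{N₂} : F_N] [F_{N₃} : F_N]` is prime to every `m` prime to `ℓ` (e.g. the two
degrees are coprime), the Kummer forms at levels `N₂` and `N₃` imply the Kummer form at
level `N`. -/
theorem kf_descent_two {N N₂ N₃ : ℕ} [NeZero N] [NeZero N₂] [NeZero N₃] (h₂ : N ∣ N₂)
    (h₃ : N ∣ N₃) (ℓ : ℕ)
    (hdeg : ∀ m : ℕ, ¬ ℓ ∣ m → Nat.Coprime
      (Nat.gcd ((modularFunctionFieldBar N).relfinrank (modularFunctionFieldBar N₂))
        ((modularFunctionFieldBar N).relfinrank (modularFunctionFieldBar N₃))) m)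
    (hK₂ : Stmt_KF N₂ ℓ) (hK₃ : Stmt_KF N₃ ℓ) : Stmt_KF N ℓ := by
  intro A hA m hm a b hord w c hw0 hc0 hred
  have h1 := exists_gen_pow_eq h₂ m a b hord (fun hord' =>
    hK₂ A hA m hm (liftFn h₂ a) (liftFn h₂ b) hord' _ c (inclusionC_ne_zero h₂ hw0) hc0
      (red_liftFn_eq h₂ m a b w c hred))
  have h2 := exists_gen_pow_eq h₃ m a b hord (fun hord' =>
    hK₃ A hA m hm (liftFn h₃ a) (liftFn h₃ b) hord' _ c (inclusionC_ne_zero h₃ hw0) hc0
      (red_liftFn_eq h₃ m a b w c hred))
  exact exists_eq_mul_pow_of_bezout m a.gen b.gen b.gen_ne_zero _ _ (hdeg m hm) h1 h2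

/-- `kf_descent` for `Stmt_KF0`. -/
theorem kf0_descent {N N' : ℕ} [NeZero N] [NeZero N'] (hNN' : N ∣ N') (ℓ : ℕ)
    (hdeg : ∀ m : ℕ, ¬ ℓ ∣ m → Nat.Coprime
      ((modularFunctionFieldBar N).relfinrank (modularFunctionFieldBar N')) m)
    (h : Stmt_KF0 N' ℓ) : Stmt_KF0 N ℓ := by
  intro A hA m hm a b hord w hw0 hred
  have h1 := exists_gen_pow_eq hNN' m a b hord (fun hord' =>
    h A hA m hm (liftFn hNN' a) (liftFn hNN' b) hord' _ (inclusionC_ne_zero hNN' hw0)
      (red_liftFn_eq₀ hNN' m a b w hred))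
  exact exists_eq_mul_pow_of_bezout m a.gen b.gen b.gen_ne_zero _ _
    (by rw [Nat.gcd_self]; exact hdeg m hm) h1 h1

/-- `kf_descent_two` for `Stmt_KF0`. -/
theorem kf0_descent_two {N N₂ N₃ : ℕ} [NeZero N] [NeZero N₂] [NeZero N₃] (h₂ : N ∣ N₂)
    (h₃ : N ∣ N₃) (ℓ : ℕ)
    (hdeg : ∀ m : ℕ, ¬ ℓ ∣ m → Nat.Coprime
      (Nat.gcd ((modularFunctionFieldBar N).relfinrank (modularFunctionFieldBar N₂))
        ((modularFunctionFieldBar N).relfinrank (modularFunctionFieldBar N₃))) m)
    (hK₂ : Stmt_KF0 N₂ ℓ) (hK₃ : Stmt_KF0 N₃ ℓ) : Stmt_KF0 N ℓ := by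
  intro A hA m hm a b hord w hw0 hred
  have h1 := exists_gen_pow_eq h₂ m a b hord (fun hord' =>
    hK₂ A hA m hm (liftFn h₂ a) (liftFn h₂ b) hord' _ (inclusionC_ne_zero h₂ hw0)
      (red_liftFn_eq₀ h₂ m a b w hred))
  have h2 := exists_gen_pow_eq h₃ m a b hord (fun hord' =>
    hK₃ A hA m hm (liftFn h₃ a) (liftFn h₃ b) hord' _ (inclusionC_ne_zero h₃ hw0)
      (red_liftFn_eq₀ h₃ m a b w hred))
  exact exists_eq_mul_pow_of_bezout m a.gen b.gen b.gen_ne_zero _ _ (hdeg m hm) h1 h2

/-- Convenient form of `kf_descent`: the relative degree divides a power of the prime `ℓ`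
(e.g. `[F_{lcm(N,2)} : F_N] ∣ 3` for `ℓ = 3`, `[F_{lcm(N,3)} : F_N] ∣ 4 = 2 ^ 2` for `ℓ = 2`). -/
theorem kf_descent_of_dvd {N N' : ℕ} [NeZero N] [NeZero N'] (hNN' : N ∣ N') {ℓ : ℕ}
    (hℓ : ℓ.Prime) (k : ℕ)
    (hdeg : (modularFunctionFieldBar N).relfinrank (modularFunctionFieldBar N') ∣ ℓ ^ k)
    (h : Stmt_KF N' ℓ) : Stmt_KF N ℓ := by
  refine kf_descent hNN' ℓ (fun m hm => ?_) h
  exact Nat.Coprime.coprime_dvd_left hdeg
    (Nat.Coprime.pow_left k ((Nat.Prime.coprime_iff_not_dvd hℓ).mpr hm))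

/-- Convenient form of `kf_descent_two`: the two relative degrees divide coprime numbers
(e.g. `[F_{lcm(N,2)} : F_N] ∣ 3` and `[F_{lcm(N,3)} : F_N] ∣ 4`); no condition on `ℓ`. -/
theorem kf_descent_two_of_dvd {N N₂ N₃ : ℕ} [NeZero N] [NeZero N₂] [NeZero N₃] (h₂ : N ∣ N₂)
    (h₃ : N ∣ N₃) (ℓ : ℕ) {e₂ e₃ : ℕ} (hcop : Nat.Coprime e₂ e₃)
    (hd₂ : (modularFunctionFieldBar N).relfinrank (modularFunctionFieldBar N₂) ∣ e₂)
    (hd₃ : (modularFunctionFieldBar N).relfinrank (modularFunctionFieldBar N₃) ∣ e₃)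
    (hK₂ : Stmt_KF N₂ ℓ) (hK₃ : Stmt_KF N₃ ℓ) : Stmt_KF N ℓ := by
  refine kf_descent_two h₂ h₃ ℓ (fun m _ => ?_) hK₂ hK₃
  have h1 : Nat.gcd ((modularFunctionFieldBar N).relfinrank (modularFunctionFieldBar N₂))
      ((modularFunctionFieldBar N).relfinrank (modularFunctionFieldBar N₃)) = 1 :=
    Nat.Coprime.coprime_dvd_left hd₂ (Nat.Coprime.coprime_dvd_right hd₃ hcop)
  rw [h1]
  exact Nat.coprime_one_left m

end Modular

end Fermat.Agent.S18.helper702
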