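import Fermat.Agent.S18.helper3537_CoreOfKF
import Fermat.Agent.S18.helper702_Descent
import Fermat.Agent.S18.helper2557_LevelDegree
import Fermat.Agent.Lib.helper6879_ResidueQbar
import Fermat.Agent.S18.helper3578_SpecB

/-!
# S18: the captain's top-level wiring (helper2118)

Everything above the "hard" Kummer statement is proved here, on top of the landed top chain
(`helper3054_Top`, `helper3054_Kummer`, `helper3537_CoreOfKF`, `helper702_Descent`,
`helper2557_LevelDegree`, `Lib/helper6879_ResidueQbar`).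

The only obligations left for the three tracks are Props about
`helper3054.Stmt_KF0 N' ℓ` (Kummer field form with exact `m`-th power on the special fibre):

* `Stmt_KFr r` : `Stmt_KF0 N' ℓ` for every level `N'` divisible by `r`, every prime `ℓ ∤ N'`,
  `ℓ ≠ r` (Hauptmodul line `t_r`, `r = 2, 3`);
* `Stmt_KFj`   : `Stmt_KF0 N ℓ` for every level `N` and every prime `ℓ ≥ 5`, `ℓ ∤ N` (the `j`-line).

Final theorems (each gives the frozen statement S18 verbatim):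

* `result_of_kf0`    : from `Stmt_KF0 N ℓ` at the level itself;
* `result_of_kfr`    : from `Stmt_KFr 2` and `Stmt_KFr 3`;
* `result_of_kfj`    : from `Stmt_KFj`, `Stmt_KFr 2` (used at `ℓ = 3` only) and `Stmt_KFr 3`
  (used at `ℓ = 2` only);
* `result_of_small`  : the same with the weakest possible hypotheses at `ℓ = 2, 3`.

Track B (`helper3578_SpecB`): `kf0_of_model` turns `Stmt_KummerGlobal` + `Stmt_Model N ℓ` into
`Stmt_KF0 N ℓ`, and `result_of_trackB` is the frozen statement from `Stmt_KummerGlobal` and the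
three families of models (`j`-line for `ℓ ≥ 5`; level divisible by `2` for `ℓ = 3`; level
divisible by `3` for `ℓ = 2`).
-/

set_option autoImplicit false
set_option linter.style.haveILetI false

namespace Fermat.Agent.S18.helper2118

open ModularCurve
open Fermat.Agent.S18.helper3054

/-- **Track obligation on the Hauptmodul line `t_r`** (`r = 2, 3`): the Kummer field form
`Stmt_KF0` at every level `N'` divisible by `r` and every prime `ℓ ∤ N'`, `ℓ ≠ r`. -/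
def Stmt_KFr (r : ℕ) : Prop :=
  ∀ (N' : ℕ) [NeZero N'] (ℓ : ℕ), ℓ.Prime → r ∣ N' → ¬ ℓ ∣ N' → ℓ ≠ r → Stmt_KF0 N' ℓ

/-- **Track obligation on the `j`-line**: the Kummer field form `Stmt_KF0` at every level `N`
and every prime `ℓ ≥ 5` not dividing `N`. -/
def Stmt_KFj : Prop :=
  ∀ (N : ℕ) [NeZero N] (ℓ : ℕ), ℓ.Prime → 5 ≤ ℓ → ¬ ℓ ∣ N → Stmt_KF0 N ℓ

/-- `ℓ ∤ N` and `ℓ ≠ p` (both prime) give `ℓ ∤ lcm(N, p)`. -/
theorem not_dvd_lcm_prime {N ℓ p : ℕ} (hℓ : ℓ.Prime) (hp : p.Prime) (hne : ℓ ≠ p)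
    (h : ¬ ℓ ∣ N) : ¬ ℓ ∣ N.lcm p := by
  intro hd
  rcases (Nat.Prime.dvd_mul hℓ).mp (hd.trans (Nat.lcm_dvd_mul N p)) with h' | h'
  · exact h h'
  · exact hne ((Nat.prime_dvd_prime_iff_eq hℓ hp).mp h')

theorem neZero_lcm (N p : ℕ) [NeZero N] (hp : p ≠ 0) : NeZero (N.lcm p) :=
  ⟨Nat.lcm_ne_zero (NeZero.ne N) hp⟩

/-- `ℓ = 3`: descent from the level `lcm(N, 2)` (relative degree `1` or `3`). -/
theorem kf0_three_of_lcm_two (N : ℕ) [NeZero N]
    (H : haveI := neZero_lcm N 2 (by norm_num); Stmt_KF0 (N.lcm 2) 3) : Stmt_KF0 N 3 := by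
  haveI := neZero_lcm N 2 (by norm_num)
  refine Fermat.Agent.S18.helper702.kf0_descent (Nat.dvd_lcm_left N 2) 3 (fun m hm => ?_) H
  rw [Fermat.Agent.S18.helper2557.relfinrank_bar_lcm_prime N Nat.prime_two]
  split_ifs
  · exact Nat.coprime_one_left m
  · exact (Nat.Prime.coprime_iff_not_dvd Nat.prime_three).mpr hm

/-- `ℓ = 2`: descent from the level `lcm(N, 3)` (relative degree `1` or `4`). -/
theorem kf0_two_of_lcm_three (N : ℕ) [NeZero N]
    (H : haveI := neZero_lcm N 3 (by norm_num); Stmt_KF0 (N.lcm 3) 2) : Stmt_KF0 N 2 := by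
  haveI := neZero_lcm N 3 (by norm_num)
  refine Fermat.Agent.S18.helper702.kf0_descent (Nat.dvd_lcm_left N 3) 2 (fun m hm => ?_) H
  rw [Fermat.Agent.S18.helper2557.relfinrank_bar_lcm_prime N Nat.prime_three]
  split_ifs
  · exact Nat.coprime_one_left m
  · have h2 : Nat.Coprime 2 m := (Nat.Prime.coprime_iff_not_dvd Nat.prime_two).mpr hm
    have : Nat.Coprime (2 ^ 2) m := Nat.Coprime.pow_left 2 h2
    simpa using this

/-- Any `ℓ`: descent from the two levels `lcm(N, 2)` and `lcm(N, 3)` (relative degrees dividing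
`3` and `4`, which are coprime). -/
theorem kf0_of_lcm_two_three (N : ℕ) [NeZero N] (ℓ : ℕ)
    (H₂ : haveI := neZero_lcm N 2 (by norm_num); Stmt_KF0 (N.lcm 2) ℓ)
    (H₃ : haveI := neZero_lcm N 3 (by norm_num); Stmt_KF0 (N.lcm 3) ℓ) : Stmt_KF0 N ℓ := by
  haveI := neZero_lcm N 2 (by norm_num)
  haveI := neZero_lcm N 3 (by norm_num)
  refine Fermat.Agent.S18.helper702.kf0_descent_two (Nat.dvd_lcm_left N 2)
    (Nat.dvd_lcm_left N 3) ℓ (fun m _ => ?_) H₂ H₃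
  rw [Fermat.Agent.S18.helper2557.relfinrank_bar_lcm_prime N Nat.prime_two,
    Fermat.Agent.S18.helper2557.relfinrank_bar_lcm_prime N Nat.prime_three]
  have h1 : Nat.gcd (if 2 ∣ N then 1 else 2 + 1) (if 3 ∣ N then 1 else 3 + 1) = 1 := by
    split_ifs <;> decide
  rw [h1]
  exact Nat.coprime_one_left m

/-- **Wiring theorem**: the two Hauptmodul-line obligations give `Stmt_KF0` at every level `N`
and every prime `ℓ ∤ N`. -/
theorem kf0_of_kfr (h2 : Stmt_KFr 2) (h3 : Stmt_KFr 3) (N : ℕ) [NeZero N] (ℓ : ℕ)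
    (hℓ : ℓ.Prime) (hℓN : ¬ ℓ ∣ N) : Stmt_KF0 N ℓ := by
  haveI := neZero_lcm N 2 (by norm_num)
  haveI := neZero_lcm N 3 (by norm_num)
  by_cases hl3 : ℓ = 3
  · subst hl3
    exact kf0_three_of_lcm_two N
      (h2 (N.lcm 2) 3 Nat.prime_three (Nat.dvd_lcm_right N 2)
        (not_dvd_lcm_prime Nat.prime_three Nat.prime_two (by norm_num) hℓN) (by norm_num))
  by_cases hl2 : ℓ = 2
  · subst hl2
    exact kf0_two_of_lcm_three N
      (h3 (N.lcm 3) 2 Nat.prime_two (Nat.dvd_lcm_right N 3)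
        (not_dvd_lcm_prime Nat.prime_two Nat.prime_three (by norm_num) hℓN) (by norm_num))
  exact kf0_of_lcm_two_three N ℓ
    (h2 (N.lcm 2) ℓ hℓ (Nat.dvd_lcm_right N 2)
      (not_dvd_lcm_prime hℓ Nat.prime_two hl2 hℓN) hl2)
    (h3 (N.lcm 3) ℓ hℓ (Nat.dvd_lcm_right N 3)
      (not_dvd_lcm_prime hℓ Nat.prime_three hl3 hℓN) hl3)

/-- **Wiring theorem, weakest hypotheses**: `j`-line for `ℓ ≥ 5`, the `t_2`-line for `ℓ = 3`
only, the `t_3`-line for `ℓ = 2` only. -/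
theorem kf0_of_small (hj : Stmt_KFj)
    (h23 : ∀ (N' : ℕ) [NeZero N'], 2 ∣ N' → ¬ 3 ∣ N' → Stmt_KF0 N' 3)
    (h32 : ∀ (N' : ℕ) [NeZero N'], 3 ∣ N' → ¬ 2 ∣ N' → Stmt_KF0 N' 2)
    (N : ℕ) [NeZero N] (ℓ : ℕ) (hℓ : ℓ.Prime) (hℓN : ¬ ℓ ∣ N) : Stmt_KF0 N ℓ := by
  haveI := neZero_lcm N 2 (by norm_num)
  haveI := neZero_lcm N 3 (by norm_num)
  by_cases hl3 : ℓ = 3
  · subst hl3
    exact kf0_three_of_lcm_two N
      (h23 (N.lcm 2) (Nat.dvd_lcm_right N 2)
        (not_dvd_lcm_prime Nat.prime_three Nat.prime_two (by norm_num) hℓN))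
  by_cases hl2 : ℓ = 2
  · subst hl2
    exact kf0_two_of_lcm_three N
      (h32 (N.lcm 3) (Nat.dvd_lcm_right N 3)
        (not_dvd_lcm_prime Nat.prime_two Nat.prime_three (by norm_num) hℓN))
  refine hj N ℓ hℓ ?_ hℓN
  have h2 := hℓ.two_le
  by_contra hlt
  have h4 : ℓ = 4 := by omega
  subst h4
  exact absurd hℓ (by decide)

/-- **The frozen statement S18 from `Stmt_KF0` at the level itself** (no constants lemma,
no further input). -/
theorem result_of_kf0 (N : ℕ) [NeZero N] {ℓ : ℕ} (h0 : Stmt_KF0 N ℓ)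
    (A : ValuationSubring (AlgebraicClosure ℚ)) (hA : A.LiesOverPrime ℓ)
    (h : ModularCurve.ReductionInputsModL A N) (m : ℕ) (hm : ¬ ℓ ∣ m) (z : ModularCurve.JZero N)
    (hmz : m • z = 0) (hz : ModularCurve.reductionModL A N z = 0) :
    z = 0 :=
  Fermat.Agent.S18.helper3537.result_of_kf_noConst N
    (kf_of_kf0 N ℓ (fun A _ => Fermat.Agent.Lib.helper6879.isAlgClosed_residueField A) h0)
    A hA h m hm z hmz hz

/-- **The frozen statement S18 from the two Hauptmodul-line obligations.** -/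
theorem result_of_kfr (h2 : Stmt_KFr 2) (h3 : Stmt_KFr 3) (N : ℕ) [NeZero N] {ℓ : ℕ}
    [Fact ℓ.Prime] (hℓN : ¬ ℓ ∣ N) (A : ValuationSubring (AlgebraicClosure ℚ))
    (hA : A.LiesOverPrime ℓ) (h : ModularCurve.ReductionInputsModL A N) (m : ℕ) (hm : ¬ ℓ ∣ m)
    (z : ModularCurve.JZero N) (hmz : m • z = 0) (hz : ModularCurve.reductionModL A N z = 0) :
    z = 0 :=
  result_of_kf0 N (kf0_of_kfr h2 h3 N ℓ Fact.out hℓN) A hA h m hm z hmz hz

/-- **The frozen statement S18 from the `j`-line obligation (`ℓ ≥ 5`) and the two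
Hauptmodul-line obligations at `ℓ = 3`, resp. `ℓ = 2`, only.** -/
theorem result_of_small (hj : Stmt_KFj)
    (h23 : ∀ (N' : ℕ) [NeZero N'], 2 ∣ N' → ¬ 3 ∣ N' → Stmt_KF0 N' 3)
    (h32 : ∀ (N' : ℕ) [NeZero N'], 3 ∣ N' → ¬ 2 ∣ N' → Stmt_KF0 N' 2)
    (N : ℕ) [NeZero N] {ℓ : ℕ}
    [Fact ℓ.Prime] (hℓN : ¬ ℓ ∣ N) (A : ValuationSubring (AlgebraicClosure ℚ))
    (hA : A.LiesOverPrime ℓ) (h : ModularCurve.ReductionInputsModL A N) (m : ℕ) (hm : ¬ ℓ ∣ m)
    (z : ModularCurve.JZero N) (hmz : m • z = 0) (hz : ModularCurve.reductionModL A N z = 0) :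
    z = 0 :=
  result_of_kf0 N (kf0_of_small hj h23 h32 N ℓ Fact.out hℓN) A hA h m hm z hmz hz

/-- The same from `Stmt_KFj`, `Stmt_KFr 2`, `Stmt_KFr 3`. -/
theorem result_of_kfj (hj : Stmt_KFj) (h2 : Stmt_KFr 2) (h3 : Stmt_KFr 3) (N : ℕ) [NeZero N]
    {ℓ : ℕ} [Fact ℓ.Prime] (hℓN : ¬ ℓ ∣ N) (A : ValuationSubring (AlgebraicClosure ℚ))
    (hA : A.LiesOverPrime ℓ) (h : ModularCurve.ReductionInputsModL A N) (m : ℕ) (hm : ¬ ℓ ∣ m)
    (z : ModularCurve.JZero N) (hmz : m • z = 0) (hz : ModularCurve.reductionModL A N z = 0) :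
    z = 0 :=
  result_of_small hj
    (fun N' _ h2N h3N => h2 N' 3 Nat.prime_three h2N h3N (by norm_num))
    (fun N' _ h3N h2N => h3 N' 2 Nat.prime_two h3N h2N (by norm_num))
    N hℓN A hA h m hm z hmz hz

/-! ### Track B -/

/-- Track B at one level and one prime: the abstract half and a model give `Stmt_KF0`. -/
theorem kf0_of_model (N : ℕ) [NeZero N] (ℓ : ℕ)
    (hG : Fermat.Agent.S18.helper3578.Stmt_KummerGlobal)
    (hM : Fermat.Agent.S18.helper3578.Stmt_Model N ℓ) : Stmt_KF0 N ℓ := by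
  intro A hA m hm a b hdiv w hw hred
  obtain ⟨V, hV⟩ := Fermat.Agent.S18.helper3578.kf_of_specB N ℓ hG hM A hA m hm a b hdiv
    ⟨w, hw, 1, one_ne_zero, by rw [map_one, one_mul]; exact hred⟩
  exact ⟨V, 1, by rw [map_one, one_mul]; exact hV⟩

/-- **The frozen statement S18 from track B**: the abstract half `Stmt_KummerGlobal` and the
three families of models (`j`-line for `ℓ ≥ 5`, the `t_2`-line at `ℓ = 3`, the `t_3`-line at
`ℓ = 2`). -/
theorem result_of_trackB (hG : Fermat.Agent.S18.helper3578.Stmt_KummerGlobal)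
    (hj : ∀ (N : ℕ) [NeZero N] (ℓ : ℕ), ℓ.Prime → 5 ≤ ℓ → ¬ ℓ ∣ N →
      Fermat.Agent.S18.helper3578.Stmt_Model N ℓ)
    (h23 : ∀ (N' : ℕ) [NeZero N'], 2 ∣ N' → ¬ 3 ∣ N' →
      Fermat.Agent.S18.helper3578.Stmt_Model N' 3)
    (h32 : ∀ (N' : ℕ) [NeZero N'], 3 ∣ N' → ¬ 2 ∣ N' →
      Fermat.Agent.S18.helper3578.Stmt_Model N' 2)
    (N : ℕ) [NeZero N] {ℓ : ℕ}
    [Fact ℓ.Prime] (hℓN : ¬ ℓ ∣ N) (A : ValuationSubring (AlgebraicClosure ℚ))
    (hA : A.LiesOverPrime ℓ) (h : ModularCurve.ReductionInputsModL A N) (m : ℕ) (hm : ¬ ℓ ∣ m)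
    (z : ModularCurve.JZero N) (hmz : m • z = 0) (hz : ModularCurve.reductionModL A N z = 0) :
    z = 0 :=
  result_of_small
    (fun N _ ℓ hℓ h5 hN => kf0_of_model N ℓ hG (hj N ℓ hℓ h5 hN))
    (fun N' _ h2 h3 => kf0_of_model N' 3 hG (h23 N' h2 h3))
    (fun N' _ h3 h2 => kf0_of_model N' 2 hG (h32 N' h3 h2))
    N hℓN A hA h m hm z hmz hz

end Fermat.Agent.S18.helper2118
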