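/-
S18 EXPORT (helper789): the Kummer field forms `Stmt_KF0` / `Stmt_KF` of S18 at EVERY level `N`
and EVERY prime `ℓ ∤ N`, unconditionally (track A on the two Hauptmodul lines + the level
descent of `helper2118_Spec`).  Consumers (S37, S29, S30, S31, S34, S35, S19): import this file.
-/
import Fermat.Agent.S18.helper789_LineInst

set_option autoImplicit false

namespace Fermat.Agent.S18.helper789

open ModularCurve
open Fermat.Agent.S18.helper3054

/-- **Kummer field form, exact `m`-th power** at every level and every prime not dividing it. -/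
theorem stmt_KF0_all (N : ℕ) [NeZero N] (ℓ : ℕ) (hℓ : ℓ.Prime) (hℓN : ¬ ℓ ∣ N) : Stmt_KF0 N ℓ :=
  helper2118.kf0_of_kfr stmt_KFr_two stmt_KFr_three N ℓ hℓ hℓN

/-- **Kummer field form** at every level and every prime not dividing it. -/
theorem stmt_KF_all (N : ℕ) [NeZero N] (ℓ : ℕ) (hℓ : ℓ.Prime) (hℓN : ¬ ℓ ∣ N) : Stmt_KF N ℓ :=
  kf_of_kf0 N ℓ (fun A _ => Lib.helper6879.isAlgClosed_residueField A)
    (stmt_KF0_all N ℓ hℓ hℓN)

end Fermat.Agent.S18.helper789
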