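import Mathlib
import Fermat.Agent.S18.helper4307_PlacesAnyChar
import Fermat.Agent.S18.helper6381_HLine
import Fermat.Agent.Lib.helper6879_ResidueQbar

/-!
# S18 (shared S18/S37/S29): place theory of the special fibre `F_{k,N}` at EVERY level

Instances of `helper4307_PlacesAnyChar` (function fields over an algebraically closed field of
any characteristic) for the frozen fields `modularFunctionFieldFullC k N`:

* `hasPrincipalDivisors_fullC`, `place_deg_eq_one_fullC` : `k` algebraically closed, the primes
  dividing `N` invertible in `k`;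
* `hasPrincipalDivisors_residue`, `place_deg_eq_one_residue` : `k` the residue field of a
  valuation subring `A` of `ℚ̄` over a prime `ℓ ∤ N`.

No `ReductionInputsModL` hypothesis, no separability: the only input is the landed S28 degree
theorem `[F_{k,N} : k(j̄)] = ψ(N)` (through `helper6381.relrank_full_eq_psi`).  In particular they
hold at the auxiliary levels `N' = lcm(N, r)`.
-/

set_option autoImplicit false

namespace Fermat.Agent.S18.helper4307

open AlgebraicCurve IntermediateField ModularCurve

section FullC

variable (k : Type) [Field k]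

/-- `j̄` is transcendental over `k` and `F_{k,N}` is finite of degree `ψ(N)` over `k(j̄)`
(subtype form of the landed S28 degree theorem). -/
theorem exists_transcendental_finite_fullC (N : ℕ) [NeZero N]
    (hNk : ∀ p : ℕ, p.Prime → p ∣ N → (p : k) ≠ 0) :
    ∃ x : modularFunctionFieldFullC k N, (x : LaurentSeries k) = jqModC k ∧
      Transcendental k x ∧ FiniteDimensional k⟮x⟯ (modularFunctionFieldFullC k N) ∧
      Module.finrank k⟮x⟯ (modularFunctionFieldFullC k N) = dedekindPsi N := by
  have hrel : 1 * (k⟮jqModC k⟯).relfinrank (modularFunctionFieldFullC k N) = dedekindPsi N := by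
    rw [one_mul, relfinrank_eq_toNat_relrank,
      Fermat.Agent.S18.helper6381.relrank_full_eq_psi k N hNk, Cardinal.toNat_natCast]
  obtain ⟨h1, h2, h3⟩ := Fermat.Agent.S18.helper6381.subtype_of_relfinrank
    (modularFunctionFieldFullC k N) (⟨jqModC k, jqModC_mem_full k N⟩ : modularFunctionFieldFullC k N)
    1 (dedekindPsi N) (Fermat.Agent.S28.helper1595.dedekindPsi_pos (NeZero.pos N))
    (Fermat.Agent.S18.helper6381.transcendental_jqModC k) hrel
  exact ⟨_, rfl, h1, h2, by simpa using h3⟩

/-- **Principal divisors on the special fibre at every level**: `k` algebraically closed, the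
primes dividing `N` invertible in `k` (any characteristic). -/
theorem hasPrincipalDivisors_fullC [IsAlgClosed k] (N : ℕ) [NeZero N]
    (hNk : ∀ p : ℕ, p.Prime → p ∣ N → (p : k) ≠ 0) :
    HasPrincipalDivisors k (modularFunctionFieldFullC k N) := by
  obtain ⟨x, -, hx, hfin, -⟩ := exists_transcendental_finite_fullC k N hNk
  exact hasPrincipalDivisors x hx

/-- Every place of the special fibre has degree one. -/
theorem place_deg_eq_one_fullC [IsAlgClosed k] (N : ℕ) [NeZero N]
    (hNk : ∀ p : ℕ, p.Prime → p ∣ N → (p : k) ≠ 0)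
    (v : Place k (modularFunctionFieldFullC k N)) : v.deg = 1 := by
  obtain ⟨x, -, hx, hfin, -⟩ := exists_transcendental_finite_fullC k N hNk
  exact place_deg_eq_one x hx v

end FullC

section Residue

local notation "Qb" => AlgebraicClosure ℚ

/-- In the residue field of a place over `ℓ ∤ N` the primes dividing `N` are invertible. -/
theorem natCast_ne_zero_residue (N : ℕ) {ℓ : ℕ} (hℓ : ℓ.Prime) (hℓN : ¬ ℓ ∣ N)
    (A : ValuationSubring Qb) (hA : A.LiesOverPrime ℓ) :
    ∀ p : ℕ, p.Prime → p ∣ N → (p : IsLocalRing.ResidueField A) ≠ 0 := by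
  intro p hp hpN h0
  haveI := Fermat.Agent.Lib.helper6879.charP_residueField hℓ A hA
  have hdvd : ℓ ∣ p := (CharP.cast_eq_zero_iff (IsLocalRing.ResidueField A) ℓ p).mp h0
  have : ℓ = p := (Nat.prime_dvd_prime_iff_eq hℓ hp).mp hdvd
  exact hℓN (this ▸ hpN)

/-- **Principal divisors on `F_{k,N}`, `k` the residue field of a place of `ℚ̄` over `ℓ ∤ N`**
(no `ReductionInputsModL`; valid at every level, in particular at `lcm(N, r)`). -/
theorem hasPrincipalDivisors_residue (N : ℕ) [NeZero N] {ℓ : ℕ} (hℓ : ℓ.Prime) (hℓN : ¬ ℓ ∣ N)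
    (A : ValuationSubring Qb) (hA : A.LiesOverPrime ℓ) :
    HasPrincipalDivisors (IsLocalRing.ResidueField A)
      (modularFunctionFieldFullC (IsLocalRing.ResidueField A) N) := by
  haveI := Fermat.Agent.Lib.helper6879.isAlgClosed_residueField A
  exact hasPrincipalDivisors_fullC _ N (natCast_ne_zero_residue N hℓ hℓN A hA)

/-- Every place of `F_{k,N}` has degree one (`k` the residue field of a place over `ℓ ∤ N`). -/
theorem place_deg_eq_one_residue (N : ℕ) [NeZero N] {ℓ : ℕ} (hℓ : ℓ.Prime) (hℓN : ¬ ℓ ∣ N)
    (A : ValuationSubring Qb) (hA : A.LiesOverPrime ℓ)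
    (v : Place (IsLocalRing.ResidueField A)
      (modularFunctionFieldFullC (IsLocalRing.ResidueField A) N)) : v.deg = 1 := by
  haveI := Fermat.Agent.Lib.helper6879.isAlgClosed_residueField A
  exact place_deg_eq_one_fullC _ N (natCast_ne_zero_residue N hℓ hℓN A hA) v

end Residue

end Fermat.Agent.S18.helper4307
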