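import Fermat.Agent.S18.helper6381_HLine
import Fermat.Agent.S18.helper4307_PlacesFullC
import Fermat.Agent.S18.helper9392_Separable
import Fermat.Agent.S18.helper7885_PlacesFF
import Fermat.Agent.S18.helper981_FundEq
import Fermat.Agent.S24.helper1370_PlaceBasics
import Fermat.Agent.Lib.helper6879_ResidueQbar

/-!
# S18-FFK: the function-field package of the special fibre, unconditionally

`Fk := modularFunctionFieldFullC k N = k(j̄(q^d) : d ∣ N) ⊆ k((q))` for a field `k : Type` in
which the primes dividing `N` are invertible.  This file is pure wiring of landed leaves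
(S28 degree theorem, `helper9392` separability, `helper4307_PlacesFullC` principal divisors and
degree one in any characteristic, `helper7885` constants, `helper981` Riemann bound /
fundamental equality, S24 `helper1370` places from valuations); it is the characteristic-`ℓ`
twin of `S29/helper36_FunctionFieldL.lean` and needs NO place reduction / `ReductionInputs`,
so it holds at every (auxiliary) level.

Principal divisors and `deg v = 1` on `Fk` are NOT restated here: use
`helper4307.hasPrincipalDivisors_fullC k N hN`, `helper4307.place_deg_eq_one_fullC k N hN v`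
(and their `_residue` forms).  What this file adds:

* no hypothesis on `k`: `jK`, `transcendental_jK`, the cusp place `qPlaceK` with `qPlaceK_ord`
  (order = `q`-order), `qPlaceK_ord_jK = -1`;
* `[NeZero N]`, `hN : ∀ p, p.Prime → p ∣ N → (p : k) ≠ 0`: `finiteDimensional_jK`,
  `finrank_jK = dedekindPsi N`, `finiteDimensional_adjoin_K` (finiteness over `k(x)` for every
  transcendental `x`);
* `+ [IsAlgClosed k]` (any characteristic, no `CharP` argument): `isSeparable_jK`,
  constants (`exists_const_of_forall_adicValuation_le_one_K`,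
  `exists_const_of_forall_ord_eq_zero_K`, `exists_const_mul_of_forall_ord_eq_K`),
  `hasRiemannBound_K`, `exists_forall_finrank_eq_K` (Riemann's theorem, consumer form),
  `degree_poleDivisor_K`, `degree_zeroDivisor_K`, `degree_poleDivisor_jK = ψ(N)`;
* the instance `k = IsLocalRing.ResidueField A`, `A` a valuation subring of `ℚ̄` over `ℓ ∤ N`
  (section `Residue`).
-/

set_option autoImplicit false
set_option linter.style.haveILetI false
set_option synthInstance.maxHeartbeats 400000

noncomputable section

namespace Fermat.Agent.S18.helper36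

open ModularCurve AlgebraicCurve IntermediateField Module
open Fermat.Agent.S18.helper981 (HasRiemannBound riemannGenus)

/-! ### The `q`-adic valuation of `k((q))` -/

section QVal

variable (k : Type*) [Field k]

/-- The `q`-adic valuation of `k((q))`. -/
def qValK : AddValuation (LaurentSeries k) (WithTop ℤ) := HahnSeries.addVal ℤ k

theorem qValK_apply (x : LaurentSeries k) : qValK k x = x.orderTop := HahnSeries.addVal_apply

theorem qValK_algebraMap (a : k) (ha : a ≠ 0) :
    qValK k (algebraMap k (LaurentSeries k) a) = 0 := by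
  rw [qValK_apply, algebraMap_laurentSeries_eq_single]
  exact HahnSeries.orderTop_single ha

theorem orderTop_jqModC_K : (jqModC k).orderTop = ((-1 : ℤ) : WithTop ℤ) := by
  rw [← HahnSeries.order_eq_orderTop_of_ne_zero (jqModC_ne_zero_of_nontrivial k),
    Fermat.Agent.S28.helper1457.order_jqModC]

end QVal

section Field

variable (k : Type) [Field k] (N : ℕ)

/-- `j̄` as an element of `Fk` (the same term as `helper9392.jbarC k N`). -/
abbrev jK : modularFunctionFieldFullC k N := Fermat.Agent.S18.helper9392.jbarC k N

@[simp]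
theorem coe_jK : ((jK k N : modularFunctionFieldFullC k N) : LaurentSeries k) = jqModC k := rfl

theorem jK_ne_zero : jK k N ≠ 0 := fun h =>
  jqModC_ne_zero_of_nontrivial k (by rw [← coe_jK k N, h]; rfl)

/-- (K1) `j̄` is transcendental over `k`. -/
theorem transcendental_jK : Transcendental k (jK k N) := by
  have h0 : Transcendental k (jqModC k) :=
    (transcendental_iff_injective).mpr (Fermat.Agent.S28.helper3292.aeval_jqModC_injective k)
  have h1 : Transcendental k
      (algebraMap (modularFunctionFieldFullC k N) (LaurentSeries k) (jK k N)) := h0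
  exact (transcendental_algebraMap_iff
    (algebraMap (modularFunctionFieldFullC k N) (LaurentSeries k)).injective).mp h1

/-! the `q`-adic place (the cusp `∞`); no hypothesis on `k` -/

theorem qValK_jK :
    qValK k ((modularFunctionFieldFullC k N).val (jK k N)) = ((-1 : ℤ) : WithTop ℤ) := by
  show qValK k (jqModC k) = _
  rw [qValK_apply, orderTop_jqModC_K]

theorem qPlaceK_nontrivial :
    ∃ f : modularFunctionFieldFullC k N,
      f ≠ 0 ∧ qValK k ((modularFunctionFieldFullC k N).val f) ≠ 0 := by
  refine ⟨jK k N, jK_ne_zero k N, ?_⟩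
  rw [qValK_jK]
  exact WithTop.coe_ne_zero.mpr (by norm_num)

/-- **The `q`-adic place** (the cusp `∞`) of `Fk`, for every field `k` and every level. -/
def qPlaceK : Place k (modularFunctionFieldFullC k N) :=
  Fermat.Agent.S24.helper1370.ofAlgHom (qValK k) (qValK_algebraMap k)
    (modularFunctionFieldFullC k N).val (qPlaceK_nontrivial k N)

theorem qPlaceK_index :
    Fermat.Agent.S24.helper1370.algHomIndex (qValK k)
      (modularFunctionFieldFullC k N).val (qPlaceK_nontrivial k N) = 1 := by
  have h := Fermat.Agent.S24.helper1370.algHomIndex_mul_ord (qValK k) (qValK_algebraMap k)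
    (modularFunctionFieldFullC k N).val (qPlaceK_nontrivial k N)
    (jK_ne_zero k N) (qValK_jK k N)
  have hdvd : ((Fermat.Agent.S24.helper1370.algHomIndex (qValK k)
      (modularFunctionFieldFullC k N).val (qPlaceK_nontrivial k N) : ℕ) : ℤ)
      ∣ 1 := (dvd_neg).mp ⟨_, h.symm⟩
  exact Nat.dvd_one.mp (Int.natCast_dvd_natCast.mp (by exact_mod_cast hdvd))

/-- The order at the `q`-adic place is the `q`-order of the `q`-expansion. -/
theorem qPlaceK_ord {f : modularFunctionFieldFullC k N} (hf : f ≠ 0) :
    (qPlaceK k N).ord f = (f : LaurentSeries k).order := by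
  have h := Fermat.Agent.S24.helper1370.ofAlgHom_apply (qValK k) (qValK_algebraMap k)
    (modularFunctionFieldFullC k N).val (qPlaceK_nontrivial k N) hf
  rw [qPlaceK_index, Nat.cast_one, one_mul] at h
  have hf' : (f : LaurentSeries k) ≠ 0 := fun h0 => hf (Subtype.ext h0)
  have h2 : qValK k ((modularFunctionFieldFullC k N).val f)
      = (((f : LaurentSeries k).order : ℤ) : WithTop ℤ) := by
    show qValK k (f : LaurentSeries k) = _
    rw [qValK_apply, HahnSeries.order_eq_orderTop_of_ne_zero hf']
  rw [h2] at h
  exact (WithTop.coe_injective h).symm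

theorem qPlaceK_ord_jK : (qPlaceK k N).ord (jK k N) = -1 := by
  rw [qPlaceK_ord k N (jK_ne_zero k N), coe_jK, Fermat.Agent.S28.helper1457.order_jqModC]

instance nonempty_place_K : Nonempty (Place k (modularFunctionFieldFullC k N)) :=
  ⟨qPlaceK k N⟩

/-! degree over `k(j̄)` -/

variable [NeZero N]

theorem rank_jK (hN : ∀ p : ℕ, p.Prime → p ∣ N → (p : k) ≠ 0) :
    Module.rank k⟮jK k N⟯ (modularFunctionFieldFullC k N) = (dedekindPsi N : Cardinal) := by
  rw [Fermat.Agent.S18.helper6381.rank_adjoin_subtype]
  exact Fermat.Agent.S18.helper6381.relrank_full_eq_psi k N hN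

/-- (K2) `Fk` is finite over `k(j̄)`. -/
theorem finiteDimensional_jK (hN : ∀ p : ℕ, p.Prime → p ∣ N → (p : k) ≠ 0) :
    FiniteDimensional k⟮jK k N⟯ (modularFunctionFieldFullC k N) :=
  haveI : Module.Free k⟮jK k N⟯ (modularFunctionFieldFullC k N) :=
    Module.Free.of_divisionRing _ _
  Module.finite_of_rank_eq_nat (rank_jK k N hN)

/-- (K2) `[Fk : k(j̄)] = ψ(N)`. -/
theorem finrank_jK (hN : ∀ p : ℕ, p.Prime → p ∣ N → (p : k) ≠ 0) :
    Module.finrank k⟮jK k N⟯ (modularFunctionFieldFullC k N) = dedekindPsi N :=
  Module.finrank_eq_of_rank_eq (rank_jK k N hN)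

end Field

/-! ### Algebraically closed `k`: constants and exchange (no separability needed) -/

section AlgClosed0

variable (k : Type) [Field k] (N : ℕ)

/-- (K7) a non-constant function is transcendental over `k`. -/
theorem transcendental_of_not_mem_range_K [IsAlgClosed k] {f : modularFunctionFieldFullC k N}
    (hf : f ∉ Set.range (algebraMap k (modularFunctionFieldFullC k N))) :
    Transcendental k f :=
  Fermat.Agent.S18.helper7885.transcendental_of_not_mem_range hf

variable [NeZero N]

/-- (K7) `Fk` is finite over `k(x)` for every transcendental `x`. -/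
theorem finiteDimensional_adjoin_K (hN : ∀ q : ℕ, q.Prime → q ∣ N → (q : k) ≠ 0)
    {x : modularFunctionFieldFullC k N} (hx : Transcendental k x) :
    FiniteDimensional k⟮x⟯ (modularFunctionFieldFullC k N) :=
  haveI := finiteDimensional_jK k N hN
  Fermat.Agent.S18.helper7885.finiteDimensional_adjoin_of_transcendental (jK k N) hx

variable [IsAlgClosed k]

/-- (K6) a function without poles is a constant (valuation form). -/
theorem exists_const_of_forall_adicValuation_le_one_K
    (hN : ∀ q : ℕ, q.Prime → q ∣ N → (q : k) ≠ 0) {f : modularFunctionFieldFullC k N}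
    (h : ∀ v : Place k (modularFunctionFieldFullC k N), v.adicValuation f ≤ 1) :
    ∃ c : k, f = algebraMap k (modularFunctionFieldFullC k N) c :=
  haveI := finiteDimensional_jK k N hN
  Fermat.Agent.S18.helper7885.exists_const_of_forall_adicValuation_le_one (jK k N) h

/-- (K6) a function with trivial divisor is a constant. -/
theorem exists_const_of_forall_ord_eq_zero_K
    (hN : ∀ q : ℕ, q.Prime → q ∣ N → (q : k) ≠ 0) {f : modularFunctionFieldFullC k N}
    (hf : f ≠ 0) (h : ∀ v : Place k (modularFunctionFieldFullC k N), v.ord f = 0) :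
    ∃ c : k, f = algebraMap k (modularFunctionFieldFullC k N) c :=
  haveI := finiteDimensional_jK k N hN
  Fermat.Agent.S18.helper7885.exists_const_of_forall_ord_eq_zero (jK k N) hf h

/-- (K6) two functions with the same divisor differ by a nonzero constant. -/
theorem exists_const_mul_of_forall_ord_eq_K
    (hN : ∀ q : ℕ, q.Prime → q ∣ N → (q : k) ≠ 0) {f g : modularFunctionFieldFullC k N}
    (hf : f ≠ 0) (hg : g ≠ 0)
    (h : ∀ v : Place k (modularFunctionFieldFullC k N), v.ord f = v.ord g) :
    ∃ c : k, c ≠ 0 ∧ f = algebraMap k (modularFunctionFieldFullC k N) c * g :=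
  haveI := finiteDimensional_jK k N hN
  Fermat.Agent.S18.helper7885.exists_const_mul_of_forall_ord_eq (jK k N) hf hg h

end AlgClosed0

/-! ### Algebraically closed `k` (any characteristic not dividing `N`): the full package -/

section AlgClosed

variable (k : Type) [Field k] [IsAlgClosed k] (N : ℕ) [NeZero N]

/-- (K3) `Fk` is separable over `k(j̄)` (`k` algebraically closed, any characteristic). -/
theorem isSeparable_jK (hN : ∀ q : ℕ, q.Prime → q ∣ N → (q : k) ≠ 0) :
    Algebra.IsSeparable k⟮jK k N⟯ (modularFunctionFieldFullC k N) := by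
  haveI := finiteDimensional_jK k N hN
  obtain ⟨p, hp⟩ := CharP.exists k
  rcases CharP.char_is_prime_or_zero k p with hpp | rfl
  · haveI : Fact p.Prime := ⟨hpp⟩
    exact Fermat.Agent.S18.helper9392.isSeparable_modularFunctionFieldFullC_of_isAlgClosed k p N
  · haveI : CharZero k := CharP.charP_to_charZero k
    haveI : CharZero k⟮jK k N⟯ :=
      charZero_of_injective_algebraMap (algebraMap k k⟮jK k N⟯).injective
    exact Algebra.IsAlgebraic.isSeparable_of_perfectField

/-- (K8) **Riemann's bound** for `Fk`: `deg D - l(D)` is bounded above. -/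
theorem hasRiemannBound_K (hN : ∀ q : ℕ, q.Prime → q ∣ N → (q : k) ≠ 0) :
    HasRiemannBound k (modularFunctionFieldFullC k N) :=
  haveI := finiteDimensional_jK k N hN
  haveI := Fermat.Agent.S18.helper4307.hasPrincipalDivisors_fullC k N hN
  Fermat.Agent.S18.helper981.hasRiemannBound_of_transcendental' (jK k N)
    (transcendental_jK k N) (qPlaceK k N) (Fermat.Agent.S18.helper4307.place_deg_eq_one_fullC k N hN)

/-- (K8) Riemann's theorem, consumer form: `deg D + 1 - g ≤ l(D)` with equality for all `D`
of large degree (`g = riemannGenus k Fk`). -/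
theorem exists_forall_finrank_eq_K (hN : ∀ q : ℕ, q.Prime → q ∣ N → (q : k) ≠ 0) :
    (∀ D : Divisor k (modularFunctionFieldFullC k N),
      Divisor.degree D + 1 - (riemannGenus k (modularFunctionFieldFullC k N) : ℤ)
        ≤ (finrank k (riemannRochSpace D) : ℤ)) ∧
    ∃ c : ℤ, ∀ D : Divisor k (modularFunctionFieldFullC k N), c ≤ Divisor.degree D →
      (finrank k (riemannRochSpace D) : ℤ)
        = Divisor.degree D + 1 - (riemannGenus k (modularFunctionFieldFullC k N) : ℤ) :=
  haveI := finiteDimensional_jK k N hN
  haveI := Fermat.Agent.S18.helper4307.hasPrincipalDivisors_fullC k N hN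
  Fermat.Agent.S18.helper981.exists_forall_finrank_eq_of_transcendental (jK k N)
    (transcendental_jK k N) (qPlaceK k N) (Fermat.Agent.S18.helper4307.place_deg_eq_one_fullC k N hN)

/-- (K9) **Fundamental equality** on `Fk`: the pole divisor of a transcendental `x` has
degree `[Fk : k(x)]`. -/
theorem degree_poleDivisor_K (hN : ∀ q : ℕ, q.Prime → q ∣ N → (q : k) ≠ 0)
    (x : modularFunctionFieldFullC k N) (hx : Transcendental k x)
    [FiniteDimensional k⟮x⟯ (modularFunctionFieldFullC k N)]
    (B : Divisor k (modularFunctionFieldFullC k N))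
    (hB : ∀ v : Place k (modularFunctionFieldFullC k N), B v = max 0 (-(v.ord x))) :
    Divisor.degree B = (finrank k⟮x⟯ (modularFunctionFieldFullC k N) : ℤ) :=
  haveI := Fermat.Agent.S18.helper4307.hasPrincipalDivisors_fullC k N hN
  Fermat.Agent.S18.helper981.degree_poleDivisor_eq_finrank (Fermat.Agent.S18.helper4307.place_deg_eq_one_fullC k N hN)
    (qPlaceK k N) x hx B hB

/-- (K9) fundamental equality, zero divisor form. -/
theorem degree_zeroDivisor_K (hN : ∀ q : ℕ, q.Prime → q ∣ N → (q : k) ≠ 0)
    (x : modularFunctionFieldFullC k N) (hx : Transcendental k x)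
    [FiniteDimensional k⟮x⟯ (modularFunctionFieldFullC k N)]
    (Z : Divisor k (modularFunctionFieldFullC k N))
    (hZ : ∀ v : Place k (modularFunctionFieldFullC k N), Z v = max 0 (v.ord x)) :
    Divisor.degree Z = (finrank k⟮x⟯ (modularFunctionFieldFullC k N) : ℤ) :=
  haveI := Fermat.Agent.S18.helper4307.hasPrincipalDivisors_fullC k N hN
  Fermat.Agent.S18.helper981.degree_zeroDivisor_eq_finrank (Fermat.Agent.S18.helper4307.place_deg_eq_one_fullC k N hN)
    (qPlaceK k N) x hx Z hZ

/-- (K9) the pole divisor of `j̄` has degree `ψ(N)`. -/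
theorem degree_poleDivisor_jK (hN : ∀ q : ℕ, q.Prime → q ∣ N → (q : k) ≠ 0)
    (B : Divisor k (modularFunctionFieldFullC k N))
    (hB : ∀ v : Place k (modularFunctionFieldFullC k N), B v = max 0 (-(v.ord (jK k N)))) :
    Divisor.degree B = (dedekindPsi N : ℤ) := by
  have := finiteDimensional_jK k N hN
  rw [degree_poleDivisor_K k N hN (jK k N) (transcendental_jK k N) B hB, finrank_jK k N hN]

end AlgClosed

/-! ### The residue field of a place of `ℚ̄` over `ℓ ∤ N` -/

section Residue

variable (N : ℕ) [NeZero N] {ℓ : ℕ} (hℓ : ℓ.Prime) (hℓN : ¬ ℓ ∣ N)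
  (A : ValuationSubring (AlgebraicClosure ℚ)) (hA : A.LiesOverPrime ℓ)

include hℓ hℓN hA

theorem finrank_jK_residue :
    Module.finrank (IsLocalRing.ResidueField A)⟮jK (IsLocalRing.ResidueField A) N⟯
      (modularFunctionFieldFullC (IsLocalRing.ResidueField A) N) = dedekindPsi N :=
  finrank_jK _ N (Fermat.Agent.S18.helper4307.natCast_ne_zero_residue N hℓ hℓN A hA)

theorem hasRiemannBound_residue :
    HasRiemannBound (IsLocalRing.ResidueField A)
      (modularFunctionFieldFullC (IsLocalRing.ResidueField A) N) :=
  haveI := Fermat.Agent.Lib.helper6879.isAlgClosed_residueField A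
  hasRiemannBound_K _ N (Fermat.Agent.S18.helper4307.natCast_ne_zero_residue N hℓ hℓN A hA)

theorem exists_const_of_forall_ord_eq_zero_residue
    {f : modularFunctionFieldFullC (IsLocalRing.ResidueField A) N} (hf : f ≠ 0)
    (h : ∀ v : Place (IsLocalRing.ResidueField A)
      (modularFunctionFieldFullC (IsLocalRing.ResidueField A) N), v.ord f = 0) :
    ∃ c : IsLocalRing.ResidueField A,
      f = algebraMap (IsLocalRing.ResidueField A)
        (modularFunctionFieldFullC (IsLocalRing.ResidueField A) N) c :=
  haveI := Fermat.Agent.Lib.helper6879.isAlgClosed_residueField A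
  exists_const_of_forall_ord_eq_zero_K _ N
    (Fermat.Agent.S18.helper4307.natCast_ne_zero_residue N hℓ hℓN A hA) hf h

theorem exists_const_mul_of_forall_ord_eq_residue
    {f g : modularFunctionFieldFullC (IsLocalRing.ResidueField A) N} (hf : f ≠ 0) (hg : g ≠ 0)
    (h : ∀ v : Place (IsLocalRing.ResidueField A)
      (modularFunctionFieldFullC (IsLocalRing.ResidueField A) N), v.ord f = v.ord g) :
    ∃ c : IsLocalRing.ResidueField A, c ≠ 0 ∧
      f = algebraMap (IsLocalRing.ResidueField A)
        (modularFunctionFieldFullC (IsLocalRing.ResidueField A) N) c * g :=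
  haveI := Fermat.Agent.Lib.helper6879.isAlgClosed_residueField A
  exists_const_mul_of_forall_ord_eq_K _ N
    (Fermat.Agent.S18.helper4307.natCast_ne_zero_residue N hℓ hℓN A hA) hf hg h

end Residue

end Fermat.Agent.S18.helper36
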