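import Fermat.Agent.S18.helper508_GaussMod
import Fermat.Agent.S18.helper8991_GaussInst

/-!
# GAUSSMOD bridge (helper508): the Igusa equality for the formal Gauss instance of helper8991

`helper8991.gaussF A π N` is the formal Gauss valuation subring of
`F̄_N = laurentBaseChange L (modularFunctionFieldFull N)` and `helper8991.gaussFRed A π N` its
reduction map with values in `k((q))`.  For `ℓ ∤ N`, `A` over `ℓ` and `π` surjective we prove the
non-formal half: the reduction map takes its values in `modularFunctionFieldFullC k N`
(`gaussFRed_mem_fullC`), and `gaussF` is the valuation subring `gaussValuationSubring` of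
`helper508_GaussMod` (`gaussF_eq_gaussValuationSubring`).
-/

set_option autoImplicit false

noncomputable section

namespace Fermat.Agent.S18.helper508

open IntermediateField ModularCurve Polynomial
open Fermat.Agent.S28

section FieldHom

variable {k₁ k₂ : Type*} [Field k₁] [Field k₂]

/-- A homomorphism of coefficient fields maps the function field of the special fibre into the
function field of the special fibre. -/
theorem coeffMap_mem_fullC (e : k₁ →+* k₂) (N : ℕ) {x : LaurentSeries k₁}
    (hx : x ∈ modularFunctionFieldFullC k₁ N) :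
    coeffMap e x ∈ modularFunctionFieldFullC k₂ N := by
  let E : IntermediateField k₁ (LaurentSeries k₁) :=
    { carrier := {x | coeffMap e x ∈ modularFunctionFieldFullC k₂ N}
      mul_mem' := fun {a b} ha hb => by
        show coeffMap e (a * b) ∈ modularFunctionFieldFullC k₂ N
        rw [map_mul]; exact mul_mem ha hb
      one_mem' := by
        show coeffMap e 1 ∈ modularFunctionFieldFullC k₂ N
        rw [map_one]; exact one_mem _
      add_mem' := fun {a b} ha hb => by
        show coeffMap e (a + b) ∈ modularFunctionFieldFullC k₂ N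
        rw [map_add]; exact add_mem ha hb
      zero_mem' := by
        show coeffMap e 0 ∈ modularFunctionFieldFullC k₂ N
        rw [map_zero]; exact zero_mem _
      algebraMap_mem' := fun c => by
        show coeffMap e (algebraMap k₁ (LaurentSeries k₁) c) ∈ modularFunctionFieldFullC k₂ N
        rw [helper3292.coeffMap_algebraMap']
        exact (modularFunctionFieldFullC k₂ N).algebraMap_mem _
      inv_mem' := fun a ha => by
        show coeffMap e a⁻¹ ∈ modularFunctionFieldFullC k₂ N
        rw [map_inv₀]; exact inv_mem ha }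
  have hle : modularFunctionFieldFullC k₁ N ≤ E := by
    rw [modularFunctionFieldFullC, IntermediateField.adjoin_le_iff]
    rintro _ ⟨d, hd, hdN, rfl⟩
    show coeffMap e (qExpand k₁ d (jqModC k₁)) ∈ modularFunctionFieldFullC k₂ N
    rw [coeffMap_qExpand, coeffMap_jqModC]
    exact jqModCd_mem_full k₂ N hdN
  exact hle hx

end FieldHom

section Bridge

variable (N : ℕ) [NeZero N] (ℓ : ℕ) [Fact ℓ.Prime] (hℓN : ¬ ℓ ∣ N)
  {L : Type*} [Field L] [Algebra ℚ L] (A : ValuationSubring L) (hA : (ℓ : L) ∈ A.nonunits)
  {k : Type*} [Field k] (π : A →+* k) (hπ : Function.Surjective π)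

include hπ in
omit [Algebra ℚ L] in
/-- A surjection of `A` onto a field kills the maximal ideal. -/
theorem map_eq_zero_of_mem_maximalIdeal {a : A} (ha : a ∈ IsLocalRing.maximalIdeal A) :
    π a = 0 := by
  have hmax : (RingHom.ker π).IsMaximal := RingHom.ker_isMaximal_of_surjective π hπ
  have := IsLocalRing.eq_maximalIdeal hmax
  rw [← this] at ha
  exact ha

/-- The induced embedding of the residue field of `A` into `k`. -/
def resLift : IsLocalRing.ResidueField A →+* k :=
  Ideal.Quotient.lift (IsLocalRing.maximalIdeal A) π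
    (fun _ ha => map_eq_zero_of_mem_maximalIdeal A π hπ ha)

omit [Algebra ℚ L] in
theorem resLift_comp : (resLift A π hπ).comp (IsLocalRing.residue A) = π := by
  ext a
  exact Ideal.Quotient.lift_mk (IsLocalRing.maximalIdeal A) π
    (fun _ ha => map_eq_zero_of_mem_maximalIdeal A π hπ ha)

omit [Algebra ℚ L] in
theorem red_eq_coeffMap_resLift (y : LaurentSeries A) :
    coeffMap π y = coeffMap (resLift A π hπ) (cπ A y) := by
  rw [coeffMap_coeffMap, resLift_comp]

include hπ in
omit [Algebra ℚ L] in
theorem red_ne_zero_iff (y : LaurentSeries A) : coeffMap π y ≠ 0 ↔ cπ A y ≠ 0 := by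
  rw [red_eq_coeffMap_resLift A π hπ]
  constructor
  · intro h h0
    exact h (by rw [h0, map_zero])
  · intro h h0
    exact h (coeffMap_injective _ (resLift A π hπ).injective (by rw [h0, map_zero]))

include hπ in
omit [Algebra ℚ L] in
theorem map_residue_ne_zero_iff (Q : A[X]) :
    Q.map π ≠ 0 ↔ Q.map (IsLocalRing.residue A) ≠ 0 := by
  rw [← resLift_comp A π hπ, ← Polynomial.map_map]
  constructor
  · intro h h0
    exact h (by rw [h0, Polynomial.map_zero])
  · intro h h0
    exact h (Polynomial.map_injective _ (resLift A π hπ).injective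
      (by rw [h0, Polynomial.map_zero]))

include hℓN hA hπ in
/-- Elements of the formal Gauss ring lying in `F̄_N` are Gauss-integral in the sense of
`helper508_GaussMod` (denominator a polynomial in `j`). -/
theorem isGaussIntegral_of_mem_gaussF
    (f : ↥(laurentBaseChange L (modularFunctionFieldFull N)))
    (hf : f ∈ helper8991.gaussF A π N) : IsGaussIntegral A (f : LaurentSeries L) := by
  rcases eq_or_ne (f : LaurentSeries L) 0 with h0 | h0
  · rw [h0]; exact isGaussIntegral_zero
  have hb := gaussBasis_isBasisZ N ℓ hℓN
  have hk := gaussBasis_indepRes N ℓ hℓN A hA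
  obtain ⟨c, Q, u, hc, hQ, hu0, hu, hrel⟩ := exists_unit_form hb hk f.2 h0
  obtain ⟨X, Y, hY, h⟩ := (helper8991.mem_gaussF_iff A π N f).mp hf
  have hcA : c ∈ A := by
    by_contra hcA
    have hinv : c⁻¹ ∈ A := (A.mem_or_inv_mem c).resolve_left hcA
    have hres : π ⟨c⁻¹, hinv⟩ = 0 := by
      apply map_eq_zero_of_mem_maximalIdeal A π hπ
      rw [← IsLocalRing.residue_eq_zero_iff]
      exact residue_inv_eq_zero hcA hinv
    have hAeq : u * Y = algebraMap A (LaurentSeries A) ⟨c⁻¹, hinv⟩ * (aeval (jqModC A) Q * X) := by
      apply cA_injective A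
      have e1 : cA A (algebraMap A (LaurentSeries A) ⟨c⁻¹, hinv⟩) =
          algebraMap L (LaurentSeries L) c⁻¹ := helper3292.coeffMap_algebraMap' _ _
      have e2 : algebraMap L (LaurentSeries L) c⁻¹ * algebraMap L (LaurentSeries L) c = 1 := by
        rw [← map_mul, inv_mul_cancel₀ hc, map_one]
      have h' : (f : LaurentSeries L) * cA A Y = cA A X := h
      rw [map_mul, map_mul, map_mul, e1, cA_aeval, ← h']
      calc cA A u * cA A Y
          = (algebraMap L (LaurentSeries L) c⁻¹ * algebraMap L (LaurentSeries L) c) *
              (cA A u * cA A Y) := by rw [e2, one_mul]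
        _ = algebraMap L (LaurentSeries L) c⁻¹ *
              ((algebraMap L (LaurentSeries L) c * cA A u) * cA A Y) := by ring
        _ = algebraMap L (LaurentSeries L) c⁻¹ *
              (aeval (jqModC L) (Q.map A.subtype) * ((f : LaurentSeries L) * cA A Y)) := by
            rw [← hrel]; ring
    have hred := congrArg (coeffMap π) hAeq
    rw [map_mul, map_mul, helper3292.coeffMap_algebraMap', hres, map_zero, zero_mul] at hred
    exact mul_ne_zero ((red_ne_zero_iff A π hπ u).mpr hu0) hY hred
  refine ⟨Q, algebraMap A (LaurentSeries A) ⟨c, hcA⟩ * u, hQ, ?_⟩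
  rw [hrel, map_mul, helper3292.coeffMap_algebraMap']
  rfl

include hℓN hA hπ in
/-- **Bridge (BR1)**: the formal Gauss valuation subring of helper8991 is the Gauss valuation
subring of `helper508_GaussMod`. -/
theorem gaussF_eq_gaussValuationSubring :
    helper8991.gaussF A π N = gaussValuationSubring N ℓ hℓN A hA := by
  ext f
  constructor
  · intro hf
    exact isGaussIntegral_of_mem_gaussF N ℓ hℓN A hA π hπ f hf
  · rintro ⟨Q, y, hQ, h⟩
    rw [helper8991.mem_gaussF_iff]
    refine ⟨y, aeval (jqModC A) Q, ?_, ?_⟩
    · show coeffMap π (aeval (jqModC A) Q) ≠ 0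
      rw [helper3292.coeffMap_aeval_jqModC]
      exact aeval_jqModC_ne_zero ((map_residue_ne_zero_iff A π hπ Q).mpr hQ)
    · show (f : LaurentSeries L) * cA A (aeval (jqModC A) Q) = cA A y
      rw [cA_aeval, mul_comm]
      exact h

include hℓN hA hπ in
/-- **Bridge (BR2) = the Igusa equality for `helper8991.gaussFRed`**: the reduction map of the
formal Gauss valuation subring takes its values in the function field
`modularFunctionFieldFullC k N` of the special fibre. -/
theorem gaussFRed_mem_fullC (f : ↥(helper8991.gaussF A π N)) :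
    helper8991.gaussFRed A π N f ∈ modularFunctionFieldFullC k N := by
  obtain ⟨Q, y, hQ, h⟩ := isGaussIntegral_of_mem_gaussF N ℓ hℓN A hA π hπ f.1 f.2
  have hY : helper8991.red A π (aeval (jqModC A) Q) ≠ 0 := by
    show coeffMap π (aeval (jqModC A) Q) ≠ 0
    rw [helper3292.coeffMap_aeval_jqModC]
    exact aeval_jqModC_ne_zero ((map_residue_ne_zero_iff A π hπ Q).mpr hQ)
  have h' : ((f : ↥(laurentBaseChange L (modularFunctionFieldFull N))) : LaurentSeries L) *
      helper8991.inc A (aeval (jqModC A) Q) = helper8991.inc A y := by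
    show _ * cA A (aeval (jqModC A) Q) = cA A y
    rw [cA_aeval, mul_comm]
    exact h
  rw [helper8991.gaussFRed_eq A π N f hY h']
  have hyF : cA A y ∈ laurentBaseChange L (modularFunctionFieldFull N) := by
    rw [← h]
    exact mul_mem (aeval_mem_of_mem _ (jqModC_mem_bar L N) _) f.1.2
  refine div_mem ?_ ?_
  · show coeffMap π y ∈ _
    rw [red_eq_coeffMap_resLift A π hπ]
    exact coeffMap_mem_fullC _ N (coeffMap_residue_mem_fullC N ℓ hℓN A hA y hyF)
  · show coeffMap π (aeval (jqModC A) Q) ∈ _
    rw [helper3292.coeffMap_aeval_jqModC]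
    exact aeval_mem_of_mem _ (jqModC_mem_full k N) _

include hℓN hA in
/-- (BR2) for the canonical residue map (the S18 instance `π = IsLocalRing.residue A`). -/
theorem gaussFRed_residue_mem_fullC (f : ↥(helper8991.gaussF A (IsLocalRing.residue A) N)) :
    helper8991.gaussFRed A (IsLocalRing.residue A) N f ∈
      modularFunctionFieldFullC (IsLocalRing.ResidueField A) N :=
  gaussFRed_mem_fullC N ℓ hℓN A hA _ IsLocalRing.residue_surjective f

include hℓN hA hπ in
/-- **(RED) for an arbitrary surjection `π : A → k`**: integral `q`-series of `F̄_N` reduce into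
`modularFunctionFieldFullC k N`. -/
theorem coeffMap_mem_fullC_of_surjective (y : LaurentSeries A)
    (hy : coeffMap A.subtype y ∈ laurentBaseChange L (modularFunctionFieldFull N)) :
    coeffMap π y ∈ modularFunctionFieldFullC k N := by
  rw [red_eq_coeffMap_resLift A π hπ]
  exact coeffMap_mem_fullC _ N (coeffMap_residue_mem_fullC N ℓ hℓN A hA y hy)

end Bridge

end Fermat.Agent.S18.helper508
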