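import Mathlib

/-!
# Two-chart Čech idempotent lemma ("connectedness by hand")

Leaf S18-CECH.  Pure commutative algebra, Mathlib only.

* `cech_idempotent` : abstract form.  `O` local with maximal ideal `(ϖ)`, chart rings `B0`, `B1`
  with overlap ring `B01`; if `H⁰ = O` and the `ϖ`-power torsion of `H¹ = B01 / (B0 + B1)` has
  bounded exponent, every idempotent of the special fibre is `0` or `1`.
* `cech_idempotent_subalgebra` : the same for charts given as subalgebras of one algebra.
* `bounded_torsion_of_span` : bounded torsion from a finite spanning set (Noetherian base).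
* `exists_pow_mul_isIntegral` : integral over `A0[t, t⁻¹]` implies `t ^ m * x` integral over
  `A0[t]` for large `m`.
* `isIntegral_of_isIntegral_adjoin_both` : integral over `A0[t]` and over `A0[t⁻¹]` implies
  integral over `A0` (valuative criterion).
* `chart_h1_span`, `chart_idempotent` : the normal two-chart model of a field `L ∋ t` over `A0`.
* `finite_integralClosure_adjoin` : the integral closure of `A0[t]` in a finite extension of
  `K0(t)` is a finite `A0[t]`-module (`A0` Noetherian, integrally closed, characteristic zero).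
* `chart_idempotent_dvr` : final form over a discrete valuation ring.
-/

set_option autoImplicit false

namespace Fermat.Agent.S18.helper5377

section Idem

variable {R : Type*} [CommRing R]

/-- One Newton step `e ↦ 3e² - 2e³` for idempotents modulo powers of `p`. -/
theorem idem_step (p e : R) (n : ℕ) (h : p ^ (n + 1) ∣ e * e - e) :
    ∃ e' : R, p ^ (n + 1) ∣ e' - e ∧ p ^ (n + 2) ∣ e' * e' - e' := by
  obtain ⟨x, hx⟩ := h
  refine ⟨3 * e ^ 2 - 2 * e ^ 3, ⟨x * (1 - 2 * e), ?_⟩, ?_⟩
  · linear_combination (1 - 2 * e) * hx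
  · have h2 : (3 * e ^ 2 - 2 * e ^ 3) * (3 * e ^ 2 - 2 * e ^ 3) - (3 * e ^ 2 - 2 * e ^ 3)
        = p ^ (n + 2) * (p ^ n * x ^ 2 * (4 * e ^ 2 - 4 * e - 3)) := by
      have : (3 * e ^ 2 - 2 * e ^ 3) * (3 * e ^ 2 - 2 * e ^ 3) - (3 * e ^ 2 - 2 * e ^ 3)
          = (e * e - e) ^ 2 * (4 * e ^ 2 - 4 * e - 3) := by ring
      rw [this, hx]
      ring
    exact ⟨_, h2⟩

/-- Idempotents modulo `p` lift to idempotents modulo `p ^ (n + 1)`. -/
theorem exists_idem_lift (p a : R) (h : p ∣ a * a - a) (n : ℕ) :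
    ∃ e : R, p ∣ e - a ∧ p ^ (n + 1) ∣ e * e - e := by
  induction n with
  | zero => exact ⟨a, by simp, by simpa using h⟩
  | succ n ih =>
    obtain ⟨e, he1, he2⟩ := ih
    obtain ⟨e', h1, h2⟩ := idem_step p e n he2
    refine ⟨e', ?_, h2⟩
    have : e' - a = (e' - e) + (e - a) := by ring
    rw [this]
    exact dvd_add ((dvd_pow_self p (Nat.succ_ne_zero n)).trans h1) he1

/-- Uniqueness of idempotent lifts: two idempotents modulo `p ^ n` that are congruent modulo `p`
are congruent modulo `p ^ n`. -/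
theorem idem_congr (p e f : R) (n : ℕ) (he : p ^ n ∣ e * e - e) (hf : p ^ n ∣ f * f - f)
    (hef : p ∣ e - f) : p ^ n ∣ e - f := by
  have key : (e - f) ^ 3 - (e - f)
      = (e * e - e) * (1 + e - 3 * f) + (f * f - f) * (3 * e - 1 - f) := by ring
  have hcube : p ^ n ∣ (e - f) ^ 3 - (e - f) := by
    rw [key]
    exact dvd_add (he.mul_right _) (hf.mul_right _)
  have aux : ∀ k : ℕ, k ≤ n → p ^ k ∣ e - f := by
    intro k
    induction k with
    | zero => intro _; simp
    | succ k ih =>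
      intro hk
      rcases Nat.eq_zero_or_pos k with rfl | hkpos
      · simpa using hef
      · have h1 : p ^ k ∣ e - f := ih (Nat.le_of_succ_le hk)
        have h3 : p ^ (k + 1) ∣ (e - f) ^ 3 := by
          have : p ^ (k + 1) ∣ (p ^ k) ^ 3 := by
            rw [← pow_mul]
            exact pow_dvd_pow p (by omega)
          exact this.trans (pow_dvd_pow_of_dvd h1 3)
        have h4 : p ^ (k + 1) ∣ (e - f) ^ 3 - (e - f) := (pow_dvd_pow p hk).trans hcube
        have : e - f = (e - f) ^ 3 - ((e - f) ^ 3 - (e - f)) := by ring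
        rw [this]
        exact dvd_sub h3 h4
  exact aux n le_rfl

end Idem

section Cech

variable {O B0 B1 B01 : Type*} [CommRing O] [CommRing B0] [CommRing B1] [CommRing B01]
  [Algebra O B0] [Algebra O B1] [Algebra O B01]

/-- **Two-chart Čech idempotent lemma (abstract form).**

`O` is a local ring whose maximal ideal is generated by `ϖ` (hypothesis `hloc`), `B0`, `B1`, `B01`
are the coordinate rings of two charts and of their overlap.  Assume that `ϖ` is regular on the
overlap and is not a unit there, that `H⁰ = O` (hypothesis `hH0`) and that the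
`ϖ`-power torsion of `H¹ = B01 / (ρ0 B0 + ρ1 B1)` has bounded exponent (hypothesis `hH1`).
Then every idempotent of the special fibre is `0` or `1`. -/
theorem cech_idempotent (ρ0 : B0 →ₐ[O] B01) (ρ1 : B1 →ₐ[O] B01) (ϖ : O)
    (hloc : ∀ s : O, ϖ ∣ s ∨ IsUnit s)
    (hreg : ∀ x : B01, algebraMap O B01 ϖ * x = 0 → x = 0)
    (hnu : ¬ IsUnit (algebraMap O B01 ϖ))
    (hH0 : ∀ (a : B0) (b : B1), ρ0 a = ρ1 b →
      ∃ c : O, a = algebraMap O B0 c ∧ b = algebraMap O B1 c)
    (hH1 : ∃ c : ℕ, ∀ (x : B01) (n : ℕ),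
      (∃ u v, algebraMap O B01 ϖ ^ n * x = ρ0 u + ρ1 v) →
        ∃ u v, algebraMap O B01 ϖ ^ c * x = ρ0 u + ρ1 v)
    (a : B0) (b : B1)
    (ha : algebraMap O B0 ϖ ∣ a * a - a) (hb : algebraMap O B1 ϖ ∣ b * b - b)
    (hab : algebraMap O B01 ϖ ∣ ρ0 a - ρ1 b) :
    (algebraMap O B0 ϖ ∣ a ∧ algebraMap O B1 ϖ ∣ b) ∨
      (algebraMap O B0 ϖ ∣ a - 1 ∧ algebraMap O B1 ϖ ∣ b - 1) := by
  set p0 := algebraMap O B0 ϖ with hp0
  set p1 := algebraMap O B1 ϖ with hp1
  set p := algebraMap O B01 ϖ with hp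
  have hρ0 : ρ0 p0 = p := ρ0.commutes ϖ
  have hρ1 : ρ1 p1 = p := ρ1.commutes ϖ
  -- regularity of powers of `p`
  have hregpow : ∀ (n : ℕ) (x : B01), p ^ n * x = 0 → x = 0 := by
    intro n
    induction n with
    | zero => intro x hx; simpa using hx
    | succ n ih =>
      intro x hx
      apply ih
      apply hreg
      rw [← mul_assoc, ← pow_succ']
      exact hx
  -- the lifted idempotents
  choose α hα1 hα2 using exists_idem_lift p0 a ha
  choose β hβ1 hβ2 using exists_idem_lift p1 b hb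
  -- the differences on the overlap
  have hd1 : ∀ n, p ∣ ρ0 (α n) - ρ1 (β n) := by
    intro n
    have e : ρ0 (α n) - ρ1 (β n) = ρ0 (α n - a) + (ρ0 a - ρ1 b) - ρ1 (β n - b) := by
      simp only [map_sub]; ring
    rw [e]
    refine dvd_sub (dvd_add ?_ hab) ?_
    · rw [← hρ0]; exact map_dvd ρ0 (hα1 n)
    · rw [← hρ1]; exact map_dvd ρ1 (hβ1 n)
  have hd2 : ∀ n, p ^ (n + 1) ∣ ρ0 (α n) - ρ1 (β n) := by
    intro n
    apply idem_congr p _ _ (n + 1) _ _ (hd1 n)
    · have := map_dvd ρ0 (hα2 n)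
      simpa [hρ0] using this
    · have := map_dvd ρ1 (hβ2 n)
      simpa [hρ1] using this
  choose γ hγ using hd2
  -- successive lifts are congruent
  have hαs : ∀ n, p0 ^ (n + 1) ∣ α (n + 1) - α n := by
    intro n
    apply idem_congr p0 _ _ (n + 1) _ (hα2 n)
    · have e : α (n + 1) - α n = (α (n + 1) - a) - (α n - a) := by ring
      rw [e]; exact dvd_sub (hα1 _) (hα1 _)
    · exact (pow_dvd_pow p0 (Nat.le_succ _)).trans (hα2 (n + 1))
  have hβs : ∀ n, p1 ^ (n + 1) ∣ β (n + 1) - β n := by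
    intro n
    apply idem_congr p1 _ _ (n + 1) _ (hβ2 n)
    · have e : β (n + 1) - β n = (β (n + 1) - b) - (β n - b) := by ring
      rw [e]; exact dvd_sub (hβ1 _) (hβ1 _)
    · exact (pow_dvd_pow p1 (Nat.le_succ _)).trans (hβ2 (n + 1))
  choose ξ hξ using hαs
  choose η hη using hβs
  -- the recursion `p * γ (n+1) = γ n + ρ0 ξ - ρ1 η`
  have hrec : ∀ n, p * γ (n + 1) = γ n + ρ0 (ξ n) - ρ1 (η n) := by
    intro n
    have h1 : ρ0 (α (n + 1)) - ρ1 (β (n + 1)) = p ^ (n + 1 + 1) * γ (n + 1) := hγ (n + 1)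
    have h2 : ρ0 (α n) - ρ1 (β n) = p ^ (n + 1) * γ n := hγ n
    have h3 : ρ0 (α (n + 1)) - ρ0 (α n) = p ^ (n + 1) * ρ0 (ξ n) := by
      rw [← map_sub, hξ n, map_mul, map_pow, hρ0]
    have h4 : ρ1 (β (n + 1)) - ρ1 (β n) = p ^ (n + 1) * ρ1 (η n) := by
      rw [← map_sub, hη n, map_mul, map_pow, hρ1]
    have h5 : p ^ (n + 1) * (p * γ (n + 1) - (γ n + ρ0 (ξ n) - ρ1 (η n))) = 0 := by
      linear_combination -h1 + h2 + h3 - h4
    exact sub_eq_zero.mp (hregpow _ _ h5)
  -- iterate
  have hiter : ∀ k n, ∃ u v, γ n = p ^ k * γ (n + k) + ρ0 u + ρ1 v := by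
    intro k
    induction k with
    | zero => intro n; exact ⟨0, 0, by simp⟩
    | succ k ih =>
      intro n
      obtain ⟨u, v, huv⟩ := ih n
      refine ⟨u - p0 ^ k * ξ (n + k), v + p1 ^ k * η (n + k), ?_⟩
      have hr := hrec (n + k)
      simp only [map_sub, map_add, map_mul, map_pow, hρ0, hρ1]
      rw [huv]
      have e : n + (k + 1) = n + k + 1 := by ring
      rw [e]
      linear_combination (-(p ^ k)) * hr
  obtain ⟨c, hc⟩ := hH1
  -- `γ 0` is a coboundary
  obtain ⟨u, v, huv⟩ := hiter c 0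
  obtain ⟨u', v', huv'⟩ := hc (γ (0 + c)) (0 + c + 1) ⟨α (0 + c), -β (0 + c), by
    rw [← hγ (0 + c), map_neg]; ring⟩
  have hγ0 : γ 0 = ρ0 (u + u') + ρ1 (v + v') := by
    rw [huv, huv', map_add, map_add]; ring
  -- produce the constant
  have heq : ρ0 (α 0 - p0 * (u + u')) = ρ1 (β 0 + p1 * (v + v')) := by
    have h0 : ρ0 (α 0) - ρ1 (β 0) = p ^ (0 + 1) * γ 0 := hγ 0
    simp only [map_sub, map_add, map_mul, hρ0, hρ1]
    rw [hγ0] at h0
    simp only [map_add] at h0
    linear_combination h0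
  obtain ⟨s, hs0, hs1⟩ := hH0 _ _ heq
  -- congruences `a ≡ s`, `b ≡ s`
  have has : p0 ∣ a - algebraMap O B0 s := by
    have e : a - algebraMap O B0 s = -(α 0 - a) + p0 * (u + u') := by
      rw [← hs0]; ring
    rw [e]
    exact dvd_add ((hα1 0).neg_right) (dvd_mul_right _ _)
  have hbs : p1 ∣ b - algebraMap O B1 s := by
    have e : b - algebraMap O B1 s = -(β 0 - b) - p1 * (v + v') := by
      rw [← hs1]; ring
    rw [e]
    exact dvd_sub ((hβ1 0).neg_right) (dvd_mul_right _ _)
  -- `s` is idempotent modulo `ϖ`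
  have hss : ϖ ∣ s * s - s := by
    rcases hloc (s * s - s) with h | h
    · exact h
    · exfalso
      apply hnu
      have hdiv : p0 ∣ algebraMap O B0 (s * s - s) := by
        obtain ⟨w, hw⟩ := has
        have e : algebraMap O B0 (s * s - s)
            = (a * a - a) - p0 * w * (2 * a - 1) + p0 * (p0 * w ^ 2) := by
          have : algebraMap O B0 s = a - p0 * w := by rw [← hw]; ring
          simp only [map_sub, map_mul, this]
          ring
        rw [e]
        refine dvd_add (dvd_sub ha ?_) (dvd_mul_right _ _)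
        rw [mul_assoc]; exact dvd_mul_right _ _
      have hdiv' : p ∣ algebraMap O B01 (s * s - s) := by
        have := map_dvd ρ0 hdiv
        rwa [hρ0, AlgHom.commutes] at this
      exact isUnit_of_dvd_unit hdiv' (h.map (algebraMap O B01))
  rcases hloc s with h | h
  · left
    constructor
    · have e : a = (a - algebraMap O B0 s) + algebraMap O B0 s := by ring
      rw [e]
      exact dvd_add has (map_dvd (algebraMap O B0) h)
    · have e : b = (b - algebraMap O B1 s) + algebraMap O B1 s := by ring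
      rw [e]
      exact dvd_add hbs (map_dvd (algebraMap O B1) h)
  · right
    have h1 : ϖ ∣ s - 1 := by
      obtain ⟨s', hs'⟩ := h.exists_left_inv
      have e : s - 1 = s' * (s * s - s) - (s' * s - 1) * (s - 1) := by ring
      rw [e, hs']
      simpa using hss.mul_left s'
    constructor
    · have e : a - 1 = (a - algebraMap O B0 s) + algebraMap O B0 (s - 1) := by
        simp only [map_sub, map_one]; ring
      rw [e]
      exact dvd_add has (map_dvd (algebraMap O B0) h1)
    · have e : b - 1 = (b - algebraMap O B1 s) + algebraMap O B1 (s - 1) := by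
        simp only [map_sub, map_one]; ring
      rw [e]
      exact dvd_add hbs (map_dvd (algebraMap O B1) h1)

end Cech

section BoundedTorsion

/-- Bounded `ϖ`-power torsion of `(N + span G) / N` for a finite set `G` over a Noetherian
ring. -/
theorem bounded_torsion_of_span {O L : Type*} [CommRing O] [IsNoetherianRing O] [AddCommGroup L]
    [Module O L] (N N01 : Submodule O L) (G : Set L) (hG : G.Finite)
    (hspan : N01 ≤ N ⊔ Submodule.span O G) (ϖ : O) :
    ∃ c : ℕ, ∀ x ∈ N01, ∀ n : ℕ, ϖ ^ n • x ∈ N → ϖ ^ c • x ∈ N := by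
  classical
  set Q' : Submodule O (L ⧸ N) := (Submodule.span O G).map N.mkQ with hQ'
  have hfg : Q'.FG := (Submodule.fg_span hG).map _
  have : IsNoetherian O Q' := isNoetherian_of_fg_of_noetherian Q' hfg
  set f : Module.End O Q' := ϖ • (1 : Module.End O Q') with hf
  have hfpow : ∀ (n : ℕ) (q : Q'), (f ^ n) q = ϖ ^ n • q := by
    intro n q
    rw [hf, smul_pow, one_pow]
    rfl
  obtain ⟨c, hc⟩ : ∃ c, ∀ m, c ≤ m → LinearMap.ker (f ^ c) = LinearMap.ker (f ^ m) :=
    monotone_stabilizes_iff_noetherian.mpr inferInstance f.iterateKer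
  refine ⟨c, fun x hx n hn => ?_⟩
  obtain ⟨y, hy, g, hg, rfl⟩ := Submodule.mem_sup.mp (hspan hx)
  have hgn : ϖ ^ n • g ∈ N := by
    have e : ϖ ^ n • g = ϖ ^ n • (y + g) - ϖ ^ n • y := by rw [smul_add]; abel
    rw [e]
    exact N.sub_mem hn (N.smul_mem _ hy)
  let q : Q' := ⟨N.mkQ g, Submodule.mem_map_of_mem hg⟩
  have hq : q ∈ LinearMap.ker (f ^ n) := by
    rw [LinearMap.mem_ker, hfpow]
    apply Subtype.ext
    show ϖ ^ n • N.mkQ g = 0
    rw [← map_smul, Submodule.mkQ_apply, Submodule.Quotient.mk_eq_zero]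
    exact hgn
  have hq' : q ∈ LinearMap.ker (f ^ c) := by
    rcases le_total n c with h | h
    · exact f.iterateKer.monotone h hq
    · rw [hc n h]; exact hq
  rw [LinearMap.mem_ker, hfpow] at hq'
  have hgc : ϖ ^ c • g ∈ N := by
    have := congrArg Subtype.val hq'
    change ϖ ^ c • N.mkQ g = 0 at this
    rwa [← map_smul, Submodule.mkQ_apply, Submodule.Quotient.mk_eq_zero] at this
  rw [smul_add]
  exact N.add_mem (N.smul_mem _ hy) hgc

end BoundedTorsion

section Subalgebra

variable {O L : Type*} [CommRing O] [CommRing L] [Algebra O L]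

/-- **Two-chart Čech idempotent lemma, for charts given as subalgebras of a common algebra.**
`M0`, `M1` are the chart rings and `M01 ⊇ M0, M1` the ring of the overlap. -/
theorem cech_idempotent_subalgebra (M0 M1 M01 : Subalgebra O L) (h0 : M0 ≤ M01) (h1 : M1 ≤ M01)
    (ϖ : O) (hloc : ∀ s : O, ϖ ∣ s ∨ IsUnit s)
    (hreg : ∀ x ∈ M01, ϖ • x = 0 → x = 0)
    (hnu : ∀ y ∈ M01, ϖ • y ≠ 1)
    (hH0 : ∀ x, x ∈ M0 → x ∈ M1 → x ∈ (algebraMap O L).range)
    (hH1 : ∃ c : ℕ, ∀ x ∈ M01, ∀ n : ℕ,
      ϖ ^ n • x ∈ M0.toSubmodule ⊔ M1.toSubmodule →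
        ϖ ^ c • x ∈ M0.toSubmodule ⊔ M1.toSubmodule)
    {a b : L} (ha : a ∈ M0) (hb : b ∈ M1)
    (ha2 : ∃ y ∈ M0, a * a - a = ϖ • y) (hb2 : ∃ y ∈ M1, b * b - b = ϖ • y)
    (hab : ∃ y ∈ M01, a - b = ϖ • y) :
    ((∃ y ∈ M0, a = ϖ • y) ∧ (∃ y ∈ M1, b = ϖ • y)) ∨
      ((∃ y ∈ M0, a - 1 = ϖ • y) ∧ (∃ y ∈ M1, b - 1 = ϖ • y)) := by
  have key := cech_idempotent (Subalgebra.inclusion h0) (Subalgebra.inclusion h1) ϖ hloc
    (by
      rintro ⟨x, hx⟩ hx0
      apply Subtype.ext
      apply hreg x hx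
      have := congrArg Subtype.val hx0
      simpa [Algebra.smul_def] using this)
    (by
      intro hu
      obtain ⟨⟨y, hy⟩, hy1⟩ := hu.exists_right_inv
      apply hnu y hy
      have := congrArg Subtype.val hy1
      simpa [Algebra.smul_def] using this)
    (by
      rintro ⟨x, hx⟩ ⟨y, hy⟩ hxy
      have hxy' : x = y := congrArg Subtype.val hxy
      subst hxy'
      obtain ⟨c, rfl⟩ := hH0 x hx hy
      exact ⟨c, Subtype.ext rfl, Subtype.ext rfl⟩)
    (by
      obtain ⟨c, hc⟩ := hH1
      refine ⟨c, ?_⟩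
      rintro ⟨x, hx⟩ n ⟨⟨u, hu⟩, ⟨v, hv⟩, huv⟩
      have huv' : ϖ ^ n • x = u + v := by
        have := congrArg Subtype.val huv
        simpa [Algebra.smul_def] using this
      have hmem : ϖ ^ n • x ∈ M0.toSubmodule ⊔ M1.toSubmodule := by
        rw [huv']
        exact Submodule.add_mem_sup hu hv
      obtain ⟨y0, hy0, y1, hy1, hy⟩ := Submodule.mem_sup.mp (hc x hx n hmem)
      refine ⟨⟨y0, hy0⟩, ⟨y1, hy1⟩, Subtype.ext ?_⟩
      simpa [Algebra.smul_def] using hy.symm)
    ⟨a, ha⟩ ⟨b, hb⟩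
    (by
      obtain ⟨y, hy, e⟩ := ha2
      exact ⟨⟨y, hy⟩, Subtype.ext (by simpa [Algebra.smul_def] using e)⟩)
    (by
      obtain ⟨y, hy, e⟩ := hb2
      exact ⟨⟨y, hy⟩, Subtype.ext (by simpa [Algebra.smul_def] using e)⟩)
    (by
      obtain ⟨y, hy, e⟩ := hab
      exact ⟨⟨y, hy⟩, Subtype.ext (by simpa [Algebra.smul_def] using e)⟩)
  rcases key with ⟨⟨⟨y, hy⟩, e⟩, ⟨⟨z, hz⟩, e'⟩⟩ | ⟨⟨⟨y, hy⟩, e⟩, ⟨⟨z, hz⟩, e'⟩⟩
  · left
    refine ⟨⟨y, hy, ?_⟩, ⟨z, hz, ?_⟩⟩
    · have := congrArg Subtype.val e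
      simpa [Algebra.smul_def] using this
    · have := congrArg Subtype.val e'
      simpa [Algebra.smul_def] using this
  · right
    refine ⟨⟨y, hy, ?_⟩, ⟨z, hz, ?_⟩⟩
    · have := congrArg Subtype.val e
      simpa [Algebra.smul_def] using this
    · have := congrArg Subtype.val e'
      simpa [Algebra.smul_def] using this

end Subalgebra

section Charts

variable {A0 L : Type*} [CommRing A0] [Field L] [Algebra A0 L]

/-- Transfer of integrality along a ring hom compatible with the algebra maps. -/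
theorem isIntegral_of_ringHom {R R' : Type*} [CommRing R] [CommRing R'] [Algebra R L]
    [Algebra R' L] (f : R →+* R') (hf : (algebraMap R' L).comp f = algebraMap R L) {x : L}
    (hx : IsIntegral R x) : IsIntegral R' x := by
  obtain ⟨p, hp, hpx⟩ := hx
  refine ⟨p.map f, hp.map f, ?_⟩
  rw [Polynomial.eval₂_map, hf]
  exact hpx

theorem isIntegral_adjoin_mono {s s' : Set L} (h : s ⊆ s') {x : L}
    (hx : IsIntegral (Algebra.adjoin A0 s) x) : IsIntegral (Algebra.adjoin A0 s') x :=
  isIntegral_of_ringHom (Subalgebra.inclusion (Algebra.adjoin_mono h)).toRingHom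
    (by ext; rfl) hx

theorem isIntegral_adjoin_of_mem {s : Set L} {x : L} (hx : x ∈ Algebra.adjoin A0 s) :
    IsIntegral (Algebra.adjoin A0 s) x :=
  isIntegral_algebraMap (R := Algebra.adjoin A0 s) (x := ⟨x, hx⟩)

/-- Elements of `A0[t, t⁻¹]` have bounded `t`-denominators. -/
theorem exists_pow_mul_mem_adjoin (t : L) (ht : t ≠ 0) {y : L}
    (hy : y ∈ Algebra.adjoin A0 ({t, t⁻¹} : Set L)) :
    ∃ n : ℕ, ∀ m, n ≤ m → t ^ m * y ∈ Algebra.adjoin A0 ({t} : Set L) := by
  have htmem : t ∈ Algebra.adjoin A0 ({t} : Set L) := Algebra.subset_adjoin (Set.mem_singleton t)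
  induction hy using Algebra.adjoin_induction with
  | mem x hx =>
    rcases hx with rfl | hx
    · exact ⟨0, fun m _ => Subalgebra.mul_mem _ (Subalgebra.pow_mem _ htmem m) htmem⟩
    · rw [Set.mem_singleton_iff] at hx
      subst hx
      refine ⟨1, fun m hm => ?_⟩
      obtain ⟨k, rfl⟩ := Nat.exists_eq_add_of_le hm
      have e : t ^ (1 + k) * t⁻¹ = t ^ k := by
        rw [pow_add, pow_one, mul_comm t, mul_assoc, mul_inv_cancel₀ ht, mul_one]
      rw [e]
      exact Subalgebra.pow_mem _ htmem k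
  | algebraMap r =>
    exact ⟨0, fun m _ => Subalgebra.mul_mem _ (Subalgebra.pow_mem _ htmem m)
      (Subalgebra.algebraMap_mem _ r)⟩
  | add x y hx hy ihx ihy =>
    obtain ⟨n1, h1⟩ := ihx
    obtain ⟨n2, h2⟩ := ihy
    refine ⟨max n1 n2, fun m hm => ?_⟩
    rw [mul_add]
    exact Subalgebra.add_mem _ (h1 m (le_trans (le_max_left _ _) hm))
      (h2 m (le_trans (le_max_right _ _) hm))
  | mul x y hx hy ihx ihy =>
    obtain ⟨n1, h1⟩ := ihx
    obtain ⟨n2, h2⟩ := ihy
    refine ⟨n1 + n2, fun m hm => ?_⟩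
    obtain ⟨k, rfl⟩ := Nat.exists_eq_add_of_le hm
    have e : t ^ (n1 + n2 + k) * (x * y) = (t ^ n1 * x) * (t ^ (n2 + k) * y) := by ring
    rw [e]
    exact Subalgebra.mul_mem _ (h1 n1 le_rfl) (h2 (n2 + k) (Nat.le_add_right _ _))

/-- An element integral over `A0[t, t⁻¹]` becomes integral over `A0[t]` after multiplication by
a power of `t`. -/
theorem exists_pow_mul_isIntegral (t : L) (ht : t ≠ 0) {x : L}
    (hx : IsIntegral (Algebra.adjoin A0 ({t, t⁻¹} : Set L)) x) :
    ∃ n : ℕ, ∀ m, n ≤ m → IsIntegral (Algebra.adjoin A0 ({t} : Set L)) (t ^ m * x) := by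
  classical
  obtain ⟨p, hp, hpx⟩ := hx
  have hsub : ({t} : Set L) ⊆ {t, t⁻¹} := by intro z hz; exact Or.inl hz
  have htmem : t ∈ Algebra.adjoin A0 ({t} : Set L) := Algebra.subset_adjoin (Set.mem_singleton t)
  have htmem' : t ∈ Algebra.adjoin A0 ({t, t⁻¹} : Set L) :=
    Algebra.subset_adjoin (Or.inl rfl)
  set incl : Algebra.adjoin A0 ({t} : Set L) →+* Algebra.adjoin A0 ({t, t⁻¹} : Set L) :=
    (Subalgebra.inclusion (Algebra.adjoin_mono hsub)).toRingHom with hincl
  have hden : ∀ i : ℕ, ∃ n : ℕ, ∀ m, n ≤ m →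
      t ^ m * (p.coeff i : L) ∈ Algebra.adjoin A0 ({t} : Set L) :=
    fun i => exists_pow_mul_mem_adjoin t ht (p.coeff i).2
  choose N hN using hden
  refine ⟨(Finset.range (p.natDegree + 1)).sup N, fun m hm => ?_⟩
  set s : Algebra.adjoin A0 ({t, t⁻¹} : Set L) := ⟨t ^ m, Subalgebra.pow_mem _ htmem' m⟩ with hs
  have hlift : Polynomial.scaleRoots p s ∈ Polynomial.lifts incl := by
    rw [Polynomial.lifts_iff_coeff_lifts]
    intro i
    rw [Polynomial.coeff_scaleRoots]
    rcases lt_trichotomy i p.natDegree with hi | hi | hi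
    · have hNi : N i ≤ m :=
        le_trans (Finset.le_sup (f := N) (Finset.mem_range.mpr (by omega))) hm
      have hmem : ((p.coeff i : L) * (t ^ m) ^ (p.natDegree - i)) ∈
          Algebra.adjoin A0 ({t} : Set L) := by
        obtain ⟨k, hk⟩ : ∃ k, p.natDegree - i = k + 1 := ⟨p.natDegree - i - 1, by omega⟩
        have e : (p.coeff i : L) * (t ^ m) ^ (p.natDegree - i)
            = (t ^ m * (p.coeff i : L)) * (t ^ m) ^ k := by rw [hk]; ring
        rw [e]
        exact Subalgebra.mul_mem _ (hN i m hNi)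
          (Subalgebra.pow_mem _ (Subalgebra.pow_mem _ htmem m) k)
      exact ⟨⟨_, hmem⟩, Subtype.ext rfl⟩
    · refine ⟨1, ?_⟩
      rw [hi, Nat.sub_self, pow_zero, mul_one, Polynomial.coeff_natDegree, hp.leadingCoeff,
        map_one]
    · refine ⟨0, ?_⟩
      rw [Polynomial.coeff_eq_zero_of_natDegree_lt hi, zero_mul, map_zero]
  obtain ⟨q, hq, -, hqm⟩ := Polynomial.lifts_and_natDegree_eq_and_monic hlift
    ((Polynomial.monic_scaleRoots_iff s).mpr hp)
  refine ⟨q, hqm, ?_⟩
  have hcomp : (algebraMap (Algebra.adjoin A0 ({t, t⁻¹} : Set L)) L).comp incl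
      = algebraMap (Algebra.adjoin A0 ({t} : Set L)) L := by ext; rfl
  rw [← hcomp, ← Polynomial.eval₂_map, hq]
  have hsx : t ^ m * x = algebraMap (Algebra.adjoin A0 ({t, t⁻¹} : Set L)) L s * x := rfl
  rw [hsx, Polynomial.scaleRoots_eval₂_mul, hpx, mul_zero]

/-- `H⁰`: an element integral over both `A0[t]` and `A0[t⁻¹]` is integral over `A0`. -/
theorem isIntegral_of_isIntegral_adjoin_both (t : L) {x : L}
    (h0 : IsIntegral (Algebra.adjoin A0 ({t} : Set L)) x)
    (h1 : IsIntegral (Algebra.adjoin A0 ({t⁻¹} : Set L)) x) : IsIntegral A0 x := by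
  have hV : ∀ V : ValuationSubring L, Set.range (algebraMap A0 L) ⊆ V.toSubring → x ∈ V := by
    intro V hV
    have key : ∀ u : L, u ∈ V → IsIntegral (Algebra.adjoin A0 ({u} : Set L)) x → x ∈ V := by
      intro u hu hx
      have hle : ∀ y ∈ Algebra.adjoin A0 ({u} : Set L), y ∈ V := by
        intro y hy
        induction hy using Algebra.adjoin_induction with
        | mem z hz =>
          rw [Set.mem_singleton_iff] at hz
          subst hz
          exact hu
        | algebraMap r => exact hV ⟨r, rfl⟩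
        | add _ _ _ _ h1 h2 => exact V.add_mem _ _ h1 h2
        | mul _ _ _ _ h1 h2 => exact V.mul_mem _ _ h1 h2
      let f : Algebra.adjoin A0 ({u} : Set L) →+* V :=
        { toFun := fun y => ⟨y.1, hle y.1 y.2⟩
          map_one' := rfl
          map_mul' := fun _ _ => rfl
          map_zero' := rfl
          map_add' := fun _ _ => rfl }
      have hxV : IsIntegral V x := isIntegral_of_ringHom f (by ext; rfl) hx
      obtain ⟨y, hy⟩ :=
        (isIntegrallyClosedIn_iff.mp (inferInstance : IsIntegrallyClosedIn V L)).2 hxV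
      rw [← hy]
      exact y.2
    rcases V.mem_or_inv_mem t with ht | ht
    · exact key t ht h0
    · exact key t⁻¹ ht h1
  have hx : x ∈ (integralClosure (Subring.closure (Set.range (algebraMap A0 L))) L).toSubring := by
    rw [← iInf_valuationSubring_superset, Subring.mem_iInf]
    rintro ⟨V, hV'⟩
    exact hV V hV'
  have hx' : IsIntegral (Subring.closure (Set.range (algebraMap A0 L))) x := hx
  have hmem : ∀ r : A0, algebraMap A0 L r ∈ Subring.closure (Set.range (algebraMap A0 L)) :=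
    fun r => Subring.subset_closure ⟨r, rfl⟩
  let g : A0 →+* Subring.closure (Set.range (algebraMap A0 L)) :=
    (algebraMap A0 L).codRestrict _ hmem
  have hg : Function.Surjective g := by
    rintro ⟨y, hy⟩
    have : y ∈ (algebraMap A0 L).range := by
      have h := Subring.closure_eq (algebraMap A0 L).range
      rw [RingHom.coe_range] at h
      rw [← h]
      exact hy
    obtain ⟨r, rfl⟩ := this
    exact ⟨r, Subtype.ext rfl⟩
  obtain ⟨p, hp, hpx⟩ := hx'
  have hlift : p ∈ Polynomial.lifts g := by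
    rw [Polynomial.lifts_iff_coeff_lifts]
    intro i
    exact hg _
  obtain ⟨q, hq, -, hqm⟩ := Polynomial.lifts_and_natDegree_eq_and_monic hlift hp
  refine ⟨q, hqm, ?_⟩
  have hcomp : (algebraMap (Subring.closure (Set.range (algebraMap A0 L))) L).comp g
      = algebraMap A0 L := by ext; rfl
  rw [← hcomp, ← Polynomial.eval₂_map, hq]
  exact hpx

/-- The chart ring attached to a set `s` of coordinates: the integral closure of `A0[s]` in `L`,
as an `A0`-subalgebra of `L`. -/
def chart (A0 : Type*) {L : Type*} [CommRing A0] [Field L] [Algebra A0 L] (s : Set L) :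
    Subalgebra A0 L :=
  (integralClosure (Algebra.adjoin A0 s) L).restrictScalars A0

theorem mem_chart {s : Set L} {x : L} :
    x ∈ chart A0 s ↔ IsIntegral (Algebra.adjoin A0 s) x := Iff.rfl

theorem chart_mono {s s' : Set L} (h : s ⊆ s') : chart A0 s ≤ chart A0 s' :=
  fun _ hx => isIntegral_adjoin_mono h hx

/-- `H¹` of the two-chart cover is spanned, modulo the two charts, by finitely many elements,
as soon as the first chart ring is a finite module over `A0[t]`. -/
theorem chart_h1_span (t : L) (ht : t ≠ 0)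
    (hfin : ∃ E : Finset L, (∀ e ∈ E, IsIntegral (Algebra.adjoin A0 ({t} : Set L)) e) ∧
      ∀ x, IsIntegral (Algebra.adjoin A0 ({t} : Set L)) x →
        x ∈ Submodule.span (Algebra.adjoin A0 ({t} : Set L)) (E : Set L)) :
    ∃ G : Set L, G.Finite ∧
      (chart A0 ({t, t⁻¹} : Set L)).toSubmodule ≤
        ((chart A0 ({t} : Set L)).toSubmodule ⊔ (chart A0 ({t⁻¹} : Set L)).toSubmodule) ⊔
          Submodule.span A0 G := by
  classical
  obtain ⟨E, hE, hspanE⟩ := hfin
  have htmem : t ∈ Algebra.adjoin A0 ({t} : Set L) := Algebra.subset_adjoin (Set.mem_singleton t)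
  -- Step 1: uniform exponent for the generators
  have h1 : ∀ e ∈ E, ∃ n : ℕ, ∀ m, n ≤ m →
      IsIntegral (Algebra.adjoin A0 ({t⁻¹} : Set L)) (t⁻¹ ^ m * e) := by
    intro e he
    apply exists_pow_mul_isIntegral t⁻¹ (inv_ne_zero ht)
    refine isIntegral_adjoin_mono ?_ (hE e he)
    intro z hz
    rw [Set.mem_singleton_iff] at hz
    subst hz
    right
    rw [Set.mem_singleton_iff, inv_inv]
  choose! N hN using h1
  set a : ℕ := E.sup N with ha
  set G : Finset L := (E ×ˢ Finset.range a).image (fun p : L × ℕ => t⁻¹ ^ p.2 * p.1) with hG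
  refine ⟨(G : Set L), G.finite_toSet, ?_⟩
  set T : Submodule A0 L :=
    ((chart A0 ({t} : Set L)).toSubmodule ⊔ (chart A0 ({t⁻¹} : Set L)).toSubmodule) ⊔
      Submodule.span A0 (G : Set L) with hT
  -- Step 3: all `t ^ j * e` lie in `T`
  have hgen : ∀ e ∈ E, ∀ j : ℤ, t ^ j * e ∈ T := by
    intro e he j
    rcases j with k | k
    · have : IsIntegral (Algebra.adjoin A0 ({t} : Set L)) (t ^ k * e) :=
        (isIntegral_adjoin_of_mem (Subalgebra.pow_mem _ htmem k)).mul (hE e he)
      rw [Int.ofNat_eq_natCast, zpow_natCast]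
      exact le_sup_left (α := Submodule A0 L) (le_sup_left (α := Submodule A0 L) this)
    · rw [zpow_negSucc, ← inv_pow]
      by_cases hk : a ≤ k + 1
      · have : IsIntegral (Algebra.adjoin A0 ({t⁻¹} : Set L)) (t⁻¹ ^ (k + 1) * e) :=
          hN e he (k + 1) (le_trans (Finset.le_sup (f := N) he) hk)
        exact le_sup_left (α := Submodule A0 L) (le_sup_right (α := Submodule A0 L) this)
      · apply le_sup_right (α := Submodule A0 L)
        apply Submodule.subset_span
        rw [hG, Finset.coe_image]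
        exact ⟨(e, k + 1), by simp [he]; omega, rfl⟩
  -- Step 4: the predicate on the span
  have hP : ∀ y ∈ Submodule.span (Algebra.adjoin A0 ({t} : Set L)) (E : Set L),
      ∀ j : ℤ, t ^ j * y ∈ T := by
    intro y hy
    induction hy using Submodule.span_induction with
    | mem e he => exact hgen e he
    | zero => intro j; rw [mul_zero]; exact T.zero_mem
    | add y z _ _ ihy ihz => intro j; rw [mul_add]; exact T.add_mem (ihy j) (ihz j)
    | smul r y _ ihy =>
      intro j
      obtain ⟨r, hr⟩ := r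
      obtain ⟨f, hf⟩ : ∃ f : Polynomial A0, Polynomial.aeval t f = r := by
        have hr' := hr
        rw [Algebra.adjoin_singleton_eq_range_aeval] at hr'
        exact hr'
      have e : t ^ j * ((⟨r, hr⟩ : Algebra.adjoin A0 ({t} : Set L)) • y)
          = ∑ i ∈ Finset.range (f.natDegree + 1), f.coeff i • (t ^ (j + (i : ℤ)) * y) := by
        have e1 : (⟨r, hr⟩ : Algebra.adjoin A0 ({t} : Set L)) • y = r * y := rfl
        rw [e1, ← hf, Polynomial.aeval_eq_sum_range, Finset.sum_mul, Finset.mul_sum]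
        refine Finset.sum_congr rfl fun i _ => ?_
        rw [zpow_add₀ ht, zpow_natCast, smul_mul_assoc, mul_smul_comm, mul_assoc]
      rw [e]
      exact T.sum_mem fun i _ => T.smul_mem _ (ihy _)
  -- Step 5
  intro x hx
  obtain ⟨n, hn⟩ := exists_pow_mul_isIntegral t ht (mem_chart.mp hx)
  have := hP _ (hspanE _ (hn n le_rfl)) (-(n : ℤ))
  rwa [zpow_neg, zpow_natCast, ← mul_assoc, inv_mul_cancel₀ (pow_ne_zero n ht), one_mul] at this

/-- **Connectedness by hand for the normal two-chart model.**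

`A0` is a Noetherian local ring with maximal ideal `(ϖ)`, `L` a field containing `A0`, `t ∈ L`
non-zero.  `M0`, `M1`, `M01` are the integral closures of `A0[t]`, `A0[t⁻¹]`, `A0[t, t⁻¹]` in
`L`.  If `A0` is integrally closed in `L`, `M0` is a finite `A0[t]`-module and `ϖ` is not a unit
of `M01`, then the special fibre `{(a, b) ∈ M0/ϖ × M1/ϖ : a = b in M01/ϖ}` has no idempotent
other than `0` and `1`. -/
theorem chart_idempotent [IsNoetherianRing A0] (t : L) (ht : t ≠ 0) (ϖ : A0)
    (hloc : ∀ s : A0, ϖ ∣ s ∨ IsUnit s)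
    (hϖ : algebraMap A0 L ϖ ≠ 0)
    (hnu : ∀ y : L, IsIntegral (Algebra.adjoin A0 ({t, t⁻¹} : Set L)) y → ϖ • y ≠ 1)
    (hconst : ∀ x : L, IsIntegral A0 x → x ∈ (algebraMap A0 L).range)
    (hfin : ∃ E : Finset L, (∀ e ∈ E, IsIntegral (Algebra.adjoin A0 ({t} : Set L)) e) ∧
      ∀ x, IsIntegral (Algebra.adjoin A0 ({t} : Set L)) x →
        x ∈ Submodule.span (Algebra.adjoin A0 ({t} : Set L)) (E : Set L))
    {a b : L} (ha : IsIntegral (Algebra.adjoin A0 ({t} : Set L)) a)
    (hb : IsIntegral (Algebra.adjoin A0 ({t⁻¹} : Set L)) b)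
    (ha2 : ∃ y, IsIntegral (Algebra.adjoin A0 ({t} : Set L)) y ∧ a * a - a = ϖ • y)
    (hb2 : ∃ y, IsIntegral (Algebra.adjoin A0 ({t⁻¹} : Set L)) y ∧ b * b - b = ϖ • y)
    (hab : ∃ y, IsIntegral (Algebra.adjoin A0 ({t, t⁻¹} : Set L)) y ∧ a - b = ϖ • y) :
    ((∃ y, IsIntegral (Algebra.adjoin A0 ({t} : Set L)) y ∧ a = ϖ • y) ∧
        (∃ y, IsIntegral (Algebra.adjoin A0 ({t⁻¹} : Set L)) y ∧ b = ϖ • y)) ∨
      ((∃ y, IsIntegral (Algebra.adjoin A0 ({t} : Set L)) y ∧ a - 1 = ϖ • y) ∧
        (∃ y, IsIntegral (Algebra.adjoin A0 ({t⁻¹} : Set L)) y ∧ b - 1 = ϖ • y)) := by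
  obtain ⟨G, hGfin, hG⟩ := chart_h1_span (A0 := A0) t ht hfin
  have hH1 := bounded_torsion_of_span
    ((chart A0 ({t} : Set L)).toSubmodule ⊔ (chart A0 ({t⁻¹} : Set L)).toSubmodule)
    (chart A0 ({t, t⁻¹} : Set L)).toSubmodule G hGfin hG ϖ
  have key := cech_idempotent_subalgebra (chart A0 ({t} : Set L)) (chart A0 ({t⁻¹} : Set L))
    (chart A0 ({t, t⁻¹} : Set L))
    (chart_mono (fun z hz => Or.inl hz)) (chart_mono (fun z hz => Or.inr hz)) ϖ hloc
    (by
      intro x _ hx
      rw [Algebra.smul_def] at hx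
      exact (mul_eq_zero.mp hx).resolve_left hϖ)
    (fun y hy => hnu y hy)
    (fun x hx0 hx1 => hconst x (isIntegral_of_isIntegral_adjoin_both t hx0 hx1))
    hH1 (a := a) (b := b) ha hb
    (by obtain ⟨y, hy, e⟩ := ha2; exact ⟨y, hy, e⟩)
    (by obtain ⟨y, hy, e⟩ := hb2; exact ⟨y, hy, e⟩)
    (by obtain ⟨y, hy, e⟩ := hab; exact ⟨y, hy, e⟩)
  rcases key with ⟨⟨y, hy, e⟩, ⟨z, hz, e'⟩⟩ | ⟨⟨y, hy, e⟩, ⟨z, hz, e'⟩⟩
  · exact Or.inl ⟨⟨y, hy, e⟩, ⟨z, hz, e'⟩⟩
  · exact Or.inr ⟨⟨y, hy, e⟩, ⟨z, hz, e'⟩⟩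

/-- `ϖ` is not a unit of the overlap ring when `t` is transcendental over `A0` and `ϖ` is not
a unit of `A0`. -/
theorem smul_ne_one_of_transcendental (t : L) (ht : Transcendental A0 t) (ϖ : A0)
    (hϖ : ¬ IsUnit ϖ) (y : L) (hy : IsIntegral (Algebra.adjoin A0 ({t, t⁻¹} : Set L)) y) :
    ϖ • y ≠ 1 := by
  intro h1
  have : Nontrivial A0 := (algebraMap A0 L).domain_nontrivial
  have ht0 : t ≠ 0 := by
    rintro rfl
    exact ht ⟨Polynomial.X, Polynomial.X_ne_zero, by simp⟩
  -- `y` lies in `A0[t, t⁻¹]`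
  have hymem : y ∈ Algebra.adjoin A0 ({t, t⁻¹} : Set L) := by
    set R01 := Algebra.adjoin A0 ({t, t⁻¹} : Set L) with hR01
    let u : R01 := algebraMap A0 R01 ϖ
    let y' : integralClosure R01 L := ⟨y, hy⟩
    have hu : IsUnit (algebraMap R01 (integralClosure R01 L) u) := by
      refine IsUnit.of_mul_eq_one y' ?_
      apply Subtype.ext
      show algebraMap A0 L ϖ * y = 1
      rw [← Algebra.smul_def]
      exact h1
    have hint : (algebraMap R01 (integralClosure R01 L)).IsIntegral :=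
      algebraMap_isIntegral_iff.mpr inferInstance
    have hinj : Function.Injective (algebraMap R01 (integralClosure R01 L)) := by
      intro x1 x2 h
      exact Subtype.ext (congrArg (fun z : integralClosure R01 L => (z : L)) h)
    have hu' : IsUnit u := (hint.isLocalHom hinj).map_nonunit u hu
    obtain ⟨z, hz⟩ := hu'.exists_right_inv
    have hz' : algebraMap A0 L ϖ * (z : L) = 1 := congrArg Subtype.val hz
    have hyz : y = z := by
      have h1' : algebraMap A0 L ϖ * y = 1 := by rw [← Algebra.smul_def]; exact h1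
      have hne : algebraMap A0 L ϖ ≠ 0 := by
        intro h0
        rw [h0, zero_mul] at hz'
        exact zero_ne_one hz'
      exact mul_left_cancel₀ hne (h1'.trans hz'.symm)
    rw [hyz]
    exact z.2
  obtain ⟨n, hn⟩ := exists_pow_mul_mem_adjoin (A0 := A0) t ht0 hymem
  have hmem := hn n le_rfl
  rw [Algebra.adjoin_singleton_eq_range_aeval] at hmem
  obtain ⟨f, hf⟩ : ∃ f : Polynomial A0, Polynomial.aeval t f = t ^ n * y := hmem
  have hpoly : Polynomial.C ϖ * f = Polynomial.X ^ n := by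
    have hinj := transcendental_iff_injective.mp ht
    apply hinj
    rw [map_mul, Polynomial.aeval_C, hf, map_pow, Polynomial.aeval_X]
    have h1' : algebraMap A0 L ϖ * y = 1 := by rw [← Algebra.smul_def]; exact h1
    calc algebraMap A0 L ϖ * (t ^ n * y) = t ^ n * (algebraMap A0 L ϖ * y) := by ring
      _ = t ^ n := by rw [h1', mul_one]
  have hcoeff := congrArg (fun q => Polynomial.coeff q n) hpoly
  simp only [Polynomial.coeff_C_mul, Polynomial.coeff_X_pow, if_true] at hcoeff
  exact hϖ (IsUnit.of_mul_eq_one _ hcoeff)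

/-- `A0` is integrally closed in `L` when `A0` is integrally closed and its fraction field is
algebraically closed in `L`. -/
theorem range_of_isIntegral_of_algClosed {K0 : Type*} [Field K0] [Algebra A0 K0]
    [IsFractionRing A0 K0] [IsDomain A0] [IsIntegrallyClosed A0] [Algebra K0 L]
    [IsScalarTower A0 K0 L]
    (hK0 : ∀ x : L, IsAlgebraic K0 x → x ∈ (algebraMap K0 L).range)
    (x : L) (hx : IsIntegral A0 x) : x ∈ (algebraMap A0 L).range := by
  obtain ⟨y, rfl⟩ := hK0 x (hx.tower_top (A := K0)).isAlgebraic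
  have hy : IsIntegral A0 y :=
    (isIntegral_algebraMap_iff (algebraMap K0 L).injective).mp hx
  obtain ⟨r, rfl⟩ := IsIntegrallyClosed.isIntegral_iff.mp hy
  exact ⟨r, (IsScalarTower.algebraMap_apply A0 K0 L r).symm ▸ rfl⟩

end Charts

section Finite

theorem algebraMap_injective_of_tower (A0 K0 L : Type*) [CommRing A0] [Field K0]
    [Algebra A0 K0] [IsFractionRing A0 K0] [Field L] [Algebra K0 L] [Algebra A0 L]
    [IsScalarTower A0 K0 L] : Function.Injective (algebraMap A0 L) := by
  rw [IsScalarTower.algebraMap_eq A0 K0 L]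
  exact (algebraMap K0 L).injective.comp (IsFractionRing.injective A0 K0)

variable {A0 K0 L : Type*} [CommRing A0] [IsDomain A0] [Field K0] [Algebra A0 K0]
  [IsFractionRing A0 K0] [Field L] [Algebra K0 L] [Algebra A0 L] [IsScalarTower A0 K0 L]

/-- Elements of `K0[t]` are elements of `A0[t]` divided by non-zero constants of `A0`. -/
theorem exists_div_of_mem_adjoin_field (t : L) {r : L}
    (hr : r ∈ Algebra.adjoin K0 ({t} : Set L)) :
    ∃ x ∈ Algebra.adjoin A0 ({t} : Set L), ∃ c : A0, c ≠ 0 ∧ r = x / algebraMap A0 L c := by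
  have hinj : Function.Injective (algebraMap A0 L) := algebraMap_injective_of_tower A0 K0 L
  have hne : ∀ c : A0, c ≠ 0 → algebraMap A0 L c ≠ 0 := fun c hc h =>
    hc (hinj (h.trans (map_zero _).symm))
  induction hr using Algebra.adjoin_induction with
  | mem z hz => exact ⟨z, Algebra.subset_adjoin hz, 1, one_ne_zero, by simp⟩
  | algebraMap k =>
    obtain ⟨a, b, hb, rfl⟩ := IsFractionRing.div_surjective A0 k
    refine ⟨algebraMap A0 L a, Subalgebra.algebraMap_mem _ a, b, nonZeroDivisors.ne_zero hb, ?_⟩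
    rw [map_div₀, ← IsScalarTower.algebraMap_apply, ← IsScalarTower.algebraMap_apply]
  | add r1 r2 _ _ ih1 ih2 =>
    obtain ⟨x1, hx1, c1, hc1, rfl⟩ := ih1
    obtain ⟨x2, hx2, c2, hc2, rfl⟩ := ih2
    refine ⟨algebraMap A0 L c2 * x1 + algebraMap A0 L c1 * x2, ?_, c1 * c2,
      mul_ne_zero hc1 hc2, ?_⟩
    · exact Subalgebra.add_mem _ (Subalgebra.mul_mem _ (Subalgebra.algebraMap_mem _ _) hx1)
        (Subalgebra.mul_mem _ (Subalgebra.algebraMap_mem _ _) hx2)
    · have h1 := hne c1 hc1
      have h2 := hne c2 hc2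
      rw [map_mul]
      field_simp
  | mul r1 r2 _ _ ih1 ih2 =>
    obtain ⟨x1, hx1, c1, hc1, rfl⟩ := ih1
    obtain ⟨x2, hx2, c2, hc2, rfl⟩ := ih2
    refine ⟨x1 * x2, Subalgebra.mul_mem _ hx1 hx2, c1 * c2, mul_ne_zero hc1 hc2, ?_⟩
    have h1 := hne c1 hc1
    have h2 := hne c2 hc2
    rw [map_mul]
    field_simp

omit [IsDomain A0] [IsFractionRing A0 K0] in
theorem adjoin_le_intermediateField (t : L) {x : L} (hx : x ∈ Algebra.adjoin A0 ({t} : Set L)) :
    x ∈ IntermediateField.adjoin K0 ({t} : Set L) := by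
  induction hx using Algebra.adjoin_induction with
  | mem z hz => exact IntermediateField.subset_adjoin K0 _ hz
  | algebraMap a =>
    rw [IsScalarTower.algebraMap_apply A0 K0 L]
    exact IntermediateField.algebraMap_mem _ _
  | add _ _ _ _ h1 h2 => exact add_mem h1 h2
  | mul _ _ _ _ h1 h2 => exact mul_mem h1 h2

/-- **Finiteness of the chart ring.**  For a Noetherian integrally closed domain `A0` with
fraction field `K0` of characteristic zero, `t` transcendental and `L` finite over `K0(t)`,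
the integral closure of `A0[t]` in `L` is a finite `A0[t]`-module. -/
theorem finite_integralClosure_adjoin [IsIntegrallyClosed A0] [IsNoetherianRing A0] [CharZero K0]
    (t : L) (ht : Transcendental A0 t)
    [FiniteDimensional (IntermediateField.adjoin K0 ({t} : Set L)) L] :
    Module.Finite (Algebra.adjoin A0 ({t} : Set L))
      (integralClosure (Algebra.adjoin A0 ({t} : Set L)) L) := by
  set R0 := Algebra.adjoin A0 ({t} : Set L) with hR0
  set K := IntermediateField.adjoin K0 ({t} : Set L) with hK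
  -- `R0 ≃ A0[X]`
  have hrange : ∀ f : Polynomial A0, Polynomial.aeval t f ∈ R0 := by
    intro f
    rw [hR0, Algebra.adjoin_singleton_eq_range_aeval]
    exact ⟨f, rfl⟩
  let φ : Polynomial A0 →+* R0 :=
    { toFun := fun f => ⟨Polynomial.aeval t f, hrange f⟩
      map_one' := Subtype.ext (map_one _)
      map_mul' := fun f g => Subtype.ext (map_mul _ f g)
      map_zero' := Subtype.ext (map_zero _)
      map_add' := fun f g => Subtype.ext (map_add _ f g) }
  have hφ : Function.Bijective φ := by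
    constructor
    · intro f g hfg
      exact transcendental_iff_injective.mp ht (congrArg Subtype.val hfg)
    · rintro ⟨x, hx⟩
      have hx' := hx
      rw [hR0, Algebra.adjoin_singleton_eq_range_aeval] at hx'
      obtain ⟨f, hf⟩ : ∃ f : Polynomial A0, Polynomial.aeval t f = x := hx'
      exact ⟨f, Subtype.ext hf⟩
  let e : Polynomial A0 ≃+* R0 := RingEquiv.ofBijective φ hφ
  have hN : IsNoetherianRing R0 := isNoetherianRing_of_ringEquiv (Polynomial A0) e
  have hIC : IsIntegrallyClosed R0 := IsIntegrallyClosed.of_equiv e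
  -- `K` as an `R0`-algebra
  let ι : R0 →+* K :=
    { toFun := fun x => ⟨x.1, adjoin_le_intermediateField (K0 := K0) t x.2⟩
      map_one' := rfl
      map_mul' := fun _ _ => rfl
      map_zero' := rfl
      map_add' := fun _ _ => rfl }
  let _ : Algebra R0 K := ι.toAlgebra
  have hιinj : Function.Injective (algebraMap R0 K) := by
    intro x y hxy
    exact Subtype.ext (congrArg (fun z : K => (z : L)) hxy)
  have : IsScalarTower R0 K L := IsScalarTower.of_algebraMap_eq (fun _ => rfl)
  have : FaithfulSMul R0 K := (faithfulSMul_iff_algebraMap_injective R0 K).mpr hιinj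
  have : IsFractionRing R0 K := by
    refine IsFractionRing.of_field R0 K fun z => ?_
    obtain ⟨z, hz⟩ := z
    obtain ⟨r, hr, s, hs, rfl⟩ := IntermediateField.mem_adjoin_iff_div.mp hz
    obtain ⟨x1, hx1, c1, hc1, rfl⟩ := exists_div_of_mem_adjoin_field (A0 := A0) t hr
    obtain ⟨x2, hx2, c2, hc2, rfl⟩ := exists_div_of_mem_adjoin_field (A0 := A0) t hs
    refine ⟨⟨x1 * algebraMap A0 L c2, Subalgebra.mul_mem _ hx1 (Subalgebra.algebraMap_mem _ _)⟩,
      ⟨algebraMap A0 L c1 * x2, Subalgebra.mul_mem _ (Subalgebra.algebraMap_mem _ _) hx2⟩, ?_⟩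
    apply Subtype.ext
    show x1 / algebraMap A0 L c1 / (x2 / algebraMap A0 L c2)
      = x1 * algebraMap A0 L c2 / (algebraMap A0 L c1 * x2)
    rw [div_div_div_eq]
  have : CharZero K := charZero_of_injective_algebraMap (algebraMap K0 K).injective
  exact IsIntegralClosure.finite R0 K L (integralClosure R0 L)

/-- The finiteness statement in the elementwise form used by `chart_idempotent`. -/
theorem exists_finset_span_integralClosure [IsIntegrallyClosed A0] [IsNoetherianRing A0]
    [CharZero K0] (t : L) (ht : Transcendental A0 t)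
    [FiniteDimensional (IntermediateField.adjoin K0 ({t} : Set L)) L] :
    ∃ E : Finset L, (∀ e ∈ E, IsIntegral (Algebra.adjoin A0 ({t} : Set L)) e) ∧
      ∀ x, IsIntegral (Algebra.adjoin A0 ({t} : Set L)) x →
        x ∈ Submodule.span (Algebra.adjoin A0 ({t} : Set L)) (E : Set L) := by
  classical
  have hfin := finite_integralClosure_adjoin (A0 := A0) (K0 := K0) t ht
  obtain ⟨S, hS⟩ := hfin.fg_top
  refine ⟨S.image Subtype.val, ?_, ?_⟩
  · intro e he
    obtain ⟨e', -, rfl⟩ := Finset.mem_image.mp he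
    exact e'.2
  · intro x hx
    have hmem : (⟨x, hx⟩ : integralClosure (Algebra.adjoin A0 ({t} : Set L)) L) ∈
        Submodule.span (Algebra.adjoin A0 ({t} : Set L)) (S : Set _) := by
      rw [hS]; exact Submodule.mem_top
    have := Submodule.apply_mem_span_image_of_mem_span
      (integralClosure (Algebra.adjoin A0 ({t} : Set L)) L).val.toLinearMap hmem
    rw [Finset.coe_image]
    exact this

end Finite

section DVR

variable {A0 K0 L : Type*} [CommRing A0] [IsDomain A0] [IsDiscreteValuationRing A0] [Field K0]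
  [Algebra A0 K0] [IsFractionRing A0 K0] [CharZero K0] [Field L] [Algebra K0 L] [Algebra A0 L]
  [IsScalarTower A0 K0 L]

/-- **Connectedness by hand for the normal two-chart model over a discrete valuation ring.**

`A0` is a DVR with uniformiser `ϖ` and fraction field `K0` of characteristic zero, `L` is a
finite extension of `K0(t)` (`t` transcendental) in which `K0` is algebraically closed.  Let
`M0`, `M1`, `M01` be the integral closures of `A0[t]`, `A0[t⁻¹]`, `A0[t, t⁻¹]` in `L`.  If
`a ∈ M0` and `b ∈ M1` are idempotent modulo `ϖ` and agree modulo `ϖ M01`, then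
`(a, b) ≡ (0, 0)` or `(a, b) ≡ (1, 1)` modulo `ϖ`: the special fibre of the normalisation of
`ℙ¹_{A0}` in `L` is connected. -/
theorem chart_idempotent_dvr (t : L) (ht : Transcendental K0 t)
    [FiniteDimensional (IntermediateField.adjoin K0 ({t} : Set L)) L]
    (hK0 : ∀ x : L, IsAlgebraic K0 x → x ∈ (algebraMap K0 L).range)
    (ϖ : A0) (hϖ : Irreducible ϖ)
    {a b : L} (ha : IsIntegral (Algebra.adjoin A0 ({t} : Set L)) a)
    (hb : IsIntegral (Algebra.adjoin A0 ({t⁻¹} : Set L)) b)
    (ha2 : ∃ y, IsIntegral (Algebra.adjoin A0 ({t} : Set L)) y ∧ a * a - a = ϖ • y)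
    (hb2 : ∃ y, IsIntegral (Algebra.adjoin A0 ({t⁻¹} : Set L)) y ∧ b * b - b = ϖ • y)
    (hab : ∃ y, IsIntegral (Algebra.adjoin A0 ({t, t⁻¹} : Set L)) y ∧ a - b = ϖ • y) :
    ((∃ y, IsIntegral (Algebra.adjoin A0 ({t} : Set L)) y ∧ a = ϖ • y) ∧
        (∃ y, IsIntegral (Algebra.adjoin A0 ({t⁻¹} : Set L)) y ∧ b = ϖ • y)) ∨
      ((∃ y, IsIntegral (Algebra.adjoin A0 ({t} : Set L)) y ∧ a - 1 = ϖ • y) ∧
        (∃ y, IsIntegral (Algebra.adjoin A0 ({t⁻¹} : Set L)) y ∧ b - 1 = ϖ • y)) := by
  have hinj : Function.Injective (algebraMap A0 L) := algebraMap_injective_of_tower A0 K0 L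
  have htA : Transcendental A0 t := ht.restrictScalars (IsFractionRing.injective A0 K0)
  have ht0 : t ≠ 0 := by
    rintro rfl
    exact ht ⟨Polynomial.X, Polynomial.X_ne_zero, by simp⟩
  have hloc : ∀ s : A0, ϖ ∣ s ∨ IsUnit s := by
    intro s
    by_cases hs : IsUnit s
    · exact Or.inr hs
    · left
      have hmem : s ∈ IsLocalRing.maximalIdeal A0 := (IsLocalRing.mem_maximalIdeal s).mpr hs
      rw [hϖ.maximalIdeal_eq, Ideal.mem_span_singleton] at hmem
      exact hmem
  have hϖ0 : algebraMap A0 L ϖ ≠ 0 := fun h =>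
    hϖ.ne_zero (hinj (h.trans (map_zero _).symm))
  exact chart_idempotent t ht0 ϖ hloc hϖ0
    (smul_ne_one_of_transcendental t htA ϖ hϖ.not_isUnit)
    (range_of_isIntegral_of_algClosed hK0)
    (exists_finset_span_integralClosure (K0 := K0) t htA) ha hb ha2 hb2 hab

end DVR

end Fermat.Agent.S18.helper5377
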