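import Mathlib
import Fermat.Prelude.Def_AlgebraicCurve_DivisorPushPull
import Fermat.Agent.S18.helper3054_Top

/-!
# S18, level change and norm descent

`Stmt_Core N ℓ` (the Kummer core of `helper3054_Top`, phrased with divisors, the place
reduction map and `Pic0`-free hypotheses at level `N`) is reduced to a *field-element* Kummer
statement `Stmt_Kummer N' ℓ` at any level `N'` with `N ∣ N'` such that the degree
`[F_{N'} : F_N]` is prime to every `m` with `ℓ ∤ m` (e.g. a power of `ℓ`).

`Stmt_Kummer N' ℓ` does not mention any place reduction map: it only says that an element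
`u = a / b` of the characteristic-zero function field of level `N'` (a quotient of two integral
functions) whose divisor is divisible by `m` and whose reduction is an `m`-th power in the
characteristic-`ℓ` function field, is an `m`-th power.

Ingredients:
* `IntegralFn.lift` : integral functions of level `N` are integral functions of level `N'`;
* `dvd_ord_algebraMap` : divisibility of divisors is preserved by pull-back (restriction of
  places, `AlgebraicCurve.Place.ord_restrict` from the Prelude);
* `norm_descent` : if `u ∈ F` becomes an `m`-th power in a finite extension `F'` of degree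
  prime to `m`, then `u` is an `m`-th power in `F`;
* `Stmt_Const` : the "constants lemma" on the characteristic-`ℓ` side (an explicit hypothesis).
-/

set_option autoImplicit false
set_option synthInstance.maxHeartbeats 400000

noncomputable section

namespace Fermat.Agent.S18.helper2675

open ModularCurve AlgebraicCurve HahnSeries
open Fermat.Agent.S18.helper3054

/-! ## Generic field theory -/

section Generic

variable {K F F' : Type*} [Field K] [Field F] [Field F']
  [Algebra K F] [Algebra K F'] [Algebra F F'] [IsScalarTower K F F']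

/-- Divisibility of the divisor of `x / y` by `m` is preserved under pull-back to an algebraic
extension of function fields. -/
theorem dvd_ord_algebraMap [Algebra.IsIntegral F F'] (m : ℤ) (x y : F)
    (h : ∀ P : Place K F, m ∣ P.ord x - P.ord y) (w : Place K F') :
    m ∣ w.ord (algebraMap F F' x) - w.ord (algebraMap F F' y) := by
  rw [w.ord_restrict x, w.ord_restrict y, ← mul_sub]
  exact Dvd.dvd.mul_left (h _) _

omit [Algebra K F] [Algebra K F'] [IsScalarTower K F F'] in
/-- **Norm descent.** If `u ∈ F` becomes an `m`-th power in a finite extension `F'` whose degree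
is prime to `m`, then `u` is already an `m`-th power in `F`. -/
theorem norm_descent [FiniteDimensional F F'] (m : ℕ)
    (hcop : Nat.Coprime (Module.finrank F F') m) (u : F) (f : F')
    (h : algebraMap F F' u = f ^ m) : ∃ g : F, u = g ^ m := by
  rcases Nat.eq_zero_or_pos m with rfl | hm
  · refine ⟨1, ?_⟩
    rw [pow_zero] at h ⊢
    exact (algebraMap F F').injective (by rw [h, map_one])
  rcases eq_or_ne u 0 with rfl | hu
  · exact ⟨0, (zero_pow hm.ne').symm⟩
  set d := Module.finrank F F' with hd
  have hnorm : u ^ d = (Algebra.norm F f) ^ m := by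
    have h1 : Algebra.norm F (algebraMap F F' u) = u ^ d := Algebra.norm_algebraMap u
    rw [h, map_pow] at h1
    exact h1.symm
  -- Bezout
  have hgcd : Int.gcd (d : ℤ) (m : ℤ) = 1 := by
    rw [Int.gcd_natCast_natCast]; exact hcop
  obtain ⟨α, β, hαβ⟩ : ∃ α β : ℤ, (d : ℤ) * α + (m : ℤ) * β = 1 := by
    have := Int.gcd_eq_gcd_ab (d : ℤ) (m : ℤ)
    rw [hgcd] at this
    exact ⟨_, _, by exact_mod_cast this.symm⟩
  refine ⟨(Algebra.norm F f) ^ α * u ^ β, ?_⟩
  calc u = u ^ (1 : ℤ) := (zpow_one u).symm
    _ = u ^ ((d : ℤ) * α + (m : ℤ) * β) := by rw [hαβ]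
    _ = (u ^ d) ^ α * (u ^ β) ^ m := by
        rw [zpow_add₀ hu, zpow_mul, zpow_natCast, mul_comm (m : ℤ) β, zpow_mul, zpow_natCast]
    _ = ((Algebra.norm F f) ^ m) ^ α * (u ^ β) ^ m := by rw [hnorm]
    _ = ((Algebra.norm F f) ^ α * u ^ β) ^ m := by
        rw [mul_pow, ← zpow_natCast ((Algebra.norm F f) ^ α) m, ← zpow_mul, mul_comm α (m : ℤ),
          zpow_mul, zpow_natCast]

end Generic

/-! ## The modular instance -/

section Modular

/-- Monotonicity of the base change of function fields of Laurent series. -/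
theorem laurentBaseChange_mono (L : Type*) [Field L] [Algebra ℚ L]
    {F₀ F₁ : IntermediateField ℚ (LaurentSeries ℚ)} (h : F₀ ≤ F₁) :
    laurentBaseChange L F₀ ≤ laurentBaseChange L F₁ := by
  rw [laurentBaseChange, IntermediateField.adjoin_le_iff]
  rintro _ ⟨y, hy, rfl⟩
  exact coeffEmb_mem_laurentBaseChange L (h hy)

/-- The characteristic-zero function field of level `N` is contained in that of level `N'`
when `N ∣ N'`. -/
theorem bar_le {N N' : ℕ} [NeZero N] [NeZero N'] (h : N ∣ N') :
    modularFunctionFieldBar N ≤ modularFunctionFieldBar N' :=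
  laurentBaseChange_mono _ (full_degeneracy_le h)

/-- An integral function of level `N` is an integral function of level `N'` for `N ∣ N'`. -/
def liftFn {A : ValuationSubring (AlgebraicClosure ℚ)} {N N' : ℕ} [NeZero N] [NeZero N']
    (h : N ∣ N') (a : IntegralFn A N) : IntegralFn A N' where
  y := a.y
  mem := bar_le h a.mem
  memk := full_degeneracyC_le _ h a.memk
  ne := a.ne

@[simp] theorem coe_gen_liftFn {A : ValuationSubring (AlgebraicClosure ℚ)} {N N' : ℕ} [NeZero N]
    [NeZero N'] (h : N ∣ N') (a : IntegralFn A N) :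
    ((liftFn h a).gen : LaurentSeries (AlgebraicClosure ℚ)) = (a.gen : LaurentSeries _) := rfl

@[simp] theorem coe_red_liftFn {A : ValuationSubring (AlgebraicClosure ℚ)} {N N' : ℕ} [NeZero N]
    [NeZero N'] (h : N ∣ N') (a : IntegralFn A N) :
    ((liftFn h a).red : LaurentSeries (IsLocalRing.ResidueField A)) = (a.red : LaurentSeries _) :=
  rfl

/-- The algebra structure of the level-`N'` function field over the level-`N` function field
given by the inclusion. -/
@[reducible] def inclAlgebra {N N' : ℕ} [NeZero N] [NeZero N'] (h : N ∣ N') :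
    Algebra ↥(modularFunctionFieldBar N) ↥(modularFunctionFieldBar N') :=
  (IntermediateField.inclusion (bar_le h)).toRingHom.toAlgebra

theorem coe_algebraMap_incl {N N' : ℕ} [NeZero N] [NeZero N'] (h : N ∣ N')
    (x : modularFunctionFieldBar N) :
    ((@algebraMap ↥(modularFunctionFieldBar N) ↥(modularFunctionFieldBar N') _ _ (inclAlgebra h) x :
      modularFunctionFieldBar N') : LaurentSeries (AlgebraicClosure ℚ)) = (x : LaurentSeries _) :=
  IntermediateField.coe_inclusion (bar_le h) x

theorem isScalarTower_incl {N N' : ℕ} [NeZero N] [NeZero N'] (h : N ∣ N') :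
    letI := inclAlgebra h
    IsScalarTower (AlgebraicClosure ℚ) ↥(modularFunctionFieldBar N)
      ↥(modularFunctionFieldBar N') := by
  letI := inclAlgebra h
  refine IsScalarTower.of_algebraMap_eq fun c => Subtype.ext ?_
  rw [coe_algebraMap_incl, IntermediateField.coe_algebraMap_apply,
    IntermediateField.coe_algebraMap_apply]

/-- **Degree hypothesis** for the level change `N ∣ N'`: the extension `F_{N'} / F_N` is finite
and its degree is prime to every `m` with `ℓ ∤ m` (e.g. the degree is a power of the prime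
`ℓ`). -/
def Stmt_LevelDeg (N N' ℓ : ℕ) [NeZero N] [NeZero N'] (h : N ∣ N') : Prop :=
  letI := inclAlgebra h
  FiniteDimensional ↥(modularFunctionFieldBar N) ↥(modularFunctionFieldBar N') ∧
    ∀ m : ℕ, ¬ ℓ ∣ m →
      Nat.Coprime (Module.finrank ↥(modularFunctionFieldBar N) ↥(modularFunctionFieldBar N')) m

/-- **Constants lemma** on the function field `k(j(q^d) : d ∣ N)`: an element without zeros and
poles is a constant. -/
def Stmt_Const (k : Type) [Field k] (N : ℕ) [NeZero N] : Prop :=
  ∀ t : modularFunctionFieldFullC k N, t ≠ 0 →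
    (∀ Q : Place k (modularFunctionFieldFullC k N), Q.ord t = 0) →
    ∃ c : k, t = algebraMap k (modularFunctionFieldFullC k N) c

/-- **Field-element Kummer statement** at level `N`: a quotient `a / b` of integral functions
whose divisor is divisible by `m` (`ℓ ∤ m`) and whose reduction is an `m`-th power in the
characteristic-`ℓ` function field is an `m`-th power in the characteristic-zero function field.
No place reduction map is involved. -/
def Stmt_Kummer (N : ℕ) [NeZero N] (ℓ : ℕ) : Prop :=
  ∀ (A : ValuationSubring (AlgebraicClosure ℚ)), A.LiesOverPrime ℓ →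
  ∀ (m : ℕ), ¬ ℓ ∣ m →
  ∀ (a b : IntegralFn A N),
    (∀ P : Place (AlgebraicClosure ℚ) (modularFunctionFieldBar N),
      (m : ℤ) ∣ P.ord a.gen - P.ord b.gen) →
    (∃ w : modularFunctionFieldFullC (IsLocalRing.ResidueField A) N, a.red = b.red * w ^ m) →
    ∃ f : modularFunctionFieldBar N, a.gen = b.gen * f ^ m

/-- Variant of the Kummer statement with constants allowed on both sides; it is equivalent to
`Stmt_Kummer` because `ℚ̄` and the residue field are closed under `m`-th roots. -/
def Stmt_KummerConst (N : ℕ) [NeZero N] (ℓ : ℕ) : Prop :=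
  ∀ (A : ValuationSubring (AlgebraicClosure ℚ)), A.LiesOverPrime ℓ →
  ∀ (m : ℕ), ¬ ℓ ∣ m →
  ∀ (a b : IntegralFn A N),
    (∀ P : Place (AlgebraicClosure ℚ) (modularFunctionFieldBar N),
      (m : ℤ) ∣ P.ord a.gen - P.ord b.gen) →
    (∃ w : modularFunctionFieldFullC (IsLocalRing.ResidueField A) N, a.red = b.red * w ^ m) →
    ∃ (f : modularFunctionFieldBar N) (c : AlgebraicClosure ℚ), c ≠ 0 ∧
      a.gen = algebraMap (AlgebraicClosure ℚ) (modularFunctionFieldBar N) c * (b.gen * f ^ m)

theorem stmt_Kummer_of_const {N : ℕ} [NeZero N] {ℓ : ℕ} (h : Stmt_KummerConst N ℓ) :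
    Stmt_Kummer N ℓ := by
  intro A hA m hm a b hdiv hw
  have hm0 : 0 < m := Nat.pos_of_ne_zero (by rintro rfl; exact hm (dvd_zero _))
  obtain ⟨f, c, -, hf⟩ := h A hA m hm a b hdiv hw
  obtain ⟨d, hd⟩ := IsAlgClosed.exists_pow_nat_eq c hm0
  refine ⟨algebraMap (AlgebraicClosure ℚ) (modularFunctionFieldBar N) d * f, ?_⟩
  rw [hf, mul_pow, ← map_pow, hd]
  ring

/-- The residue field of a valuation subring of `ℚ̄` is closed under `m`-th roots. -/
theorem exists_pow_eq_residue (A : ValuationSubring (AlgebraicClosure ℚ)) {m : ℕ} (hm : 0 < m)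
    (c : IsLocalRing.ResidueField A) : ∃ d : IsLocalRing.ResidueField A, d ^ m = c := by
  obtain ⟨C, rfl⟩ := IsLocalRing.residue_surjective c
  obtain ⟨x, hx⟩ := IsAlgClosed.exists_pow_nat_eq (C : AlgebraicClosure ℚ) hm
  have hxA : x ∈ A := by
    rcases A.mem_or_inv_mem x with h | h
    · exact h
    · rcases eq_or_ne x 0 with rfl | hx0
      · exact A.zero_mem
      have : x = (C : AlgebraicClosure ℚ) * x⁻¹ ^ (m - 1) := by
        rw [← hx, inv_pow]
        obtain ⟨n, rfl⟩ : ∃ n, m = n + 1 := ⟨m - 1, by omega⟩
        rw [Nat.add_sub_cancel, pow_succ]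
        field_simp
      rw [this]
      exact mul_mem C.2 (pow_mem h _)
  refine ⟨IsLocalRing.residue A ⟨x, hxA⟩, ?_⟩
  rw [← map_pow]
  congr 1
  exact Subtype.ext hx

/-- **Level change and norm descent.** The Kummer core at level `N` (in the divisor form of
`helper3054_Top`) follows from the field-element Kummer statement at a level `N'` divisible by
`N` such that `[F_{N'} : F_N]` is prime to all `m` with `ℓ ∤ m`, and the constants lemma on the
characteristic-`ℓ` function field of level `N`. -/
theorem core_of_kummer {N N' : ℕ} [NeZero N] [NeZero N'] {ℓ : ℕ} (hNN' : N ∣ N')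
    (hdeg : Stmt_LevelDeg N N' ℓ hNN')
    (hconst : ∀ A : ValuationSubring (AlgebraicClosure ℚ), A.LiesOverPrime ℓ →
      Stmt_Const (IsLocalRing.ResidueField A) N)
    (hK : Stmt_Kummer N' ℓ) : Stmt_Core N ℓ := by
  intro A hA h m hm a b D _hD0 hDab w hw0 _hDw hred
  have hm0 : 0 < m := Nat.pos_of_ne_zero (by rintro rfl; exact hm (dvd_zero _))
  -- Step 1: the reduction of `a / b` is an `m`-th power (constants lemma + roots in `k`).
  have hb0 : b.red ≠ 0 := b.red_ne_zero
  have ha0 : a.red ≠ 0 := a.red_ne_zero
  have hwm0 : w ^ m ≠ 0 := pow_ne_zero _ hw0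
  have ht0 : a.red * (b.red * w ^ m)⁻¹ ≠ 0 :=
    mul_ne_zero ha0 (inv_ne_zero (mul_ne_zero hb0 hwm0))
  have htord : ∀ Q : Place (IsLocalRing.ResidueField A)
      (modularFunctionFieldFullC (IsLocalRing.ResidueField A) N),
      Q.ord (a.red * (b.red * w ^ m)⁻¹) = 0 := by
    intro Q
    rw [Q.ord_mul ha0 (inv_ne_zero (mul_ne_zero hb0 hwm0)), Q.ord_inv, Q.ord_mul hb0 hwm0,
      ← zpow_natCast w m, Q.ord_zpow]
    have := hred Q
    linarith
  obtain ⟨c, hc⟩ := hconst A hA _ ht0 htord
  obtain ⟨d, hd⟩ := exists_pow_eq_residue A hm0 c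
  have hared : a.red = b.red *
      (algebraMap (IsLocalRing.ResidueField A)
        (modularFunctionFieldFullC (IsLocalRing.ResidueField A) N) d * w) ^ m := by
    rw [mul_pow, ← map_pow, hd, ← hc]
    field_simp
  -- Step 2: apply the Kummer statement at level `N'`.
  letI := inclAlgebra hNN'
  haveI := isScalarTower_incl hNN'
  obtain ⟨hfin, hcop⟩ := hdeg
  haveI : FiniteDimensional ↥(modularFunctionFieldBar N) ↥(modularFunctionFieldBar N') := hfin
  have hgenA : (liftFn hNN' a).gen =
      algebraMap ↥(modularFunctionFieldBar N) ↥(modularFunctionFieldBar N') a.gen := by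
    apply Subtype.ext
    rw [coe_algebraMap_incl, coe_gen_liftFn]
  have hgenB : (liftFn hNN' b).gen =
      algebraMap ↥(modularFunctionFieldBar N) ↥(modularFunctionFieldBar N') b.gen := by
    apply Subtype.ext
    rw [coe_algebraMap_incl, coe_gen_liftFn]
  have hdiv' : ∀ P : Place (AlgebraicClosure ℚ) (modularFunctionFieldBar N'),
      (m : ℤ) ∣ P.ord (liftFn hNN' a).gen - P.ord (liftFn hNN' b).gen := by
    intro P
    rw [hgenA, hgenB]
    exact dvd_ord_algebraMap (m : ℤ) a.gen b.gen
      (fun P₀ => ⟨D P₀, (hDab P₀).symm⟩) P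
  obtain ⟨f, hf⟩ := hK A hA m hm (liftFn hNN' a) (liftFn hNN' b) hdiv'
    ⟨⟨((algebraMap (IsLocalRing.ResidueField A)
        (modularFunctionFieldFullC (IsLocalRing.ResidueField A) N) d * w :
        modularFunctionFieldFullC (IsLocalRing.ResidueField A) N) :
        LaurentSeries (IsLocalRing.ResidueField A)),
      full_degeneracyC_le _ hNN' (SetLike.coe_mem _)⟩, by
        apply Subtype.ext
        have := congrArg Subtype.val hared
        simp only [IntegralFn.coe_red, MulMemClass.coe_mul, SubmonoidClass.coe_pow] at this ⊢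
        exact this⟩
  -- Step 3: norm descent.
  have hbgen0 : b.gen ≠ 0 := b.gen_ne_zero
  have hu : algebraMap ↥(modularFunctionFieldBar N) ↥(modularFunctionFieldBar N')
      (a.gen * b.gen⁻¹) = f ^ m := by
    rw [map_mul, map_inv₀, ← hgenA, ← hgenB, hf]
    have : (liftFn hNN' b).gen ≠ 0 := (liftFn hNN' b).gen_ne_zero
    field_simp
  obtain ⟨g, hg⟩ := norm_descent m (hcop m hm) (a.gen * b.gen⁻¹) f hu
  have hag : a.gen = b.gen * g ^ m := by
    rw [← hg]; field_simp
  have hg0 : g ≠ 0 := by
    rintro rfl
    rw [zero_pow hm0.ne', mul_zero] at hag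
    exact a.gen_ne_zero hag
  -- Step 4: `div g = D`.
  refine ⟨g, hg0, fun P => ?_⟩
  have h1 := hDab P
  rw [hag, P.ord_mul hbgen0 (pow_ne_zero _ hg0), ← zpow_natCast g m, P.ord_zpow] at h1
  have h2 : (m : ℤ) * D P = (m : ℤ) * P.ord g := by linarith
  exact mul_left_cancel₀ (by exact_mod_cast hm0.ne') h2

end Modular

end Fermat.Agent.S18.helper2675
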