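import Mathlib
import Fermat.Agent.S18.helper2675_LevelChange
import Fermat.Agent.S24.helper3176_FieldAlg
import Fermat.Agent.S28.helper1457_TowerNoPhi
import Fermat.Agent.S28.helper559_TowerFromPrime
import Fermat.Agent.S28.helper508_FormalPrime

/-!
# S18, level change: the degree of `F_{N'} / F_N`

From the landed degree theorem `[K(j(q^d) : d ∣ M) : K(j)] = ψ(M)` (S28 tower, valid over every
field in which the primes dividing `M` are invertible) we get, over `ℚ̄`,
`[F_{N'} : F_N] = ψ(N') / ψ(N)` for `N ∣ N'`, in particular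

* `[F_{N p} : F_N] = p + 1` for a prime `p ∤ N`;
* `[F_N : F_N] = 1`,

and hence the degree hypothesis `Stmt_LevelDeg` of `helper2675_LevelChange` for
`(N, N, ℓ)`, `(N, N * 2, 3)` (`N` odd) and `(N, N * 3, 2)` (`3 ∤ N`).
-/

set_option autoImplicit false
set_option synthInstance.maxHeartbeats 400000

noncomputable section

namespace Fermat.Agent.S18.helper2675

open ModularCurve AlgebraicCurve HahnSeries IntermediateField

/-! ## Generic: the degree of an inclusion of intermediate fields -/

section Generic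

variable {K L : Type*} [Field K] [Field L] [Algebra K L]

/-- The rank of `B` over `A` for the inclusion algebra structure is the relative rank. -/
theorem rank_inclusion_eq_relrank {A B : IntermediateField K L} (h : A ≤ B) :
    @Module.rank ↥A ↥B _ _ (IntermediateField.inclusion h).toRingHom.toAlgebra.toModule
      = A.relrank B := by
  rw [IntermediateField.relrank_eq_rank_of_le h]
  letI : Algebra ↥A ↥B := (IntermediateField.inclusion h).toRingHom.toAlgebra
  let e : ↥B ≃ₗ[↥A] ↥(IntermediateField.extendScalars h) :=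
    { toFun := fun x => ⟨x.1, x.2⟩
      invFun := fun x => ⟨x.1, x.2⟩
      map_add' := fun _ _ => rfl
      map_smul' := fun a x => by
        apply Subtype.ext
        rfl
      left_inv := fun _ => rfl
      right_inv := fun _ => rfl }
  exact e.rank_eq

end Generic

/-! ## The modular function fields over `ℚ̄` -/

/-- The base change to `ℚ̄` of the rational modular function field is the field generated over
`ℚ̄` by the `j(q^d)`, `d ∣ N`, in the form used on the characteristic-`ℓ` side. -/
theorem bar_eq_fullC (N : ℕ) :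
    modularFunctionFieldBar N = modularFunctionFieldFullC (AlgebraicClosure ℚ) N := by
  show laurentBaseChange (AlgebraicClosure ℚ) (modularFunctionFieldFull N) = _
  rw [Fermat.Agent.S24.helper3176.laurentBaseChange_full_eq_adjoin, modularFunctionFieldFullC]
  congr 1
  ext x
  constructor
  · rintro ⟨y, ⟨d, hd0, hd, rfl⟩, rfl⟩
    refine ⟨d, hd0, hd, ?_⟩
    rw [coeffEmb, coeffMap_qExpand, ← jqModC_rat, coeffMap_jqModC]
  · rintro ⟨d, hd0, hd, rfl⟩
    refine ⟨_, ⟨d, hd0, hd, rfl⟩, ?_⟩
    rw [coeffEmb, coeffMap_qExpand, ← jqModC_rat, coeffMap_jqModC]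

/-- `[ℚ̄(j(q^d) : d ∣ M) : ℚ̄(j)] = ψ(M)` (landed S28 tower theorem, characteristic zero). -/
theorem relrank_fullC_algClosure (M : ℕ) [NeZero M] :
    ((AlgebraicClosure ℚ)⟮jqModC (AlgebraicClosure ℚ)⟯).relrank
        (modularFunctionFieldFullC (AlgebraicClosure ℚ) M) = (dedekindPsi M : Cardinal) :=
  Fermat.Agent.S28.helper1457.relrank_full_eq_dedekindPsi_of_hub (AlgebraicClosure ℚ) M
    (NeZero.pos M)
    (Fermat.Agent.S28.helper559.hub_of_formalPrime (AlgebraicClosure ℚ) M (NeZero.pos M)
      (fun p _ _ => Fermat.Agent.S28.helper508.stmt_FormalPrime p))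
    (fun p hp _ => by exact_mod_cast hp.ne_zero)

/-- Tower law: `[F_{N'} : F_N] * ψ(N) = ψ(N')`. -/
theorem relrank_level_mul {N N' : ℕ} [NeZero N] [NeZero N'] (h : N ∣ N') :
    (dedekindPsi N : Cardinal) * (modularFunctionFieldBar N).relrank (modularFunctionFieldBar N')
      = (dedekindPsi N' : Cardinal) := by
  rw [bar_eq_fullC N, bar_eq_fullC N', ← relrank_fullC_algClosure N, ← relrank_fullC_algClosure N']
  refine IntermediateField.relrank_mul_relrank ?_ (full_degeneracyC_le _ h)
  rw [IntermediateField.adjoin_simple_le_iff]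
  exact jqModC_mem_full _ N

/-- The degree of `F_{N'}` over `F_N` (inclusion algebra) times `ψ(N)` is `ψ(N')`. -/
theorem finrank_level_mul {N N' : ℕ} [NeZero N] [NeZero N'] (h : N ∣ N') :
    dedekindPsi N * @Module.finrank ↥(modularFunctionFieldBar N) ↥(modularFunctionFieldBar N') _ _
      (inclAlgebra h).toModule = dedekindPsi N' := by
  have h1 := relrank_level_mul h
  rw [← rank_inclusion_eq_relrank (bar_le h)] at h1
  letI := inclAlgebra h
  have hpos : 0 < dedekindPsi N := Fermat.Agent.S28.helper1595.dedekindPsi_pos (NeZero.pos N)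
  have hlt : Module.rank ↥(modularFunctionFieldBar N) ↥(modularFunctionFieldBar N')
      < Cardinal.aleph0 := by
    by_contra hge
    rw [not_lt] at hge
    have h2 : Cardinal.aleph0 ≤ (dedekindPsi N : Cardinal) *
        Module.rank ↥(modularFunctionFieldBar N) ↥(modularFunctionFieldBar N') :=
      hge.trans (Cardinal.le_mul_left (by exact_mod_cast hpos.ne'))
    rw [h1] at h2
    exact absurd h2 (not_le.mpr (Cardinal.natCast_lt_aleph0))
  obtain ⟨n, hn⟩ := Cardinal.lt_aleph0.mp hlt
  have hfr : Module.finrank ↥(modularFunctionFieldBar N) ↥(modularFunctionFieldBar N') = n := by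
    rw [Module.finrank, hn, Cardinal.toNat_natCast]
  rw [hfr]
  rw [hn] at h1
  exact_mod_cast h1

theorem finiteDimensional_level {N N' : ℕ} [NeZero N] [NeZero N'] (h : N ∣ N') :
    @FiniteDimensional ↥(modularFunctionFieldBar N) ↥(modularFunctionFieldBar N') _ _
      (inclAlgebra h).toModule := by
  letI := inclAlgebra h
  have h1 := finrank_level_mul h
  have hpos : 0 < dedekindPsi N' := Fermat.Agent.S28.helper1595.dedekindPsi_pos (NeZero.pos N')
  refine Module.finite_of_finrank_pos ?_
  rcases Nat.eq_zero_or_pos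
    (Module.finrank ↥(modularFunctionFieldBar N) ↥(modularFunctionFieldBar N')) with h0 | h0
  · rw [h0, mul_zero] at h1
    omega
  · exact h0

/-- Degree hypothesis from a numerical identity `ψ(N') = d * ψ(N)` with `d` prime to every `m`
not divisible by `ℓ`. -/
theorem stmt_LevelDeg_of_psi {N N' ℓ : ℕ} [NeZero N] [NeZero N'] (h : N ∣ N') (d : ℕ)
    (hd : dedekindPsi N' = d * dedekindPsi N) (hcop : ∀ m : ℕ, ¬ ℓ ∣ m → Nat.Coprime d m) :
    Stmt_LevelDeg N N' ℓ h := by
  refine ⟨finiteDimensional_level h, fun m hm => ?_⟩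
  have h1 := finrank_level_mul h
  have hpos : 0 < dedekindPsi N := Fermat.Agent.S28.helper1595.dedekindPsi_pos (NeZero.pos N)
  have : @Module.finrank ↥(modularFunctionFieldBar N) ↥(modularFunctionFieldBar N') _ _
      (inclAlgebra h).toModule = d := by
    rw [hd, mul_comm d] at h1
    exact Nat.eq_of_mul_eq_mul_left hpos h1
  rw [this]
  exact hcop m hm

/-- Trivial level change. -/
theorem stmt_LevelDeg_self (N ℓ : ℕ) [NeZero N] : Stmt_LevelDeg N N ℓ dvd_rfl :=
  stmt_LevelDeg_of_psi dvd_rfl 1 (one_mul _).symm (fun m _ => Nat.coprime_one_left m)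

/-- Level change `N → 2N` for odd `N`, at `ℓ = 3`: the degree is `3`. -/
theorem stmt_LevelDeg_two (N : ℕ) [NeZero N] (hN : ¬ 2 ∣ N) :
    haveI : NeZero (N * 2) := ⟨Nat.mul_ne_zero (NeZero.ne N) two_ne_zero⟩
    Stmt_LevelDeg N (N * 2) 3 (dvd_mul_right N 2) := by
  haveI : NeZero (N * 2) := ⟨Nat.mul_ne_zero (NeZero.ne N) two_ne_zero⟩
  refine stmt_LevelDeg_of_psi (dvd_mul_right N 2) 3
    (Fermat.Agent.S28.helper1595.dedekindPsi_mul_prime_of_not_dvd Nat.prime_two (NeZero.pos N) hN)
    (fun m hm => (Nat.Prime.coprime_iff_not_dvd Nat.prime_three).mpr hm)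

/-- Level change `N → 3N` for `3 ∤ N`, at `ℓ = 2`: the degree is `4`. -/
theorem stmt_LevelDeg_three (N : ℕ) [NeZero N] (hN : ¬ 3 ∣ N) :
    haveI : NeZero (N * 3) := ⟨Nat.mul_ne_zero (NeZero.ne N) three_ne_zero⟩
    Stmt_LevelDeg N (N * 3) 2 (dvd_mul_right N 3) := by
  haveI : NeZero (N * 3) := ⟨Nat.mul_ne_zero (NeZero.ne N) three_ne_zero⟩
  refine stmt_LevelDeg_of_psi (dvd_mul_right N 3) 4
    (Fermat.Agent.S28.helper1595.dedekindPsi_mul_prime_of_not_dvd Nat.prime_three (NeZero.pos N) hN)
    (fun m hm => ?_)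
  have h2 : Nat.Coprime 2 m := (Nat.Prime.coprime_iff_not_dvd Nat.prime_two).mpr hm
  exact Nat.Coprime.pow_left 2 h2

end Fermat.Agent.S18.helper2675
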