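/-
S18 (helper1466): track A, places form, at the `j`-line — the Kummer field form `Stmt_KF0 N ℓ`
at EVERY level `N` and EVERY prime `ℓ ∤ N` follows from ONE inequality of Riemann genera

  `g(F̄_N) ≤ g(F_{k,N})`     (`Stmt_GenusLe N ℓ`).

No Hauptmodul line is needed on the Kummer side: on the `j`-line all line hypotheses of
`geomInputs_of_line` are theorems (`helper1733_GaussOrtho`, S28 degree theorem on both fibres).
The base line only matters for PROVING the genus inequality.
-/
import Fermat.Agent.S18.helper1466_GeomLine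
import Fermat.Agent.S18.helper2118_Spec

set_option autoImplicit false
set_option synthInstance.maxHeartbeats 400000

noncomputable section

namespace Fermat.Agent.S18.helper1466

open ModularCurve AlgebraicCurve HahnSeries IntermediateField

local notation "Qb" => AlgebraicClosure ℚ

/-- **Genus inequality between the two fibres** at level `N` and the prime `ℓ`: for every place
`A` of `ℚ̄` over `ℓ`, the Riemann genus of `F̄_N / ℚ̄` is at most the Riemann genus of the special
fibre `F_{k,N} / k`, `k` the residue field of `A`. -/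
def Stmt_GenusLe (N : ℕ) [NeZero N] (ℓ : ℕ) : Prop :=
  ∀ (A : ValuationSubring Qb), A.LiesOverPrime ℓ →
    helper981.riemannGenus Qb ↥(modularFunctionFieldBar N) ≤
      helper981.riemannGenus (IsLocalRing.ResidueField A)
        ↥(modularFunctionFieldFullC (IsLocalRing.ResidueField A) N)

section JLine

variable (N : ℕ) [NeZero N] (ℓ : ℕ) [Fact ℓ.Prime] (hℓN : ¬ ℓ ∣ N)
  (A : ValuationSubring Qb) (hA : A.LiesOverPrime ℓ)

/-- The residue of `j` is `j̄`. -/
theorem gRed_gaussJ :
    gRed N ℓ hℓN A hA ⟨helper1733.gaussJ Qb N, helper1733.gaussJ_mem N ℓ hℓN A hA⟩ =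
      S37.helper1588.jC (IsLocalRing.ResidueField A) N := by
  apply Subtype.ext
  rw [helper1733.gaussResidue_of_eq N ℓ hℓN A hA _ (jqModC A) (coeffMap_jqModC _).symm]
  exact coeffMap_jqModC _

/-- **`GeomInputs` on the `j`-line** from the genus inequality alone. -/
theorem geomInputs_of_genusLe
    (hgenus : helper981.riemannGenus Qb ↥(modularFunctionFieldBar N) ≤
      helper981.riemannGenus (IsLocalRing.ResidueField A)
        ↥(modularFunctionFieldFullC (IsLocalRing.ResidueField A) N)) :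
    GeomInputs N ℓ hℓN A hA := by
  have hMK := natCast_prime_ne_zero_residue N ℓ hℓN A hA
  have e := gRed_gaussJ N ℓ hℓN A hA
  have htb : Transcendental (IsLocalRing.ResidueField A)
      (gRed N ℓ hℓN A hA ⟨helper1733.gaussJ Qb N, helper1733.gaussJ_mem N ℓ hℓN A hA⟩) := by
    rw [e]
    exact S37.helper1588.transcendental_jC _ N
  have hfin : FiniteDimensional
      (IsLocalRing.ResidueField A)⟮gRed N ℓ hℓN A hA
        ⟨helper1733.gaussJ Qb N, helper1733.gaussJ_mem N ℓ hℓN A hA⟩⟯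
      ↥(modularFunctionFieldFullC (IsLocalRing.ResidueField A) N) := by
    rw [e]
    exact S37.helper1588.finiteDimensional_jC _ N hMK
  have hdeg : Module.finrank Qb⟮helper1733.gaussJ Qb N⟯ ↥(modularFunctionFieldBar N) =
      Module.finrank (IsLocalRing.ResidueField A)⟮gRed N ℓ hℓN A hA
        ⟨helper1733.gaussJ Qb N, helper1733.gaussJ_mem N ℓ hℓN A hA⟩⟯
        ↥(modularFunctionFieldFullC (IsLocalRing.ResidueField A) N) := by
    rw [e, S37.helper1588.finrank_jC _ N hMK]
    exact helper1733.gauss_finrank N ℓ hℓN A hA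
  exact geomInputs_of_line N ℓ hℓN A hA (helper1733.gaussJ Qb N)
    (helper1733.gaussJ_mem N ℓ hℓN A hA) (helper1733.gauss_resTranscendental N ℓ hℓN A hA)
    (mem_adjoin_simple_self Qb _) htb hdeg hgenus

end JLine

/-- **Track A, places form: `Stmt_KF0 N ℓ` from the genus inequality**, every level `N`, every
prime `ℓ ∤ N`. -/
theorem stmt_KF0_of_genusLe (N : ℕ) [NeZero N] (ℓ : ℕ) (hℓ : ℓ.Prime) (hℓN : ¬ ℓ ∣ N)
    (H : Stmt_GenusLe N ℓ) : helper3054.Stmt_KF0 N ℓ := by
  haveI : Fact ℓ.Prime := ⟨hℓ⟩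
  exact stmt_KF0_of_geomInputs N ℓ hℓN
    (fun A hA => geomInputs_of_genusLe N ℓ hℓN A hA (H A hA))

/-- The Hauptmodul-line obligation `Stmt_KFr r` of the captain's Spec from the genus inequality at
the levels divisible by `r`. -/
theorem stmt_KFr_of_genusLe (r : ℕ)
    (H : ∀ (N' : ℕ) [NeZero N'] (ℓ : ℕ), ℓ.Prime → r ∣ N' → ¬ ℓ ∣ N' → ℓ ≠ r →
      Stmt_GenusLe N' ℓ) : helper2118.Stmt_KFr r :=
  fun N' _ ℓ hℓ hr hℓN hne => stmt_KF0_of_genusLe N' ℓ hℓ hℓN (H N' ℓ hℓ hr hℓN hne)

/-- The `j`-line obligation `Stmt_KFj` of the captain's Spec from the genus inequality for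
`ℓ ≥ 5`. -/
theorem stmt_KFj_of_genusLe
    (H : ∀ (N : ℕ) [NeZero N] (ℓ : ℕ), ℓ.Prime → 5 ≤ ℓ → ¬ ℓ ∣ N → Stmt_GenusLe N ℓ) :
    helper2118.Stmt_KFj :=
  fun N _ ℓ hℓ h5 hℓN => stmt_KF0_of_genusLe N ℓ hℓ hℓN (H N ℓ hℓ h5 hℓN)

/-- **The frozen statement S18 from the genus inequality at level `N` itself** (no descent). -/
theorem result_of_genusLe (N : ℕ) [NeZero N] {ℓ : ℕ} [Fact ℓ.Prime] (hℓN : ¬ ℓ ∣ N)
    (H : Stmt_GenusLe N ℓ)
    (A : ValuationSubring (AlgebraicClosure ℚ)) (hA : A.LiesOverPrime ℓ)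
    (h : ModularCurve.ReductionInputsModL A N) (m : ℕ) (hm : ¬ ℓ ∣ m) (z : ModularCurve.JZero N)
    (hmz : m • z = 0) (hz : ModularCurve.reductionModL A N z = 0) : z = 0 :=
  helper2118.result_of_kf0 N (stmt_KF0_of_genusLe N ℓ Fact.out hℓN H) A hA h m hm z hmz hz

end Fermat.Agent.S18.helper1466
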