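/-
S18 (helper1466): the genus inequality `Stmt_GenusLe N ℓ` from an inequality of CHART genera on
one base line (`helper789.chartGenus`): on each fibre the Riemann genus is the chart genus of any
transcendental `x` with `F / K(x)` finite (`K` algebraically closed, any characteristic).
-/
import Fermat.Agent.S18.helper1466_GenusForm
import Fermat.Agent.S18.helper789_ChartInst
import Fermat.Agent.S18.helper1364_GenusGlue
import Fermat.Agent.S18.helper8566_GenusBridge

set_option autoImplicit false
set_option synthInstance.maxHeartbeats 400000

noncomputable section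

namespace Fermat.Agent.S18.helper1466

open ModularCurve AlgebraicCurve HahnSeries IntermediateField

local notation "Qb" => AlgebraicClosure ℚ

section Abstract

variable {K F : Type*} [Field K] [Field F] [Algebra K F]

/-- **Riemann genus = chart genus** on any base line: `K` algebraically closed, places of degree
one with principal divisors, `x` transcendental, `F / K(x)` finite. Any characteristic. -/
theorem riemannGenus_eq_chartGenus [IsAlgClosed K] [HasPrincipalDivisors K F]
    (hdeg : ∀ v : Place K F, v.deg = 1) (P₀ : Place K F)
    (x : F) (hx : Transcendental K x) [FiniteDimensional K⟮x⟯ F] :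
    helper981.riemannGenus K F = helper789.chartGenus K x := by
  obtain ⟨Xinf, X0, hXinf, -, -, -, -, -, hdX, -⟩ := exists_pole_zero_divisors hdeg P₀ x hx
  have hCR : helper1364.ChartRiemann K x (Module.finrank K⟮x⟯ F)
      ((helper789.chartGenus K x : ℕ) : ℤ) :=
    helper1364.chartRiemann_of_family (fun n => helper1364.chartSpace K x n)
      (fun _ _ => Iff.rfl)
      (helper789.hdim_of_isAlgClosed x hx (fun n => helper1364.chartSpace K x n)
        (fun _ _ => Iff.rfl))
  have h := helper1364.riemannGenus_eq_chartGenus hdeg P₀ x hx hXinf hdX
    (helper8566.chartIntegral_of_perfect x) (helper8566.chartIntegral_inv_of_perfect x) hCR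
  exact_mod_cast h

end Abstract

section Modular

variable (N : ℕ) [NeZero N] (ℓ : ℕ) [Fact ℓ.Prime] (hℓN : ¬ ℓ ∣ N)
  (A : ValuationSubring Qb) (hA : A.LiesOverPrime ℓ)

open Fermat.Agent.S24.helper24 in
/-- The Riemann genus of `F̄_N` is its chart genus on any base line. -/
theorem riemannGenus_bar_eq_chartGenus (t : ↥(modularFunctionFieldBar N))
    (ht : Transcendental Qb t) [FiniteDimensional Qb⟮t⟯ ↥(modularFunctionFieldBar N)] :
    helper981.riemannGenus Qb ↥(modularFunctionFieldBar N) = helper789.chartGenus Qb t := by
  have hPF : HasPrincipalDivisors Kbar (FN N) := helper4226.hasPrincipalDivisors_FN N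
  have hfinj : FiniteDimensional (IntermediateField.adjoin Kbar {jBar N}) (FN N) :=
    helper4226.finiteDimensional_jBar_FN N
  obtain ⟨P₀⟩ := helper3537.nonempty_place (K := Kbar) (F := FN N) (jBar N)
    (Fermat.Agent.S24.helper3176.transcendental_jBar N)
  exact riemannGenus_eq_chartGenus (K := Kbar) (F := FN N)
    (helper4226.place_deg_eq_one_FN N) P₀ t ht

include hℓN hA in
/-- The Riemann genus of the special fibre `F_{k,N}` is its chart genus on any base line. -/
theorem riemannGenus_fullC_eq_chartGenus
    (tb : ↥(modularFunctionFieldFullC (IsLocalRing.ResidueField A) N))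
    (htb : Transcendental (IsLocalRing.ResidueField A) tb)
    [FiniteDimensional (IsLocalRing.ResidueField A)⟮tb⟯
      ↥(modularFunctionFieldFullC (IsLocalRing.ResidueField A) N)] :
    helper981.riemannGenus (IsLocalRing.ResidueField A)
        ↥(modularFunctionFieldFullC (IsLocalRing.ResidueField A) N) =
      helper789.chartGenus (IsLocalRing.ResidueField A) tb := by
  have halg : IsAlgClosed (IsLocalRing.ResidueField A) :=
    Lib.helper6879.isAlgClosed_residueField A
  obtain ⟨hPk, hdegk, ⟨Q₀⟩⟩ := specialFibre_places N ℓ hℓN A hA
  exact riemannGenus_eq_chartGenus hdegk Q₀ tb htb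

include hℓN hA in
/-- **The genus inequality of `Stmt_GenusLe` from an inequality of chart genera** on one base
line `t` of `F̄_N` and one base line `tb` of the special fibre (typically `tb = red t`). -/
theorem genus_le_of_chartGenus_le
    (t : ↥(modularFunctionFieldBar N)) (ht : Transcendental Qb t)
    [FiniteDimensional Qb⟮t⟯ ↥(modularFunctionFieldBar N)]
    (tb : ↥(modularFunctionFieldFullC (IsLocalRing.ResidueField A) N))
    (htb : Transcendental (IsLocalRing.ResidueField A) tb)
    [FiniteDimensional (IsLocalRing.ResidueField A)⟮tb⟯
      ↥(modularFunctionFieldFullC (IsLocalRing.ResidueField A) N)]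
    (h : helper789.chartGenus Qb t ≤ helper789.chartGenus (IsLocalRing.ResidueField A) tb) :
    helper981.riemannGenus Qb ↥(modularFunctionFieldBar N) ≤
      helper981.riemannGenus (IsLocalRing.ResidueField A)
        ↥(modularFunctionFieldFullC (IsLocalRing.ResidueField A) N) := by
  rw [riemannGenus_bar_eq_chartGenus N t ht,
    riemannGenus_fullC_eq_chartGenus N ℓ hℓN A hA tb htb]
  exact h

end Modular

end Fermat.Agent.S18.helper1466
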