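import Mathlib

/-!
# S18, track A, leaf (DU3): the tame certificate

Abstract Dedekind core.  `A` a Dedekind domain which is a `ℚ`-algebra, `K = Frac A`, `L / K` finite
separable, `B` the integral closure of `A` in `L`.
-/

set_option autoImplicit false

noncomputable section

namespace Fermat.Agent.S18.helper5198

open nonZeroDivisors Module

attribute [local instance] FractionRing.liftAlgebra FractionRing.isScalarTower_liftAlgebra
  Ideal.Quotient.field

section TameDifferent

variable (A : Type*) {B : Type*} [CommRing A] [CommRing B] [Algebra A B]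
  [IsDedekindDomain A] [IsDedekindDomain B] [Module.IsTorsionFree A B] [Module.Finite A B]
  [Algebra.IsSeparable (FractionRing A) (FractionRing B)]

/-- **Tame bound for the different**: if `p B = I * Q` with `I`, `Q` coprime, `I ≠ ⊤`, and the
residue field `A ⧸ p` has characteristic zero, then `I` does not divide the different.
(With `I = P ^ e`, `e` the ramification index: the different exponent at `P` is `≤ e - 1`.) -/
theorem not_dvd_differentIdeal_of_isCoprime_of_charZero
    {p : Ideal A} [p.IsMaximal] [CharZero (A ⧸ p)] (I Q : Ideal B) (hI : I ≠ ⊤)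
    (hIQ : IsCoprime I Q) (hP : I * Q = Ideal.map (algebraMap A B) p) :
    ¬ I ∣ differentIdeal A B := by
  let _ : Algebra (A ⧸ p) (B ⧸ Q) := Ideal.Quotient.algebraQuotientOfLEComap (by
      rw [← Ideal.map_le_iff_le_comap, ← hP]
      exact Ideal.mul_le_right)
  let _ : Algebra (A ⧸ p) (B ⧸ I) := Ideal.Quotient.algebraQuotientOfLEComap (by
      rw [← Ideal.map_le_iff_le_comap, ← hP]
      exact Ideal.mul_le_left)
  have : IsScalarTower A (A ⧸ p) (B ⧸ Q) := .of_algebraMap_eq' rfl
  have : IsScalarTower A (A ⧸ p) (B ⧸ I) := .of_algebraMap_eq' rfl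
  have : Module.Finite (A ⧸ p) (B ⧸ Q) :=
    Module.Finite.of_restrictScalars_finite A (A ⧸ p) (B ⧸ Q)
  have : Module.Finite (A ⧸ p) (B ⧸ I) :=
    Module.Finite.of_restrictScalars_finite A (A ⧸ p) (B ⧸ I)
  let e : (B ⧸ p.map (algebraMap A B)) ≃ₐ[A ⧸ p] ((B ⧸ I) × B ⧸ Q) :=
    { __ := (Ideal.quotEquivOfEq hP.symm).trans (Ideal.quotientMulEquivQuotientProd I Q hIQ),
      commutes' := Quotient.ind fun _ ↦ rfl }
  obtain ⟨y, hy⟩ := Ideal.Quotient.mk_surjective (e.symm (1, 0))
  refine not_dvd_differentIdeal_of_intTrace_not_mem A I Q hP y ?_ ?_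
  · have := congr((e $hy).2)
    simp at this
    simpa [e, Ideal.Quotient.eq_zero_iff_mem] using this
  · rw [← Ideal.Quotient.eq_zero_iff_mem, ← Algebra.trace_quotient_eq_of_isDedekindDomain,
      hy, Algebra.trace_eq_of_algEquiv, Algebra.trace_prod_apply]
    have hnt : Nontrivial (B ⧸ I) := Ideal.Quotient.nontrivial_iff.mpr hI
    have h1 : Algebra.trace (A ⧸ p) (B ⧸ I) 1 = (Module.finrank (A ⧸ p) (B ⧸ I) : A ⧸ p) := by
      rw [← (algebraMap (A ⧸ p) (B ⧸ I)).map_one, Algebra.trace_algebraMap]
      simp
    have hpos : 0 < Module.finrank (A ⧸ p) (B ⧸ I) := Module.finrank_pos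
    simp only [map_zero, add_zero, h1]
    exact_mod_cast hpos.ne'

end TameDifferent

section Core

variable {A B : Type*} [CommRing A] [CommRing B] [Algebra A B]
  [IsDedekindDomain A] [IsDedekindDomain B] [Module.IsTorsionFree A B] [Module.Finite A B]
  [Algebra.IsSeparable (FractionRing A) (FractionRing B)] [Algebra ℚ A]

theorem nat_mul_le_pred_mul {M d e : ℕ} (hde : d < e) (heM : e ≤ M) : M * d ≤ (M - 1) * e := by
  obtain ⟨e', rfl⟩ : ∃ e', e = e' + 1 := ⟨e - 1, by omega⟩
  obtain ⟨M', rfl⟩ : ∃ M', M = M' + 1 := ⟨M - 1, by omega⟩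
  have hd' : d ≤ e' := by omega
  have he' : e' ≤ M' := by omega
  simp only [Nat.add_sub_cancel]
  nlinarith

open UniqueFactorizationMonoid in
/-- Tame bound in "count" form: with `e` the exponent of `P` in `p B` (`p = P ∩ A`),
`P ^ e` does not divide the different. -/
theorem not_pow_count_dvd_differentIdeal (P : Ideal B) [P.IsPrime] (hP0 : P ≠ ⊥) :
    ¬ P ^ (Multiset.count P (normalizedFactors ((P.under A).map (algebraMap A B)))) ∣
      differentIdeal A B := by
  have hp : P.under A ≠ ⊥ := mt Ideal.eq_bot_of_comap_eq_bot hP0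
  have hp' := (Ideal.map_eq_bot_iff_of_injective
    (FaithfulSMul.algebraMap_injective A B)).not.mpr hp
  have hPmax : P.IsMaximal := Ideal.IsPrime.isMaximal inferInstance hP0
  have : (P.under A).IsMaximal := Ideal.IsPrime.isMaximal inferInstance hp
  have : CharZero (A ⧸ P.under A) := algebraRat.charZero _
  obtain ⟨Q, h₁, h₂⟩ := Ideal.eq_prime_pow_mul_coprime hp' P
  set e := Multiset.count P (normalizedFactors ((P.under A).map (algebraMap A B))) with he
  have hne : P ^ e ≠ ⊤ := by
    intro htop
    have hQ : (P.under A).map (algebraMap A B) = Q := by rw [h₂, htop, Ideal.top_mul]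
    have hQP : Q ≤ P := hQ ▸ Ideal.map_comap_le
    have : P ⊔ Q = P := sup_eq_left.mpr hQP
    rw [this] at h₁
    exact hPmax.ne_top h₁
  have hcop : IsCoprime (P ^ e) Q := (Ideal.isCoprime_iff_sup_eq.mpr h₁).pow_left
  exact not_dvd_differentIdeal_of_isCoprime_of_charZero A (P ^ e) Q hne hcop h₂.symm

open UniqueFactorizationMonoid in
/-- If `s ∈ A` lies in every prime dividing the different and `M` bounds all ramification
exponents, then `𝔇 ^ M ∣ (s) ^ (M - 1)`. -/
theorem differentIdeal_pow_dvd_span_pow (s : A) (M : ℕ)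
    (hM : ∀ P : Ideal B, P.IsPrime → P ≠ ⊥ →
      Multiset.count P (normalizedFactors ((P.under A).map (algebraMap A B))) ≤ M)
    (hs : ∀ P : Ideal B, P.IsPrime → P ∣ differentIdeal A B → algebraMap A B s ∈ P) :
    differentIdeal A B ^ M ∣ Ideal.span {algebraMap A B s} ^ (M - 1) := by
  rw [UniqueFactorizationMonoid.dvd_iff_emultiplicity_le (pow_ne_zero _ differentIdeal_ne_bot)]
  intro P hP
  have hPprime : P.IsPrime := Ideal.isPrime_of_prime hP
  have hP0 : P ≠ ⊥ := hP.ne_zero
  rw [emultiplicity_pow hP, emultiplicity_pow hP]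
  by_cases hdvd : P ∣ differentIdeal A B
  · have hsP := hs P hPprime hdvd
    have hp : P.under A ≠ ⊥ := mt Ideal.eq_bot_of_comap_eq_bot hP0
    have hp' := (Ideal.map_eq_bot_iff_of_injective
      (FaithfulSMul.algebraMap_injective A B)).not.mpr hp
    have hPmax : P.IsMaximal := Ideal.IsPrime.isMaximal inferInstance hP0
    obtain ⟨Q, -, h₂⟩ := Ideal.eq_prime_pow_mul_coprime hp' P
    have hMe := hM P hPprime hP0
    have hcount := not_pow_count_dvd_differentIdeal (A := A) P hP0
    set e := Multiset.count P (normalizedFactors ((P.under A).map (algebraMap A B))) with he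
    have h1 : emultiplicity P (differentIdeal A B) < e :=
      emultiplicity_lt_iff_not_dvd.mpr hcount
    have h2 : (e : ℕ∞) ≤ emultiplicity P (Ideal.span {algebraMap A B s}) := by
      refine le_emultiplicity_of_pow_dvd ?_
      refine dvd_trans (Dvd.intro _ h₂.symm) (Ideal.dvd_iff_le.mpr ?_)
      rw [Ideal.span_singleton_le_iff_mem]
      exact Ideal.mem_map_of_mem _ (Ideal.mem_comap.mpr hsP)
    obtain ⟨d, hd⟩ := ENat.ne_top_iff_exists.mp (ne_top_of_lt h1)
    rw [← hd] at h1 ⊢
    have h1' : d < e := by exact_mod_cast h1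
    have h3 : M * d ≤ (M - 1) * e := nat_mul_le_pred_mul h1' hMe
    calc ((M : ℕ∞)) * (d : ℕ∞) = ((M * d : ℕ) : ℕ∞) := by push_cast; rfl
      _ ≤ (((M - 1) * e : ℕ) : ℕ∞) := by exact_mod_cast h3
      _ = ((M - 1 : ℕ) : ℕ∞) * (e : ℕ∞) := by push_cast; rfl
      _ ≤ _ := by gcongr
  · rw [emultiplicity_eq_zero.mpr hdvd]
    simp

open UniqueFactorizationMonoid in
/-- In residue characteristic zero, a prime with ramification exponent `≤ 1` does not divide the
different. -/
theorem not_dvd_differentIdeal_of_not_sq_dvd (P : Ideal B) [P.IsPrime] (hP0 : P ≠ ⊥)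
    (h : ¬ P ^ 2 ∣ (P.under A).map (algebraMap A B)) : ¬ P ∣ differentIdeal A B := by
  have hp : P.under A ≠ ⊥ := mt Ideal.eq_bot_of_comap_eq_bot hP0
  have hp' := (Ideal.map_eq_bot_iff_of_injective
    (FaithfulSMul.algebraMap_injective A B)).not.mpr hp
  have hPmax : P.IsMaximal := Ideal.IsPrime.isMaximal inferInstance hP0
  obtain ⟨Q, -, h₂⟩ := Ideal.eq_prime_pow_mul_coprime hp' P
  have hcount := not_pow_count_dvd_differentIdeal (A := A) P hP0
  set e := Multiset.count P (normalizedFactors ((P.under A).map (algebraMap A B))) with he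
  have he1 : e ≤ 1 := by
    by_contra hlt
    exact h ((pow_dvd_pow P (by omega : 2 ≤ e)).trans (Dvd.intro _ h₂.symm))
  intro hdvd
  exact hcount ((pow_dvd_pow P he1).trans (by rwa [pow_one]))

end Core

section AKLB

variable {A K L B : Type*} [CommRing A] [Field K] [CommRing B] [Field L]
  [Algebra A K] [Algebra B L] [Algebra A B] [Algebra K L] [Algebra A L]
  [IsScalarTower A K L] [IsScalarTower A B L]
  [IsDedekindDomain A] [IsFractionRing A K] [FiniteDimensional K L] [Algebra.IsSeparable K L]
  [IsIntegralClosure B A L] [IsFractionRing B L] [IsDedekindDomain B] [Algebra ℚ A]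

omit [IsDedekindDomain A] [FiniteDimensional K L] [Algebra.IsSeparable K L]
  [IsIntegralClosure B A L] [IsFractionRing B L] [IsDedekindDomain B] [Algebra ℚ A] in
include K L in
theorem aklb_faithfulSMul : FaithfulSMul A B := by
  have h1 : Function.Injective (algebraMap A L) := by
    rw [IsScalarTower.algebraMap_eq A K L]
    exact (algebraMap K L).injective.comp (IsFractionRing.injective A K)
  rw [IsScalarTower.algebraMap_eq A B L] at h1
  exact (faithfulSMul_iff_algebraMap_injective A B).mpr (Function.Injective.of_comp h1)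

omit [FiniteDimensional K L] [Algebra.IsSeparable K L] [IsIntegralClosure B A L]
  [IsFractionRing B L] [Algebra ℚ A] in
include K L in
theorem aklb_torsionFree : Module.IsTorsionFree A B := by
  have : FaithfulSMul A B := aklb_faithfulSMul (K := K) (L := L)
  infer_instance

omit [FiniteDimensional K L] [IsIntegralClosure B A L] [Algebra ℚ A] in
include K L in
theorem aklb_isSeparable [Module.IsTorsionFree A B] :
    Algebra.IsSeparable (FractionRing A) (FractionRing B) := by
  have H : RingHom.comp (algebraMap (FractionRing A) (FractionRing B))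
      ↑(FractionRing.algEquiv A K).symm.toRingEquiv =
        RingHom.comp ↑(FractionRing.algEquiv B L).symm.toRingEquiv (algebraMap K L) := by
    apply IsLocalization.ringHom_ext A⁰
    ext
    simp only [RingHom.coe_comp, RingHom.coe_coe,
      AlgEquiv.coe_ringEquiv, Function.comp_apply, AlgEquiv.commutes,
      ← IsScalarTower.algebraMap_apply]
    rw [IsScalarTower.algebraMap_apply A B L, AlgEquiv.commutes, ← IsScalarTower.algebraMap_apply]
  exact Algebra.IsSeparable.of_equiv_equiv _ _ H

omit [IsScalarTower A B L] [IsDedekindDomain A] [IsIntegralClosure B A L] [IsFractionRing B L]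
  [IsDedekindDomain B] [Algebra ℚ A] [Algebra A K] [Algebra A B] [Algebra K L] [Algebra A L]
  [IsScalarTower A K L] [IsFractionRing A K] [FiniteDimensional K L] [Algebra.IsSeparable K L] in
theorem fractionalIdeal_pow_mem_pow {I : FractionalIdeal B⁰ L} {x : L} (hx : x ∈ I) (n : ℕ) :
    x ^ n ∈ I ^ n := by
  induction n with
  | zero => simpa using FractionalIdeal.one_mem_one (S := B⁰) (P := L)
  | succ n ih => rw [pow_succ, pow_succ]; exact FractionalIdeal.mul_mem_mul ih hx

include K in
open UniqueFactorizationMonoid in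
/-- **Tame certificate, abstract Dedekind core.**  `A` a Dedekind `ℚ`-algebra, `K = Frac A`,
`L / K` finite separable, `B` the integral closure of `A` in `L`.  Let `s : A` be such that every
nonzero prime `P` of `B` not containing `s` is unramified over `A` (`P ^ 2 ∤ (P ∩ A) B`), and let
`M` bound all ramification exponents.  Then for every `y` in the trace dual of `B`
(`Tr (y b) ∈ A` for all `b ∈ B`), the element `s ^ (M - 1) * y ^ M` lies in `B`. -/
theorem exists_eq_pow_mul_pow_of_trace_mem (s : A) (M : ℕ)
    (hM : ∀ P : Ideal B, P.IsPrime → P ≠ ⊥ →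
      Multiset.count P (normalizedFactors ((P.under A).map (algebraMap A B))) ≤ M)
    (hs : ∀ P : Ideal B, P.IsPrime → P ≠ ⊥ → algebraMap A B s ∉ P →
      ¬ P ^ 2 ∣ (P.under A).map (algebraMap A B))
    (y : L) (hy : ∀ b : B, Algebra.trace K L (y * algebraMap B L b) ∈ (algebraMap A K).range) :
    ∃ w : B, algebraMap A L s ^ (M - 1) * y ^ M = algebraMap B L w := by
  have : Module.IsTorsionFree A B := aklb_torsionFree (K := K) (L := L)
  have : Module.Finite A B := IsIntegralClosure.finite A K L B
  have : Algebra.IsSeparable (FractionRing A) (FractionRing B) := aklb_isSeparable (K := K) (L := L)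
  -- the different
  have hD0 : differentIdeal A B ≠ ⊥ := differentIdeal_ne_bot
  have hdvd : differentIdeal A B ^ M ∣ Ideal.span {algebraMap A B s} ^ (M - 1) := by
    refine differentIdeal_pow_dvd_span_pow s M hM fun P hP hPD => ?_
    by_contra hsP
    have hP0 : P ≠ ⊥ := by
      rintro rfl
      rw [← Ideal.zero_eq_bot, zero_dvd_iff] at hPD
      exact hD0 hPD
    exact not_dvd_differentIdeal_of_not_sq_dvd (A := A) P hP0 (hs P hP hP0 hsP) hPD
  have hsmem : algebraMap A B s ^ (M - 1) ∈ differentIdeal A B ^ M :=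
    Ideal.dvd_iff_le.mp hdvd (Ideal.pow_mem_pow (Ideal.mem_span_singleton_self _) _)
  -- `y` lies in the dual of `1`, i.e. in the inverse of the different
  have hone : (1 : FractionalIdeal B⁰ L) ≠ 0 := one_ne_zero
  have hydual : y ∈ FractionalIdeal.dual A K (1 : FractionalIdeal B⁰ L) := by
    rw [FractionalIdeal.mem_dual hone]
    intro a ha
    obtain ⟨b, rfl⟩ := (FractionalIdeal.mem_one_iff _).mp ha
    exact hy b
  have hDinv : FractionalIdeal.dual A K (1 : FractionalIdeal B⁰ L) =
      ((differentIdeal A B : Ideal B) : FractionalIdeal B⁰ L)⁻¹ := by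
    rw [coeIdeal_differentIdeal A K L B, inv_inv]
  rw [hDinv] at hydual
  have hyM : y ^ M ∈ (((differentIdeal A B : Ideal B) : FractionalIdeal B⁰ L)⁻¹) ^ M :=
    fractionalIdeal_pow_mem_pow hydual M
  have hsM : algebraMap B L (algebraMap A B s ^ (M - 1)) ∈
      (((differentIdeal A B : Ideal B) : FractionalIdeal B⁰ L)) ^ M := by
    rw [← FractionalIdeal.coeIdeal_pow]
    exact FractionalIdeal.mem_coeIdeal_of_mem _ hsmem
  have hprod := FractionalIdeal.mul_mem_mul hsM hyM
  have hD0' : ((differentIdeal A B : Ideal B) : FractionalIdeal B⁰ L) ≠ 0 := by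
    simpa using hD0
  rw [← mul_pow, mul_inv_cancel₀ hD0', one_pow] at hprod
  obtain ⟨w, hw⟩ := (FractionalIdeal.mem_one_iff _).mp hprod
  refine ⟨w, ?_⟩
  rw [hw, map_pow, ← IsScalarTower.algebraMap_apply]

include K L in
open UniqueFactorizationMonoid in
/-- Ramification exponents are bounded by the degree. -/
theorem count_normalizedFactors_le_finrank (P : Ideal B) (hP : P.IsPrime) (hP0 : P ≠ ⊥) :
    Multiset.count P (normalizedFactors ((P.under A).map (algebraMap A B))) ≤
      Module.finrank K L := by
  have : Module.IsTorsionFree A B := aklb_torsionFree (K := K) (L := L)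
  have : Module.Finite A B := IsIntegralClosure.finite A K L B
  have hp : P.under A ≠ ⊥ := mt Ideal.eq_bot_of_comap_eq_bot hP0
  have hp' := (Ideal.map_eq_bot_iff_of_injective
    (FaithfulSMul.algebraMap_injective A B)).not.mpr hp
  have : (P.under A).IsMaximal := Ideal.IsPrime.isMaximal inferInstance hp
  have : NoZeroSMulDivisors A B := ⟨fun {c x} h => by
    rw [Algebra.smul_def, mul_eq_zero] at h
    rcases h with h | h
    · left
      exact (map_eq_zero_iff _ (FaithfulSMul.algebraMap_injective A B)).mp h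
    · exact Or.inr h⟩
  rw [← Ideal.IsDedekindDomain.ramificationIdx'_eq_normalizedFactors_count hp' hP hP0]
  exact Ideal.ramificationIdx_le_finrank B K L P

include K in
open UniqueFactorizationMonoid in
/-- **Tame certificate (DU3), abstract form.**  `A` a Dedekind `ℚ`-algebra, `K = Frac A`, `L / K`
finite separable of degree `M`, `B` the integral closure of `A` in `L`.  Let `t, s₁ : A`,
`t ≠ 0`, be such that every nonzero prime `P` of `B` not containing `t * s₁` is unramified over
`A`.  If `y : L` satisfies `Tr (y b) ∈ t A` for all `b ∈ B`, then `(s₁ y) ^ M ∈ (t s₁) B`. -/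
theorem tame_cert (t s₁ : A) (ht : t ≠ 0)
    (hs : ∀ P : Ideal B, P.IsPrime → P ≠ ⊥ → algebraMap A B (t * s₁) ∉ P →
      ¬ P ^ 2 ∣ (P.under A).map (algebraMap A B))
    (y : L) (hy : ∀ b : B, ∃ r : A, Algebra.trace K L (y * algebraMap B L b) =
      algebraMap A K (t * r)) :
    ∃ w : B, (algebraMap A L s₁ * y) ^ Module.finrank K L =
      algebraMap A L (t * s₁) * algebraMap B L w := by
  have htK : algebraMap A K t ≠ 0 := by
    rw [Ne, map_eq_zero_iff _ (IsFractionRing.injective A K)]
    exact ht
  have htL : algebraMap A L t ≠ 0 := by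
    rw [IsScalarTower.algebraMap_apply A K L, Ne, map_eq_zero]
    exact htK
  have hM0 : Module.finrank K L ≠ 0 := Module.finrank_pos.ne'
  obtain ⟨w, hw⟩ := exists_eq_pow_mul_pow_of_trace_mem (K := K) (t * s₁) (Module.finrank K L)
    (fun P hP hP0 => count_normalizedFactors_le_finrank (K := K) (L := L) P hP hP0) hs
    (y * (algebraMap A L t)⁻¹) (fun b => by
      obtain ⟨r, hr⟩ := hy b
      refine ⟨r, ?_⟩
      have h1 : y * (algebraMap A L t)⁻¹ * algebraMap B L b =
          (algebraMap A K t)⁻¹ • (y * algebraMap B L b) := by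
        rw [Algebra.smul_def, map_inv₀, ← IsScalarTower.algebraMap_apply A K L]
        ring
      rw [h1, map_smul, hr, map_mul, smul_eq_mul, inv_mul_cancel_left₀ htK])
  refine ⟨w, ?_⟩
  rw [← hw]
  obtain ⟨n, hn⟩ : ∃ n, Module.finrank K L = n + 1 := ⟨Module.finrank K L - 1, by omega⟩
  have key : algebraMap A L (t * s₁) * (y * (algebraMap A L t)⁻¹) = algebraMap A L s₁ * y := by
    rw [map_mul]
    field_simp
  rw [hn, Nat.add_sub_cancel, ← mul_assoc, ← pow_succ', ← mul_pow, key]

end AKLB

end Fermat.Agent.S18.helper5198
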