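import Fermat.Agent.S18.helper2193_Branch
import Fermat.Agent.S18.helper5198_TameCert
import Fermat.Agent.S18.helper4445_GenusRed

/-!
# S18-BRANCH (helper2193), part 2: the tame certificate (DU3) on the Hauptmodul lines

The abstract tame certificate `helper5198.tame_cert` is instantiated on a function field `F / K`
(`K` algebraically closed of characteristic zero) over a base line `x`, from branch data in
Prelude `Place` form, and delivered in the exact shape consumed by the chart-genus inequality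
`helper4445.finrank_omega_le` (hypotheses `hcert₁`, `hcert₂`).

* `cert_chart`, `cert_chart_inv` : generic certificates on the charts `x` and `x⁻¹`.
* `cert_isOmega` : both certificates for a regular chart differential (`helper4445.IsOmega`).
* `cert_t2`, `cert_t2_inv`, `cert_t3`, `cert_t3_inv`, `cert_j`, `cert_j_inv` (and the packaged
  `cert_t2_isOmega`, `cert_t3_isOmega`, `cert_j_isOmega`) : the modular instances on
  `F_N = modularFunctionFieldBar N` over a Hauptmodul `t` of level `2` resp. `3` and over `j`.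
* `transcendental_t2`, `finiteDimensional_t2` (and `_t3`) : a Hauptmodul is transcendental and
  `F_N` is finite over `ℚ̄(t)`.
-/

set_option autoImplicit false

open AlgebraicCurve Polynomial IntermediateField IsDedekindDomain

namespace Fermat.Agent.S18.helper2193

open Fermat.Agent.S24 Fermat.Agent.S24.helper24 Fermat.Agent.S24.helper24.h204

section GenericCert

open scoped IntermediateField.algebraAdjoinAdjoin

variable {K F : Type*} [Field K] [Field F] [Algebra K F]

/-- The coercion of the trace only depends on the intermediate field as a subfield. -/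
theorem trace_coe_eq_of_eq {E E' : IntermediateField K F} (h : E = E') (z : F) :
    ((Algebra.trace E F z : E) : F) = ((Algebra.trace E' F z : E') : F) := by
  subst h
  rfl

theorem finrank_eq_of_eq {E E' : IntermediateField K F} (h : E = E') :
    Module.finrank E F = Module.finrank E' F := by
  subst h
  rfl

/-- Over an algebraically closed field, every nonzero prime of `K[x]` contains some `x - c`. -/
theorem exists_sub_mem_of_isPrime [IsAlgClosed K] (x : F) (p : Ideal (Algebra.adjoin K {x}))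
    (hp : p.IsPrime) (hp0 : p ≠ ⊥) :
    ∃ c : K, gen K x - algebraMap K (Algebra.adjoin K {x}) c ∈ p := by
  obtain ⟨a, hap, ha0⟩ := Submodule.exists_mem_ne_zero_of_ne_bot hp0
  obtain ⟨q, rfl⟩ := aeval_gen_surjective K x a
  have hq0 : q ≠ 0 := by
    rintro rfl
    simp at ha0
  have hq' := (IsAlgClosed.splits q).eq_prod_roots
  have h1 : aeval (gen K x) q = algebraMap K (Algebra.adjoin K {x}) q.leadingCoeff *
      (q.roots.map (fun r => gen K x - algebraMap K (Algebra.adjoin K {x}) r)).prod := by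
    conv_lhs => rw [hq']
    rw [map_mul, Polynomial.aeval_C, map_multiset_prod, Multiset.map_map]
    congr 2
    apply Multiset.map_congr rfl
    intro r _
    simp
  rw [h1] at hap
  rcases hp.mem_or_mem hap with h | h
  · exfalso
    apply hp.ne_top
    rw [Ideal.eq_top_iff_one]
    have hlc : q.leadingCoeff ≠ 0 := Polynomial.leadingCoeff_ne_zero.mpr hq0
    have : (1 : Algebra.adjoin K {x}) = algebraMap K _ q.leadingCoeff⁻¹ *
        algebraMap K _ q.leadingCoeff := by
      rw [← map_mul, inv_mul_cancel₀ hlc, map_one]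
    rw [this]
    exact p.mul_mem_left _ h
  · rw [hp.multiset_prod_mem_iff_exists_mem] at h
    obtain ⟨b, hb, hbp⟩ := h
    rw [Multiset.mem_map] at hb
    obtain ⟨r, -, rfl⟩ := hb
    exact ⟨r, hbp⟩

variable [IsAlgClosed K] [CharZero K] (x : F) (hx : Transcendental K x)
  [FiniteDimensional K⟮x⟯ F]

include hx in
/-- **Branch data in prime-ideal form.**  If `F / K(x)` is unramified over every `c ≠ 0` which is
not a root of `s₁`, then every nonzero prime of the integral closure of `K[x]` not containing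
`x * s₁(x)` is unramified over `K[x]`. -/
theorem not_sq_dvd_of_branch (s₁ : K[X])
    (hbr : ∀ c : K, c ≠ 0 → s₁.eval c ≠ 0 → ∀ v : Place K F,
      0 < v.ord (x - algebraMap K F c) → v.ord (x - algebraMap K F c) = 1)
    (P : Ideal (integralClosure (Algebra.adjoin K {x}) F)) (hP : P.IsPrime) (hP0 : P ≠ ⊥)
    (hPs : algebraMap (Algebra.adjoin K {x}) (integralClosure (Algebra.adjoin K {x}) F)
      (gen K x * aeval (gen K x) s₁) ∉ P) :
    ¬ P ^ 2 ∣ (P.under (Algebra.adjoin K {x})).map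
      (algebraMap (Algebra.adjoin K {x}) (integralClosure (Algebra.adjoin K {x}) F)) := by
  have hinj : Function.Injective (algebraMap (Algebra.adjoin K {x})
      (integralClosure (Algebra.adjoin K {x}) F)) := by
    intro a b hab
    have := congrArg (fun z : integralClosure (Algebra.adjoin K {x}) F => (z : F)) hab
    exact Subtype.ext this
  have hunder_prime : (P.under (Algebra.adjoin K {x})).IsPrime := Ideal.IsPrime.under _ P
  have hunder0 : P.under (Algebra.adjoin K {x}) ≠ ⊥ := mt Ideal.eq_bot_of_comap_eq_bot hP0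
  obtain ⟨c, hc⟩ := exists_sub_mem_of_isPrime x (P.under (Algebra.adjoin K {x})) hunder_prime
    hunder0
  have hmax := pc_isMaximal hx c
  have hpc : pc K x c = P.under (Algebra.adjoin K {x}) := by
    refine hmax.eq_of_le hunder_prime.ne_top ?_
    rw [pc, Ideal.span_le, Set.singleton_subset_iff]
    exact hc
  rw [← hpc]
  let w : HeightOneSpectrum (integralClosure (Algebra.adjoin K {x}) F) := ⟨P, hP, hP0⟩
  have hord := ord_ofHeightOneSpectrum_eq_ramificationIdx (K := K) hx c w
  have hmap0 : Ideal.map (algebraMap (Algebra.adjoin K {x})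
      (integralClosure (Algebra.adjoin K {x}) F)) (pc K x c) ≠ ⊥ := by
    rw [Ne, Ideal.map_eq_bot_iff_of_injective hinj]
    exact pc_ne_bot hx c
  have hle : Ideal.map (algebraMap (Algebra.adjoin K {x})
      (integralClosure (Algebra.adjoin K {x}) F)) (pc K x c) ≤ P := by
    rw [Ideal.map_le_iff_le_comap, hpc]
  have hne := Ideal.IsDedekindDomain.ramificationIdx'_ne_zero hmap0 hP hle
  have hpos : 0 < (Place.ofHeightOneSpectrum (K := K) (F := F) w).ord (x - algebraMap K F c) := by
    rw [hord]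
    exact_mod_cast Nat.pos_of_ne_zero hne
  -- `c ≠ 0` and `s₁(c) ≠ 0` because `x * s₁(x) ∉ P`
  have hc0 : c ≠ 0 := by
    rintro rfl
    apply hPs
    rw [map_mul]
    refine P.mul_mem_right _ ?_
    have : gen K x ∈ P.under (Algebra.adjoin K {x}) := by simpa using hc
    exact this
  have hsc : s₁.eval c ≠ 0 := by
    intro h0
    apply hPs
    rw [map_mul]
    refine P.mul_mem_left _ ?_
    have hdvd : (X - C c) ∣ s₁ := Polynomial.dvd_iff_isRoot.mpr h0
    obtain ⟨Q, rfl⟩ := hdvd
    have : aeval (gen K x) ((X - C c) * Q) ∈ P.under (Algebra.adjoin K {x}) := by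
      rw [map_mul]
      refine Ideal.mul_mem_right _ _ ?_
      simpa using hc
    exact this
  have h1 := hbr c hc0 hsc _ hpos
  rw [hord] at h1
  have he : (pc K x c).ramificationIdx' P = 1 := by exact_mod_cast h1
  intro hdvd
  rw [Ideal.IsDedekindDomain.ramificationIdx'_eq_multiplicity hmap0 hP] at he
  have hfin : FiniteMultiplicity P (Ideal.map (algebraMap (Algebra.adjoin K {x})
      (integralClosure (Algebra.adjoin K {x}) F)) (pc K x c)) :=
    FiniteMultiplicity.of_not_isUnit (by rw [Ideal.isUnit_iff]; exact hP.ne_top) hmap0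
  have := hfin.le_multiplicity_of_pow_dvd hdvd
  omega

include hx in
/-- **Tame certificate on the chart `x`** (DU3 in the shape consumed by DU4).  `K` algebraically
closed of characteristic zero, `F / K(x)` finite, unramified over every `c ≠ 0` which is not a
root of `s₁`.  If `Tr (y b) ∈ x K[x]` for every `b` integral over `K[x]`, then
`(s₁(x) y) ^ [F : K(x)] ∈ x s₁(x) B₁`, `B₁` the integral closure of `K[x]`. -/
theorem cert_chart (s₁ : K[X])
    (hbr : ∀ c : K, c ≠ 0 → s₁.eval c ≠ 0 → ∀ v : Place K F,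
      0 < v.ord (x - algebraMap K F c) → v.ord (x - algebraMap K F c) = 1)
    (y : F)
    (hy : ∀ b : F, IsIntegral (Algebra.adjoin K {x}) b →
      ∃ p : K[X], ((Algebra.trace K⟮x⟯ F (y * b) : K⟮x⟯) : F) = x * aeval x p) :
    ∃ z : F, IsIntegral (Algebra.adjoin K {x}) z ∧
      (aeval x s₁ * y) ^ Module.finrank K⟮x⟯ F = x * aeval x s₁ * z := by
  have : Algebra ℚ (Algebra.adjoin K {x}) :=
    ((algebraMap K (Algebra.adjoin K {x})).comp (algebraMap ℚ K)).toAlgebra
  have hgen0 : gen K x ≠ 0 := by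
    intro h0
    have := congrArg (fun a : Algebra.adjoin K {x} => (a : F)) h0
    simp only [coe_gen, ZeroMemClass.coe_zero] at this
    have h1 := sub_ne_zero_of_transcendental hx (0 : K)
    rw [map_zero, sub_zero] at h1
    exact h1 this
  obtain ⟨w, hw⟩ := helper5198.tame_cert (K := K⟮x⟯) (L := F)
    (B := integralClosure (Algebra.adjoin K {x}) F) (gen K x) (aeval (gen K x) s₁) hgen0
    (fun P hP hP0 hPs => not_sq_dvd_of_branch x hx s₁ hbr P hP hP0 hPs) y
    (fun b => by
      obtain ⟨p, hp⟩ := hy (b : F) b.2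
      refine ⟨aeval (gen K x) p, Subtype.ext ?_⟩
      rw [show algebraMap (integralClosure (Algebra.adjoin K {x}) F) F b = (b : F) from rfl, hp,
        IntermediateField.algebraAdjoinAdjoin.coe_algebraMap, MulMemClass.coe_mul, coe_gen,
        Polynomial.aeval_subalgebra_coe, coe_gen])
  refine ⟨(w : F), w.2, ?_⟩
  have h1 : algebraMap (Algebra.adjoin K {x}) F (aeval (gen K x) s₁) = aeval x s₁ := by
    show ((aeval (gen K x) s₁ : Algebra.adjoin K {x}) : F) = aeval x s₁
    rw [Polynomial.aeval_subalgebra_coe, coe_gen]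
  have h2 : algebraMap (Algebra.adjoin K {x}) F (gen K x * aeval (gen K x) s₁) =
      x * aeval x s₁ := by
    rw [map_mul, h1]
    rfl
  rw [h1, h2] at hw
  exact hw

include hx in
/-- **Tame certificate on the chart `x⁻¹`** (traces over `K(x)`, as in `helper4445.IsOmega`). -/
theorem cert_chart_inv (s₂ : K[X])
    (hbr : ∀ c : K, c ≠ 0 → s₂.eval c ≠ 0 → ∀ v : Place K F,
      0 < v.ord (x⁻¹ - algebraMap K F c) → v.ord (x⁻¹ - algebraMap K F c) = 1)
    (y : F)
    (hy : ∀ b : F, IsIntegral (Algebra.adjoin K {x⁻¹}) b →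
      ∃ p : K[X], ((Algebra.trace K⟮x⟯ F (y * b) : K⟮x⟯) : F) = x⁻¹ * aeval x⁻¹ p) :
    ∃ z : F, IsIntegral (Algebra.adjoin K {x⁻¹}) z ∧
      (aeval x⁻¹ s₂ * y) ^ Module.finrank K⟮x⟯ F = x⁻¹ * aeval x⁻¹ s₂ * z := by
  have he : K⟮x⁻¹⟯ = K⟮x⟯ := helper4445.adjoin_simple_inv_eq x
  have hfd : FiniteDimensional K⟮x⁻¹⟯ F := by
    rw [he]
    infer_instance
  have h := cert_chart x⁻¹ (helper4445.transcendental_inv hx) s₂ hbr y (fun b hb => by
    obtain ⟨p, hp⟩ := hy b hb
    exact ⟨p, by rw [trace_coe_eq_of_eq he]; exact hp⟩)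
  rwa [finrank_eq_of_eq he] at h

omit [IsAlgClosed K] [CharZero K] [FiniteDimensional K⟮x⟯ F] in
/-- A zero of `x⁻¹ - c`, `c ≠ 0`, is a zero of `x - c⁻¹` of the same order. -/
theorem ord_inv_sub_eq (v : Place K F) {c : K} (hc : c ≠ 0)
    (h : 0 < v.ord (x⁻¹ - algebraMap K F c)) :
    v.ord (x⁻¹ - algebraMap K F c) = v.ord (x - algebraMap K F c⁻¹) := by
  have hcF : algebraMap K F c ≠ 0 := (_root_.map_ne_zero _).mpr hc
  have hx0 : x ≠ 0 := by
    rintro rfl
    rw [inv_zero, zero_sub, helper1370.ord_neg, helper1370.ord_algebraMap] at h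
    exact lt_irrefl _ h
  have hxi : v.ord x⁻¹ = 0 := by
    have := helper1370.ord_sub_algebraMap_eq_zero v h hc (b := 0)
    rwa [map_zero, sub_zero] at this
  have hne : x⁻¹ - algebraMap K F c ≠ 0 := ne_zero_of_ord_pos v h
  have hfac : x⁻¹ - algebraMap K F c =
      (-(algebraMap K F c) * x⁻¹) * (x - algebraMap K F c⁻¹) := by
    rw [map_inv₀]
    field_simp
    ring
  have hne1 : -(algebraMap K F c) * x⁻¹ ≠ 0 := mul_ne_zero (neg_ne_zero.mpr hcF) (inv_ne_zero hx0)
  have hne2 : x - algebraMap K F c⁻¹ ≠ 0 := by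
    intro h0
    rw [h0, mul_zero] at hfac
    exact hne hfac
  rw [hfac, v.ord_mul hne1 hne2, v.ord_mul (neg_ne_zero.mpr hcF) (inv_ne_zero hx0),
    helper1370.ord_neg, helper1370.ord_algebraMap, hxi]
  ring

include hx in
/-- **Both certificates from branch data on the `x`-line**: `S₁` contains the nonzero finite
branch values (as roots of `s₁`), and `s₂` vanishes at the inverses of the roots of `s₁`. -/
theorem cert_isOmega (s₁ s₂ : K[X])
    (hbr : ∀ c : K, c ≠ 0 → s₁.eval c ≠ 0 → ∀ v : Place K F,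
      0 < v.ord (x - algebraMap K F c) → v.ord (x - algebraMap K F c) = 1)
    (hs : ∀ c : K, c ≠ 0 → s₂.eval c ≠ 0 → s₁.eval c⁻¹ ≠ 0)
    (y : F) (hy : helper4445.IsOmega K x y) :
    (∃ z : F, IsIntegral (Algebra.adjoin K {x}) z ∧
      (aeval x s₁ * y) ^ Module.finrank K⟮x⟯ F = x * aeval x s₁ * z) ∧
    (∃ z : F, IsIntegral (Algebra.adjoin K {x⁻¹}) z ∧
      (aeval x⁻¹ s₂ * y) ^ Module.finrank K⟮x⟯ F = x⁻¹ * aeval x⁻¹ s₂ * z) := by
  refine ⟨cert_chart x hx s₁ hbr y hy.1, cert_chart_inv x hx s₂ ?_ y hy.2⟩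
  intro c hc0 hsc v hv
  have he := ord_inv_sub_eq x v hc0 hv
  rw [he] at hv ⊢
  exact hbr c⁻¹ (inv_ne_zero hc0) (hs c hc0 hsc) v hv

end GenericCert

/-! ## The modular instances -/

section Modular

variable (N : ℕ) [NeZero N]

/-- If `j * t ^ a = p` with `t ≠ 0` and `p` algebraic over `ℚ̄` whenever `t` is, then `t` is
transcendental over `ℚ̄` (because `j` is). -/
theorem transcendental_of_jBar_mul_pow (t p : FN N) (a : ℕ) (ht0 : t ≠ 0)
    (h : jBar N * t ^ a = p) (hp : IsAlgebraic Kbar t → IsAlgebraic Kbar p) :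
    Transcendental Kbar t := by
  intro halg
  apply leaf_JTranscendental N
  have hj : jBar N = p * (t ^ a)⁻¹ := by
    rw [← h, mul_assoc, mul_inv_cancel₀ (pow_ne_zero a ht0), mul_one]
  rw [hj]
  exact (hp halg).mul (halg.pow a).inv

section Level2

variable (t : FN N) (ht : jBar N * t ^ 2 = (t + 256) ^ 3)

omit [NeZero N] in
include ht in
theorem t2_ne_zero : t ≠ 0 := by
  rintro rfl
  norm_num at ht

include ht in
/-- A Hauptmodul of level `2` is transcendental over `ℚ̄`. -/
theorem transcendental_t2 : Transcendental Kbar t := by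
  refine transcendental_of_jBar_mul_pow N t _ 2 (t2_ne_zero N t ht) ht fun halg => ?_
  have h256 : IsAlgebraic Kbar (256 : FN N) := by
    rw [← map_ofNat (algebraMap Kbar (FN N)) 256]
    exact isAlgebraic_algebraMap _
  exact (halg.add h256).pow 3

include ht in
/-- `F_N` is finite over `ℚ̄(t)`. -/
theorem finiteDimensional_t2 : FiniteDimensional Kbar⟮t⟯ (FN N) := by
  have : FiniteDimensional Kbar⟮jBar N⟯ (FN N) := (helper8185.stmt_JFinrank N).1
  exact helper2549.exchange (jBar N) t (transcendental_t2 N t ht)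

include ht in
/-- **Tame certificate on the `t₂`-line, chart `t`**: `hcert₁` of `helper4445.finrank_omega_le`
with `w₁ = t + 64` (`Pb = X + 64`) and `M = [F_N : ℚ̄(t)]`. -/
theorem cert_t2 (y : FN N)
    (hy : ∀ b : FN N, IsIntegral (Algebra.adjoin Kbar {t}) b →
      ∃ p : Kbar[X], ((Algebra.trace Kbar⟮t⟯ (FN N) (y * b) : Kbar⟮t⟯) : FN N) = t * aeval t p) :
    ∃ z : FN N, IsIntegral (Algebra.adjoin Kbar {t}) z ∧
      ((t + 64) * y) ^ Module.finrank Kbar⟮t⟯ (FN N) = t * (t + 64) * z := by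
  have := finiteDimensional_t2 N t ht
  have h := cert_chart t (transcendental_t2 N t ht) (X + C (64 : Kbar))
    (fun c hc0 hc v hv => ord_t2_sub_eq_one N t ht c hc0
      (fun h => hc (by rw [h]; simp)) v hv) y hy
  have he : aeval t (X + C (64 : Kbar)) = t + 64 := by
    rw [aeval_add, aeval_X, aeval_C, map_ofNat]
  rwa [he] at h

include ht in
/-- **Tame certificate on the `t₂`-line, chart `t⁻¹`**: `hcert₂` of
`helper4445.finrank_omega_le` with `w₂ = 1 + 64 t⁻¹` (`Pb' = 64 X + 1`). -/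
theorem cert_t2_inv (y : FN N)
    (hy : ∀ b : FN N, IsIntegral (Algebra.adjoin Kbar {t⁻¹}) b →
      ∃ p : Kbar[X],
        ((Algebra.trace Kbar⟮t⟯ (FN N) (y * b) : Kbar⟮t⟯) : FN N) = t⁻¹ * aeval t⁻¹ p) :
    ∃ z : FN N, IsIntegral (Algebra.adjoin Kbar {t⁻¹}) z ∧
      ((1 + 64 * t⁻¹) * y) ^ Module.finrank Kbar⟮t⟯ (FN N) = t⁻¹ * (1 + 64 * t⁻¹) * z := by
  have := finiteDimensional_t2 N t ht
  have h := cert_chart_inv t (transcendental_t2 N t ht) (1 + C (64 : Kbar) * X)
    (fun c hc0 hc v hv => by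
      have he := ord_inv_sub_eq t v hc0 hv
      rw [he] at hv ⊢
      refine ord_t2_sub_eq_one N t ht c⁻¹ (inv_ne_zero hc0) (fun h => hc ?_) v hv
      have h1 : c = (-64 : Kbar)⁻¹ := by rw [← h, inv_inv]
      rw [h1]
      simp) y hy
  have he : aeval t⁻¹ (1 + C (64 : Kbar) * X) = 1 + 64 * t⁻¹ := by
    rw [aeval_add, aeval_one, aeval_mul, aeval_X, aeval_C, map_ofNat]
  rwa [he] at h

include ht in
/-- Both certificates for a regular chart differential on the `t₂`-line. -/
theorem cert_t2_isOmega (y : FN N) (hy : helper4445.IsOmega Kbar t y) :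
    (∃ z : FN N, IsIntegral (Algebra.adjoin Kbar {t}) z ∧
      ((t + 64) * y) ^ Module.finrank Kbar⟮t⟯ (FN N) = t * (t + 64) * z) ∧
    (∃ z : FN N, IsIntegral (Algebra.adjoin Kbar {t⁻¹}) z ∧
      ((1 + 64 * t⁻¹) * y) ^ Module.finrank Kbar⟮t⟯ (FN N) = t⁻¹ * (1 + 64 * t⁻¹) * z) :=
  ⟨cert_t2 N t ht y hy.1, cert_t2_inv N t ht y hy.2⟩

end Level2

section Level3

variable (t : FN N) (ht : jBar N * t ^ 3 = (t + 27) * (t + 243) ^ 3)

omit [NeZero N] in
include ht in
theorem t3_ne_zero : t ≠ 0 := by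
  rintro rfl
  norm_num at ht

include ht in
/-- A Hauptmodul of level `3` is transcendental over `ℚ̄`. -/
theorem transcendental_t3 : Transcendental Kbar t := by
  refine transcendental_of_jBar_mul_pow N t _ 3 (t3_ne_zero N t ht) ht fun halg => ?_
  have h27 : IsAlgebraic Kbar (27 : FN N) := by
    rw [← map_ofNat (algebraMap Kbar (FN N)) 27]
    exact isAlgebraic_algebraMap _
  have h243 : IsAlgebraic Kbar (243 : FN N) := by
    rw [← map_ofNat (algebraMap Kbar (FN N)) 243]
    exact isAlgebraic_algebraMap _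
  exact (halg.add h27).mul ((halg.add h243).pow 3)

include ht in
/-- `F_N` is finite over `ℚ̄(t)`. -/
theorem finiteDimensional_t3 : FiniteDimensional Kbar⟮t⟯ (FN N) := by
  have : FiniteDimensional Kbar⟮jBar N⟯ (FN N) := (helper8185.stmt_JFinrank N).1
  exact helper2549.exchange (jBar N) t (transcendental_t3 N t ht)

include ht in
/-- **Tame certificate on the `t₃`-line, chart `t`**: `hcert₁` of `helper4445.finrank_omega_le`
with `w₁ = t + 27` (`Pb = X + 27`) and `M = [F_N : ℚ̄(t)]`. -/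
theorem cert_t3 (y : FN N)
    (hy : ∀ b : FN N, IsIntegral (Algebra.adjoin Kbar {t}) b →
      ∃ p : Kbar[X], ((Algebra.trace Kbar⟮t⟯ (FN N) (y * b) : Kbar⟮t⟯) : FN N) = t * aeval t p) :
    ∃ z : FN N, IsIntegral (Algebra.adjoin Kbar {t}) z ∧
      ((t + 27) * y) ^ Module.finrank Kbar⟮t⟯ (FN N) = t * (t + 27) * z := by
  have := finiteDimensional_t3 N t ht
  have h := cert_chart t (transcendental_t3 N t ht) (X + C (27 : Kbar))
    (fun c hc0 hc v hv => ord_t3_sub_eq_one N t ht c hc0
      (fun h => hc (by rw [h]; simp)) v hv) y hy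
  have he : aeval t (X + C (27 : Kbar)) = t + 27 := by
    rw [aeval_add, aeval_X, aeval_C, map_ofNat]
  rwa [he] at h

include ht in
/-- **Tame certificate on the `t₃`-line, chart `t⁻¹`**: `hcert₂` of
`helper4445.finrank_omega_le` with `w₂ = 1 + 27 t⁻¹` (`Pb' = 1 + 27 X`). -/
theorem cert_t3_inv (y : FN N)
    (hy : ∀ b : FN N, IsIntegral (Algebra.adjoin Kbar {t⁻¹}) b →
      ∃ p : Kbar[X],
        ((Algebra.trace Kbar⟮t⟯ (FN N) (y * b) : Kbar⟮t⟯) : FN N) = t⁻¹ * aeval t⁻¹ p) :
    ∃ z : FN N, IsIntegral (Algebra.adjoin Kbar {t⁻¹}) z ∧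
      ((1 + 27 * t⁻¹) * y) ^ Module.finrank Kbar⟮t⟯ (FN N) = t⁻¹ * (1 + 27 * t⁻¹) * z := by
  have := finiteDimensional_t3 N t ht
  have h := cert_chart_inv t (transcendental_t3 N t ht) (1 + C (27 : Kbar) * X)
    (fun c hc0 hc v hv => by
      have he := ord_inv_sub_eq t v hc0 hv
      rw [he] at hv ⊢
      refine ord_t3_sub_eq_one N t ht c⁻¹ (inv_ne_zero hc0) (fun h => hc ?_) v hv
      have h1 : c = (-27 : Kbar)⁻¹ := by rw [← h, inv_inv]
      rw [h1]
      simp) y hy
  have he : aeval t⁻¹ (1 + C (27 : Kbar) * X) = 1 + 27 * t⁻¹ := by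
    rw [aeval_add, aeval_one, aeval_mul, aeval_X, aeval_C, map_ofNat]
  rwa [he] at h

include ht in
/-- Both certificates for a regular chart differential on the `t₃`-line. -/
theorem cert_t3_isOmega (y : FN N) (hy : helper4445.IsOmega Kbar t y) :
    (∃ z : FN N, IsIntegral (Algebra.adjoin Kbar {t}) z ∧
      ((t + 27) * y) ^ Module.finrank Kbar⟮t⟯ (FN N) = t * (t + 27) * z) ∧
    (∃ z : FN N, IsIntegral (Algebra.adjoin Kbar {t⁻¹}) z ∧
      ((1 + 27 * t⁻¹) * y) ^ Module.finrank Kbar⟮t⟯ (FN N) = t⁻¹ * (1 + 27 * t⁻¹) * z) :=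
  ⟨cert_t3 N t ht y hy.1, cert_t3_inv N t ht y hy.2⟩

end Level3

section JLine

/-- **Tame certificate on the `j`-line, chart `j`**: `w₁ = j - 1728` (`Pb = X - 1728`). -/
theorem cert_j (y : FN N)
    (hy : ∀ b : FN N, IsIntegral (Algebra.adjoin Kbar {jBar N}) b →
      ∃ p : Kbar[X], ((Algebra.trace Kbar⟮jBar N⟯ (FN N) (y * b) : Kbar⟮jBar N⟯) : FN N) =
        jBar N * aeval (jBar N) p) :
    ∃ z : FN N, IsIntegral (Algebra.adjoin Kbar {jBar N}) z ∧
      ((jBar N - 1728) * y) ^ Module.finrank Kbar⟮jBar N⟯ (FN N) =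
        jBar N * (jBar N - 1728) * z := by
  have : FiniteDimensional Kbar⟮jBar N⟯ (FN N) := (helper8185.stmt_JFinrank N).1
  have h := cert_chart (jBar N) (leaf_JTranscendental N) (X - C (1728 : Kbar))
    (fun c hc0 hc v hv => helper8185.ord_j_sub_eq_one N c hc0
      (fun h => hc (by rw [h]; simp)) v hv) y hy
  have he : aeval (jBar N) (X - C (1728 : Kbar)) = jBar N - 1728 := by
    rw [aeval_sub, aeval_X, aeval_C, map_ofNat]
  rwa [he] at h

/-- **Tame certificate on the `j`-line, chart `j⁻¹`**: `w₂ = 1 - 1728 j⁻¹`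
(`Pb' = 1 - 1728 X`). -/
theorem cert_j_inv (y : FN N)
    (hy : ∀ b : FN N, IsIntegral (Algebra.adjoin Kbar {(jBar N)⁻¹}) b →
      ∃ p : Kbar[X], ((Algebra.trace Kbar⟮jBar N⟯ (FN N) (y * b) : Kbar⟮jBar N⟯) : FN N) =
        (jBar N)⁻¹ * aeval (jBar N)⁻¹ p) :
    ∃ z : FN N, IsIntegral (Algebra.adjoin Kbar {(jBar N)⁻¹}) z ∧
      ((1 - 1728 * (jBar N)⁻¹) * y) ^ Module.finrank Kbar⟮jBar N⟯ (FN N) =
        (jBar N)⁻¹ * (1 - 1728 * (jBar N)⁻¹) * z := by
  have : FiniteDimensional Kbar⟮jBar N⟯ (FN N) := (helper8185.stmt_JFinrank N).1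
  have h := cert_chart_inv (jBar N) (leaf_JTranscendental N) (1 - C (1728 : Kbar) * X)
    (fun c hc0 hc v hv => by
      have he := ord_inv_sub_eq (jBar N) v hc0 hv
      rw [he] at hv ⊢
      refine helper8185.ord_j_sub_eq_one N c⁻¹ (inv_ne_zero hc0) (fun h => hc ?_) v hv
      have h1 : c = (1728 : Kbar)⁻¹ := by rw [← h, inv_inv]
      rw [h1]
      simp) y hy
  have he : aeval (jBar N)⁻¹ (1 - C (1728 : Kbar) * X) = 1 - 1728 * (jBar N)⁻¹ := by
    rw [aeval_sub, aeval_one, aeval_mul, aeval_X, aeval_C, map_ofNat]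
  rwa [he] at h

/-- Both certificates for a regular chart differential on the `j`-line. -/
theorem cert_j_isOmega (y : FN N) (hy : helper4445.IsOmega Kbar (jBar N) y) :
    (∃ z : FN N, IsIntegral (Algebra.adjoin Kbar {jBar N}) z ∧
      ((jBar N - 1728) * y) ^ Module.finrank Kbar⟮jBar N⟯ (FN N) =
        jBar N * (jBar N - 1728) * z) ∧
    (∃ z : FN N, IsIntegral (Algebra.adjoin Kbar {(jBar N)⁻¹}) z ∧
      ((1 - 1728 * (jBar N)⁻¹) * y) ^ Module.finrank Kbar⟮jBar N⟯ (FN N) =
        (jBar N)⁻¹ * (1 - 1728 * (jBar N)⁻¹) * z) :=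
  ⟨cert_j N y hy.1, cert_j_inv N y hy.2⟩

end JLine

end Modular

end Fermat.Agent.S18.helper2193
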