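/-
S18-TLINE-VF, part (RT) (helper4665): residual transcendence on a Gauss-valued field.

`helper1733.ResTranscendental v L x` ("`v x = 1` and the residue of `x` is transcendental over the
residue field of `L`") is the hypothesis under which the valued-field kits (`helper1733_ValuedKit`,
`helper8020_Ortho`, `helper1801_OrthoTower`) work on the line `L(x)`.  The Gauss data on the
modular function field are produced for `x = j`; on a Hauptmodul line `x = t_r` one needs the same
statement for `t_r`.  This file proves it once and for all:

* `resTranscendental_of_red` : abstract form.  `O` a valuation subring of `F ⊇ L` restricting to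
  `A` on `L`, `red : O →+* R` a ring hom detecting units, compatible with a hom `π : A →+* k` on
  constants.  If `red x` is transcendental over `k`, then `ResTranscendental O.valuation L x`.
* `resTranscendental_gaussValuationSubring` : the instance for `helper508.gaussValuationSubring`
  (the surface of `helper1733_GaussOrtho`), at an integral series `coeffMap A.subtype y` whose
  coefficientwise reduction is transcendental over the residue field of `A`.
  (The instance for the `helper8991_GaussInst` surface is `helper380.resTranscendental_gaussSubring`.)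

So for `x = t_r` the only input is "the reduced series `t̄_r ∈ k((q))` is transcendental over `k`"
(BASELINE / HLINE (H3) with `K = k`).
-/
import Fermat.Agent.S18.helper1733_GaussOrtho
import Fermat.Agent.S18.helper380_TLineOrtho

set_option autoImplicit false

noncomputable section

namespace Fermat.Agent.S18.helper4665

open Polynomial ModularCurve
open Fermat.Agent.S18

section Abstract

variable {L F : Type*} [Field L] [Field F] [Algebra L F]

/-- **Residual transcendence from a reduction map.**  `O` is a valuation subring of `F` whose
trace on the constants `L` is `A`; `red : O →+* R` sends non-units to `0`-detecting values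
(`red f ≠ 0 → IsUnit f`) and is given by `π : A →+* k` on constants.  If `red x` is
transcendental over `k`, then `x` is residually transcendental over `L`. -/
theorem resTranscendental_of_red (A : ValuationSubring L) (O : ValuationSubring F)
    (hOA : ∀ c : L, algebraMap L F c ∈ O ↔ c ∈ A)
    {k R : Type*} [Field k] [CommRing R] [Nontrivial R] [Algebra k R]
    (π : A →+* k) (red : O →+* R)
    (hunit : ∀ f : O, red f ≠ 0 → IsUnit f)
    (hcompat : ∀ (c : L) (hc : c ∈ A),
      red ⟨algebraMap L F c, (hOA c).mpr hc⟩ = algebraMap k R (π ⟨c, hc⟩))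
    (x : O) (hx : Transcendental k (red x)) :
    helper1733.ResTranscendental O.valuation L (x : F) := by
  classical
  intro p hp1 hp2
  obtain ⟨i₀, hi₀⟩ := hp2
  have hA : ∀ i, p.coeff i ∈ A := fun i =>
    (hOA _).mp ((O.valuation_le_one_iff _).mp (hp1 i))
  -- the coefficients, as elements of `O`
  let c : ℕ → O := fun i => ⟨algebraMap L F (p.coeff i), (hOA _).mpr (hA i)⟩
  let z : O := ∑ i ∈ Finset.range (p.natDegree + 1), c i * x ^ i
  have hzcoe : (z : F) = aeval (x : F) p := by
    rw [aeval_eq_sum_range]
    show ((∑ i ∈ Finset.range (p.natDegree + 1), c i * x ^ i : O) : F) = _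
    rw [AddSubmonoidClass.coe_finsetSum]
    refine Finset.sum_congr rfl fun i _ => ?_
    rw [Algebra.smul_def]
    rfl
  -- the reduced polynomial
  let q : k[X] := ∑ i ∈ Finset.range (p.natDegree + 1), monomial i (π ⟨p.coeff i, hA i⟩)
  have hredz : red z = aeval (red x) q := by
    show red (∑ i ∈ Finset.range (p.natDegree + 1), c i * x ^ i) =
      aeval (red x) (∑ i ∈ Finset.range (p.natDegree + 1), monomial i (π ⟨p.coeff i, hA i⟩))
    rw [map_sum, map_sum]
    refine Finset.sum_congr rfl fun i _ => ?_
    rw [map_mul, map_pow, aeval_monomial]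
    exact congrArg (· * red x ^ i) (hcompat (p.coeff i) (hA i))
  -- the coefficient of index `i₀` survives
  have hi₀A : π ⟨p.coeff i₀, hA i₀⟩ ≠ 0 := by
    have hu : IsUnit (c i₀) := (O.valuation_eq_one_iff (c i₀)).mpr hi₀
    have hne : red (c i₀) ≠ 0 := (hu.map red).ne_zero
    intro h0
    apply hne
    have := hcompat (p.coeff i₀) (hA i₀)
    rw [h0, map_zero] at this
    exact this
  have hi₀p : p.coeff i₀ ≠ 0 := by
    intro h0
    apply hi₀A
    have : (⟨p.coeff i₀, hA i₀⟩ : A) = 0 := Subtype.ext h0
    rw [this, map_zero]
  have hi₀le : i₀ ≤ p.natDegree := le_natDegree_of_ne_zero hi₀p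
  have hq0 : q ≠ 0 := by
    intro h0
    have hcoeff : q.coeff i₀ = π ⟨p.coeff i₀, hA i₀⟩ := by
      show (∑ i ∈ Finset.range (p.natDegree + 1),
        monomial i (π ⟨p.coeff i, hA i⟩)).coeff i₀ = _
      rw [finsetSum_coeff]
      simp only [coeff_monomial]
      rw [Finset.sum_ite_eq' (Finset.range (p.natDegree + 1)) i₀
        (fun i => π ⟨p.coeff i, hA i⟩), if_pos (Finset.mem_range.mpr (Nat.lt_succ_of_le hi₀le))]
    rw [h0, coeff_zero] at hcoeff
    exact hi₀A hcoeff.symm
  have hzu : IsUnit z := hunit z (by
    rw [hredz]
    exact fun h => hq0 (transcendental_iff.mp hx q h))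
  rw [← hzcoe]
  exact (O.valuation_eq_one_iff z).mp hzu

end Abstract

section GaussMod

variable (N : ℕ) [NeZero N] (ℓ : ℕ) [Fact ℓ.Prime] (hℓN : ¬ ℓ ∣ N)
variable {L : Type*} [Field L] [Algebra ℚ L] (A : ValuationSubring L)
  (hA : (ℓ : L) ∈ A.nonunits)

/-- (RT) for `helper508.gaussValuationSubring`: an integral series lying in
`F = laurentBaseChange L (modularFunctionFieldFull N)` whose coefficientwise reduction is
transcendental over the residue field `k` of `A` is residually transcendental over `L`. -/
theorem resTranscendental_gaussValuationSubring (y : LaurentSeries A)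
    (hy : coeffMap A.subtype y ∈ laurentBaseChange L (modularFunctionFieldFull N))
    (htr : Transcendental (IsLocalRing.ResidueField A) (coeffMap (IsLocalRing.residue A) y)) :
    helper1733.ResTranscendental (helper508.gaussValuationSubring N ℓ hℓN A hA).valuation L
      (⟨coeffMap A.subtype y, hy⟩ : ↥(laurentBaseChange L (modularFunctionFieldFull N))) := by
  have key := resTranscendental_of_red A (helper508.gaussValuationSubring N ℓ hℓN A hA)
    (helper508.algebraMap_mem_gaussValuationSubring_iff N ℓ hℓN A hA)
    (IsLocalRing.residue A) (helper508.gaussResidue N ℓ hℓN A hA)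
    (fun f hf => by
      by_contra hnu
      exact hf ((helper508.gaussResidue_eq_zero_iff N ℓ hℓN A hA f).mpr hnu))
    (fun c hc => helper1733.gaussResidue_algebraMap N ℓ hℓN A hA c _)
    ⟨⟨coeffMap A.subtype y, hy⟩,
      helper508.coeffMap_mem_gaussValuationSubring N ℓ hℓN A hA y hy⟩
    (by
      intro halg
      apply htr
      have h2 := helper508.gaussResidue_coeffMap N ℓ hℓN A hA y hy
      rw [← h2]
      exact halg.algebraMap)
  exact key

/-! ### The Gauss data on a line `t` with `j ∈ L(t)` (consumer-ready composites) -/

open IntermediateField in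
/-- **Gauss orthonormal system on the line `t`.**  `t = coeffMap A.subtype y` an `A`-integral
series of `F = laurentBaseChange L (modularFunctionFieldFull N)` with reduction transcendental
over the residue field, and `j ∈ L(t)`.  Then `F` has an orthonormal basis over `L(t)` for the
Gauss valuation, indexed by `Fin (finrank L(t) F)`, which is an `OrthoSys` on the line `t`. -/
theorem gauss_orthoSys_line (y : LaurentSeries A)
    (hy : coeffMap A.subtype y ∈ laurentBaseChange L (modularFunctionFieldFull N))
    (htr : Transcendental (IsLocalRing.ResidueField A) (coeffMap (IsLocalRing.residue A) y))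
    (hj : helper1733.gaussJ L N ∈
      L⟮(⟨coeffMap A.subtype y, hy⟩ : ↥(laurentBaseChange L (modularFunctionFieldFull N)))⟯) :
    ∃ e : Fin (Module.finrank
          L⟮(⟨coeffMap A.subtype y, hy⟩ : ↥(laurentBaseChange L (modularFunctionFieldFull N)))⟯
          ↥(laurentBaseChange L (modularFunctionFieldFull N))) →
        ↥(laurentBaseChange L (modularFunctionFieldFull N)),
      helper8020.OrthoSys L (helper508.gaussValuationSubring N ℓ hℓN A hA).valuation
        (⟨coeffMap A.subtype y, hy⟩ : ↥(laurentBaseChange L (modularFunctionFieldFull N))) e ∧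
      helper1733.IsOrtho (helper508.gaussValuationSubring N ℓ hℓN A hA).valuation
        L⟮(⟨coeffMap A.subtype y, hy⟩ : ↥(laurentBaseChange L (modularFunctionFieldFull N)))⟯ e ∧
      Submodule.span
        L⟮(⟨coeffMap A.subtype y, hy⟩ : ↥(laurentBaseChange L (modularFunctionFieldFull N)))⟯
        (Set.range e) = ⊤ := by
  have : Nonempty (Fin (dedekindPsi N)) := by
    by_contra hne
    rw [not_nonempty_iff] at hne
    have h := helper1733.gauss_span_eq_top N ℓ hℓN A hA
    rw [Set.range_eq_empty, Submodule.span_empty] at h
    exact bot_ne_top h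
  have hrank : Module.finrank L⟮helper1733.gaussJ L N⟯
      ↥(laurentBaseChange L (modularFunctionFieldFull N)) =
      Fintype.card (Fin (dedekindPsi N)) := by
    rw [Fintype.card_fin]
    exact helper1733.gauss_finrank N ℓ hℓN A hA
  exact helper380.orthoSys_tower (helper1733.gauss_orthoSys N ℓ hℓN A hA) hrank hj
    (resTranscendental_gaussValuationSubring N ℓ hℓN A hA y hy htr)

/-- **Integrality transfer on both charts `t`, `t⁻¹` of the line `t`**, in the shape
`helper6292.IntegralityTransfer`, for the concrete Gauss field: an element of the Gauss valuation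
ring integral over `L[t]` (resp. `L[t⁻¹]`) has residue integral over `k[t̄]` (resp. `k[t̄⁻¹]`),
where `t̄` is the residue of `t` (its coefficientwise reduction, by
`helper508.gaussResidue_coeffMap`). -/
theorem gauss_integralityTransfer_line (y : LaurentSeries A)
    (hy : coeffMap A.subtype y ∈ laurentBaseChange L (modularFunctionFieldFull N))
    (htr : Transcendental (IsLocalRing.ResidueField A) (coeffMap (IsLocalRing.residue A) y))
    (hj : helper1733.gaussJ L N ∈ IntermediateField.adjoin L
      {(⟨coeffMap A.subtype y, hy⟩ : ↥(laurentBaseChange L (modularFunctionFieldFull N)))}) :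
    helper6292.IntegralityTransfer L (IsLocalRing.ResidueField A)
        (helper508.gaussValuationSubring N ℓ hℓN A hA) (helper508.gaussResidue N ℓ hℓN A hA)
        (⟨coeffMap A.subtype y, hy⟩ : ↥(laurentBaseChange L (modularFunctionFieldFull N)))
        (helper508.gaussResidue N ℓ hℓN A hA ⟨⟨coeffMap A.subtype y, hy⟩,
          helper508.coeffMap_mem_gaussValuationSubring N ℓ hℓN A hA y hy⟩) ∧
      helper6292.IntegralityTransfer L (IsLocalRing.ResidueField A)
        (helper508.gaussValuationSubring N ℓ hℓN A hA) (helper508.gaussResidue N ℓ hℓN A hA)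
        (⟨coeffMap A.subtype y, hy⟩ : ↥(laurentBaseChange L (modularFunctionFieldFull N)))⁻¹
        (helper508.gaussResidue N ℓ hℓN A hA ⟨⟨coeffMap A.subtype y, hy⟩,
          helper508.coeffMap_mem_gaussValuationSubring N ℓ hℓN A hA y hy⟩)⁻¹ := by
  obtain ⟨e, -, he, hspan⟩ := gauss_orthoSys_line N ℓ hℓN A hA y hy htr hj
  have hres := resTranscendental_gaussValuationSubring N ℓ hℓN A hA y hy htr
  exact ⟨helper1733.integralityTransfer_of_isOrtho _ _ (helper1733.gauss_compat N ℓ hℓN A hA)
      (helper508.coeffMap_mem_gaussValuationSubring N ℓ hℓN A hA y hy) hres he hspan,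
    helper1733.integralityTransfer_inv_of_isOrtho _ _ (helper1733.gauss_compat N ℓ hℓN A hA)
      (helper508.coeffMap_mem_gaussValuationSubring N ℓ hℓN A hA y hy) hres he hspan⟩

end GaussMod

end Fermat.Agent.S18.helper4665

end
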