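/-
S18-TLINE-INST (helper4665): the UNCONDITIONAL Gauss package on the Hauptmodul lines `t_2`, `t_3`
for the Gauss valuation of `helper508_GaussMod` (the surface of `helper1733_GaussOrtho`).

* General part (any `t ∈ F = laurentBaseChange L (modularFunctionFieldFull N)`):
  `gauss_orthoSys_of_resTranscendental`, `gauss_integralityTransfer_of_resTranscendental` :
  if `t` is residually transcendental and `j ∈ L(t)`, then `F` has an orthonormal basis over
  `L(t)` (an `OrthoSys` on the line `t`) and integrality transfers to the special fibre on both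
  charts `t`, `t⁻¹`.
* Integer series: `zSeries h R` is an integer `q`-series `h` read over `R`; `gaussZ N h hmem` is
  the element of `F` it defines; `gaussZ_mem`, `gaussResidue_gaussZ` (its residue is the same
  integer series read over the residue field), `gauss_resTranscendental_Z`.
* The Hauptmodul lines: `gaussT2 L N h2N`, `gaussT3 L N h3N : F` (from `helper1257.t2Z`, `t3Z`),
  with `gauss_resTranscendental_t2/_t3`, `gauss_orthoSys_t2/_t3`,
  `gauss_integralityTransfer_t2/_t3`, the relations with `j` and the degrees on both fibres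
  `3 * [F : L(t_2)] = ψ(N) = 3 * [F_k : k(t̄_2)]`, `4 * [F : L(t_3)] = ψ(N) = 4 * [F_k : k(t̄_3)]`.
  Hypotheses: only `r ∣ N`, `¬ ℓ ∣ N`, `(ℓ : L) ∈ A.nonunits`.

`L : Type` (universe `0`) in the Hauptmodul part, as in HLINE / the S28 degree theorem.
-/
import Fermat.Agent.S18.helper4665_ResTransc
import Fermat.Agent.S18.helper1257_HauptFormal
import Fermat.Agent.S18.helper6381_HLine

set_option autoImplicit false

noncomputable section

namespace Fermat.Agent.S18.helper4665

open Polynomial ModularCurve IntermediateField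
open Fermat.Agent.S18

/-! ### Integer series over an arbitrary ring -/

/-- An integer `q`-series read over a commutative ring `R`. -/
def zSeries (h : LaurentSeries ℤ) (R : Type*) [CommRing R] : LaurentSeries R :=
  coeffMap (Int.castRingHom R) h

theorem coeffMap_zSeries {R S : Type*} [CommRing R] [CommRing S] (f : R →+* S)
    (h : LaurentSeries ℤ) : coeffMap f (zSeries h R) = zSeries h S := by
  rw [zSeries, zSeries, coeffMap_coeffMap]
  exact coeffMap_congr (RingHom.ext_int _ _) h

section General

variable (N : ℕ) [NeZero N] (ℓ : ℕ) [Fact ℓ.Prime] (hℓN : ¬ ℓ ∣ N)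
variable {L : Type*} [Field L] [Algebra ℚ L] (A : ValuationSubring L)
  (hA : (ℓ : L) ∈ A.nonunits)

/-- **Gauss orthonormal system on a line `t`**: `t` residually transcendental for the Gauss
valuation and `j ∈ L(t)`.  Then `F` has an orthonormal basis over `L(t)`, indexed by
`Fin (finrank L(t) F)`, which is an `OrthoSys` on the line `t`. -/
theorem gauss_orthoSys_of_resTranscendental
    {t : ↥(laurentBaseChange L (modularFunctionFieldFull N))}
    (ht : helper1733.ResTranscendental
      (helper508.gaussValuationSubring N ℓ hℓN A hA).valuation L t)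
    (hj : helper1733.gaussJ L N ∈ L⟮t⟯) :
    ∃ e : Fin (Module.finrank L⟮t⟯ ↥(laurentBaseChange L (modularFunctionFieldFull N))) →
        ↥(laurentBaseChange L (modularFunctionFieldFull N)),
      helper8020.OrthoSys L (helper508.gaussValuationSubring N ℓ hℓN A hA).valuation t e ∧
      helper1733.IsOrtho (helper508.gaussValuationSubring N ℓ hℓN A hA).valuation L⟮t⟯ e ∧
      Submodule.span L⟮t⟯ (Set.range e) = ⊤ := by
  have : Nonempty (Fin (dedekindPsi N)) := by
    by_contra hne
    rw [not_nonempty_iff] at hne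
    have h := helper1733.gauss_span_eq_top N ℓ hℓN A hA
    rw [Set.range_eq_empty, Submodule.span_empty] at h
    exact bot_ne_top h
  have hrank : Module.finrank L⟮helper1733.gaussJ L N⟯
      ↥(laurentBaseChange L (modularFunctionFieldFull N)) =
      Fintype.card (Fin (dedekindPsi N)) := by
    rw [Fintype.card_fin]
    exact helper1733.gauss_finrank N ℓ hℓN A hA
  exact helper380.orthoSys_tower (helper1733.gauss_orthoSys N ℓ hℓN A hA) hrank hj ht

/-- **Integrality transfer on both charts `t`, `t⁻¹` of a line `t`** (shape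
`helper6292.IntegralityTransfer`), for `t` residually transcendental with `j ∈ L(t)`. -/
theorem gauss_integralityTransfer_of_resTranscendental
    {t : ↥(laurentBaseChange L (modularFunctionFieldFull N))}
    (htO : t ∈ helper508.gaussValuationSubring N ℓ hℓN A hA)
    (ht : helper1733.ResTranscendental
      (helper508.gaussValuationSubring N ℓ hℓN A hA).valuation L t)
    (hj : helper1733.gaussJ L N ∈ L⟮t⟯) :
    helper6292.IntegralityTransfer L (IsLocalRing.ResidueField A)
        (helper508.gaussValuationSubring N ℓ hℓN A hA) (helper508.gaussResidue N ℓ hℓN A hA)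
        t (helper508.gaussResidue N ℓ hℓN A hA ⟨t, htO⟩) ∧
      helper6292.IntegralityTransfer L (IsLocalRing.ResidueField A)
        (helper508.gaussValuationSubring N ℓ hℓN A hA) (helper508.gaussResidue N ℓ hℓN A hA)
        t⁻¹ (helper508.gaussResidue N ℓ hℓN A hA ⟨t, htO⟩)⁻¹ := by
  obtain ⟨e, -, he, hspan⟩ := gauss_orthoSys_of_resTranscendental N ℓ hℓN A hA ht hj
  exact ⟨helper1733.integralityTransfer_of_isOrtho _ _ (helper1733.gauss_compat N ℓ hℓN A hA)
      htO ht he hspan,
    helper1733.integralityTransfer_inv_of_isOrtho _ _ (helper1733.gauss_compat N ℓ hℓN A hA)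
      htO ht he hspan⟩

/-! ### Elements of `F` given by integer series -/

variable (h : LaurentSeries ℤ)
  (hmem : zSeries h L ∈ laurentBaseChange L (modularFunctionFieldFull N))

/-- The element of `F = laurentBaseChange L (modularFunctionFieldFull N)` defined by an integer
`q`-series. -/
def gaussZ : ↥(laurentBaseChange L (modularFunctionFieldFull N)) := ⟨zSeries h L, hmem⟩

omit [NeZero N] in
@[simp] theorem coe_gaussZ : ((gaussZ N h hmem :
    ↥(laurentBaseChange L (modularFunctionFieldFull N))) : LaurentSeries L) = zSeries h L := rfl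

omit [NeZero N] in
include hmem in
theorem coeffMap_subtype_zSeries_mem :
    coeffMap A.subtype (zSeries h A) ∈ laurentBaseChange L (modularFunctionFieldFull N) := by
  rw [coeffMap_zSeries]
  exact hmem

omit [NeZero N] in
theorem mk_coeffMap_subtype_zSeries :
    (⟨coeffMap A.subtype (zSeries h A), coeffMap_subtype_zSeries_mem N A h hmem⟩ :
      ↥(laurentBaseChange L (modularFunctionFieldFull N))) = gaussZ N h hmem :=
  Subtype.ext (coeffMap_zSeries _ _)

/-- An integer series of `F` lies in the Gauss valuation ring. -/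
theorem gaussZ_mem : gaussZ N h hmem ∈ helper508.gaussValuationSubring N ℓ hℓN A hA := by
  have h1 := helper508.coeffMap_mem_gaussValuationSubring N ℓ hℓN A hA (zSeries h A)
    (coeffMap_subtype_zSeries_mem N A h hmem)
  rw [mk_coeffMap_subtype_zSeries] at h1
  exact h1

/-- The residue of an integer series is the same integer series over the residue field. -/
theorem gaussResidue_gaussZ :
    ((helper508.gaussResidue N ℓ hℓN A hA
        ⟨gaussZ N h hmem, gaussZ_mem N ℓ hℓN A hA h hmem⟩ :
      ↥(modularFunctionFieldFullC (IsLocalRing.ResidueField A) N)) :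
        LaurentSeries (IsLocalRing.ResidueField A)) = zSeries h (IsLocalRing.ResidueField A) := by
  have h1 := helper508.gaussResidue_coeffMap N ℓ hℓN A hA (zSeries h A)
    (coeffMap_subtype_zSeries_mem N A h hmem)
  have heq : (⟨⟨coeffMap A.subtype (zSeries h A), coeffMap_subtype_zSeries_mem N A h hmem⟩,
      helper508.coeffMap_mem_gaussValuationSubring N ℓ hℓN A hA _
        (coeffMap_subtype_zSeries_mem N A h hmem)⟩ :
      ↥(helper508.gaussValuationSubring N ℓ hℓN A hA)) =
      ⟨gaussZ N h hmem, gaussZ_mem N ℓ hℓN A hA h hmem⟩ :=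
    Subtype.ext (mk_coeffMap_subtype_zSeries N A h hmem)
  rw [← heq, h1]
  exact coeffMap_zSeries _ _

/-- An integer series whose reduction is transcendental over the residue field is residually
transcendental for the Gauss valuation. -/
theorem gauss_resTranscendental_Z
    (htr : Transcendental (IsLocalRing.ResidueField A) (zSeries h (IsLocalRing.ResidueField A))) :
    helper1733.ResTranscendental (helper508.gaussValuationSubring N ℓ hℓN A hA).valuation L
      (gaussZ N h hmem) := by
  have h1 := resTranscendental_gaussValuationSubring N ℓ hℓN A hA (zSeries h A)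
    (coeffMap_subtype_zSeries_mem N A h hmem) (by rw [coeffMap_zSeries]; exact htr)
  rw [mk_coeffMap_subtype_zSeries] at h1
  exact h1

end General

/-! ### The Hauptmodul lines `t_2`, `t_3` -/

section Haupt

variable (N : ℕ) [NeZero N] (ℓ : ℕ) [Fact ℓ.Prime] (hℓN : ¬ ℓ ∣ N)
variable {L : Type} [Field L] [Algebra ℚ L] (A : ValuationSubring L)
  (hA : (ℓ : L) ∈ A.nonunits)

/-- The level-2 identities for `t_2` over any field. -/
theorem zSeries_t2_identities (K : Type) [Field K] :
    jqModC K * zSeries helper1257.t2Z K ^ 2 = (zSeries helper1257.t2Z K + 256) ^ 3 ∧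
      qExpand K 2 (jqModC K) * zSeries helper1257.t2Z K
        = (zSeries helper1257.t2Z K + 16) ^ 3 :=
  helper6381.identities2_map K (Int.castRingHom K) helper1257.t2Z helper1257.jq_mul_t2Z_sq
    helper1257.qExpand_jq_mul_t2Z

/-- The level-3 identities for `t_3` over any field. -/
theorem zSeries_t3_identities (K : Type) [Field K] :
    jqModC K * zSeries helper1257.t3Z K ^ 3
        = (zSeries helper1257.t3Z K + 27) * (zSeries helper1257.t3Z K + 243) ^ 3 ∧
      qExpand K 3 (jqModC K) * zSeries helper1257.t3Z K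
        = (zSeries helper1257.t3Z K + 27) * (zSeries helper1257.t3Z K + 3) ^ 3 :=
  helper6381.identities3_map K (Int.castRingHom K) helper1257.t3Z helper1257.jq_mul_t3Z_cube
    helper1257.qExpand_jq_mul_t3Z

omit [NeZero N] [Fact ℓ.Prime] in
/-- Primes are nonzero in `L` (characteristic zero). -/
theorem natCast_ne_zero_of_algebraRat (p : ℕ) (hp : p.Prime) : (p : L) ≠ 0 := by
  have : CharZero L := algebraRat.charZero L
  exact Nat.cast_ne_zero.mpr hp.ne_zero

omit [NeZero N] [Algebra ℚ L] in
include hℓN hA in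
/-- Primes dividing `N` are nonzero in the residue field (`ℓ ∤ N`). -/
theorem residue_natCast_ne_zero (p : ℕ) (hp : p.Prime) (hpN : p ∣ N) :
    (p : IsLocalRing.ResidueField A) ≠ 0 := by
  have := helper508.charP_residueField ℓ A hA
  intro h0
  rw [CharP.cast_eq_zero_iff (IsLocalRing.ResidueField A) ℓ] at h0
  have hℓp : ℓ = p := (Nat.prime_dvd_prime_iff_eq (Fact.out : ℓ.Prime) hp).mp h0
  exact hℓN (hℓp ▸ hpN)

/-! #### Level 2 -/

theorem zSeries_t2_mem (h2N : 2 ∣ N) :
    zSeries helper1257.t2Z L ∈ laurentBaseChange L (modularFunctionFieldFull N) := by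
  rw [helper6381.laurentBaseChange_full_eq L N]
  obtain ⟨hJ, hJ2⟩ := zSeries_t2_identities L
  exact (helper6381.hline2_level L _ hJ hJ2 N h2N
    (fun p hp _ => natCast_ne_zero_of_algebraRat p hp)).1

/-- `t_2` as an element of `F = laurentBaseChange L (modularFunctionFieldFull N)` (`2 ∣ N`). -/
def gaussT2 (L : Type) [Field L] [Algebra ℚ L] (N : ℕ) [NeZero N] (h2N : 2 ∣ N) :
    ↥(laurentBaseChange L (modularFunctionFieldFull N)) :=
  gaussZ N helper1257.t2Z (zSeries_t2_mem N h2N)

@[simp] theorem coe_gaussT2 (h2N : 2 ∣ N) :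
    ((gaussT2 L N h2N : ↥(laurentBaseChange L (modularFunctionFieldFull N))) :
      LaurentSeries L) = zSeries helper1257.t2Z L := rfl

/-- The relation between `j` and `t_2` in `F`. -/
theorem gaussJ_mul_gaussT2_sq (h2N : 2 ∣ N) :
    helper1733.gaussJ L N * gaussT2 L N h2N ^ 2 = (gaussT2 L N h2N + 256) ^ 3 := by
  apply (laurentBaseChange L (modularFunctionFieldFull N)).val.injective
  rw [map_mul, map_pow, map_pow, map_add, map_ofNat]
  exact (zSeries_t2_identities L).1

/-- Generic fibre: `t_2` is transcendental and `3 * [F : L(t_2)] = ψ(N)`. -/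
theorem gaussT2_degree (h2N : 2 ∣ N) :
    Transcendental L (gaussT2 L N h2N) ∧
      FiniteDimensional L⟮gaussT2 L N h2N⟯ ↥(laurentBaseChange L (modularFunctionFieldFull N)) ∧
      3 * Module.finrank L⟮gaussT2 L N h2N⟯
        ↥(laurentBaseChange L (modularFunctionFieldFull N)) = dedekindPsi N := by
  obtain ⟨hJ, hJ2⟩ := zSeries_t2_identities L
  obtain ⟨-, htr, hdeg⟩ := helper6381.hline2_level L _ hJ hJ2 N h2N
    (fun p hp _ => natCast_ne_zero_of_algebraRat p hp)
  rw [← helper6381.laurentBaseChange_full_eq L N] at hdeg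
  exact helper6381.subtype_of_relfinrank (laurentBaseChange L (modularFunctionFieldFull N))
    (gaussT2 L N h2N) 3 _ (Fermat.Agent.S28.helper1595.dedekindPsi_pos (NeZero.pos N)) htr hdeg

theorem gaussJ_mem_adjoin_gaussT2 (h2N : 2 ∣ N) :
    helper1733.gaussJ L N ∈ L⟮gaussT2 L N h2N⟯ := by
  have hx : gaussT2 L N h2N ≠ 0 := by
    intro h0
    apply (gaussT2_degree (L := L) N h2N).1
    rw [h0]
    exact isAlgebraic_zero
  refine helper6381.mem_adjoin_of_mul_pow_eq (helper1733.gaussJ L N) (gaussT2 L N h2N) 2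
    ((X + 256 : L[X]) ^ 3) hx ?_
  rw [gaussJ_mul_gaussT2_sq N h2N, map_pow, map_add, aeval_X, map_ofNat]

theorem gaussT2_mem (h2N : 2 ∣ N) :
    gaussT2 L N h2N ∈ helper508.gaussValuationSubring N ℓ hℓN A hA :=
  gaussZ_mem N ℓ hℓN A hA _ _

/-- The residue of `t_2` is the integer series `t_2` read over the residue field. -/
theorem gaussResidue_gaussT2 (h2N : 2 ∣ N) :
    ((helper508.gaussResidue N ℓ hℓN A hA
        ⟨gaussT2 L N h2N, gaussT2_mem N ℓ hℓN A hA h2N⟩ :
      ↥(modularFunctionFieldFullC (IsLocalRing.ResidueField A) N)) :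
        LaurentSeries (IsLocalRing.ResidueField A))
      = zSeries helper1257.t2Z (IsLocalRing.ResidueField A) :=
  gaussResidue_gaussZ N ℓ hℓN A hA _ _

/-- Special fibre: `t̄_2` is transcendental and `3 * [F_k : k(t̄_2)] = ψ(N)`. -/
theorem gaussResidue_gaussT2_degree (h2N : 2 ∣ N) :
    Transcendental (IsLocalRing.ResidueField A)
        (helper508.gaussResidue N ℓ hℓN A hA ⟨gaussT2 L N h2N, gaussT2_mem N ℓ hℓN A hA h2N⟩) ∧
      FiniteDimensional
        (IsLocalRing.ResidueField A)⟮helper508.gaussResidue N ℓ hℓN A hA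
          ⟨gaussT2 L N h2N, gaussT2_mem N ℓ hℓN A hA h2N⟩⟯
        ↥(modularFunctionFieldFullC (IsLocalRing.ResidueField A) N) ∧
      3 * Module.finrank
        (IsLocalRing.ResidueField A)⟮helper508.gaussResidue N ℓ hℓN A hA
          ⟨gaussT2 L N h2N, gaussT2_mem N ℓ hℓN A hA h2N⟩⟯
        ↥(modularFunctionFieldFullC (IsLocalRing.ResidueField A) N) = dedekindPsi N := by
  obtain ⟨hJ, hJ2⟩ := zSeries_t2_identities (IsLocalRing.ResidueField A)
  refine helper6381.hline2_subtype (IsLocalRing.ResidueField A) N h2N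
    (residue_natCast_ne_zero N ℓ hℓN A hA) _ ?_ ?_
  · rw [gaussResidue_gaussT2]; exact hJ
  · rw [gaussResidue_gaussT2]; exact hJ2

/-- **`t_2` is residually transcendental for the Gauss valuation.** -/
theorem gauss_resTranscendental_t2 (h2N : 2 ∣ N) :
    helper1733.ResTranscendental (helper508.gaussValuationSubring N ℓ hℓN A hA).valuation L
      (gaussT2 L N h2N) := by
  obtain ⟨hJ, hJ2⟩ := zSeries_t2_identities (IsLocalRing.ResidueField A)
  exact gauss_resTranscendental_Z N ℓ hℓN A hA _ _
    (helper6381.hline2_level (IsLocalRing.ResidueField A) _ hJ hJ2 N h2N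
      (residue_natCast_ne_zero N ℓ hℓN A hA)).2.1

/-- **Gauss orthonormal system on the `t_2`-line.** -/
theorem gauss_orthoSys_t2 (h2N : 2 ∣ N) :
    ∃ e : Fin (Module.finrank L⟮gaussT2 L N h2N⟯
          ↥(laurentBaseChange L (modularFunctionFieldFull N))) →
        ↥(laurentBaseChange L (modularFunctionFieldFull N)),
      helper8020.OrthoSys L (helper508.gaussValuationSubring N ℓ hℓN A hA).valuation
        (gaussT2 L N h2N) e ∧
      helper1733.IsOrtho (helper508.gaussValuationSubring N ℓ hℓN A hA).valuation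
        L⟮gaussT2 L N h2N⟯ e ∧
      Submodule.span L⟮gaussT2 L N h2N⟯ (Set.range e) = ⊤ :=
  gauss_orthoSys_of_resTranscendental N ℓ hℓN A hA (gauss_resTranscendental_t2 N ℓ hℓN A hA h2N)
    (gaussJ_mem_adjoin_gaussT2 N h2N)

/-- **Integrality transfer on the charts `t_2`, `t_2⁻¹`.** -/
theorem gauss_integralityTransfer_t2 (h2N : 2 ∣ N) :
    helper6292.IntegralityTransfer L (IsLocalRing.ResidueField A)
        (helper508.gaussValuationSubring N ℓ hℓN A hA) (helper508.gaussResidue N ℓ hℓN A hA)
        (gaussT2 L N h2N)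
        (helper508.gaussResidue N ℓ hℓN A hA
          ⟨gaussT2 L N h2N, gaussT2_mem N ℓ hℓN A hA h2N⟩) ∧
      helper6292.IntegralityTransfer L (IsLocalRing.ResidueField A)
        (helper508.gaussValuationSubring N ℓ hℓN A hA) (helper508.gaussResidue N ℓ hℓN A hA)
        (gaussT2 L N h2N)⁻¹
        (helper508.gaussResidue N ℓ hℓN A hA
          ⟨gaussT2 L N h2N, gaussT2_mem N ℓ hℓN A hA h2N⟩)⁻¹ :=
  gauss_integralityTransfer_of_resTranscendental N ℓ hℓN A hA _
    (gauss_resTranscendental_t2 N ℓ hℓN A hA h2N) (gaussJ_mem_adjoin_gaussT2 N h2N)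

/-! #### Level 3 -/

theorem zSeries_t3_mem (h3N : 3 ∣ N) :
    zSeries helper1257.t3Z L ∈ laurentBaseChange L (modularFunctionFieldFull N) := by
  rw [helper6381.laurentBaseChange_full_eq L N]
  obtain ⟨hJ, hJ3⟩ := zSeries_t3_identities L
  exact (helper6381.hline3_level L _ hJ hJ3 N h3N
    (fun p hp _ => natCast_ne_zero_of_algebraRat p hp)).1

/-- `t_3` as an element of `F = laurentBaseChange L (modularFunctionFieldFull N)` (`3 ∣ N`). -/
def gaussT3 (L : Type) [Field L] [Algebra ℚ L] (N : ℕ) [NeZero N] (h3N : 3 ∣ N) :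
    ↥(laurentBaseChange L (modularFunctionFieldFull N)) :=
  gaussZ N helper1257.t3Z (zSeries_t3_mem N h3N)

@[simp] theorem coe_gaussT3 (h3N : 3 ∣ N) :
    ((gaussT3 L N h3N : ↥(laurentBaseChange L (modularFunctionFieldFull N))) :
      LaurentSeries L) = zSeries helper1257.t3Z L := rfl

/-- The relation between `j` and `t_3` in `F`. -/
theorem gaussJ_mul_gaussT3_cube (h3N : 3 ∣ N) :
    helper1733.gaussJ L N * gaussT3 L N h3N ^ 3
      = (gaussT3 L N h3N + 27) * (gaussT3 L N h3N + 243) ^ 3 := by
  apply (laurentBaseChange L (modularFunctionFieldFull N)).val.injective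
  rw [map_mul, map_pow, map_mul, map_pow, map_add, map_add, map_ofNat, map_ofNat]
  exact (zSeries_t3_identities L).1

/-- Generic fibre: `t_3` is transcendental and `4 * [F : L(t_3)] = ψ(N)`. -/
theorem gaussT3_degree (h3N : 3 ∣ N) :
    Transcendental L (gaussT3 L N h3N) ∧
      FiniteDimensional L⟮gaussT3 L N h3N⟯ ↥(laurentBaseChange L (modularFunctionFieldFull N)) ∧
      4 * Module.finrank L⟮gaussT3 L N h3N⟯
        ↥(laurentBaseChange L (modularFunctionFieldFull N)) = dedekindPsi N := by
  obtain ⟨hJ, hJ3⟩ := zSeries_t3_identities L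
  obtain ⟨-, htr, hdeg⟩ := helper6381.hline3_level L _ hJ hJ3 N h3N
    (fun p hp _ => natCast_ne_zero_of_algebraRat p hp)
  rw [← helper6381.laurentBaseChange_full_eq L N] at hdeg
  exact helper6381.subtype_of_relfinrank (laurentBaseChange L (modularFunctionFieldFull N))
    (gaussT3 L N h3N) 4 _ (Fermat.Agent.S28.helper1595.dedekindPsi_pos (NeZero.pos N)) htr hdeg

theorem gaussJ_mem_adjoin_gaussT3 (h3N : 3 ∣ N) :
    helper1733.gaussJ L N ∈ L⟮gaussT3 L N h3N⟯ := by
  have hx : gaussT3 L N h3N ≠ 0 := by
    intro h0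
    apply (gaussT3_degree (L := L) N h3N).1
    rw [h0]
    exact isAlgebraic_zero
  refine helper6381.mem_adjoin_of_mul_pow_eq (helper1733.gaussJ L N) (gaussT3 L N h3N) 3
    ((X + 27 : L[X]) * (X + 243 : L[X]) ^ 3) hx ?_
  rw [gaussJ_mul_gaussT3_cube N h3N, map_mul, map_pow, map_add, map_add, aeval_X, map_ofNat,
    map_ofNat]

theorem gaussT3_mem (h3N : 3 ∣ N) :
    gaussT3 L N h3N ∈ helper508.gaussValuationSubring N ℓ hℓN A hA :=
  gaussZ_mem N ℓ hℓN A hA _ _

/-- The residue of `t_3` is the integer series `t_3` read over the residue field. -/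
theorem gaussResidue_gaussT3 (h3N : 3 ∣ N) :
    ((helper508.gaussResidue N ℓ hℓN A hA
        ⟨gaussT3 L N h3N, gaussT3_mem N ℓ hℓN A hA h3N⟩ :
      ↥(modularFunctionFieldFullC (IsLocalRing.ResidueField A) N)) :
        LaurentSeries (IsLocalRing.ResidueField A))
      = zSeries helper1257.t3Z (IsLocalRing.ResidueField A) :=
  gaussResidue_gaussZ N ℓ hℓN A hA _ _

/-- Special fibre: `t̄_3` is transcendental and `4 * [F_k : k(t̄_3)] = ψ(N)`. -/
theorem gaussResidue_gaussT3_degree (h3N : 3 ∣ N) :
    Transcendental (IsLocalRing.ResidueField A)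
        (helper508.gaussResidue N ℓ hℓN A hA ⟨gaussT3 L N h3N, gaussT3_mem N ℓ hℓN A hA h3N⟩) ∧
      FiniteDimensional
        (IsLocalRing.ResidueField A)⟮helper508.gaussResidue N ℓ hℓN A hA
          ⟨gaussT3 L N h3N, gaussT3_mem N ℓ hℓN A hA h3N⟩⟯
        ↥(modularFunctionFieldFullC (IsLocalRing.ResidueField A) N) ∧
      4 * Module.finrank
        (IsLocalRing.ResidueField A)⟮helper508.gaussResidue N ℓ hℓN A hA
          ⟨gaussT3 L N h3N, gaussT3_mem N ℓ hℓN A hA h3N⟩⟯
        ↥(modularFunctionFieldFullC (IsLocalRing.ResidueField A) N) = dedekindPsi N := by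
  obtain ⟨hJ, hJ3⟩ := zSeries_t3_identities (IsLocalRing.ResidueField A)
  refine helper6381.hline3_subtype (IsLocalRing.ResidueField A) N h3N
    (residue_natCast_ne_zero N ℓ hℓN A hA) _ ?_ ?_
  · rw [gaussResidue_gaussT3]; exact hJ
  · rw [gaussResidue_gaussT3]; exact hJ3

/-- **`t_3` is residually transcendental for the Gauss valuation.** -/
theorem gauss_resTranscendental_t3 (h3N : 3 ∣ N) :
    helper1733.ResTranscendental (helper508.gaussValuationSubring N ℓ hℓN A hA).valuation L
      (gaussT3 L N h3N) := by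
  obtain ⟨hJ, hJ3⟩ := zSeries_t3_identities (IsLocalRing.ResidueField A)
  exact gauss_resTranscendental_Z N ℓ hℓN A hA _ _
    (helper6381.hline3_level (IsLocalRing.ResidueField A) _ hJ hJ3 N h3N
      (residue_natCast_ne_zero N ℓ hℓN A hA)).2.1

/-- **Gauss orthonormal system on the `t_3`-line.** -/
theorem gauss_orthoSys_t3 (h3N : 3 ∣ N) :
    ∃ e : Fin (Module.finrank L⟮gaussT3 L N h3N⟯
          ↥(laurentBaseChange L (modularFunctionFieldFull N))) →
        ↥(laurentBaseChange L (modularFunctionFieldFull N)),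
      helper8020.OrthoSys L (helper508.gaussValuationSubring N ℓ hℓN A hA).valuation
        (gaussT3 L N h3N) e ∧
      helper1733.IsOrtho (helper508.gaussValuationSubring N ℓ hℓN A hA).valuation
        L⟮gaussT3 L N h3N⟯ e ∧
      Submodule.span L⟮gaussT3 L N h3N⟯ (Set.range e) = ⊤ :=
  gauss_orthoSys_of_resTranscendental N ℓ hℓN A hA (gauss_resTranscendental_t3 N ℓ hℓN A hA h3N)
    (gaussJ_mem_adjoin_gaussT3 N h3N)

/-- **Integrality transfer on the charts `t_3`, `t_3⁻¹`.** -/
theorem gauss_integralityTransfer_t3 (h3N : 3 ∣ N) :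
    helper6292.IntegralityTransfer L (IsLocalRing.ResidueField A)
        (helper508.gaussValuationSubring N ℓ hℓN A hA) (helper508.gaussResidue N ℓ hℓN A hA)
        (gaussT3 L N h3N)
        (helper508.gaussResidue N ℓ hℓN A hA
          ⟨gaussT3 L N h3N, gaussT3_mem N ℓ hℓN A hA h3N⟩) ∧
      helper6292.IntegralityTransfer L (IsLocalRing.ResidueField A)
        (helper508.gaussValuationSubring N ℓ hℓN A hA) (helper508.gaussResidue N ℓ hℓN A hA)
        (gaussT3 L N h3N)⁻¹
        (helper508.gaussResidue N ℓ hℓN A hA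
          ⟨gaussT3 L N h3N, gaussT3_mem N ℓ hℓN A hA h3N⟩)⁻¹ :=
  gauss_integralityTransfer_of_resTranscendental N ℓ hℓN A hA _
    (gauss_resTranscendental_t3 N ℓ hℓN A hA h3N) (gaussJ_mem_adjoin_gaussT3 N h3N)

end Haupt

end Fermat.Agent.S18.helper4665

end
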