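/-
S18-TLINE-INST, part 2 (helper4665): degree equality and separability on the Hauptmodul lines
`t_2`, `t_3`, for the Gauss valuation of `helper508_GaussMod`, in the subtype forms requested by
the end wirings of track A (`LineData` of `helper2030_SpecA`, `GeomInputs` of `helper1466`).

With `t := gaussT2 L N h2N` (resp. `gaussT3 L N h3N`) in
`F = laurentBaseChange L (modularFunctionFieldFull N)`, `t̄ := gaussResidue ⟨t, _⟩` in
`F_k = modularFunctionFieldFullC k N`, `k` the residue field of `A`:

* `gaussT2_inv_mem`, `gaussT3_inv_mem` : `t⁻¹` lies in the Gauss valuation ring;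
* `gauss_finrank_t2`, `gauss_finrank_t3` : `[F_k : k(t̄)] = [F : L(t)]`;
* `gaussResidue_gaussT2_order`, `_gaussT3_order` : `t̄` has `q`-order `-1`;
* `gaussResidue_gaussT2_isSeparable`, `_gaussT3_isSeparable` : `F_k / k(t̄)` is separable
  (`k` a perfect field);
* `zSeries_t2Z_eq`, `zSeries_t3Z_eq` : bridge to `helper6381.t2K`, `t3K`.
-/
import Fermat.Agent.S18.helper4665_TLineInst
import Fermat.Agent.S18.helper6381_HLineInst
import Fermat.Agent.S18.helper9392_Separable

set_option autoImplicit false

noncomputable section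

namespace Fermat.Agent.S18.helper4665

open Polynomial ModularCurve IntermediateField
open Fermat.Agent.S18

/-- Bridge: the integer series `t_2` read over `R` is `helper6381.t2K R`. -/
theorem zSeries_t2Z_eq (R : Type*) [CommRing R] :
    zSeries helper1257.t2Z R = helper6381.t2K R := rfl

/-- Bridge: the integer series `t_3` read over `R` is `helper6381.t3K R`. -/
theorem zSeries_t3Z_eq (R : Type*) [CommRing R] :
    zSeries helper1257.t3Z R = helper6381.t3K R := rfl

section Deg

variable (N : ℕ) [NeZero N] (ℓ : ℕ) [Fact ℓ.Prime] (hℓN : ¬ ℓ ∣ N)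
variable {L : Type} [Field L] [Algebra ℚ L] (A : ValuationSubring L)
  (hA : (ℓ : L) ∈ A.nonunits)

omit [NeZero N] [Algebra ℚ L] in
/-- A residually transcendental element has its inverse in the valuation ring. -/
theorem inv_mem_of_resTranscendental {F : Type*} [Field F] [Algebra L F] (O : ValuationSubring F)
    {t : F} (ht : helper1733.ResTranscendental O.valuation L t) : t⁻¹ ∈ O := by
  rw [← O.valuation_le_one_iff, map_inv₀, ht.map_eq_one, inv_one]

/-! #### Level 2 -/

theorem gaussT2_inv_mem (h2N : 2 ∣ N) :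
    (gaussT2 L N h2N)⁻¹ ∈ helper508.gaussValuationSubring N ℓ hℓN A hA :=
  inv_mem_of_resTranscendental _ (gauss_resTranscendental_t2 N ℓ hℓN A hA h2N)

/-- **Equal degrees on the two fibres, `t_2`-line.** -/
theorem gauss_finrank_t2 (h2N : 2 ∣ N) :
    Module.finrank
        (IsLocalRing.ResidueField A)⟮helper508.gaussResidue N ℓ hℓN A hA
          ⟨gaussT2 L N h2N, gaussT2_mem N ℓ hℓN A hA h2N⟩⟯
        ↥(modularFunctionFieldFullC (IsLocalRing.ResidueField A) N) =
      Module.finrank L⟮gaussT2 L N h2N⟯ ↥(laurentBaseChange L (modularFunctionFieldFull N)) := by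
  have h1 := (gaussResidue_gaussT2_degree N ℓ hℓN A hA h2N).2.2
  have h2 := (gaussT2_degree (L := L) N h2N).2.2
  omega

/-- The residue of `t_2` has `q`-order `-1`. -/
theorem gaussResidue_gaussT2_order (h2N : 2 ∣ N) :
    ((helper508.gaussResidue N ℓ hℓN A hA
        ⟨gaussT2 L N h2N, gaussT2_mem N ℓ hℓN A hA h2N⟩ :
      ↥(modularFunctionFieldFullC (IsLocalRing.ResidueField A) N)) :
        LaurentSeries (IsLocalRing.ResidueField A)).order = -1 := by
  rw [gaussResidue_gaussT2]
  exact helper6381.t2K_order (IsLocalRing.ResidueField A)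

/-- **Separability of the special fibre over the `t̄_2`-line** (`k` perfect). -/
theorem gaussResidue_gaussT2_isSeparable [PerfectField (IsLocalRing.ResidueField A)]
    (h2N : 2 ∣ N) :
    Algebra.IsSeparable
      (IsLocalRing.ResidueField A)⟮helper508.gaussResidue N ℓ hℓN A hA
        ⟨gaussT2 L N h2N, gaussT2_mem N ℓ hℓN A hA h2N⟩⟯
      ↥(modularFunctionFieldFullC (IsLocalRing.ResidueField A) N) := by
  have : CharP (IsLocalRing.ResidueField A) ℓ := helper508.charP_residueField ℓ A hA
  have : PerfectRing (IsLocalRing.ResidueField A) ℓ := PerfectField.toPerfectRing ℓ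
  have := (gaussResidue_gaussT2_degree N ℓ hℓN A hA h2N).2.1
  have hord := gaussResidue_gaussT2_order N ℓ hℓN A hA h2N
  refine helper9392.algebra_isSeparable_of_order ℓ _ _ ?_ ?_
  · intro h0
    rw [h0] at hord
    simp at hord
  · rw [hord]
    intro hdvd
    have h1 := Int.le_of_dvd (by norm_num) (Int.dvd_neg.mp hdvd)
    have h2 := (Fact.out : ℓ.Prime).two_le
    omega

/-! #### Level 3 -/

theorem gaussT3_inv_mem (h3N : 3 ∣ N) :
    (gaussT3 L N h3N)⁻¹ ∈ helper508.gaussValuationSubring N ℓ hℓN A hA :=
  inv_mem_of_resTranscendental _ (gauss_resTranscendental_t3 N ℓ hℓN A hA h3N)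

/-- **Equal degrees on the two fibres, `t_3`-line.** -/
theorem gauss_finrank_t3 (h3N : 3 ∣ N) :
    Module.finrank
        (IsLocalRing.ResidueField A)⟮helper508.gaussResidue N ℓ hℓN A hA
          ⟨gaussT3 L N h3N, gaussT3_mem N ℓ hℓN A hA h3N⟩⟯
        ↥(modularFunctionFieldFullC (IsLocalRing.ResidueField A) N) =
      Module.finrank L⟮gaussT3 L N h3N⟯ ↥(laurentBaseChange L (modularFunctionFieldFull N)) := by
  have h1 := (gaussResidue_gaussT3_degree N ℓ hℓN A hA h3N).2.2
  have h2 := (gaussT3_degree (L := L) N h3N).2.2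
  omega

/-- The residue of `t_3` has `q`-order `-1`. -/
theorem gaussResidue_gaussT3_order (h3N : 3 ∣ N) :
    ((helper508.gaussResidue N ℓ hℓN A hA
        ⟨gaussT3 L N h3N, gaussT3_mem N ℓ hℓN A hA h3N⟩ :
      ↥(modularFunctionFieldFullC (IsLocalRing.ResidueField A) N)) :
        LaurentSeries (IsLocalRing.ResidueField A)).order = -1 := by
  rw [gaussResidue_gaussT3]
  exact helper6381.t3K_order (IsLocalRing.ResidueField A)

/-- **Separability of the special fibre over the `t̄_3`-line** (`k` perfect). -/
theorem gaussResidue_gaussT3_isSeparable [PerfectField (IsLocalRing.ResidueField A)]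
    (h3N : 3 ∣ N) :
    Algebra.IsSeparable
      (IsLocalRing.ResidueField A)⟮helper508.gaussResidue N ℓ hℓN A hA
        ⟨gaussT3 L N h3N, gaussT3_mem N ℓ hℓN A hA h3N⟩⟯
      ↥(modularFunctionFieldFullC (IsLocalRing.ResidueField A) N) := by
  have : CharP (IsLocalRing.ResidueField A) ℓ := helper508.charP_residueField ℓ A hA
  have : PerfectRing (IsLocalRing.ResidueField A) ℓ := PerfectField.toPerfectRing ℓ
  have := (gaussResidue_gaussT3_degree N ℓ hℓN A hA h3N).2.1
  have hord := gaussResidue_gaussT3_order N ℓ hℓN A hA h3N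
  refine helper9392.algebra_isSeparable_of_order ℓ _ _ ?_ ?_
  · intro h0
    rw [h0] at hord
    simp at hord
  · rw [hord]
    intro hdvd
    have h1 := Int.le_of_dvd (by norm_num) (Int.dvd_neg.mp hdvd)
    have h2 := (Fact.out : ℓ.Prime).two_le
    omega

end Deg

end Fermat.Agent.S18.helper4665

end
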