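/-
S18 (helper1466): track A, places form, END — the genus inequality `Stmt_GenusLe N ℓ` on the
Hauptmodul lines `t_2` (`2 ∣ N`) and `t_3` (`3 ∣ N`), hence `helper2118.Stmt_KFr 2` and
`helper2118.Stmt_KFr 3`, hence the frozen statement S18 (`result_S18`).

Composition of landed pieces only:
* chart genus inequality `helper4445.chartGenus_le_chart_one_branch` (DU1 + DU4 discharged) with
  the tame certificates `helper2193.cert_t2_isOmega` / `cert_t3_isOmega`;
* Gauss data on the `t_r`-line: `helper4665_TLineInst` / `helper4665_TLineDeg`;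
* Riemann genus = chart genus on both fibres: `helper1466_GenusChart`;
* the Kummer core on the `j`-line: `helper1466_GenusForm`.
-/
import Fermat.Agent.S18.helper1466_GenusChart
import Fermat.Agent.S18.helper4445_GenusAsm
import Fermat.Agent.S18.helper4665_TLineDeg
import Fermat.Agent.S18.helper2193_BranchCert

set_option autoImplicit false
set_option synthInstance.maxHeartbeats 400000

noncomputable section

namespace Fermat.Agent.S18.helper1466

open ModularCurve AlgebraicCurve IntermediateField Polynomial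

local notation "Qb" => AlgebraicClosure ℚ

section Lines

variable (N : ℕ) [NeZero N] (ℓ : ℕ) [Fact ℓ.Prime] (hℓN : ¬ ℓ ∣ N)
  (A : ValuationSubring Qb) (hA : A.LiesOverPrime ℓ)

omit [NeZero N] in
include hA in
/-- A natural number prime to `ℓ` is nonzero in the residue field. -/
theorem natCast_ne_zero_residue_of_not_dvd (n : ℕ) (hn : ¬ ℓ ∣ n) :
    (n : IsLocalRing.ResidueField A) ≠ 0 := by
  have := helper508.charP_residueField ℓ A hA
  intro h0
  rw [CharP.cast_eq_zero_iff (IsLocalRing.ResidueField A) ℓ] at h0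
  exact hn h0

/-- Integer constants lie in the Gauss valuation ring and reduce to themselves. -/
theorem gRed_intCast (n : ℤ) :
    ∃ hc : algebraMap Qb ↥(modularFunctionFieldBar N) (n : Qb) ∈ gO N ℓ hℓN A hA,
      gRed N ℓ hℓN A hA ⟨algebraMap Qb ↥(modularFunctionFieldBar N) (n : Qb), hc⟩ =
        algebraMap (IsLocalRing.ResidueField A)
          ↥(modularFunctionFieldFullC (IsLocalRing.ResidueField A) N)
          (n : IsLocalRing.ResidueField A) := by
  have hmem : algebraMap Qb ↥(modularFunctionFieldBar N) (n : Qb) ∈ gO N ℓ hℓN A hA := by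
    rw [map_intCast]
    exact intCast_mem _ n
  refine ⟨hmem, ?_⟩
  have h1 : (⟨algebraMap Qb ↥(modularFunctionFieldBar N) (n : Qb), hmem⟩ : ↥(gO N ℓ hℓN A hA)) =
      ((n : ℤ) : ↥(gO N ℓ hℓN A hA)) := by
    apply Subtype.ext
    simp
  rw [h1, map_intCast, map_intCast]

omit [NeZero N] in
/-- `(X - C (-n))(x) = x + n`. -/
theorem aeval_X_sub_C_intCast_neg (x : ↥(modularFunctionFieldBar N)) (n : ℕ) :
    aeval x (X - C ((-(n : ℤ) : ℤ) : Qb) : Qb[X]) = x + (n : ↥(modularFunctionFieldBar N)) := by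
  simp

omit [NeZero N] in
/-- `(1 - C (-n) * X)(x) = 1 + n * x`. -/
theorem aeval_one_sub_C_intCast_neg_mul_X (x : ↥(modularFunctionFieldBar N)) (n : ℕ) :
    aeval x (1 - C ((-(n : ℤ) : ℤ) : Qb) * X : Qb[X]) =
      1 + (n : ↥(modularFunctionFieldBar N)) * x := by
  simp

open Fermat.Agent.S24.helper24 in
omit [NeZero N] in
/-- The S24 element `jBar N` is the Gauss-side `j`. -/
theorem jBar_eq_gaussJ : jBar N = helper1733.gaussJ Qb N := by
  apply Subtype.ext
  rw [Fermat.Agent.S24.helper24.coe_jBar, ← jqModC_rat]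
  exact coeffMap_jqModC (algebraMap ℚ Qb)

open Fermat.Agent.S24.helper24 in
/-- **Chart genus inequality on the `t_2`-line** (`2 ∣ N`, `ℓ ∤ N`). -/
theorem chartGenus_le_t2 (h2N : 2 ∣ N) :
    helper789.chartGenus Qb (helper4665.gaussT2 Qb N h2N) ≤
      helper789.chartGenus (IsLocalRing.ResidueField A)
        (gRed N ℓ hℓN A hA ⟨helper4665.gaussT2 Qb N h2N,
          helper4665.gaussT2_mem N ℓ hℓN A hA h2N⟩) := by
  have halg : IsAlgClosed (IsLocalRing.ResidueField A) :=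
    Lib.helper6879.isAlgClosed_residueField A
  have hℓ2 : ¬ ℓ ∣ 64 := by
    intro h
    have h2 : ℓ ∣ 2 := (Fact.out : ℓ.Prime).dvd_of_dvd_pow (n := 6) (by norm_num; exact h)
    exact hℓN (h2.trans h2N)
  obtain ⟨e, -, hb, hspan⟩ := helper4665.gauss_orthoSys_t2 N ℓ hℓN A hA h2N
  obtain ⟨htb, hfin, -⟩ := helper4665.gaussResidue_gaussT2_degree N ℓ hℓN A hA h2N
  have hsep := helper4665.gaussResidue_gaussT2_isSeparable N ℓ hℓN A hA h2N
  have hres := helper4665.gauss_resTranscendental_t2 N ℓ hℓN A hA h2N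
  obtain ⟨htr, hfinL, -⟩ := helper4665.gaussT2_degree (L := Qb) N h2N
  obtain ⟨hc0, hc0b⟩ := gRed_intCast N ℓ hℓN A hA (-((64 : ℕ) : ℤ))
  have ht : jBar N * (helper4665.gaussT2 Qb N h2N) ^ 2 =
      (helper4665.gaussT2 Qb N h2N + 256) ^ 3 := by
    rw [jBar_eq_gaussJ]
    exact helper4665.gaussJ_mul_gaussT2_sq (L := Qb) N h2N
  have hdpos : 0 < Module.finrank Qb⟮helper4665.gaussT2 Qb N h2N⟯
      ↥(modularFunctionFieldBar N) := Module.finrank_pos
  refine helper4445.chartGenus_le_chart_one_branch (gO N ℓ hℓN A hA) (gRed N ℓ hℓN A hA)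
    (hred N ℓ hℓN A hA) (hredk_surj N ℓ hℓN A hA) (helper1733.gauss_compat N ℓ hℓN A hA)
    (helper4665.gaussT2_mem N ℓ hℓN A hA h2N) hres hb hspan htb
    ((-((64 : ℕ) : ℤ) : ℤ) : Qb) hc0 ((-((64 : ℕ) : ℤ) : ℤ) : IsLocalRing.ResidueField A) hc0b ?_
    _ hdpos _ hdpos ?_ ?_
  · have := natCast_ne_zero_residue_of_not_dvd ℓ A hA 64 hℓ2
    simpa using this
  · intro y hy
    obtain ⟨z, hz, hzeq⟩ := (helper2193.cert_t2_isOmega N _ ht y hy).1
    refine ⟨z, hz, ?_⟩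
    rw [aeval_X_sub_C_intCast_neg]
    exact hzeq
  · intro y hy
    obtain ⟨z, hz, hzeq⟩ := (helper2193.cert_t2_isOmega N _ ht y hy).2
    refine ⟨z, hz, ?_⟩
    rw [aeval_one_sub_C_intCast_neg_mul_X]
    exact hzeq

open Fermat.Agent.S24.helper24 in
/-- **Chart genus inequality on the `t_3`-line** (`3 ∣ N`, `ℓ ∤ N`). -/
theorem chartGenus_le_t3 (h3N : 3 ∣ N) :
    helper789.chartGenus Qb (helper4665.gaussT3 Qb N h3N) ≤
      helper789.chartGenus (IsLocalRing.ResidueField A)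
        (gRed N ℓ hℓN A hA ⟨helper4665.gaussT3 Qb N h3N,
          helper4665.gaussT3_mem N ℓ hℓN A hA h3N⟩) := by
  have halg : IsAlgClosed (IsLocalRing.ResidueField A) :=
    Lib.helper6879.isAlgClosed_residueField A
  have hℓ2 : ¬ ℓ ∣ 27 := by
    intro h
    have h2 : ℓ ∣ 3 := (Fact.out : ℓ.Prime).dvd_of_dvd_pow (n := 3) (by norm_num; exact h)
    exact hℓN (h2.trans h3N)
  obtain ⟨e, -, hb, hspan⟩ := helper4665.gauss_orthoSys_t3 N ℓ hℓN A hA h3N
  obtain ⟨htb, hfin, -⟩ := helper4665.gaussResidue_gaussT3_degree N ℓ hℓN A hA h3N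
  have hsep := helper4665.gaussResidue_gaussT3_isSeparable N ℓ hℓN A hA h3N
  have hres := helper4665.gauss_resTranscendental_t3 N ℓ hℓN A hA h3N
  obtain ⟨htr, hfinL, -⟩ := helper4665.gaussT3_degree (L := Qb) N h3N
  obtain ⟨hc0, hc0b⟩ := gRed_intCast N ℓ hℓN A hA (-((27 : ℕ) : ℤ))
  have ht : jBar N * (helper4665.gaussT3 Qb N h3N) ^ 3 =
      (helper4665.gaussT3 Qb N h3N + 27) * (helper4665.gaussT3 Qb N h3N + 243) ^ 3 := by
    rw [jBar_eq_gaussJ]
    exact helper4665.gaussJ_mul_gaussT3_cube (L := Qb) N h3N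
  have hdpos : 0 < Module.finrank Qb⟮helper4665.gaussT3 Qb N h3N⟯
      ↥(modularFunctionFieldBar N) := Module.finrank_pos
  refine helper4445.chartGenus_le_chart_one_branch (gO N ℓ hℓN A hA) (gRed N ℓ hℓN A hA)
    (hred N ℓ hℓN A hA) (hredk_surj N ℓ hℓN A hA) (helper1733.gauss_compat N ℓ hℓN A hA)
    (helper4665.gaussT3_mem N ℓ hℓN A hA h3N) hres hb hspan htb
    ((-((27 : ℕ) : ℤ) : ℤ) : Qb) hc0 ((-((27 : ℕ) : ℤ) : ℤ) : IsLocalRing.ResidueField A) hc0b ?_
    _ hdpos _ hdpos ?_ ?_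
  · have := natCast_ne_zero_residue_of_not_dvd ℓ A hA 27 hℓ2
    simpa using this
  · intro y hy
    obtain ⟨z, hz, hzeq⟩ := (helper2193.cert_t3_isOmega N _ ht y hy).1
    refine ⟨z, hz, ?_⟩
    rw [aeval_X_sub_C_intCast_neg]
    exact hzeq
  · intro y hy
    obtain ⟨z, hz, hzeq⟩ := (helper2193.cert_t3_isOmega N _ ht y hy).2
    refine ⟨z, hz, ?_⟩
    rw [aeval_one_sub_C_intCast_neg_mul_X]
    exact hzeq

end Lines

/-- **The genus inequality at the levels divisible by `2`** (`ℓ ∤ N`). -/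
theorem stmt_GenusLe_of_two_dvd (N : ℕ) [NeZero N] (ℓ : ℕ) (hℓ : ℓ.Prime) (h2N : 2 ∣ N)
    (hℓN : ¬ ℓ ∣ N) : Stmt_GenusLe N ℓ := by
  haveI : Fact ℓ.Prime := ⟨hℓ⟩
  intro A hA
  obtain ⟨htb, hfin, -⟩ := helper4665.gaussResidue_gaussT2_degree N ℓ hℓN A hA h2N
  obtain ⟨htr, hfinL, -⟩ := helper4665.gaussT2_degree (L := Qb) N h2N
  exact genus_le_of_chartGenus_le N ℓ hℓN A hA (helper4665.gaussT2 Qb N h2N) htr
    (gRed N ℓ hℓN A hA ⟨helper4665.gaussT2 Qb N h2N, helper4665.gaussT2_mem N ℓ hℓN A hA h2N⟩)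
    htb (chartGenus_le_t2 N ℓ hℓN A hA h2N)

/-- **The genus inequality at the levels divisible by `3`** (`ℓ ∤ N`). -/
theorem stmt_GenusLe_of_three_dvd (N : ℕ) [NeZero N] (ℓ : ℕ) (hℓ : ℓ.Prime) (h3N : 3 ∣ N)
    (hℓN : ¬ ℓ ∣ N) : Stmt_GenusLe N ℓ := by
  haveI : Fact ℓ.Prime := ⟨hℓ⟩
  intro A hA
  obtain ⟨htb, hfin, -⟩ := helper4665.gaussResidue_gaussT3_degree N ℓ hℓN A hA h3N
  obtain ⟨htr, hfinL, -⟩ := helper4665.gaussT3_degree (L := Qb) N h3N
  exact genus_le_of_chartGenus_le N ℓ hℓN A hA (helper4665.gaussT3 Qb N h3N) htr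
    (gRed N ℓ hℓN A hA ⟨helper4665.gaussT3 Qb N h3N, helper4665.gaussT3_mem N ℓ hℓN A hA h3N⟩)
    htb (chartGenus_le_t3 N ℓ hℓN A hA h3N)

/-- **`Stmt_KFr 2`**: the Kummer field form at every level divisible by `2`, every `ℓ ∤ N`. -/
theorem stmt_KFr_two : helper2118.Stmt_KFr 2 :=
  stmt_KFr_of_genusLe 2 fun N' _ ℓ hℓ h2 hℓN _ => stmt_GenusLe_of_two_dvd N' ℓ hℓ h2 hℓN

/-- **`Stmt_KFr 3`**: the Kummer field form at every level divisible by `3`, every `ℓ ∤ N`. -/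
theorem stmt_KFr_three : helper2118.Stmt_KFr 3 :=
  stmt_KFr_of_genusLe 3 fun N' _ ℓ hℓ h3 hℓN _ => stmt_GenusLe_of_three_dvd N' ℓ hℓ h3 hℓN

/-- **The frozen statement S18** (track A, places form). -/
theorem result_S18 (N : ℕ) [NeZero N] {ℓ : ℕ}
    [Fact ℓ.Prime] (hℓN : ¬ ℓ ∣ N) (A : ValuationSubring (AlgebraicClosure ℚ))
    (hA : A.LiesOverPrime ℓ)
    (h : ModularCurve.ReductionInputsModL A N) (m : ℕ) (hm : ¬ ℓ ∣ m) (z : ModularCurve.JZero N)
    (hmz : m • z = 0) (hz : ModularCurve.reductionModL A N z = 0) :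
    z = 0 :=
  helper2118.result_of_kfr stmt_KFr_two stmt_KFr_three N hℓN A hA h m hm z hmz hz

end Fermat.Agent.S18.helper1466
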