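/-
S18-RCUSP-ASM (helper1903): the LAST LINK of the char-0 Riemann inequality with `g = dim S₂`
on the modular function field `F_N = modularFunctionFieldBar N` over `ℚ̄`.

* Generic part (any function field over an algebraically closed field of characteristic zero
  with one transcendental `x`, `[F : K(x)] < ∞`): the hypotheses of the landed Riemann theorem
  `helper981` hold (`HasPrincipalDivisors`, all places of degree one, a place exists,
  `HasRiemannBound`), and Riemann's inequality with a given integer `g` for ALL divisors follows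
  from the same inequality on a family of divisors of unbounded degree.
* Modular part: the instance for `F_N`, `x = j`, and the assembly
  `riemann_inequality_of : (P4+P5) → (P1+P2+P3) → ∀ D, deg D + 1 - dim S₂ ≤ l(D)`
  in hypothesis-passing form (route: team_s18_chat #158 / #295: cusp forms of weight `12 m`,
  `D_m = m (j)_∞ - ∑ poles of j`).
-/
import Mathlib
import Fermat.Agent.S18.helper981_Riemann
import Fermat.Agent.S24.helper204_Places
import Fermat.Agent.S24.helper167_JFinrank
import Fermat.Agent.S24.helper6180_EvDatum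
import Fermat.Agent.S24.helper1200_StmtLocalInf
import Fermat.Agent.S24.helper3176_FieldAlg

set_option autoImplicit false

namespace Fermat.Agent.S18.helper1903

open AlgebraicCurve Module IntermediateField
open Fermat.Agent.S18.helper981

/-! ## Generic part -/

section Generic

variable {K F : Type*} [Field K] [Field F] [Algebra K F]

/-- The Riemann genus is at most `g` as soon as Riemann's inequality with `g` holds on a family
of divisors of unbounded degree. -/
theorem riemannGenus_le_of_family [HasPrincipalDivisors K F]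
    (hdeg : ∀ v : Place K F, v.deg = 1) (P₀ : Place K F) (h : HasRiemannBound K F) {g : ℤ}
    (hfam : ∀ c : ℤ, ∃ D : Divisor K F, c ≤ Divisor.degree D ∧
      Divisor.degree D + 1 - g ≤ (finrank K (riemannRochSpace D) : ℤ)) :
    (riemannGenus K F : ℤ) ≤ g := by
  obtain ⟨c, hc⟩ := exists_forall_finrank_eq hdeg P₀ h
  obtain ⟨D, hD, hD'⟩ := hfam c
  have := hc D hD
  linarith

/-- Riemann's inequality with `g` for ALL divisors from a family of unbounded degree. -/
theorem riemann_inequality_of_family [HasPrincipalDivisors K F]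
    (hdeg : ∀ v : Place K F, v.deg = 1) (P₀ : Place K F) (h : HasRiemannBound K F) {g : ℤ}
    (hfam : ∀ c : ℤ, ∃ D : Divisor K F, c ≤ Divisor.degree D ∧
      Divisor.degree D + 1 - g ≤ (finrank K (riemannRochSpace D) : ℤ))
    (D : Divisor K F) :
    Divisor.degree D + 1 - g ≤ (finrank K (riemannRochSpace D) : ℤ) := by
  have h1 := riemannGenus_le_of_family hdeg P₀ h hfam
  have h2 := riemannGenus_mem h D
  linarith

/-- The Prelude genus `genusFF` is at most `g` under the same hypothesis. -/
theorem genusFF_le_of_family [HasPrincipalDivisors K F]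
    (hdeg : ∀ v : Place K F, v.deg = 1) (P₀ : Place K F) (h : HasRiemannBound K F) {g : ℤ}
    (hfam : ∀ c : ℤ, ∃ D : Divisor K F, c ≤ Divisor.degree D ∧
      Divisor.degree D + 1 - g ≤ (finrank K (riemannRochSpace D) : ℤ)) :
    (genusFF K F : ℤ) ≤ g := by
  rw [genusFF_eq_riemannGenus hdeg P₀ h]
  exact riemannGenus_le_of_family hdeg P₀ h hfam

/-- A linearly independent family inside a Riemann–Roch space bounds its dimension below. -/
theorem card_le_finrank_riemannRochSpace [HasPrincipalDivisors K F]
    (hdeg : ∀ v : Place K F, v.deg = 1) (P₀ : Place K F) (D : Divisor K F)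
    {d : ℕ} (x : Fin d → F) (hx : LinearIndependent K x)
    (hmem : ∀ i, x i ∈ riemannRochSpace D) :
    d ≤ finrank K (riemannRochSpace D) := by
  haveI := finite_riemannRochSpace hdeg P₀ D
  let y : Fin d → riemannRochSpace D := fun i => ⟨x i, hmem i⟩
  have hy : LinearIndependent K y := by
    refine LinearIndependent.of_comp (riemannRochSpace D).subtype ?_
    exact hx
  have := hy.fintype_card_le_finrank
  simpa using this

section AlgClosed

variable [IsAlgClosed K] [CharZero K] (x : F) (hx : Transcendental K x)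
  [FiniteDimensional K⟮x⟯ F]

include hx in
/-- A function field over an algebraically closed field of characteristic zero has a place. -/
theorem nonempty_place : Nonempty (Place K F) := by
  obtain ⟨s, -, hsum⟩ := Fermat.Agent.S24.helper204.exists_finset_poles x hx
  by_contra hne
  rw [not_nonempty_iff] at hne
  have hs : s = ∅ := Finset.eq_empty_of_isEmpty s
  rw [hs, Finset.sum_empty] at hsum
  have hpos : 0 < finrank K⟮x⟯ F := Module.finrank_pos
  have : (0 : ℤ) = (finrank K⟮x⟯ F : ℤ) := hsum
  omega

include hx in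
/-- The pole divisor of `x` exists and has degree `[F : K(x)]`. -/
theorem exists_poleDivisor :
    ∃ B : Divisor K F, (∀ v : Place K F, B v = max 0 (-(v.ord x))) ∧
      Divisor.degree B = (finrank K⟮x⟯ F : ℤ) := by
  classical
  have hdeg : ∀ v : Place K F, v.deg = 1 := Fermat.Agent.S24.helper204.place_deg_eq_one x hx
  obtain ⟨s, hs, hsum⟩ := Fermat.Agent.S24.helper204.exists_finset_poles x hx
  have hsupp : ∀ v : Place K F, max 0 (-(v.ord x)) ≠ 0 → v ∈ s := by
    intro v hv
    rw [hs v]
    by_contra hcon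
    apply hv
    have : -(v.ord x) ≤ 0 := by omega
    exact max_eq_left this
  refine ⟨Finsupp.onFinset s (fun v => max 0 (-(v.ord x))) hsupp, fun v => rfl, ?_⟩
  rw [degree_eq_sum hdeg, Finsupp.onFinset_sum hsupp (fun _ => rfl), ← hsum]
  refine Finset.sum_congr rfl fun v hv => ?_
  have : v.ord x < 0 := (hs v).mp hv
  exact max_eq_right (by omega)

include hx in
/-- The weak Riemann bound (hypothesis `h` of `helper981`) for such a function field. -/
theorem hasRiemannBound_of_algClosed : HasRiemannBound K F := by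
  have : HasPrincipalDivisors K F := Fermat.Agent.S24.helper204.hasPrincipalDivisors x hx
  have hdeg : ∀ v : Place K F, v.deg = 1 := Fermat.Agent.S24.helper204.place_deg_eq_one x hx
  obtain ⟨P₀⟩ := nonempty_place x hx
  obtain ⟨B, hB, hBdeg⟩ := exists_poleDivisor x hx
  exact hasRiemannBound_of_transcendental x hx P₀ hdeg B hB hBdeg.le

end AlgClosed

end Generic

/-! ## The modular function field -/

section Modular

open ModularCurve CongruenceSubgroup
open Fermat.Agent.S24.helper24

/-- `[F_N : ℚ̄(j)] = [SL₂(ℤ) : Γ₀(N)]` (S24), from modules of the landed S24 closure. -/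
theorem stmt_JFinrank : Stmt_JFinrank :=
  Fermat.Agent.S24.helper167.stmt_JFinrank_of
    (fun N _ => Fermat.Agent.S24.helper6180.evDatum N) Fermat.Agent.S24.helper1200.stmt_LocalInf

theorem finiteDimensional_jBar (N : ℕ) [NeZero N] : FiniteDimensional Kbar⟮jBar N⟯ (FN N) :=
  (stmt_JFinrank N).1

/-- Principal divisors exist (and have degree zero) on `F_N`. -/
theorem hasPrincipalDivisors_FN (N : ℕ) [NeZero N] : HasPrincipalDivisors Kbar (FN N) :=
  haveI := finiteDimensional_jBar N
  Fermat.Agent.S24.helper204.hasPrincipalDivisors (jBar N)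
    (Fermat.Agent.S24.helper3176.transcendental_jBar N)

/-- Every place of `F_N` has degree one. -/
theorem place_deg_eq_one_FN (N : ℕ) [NeZero N] (v : Place Kbar (FN N)) : v.deg = 1 :=
  haveI := finiteDimensional_jBar N
  Fermat.Agent.S24.helper204.place_deg_eq_one (jBar N)
    (Fermat.Agent.S24.helper3176.transcendental_jBar N) v

/-- `F_N` has a place. -/
theorem nonempty_place_FN (N : ℕ) [NeZero N] : Nonempty (Place Kbar (FN N)) :=
  haveI := finiteDimensional_jBar N
  nonempty_place (jBar N) (Fermat.Agent.S24.helper3176.transcendental_jBar N)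

/-- The weak Riemann bound for `F_N` (so all of `helper981` applies to `F_N`). -/
theorem hasRiemannBound_FN (N : ℕ) [NeZero N] : HasRiemannBound Kbar (FN N) :=
  haveI := finiteDimensional_jBar N
  hasRiemannBound_of_algClosed (jBar N) (Fermat.Agent.S24.helper3176.transcendental_jBar N)

theorem psi_pos (N : ℕ) [NeZero N] : 0 < dedekindPsi N := by
  classical
  unfold dedekindPsi
  refine Finset.sum_pos' (fun _ _ => Nat.zero_le _) ⟨1, ?_, ?_⟩
  · rw [Finset.mem_filter, Nat.mem_divisors]
    exact ⟨⟨one_dvd N, NeZero.ne N⟩, squarefree_one⟩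
  · simpa using NeZero.pos N

/-- **RCUSP, family form.**  If for every `m ≥ 1` there is a divisor `D_m` of degree
`m ψ(N) - c` with `l(D_m) ≥ m ψ(N) + 1 - g - c`, then Riemann's inequality with `g` holds for all
divisors of `F_N`. -/
theorem riemann_inequality_of_levels (N : ℕ) [NeZero N] (g : ℤ) (c : ℤ)
    (hlev : ∀ m : ℕ, 1 ≤ m → ∃ D : Divisor Kbar (FN N),
      Divisor.degree D = (m : ℤ) * dedekindPsi N - c ∧
      (m : ℤ) * dedekindPsi N + 1 - g - c ≤ (finrank Kbar (riemannRochSpace D) : ℤ))
    (D : Divisor Kbar (FN N)) :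
    Divisor.degree D + 1 - g ≤ (finrank Kbar (riemannRochSpace D) : ℤ) := by
  haveI := hasPrincipalDivisors_FN N
  obtain ⟨P₀⟩ := nonempty_place_FN N
  refine riemann_inequality_of_family (place_deg_eq_one_FN N) P₀ (hasRiemannBound_FN N)
    (fun b => ?_) D
  have hψ : (1 : ℤ) ≤ dedekindPsi N := by exact_mod_cast psi_pos N
  set m : ℕ := (b + c).toNat + 1 with hm
  obtain ⟨D₁, hD₁, hl⟩ := hlev m (by omega)
  refine ⟨D₁, ?_, by rw [hD₁]; linarith⟩
  rw [hD₁]
  have h1 : b + c ≤ ((b + c).toNat : ℤ) := Int.self_le_toNat _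
  have h2 : (m : ℤ) = ((b + c).toNat : ℤ) + 1 := by rw [hm]; push_cast; ring
  have h3 : (m : ℤ) ≤ (m : ℤ) * dedekindPsi N := by
    have hm0 : (0 : ℤ) ≤ m := Int.natCast_nonneg m
    nlinarith
  linarith

/-- **RCUSP, last link (hypothesis-passing).**  From

* `h45` (= `exists_divisor_of_monic`, team_s18_chat #295/#299): for every `m ≥ 1` a divisor `D_m`
  of degree `m ψ(N) - cuspCount N` containing in its Riemann–Roch space every `x` that satisfies
  a monic relation over `ℚ̄[j]` with coefficient degrees `< m (i+1)`;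
* `h123` (= (P1)+(P2)+(P3) of #295): for every `m ≥ 1` a `ℚ̄`-linearly independent family of at
  least `m ψ(N) + 1 - dim S₂ - cuspCount N` elements of `F_N` satisfying such relations;

Riemann's inequality with `g = dim S₂(Γ₀(N))` for ALL divisors of `F_N`. -/
theorem riemann_inequality_of (N : ℕ) [NeZero N]
    (h45 : ∀ m : ℕ, 1 ≤ m → ∃ D : Divisor Kbar (FN N),
      Divisor.degree D = (m : ℤ) * dedekindPsi N - cuspCount N ∧
      ∀ (x : FN N) (n : ℕ) (P : Fin n → Polynomial Kbar),
        (∀ i, (P i).natDegree < m * ((i : ℕ) + 1)) →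
        x ^ n + ∑ i : Fin n, Polynomial.aeval (jBar N) (P i) * x ^ (n - 1 - (i : ℕ)) = 0 →
        x ∈ riemannRochSpace D)
    (h123 : ∀ m : ℕ, 1 ≤ m → ∃ (d : ℕ) (x : Fin d → FN N), LinearIndependent Kbar x ∧
      m * dedekindPsi N + 1 ≤ d + Module.finrank ℂ (CuspForm (Gamma0 N) 2) + cuspCount N ∧
      ∀ i, ∃ (n : ℕ) (P : Fin n → Polynomial Kbar),
        (∀ k, (P k).natDegree < m * ((k : ℕ) + 1)) ∧
        x i ^ n + ∑ k : Fin n, Polynomial.aeval (jBar N) (P k) * x i ^ (n - 1 - (k : ℕ)) = 0)
    (D : Divisor Kbar (FN N)) :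
    Divisor.degree D + 1 - (Module.finrank ℂ (CuspForm (Gamma0 N) 2) : ℤ)
      ≤ (finrank Kbar (riemannRochSpace D) : ℤ) := by
  haveI := hasPrincipalDivisors_FN N
  obtain ⟨P₀⟩ := nonempty_place_FN N
  refine riemann_inequality_of_levels N _ (cuspCount N) (fun m hm => ?_) D
  obtain ⟨D₁, hD₁, hmem⟩ := h45 m hm
  obtain ⟨d, x, hli, hd, hrel⟩ := h123 m hm
  refine ⟨D₁, hD₁, ?_⟩
  have hle : d ≤ finrank Kbar (riemannRochSpace D₁) :=
    card_le_finrank_riemannRochSpace (place_deg_eq_one_FN N) P₀ D₁ x hli (fun i => by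
      obtain ⟨n, P, hP, hPrel⟩ := hrel i
      exact hmem (x i) n P hP hPrel)
  have hd' : (m : ℤ) * dedekindPsi N + 1
      ≤ d + (Module.finrank ℂ (CuspForm (Gamma0 N) 2) : ℤ) + cuspCount N := by
    exact_mod_cast hd
  have hle' : (d : ℤ) ≤ (finrank Kbar (riemannRochSpace D₁) : ℤ) := by exact_mod_cast hle
  linarith

/-- Same hypotheses: the Riemann genus of `F_N` is at most `dim S₂(Γ₀(N))`. -/
theorem riemannGenus_le_of (N : ℕ) [NeZero N]
    (hR : ∀ D : Divisor Kbar (FN N),
      Divisor.degree D + 1 - (Module.finrank ℂ (CuspForm (Gamma0 N) 2) : ℤ)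
        ≤ (finrank Kbar (riemannRochSpace D) : ℤ)) :
    riemannGenus Kbar (FN N) ≤ Module.finrank ℂ (CuspForm (Gamma0 N) 2) := by
  unfold riemannGenus
  exact Nat.sInf_le hR

/-- Same hypotheses: the Prelude genus `genusFF` of `F_N` is at most `dim S₂(Γ₀(N))`. -/
theorem genusFF_le_of (N : ℕ) [NeZero N]
    (hR : ∀ D : Divisor Kbar (FN N),
      Divisor.degree D + 1 - (Module.finrank ℂ (CuspForm (Gamma0 N) 2) : ℤ)
        ≤ (finrank Kbar (riemannRochSpace D) : ℤ)) :
    genusFF Kbar (FN N) ≤ Module.finrank ℂ (CuspForm (Gamma0 N) 2) := by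
  haveI := hasPrincipalDivisors_FN N
  obtain ⟨P₀⟩ := nonempty_place_FN N
  rw [genusFF_eq_riemannGenus (place_deg_eq_one_FN N) P₀ (hasRiemannBound_FN N)]
  exact riemannGenus_le_of N hR

end Modular

end Fermat.Agent.S18.helper1903
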