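import Mathlib

/-!
# S18-HURWITZ, part (L): the tame different bound

Mathlib-only.  For Dedekind domains `A ⊆ B` (finite, separable fraction fields), a maximal ideal
`p` of `A` whose residue field has characteristic zero, and a factorisation `I * Q = pB` with
`I`, `Q` coprime and `I ≠ ⊤`, the ideal `I` does not divide the different.  Applied to
`I = P ^ e` (exact power of a prime above `p`) this is the upper bound `v_P(𝔇) ≤ e - 1`, i.e.
every element `y` of the trace dual of `B` satisfies `v_P(y) ≥ -(e - 1)`.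
-/

set_option autoImplicit false

namespace Fermat.Agent.S18.helper6082

open Module nonZeroDivisors IsDedekindDomain

attribute [local instance] FractionRing.liftAlgebra FractionRing.isScalarTower_liftAlgebra
  Ideal.Quotient.field

section Tame

variable (A : Type*) {B : Type*} [CommRing A] [CommRing B] [Algebra A B]
  [IsDedekindDomain A] [IsDedekindDomain B] [IsTorsionFree A B] [Module.Finite A B]

/-- **Tame different bound (general form).**  If `I * Q = pB` with `I`, `Q` coprime, `I ≠ ⊤`
and the residue field `A ⧸ p` has characteristic zero, then `I` does not divide the different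
ideal of `B` over `A`. -/
theorem not_dvd_differentIdeal_of_isCoprime_of_charZero
    [Algebra.IsSeparable (FractionRing A) (FractionRing B)]
    {p : Ideal A} [p.IsMaximal] [CharZero (A ⧸ p)] (I Q : Ideal B) (hI1 : I ≠ ⊤)
    (hIQ : IsCoprime I Q) (hI : I * Q = Ideal.map (algebraMap A B) p) :
    ¬ I ∣ differentIdeal A B := by
  let _ : Algebra (A ⧸ p) (B ⧸ I) := Ideal.Quotient.algebraQuotientOfLEComap (by
      rw [← Ideal.map_le_iff_le_comap, ← hI]
      exact Ideal.mul_le_left)
  let _ : Algebra (A ⧸ p) (B ⧸ Q) := Ideal.Quotient.algebraQuotientOfLEComap (by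
      rw [← Ideal.map_le_iff_le_comap, ← hI]
      exact Ideal.mul_le_right)
  have : IsScalarTower A (A ⧸ p) (B ⧸ I) := .of_algebraMap_eq' rfl
  have : IsScalarTower A (A ⧸ p) (B ⧸ Q) := .of_algebraMap_eq' rfl
  have : Module.Finite (A ⧸ p) (B ⧸ I) :=
    Module.Finite.of_restrictScalars_finite A (A ⧸ p) (B ⧸ I)
  have : Module.Finite (A ⧸ p) (B ⧸ Q) :=
    Module.Finite.of_restrictScalars_finite A (A ⧸ p) (B ⧸ Q)
  have : Nontrivial (B ⧸ I) := Ideal.Quotient.nontrivial_iff.mpr hI1
  let e : (B ⧸ p.map (algebraMap A B)) ≃ₐ[A ⧸ p] ((B ⧸ I) × B ⧸ Q) :=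
    { __ := (Ideal.quotEquivOfEq hI.symm).trans (Ideal.quotientMulEquivQuotientProd I Q hIQ),
      commutes' := Quotient.ind fun _ ↦ rfl }
  obtain ⟨y, hy⟩ := Ideal.Quotient.mk_surjective (e.symm (1, 0))
  refine not_dvd_differentIdeal_of_intTrace_not_mem A I Q hI y ?_ ?_
  · have := congr((e $hy).2)
    simp at this
    simpa [e, Ideal.Quotient.eq_zero_iff_mem] using this
  · rw [← Ideal.Quotient.eq_zero_iff_mem, ← Algebra.trace_quotient_eq_of_isDedekindDomain,
      hy, Algebra.trace_eq_of_algEquiv, Algebra.trace_prod_apply]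
    have h1 : Algebra.trace (A ⧸ p) (B ⧸ I) 1 = (Module.finrank (A ⧸ p) (B ⧸ I) : A ⧸ p) := by
      have := Algebra.trace_algebraMap (R := A ⧸ p) (S := B ⧸ I) (1 : A ⧸ p)
      simpa using this
    simp only [map_zero, add_zero, h1]
    exact_mod_cast (Module.finrank_pos (R := A ⧸ p) (M := B ⧸ I)).ne'

/-- **Tame different bound (prime power form).**  If `P ^ e` is the exact power of the maximal
ideal `P` dividing `pB` and `A ⧸ p` has characteristic zero, then `P ^ e ∤ 𝔇`. -/
theorem not_pow_dvd_differentIdeal_of_charZero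
    [Algebra.IsSeparable (FractionRing A) (FractionRing B)]
    {p : Ideal A} [p.IsMaximal] [CharZero (A ⧸ p)]
    (P : Ideal B) [P.IsMaximal] (e : ℕ) (he : e ≠ 0)
    (hdvd : P ^ e ∣ p.map (algebraMap A B))
    (hndvd : ¬ P ^ (e + 1) ∣ p.map (algebraMap A B)) :
    ¬ P ^ e ∣ differentIdeal A B := by
  obtain ⟨Q, hQ⟩ := hdvd
  have hQP : ¬ Q ≤ P := by
    intro hle
    apply hndvd
    rw [hQ, pow_succ]
    exact mul_dvd_mul_left _ (Ideal.dvd_iff_le.mpr hle)
  have hcop1 : IsCoprime P Q := by
    rw [Ideal.isCoprime_iff_sup_eq]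
    by_contra hne
    have := (‹P.IsMaximal›.eq_of_le hne le_sup_left)
    exact hQP (this ▸ le_sup_right)
  have hcop : IsCoprime (P ^ e) Q := hcop1.pow_left
  have hPe : P ^ e ≠ ⊤ := by
    intro htop
    have : P = ⊤ := top_le_iff.mp (htop ▸ Ideal.pow_le_self he)
    exact ‹P.IsMaximal›.ne_top this
  exact not_dvd_differentIdeal_of_isCoprime_of_charZero A (P ^ e) Q hPe hcop hQ.symm

end Tame

section Elementwise

variable (A K : Type*) {L : Type*} {B : Type*} [CommRing A] [Field K] [CommRing B] [Field L]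
variable [Algebra A K] [Algebra B L] [Algebra A B] [Algebra K L] [Algebra A L]
variable [IsScalarTower A K L] [IsScalarTower A B L]
variable [IsFractionRing A K] [IsFractionRing B L]
variable [IsDedekindDomain A] [IsDedekindDomain B] [IsTorsionFree A B] [Module.Finite A B]
variable [FiniteDimensional K L] [Algebra.IsSeparable K L]

/-- **Elementwise tame bound.**  Every element `y` of the trace dual of `B` has
`v_P(y) ≥ -(e - 1)`, where `e` is the ramification index of `P` over `p` and the residue
field of `p` has characteristic zero.  (Valuations are multiplicative: `≤ exp (e - 1)`.) -/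
theorem valuation_le_of_mem_traceDual
    {p : Ideal A} [p.IsMaximal] [CharZero (A ⧸ p)]
    (w : HeightOneSpectrum B) (e : ℕ) (he : e ≠ 0)
    (hdvd : w.asIdeal ^ e ∣ p.map (algebraMap A B))
    (hndvd : ¬ w.asIdeal ^ (e + 1) ∣ p.map (algebraMap A B))
    {y : L} (hy : y ∈ Submodule.traceDual A K (1 : Submodule B L)) :
    w.valuation L y ≤ WithZero.exp ((e : ℤ) - 1) := by
  have H : RingHom.comp (algebraMap (FractionRing A) (FractionRing B))
      ↑(FractionRing.algEquiv A K).symm.toRingEquiv =
        RingHom.comp ↑(FractionRing.algEquiv B L).symm.toRingEquiv (algebraMap K L) := by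
    apply IsLocalization.ringHom_ext A⁰
    ext
    simp only [RingHom.coe_comp, RingHom.coe_coe,
      AlgEquiv.coe_ringEquiv, Function.comp_apply, AlgEquiv.commutes,
      ← IsScalarTower.algebraMap_apply]
    rw [IsScalarTower.algebraMap_apply A B L, AlgEquiv.commutes, ← IsScalarTower.algebraMap_apply]
  have : Algebra.IsSeparable (FractionRing A) (FractionRing B) :=
    Algebra.IsSeparable.of_equiv_equiv _ _ H
  have hmax : w.asIdeal.IsMaximal := w.isMaximal
  have hnd := not_pow_dvd_differentIdeal_of_charZero A (p := p) w.asIdeal e he hdvd hndvd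
  rw [Ideal.dvd_iff_le, SetLike.not_le_iff_exists] at hnd
  obtain ⟨δ, hδ, hδP⟩ := hnd
  -- `δ * y ∈ B`
  have hδ' : algebraMap B L δ ∈ (1 / Submodule.traceDual A K (1 : Submodule B L)) := by
    rw [← coeSubmodule_differentIdeal A K]
    exact (IsLocalization.mem_coeSubmodule L _).mpr ⟨δ, hδ, rfl⟩
  have hmem : algebraMap B L δ * y ∈ (1 : Submodule B L) :=
    Submodule.mem_div_iff_forall_mul_mem.mp hδ' y hy
  obtain ⟨b, hb⟩ := Submodule.mem_one.mp hmem
  have h1 : w.valuation L (algebraMap B L δ) * w.valuation L y ≤ 1 := by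
    rw [← map_mul, ← hb]
    exact w.valuation_le_one b
  -- `v(δ) ≥ exp (1 - e)`
  have hδ0 : δ ≠ 0 := by
    rintro rfl
    exact hδP (Ideal.zero_mem _)
  have hvδ : WithZero.exp (1 - (e : ℤ)) ≤ w.valuation L (algebraMap B L δ) := by
    rw [w.valuation_of_algebraMap]
    have hne : w.intValuation δ ≠ 0 := w.intValuation_ne_zero δ hδ0
    have hlt : ¬ w.intValuation δ ≤ WithZero.exp (-(e : ℤ)) := by
      rw [w.intValuation_le_pow_iff_mem]
      exact hδP
    rw [not_le] at hlt
    rw [← WithZero.exp_log hne] at hlt ⊢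
    rw [WithZero.exp_lt_exp] at hlt
    rw [WithZero.exp_le_exp]
    omega
  have hvδ0 : w.valuation L (algebraMap B L δ) ≠ 0 := by
    intro h0
    rw [h0] at hvδ
    simp at hvδ
  calc w.valuation L y
      = (w.valuation L (algebraMap B L δ))⁻¹ *
          (w.valuation L (algebraMap B L δ) * w.valuation L y) := by
        rw [← mul_assoc, inv_mul_cancel₀ hvδ0, one_mul]
    _ ≤ (w.valuation L (algebraMap B L δ))⁻¹ * 1 := by gcongr
    _ = (w.valuation L (algebraMap B L δ))⁻¹ := mul_one _
    _ ≤ (WithZero.exp (1 - (e : ℤ)))⁻¹ := by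
        rw [inv_le_inv₀ (zero_lt_iff.mpr hvδ0) (zero_lt_iff.mpr WithZero.exp_ne_zero)]
        exact hvδ
    _ = WithZero.exp ((e : ℤ) - 1) := by
        rw [← WithZero.exp_neg]
        congr 1
        ring

end Elementwise

end Fermat.Agent.S18.helper6082
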