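import Mathlib
import Fermat.Prelude.Def_CuspForm_IntegralStructure
import Fermat.Prelude.Thm_CuspForm_intLattice_fg
import Fermat.Prelude.Thm_CongruenceSubgroup_one_mem_strictPeriods_Gamma0
import Fermat.Prelude.Def_ModularCurve_LaurentCoeff

/-!
# S18-S2RED: a `ℤ`-basis of `S_k(Γ₀(N))` with independent reductions modulo every prime

Hypothesis-passing on `CuspForm.HasIntegralStructure N k` (landed for `k = 2` as S23); everything
else is Mathlib + Prelude (`CuspForm.intLattice_fg`).

Main results (namespace `Fermat.Agent.S18.helper5819`):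

* `linearIndependent_map_algebraMap` : a `K`-linearly independent family of power series over `K`
  stays linearly independent over every extension field `L` (coefficientwise base change).
* `exists_intBasis` : abstract lattice statement (`V` a `ℂ`-space with an injective linear map to
  `ℂ⟦X⟧`, the lattice of integral-coefficient vectors f.g. and spanning).
* `exists_cuspForm_intBasis` : the cusp form instance.
-/

set_option autoImplicit false

noncomputable section

namespace Fermat.Agent.S18.helper5819

open PowerSeries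

section FieldExtension

/-- (A1) A `K`-linearly independent family of power series over `K` stays linearly independent
over any extension field `L` after coefficientwise base change. -/
theorem linearIndependent_map_algebraMap {K L : Type*} [Field K] [Field L] [Algebra K L]
    {ι : Type*} {v : ι → PowerSeries K} (hv : LinearIndependent K v) :
    LinearIndependent L (fun i => (v i).map (algebraMap K L)) := by
  classical
  rw [linearIndependent_iff'] at hv ⊢
  intro s g hg i hi
  by_contra hne
  obtain ⟨φ, hφ⟩ : ∃ φ : L →ₗ[K] K, φ (g i) ≠ 0 := by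
    by_contra hcon
    push Not at hcon
    exact hne ((Module.forall_dual_apply_eq_zero_iff K (g i)).mp hcon)
  have key : ∑ j ∈ s, φ (g j) • v j = 0 := by
    ext n
    have h1 : φ (PowerSeries.coeff n (∑ j ∈ s, g j • (v j).map (algebraMap K L))) = 0 := by
      rw [hg]; simp
    rw [map_sum, map_sum] at h1
    rw [map_sum, map_zero, ← h1]
    refine Finset.sum_congr rfl fun j _ => ?_
    rw [PowerSeries.coeff_smul, PowerSeries.coeff_smul, PowerSeries.coeff_map, smul_eq_mul,
      smul_eq_mul, mul_comm (g j), ← Algebra.smul_def, map_smul, smul_eq_mul, mul_comm]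
  exact hφ (hv s (fun j => φ (g j)) key i hi)

/-- (A2) A `ℤ`-linearly independent family of integral power series is `ℚ`-linearly independent
after base change to `ℚ`. -/
theorem linearIndependent_map_intCast_rat {ι : Type*} {B : ι → PowerSeries ℤ}
    (hB : LinearIndependent ℤ B) :
    LinearIndependent ℚ (fun i => (B i).map (Int.castRingHom ℚ)) := by
  have hinj : Function.Injective (PowerSeries.map (Int.castRingHom ℚ)) := by
    intro x y hxy
    ext n
    have := congrArg (PowerSeries.coeff n) hxy
    simpa using this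
  have h1 : LinearIndependent ℤ (fun i => (B i).map (Int.castRingHom ℚ)) :=
    hB.map' (PowerSeries.map (Int.castRingHom ℚ)).toAddMonoidHom.toIntLinearMap
      (LinearMap.ker_eq_bot.mpr hinj)
  exact (LinearIndependent.iff_fractionRing ℤ ℚ).mp h1

/-- (A1+A2) A `ℤ`-linearly independent family of integral power series is linearly independent
over every field of characteristic zero. -/
theorem linearIndependent_map_intCast_charZero {ι : Type*} {B : ι → PowerSeries ℤ}
    (hB : LinearIndependent ℤ B) (L : Type*) [Field L] [CharZero L] :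
    LinearIndependent L (fun i => (B i).map (Int.castRingHom L)) := by
  have h := linearIndependent_map_algebraMap (L := L) (linearIndependent_map_intCast_rat hB)
  convert h using 2 with i
  ext n
  simp

end FieldExtension

section Lattice

variable {V : Type*} [AddCommGroup V] [Module ℂ V]

/-- The `ℤ`-span of the vectors with integral coefficients consists of vectors with integral
coefficients. -/
theorem mem_span_int_iff (Q : V →ₗ[ℂ] PowerSeries ℂ) (f : V) :
    f ∈ Submodule.span ℤ {f : V | ∀ n : ℕ, ∃ m : ℤ, PowerSeries.coeff n (Q f) = (m : ℂ)} ↔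
      ∀ n : ℕ, ∃ m : ℤ, PowerSeries.coeff n (Q f) = (m : ℂ) := by
  refine ⟨fun hf => ?_, fun hf => Submodule.subset_span hf⟩
  induction hf using Submodule.span_induction with
  | mem x hx => exact hx
  | zero => exact fun n => ⟨0, by simp⟩
  | add x y _ _ hx hy =>
    intro n
    obtain ⟨a, ha⟩ := hx n
    obtain ⟨b, hb⟩ := hy n
    exact ⟨a + b, by rw [map_add, map_add, ha, hb]; push_cast; rfl⟩
  | smul z x _ hx =>
    intro n
    obtain ⟨a, ha⟩ := hx n
    refine ⟨z * a, ?_⟩
    rw [← Int.cast_smul_eq_zsmul ℂ z x, map_smul, map_smul, ha]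
    push_cast
    rfl

/-- **Abstract lattice statement.** Let `Q : V → ℂ⟦X⟧` be an injective linear map such that the
lattice of vectors with integral coefficients is finitely generated and spans `V`. Then `V` has a
basis `b` whose members have integral expansions `B i`, such that every vector with integral
coefficients has integral coordinates. -/
theorem exists_intBasis (Q : V →ₗ[ℂ] PowerSeries ℂ) (hQ : Function.Injective Q)
    (hfg : (Submodule.span ℤ
      {f : V | ∀ n : ℕ, ∃ m : ℤ, PowerSeries.coeff n (Q f) = (m : ℂ)}).FG)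
    (hspan : Submodule.span ℂ ((Submodule.span ℤ
      {f : V | ∀ n : ℕ, ∃ m : ℤ, PowerSeries.coeff n (Q f) = (m : ℂ)} : Submodule ℤ V) : Set V)
        = ⊤) :
    ∃ (r : ℕ) (b : Module.Basis (Fin r) ℂ V) (B : Fin r → PowerSeries ℤ),
      (∀ i, Q (b i) = (B i).map (Int.castRingHom ℂ)) ∧
      LinearIndependent ℤ B ∧
      (∀ f : V, (∀ n : ℕ, ∃ m : ℤ, PowerSeries.coeff n (Q f) = (m : ℂ)) →
        ∀ i, ∃ m : ℤ, b.repr f i = (m : ℂ)) := by
  classical
  set Λ : Submodule ℤ V := Submodule.span ℤ
      {f : V | ∀ n : ℕ, ∃ m : ℤ, PowerSeries.coeff n (Q f) = (m : ℂ)} with hΛ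
  have : IsAddTorsionFree V := .of_isTorsionFree ℂ V
  have : Module.Finite ℤ Λ := Module.Finite.of_fg hfg
  have : Module.Free ℤ Λ := Module.free_of_finite_type_torsion_free'
  let β := Module.finBasis ℤ Λ
  set r := Module.finrank ℤ Λ with hr
  have hmem : ∀ i, ∀ n : ℕ, ∃ m : ℤ, PowerSeries.coeff n (Q (β i : V)) = (m : ℂ) :=
    fun i => (mem_span_int_iff Q _).mp (β i).2
  choose c hc using hmem
  let B : Fin r → PowerSeries ℤ := fun i => PowerSeries.mk (c i)
  have hQB : ∀ i, Q (β i : V) = (B i).map (Int.castRingHom ℂ) := by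
    intro i
    ext n
    rw [hc i n]
    simp [B]
  -- `ℤ`-independence of `B`
  have hmapinj : Function.Injective (PowerSeries.map (Int.castRingHom ℂ)) := by
    intro x y hxy
    ext n
    have := congrArg (PowerSeries.coeff n) hxy
    simpa using this
  have hBli : LinearIndependent ℤ B := by
    have h1 : LinearIndependent ℤ (fun i => (β i : V)) :=
      β.linearIndependent.map' Λ.subtype (Submodule.ker_subtype Λ)
    have h2 : LinearIndependent ℤ (fun i => Q (β i : V)) :=
      h1.map' (Q.restrictScalars ℤ) (LinearMap.ker_eq_bot.mpr hQ)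
    have h3 : LinearIndependent ℤ
        ((PowerSeries.map (Int.castRingHom ℂ)).toAddMonoidHom.toIntLinearMap ∘ B) := by
      convert h2 using 1
      funext i
      exact (hQB i).symm
    exact LinearIndependent.of_comp _ h3
  -- `ℂ`-independence of the basis vectors
  have hli : LinearIndependent ℂ (fun i => (β i : V)) := by
    have h4 := linearIndependent_map_intCast_charZero hBli ℂ
    have h5 : LinearIndependent ℂ (Q ∘ fun i => (β i : V)) := by
      have hfun : (Q ∘ fun i => (β i : V)) = fun i => (B i).map (Int.castRingHom ℂ) :=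
        funext hQB
      rw [hfun]
      exact h4
    exact LinearIndependent.of_comp Q h5
  -- spanning
  have hsp : ⊤ ≤ Submodule.span ℂ (Set.range fun i => (β i : V)) := by
    rw [← hspan]
    refine Submodule.span_le.mpr ?_
    intro x hx
    have hx' : (⟨x, hx⟩ : Λ) = ∑ i, β.repr ⟨x, hx⟩ i • β i := (β.sum_repr ⟨x, hx⟩).symm
    have hx'' : x = ∑ i, β.repr ⟨x, hx⟩ i • (β i : V) := by
      have := congrArg (Subtype.val) hx'
      rw [Submodule.coe_sum] at this
      simpa only [Submodule.coe_smul] using this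
    rw [hx'']
    refine Submodule.sum_mem _ fun i _ => ?_
    rw [← Int.cast_smul_eq_zsmul ℂ]
    exact Submodule.smul_mem _ _ (Submodule.subset_span ⟨i, rfl⟩)
  refine ⟨r, Module.Basis.mk hli hsp, B, fun i => ?_, hBli, fun f hf i => ?_⟩
  · rw [Module.Basis.mk_apply]
    exact hQB i
  · have hfΛ : f ∈ Λ := (mem_span_int_iff Q f).mpr hf
    refine ⟨β.repr ⟨f, hfΛ⟩ i, ?_⟩
    have hf' : (⟨f, hfΛ⟩ : Λ) = ∑ i, β.repr ⟨f, hfΛ⟩ i • β i := (β.sum_repr ⟨f, hfΛ⟩).symm
    have hf'' : f = ∑ j, ((β.repr ⟨f, hfΛ⟩ j : ℤ) : ℂ) • (Module.Basis.mk hli hsp) j := by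
      have := congrArg (Subtype.val) hf'
      rw [Submodule.coe_sum] at this
      simp only [Module.Basis.mk_apply, Int.cast_smul_eq_zsmul]
      simpa only [Submodule.coe_smul] using this
    conv_lhs => rw [hf'']
    rw [Module.Basis.repr_sum_self]

/-- **Saturation.** In the situation of `exists_intBasis`: if a nonzero integer `d` divides all
coefficients of an integral combination `∑ cᵢ Bᵢ`, then `d` divides every `cᵢ`. -/
theorem intBasis_saturated (Q : V →ₗ[ℂ] PowerSeries ℂ) {r : ℕ} (b : Module.Basis (Fin r) ℂ V)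
    (B : Fin r → PowerSeries ℤ) (hQB : ∀ i, Q (b i) = (B i).map (Int.castRingHom ℂ))
    (hint : ∀ f : V, (∀ n : ℕ, ∃ m : ℤ, PowerSeries.coeff n (Q f) = (m : ℂ)) →
      ∀ i, ∃ m : ℤ, b.repr f i = (m : ℂ))
    (d : ℤ) (hd : d ≠ 0) (c : Fin r → ℤ)
    (h : ∀ n, d ∣ PowerSeries.coeff n (∑ i, c i • B i)) : ∀ i, d ∣ c i := by
  have hdC : (d : ℂ) ≠ 0 := by exact_mod_cast hd
  set g : V := ∑ i, ((d : ℂ)⁻¹ * (c i : ℂ)) • b i with hg
  have hgint : ∀ n : ℕ, ∃ m : ℤ, PowerSeries.coeff n (Q g) = (m : ℂ) := by
    intro n
    obtain ⟨e, he⟩ := h n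
    refine ⟨e, ?_⟩
    have h1 : ((PowerSeries.coeff n (∑ i, c i • B i) : ℤ) : ℂ) = (d : ℂ) * (e : ℂ) := by
      rw [he]; push_cast; rfl
    rw [map_sum] at h1
    rw [hg, map_sum, map_sum]
    have h2 : ∀ i, PowerSeries.coeff n (Q (((d : ℂ)⁻¹ * (c i : ℂ)) • b i)) =
        (d : ℂ)⁻¹ * ((PowerSeries.coeff n (c i • B i) : ℤ) : ℂ) := by
      intro i
      rw [map_smul, hQB, PowerSeries.coeff_smul, PowerSeries.coeff_map, smul_eq_mul]
      simp only [map_zsmul, smul_eq_mul, Int.cast_mul, eq_intCast]
      ring
    rw [Finset.sum_congr rfl fun i _ => h2 i, ← Finset.mul_sum]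
    have h3 : ∑ i, ((PowerSeries.coeff n (c i • B i) : ℤ) : ℂ) = (d : ℂ) * (e : ℂ) := by
      rw [← h1]; push_cast; rfl
    rw [h3, ← mul_assoc, inv_mul_cancel₀ hdC, one_mul]
  intro i
  obtain ⟨m, hm⟩ := hint g hgint i
  rw [hg, Module.Basis.repr_sum_self] at hm
  refine ⟨m, ?_⟩
  have : (c i : ℂ) = (d : ℂ) * (m : ℂ) := by
    rw [← hm, ← mul_assoc, mul_inv_cancel₀ hdC, one_mul]
  exact_mod_cast this

end Lattice

section ModP

/-- A saturated family of integral power series is linearly independent over `ZMod p`. -/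
theorem linearIndependent_zmod_of_saturated {r : ℕ} (B : Fin r → PowerSeries ℤ) (p : ℕ)
    [Fact p.Prime]
    (hsat : ∀ c : Fin r → ℤ, (∀ n, (p : ℤ) ∣ PowerSeries.coeff n (∑ i, c i • B i)) →
      ∀ i, (p : ℤ) ∣ c i) :
    LinearIndependent (ZMod p) (fun i => (B i).map (Int.castRingHom (ZMod p))) := by
  rw [Fintype.linearIndependent_iff]
  intro g hg i
  obtain ⟨c, hc⟩ : ∃ c : Fin r → ℤ, ∀ i, ((c i : ℤ) : ZMod p) = g i :=
    ⟨fun i => ((g i).val : ℤ), fun i => by simp⟩
  have hdvd : ∀ n, (p : ℤ) ∣ PowerSeries.coeff n (∑ i, c i • B i) := by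
    intro n
    rw [← ZMod.intCast_zmod_eq_zero_iff_dvd]
    have h1 := congrArg (PowerSeries.coeff n) hg
    rw [map_sum, map_zero] at h1
    rw [map_sum, Int.cast_sum, ← h1]
    refine Finset.sum_congr rfl fun j _ => ?_
    rw [map_zsmul, PowerSeries.coeff_smul, PowerSeries.coeff_map, ← hc j]
    simp
  have := hsat c hdvd i
  rw [← hc i]
  exact (ZMod.intCast_zmod_eq_zero_iff_dvd (c i) p).mpr this

/-- **(B3)** A saturated family of integral power series is linearly independent over EVERY field
of characteristic `p`. -/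
theorem linearIndependent_charP_of_saturated {r : ℕ} (B : Fin r → PowerSeries ℤ) (p : ℕ)
    [Fact p.Prime]
    (hsat : ∀ c : Fin r → ℤ, (∀ n, (p : ℤ) ∣ PowerSeries.coeff n (∑ i, c i • B i)) →
      ∀ i, (p : ℤ) ∣ c i)
    (k : Type*) [Field k] [CharP k p] :
    LinearIndependent k (fun i => (B i).map (Int.castRingHom k)) := by
  let _ : Algebra (ZMod p) k := ZMod.algebra k p
  have h := linearIndependent_map_algebraMap (L := k)
    (linearIndependent_zmod_of_saturated B p hsat)
  convert h using 2 with i
  ext n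
  simp

end ModP

section Truncation

/-- **(B5)** A finite linearly independent family of power series over a field is already
independent on finitely many coefficients. -/
theorem exists_trunc_of_linearIndependent {k : Type*} [Field k] {r : ℕ}
    {v : Fin r → PowerSeries k} (hv : LinearIndependent k v) :
    ∃ n₀ : ℕ, ∀ c : Fin r → k,
      (∀ n < n₀, ∑ i, c i * PowerSeries.coeff n (v i) = 0) → c = 0 := by
  classical
  let W : ℕ → Submodule k (Fin r → k) := fun n =>
    { carrier := {c | ∀ m < n, ∑ i, c i * PowerSeries.coeff m (v i) = 0}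
      add_mem' := by
        intro a b ha hb m hm
        simp only [Pi.add_apply, add_mul, Finset.sum_add_distrib, ha m hm, hb m hm, add_zero]
      zero_mem' := by
        intro m _
        simp
      smul_mem' := by
        intro t a ha m hm
        simp only [Pi.smul_apply, smul_eq_mul, mul_assoc, ← Finset.mul_sum, ha m hm, mul_zero] }
  have hanti : Antitone W := by
    intro a b hab c hc m hm
    exact hc m (lt_of_lt_of_le hm hab)
  obtain ⟨n₀, hn₀⟩ := IsArtinian.monotone_stabilizes
    (⟨fun n => OrderDual.toDual (W n), fun a b hab => hanti hab⟩ :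
      ℕ →o (Submodule k (Fin r → k))ᵒᵈ)
  refine ⟨n₀, fun c hc => ?_⟩
  have hall : ∀ m, ∑ i, c i * PowerSeries.coeff m (v i) = 0 := by
    intro m
    have h1 : c ∈ W (max n₀ (m + 1)) := by
      have := hn₀ (max n₀ (m + 1)) (le_max_left _ _)
      have h2 : W n₀ = W (max n₀ (m + 1)) := congrArg OrderDual.ofDual this
      rw [← h2]
      exact hc
    exact h1 m (lt_of_lt_of_le (Nat.lt_succ_self m) (le_max_right _ _))
  have hsum : ∑ i, c i • v i = 0 := by
    ext m
    rw [map_sum, map_zero, ← hall m]
    exact Finset.sum_congr rfl fun i _ => by rw [PowerSeries.coeff_smul, smul_eq_mul]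
  funext i
  exact (Fintype.linearIndependent_iff.mp hv) c hsum i

end Truncation

section CuspForms

open UpperHalfPlane

/-- The `q`-expansion (at width `1`) as a `ℂ`-linear map on cusp forms of level `Γ₀(N)`. -/
def qExpL (N : ℕ) (k : ℤ) : CuspForm (CongruenceSubgroup.Gamma0 N) k →ₗ[ℂ] PowerSeries ℂ where
  toFun f := qExpansion 1 f
  map_add' f g := by
    rw [FunLike.coe_add]
    exact ModularForm.qExpansion_add one_pos
      (CongruenceSubgroup.one_mem_strictPeriods_Gamma0 N) f g
  map_smul' a f := by
    rw [FunLike.coe_smul]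
    exact ModularForm.qExpansion_smul one_pos
      (CongruenceSubgroup.one_mem_strictPeriods_Gamma0 N) a f

@[simp]
theorem qExpL_apply (N : ℕ) (k : ℤ) (f : CuspForm (CongruenceSubgroup.Gamma0 N) k) :
    qExpL N k f = qExpansion 1 f := rfl

theorem coeff_qExpL (N : ℕ) (k : ℤ) (f : CuspForm (CongruenceSubgroup.Gamma0 N) k) (n : ℕ) :
    PowerSeries.coeff n (qExpL N k f) = ModularFormClass.qCoeff f n := rfl

theorem qExpL_injective (N : ℕ) (k : ℤ) : Function.Injective (qExpL N k) := by
  rw [← LinearMap.ker_eq_bot, LinearMap.ker_eq_bot']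
  intro f hf
  have hΓ := CongruenceSubgroup.one_mem_strictPeriods_Gamma0 N
  have : Fact (IsCusp OnePoint.infty
      (Subgroup.map (Matrix.SpecialLinearGroup.mapGL ℝ) (CongruenceSubgroup.Gamma0 N))) :=
    ⟨Subgroup.isCusp_of_mem_strictPeriods one_pos hΓ⟩
  have h0 : (f : ℍ → ℂ) = 0 :=
    (UpperHalfPlane.qExpansion_eq_zero_iff one_pos
      (SlashInvariantFormClass.periodic_comp_ofComplex f hΓ) (ModularFormClass.holo f)
      (ModularFormClass.bdd_at_infty f)).mp hf
  exact DFunLike.coe_injective h0

theorem constantCoeff_qExpL (N : ℕ) (k : ℤ) (f : CuspForm (CongruenceSubgroup.Gamma0 N) k) :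
    PowerSeries.coeff 0 (qExpL N k f) = 0 :=
  CuspFormClass.qExpansion_coeff_zero f one_pos
    (CongruenceSubgroup.one_mem_strictPeriods_Gamma0 N)

/-- `HahnSeries.ofPowerSeries` as a linear map (power series to Laurent series). -/
def ofPowerSeriesLin (R : Type*) [CommRing R] : PowerSeries R →ₗ[R] LaurentSeries R where
  toFun := HahnSeries.ofPowerSeries ℤ R
  map_add' := map_add _
  map_smul' a f := by
    rw [PowerSeries.smul_eq_C_mul, map_mul, HahnSeries.ofPowerSeries_C, HahnSeries.C_mul_eq_smul]
    rfl

/-- An integral basis of `S_k(Γ₀(N))`: a `ℂ`-basis `b` of cusp forms with integral `q`-expansions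
`B i`, such that every cusp form with integral `q`-expansion has integral coordinates. -/
structure IntBasis (N : ℕ) (k : ℤ) where
  /-- the dimension -/
  r : ℕ
  /-- the basis of cusp forms -/
  b : Module.Basis (Fin r) ℂ (CuspForm (CongruenceSubgroup.Gamma0 N) k)
  /-- the integral `q`-expansions of the basis vectors -/
  B : Fin r → PowerSeries ℤ
  qExpansion_eq : ∀ i, qExpansion 1 (b i) = (B i).map (Int.castRingHom ℂ)
  repr_int : ∀ f : CuspForm (CongruenceSubgroup.Gamma0 N) k,
    (∀ n : ℕ, ∃ m : ℤ, ModularFormClass.qCoeff f n = (m : ℂ)) → ∀ i, ∃ m : ℤ, b.repr f i = (m : ℂ)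

/-- **(B1)** From the integral structure (S23 for weight `2`) and the finite generation of the
integral lattice (Prelude) one gets an integral basis. -/
theorem nonempty_intBasis (N : ℕ) [NeZero N] (k : ℤ) (h : CuspForm.HasIntegralStructure N k) :
    Nonempty (IntBasis N k) := by
  obtain ⟨r, b, B, hQB, -, hint⟩ := exists_intBasis (qExpL N k) (qExpL_injective N k)
    (CuspForm.intLattice_fg N k) h
  exact ⟨⟨r, b, B, hQB, hint⟩⟩

namespace IntBasis

variable {N : ℕ} {k : ℤ} (D : IntBasis N k)

theorem r_eq : D.r = Module.finrank ℂ (CuspForm (CongruenceSubgroup.Gamma0 N) k) := by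
  rw [Module.finrank_eq_card_basis D.b, Fintype.card_fin]

theorem qCoeff_eq (i : Fin D.r) (n : ℕ) :
    ModularFormClass.qCoeff (D.b i) n = ((PowerSeries.coeff n (D.B i) : ℤ) : ℂ) := by
  rw [ModularFormClass.qCoeff, D.qExpansion_eq i, PowerSeries.coeff_map]
  rfl

/-- the expansions of the basis vectors have no constant term (cusp forms) -/
theorem constantCoeff_B (i : Fin D.r) : PowerSeries.coeff 0 (D.B i) = 0 := by
  have h := constantCoeff_qExpL N k (D.b i)
  rw [qExpL_apply, D.qExpansion_eq i, PowerSeries.coeff_map] at h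
  have h' : ((PowerSeries.coeff 0 (D.B i) : ℤ) : ℂ) = 0 := h
  exact_mod_cast h'

/-- the `q`-expansion of a general cusp form in terms of the integral basis -/
theorem qExpansion_eq_sum (f : CuspForm (CongruenceSubgroup.Gamma0 N) k) :
    qExpansion 1 f = ∑ i, D.b.repr f i • (D.B i).map (Int.castRingHom ℂ) := by
  have h := congrArg (qExpL N k) (D.b.sum_repr f)
  rw [map_sum] at h
  rw [← qExpL_apply, ← h]
  refine Finset.sum_congr rfl fun i _ => ?_
  rw [map_smul, qExpL_apply, D.qExpansion_eq i]

/-- **(B2)** saturation: if `d ≠ 0` divides all coefficients of `∑ cᵢ Bᵢ` then `d ∣ cᵢ`. -/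
theorem saturated (d : ℤ) (hd : d ≠ 0) (c : Fin D.r → ℤ)
    (h : ∀ n, d ∣ PowerSeries.coeff n (∑ i, c i • D.B i)) : ∀ i, d ∣ c i :=
  intBasis_saturated (qExpL N k) D.b D.B D.qExpansion_eq D.repr_int d hd c h

theorem linearIndependent_int : LinearIndependent ℤ D.B := by
  rw [Fintype.linearIndependent_iff]
  intro c hc i
  have h1 : qExpL N k (∑ j, (c j : ℂ) • D.b j) = 0 := by
    rw [map_sum]
    have h2 := congrArg (PowerSeries.map (Int.castRingHom ℂ)) hc
    rw [map_sum, map_zero] at h2
    rw [← h2]
    refine Finset.sum_congr rfl fun j _ => ?_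
    rw [map_smul, qExpL_apply, D.qExpansion_eq j]
    ext n
    rw [PowerSeries.coeff_smul, PowerSeries.coeff_map, PowerSeries.coeff_map, map_zsmul]
    simp
  have h3 : ∑ j, (c j : ℂ) • D.b j = 0 := qExpL_injective N k (by rw [h1, map_zero])
  have h4 := (Fintype.linearIndependent_iff.mp D.b.linearIndependent) (fun j => (c j : ℂ)) h3 i
  exact_mod_cast h4

/-- the expansions are linearly independent over every field of characteristic zero -/
theorem linearIndependent_charZero (L : Type*) [Field L] [CharZero L] :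
    LinearIndependent L (fun i => (D.B i).map (Int.castRingHom L)) :=
  linearIndependent_map_intCast_charZero D.linearIndependent_int L

/-- **(B3)** the reductions of the expansions are linearly independent over EVERY field of
characteristic `p`, for every prime `p` (no hypothesis `p ∤ N`). -/
theorem linearIndependent_charP (p : ℕ) [Fact p.Prime] (κ : Type*) [Field κ] [CharP κ p] :
    LinearIndependent κ (fun i => (D.B i).map (Int.castRingHom κ)) :=
  linearIndependent_charP_of_saturated D.B p
    (fun c h => D.saturated (p : ℤ) (by exact_mod_cast (Fact.out : p.Prime).ne_zero) c h) κ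

/-- **(B5)** truncation index in characteristic `p`: the reductions are already independent on
the coefficients of `q^n`, `n < n₀`. -/
theorem exists_trunc_charP (p : ℕ) [Fact p.Prime] (κ : Type*) [Field κ] [CharP κ p] :
    ∃ n₀ : ℕ, ∀ c : Fin D.r → κ,
      (∀ n < n₀, ∑ i, c i * ((PowerSeries.coeff n (D.B i) : ℤ) : κ) = 0) → c = 0 := by
  obtain ⟨n₀, hn₀⟩ := exists_trunc_of_linearIndependent (D.linearIndependent_charP p κ)
  refine ⟨n₀, fun c hc => hn₀ c fun n hn => ?_⟩
  rw [← hc n hn]
  refine Finset.sum_congr rfl fun i _ => ?_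
  rw [PowerSeries.coeff_map]
  rfl

/-- The `q`-expansion of the `i`-th basis vector as a Laurent series over an arbitrary
commutative ring (Prelude vocabulary: `LaurentSeries`, `ModularCurve.coeffMap`). -/
def laurent (R : Type*) [CommRing R] (i : Fin D.r) : LaurentSeries R :=
  HahnSeries.ofPowerSeries ℤ R ((D.B i).map (Int.castRingHom R))

theorem laurent_coeff_natCast (R : Type*) [CommRing R] (i : Fin D.r) (n : ℕ) :
    (D.laurent R i).coeff (n : ℤ) = ((PowerSeries.coeff n (D.B i) : ℤ) : R) := by
  rw [laurent, HahnSeries.ofPowerSeries_apply_coeff, PowerSeries.coeff_map]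
  rfl

theorem laurent_coeff_of_nonpos (R : Type*) [CommRing R] (i : Fin D.r) {n : ℤ} (hn : n ≤ 0) :
    (D.laurent R i).coeff n = 0 := by
  rcases hn.lt_or_eq with h | rfl
  · rw [laurent, HahnSeries.ofPowerSeries_apply]
    refine HahnSeries.embDomain_of_notMem_range ?_
    rintro ⟨m, rfl⟩
    exact absurd h (not_lt.mpr (Int.natCast_nonneg m))
  · have h := D.laurent_coeff_natCast R i 0
    rw [D.constantCoeff_B i] at h
    simpa using h

theorem coeffMap_laurent {R S : Type*} [CommRing R] [CommRing S] (f : R →+* S) (i : Fin D.r) :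
    ModularCurve.coeffMap f (D.laurent R i) = D.laurent S i := by
  ext n
  rw [ModularCurve.coeffMap_coeff]
  rcases lt_or_ge 0 n with hn | hn
  · lift n to ℕ using hn.le
    rw [laurent_coeff_natCast, laurent_coeff_natCast, map_intCast]
  · rw [D.laurent_coeff_of_nonpos R i hn, D.laurent_coeff_of_nonpos S i hn, map_zero]

theorem laurent_linearIndependent_charP (p : ℕ) [Fact p.Prime] (κ : Type*) [Field κ]
    [CharP κ p] : LinearIndependent κ (D.laurent κ) :=
  (D.linearIndependent_charP p κ).map' (ofPowerSeriesLin κ)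
    (LinearMap.ker_eq_bot.mpr HahnSeries.ofPowerSeries_injective)

theorem laurent_linearIndependent_charZero (L : Type*) [Field L] [CharZero L] :
    LinearIndependent L (D.laurent L) :=
  (D.linearIndependent_charZero L).map' (ofPowerSeriesLin L)
    (LinearMap.ker_eq_bot.mpr HahnSeries.ofPowerSeries_injective)

end IntBasis

end CuspForms

end Fermat.Agent.S18.helper5819
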