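import Mathlib
import Fermat.Agent.S18.helper3054_Kummer
import Fermat.Agent.S18.helper5819_S2Red
import Fermat.Prelude.Def_AlgebraicCurve_Repartitions

/-!
# S18, TRACK C (polar parts at the cusp `∞`): the interface Props

Track C (findings #2248, checked in #2396, audited in #2644) proves the Kummer field form
`helper3054.Stmt_KF0 N ℓ` from SIX Props about the function field `F = modularFunctionFieldBar N`
and its reduction.  This file fixes their exact statements (part 1).  The closing theorem
`kf0_of_trackC` is in `helper99_SpecCMain.lean`.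

Notation: `ℚ̄ = AlgebraicClosure ℚ`, `A` a valuation subring of `ℚ̄` over `ℓ`, `κ` its residue
field, `inc = coeffMap A.subtype`, `red = coeffMap (IsLocalRing.residue A)`.
-/

set_option autoImplicit false
set_option synthInstance.maxHeartbeats 400000

noncomputable section

namespace Fermat.Agent.S18.helper99

open ModularCurve AlgebraicCurve HahnSeries

/-- `P` is the cusp `∞` of `X₀(N)`: its order function is the `q`-order. -/
def IsCuspInf (N : ℕ) (P : Place (AlgebraicClosure ℚ) (modularFunctionFieldBar N)) : Prop :=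
  ∀ f : modularFunctionFieldBar N, f ≠ 0 →
    P.ord f = (f : LaurentSeries (AlgebraicClosure ℚ)).order

/-- `x` is regular away from the cusp `∞` (no pole at any other place). -/
def RegAwayInf (N : ℕ) (x : modularFunctionFieldBar N) : Prop :=
  ∀ P : Place (AlgebraicClosure ℚ) (modularFunctionFieldBar N), ¬ IsCuspInf N P → 0 ≤ P.ord x

/-- **(C0) place facts in characteristic zero** (all on main: S24 / S37 / helper7885). -/
structure PlaceFacts (N : ℕ) : Prop where
  principal : HasPrincipalDivisors (AlgebraicClosure ℚ) (modularFunctionFieldBar N)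
  deg_one : ∀ v : Place (AlgebraicClosure ℚ) (modularFunctionFieldBar N), v.deg = 1
  const : ∀ f : modularFunctionFieldBar N, f ≠ 0 →
    (∀ v : Place (AlgebraicClosure ℚ) (modularFunctionFieldBar N), v.ord f = 0) →
    ∃ c : AlgebraicClosure ℚ, f = algebraMap (AlgebraicClosure ℚ) (modularFunctionFieldBar N) c
  cusp : ∃ P, IsCuspInf N P

/-- **(C1) = (R)**: Riemann's inequality at the cusp `∞` with `g = dim S₂(Γ₀(N))`
(leaf RCUSP / RHURW / HURWITZ). -/
def Stmt_R (N : ℕ) : Prop :=
  ∀ P : Place (AlgebraicClosure ℚ) (modularFunctionFieldBar N), IsCuspInf N P → ∀ n : ℕ,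
    (n : ℤ) + 1 - (Module.finrank ℂ (CuspForm (CongruenceSubgroup.Gamma0 N) 2) : ℤ) ≤
      (Module.finrank (AlgebraicClosure ℚ)
        (riemannRochSpace (n • Finsupp.single P (1 : ℤ))) : ℤ)

/-- **(C2) = (Ig)**: the reduction of an integral series of `F` lies in the
characteristic-`ℓ` function field (leaf GAUSSMOD; needs `ℓ ∤ N`). -/
def Stmt_Gauss (N : ℕ) [NeZero N] (A : ValuationSubring (AlgebraicClosure ℚ)) : Prop :=
  ∀ x : LaurentSeries A, coeffMap A.subtype x ∈ modularFunctionFieldBar N →
    coeffMap (IsLocalRing.residue A) x ∈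
      modularFunctionFieldFullC (IsLocalRing.ResidueField A) N

/-- **(C3) = bounded denominators**: a function regular away from `∞` has, up to a nonzero
constant, an `A`-integral `q`-expansion (leaf CONJ0 + landed CIC). -/
def Stmt_BD (N : ℕ) (A : ValuationSubring (AlgebraicClosure ℚ)) : Prop :=
  ∀ x : modularFunctionFieldBar N, RegAwayInf N x →
    ∃ c : AlgebraicClosure ℚ, c ≠ 0 ∧ ∃ y : LaurentSeries A,
      coeffMap A.subtype y = HahnSeries.C c * (x : LaurentSeries (AlgebraicClosure ℚ))

/-- **(C4) = (KL) package**: a `κ`-algebra `B ⊆ κ((q))` ("functions of the special fibre regular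
away from `∞`") with
* `root`  : `B` is root closed in the characteristic-`ℓ` function field;
* `const` : an element of `B` without polar part is a constant;
* `kl`    : the residue lemma: `[q⁰] (y · f̄) = 0` for `y ∈ B` and `f` in an integral basis of
            `S₂(Γ₀(N))`;
* `ct`    : the reduction of an integral function regular away from `∞` lies in `B`.
(leaves KLV + CONJ0 + CERT + GAUSSMOD; needs `ℓ ∤ N` and the Hauptmodul line `r ∣ N`, `ℓ ≠ r`). -/
def Stmt_Bbar (N : ℕ) [NeZero N] (A : ValuationSubring (AlgebraicClosure ℚ)) : Prop :=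
  ∃ B : Subalgebra (IsLocalRing.ResidueField A) (LaurentSeries (IsLocalRing.ResidueField A)),
    (∀ y ∈ modularFunctionFieldFullC (IsLocalRing.ResidueField A) N, ∀ k : ℕ, 0 < k →
      y ^ k ∈ B → y ∈ B) ∧
    (∀ y ∈ B, (∀ i : ℤ, i < 0 → y.coeff i = 0) →
      ∃ c : IsLocalRing.ResidueField A, y = HahnSeries.C c) ∧
    (∀ (D : helper5819.IntBasis N 2) (i : Fin D.r), ∀ y ∈ B,
      (y * D.laurent (IsLocalRing.ResidueField A) i).coeff 0 = 0) ∧
    (∀ (x : LaurentSeries A) (hx : coeffMap A.subtype x ∈ modularFunctionFieldBar N),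
      RegAwayInf N ⟨coeffMap A.subtype x, hx⟩ → coeffMap (IsLocalRing.residue A) x ∈ B)

/-- **(C5) = normalization** (fix (G1) of audit #2644, leaf D5b): in the situation of
`Stmt_KF0`, after multiplying `u = a / b` by an `m`-th power `g ^ m` one gets a unit power
series `p ∈ A[[q]]` with `p ≡ 1` modulo the maximal ideal. -/
def Stmt_Norm (N : ℕ) [NeZero N] (ℓ : ℕ) (A : ValuationSubring (AlgebraicClosure ℚ)) : Prop :=
  ∀ (m : ℕ), ¬ ℓ ∣ m →
  ∀ (a b : helper3054.IntegralFn A N),
    (∀ P : Place (AlgebraicClosure ℚ) (modularFunctionFieldBar N),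
      (m : ℤ) ∣ P.ord a.gen - P.ord b.gen) →
    ∀ (w : modularFunctionFieldFullC (IsLocalRing.ResidueField A) N), w ≠ 0 →
      a.red = w ^ m * b.red →
      ∃ (g : modularFunctionFieldBar N) (p : LaurentSeries A), g ≠ 0 ∧
        (∀ i : ℤ, i < 0 → p.coeff i = 0) ∧ coeffMap (IsLocalRing.residue A) p = 1 ∧
        coeffMap A.subtype p * (b.gen : LaurentSeries (AlgebraicClosure ℚ)) =
          (a.gen : LaurentSeries (AlgebraicClosure ℚ)) *
            (g : LaurentSeries (AlgebraicClosure ℚ)) ^ m

end Fermat.Agent.S18.helper99
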