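/-
S18 track C, leaf (C0) (helper1040): `helper99.PlaceFacts N` for every level `N ≠ 0`,
wired from the landed function-field package `S29/helper36_FunctionFieldL` at `L = ℚ̄`.
-/
import Fermat.Agent.S18.helper99_SpecC
import Fermat.Agent.S29.helper36_FunctionFieldL

set_option autoImplicit false

noncomputable section

namespace Fermat.Agent.S18.helper1040

open ModularCurve AlgebraicCurve HahnSeries

/-- The cusp `∞` of `X₀(N)` as a place of `modularFunctionFieldBar N` (the `q`-adic place). -/
def cuspInf (N : ℕ) : Place (AlgebraicClosure ℚ) (modularFunctionFieldBar N) :=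
  Fermat.Agent.S29.helper36.qPlaceL (AlgebraicClosure ℚ) N

theorem isCuspInf_cuspInf (N : ℕ) : helper99.IsCuspInf N (cuspInf N) := fun _ hf =>
  Fermat.Agent.S29.helper36.qPlaceL_ord (AlgebraicClosure ℚ) N hf

/-- **(C0)** of track C: the place facts of `modularFunctionFieldBar N`. -/
theorem placeFacts (N : ℕ) [NeZero N] : helper99.PlaceFacts N where
  principal := Fermat.Agent.S29.helper36.hasPrincipalDivisors_L (AlgebraicClosure ℚ) N
  deg_one := Fermat.Agent.S29.helper36.place_deg_eq_one_L (AlgebraicClosure ℚ) N
  const := fun _ _ h =>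
    Fermat.Agent.S29.helper36.exists_algebraMap_eq_of_ord_eq_zero (AlgebraicClosure ℚ) N h
  cusp := ⟨cuspInf N, isCuspInf_cuspInf N⟩

end Fermat.Agent.S18.helper1040
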