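/-
S18 (helper20): the dimension of `S_{12m}(Γ₀(N))` from the landed S20 free-basis machinery.

For `m ≥ 1`:
  `dim S_{12m}(Γ₀(N)) + dim S_2(Γ₀(N)) + #cusps = m · ψ(N) + 1`.

(The dual free basis `Δ · Φ⁻ᵀ` of cusp forms has weights `12 - κ`; `#{κ = 2} = #{κ = 10} + #cusps - 1`
by the linear relations between the weight counts proved in S20.)
-/
import Fermat.Agent.S20.helper1040_Assembly
import Fermat.Agent.S20.helper1235_StmtFree1040
import Fermat.Agent.S20.helper116_Sep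
import Fermat.Agent.S20.helper1559_Liouville
import Fermat.Agent.S20.helper2507_Basic
import Fermat.Agent.S20.helper5021_Ell
import Fermat.Agent.S20.helper1177_CuspFact
import Fermat.Agent.S20.helper4608_Dual
import Fermat.Agent.S20.helper2600_Goals
import Fermat.Agent.S20.helper2805_RRdim

set_option autoImplicit false

open UpperHalfPlane ModularForm Matrix.SpecialLinearGroup Filter Complex
open scoped MatrixGroups ModularForm Manifold Topology Real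

namespace Fermat.Agent.S18.helper20

open Fermat.Agent.S20.helper1040 Fermat.Agent.S20.helper4608

/-! ## Level one: finiteness and dimension for all integer weights -/

/-- Level one dimension formula, all integer weights. -/
theorem finrank_levelOne_int (k : ℤ) :
    Module.finrank ℂ (ModularForm 𝒮ℒ k) =
      if k < 0 ∨ Odd k then 0 else if k % 12 = 2 then (k / 12).toNat else (k / 12).toNat + 1 := by
  have h := Fermat.Agent.S20.helper2805.goal_RRdim k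
  rw [show Fermat.Agent.S20.helper560.RR k = Fermat.Agent.S20.helper560.MFG 𝒮ℒ k from rfl,
    Fermat.Agent.S20.helper2805.finrank_MFG] at h
  exact h

/-- Level one spaces of modular forms are finite dimensional (all integer weights). -/
theorem levelOne_finite (k : ℤ) : Module.Finite ℂ (ModularForm 𝒮ℒ k) := by
  by_cases hneg : k < 0
  · exact Module.finite_of_rank_eq_zero (ModularForm.levelOne_neg_weight_rank_zero hneg)
  by_cases hodd : Odd k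
  · exact Module.finite_of_rank_eq_zero (ModularForm.levelOne_odd_weight_rank_zero hodd)
  have hk0 : 0 ≤ k := not_lt.mp hneg
  have hev : Even k := Int.not_odd_iff_even.mp hodd
  lift k to ℕ using hk0
  have hev' : Even k := by exact_mod_cast hev
  have h := ModularForm.dimension_level_one k hev'
  split_ifs at h
  · exact Module.finite_of_rank_eq_nat h
  · exact Module.finite_of_rank_eq_nat (n := k / 12 + 1) (by rw [h])

/-! ## The linear equivalence `∏_j M_{κ_j + k - 12}(SL₂ℤ) ≃ S_k(Γ)` -/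

section General

variable {Γ : Subgroup SL(2, ℤ)} [Γ.FiniteIndex] [Fintype (SL(2, ℤ) ⧸ Γ)]
  [DecidableEq (SL(2, ℤ) ⧸ Γ)] {κ : SL(2, ℤ) ⧸ Γ → ℤ} {G : SL(2, ℤ) ⧸ Γ → ℍ → ℂ}

omit [Γ.FiniteIndex] [Fintype (SL(2, ℤ) ⧸ Γ)] [DecidableEq (SL(2, ℤ) ⧸ Γ)] in
theorem isCF_sum {k : ℤ} {ι : Type*} (s : Finset ι) (F : ι → ℍ → ℂ)
    (h : ∀ i ∈ s, IsCF Γ k (F i)) : IsCF Γ k (∑ i ∈ s, F i) := by
  classical
  induction s using Finset.induction_on with
  | empty => simpa using isCF_zero Γ k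
  | insert a s ha ih =>
    rw [Finset.sum_insert ha]
    exact (h a (Finset.mem_insert_self a s)).add
      (ih fun i hi => h i (Finset.mem_insert_of_mem hi))

omit [Γ.FiniteIndex] [Fintype (SL(2, ℤ) ⧸ Γ)] [DecidableEq (SL(2, ℤ) ⧸ Γ)] in
theorem tr_levelOne_mul' {a b k : ℤ} (hk : a + b = k) {A : ℍ → ℂ} (hA : IsMF1 a A)
    (H : ℍ → ℂ) (x : SL(2, ℤ) ⧸ Γ) : tr Γ k (A * H) x = A * tr Γ b H x := by
  subst hk
  exact tr_levelOne_mul Γ hA b H x

/-- The combination `∑_j b_j H_j` of the dual cusp forms with level one coefficients. -/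
theorem isCF_comb {U Λ : Matrix (SL(2, ℤ) ⧸ Γ) (SL(2, ℤ) ⧸ Γ) ℂ} {s : SL(2, ℤ) ⧸ Γ → ℝ}
    (hG : ∀ j, IsMF Γ (κ j) (G j)) (hdet : ∀ z, (Phi Γ κ G z).det ≠ 0)
    (hCD : CuspData Γ κ G U Λ s) (k : ℤ) (b : (j : SL(2, ℤ) ⧸ Γ) → ModularForm 𝒮ℒ (κ j + k - 12)) :
    IsCF Γ k (∑ j, (⇑(b j) : ℍ → ℂ) * dualFun Γ κ G j ((1 : SL(2, ℤ)) : SL(2, ℤ) ⧸ Γ)) := by
  refine isCF_sum _ _ fun j _ => ?_
  have h1 : IsMF Γ (κ j + k - 12) (⇑(b j)) := IsMF.of_levelOne Γ (isMF1_of_modularForm (b j))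
  exact (h1.mul_isCF (dualFun_isCF hG hdet hCD j)).congr_weight (by ring)

/-- The linear map `(b_j) ↦ ∑_j b_j H_j`. -/
noncomputable def cuspLin {U Λ : Matrix (SL(2, ℤ) ⧸ Γ) (SL(2, ℤ) ⧸ Γ) ℂ} {s : SL(2, ℤ) ⧸ Γ → ℝ}
    (hG : ∀ j, IsMF Γ (κ j) (G j)) (hdet : ∀ z, (Phi Γ κ G z).det ≠ 0)
    (hCD : CuspData Γ κ G U Λ s) (k : ℤ) :
    ((j : SL(2, ℤ) ⧸ Γ) → ModularForm 𝒮ℒ (κ j + k - 12)) →ₗ[ℂ] CuspForm (Γ.map (mapGL ℝ)) k where
  toFun b := (isCF_comb hG hdet hCD k b).toCuspForm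
  map_add' b c := by
    ext z
    simp only [IsCF.coe_toCuspForm, CuspForm.coe_add, Pi.add_apply, ModularForm.coe_add,
      Finset.sum_apply, Pi.mul_apply]
    rw [← Finset.sum_add_distrib]
    exact Finset.sum_congr rfl fun j _ => by ring
  map_smul' c b := by
    ext z
    simp only [IsCF.coe_toCuspForm, CuspForm.coe_smul, Pi.smul_apply, ModularForm.coe_smul,
      Finset.sum_apply, Pi.mul_apply, RingHom.id_apply, smul_eq_mul]
    rw [Finset.mul_sum]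
    exact Finset.sum_congr rfl fun j _ => by ring

theorem cuspLin_apply {U Λ : Matrix (SL(2, ℤ) ⧸ Γ) (SL(2, ℤ) ⧸ Γ) ℂ} {s : SL(2, ℤ) ⧸ Γ → ℝ}
    (hG : ∀ j, IsMF Γ (κ j) (G j)) (hdet : ∀ z, (Phi Γ κ G z).det ≠ 0)
    (hCD : CuspData Γ κ G U Λ s) (k : ℤ) (b : (j : SL(2, ℤ) ⧸ Γ) → ModularForm 𝒮ℒ (κ j + k - 12)) :
    (⇑(cuspLin hG hdet hCD k b) : ℍ → ℂ) =
      ∑ j, (⇑(b j) : ℍ → ℂ) * dualFun Γ κ G j ((1 : SL(2, ℤ)) : SL(2, ℤ) ⧸ Γ) := rfl

theorem cuspLin_injective {U Λ : Matrix (SL(2, ℤ) ⧸ Γ) (SL(2, ℤ) ⧸ Γ) ℂ} {s : SL(2, ℤ) ⧸ Γ → ℝ}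
    (hG : ∀ j, IsMF Γ (κ j) (G j)) (hdet : ∀ z, (Phi Γ κ G z).det ≠ 0)
    (hCD : CuspData Γ κ G U Λ s) (k : ℤ) : Function.Injective (cuspLin hG hdet hCD k) := by
  rw [← LinearMap.ker_eq_bot, LinearMap.ker_eq_bot']
  intro b hb
  have hfun : (∑ j, (⇑(b j) : ℍ → ℂ) * dualFun Γ κ G j ((1 : SL(2, ℤ)) : SL(2, ℤ) ⧸ Γ)) = 0 := by
    rw [← cuspLin_apply hG hdet hCD k b, hb]
    rfl
  -- translate to every coset
  have htr : ∀ x : SL(2, ℤ) ⧸ Γ, (∑ j, (⇑(b j) : ℍ → ℂ) * dualFun Γ κ G j x) = 0 := by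
    intro x
    have h1 := congrArg (fun f => tr Γ k f x) hfun
    simp only [tr_sum] at h1
    have h2 : ∀ j, tr Γ k ((⇑(b j) : ℍ → ℂ) *
        dualFun Γ κ G j ((1 : SL(2, ℤ)) : SL(2, ℤ) ⧸ Γ)) x = (⇑(b j) : ℍ → ℂ) * dualFun Γ κ G j x := by
      intro j
      rw [tr_levelOne_mul' (a := κ j + k - 12) (b := 12 - κ j) (by ring)
        (isMF1_of_modularForm (b j)), tr_dualFun hG hdet j x]
    rw [Finset.sum_congr rfl (fun j _ => h2 j)] at h1
    rw [h1]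
    unfold tr
    exact SlashAction.zero_slash _ _
  funext j'
  refine DFunLike.ext _ _ fun z => ?_
  have hz : ∀ x : SL(2, ℤ) ⧸ Γ, ∑ j, b j z * (Phi Γ κ G z)⁻¹ j x = 0 := by
    intro x
    have h1 := congrFun (htr x) z
    rw [Finset.sum_apply] at h1
    simp only [Pi.mul_apply, dualFun, Pi.zero_apply] at h1
    have h2 : ModularForm.discriminant z * ∑ j, b j z * (Phi Γ κ G z)⁻¹ j x = 0 := by
      rw [Finset.mul_sum, ← h1]
      refine Finset.sum_congr rfl (fun j _ => ?_)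
      ring
    exact (mul_eq_zero.mp h2).resolve_left (ModularForm.discriminant_ne_zero _)
  have h3 : ∑ x : SL(2, ℤ) ⧸ Γ, (∑ j, b j z * (Phi Γ κ G z)⁻¹ j x) * Phi Γ κ G z x j' = 0 := by
    refine Finset.sum_eq_zero (fun x _ => ?_)
    rw [hz x, zero_mul]
  have h4 : ∑ x : SL(2, ℤ) ⧸ Γ, (∑ j, b j z * (Phi Γ κ G z)⁻¹ j x) * Phi Γ κ G z x j' =
      ∑ j, b j z * ((Phi Γ κ G z)⁻¹ * Phi Γ κ G z) j j' := by
    simp only [Finset.sum_mul, Matrix.mul_apply, Finset.mul_sum]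
    rw [Finset.sum_comm]
    refine Finset.sum_congr rfl (fun j _ => Finset.sum_congr rfl (fun x _ => ?_))
    ring
  rw [h4, Matrix.nonsing_inv_mul _ (isUnit_iff_ne_zero.mpr (hdet _))] at h3
  simp only [Matrix.one_apply, mul_ite, mul_one, mul_zero, Finset.sum_ite_eq', Finset.mem_univ,
    if_true] at h3
  rw [h3]
  rfl

theorem cuspLin_surjective {U Λ : Matrix (SL(2, ℤ) ⧸ Γ) (SL(2, ℤ) ⧸ Γ) ℂ} {s : SL(2, ℤ) ⧸ Γ → ℝ}
    (hG : ∀ j, IsMF Γ (κ j) (G j)) (hdet : ∀ z, (Phi Γ κ G z).det ≠ 0)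
    (hCD : CuspData Γ κ G U Λ s) (k : ℤ) : Function.Surjective (cuspLin hG hdet hCD k) := by
  intro F
  have hF : IsCF Γ k (⇑F) := isCF_of_cuspForm F
  obtain ⟨b, hb, hexp⟩ := exists_expansion hG hdet hF
  refine ⟨fun j => (hb j).toModularForm1, ?_⟩
  refine DFunLike.ext _ _ fun z => ?_
  rw [cuspLin_apply, hexp]
  rfl

/-- `dim S_k(Γ) = ∑_j dim M_{κ_j + k - 12}(SL₂ℤ)`. -/
theorem finrank_cuspForm_eq_sum {U Λ : Matrix (SL(2, ℤ) ⧸ Γ) (SL(2, ℤ) ⧸ Γ) ℂ}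
    {s : SL(2, ℤ) ⧸ Γ → ℝ}
    (hG : ∀ j, IsMF Γ (κ j) (G j)) (hdet : ∀ z, (Phi Γ κ G z).det ≠ 0)
    (hCD : CuspData Γ κ G U Λ s) (k : ℤ) :
    Module.finrank ℂ (CuspForm (Γ.map (mapGL ℝ)) k) =
      ∑ j, Module.finrank ℂ (ModularForm 𝒮ℒ (κ j + k - 12)) := by
  have e := LinearEquiv.ofBijective (cuspLin hG hdet hCD k)
    ⟨cuspLin_injective hG hdet hCD k, cuspLin_surjective hG hdet hCD k⟩
  haveI : ∀ j : SL(2, ℤ) ⧸ Γ, Module.Finite ℂ (ModularForm 𝒮ℒ (κ j + k - 12)) :=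
    fun j => levelOne_finite _
  rw [← e.finrank_eq, Module.finrank_pi_fintype]

end General

/-! ## The count for `Γ₀(N)` -/

/-- Level one dimension at the weights `κ + 12 m - 12`, `κ ∈ {0,2,…,10}`, `m ≥ 1`. -/
theorem finrank_levelOne_shift (κ : ℤ) (hκ : κ ∈ wts) (m : ℕ) (hm : 1 ≤ m) :
    Module.finrank ℂ (ModularForm 𝒮ℒ (κ + 12 * (m : ℤ) - 12)) + (if κ = 2 then 1 else 0) = m := by
  rw [finrank_levelOne_int]
  have hm' : (1 : ℤ) ≤ (m : ℤ) := by exact_mod_cast hm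
  simp only [wts, Finset.mem_insert, Finset.mem_singleton] at hκ
  have h1 : ¬ (κ + 12 * (m : ℤ) - 12 < 0 ∨ Odd (κ + 12 * (m : ℤ) - 12)) := by
    rw [Int.odd_iff]
    omega
  rw [if_neg h1]
  by_cases h2 : κ = 2
  · have h3 : (κ + 12 * (m : ℤ) - 12) % 12 = 2 := by omega
    rw [if_pos h3, if_pos h2]
    omega
  · have h3 : ¬ (κ + 12 * (m : ℤ) - 12) % 12 = 2 := by omega
    rw [if_neg h3, if_neg h2]
    omega

/-- **Dimension of `S_{12m}(Γ₀(N))`**, `m ≥ 1`: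
`dim S_{12m} + dim S_2 + #cusps = m ψ(N) + 1`. -/
theorem finrank_cuspForm_twelve (N : ℕ) [NeZero N] (m : ℕ) (hm : 1 ≤ m) :
    Module.finrank ℂ (CuspForm (CongruenceSubgroup.Gamma0 N) (12 * (m : ℤ))) +
        Module.finrank ℂ (CuspForm (CongruenceSubgroup.Gamma0 N) 2) + ModularCurve.cuspCount N =
      m * ModularCurve.dedekindPsi N + 1 := by
  classical
  let _ : Fintype (SL(2, ℤ) ⧸ CongruenceSubgroup.Gamma0 N) := Fintype.ofFinite _
  set Γ : Subgroup SL(2, ℤ) := CongruenceSubgroup.Gamma0 N with hΓ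
  have hFreeX : Stmt_FreeX Γ := stmt_freeX_of _ (Fermat.Agent.S20.helper1235.stmt_Free N)
    (Fermat.Agent.S20.helper116.stmt_Sep N)
  have hLiou : Stmt_Liouville Γ := Fermat.Agent.S20.helper1559.stmt_liouville _
  have hBasic : Stmt_Basic Γ := Fermat.Agent.S20.helper2507.stmt_basic _ (by
    rw [CongruenceSubgroup.Gamma0_mem]
    simp)
  have hEll : Stmt_Ell Γ := Fermat.Agent.S20.helper5021.stmt_ell _
  have hCusp : Stmt_CuspFact Γ := Fermat.Agent.S20.helper1177.stmt_CuspFact _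
  have hSumK : Stmt_SumKappa Γ := stmt_sumKappa _
  have hDual : Stmt_Dual Γ := Fermat.Agent.S20.helper4608.stmt_dual _
  have hIdx : Γ.index = ModularCurve.dedekindPsi N := Fermat.Agent.S20.helper2600.stmt_Index N
  have hCN : cuspNum Γ = ModularCurve.cuspCount N := Fermat.Agent.S20.helper2600.stmt_CuspNum N
  obtain ⟨κ, G, hB, z₀, hz₀⟩ := hFreeX
  obtain ⟨c, hc⟩ := hLiou κ G hB
  have hc0 : c ≠ 0 := by
    rintro rfl
    have h := hc z₀
    rw [zero_mul] at h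
    exact hz₀ (pow_eq_zero_iff (by norm_num) |>.mp h)
  have hdet : ∀ z : ℍ, (Phi Γ κ G z).det ≠ 0 := by
    intro z h
    have h1 := hc z
    rw [h, zero_pow (by norm_num)] at h1
    have h2 : (ModularForm.discriminant z) ^ (∑ x, κ x) ≠ 0 :=
      zpow_ne_zero _ (discriminant_ne_zero z)
    exact (mul_ne_zero hc0 h2) h1.symm
  obtain ⟨hnonneg, heven, hzero⟩ := hBasic κ G hB
  obtain ⟨U, Λ, s, hCD⟩ := hCusp κ G hB heven
  have hsum := hSumK κ G U Λ s c hCD hc0 hc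
  obtain ⟨hlt, hfin⟩ := hDual κ G U Λ s hB heven hdet hCD
  obtain ⟨h4, h6a, h6b, h6c⟩ := hEll κ G hB heven hdet
  have hκ : ∀ x, κ x ∈ wts := by
    intro x
    have h1 := hnonneg x
    have h2 := hlt x
    obtain ⟨m', hm'⟩ := heven x
    simp only [wts, Finset.mem_insert, Finset.mem_singleton]
    omega
  -- the dimension of `S_{12m}`
  have hdim := finrank_cuspForm_eq_sum hB.1 hdet hCD (12 * (m : ℤ))
  have hS : Module.finrank ℂ (CuspForm (Γ.map (mapGL ℝ)) (12 * (m : ℤ))) + cnt κ 2 =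
      Γ.index * m := by
    rw [hdim]
    have h1 : ∑ j, Module.finrank ℂ (ModularForm 𝒮ℒ (κ j + 12 * (m : ℤ) - 12)) + cnt κ 2 =
        ∑ j : SL(2, ℤ) ⧸ Γ, (Module.finrank ℂ (ModularForm 𝒮ℒ (κ j + 12 * (m : ℤ) - 12)) +
          (if κ j = 2 then 1 else 0)) := by
      rw [Finset.sum_add_distrib]
      congr 1
      unfold cnt
      rw [Finset.card_filter]
    rw [h1, Finset.sum_congr rfl (fun j _ => finrank_levelOne_shift (κ j) (hκ j) m hm),
      Finset.sum_const, Finset.card_univ, smul_eq_mul, Subgroup.index_eq_card,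
      Nat.card_eq_fintype_card]
  rw [natCard_subtype_eq] at hzero h4 h6a h6b h6c hfin
  rw [card_filter_eq_sum κ hκ (fun k => k = 0)] at hzero
  rw [card_filter_eq_sum κ hκ (fun k => k % 4 = 0)] at h4
  rw [card_filter_eq_sum κ hκ (fun k => k % 6 = 0)] at h6a
  rw [card_filter_eq_sum κ hκ (fun k => k % 6 = 2)] at h6b
  rw [card_filter_eq_sum κ hκ (fun k => k % 6 = 4)] at h6c
  rw [card_filter_eq_sum κ hκ (fun k => k = 10)] at hfin
  rw [sum_eq_sum_cnt κ hκ] at hsum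
  simp only [wts] at hzero h4 h6a h6b h6c hfin hsum
  norm_num at hzero h4 h6a h6b h6c hfin hsum
  rw [hIdx] at hS h6a h6b h6c hsum
  rw [hCN] at hsum
  show Module.finrank ℂ (CuspForm (Γ.map (mapGL ℝ)) (12 * (m : ℤ))) +
        Module.finrank ℂ (CuspForm (Γ.map (mapGL ℝ)) 2) + ModularCurve.cuspCount N =
      m * ModularCurve.dedekindPsi N + 1
  rw [hfin]
  have hS' : (Module.finrank ℂ (CuspForm (Γ.map (mapGL ℝ)) (12 * (m : ℤ))) : ℤ) + (cnt κ 2 : ℤ) =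
      (ModularCurve.dedekindPsi N : ℤ) * m := by exact_mod_cast hS
  have hz : (cnt κ 0 : ℤ) = 1 := by exact_mod_cast hzero
  have e6b : (3 : ℤ) * ((cnt κ 2 : ℤ) + (cnt κ 8 : ℤ)) + (ellThree Γ : ℤ) =
      (ModularCurve.dedekindPsi N : ℤ) := by exact_mod_cast h6b
  have e6c : (3 : ℤ) * ((cnt κ 4 : ℤ) + (cnt κ 10 : ℤ)) + (ellThree Γ : ℤ) =
      (ModularCurve.dedekindPsi N : ℤ) := by exact_mod_cast h6c
  have e6a : (3 : ℤ) * ((cnt κ 0 : ℤ) + (cnt κ 6 : ℤ)) =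
      (ModularCurve.dedekindPsi N : ℤ) + 2 * (ellThree Γ : ℤ) := by exact_mod_cast h6a
  have goalZ : (Module.finrank ℂ (CuspForm (Γ.map (mapGL ℝ)) (12 * (m : ℤ))) : ℤ) +
      (cnt κ 10 : ℤ) + (ModularCurve.cuspCount N : ℤ) =
      (m : ℤ) * (ModularCurve.dedekindPsi N : ℤ) + 1 := by
    linarith
  exact_mod_cast goalZ

end Fermat.Agent.S18.helper20
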