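/-
S18-S23SAT (helper2149): a SATURATED integral basis of `S_k(Γ₀(N))`.

Route-agnostic input of the "gap count" `γ(F'_k) ≥ dim S₂(Γ₀(N'))` of the S18 project (every
variant consumes "an integral basis of `S₂` whose reductions mod `ℓ` stay linearly independent").

Contents.
* `linearIndependent_map_field` : linear independence of a family of "vectors" `ι → κ → K₀` is
  preserved by any field extension `φ : K₀ →+* K` (coefficientwise), any index types.
* `linearIndependent_intCast_of_saturated` : an integer family `a : ι → κ → ℤ` (`ι` finite) which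
  is `ℤ`-linearly independent and SATURATED (`p ∣ ∑ c i * a i n` for all `n` implies `p ∣ c i`
  for all `i`, every prime `p`) is linearly independent over EVERY field `K` after casting.
* `exists_saturated_basis` : from `CuspForm.HasIntegralStructure N k` (for `k = 2` this is the
  landed S23, `Fermat.Agent.S23.result N`): forms `f i` (`i : Fin s`, `s = finrank ℂ S_k`) with
  integer `q`-coefficients `a i n`, a `ℂ`-basis of the space, a `ℤ`-basis of the lattice of
  integral forms, `ℤ`-independent and saturated.
* `exists_saturated_basis_field` : the same data together with the linear independence of the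
  `q`-expansions over an arbitrary field `K` (function, `PowerSeries K` and Prelude
  `LaurentSeries K` / `coeffMap` forms).

Imports: Mathlib + Prelude + `Lib/helper229_HeckeLattice` only.
-/
import Mathlib
import Fermat.Prelude.Def_ModularCurve_LaurentCoeff
import Fermat.Agent.Lib.helper229_HeckeLattice

set_option autoImplicit false

namespace Fermat.Agent.S18.helper2149

open ModularFormClass CongruenceSubgroup UpperHalfPlane
open Fermat.Agent.Lib.helper229

section FieldExt

/-- Linear independence of coefficient vectors survives an arbitrary field extension. -/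
theorem linearIndependent_map_field {K₀ K : Type*} [Field K₀] [Field K] (φ : K₀ →+* K)
    {ι κ : Type*} {w : ι → κ → K₀} (hw : LinearIndependent K₀ w) :
    LinearIndependent K (fun j n => φ (w j n)) := by
  let _ : Algebra K₀ K := φ.toAlgebra
  rw [linearIndependent_iff'] at hw ⊢
  intro s g hg i hi
  rw [← Module.forall_dual_apply_eq_zero_iff K₀ (g i)]
  intro ρ
  refine hw s (fun j => ρ (g j)) ?_ i hi
  funext n
  have h := congrFun hg n
  simp only [Finset.sum_apply, Pi.smul_apply, smul_eq_mul, Pi.zero_apply] at h ⊢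
  have h2 := congrArg ρ h
  rw [map_sum, map_zero] at h2
  rw [← h2]
  refine Finset.sum_congr rfl fun j _ => ?_
  have h3 : g j * φ (w j n) = (w j n) • g j := by
    rw [Algebra.smul_def, mul_comm]; rfl
  rw [h3, map_smul, smul_eq_mul, mul_comm]

end FieldExt

section Saturated

/-- A `ℤ`-linearly independent and saturated finite family of integer vectors stays linearly
independent over every field after casting. -/
theorem linearIndependent_intCast_of_saturated {ι κ : Type*} [Fintype ι] {a : ι → κ → ℤ}
    (hZ : LinearIndependent ℤ a)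
    (hsat : ∀ p : ℕ, p.Prime → ∀ c : ι → ℤ, (∀ n, (p : ℤ) ∣ ∑ i, c i * a i n) → ∀ i, (p : ℤ) ∣ c i)
    (K : Type*) [Field K] :
    LinearIndependent K (fun i n => ((a i n : ℤ) : K)) := by
  classical
  obtain ⟨p, hp⟩ := CharP.exists K
  rcases CharP.char_is_prime_or_zero K p with hprime | hzero
  · -- positive characteristic `p`: go through `ZMod p`
    have : Fact p.Prime := ⟨hprime⟩
    have h0 : LinearIndependent (ZMod p) (fun i n => ((a i n : ℤ) : ZMod p)) := by
      rw [Fintype.linearIndependent_iff]
      intro g hg i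
      choose c hc using fun i => ZMod.intCast_surjective (g i)
      have hdiv : ∀ n, (p : ℤ) ∣ ∑ i, c i * a i n := by
        intro n
        rw [← ZMod.intCast_zmod_eq_zero_iff_dvd]
        have h := congrFun hg n
        simp only [Finset.sum_apply, Pi.smul_apply, smul_eq_mul, Pi.zero_apply] at h
        rw [← h]
        push_cast
        exact Finset.sum_congr rfl fun j _ => by rw [hc j]
      have := hsat p hprime c hdiv i
      rw [← hc i]
      exact (ZMod.intCast_zmod_eq_zero_iff_dvd _ p).mpr this
    have h1 := linearIndependent_map_field (ZMod.castHom (dvd_refl p) K) h0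
    convert h1 using 3
    simp
  · -- characteristic zero: go through `ℚ`
    subst hzero
    have : CharZero K := CharP.charP_to_charZero K
    have hcast : LinearIndependent ℤ (fun i n => ((a i n : ℤ) : ℚ)) := by
      have hker : LinearMap.ker (((Int.castAddHom ℚ).toIntLinearMap).compLeft κ) = ⊥ := by
        rw [LinearMap.ker_eq_bot]
        intro x y hxy
        funext n
        have := congrFun hxy n
        simpa using this
      exact hZ.map' (((Int.castAddHom ℚ).toIntLinearMap).compLeft κ) hker
    have h0 : LinearIndependent ℚ (fun i n => ((a i n : ℤ) : ℚ)) :=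
      LinearIndependent.localization ℚ (nonZeroDivisors ℤ) hcast
    have h1 := linearIndependent_map_field (algebraMap ℚ K) h0
    convert h1 using 3
    simp

end Saturated

section Lattice

variable {N : ℕ} [NeZero N] {k : ℤ}

omit [NeZero N] in
/-- The `q`-coefficient of a finite `ℤ`-combination of cusp forms. -/
theorem qCoeffLin_sum_zsmul {ι : Type*} (s : Finset ι) (c : ι → ℤ)
    (f : ι → CuspForm (Gamma0 N) k) (n : ℕ) :
    qCoeffLin N k n (∑ i ∈ s, c i • f i) = ∑ i ∈ s, (c i : ℂ) * qCoeff (f i) n := by
  rw [map_sum]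
  refine Finset.sum_congr rfl fun i _ => ?_
  rw [map_zsmul, qCoeffLin_apply, zsmul_eq_mul]

/-- **Saturated integral basis.** If the integral lattice spans `S_k(Γ₀(N))` (for `k = 2`: the
landed S23), there are forms `f i`, `i : Fin s`, `s = dim_ℂ S_k(Γ₀(N))`, with integer
`q`-coefficients `a i n` such that
* the `f i` are a `ℂ`-basis of `S_k(Γ₀(N))`;
* every form with integer `q`-coefficients is a `ℤ`-combination of the `f i`;
* the integer vectors `a i` are `ℤ`-linearly independent and SATURATED: if a prime `p` divides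
  all coefficients of `∑ c i • f i` (`c i : ℤ`), then `p` divides every `c i`. -/
theorem exists_saturated_basis (h : CuspForm.HasIntegralStructure N k) :
    ∃ (s : ℕ) (f : Fin s → CuspForm (Gamma0 N) k) (a : Fin s → ℕ → ℤ),
      s = Module.finrank ℂ (CuspForm (Gamma0 N) k) ∧
      (∀ i n, qCoeff (f i) n = (a i n : ℂ)) ∧
      (∀ i, a i 0 = 0) ∧
      LinearIndependent ℂ f ∧
      Submodule.span ℂ (Set.range f) = ⊤ ∧
      (∀ g : CuspForm (Gamma0 N) k, (∀ n : ℕ, ∃ m : ℤ, qCoeff g n = (m : ℂ)) →
        ∃ c : Fin s → ℤ, g = ∑ i, c i • f i) ∧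
      LinearIndependent ℤ a ∧
      (∀ p : ℕ, p.Prime → ∀ c : Fin s → ℤ,
        (∀ n, (p : ℤ) ∣ ∑ i, c i * a i n) → ∀ i, (p : ℤ) ∣ c i) := by
  classical
  have hfin : Module.Finite ℤ (CuspForm.intLattice N k) :=
    Module.Finite.iff_fg.mpr (CuspForm.intLattice_fg N k)
  have : IsAddTorsionFree (CuspForm (Gamma0 N) k) := .of_isTorsionFree ℂ _
  have hfree : Module.Free ℤ (CuspForm.intLattice N k) := Module.free_of_finite_type_torsion_free'
  let b := Module.finBasis ℤ (CuspForm.intLattice N k)
  let f : Fin (Module.finrank ℤ (CuspForm.intLattice N k)) → CuspForm (Gamma0 N) k :=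
    fun i => ((b i : CuspForm.intLattice N k) : CuspForm (Gamma0 N) k)
  have hint : ∀ i, IntQ (f i) := fun i => intQ_of_mem_intLattice (b i).2
  choose a ha using hint
  -- coercion of a `ℤ`-combination of the basis
  have hcoe : ∀ c : Fin (Module.finrank ℤ (CuspForm.intLattice N k)) → ℤ,
      ((∑ i, c i • b i : CuspForm.intLattice N k) : CuspForm (Gamma0 N) k) = ∑ i, c i • f i := by
    intro c
    rw [Submodule.coe_sum]
    rfl
  -- `ℤ`-independence of the coefficient vectors
  have hZ : LinearIndependent ℤ a := by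
    rw [Fintype.linearIndependent_iff]
    intro c hc
    have h0 : (∑ i, c i • b i : CuspForm.intLattice N k) = 0 := by
      apply Subtype.ext
      rw [hcoe c, Submodule.coe_zero]
      apply eq_zero_of_forall_qCoeff_eq_zero
      intro n
      rw [← qCoeffLin_apply, qCoeffLin_sum_zsmul]
      have hn := congrFun hc n
      simp only [Finset.sum_apply, Pi.smul_apply, smul_eq_mul, Pi.zero_apply] at hn
      have hn' : ((∑ i, c i * a i n : ℤ) : ℂ) = 0 := by rw [hn]; simp
      rw [← hn']
      push_cast
      exact Finset.sum_congr rfl fun i _ => by rw [ha i n]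
    exact Fintype.linearIndependent_iff.mp b.linearIndependent c h0
  -- saturation
  have hsat : ∀ p : ℕ, p.Prime → ∀ c : Fin (Module.finrank ℤ (CuspForm.intLattice N k)) → ℤ,
      (∀ n, (p : ℤ) ∣ ∑ i, c i * a i n) → ∀ i, (p : ℤ) ∣ c i := by
    intro p hp c hdiv i
    have hp0 : (p : ℂ) ≠ 0 := Nat.cast_ne_zero.mpr hp.ne_zero
    choose d hd using hdiv
    set g : CuspForm (Gamma0 N) k := ∑ i, c i • f i with hg
    have hgq : ∀ n, qCoeff g n = (p : ℂ) * (d n : ℂ) := by
      intro n
      rw [hg, ← qCoeffLin_apply, qCoeffLin_sum_zsmul]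
      have : ((∑ i, c i * a i n : ℤ) : ℂ) = (p : ℂ) * (d n : ℂ) := by
        rw [hd n]; push_cast; ring
      rw [← this]
      push_cast
      exact Finset.sum_congr rfl fun i _ => by rw [ha i n]
    have hmem : ((p : ℂ)⁻¹ • g) ∈ CuspForm.intLattice N k := by
      apply mem_intLattice_of_intQ
      intro n
      refine ⟨d n, ?_⟩
      rw [← qCoeffLin_apply, map_smul, qCoeffLin_apply, hgq n, smul_eq_mul, ← mul_assoc,
        inv_mul_cancel₀ hp0, one_mul]
    have hrepr : (∑ i, c i • b i : CuspForm.intLattice N k) =
        (p : ℤ) • (⟨(p : ℂ)⁻¹ • g, hmem⟩ : CuspForm.intLattice N k) := by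
      apply Subtype.ext
      rw [hcoe c, Submodule.coe_smul, ← hg]
      show g = (p : ℤ) • ((p : ℂ)⁻¹ • g)
      rw [← Int.cast_smul_eq_zsmul ℂ, smul_smul]
      push_cast
      rw [mul_inv_cancel₀ hp0, one_smul]
    have h3 := congrArg (fun x => b.repr x i) hrepr
    have h4 : b.repr (∑ j, c j • b j) i = c i := by rw [Module.Basis.repr_sum_self]
    have h5 : b.repr ((p : ℤ) • (⟨(p : ℂ)⁻¹ • g, hmem⟩ : CuspForm.intLattice N k)) i =
        (p : ℤ) * b.repr (⟨(p : ℂ)⁻¹ • g, hmem⟩ : CuspForm.intLattice N k) i := by
      rw [map_zsmul, Finsupp.smul_apply, smul_eq_mul]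
    have hci : c i = (p : ℤ) * b.repr (⟨(p : ℂ)⁻¹ • g, hmem⟩ : CuspForm.intLattice N k) i := by
      rw [← h4, ← h5]
      exact h3
    exact Dvd.intro _ hci.symm
  -- `ℂ`-independence and spanning
  have hli : LinearIndependent ℂ f := by
    have h1 := linearIndependent_intCast_of_saturated hZ hsat ℂ
    refine LinearIndependent.of_comp (LinearMap.pi fun n => qCoeffLin N k n) ?_
    have h2 : (⇑(LinearMap.pi fun n => qCoeffLin N k n) ∘ f) = fun i n => ((a i n : ℤ) : ℂ) := by
      funext i n
      simp [ha i n]
    rw [h2]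
    exact h1
  have hrep : ∀ g : CuspForm (Gamma0 N) k, (∀ n : ℕ, ∃ m : ℤ, qCoeff g n = (m : ℂ)) →
      ∃ c : Fin (Module.finrank ℤ (CuspForm.intLattice N k)) → ℤ, g = ∑ i, c i • f i := by
    intro g hgint
    have hgm : g ∈ CuspForm.intLattice N k := mem_intLattice_of_intQ hgint
    refine ⟨fun i => b.repr (⟨g, hgm⟩ : CuspForm.intLattice N k) i, ?_⟩
    rw [← hcoe, b.sum_repr]
  have hspan : Submodule.span ℂ (Set.range f) = ⊤ := by
    rw [eq_top_iff, ← h]
    apply Submodule.span_le.mpr
    intro x hx
    obtain ⟨c, rfl⟩ := hrep x (intQ_of_mem_intLattice hx)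
    refine Submodule.sum_mem _ fun i _ => ?_
    exact zsmul_mem (Submodule.subset_span (Set.mem_range_self i)) _
  refine ⟨_, f, a, ?_, ha, ?_, hli, hspan, hrep, hZ, hsat⟩
  · have hb := Module.finrank_eq_card_basis (Module.Basis.mk hli hspan.ge)
    rw [hb, Fintype.card_fin]
  · intro i
    have h0 := qCoeff_zero_eq_zero (f i)
    rw [ha i 0] at h0
    exact_mod_cast h0

end Lattice

section Forms

variable {ι : Type*} [Fintype ι] {a : ι → ℕ → ℤ}

/-- The coefficient functions `ℕ → K` of a Laurent series, as a linear map. -/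
noncomputable def laurentCoeffs (K : Type*) [Field K] : LaurentSeries K →ₗ[K] (ℕ → K) where
  toFun x n := x.coeff (n : ℤ)
  map_add' x y := by funext n; simp
  map_smul' c x := by funext n; simp

/-- The integer `q`-series with coefficients `a i` as a power series over `ℤ`. -/
noncomputable def qSeries (a : ℕ → ℤ) : PowerSeries ℤ := PowerSeries.mk a

/-- The integer `q`-series with coefficients `a i` as a Laurent series over `ℤ` (Prelude
vocabulary). -/
noncomputable def qLaurent (a : ℕ → ℤ) : LaurentSeries ℤ :=
  HahnSeries.ofPowerSeries ℤ ℤ (PowerSeries.mk a)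

theorem coeff_qLaurent (a : ℕ → ℤ) (n : ℕ) : (qLaurent a).coeff (n : ℤ) = a n := by
  rw [qLaurent, HahnSeries.ofPowerSeries_apply_coeff, PowerSeries.coeff_mk]

theorem coeff_qLaurent_of_neg (a : ℕ → ℤ) {m : ℤ} (hm : m < 0) : (qLaurent a).coeff m = 0 := by
  rw [qLaurent]
  by_contra hne
  have hmem : m ∈ (HahnSeries.ofPowerSeries ℤ ℤ (PowerSeries.mk a)).support := hne
  rw [HahnSeries.ofPowerSeries_apply] at hmem
  have h2 := HahnSeries.support_embDomain_subset hmem
  obtain ⟨n, -, hn⟩ := h2
  have : (0 : ℤ) ≤ m := by rw [← hn]; exact Int.natCast_nonneg n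
  omega

/-- **Independence over an arbitrary field, power series form.** -/
theorem linearIndependent_powerSeries (hZ : LinearIndependent ℤ a)
    (hsat : ∀ p : ℕ, p.Prime → ∀ c : ι → ℤ, (∀ n, (p : ℤ) ∣ ∑ i, c i * a i n) → ∀ i, (p : ℤ) ∣ c i)
    (K : Type*) [Field K] :
    LinearIndependent K (fun i => PowerSeries.map (Int.castRingHom K) (qSeries (a i))) := by
  have h1 := linearIndependent_intCast_of_saturated hZ hsat K
  refine LinearIndependent.of_comp (LinearMap.pi fun n => PowerSeries.coeff (R := K) n) ?_
  have h2 : (⇑(LinearMap.pi fun n => PowerSeries.coeff (R := K) n) ∘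
      fun i => PowerSeries.map (Int.castRingHom K) (qSeries (a i))) =
      fun i n => ((a i n : ℤ) : K) := by
    funext i n
    simp [qSeries]
  rw [h2]
  exact h1

/-- **Independence over an arbitrary field, Laurent series form** (Prelude `coeffMap`). -/
theorem linearIndependent_laurentSeries (hZ : LinearIndependent ℤ a)
    (hsat : ∀ p : ℕ, p.Prime → ∀ c : ι → ℤ, (∀ n, (p : ℤ) ∣ ∑ i, c i * a i n) → ∀ i, (p : ℤ) ∣ c i)
    (K : Type*) [Field K] :
    LinearIndependent K
      (fun i => ModularCurve.coeffMap (Int.castRingHom K) (qLaurent (a i))) := by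
  have h1 := linearIndependent_intCast_of_saturated hZ hsat K
  refine LinearIndependent.of_comp (laurentCoeffs K) ?_
  have h2 : (⇑(laurentCoeffs K) ∘
      fun i => ModularCurve.coeffMap (Int.castRingHom K) (qLaurent (a i))) =
      fun i n => ((a i n : ℤ) : K) := by
    funext i n
    show (ModularCurve.coeffMap (Int.castRingHom K) (qLaurent (a i))).coeff (n : ℤ) = _
    rw [ModularCurve.coeffMap_coeff, coeff_qLaurent]
    rfl
  rw [h2]
  exact h1

end Forms

end Fermat.Agent.S18.helper2149
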