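/-
S18 (helper20), RCUSP step 2: cusp forms of weight `12 m` on `Γ₀(N)` as elements of the function
field `F_N` over `ℚ̄`, with their integrality relations over `ℚ̄[j]`.

For `m ≥ 1` and a cusp form `f ∈ S_{12m}(Γ₀(N))` with integer `q`-coefficients, the weight zero
function `x = f / Δ^m` lies in `F_N = modularFunctionFieldBar N` and is a root of a monic
polynomial `X^n + ∑ P_i(j) X^(n-1-i)` with `P_i ∈ ℚ̄[j]` of degree `< m (i+1)`
(`exists_relation_bar`).  Inputs, all landed:
* S23 (`helper85.stmt_integral_fin`): `f^n + ∑ e_i f^(n-1-i) = 0` with `e_i` level-one cusp forms;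
* `Lib/helper941.exists_polynomial_jq`: `e_i / Δ^(m(i+1))` is a polynomial in `j`;
* `helper4053.div_mem_full_of_isQExp`: equal-weight ratios lie in the function field;
* a `ℚ`-linear retraction `ℂ → ℚ` to make the coefficients rational (`descend_monic`).
`exists_family` packages a `ℚ̄`-linearly independent family of `dim S_{12m}(Γ₀(N))` such elements
(S23 integral structure in all weights + `helper2149` saturated basis).
-/
import Mathlib
import Fermat.Agent.S23.helper23_Final
import Fermat.Agent.S18.helper4053_RatioFull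
import Fermat.Agent.S18.helper2149_SatBasis
import Fermat.Agent.Lib.helper941_LevelOneQExp
import Fermat.Agent.S28.helper1828_Descent
import Fermat.Agent.S24.helper24_Spec

set_option autoImplicit false

open ModularCurve Polynomial UpperHalfPlane
open scoped MatrixGroups ModularForm

namespace Fermat.Agent.S18.helper20

open Fermat.Agent.Lib.helper941 (Δs)
open Fermat.Agent.S28.helper4768 (ofPS DeltaQ DeltaL toC IsQExp)

/-- A `ℚ`-linear retraction of `ℚ → ℂ`. -/
theorem exists_retraction : ∃ ρ : ℂ →ₗ[ℚ] ℚ, ρ 1 = 1 := by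
  obtain ⟨ρ, hρ⟩ := LinearMap.exists_leftInverse_of_injective
    (Algebra.linearMap ℚ ℂ) (LinearMap.ker_eq_bot.mpr (algebraMap ℚ ℂ).injective)
  refine ⟨ρ, ?_⟩
  have := congrArg (fun g : ℚ →ₗ[ℚ] ℚ => g 1) hρ
  simpa using this

theorem coeff_algebraMap_mul {L : Type*} [Field L] (c : L) (Y : LaurentSeries L) (k : ℤ) :
    (algebraMap L (LaurentSeries L) c * Y).coeff k = c * Y.coeff k := by
  rw [algebraMap_laurentSeries_eq_single]
  show (HahnSeries.C c * Y).coeff k = _
  rw [HahnSeries.C_mul_eq_smul, HahnSeries.coeff_smul, smul_eq_mul]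

/-- **Descent of a monic relation with bounded coefficient degrees from `ℂ[j]` to `ℚ[j]`.** -/
theorem descend_monic (x : LaurentSeries ℚ) (n : ℕ) (P : Fin n → ℂ[X])
    (h : (coeffMap (algebraMap ℚ ℂ) x) ^ n +
      ∑ i : Fin n, aeval (jqModC ℂ) (P i) * (coeffMap (algebraMap ℚ ℂ) x) ^ (n - 1 - (i : ℕ)) = 0) :
    ∃ P' : Fin n → ℚ[X], (∀ i, (P' i).natDegree ≤ (P i).natDegree) ∧
      x ^ n + ∑ i : Fin n, aeval jq (P' i) * x ^ (n - 1 - (i : ℕ)) = 0 := by
  classical
  obtain ⟨ρ, hρ1⟩ := exists_retraction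
  have hρq : ∀ r : ℚ, ρ (algebraMap ℚ ℂ r) = r := by
    intro r
    have : algebraMap ℚ ℂ r = r • (1 : ℂ) := by rw [Algebra.smul_def, mul_one]
    rw [this, map_smul, hρ1, smul_eq_mul, mul_one]
  have hρmul : ∀ (p : ℂ) (r : ℚ), ρ (p * algebraMap ℚ ℂ r) = ρ p * r := by
    intro p r
    have : p * algebraMap ℚ ℂ r = r • p := by rw [Algebra.smul_def, mul_comm]
    rw [this, map_smul, smul_eq_mul, mul_comm]
  refine ⟨fun i => ∑ a ∈ Finset.range ((P i).natDegree + 1), monomial a (ρ ((P i).coeff a)),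
    fun i => ?_, ?_⟩
  · refine natDegree_sum_le_of_forall_le _ _ fun a ha => ?_
    exact (natDegree_monomial_le _).trans (Nat.lt_succ_iff.mp (Finset.mem_range.mp ha))
  · have hj : jqModC ℂ = coeffMap (algebraMap ℚ ℂ) jq := by
      rw [← jqModC_rat, coeffMap_jqModC]
    ext k
    have hk := congrArg (fun z : LaurentSeries ℂ => ρ (z.coeff k)) h
    simp only [HahnSeries.coeff_zero, map_zero] at hk
    rw [HahnSeries.coeff_zero, ← hk, HahnSeries.coeff_add, HahnSeries.coeff_add, map_add,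
      ← map_pow, coeffMap_coeff, hρq]
    congr 1
    rw [HahnSeries.coeff_sum, HahnSeries.coeff_sum, map_sum]
    refine Finset.sum_congr rfl fun i _ => ?_
    rw [aeval_eq_sum_range (p := P i), Finset.sum_mul, HahnSeries.coeff_sum, map_sum, map_sum,
      Finset.sum_mul, HahnSeries.coeff_sum]
    refine Finset.sum_congr rfl fun a _ => ?_
    rw [aeval_monomial, hj, ← map_pow, ← map_pow, Algebra.smul_def, mul_assoc, mul_assoc,
      ← map_mul, coeff_algebraMap_mul, coeff_algebraMap_mul, coeffMap_coeff, hρmul]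

/-- `ℂ`-power series as Laurent series. -/
noncomputable abbrev ofC : PowerSeries ℂ →+* LaurentSeries ℂ := HahnSeries.ofPowerSeries ℤ ℂ

/-- A level-one cusp form of weight `12 M` divided by `Δ ^ M` is a polynomial of degree `< M` in
`j` (as formal `q`-series). -/
theorem levelOne_cusp_poly (M : ℕ) (hM : 1 ≤ M) {k : ℤ} (hk : k = 12 * (M : ℤ))
    (e : CuspForm 𝒮ℒ k) :
    ∃ P : ℂ[X], P.natDegree < M ∧
      ofC (qExpansion 1 e) = aeval (jqModC ℂ) P * ofC Δs ^ M := by
  set h : ModularForm 𝒮ℒ (k - 12) := CuspForm.discriminantEquiv e with hh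
  have hk' : k - 12 = 12 * ((M - 1 : ℕ) : ℤ) := by
    rw [hk, Nat.cast_sub hM]; push_cast; ring
  obtain ⟨P, hP, hexp⟩ := Fermat.Agent.Lib.helper941.exists_polynomial_jq (⊤ : Subring ℂ) (M - 1)
    hk' h (fun n => Subring.mem_top _)
  refine ⟨P.map (⊤ : Subring ℂ).subtype, ?_, ?_⟩
  · have := Polynomial.natDegree_map_le (f := (⊤ : Subring ℂ).subtype) (p := P)
    omega
  · have hfun : (⇑e : ℍ → ℂ) = ModularForm.discriminant * ⇑h :=
      (ModularForm.discriminant_mul_discriminantEquiv e).symm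
    have hnΔ : Fermat.Agent.S23.helper1255.Nice (ModularForm.discriminant : ℍ → ℂ) := by
      have := Fermat.Agent.S23.helper1255.nice_SL CuspForm.discriminant
      rwa [CuspForm.coe_discriminant] at this
    have hq : qExpansion 1 e = Δs * qExpansion 1 h := by
      rw [hfun, hnΔ.qExp_mul (Fermat.Agent.S23.helper1255.nice_SL h),
        Fermat.Agent.Lib.helper941.qExpansion_discriminant]
    rw [hq, map_mul, hexp]
    conv_rhs => rw [← Nat.sub_add_cancel hM, pow_succ]
    ring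

/-- The monic relation satisfied by `f / Δ ^ m` over `ℂ[j]`, with degree bounds, for a cusp form
`f` of weight `12 m` on `Γ₀(N)` (formal `q`-series over `ℂ`). -/
theorem exists_relation_C (N : ℕ) [NeZero N] (m : ℕ) (hm : 1 ≤ m)
    (f : CuspForm (CongruenceSubgroup.Gamma0 N) (12 * (m : ℤ))) :
    ∃ (n : ℕ) (P : Fin n → ℂ[X]), (∀ i : Fin n, (P i).natDegree < m * ((i : ℕ) + 1)) ∧
      (ofC (qExpansion 1 f) / ofC Δs ^ m) ^ n +
        ∑ i : Fin n, aeval (jqModC ℂ) (P i) *
          (ofC (qExpansion 1 f) / ofC Δs ^ m) ^ (n - 1 - (i : ℕ)) = 0 := by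
  obtain ⟨n, e, hI⟩ := Fermat.Agent.S23.helper85.stmt_integral_fin N (12 * (m : ℤ)) f
  have nf : Fermat.Agent.S23.helper1255.Nice (f : ℍ → ℂ) := Fermat.Agent.S23.helper1255.nice_G0 N f
  have ne : ∀ i, Fermat.Agent.S23.helper1255.Nice (e i : ℍ → ℂ) :=
    fun i => Fermat.Agent.S23.helper1255.nice_SL (e i)
  have hRfun : (f : ℍ → ℂ) ^ n + ∑ i : Fin n, (e i : ℍ → ℂ) * (f : ℍ → ℂ) ^ (n - 1 - (i : ℕ)) = 0 := by
    funext z
    simp only [Pi.add_apply, Pi.pow_apply, Finset.sum_apply, Pi.mul_apply, Pi.zero_apply]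
    exact hI z
  have hq2 : qExpansion 1 f ^ n +
      ∑ i : Fin n, qExpansion 1 (e i) * qExpansion 1 f ^ (n - 1 - (i : ℕ)) = 0 := by
    have h := congrArg (qExpansion 1) hRfun
    rw [(nf.pow n).qExp_add (Fermat.Agent.S23.helper1255.Nice.sum _ fun i _ => (ne i).mul (nf.pow _)),
      Fermat.Agent.S23.helper1255.Nice.qExp_sum _ (fun i _ => (ne i).mul (nf.pow _)), nf.qExp_pow,
      UpperHalfPlane.qExpansion_zero] at h
    rw [← h]
    congr 1
    refine Finset.sum_congr rfl fun i _ => ?_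
    rw [(ne i).qExp_mul (nf.pow _), nf.qExp_pow]
  have hpoly : ∀ i : Fin n, ∃ P : ℂ[X], P.natDegree < m * ((i : ℕ) + 1) ∧
      ofC (qExpansion 1 (e i)) = aeval (jqModC ℂ) P * ofC Δs ^ (m * ((i : ℕ) + 1)) := by
    intro i
    exact levelOne_cusp_poly (m * ((i : ℕ) + 1)) (Nat.mul_pos hm (Nat.succ_pos _))
      (by push_cast; ring) (e i)
  choose P hPdeg hPexp using hpoly
  refine ⟨n, P, hPdeg, ?_⟩
  have hΔ0 : Δs ≠ 0 := by
    intro h0
    have h1 := congrArg (PowerSeries.coeff 1) h0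
    rw [Δs, PowerSeries.coeff_map, show (1 : ℕ) = 0 + 1 from rfl, PowerSeries.coeff_succ_X_mul,
      PowerSeries.coeff_zero_eq_constantCoeff_apply, map_pow, constantCoeff_etaProd] at h1
    simp at h1
  have hD0 : ofC Δs ≠ 0 := fun h => hΔ0 (HahnSeries.ofPowerSeries_injective (by rw [h, map_zero]))
  have hDm : ofC Δs ^ (m * n) ≠ 0 := pow_ne_zero _ hD0
  have hq3 := congrArg ofC hq2
  rw [map_add, map_pow, map_sum, map_zero] at hq3
  refine (mul_eq_zero.mp ?_).resolve_right hDm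
  rw [← hq3, add_mul, Finset.sum_mul]
  congr 1
  · rw [div_pow, ← pow_mul, div_mul_cancel₀ _ hDm]
  · refine Finset.sum_congr rfl fun i _ => ?_
    have hi : (i : ℕ) + 1 + (n - 1 - (i : ℕ)) = n := by have := i.2; omega
    have hsplit : ofC Δs ^ (m * n) =
        ofC Δs ^ (m * ((i : ℕ) + 1)) * ofC Δs ^ (m * (n - 1 - (i : ℕ))) := by
      rw [← pow_add, ← Nat.mul_add, hi]
    rw [map_mul, map_pow, hPexp i, hsplit, div_pow, ← pow_mul]
    have hne : ofC Δs ^ (m * (n - 1 - (i : ℕ))) ≠ 0 := pow_ne_zero _ hD0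
    field_simp

theorem toC_DeltaQ_eq : toC DeltaQ = Δs := by
  rw [Fermat.Agent.S28.helper4768.toC_DeltaQ, Δs, map_mul, PowerSeries.map_X]

/-- The same relation over `ℚ[j]`, for a cusp form with rational `q`-expansion `s`. -/
theorem exists_relation_Q (N : ℕ) [NeZero N] (m : ℕ) (hm : 1 ≤ m)
    (f : CuspForm (CongruenceSubgroup.Gamma0 N) (12 * (m : ℤ))) (s : PowerSeries ℚ)
    (hs : qExpansion 1 f = toC s) :
    ∃ (n : ℕ) (P : Fin n → ℚ[X]), (∀ i : Fin n, (P i).natDegree < m * ((i : ℕ) + 1)) ∧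
      (ofPS s / DeltaL ^ m) ^ n +
        ∑ i : Fin n, aeval jq (P i) * (ofPS s / DeltaL ^ m) ^ (n - 1 - (i : ℕ)) = 0 := by
  obtain ⟨n, P, hdeg, hrel⟩ := exists_relation_C N m hm f
  have hx : ofC (qExpansion 1 f) / ofC Δs ^ m =
      coeffMap (algebraMap ℚ ℂ) (ofPS s / DeltaL ^ m) := by
    rw [map_div₀, map_pow, DeltaL, coeffMap_ofPowerSeries, coeffMap_ofPowerSeries, hs]
    show ofC (toC s) / ofC Δs ^ m = ofC (toC s) / ofC (toC DeltaQ) ^ m
    rw [toC_DeltaQ_eq]
  rw [hx] at hrel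
  obtain ⟨P', hP', hrel'⟩ := descend_monic _ n P hrel
  exact ⟨n, P', fun i => (hP' i).trans_lt (hdeg i), hrel'⟩

open Fermat.Agent.S24.helper24 (Kbar FN jBar coe_jBar)

/-- The element `f / Δ ^ m` of the function field `F_N` over `ℚ̄` attached to a cusp form `f` of
weight `12 m` on `Γ₀(N)` with integer `q`-coefficients `a`, and its monic relation over
`ℚ̄[j]`. -/
theorem exists_relation_bar (N : ℕ) [NeZero N] (m : ℕ) (hm : 1 ≤ m)
    (f : CuspForm (CongruenceSubgroup.Gamma0 N) (12 * (m : ℤ))) (a : ℕ → ℤ)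
    (ha : ∀ n, ModularFormClass.qCoeff f n = (a n : ℂ)) :
    ∃ x : FN N,
      (x : LaurentSeries Kbar) =
        coeffEmb Kbar (ofPS (PowerSeries.mk fun n => (a n : ℚ)) / DeltaL ^ m) ∧
      ∃ (n : ℕ) (P : Fin n → Kbar[X]), (∀ i : Fin n, (P i).natDegree < m * ((i : ℕ) + 1)) ∧
        x ^ n + ∑ i : Fin n, aeval (jBar N) (P i) * x ^ (n - 1 - (i : ℕ)) = 0 := by
  set s : PowerSeries ℚ := PowerSeries.mk fun n => (a n : ℚ) with hsdef
  have hs : qExpansion 1 f = toC s := by
    ext n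
    rw [PowerSeries.coeff_map, PowerSeries.coeff_mk]
    show ModularFormClass.qCoeff f n = _
    rw [ha n]
    simp
  have hP : IsQExp N (12 * (m : ℤ)) s :=
    Fermat.Agent.S18.helper4053.isQExp_of_cuspForm_int f a ha
  have hQ : IsQExp N (12 * (m : ℤ)) (DeltaQ ^ m) :=
    ((Fermat.Agent.S28.helper4768.isQExp_Delta N).pow m).cast (by ring)
  have hQ0 : DeltaQ ^ m ≠ 0 := pow_ne_zero m Fermat.Agent.S28.helper4768.DeltaQ_ne_zero
  have hmemQ : ofPS s / DeltaL ^ m ∈ modularFunctionFieldFull N := by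
    have := Fermat.Agent.S18.helper4053.div_mem_full_of_isQExp hP hQ hQ0
    rwa [map_pow] at this
  have hmem : coeffEmb Kbar (ofPS s / DeltaL ^ m) ∈ modularFunctionFieldBar N :=
    coeffEmb_mem_laurentBaseChange Kbar hmemQ
  refine ⟨⟨_, hmem⟩, rfl, ?_⟩
  obtain ⟨n, P, hdeg, hrel⟩ := exists_relation_Q N m hm f s hs
  refine ⟨n, fun i => (P i).map (algebraMap ℚ Kbar),
    fun i => (Polynomial.natDegree_map_le).trans_lt (hdeg i), ?_⟩
  apply Subtype.ext
  have h2 := congrArg (coeffEmb Kbar) hrel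
  rw [map_add, map_pow, map_sum, map_zero] at h2
  rw [IntermediateField.coe_add, IntermediateField.coe_pow, IntermediateField.coe_sum,
    IntermediateField.coe_zero, ← h2]
  congr 1
  refine Finset.sum_congr rfl fun i _ => ?_
  rw [IntermediateField.coe_mul, IntermediateField.coe_pow, map_mul, map_pow,
    ← IntermediateField.aeval_coe]
  congr 1
  show aeval ((jBar N : FN N) : LaurentSeries Kbar) _ = coeffMap (algebraMap ℚ Kbar) (aeval jq (P i))
  rw [Fermat.Agent.S28.helper1828.coeffMap_aeval, coe_jBar]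
  rfl

/-- **The family.** For `m ≥ 1` there are `dim S_{12m}(Γ₀(N))` elements of `F_N`, linearly
independent over `ℚ̄`, each a root of a monic polynomial over `ℚ̄[j]` whose coefficient of
`X^(n-1-i)` has degree `< m (i+1)` in `j`. -/
theorem exists_family (N : ℕ) [NeZero N] (m : ℕ) (hm : 1 ≤ m) :
    ∃ x : Fin (Module.finrank ℂ (CuspForm (CongruenceSubgroup.Gamma0 N) (12 * (m : ℤ)))) → FN N,
      LinearIndependent Kbar x ∧
      ∀ i, ∃ (n : ℕ) (P : Fin n → Kbar[X]), (∀ t : Fin n, (P t).natDegree < m * ((t : ℕ) + 1)) ∧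
        x i ^ n + ∑ t : Fin n, aeval (jBar N) (P t) * x i ^ (n - 1 - (t : ℕ)) = 0 := by
  obtain ⟨s, f, a, hs, hq, -, -, -, -, hZ, hsat⟩ :=
    Fermat.Agent.S18.helper2149.exists_saturated_basis
      (Fermat.Agent.S23.helper23.hasIntegralStructure N (12 * (m : ℤ)))
  subst hs
  choose x hx hrel using fun i => exists_relation_bar N m hm (f i) (a i) (hq i)
  refine ⟨x, ?_, hrel⟩
  have h1 := Fermat.Agent.S18.helper2149.linearIndependent_laurentSeries hZ hsat Kbar
  set c : LaurentSeries Kbar := (coeffEmb Kbar DeltaL ^ m)⁻¹ with hc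
  have hc0 : c ≠ 0 := by
    rw [hc]
    refine inv_ne_zero (pow_ne_zero _ ?_)
    intro h0
    exact Fermat.Agent.S28.helper4768.DeltaL_ne_zero ((coeffEmb Kbar).injective (by rw [h0, map_zero]))
  have hps : ∀ i, PowerSeries.map (algebraMap ℚ Kbar) (PowerSeries.mk fun n => (a i n : ℚ)) =
      PowerSeries.map (Int.castRingHom Kbar) (PowerSeries.mk (a i)) := by
    intro i
    ext n
    simp
  have h2 : ∀ i, (x i : LaurentSeries Kbar) =
      coeffMap (Int.castRingHom Kbar) (Fermat.Agent.S18.helper2149.qLaurent (a i)) * c := by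
    intro i
    rw [hx i, map_div₀, map_pow, div_eq_mul_inv, Fermat.Agent.S18.helper2149.qLaurent,
      coeffMap_ofPowerSeries, ← hps i]
    show coeffMap (algebraMap ℚ Kbar) (ofPS _) * _ = _
    rw [coeffMap_ofPowerSeries]
  have h1' : ∀ g : Fin _ → Kbar,
      ∑ i, HahnSeries.C (g i) *
        coeffMap (Int.castRingHom Kbar) (Fermat.Agent.S18.helper2149.qLaurent (a i)) = 0 →
      ∀ i, g i = 0 := by
    intro g hg
    refine Fintype.linearIndependent_iff.mp h1 g ?_
    rw [← hg]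
    refine Finset.sum_congr rfl fun i _ => ?_
    rw [HahnSeries.C_mul_eq_smul]
  rw [Fintype.linearIndependent_iff]
  intro g hg
  refine h1' g ?_
  have h3 := congrArg (Subtype.val : FN N → LaurentSeries Kbar) hg
  rw [IntermediateField.coe_sum, IntermediateField.coe_zero] at h3
  have h4 : (∑ i, HahnSeries.C (g i) *
      coeffMap (Int.castRingHom Kbar) (Fermat.Agent.S18.helper2149.qLaurent (a i))) * c = 0 := by
    rw [← h3, Finset.sum_mul]
    refine Finset.sum_congr rfl fun i _ => ?_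
    rw [IntermediateField.coe_smul, h2 i, Algebra.smul_def,
      Fermat.Agent.S28.helper1828.algebraMap_laurentSeries_eq_C, mul_assoc]
  exact (mul_eq_zero.mp h4).resolve_right hc0

end Fermat.Agent.S18.helper20
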