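/-
S18-RCUSP-P45 (board row 1512, helper265): (P4)+(P5) of helper20's route to the Riemann
inequality with `g = dim S₂`.

Generic part (any valuation / any place of a function field):
* `map_le_one_of_monic_relation`, `map_lt_one_of_monic_relation` : Newton-polygon bounds for a
  root of a monic relation `x ^ n + ∑ i, c i * x ^ (n - 1 - i) = 0`;
* `adicValuation_le_one_of_relation` : at a place where `j` is regular, a root of a monic
  relation with coefficients in `K[j]` is regular;
* `ord_ge_of_relation_at_pole` : at a pole of `j`, if `deg P_i < m (i + 1)` then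
  `1 + m * ord_v j ≤ ord_v x`.

Modular part:
* `exists_divisor_of_monic` : the divisor `D_m = ∑_{v pole of j} (m * (-ord_v j) - 1) v` of degree
  `m ψ(N) - (number of cusps)` whose Riemann–Roch space contains every root of such a relation.
-/
import Fermat.Agent.S18.helper8185_RamData
import Fermat.Agent.S24.helper204_Places

set_option autoImplicit false

open AlgebraicCurve IntermediateField ModularCurve WithZero Polynomial

noncomputable section

namespace Fermat.Agent.S18.helper265

open Fermat.Agent.S24 Fermat.Agent.S24.helper24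

/-! ## Newton polygon bounds for a general valuation -/

section Val

variable {F Γ₀ : Type*} [Field F] [LinearOrderedCommGroupWithZero Γ₀] (v : Valuation F Γ₀)

/-- A root of a monic relation with coefficients of valuation `≤ 1` has valuation `≤ 1`. -/
theorem map_le_one_of_monic_relation {x : F} {n : ℕ} {c : Fin n → F} (hc : ∀ i, v (c i) ≤ 1)
    (h : x ^ n + ∑ i : Fin n, c i * x ^ (n - 1 - (i : ℕ)) = 0) : v x ≤ 1 := by
  by_contra hx
  rw [not_le] at hx
  have hxpos : 0 < v x := zero_lt_one.trans hx
  have hx0 : v x ≠ 0 := hxpos.ne'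
  have hlt : v (∑ i : Fin n, c i * x ^ (n - 1 - (i : ℕ))) < v (x ^ n) := by
    apply Valuation.map_sum_lt v (by rw [map_pow]; exact pow_ne_zero n hx0)
    intro i _
    rw [map_mul, map_pow, map_pow]
    calc v (c i) * v x ^ (n - 1 - (i : ℕ)) ≤ 1 * v x ^ (n - 1 - (i : ℕ)) :=
          mul_le_mul' (hc i) le_rfl
      _ = v x ^ (n - 1 - (i : ℕ)) := one_mul _
      _ < v x ^ n := pow_lt_pow_right₀ hx (by have := i.2; omega)
  have h1 := Valuation.map_add_eq_of_lt_left v hlt
  rw [h, map_zero, map_pow] at h1
  exact pow_ne_zero n hx0 h1.symm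

/-- A root of a monic relation with coefficients of valuation `< 1` has valuation `< 1`. -/
theorem map_lt_one_of_monic_relation {x : F} {n : ℕ} {c : Fin n → F} (hc : ∀ i, v (c i) < 1)
    (h : x ^ n + ∑ i : Fin n, c i * x ^ (n - 1 - (i : ℕ)) = 0) : v x < 1 := by
  by_contra hx
  rw [not_lt] at hx
  have hxpos : 0 < v x := zero_lt_one.trans_le hx
  have hx0 : v x ≠ 0 := hxpos.ne'
  have hlt : v (∑ i : Fin n, c i * x ^ (n - 1 - (i : ℕ))) < v (x ^ n) := by
    apply Valuation.map_sum_lt v (by rw [map_pow]; exact pow_ne_zero n hx0)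
    intro i _
    rw [map_mul, map_pow, map_pow]
    calc v (c i) * v x ^ (n - 1 - (i : ℕ)) < 1 * v x ^ (n - 1 - (i : ℕ)) :=
          mul_lt_mul_of_pos_right (hc i) (pow_pos hxpos _)
      _ = v x ^ (n - 1 - (i : ℕ)) := one_mul _
      _ ≤ v x ^ n := pow_le_pow_right₀ hx (by omega)
  have h1 := Valuation.map_add_eq_of_lt_left v hlt
  rw [h, map_zero, map_pow] at h1
  exact pow_ne_zero n hx0 h1.symm

end Val

/-! ## Places of a function field -/

section PlaceLemmas

variable {K F : Type*} [Field K] [Field F] [Algebra K F]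

/-- A polynomial in an element which is regular at `v` is regular at `v`. -/
theorem adicValuation_aeval_le_one (v : Place K F) {j : F} (hj : v.adicValuation j ≤ 1)
    (P : K[X]) : v.adicValuation (aeval j P) ≤ 1 := by
  rw [Polynomial.aeval_eq_sum_range]
  apply Valuation.map_sum_le
  intro k _
  rw [Algebra.smul_def, map_mul, map_pow]
  exact mul_le_one' (v.adicValuation_algebraMap_le_one _) (pow_le_one' hj k)

/-- At a pole of `j`, a polynomial in `j` has valuation at most `v(j) ^ deg`. -/
theorem adicValuation_aeval_le_pow (v : Place K F) {j : F} (hj : 1 ≤ v.adicValuation j)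
    (P : K[X]) : v.adicValuation (aeval j P) ≤ v.adicValuation j ^ P.natDegree := by
  rw [Polynomial.aeval_eq_sum_range]
  apply Valuation.map_sum_le
  intro k hk
  rw [Algebra.smul_def, map_mul, map_pow]
  calc v.adicValuation (algebraMap K F (P.coeff k)) * v.adicValuation j ^ k
      ≤ 1 * v.adicValuation j ^ k := mul_le_mul' (v.adicValuation_algebraMap_le_one _) le_rfl
    _ = v.adicValuation j ^ k := one_mul _
    _ ≤ v.adicValuation j ^ P.natDegree :=
        pow_le_pow_right₀ hj (Nat.lt_succ_iff.mp (Finset.mem_range.mp hk))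

/-- **(V1)** At a place where `j` is regular, a root of a monic relation with coefficients in
`K[j]` is regular. -/
theorem adicValuation_le_one_of_relation (v : Place K F) {j x : F}
    (hj : v.adicValuation j ≤ 1) {n : ℕ} (P : Fin n → K[X])
    (h : x ^ n + ∑ i : Fin n, aeval j (P i) * x ^ (n - 1 - (i : ℕ)) = 0) :
    v.adicValuation x ≤ 1 :=
  map_le_one_of_monic_relation v.adicValuation (fun i => adicValuation_aeval_le_one v hj (P i)) h

/-- **(V2)** At a pole of `j`, a root `x` of a monic relation with coefficients `P i ∈ K[j]`,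
`deg P i < m (i + 1)`, satisfies `v (x / j ^ m) < 1`. -/
theorem adicValuation_div_lt_one_of_relation (v : Place K F) {j x : F}
    (hj : 1 < v.adicValuation j) (m : ℕ) {n : ℕ} (P : Fin n → K[X])
    (hP : ∀ i, (P i).natDegree < m * ((i : ℕ) + 1))
    (h : x ^ n + ∑ i : Fin n, aeval j (P i) * x ^ (n - 1 - (i : ℕ)) = 0) :
    v.adicValuation (x / j ^ m) < 1 := by
  have hjpos : 0 < v.adicValuation j := zero_lt_one.trans hj
  have hj0 : j ≠ 0 := by
    rintro rfl
    rw [map_zero] at hjpos
    exact lt_irrefl _ hjpos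
  have key : (x / j ^ m) ^ n
      + ∑ i : Fin n, (aeval j (P i) / j ^ (m * ((i : ℕ) + 1))) * (x / j ^ m) ^ (n - 1 - (i : ℕ))
      = (x ^ n + ∑ i : Fin n, aeval j (P i) * x ^ (n - 1 - (i : ℕ))) / j ^ (m * n) := by
    rw [add_div, Finset.sum_div]
    congr 1
    · rw [div_pow, ← pow_mul]
    · apply Finset.sum_congr rfl
      intro i _
      have hi : m * n = m * ((i : ℕ) + 1) + m * (n - 1 - (i : ℕ)) := by
        have := i.2
        rw [← mul_add]
        congr 1
        omega
      rw [hi, pow_add, div_pow, ← pow_mul]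
      field_simp
  rw [h, zero_div] at key
  refine map_lt_one_of_monic_relation v.adicValuation (fun i => ?_) key
  rw [map_div₀, map_pow]
  have hpow : 0 < v.adicValuation j ^ (m * ((i : ℕ) + 1)) := pow_pos hjpos _
  rw [div_lt_one₀ hpow]
  exact (adicValuation_aeval_le_pow v hj.le (P i)).trans_lt (pow_lt_pow_right₀ hj (hP i))

/-- **(V2), order form.** At a pole of `j`: `1 + m * ord_v j ≤ ord_v x` (or `x = 0`). -/
theorem ord_ge_of_relation_at_pole (v : Place K F) {j x : F} (hj : v.ord j < 0) (m : ℕ)
    {n : ℕ} (P : Fin n → K[X]) (hP : ∀ i, (P i).natDegree < m * ((i : ℕ) + 1))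
    (h : x ^ n + ∑ i : Fin n, aeval j (P i) * x ^ (n - 1 - (i : ℕ)) = 0) (hx : x ≠ 0) :
    1 + (m : ℤ) * v.ord j ≤ v.ord x := by
  have hj1 : 1 < v.adicValuation j := not_le.mp (v.not_adicValuation_le_one_iff.mpr hj)
  have hj0 : j ≠ 0 := by
    rintro rfl
    rw [map_zero] at hj1
    exact absurd hj1 (by simp)
  have hlt := adicValuation_div_lt_one_of_relation v hj1 m P hP h
  have hy0 : x / j ^ m ≠ 0 := div_ne_zero hx (pow_ne_zero m hj0)
  rw [v.adicValuation_eq_exp_neg_ord hy0, ← WithZero.exp_zero, WithZero.exp_lt_exp] at hlt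
  have hord : v.ord (x / j ^ m) = v.ord x - (m : ℤ) * v.ord j := by
    rw [div_eq_mul_inv, v.ord_mul hx (inv_ne_zero (pow_ne_zero m hj0)), v.ord_inv,
      ← zpow_natCast, v.ord_zpow]
    ring
  rw [hord] at hlt
  omega

end PlaceLemmas

/-! ## The modular statement -/

/-- **(P4)+(P5).** For every `m ≥ 1` there is a divisor `D` of the function field of `X₀(N)` of
degree `m ψ(N) - #cusps` such that every root `x` of a monic relation
`x ^ n + ∑ i, P_i(j) x ^ (n - 1 - i) = 0` with `deg P_i < m (i + 1)` lies in `L(D)`. -/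
theorem exists_divisor_of_monic (N : ℕ) [NeZero N] (m : ℕ) (hm : 1 ≤ m) :
    ∃ D : Divisor Kbar (FN N),
      Divisor.degree D = (m : ℤ) * dedekindPsi N - cuspCount N ∧
      ∀ (x : FN N) (n : ℕ) (P : Fin n → Polynomial Kbar),
        (∀ i, (P i).natDegree < m * ((i : ℕ) + 1)) →
        x ^ n + ∑ i : Fin n, Polynomial.aeval (jBar N) (P i) * x ^ (n - 1 - (i : ℕ)) = 0 →
        x ∈ riemannRochSpace D := by
  classical
  have _ := hm
  have hJT : Transcendental Kbar (jBar N) := leaf_JTranscendental N
  obtain ⟨hfd, hfin⟩ := Fermat.Agent.S18.helper8185.stmt_JFinrank N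
  have := hfd
  obtain ⟨s, hs, hsum⟩ := helper204.exists_finset_poles (jBar N) hJT
  have hcusp : s.card = cuspCount N := by
    rw [← (Fermat.Agent.S18.helper8185.stmt_Places N).2.2.2]
    rw [← Nat.card_eq_finsetCard s]
    exact Nat.card_congr (Equiv.subtypeEquivRight hs)
  refine ⟨∑ v ∈ s, Finsupp.single v ((m : ℤ) * (-v.ord (jBar N)) - 1), ?_, ?_⟩
  · rw [map_sum]
    have h1 : ∀ v ∈ s, Divisor.degree (Finsupp.single v ((m : ℤ) * (-v.ord (jBar N)) - 1))
        = (m : ℤ) * (-v.ord (jBar N)) - 1 := by
      intro v _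
      rw [Divisor.degree_single, helper204.place_deg_eq_one (jBar N) hJT v]
      simp
    rw [Finset.sum_congr rfl h1, Finset.sum_sub_distrib, ← Finset.mul_sum, hsum, hfin,
      leaf_Index N, Finset.sum_const, hcusp]
    simp
  · intro x n P hP hrel
    show ∀ v : Place Kbar (FN N), v.adicValuation x ≤ exp _
    intro v
    rw [Finsupp.finsetSum_apply]
    by_cases hv : v ∈ s
    · have hpole : v.ord (jBar N) < 0 := (hs v).mp hv
      have hval : (∑ w ∈ s, (Finsupp.single w ((m : ℤ) * (-w.ord (jBar N)) - 1)) v)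
          = (m : ℤ) * (-v.ord (jBar N)) - 1 := by
        rw [Finset.sum_eq_single v]
        · exact Finsupp.single_eq_same
        · intro w _ hwv
          exact Finsupp.single_eq_of_ne (Ne.symm hwv)
        · intro hv'
          exact absurd hv hv'
      rw [hval, v.adicValuation_le_exp_iff]
      by_cases hx : x = 0
      · exact Or.inl hx
      · right
        have h1 := ord_ge_of_relation_at_pole v hpole m P hP hrel hx
        have h2 : (m : ℤ) * (-v.ord (jBar N)) = -((m : ℤ) * v.ord (jBar N)) := by ring
        rw [h2]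
        linarith
    · have hreg : v.adicValuation (jBar N) ≤ 1 := by
        by_contra hcon
        exact hv ((hs v).mpr (v.not_adicValuation_le_one_iff.mp hcon))
      have hval : (∑ w ∈ s, (Finsupp.single w ((m : ℤ) * (-w.ord (jBar N)) - 1)) v) = 0 := by
        apply Finset.sum_eq_zero
        intro w hw
        apply Finsupp.single_eq_of_ne
        rintro rfl
        exact hv hw
      rw [hval, WithZero.exp_zero]
      exact adicValuation_le_one_of_relation v hreg P hrel

end Fermat.Agent.S18.helper265
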