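/-
S18-RCUSP-ASM, part 2 (helper1903): the char-0 Riemann inequality with `g = dim S₂(Γ₀(N))` on
`F_N = modularFunctionFieldBar N`, reduced to the ONE remaining input (P2)+(P3) of the route
team_s18_chat #158 / #295:

  for every `m ≥ 1` a `ℚ̄`-linearly independent family `x : Fin (dim S_{12m}(Γ₀(N))) → F_N`
  each member of which satisfies a monic relation `x^n + ∑ P_i(j) x^(n-1-i) = 0` over `ℚ̄[j]`
  with `deg P_i < m (i + 1)`.

(P1) = `helper20.finrank_cuspForm_twelve` and (P4)+(P5) = `helper265.exists_divisor_of_monic`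
are consumed here; the generic Riemann theorem is `helper981`, instantiated at `F_N` in
`helper1903_RiemannAsm`.
-/
import Fermat.Agent.S18.helper1903_RiemannAsm
import Fermat.Agent.S18.helper265_MonicDivisor
import Fermat.Agent.S18.helper20_CuspDim
import Fermat.Agent.S18.helper20_CuspInt

set_option autoImplicit false

namespace Fermat.Agent.S18.helper1903

open AlgebraicCurve Module IntermediateField ModularCurve CongruenceSubgroup
open Fermat.Agent.S18.helper981 Fermat.Agent.S24.helper24

/-- The remaining input of RCUSP: integral cusp forms of weight `12 m` divided by `Δ^m` give a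
`ℚ̄`-linearly independent family of `dim S_{12m}` elements of `F_N`, each a root of a monic
relation over `ℚ̄[j]` with coefficient degrees `< m (i + 1)`. -/
def Stmt_CuspFamily (N : ℕ) [NeZero N] : Prop :=
  ∀ m : ℕ, 1 ≤ m →
    ∃ x : Fin (Module.finrank ℂ (CuspForm (Gamma0 N) (12 * (m : ℤ)))) → FN N,
      LinearIndependent Kbar x ∧
      ∀ i, ∃ (n : ℕ) (P : Fin n → Polynomial Kbar),
        (∀ k, (P k).natDegree < m * ((k : ℕ) + 1)) ∧
        x i ^ n + ∑ k : Fin n, Polynomial.aeval (jBar N) (P k) * x i ^ (n - 1 - (k : ℕ)) = 0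

/-- **RCUSP from (P2)+(P3).**  Riemann's inequality with `g = dim S₂(Γ₀(N))` for ALL divisors
of the modular function field `F_N` over `ℚ̄`. -/
theorem riemann_inequality_of_cuspFamily (N : ℕ) [NeZero N] (h : Stmt_CuspFamily N)
    (D : Divisor Kbar (FN N)) :
    Divisor.degree D + 1 - (Module.finrank ℂ (CuspForm (Gamma0 N) 2) : ℤ)
      ≤ (finrank Kbar (riemannRochSpace D) : ℤ) := by
  refine riemann_inequality_of N
    (fun m hm => Fermat.Agent.S18.helper265.exists_divisor_of_monic N m hm)
    (fun m hm => ?_) D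
  obtain ⟨x, hli, hrel⟩ := h m hm
  refine ⟨_, x, hli, ?_, hrel⟩
  have h1 := Fermat.Agent.S18.helper20.finrank_cuspForm_twelve N m hm
  omega

/-- The Riemann genus of `F_N` is at most `dim S₂(Γ₀(N))`. -/
theorem riemannGenus_le_of_cuspFamily (N : ℕ) [NeZero N] (h : Stmt_CuspFamily N) :
    riemannGenus Kbar (FN N) ≤ Module.finrank ℂ (CuspForm (Gamma0 N) 2) :=
  riemannGenus_le_of N (riemann_inequality_of_cuspFamily N h)

/-- The Prelude genus `genusFF` of `F_N` is at most `dim S₂(Γ₀(N))`. -/
theorem genusFF_le_of_cuspFamily (N : ℕ) [NeZero N] (h : Stmt_CuspFamily N) :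
    genusFF Kbar (FN N) ≤ Module.finrank ℂ (CuspForm (Gamma0 N) 2) :=
  genusFF_le_of N (riemann_inequality_of_cuspFamily N h)

/-- (P2)+(P3) is `helper20.exists_family`. -/
theorem stmt_CuspFamily (N : ℕ) [NeZero N] : Stmt_CuspFamily N :=
  fun m hm => Fermat.Agent.S18.helper20.exists_family N m hm

/-- **RCUSP = (RIEM_F).**  The char-0 Riemann inequality with `g = dim S₂(Γ₀(N))` for ALL
divisors of the modular function field `F_N = modularFunctionFieldBar N` over `ℚ̄`
(every level `N ≥ 1`, no hypothesis). -/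
theorem riemann_inequality (N : ℕ) [NeZero N] (D : Divisor Kbar (FN N)) :
    Divisor.degree D + 1 - (Module.finrank ℂ (CuspForm (Gamma0 N) 2) : ℤ)
      ≤ (finrank Kbar (riemannRochSpace D) : ℤ) :=
  riemann_inequality_of_cuspFamily N (stmt_CuspFamily N) D

/-- The Riemann genus of `F_N` is at most `dim S₂(Γ₀(N))`. -/
theorem riemannGenus_le (N : ℕ) [NeZero N] :
    riemannGenus Kbar (FN N) ≤ Module.finrank ℂ (CuspForm (Gamma0 N) 2) :=
  riemannGenus_le_of_cuspFamily N (stmt_CuspFamily N)

/-- The Prelude genus `genusFF` of `F_N` is at most `dim S₂(Γ₀(N))`. -/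
theorem genusFF_le (N : ℕ) [NeZero N] :
    genusFF Kbar (FN N) ≤ Module.finrank ℂ (CuspForm (Gamma0 N) 2) :=
  genusFF_le_of_cuspFamily N (stmt_CuspFamily N)

/-- `(RIEM_F)` in the frozen vocabulary (no S24 abbreviations). -/
theorem riemann_inequality_bar (N : ℕ) [NeZero N]
    (D : Divisor (AlgebraicClosure ℚ) ↥(modularFunctionFieldBar N)) :
    Divisor.degree D + 1 - (Module.finrank ℂ (CuspForm (Gamma0 N) 2) : ℤ)
      ≤ (finrank (AlgebraicClosure ℚ) (riemannRochSpace D) : ℤ) :=
  riemann_inequality N D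

end Fermat.Agent.S18.helper1903
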