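/-
S18 track C, leaf (C1) (helper1040): `helper99.Stmt_R N` for every level `N ≠ 0`, as the instance
`D = n • P` of the landed Riemann inequality `helper1903.riemann_inequality_bar` (RCUSP).
-/
import Fermat.Agent.S18.helper99_SpecC
import Fermat.Agent.S18.helper1903_RiemannCusp
import Fermat.Agent.S18.helper1040_PlaceFacts

set_option autoImplicit false

noncomputable section

namespace Fermat.Agent.S18.helper1040

open ModularCurve AlgebraicCurve HahnSeries

/-- **(C1) = (R)** of track C: Riemann's inequality at the cusp `∞` with `g = dim S₂(Γ₀(N))`. -/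
theorem stmt_R (N : ℕ) [NeZero N] : helper99.Stmt_R N := by
  intro P _ n
  have h := Fermat.Agent.S18.helper1903.riemann_inequality_bar N (n • Finsupp.single P (1 : ℤ))
  have hdeg : Divisor.degree (n • Finsupp.single P (1 : ℤ)) = (n : ℤ) := by
    rw [map_nsmul, Divisor.degree_single, (placeFacts N).deg_one P]
    simp
  rw [hdeg] at h
  exact h

end Fermat.Agent.S18.helper1040
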