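import Mathlib
import Fermat.Agent.S16.helper903_DeuringCore
import Fermat.Agent.S18.helper5198_TameCert

/-!
# S18, track B-DN, leaf DN-A: the char-0 supply of hypothesis `(a')` of the DN lemma

`P` an integrally closed domain (the chart ring `A₀[t]`), `K = Frac P`, `L / K` finite separable,
`lam` a prime element of `P` (the uniformiser of `A₀`), `A'` a Dedekind `ℚ`-algebra between `P` and
`K` which is `P[1/lam]` (the generic fibre `K₀[t]`).  Suppose

* `(c)` some `K`-basis of `L` consists of elements integral over `P` and has discriminant `d`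
  with `lam ∤ d` (the vertical input), and
* every nonzero prime of the integral closure of `A'` in `L` not containing `G` is unramified
  over `A'` (the horizontal input: `G` vanishes at all finite branch values).

Then every `x` in the trace dual of the integral closure `R` of `P` in `L` satisfies
`x ^ M * G ^ (M - 1) ∈ R` with `M = [L : K]`: `dualBound`.  This is hypothesis `(a')` of the
trace-duality normality lemma.

Ingredients: the tame Dedekind core `helper5198.exists_eq_pow_mul_pow_of_trace_mem` on the generic
fibre, the adjugate of the Gram matrix (`d * x` is integral), and the two-denominator saturation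
lemma `helper903.isIntegral_div_prime_pow`.
-/

set_option autoImplicit false

noncomputable section

namespace Fermat.Agent.S18.helper1148

open Polynomial Module

section Saturation

variable {P L : Type*} [CommRing P] [IsDomain P] [IsIntegrallyClosed P] [Field L] [Algebra P L]
  [FaithfulSMul P L]

/-- **(A1) Two-denominator saturation.** If `lam ^ k * y` and `d * y` are integral over the
integrally closed domain `P`, `lam` is prime and `lam ∤ d`, then `y` is integral. -/
theorem isIntegral_of_two_denominators {lam d : P} (hlam : Prime lam) (hd : ¬ lam ∣ d) (k : ℕ)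
    {y : L} (h1 : IsIntegral P (algebraMap P L (lam ^ k) * y))
    (h2 : IsIntegral P (algebraMap P L d * y)) : IsIntegral P y := by
  obtain ⟨w, hw, hyw⟩ := Fermat.Agent.S16.helper903.isIntegral_div_prime_pow hlam hd k h1 h2
    (by rw [map_pow]; ring)
  have hinj : Function.Injective (algebraMap P L) := FaithfulSMul.algebraMap_injective P L
  have hne : algebraMap P L lam ^ k ≠ 0 :=
    pow_ne_zero k ((map_ne_zero_iff _ hinj).mpr hlam.ne_zero)
  have hyw' : y = w := by
    rw [map_pow] at hyw
    exact mul_left_cancel₀ hne hyw
  rw [hyw']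
  exact hw

end Saturation

section Gram

variable {P K L : Type*} [CommRing P] [IsIntegrallyClosed P] [Field K] [Field L]
  [Algebra P K] [IsFractionRing P K] [Algebra K L] [Algebra P L] [IsScalarTower P K L]
  [FiniteDimensional K L]

/-- If `c` is a `K`-basis of `L` of elements integral over `P` with discriminant `d ∈ P`, and all
traces `Tr (x * c i)` lie in `P`, then `d * x` is integral over `P` (Cramer's rule for the Gram
matrix). -/
theorem isIntegral_discr_mul_of_trace_mem {ι : Type*} [Fintype ι] [DecidableEq ι]
    (c : Basis ι K L) (hc : ∀ i, IsIntegral P (c i)) (d : P)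
    (hd : Algebra.discr K c = algebraMap P K d) (x : L)
    (hx : ∀ i, Algebra.trace K L (x * c i) ∈ (algebraMap P K).range) :
    IsIntegral P (algebraMap P L d * x) := by
  classical
  -- the Gram matrix has entries in `P`
  have hT : ∀ i j, ∃ t : P, algebraMap P K t = Algebra.trace K L (c i * c j) := fun i j =>
    IsIntegrallyClosed.isIntegral_iff.mp (Algebra.isIntegral_trace ((hc i).mul (hc j)))
  choose T hTdef using hT
  choose p hp using hx
  set Tm : Matrix ι ι K := Algebra.traceMatrix K c with hTm
  have hTmap : Tm = (Matrix.of T).map (algebraMap P K) := by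
    ext i j
    rw [hTm, Algebra.traceMatrix_apply, Algebra.traceForm_apply, Matrix.map_apply, Matrix.of_apply,
      hTdef]
  set a : ι → K := c.equivFun x with ha
  have hxa : x = ∑ j, a j • c j := (c.sum_equivFun x).symm
  -- `Tm *ᵥ a = p`
  have hmul : Tm.mulVec a = fun i => algebraMap P K (p i) := by
    ext i
    rw [hp i]
    conv_rhs => rw [hxa]
    rw [Finset.sum_mul, map_sum]
    simp only [Matrix.mulVec, dotProduct, hTm, Algebra.traceMatrix_apply, Algebra.traceForm_apply]
    refine Finset.sum_congr rfl fun j _ => ?_
    rw [smul_mul_assoc, map_smul, smul_eq_mul, mul_comm (c j) (c i), mul_comm]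
  -- Cramer
  set q : ι → P := (Matrix.of T).adjugate.mulVec p with hq
  have hqa : ∀ j, algebraMap P K (q j) = algebraMap P K d * a j := by
    intro j
    have h1 : Tm.adjugate.mulVec (Tm.mulVec a) = Tm.det • a := by
      rw [Matrix.mulVec_mulVec, Matrix.adjugate_mul, Matrix.smul_mulVec, Matrix.one_mulVec]
    have h2 : Tm.adjugate.mulVec (fun i => algebraMap P K (p i)) =
        fun j => algebraMap P K (q j) := by
      have hadj : ((Matrix.of T).map (algebraMap P K)).adjugate =
          ((Matrix.of T).adjugate).map (algebraMap P K) :=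
        (RingHom.map_adjugate (algebraMap P K) (Matrix.of T)).symm
      rw [hTmap, hadj, hq]
      ext j
      simp only [Matrix.mulVec, dotProduct, Matrix.map_apply, map_sum, map_mul]
    rw [hmul, h2] at h1
    have h3 := congrFun h1 j
    rw [Pi.smul_apply, smul_eq_mul] at h3
    rw [h3, ← hd]
    rfl
  have hfinal : algebraMap P L d * x = ∑ j, algebraMap P L (q j) * c j := by
    conv_lhs => rw [hxa]
    rw [Finset.mul_sum]
    refine Finset.sum_congr rfl fun j _ => ?_
    rw [IsScalarTower.algebraMap_apply P K L (q j), hqa j, map_mul,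
      ← IsScalarTower.algebraMap_apply P K L, Algebra.smul_def]
    ring
  rw [hfinal]
  exact IsIntegral.sum _ fun j _ => (isIntegral_algebraMap).mul (hc j)

end Gram

section Localization

/-- `A'` is the localisation of `P` away from `lam` as soon as `P → A'` is injective, `lam` is a
unit of `A'` and every element of `A'` has a `lam`-power multiple in `P`. -/
theorem isLocalization_powers_of {P A' : Type*} [CommRing P] [CommRing A'] [Algebra P A']
    (lam : P) (hinj : Function.Injective (algebraMap P A'))
    (hunit : IsUnit (algebraMap P A' lam))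
    (hloc : ∀ a : A', ∃ (k : ℕ) (p : P), algebraMap P A' (lam ^ k) * a = algebraMap P A' p) :
    IsLocalization (Submonoid.powers lam) A' := by
  rw [isLocalization_iff]
  refine ⟨?_, ?_, ?_⟩
  · rintro ⟨_, n, rfl⟩
    simpa using hunit.pow n
  · intro a
    obtain ⟨k, p, h⟩ := hloc a
    exact ⟨(p, ⟨lam ^ k, k, rfl⟩), by rw [mul_comm]; exact h⟩
  · intro x y h
    exact ⟨1, by rw [hinj h]⟩

end Localization

section Main

variable {P K L A' B : Type*} [CommRing P] [IsDomain P] [IsIntegrallyClosed P] [Field K] [Field L]
  [Algebra P K] [IsFractionRing P K] [Algebra K L] [Algebra P L] [IsScalarTower P K L]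
  [FiniteDimensional K L] [Algebra.IsSeparable K L]
  [CommRing A'] [IsDedekindDomain A'] [Algebra ℚ A'] [Algebra P A'] [Algebra A' K]
  [IsFractionRing A' K] [IsScalarTower P A' K] [Algebra A' L] [IsScalarTower A' K L]
  [CommRing B] [Algebra B L] [Algebra A' B] [IsScalarTower A' B L] [IsIntegralClosure B A' L]
  [IsFractionRing B L] [IsDedekindDomain B]

/-- **DN-A, general `M`, abstract generic-fibre ring `B`.** Hypothesis `(a')` of the
trace-duality normality lemma from the vertical input `(c)` and the tame Dedekind core on the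
generic fibre `A' = P[1/lam]`, `B` = integral closure of `A'` in `L`. -/
theorem dualBound_general (lam : P) (hlam : Prime lam)
    (hunit : IsUnit (algebraMap P A' lam))
    (hloc : ∀ a : A', ∃ (k : ℕ) (p : P), algebraMap P A' (lam ^ k) * a = algebraMap P A' p)
    (hc : ∃ (ι : Type) (_ : Fintype ι) (_ : DecidableEq ι) (c : Basis ι K L) (d : P),
      (∀ i, IsIntegral P (c i)) ∧ Algebra.discr K c = algebraMap P K d ∧ ¬ lam ∣ d)
    (G : P) (M : ℕ)
    (hM : ∀ Q : Ideal B, Q.IsPrime → Q ≠ ⊥ →
      Multiset.count Q (UniqueFactorizationMonoid.normalizedFactors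
        ((Q.under A').map (algebraMap A' B))) ≤ M)
    (hs : ∀ Q : Ideal B, Q.IsPrime → Q ≠ ⊥ → algebraMap A' B (algebraMap P A' G) ∉ Q →
      ¬ Q ^ 2 ∣ (Q.under A').map (algebraMap A' B))
    (x : L)
    (hx : ∀ r : L, IsIntegral P r → Algebra.trace K L (x * r) ∈ (algebraMap P K).range) :
    IsIntegral P (x ^ M * algebraMap P L G ^ (M - 1)) := by
  classical
  have hinjPA : Function.Injective (algebraMap P A') := by
    have h : Function.Injective (algebraMap P K) := IsFractionRing.injective P K
    rw [IsScalarTower.algebraMap_eq P A' K] at h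
    exact Function.Injective.of_comp h
  have hlocz : IsLocalization (Submonoid.powers lam) A' :=
    isLocalization_powers_of lam hinjPA hunit hloc
  have htower : IsScalarTower P A' L := IsScalarTower.of_algebraMap_eq fun p => by
    rw [IsScalarTower.algebraMap_apply P K L, IsScalarTower.algebraMap_apply P A' K,
      ← IsScalarTower.algebraMap_apply A' K L]
  have hinjPL : Function.Injective (algebraMap P L) := by
    rw [IsScalarTower.algebraMap_eq P K L]
    exact (algebraMap K L).injective.comp (IsFractionRing.injective P K)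
  have hfaith : FaithfulSMul P L := (faithfulSMul_iff_algebraMap_injective P L).mpr hinjPL
  obtain ⟨ι, _, _, c, d, hcint, hdisc, hlamd⟩ := hc
  -- a `lam`-power multiple of an element integral over `A'` is integral over `P`
  have hmult : ∀ z : L, IsIntegral A' z → ∃ k : ℕ, IsIntegral P (algebraMap P L (lam ^ k) * z) := by
    intro z hz
    obtain ⟨⟨_, k, rfl⟩, hk⟩ := IsIntegral.exists_multiple_integral_of_isLocalization
      (Submonoid.powers lam) (Rₘ := A') z hz
    refine ⟨k, ?_⟩
    simpa [Submonoid.smul_def, Algebra.smul_def] using hk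
  -- (i) `x` lies in the trace dual of the generic-fibre Dedekind ring
  have hdual : ∀ b : B, Algebra.trace K L (x * algebraMap B L b) ∈ (algebraMap A' K).range := by
    intro b
    obtain ⟨k, hk'⟩ := hmult (algebraMap B L b)
      ((IsIntegralClosure.isIntegral_iff (A := B)).mpr ⟨b, rfl⟩)
    obtain ⟨p, hp⟩ := hx _ hk'
    obtain ⟨u, hu⟩ := hunit.pow k
    refine ⟨↑u⁻¹ * algebraMap P A' p, ?_⟩
    have h1 : x * (algebraMap P L (lam ^ k) * algebraMap B L b) =
        algebraMap P K (lam ^ k) • (x * algebraMap B L b) := by
      rw [Algebra.smul_def, ← IsScalarTower.algebraMap_apply P K L]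
      ring
    rw [h1, map_smul, smul_eq_mul] at hp
    have h2 : algebraMap A' K (↑u : A') = algebraMap P K (lam ^ k) := by
      rw [hu, ← map_pow, ← IsScalarTower.algebraMap_apply P A' K]
    have h3 : algebraMap A' K (↑u : A') * algebraMap A' K (↑u⁻¹ : A') = 1 := by
      rw [← map_mul, Units.mul_inv, map_one]
    rw [map_mul, ← IsScalarTower.algebraMap_apply P A' K, hp, ← h2]
    calc algebraMap A' K (↑u⁻¹ : A') *
          (algebraMap A' K (↑u : A') * Algebra.trace K L (x * algebraMap B L b))
        = (algebraMap A' K (↑u : A') * algebraMap A' K (↑u⁻¹ : A')) *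
            Algebra.trace K L (x * algebraMap B L b) := by ring
      _ = Algebra.trace K L (x * algebraMap B L b) := by rw [h3, one_mul]
  -- (ii) the tame Dedekind core on the generic fibre
  obtain ⟨w, hw⟩ := helper5198.exists_eq_pow_mul_pow_of_trace_mem (A := A') (K := K) (L := L)
    (B := B) (algebraMap P A' G) M hM hs x hdual
  set y : L := x ^ M * algebraMap P L G ^ (M - 1) with hy
  have hyint : IsIntegral A' y := by
    have hyw : y = algebraMap B L w := by
      rw [← hw, hy, ← IsScalarTower.algebraMap_apply P A' L]
      ring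
    rw [hyw]
    exact (IsIntegralClosure.isIntegral_iff (A := B)).mpr ⟨w, rfl⟩
  obtain ⟨k, hk'⟩ := hmult y hyint
  -- (iii) `d * x` is integral, hence `d ^ M * y` is
  have hdx : IsIntegral P (algebraMap P L d * x) :=
    isIntegral_discr_mul_of_trace_mem c hcint d hdisc x (fun i => hx _ (hcint i))
  have hdy : IsIntegral P (algebraMap P L (d ^ M) * y) := by
    have h : algebraMap P L (d ^ M) * y =
        (algebraMap P L d * x) ^ M * algebraMap P L G ^ (M - 1) := by
      rw [hy, map_pow]
      ring
    rw [h]
    exact (hdx.pow M).mul ((isIntegral_algebraMap).pow _)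
  -- (iv) two-denominator saturation
  exact isIntegral_of_two_denominators hlam (fun h => hlamd (hlam.dvd_of_dvd_pow h)) k hk' hdy

/-- **DN-A, abstract generic-fibre ring `B`, `M = [L : K]`** (no ramification-index data). -/
theorem dualBound_of_isIntegralClosure (lam : P) (hlam : Prime lam)
    (hunit : IsUnit (algebraMap P A' lam))
    (hloc : ∀ a : A', ∃ (k : ℕ) (p : P), algebraMap P A' (lam ^ k) * a = algebraMap P A' p)
    (hc : ∃ (ι : Type) (_ : Fintype ι) (_ : DecidableEq ι) (c : Basis ι K L) (d : P),
      (∀ i, IsIntegral P (c i)) ∧ Algebra.discr K c = algebraMap P K d ∧ ¬ lam ∣ d)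
    (G : P)
    (hs : ∀ Q : Ideal B, Q.IsPrime → Q ≠ ⊥ → algebraMap A' B (algebraMap P A' G) ∉ Q →
      ¬ Q ^ 2 ∣ (Q.under A').map (algebraMap A' B)) :
    ∀ x : L, (∀ r : L, IsIntegral P r → Algebra.trace K L (x * r) ∈ (algebraMap P K).range) →
      IsIntegral P (x ^ Module.finrank K L * algebraMap P L G ^ (Module.finrank K L - 1)) :=
  fun x hx => dualBound_general (B := B) lam hlam hunit hloc hc G (Module.finrank K L)
    (fun Q hQ hQ0 =>
      helper5198.count_normalizedFactors_le_finrank (K := K) (L := L) Q hQ hQ0) hs x hx

end Main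

section Concrete

variable {P K L A' : Type*} [CommRing P] [IsDomain P] [IsIntegrallyClosed P] [Field K] [Field L]
  [Algebra P K] [IsFractionRing P K] [Algebra K L] [Algebra P L] [IsScalarTower P K L]
  [FiniteDimensional K L] [Algebra.IsSeparable K L]
  [CommRing A'] [IsDedekindDomain A'] [Algebra ℚ A'] [Algebra P A'] [Algebra A' K]
  [IsFractionRing A' K] [IsScalarTower P A' K] [Algebra A' L] [IsScalarTower A' K L]

/-- **DN-A.** Hypothesis `(a')` of the trace-duality normality lemma, with `M = [L : K]` and the
generic-fibre ring `integralClosure A' L`: the conclusion is verbatim the hypothesis `ha` of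
`helper98.oneComponent_of_dualNormal`. -/
theorem dualBound (lam : P) (hlam : Prime lam)
    (hunit : IsUnit (algebraMap P A' lam))
    (hloc : ∀ a : A', ∃ (k : ℕ) (p : P), algebraMap P A' (lam ^ k) * a = algebraMap P A' p)
    (hc : ∃ (ι : Type) (_ : Fintype ι) (_ : DecidableEq ι) (c : Basis ι K L) (d : P),
      (∀ i, IsIntegral P (c i)) ∧ Algebra.discr K c = algebraMap P K d ∧ ¬ lam ∣ d)
    (G : P)
    (hs : ∀ Q : Ideal ↥(integralClosure A' L), Q.IsPrime → Q ≠ ⊥ →
      algebraMap A' ↥(integralClosure A' L) (algebraMap P A' G) ∉ Q →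
      ¬ Q ^ 2 ∣ (Q.under A').map (algebraMap A' ↥(integralClosure A' L))) :
    ∀ x : L, (∀ r : L, IsIntegral P r → Algebra.trace K L (x * r) ∈ (algebraMap P K).range) →
      IsIntegral P (x ^ Module.finrank K L * algebraMap P L G ^ (Module.finrank K L - 1)) := by
  have h1 : IsFractionRing ↥(integralClosure A' L) L :=
    integralClosure.isFractionRing_of_finite_extension K L
  have h2 : IsDedekindDomain ↥(integralClosure A' L) := integralClosure.isDedekindDomain A' K L
  exact dualBound_of_isIntegralClosure (B := ↥(integralClosure A' L)) lam hlam hunit hloc hc G hs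

/-- **DN-A**, with the generic fibre given as a localisation `IsLocalization.Away lam A'`. -/
theorem dualBound_of_away (lam : P) (hlam : Prime lam) [IsLocalization.Away lam A']
    (hc : ∃ (ι : Type) (_ : Fintype ι) (_ : DecidableEq ι) (c : Basis ι K L) (d : P),
      (∀ i, IsIntegral P (c i)) ∧ Algebra.discr K c = algebraMap P K d ∧ ¬ lam ∣ d)
    (G : P)
    (hs : ∀ Q : Ideal ↥(integralClosure A' L), Q.IsPrime → Q ≠ ⊥ →
      algebraMap A' ↥(integralClosure A' L) (algebraMap P A' G) ∉ Q →
      ¬ Q ^ 2 ∣ (Q.under A').map (algebraMap A' ↥(integralClosure A' L))) :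
    ∀ x : L, (∀ r : L, IsIntegral P r → Algebra.trace K L (x * r) ∈ (algebraMap P K).range) →
      IsIntegral P (x ^ Module.finrank K L * algebraMap P L G ^ (Module.finrank K L - 1)) := by
  refine dualBound lam hlam (IsLocalization.Away.algebraMap_isUnit lam) ?_ hc G hs
  intro a
  obtain ⟨⟨p, ⟨_, k, rfl⟩⟩, h⟩ := IsLocalization.surj (Submonoid.powers lam) a
  exact ⟨k, p, by rw [mul_comm]; exact h⟩

end Concrete

end Fermat.Agent.S18.helper1148
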