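import Mathlib

/-!
# S18, track B (Theorem T): the global wrapper (helper403)

From the *local* one-component statements (conclusion (5) of the purity leaf T1, conclusion of the
Abhyankar leaf T2) at the localisations of `A₀[t]` at the closed points of the special fibre to the
*global* one-component statement on the integral closure `M` of `A₀[t]` in `L`, i.e. the
hypotheses `(ONE0)/(ONE1)` of the assembly leaf.

Everything is pure commutative algebra, `Mathlib` only.
-/

set_option autoImplicit false

namespace Fermat.Agent.S18.helper403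

open Polynomial Ideal

section OneComponent

/-- The one-component predicate: two minimal primes over `x` which are contained in a common
proper ideal are equal ("every closed point of the fibre `x = 0` lies on exactly one
component"). -/
def OneComponent (R : Type*) [CommRing R] (x : R) : Prop :=
  ∀ Q Q' : Ideal R, Q ∈ (Ideal.span {x}).minimalPrimes → Q' ∈ (Ideal.span {x}).minimalPrimes →
    Q ⊔ Q' ≠ ⊤ → Q = Q'

variable {M : Type*} [CommRing M]

/-- **Local-to-global, one localisation.** If `R` is the localisation of `M` at a submonoid `S`,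
`R` has the one-component property for `x`, and two minimal primes `Q, Q'` over `x` are contained
in a prime `n` disjoint from `S`, then `Q = Q'`. -/
theorem eq_of_oneComponent_localization (S : Submonoid M) (R : Type*) [CommRing R] [Algebra M R]
    [IsLocalization S R] (x : M) (hR : OneComponent R (algebraMap M R x))
    {Q Q' n : Ideal M} (hQ : Q ∈ (Ideal.span {x}).minimalPrimes)
    (hQ' : Q' ∈ (Ideal.span {x}).minimalPrimes) (hn : n.IsPrime)
    (hnS : Disjoint (S : Set M) (n : Set M)) (hQn : Q ≤ n) (hQ'n : Q' ≤ n) : Q = Q' := by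
  have hQp : Q.IsPrime := hQ.1.1
  have hQ'p : Q'.IsPrime := hQ'.1.1
  have hQS : Disjoint (S : Set M) (Q : Set M) := Set.disjoint_of_subset_right hQn hnS
  have hQ'S : Disjoint (S : Set M) (Q' : Set M) := Set.disjoint_of_subset_right hQ'n hnS
  have hspan : (Ideal.span {x}).map (algebraMap M R) = Ideal.span {algebraMap M R x} := by
    rw [Ideal.map_span, Set.image_singleton]
  have hmin : ∀ {P : Ideal M}, P ∈ (Ideal.span {x}).minimalPrimes → P.IsPrime →
      Disjoint (S : Set M) (P : Set M) →
      P.map (algebraMap M R) ∈ (Ideal.span {algebraMap M R x}).minimalPrimes := by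
    intro P hP hPp hPS
    rw [← hspan, IsLocalization.minimalPrimes_map S R, Set.mem_preimage,
      IsLocalization.under_map_of_isPrime_disjoint S R hPp hPS]
    exact hP
  have hne : Q.map (algebraMap M R) ⊔ Q'.map (algebraMap M R) ≠ ⊤ := by
    intro htop
    have hle : Q.map (algebraMap M R) ⊔ Q'.map (algebraMap M R) ≤ n.map (algebraMap M R) :=
      sup_le (Ideal.map_mono hQn) (Ideal.map_mono hQ'n)
    have hnR : (n.map (algebraMap M R)).IsPrime :=
      IsLocalization.isPrime_of_isPrime_disjoint S R n hn hnS
    exact hnR.ne_top (top_le_iff.mp (htop ▸ hle))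
  have heq := hR _ _ (hmin hQ hQp hQS) (hmin hQ' hQ'p hQ'S) hne
  have h1 := IsLocalization.under_map_of_isPrime_disjoint S R hQp hQS
  have h2 := IsLocalization.under_map_of_isPrime_disjoint S R hQ'p hQ'S
  rw [← h1, ← h2, heq]

variable {P : Type*} [CommRing P] [Algebra P M]

/-- **Local-to-global (W5).** Let `M` be integral over `P` and `x : P`. If for every maximal
ideal `𝔪` of `P` containing `x` the localisation of `M` at `P ∖ 𝔪` has the one-component
property for `x`, then so does `M`. -/
theorem oneComponent_of_forall_maximal [Algebra.IsIntegral P M] (x : P)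
    (h : ∀ (𝔪 : Ideal P) [𝔪.IsMaximal], x ∈ 𝔪 →
      OneComponent (Localization (Algebra.algebraMapSubmonoid M 𝔪.primeCompl))
        (algebraMap M _ (algebraMap P M x))) :
    OneComponent M (algebraMap P M x) := by
  intro Q Q' hQ hQ' hne
  obtain ⟨n, hnmax, hQn⟩ := Ideal.exists_le_maximal _ hne
  have hmmax : (n.comap (algebraMap P M)).IsMaximal :=
    Ideal.isMaximal_comap_of_isIntegral_of_isMaximal n
  have hxn : algebraMap P M x ∈ n :=
    hQn (Ideal.mem_sup_left (hQ.1.2 (Ideal.subset_span rfl)))
  have hdisj : Disjoint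
      (Algebra.algebraMapSubmonoid M (n.comap (algebraMap P M)).primeCompl : Set M) (n : Set M) := by
    rw [Set.disjoint_left]
    rintro _ ⟨s, hs, rfl⟩ hsn
    exact hs hsn
  exact eq_of_oneComponent_localization _ _ _ (h (n.comap (algebraMap P M)) hxn) hQ hQ'
    hnmax.isPrime hdisj
    (le_sup_left.trans hQn) (le_sup_right.trans hQn)

end OneComponent

section ClosedPoints

variable {A : Type*} [CommRing A]

/-- **(W1a)** Closed points of the special fibre of the affine line: if `A/(lam)` is a field, every
maximal ideal of `A[X]` containing `lam` is `(lam, g)` with `g` monic and irreducible mod `lam`. -/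
theorem exists_monic_span_pair (lam : A) (hlam : (Ideal.span {lam}).IsMaximal)
    (𝔪 : Ideal A[X]) (h𝔪 : 𝔪.IsMaximal) (hmem : C lam ∈ 𝔪) :
    ∃ g : A[X], g.Monic ∧ Irreducible (g.map (Ideal.Quotient.mk (Ideal.span {lam}))) ∧
      𝔪 = Ideal.span {C lam, g} := by
  let _ : Field (A ⧸ Ideal.span {lam}) := Ideal.Quotient.field _
  set φ : A[X] →+* (A ⧸ Ideal.span {lam})[X] :=
    Polynomial.mapRingHom (Ideal.Quotient.mk (Ideal.span {lam})) with hφ
  have hsurj : Function.Surjective φ := Polynomial.map_surjective _ Ideal.Quotient.mk_surjective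
  have hker : RingHom.ker φ = Ideal.span {C lam} := by
    rw [hφ, Polynomial.ker_mapRingHom, Ideal.mk_ker, Ideal.map_span, Set.image_singleton]
  have hle : RingHom.ker φ ≤ 𝔪 := by
    rw [hker, Ideal.span_singleton_le_iff_mem]; exact hmem
  have hcm : (𝔪.map φ).comap φ = 𝔪 := by
    rw [Ideal.comap_map_of_surjective φ hsurj, ← RingHom.ker_eq_comap_bot]
    exact sup_eq_left.mpr hle
  have hmax : (𝔪.map φ).IsMaximal := by
    refine (Ideal.map_eq_top_or_isMaximal_of_surjective φ hsurj h𝔪).resolve_left ?_
    intro htop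
    rw [htop, Ideal.comap_top] at hcm
    exact h𝔪.ne_top hcm.symm
  obtain ⟨g₀, hg₀⟩ : ∃ g₀, 𝔪.map φ = Ideal.span {g₀} :=
    ⟨_, (Ideal.span_singleton_generator (𝔪.map φ)).symm⟩
  have hg₀ne : g₀ ≠ 0 := by
    rintro rfl
    rw [Ideal.span_singleton_eq_bot.mpr rfl] at hg₀
    exact Ring.ne_bot_of_isMaximal_of_not_isField hmax (Polynomial.not_isField _) hg₀
  have hg₀irr : Irreducible g₀ := by
    have : (Ideal.span {g₀}).IsPrime := hg₀ ▸ hmax.isPrime
    exact ((Ideal.span_singleton_prime hg₀ne).mp this).irreducible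
  set g₁ := g₀ * C (leadingCoeff g₀)⁻¹ with hg₁
  have hg₁monic : g₁.Monic := Polynomial.monic_mul_leadingCoeff_inv hg₀ne
  have hg₁irr : Irreducible g₁ := Polynomial.irreducible_mul_leadingCoeff_inv.mpr hg₀irr
  have hspan : Ideal.span {g₁} = Ideal.span {g₀} := by
    rw [hg₁]
    refine Ideal.span_singleton_mul_right_unit ?_ g₀
    exact Polynomial.isUnit_C.mpr (IsUnit.mk0 _ (inv_ne_zero (leadingCoeff_ne_zero.mpr hg₀ne)))
  obtain ⟨g, hgmap, -, hgmonic⟩ := Polynomial.lifts_and_degree_eq_and_monic
    ((Polynomial.mem_lifts _).mpr (hsurj g₁)) hg₁monic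
  refine ⟨g, hgmonic, ?_, ?_⟩
  · rw [hgmap]; exact hg₁irr
  · have h1 : (Ideal.span {g}).map φ = Ideal.span {g₁} := by
      rw [Ideal.map_span, Set.image_singleton]
      congr 2
    rw [← hcm, hg₀, ← hspan, ← h1, Ideal.comap_map_of_surjective φ hsurj,
      ← RingHom.ker_eq_comap_bot, hker, Ideal.span_insert, sup_comm]

/-- **(W1b)** The local ring of the arithmetic affine line at a closed point `(lam, g)` of the
special fibre: its maximal ideal is generated by (the images of) `lam` and `g`. -/
theorem maximalIdeal_localization_eq_span (lam : A) (g : A[X]) (𝔪 : Ideal A[X]) [𝔪.IsPrime]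
    (h𝔪 : 𝔪 = Ideal.span {C lam, g})
    (B : Type*) [CommRing B] [Algebra A[X] B] [IsLocalization.AtPrime B 𝔪] [IsLocalRing B] :
    IsLocalRing.maximalIdeal B = Ideal.span {algebraMap A[X] B (C lam), algebraMap A[X] B g} := by
  rw [← IsLocalization.AtPrime.map_eq_maximalIdeal 𝔪 B, h𝔪, Ideal.map_span, Set.image_pair]

/-- **(W1c)** `lam` stays a prime element in the local ring at a closed point of the special
fibre. -/
theorem prime_algebraMap_C [IsDomain A] (lam : A) (hlam : Prime lam) (𝔪 : Ideal A[X]) [𝔪.IsPrime]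
    (hmem : C lam ∈ 𝔪)
    (B : Type*) [CommRing B] [Algebra A[X] B] [IsLocalization.AtPrime B 𝔪] :
    Prime (algebraMap A[X] B (C lam)) := by
  have hC : Prime (C lam : A[X]) := Polynomial.prime_C_iff.mpr hlam
  have hinj : Function.Injective (algebraMap A[X] B) :=
    IsLocalization.injective B (Ideal.primeCompl_le_nonZeroDivisors 𝔪)
  have hne : algebraMap A[X] B (C lam) ≠ 0 := by
    rw [Ne, map_eq_zero_iff _ hinj]; exact hC.ne_zero
  rw [← Ideal.span_singleton_prime hne]
  have hp : (Ideal.span {(C lam : A[X])}).IsPrime := (Ideal.span_singleton_prime hC.ne_zero).mpr hC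
  have hd : Disjoint (𝔪.primeCompl : Set A[X]) (Ideal.span {(C lam : A[X])} : Set A[X]) := by
    rw [Set.disjoint_left]
    intro x hx hx'
    exact hx ((Ideal.span_singleton_le_iff_mem (I := 𝔪)).mpr hmem hx')
  have := IsLocalization.isPrime_of_isPrime_disjoint 𝔪.primeCompl B _ hp hd
  rwa [Ideal.map_span, Set.image_singleton] at this

/-- **(W1d)** The local ring at a closed point of the special fibre is a noetherian integrally
closed domain (when `A` is noetherian and integrally closed, e.g. a discrete valuation ring). -/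
theorem isIntegrallyClosed_localization [IsDomain A] [IsIntegrallyClosed A] (𝔪 : Ideal A[X]) [𝔪.IsPrime]
    (B : Type*) [CommRing B] [Algebra A[X] B] [IsLocalization.AtPrime B 𝔪] :
    IsIntegrallyClosed B :=
  isIntegrallyClosed_of_isLocalization B 𝔪.primeCompl (Ideal.primeCompl_le_nonZeroDivisors 𝔪)

theorem isNoetherianRing_localization [IsNoetherianRing A] (𝔪 : Ideal A[X]) [𝔪.IsPrime]
    (B : Type*) [CommRing B] [Algebra A[X] B] [IsLocalization.AtPrime B 𝔪] :
    IsNoetherianRing B :=
  IsLocalization.isNoetherianRing 𝔪.primeCompl B inferInstance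

end ClosedPoints

section LiesOver

variable {B R : Type*} [CommRing B] [CommRing R] [Algebra B R]

/-- A minimal prime over a prime element `p` of an integrally closed domain `B`, in a domain `R`
integral over `B`, lies over `(p)` (going down). -/
theorem comap_eq_span_of_mem_minimalPrimes [IsDomain B] [IsIntegrallyClosed B] [IsDomain R]
    [FaithfulSMul B R] [Algebra.IsIntegral B R] {p : B} (hp : Prime p) {Q : Ideal R}
    (hQ : Q ∈ (Ideal.span {algebraMap B R p}).minimalPrimes) :
    Q.comap (algebraMap B R) = Ideal.span {p} := by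
  have hQp : Q.IsPrime := hQ.1.1
  have hpp : (Ideal.span {p}).IsPrime := (Ideal.span_singleton_prime hp.ne_zero).mpr hp
  have hle : Ideal.span {p} ≤ Q.under B := by
    rw [Ideal.span_singleton_le_iff_mem]
    exact hQ.1.2 (Ideal.subset_span rfl)
  obtain ⟨P, hPQ, hPp, hPover⟩ :=
    Ideal.exists_ideal_le_liesOver_of_le (p := Ideal.span {p}) (q := Q.under B) Q hle
  have hP : Ideal.span {algebraMap B R p} ≤ P := by
    rw [Ideal.span_singleton_le_iff_mem]
    have : p ∈ P.under B := by
      rw [← hPover.over]; exact Ideal.mem_span_singleton_self p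
    exact this
  have hEq : P = Q := le_antisymm hPQ (hQ.2 ⟨hPp, hP⟩ hPQ)
  rw [← hEq]
  exact hPover.over.symm

/-- Conversely, a prime of an integral extension lying over `(p)` is minimal over `p`
(incomparability). -/
theorem mem_minimalPrimes_of_comap_eq_span [Algebra.IsIntegral B R] {p : B} {Q : Ideal R}
    [hQp : Q.IsPrime] (hQ : Q.comap (algebraMap B R) = Ideal.span {p}) :
    Q ∈ (Ideal.span {algebraMap B R p}).minimalPrimes := by
  have hpQ : Ideal.span {algebraMap B R p} ≤ Q := by
    rw [Ideal.span_singleton_le_iff_mem]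
    have : p ∈ Q.comap (algebraMap B R) := by rw [hQ]; exact Ideal.mem_span_singleton_self p
    exact this
  refine ⟨⟨hQp, hpQ⟩, ?_⟩
  rintro Q₁ ⟨hQ₁p, hQ₁⟩ hle
  by_contra hnot
  have hlt : Q₁ < Q := lt_of_le_not_ge hle hnot
  have h1 : Q₁.comap (algebraMap B R) < Q.comap (algebraMap B R) :=
    Ideal.IsIntegral.comap_lt_comap hlt
  have h2 : Ideal.span {p} ≤ Q₁.comap (algebraMap B R) := by
    rw [Ideal.span_singleton_le_iff_mem]
    exact hQ₁ (Ideal.subset_span rfl)
  rw [hQ] at h1
  exact absurd h2 (not_le_of_gt h1)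

/-- The one-component property in "lying over" form (the consumer shape of the purity leaf T1:
two primes of `R` lying over `(p)` with `Q ⊔ Q' ≠ ⊤` are equal) implies `OneComponent`. -/
theorem oneComponent_of_liesOver [IsDomain B] [IsIntegrallyClosed B] [IsDomain R]
    [FaithfulSMul B R] [Algebra.IsIntegral B R] {p : B} (hp : Prime p)
    (h : ∀ Q Q' : Ideal R, Q.IsPrime → Q'.IsPrime → Q.comap (algebraMap B R) = Ideal.span {p} →
      Q'.comap (algebraMap B R) = Ideal.span {p} → Q ⊔ Q' ≠ ⊤ → Q = Q') :
    OneComponent R (algebraMap B R p) := fun Q Q' hQ hQ' hne =>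
  h Q Q' hQ.1.1 hQ'.1.1 (comap_eq_span_of_mem_minimalPrimes hp hQ)
    (comap_eq_span_of_mem_minimalPrimes hp hQ') hne

/-- `OneComponent` gives back the "lying over" form. -/
theorem eq_of_liesOver_of_oneComponent [Algebra.IsIntegral B R] {p : B}
    (h : OneComponent R (algebraMap B R p)) {Q Q' : Ideal R} [Q.IsPrime] [Q'.IsPrime]
    (hQ : Q.comap (algebraMap B R) = Ideal.span {p})
    (hQ' : Q'.comap (algebraMap B R) = Ideal.span {p}) (hne : Q ⊔ Q' ≠ ⊤) : Q = Q' :=
  h Q Q' (mem_minimalPrimes_of_comap_eq_span hQ) (mem_minimalPrimes_of_comap_eq_span hQ') hne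

end LiesOver

section IntegralClosure

/-- **(W2)** Integral closure commutes with localisation of the base, in `IsIntegralClosure`
form inside a field `L`: if `M` is the integral closure of `P` in `L`, `B = S⁻¹P` and
`R = S⁻¹M`, then `R` is the integral closure of `B` in `L`. -/
theorem isIntegralClosure_localization {P M L B R : Type*} [CommRing P] [CommRing M] [Field L]
    [Algebra P M] [Algebra P L] [Algebra M L] [IsScalarTower P M L] [IsIntegralClosure M P L]
    (S : Submonoid P) (hS : ∀ s ∈ S, algebraMap P L s ≠ 0)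
    [CommRing B] [Algebra P B] [IsLocalization S B] [Algebra B L] [IsScalarTower P B L]
    [CommRing R] [Algebra M R] [IsLocalization (Algebra.algebraMapSubmonoid M S) R]
    [Algebra R L] [IsScalarTower M R L] :
    IsIntegralClosure R B L := by
  have hMinj : Function.Injective (algebraMap M L) := IsIntegralClosure.algebraMap_injective M P L
  refine ⟨?_, ?_⟩
  · rw [injective_iff_map_eq_zero]
    intro x hx
    obtain ⟨m, s, rfl⟩ := IsLocalization.exists_mk'_eq (Algebra.algebraMapSubmonoid M S) x
    have h1 := IsLocalization.mk'_spec R m s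
    have h2 := congrArg (algebraMap R L) h1
    rw [map_mul, hx, zero_mul, ← IsScalarTower.algebraMap_apply M R L] at h2
    have hm : m = 0 := hMinj (by rw [← h2, map_zero])
    rw [hm, IsLocalization.mk'_zero]
  · intro x
    constructor
    · intro hx
      obtain ⟨⟨s, hs⟩, hsx⟩ := IsIntegral.exists_multiple_integral_of_isLocalization S x hx
      obtain ⟨m, hm⟩ := (IsIntegralClosure.isIntegral_iff (A := M)).mp hsx
      refine ⟨IsLocalization.mk' R m
        (⟨algebraMap P M s, ⟨s, hs, rfl⟩⟩ : Algebra.algebraMapSubmonoid M S), ?_⟩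
      have h1 := IsLocalization.mk'_spec R m
        (⟨algebraMap P M s, ⟨s, hs, rfl⟩⟩ : Algebra.algebraMapSubmonoid M S)
      have h2 := congrArg (algebraMap R L) h1
      rw [map_mul, ← IsScalarTower.algebraMap_apply M R L, ← IsScalarTower.algebraMap_apply M R L,
        hm, ← IsScalarTower.algebraMap_apply P M L, Submonoid.mk_smul, Algebra.smul_def,
        mul_comm] at h2
      exact mul_left_cancel₀ (hS s hs) h2
    · rintro ⟨y, rfl⟩
      obtain ⟨m, ⟨_, s, hs, rfl⟩, rfl⟩ :=
        IsLocalization.exists_mk'_eq (Algebra.algebraMapSubmonoid M S) y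
      have h1 := IsLocalization.mk'_spec R m
        (⟨algebraMap P M s, ⟨s, hs, rfl⟩⟩ : Algebra.algebraMapSubmonoid M S)
      have h2 := congrArg (algebraMap R L) h1
      rw [map_mul, ← IsScalarTower.algebraMap_apply M R L, ← IsScalarTower.algebraMap_apply M R L,
        ← IsScalarTower.algebraMap_apply P M L] at h2
      have hmint : IsIntegral B (algebraMap M L m) :=
        (IsIntegral.tower_top (R := P)
          ((IsIntegralClosure.isIntegral_iff (A := M) (R := P) (B := L)).mpr ⟨m, rfl⟩))
      have hsinv : IsIntegral B ((algebraMap P L s)⁻¹) := by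
        have : (algebraMap P L s)⁻¹ = algebraMap B L (IsLocalization.mk' B (1 : P) ⟨s, hs⟩) := by
          refine inv_eq_of_mul_eq_one_right ?_
          have h3 := IsLocalization.mk'_spec' B (1 : P) (⟨s, hs⟩ : S)
          rw [IsScalarTower.algebraMap_apply P B L, ← map_mul, h3, map_one, map_one]
        rw [this]
        exact isIntegral_algebraMap
      have : algebraMap R L (IsLocalization.mk' R m
          (⟨algebraMap P M s, ⟨s, hs, rfl⟩⟩ : Algebra.algebraMapSubmonoid M S)) =
          algebraMap M L m * (algebraMap P L s)⁻¹ := by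
        rw [← h2, mul_assoc, mul_inv_cancel₀ (hS s hs), mul_one]
      rw [this]
      exact hmint.mul hsinv

end IntegralClosure

end Fermat.Agent.S18.helper403
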