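import Mathlib
import Fermat.Agent.S16.helper903_DeuringCore
import Fermat.Agent.S18.helper410_TraceLattice

/-!
# S18, track B: the trace-duality normality lemma (DN), chart form

`P` a noetherian integrally closed domain (the chart base ring, e.g. `A0[t]`), `lam` a prime
element with `D = P / lam` a principal ideal domain, `L / K = Frac P` finite separable,
`R` the integral closure of `P` in `L`, `O = R / lam R`.

Hypotheses: (c) a `K`-basis of `L` inside `R` with discriminant prime to `lam`;
(a') `G : P` with squarefree reduction and `M ≥ 1` such that `x ^ M * G ^ (M - 1)` is integral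
for every `x` in the trace dual of `R`.

Conclusion: `O` is integrally closed in `E = Frac D ⊗ O`; hence two distinct minimal primes of
`R` over `lam` are comaximal (`OneComponent`).

No localisation of `P` and no Jacobson-radical hypothesis: Nakayama only provides `s ∈ 1 + lam P`
with `s R ⊆ ⊕ P bᵢ`, which is all that is needed because `s` reduces to `1`.
-/

set_option autoImplicit false
set_option linter.unusedSectionVars false

open scoped nonZeroDivisors

namespace Fermat.Agent.S18.helper98

/-- The trace of `x` is the trace of any matrix describing multiplication by `x` on a basis. -/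
theorem trace_eq_of_mul_basis {k S ι : Type*} [CommRing k] [CommRing S] [Algebra k S]
    [Fintype ι] [DecidableEq ι] (B : Module.Basis ι k S) (x : S) (A : Matrix ι ι k)
    (h : ∀ i, x * B i = ∑ j, A i j • B j) : Algebra.trace k S x = A.trace := by
  rw [Algebra.trace_eq_matrix_trace B]
  have : Algebra.leftMulMatrix B x = A.transpose := by
    ext i j
    rw [Algebra.leftMulMatrix_eq_repr_mul, h j, map_sum]
    simp [Finsupp.single_apply]
  rw [this, Matrix.trace_transpose]

section Lift

variable {P : Type*} (K L : Type*) {R D O : Type*}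
  [CommRing P] [IsDomain P] [IsIntegrallyClosed P]
  [Field K] [Field L] [Algebra P K] [IsFractionRing P K] [Algebra K L] [Algebra P L]
  [IsScalarTower P K L]
  [CommRing R] [Algebra P R] [Algebra R L] [IsScalarTower P R L] [IsIntegralClosure R P L]
  [CommRing D] [IsDomain D] [Algebra P D]
  [CommRing O] [Algebra D O] [Algebra P O] [IsScalarTower P D O] [Algebra R O]
  [IsScalarTower P R O]

omit [IsDomain P] [IsIntegrallyClosed P] in
include K in
theorem algebraMap_PL_injective : Function.Injective (algebraMap P L) := by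
  rw [IsScalarTower.algebraMap_eq P K L]
  exact (algebraMap K L).injective.comp (IsFractionRing.injective P K)

include K L in
/-- (1a) `O = R / lam R` is torsion-free over `D = P / lam`. -/
theorem isTorsionFree_quot (lam : P) (hlam : Prime lam)
    (hπ : Function.Surjective (algebraMap P D))
    (hkerπ : RingHom.ker (algebraMap P D) = Ideal.span {lam})
    (hρ : Function.Surjective (algebraMap R O))
    (hkerρ : RingHom.ker (algebraMap R O) = Ideal.span {algebraMap P R lam}) :
    Module.IsTorsionFree D O := by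
  have hinjPL : Function.Injective (algebraMap P L) := algebraMap_PL_injective K L
  have : FaithfulSMul P L := (faithfulSMul_iff_algebraMap_injective P L).mpr hinjPL
  refine Module.IsTorsionFree.of_smul_eq_zero (fun d o hdo => ?_)
  by_cases hd : d = 0
  · exact Or.inl hd
  right
  obtain ⟨a, rfl⟩ := hπ d
  obtain ⟨y, rfl⟩ := hρ o
  have hla : ¬ lam ∣ a := by
    intro hdiv
    apply hd
    have : a ∈ RingHom.ker (algebraMap P D) := by
      rw [hkerπ]; exact Ideal.mem_span_singleton.mpr hdiv
    exact this
  have h1 : algebraMap R O (algebraMap P R a * y) = 0 := by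
    rw [map_mul, ← IsScalarTower.algebraMap_apply P R O, IsScalarTower.algebraMap_apply P D O,
      ← Algebra.smul_def]
    exact hdo
  have h2 : algebraMap P R a * y ∈ Ideal.span {algebraMap P R lam} := by
    rw [← hkerρ]; exact h1
  obtain ⟨z, hz⟩ := Ideal.mem_span_singleton.mp h2
  have h3 : algebraMap P L a * algebraMap R L y = algebraMap P L lam ^ 1 * algebraMap R L z := by
    rw [pow_one, IsScalarTower.algebraMap_apply P R L, IsScalarTower.algebraMap_apply P R L,
      ← map_mul, ← map_mul, hz]
  obtain ⟨w, hwI, hw⟩ := Fermat.Agent.S16.helper903.isIntegral_div_prime_pow hlam hla 1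
    (IsIntegralClosure.isIntegral P L y).algebraMap
    (IsIntegralClosure.isIntegral P L z).algebraMap h3
  obtain ⟨w', rfl⟩ := (IsIntegralClosure.isIntegral_iff (A := R)).mp hwI
  have h4 : y = algebraMap P R lam * w' := by
    apply IsIntegralClosure.algebraMap_injective R P L
    rw [hw, pow_one, map_mul, ← IsScalarTower.algebraMap_apply P R L]
  have h5 : y ∈ RingHom.ker (algebraMap R O) := by
    rw [hkerρ, h4]; exact Ideal.mem_span_singleton.mpr (dvd_mul_right _ _)
  exact h5

include K L in
/-- (1b) `O` is finite over `D`. -/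
theorem finite_quot [IsNoetherianRing P] [FiniteDimensional K L] [Algebra.IsSeparable K L]
    (hρ : Function.Surjective (algebraMap R O)) : Module.Finite D O := by
  have h1 : Module.Finite P R := IsIntegralClosure.finite P K L R
  have h2 : Module.Finite P O :=
    Module.Finite.of_surjective (IsScalarTower.toAlgHom P R O).toLinearMap hρ
  exact Module.Finite.of_restrictScalars_finite P D O

include K L in
/-- (1c) a `D`-basis of `O`, lifts `bᵢ : R`, and a Nakayama multiplier `s ≡ 1` with
`s • R ⊆ ⊕ P bᵢ`. -/
theorem exists_basis_lift [IsNoetherianRing P] [FiniteDimensional K L] [Algebra.IsSeparable K L]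
    [IsPrincipalIdealRing D]
    (lam : P) (hlam : Prime lam)
    (hπ : Function.Surjective (algebraMap P D))
    (hkerπ : RingHom.ker (algebraMap P D) = Ideal.span {lam})
    (hρ : Function.Surjective (algebraMap R O))
    (hkerρ : RingHom.ker (algebraMap R O) = Ideal.span {algebraMap P R lam}) :
    ∃ (n : ℕ) (bb : Module.Basis (Fin n) D O) (b : Fin n → R) (s : P),
      (∀ i, algebraMap R O (b i) = bb i) ∧ algebraMap P D s = 1 ∧
      ∀ r : R, ∃ a : Fin n → P, s • r = ∑ i, a i • b i := by
  have hfin : Module.Finite D O := finite_quot (P := P) K L hρ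
  have htf : Module.IsTorsionFree D O := isTorsionFree_quot K L lam hlam hπ hkerπ hρ hkerρ
  obtain ⟨n, bb⟩ := Module.basisOfFiniteTypeTorsionFree' (R := D) (M := O)
  choose b hb using fun i => hρ (bb i)
  have hfinR : Module.Finite P R := IsIntegralClosure.finite P K L R
  let N : Submodule P R := Submodule.span P (Set.range b)
  -- every `r` is in `N + lam R`
  have hdecomp : ∀ r : R, ∃ a : Fin n → P, ∃ z : R, r = ∑ i, a i • b i + lam • z := by
    intro r
    choose a ha using fun i => hπ (bb.repr (algebraMap R O r) i)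
    have h0 : algebraMap R O (r - ∑ i, a i • b i) = 0 := by
      rw [map_sub, map_sum, sub_eq_zero]
      conv_lhs => rw [← bb.sum_repr (algebraMap R O r)]
      refine Finset.sum_congr rfl (fun i _ => ?_)
      rw [Algebra.smul_def (a i) (b i), map_mul, ← IsScalarTower.algebraMap_apply P R O,
        IsScalarTower.algebraMap_apply P D O, ha, hb, ← Algebra.smul_def]
    have hmem : r - ∑ i, a i • b i ∈ Ideal.span {algebraMap P R lam} := by
      rw [← hkerρ]; exact h0
    obtain ⟨z, hz⟩ := Ideal.mem_span_singleton.mp hmem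
    refine ⟨a, z, ?_⟩
    rw [Algebra.smul_def lam z, ← hz]; ring
  have hnak := Submodule.exists_sub_one_mem_and_smul_eq_zero_of_fg_of_le_smul (Ideal.span {lam})
    (⊤ : Submodule P (R ⧸ N)) Module.Finite.fg_top (by
      intro q _
      obtain ⟨r, rfl⟩ := Submodule.Quotient.mk_surjective N q
      obtain ⟨a, z, hz⟩ := hdecomp r
      have hq : (Submodule.Quotient.mk r : R ⧸ N) = lam • Submodule.Quotient.mk z := by
        have hN : ∑ i, a i • b i ∈ N :=
          Submodule.sum_mem _ (fun i _ => Submodule.smul_mem _ _ (Submodule.subset_span ⟨i, rfl⟩))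
        rw [hz, Submodule.Quotient.mk_add, Submodule.Quotient.mk_smul,
          (Submodule.Quotient.mk_eq_zero N).mpr hN, zero_add]
      rw [hq]
      exact Submodule.smul_mem_smul (Ideal.mem_span_singleton_self lam) Submodule.mem_top)
  obtain ⟨s, hs1, hs0⟩ := hnak
  refine ⟨n, bb, b, s, hb, ?_, ?_⟩
  · have hmem : s - 1 ∈ RingHom.ker (algebraMap P D) := by rw [hkerπ]; exact hs1
    have h := RingHom.mem_ker.mp hmem
    rw [map_sub, map_one, sub_eq_zero] at h
    exact h
  · intro r
    have h := hs0 (Submodule.Quotient.mk r) Submodule.mem_top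
    rw [← Submodule.Quotient.mk_smul, Submodule.Quotient.mk_eq_zero] at h
    obtain ⟨a, ha⟩ := (Submodule.mem_span_range_iff_exists_fun P).mp h
    exact ⟨a, ha.symm⟩

include K L in
/-- (1d) the lifts are linearly independent over `K` (lam-adic descent). -/
theorem linearIndependent_lift [IsNoetherianRing P]
    (lam : P) (hlam : Prime lam)
    (hkerπ : RingHom.ker (algebraMap P D) = Ideal.span {lam})
    {n : ℕ} (bb : Module.Basis (Fin n) D O) (b : Fin n → R)
    (hb : ∀ i, algebraMap R O (b i) = bb i) :
    LinearIndependent K (fun i => algebraMap R L (b i)) := by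
  have hinjPL : Function.Injective (algebraMap P L) := algebraMap_PL_injective K L
  have hinjRL : Function.Injective (algebraMap R L) :=
    IsIntegralClosure.algebraMap_injective R P L
  have key : ∀ k : ℕ, ∀ c : Fin n → P, ∑ i, c i • b i = 0 → ∀ i, lam ^ k ∣ c i := by
    intro k
    induction k with
    | zero => intro c _ i; simp
    | succ k ih =>
      intro c hc i
      have h1 : ∑ i, algebraMap P D (c i) • bb i = 0 := by
        have h := congrArg (algebraMap R O) hc
        rw [map_sum, map_zero] at h
        rw [← h]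
        refine Finset.sum_congr rfl (fun i _ => ?_)
        rw [Algebra.smul_def (c i) (b i), map_mul, ← IsScalarTower.algebraMap_apply P R O,
          IsScalarTower.algebraMap_apply P D O, hb, ← Algebra.smul_def]
      have h2 : ∀ i, algebraMap P D (c i) = 0 :=
        Fintype.linearIndependent_iff.mp bb.linearIndependent _ h1
      have h3 : ∀ i, ∃ c' : P, c i = lam * c' := by
        intro i
        have hmem : c i ∈ Ideal.span {lam} := by rw [← hkerπ]; exact h2 i
        exact Ideal.mem_span_singleton.mp hmem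
      choose c' hc' using h3
      have h4 : ∑ i, c' i • b i = 0 := by
        apply hinjRL
        have h5 : algebraMap P L lam * algebraMap R L (∑ i, c' i • b i) = 0 := by
          rw [IsScalarTower.algebraMap_apply P R L, ← map_mul, Finset.mul_sum]
          rw [← map_zero (algebraMap R L), ← hc]
          congr 1
          refine Finset.sum_congr rfl (fun i _ => ?_)
          rw [hc' i, Algebra.smul_def, Algebra.smul_def, map_mul, mul_assoc]
        rw [map_zero]
        rcases mul_eq_zero.mp h5 with h6 | h6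
        · exact absurd (hinjPL (h6.trans (map_zero _).symm)) hlam.ne_zero
        · exact h6
      rw [hc' i, pow_succ']
      exact mul_dvd_mul_left lam (ih c' h4 i)
  have hli : LinearIndependent P b := by
    refine Fintype.linearIndependent_iff.mpr (fun c hc i => ?_)
    by_contra hne
    obtain ⟨k, hk⟩ := FiniteMultiplicity.of_not_isUnit hlam.not_isUnit hne
    exact hk (key (k + 1) c hc i)
  have hli2 : LinearIndependent P (fun i => algebraMap R L (b i)) :=
    hli.map' (IsScalarTower.toAlgHom P R L).toLinearMap (LinearMap.ker_eq_bot.mpr hinjRL)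
  exact (LinearIndependent.iff_fractionRing P K).mp hli2

/-- traces of elements of `R` lie in `P`. -/
theorem exists_trace_eq [FiniteDimensional K L] (x : R) :
    ∃ t : P, algebraMap P K t = Algebra.trace K L (algebraMap R L x) := by
  have h : IsIntegral P (Algebra.trace K L (algebraMap R L x)) :=
    Algebra.isIntegral_trace (IsIntegralClosure.isIntegral P L x).algebraMap
  exact IsIntegrallyClosed.isIntegral_iff.mp h

omit [IsIntegrallyClosed P] [IsIntegralClosure R P L] in
/-- the relation `s • r = ∑ aᵢ • bᵢ` transported to `L`. -/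
theorem smul_eq_sum_L {n : ℕ} (b : Fin n → R) (s : P) (r : R) (a : Fin n → P)
    (h : s • r = ∑ i, a i • b i) :
    algebraMap P K s • algebraMap R L r = ∑ i, algebraMap P K (a i) • algebraMap R L (b i) := by
  have h' := congrArg (algebraMap R L) h
  rw [map_sum, Algebra.smul_def, map_mul, ← IsScalarTower.algebraMap_apply P R L] at h'
  rw [algebraMap_smul, Algebra.smul_def, h']
  refine Finset.sum_congr rfl (fun i _ => ?_)
  rw [algebraMap_smul, Algebra.smul_def (a i) (b i), map_mul,
    ← IsScalarTower.algebraMap_apply P R L, Algebra.smul_def]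

omit [IsIntegrallyClosed P] [IsIntegralClosure R P L] [IsDomain P] [IsDomain D] in
/-- the relation `s • r = ∑ aᵢ • bᵢ` transported to `O` (where `s` becomes `1`). -/
theorem smul_eq_sum_O {n : ℕ} (bb : Fin n → O) (b : Fin n → R) (s : P)
    (hb : ∀ i, algebraMap R O (b i) = bb i) (hs1 : algebraMap P D s = 1)
    (r : R) (a : Fin n → P) (h : s • r = ∑ i, a i • b i) :
    algebraMap R O r = ∑ i, algebraMap P D (a i) • bb i := by
  have h' := congrArg (algebraMap R O) h
  rw [map_sum, Algebra.smul_def, map_mul, ← IsScalarTower.algebraMap_apply P R O,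
    IsScalarTower.algebraMap_apply P D O, hs1, map_one, one_mul] at h'
  rw [h']
  refine Finset.sum_congr rfl (fun i _ => ?_)
  rw [Algebra.smul_def (a i) (b i), map_mul, ← IsScalarTower.algebraMap_apply P R O,
    IsScalarTower.algebraMap_apply P D O, hb, ← Algebra.smul_def]

omit [IsIntegrallyClosed P] [IsIntegralClosure R P L] [IsDomain D] in
theorem algebraMap_s_ne_zero [Nontrivial D] (s : P) (hs1 : algebraMap P D s = 1) :
    algebraMap P K s ≠ 0 := by
  intro h0
  have h : s = 0 := IsFractionRing.injective P K (h0.trans (map_zero _).symm)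
  rw [h, map_zero] at hs1
  exact zero_ne_one hs1

omit [IsIntegrallyClosed P] [IsIntegralClosure R P L] in
/-- (2a) reduction of traces: `Tr_{O/D} (x mod lam) = (Tr_{L/K} x) mod lam`. -/
theorem trace_quot_eq
    {n : ℕ} (bb : Module.Basis (Fin n) D O) (b : Fin n → R) (s : P)
    (hb : ∀ i, algebraMap R O (b i) = bb i) (hs1 : algebraMap P D s = 1)
    (hs : ∀ r : R, ∃ a : Fin n → P, s • r = ∑ i, a i • b i)
    (bL : Module.Basis (Fin n) K L) (hbL : ∀ i, bL i = algebraMap R L (b i))
    (x : R) (t : P) (ht : algebraMap P K t = Algebra.trace K L (algebraMap R L x)) :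
    Algebra.trace D O (algebraMap R O x) = algebraMap P D t := by
  classical
  choose A hA using fun i => hs (x * b i)
  have hs0 : algebraMap P K s ≠ 0 := algebraMap_s_ne_zero K s hs1
  have h1 : Algebra.trace K L (algebraMap R L x) =
      (Matrix.of fun i j => (algebraMap P K s)⁻¹ * algebraMap P K (A i j)).trace := by
    apply trace_eq_of_mul_basis bL
    intro i
    have e := smul_eq_sum_L K L b s (x * b i) (A i) (hA i)
    simp only [Matrix.of_apply, mul_smul, hbL]
    rw [← Finset.smul_sum, ← e, inv_smul_smul₀ hs0, map_mul]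
  have h2 : Algebra.trace D O (algebraMap R O x) =
      (Matrix.of fun i j => algebraMap P D (A i j)).trace := by
    apply trace_eq_of_mul_basis bb
    intro i
    have e := smul_eq_sum_O (fun i => bb i) b s hb hs1 (x * b i) (A i) (hA i)
    simp only [Matrix.of_apply]
    rw [← e, map_mul, hb]
  have h3 : s * t = ∑ i, A i i := by
    apply IsFractionRing.injective P K
    rw [map_mul, ht, h1, Matrix.trace, map_sum, Finset.mul_sum]
    refine Finset.sum_congr rfl (fun i _ => ?_)
    simp only [Matrix.diag_apply, Matrix.of_apply]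
    rw [mul_inv_cancel_left₀ hs0]
  rw [h2, Matrix.trace]
  simp only [Matrix.diag_apply, Matrix.of_apply]
  rw [← map_sum, ← h3, map_mul, hs1, one_mul]

/-- (2b) the lifts form a `K`-basis of `L` and the Gram determinant is prime to `lam`. -/
theorem not_dvd_det_gram
    (lam : P) (hlam : Prime lam) (hkerπ : RingHom.ker (algebraMap P D) = Ideal.span {lam})
    {n : ℕ} (b : Fin n → R) (s : P) (hs1 : algebraMap P D s = 1)
    (hs : ∀ r : R, ∃ a : Fin n → P, s • r = ∑ i, a i • b i)
    (hli : LinearIndependent K (fun i => algebraMap R L (b i)))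
    {ι : Type*} [Fintype ι] [DecidableEq ι] (c : Module.Basis ι K L) (d : P)
    (hcint : ∀ i, IsIntegral P (c i)) (hcd : Algebra.discr K c = algebraMap P K d)
    (hd : ¬ lam ∣ d)
    (Γ : Matrix (Fin n) (Fin n) P)
    (hΓ : ∀ i j, algebraMap P K (Γ i j) =
      Algebra.trace K L (algebraMap R L (b i) * algebraMap R L (b j))) :
    (∃ bL : Module.Basis (Fin n) K L, ∀ i, bL i = algebraMap R L (b i)) ∧ ¬ lam ∣ Γ.det := by
  classical
  have hs0 : algebraMap P K s ≠ 0 := algebraMap_s_ne_zero K s hs1
  choose cR hcR using fun i => (IsIntegralClosure.isIntegral_iff (A := R)).mp (hcint i)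
  choose T hT using fun i => hs (cR i)
  have hTL : ∀ i, algebraMap P K s • c i =
      ∑ j, algebraMap P K (T i j) • algebraMap R L (b j) := by
    intro i
    rw [← hcR i]
    exact smul_eq_sum_L K L b s (cR i) (T i) (hT i)
  have hspan : ⊤ ≤ Submodule.span K (Set.range fun i => algebraMap R L (b i)) := by
    rw [← c.span_eq, Submodule.span_le]
    rintro _ ⟨i, rfl⟩
    have hci : c i = (algebraMap P K s)⁻¹ •
        ∑ j, algebraMap P K (T i j) • algebraMap R L (b j) := by
      rw [← hTL, inv_smul_smul₀ hs0]
    rw [SetLike.mem_coe, hci]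
    exact Submodule.smul_mem _ _ (Submodule.sum_mem _ fun j _ =>
      Submodule.smul_mem _ _ (Submodule.subset_span ⟨j, rfl⟩))
  let bL : Module.Basis (Fin n) K L := Module.Basis.mk hli hspan
  have hbL : ∀ i, bL i = algebraMap R L (b i) := fun i => Module.Basis.mk_apply hli hspan i
  refine ⟨⟨bL, hbL⟩, ?_⟩
  let e : Fin n ≃ ι := bL.indexEquiv c
  have h1 : Algebra.discr K (fun k => algebraMap P K s • c (e k)) =
      (algebraMap P K s ^ n) ^ 2 * algebraMap P K d := by
    have h := Algebra.discr_of_matrix_mulVec (c ∘ e)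
      (Matrix.diagonal fun _ : Fin n => algebraMap P K s)
    have hre : Algebra.discr K (c ∘ e) = Algebra.discr K c := by
      have := Algebra.discr_reindex K c e.symm
      simpa using this
    rw [hre, hcd, Matrix.det_diagonal, Finset.prod_const, Finset.card_univ, Fintype.card_fin] at h
    rw [← h]
    congr 1
    ext k
    simp [Matrix.diagonal_map, Matrix.mulVec_diagonal, Algebra.smul_def]
  have h2 : Algebra.discr K (fun k => algebraMap P K s • c (e k)) =
      (algebraMap P K (Matrix.of fun k j => T (e k) j).det) ^ 2 * algebraMap P K Γ.det := by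
    have h := Algebra.discr_of_matrix_mulVec (fun j => algebraMap R L (b j))
      ((Matrix.of fun k j => T (e k) j).map (algebraMap P K))
    have hdisc : Algebra.discr K (fun j => algebraMap R L (b j)) = algebraMap P K Γ.det := by
      rw [Algebra.discr_def, RingHom.map_det]
      congr 1
      ext i j
      simp [Algebra.traceMatrix_apply, Algebra.traceForm_apply, hΓ]
    have hdet : ((Matrix.of fun k j => T (e k) j).map (algebraMap P K)).det =
        algebraMap P K (Matrix.of fun k j => T (e k) j).det := (RingHom.map_det _ _).symm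
    rw [hdisc, hdet] at h
    rw [← h]
    congr 1
    ext k
    rw [hTL (e k)]
    simp [Matrix.mulVec, dotProduct, Algebra.smul_def]
  have h3 : (s ^ n) ^ 2 * d = (Matrix.of fun k j => T (e k) j).det ^ 2 * Γ.det := by
    apply IsFractionRing.injective P K
    rw [map_mul, map_pow, map_pow, map_mul, map_pow, ← h1, ← h2]
  intro hdvd
  have h4 : lam ∣ (s ^ n) ^ 2 * d := h3 ▸ dvd_mul_of_dvd_right hdvd _
  rcases hlam.dvd_or_dvd h4 with h5 | h5
  · have h6 : lam ∣ s := hlam.dvd_of_dvd_pow (hlam.dvd_of_dvd_pow h5)
    have h7 : s ∈ RingHom.ker (algebraMap P D) := by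
      rw [hkerπ]; exact Ideal.mem_span_singleton.mpr h6
    rw [RingHom.mem_ker, hs1] at h7
    exact one_ne_zero h7
  · exact hd h5

omit [IsIntegrallyClosed P] [IsIntegralClosure R P L] [IsDomain D] in
/-- (2c) the scaled dual basis `s • bᵢ^*` pairs integrally with `R`: explicit trace. -/
theorem trace_dual_mul
    {n : ℕ} (b : Fin n → R) (s : P)
    (Γ : Matrix (Fin n) (Fin n) P)
    (hΓ : ∀ i j, algebraMap P K (Γ i j) =
      Algebra.trace K L (algebraMap R L (b i) * algebraMap R L (b j)))
    (hdet : Γ.det ≠ 0) (i : Fin n) (r : R) (a : Fin n → P) (har : s • r = ∑ k, a k • b k) :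
    Algebra.trace K L (((algebraMap P K Γ.det)⁻¹ •
      algebraMap R L (s • ∑ j, Γ.adjugate i j • b j)) * algebraMap R L r) =
      algebraMap P K (a i) := by
  classical
  have hδ : algebraMap P K Γ.det ≠ 0 := fun h0 =>
    hdet (IsFractionRing.injective P K (h0.trans (map_zero _).symm))
  let tr' : R →ₗ[P] K := ((Algebra.trace K L).restrictScalars P).comp
    (IsScalarTower.toAlgHom P R L).toLinearMap
  have htr' : ∀ x : R, tr' x = Algebra.trace K L (algebraMap R L x) := fun x => rfl
  have hΓ' : ∀ j k, tr' (b j * b k) = algebraMap P K (Γ j k) := by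
    intro j k
    rw [htr', map_mul, hΓ]
  have h1 : (s • ∑ j, Γ.adjugate i j • b j) * r =
      ∑ j, ∑ k, (Γ.adjugate i j * a k) • (b j * b k) := by
    rw [smul_mul_assoc, ← mul_smul_comm, har, Finset.sum_mul_sum]
    refine Finset.sum_congr rfl (fun j _ => Finset.sum_congr rfl (fun k _ => ?_))
    rw [smul_mul_smul_comm]
  have h2 : tr' ((s • ∑ j, Γ.adjugate i j • b j) * r) = algebraMap P K (Γ.det * a i) := by
    rw [h1, map_sum]
    simp_rw [map_sum, map_smul, hΓ', Algebra.smul_def, ← map_mul, ← map_sum]
    congr 1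
    rw [Finset.sum_comm]
    have h3 : ∀ k, ∑ j, Γ.adjugate i j * a k * Γ j k = (Γ.adjugate * Γ) i k * a k := by
      intro k
      rw [Matrix.mul_apply, Finset.sum_mul]
      refine Finset.sum_congr rfl (fun j _ => by ring)
    simp_rw [h3, Matrix.adjugate_mul, Matrix.smul_apply, Matrix.one_apply, smul_eq_mul]
    simp
  rw [smul_mul_assoc, map_smul, ← map_mul, ← htr', h2, map_mul, smul_eq_mul,
    inv_mul_cancel_left₀ hδ]

/-- (2d) hypothesis (a') applied to the scaled dual basis, as an identity in `R`. -/
theorem exists_pow_dual_lift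
    {n : ℕ} (b : Fin n → R) (s : P)
    (hs : ∀ r : R, ∃ a : Fin n → P, s • r = ∑ i, a i • b i)
    (Γ : Matrix (Fin n) (Fin n) P)
    (hΓ : ∀ i j, algebraMap P K (Γ i j) =
      Algebra.trace K L (algebraMap R L (b i) * algebraMap R L (b j)))
    (hdet : Γ.det ≠ 0) (G : P) (M : ℕ)
    (ha : ∀ x : L, (∀ r : L, IsIntegral P r →
        Algebra.trace K L (x * r) ∈ (algebraMap P K).range) →
      IsIntegral P (x ^ M * algebraMap P L G ^ (M - 1)))
    (i : Fin n) :
    ∃ w : R, algebraMap P R Γ.det ^ M * w =
      (s • ∑ j, Γ.adjugate i j • b j) ^ M * algebraMap P R G ^ (M - 1) := by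
  have hδ : algebraMap P K Γ.det ≠ 0 := fun h0 =>
    hdet (IsFractionRing.injective P K (h0.trans (map_zero _).symm))
  have hint := ha ((algebraMap P K Γ.det)⁻¹ • algebraMap R L (s • ∑ j, Γ.adjugate i j • b j))
    (by
      intro r hr
      obtain ⟨r', rfl⟩ := (IsIntegralClosure.isIntegral_iff (A := R)).mp hr
      obtain ⟨a, har⟩ := hs r'
      exact ⟨a i, (trace_dual_mul K L b s Γ hΓ hdet i r' a har).symm⟩)
  obtain ⟨w, hw⟩ := (IsIntegralClosure.isIntegral_iff (A := R)).mp hint
  refine ⟨w, ?_⟩
  apply IsIntegralClosure.algebraMap_injective R P L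
  rw [map_mul, hw, map_mul, map_pow, map_pow, map_pow, ← IsScalarTower.algebraMap_apply P R L,
    ← IsScalarTower.algebraMap_apply P R L, smul_pow, smul_mul_assoc, mul_smul_comm,
    IsScalarTower.algebraMap_apply P K L, ← map_pow, ← Algebra.smul_def, smul_smul, inv_pow,
    inv_mul_cancel₀ (pow_ne_zero M hδ), one_smul]

omit [IsIntegrallyClosed P] [IsDomain P] [IsDomain D] in
/-- (2e) the same identity reduced modulo `lam`. -/
theorem exists_pow_dual_quot
    {n : ℕ} (bb : Fin n → O) (b : Fin n → R) (s : P)
    (hb : ∀ i, algebraMap R O (b i) = bb i) (hs1 : algebraMap P D s = 1)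
    (Γ : Matrix (Fin n) (Fin n) P) (G : P) (M : ℕ) (i : Fin n)
    (hw : ∃ w : R, algebraMap P R Γ.det ^ M * w =
      (s • ∑ j, Γ.adjugate i j • b j) ^ M * algebraMap P R G ^ (M - 1)) :
    ∃ w : O, algebraMap D O (Γ.map (algebraMap P D)).det ^ M * w =
      (∑ j, (Γ.map (algebraMap P D)).adjugate i j • bb j) ^ M *
        algebraMap D O (algebraMap P D G) ^ (M - 1) := by
  obtain ⟨w, hw⟩ := hw
  refine ⟨algebraMap R O w, ?_⟩
  have h := congrArg (algebraMap R O) hw
  rw [map_mul, map_mul, map_pow, map_pow, map_pow, ← IsScalarTower.algebraMap_apply P R O,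
    ← IsScalarTower.algebraMap_apply P R O, IsScalarTower.algebraMap_apply P D O,
    IsScalarTower.algebraMap_apply P D O (x := G)] at h
  have hdet : (Γ.map (algebraMap P D)).det = algebraMap P D Γ.det := (RingHom.map_det _ _).symm
  have hadj : ∀ j, (Γ.map (algebraMap P D)).adjugate i j = algebraMap P D (Γ.adjugate i j) := by
    intro j
    have := RingHom.map_adjugate (algebraMap P D) Γ
    rw [RingHom.mapMatrix_apply, RingHom.mapMatrix_apply] at this
    rw [← this, Matrix.map_apply]
  have hsum : algebraMap R O (s • ∑ j, Γ.adjugate i j • b j) =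
      ∑ j, (Γ.map (algebraMap P D)).adjugate i j • bb j := by
    rw [Algebra.smul_def, map_mul, ← IsScalarTower.algebraMap_apply P R O,
      IsScalarTower.algebraMap_apply P D O, hs1, map_one, one_mul, map_sum]
    refine Finset.sum_congr rfl (fun j _ => ?_)
    rw [Algebra.smul_def, map_mul, ← IsScalarTower.algebraMap_apply P R O,
      IsScalarTower.algebraMap_apply P D O, hb, hadj, ← Algebra.smul_def]
  rw [hdet, ← hsum]
  exact h

end Lift

section Special

variable {D O : Type*} (Kb E : Type*) [CommRing D] [IsDomain D] [IsPrincipalIdealRing D]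
  [CommRing O] [Algebra D O] [Field Kb] [Algebra D Kb] [IsFractionRing D Kb]
  [CommRing E] [Algebra O E] [Algebra Kb E] [Algebra D E] [IsScalarTower D Kb E]
  [IsScalarTower D O E] [IsLocalization (Algebra.algebraMapSubmonoid O D⁰) E]

include Kb in
/-- (3) **Special-fibre criterion, Gram form.**  `O` a finite free `D`-algebra with basis `bb`
and Gram matrix `Γ` (nonzero determinant), `E = Frac D ⊗ O`.  If the adjugate combinations
`aᵢ = ∑ adj(Γ)ᵢⱼ bbⱼ` satisfy `aᵢ ^ M * G ^ (M - 1) ∈ det(Γ) ^ M • O` with `G` squarefree, then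
every element of `E` integral over `D` comes from `O`. -/
theorem mem_range_of_isIntegral_of_gram {n : ℕ} (bb : Module.Basis (Fin n) D O)
    (Γ : Matrix (Fin n) (Fin n) D)
    (hΓ : ∀ i j, Algebra.trace D O (bb i * bb j) = Γ i j) (hdet : Γ.det ≠ 0)
    (G : D) (hG : Squarefree G) (M : ℕ) (hM : 0 < M)
    (hw : ∀ i, ∃ w : O, algebraMap D O Γ.det ^ M * w =
      (∑ j, Γ.adjugate i j • bb j) ^ M * algebraMap D O G ^ (M - 1))
    (e : E) (he : IsIntegral D e) : ∃ o : O, algebraMap O E o = e := by
  classical
  have hfree : Module.Free D O := Module.Free.of_basis bb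
  have hfin : Module.Finite D O := Module.Finite.of_basis bb
  let bE : Module.Basis (Fin n) Kb E := bb.localizationLocalization Kb D⁰ E
  have hbE : ∀ i, bE i = algebraMap O E (bb i) := fun i =>
    Module.Basis.localizationLocalization_apply Kb D⁰ E bb i
  have htr : ∀ i j, Algebra.trace Kb E (bE i * bE j) = algebraMap D Kb (Γ i j) := by
    intro i j
    rw [hbE, hbE, ← map_mul, Algebra.trace_localization D D⁰, hΓ]
  have hsymm : ∀ i j, Γ i j = Γ j i := fun i j => by rw [← hΓ, ← hΓ, mul_comm]
  have hδ : algebraMap D Kb Γ.det ≠ 0 := fun h0 =>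
    hdet (IsFractionRing.injective D Kb (h0.trans (map_zero _).symm))
  let z : Fin n → E := fun i =>
    (algebraMap D Kb Γ.det)⁻¹ • ∑ j, algebraMap D Kb (Γ.adjugate i j) • bE j
  have hdual : ∀ i j, Algebra.trace Kb E (bE i * z j) = if i = j then 1 else 0 := by
    intro i j
    simp only [z]
    rw [mul_smul_comm, map_smul, Finset.mul_sum, map_sum]
    simp_rw [mul_smul_comm, map_smul, htr, smul_eq_mul, ← map_mul, ← map_sum]
    have hsum : ∑ k, Γ.adjugate j k * Γ i k = (Γ.adjugate * Γ) j i := by
      rw [Matrix.mul_apply]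
      exact Finset.sum_congr rfl (fun k _ => by rw [hsymm i k])
    rw [hsum, Matrix.adjugate_mul, Matrix.smul_apply, Matrix.one_apply, smul_eq_mul]
    by_cases hij : i = j
    · subst hij
      rw [if_pos rfl, if_pos rfl, mul_one, inv_mul_cancel₀ hδ]
    · rw [if_neg hij, if_neg (Ne.symm hij), mul_zero, map_zero, mul_zero]
  let O' : Subalgebra D E := (IsScalarTower.toAlgHom D O E).range
  have hO : O'.toSubmodule = Submodule.span D (Set.range bE) := by
    apply le_antisymm
    · rintro x ⟨o, rfl⟩
      show (IsScalarTower.toAlgHom D O E) o ∈ _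
      rw [← bb.sum_repr o, map_sum]
      refine Submodule.sum_mem _ (fun i _ => ?_)
      rw [map_smul, IsScalarTower.toAlgHom_apply, ← hbE]
      exact Submodule.smul_mem _ _ (Submodule.subset_span ⟨i, rfl⟩)
    · rw [Submodule.span_le]
      rintro _ ⟨i, rfl⟩
      exact ⟨bb i, (hbE i).symm⟩
  have hE : ∀ e : E, ∃ c : Fin n → Kb, e = ∑ i, c i • bE i := fun e =>
    ⟨fun i => bE.repr e i, (bE.sum_repr e).symm⟩
  have hz : ∀ i, algebraMap D E G ^ (M - 1) * z i ^ M ∈ O' := by
    intro i
    obtain ⟨w, hw⟩ := hw i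
    refine ⟨w, ?_⟩
    have h := congrArg (algebraMap O E) hw
    rw [map_mul, map_mul, map_pow, map_pow, map_pow, ← IsScalarTower.algebraMap_apply D O E,
      ← IsScalarTower.algebraMap_apply D O E, map_sum] at h
    have hsum : ∑ j, algebraMap O E (Γ.adjugate i j • bb j) = algebraMap D Kb Γ.det • z i := by
      simp only [z]
      rw [smul_inv_smul₀ hδ]
      refine Finset.sum_congr rfl (fun j _ => ?_)
      rw [Algebra.smul_def, map_mul, ← IsScalarTower.algebraMap_apply D O E, ← hbE,
        algebraMap_smul, Algebra.smul_def]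
    rw [hsum, smul_pow, smul_mul_assoc, IsScalarTower.algebraMap_apply D Kb E, ← map_pow,
      ← Algebra.smul_def] at h
    have h' := congrArg (fun v => (algebraMap D Kb Γ.det ^ M)⁻¹ • v) h
    simp only [inv_smul_smul₀ (pow_ne_zero M hδ)] at h'
    show algebraMap O E w = _
    rw [h', mul_comm]
  obtain ⟨o, ho⟩ := Fermat.Agent.S18.helper410.mem_order_of_isIntegral_of_dual_basis (K := Kb)
    O' bE hO hE z hdual G hG.ne_zero (isRadical_iff_span_singleton.mp hG.isRadical) M hM hz e he
  exact ⟨o, ho⟩

end Special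

section Consumer

variable {D O : Type*} (Kb E : Type*) [CommRing D] [IsDomain D]
  [CommRing O] [Algebra D O] [Field Kb] [Algebra D Kb] [IsFractionRing D Kb]
  [CommRing E] [Algebra O E] [Algebra Kb E] [Algebra D E] [IsScalarTower D Kb E]
  [IsScalarTower D O E] [IsLocalization (Algebra.algebraMapSubmonoid O D⁰) E]

include Kb in
/-- (4) If the idempotents of `E = Frac D ⊗ O` come from `O` (in particular if `O` is integrally
closed in `E`), two distinct minimal primes of `O` are separated by an element of `O`. -/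
theorem exists_sep_of_minimalPrimes {n : ℕ} (bb : Module.Basis (Fin n) D O)
    (hint : ∀ e : E, IsIntegral D e → ∃ o : O, algebraMap O E o = e)
    (q q' : Ideal O) (hq : q ∈ minimalPrimes O) (hq' : q' ∈ minimalPrimes O) (hne : q ≠ q') :
    ∃ o : O, o ∈ q' ∧ 1 - o ∈ q := by
  classical
  have hfree : Module.Free D O := Module.Free.of_basis bb
  have hfinE : Module.Finite Kb E := Module.Finite.of_basis (bb.localizationLocalization Kb D⁰ E)
  have hart : IsArtinianRing E := IsArtinianRing.of_finite Kb E
  -- the multiplicative set consists of non-zero-divisors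
  have hS : ∀ x ∈ Algebra.algebraMapSubmonoid O D⁰, x ∈ nonZeroDivisors O := by
    rintro _ ⟨d, hd, rfl⟩
    rw [mem_nonZeroDivisors_iff_right]
    intro x hx
    have hd0 : d ≠ 0 := nonZeroDivisors.ne_zero hd
    have hx' : d • x = 0 := by rw [Algebra.smul_def, mul_comm]; exact hx
    exact (smul_eq_zero.mp hx').resolve_left hd0
  have hdisj : ∀ p ∈ minimalPrimes O,
      Disjoint ((Algebra.algebraMapSubmonoid O D⁰ : Submonoid O) : Set O) (p : Set O) := by
    intro p hp
    rw [Set.disjoint_left]
    intro x hx hxp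
    exact Set.disjoint_left.mp (Ideal.disjoint_nonZeroDivisors_of_mem_minimalPrimes hp) hxp
      (hS x hx)
  have hqP : q.IsPrime := hq.1.1
  have hq'P : q'.IsPrime := hq'.1.1
  have hpP : (Ideal.map (algebraMap O E) q).IsPrime :=
    IsLocalization.isPrime_of_isPrime_disjoint (Algebra.algebraMapSubmonoid O D⁰) E q hqP
      (hdisj q hq)
  have hp'P : (Ideal.map (algebraMap O E) q').IsPrime :=
    IsLocalization.isPrime_of_isPrime_disjoint (Algebra.algebraMapSubmonoid O D⁰) E q' hq'P
      (hdisj q' hq')
  have hcomap : Ideal.comap (algebraMap O E) (Ideal.map (algebraMap O E) q) = q :=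
    IsLocalization.under_map_of_isPrime_disjoint (Algebra.algebraMapSubmonoid O D⁰) E hqP
      (hdisj q hq)
  have hcomap' : Ideal.comap (algebraMap O E) (Ideal.map (algebraMap O E) q') = q' :=
    IsLocalization.under_map_of_isPrime_disjoint (Algebra.algebraMapSubmonoid O D⁰) E hq'P
      (hdisj q' hq')
  have hpM : (Ideal.map (algebraMap O E) q).IsMaximal := IsArtinianRing.isMaximal_of_isPrime _
  have hp'M : (Ideal.map (algebraMap O E) q').IsMaximal := IsArtinianRing.isMaximal_of_isPrime _
  have hne' : Ideal.map (algebraMap O E) q ≠ Ideal.map (algebraMap O E) q' := by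
    intro h
    apply hne
    rw [← hcomap, ← hcomap', h]
  have htop := Ideal.IsMaximal.coprime_of_ne hpM hp'M hne'
  obtain ⟨u, hu, a, ha, hua⟩ := Submodule.mem_sup.mp
    (show (1 : E) ∈ Ideal.map (algebraMap O E) q ⊔ Ideal.map (algebraMap O E) q' by
      rw [htop]; exact Submodule.mem_top)
  obtain ⟨k, y, hy⟩ := IsArtinian.exists_pow_succ_smul_dvd a (1 : E)
  rw [smul_eq_mul, smul_eq_mul, mul_one] at hy
  -- `a ^ k = a ^ (k + j) * y ^ j`
  have hpow : ∀ j : ℕ, a ^ k = a ^ (k + j) * y ^ j := by
    intro j
    induction j with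
    | zero => simp
    | succ j ih =>
      calc a ^ k = a ^ (k + 1) * y := hy.symm
        _ = a * a ^ k * y := by rw [pow_succ']
        _ = a * (a ^ (k + j) * y ^ j) * y := by rw [← ih]
        _ = a ^ (k + (j + 1)) * y ^ (j + 1) := by ring
  have hk : k ≠ 0 := by
    rintro rfl
    have h1 : a * y = 1 := by simpa using hy
    exact hp'P.ne_top (Ideal.eq_top_of_isUnit_mem _ ha (IsUnit.of_mul_eq_one _ h1))
  have hidem : (a ^ k * y ^ k) * (a ^ k * y ^ k) = a ^ k * y ^ k := by
    have h2 := hpow k
    calc (a ^ k * y ^ k) * (a ^ k * y ^ k) = (a ^ (k + k) * y ^ k) * y ^ k := by ring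
      _ = a ^ k * y ^ k := by rw [← h2]
  have hintE : IsIntegral D (a ^ k * y ^ k) := by
    refine ⟨Polynomial.X ^ 2 - Polynomial.X, Polynomial.monic_X_pow_sub ?_, ?_⟩
    · rw [Polynomial.degree_X]; norm_num
    · rw [Polynomial.eval₂_sub, Polynomial.eval₂_pow, Polynomial.eval₂_X, pow_two, hidem, sub_self]
  obtain ⟨o, ho⟩ := hint _ hintE
  refine ⟨o, ?_, ?_⟩
  · rw [← hcomap', Ideal.mem_comap, ho]
    obtain ⟨k', rfl⟩ := Nat.exists_eq_succ_of_ne_zero hk
    rw [pow_succ, mul_assoc]
    exact Ideal.mul_mem_left _ _ (Ideal.mul_mem_right _ _ ha)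
  · rw [← hcomap, Ideal.mem_comap, map_sub, map_one, ho]
    have ha1 : Ideal.Quotient.mk (Ideal.map (algebraMap O E) q) a = 1 := by
      rw [← map_one (Ideal.Quotient.mk (Ideal.map (algebraMap O E) q)), Ideal.Quotient.eq]
      have : a - 1 = -u := by rw [← hua]; ring
      rw [this]
      exact neg_mem hu
    have h3 := congrArg (Ideal.Quotient.mk (Ideal.map (algebraMap O E) q)) (hpow k)
    rw [map_mul, map_pow, map_pow, map_pow, ha1, one_pow, one_pow, one_mul] at h3
    rw [← Ideal.Quotient.eq, map_one, map_mul, map_pow, map_pow, ha1, one_pow, one_mul, ← h3]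

end Consumer

section Main

variable {P : Type*} (K L : Type*) {R D O : Type*} (Kb E : Type*)
  [CommRing P] [IsDomain P] [IsNoetherianRing P] [IsIntegrallyClosed P]
  [Field K] [Field L] [Algebra P K] [IsFractionRing P K] [Algebra K L] [Algebra P L]
  [IsScalarTower P K L] [FiniteDimensional K L] [Algebra.IsSeparable K L]
  [CommRing R] [Algebra P R] [Algebra R L] [IsScalarTower P R L] [IsIntegralClosure R P L]
  [CommRing D] [IsDomain D] [IsPrincipalIdealRing D] [Algebra P D]
  [CommRing O] [Algebra D O] [Algebra P O] [IsScalarTower P D O] [Algebra R O]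
  [IsScalarTower P R O]
  [Field Kb] [Algebra D Kb] [IsFractionRing D Kb]
  [CommRing E] [Algebra O E] [Algebra Kb E] [Algebra D E] [IsScalarTower D Kb E]
  [IsScalarTower D O E] [IsLocalization (Algebra.algebraMapSubmonoid O D⁰) E]

include K L Kb in
/-- **(DN), abstract form.**  `O = R / lam R` is integrally closed in `E = Frac D ⊗ O`
(together with a `D`-basis of `O`, for the consumer). -/
theorem exists_basis_and_isIntegral_mem_range (lam : P) (hlam : Prime lam)
    (hπ : Function.Surjective (algebraMap P D))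
    (hkerπ : RingHom.ker (algebraMap P D) = Ideal.span {lam})
    (hρ : Function.Surjective (algebraMap R O))
    (hkerρ : RingHom.ker (algebraMap R O) = Ideal.span {algebraMap P R lam})
    {ι : Type*} [Fintype ι] [DecidableEq ι] (c : Module.Basis ι K L) (d : P)
    (hcint : ∀ i, IsIntegral P (c i)) (hcd : Algebra.discr K c = algebraMap P K d)
    (hd : ¬ lam ∣ d)
    (G : P) (hG : Squarefree (algebraMap P D G)) (M : ℕ) (hM : 0 < M)
    (ha : ∀ x : L, (∀ r : L, IsIntegral P r →
        Algebra.trace K L (x * r) ∈ (algebraMap P K).range) →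
      IsIntegral P (x ^ M * algebraMap P L G ^ (M - 1))) :
    ∃ (n : ℕ) (_ : Module.Basis (Fin n) D O),
      ∀ e : E, IsIntegral D e → ∃ o : O, algebraMap O E o = e := by
  obtain ⟨n, bb, b, s, hb, hs1, hs⟩ := exists_basis_lift K L lam hlam hπ hkerπ hρ hkerρ
  have hli := linearIndependent_lift K L lam hlam hkerπ bb b hb
  choose Γ hΓ using fun i j => exists_trace_eq (P := P) K L (b i * b j)
  have hΓ' : ∀ i j, algebraMap P K (Matrix.of Γ i j) =
      Algebra.trace K L (algebraMap R L (b i) * algebraMap R L (b j)) := fun i j => by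
    rw [Matrix.of_apply, hΓ, map_mul]
  obtain ⟨⟨bL, hbL⟩, hdet⟩ := not_dvd_det_gram K L lam hlam hkerπ b s hs1 hs hli c d hcint hcd
    hd (Matrix.of Γ) hΓ'
  have hdet0 : (Matrix.of Γ).det ≠ 0 := fun h0 => hdet (h0 ▸ dvd_zero lam)
  have hΓb : ∀ i j, Algebra.trace D O (bb i * bb j) =
      ((Matrix.of Γ).map (algebraMap P D)) i j := by
    intro i j
    rw [← hb, ← hb, ← map_mul]
    exact trace_quot_eq K L bb b s hb hs1 hs bL hbL (b i * b j) (Γ i j) (hΓ i j)
  have hdetb : ((Matrix.of Γ).map (algebraMap P D)).det ≠ 0 := by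
    have hmd : ((Matrix.of Γ).map (algebraMap P D)).det = algebraMap P D (Matrix.of Γ).det :=
      (RingHom.map_det _ _).symm
    rw [hmd]
    intro h0
    have hmem : (Matrix.of Γ).det ∈ RingHom.ker (algebraMap P D) := h0
    rw [hkerπ] at hmem
    exact hdet (Ideal.mem_span_singleton.mp hmem)
  refine ⟨n, bb, fun e he => ?_⟩
  exact mem_range_of_isIntegral_of_gram Kb E bb _ hΓb hdetb (algebraMap P D G) hG M hM
    (fun i => exists_pow_dual_quot (fun j => bb j) b s hb hs1 (Matrix.of Γ) G M i
      (exists_pow_dual_lift K L b s hs (Matrix.of Γ) hΓ' hdet0 G M ha i)) e he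

include K L Kb E in
/-- **(DN), consumer form (abstract).**  Two distinct minimal primes of `R` over `lam` are
comaximal. -/
theorem sup_eq_top_of_minimalPrimes (lam : P) (hlam : Prime lam)
    (hπ : Function.Surjective (algebraMap P D))
    (hkerπ : RingHom.ker (algebraMap P D) = Ideal.span {lam})
    (hρ : Function.Surjective (algebraMap R O))
    (hkerρ : RingHom.ker (algebraMap R O) = Ideal.span {algebraMap P R lam})
    {ι : Type*} [Fintype ι] [DecidableEq ι] (c : Module.Basis ι K L) (d : P)
    (hcint : ∀ i, IsIntegral P (c i)) (hcd : Algebra.discr K c = algebraMap P K d)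
    (hd : ¬ lam ∣ d)
    (G : P) (hG : Squarefree (algebraMap P D G)) (M : ℕ) (hM : 0 < M)
    (ha : ∀ x : L, (∀ r : L, IsIntegral P r →
        Algebra.trace K L (x * r) ∈ (algebraMap P K).range) →
      IsIntegral P (x ^ M * algebraMap P L G ^ (M - 1)))
    (Q Q' : Ideal R) (hQ : Q ∈ (Ideal.span {algebraMap P R lam}).minimalPrimes)
    (hQ' : Q' ∈ (Ideal.span {algebraMap P R lam}).minimalPrimes) (hne : Q ≠ Q') :
    Q ⊔ Q' = ⊤ := by
  obtain ⟨n, bb, hint⟩ := exists_basis_and_isIntegral_mem_range K L Kb E lam hlam hπ hkerπ hρ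
    hkerρ c d hcint hcd hd G hG M hM ha
  have hker : Ideal.span {algebraMap P R lam} = Ideal.comap (algebraMap R O) ⊥ := by
    rw [← hkerρ]; rfl
  rw [hker, Ideal.comap_minimalPrimes_eq_of_surjective hρ] at hQ hQ'
  obtain ⟨q, hq, rfl⟩ := hQ
  obtain ⟨q', hq', rfl⟩ := hQ'
  have hne' : q ≠ q' := fun h => hne (by rw [h])
  obtain ⟨o, ho', ho⟩ := exists_sep_of_minimalPrimes Kb E bb hint q q' hq hq' hne'
  obtain ⟨r, rfl⟩ := hρ o
  rw [Ideal.eq_top_iff_one]
  have h1 : (1 : R) = (1 - r) + r := by ring
  rw [h1]
  refine Submodule.add_mem_sup ?_ ?_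
  · rw [Ideal.mem_comap, map_sub, map_one]; exact ho
  · exact ho'

include K L Kb E in
/-- **(DN), elementwise integral-lift form (abstract).**  If `a / d` (`a : R`, `d : P` prime to
`lam`) satisfies a monic relation modulo `lam`, then `a ≡ d r` modulo `lam` for some `r : R`:
every element of `Frac D ⊗ R / lam` integral over `D = P / lam` comes from `R`. -/
theorem exists_lift_of_fraction_relation (lam : P) (hlam : Prime lam)
    (hπ : Function.Surjective (algebraMap P D))
    (hkerπ : RingHom.ker (algebraMap P D) = Ideal.span {lam})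
    (hρ : Function.Surjective (algebraMap R O))
    (hkerρ : RingHom.ker (algebraMap R O) = Ideal.span {algebraMap P R lam})
    {ι : Type*} [Fintype ι] [DecidableEq ι] (c : Module.Basis ι K L) (d : P)
    (hcint : ∀ i, IsIntegral P (c i)) (hcd : Algebra.discr K c = algebraMap P K d)
    (hd : ¬ lam ∣ d)
    (G : P) (hG : Squarefree (algebraMap P D G)) (M : ℕ) (hM : 0 < M)
    (ha : ∀ x : L, (∀ r : L, IsIntegral P r →
        Algebra.trace K L (x * r) ∈ (algebraMap P K).range) →
      IsIntegral P (x ^ M * algebraMap P L G ^ (M - 1)))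
    (a : R) (e : P) (he : ¬ lam ∣ e) (n : ℕ) (u : Fin n → P) (y : R)
    (hrel : a ^ n + ∑ i : Fin n, algebraMap P R (u i * e ^ (n - (i : ℕ))) * a ^ (i : ℕ) =
      algebraMap P R lam * y) :
    ∃ r y' : R, algebraMap P R e * r - a = algebraMap P R lam * y' := by
  obtain ⟨n', bb, hint⟩ := exists_basis_and_isIntegral_mem_range K L Kb E lam hlam hπ hkerπ hρ
    hkerρ c d hcint hcd hd G hG M hM ha
  have hfree : Module.Free D O := Module.Free.of_basis bb
  -- `O → E` is injective
  have hS : Algebra.algebraMapSubmonoid O D⁰ ≤ nonZeroDivisors O := by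
    rintro _ ⟨x, hx, rfl⟩
    rw [mem_nonZeroDivisors_iff_right]
    intro z hz
    have hx0 : x ≠ 0 := nonZeroDivisors.ne_zero hx
    have hz' : x • z = 0 := by rw [Algebra.smul_def, mul_comm]; exact hz
    exact (smul_eq_zero.mp hz').resolve_left hx0
  have hinj : Function.Injective (algebraMap O E) := IsLocalization.injective E hS
  have hDE : ∀ x : D, algebraMap D E x = algebraMap O E (algebraMap D O x) := fun x =>
    IsScalarTower.algebraMap_apply D O E x
  have hDKE : ∀ x : D, algebraMap D E x = algebraMap Kb E (algebraMap D Kb x) := fun x =>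
    IsScalarTower.algebraMap_apply D Kb E x
  have hPO : ∀ x : P, algebraMap R O (algebraMap P R x) = algebraMap D O (algebraMap P D x) :=
    fun x => by
      rw [← IsScalarTower.algebraMap_apply P R O, IsScalarTower.algebraMap_apply P D O]
  have he0 : algebraMap P D e ≠ 0 := by
    intro h0
    have hmem : e ∈ RingHom.ker (algebraMap P D) := h0
    rw [hkerπ] at hmem
    exact he (Ideal.mem_span_singleton.mp hmem)
  have heK : algebraMap D Kb (algebraMap P D e) ≠ 0 := fun h0 =>
    he0 (IsFractionRing.injective D Kb (h0.trans (map_zero _).symm))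
  have hlam0 : algebraMap P D lam = 0 := by
    have hmem : lam ∈ RingHom.ker (algebraMap P D) := by
      rw [hkerπ]; exact Ideal.mem_span_singleton_self lam
    exact hmem
  -- the fraction `a / e` in `E`
  let ψ : R →+* E := (algebraMap O E).comp (algebraMap R O)
  have hψ : ∀ x : P, ψ (algebraMap P R x) = algebraMap D E (algebraMap P D x) := fun x => by
    simp only [ψ, RingHom.comp_apply]
    rw [hPO, ← hDE]
  let kd : E := algebraMap Kb E (algebraMap D Kb (algebraMap P D e))⁻¹
  have hkd : kd * algebraMap D E (algebraMap P D e) = 1 := by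
    rw [hDKE, ← map_mul, inv_mul_cancel₀ heK, map_one]
  have h1 : ψ a ^ n + ∑ i : Fin n, algebraMap D E (algebraMap P D (u i)) *
      algebraMap D E (algebraMap P D e) ^ (n - (i : ℕ)) * ψ a ^ (i : ℕ) = 0 := by
    have h := congrArg ψ hrel
    simp only [map_add, map_pow, map_sum, map_mul, hψ, hlam0, map_zero, zero_mul] at h
    exact h
  have hs : IsIntegral D (kd * ψ a) := by
    refine ⟨Polynomial.X ^ n + ∑ i : Fin n, Polynomial.C (algebraMap P D (u i)) *
      Polynomial.X ^ (i : ℕ),
      Polynomial.monic_X_pow_add (Polynomial.degree_sum_fin_lt _), ?_⟩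
    rw [← Polynomial.aeval_def]
    simp only [map_add, map_pow, Polynomial.aeval_X, map_sum, map_mul, Polynomial.aeval_C]
    have h2 : (kd * ψ a) ^ n + ∑ i : Fin n, algebraMap D E (algebraMap P D (u i)) *
        (kd * ψ a) ^ (i : ℕ) = kd ^ n * (ψ a ^ n + ∑ i : Fin n,
          algebraMap D E (algebraMap P D (u i)) *
            algebraMap D E (algebraMap P D e) ^ (n - (i : ℕ)) * ψ a ^ (i : ℕ)) := by
      rw [mul_add, Finset.mul_sum, mul_pow]
      congr 1
      refine Finset.sum_congr rfl (fun i _ => ?_)
      have hi : n = (i : ℕ) + (n - (i : ℕ)) := by have := i.2; omega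
      have hpow : (kd * algebraMap D E (algebraMap P D e)) ^ (n - (i : ℕ)) = 1 := by
        rw [hkd, one_pow]
      have hkn : kd ^ n = kd ^ (i : ℕ) * kd ^ (n - (i : ℕ)) := by
        rw [← pow_add, ← hi]
      rw [hkn]
      linear_combination (exp := 1)
        (-(algebraMap D E (algebraMap P D (u i)) * kd ^ (i : ℕ) * ψ a ^ (i : ℕ))) * hpow
    rw [h2, h1, mul_zero]
  obtain ⟨o, ho⟩ := hint _ hs
  obtain ⟨r, rfl⟩ := hρ o
  have h3 : algebraMap R O (algebraMap P R e * r - a) = 0 := by
    apply hinj
    have h4 : algebraMap O E (algebraMap R O (algebraMap P R e * r - a)) =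
        algebraMap D E (algebraMap P D e) * (kd * ψ a) - ψ a := by
      rw [← ho]
      simp only [map_sub, map_mul, hPO, ← hDE]
      rfl
    rw [h4, map_zero]
    linear_combination ψ a * hkd
  have h5 : algebraMap P R e * r - a ∈ Ideal.span {algebraMap P R lam} := by
    rw [← hkerρ]; exact h3
  obtain ⟨y', hy'⟩ := Ideal.mem_span_singleton.mp h5
  exact ⟨r, y', hy'⟩

end Main

section Concrete

variable {P K L : Type*} [CommRing P] [IsDomain P] [IsNoetherianRing P] [IsIntegrallyClosed P]
  [Field K] [Field L] [Algebra P K] [IsFractionRing P K] [Algebra K L] [Algebra P L]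
  [IsScalarTower P K L] [FiniteDimensional K L] [Algebra.IsSeparable K L]

/-- **(DN), chart form.**  `P` a noetherian integrally closed domain, `lam` prime with `P / lam`
a PID, `L / Frac P` finite separable, `R` the integral closure of `P` in `L`.  Given
(c) a `K`-basis of `L` of integral elements with discriminant prime to `lam`, and
(a') `G` with squarefree reduction, `M ≥ 1`, such that `x ^ M * G ^ (M - 1)` is integral for
every `x` in the trace dual of `R`:
two distinct minimal primes of `R` over `lam` are comaximal. -/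
theorem sup_eq_top_of_dualNormal (lam : P) (hlam : Prime lam)
    [IsPrincipalIdealRing (P ⧸ Ideal.span {lam})]
    {ι : Type*} [Fintype ι] [DecidableEq ι] (c : Module.Basis ι K L) (d : P)
    (hcint : ∀ i, IsIntegral P (c i)) (hcd : Algebra.discr K c = algebraMap P K d)
    (hd : ¬ lam ∣ d)
    (G : P) (hG : Squarefree (Ideal.Quotient.mk (Ideal.span {lam}) G)) (M : ℕ) (hM : 0 < M)
    (ha : ∀ x : L, (∀ r : L, IsIntegral P r →
        Algebra.trace K L (x * r) ∈ (algebraMap P K).range) →
      IsIntegral P (x ^ M * algebraMap P L G ^ (M - 1)))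
    (Q Q' : Ideal ↥(integralClosure P L))
    (hQ : Q ∈ (Ideal.span {algebraMap P ↥(integralClosure P L) lam}).minimalPrimes)
    (hQ' : Q' ∈ (Ideal.span {algebraMap P ↥(integralClosure P L) lam}).minimalPrimes)
    (hne : Q ≠ Q') : Q ⊔ Q' = ⊤ := by
  have : (Ideal.span {lam}).IsPrime := (Ideal.span_singleton_prime hlam.ne_zero).mpr hlam
  exact sup_eq_top_of_minimalPrimes K L (R := ↥(integralClosure P L))
    (D := P ⧸ Ideal.span {lam})
    (O := ↥(integralClosure P L) ⧸ (Ideal.span {lam}).map (algebraMap P ↥(integralClosure P L)))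
    (FractionRing (P ⧸ Ideal.span {lam}))
    (Localization (Algebra.algebraMapSubmonoid
      (↥(integralClosure P L) ⧸ (Ideal.span {lam}).map (algebraMap P ↥(integralClosure P L)))
      (P ⧸ Ideal.span {lam})⁰))
    lam hlam Ideal.Quotient.mk_surjective
    (by rw [Ideal.Quotient.algebraMap_eq]; exact Ideal.mk_ker)
    Ideal.Quotient.mk_surjective
    (by rw [Ideal.Quotient.algebraMap_eq, Ideal.mk_ker, Ideal.map_span, Set.image_singleton])
    c d hcint hcd hd G hG M hM ha Q Q' hQ hQ' hne

/-- **(DN), `OneComponent` form** (unfolded shape of `helper3578.OneComponent R lam`). -/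
theorem oneComponent_of_dualNormal (lam : P) (hlam : Prime lam)
    [IsPrincipalIdealRing (P ⧸ Ideal.span {lam})]
    {ι : Type*} [Fintype ι] [DecidableEq ι] (c : Module.Basis ι K L) (d : P)
    (hcint : ∀ i, IsIntegral P (c i)) (hcd : Algebra.discr K c = algebraMap P K d)
    (hd : ¬ lam ∣ d)
    (G : P) (hG : Squarefree (Ideal.Quotient.mk (Ideal.span {lam}) G)) (M : ℕ) (hM : 0 < M)
    (ha : ∀ x : L, (∀ r : L, IsIntegral P r →
        Algebra.trace K L (x * r) ∈ (algebraMap P K).range) →
      IsIntegral P (x ^ M * algebraMap P L G ^ (M - 1))) :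
    ∀ Q ∈ (Ideal.span {algebraMap P ↥(integralClosure P L) lam}).minimalPrimes,
    ∀ Q' ∈ (Ideal.span {algebraMap P ↥(integralClosure P L) lam}).minimalPrimes,
      Q ⊔ Q' ≠ ⊤ → Q = Q' := by
  intro Q hQ Q' hQ' h
  by_contra hne
  exact h (sup_eq_top_of_dualNormal lam hlam c d hcint hcd hd G hG M hM ha Q Q' hQ hQ' hne)

/-- Elementwise form of "`R / lam` is integrally closed in `Frac (P / lam) ⊗ R / lam`"
(`R` the integral closure of `P` in `L`): a fraction `a / d`, `a` integral, `lam ∤ d`, which
satisfies a monic relation with coefficients in `P` modulo `lam`, is congruent to an integral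
element: `d r ≡ a` modulo `lam`. -/
def IntLift (P L : Type*) [CommRing P] [Field L] [Algebra P L] (lam : P) : Prop :=
  ∀ a : L, IsIntegral P a → ∀ d : P, ¬ lam ∣ d →
    (∃ (n : ℕ) (c : Fin n → P) (y : L), IsIntegral P y ∧
      a ^ n + ∑ i : Fin n, algebraMap P L (c i * d ^ (n - (i : ℕ))) * a ^ (i : ℕ) =
        algebraMap P L lam * y) →
    ∃ r y : L, IsIntegral P r ∧ IsIntegral P y ∧
      algebraMap P L d * r - a = algebraMap P L lam * y

/-- **(DN), integral-lift form**: `(c) + (a') ⟹ IntLift P L lam`. -/
theorem intLift_of_dualNormal (lam : P) (hlam : Prime lam)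
    [IsPrincipalIdealRing (P ⧸ Ideal.span {lam})]
    {ι : Type*} [Fintype ι] [DecidableEq ι] (c : Module.Basis ι K L) (d : P)
    (hcint : ∀ i, IsIntegral P (c i)) (hcd : Algebra.discr K c = algebraMap P K d)
    (hd : ¬ lam ∣ d)
    (G : P) (hG : Squarefree (Ideal.Quotient.mk (Ideal.span {lam}) G)) (M : ℕ) (hM : 0 < M)
    (ha : ∀ x : L, (∀ r : L, IsIntegral P r →
        Algebra.trace K L (x * r) ∈ (algebraMap P K).range) →
      IsIntegral P (x ^ M * algebraMap P L G ^ (M - 1))) :
    IntLift P L lam := by
  rintro a haint e he ⟨n, u, y, hyint, hrel⟩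
  have : (Ideal.span {lam}).IsPrime := (Ideal.span_singleton_prime hlam.ne_zero).mpr hlam
  obtain ⟨r, y', h⟩ := exists_lift_of_fraction_relation K L (R := ↥(integralClosure P L))
    (D := P ⧸ Ideal.span {lam})
    (O := ↥(integralClosure P L) ⧸ (Ideal.span {lam}).map (algebraMap P ↥(integralClosure P L)))
    (FractionRing (P ⧸ Ideal.span {lam}))
    (Localization (Algebra.algebraMapSubmonoid
      (↥(integralClosure P L) ⧸ (Ideal.span {lam}).map (algebraMap P ↥(integralClosure P L)))
      (P ⧸ Ideal.span {lam})⁰))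
    lam hlam Ideal.Quotient.mk_surjective
    (by rw [Ideal.Quotient.algebraMap_eq]; exact Ideal.mk_ker)
    Ideal.Quotient.mk_surjective
    (by rw [Ideal.Quotient.algebraMap_eq, Ideal.mk_ker, Ideal.map_span, Set.image_singleton])
    c d hcint hcd hd G hG M hM ha ⟨a, haint⟩ e he n u ⟨y, hyint⟩
    (Subtype.ext (by
      simp only [Subalgebra.coe_add, Subalgebra.coe_pow, AddSubmonoidClass.coe_finsetSum,
        Subalgebra.coe_mul, Subalgebra.coe_algebraMap]
      exact hrel))
  refine ⟨r, y', r.2, y'.2, ?_⟩
  have h' := congrArg Subtype.val h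
  simpa using h'

/-- **(DN), idempotent-lift form** (the unfolded `helper3791.IdemLift P L lam`). -/
theorem idemLift_of_dualNormal (lam : P) (hlam : Prime lam)
    [IsPrincipalIdealRing (P ⧸ Ideal.span {lam})]
    {ι : Type*} [Fintype ι] [DecidableEq ι] (c : Module.Basis ι K L) (d : P)
    (hcint : ∀ i, IsIntegral P (c i)) (hcd : Algebra.discr K c = algebraMap P K d)
    (hd : ¬ lam ∣ d)
    (G : P) (hG : Squarefree (Ideal.Quotient.mk (Ideal.span {lam}) G)) (M : ℕ) (hM : 0 < M)
    (ha : ∀ x : L, (∀ r : L, IsIntegral P r →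
        Algebra.trace K L (x * r) ∈ (algebraMap P K).range) →
      IsIntegral P (x ^ M * algebraMap P L G ^ (M - 1))) :
    ∀ a : L, IsIntegral P a → ∀ e : P, ¬ lam ∣ e →
      (∃ y : L, IsIntegral P y ∧ a * a - algebraMap P L e * a = algebraMap P L lam * y) →
      ∃ r y : L, IsIntegral P r ∧ IsIntegral P y ∧
        algebraMap P L e * r - a = algebraMap P L lam * y := by
  rintro a haint e he ⟨y, hyint, hrel⟩
  refine intLift_of_dualNormal (K := K) lam hlam c d hcint hcd hd G hG M hM ha a haint e he
    ⟨2, ![0, -1], y, hyint, ?_⟩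
  rw [Fin.sum_univ_two, ← hrel]
  simp
  ring

end Concrete

end Fermat.Agent.S18.helper98
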