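import Mathlib
import Fermat.Agent.S18.helper403_TGlobal
import Fermat.Agent.S18.helper3578_SpecB
import Fermat.Agent.S18.helper1148_DualBound
import Fermat.Agent.S18.helper98_DualNormal

/-!
# S18, track B: the chart base package (helper403)

Everything needed to *apply* a one-component supplier (trace-duality normality, purity, ...) to the
two charts `integralClosure (Algebra.adjoin A₀ {t}) L₀`, `integralClosure (Algebra.adjoin A₀ {t⁻¹}) L₀`
of the Spec of track B:

* `(CB1)` the chart ring `A[t]` (`t` transcendental): primes of `A` stay prime, the special fibre is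
  the affine line over `A/p` (a PID), unique factorisation, radical ideals `(p, P)`;
* `(CB2)` `K(t)` is the fraction field of `A[t]` (`K = Frac A`), both charts have the same fraction
  field;
* `(CB3)` back from a localisation which does not touch the special fibre (`1 + x * C`), with the
  Jacobson radical / special fibre facts for that localisation;
* `(CB5)` the generic-fibre ring `K[t]` over the chart ring `A[t]` (`K[t] = A[t][1/ϖ]`);
* `(CB6)` `chart_dualBound` (hypothesis `(a')` on a chart) and `stmt_DNChart`, the chart form of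
  trace-duality normality for the track-B Spec (`helper3578.Stmt_DNChart`).
-/

set_option autoImplicit false
set_option linter.style.haveILetI false

namespace Fermat.Agent.S18.helper403

open Polynomial Ideal IntermediateField


section BackFromLocalization

variable {M : Type*} [CommRing M]

/-- **(CB3)** Back from a localisation which does not touch the fibre `x = 0`: if no element of
`S` lies in a prime containing `x` (e.g. `S` = the image of `1 + x * C`), the one-component
property of `S⁻¹M` implies the one of `M`. -/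
theorem oneComponent_of_isLocalization (S : Submonoid M) (R : Type*) [CommRing R] [Algebra M R]
    [IsLocalization S R] (x : M) (hS : ∀ s ∈ S, ∀ n : Ideal M, n.IsPrime → x ∈ n → s ∉ n)
    (hR : OneComponent R (algebraMap M R x)) : OneComponent M x := by
  intro Q Q' hQ hQ' hne
  obtain ⟨n, hn, hle⟩ := Ideal.exists_le_maximal _ hne
  have hxQ : x ∈ Q := hQ.1.2 (Ideal.mem_span_singleton_self x)
  have hxn : x ∈ n := hle (Ideal.mem_sup_left hxQ)
  refine eq_of_oneComponent_localization S R x hR hQ hQ' hn.isPrime ?_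
    (le_sup_left.trans hle) (le_sup_right.trans hle)
  rw [Set.disjoint_left]
  intro s hs hsn
  exact hS s hs n hn.isPrime hxn hsn

/-- The submonoid `1 + x * M`. -/
def oneAddMul (x : M) : Submonoid M where
  carrier := {s | ∃ c : M, s = 1 + x * c}
  one_mem' := ⟨0, by ring⟩
  mul_mem' := by
    rintro _ _ ⟨c, rfl⟩ ⟨d, rfl⟩
    exact ⟨c + d + x * c * d, by ring⟩

theorem mem_oneAddMul {x s : M} : s ∈ oneAddMul x ↔ ∃ c : M, s = 1 + x * c := Iff.rfl

theorem notMem_of_mem_oneAddMul {x s : M} (hs : s ∈ oneAddMul x) (n : Ideal M) (hn : n.IsPrime)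
    (hx : x ∈ n) : s ∉ n := by
  obtain ⟨c, rfl⟩ := hs
  intro h
  apply hn.ne_top
  rw [Ideal.eq_top_iff_one]
  have : (1 : M) = (1 + x * c) - x * c := by ring
  rw [this]
  exact n.sub_mem h (n.mul_mem_right c hx)

end BackFromLocalization

section OneAddMul

variable {P : Type*} [CommRing P] (x : P) (B : Type*) [CommRing B] [Algebra P B]
  [IsLocalization (oneAddMul x) B]

/-- **(CB3)** in the localisation at `1 + x * P`, the element `x` lies in the Jacobson radical. -/
theorem algebraMap_mem_jacobson_of_oneAddMul :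
    algebraMap P B x ∈ Ideal.jacobson (⊥ : Ideal B) := by
  rw [Ideal.mem_jacobson_bot]
  intro y
  obtain ⟨c, ⟨s, hs⟩, rfl⟩ := IsLocalization.exists_mk'_eq (oneAddMul x) y
  obtain ⟨d, rfl⟩ := hs
  have hnum : IsUnit (algebraMap P B (1 + x * (c + d))) :=
    IsLocalization.map_units B (⟨_, ⟨c + d, rfl⟩⟩ : oneAddMul x)
  have hmul : (algebraMap P B x * IsLocalization.mk' B c (⟨1 + x * d, ⟨d, rfl⟩⟩ : oneAddMul x) + 1)
      * algebraMap P B (1 + x * d) = algebraMap P B (1 + x * (c + d)) := by
    rw [add_mul, mul_assoc, IsLocalization.mk'_spec, one_mul, ← map_mul, ← map_add]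
    congr 1
    ring
  exact (IsUnit.mul_iff.mp (hmul ▸ hnum)).1

theorem oneAddMul_le_nonZeroDivisors [IsDomain P] (hx : ¬ IsUnit x) :
    oneAddMul x ≤ nonZeroDivisors P := by
  rintro _ ⟨c, rfl⟩
  refine mem_nonZeroDivisors_of_ne_zero (fun h => hx ?_)
  refine IsUnit.of_mul_eq_one (-c) ?_
  linear_combination -h

/-- The reduction map `P → B/(x)` is surjective (`B` the localisation at `1 + x * P`). -/
theorem quotient_mk_comp_algebraMap_surjective_of_oneAddMul :
    Function.Surjective ((Ideal.Quotient.mk (Ideal.span {algebraMap P B x})).comp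
      (algebraMap P B)) := by
  intro z
  obtain ⟨y, rfl⟩ := Ideal.Quotient.mk_surjective z
  obtain ⟨c, ⟨s, hs⟩, rfl⟩ := IsLocalization.exists_mk'_eq (oneAddMul x) y
  obtain ⟨d, rfl⟩ := hs
  refine ⟨c, ?_⟩
  rw [RingHom.comp_apply, Ideal.Quotient.eq, Ideal.mem_span_singleton]
  refine ⟨IsLocalization.mk' B (c * d) (⟨1 + x * d, ⟨d, rfl⟩⟩ : oneAddMul x), ?_⟩
  have hs' : IsUnit (algebraMap P B (1 + x * d)) :=
    IsLocalization.map_units B (⟨_, ⟨d, rfl⟩⟩ : oneAddMul x)
  apply hs'.mul_right_cancel
  rw [sub_mul, IsLocalization.mk'_spec, mul_assoc, IsLocalization.mk'_spec, ← map_mul, ← map_mul,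
    ← map_sub]
  congr 1
  ring

/-- The kernel of the reduction map `P → B/(x)` is `(x)`. -/
theorem ker_quotient_mk_comp_algebraMap_of_oneAddMul :
    RingHom.ker ((Ideal.Quotient.mk (Ideal.span {algebraMap P B x})).comp (algebraMap P B)) =
      Ideal.span {x} := by
  ext a
  rw [RingHom.mem_ker, RingHom.comp_apply, Ideal.Quotient.eq_zero_iff_mem,
    Ideal.mem_span_singleton, Ideal.mem_span_singleton]
  constructor
  · rintro ⟨y, hy⟩
    obtain ⟨c, ⟨s, hs⟩, rfl⟩ := IsLocalization.exists_mk'_eq (oneAddMul x) y
    obtain ⟨d, rfl⟩ := hs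
    have h1 : algebraMap P B (a * (1 + x * d)) = algebraMap P B (x * c) := by
      rw [map_mul, hy, mul_assoc, IsLocalization.mk'_spec, map_mul]
    obtain ⟨⟨u, e, rfl⟩, hu⟩ := (IsLocalization.eq_iff_exists (oneAddMul x) B).mp h1
    refine ⟨(1 + x * e) * c - a * (e + d + x * e * d), ?_⟩
    simp only at hu
    linear_combination hu
  · rintro ⟨c, rfl⟩
    exact ⟨algebraMap P B c, by rw [map_mul]⟩

/-- **(CB3)** the special fibre is not changed by localising at `1 + x * P`. -/
noncomputable def quotientEquivOfOneAddMul :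
    (P ⧸ Ideal.span {x}) ≃+* (B ⧸ Ideal.span {algebraMap P B x}) :=
  (Ideal.quotEquivOfEq (ker_quotient_mk_comp_algebraMap_of_oneAddMul x B).symm).trans
    (RingHom.quotientKerEquivOfSurjective
      (quotient_mk_comp_algebraMap_surjective_of_oneAddMul x B))

theorem quotientEquivOfOneAddMul_mk (a : P) :
    quotientEquivOfOneAddMul x B (Ideal.Quotient.mk _ a) =
      Ideal.Quotient.mk _ (algebraMap P B a) := rfl

theorem isPrincipalIdealRing_quotient_of_oneAddMul
    [IsPrincipalIdealRing (P ⧸ Ideal.span {x})] :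
    IsPrincipalIdealRing (B ⧸ Ideal.span {algebraMap P B x}) :=
  IsPrincipalIdealRing.of_surjective (quotientEquivOfOneAddMul x B).toRingHom
    (quotientEquivOfOneAddMul x B).surjective

/-- **(CB3)** a prime element `x` stays prime in the localisation at `1 + x * P`. -/
theorem prime_algebraMap_of_oneAddMul [IsDomain P] (hx : Prime x) :
    Prime (algebraMap P B x) := by
  have hS := oneAddMul_le_nonZeroDivisors x hx.not_isUnit
  have hinj : Function.Injective (algebraMap P B) := IsLocalization.injective B hS
  have hne : algebraMap P B x ≠ 0 := fun h => hx.ne_zero (hinj (by rw [h, map_zero]))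
  rw [← Ideal.span_singleton_prime hne, ← Ideal.Quotient.isDomain_iff_prime]
  have hP : (Ideal.span {x}).IsPrime := (Ideal.span_singleton_prime hx.ne_zero).mpr hx
  have : IsDomain (P ⧸ Ideal.span {x}) := (Ideal.Quotient.isDomain_iff_prime _).mpr hP
  exact (quotientEquivOfOneAddMul x B).symm.toMulEquiv.isDomain _

end OneAddMul

section Adjoin

variable {A L : Type*} [CommRing A] [Field L] [Algebra A L]

/-- `A[X] ≃ₐ[A] A[t]` for `t` transcendental over `A`. -/
noncomputable def polyEquivAdjoin (t : L) (htr : Transcendental A t) :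
    A[X] ≃ₐ[A] Algebra.adjoin A {t} :=
  (AlgEquiv.ofInjective (aeval t : A[X] →ₐ[A] L) (transcendental_iff_injective.mp htr)).trans
    (Subalgebra.equivOfEq _ _ (Algebra.adjoin_singleton_eq_range_aeval A t).symm)

theorem polyEquivAdjoin_coe (t : L) (htr : Transcendental A t) (f : A[X]) :
    ((polyEquivAdjoin t htr f : Algebra.adjoin A {t}) : L) = aeval t f := rfl

theorem polyEquivAdjoin_C (t : L) (htr : Transcendental A t) (a : A) :
    polyEquivAdjoin t htr (C a) = algebraMap A (Algebra.adjoin A {t}) a := by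
  apply Subtype.ext
  rw [polyEquivAdjoin_coe, aeval_C]
  rfl

theorem polyEquivAdjoin_X (t : L) (htr : Transcendental A t) :
    polyEquivAdjoin t htr X = ⟨t, Algebra.self_mem_adjoin_singleton A t⟩ := by
  apply Subtype.ext
  rw [polyEquivAdjoin_coe, aeval_X]

/-- **(CB1)** a prime of `A` stays prime in the chart ring `A[t]`. -/
theorem prime_algebraMap_adjoin [IsDomain A] {p : A} (hp : Prime p) (t : L)
    (htr : Transcendental A t) : Prime (algebraMap A (Algebra.adjoin A {t}) p) := by
  rw [← polyEquivAdjoin_C t htr]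
  exact (MulEquiv.prime_iff (polyEquivAdjoin t htr).toMulEquiv).mpr (Polynomial.prime_C_iff.mpr hp)

/-- Divisibility by a constant in the chart ring, coefficientwise. -/
theorem algebraMap_dvd_polyEquivAdjoin_iff (t : L) (htr : Transcendental A t) (p : A) (f : A[X]) :
    algebraMap A (Algebra.adjoin A {t}) p ∣ polyEquivAdjoin t htr f ↔ ∀ i, p ∣ f.coeff i := by
  rw [← polyEquivAdjoin_C t htr, ← Polynomial.C_dvd_iff_dvd_coeff]
  constructor
  · intro h
    have := map_dvd (polyEquivAdjoin t htr).symm h
    simpa using this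
  · intro h
    exact map_dvd (polyEquivAdjoin t htr) h

theorem isIntegrallyClosed_adjoin [IsDomain A] [IsIntegrallyClosed A] (t : L)
    (htr : Transcendental A t) : IsIntegrallyClosed (Algebra.adjoin A {t}) :=
  IsIntegrallyClosed.of_equiv (polyEquivAdjoin t htr).toRingEquiv

theorem isNoetherianRing_adjoin [IsNoetherianRing A] (t : L) (htr : Transcendental A t) :
    IsNoetherianRing (Algebra.adjoin A {t}) :=
  isNoetherianRing_of_ringEquiv _ (polyEquivAdjoin t htr).toRingEquiv

theorem uniqueFactorizationMonoid_adjoin [IsDomain A] [UniqueFactorizationMonoid A] (t : L)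
    (htr : Transcendental A t) : UniqueFactorizationMonoid (Algebra.adjoin A {t}) :=
  (polyEquivAdjoin t htr).toMulEquiv.uniqueFactorizationMonoid inferInstance

/-- **(CB1)** the special fibre of the chart ring `A[t]` is the affine line over `A/p`. -/
noncomputable def adjoinQuotientEquiv (p : A) (t : L) (htr : Transcendental A t) :
    (A ⧸ Ideal.span {p})[X] ≃+*
      (Algebra.adjoin A {t} ⧸ Ideal.span {algebraMap A (Algebra.adjoin A {t}) p}) :=
  (Ideal.polynomialQuotientEquivQuotientPolynomial (Ideal.span {p})).trans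
    (Ideal.quotientEquiv _ _ (polyEquivAdjoin t htr).toRingEquiv (by
      rw [Ideal.map_span, Set.image_singleton, Ideal.map_span, Set.image_singleton]
      congr 2
      exact (polyEquivAdjoin_C t htr p).symm))

theorem isPrincipalIdealRing_adjoin_quotient (p : A) (hmax : (Ideal.span {p}).IsMaximal) (t : L)
    (htr : Transcendental A t) :
    IsPrincipalIdealRing
      (Algebra.adjoin A {t} ⧸ Ideal.span {algebraMap A (Algebra.adjoin A {t}) p}) := by
  letI : Field (A ⧸ Ideal.span {p}) := Ideal.Quotient.field _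
  exact IsPrincipalIdealRing.of_surjective (adjoinQuotientEquiv p t htr).toRingHom
    (adjoinQuotientEquiv p t htr).surjective

theorem adjoinQuotientEquiv_mk (p : A) (t : L) (htr : Transcendental A t) (f : A[X]) :
    adjoinQuotientEquiv p t htr (f.map (Ideal.Quotient.mk (Ideal.span {p}))) =
      Ideal.Quotient.mk _ (polyEquivAdjoin t htr f) := by
  unfold adjoinQuotientEquiv
  rw [RingEquiv.trans_apply, Ideal.polynomialQuotientEquivQuotientPolynomial_map_mk,
    Ideal.quotientEquiv_mk]
  rfl

/-- **(CB1)** radical ideals `(p, P)` of the chart ring `A[t]` ("the branch values stay distinct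
modulo `p`"): it suffices that the reduction of `P` generates a radical ideal of `(A/p)[X]`. -/
theorem isRadical_span_pair_adjoin (p : A) (t : L) (htr : Transcendental A t) (f : A[X])
    (hf : (Ideal.span {f.map (Ideal.Quotient.mk (Ideal.span {p}))}).IsRadical) :
    (Ideal.span {algebraMap A (Algebra.adjoin A {t}) p, polyEquivAdjoin t htr f}).IsRadical := by
  set π : Algebra.adjoin A {t} := algebraMap A (Algebra.adjoin A {t}) p with hπ
  set F : Algebra.adjoin A {t} := polyEquivAdjoin t htr f with hF
  let φ : Algebra.adjoin A {t} →+* (A ⧸ Ideal.span {p})[X] :=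
    (adjoinQuotientEquiv p t htr).symm.toRingHom.comp (Ideal.Quotient.mk (Ideal.span {π}))
  have hφ : ∀ y, φ y = (adjoinQuotientEquiv p t htr).symm (Ideal.Quotient.mk (Ideal.span {π}) y) :=
    fun _ => rfl
  have hφπ : φ π = 0 := by
    rw [hφ, show Ideal.Quotient.mk (Ideal.span {π}) π = 0 from
      Ideal.Quotient.eq_zero_iff_mem.mpr (Ideal.mem_span_singleton_self _), RingEquiv.map_zero]
  have hφF : φ F = f.map (Ideal.Quotient.mk (Ideal.span {p})) := by
    rw [hφ, RingEquiv.symm_apply_eq]
    exact (adjoinQuotientEquiv_mk p t htr f).symm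
  have hφsurj : Function.Surjective φ :=
    (adjoinQuotientEquiv p t htr).symm.surjective.comp Ideal.Quotient.mk_surjective
  have hφker : ∀ y, φ y = 0 → y ∈ Ideal.span {π} := by
    intro y hy
    rw [hφ] at hy
    have := (adjoinQuotientEquiv p t htr).symm.injective
      (hy.trans (RingEquiv.map_zero _).symm)
    exact Ideal.Quotient.eq_zero_iff_mem.mp this
  have hmem : ∀ y : Algebra.adjoin A {t}, y ∈ Ideal.span {π, F} ↔
      φ y ∈ Ideal.span {f.map (Ideal.Quotient.mk (Ideal.span {p}))} := by
    intro y
    rw [Ideal.mem_span_pair, Ideal.mem_span_singleton']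
    constructor
    · rintro ⟨a, b, rfl⟩
      exact ⟨φ b, by rw [map_add, map_mul, map_mul, hφπ, hφF]; ring⟩
    · rintro ⟨g, hg⟩
      obtain ⟨G, rfl⟩ := hφsurj g
      have h1 : φ (y - G * F) = 0 := by
        rw [map_sub, map_mul, hφF, hg, sub_self]
      have h2 := hφker _ h1
      rw [Ideal.mem_span_singleton'] at h2
      obtain ⟨a, ha⟩ := h2
      exact ⟨a, G, by rw [ha]; ring⟩
  intro y hy
  obtain ⟨n, hn⟩ := hy
  rw [hmem] at hn ⊢
  rw [map_pow] at hn
  exact hf ⟨n, hn⟩

end Adjoin



section Frac

variable {A K L : Type*} [CommRing A] [Field K] [Algebra A K] [Field L] [Algebra K L] [Algebra A L]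
  [IsScalarTower A K L]

theorem adjoin_le_adjoinSimple (t : L) {x : L} (hx : x ∈ Algebra.adjoin A {t}) : x ∈ K⟮t⟯ := by
  induction hx using Algebra.adjoin_induction with
  | mem y hy =>
    rw [Set.mem_singleton_iff] at hy
    rw [hy]
    exact mem_adjoin_simple_self K t
  | algebraMap a =>
    rw [IsScalarTower.algebraMap_apply A K L]
    exact K⟮t⟯.algebraMap_mem _
  | add x y _ _ hx hy => exact add_mem hx hy
  | mul x y _ _ hx hy => exact mul_mem hx hy

/-- The inclusion `A[t] → K(t)`. -/
def adjoinToSimple (t : L) : Algebra.adjoin A {t} →+* K⟮t⟯ where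
  toFun x := ⟨x.1, adjoin_le_adjoinSimple (K := K) t x.2⟩
  map_one' := rfl
  map_mul' _ _ := rfl
  map_zero' := rfl
  map_add' _ _ := rfl

/-- **(CB2)** `K(t)` as an algebra over the chart ring `A[t]` (not an instance: use `letI`). -/
@[reducible] def algebraAdjoinSimple (t : L) : Algebra (Algebra.adjoin A {t}) K⟮t⟯ :=
  (adjoinToSimple (A := A) (K := K) t).toAlgebra

theorem algebraAdjoinSimple_coe (t : L) (x : Algebra.adjoin A {t}) :
    ((@algebraMap _ _ _ _ (algebraAdjoinSimple (A := A) (K := K) t) x : K⟮t⟯) : L) = x := rfl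

theorem isScalarTower_adjoinSimple (t : L) :
    letI := algebraAdjoinSimple (A := A) (K := K) t
    IsScalarTower (Algebra.adjoin A {t}) K⟮t⟯ L :=
  letI := algebraAdjoinSimple (A := A) (K := K) t
  IsScalarTower.of_algebraMap_eq (fun _ => rfl)

theorem isScalarTower_base_adjoinSimple (t : L) :
    letI := algebraAdjoinSimple (A := A) (K := K) t
    IsScalarTower A (Algebra.adjoin A {t}) K⟮t⟯ :=
  letI := algebraAdjoinSimple (A := A) (K := K) t
  IsScalarTower.of_algebraMap_eq (fun _ => rfl)

/-- **(CB2)** `K(t)` is the fraction field of the chart ring `A[t]`, `K = Frac A`. -/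
theorem isFractionRing_adjoinSimple [IsFractionRing A K] (t : L) :
    letI := algebraAdjoinSimple (A := A) (K := K) t
    IsFractionRing (Algebra.adjoin A {t}) K⟮t⟯ := by
  letI := algebraAdjoinSimple (A := A) (K := K) t
  have hinj : Function.Injective (algebraMap (Algebra.adjoin A {t}) K⟮t⟯) := by
    intro x y hxy
    apply Subtype.ext
    exact congrArg (fun z : K⟮t⟯ => (z : L)) hxy
  haveI : FaithfulSMul (Algebra.adjoin A {t}) K⟮t⟯ :=
    (faithfulSMul_iff_algebraMap_injective _ _).mpr hinj
  have hAK : Function.Injective (algebraMap A K) := IsFractionRing.injective A K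
  haveI : IsDomain A := hAK.isDomain _
  have hAL : Function.Injective (algebraMap A L) := by
    rw [IsScalarTower.algebraMap_eq A K L]
    exact (algebraMap K L).injective.comp hAK
  -- clearing denominators of a polynomial
  have key : ∀ r : K[X], ∃ (b : A) (r' : A[X]), b ≠ 0 ∧
      algebraMap A L b * aeval t r = aeval t r' := by
    intro r
    obtain ⟨b, hb, hr⟩ := IsLocalization.integerNormalization_spec (nonZeroDivisors A) r
    refine ⟨b, IsLocalization.integerNormalization (nonZeroDivisors A) r,
      nonZeroDivisors.ne_zero hb, ?_⟩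
    have h1 := congrArg (aeval t) hr
    rw [aeval_map_algebraMap] at h1
    rw [h1, ← Algebra.smul_def]
    exact ((aeval t : K[X] →ₐ[K] L).toLinearMap.map_smul_of_tower b r).symm
  refine IsFractionRing.of_field _ _ (fun z => ?_)
  obtain ⟨r, s, hz⟩ := (IntermediateField.mem_adjoin_simple_iff K (z : L)).mp z.2
  obtain ⟨b, r', hb, hr'⟩ := key r
  obtain ⟨c, s', hc, hs'⟩ := key s
  have hbL : algebraMap A L b ≠ 0 := fun h => hb (hAL (by rw [h, map_zero]))
  have hcL : algebraMap A L c ≠ 0 := fun h => hc (hAL (by rw [h, map_zero]))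
  have hmemr : algebraMap A L c * aeval t r' ∈ Algebra.adjoin A {t} :=
    mul_mem (Subalgebra.algebraMap_mem _ c) (by
      rw [Algebra.adjoin_singleton_eq_range_aeval]; exact ⟨r', rfl⟩)
  have hmems : algebraMap A L b * aeval t s' ∈ Algebra.adjoin A {t} :=
    mul_mem (Subalgebra.algebraMap_mem _ b) (by
      rw [Algebra.adjoin_singleton_eq_range_aeval]; exact ⟨s', rfl⟩)
  refine ⟨⟨_, hmemr⟩, ⟨_, hmems⟩, ?_⟩
  apply Subtype.ext
  rw [IntermediateField.coe_div]
  show (z : L) = (algebraMap A L c * aeval t r') / (algebraMap A L b * aeval t s')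
  rw [hz, ← hr', ← hs']
  field_simp

end Frac

section Inv

variable {K L : Type*} [Field K] [Field L] [Algebra K L]

/-- **(CB2)** the two charts have the same fraction field. -/
theorem adjoinSimple_inv (t : L) : K⟮t⁻¹⟯ = K⟮t⟯ := by
  apply le_antisymm
  · rw [IntermediateField.adjoin_simple_le_iff]
    exact inv_mem (mem_adjoin_simple_self K t)
  · rw [IntermediateField.adjoin_simple_le_iff]
    have := inv_mem (mem_adjoin_simple_self K t⁻¹)
    rwa [inv_inv] at this

theorem finiteDimensional_adjoinSimple_inv (t : L) [h : FiniteDimensional K⟮t⟯ L] :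
    FiniteDimensional K⟮t⁻¹⟯ L := by
  rw [adjoinSimple_inv]
  exact h

theorem transcendental_inv {A : Type*} [CommRing A] [Algebra A L] {t : L}
    (ht : Transcendental A t) : Transcendental A t⁻¹ := by
  intro h
  apply ht
  have := h.inv
  rwa [inv_inv] at this

end Inv

section LocalizationModels

universe u v

set_option maxHeartbeats 800000 in
/-- **(CB3), packaged.** `M` the integral closure of the domain `P` in `L`, `S ≤ P` a submonoid
which does not meet any prime containing `x`.  To prove the one-component property of `M` at `x`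
it suffices to prove it for the integral closure `R` of the localisation `B = S⁻¹P`, for ALL models
`B`, `R` carrying the natural algebra structures (so that a supplier stated for an abstract base
ring `B`, e.g. "`x` in the Jacobson radical of `B`", can be applied verbatim); all instances are
constructed here for `B = Localization S`, `R = Localization (algebraMapSubmonoid M S)`. -/
theorem oneComponent_of_localization_models
    {P : Type u} {M : Type v} [CommRing P] [IsDomain P]
    (K : Type*) [Field K] [Algebra P K] [IsFractionRing P K]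
    (L : Type*) [Field L] [Algebra K L] [Algebra P L] [IsScalarTower P K L]
    [CommRing M] [Algebra P M] [Algebra M L] [IsScalarTower P M L] [IsIntegralClosure M P L]
    (S : Submonoid P) (hS : S ≤ nonZeroDivisors P) (x : P)
    (hSx : ∀ s ∈ S, ∀ n : Ideal P, n.IsPrime → x ∈ n → s ∉ n)
    (h : ∀ (B : Type u) (R : Type v) [CommRing B] [CommRing R] [Algebra P B] [IsLocalization S B]
      [Algebra B K] [IsScalarTower P B K] [IsFractionRing B K] [Algebra B L] [IsScalarTower B K L]
      [IsScalarTower P B L] [Algebra B R] [Algebra R L] [IsScalarTower B R L]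
      [IsIntegralClosure R B L] [Algebra M R] [Algebra P R] [IsScalarTower P M R]
      [IsScalarTower P B R] [IsScalarTower M R L]
      [IsLocalization (Algebra.algebraMapSubmonoid M S) R],
      OneComponent R (algebraMap B R (algebraMap P B x))) :
    OneComponent M (algebraMap P M x) := by
  have hPK : Function.Injective (algebraMap P K) := IsFractionRing.injective P K
  have hPL : Function.Injective (algebraMap P L) := by
    rw [IsScalarTower.algebraMap_eq P K L]
    exact (algebraMap K L).injective.comp hPK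
  have hS0 : ∀ s ∈ S, s ≠ 0 := fun s hs => nonZeroDivisors.ne_zero (hS hs)
  -- `B → K`
  have hunitK : ∀ y : S, IsUnit (algebraMap P K y) := fun y =>
    IsUnit.mk0 _ (by
      rw [Ne, map_eq_zero_iff _ hPK]
      exact hS0 y y.2)
  let algBK : Algebra (Localization S) K :=
    (IsLocalization.lift (M := S) (S := Localization S) hunitK).toAlgebra
  have towerPBK : IsScalarTower P (Localization S) K :=
    IsScalarTower.of_algebraMap_eq (fun x => (IsLocalization.lift_eq hunitK x).symm)
  let algBL : Algebra (Localization S) L :=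
    ((algebraMap K L).comp (algebraMap (Localization S) K)).toAlgebra
  have towerBKL : IsScalarTower (Localization S) K L :=
    IsScalarTower.of_algebraMap_eq (fun _ => rfl)
  have towerPBL : IsScalarTower P (Localization S) L :=
    IsScalarTower.of_algebraMap_eq (fun y => by
      rw [IsScalarTower.algebraMap_apply (Localization S) K L,
        ← IsScalarTower.algebraMap_apply P (Localization S) K,
        ← IsScalarTower.algebraMap_apply P K L])
  have fracBK : IsFractionRing (Localization S) K :=
    IsFractionRing.isFractionRing_of_isDomain_of_isLocalization S (Localization S) K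
  -- `R → L`
  have hunitL : ∀ y : Algebra.algebraMapSubmonoid M S, IsUnit (algebraMap M L y) := by
    rintro ⟨_, s, hs, rfl⟩
    refine IsUnit.mk0 _ ?_
    rw [← IsScalarTower.algebraMap_apply P M L, Ne, map_eq_zero_iff _ hPL]
    exact hS0 s hs
  let algRL : Algebra (Localization (Algebra.algebraMapSubmonoid M S)) L :=
    (IsLocalization.lift (M := Algebra.algebraMapSubmonoid M S)
      (S := Localization (Algebra.algebraMapSubmonoid M S)) hunitL).toAlgebra
  have towerMRL : IsScalarTower M (Localization (Algebra.algebraMapSubmonoid M S)) L :=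
    IsScalarTower.of_algebraMap_eq (fun x => (IsLocalization.lift_eq hunitL x).symm)
  have towerBRL : IsScalarTower (Localization S)
      (Localization (Algebra.algebraMapSubmonoid M S)) L := by
    refine IsScalarTower.of_algebraMap_eq' ?_
    refine IsLocalization.ringHom_ext S (RingHom.ext fun y => ?_)
    have e1 : algebraMap (Localization S) L (algebraMap P (Localization S) y) =
        algebraMap P L y := by
      rw [← IsScalarTower.algebraMap_apply P (Localization S) L]
    have e2 : algebraMap (Localization (Algebra.algebraMapSubmonoid M S)) L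
        (algebraMap (Localization S) (Localization (Algebra.algebraMapSubmonoid M S))
          (algebraMap P (Localization S) y)) = algebraMap P L y := by
      rw [← IsScalarTower.algebraMap_apply P (Localization S)
          (Localization (Algebra.algebraMapSubmonoid M S)),
        IsScalarTower.algebraMap_apply P M (Localization (Algebra.algebraMapSubmonoid M S)),
        ← IsScalarTower.algebraMap_apply M _ L, ← IsScalarTower.algebraMap_apply P M L]
    simp only [RingHom.comp_apply]
    rw [e1, e2]
  have icl : IsIntegralClosure (Localization (Algebra.algebraMapSubmonoid M S)) (Localization S) L :=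
    isIntegralClosure_localization (P := P) (M := M) S
      (fun s hs => by rw [Ne, map_eq_zero_iff _ hPL]; exact hS0 s hs)
  have hR := h (Localization S) (Localization (Algebra.algebraMapSubmonoid M S))
  rw [← IsScalarTower.algebraMap_apply P (Localization S)
      (Localization (Algebra.algebraMapSubmonoid M S)),
    IsScalarTower.algebraMap_apply P M (Localization (Algebra.algebraMapSubmonoid M S))] at hR
  refine oneComponent_of_isLocalization (Algebra.algebraMapSubmonoid M S)
    (Localization (Algebra.algebraMapSubmonoid M S)) (algebraMap P M x) ?_ hR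
  rintro _ ⟨s, hs, rfl⟩ n hn hxn hsn
  exact hSx s hs (n.comap (algebraMap P M)) (Ideal.comap_isPrime _ n) hxn hsn

end LocalizationModels

section ChartModels

universe w

/-- **(CB3) on a chart.** The chart `integralClosure A[t] L` has the one-component property at
`π ∈ A[t]` as soon as the integral closure `R` of the localisation `B` of `A[t]` at `1 + π * A[t]`
has it, for all models `B`, `R` (in such a `B` the element `π` lies in the Jacobson radical:
`algebraMap_mem_jacobson_of_oneAddMul`, and `B/(π) ≃ A[t]/(π)`: `quotientEquivOfOneAddMul`). -/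
theorem chart_oneComponent_of_jacobson_models
    {A K : Type*} {L : Type w} [CommRing A] [Field K] [Algebra A K] [IsFractionRing A K] [Field L]
    [Algebra K L] [Algebra A L] [IsScalarTower A K L]
    (t : L) (π : Algebra.adjoin A {t}) (hπ : ¬ IsUnit π)
    (h : letI := algebraAdjoinSimple (A := A) (K := K) t
      ∀ (B : Type w) (R : Type w) [CommRing B] [CommRing R] [Algebra (Algebra.adjoin A {t}) B]
      [IsLocalization (oneAddMul π) B] [Algebra B K⟮t⟯] [IsScalarTower (Algebra.adjoin A {t}) B K⟮t⟯]
      [IsFractionRing B K⟮t⟯] [Algebra B L] [IsScalarTower B K⟮t⟯ L]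
      [IsScalarTower (Algebra.adjoin A {t}) B L] [Algebra B R] [Algebra R L] [IsScalarTower B R L]
      [IsIntegralClosure R B L] [Algebra ↥(integralClosure (Algebra.adjoin A {t}) L) R]
      [Algebra (Algebra.adjoin A {t}) R]
      [IsScalarTower (Algebra.adjoin A {t}) ↥(integralClosure (Algebra.adjoin A {t}) L) R]
      [IsScalarTower (Algebra.adjoin A {t}) B R]
      [IsScalarTower ↥(integralClosure (Algebra.adjoin A {t}) L) R L]
      [IsLocalization (Algebra.algebraMapSubmonoid ↥(integralClosure (Algebra.adjoin A {t}) L)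
        (oneAddMul π)) R],
      OneComponent R (algebraMap B R (algebraMap (Algebra.adjoin A {t}) B π))) :
    OneComponent ↥(integralClosure (Algebra.adjoin A {t}) L)
      (algebraMap (Algebra.adjoin A {t}) ↥(integralClosure (Algebra.adjoin A {t}) L) π) := by
  letI := algebraAdjoinSimple (A := A) (K := K) t
  haveI := isFractionRing_adjoinSimple (A := A) (K := K) t
  haveI := isScalarTower_adjoinSimple (A := A) (K := K) t
  exact oneComponent_of_localization_models K⟮t⟯ L (oneAddMul π)
    (oneAddMul_le_nonZeroDivisors π hπ) π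
    (fun s hs n hn hx => notMem_of_mem_oneAddMul hs n hn hx) h

end ChartModels

section SpecB

/-- The one-component predicate of the track-B Spec is the one of `helper403`. -/
theorem oneComponent_spec_iff {M : Type*} [CommRing M] (p : M) :
    helper3578.OneComponent M p ↔ OneComponent M p :=
  ⟨fun h Q Q' hQ hQ' hne => h Q hQ Q' hQ' hne, fun h Q hQ Q' hQ' hne => h Q Q' hQ hQ' hne⟩

/-- The constant `a` in the chart, through the chart ring `A₀[s]`. -/
theorem chart_algebraMap (A0 : Type*) {L0 : Type*} [CommRing A0] [Field L0] [Algebra A0 L0]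
    (s : L0) (a : A0) :
    algebraMap (Algebra.adjoin A0 {s}) ↥(helper3578.Chart A0 s)
      (algebraMap A0 (Algebra.adjoin A0 {s}) a) = algebraMap A0 ↥(helper3578.Chart A0 s) a := rfl

variable (D : helper3578.KData) {m : ℕ}

theorem kdata_transcendental_tL (hg : D.Good m) : Transcendental D.K0 D.tL :=
  (transcendental_algebraMap_iff (algebraMap D.F0 D.L0).injective).mpr hg.transc

theorem kdata_transcendental_tL_inv (hg : D.Good m) : Transcendental D.K0 D.tL⁻¹ :=
  transcendental_inv (kdata_transcendental_tL D hg)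

theorem kdata_transcendental_base {s : D.L0} (hs : Transcendental D.K0 s) :
    Transcendental D.A0 s :=
  hs.restrictScalars (IsFractionRing.injective D.A0 D.K0)

theorem kdata_finite (hg : D.Good m) : FiniteDimensional D.K0⟮D.tL⟯ D.L0 := hg.finite

theorem kdata_finite_inv (hg : D.Good m) : FiniteDimensional D.K0⟮D.tL⁻¹⟯ D.L0 :=
  haveI := hg.finite
  finiteDimensional_adjoinSimple_inv D.tL

/-- **(CB4)** `OneComp` of a good model from ONE statement per chart `s ∈ {t, 1/t}`, in the form
"`C := A₀[s]`, `π := ϖ`, `R := integralClosure C L₀`" in which the one-component suppliers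
(trace-duality normality, purity) are stated; `s` is transcendental over `K₀` and `L₀` is finite
over `K₀(s)`. -/
theorem kdata_oneComp_of_charts (hg : D.Good m)
    (h : ∀ s : D.L0, (s = D.tL ∨ s = D.tL⁻¹) → Transcendental D.K0 s →
      FiniteDimensional D.K0⟮s⟯ D.L0 →
      OneComponent ↥(integralClosure (Algebra.adjoin D.A0 {s}) D.L0)
        (algebraMap (Algebra.adjoin D.A0 {s}) ↥(integralClosure (Algebra.adjoin D.A0 {s}) D.L0)
          (algebraMap D.A0 (Algebra.adjoin D.A0 {s}) D.ϖ))) :
    D.OneComp :=
  ⟨(oneComponent_spec_iff _).mpr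
      (h D.tL (Or.inl rfl) (kdata_transcendental_tL D hg) (kdata_finite D hg)),
    (oneComponent_spec_iff _).mpr
      (h D.tL⁻¹ (Or.inr rfl) (kdata_transcendental_tL_inv D hg) (kdata_finite_inv D hg))⟩

end SpecB

open scoped IntermediateField.algebraAdjoinAdjoin

section GenericFibre

variable {A K L : Type*} [CommRing A] [Field K] [Algebra A K] [Field L] [Algebra K L] [Algebra A L]
  [IsScalarTower A K L]

theorem adjoin_le_adjoin_base (t : L) {x : L} (hx : x ∈ Algebra.adjoin A {t}) :
    x ∈ Algebra.adjoin K {t} := by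
  induction hx using Algebra.adjoin_induction with
  | mem y hy => exact Algebra.subset_adjoin hy
  | algebraMap a =>
    rw [IsScalarTower.algebraMap_apply A K L]
    exact Subalgebra.algebraMap_mem _ _
  | add x y _ _ hx hy => exact add_mem hx hy
  | mul x y _ _ hx hy => exact mul_mem hx hy

/-- The inclusion `A[t] → K[t]`. -/
def adjoinToAdjoin (t : L) : Algebra.adjoin A {t} →+* Algebra.adjoin K {t} where
  toFun x := ⟨x.1, adjoin_le_adjoin_base (K := K) t x.2⟩
  map_one' := Subtype.ext (by simp)
  map_mul' _ _ := Subtype.ext (by simp)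
  map_zero' := Subtype.ext (by simp)
  map_add' _ _ := Subtype.ext (by simp)

theorem adjoinToAdjoin_apply (t : L) (x : Algebra.adjoin A {t}) :
    adjoinToAdjoin (K := K) t x = ⟨x.1, adjoin_le_adjoin_base (K := K) t x.2⟩ := rfl

theorem adjoinToAdjoin_coe (t : L) (x : Algebra.adjoin A {t}) :
    ((adjoinToAdjoin (K := K) t x : Algebra.adjoin K {t}) : L) = x :=
  (congrArg Subtype.val (adjoinToAdjoin_apply (K := K) t x)).trans (Subtype.coe_mk _ _)

/-- **(CB5)** the generic-fibre ring `K[t]` as an algebra over the chart ring `A[t]`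
(not an instance: use `letI`). -/
@[reducible] def algebraAdjoinBase (t : L) : Algebra (Algebra.adjoin A {t}) (Algebra.adjoin K {t}) :=
  (adjoinToAdjoin (A := A) (K := K) t).toAlgebra

theorem algebraAdjoinBase_coe (t : L) (x : Algebra.adjoin A {t}) :
    ((@algebraMap _ _ _ _ (algebraAdjoinBase (A := A) (K := K) t) x : Algebra.adjoin K {t}) : L)
      = x := by
  rw [RingHom.algebraMap_toAlgebra]
  exact adjoinToAdjoin_coe t x

theorem isScalarTower_adjoinBase (t : L) :
    letI := algebraAdjoinSimple (A := A) (K := K) t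
    letI := algebraAdjoinBase (A := A) (K := K) t
    IsScalarTower (Algebra.adjoin A {t}) (Algebra.adjoin K {t}) K⟮t⟯ := by
  letI := algebraAdjoinSimple (A := A) (K := K) t
  letI := algebraAdjoinBase (A := A) (K := K) t
  refine IsScalarTower.of_algebraMap_eq (fun x => ?_)
  apply Subtype.ext
  rw [algebraAdjoinSimple_coe, IntermediateField.algebraAdjoinAdjoin.coe_algebraMap,
    algebraAdjoinBase_coe]

/-- `K[t]` is a principal ideal ring (hence a Dedekind domain). -/
theorem isPrincipalIdealRing_adjoin_field (t : L) :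
    IsPrincipalIdealRing (Algebra.adjoin K {t}) := by
  have hsurj : Function.Surjective
      ((aeval t : K[X] →ₐ[K] L).codRestrict (Algebra.adjoin K {t}) (fun q => by
        rw [Algebra.adjoin_singleton_eq_range_aeval]; exact ⟨q, rfl⟩)) := by
    rintro ⟨y, hy⟩
    rw [Algebra.adjoin_singleton_eq_range_aeval] at hy
    obtain ⟨q, hq⟩ := hy
    exact ⟨q, Subtype.ext hq⟩
  exact IsPrincipalIdealRing.of_surjective
    ((aeval t : K[X] →ₐ[K] L).codRestrict (Algebra.adjoin K {t}) _).toRingHom hsurj

/-- **(CB5)** the uniformiser is a unit of the generic-fibre ring. -/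
theorem isUnit_algebraMap_adjoinBase [IsFractionRing A K] (t : L) {ϖ : A} (hϖ : ϖ ≠ 0) :
    letI := algebraAdjoinBase (A := A) (K := K) t
    IsUnit (algebraMap (Algebra.adjoin A {t}) (Algebra.adjoin K {t})
      (algebraMap A (Algebra.adjoin A {t}) ϖ)) := by
  letI := algebraAdjoinBase (A := A) (K := K) t
  have hne : algebraMap A K ϖ ≠ 0 := by
    rw [Ne, map_eq_zero_iff _ (IsFractionRing.injective A K)]
    exact hϖ
  have h1 : IsUnit (algebraMap K (Algebra.adjoin K {t}) (algebraMap A K ϖ)) :=
    (IsUnit.mk0 _ hne).map _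
  have h2 : algebraMap (Algebra.adjoin A {t}) (Algebra.adjoin K {t})
      (algebraMap A (Algebra.adjoin A {t}) ϖ) =
      algebraMap K (Algebra.adjoin K {t}) (algebraMap A K ϖ) := by
    apply Subtype.ext
    rw [algebraAdjoinBase_coe, Subalgebra.coe_algebraMap, Subalgebra.coe_algebraMap,
      ← IsScalarTower.algebraMap_apply]
  rw [h2]
  exact h1

/-- **(CB5)** `K[t] = A[t][1/ϖ]` when `K = A[1/ϖ]`: every element of `K[t]` has a `ϖ`-power
multiple in `A[t]`. -/
theorem exists_pow_mul_eq_adjoinBase (t : L) (ϖ : A)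
    (hK : ∀ x : K, ∃ (k : ℕ) (a : A), algebraMap A K (ϖ ^ k) * x = algebraMap A K a) :
    letI := algebraAdjoinBase (A := A) (K := K) t
    ∀ a : Algebra.adjoin K {t}, ∃ (k : ℕ) (p : Algebra.adjoin A {t}),
      algebraMap (Algebra.adjoin A {t}) (Algebra.adjoin K {t})
        (algebraMap A (Algebra.adjoin A {t}) ϖ ^ k) * a =
      algebraMap (Algebra.adjoin A {t}) (Algebra.adjoin K {t}) p := by
  letI := algebraAdjoinBase (A := A) (K := K) t
  have key : ∀ x : L, x ∈ Algebra.adjoin K {t} →
      ∃ k : ℕ, algebraMap A L ϖ ^ k * x ∈ Algebra.adjoin A {t} := by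
    intro x hx
    induction hx using Algebra.adjoin_induction with
    | mem y hy => exact ⟨0, by rw [pow_zero, one_mul]; exact Algebra.subset_adjoin hy⟩
    | algebraMap c =>
      obtain ⟨k, a, hka⟩ := hK c
      refine ⟨k, ?_⟩
      have : algebraMap A L ϖ ^ k * algebraMap K L c = algebraMap A L a := by
        rw [IsScalarTower.algebraMap_apply A K L a, ← hka, map_mul, map_pow, map_pow,
          ← IsScalarTower.algebraMap_apply A K L]
      rw [this]
      exact Subalgebra.algebraMap_mem _ _
    | add x y _ _ hx hy =>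
      obtain ⟨k1, h1⟩ := hx
      obtain ⟨k2, h2⟩ := hy
      refine ⟨k1 + k2, ?_⟩
      have : algebraMap A L ϖ ^ (k1 + k2) * (x + y) =
          algebraMap A L ϖ ^ k2 * (algebraMap A L ϖ ^ k1 * x) +
          algebraMap A L ϖ ^ k1 * (algebraMap A L ϖ ^ k2 * y) := by ring
      rw [this]
      exact add_mem (mul_mem (pow_mem (Subalgebra.algebraMap_mem _ _) _) h1)
        (mul_mem (pow_mem (Subalgebra.algebraMap_mem _ _) _) h2)
    | mul x y _ _ hx hy =>
      obtain ⟨k1, h1⟩ := hx
      obtain ⟨k2, h2⟩ := hy
      refine ⟨k1 + k2, ?_⟩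
      have : algebraMap A L ϖ ^ (k1 + k2) * (x * y) =
          (algebraMap A L ϖ ^ k1 * x) * (algebraMap A L ϖ ^ k2 * y) := by ring
      rw [this]
      exact mul_mem h1 h2
  intro a
  obtain ⟨k, hk⟩ := key a a.2
  refine ⟨k, ⟨_, hk⟩, ?_⟩
  apply Subtype.ext
  rw [MulMemClass.coe_mul, algebraAdjoinBase_coe, algebraAdjoinBase_coe, SubmonoidClass.coe_pow,
    Subalgebra.coe_algebraMap]

end GenericFibre

section DualBound

variable {A K L : Type*} [CommRing A] [IsDomain A] [IsIntegrallyClosed A] [Field K] [CharZero K]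
  [Algebra A K] [IsFractionRing A K] [Field L] [Algebra K L] [Algebra A L] [IsScalarTower A K L]

/-- **(CB6)** hypothesis `(a')` of the trace-duality normality lemma ON A CHART
`P = A[t]`, `K(t)`, generic fibre `A' = K[t]`, from the vertical input `(c)` and the horizontal
input `(hs)`: this is `helper1148.dualBound` with all instances supplied.  The element `G` enters
`(hs)` through ANY `GB` in the generic-fibre normalisation with the same value in `L`. -/
theorem chart_dualBound (t : L) (ht : Transcendental K t) [FiniteDimensional K⟮t⟯ L]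
    (ϖ : A) (hϖ : Prime ϖ)
    (hK : ∀ x : K, ∃ (k : ℕ) (a : A), algebraMap A K (ϖ ^ k) * x = algebraMap A K a)
    (hc : letI := algebraAdjoinSimple (A := A) (K := K) t
      ∃ (ι : Type) (_ : Fintype ι) (_ : DecidableEq ι) (c : Module.Basis ι K⟮t⟯ L)
        (d : Algebra.adjoin A {t}), (∀ i, IsIntegral (Algebra.adjoin A {t}) (c i)) ∧
        Algebra.discr K⟮t⟯ c = algebraMap (Algebra.adjoin A {t}) K⟮t⟯ d ∧
        ¬ algebraMap A (Algebra.adjoin A {t}) ϖ ∣ d)
    (G : Algebra.adjoin A {t})
    (GB : ↥(integralClosure (Algebra.adjoin K {t}) L)) (hGB : (GB : L) = (G : L))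
    (hs : ∀ Q : Ideal ↥(integralClosure (Algebra.adjoin K {t}) L), Q.IsPrime → Q ≠ ⊥ → GB ∉ Q →
      ¬ Q ^ 2 ∣ (Q.under (Algebra.adjoin K {t})).map
        (algebraMap (Algebra.adjoin K {t}) ↥(integralClosure (Algebra.adjoin K {t}) L))) :
    letI := algebraAdjoinSimple (A := A) (K := K) t
    ∀ x : L, (∀ r : L, IsIntegral (Algebra.adjoin A {t}) r →
        Algebra.trace K⟮t⟯ L (x * r) ∈ (algebraMap (Algebra.adjoin A {t}) K⟮t⟯).range) →
      IsIntegral (Algebra.adjoin A {t}) (x ^ Module.finrank K⟮t⟯ L *
        algebraMap (Algebra.adjoin A {t}) L G ^ (Module.finrank K⟮t⟯ L - 1)) := by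
  letI := algebraAdjoinSimple (A := A) (K := K) t
  haveI := isFractionRing_adjoinSimple (A := A) (K := K) t
  haveI := isScalarTower_adjoinSimple (A := A) (K := K) t
  letI := algebraAdjoinBase (A := A) (K := K) t
  haveI := isScalarTower_adjoinBase (A := A) (K := K) t
  have htA : Transcendental A t := ht.restrictScalars (IsFractionRing.injective A K)
  haveI : IsIntegrallyClosed (Algebra.adjoin A {t}) := isIntegrallyClosed_adjoin t htA
  haveI : IsPrincipalIdealRing (Algebra.adjoin K {t}) := isPrincipalIdealRing_adjoin_field t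
  letI : Algebra ℚ (Algebra.adjoin K {t}) :=
    ((algebraMap K (Algebra.adjoin K {t})).comp (algebraMap ℚ K)).toAlgebra
  haveI : CharZero K⟮t⟯ := charZero_of_injective_algebraMap (algebraMap K K⟮t⟯).injective
  have hπ : Prime (algebraMap A (Algebra.adjoin A {t}) ϖ) := prime_algebraMap_adjoin hϖ t htA
  have hunit := isUnit_algebraMap_adjoinBase (A := A) (K := K) t hϖ.ne_zero
  have hloc := exists_pow_mul_eq_adjoinBase (A := A) (K := K) t ϖ hK
  refine helper1148.dualBound (P := Algebra.adjoin A {t}) (K := K⟮t⟯) (L := L)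
    (A' := Algebra.adjoin K {t}) (algebraMap A (Algebra.adjoin A {t}) ϖ) hπ hunit hloc hc G ?_
  intro Q hQ hQ0 hGQ
  refine hs Q hQ hQ0 (fun hmem => hGQ ?_)
  have : algebraMap (Algebra.adjoin K {t}) ↥(integralClosure (Algebra.adjoin K {t}) L)
      (algebraMap (Algebra.adjoin A {t}) (Algebra.adjoin K {t}) G) = GB := by
    apply Subtype.ext
    have h1 : algebraMap (Algebra.adjoin K {t}) L
        (algebraMap (Algebra.adjoin A {t}) (Algebra.adjoin K {t}) G) =
        ((algebraMap (Algebra.adjoin A {t}) (Algebra.adjoin K {t}) G : Algebra.adjoin K {t}) : L) :=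
      rfl
    rw [hGB, ← algebraAdjoinBase_coe (K := K) t G, ← h1]
    exact Subalgebra.coe_algebraMap (integralClosure (Algebra.adjoin K {t}) L) _
  rw [this]
  exact hmem

end DualBound

section Squarefree

variable {A L : Type*} [CommRing A] [Field L] [Algebra A L]

/-- **(CB6)** `G` squarefree modulo `ϖ` in the chart ring, from the reduction of its polynomial
(the form of the hypothesis `hG` of the trace-duality normality lemma). -/
theorem squarefree_mk_polyEquivAdjoin (p : A) (t : L) (htr : Transcendental A t) (f : A[X])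
    (hf : Squarefree (f.map (Ideal.Quotient.mk (Ideal.span {p})))) :
    Squarefree (Ideal.Quotient.mk (Ideal.span {algebraMap A (Algebra.adjoin A {t}) p})
      (polyEquivAdjoin t htr f)) := by
  rw [← adjoinQuotientEquiv_mk]
  intro y hy
  have h1 : (adjoinQuotientEquiv p t htr).symm y * (adjoinQuotientEquiv p t htr).symm y ∣
      f.map (Ideal.Quotient.mk (Ideal.span {p})) := by
    have := map_dvd (adjoinQuotientEquiv p t htr).symm.toRingHom hy
    simpa using this
  have h2 := hf _ h1
  have h3 := h2.map (adjoinQuotientEquiv p t htr).toRingHom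
  simpa using h3

/-- `X * (X - c)` is squarefree over a field when `c ≠ 0`. -/
theorem squarefree_X_mul_X_sub_C {k : Type*} [Field k] {c : k} (hc : c ≠ 0) :
    Squarefree ((X : k[X]) * (X - C c)) := by
  apply Polynomial.Separable.squarefree
  refine (Polynomial.separable_X).mul (Polynomial.separable_X_sub_C) ?_
  refine ⟨C c⁻¹, -C c⁻¹, ?_⟩
  have : C c⁻¹ * X + -C c⁻¹ * (X - C c) = C (c⁻¹ * c) := by
    rw [C_mul]; ring
  rw [this, inv_mul_cancel₀ hc, C_1]

/-- `X * (c * X - 1)` is squarefree over a field. -/
theorem squarefree_X_mul_C_mul_X_sub_one {k : Type*} [Field k] (c : k) :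
    Squarefree ((X : k[X]) * (C c * X - 1)) := by
  apply Polynomial.Separable.squarefree
  have hcop : IsCoprime (X : k[X]) (C c * X - 1) := ⟨C c, -1, by ring⟩
  refine (Polynomial.separable_X).mul ?_ hcop
  by_cases hc : c = 0
  · rw [hc, C_0, zero_mul, zero_sub, show (-1 : k[X]) = C (-1) by simp]
    exact (Polynomial.separable_C (-1 : k)).mpr (by simp)
  · have : (C c * X - 1 : k[X]) = C c * (X - C c⁻¹) := by
      rw [mul_sub, ← C_mul, mul_inv_cancel₀ hc, C_1]
    rw [this]
    exact Polynomial.Separable.mul ((Polynomial.separable_C c).mpr (IsUnit.mk0 c hc))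
      Polynomial.separable_X_sub_C
      ⟨C c⁻¹, 0, by rw [zero_mul, add_zero, ← C_mul, inv_mul_cancel₀ hc, C_1]⟩

end Squarefree

section SpecBDN

variable (D : helper3578.KData) {m : ℕ}

theorem kdata_prime (hg : D.Good m) : Prime D.ϖ := hg.irr.prime

theorem kdata_isMaximal (hg : D.Good m) : (Ideal.span {D.ϖ}).IsMaximal := by
  rw [← (IsDiscreteValuationRing.irreducible_iff_uniformizer D.ϖ).mp hg.irr]
  infer_instance

/-- `K₀ = A₀[1/ϖ]`. -/
theorem kdata_exists_pow_mul (hg : D.Good m) (x : D.K0) :
    ∃ (k : ℕ) (a : D.A0), algebraMap D.A0 D.K0 (D.ϖ ^ k) * x = algebraMap D.A0 D.K0 a := by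
  obtain ⟨a, b, hb, rfl⟩ := IsFractionRing.div_surjective (A := D.A0) x
  have hb0 : b ≠ 0 := nonZeroDivisors.ne_zero hb
  obtain ⟨n, u, rfl⟩ := IsDiscreteValuationRing.eq_unit_mul_pow_irreducible hb0 hg.irr
  refine ⟨n, a * ((u⁻¹ : D.A0ˣ) : D.A0), ?_⟩
  have hinj := IsFractionRing.injective D.A0 D.K0
  have hϖK : algebraMap D.A0 D.K0 (D.ϖ ^ n) ≠ 0 := by
    rw [Ne, map_eq_zero_iff _ hinj]
    exact pow_ne_zero n hg.irr.ne_zero
  have huK : algebraMap D.A0 D.K0 (u : D.A0) ≠ 0 := by
    rw [Ne, map_eq_zero_iff _ hinj]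
    exact u.ne_zero
  have hu' : algebraMap D.A0 D.K0 ((u⁻¹ : D.A0ˣ) : D.A0) * algebraMap D.A0 D.K0 (u : D.A0) = 1 := by
    rw [← map_mul, Units.inv_mul, map_one]
  rw [map_mul (algebraMap D.A0 D.K0) (u : D.A0), map_mul (algebraMap D.A0 D.K0) a]
  field_simp
  linear_combination (-(algebraMap D.A0 D.K0) a) * hu'

/-- **(CB6) `Stmt_DNChart` of the track-B Spec**: on a chart `s ∈ {tL, tL⁻¹}` of a good model,
the vertical unit discriminant `(c)` and the horizontal tameness away from a polynomial `G` which
is squarefree modulo `ϖ` give one component through every closed point of the special fibre.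
Composition `helper98.oneComponent_of_dualNormal ∘ helper1148.dualBound` with the chart base
package (`P = A₀[s]`, `K = K₀(s)`, `A' = K₀[s]`). -/
theorem stmt_DNChart : helper3578.Stmt_DNChart := by
  intro D m hg s hs_or G hGsq hV hH
  -- the coordinate
  have hsK : Transcendental D.K0 s := by
    rcases hs_or with rfl | rfl
    · exact kdata_transcendental_tL D hg
    · exact kdata_transcendental_tL_inv D hg
  haveI hfin : FiniteDimensional D.K0⟮s⟯ D.L0 := by
    rcases hs_or with rfl | rfl
    · exact kdata_finite D hg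
    · exact kdata_finite_inv D hg
  have htA : Transcendental D.A0 s := kdata_transcendental_base D hsK
  -- the chart base package
  letI := algebraAdjoinSimple (A := D.A0) (K := D.K0) s
  haveI := isFractionRing_adjoinSimple (A := D.A0) (K := D.K0) s
  haveI := isScalarTower_adjoinSimple (A := D.A0) (K := D.K0) s
  haveI : IsIntegrallyClosed (Algebra.adjoin D.A0 {s}) := isIntegrallyClosed_adjoin s htA
  haveI : IsNoetherianRing (Algebra.adjoin D.A0 {s}) := isNoetherianRing_adjoin s htA
  haveI : CharZero D.K0⟮s⟯ := charZero_of_injective_algebraMap (algebraMap D.K0 D.K0⟮s⟯).injective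
  have hϖ : Prime D.ϖ := kdata_prime D hg
  have hπ : Prime (algebraMap D.A0 (Algebra.adjoin D.A0 {s}) D.ϖ) :=
    prime_algebraMap_adjoin hϖ s htA
  haveI : IsPrincipalIdealRing (Algebra.adjoin D.A0 {s} ⧸
      Ideal.span {algebraMap D.A0 (Algebra.adjoin D.A0 {s}) D.ϖ}) :=
    isPrincipalIdealRing_adjoin_quotient D.ϖ (kdata_isMaximal D hg) s htA
  -- (c)
  obtain ⟨ι, hFin, hDec, c, dp, hint, hd, hprim⟩ := hV
  have hcd : Algebra.discr D.K0⟮s⟯ c =
      algebraMap (Algebra.adjoin D.A0 {s}) D.K0⟮s⟯ (polyEquivAdjoin s htA dp) := by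
    apply Subtype.ext
    rw [algebraAdjoinSimple_coe, polyEquivAdjoin_coe]
    exact hd
  have hnd : ¬ algebraMap D.A0 (Algebra.adjoin D.A0 {s}) D.ϖ ∣ polyEquivAdjoin s htA dp := by
    rw [algebraMap_dvd_polyEquivAdjoin_iff]
    intro hall
    obtain ⟨i, hi⟩ := hprim
    exact hi (hall i)
  -- the branch polynomial
  have hG' : Squarefree (Ideal.Quotient.mk
      (Ideal.span {algebraMap D.A0 (Algebra.adjoin D.A0 {s}) D.ϖ}) (polyEquivAdjoin s htA G)) :=
    squarefree_mk_polyEquivAdjoin D.ϖ s htA G hGsq
  have hGmem : aeval s G ∈ Algebra.adjoin D.K0 {s} :=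
    adjoin_le_adjoin_base (K := D.K0) s (polyEquivAdjoin s htA G).2
  let GB : ↥(integralClosure (Algebra.adjoin D.K0 {s}) D.L0) :=
    ⟨aeval s G, (isIntegral_algebraMap (R := Algebra.adjoin D.K0 {s}) (x := ⟨aeval s G, hGmem⟩) :
      IsIntegral (Algebra.adjoin D.K0 {s}) (algebraMap (Algebra.adjoin D.K0 {s}) D.L0 ⟨aeval s G, hGmem⟩))⟩
  have hGB : (GB : D.L0) = ((polyEquivAdjoin s htA G : Algebra.adjoin D.A0 {s}) : D.L0) := rfl
  -- (a')
  have ha := chart_dualBound (A := D.A0) (K := D.K0) (L := D.L0) s hsK D.ϖ hϖ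
    (kdata_exists_pow_mul D hg) ⟨ι, hFin, hDec, c, polyEquivAdjoin s htA dp, hint, hcd, hnd⟩
    (polyEquivAdjoin s htA G) GB hGB (fun Q hQ hQ0 hGQ => hH Q hQ hQ0 (fun x hx hxe => hGQ (by
      have : x = GB := Subtype.ext hxe
      rw [← this]
      exact hx)))
  -- DN
  have key := helper98.oneComponent_of_dualNormal (P := Algebra.adjoin D.A0 {s}) (K := D.K0⟮s⟯)
    (L := D.L0) _ hπ c (polyEquivAdjoin s htA dp) hint hcd hnd (polyEquivAdjoin s htA G) hG'
    (Module.finrank D.K0⟮s⟯ D.L0) Module.finrank_pos ha
  unfold helper3578.KData.OneCompAt helper3578.OneComponent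
  rw [← chart_algebraMap D.A0 s D.ϖ]
  exact key

/-- The branch polynomial `X (X + c₀)` of the chart `t` is squarefree modulo `ϖ` when
`ϖ ∤ c₀` (the field `sq₀` of `helper3578.KData.Supply`). -/
theorem kdata_squarefree_G0 (hg : D.Good m) (c0 : D.A0) (hc0 : ¬ D.ϖ ∣ c0) :
    Squarefree ((X * (X + C c0) : D.A0[X]).map (Ideal.Quotient.mk (Ideal.span {D.ϖ}))) := by
  haveI := kdata_isMaximal D hg
  letI : Field (D.A0 ⧸ Ideal.span {D.ϖ}) := Ideal.Quotient.field _
  have hne : -(Ideal.Quotient.mk (Ideal.span {D.ϖ}) c0) ≠ 0 := by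
    rw [neg_ne_zero, Ne, Ideal.Quotient.eq_zero_iff_mem, Ideal.mem_span_singleton]
    exact hc0
  have h := squarefree_X_mul_X_sub_C hne
  have e : (X * (X + C c0) : D.A0[X]).map (Ideal.Quotient.mk (Ideal.span {D.ϖ})) =
      X * (X - C (-(Ideal.Quotient.mk (Ideal.span {D.ϖ}) c0))) := by
    rw [Polynomial.map_mul, Polynomial.map_add, Polynomial.map_X, Polynomial.map_C, C_neg,
      sub_neg_eq_add]
  rw [e]
  exact h

/-- The branch polynomial `X (c₀ X + 1)` of the chart `1/t` is squarefree modulo `ϖ`
(the field `sq₁` of `helper3578.KData.Supply`). -/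
theorem kdata_squarefree_G1 (hg : D.Good m) (c0 : D.A0) :
    Squarefree ((X * (C c0 * X + 1) : D.A0[X]).map (Ideal.Quotient.mk (Ideal.span {D.ϖ}))) := by
  haveI := kdata_isMaximal D hg
  letI : Field (D.A0 ⧸ Ideal.span {D.ϖ}) := Ideal.Quotient.field _
  have h := squarefree_X_mul_C_mul_X_sub_one (-(Ideal.Quotient.mk (Ideal.span {D.ϖ}) c0))
  have e : (X * (C c0 * X + 1) : D.A0[X]).map (Ideal.Quotient.mk (Ideal.span {D.ϖ})) =
      -(X * (C (-(Ideal.Quotient.mk (Ideal.span {D.ϖ}) c0)) * X - 1)) := by
    rw [Polynomial.map_mul, Polynomial.map_add, Polynomial.map_mul, Polynomial.map_X,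
      Polynomial.map_C, Polynomial.map_one, C_neg]
    ring
  rw [e]
  exact Squarefree.squarefree_of_dvd (neg_dvd.mpr dvd_rfl) h

end SpecBDN

end Fermat.Agent.S18.helper403
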