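import Mathlib
import Fermat.Agent.S18.helper1148_DualBound
import Fermat.Agent.S18.helper403_ChartBase

/-!
# S18, track B-DN: DN-A on a chart `A₀[s]`

The instance of `helper1148.dualBound` for the chart ring `P = Algebra.adjoin A₀ {s}` of the
track-B Spec (`A₀` a discrete valuation ring with uniformiser `ϖ`, `K₀ = Frac A₀` of
characteristic zero, `s ∈ L₀` transcendental over `K₀`, `L₀` finite over `K₀(s)`), with the
`helper403` algebra structure `Algebra (Algebra.adjoin A₀ {s}) K₀⟮s⟯`: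

* generic fibre `A' = Algebra.adjoin K₀ {s}` (a principal ideal domain, `= P[1/ϖ]`);
* `dualBound_chart`: hypothesis `(a')` of the trace-duality normality lemma on the chart, from
  the vertical input `(c)` and the branch hypothesis on the generic fibre.
-/

set_option autoImplicit false
set_option linter.style.haveILetI false

noncomputable section

namespace Fermat.Agent.S18.helper1148

open Polynomial IntermediateField

section Chart

variable {A0 K0 L0 : Type*} [CommRing A0] [Field K0] [Algebra A0 K0] [Field L0] [Algebra K0 L0]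
  [Algebra A0 L0] [IsScalarTower A0 K0 L0]

theorem adjoin_le_adjoin_field (s : L0) {x : L0} (hx : x ∈ Algebra.adjoin A0 {s}) :
    x ∈ Algebra.adjoin K0 {s} := by
  induction hx using Algebra.adjoin_induction with
  | mem y hy => exact Algebra.subset_adjoin hy
  | algebraMap a =>
    rw [IsScalarTower.algebraMap_apply A0 K0 L0]
    exact Subalgebra.algebraMap_mem _ _
  | add x y _ _ hx hy => exact add_mem hx hy
  | mul x y _ _ hx hy => exact mul_mem hx hy

/-- The inclusion `A₀[s] → K₀[s]`. -/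
def adjoinToAdjoin (s : L0) : Algebra.adjoin A0 {s} →+* Algebra.adjoin K0 {s} where
  toFun x := ⟨x.1, adjoin_le_adjoin_field (K0 := K0) s x.2⟩
  map_one' := Subtype.ext (by simp)
  map_mul' _ _ := Subtype.ext (by simp)
  map_zero' := Subtype.ext (by simp)
  map_add' _ _ := Subtype.ext (by simp)

theorem adjoinToAdjoin_apply (s : L0) (x : Algebra.adjoin A0 {s}) :
    adjoinToAdjoin (K0 := K0) s x = ⟨x.1, adjoin_le_adjoin_field (K0 := K0) s x.2⟩ := rfl

theorem adjoinToAdjoin_coe (s : L0) (x : Algebra.adjoin A0 {s}) :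
    ((adjoinToAdjoin (K0 := K0) s x : Algebra.adjoin K0 {s}) : L0) = x := by
  rw [adjoinToAdjoin_apply]

/-- `K₀[s]` as an algebra over the chart ring `A₀[s]` (not an instance: use `letI`). -/
@[reducible] def algebraAdjoinAdjoin (s : L0) :
    Algebra (Algebra.adjoin A0 {s}) (Algebra.adjoin K0 {s}) :=
  (adjoinToAdjoin (A0 := A0) (K0 := K0) s).toAlgebra

theorem algebraAdjoinAdjoin_apply (s : L0) (x : Algebra.adjoin A0 {s}) :
    @algebraMap _ _ _ _ (algebraAdjoinAdjoin (A0 := A0) (K0 := K0) s) x =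
      adjoinToAdjoin (K0 := K0) s x := rfl

theorem algebraAdjoinAdjoin_coe (s : L0) (x : Algebra.adjoin A0 {s}) :
    ((@algebraMap _ _ _ _ (algebraAdjoinAdjoin (A0 := A0) (K0 := K0) s) x :
      Algebra.adjoin K0 {s}) : L0) = x := by
  rw [algebraAdjoinAdjoin_apply, adjoinToAdjoin_coe]

/-- Clearing the denominator of a constant by a power of the uniformiser. -/
theorem exists_pow_mul_mem_range [IsDomain A0] [IsDiscreteValuationRing A0] [IsFractionRing A0 K0]
    {ϖ : A0} (hϖ : Irreducible ϖ) (c : K0) :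
    ∃ (k : ℕ) (a : A0), algebraMap A0 K0 (ϖ ^ k) * c = algebraMap A0 K0 a := by
  obtain ⟨⟨a, b, hb⟩, hab⟩ := IsLocalization.surj (nonZeroDivisors A0) c
  have hb0 : b ≠ 0 := nonZeroDivisors.ne_zero hb
  obtain ⟨n, u, hu⟩ := IsDiscreteValuationRing.eq_unit_mul_pow_irreducible hb0 hϖ
  refine ⟨n, ↑u⁻¹ * a, ?_⟩
  simp only at hab
  have h1 : algebraMap A0 K0 b = algebraMap A0 K0 ↑u * algebraMap A0 K0 (ϖ ^ n) := by
    rw [← map_mul, ← hu]
  have h2 : algebraMap A0 K0 (↑u⁻¹ : A0) * algebraMap A0 K0 (↑u : A0) = 1 := by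
    rw [← map_mul, Units.inv_mul, map_one]
  rw [map_mul, ← hab, h1]
  calc algebraMap A0 K0 (ϖ ^ n) * c
      = (algebraMap A0 K0 (↑u⁻¹ : A0) * algebraMap A0 K0 (↑u : A0)) *
          (algebraMap A0 K0 (ϖ ^ n) * c) := by rw [h2, one_mul]
    _ = algebraMap A0 K0 (↑u⁻¹ : A0) *
          (c * (algebraMap A0 K0 (↑u : A0) * algebraMap A0 K0 (ϖ ^ n))) := by ring

/-- Every element of `K₀[s]` has a `ϖ`-power multiple in `A₀[s]`. -/
theorem exists_pow_mul_mem_adjoin [IsDomain A0] [IsDiscreteValuationRing A0] [IsFractionRing A0 K0]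
    {ϖ : A0} (hϖ : Irreducible ϖ) (s : L0) {x : L0} (hx : x ∈ Algebra.adjoin K0 {s}) :
    ∃ k : ℕ, algebraMap A0 L0 (ϖ ^ k) * x ∈ Algebra.adjoin A0 {s} := by
  induction hx using Algebra.adjoin_induction with
  | mem y hy =>
    refine ⟨0, ?_⟩
    rw [pow_zero, map_one, one_mul]
    exact Algebra.subset_adjoin hy
  | algebraMap c =>
    obtain ⟨k, a, hka⟩ := exists_pow_mul_mem_range hϖ c
    refine ⟨k, ?_⟩
    have : algebraMap A0 L0 (ϖ ^ k) * algebraMap K0 L0 c = algebraMap A0 L0 a := by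
      rw [IsScalarTower.algebraMap_apply A0 K0 L0, ← map_mul, hka,
        ← IsScalarTower.algebraMap_apply A0 K0 L0]
    rw [this]
    exact Subalgebra.algebraMap_mem _ _
  | add x y _ _ hx hy =>
    obtain ⟨k1, h1⟩ := hx
    obtain ⟨k2, h2⟩ := hy
    refine ⟨k1 + k2, ?_⟩
    have : algebraMap A0 L0 (ϖ ^ (k1 + k2)) * (x + y) =
        algebraMap A0 L0 (ϖ ^ k2) * (algebraMap A0 L0 (ϖ ^ k1) * x) +
          algebraMap A0 L0 (ϖ ^ k1) * (algebraMap A0 L0 (ϖ ^ k2) * y) := by
      rw [pow_add, map_mul]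
      ring
    rw [this]
    exact add_mem (mul_mem (Subalgebra.algebraMap_mem _ _) h1)
      (mul_mem (Subalgebra.algebraMap_mem _ _) h2)
  | mul x y _ _ hx hy =>
    obtain ⟨k1, h1⟩ := hx
    obtain ⟨k2, h2⟩ := hy
    refine ⟨k1 + k2, ?_⟩
    have : algebraMap A0 L0 (ϖ ^ (k1 + k2)) * (x * y) =
        (algebraMap A0 L0 (ϖ ^ k1) * x) * (algebraMap A0 L0 (ϖ ^ k2) * y) := by
      rw [pow_add, map_mul]
      ring
    rw [this]
    exact mul_mem h1 h2

/-- **DN-A on a chart.** `A₀` a discrete valuation ring with uniformiser `ϖ`, `K₀ = Frac A₀` of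
characteristic zero, `s ∈ L₀` transcendental over `K₀`, `L₀` finite over `K₀(s)`; chart ring
`P = A₀[s]` with the `helper403` algebra structure on `K₀(s)`.  From the vertical input `(c)` on
the chart and the branch hypothesis on the generic fibre `K₀[s]` (every nonzero prime of the
integral closure of `K₀[s]` in `L₀` not containing `g = G` is unramified), every `x` in the trace
dual of the chart satisfies `x ^ M * G ^ (M - 1) ∈` chart, `M = [L₀ : K₀(s)]`.
The conclusion is hypothesis `(a')` of the trace-duality normality lemma for `P = A₀[s]`,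
`K = K₀(s)`, `lam = ϖ`. -/
theorem dualBound_chart [IsDomain A0] [IsDiscreteValuationRing A0] [IsFractionRing A0 K0]
    [CharZero K0] {ϖ : A0} (hϖ : Irreducible ϖ) (s : L0) (hs : Transcendental K0 s)
    [FiniteDimensional K0⟮s⟯ L0]
    (hc : letI := helper403.algebraAdjoinSimple (A := A0) (K := K0) s
      ∃ (ι : Type) (_ : Fintype ι) (_ : DecidableEq ι) (c : Module.Basis ι K0⟮s⟯ L0)
        (d : Algebra.adjoin A0 {s}),
        (∀ i, IsIntegral (Algebra.adjoin A0 {s}) (c i)) ∧
        Algebra.discr K0⟮s⟯ c = algebraMap (Algebra.adjoin A0 {s}) K0⟮s⟯ d ∧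
        ¬ algebraMap A0 (Algebra.adjoin A0 {s}) ϖ ∣ d)
    (G : Algebra.adjoin A0 {s}) (g : ↥(integralClosure (Algebra.adjoin K0 {s}) L0))
    (hg : (g : L0) = (G : L0))
    (hram : ∀ Q : Ideal ↥(integralClosure (Algebra.adjoin K0 {s}) L0), Q.IsPrime → Q ≠ ⊥ →
      g ∉ Q → ¬ Q ^ 2 ∣ (Q.under (Algebra.adjoin K0 {s})).map
        (algebraMap (Algebra.adjoin K0 {s}) ↥(integralClosure (Algebra.adjoin K0 {s}) L0))) :
    letI := helper403.algebraAdjoinSimple (A := A0) (K := K0) s
    ∀ x : L0, (∀ r : L0, IsIntegral (Algebra.adjoin A0 {s}) r →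
        Algebra.trace K0⟮s⟯ L0 (x * r) ∈ (algebraMap (Algebra.adjoin A0 {s}) K0⟮s⟯).range) →
      IsIntegral (Algebra.adjoin A0 {s})
        (x ^ Module.finrank K0⟮s⟯ L0 *
          algebraMap (Algebra.adjoin A0 {s}) L0 G ^ (Module.finrank K0⟮s⟯ L0 - 1)) := by
  letI algPK := helper403.algebraAdjoinSimple (A := A0) (K := K0) s
  haveI := helper403.isFractionRing_adjoinSimple (A := A0) (K := K0) s
  haveI := helper403.isScalarTower_adjoinSimple (A := A0) (K := K0) s
  have htrA : Transcendental A0 s := hs.restrictScalars (IsFractionRing.injective A0 K0)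
  haveI : IsIntegrallyClosed (Algebra.adjoin A0 {s}) := helper403.isIntegrallyClosed_adjoin s htrA
  -- the generic fibre `K₀[s]`
  letI algPA := algebraAdjoinAdjoin (A0 := A0) (K0 := K0) s
  haveI : IsFractionRing K0 K0 :=
    IsFractionRing.of_field K0 K0 (fun z => ⟨z, 1, by simp⟩)
  letI algAK := helper403.algebraAdjoinSimple (A := K0) (K := K0) s
  haveI := helper403.isFractionRing_adjoinSimple (A := K0) (K := K0) s
  haveI := helper403.isScalarTower_adjoinSimple (A := K0) (K := K0) s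
  haveI : IsScalarTower (Algebra.adjoin A0 {s}) (Algebra.adjoin K0 {s}) K0⟮s⟯ :=
    IsScalarTower.of_algebraMap_eq (fun x => Subtype.ext (by
      rw [helper403.algebraAdjoinSimple_coe, helper403.algebraAdjoinSimple_coe,
        algebraAdjoinAdjoin_coe]))
  haveI : IsPrincipalIdealRing (Algebra.adjoin K0 {s}) :=
    IsPrincipalIdealRing.of_surjective (helper403.polyEquivAdjoin s hs).toRingEquiv.toRingHom
      (helper403.polyEquivAdjoin s hs).toRingEquiv.surjective
  letI : Algebra ℚ (Algebra.adjoin K0 {s}) :=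
    ((algebraMap K0 (Algebra.adjoin K0 {s})).comp (algebraMap ℚ K0)).toAlgebra
  haveI : CharZero L0 := charZero_of_injective_algebraMap (algebraMap K0 L0).injective
  -- the uniformiser
  have hlam : Prime (algebraMap A0 (Algebra.adjoin A0 {s}) ϖ) :=
    helper403.prime_algebraMap_adjoin hϖ.prime s htrA
  have hϖK : algebraMap A0 K0 ϖ ≠ 0 := fun h =>
    hϖ.ne_zero (IsFractionRing.injective A0 K0 (by rw [h, map_zero]))
  have hunit : IsUnit (algebraMap (Algebra.adjoin A0 {s}) (Algebra.adjoin K0 {s})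
      (algebraMap A0 (Algebra.adjoin A0 {s}) ϖ)) := by
    have h : algebraMap (Algebra.adjoin A0 {s}) (Algebra.adjoin K0 {s})
        (algebraMap A0 (Algebra.adjoin A0 {s}) ϖ) =
          algebraMap K0 (Algebra.adjoin K0 {s}) (algebraMap A0 K0 ϖ) := by
      apply Subtype.ext
      rw [algebraAdjoinAdjoin_coe, Subalgebra.coe_algebraMap, Subalgebra.coe_algebraMap,
        ← IsScalarTower.algebraMap_apply A0 K0 L0]
    rw [h]
    exact (IsUnit.mk0 _ hϖK).map (algebraMap K0 (Algebra.adjoin K0 {s}))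
  have hloc : ∀ a : Algebra.adjoin K0 {s}, ∃ (k : ℕ) (p : Algebra.adjoin A0 {s}),
      algebraMap (Algebra.adjoin A0 {s}) (Algebra.adjoin K0 {s})
        (algebraMap A0 (Algebra.adjoin A0 {s}) ϖ ^ k) * a =
          algebraMap (Algebra.adjoin A0 {s}) (Algebra.adjoin K0 {s}) p := by
    intro a
    obtain ⟨k, hk⟩ := exists_pow_mul_mem_adjoin (K0 := K0) hϖ s a.2
    refine ⟨k, ⟨_, hk⟩, ?_⟩
    apply Subtype.ext
    rw [Subalgebra.coe_mul, algebraAdjoinAdjoin_coe, algebraAdjoinAdjoin_coe, ← map_pow,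
      Subalgebra.coe_algebraMap]
  -- the branch hypothesis in the shape of `dualBound`
  have hgG : algebraMap (Algebra.adjoin K0 {s}) ↥(integralClosure (Algebra.adjoin K0 {s}) L0)
      (algebraMap (Algebra.adjoin A0 {s}) (Algebra.adjoin K0 {s}) G) = g := by
    apply Subtype.ext
    rw [Subalgebra.coe_algebraMap, hg]
    exact algebraAdjoinAdjoin_coe (K0 := K0) s G
  have hs' : ∀ Q : Ideal ↥(integralClosure (Algebra.adjoin K0 {s}) L0), Q.IsPrime → Q ≠ ⊥ →
      algebraMap (Algebra.adjoin K0 {s}) ↥(integralClosure (Algebra.adjoin K0 {s}) L0)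
        (algebraMap (Algebra.adjoin A0 {s}) (Algebra.adjoin K0 {s}) G) ∉ Q →
      ¬ Q ^ 2 ∣ (Q.under (Algebra.adjoin K0 {s})).map
        (algebraMap (Algebra.adjoin K0 {s}) ↥(integralClosure (Algebra.adjoin K0 {s}) L0)) := by
    intro Q hQ hQ0 hGQ
    rw [hgG] at hGQ
    exact hram Q hQ hQ0 hGQ
  exact dualBound (A' := Algebra.adjoin K0 {s}) (algebraMap A0 (Algebra.adjoin A0 {s}) ϖ) hlam
    hunit hloc hc G hs'

end Chart

end Fermat.Agent.S18.helper1148
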