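import Mathlib
import Fermat.Agent.S28.helper4768_DegSpec
import Fermat.Agent.S28.helper1457_TowerNoPhi
import Fermat.Agent.S28.helper559_TowerFromPrime
import Fermat.Agent.S28.helper508_FormalPrime
import Fermat.Agent.S28.helper3292_JqFacts
import Fermat.Agent.Lib.helper1356_Gamma0Index

/-!
# S18-RATIO: the field of ratios of modular forms is the frozen function field

`Fermat.Agent.S28.helper4768.ratioField N ⊆ ℚ((q))` is the field of all `x` with
`x * Q = P`, where `P`, `Q ≠ 0` are rational `q`-expansions of modular forms of the same weight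
on `Γ₀(N)`.  On main there are `full_le_ratioField` and the degree bound `degLE_ratioField`.
Here we prove the converse inclusion

  `ratioField_le_full : ratioField N ≤ modularFunctionFieldFull N`,

so that every weight-balanced ratio of modular forms with rational `q`-expansion lies in the
frozen function field `ℚ(j(q^d) : d ∣ N)` (and, after base change, in `modularFunctionFieldBar N`).

Proof: `[full N : ℚ(j)] = ψ(N)` (S28 tower theorem at `k = ℚ`), any `index + 1 = ψ(N) + 1`
elements of `ratioField N` are `ℤ[j]`-dependent (S28 Sturm counting), so a `ℚ(j)`-basis of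
`full N` together with any `x ∈ ratioField N` satisfies a relation with nonzero `x`-coefficient.
-/

set_option autoImplicit false

open ModularCurve IntermediateField Polynomial

namespace Fermat.Agent.S18.helper4053

open Fermat.Agent.S28.helper4768 (ratioField IsQExp ofPS DeltaQ DeltaL)

theorem aeval_int_eq_aeval_rat (r : Polynomial ℤ) :
    Polynomial.aeval (R := ℤ) jq r
      = Polynomial.aeval (R := ℚ) jq (r.map (Int.castRingHom ℚ)) := by
  rw [Polynomial.aeval_def, Polynomial.aeval_def, Polynomial.eval₂_map]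
  congr 1
  exact RingHom.ext_int _ _

/-- `p ↦ p(j)` is injective on `ℤ[X]`. -/
theorem aeval_jq_int_injective :
    Function.Injective (Polynomial.aeval (R := ℤ) jq) := by
  intro p q hpq
  rw [aeval_int_eq_aeval_rat p, aeval_int_eq_aeval_rat q] at hpq
  have h2 := Fermat.Agent.S28.helper3292.aeval_jqModC_injective ℚ hpq
  exact Polynomial.map_injective _ Int.cast_injective h2

theorem aeval_jq_int_mem_adjoin (p : Polynomial ℤ) :
    Polynomial.aeval (R := ℤ) jq p ∈ ℚ⟮jq⟯ := by
  rw [aeval_int_eq_aeval_rat]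
  exact (IntermediateField.algebra_adjoin_le_adjoin ℚ _)
    (Algebra.adjoin_singleton_eq_range_aeval ℚ jq ▸ ⟨_, rfl⟩)

/-- The degree of the frozen function field over `ℚ(j)`, as a relative rank. -/
theorem relrank_full_rat (N : ℕ) [NeZero N] :
    (ℚ⟮jq⟯).relrank (modularFunctionFieldFull N) = (dedekindPsi N : Cardinal) := by
  have h := Fermat.Agent.S28.helper1457.relrank_full_eq_dedekindPsi_of_hub ℚ N (NeZero.pos N)
    (Fermat.Agent.S28.helper559.hub_of_formalPrime ℚ N (NeZero.pos N)
      (fun p _ _ => Fermat.Agent.S28.helper508.stmt_FormalPrime p))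
    (fun p hp _ => by exact_mod_cast hp.ne_zero)
  rw [modularFunctionFieldFullC_rat] at h
  exact h

theorem adjoin_jq_le_full (N : ℕ) [NeZero N] : ℚ⟮jq⟯ ≤ modularFunctionFieldFull N := by
  rw [IntermediateField.adjoin_le_iff]
  rintro x (rfl : x = jq)
  have h := jqd_mem_full N (one_dvd N)
  rwa [qExpand_one_apply] at h

/-- **Pure field theory.** `K ≤ F` intermediate fields of `E/k` with `[F : K] = n` finite; if
`x : E` together with any `n` elements of `F` satisfies a nontrivial `K`-linear relation, then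
`x ∈ F`. -/
theorem mem_of_relrank_of_dependent {k E : Type*} [Field k] [Field E] [Algebra k E]
    (K F : IntermediateField k E) (hKF : K ≤ F) (n : ℕ) (hn : K.relrank F = (n : Cardinal))
    (x : E)
    (hdep : ∀ b : Fin n → E, (∀ i, b i ∈ F) →
      ∃ (c : Fin n → E) (c₀ : E), (∀ i, c i ∈ K) ∧ c₀ ∈ K ∧ (c ≠ 0 ∨ c₀ ≠ 0) ∧
        ∑ i, c i * b i + c₀ * x = 0) :
    x ∈ F := by
  classical
  rw [IntermediateField.relrank_eq_rank_of_le hKF] at hn
  set Fs : IntermediateField K E := IntermediateField.extendScalars hKF with hFs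
  have : Module.Finite K Fs := Module.finite_of_rank_eq_nat hn
  have hfr : Module.finrank K Fs = n := Module.finrank_eq_of_rank_eq hn
  let B : Module.Basis (Fin n) K Fs := Module.finBasisOfFinrankEq K Fs hfr
  have hmemF : ∀ y : Fs, (y : E) ∈ F := fun y =>
    (IntermediateField.mem_extendScalars hKF).mp y.2
  obtain ⟨c, c₀, hc, hc₀, hne, hrel⟩ := hdep (fun i => ((B i : Fs) : E)) (fun i => hmemF (B i))
  by_cases h0 : c₀ = 0
  · exfalso
    rw [h0, zero_mul, add_zero] at hrel
    have hli := B.linearIndependent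
    rw [Fintype.linearIndependent_iff] at hli
    have hzero : ∑ i, (⟨c i, hc i⟩ : K) • B i = 0 := by
      apply Subtype.ext
      rw [IntermediateField.coe_sum, IntermediateField.coe_zero, ← hrel]
      refine Finset.sum_congr rfl fun i _ => ?_
      rfl
    have hall := hli (fun i => (⟨c i, hc i⟩ : K)) hzero
    rcases hne with hne | hne
    · exact hne (funext fun i => by
        have := congrArg Subtype.val (hall i)
        simpa using this)
    · exact hne h0
  · have hx : x = -(∑ i, c i * ((B i : Fs) : E)) / c₀ := by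
      field_simp
      linear_combination hrel
    rw [hx]
    exact F.div_mem (F.neg_mem (F.sum_mem fun i _ => F.mul_mem (hKF (hc i)) (hmemF (B i))))
      (hKF hc₀)

/-- **S18-RATIO.** Every equal-weight ratio of modular forms on `Γ₀(N)` with rational
`q`-expansions lies in the frozen function field `ℚ(j(q^d) : d ∣ N)`. -/
theorem ratioField_le_full (N : ℕ) [NeZero N] :
    ratioField N ≤ modularFunctionFieldFull N := by
  classical
  intro x hx
  have hidx : (CongruenceSubgroup.Gamma0 N).index = dedekindPsi N :=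
    Fermat.Agent.Lib.helper1356.index_Gamma0 N (NeZero.ne N)
  refine mem_of_relrank_of_dependent (ℚ⟮jq⟯) (modularFunctionFieldFull N) (adjoin_jq_le_full N)
    ((CongruenceSubgroup.Gamma0 N).index) (by rw [relrank_full_rat, hidx]) x ?_
  intro b hb
  obtain ⟨c, hc0, hrel⟩ := Fermat.Agent.S28.helper4768.exists_int_relation N
    (Fin.snoc (α := fun _ => LaurentSeries ℚ) b x)
    (by
      intro i
      refine Fin.lastCases ?_ (fun j => ?_) i
      · simpa using hx
      · simpa using Fermat.Agent.S28.helper4768.full_le_ratioField N (hb j))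
  refine ⟨fun i => Polynomial.aeval (R := ℤ) jq (c (Fin.castSucc i)),
    Polynomial.aeval (R := ℤ) jq (c (Fin.last _)),
    fun i => aeval_jq_int_mem_adjoin _, aeval_jq_int_mem_adjoin _, ?_, ?_⟩
  · by_contra hcon
    push Not at hcon
    obtain ⟨h1, h2⟩ := hcon
    apply hc0
    funext i
    refine Fin.lastCases ?_ (fun j => ?_) i
    · exact aeval_jq_int_injective (by rw [h2]; simp)
    · have := congrFun h1 j
      exact aeval_jq_int_injective (by rw [this]; simp)
  · rw [Fin.sum_univ_castSucc] at hrel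
    simpa using hrel

theorem ratioField_eq_full (N : ℕ) [NeZero N] :
    ratioField N = modularFunctionFieldFull N :=
  le_antisymm (ratioField_le_full N) (Fermat.Agent.S28.helper4768.full_le_ratioField N)

/-- Consumer form: `x * Q = P` with `P`, `Q ≠ 0` rational `q`-expansions of modular forms of the
same weight on `Γ₀(N)` implies `x ∈ ℚ(j(q^d) : d ∣ N)`. -/
theorem mem_full_of_isQExp {N : ℕ} [NeZero N] {k : ℤ} {P Q : PowerSeries ℚ}
    (hP : IsQExp N k P) (hQ : IsQExp N k Q) (hQ0 : Q ≠ 0) {x : LaurentSeries ℚ}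
    (h : x * ofPS Q = ofPS P) : x ∈ modularFunctionFieldFull N :=
  ratioField_le_full N (Fermat.Agent.S28.helper4768.mem_ratioField_of_eq hP hQ hQ0 h)

/-- Consumer form with a division. -/
theorem div_mem_full_of_isQExp {N : ℕ} [NeZero N] {k : ℤ} {P Q : PowerSeries ℚ}
    (hP : IsQExp N k P) (hQ : IsQExp N k Q) (hQ0 : Q ≠ 0) :
    ofPS P / ofPS Q ∈ modularFunctionFieldFull N :=
  mem_full_of_isQExp hP hQ hQ0
    (div_mul_cancel₀ _ (Fermat.Agent.S28.helper4768.ofPS_ne_zero hQ0))

/-- Eta quotients of weight zero: `Δ(q^d) / Δ(q^e) ∈ ℚ(j(q^δ) : δ ∣ N)` for `d, e ∣ N`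
(e.g. the inverse Hauptmodul `Δ(q^r) / Δ(q)` of level `r`). -/
theorem qExpand_DeltaL_div_mem_full {N d e : ℕ} [NeZero N] [NeZero d] [NeZero e] (hd : d ∣ N)
    (he : e ∣ N) : qExpand ℚ d DeltaL / qExpand ℚ e DeltaL ∈ modularFunctionFieldFull N :=
  ratioField_le_full N (Fermat.Agent.S28.helper4768.qExpand_DeltaL_div_mem_ratioField hd he)

/-! ### Adapters -/

open Fermat.Agent.S28.helper4768 (G0 toC)

theorem G0_mono {M N : ℕ} (h : M ∣ N) : G0 N ≤ G0 M :=
  Subgroup.map_mono (Fermat.Agent.Lib.helper1356.Gamma0_le_of_dvd h)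

/-- Restriction of a modular form on `Γ₀(M)` to `Γ₀(N)` for `M ∣ N`. -/
noncomputable def restrictDvd {M N : ℕ} (h : M ∣ N) {k : ℤ} (f : ModularForm (G0 M) k) :
    ModularForm (G0 N) k where
  toFun := f
  slash_action_eq' γ hγ := f.slash_action_eq' γ (G0_mono h hγ)
  holo' := f.holo'
  bdd_at_cusps' hc := f.bdd_at_cusps' (hc.mono (G0_mono h))

/-- A rational `q`-expansion of a form of level `M` is one of level `N` for `M ∣ N`. -/
theorem IsQExp.of_dvd {M N : ℕ} (h : M ∣ N) {k : ℤ} {s : PowerSeries ℚ} (hs : IsQExp M k s) :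
    IsQExp N k s := by
  obtain ⟨f, hf⟩ := hs
  exact ⟨restrictDvd h f, hf⟩

/-- A (Prelude-vocabulary) cusp form on `Γ₀(N)` whose `q`-coefficients are the rational numbers
`a n` has the rational `q`-expansion `∑ a n qⁿ`. -/
theorem isQExp_of_cuspForm {N : ℕ} {k : ℤ} (f : CuspForm (CongruenceSubgroup.Gamma0 N) k)
    (a : ℕ → ℚ) (ha : ∀ n, ModularFormClass.qCoeff f n = (a n : ℂ)) :
    IsQExp N k (PowerSeries.mk a) := by
  refine ⟨ModularFormClass.modularForm f, ?_⟩
  ext n
  rw [PowerSeries.coeff_map, PowerSeries.coeff_mk]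
  exact ha n

/-- Same with integer coefficients. -/
theorem isQExp_of_cuspForm_int {N : ℕ} {k : ℤ} (f : CuspForm (CongruenceSubgroup.Gamma0 N) k)
    (a : ℕ → ℤ) (ha : ∀ n, ModularFormClass.qCoeff f n = (a n : ℂ)) :
    IsQExp N k (PowerSeries.mk fun n => (a n : ℚ)) :=
  isQExp_of_cuspForm f (fun n => (a n : ℚ)) fun n => by rw [ha n]; push_cast; rfl

/-- A modular form on `Γ₀(N)` whose `q`-coefficients are the rational numbers `a n`. -/
theorem isQExp_of_modularForm {N : ℕ} {k : ℤ} (f : ModularForm (G0 N) k)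
    (a : ℕ → ℚ) (ha : ∀ n, (UpperHalfPlane.qExpansion 1 f).coeff n = (a n : ℂ)) :
    IsQExp N k (PowerSeries.mk a) := by
  refine ⟨f, ?_⟩
  ext n
  rw [PowerSeries.coeff_map, PowerSeries.coeff_mk]
  exact ha n

/-- Base change: the ratio lies in the function field over any field `L ⊇ ℚ`, in particular in
`modularFunctionFieldBar N` for `L = AlgebraicClosure ℚ`. -/
theorem coeffEmb_mem_of_isQExp (L : Type*) [Field L] [Algebra ℚ L] {N : ℕ} [NeZero N] {k : ℤ}
    {P Q : PowerSeries ℚ} (hP : IsQExp N k P) (hQ : IsQExp N k Q) (hQ0 : Q ≠ 0)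
    {x : LaurentSeries ℚ} (h : x * ofPS Q = ofPS P) :
    coeffEmb L x ∈ laurentBaseChange L (modularFunctionFieldFull N) :=
  coeffEmb_mem_laurentBaseChange L (mem_full_of_isQExp hP hQ hQ0 h)

/-- Example of use (the `j`-line certificate of the gap count): for a weight `2` form with
rational `q`-expansion `s` on `Γ₀(N)`, the weight-zero function `s⁶ / Δ` lies in the function
field. -/
theorem pow_six_div_Delta_mem_full {N : ℕ} [NeZero N] {s : PowerSeries ℚ} (hs : IsQExp N 2 s) :
    ofPS (s ^ 6) / DeltaL ∈ modularFunctionFieldFull N :=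
  div_mem_full_of_isQExp ((hs.pow 6).cast (by norm_num))
    (Fermat.Agent.S28.helper4768.isQExp_Delta N) Fermat.Agent.S28.helper4768.DeltaQ_ne_zero

end Fermat.Agent.S18.helper4053
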