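/-
S18-GAPALG (helper4801): abstract kernel of the gap count `γ(F'_k) ≥ s`.

* `theta` : the derivation `q d/dq` on Laurent series, Leibniz rule, compatibility with `coeffMap`.
* (G1) `coeff_zero_aeval_mul_theta` : the constant term of `P(t) * θ t` vanishes, for every
  commutative ring (any characteristic).
* (G2) `sum_embeddings_eq_trace` : trace = sum of `n` distinct embeddings into a field which is
  not assumed algebraically closed.
* (G3) `finrank_add_le_of_polar` : the polar-part count.
-/
import Mathlib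
import Fermat.Prelude.Def_ModularCurve_LaurentCoeff

set_option autoImplicit false

noncomputable section

namespace Fermat.Agent.S18.helper4801

open HahnSeries ModularCurve

section Theta

variable {R : Type*} [CommRing R]

/-- The derivation `θ = q d/dq` on Laurent series: the coefficient of `q^n` is multiplied by `n`. -/
def theta (x : LaurentSeries R) : LaurentSeries R where
  coeff n := (n : R) * x.coeff n
  isPWO_support' := x.isPWO_support.mono (by
    intro n hn
    simp only [Function.mem_support, ne_eq] at hn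
    simp only [HahnSeries.mem_support, ne_eq]
    intro h
    exact hn (by rw [h, mul_zero]))

@[simp]
theorem theta_coeff (x : LaurentSeries R) (n : ℤ) : (theta x).coeff n = (n : R) * x.coeff n := rfl

theorem theta_support_subset (x : LaurentSeries R) : (theta x).support ⊆ x.support := by
  intro n hn
  simp only [HahnSeries.mem_support, theta_coeff, ne_eq] at hn ⊢
  intro h
  exact hn (by rw [h, mul_zero])

theorem theta_add (x y : LaurentSeries R) : theta (x + y) = theta x + theta y := by
  ext n
  simp [mul_add]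

theorem theta_zero : theta (0 : LaurentSeries R) = 0 := by
  ext n
  simp

theorem theta_smul (a : R) (x : LaurentSeries R) : theta (a • x) = a • theta x := by
  ext n
  simp [mul_left_comm]

/-- Leibniz rule. -/
theorem theta_mul (x y : LaurentSeries R) : theta (x * y) = theta x * y + x * theta y := by
  ext n
  rw [theta_coeff, HahnSeries.coeff_add, HahnSeries.coeff_mul,
    HahnSeries.coeff_mul_left' x.isPWO_support (theta_support_subset x),
    HahnSeries.coeff_mul_right' y.isPWO_support (theta_support_subset y),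
    Finset.mul_sum, ← Finset.sum_add_distrib]
  refine Finset.sum_congr rfl fun ij hij => ?_
  have h : ij.1 + ij.2 = n := (Finset.mem_antidiagonal.mp hij).2.2
  rw [theta_coeff, theta_coeff, ← h]
  push_cast
  ring

theorem theta_one : theta (1 : LaurentSeries R) = 0 := by
  have h := theta_mul (1 : LaurentSeries R) 1
  simp only [mul_one, one_mul] at h
  have h2 : theta (1 : LaurentSeries R) + 0 = theta 1 + theta 1 := by rw [add_zero]; exact h
  exact (add_left_cancel h2).symm

/-- Power rule. -/
theorem theta_pow (x : LaurentSeries R) (i : ℕ) :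
    theta (x ^ (i + 1)) = (i + 1) • (x ^ i * theta x) := by
  induction i with
  | zero => simp
  | succ i ih =>
    have e : x ^ i * theta x * x = x ^ (i + 1) * theta x := by ring
    rw [pow_succ, theta_mul, ih, smul_mul_assoc, e, add_smul (i + 1) 1, one_smul]

theorem theta_coeffMap {S : Type*} [CommRing S] (f : R →+* S) (x : LaurentSeries R) :
    theta (coeffMap f x) = coeffMap f (theta x) := by
  ext n
  simp

/-- The constant term of `θ x` vanishes. -/
theorem theta_coeff_zero (x : LaurentSeries R) : (theta x).coeff 0 = 0 := by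
  simp

/-- (G1), torsion-free case. -/
theorem coeff_zero_pow_mul_theta_of_torsionFree
    (hR : ∀ (n : ℕ) (r : R), n ≠ 0 → n • r = 0 → r = 0) (t : LaurentSeries R) (i : ℕ) :
    (t ^ i * theta t).coeff 0 = 0 := by
  apply hR (i + 1) _ (Nat.succ_ne_zero i)
  have h := congrArg (fun z : LaurentSeries R => z.coeff 0) (theta_pow t i)
  simp only [theta_coeff_zero, HahnSeries.coeff_nsmul, Pi.smul_apply] at h
  exact h.symm

open Classical in
/-- A coefficientwise lift of a Laurent series to the torsion-free ring `ℤ[X_r : r ∈ R]`. -/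
def liftSeries (t : LaurentSeries R) : LaurentSeries (MvPolynomial R ℤ) where
  coeff n := if t.coeff n = 0 then 0 else MvPolynomial.X (t.coeff n)
  isPWO_support' := t.isPWO_support.mono (by
    intro n hn
    simp only [Function.mem_support, ne_eq] at hn
    simp only [HahnSeries.mem_support, ne_eq]
    intro h
    exact hn (if_pos h))

/-- The evaluation `ℤ[X_r : r ∈ R] → R`, `X_r ↦ r`. -/
def evalHom (R : Type*) [CommRing R] : MvPolynomial R ℤ →+* R :=
  MvPolynomial.eval₂Hom (Int.castRingHom R) id

theorem coeffMap_liftSeries (t : LaurentSeries R) : coeffMap (evalHom R) (liftSeries t) = t := by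
  ext n
  simp only [coeffMap_coeff, liftSeries, evalHom]
  split_ifs with h
  · simp [h]
  · simp

/-- (G1) for monomials: the constant term of `t ^ i * θ t` vanishes over any commutative ring. -/
theorem coeff_zero_pow_mul_theta (t : LaurentSeries R) (i : ℕ) :
    (t ^ i * theta t).coeff 0 = 0 := by
  have hS : ∀ (n : ℕ) (r : MvPolynomial R ℤ), n ≠ 0 → n • r = 0 → r = 0 := by
    intro n r hn h
    rw [nsmul_eq_mul] at h
    rcases mul_eq_zero.mp h with h | h
    · exact absurd (Nat.cast_eq_zero.mp h) hn
    · exact h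
  have h := coeff_zero_pow_mul_theta_of_torsionFree hS (liftSeries t) i
  have h2 : t ^ i * theta t = coeffMap (evalHom R) (liftSeries t ^ i * theta (liftSeries t)) := by
    rw [map_mul, map_pow, ← theta_coeffMap, coeffMap_liftSeries]
  rw [h2, coeffMap_coeff, h, map_zero]

theorem algebraMap_eq_C (a : R) : algebraMap R (LaurentSeries R) a = HahnSeries.C a := by
  rw [RingHom.algebraMap_toAlgebra]
  simp

/-- **(G1) Residue of a polynomial.** For every commutative ring `R` (any characteristic), every
Laurent series `t` and every polynomial `P`, the constant term of `P(t) * θ t` vanishes. -/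
theorem coeff_zero_aeval_mul_theta (t : LaurentSeries R) (P : Polynomial R) :
    (Polynomial.aeval t P * theta t).coeff 0 = 0 := by
  induction P using Polynomial.induction_on' with
  | add p q hp hq => rw [map_add, add_mul, HahnSeries.coeff_add, hp, hq, add_zero]
  | monomial n a =>
    rw [Polynomial.aeval_monomial, mul_assoc, algebraMap_eq_C, HahnSeries.C_mul_eq_smul,
      HahnSeries.coeff_smul, coeff_zero_pow_mul_theta, smul_zero]

/-- (G1), instance-free form: `P(t)` written with `HahnSeries.C` explicitly. -/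
theorem coeff_zero_eval₂_mul_theta (t : LaurentSeries R) (P : Polynomial R) :
    (P.eval₂ (HahnSeries.C : R →+* LaurentSeries R) t * theta t).coeff 0 = 0 := by
  induction P using Polynomial.induction_on' with
  | add p q hp hq => rw [Polynomial.eval₂_add, add_mul, HahnSeries.coeff_add, hp, hq, add_zero]
  | monomial n a =>
    rw [Polynomial.eval₂_monomial, mul_assoc, HahnSeries.C_mul_eq_smul,
      HahnSeries.coeff_smul, coeff_zero_pow_mul_theta, smul_zero]

/-- (G1) for negative powers: if `t * s = 1` then the constant term of `t⁻ⁱ⁻² * θ t` vanishes. -/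
theorem coeff_zero_inv_pow_mul_theta (t s : LaurentSeries R) (h : t * s = 1) (i : ℕ) :
    (s ^ (i + 2) * theta t).coeff 0 = 0 := by
  have h1 : theta t * s + t * theta s = 0 := by
    rw [← theta_mul, h, theta_one]
  have h2 : s ^ 2 * theta t = -theta s := by
    have : s ^ 2 * theta t = s * (theta t * s + t * theta s) - (t * s) * theta s := by ring
    rw [this, h1, h, mul_zero, one_mul, zero_sub]
  have h3 : s ^ (i + 2) * theta t = -(s ^ i * theta s) := by
    rw [_root_.pow_add, mul_assoc, h2, mul_neg]
  rw [h3, HahnSeries.coeff_neg, coeff_zero_pow_mul_theta, neg_zero]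

end Theta

section Trace

/-- **(G2) Trace = sum of conjugates**, for a target field `Ω` that need not be algebraically
closed: if `F/K` is finite separable of degree `n` and `σ` is a family of `n` distinct
`K`-embeddings `F → Ω`, then `∑ σ_i y` is the image of the trace of `y`. -/
theorem sum_embeddings_eq_trace {K F Ω : Type*} [Field K] [Field F] [Field Ω] [Algebra K F]
    [Algebra K Ω] [FiniteDimensional K F] [Algebra.IsSeparable K F] {ι : Type*} [Fintype ι]
    (σ : ι → (F →ₐ[K] Ω)) (hσ : Function.Injective σ)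
    (hcard : Fintype.card ι = Module.finrank K F) (y : F) :
    ∑ i, σ i y = algebraMap K Ω (Algebra.trace K F y) := by
  classical
  let E := AlgebraicClosure Ω
  let j : Ω →ₐ[K] E := IsScalarTower.toAlgHom K Ω E
  let τ : ι → (F →ₐ[K] E) := fun i => j.comp (σ i)
  have hj : Function.Injective j := (algebraMap Ω E).injective
  have hτ : Function.Injective τ := by
    intro a b hab
    apply hσ
    ext z
    apply hj
    exact DFunLike.congr_fun hab z
  have hcard' : Fintype.card ι = Fintype.card (F →ₐ[K] E) := by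
    rw [hcard, AlgHom.card K F E]
  have hbij : Function.Bijective τ :=
    (Fintype.bijective_iff_injective_and_card τ).mpr ⟨hτ, hcard'⟩
  have h1 : ∑ i, τ i y = ∑ ρ : F →ₐ[K] E, ρ y :=
    Function.Bijective.sum_comp hbij (fun ρ : F →ₐ[K] E => ρ y)
  have h2 := trace_eq_sum_embeddings (K := K) (L := F) E (x := y)
  apply hj
  rw [map_sum]
  have h3 : j (algebraMap K Ω (Algebra.trace K F y)) = algebraMap K E (Algebra.trace K F y) :=
    j.commutes _
  rw [h3, h2, ← h1]
  rfl

end Trace

section Polar

variable {k : Type*} [Field k]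

/-- The polar part `(c_{-1}, …, c_{-n})` of a Laurent series. -/
def polarPart (k : Type*) [Field k] (n : ℕ) : LaurentSeries k →ₗ[k] (Fin n → k) where
  toFun x := fun i => x.coeff (-((i : ℤ) + 1))
  map_add' x y := by
    ext i
    simp
  map_smul' a x := by
    ext i
    simp

@[simp]
theorem polarPart_apply (n : ℕ) (x : LaurentSeries k) (i : Fin n) :
    polarPart k n x i = x.coeff (-((i : ℤ) + 1)) := rfl

/-- The matrix of truncations `(a_1(f_r), …, a_n(f_r))`. -/
def truncMatrix (n : ℕ) {s : ℕ} (f : Fin s → LaurentSeries k) : Matrix (Fin s) (Fin n) k :=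
  Matrix.of fun r i => (f r).coeff ((i : ℤ) + 1)

/-- The constant term of `x * f` in terms of the polar part of `x` (orders `≥ -n`) and the
coefficients `a_1, …, a_n` of `f` (no terms of exponent `≤ 0`). -/
theorem coeff_zero_mul_eq_sum (n : ℕ) (x f : LaurentSeries k)
    (hx : ∀ i : ℤ, i < -(n : ℤ) → x.coeff i = 0) (hf : ∀ i : ℤ, i ≤ 0 → f.coeff i = 0) :
    (x * f).coeff 0 = ∑ i : Fin n, x.coeff (-((i : ℤ) + 1)) * f.coeff ((i : ℤ) + 1) := by
  classical
  rw [HahnSeries.coeff_mul]
  have hinj : Function.Injective (fun i : Fin n => ((-((i : ℤ) + 1), (i : ℤ) + 1) : ℤ × ℤ)) := by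
    intro a b hab
    have h2 : (a : ℤ) + 1 = (b : ℤ) + 1 := congrArg Prod.snd hab
    exact Fin.ext (by omega)
  rw [← Finset.sum_image (s := Finset.univ)
    (g := fun i : Fin n => ((-((i : ℤ) + 1), (i : ℤ) + 1) : ℤ × ℤ))
    (f := fun p : ℤ × ℤ => x.coeff p.1 * f.coeff p.2) (fun a _ b _ hab => hinj hab)]
  apply Finset.sum_subset
  · intro p hp
    obtain ⟨h1, h2, h3⟩ := Finset.mem_antidiagonal.mp hp
    have hb : 0 < p.2 := by
      by_contra hb
      exact (HahnSeries.mem_support _ _).mp h2 (hf _ (not_lt.mp hb))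
    have ha : -(n : ℤ) ≤ p.1 := by
      by_contra ha
      exact (HahnSeries.mem_support _ _).mp h1 (hx _ (not_le.mp ha))
    have hlt : (p.2 - 1).toNat < n := by omega
    refine Finset.mem_image.mpr ⟨⟨(p.2 - 1).toNat, hlt⟩, Finset.mem_univ _, ?_⟩
    ext
    · simp only
      omega
    · simp only
      omega
  · intro p _ hp
    by_contra hne
    apply hp
    obtain ⟨i, -, rfl⟩ := Finset.mem_image.mp ‹_›
    refine Finset.mem_antidiagonal.mpr ⟨?_, ?_, ?_⟩
    · exact (HahnSeries.mem_support _ _).mpr (left_ne_zero_of_mul hne)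
    · exact (HahnSeries.mem_support _ _).mpr (right_ne_zero_of_mul hne)
    · simp

/-- **(G3) Polar-part count.** Let `V` be a space of Laurent series with orders `≥ -n` in which
the only elements without polar part are constants, and let `f_1, …, f_s` be series without
terms of exponent `≤ 0` whose truncations `(a_1, …, a_n)` are linearly independent. If the
constant term of `x * f_r` vanishes for all `x ∈ V` and all `r`, then `dim V ≤ n + 1 - s`. -/
theorem finrank_add_le_of_polar (n s : ℕ) (V : Submodule k (LaurentSeries k))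
    (f : Fin s → LaurentSeries k)
    (hord : ∀ x ∈ V, ∀ i : ℤ, i < -(n : ℤ) → x.coeff i = 0)
    (hconst : ∀ x ∈ V, (∀ i : ℤ, i < 0 → x.coeff i = 0) → ∃ c : k, x = HahnSeries.C c)
    (hf0 : ∀ r, ∀ i : ℤ, i ≤ 0 → (f r).coeff i = 0)
    (hres : ∀ x ∈ V, ∀ r, (x * f r).coeff 0 = 0)
    (hind : LinearIndependent k (fun r : Fin s => fun i : Fin n => (f r).coeff ((i : ℤ) + 1))) :
    Module.Finite k V ∧ Module.finrank k V + s ≤ n + 1 := by
  classical
  set M : Matrix (Fin s) (Fin n) k := truncMatrix n f with hM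
  have hrank : M.rank = s := by
    have h := LinearIndependent.rank_matrix (M := M) hind
    simpa using h
  have hker : Module.finrank k (LinearMap.ker M.mulVecLin) + s = n := by
    have h := LinearMap.finrank_range_add_finrank_ker M.mulVecLin
    rw [Module.finrank_fin_fun] at h
    have h' : Module.finrank k (LinearMap.range M.mulVecLin) = s := hrank
    omega
  -- the map `x ↦ (c_0(x), polar part)` into `k × ker M`
  have hmem : ∀ x : V, polarPart k n (x : LaurentSeries k) ∈ LinearMap.ker M.mulVecLin := by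
    intro x
    rw [LinearMap.mem_ker]
    ext r
    have h := hres x x.2 r
    rw [coeff_zero_mul_eq_sum n _ _ (hord x x.2) (hf0 r)] at h
    simp only [Matrix.mulVecLin_apply, Matrix.mulVec, dotProduct, Pi.zero_apply, polarPart_apply]
    rw [← h]
    refine Finset.sum_congr rfl fun i _ => ?_
    simp only [hM, truncMatrix, Matrix.of_apply]
    ring
  let Φ : V →ₗ[k] (LinearMap.ker M.mulVecLin) :=
    LinearMap.codRestrict _ ((polarPart k n).comp V.subtype) hmem
  let c0 : V →ₗ[k] k :=
    { toFun := fun x => (x : LaurentSeries k).coeff 0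
      map_add' := fun x y => by simp
      map_smul' := fun a x => by simp }
  let Ψ : V →ₗ[k] (k × LinearMap.ker M.mulVecLin) := c0.prod Φ
  have hΨ : Function.Injective Ψ := by
    rw [← LinearMap.ker_eq_bot, LinearMap.ker_eq_bot']
    intro x hx
    have h0 : (x : LaurentSeries k).coeff 0 = 0 := congrArg Prod.fst hx
    have h1 : Φ x = 0 := congrArg Prod.snd hx
    have h1' : polarPart k n (x : LaurentSeries k) = 0 := congrArg Subtype.val h1
    have hneg : ∀ i : ℤ, i < 0 → (x : LaurentSeries k).coeff i = 0 := by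
      intro i hi
      by_cases hin : i < -(n : ℤ)
      · exact hord x x.2 i hin
      · have hlt : (-i - 1).toNat < n := by omega
        have h2 := congrFun h1' ⟨(-i - 1).toNat, hlt⟩
        simp only [polarPart_apply, Pi.zero_apply] at h2
        have e : -(((-i - 1).toNat : ℤ) + 1) = i := by omega
        rwa [e] at h2
    obtain ⟨c, hc⟩ := hconst x x.2 hneg
    have hc0 : c = 0 := by
      rw [hc] at h0
      simpa using h0
    apply Subtype.ext
    rw [hc, hc0]
    simp
  have hfin : Module.Finite k V := Module.Finite.of_injective Ψ hΨ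
  refine ⟨hfin, ?_⟩
  have hle := LinearMap.finrank_le_finrank_of_injective hΨ
  rw [Module.finrank_prod, Module.finrank_self] at hle
  omega

/-- Relations among the `n`-truncations of the `f_r`. -/
def truncRel (n : ℕ) {s : ℕ} (f : Fin s → LaurentSeries k) : Submodule k (Fin s → k) where
  carrier := {a | ∀ i : Fin n, ∑ r, a r * (f r).coeff ((i : ℤ) + 1) = 0}
  add_mem' := by
    intro a b ha hb i
    simp only [Pi.add_apply, add_mul, Finset.sum_add_distrib]
    rw [ha i, hb i, add_zero]
  zero_mem' := by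
    intro i
    simp
  smul_mem' := by
    intro c a ha i
    simp only [Pi.smul_apply, smul_eq_mul, mul_assoc]
    rw [← Finset.mul_sum, ha i, mul_zero]

theorem mem_truncRel (n : ℕ) {s : ℕ} (f : Fin s → LaurentSeries k) (a : Fin s → k) :
    a ∈ truncRel n f ↔ ∀ i : Fin n, ∑ r, a r * (f r).coeff ((i : ℤ) + 1) = 0 := Iff.rfl

theorem truncRel_antitone {s : ℕ} (f : Fin s → LaurentSeries k) {n m : ℕ} (h : n ≤ m) :
    truncRel m f ≤ truncRel n f := by
  intro a ha i
  exact ha ⟨i, lt_of_lt_of_le i.2 h⟩

/-- **(G3')** If the `f_r` (without terms of exponent `≤ 0`) are linearly independent, then their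
truncations `(a_1, …, a_n)` are linearly independent for all `n ≥ n₁`. -/
theorem exists_trunc_linearIndependent {s : ℕ} (f : Fin s → LaurentSeries k)
    (hf0 : ∀ r, ∀ i : ℤ, i ≤ 0 → (f r).coeff i = 0) (hf : LinearIndependent k f) :
    ∃ n₁ : ℕ, ∀ n, n₁ ≤ n →
      LinearIndependent k (fun r : Fin s => fun i : Fin n => (f r).coeff ((i : ℤ) + 1)) := by
  classical
  let g : ℕ →o (Submodule k (Fin s → k))ᵒᵈ :=
    ⟨fun n => OrderDual.toDual (truncRel n f), fun n m h => truncRel_antitone f h⟩
  obtain ⟨n₁, hn₁⟩ := IsArtinian.monotone_stabilizes g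
  have hstab : ∀ m, n₁ ≤ m → truncRel n₁ f = truncRel m f := fun m hm =>
    congrArg OrderDual.ofDual (hn₁ m hm)
  have hbot : truncRel n₁ f = ⊥ := by
    rw [eq_bot_iff]
    intro a ha
    rw [Submodule.mem_bot]
    have hsum : ∑ r, a r • f r = 0 := by
      ext j
      simp only [HahnSeries.coeff_sum, HahnSeries.coeff_smul, smul_eq_mul, HahnSeries.coeff_zero]
      by_cases hj : j ≤ 0
      · exact Finset.sum_eq_zero fun r _ => by rw [hf0 r j hj, mul_zero]
      · have hj' : 0 < j := not_le.mp hj
        have hm : n₁ ≤ max n₁ j.toNat := le_max_left _ _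
        have ha' : a ∈ truncRel (max n₁ j.toNat) f := hstab _ hm ▸ ha
        have hlt : (j - 1).toNat < max n₁ j.toNat := by
          have : (j - 1).toNat < j.toNat := by omega
          exact lt_of_lt_of_le this (le_max_right _ _)
        have h := ha' ⟨(j - 1).toNat, hlt⟩
        have e : (((j - 1).toNat : ℕ) : ℤ) + 1 = j := by omega
        simp only [e] at h
        exact h
    funext r
    exact (Fintype.linearIndependent_iff.mp hf) a hsum r
  refine ⟨n₁, fun n hn => ?_⟩
  rw [Fintype.linearIndependent_iff]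
  intro a ha r
  have hmem : a ∈ truncRel n f := by
    intro i
    have h := congrFun ha i
    simpa [Finset.sum_apply] using h
  have h0 : a ∈ truncRel n₁ f := truncRel_antitone f hn hmem
  rw [hbot, Submodule.mem_bot] at h0
  rw [h0]
  rfl

/-- **(G3) + (G3') combined.** For linearly independent `f_1, …, f_s` (without terms of exponent
`≤ 0`) there is `n₁` such that for all `n ≥ n₁` every space `V` of Laurent series with orders
`≥ -n`, constants as only elements without polar part, and vanishing constant terms of all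
`x * f_r`, has dimension `≤ n + 1 - s`. -/
theorem exists_gap_bound {s : ℕ} (f : Fin s → LaurentSeries k)
    (hf0 : ∀ r, ∀ i : ℤ, i ≤ 0 → (f r).coeff i = 0) (hf : LinearIndependent k f) :
    ∃ n₁ : ℕ, ∀ n, n₁ ≤ n → ∀ V : Submodule k (LaurentSeries k),
      (∀ x ∈ V, ∀ i : ℤ, i < -(n : ℤ) → x.coeff i = 0) →
      (∀ x ∈ V, (∀ i : ℤ, i < 0 → x.coeff i = 0) → ∃ c : k, x = HahnSeries.C c) →
      (∀ x ∈ V, ∀ r, (x * f r).coeff 0 = 0) →
      Module.Finite k V ∧ Module.finrank k V + s ≤ n + 1 := by
  obtain ⟨n₁, hn₁⟩ := exists_trunc_linearIndependent f hf0 hf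
  exact ⟨n₁, fun n hn V hord hconst hres =>
    finrank_add_le_of_polar n s V f hord hconst hf0 hres (hn₁ n hn)⟩

end Polar

section TwoCusps

variable {k : Type*} [Field k]

theorem theta_C (c : k) : theta (HahnSeries.C c : LaurentSeries k) = 0 := by
  ext n
  rw [theta_coeff, HahnSeries.coeff_zero]
  by_cases hn : n = 0
  · rw [hn]; simp
  · rw [HahnSeries.C_apply, HahnSeries.coeff_single_of_ne hn, mul_zero]

theorem theta_C_mul (c : k) (x : LaurentSeries k) :
    theta (HahnSeries.C c * x) = HahnSeries.C c * theta x := by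
  rw [theta_mul, theta_C, zero_mul, zero_add]

theorem theta_inv (t : LaurentSeries k) (ht : t ≠ 0) : theta t⁻¹ = -(t⁻¹ ^ 2 * theta t) := by
  have h1 : theta t * t⁻¹ + t * theta t⁻¹ = 0 := by
    rw [← theta_mul, mul_inv_cancel₀ ht, theta_one]
  have h2 : theta t⁻¹ = t⁻¹ * (theta t * t⁻¹ + t * theta t⁻¹) - t⁻¹ ^ 2 * theta t := by
    have : t⁻¹ * (t * theta t⁻¹) = theta t⁻¹ := by rw [← mul_assoc, inv_mul_cancel₀ ht, one_mul]
    rw [mul_add, this]
    ring
  rw [h2, h1, mul_zero, zero_sub]

/-- **(G4) Two-cusp residue sum, monomials.** For a nonzero Laurent series `t` over a field, a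
nonzero constant `C` and every integer `i`: the constant terms of `t^i θt` and of
`(C/t)^i θ(C/t)` add up to zero (`Res_∞ + Res_0 = 0` for `T^i dT` on the `T`-line, read at the
two cusps `T = t(q)` and `T = C / t(q)`). -/
theorem coeff_zero_zpow_mul_theta_add (t : LaurentSeries k) (ht : t ≠ 0) (C : k) (hC : C ≠ 0)
    (i : ℤ) :
    (t ^ i * theta t).coeff 0 +
      ((HahnSeries.C C * t⁻¹) ^ i * theta (HahnSeries.C C * t⁻¹)).coeff 0 = 0 := by
  have hCne : (HahnSeries.C C : LaurentSeries k) ≠ 0 := by
    intro h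
    apply hC
    have := congrArg (fun z : LaurentSeries k => z.coeff 0) h
    simpa using this
  have hs : HahnSeries.C C * t⁻¹ ≠ 0 := mul_ne_zero hCne (inv_ne_zero ht)
  rcases lt_trichotomy i (-1) with hi | hi | hi
  · -- `i ≤ -2`
    obtain ⟨m, rfl⟩ : ∃ m : ℕ, i = -((m : ℤ) + 2) := ⟨(-i - 2).toNat, by omega⟩
    have em : ((m : ℤ) + 2) = ((m + 2 : ℕ) : ℤ) := by push_cast; ring
    have e1 : t ^ (-((m : ℤ) + 2)) = t⁻¹ ^ (m + 2) := by
      rw [em, zpow_neg, zpow_natCast, inv_pow]
    have e2 : (HahnSeries.C C * t⁻¹) ^ (-((m : ℤ) + 2)) = ((HahnSeries.C C * t⁻¹)⁻¹) ^ (m + 2) := by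
      rw [em, zpow_neg, zpow_natCast, inv_pow]
    rw [e1, e2, coeff_zero_inv_pow_mul_theta t t⁻¹ (mul_inv_cancel₀ ht) m,
      coeff_zero_inv_pow_mul_theta _ _ (mul_inv_cancel₀ hs) m, add_zero]
  · -- `i = -1`
    subst hi
    have e : t ^ (-1 : ℤ) * theta t +
        (HahnSeries.C C * t⁻¹) ^ (-1 : ℤ) * theta (HahnSeries.C C * t⁻¹) = 0 := by
      rw [theta_C_mul, theta_inv t ht, zpow_neg_one, zpow_neg_one, mul_inv, inv_inv]
      field_simp
      ring
    rw [← HahnSeries.coeff_add, e, HahnSeries.coeff_zero]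
  · -- `i ≥ 0`
    obtain ⟨m, rfl⟩ : ∃ m : ℕ, i = (m : ℤ) := ⟨i.toNat, by omega⟩
    rw [zpow_natCast, zpow_natCast, coeff_zero_pow_mul_theta, coeff_zero_pow_mul_theta, add_zero]

/-- **(G4) Two-cusp residue sum.** For a Laurent polynomial `ρ ∈ k[T, T⁻¹]`, a nonzero Laurent
series `t` and a nonzero constant `C`: the constant terms of `ρ(t) θt` and `ρ(C/t) θ(C/t)` add up
to zero. -/
theorem residue_sum_laurent (t : LaurentSeries k) (ht : t ≠ 0) (C : k) (hC : C ≠ 0)
    (a : ℤ →₀ k) :
    ((a.sum fun j c => HahnSeries.C c * t ^ j) * theta t).coeff 0 +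
      ((a.sum fun j c => HahnSeries.C c * (HahnSeries.C C * t⁻¹) ^ j) *
        theta (HahnSeries.C C * t⁻¹)).coeff 0 = 0 := by
  induction a using Finsupp.induction_linear with
  | zero => simp
  | add f g hf hg =>
    have hz : ∀ (x : LaurentSeries k) (j : ℤ), HahnSeries.C (0 : k) * x ^ j = 0 := by
      intro x j; rw [map_zero, zero_mul]
    have hadd : ∀ (x : LaurentSeries k) (j : ℤ) (c₁ c₂ : k),
        HahnSeries.C (c₁ + c₂) * x ^ j = HahnSeries.C c₁ * x ^ j + HahnSeries.C c₂ * x ^ j := by
      intro x j c₁ c₂; rw [map_add, add_mul]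
    rw [Finsupp.sum_add_index' (hz t) (hadd t), Finsupp.sum_add_index' (hz _) (hadd _),
      add_mul, add_mul, HahnSeries.coeff_add, HahnSeries.coeff_add]
    have := congrArg₂ (· + ·) hf hg
    simp only [add_zero] at this
    rw [← this]
    ring
  | single j c =>
    rw [Finsupp.sum_single_index (by rw [map_zero, zero_mul]),
      Finsupp.sum_single_index (by rw [map_zero, zero_mul]), mul_assoc, mul_assoc,
      HahnSeries.C_mul_eq_smul, HahnSeries.C_mul_eq_smul, HahnSeries.coeff_smul,
      HahnSeries.coeff_smul, ← smul_add, coeff_zero_zpow_mul_theta_add t ht C hC j, smul_zero]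

theorem C_mul_inv_ne_zero (t : LaurentSeries k) (ht : t ≠ 0) (C : k) (hC : C ≠ 0) :
    (HahnSeries.C C : LaurentSeries k) * t⁻¹ ≠ 0 := by
  refine mul_ne_zero ?_ (inv_ne_zero ht)
  intro h
  apply hC
  have := congrArg (fun z : LaurentSeries k => z.coeff 0) h
  simpa using this

/-- (G4) in `LaurentPolynomial` form. -/
theorem residue_sum_laurentPolynomial (t : LaurentSeries k) (ht : t ≠ 0) (C : k) (hC : C ≠ 0)
    (ρ : LaurentPolynomial k) :
    (LaurentPolynomial.eval₂ (HahnSeries.C : k →+* LaurentSeries k) (Units.mk0 t ht) ρ *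
        theta t).coeff 0 +
      (LaurentPolynomial.eval₂ (HahnSeries.C : k →+* LaurentSeries k)
          (Units.mk0 _ (C_mul_inv_ne_zero t ht C hC)) ρ *
        theta (HahnSeries.C C * t⁻¹)).coeff 0 = 0 := by
  induction ρ using LaurentPolynomial.induction_on' with
  | add p q hp hq =>
    rw [map_add, map_add, add_mul, add_mul, HahnSeries.coeff_add, HahnSeries.coeff_add]
    have := congrArg₂ (· + ·) hp hq
    simp only [add_zero] at this
    rw [← this]
    ring
  | C_mul_T n a =>
    rw [LaurentPolynomial.eval₂_C_mul_T, LaurentPolynomial.eval₂_C_mul_T,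
      Units.val_zpow_eq_zpow_val, Units.val_zpow_eq_zpow_val, Units.val_mk0, Units.val_mk0,
      mul_assoc, mul_assoc, HahnSeries.C_mul_eq_smul, HahnSeries.C_mul_eq_smul,
      HahnSeries.coeff_smul, HahnSeries.coeff_smul, ← smul_add,
      coeff_zero_zpow_mul_theta_add t ht C hC n, smul_zero]

/-- (G2) for ring homs: `φ : K →+* Ω` a ring hom, `σ` a family of `n = [F : K]` distinct ring homs
`F →+* Ω` restricting to `φ` on `K`. Then `∑ σ_i y = φ (trace y)`. -/
theorem sum_ringHoms_eq_trace {K F Ω : Type*} [Field K] [Field F] [Field Ω] [Algebra K F]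
    [FiniteDimensional K F] [Algebra.IsSeparable K F] (φ : K →+* Ω) {ι : Type*} [Fintype ι]
    (σ : ι → (F →+* Ω)) (hσφ : ∀ i x, σ i (algebraMap K F x) = φ x)
    (hσ : Function.Injective σ) (hcard : Fintype.card ι = Module.finrank K F) (y : F) :
    ∑ i, σ i y = φ (Algebra.trace K F y) := by
  let _ : Algebra K Ω := φ.toAlgebra
  let τ : ι → (F →ₐ[K] Ω) := fun i => { σ i with commutes' := fun x => hσφ i x }
  have hτ : Function.Injective τ := by
    intro a b hab
    apply hσ
    ext z
    exact DFunLike.congr_fun hab z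
  exact sum_embeddings_eq_trace τ hτ hcard y

/-- **(KL), abstract form: the sum of the residues over all cusps vanishes.**
`F/K` finite separable, `K ⊇ k(tb)`; two "base cusps" `φ₁, φ₂ : K → k((q))` with `φ₁ tb = t`,
`φ₂ tb = C / t`; full families `σ₁`, `σ₂` of conjugate expansions over the two base cusps. If the
trace of `z` is a Laurent polynomial in `tb` (TRACECRIT), then the constant terms of
`σ(z) * θ(φ tb)` over all conjugate expansions add up to zero. -/
theorem residue_sum_of_trace_laurent {K F : Type*} [Field K] [Field F] [Algebra K F]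
    [Algebra k K] [FiniteDimensional K F] [Algebra.IsSeparable K F]
    (tb : K) (t : LaurentSeries k) (ht : t ≠ 0) (C : k) (hC : C ≠ 0)
    (φ₁ φ₂ : K →+* LaurentSeries k)
    (hφ₁k : ∀ c : k, φ₁ (algebraMap k K c) = HahnSeries.C c)
    (hφ₂k : ∀ c : k, φ₂ (algebraMap k K c) = HahnSeries.C c)
    (hφ₁t : φ₁ tb = t) (hφ₂t : φ₂ tb = HahnSeries.C C * t⁻¹)
    {ι₁ ι₂ : Type*} [Fintype ι₁] [Fintype ι₂]
    (σ₁ : ι₁ → (F →+* LaurentSeries k)) (σ₂ : ι₂ → (F →+* LaurentSeries k))
    (hσ₁φ : ∀ i x, σ₁ i (algebraMap K F x) = φ₁ x) (hσ₂φ : ∀ i x, σ₂ i (algebraMap K F x) = φ₂ x)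
    (hσ₁ : Function.Injective σ₁) (hσ₂ : Function.Injective σ₂)
    (hcard₁ : Fintype.card ι₁ = Module.finrank K F) (hcard₂ : Fintype.card ι₂ = Module.finrank K F)
    (z : F) (a : ℤ →₀ k)
    (htr : Algebra.trace K F z = a.sum fun j c => algebraMap k K c * tb ^ j) :
    ∑ i, (σ₁ i z * theta t).coeff 0 +
      ∑ i, (σ₂ i z * theta (HahnSeries.C C * t⁻¹)).coeff 0 = 0 := by
  have h1 := sum_ringHoms_eq_trace φ₁ σ₁ hσ₁φ hσ₁ hcard₁ z
  have h2 := sum_ringHoms_eq_trace φ₂ σ₂ hσ₂φ hσ₂ hcard₂ z
  have e1 : φ₁ (Algebra.trace K F z) = a.sum fun j c => HahnSeries.C c * t ^ j := by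
    rw [htr, Finsupp.sum, map_sum, Finsupp.sum]
    refine Finset.sum_congr rfl fun j _ => ?_
    rw [map_mul, map_zpow₀, hφ₁k, hφ₁t]
  have e2 : φ₂ (Algebra.trace K F z) =
      a.sum fun j c => HahnSeries.C c * (HahnSeries.C C * t⁻¹) ^ j := by
    rw [htr, Finsupp.sum, map_sum, Finsupp.sum]
    refine Finset.sum_congr rfl fun j _ => ?_
    rw [map_mul, map_zpow₀, hφ₂k, hφ₂t]
  have s1 : ∑ i, (σ₁ i z * theta t).coeff 0 = ((∑ i, σ₁ i z) * theta t).coeff 0 := by
    rw [Finset.sum_mul, HahnSeries.coeff_sum]
  have s2 : ∑ i, (σ₂ i z * theta (HahnSeries.C C * t⁻¹)).coeff 0 =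
      ((∑ i, σ₂ i z) * theta (HahnSeries.C C * t⁻¹)).coeff 0 := by
    rw [Finset.sum_mul, HahnSeries.coeff_sum]
  rw [s1, s2, h1, h2, e1, e2]
  exact residue_sum_laurent t ht C hC a

end TwoCusps

end Fermat.Agent.S18.helper4801
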