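/-
S18-HAUPT-THETA (seat helper6894): the theta relation `q dt_r/dq = - eps_r * t_r` on the
Hauptmodul lines of levels 2 and 3, as formal identities of integer Laurent series, in the landed
vocabulary (`helper4801.theta`, `helper1257.t2Z / t3Z / a2Z / b3Z`, `Lib.helper386.deltaSeries`).

Inputs: `D Δ = E₂ Δ` (`Lib.helper861.normalizedDeriv_discriminant`), the `q`-expansion toolkit
`S20.helper4760` (`Nice`, `cf_D`, `cf_mul`), and `t₂ Δ(q²) = Δ(q)`, `t₃² Δ(q³) = Δ(q)` of
`helper1257_HauptFormal`.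
-/
import Mathlib
import Fermat.Agent.S18.helper1257_HauptFormal
import Fermat.Agent.S18.helper4801_GapAlg
import Fermat.Agent.S20.helper4760_QExp
import Fermat.Agent.Lib.helper861_SerreAbel

set_option autoImplicit false

open UpperHalfPlane ModularForm EisensteinSeries
open scoped MatrixGroups

namespace Fermat.Agent.S18.helper6894

open Fermat.Agent.S20.helper4760 (Nice cf)
open Fermat.Agent.S18.helper1257 (ofZ t2Z t3Z a2Z b3Z)
open Fermat.Agent.Lib.helper386 (deltaSeries)
open Fermat.Agent.S16.helper8794 (sigmaPrime)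
open Fermat.Agent.S18.helper4801 (theta)
open ModularCurve

/-! ### The analytic input: `q`-expansions of `E₂`, `Δ` and `D Δ = E₂ Δ` -/

theorem hasSum_E2_qParam (τ : ℍ) :
    HasSum (fun m : ℕ => (if m = 0 then 1 else -24 * (ArithmeticFunction.sigma 1 m : ℂ)) •
      Function.Periodic.qParam 1 (τ : ℂ) ^ m) (E2 τ) := by
  simpa only [Function.Periodic.qParam, Complex.ofReal_one, div_one] using
    hasSum_qExpansion_E2 (z := τ)

theorem qParam_one_add_one (w : ℂ) :
    Function.Periodic.qParam 1 (w + 1) = Function.Periodic.qParam 1 w := by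
  simp only [Function.Periodic.qParam, Complex.ofReal_one, div_one]
  rw [mul_add, mul_one, Complex.exp_add, Complex.exp_two_pi_mul_I, mul_one]

theorem nice_E2 : Nice 1 E2 where
  hol := E2_mdifferentiable
  per := by
    intro w
    show E2 (ofComplex (w + ((1 : ℝ) : ℂ))) = E2 (ofComplex w)
    rw [Complex.ofReal_one]
    by_cases hw : 0 < w.im
    · have hw' : 0 < (w + 1).im := by simpa using hw
      have h1 := hasSum_E2_qParam (ofComplex (w + 1))
      have h2 := hasSum_E2_qParam (ofComplex w)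
      have hq : Function.Periodic.qParam 1 ((ofComplex (w + 1) : ℍ) : ℂ) =
          Function.Periodic.qParam 1 ((ofComplex w : ℍ) : ℂ) := by
        rw [ofComplex_apply_of_im_pos hw', ofComplex_apply_of_im_pos hw]
        exact qParam_one_add_one w
      rw [hq] at h1
      exact h1.unique h2
    · have hw1 : w.im ≤ 0 := not_lt.mp hw
      have hw' : (w + 1).im ≤ 0 := by simpa using hw1
      rw [ofComplex_apply_of_im_nonpos hw1, ofComplex_apply_of_im_nonpos hw']
  bdd := isBoundedAtImInfty_E2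

theorem cf_E2 (m : ℕ) :
    cf 1 E2 m = if m = 0 then 1 else -24 * (ArithmeticFunction.sigma 1 m : ℂ) :=
  (nice_E2.cf_unique one_pos (c := fun m : ℕ =>
    (if m = 0 then 1 else -24 * (ArithmeticFunction.sigma 1 m : ℂ))) hasSum_E2_qParam m).symm

theorem nice_discriminant : Nice 1 ModularForm.discriminant where
  hol := CuspForm.discriminant.holo'
  per := SlashInvariantFormClass.periodic_comp_ofComplex CuspForm.discriminant
    one_mem_strictPeriods_SL
  bdd := ModularFormClass.bdd_at_infty CuspForm.discriminant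

theorem cf_discriminant (m : ℕ) :
    cf 1 ModularForm.discriminant m = ((PowerSeries.coeff m deltaSeries : ℤ) : ℂ) :=
  Fermat.Agent.Lib.helper386.qExpansion_discriminant_coeff m

open Derivative in
theorem D_discriminant_eq : D ModularForm.discriminant = E2 * ModularForm.discriminant :=
  funext Fermat.Agent.Lib.helper861.normalizedDeriv_discriminant

/-! ### The formal Eisenstein series `E₂` and `θ Δ = E₂ Δ` -/

/-- `E₂ = 1 - 24 ∑ σ₁(n) qⁿ` as an integer power series. -/
noncomputable def E2Z : PowerSeries ℤ :=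
  PowerSeries.mk fun n => if n = 0 then 1 else -24 * (ArithmeticFunction.sigma 1 n : ℤ)

theorem coeff_E2Z (n : ℕ) :
    PowerSeries.coeff n E2Z = if n = 0 then 1 else -24 * (ArithmeticFunction.sigma 1 n : ℤ) :=
  PowerSeries.coeff_mk _ _

theorem constantCoeff_E2Z : PowerSeries.constantCoeff E2Z = 1 := by
  rw [← PowerSeries.coeff_zero_eq_constantCoeff_apply, coeff_E2Z, if_pos rfl]

/-- Coefficient form of `θ Δ = E₂ Δ` in `ℤ⟦q⟧`. -/
theorem coeff_mul_deltaSeries (m : ℕ) :
    (m : ℤ) * PowerSeries.coeff m deltaSeries = PowerSeries.coeff m (E2Z * deltaSeries) := by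
  have h1 := Fermat.Agent.S20.helper4760.cf_D nice_discriminant one_pos m
  rw [D_discriminant_eq, Fermat.Agent.S20.helper4760.cf_mul nice_E2 nice_discriminant one_pos,
    Complex.ofReal_one, div_one] at h1
  have hinj : Function.Injective (Int.cast : ℤ → ℂ) := Int.cast_injective
  apply hinj
  rw [PowerSeries.coeff_mul]
  push_cast
  rw [← cf_discriminant, ← h1]
  refine Finset.sum_congr rfl fun p _ => ?_
  rw [cf_E2, cf_discriminant, coeff_E2Z]
  split_ifs <;> push_cast <;> ring

/-! ### `θ` on Laurent series: power series, `q ↦ q^d` -/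

/-- `θ Δ = E₂ Δ` in `ℤ((q))`. -/
theorem theta_ofZ_deltaSeries : theta (ofZ deltaSeries) = ofZ E2Z * ofZ deltaSeries := by
  rw [← map_mul]
  ext n
  rw [Fermat.Agent.S18.helper4801.theta_coeff]
  rcases lt_or_ge n 0 with hn | hn
  · rw [ofPowerSeries_coeff_of_neg _ hn, ofPowerSeries_coeff_of_neg _ hn, mul_zero]
  · lift n to ℕ using hn
    rw [HahnSeries.ofPowerSeries_apply_coeff, HahnSeries.ofPowerSeries_apply_coeff]
    exact_mod_cast coeff_mul_deltaSeries n

/-- `θ (x(q^d)) = d · (θ x)(q^d)`. -/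
theorem theta_qExpand {R : Type*} [CommRing R] (d : ℕ) [NeZero d] (x : LaurentSeries R) :
    theta (qExpand R d x) = (d : LaurentSeries R) * qExpand R d (theta x) := by
  have hd : (d : LaurentSeries R) = HahnSeries.C (d : R) := (map_natCast HahnSeries.C d).symm
  rw [hd, HahnSeries.C_mul_eq_smul]
  ext k
  rw [Fermat.Agent.S18.helper4801.theta_coeff, HahnSeries.coeff_smul, smul_eq_mul]
  by_cases hk : (d : ℤ) ∣ k
  · obtain ⟨k', rfl⟩ := hk
    rw [qExpand_coeff_mul, qExpand_coeff_mul, Fermat.Agent.S18.helper4801.theta_coeff]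
    push_cast
    ring
  · rw [qExpand_coeff_of_not_dvd d _ hk, qExpand_coeff_of_not_dvd d _ hk, mul_zero, mul_zero]

/-! ### `eps_r` in terms of `E₂` -/

/-- `eps₂ = 2 E₂(q²) - E₂(q)` in `ℤ⟦q⟧`. -/
theorem a2Z_eq : a2Z = 2 * PowerSeries.expand 2 two_ne_zero E2Z - E2Z := by
  ext n
  rw [map_sub, Fermat.Agent.S18.helper1257.coeff_ofNat_mul, PowerSeries.coeff_expand, a2Z,
    PowerSeries.coeff_mk]
  simp only [coeff_E2Z]
  by_cases hn : n = 0
  · subst hn
    simp
  · rw [if_neg hn, if_neg hn,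
      Fermat.Agent.S16.helper8794.sigma_eq_sigmaPrime_add (p := 2) two_ne_zero n]
    by_cases h2 : 2 ∣ n
    · have hn2 : n / 2 ≠ 0 := by
        obtain ⟨k, rfl⟩ := h2
        intro h
        apply hn
        omega
      rw [if_pos h2, if_pos h2, if_neg hn2]
      push_cast
      ring
    · rw [if_neg h2, if_neg h2]
      push_cast
      ring

/-- `2 eps₃ = 3 E₂(q³) - E₂(q)` in `ℤ⟦q⟧`. -/
theorem two_mul_b3Z_eq : 2 * b3Z = 3 * PowerSeries.expand 3 three_ne_zero E2Z - E2Z := by
  ext n
  rw [map_sub, Fermat.Agent.S18.helper1257.coeff_ofNat_mul,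
    Fermat.Agent.S18.helper1257.coeff_ofNat_mul, PowerSeries.coeff_expand, b3Z,
    PowerSeries.coeff_mk]
  simp only [coeff_E2Z]
  by_cases hn : n = 0
  · subst hn
    simp
  · rw [if_neg hn, if_neg hn,
      Fermat.Agent.S16.helper8794.sigma_eq_sigmaPrime_add (p := 3) three_ne_zero n]
    by_cases h3 : 3 ∣ n
    · have hn3 : n / 3 ≠ 0 := by
        obtain ⟨k, rfl⟩ := h3
        intro h
        apply hn
        omega
      rw [if_pos h3, if_pos h3, if_neg hn3]
      push_cast
      ring
    · rw [if_neg h3, if_neg h3]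
      push_cast
      ring

/-! ### The theta relation on the Hauptmodul lines -/

theorem ofZ_deltaSeries_ne_zero : ofZ deltaSeries ≠ 0 := by
  intro h
  have h1 : deltaSeries = 0 := HahnSeries.ofPowerSeries_injective (by rw [h, map_zero])
  have h2 := Fermat.Agent.Lib.helper386.coeff_one_deltaSeries
  rw [h1] at h2
  simp at h2

theorem qExpand_ofZ_deltaSeries_ne_zero (d : ℕ) [NeZero d] :
    qExpand ℤ d (ofZ deltaSeries) ≠ 0 := fun h =>
  ofZ_deltaSeries_ne_zero (qExpand_injective d (by rw [h, map_zero]))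

/-- `θ (Δ(q^d)) = d · E₂(q^d) Δ(q^d)`. -/
theorem theta_qExpand_deltaSeries (d : ℕ) [NeZero d] :
    theta (qExpand ℤ d (ofZ deltaSeries)) =
      (d : LaurentSeries ℤ) * (qExpand ℤ d (ofZ E2Z) * qExpand ℤ d (ofZ deltaSeries)) := by
  rw [theta_qExpand, theta_ofZ_deltaSeries, map_mul]

/-- **Theta relation, level 2**: `q dt₂/dq = - eps₂ · t₂` in `ℤ((q))`. -/
theorem theta_t2Z : theta t2Z = -(ofZ a2Z * t2Z) := by
  have h1 := Fermat.Agent.S18.helper1257.t2Z_mul_delta
  rw [← Fermat.Agent.S18.helper1257.qExpand_ofPowerSeries] at h1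
  have h2 := congrArg theta h1
  rw [Fermat.Agent.S18.helper4801.theta_mul, theta_qExpand_deltaSeries, theta_ofZ_deltaSeries]
    at h2
  have ha : ofZ a2Z = 2 * qExpand ℤ 2 (ofZ E2Z) - ofZ E2Z := by
    rw [a2Z_eq, map_sub, map_mul, map_ofNat,
      ← Fermat.Agent.S18.helper1257.qExpand_ofPowerSeries]
  apply mul_right_cancel₀ (qExpand_ofZ_deltaSeries_ne_zero 2)
  rw [ha]
  push_cast at h2
  linear_combination h2 - ofZ E2Z * h1

/-- **Theta relation, level 3**: `q dt₃/dq = - eps₃ · t₃` in `ℤ((q))`. -/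
theorem theta_t3Z : theta t3Z = -(ofZ b3Z * t3Z) := by
  have h1 := Fermat.Agent.S18.helper1257.t3Z_sq_mul_delta
  rw [← Fermat.Agent.S18.helper1257.qExpand_ofPowerSeries] at h1
  have h2 := congrArg theta h1
  rw [Fermat.Agent.S18.helper4801.theta_mul, theta_qExpand_deltaSeries, theta_ofZ_deltaSeries,
    sq, Fermat.Agent.S18.helper4801.theta_mul] at h2
  have hb : 2 * ofZ b3Z = 3 * qExpand ℤ 3 (ofZ E2Z) - ofZ E2Z := by
    have := congrArg ofZ two_mul_b3Z_eq
    rwa [map_mul, map_sub, map_mul, map_ofNat, map_ofNat,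
      ← Fermat.Agent.S18.helper1257.qExpand_ofPowerSeries] at this
  have ht3 : t3Z ≠ 0 := by
    intro h
    rw [h] at h1
    simp only [ne_eq, OfNat.ofNat_ne_zero, not_false_eq_true, zero_pow, zero_mul] at h1
    exact ofZ_deltaSeries_ne_zero h1.symm
  have h2ne : (2 : LaurentSeries ℤ) ≠ 0 := by
    rw [show (2 : LaurentSeries ℤ) = HahnSeries.C (2 : ℤ) from (map_ofNat HahnSeries.C 2).symm]
    exact fun h => two_ne_zero (HahnSeries.C_injective (h.trans (map_zero HahnSeries.C).symm))
  have hne : 2 * t3Z * qExpand ℤ 3 (ofZ deltaSeries) ≠ 0 :=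
    mul_ne_zero (mul_ne_zero h2ne ht3) (qExpand_ofZ_deltaSeries_ne_zero 3)
  apply mul_right_cancel₀ hne
  push_cast at h2
  linear_combination h2 - ofZ E2Z * h1 + t3Z ^ 2 * qExpand ℤ 3 (ofZ deltaSeries) * hb

/-! ### The same over every coefficient ring -/

/-- **Theta relation, level 2, over any commutative ring `K`** (both fibres). -/
theorem theta_coeffMap_t2Z {K : Type*} [CommRing K] (f : ℤ →+* K) :
    theta (coeffMap f t2Z) = -(coeffMap f (ofZ a2Z) * coeffMap f t2Z) := by
  rw [Fermat.Agent.S18.helper4801.theta_coeffMap, theta_t2Z, map_neg, map_mul]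

/-- **Theta relation, level 3, over any commutative ring `K`** (both fibres). -/
theorem theta_coeffMap_t3Z {K : Type*} [CommRing K] (f : ℤ →+* K) :
    theta (coeffMap f t3Z) = -(coeffMap f (ofZ b3Z) * coeffMap f t3Z) := by
  rw [Fermat.Agent.S18.helper4801.theta_coeffMap, theta_t3Z, map_neg, map_mul]

/-! ### Power series form, and the degenerate residue characteristics -/

/-- Coefficientwise base change commutes with `ℤ⟦q⟧ → ℤ((q))`. -/
theorem coeffMap_ofZ {K : Type*} [CommRing K] (f : ℤ →+* K) (s : PowerSeries ℤ) :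
    coeffMap f (ofZ s) = HahnSeries.ofPowerSeries ℤ K (PowerSeries.map f s) := by
  ext k
  rw [coeffMap_coeff]
  rcases lt_or_ge k 0 with hk | hk
  · rw [ofPowerSeries_coeff_of_neg _ hk, ofPowerSeries_coeff_of_neg _ hk, map_zero]
  · lift k to ℕ using hk
    rw [HahnSeries.ofPowerSeries_apply_coeff, HahnSeries.ofPowerSeries_apply_coeff,
      PowerSeries.coeff_map]

/-- Theta relation of level 2 over `K`, with `eps₂` written as a power series over `K`. -/
theorem theta_coeffMap_t2Z' {K : Type*} [CommRing K] (f : ℤ →+* K) :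
    theta (coeffMap f t2Z) =
      -(HahnSeries.ofPowerSeries ℤ K (PowerSeries.map f a2Z) * coeffMap f t2Z) := by
  rw [theta_coeffMap_t2Z, coeffMap_ofZ]

/-- Theta relation of level 3 over `K`, with `eps₃` written as a power series over `K`. -/
theorem theta_coeffMap_t3Z' {K : Type*} [CommRing K] (f : ℤ →+* K) :
    theta (coeffMap f t3Z) =
      -(HahnSeries.ofPowerSeries ℤ K (PowerSeries.map f b3Z) * coeffMap f t3Z) := by
  rw [theta_coeffMap_t3Z, coeffMap_ofZ]

/-- `eps₂ ≡ 1 mod 24`: the reduction of `eps₂` is `1` whenever `24 = 0` in `K`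
(characteristic 2 or 3). -/
theorem map_a2Z_eq_one {K : Type*} [CommRing K] (f : ℤ →+* K) (h : f 24 = 0) :
    PowerSeries.map f a2Z = 1 := by
  ext n
  rw [PowerSeries.coeff_map, a2Z, PowerSeries.coeff_mk, PowerSeries.coeff_one]
  by_cases hn : n = 0
  · rw [if_pos hn, if_pos hn, map_one]
  · rw [if_neg hn, if_neg hn, map_mul, h, zero_mul]

/-- `eps₃ ≡ 1 mod 12`: the reduction of `eps₃` is `1` whenever `12 = 0` in `K`
(characteristic 2 or 3). -/
theorem map_b3Z_eq_one {K : Type*} [CommRing K] (f : ℤ →+* K) (h : f 12 = 0) :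
    PowerSeries.map f b3Z = 1 := by
  ext n
  rw [PowerSeries.coeff_map, b3Z, PowerSeries.coeff_mk, PowerSeries.coeff_one]
  by_cases hn : n = 0
  · rw [if_pos hn, if_pos hn, map_one]
  · rw [if_neg hn, if_neg hn, map_mul, h, zero_mul]

/-- In characteristic 2 or 3 (`24 = 0` in `K`): `θ t₂ = - t₂`. -/
theorem theta_coeffMap_t2Z_of_24 {K : Type*} [CommRing K] (f : ℤ →+* K) (h : f 24 = 0) :
    theta (coeffMap f t2Z) = -coeffMap f t2Z := by
  rw [theta_coeffMap_t2Z', map_a2Z_eq_one f h, map_one, one_mul]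

/-- In characteristic 2 or 3 (`12 = 0` in `K`): `θ t₃ = - t₃`. -/
theorem theta_coeffMap_t3Z_of_12 {K : Type*} [CommRing K] (f : ℤ →+* K) (h : f 12 = 0) :
    theta (coeffMap f t3Z) = -coeffMap f t3Z := by
  rw [theta_coeffMap_t3Z', map_b3Z_eq_one f h, map_one, one_mul]

end Fermat.Agent.S18.helper6894
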