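/-
S18 leaf EPSFAM (helper1257): the family `y_i = f_i / eps_r` on the Hauptmodul lines `r = 2, 3`.

For an integral basis `D : helper5819.IntBasis N 2` of `S₂(Γ₀(N))` (`f_i = D.b i`, integer
`q`-expansions `D.B i`) and `r ∣ N`, the weight zero functions `y_i = f_i / eps_r`
(`eps₂ = a2Z`, `eps₃ = b3Z`, units of `ℤ⟦q⟧`) are integer power series with

* `coeffMap (Int.castRingHom ℚ) (ofZ y_i) ∈ modularFunctionFieldFull N` (and all base changes);
* reductions in `modularFunctionFieldFullC κ N` for residue fields `κ` of valuation rings over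
  `ℓ ∤ N`;
* linear independence over EVERY field;
* the certificate identities `y² (t₂ + 64) c = f²`, `y² (t₂ + 64) d = f² t₂`,
  `y³ (t₃ + 27)² d₃ = f³`, `y³ (t₃ + 27)² e₃ = f³ t₃²` in `ℤ((q))`.
-/
import Mathlib
import Fermat.Agent.S18.helper1257_HauptFormal
import Fermat.Agent.S18.helper4053_RatioFull
import Fermat.Agent.S18.helper5819_S2Red
import Fermat.Agent.S18.helper508_GaussMod
import Fermat.Agent.S18.helper6894_HauptTheta

set_option autoImplicit false

open UpperHalfPlane ModularForm CongruenceSubgroup ModularCurve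
open scoped MatrixGroups

namespace Fermat.Agent.S18.helper1257

open Fermat.Agent.S28.helper4768 (IsQExp ofPS toC G0)

noncomputable section

/-! ### `IsQExp` adapters -/

/-- Coefficient map `ℤ⟦q⟧ → ℚ⟦q⟧`. -/
abbrev toQ : PowerSeries ℤ →+* PowerSeries ℚ := PowerSeries.map (Int.castRingHom ℚ)

lemma toC_toQ (s : PowerSeries ℤ) : toC (toQ s) = toCZ s := by
  ext n
  simp [toC, toQ, toCZ]

/-- A modular form on `Γ₀(N)` whose `q`-expansion is the integer series `s`. -/
theorem isQExp_of_qexp {N : ℕ} {k : ℤ} (f : ModularForm (Gamma0 N) k) (s : PowerSeries ℤ)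
    (h : qExpansion 1 f = toCZ s) : IsQExp N k (toQ s) :=
  ⟨f, by rw [toC_toQ]; exact h⟩

theorem isQExp_a2Z : IsQExp 2 2 (toQ a2Z) := isQExp_of_qexp a2 a2Z qexp_a2

theorem isQExp_b3Z : IsQExp 3 2 (toQ b3Z) := isQExp_of_qexp b3 b3Z qexp_b3

theorem isQExp_c2Z : IsQExp 2 4 (toQ c2Z) := isQExp_of_qexp C2f c2Z qexp_C2f

theorem isQExp_d2Z : IsQExp 2 4 (toQ d2Z) := isQExp_of_qexp D2f d2Z qexp_D2f

theorem isQExp_c3Z : IsQExp 3 4 (toQ c3Z) := isQExp_of_qexp C3f c3Z qexp_C3f

theorem isQExp_n3Z : IsQExp 3 4 (toQ n3Z) := isQExp_of_qexp N3f n3Z qexp_N3f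

/-- The integral basis vectors have rational `q`-expansions. -/
theorem isQExp_B {N : ℕ} {k : ℤ} (D : helper5819.IntBasis N k) (i : Fin D.r) :
    IsQExp N k (toQ (D.B i)) :=
  ⟨ModularFormClass.modularForm (D.b i), by rw [toC_toQ]; exact D.qExpansion_eq i⟩

/-! ### The units `eps_r` -/

lemma constantCoeff_a2Z : PowerSeries.constantCoeff a2Z = 1 := by
  rw [← PowerSeries.coeff_zero_eq_constantCoeff_apply, a2Z, PowerSeries.coeff_mk, if_pos rfl]

/-- The inverse of `eps₂` in `ℤ⟦q⟧`. -/
def a2ZInv : PowerSeries ℤ := a2Z.invOfUnit 1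

/-- The inverse of `eps₃` in `ℤ⟦q⟧`. -/
def b3ZInv : PowerSeries ℤ := b3Z.invOfUnit 1

theorem a2Z_mul_a2ZInv : a2Z * a2ZInv = 1 :=
  PowerSeries.mul_invOfUnit _ _ (by rw [constantCoeff_a2Z]; rfl)

theorem b3Z_mul_b3ZInv : b3Z * b3ZInv = 1 :=
  PowerSeries.mul_invOfUnit _ _ (by rw [constantCoeff_b3Z]; rfl)

/-! ### Generic ratios `f_i / e` for a unit `e` of `ℤ⟦q⟧` -/

section Generic

variable {N : ℕ} {k : ℤ} (D : helper5819.IntBasis N k)

/-- The Laurent series of the basis vector over `R` is the image of the integer series. -/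
theorem laurent_eq_coeffMap (R : Type*) [CommRing R] (i : Fin D.r) :
    D.laurent R i = coeffMap (Int.castRingHom R) (ofZ (D.B i)) := by
  rw [coeffMap_ofPowerSeries]
  rfl

theorem laurent_int (i : Fin D.r) : D.laurent ℤ i = ofZ (D.B i) := by
  rw [helper5819.IntBasis.laurent, map_intCast_self]

/-- `coeffMap` to a field over `ℚ` factors through `ℚ`. -/
theorem coeffEmb_coeffMap_int (L : Type*) [Field L] [Algebra ℚ L] (z : LaurentSeries ℤ) :
    coeffEmb L (coeffMap (Int.castRingHom ℚ) z) = coeffMap (Int.castRingHom L) z := by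
  ext n
  rw [coeffEmb_coeff, coeffMap_coeff, coeffMap_coeff]
  simp

variable {D}

/-- **Membership, rational form**: `f_i / e ∈ ℚ(j(q^d) : d ∣ N)` for a unit `e` which is the
`q`-expansion of a form of the same weight on `Γ₀(r)`, `r ∣ N`. -/
theorem ratio_mem_full [NeZero N] {r : ℕ} (hr : r ∣ N) (i : Fin D.r) {e einv : PowerSeries ℤ}
    (he : e * einv = 1) (hq : IsQExp r k (toQ e)) :
    coeffMap (Int.castRingHom ℚ) (ofZ (D.B i * einv)) ∈ modularFunctionFieldFull N := by
  have hP : IsQExp N k (toQ (D.B i)) := isQExp_B D i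
  have hQ : IsQExp N k (toQ e) := helper4053.IsQExp.of_dvd hr hq
  have hQ0 : toQ e ≠ 0 := by
    intro h0
    have h1 := congrArg toQ he
    rw [map_mul, h0, zero_mul, map_one] at h1
    exact zero_ne_one h1
  refine helper4053.mem_full_of_isQExp hP hQ hQ0 ?_
  rw [coeffMap_ofPowerSeries, ← map_mul, ← map_mul, mul_assoc, mul_comm einv e, he, mul_one]

/-- **Membership over any field `L ⊇ ℚ`** (e.g. `L = ℚ̄`: `modularFunctionFieldBar N`). -/
theorem ratio_mem_baseChange [NeZero N] (L : Type*) [Field L] [Algebra ℚ L] {r : ℕ} (hr : r ∣ N)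
    (i : Fin D.r) {e einv : PowerSeries ℤ} (he : e * einv = 1) (hq : IsQExp r k (toQ e)) :
    coeffMap (Int.castRingHom L) (ofZ (D.B i * einv)) ∈
      laurentBaseChange L (modularFunctionFieldFull N) := by
  rw [← coeffEmb_coeffMap_int]
  exact coeffEmb_mem_laurentBaseChange L (ratio_mem_full hr i he hq)

end Generic

/-! ### Integer series on the special fibre -/

/-- An integer series of the rational function field, over any field `L ⊇ ℚ`. -/
theorem intSeries_mem_baseChange {N : ℕ} (L : Type*) [Field L] [Algebra ℚ L]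
    (z : LaurentSeries ℤ) (hz : coeffMap (Int.castRingHom ℚ) z ∈ modularFunctionFieldFull N) :
    coeffMap (Int.castRingHom L) z ∈ laurentBaseChange L (modularFunctionFieldFull N) := by
  rw [← coeffEmb_coeffMap_int]
  exact coeffEmb_mem_laurentBaseChange L hz

/-- **Reduction of integer series** (GAUSSMOD `(RED)` for integer series): an integer Laurent
series lying in the rational function field of level `N` reduces into the function field of the
special fibre at every valuation ring over a prime `ℓ ∤ N`. -/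
theorem intSeries_mem_fullC (N : ℕ) [NeZero N] (ℓ : ℕ) [Fact ℓ.Prime] (hℓN : ¬ ℓ ∣ N)
    {L : Type*} [Field L] [Algebra ℚ L] (A : ValuationSubring L) (hA : (ℓ : L) ∈ A.nonunits)
    (z : LaurentSeries ℤ) (hz : coeffMap (Int.castRingHom ℚ) z ∈ modularFunctionFieldFull N) :
    coeffMap (Int.castRingHom (IsLocalRing.ResidueField A)) z ∈
      modularFunctionFieldFullC (IsLocalRing.ResidueField A) N := by
  have h1 : coeffMap A.subtype (coeffMap (Int.castRingHom A) z)
      = coeffMap (Int.castRingHom L) z := by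
    ext n
    rw [coeffMap_coeff, coeffMap_coeff, coeffMap_coeff]
    simp
  have h2 : coeffMap (IsLocalRing.residue A) (coeffMap (Int.castRingHom A) z)
      = coeffMap (Int.castRingHom (IsLocalRing.ResidueField A)) z := by
    ext n
    rw [coeffMap_coeff, coeffMap_coeff, coeffMap_coeff]
    simp
  rw [← h2]
  apply helper508.coeffMap_residue_mem_fullC N ℓ hℓN A hA
  rw [h1]
  exact intSeries_mem_baseChange L z hz

/-- The `A`-integral lift used in `intSeries_mem_fullC`: its image in `L((q))`. -/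
theorem coeffMap_subtype_intSeries {L : Type*} [Field L] (A : ValuationSubring L)
    (z : LaurentSeries ℤ) :
    coeffMap A.subtype (coeffMap (Int.castRingHom A) z) = coeffMap (Int.castRingHom L) z := by
  ext n
  rw [coeffMap_coeff, coeffMap_coeff, coeffMap_coeff]
  simp

/-- The `A`-integral lift used in `intSeries_mem_fullC`: its reduction. -/
theorem coeffMap_residue_intSeries {L : Type*} [Field L] (A : ValuationSubring L)
    (z : LaurentSeries ℤ) :
    coeffMap (IsLocalRing.residue A) (coeffMap (Int.castRingHom A) z)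
      = coeffMap (Int.castRingHom (IsLocalRing.ResidueField A)) z := by
  ext n
  rw [coeffMap_coeff, coeffMap_coeff, coeffMap_coeff]
  simp

section Independence

variable {N : ℕ} {k : ℤ} (D : helper5819.IntBasis N k)

/-- The basis expansions are linearly independent over EVERY field. -/
theorem laurent_linearIndependent (K : Type*) [Field K] : LinearIndependent K (D.laurent K) := by
  obtain ⟨p, hp⟩ := CharP.exists K
  rcases CharP.char_is_prime_or_zero K p with hp' | hp'
  · have : Fact p.Prime := ⟨hp'⟩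
    exact D.laurent_linearIndependent_charP p K
  · subst hp'
    have := CharP.charP_to_charZero K
    exact D.laurent_linearIndependent_charZero K

/-- Explicit form (no module instance in the statement). -/
theorem laurent_indep (K : Type*) [Field K] (c : Fin D.r → K)
    (hc : ∑ i, HahnSeries.C (c i) * D.laurent K i = 0) : c = 0 := by
  funext i
  refine Fintype.linearIndependent_iff.mp (laurent_linearIndependent D K) c ?_ i
  rw [← hc]
  exact Finset.sum_congr rfl fun j _ => (HahnSeries.C_mul_eq_smul).symm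

variable {D}

/-- **Independence of the ratios over every field**, explicit form. -/
theorem ratio_indep (K : Type*) [Field K] {e einv : PowerSeries ℤ} (he : e * einv = 1)
    (c : Fin D.r → K)
    (hc : ∑ i, HahnSeries.C (c i) * coeffMap (Int.castRingHom K) (ofZ (D.B i * einv)) = 0) :
    c = 0 := by
  apply laurent_indep D K c
  have h1 : ∀ i, D.laurent K i
      = coeffMap (Int.castRingHom K) (ofZ (D.B i * einv)) * coeffMap (Int.castRingHom K) (ofZ e) := by
    intro i
    rw [laurent_eq_coeffMap, ← map_mul, ← map_mul, mul_assoc, mul_comm einv e, he, mul_one]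
  calc ∑ i, HahnSeries.C (c i) * D.laurent K i
      = (∑ i, HahnSeries.C (c i) * coeffMap (Int.castRingHom K) (ofZ (D.B i * einv)))
          * coeffMap (Int.castRingHom K) (ofZ e) := by
        rw [Finset.sum_mul]
        exact Finset.sum_congr rfl fun i _ => by rw [h1 i, mul_assoc]
    _ = 0 := by rw [hc, zero_mul]

/-- **Independence of the ratios over every field**, `LinearIndependent` form. -/
theorem ratio_linearIndependent (K : Type*) [Field K] {e einv : PowerSeries ℤ}
    (he : e * einv = 1) :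
    LinearIndependent K
      (fun i : Fin D.r => coeffMap (Int.castRingHom K) (ofZ (D.B i * einv))) := by
  rw [Fintype.linearIndependent_iff]
  intro c hc i
  refine congrFun (ratio_indep K he c ?_) i
  rw [← hc]
  exact Finset.sum_congr rfl fun j _ => HahnSeries.C_mul_eq_smul

end Independence

/-- A finite family of an intermediate field of `K((q))` which is independent in the explicit
sense is linearly independent (for the `K`-structure of the intermediate field). -/
theorem linearIndependent_of_indep {K : Type*} [Field K]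
    (F : IntermediateField K (LaurentSeries K)) {ι : Type*} [Fintype ι] (v : ι → F)
    (h : ∀ c : ι → K, ∑ i, HahnSeries.C (c i) * (v i : LaurentSeries K) = 0 → c = 0) :
    LinearIndependent K v := by
  rw [Fintype.linearIndependent_iff]
  intro c hc i
  refine congrFun (h c ?_) i
  have h1 := congrArg (Subtype.val : F → LaurentSeries K) hc
  rw [← IntermediateField.coe_val, map_sum] at h1
  simp only [IntermediateField.coe_val, IntermediateField.coe_smul, ZeroMemClass.coe_zero] at h1
  rw [← h1]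
  refine Finset.sum_congr rfl fun j _ => ?_
  rw [Algebra.smul_def, algebraMap_laurentSeries_eq_single]
  rfl

/-! ### The two families `y_i = f_i / eps_r`, `r = 2, 3` -/

section Family

variable {N : ℕ} (D : helper5819.IntBasis N 2)

/-- `y_i = f_i / eps₂` as an integer power series. -/
def y2Z (i : Fin D.r) : PowerSeries ℤ := D.B i * a2ZInv

/-- `y_i = f_i / eps₃` as an integer power series. -/
def y3Z (i : Fin D.r) : PowerSeries ℤ := D.B i * b3ZInv

theorem y2Z_mul (i : Fin D.r) : y2Z D i * a2Z = D.B i := by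
  rw [y2Z, mul_assoc, mul_comm a2ZInv, a2Z_mul_a2ZInv, mul_one]

theorem y3Z_mul (i : Fin D.r) : y3Z D i * b3Z = D.B i := by
  rw [y3Z, mul_assoc, mul_comm b3ZInv, b3Z_mul_b3ZInv, mul_one]

theorem ofZ_y2Z_mul (i : Fin D.r) : ofZ (y2Z D i) * ofZ a2Z = D.laurent ℤ i := by
  rw [← map_mul, y2Z_mul, laurent_int]

theorem ofZ_y3Z_mul (i : Fin D.r) : ofZ (y3Z D i) * ofZ b3Z = D.laurent ℤ i := by
  rw [← map_mul, y3Z_mul, laurent_int]

theorem constantCoeff_y2Z (i : Fin D.r) : PowerSeries.constantCoeff (y2Z D i) = 0 := by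
  rw [y2Z, map_mul, ← PowerSeries.coeff_zero_eq_constantCoeff_apply, D.constantCoeff_B i,
    zero_mul]

theorem constantCoeff_y3Z (i : Fin D.r) : PowerSeries.constantCoeff (y3Z D i) = 0 := by
  rw [y3Z, map_mul, ← PowerSeries.coeff_zero_eq_constantCoeff_apply, D.constantCoeff_B i,
    zero_mul]

/-! #### Membership in the function fields -/

theorem y2Z_mem_full [NeZero N] (h2 : 2 ∣ N) (i : Fin D.r) :
    coeffMap (Int.castRingHom ℚ) (ofZ (y2Z D i)) ∈ modularFunctionFieldFull N :=
  ratio_mem_full h2 i a2Z_mul_a2ZInv isQExp_a2Z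

theorem y3Z_mem_full [NeZero N] (h3 : 3 ∣ N) (i : Fin D.r) :
    coeffMap (Int.castRingHom ℚ) (ofZ (y3Z D i)) ∈ modularFunctionFieldFull N :=
  ratio_mem_full h3 i b3Z_mul_b3ZInv isQExp_b3Z

theorem y2Z_mem_baseChange [NeZero N] (L : Type*) [Field L] [Algebra ℚ L] (h2 : 2 ∣ N)
    (i : Fin D.r) :
    coeffMap (Int.castRingHom L) (ofZ (y2Z D i)) ∈
      laurentBaseChange L (modularFunctionFieldFull N) :=
  intSeries_mem_baseChange L _ (y2Z_mem_full D h2 i)

theorem y3Z_mem_baseChange [NeZero N] (L : Type*) [Field L] [Algebra ℚ L] (h3 : 3 ∣ N)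
    (i : Fin D.r) :
    coeffMap (Int.castRingHom L) (ofZ (y3Z D i)) ∈
      laurentBaseChange L (modularFunctionFieldFull N) :=
  intSeries_mem_baseChange L _ (y3Z_mem_full D h3 i)

theorem y2Z_mem_bar [NeZero N] (h2 : 2 ∣ N) (i : Fin D.r) :
    coeffMap (Int.castRingHom (AlgebraicClosure ℚ)) (ofZ (y2Z D i)) ∈ modularFunctionFieldBar N :=
  y2Z_mem_baseChange D _ h2 i

theorem y3Z_mem_bar [NeZero N] (h3 : 3 ∣ N) (i : Fin D.r) :
    coeffMap (Int.castRingHom (AlgebraicClosure ℚ)) (ofZ (y3Z D i)) ∈ modularFunctionFieldBar N :=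
  y3Z_mem_baseChange D _ h3 i

/-! #### Independence over every field -/

theorem y2Z_indep (K : Type*) [Field K] (c : Fin D.r → K)
    (hc : ∑ i, HahnSeries.C (c i) * coeffMap (Int.castRingHom K) (ofZ (y2Z D i)) = 0) : c = 0 :=
  ratio_indep K a2Z_mul_a2ZInv c hc

theorem y3Z_indep (K : Type*) [Field K] (c : Fin D.r → K)
    (hc : ∑ i, HahnSeries.C (c i) * coeffMap (Int.castRingHom K) (ofZ (y3Z D i)) = 0) : c = 0 :=
  ratio_indep K b3Z_mul_b3ZInv c hc

theorem y2Z_linearIndependent (K : Type*) [Field K] :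
    LinearIndependent K (fun i : Fin D.r => coeffMap (Int.castRingHom K) (ofZ (y2Z D i))) :=
  ratio_linearIndependent K a2Z_mul_a2ZInv

theorem y3Z_linearIndependent (K : Type*) [Field K] :
    LinearIndependent K (fun i : Fin D.r => coeffMap (Int.castRingHom K) (ofZ (y3Z D i))) :=
  ratio_linearIndependent K b3Z_mul_b3ZInv

/-! #### The certificate identities in `ℤ((q))` -/

/-- `(f/eps₂)² (t₂ + 64) · c = f²`  (`Z = F²/B` of CERT-R is `y² (t + 64)`). -/
theorem cert2_fin (i : Fin D.r) :
    ofZ (y2Z D i) ^ 2 * (t2Z + 64) * ofZ c2Z = D.laurent ℤ i ^ 2 := by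
  rw [← ofZ_y2Z_mul D i, mul_pow, ofZ_a2Z_sq]
  ring

/-- `(f/eps₂)² (t₂ + 64) · d = f² t₂`  (`Z' = F²/A` of CERT-R is `y² (1 + 64/t)`). -/
theorem cert2_inf (i : Fin D.r) :
    ofZ (y2Z D i) ^ 2 * (t2Z + 64) * ofZ d2Z = D.laurent ℤ i ^ 2 * t2Z := by
  rw [← t2Z_mul, ← cert2_fin D i]
  ring

/-- `e₃ = n² / eps₃ = d₃ t₃²` (`= η(q)¹⁸ / η(q³)⁶ = 1 - 18 q + ⋯`). -/
def e3Z : PowerSeries ℤ := n3Z ^ 2 * b3ZInv

theorem b3Z_mul_e3Z : b3Z * e3Z = n3Z ^ 2 := by
  rw [e3Z, mul_comm (n3Z ^ 2), ← mul_assoc, b3Z_mul_b3ZInv, one_mul]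

theorem ofZ_d3Z_mul_t3Z_sq : ofZ d3Z * t3Z ^ 2 = ofZ e3Z := by
  have h : d3Z = c3Z ^ 2 * b3ZInv := rfl
  rw [h, e3Z, map_mul, map_mul, map_pow, map_pow, ← t3Z_mul]
  ring

/-- `(f/eps₃)³ (t₃ + 27)² · d₃ = f³`. -/
theorem cert3_fin (i : Fin D.r) :
    ofZ (y3Z D i) ^ 3 * (t3Z + 27) ^ 2 * ofZ d3Z = D.laurent ℤ i ^ 3 := by
  rw [← ofZ_y3Z_mul D i, mul_pow, ofZ_b3Z_cube]
  ring

/-- `(f/eps₃)³ (t₃ + 27)² · e₃ = f³ t₃²`. -/
theorem cert3_inf (i : Fin D.r) :
    ofZ (y3Z D i) ^ 3 * (t3Z + 27) ^ 2 * ofZ e3Z = D.laurent ℤ i ^ 3 * t3Z ^ 2 := by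
  rw [← ofZ_d3Z_mul_t3Z_sq, ← cert3_fin D i]
  ring

/-! #### The same identities over an arbitrary commutative ring -/

variable (K : Type*) [CommRing K]

theorem cert2_fin_map (i : Fin D.r) :
    coeffMap (Int.castRingHom K) (ofZ (y2Z D i)) ^ 2 * (coeffMap (Int.castRingHom K) t2Z + 64)
      * coeffMap (Int.castRingHom K) (ofZ c2Z) = D.laurent K i ^ 2 := by
  have h := congrArg (coeffMap (Int.castRingHom K)) (cert2_fin D i)
  simpa only [map_mul, map_pow, map_add, map_ofNat, helper5819.IntBasis.coeffMap_laurent] using h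

theorem cert2_inf_map (i : Fin D.r) :
    coeffMap (Int.castRingHom K) (ofZ (y2Z D i)) ^ 2 * (coeffMap (Int.castRingHom K) t2Z + 64)
      * coeffMap (Int.castRingHom K) (ofZ d2Z)
      = D.laurent K i ^ 2 * coeffMap (Int.castRingHom K) t2Z := by
  have h := congrArg (coeffMap (Int.castRingHom K)) (cert2_inf D i)
  simpa only [map_mul, map_pow, map_add, map_ofNat, helper5819.IntBasis.coeffMap_laurent] using h

theorem cert3_fin_map (i : Fin D.r) :
    coeffMap (Int.castRingHom K) (ofZ (y3Z D i)) ^ 3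
      * (coeffMap (Int.castRingHom K) t3Z + 27) ^ 2
      * coeffMap (Int.castRingHom K) (ofZ d3Z) = D.laurent K i ^ 3 := by
  have h := congrArg (coeffMap (Int.castRingHom K)) (cert3_fin D i)
  simpa only [map_mul, map_pow, map_add, map_ofNat, helper5819.IntBasis.coeffMap_laurent] using h

theorem cert3_inf_map (i : Fin D.r) :
    coeffMap (Int.castRingHom K) (ofZ (y3Z D i)) ^ 3
      * (coeffMap (Int.castRingHom K) t3Z + 27) ^ 2
      * coeffMap (Int.castRingHom K) (ofZ e3Z)
      = D.laurent K i ^ 3 * coeffMap (Int.castRingHom K) t3Z ^ 2 := by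
  have h := congrArg (coeffMap (Int.castRingHom K)) (cert3_inf D i)
  simpa only [map_mul, map_pow, map_add, map_ofNat, helper5819.IntBasis.coeffMap_laurent] using h

/-- `y · eps₂ = f` over an arbitrary commutative ring. -/
theorem y2Z_mul_map (i : Fin D.r) :
    coeffMap (Int.castRingHom K) (ofZ (y2Z D i)) * coeffMap (Int.castRingHom K) (ofZ a2Z)
      = D.laurent K i := by
  rw [← map_mul, ofZ_y2Z_mul, helper5819.IntBasis.coeffMap_laurent]

/-- `y · eps₃ = f` over an arbitrary commutative ring. -/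
theorem y3Z_mul_map (i : Fin D.r) :
    coeffMap (Int.castRingHom K) (ofZ (y3Z D i)) * coeffMap (Int.castRingHom K) (ofZ b3Z)
      = D.laurent K i := by
  rw [← map_mul, ofZ_y3Z_mul, helper5819.IntBasis.coeffMap_laurent]

/-! #### The theta bridge `t · f = -(y · θ t)` (from helper6894's theta relation) -/

/-- `t₂ · f_i = -((f_i/eps₂) · θ(t₂))` over every commutative ring: the cusp form is
`φ · θ(t)` with `φ = -(f/eps₂)/t`. -/
theorem t2_mul_laurent (i : Fin D.r) :
    coeffMap (Int.castRingHom K) t2Z * D.laurent K i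
      = -(coeffMap (Int.castRingHom K) (ofZ (y2Z D i))
          * helper4801.theta (coeffMap (Int.castRingHom K) t2Z)) := by
  rw [helper6894.theta_coeffMap_t2Z, ← y2Z_mul_map D K i]
  ring

/-- `t₃ · f_i = -((f_i/eps₃) · θ(t₃))` over every commutative ring. -/
theorem t3_mul_laurent (i : Fin D.r) :
    coeffMap (Int.castRingHom K) t3Z * D.laurent K i
      = -(coeffMap (Int.castRingHom K) (ofZ (y3Z D i))
          * helper4801.theta (coeffMap (Int.castRingHom K) t3Z)) := by
  rw [helper6894.theta_coeffMap_t3Z, ← y3Z_mul_map D K i]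
  ring

end Family

/-! ### The Hauptmoduln themselves: membership and leading term over every ring -/

section Haupt

theorem toQ_c2Z_ne_zero : toQ c2Z ≠ 0 := by
  intro h
  have h1 := congrArg (PowerSeries.coeff 1) h
  rw [PowerSeries.coeff_map, coeff_c2Z_one] at h1
  simp at h1

theorem toQ_c3Z_ne_zero : toQ c3Z ≠ 0 := by
  intro h
  have h1 := congrArg (PowerSeries.coeff 1) h
  rw [PowerSeries.coeff_map, coeff_c3Z_one] at h1
  simp at h1

/-- `t₂ ∈ ℚ(j(q^d) : d ∣ N)` for `2 ∣ N`. -/
theorem t2Z_mem_full {N : ℕ} [NeZero N] (h2 : 2 ∣ N) :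
    coeffMap (Int.castRingHom ℚ) t2Z ∈ modularFunctionFieldFull N := by
  refine helper4053.mem_full_of_isQExp (helper4053.IsQExp.of_dvd h2 isQExp_d2Z)
    (helper4053.IsQExp.of_dvd h2 isQExp_c2Z) toQ_c2Z_ne_zero ?_
  have h := congrArg (coeffMap (Int.castRingHom ℚ)) t2Z_mul
  rwa [map_mul, coeffMap_ofPowerSeries, coeffMap_ofPowerSeries] at h

/-- `t₃ ∈ ℚ(j(q^d) : d ∣ N)` for `3 ∣ N`. -/
theorem t3Z_mem_full {N : ℕ} [NeZero N] (h3 : 3 ∣ N) :
    coeffMap (Int.castRingHom ℚ) t3Z ∈ modularFunctionFieldFull N := by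
  refine helper4053.mem_full_of_isQExp (helper4053.IsQExp.of_dvd h3 isQExp_n3Z)
    (helper4053.IsQExp.of_dvd h3 isQExp_c3Z) toQ_c3Z_ne_zero ?_
  have h := congrArg (coeffMap (Int.castRingHom ℚ)) t3Z_mul
  rwa [map_mul, coeffMap_ofPowerSeries, coeffMap_ofPowerSeries] at h

/-- Coefficients of `q⁻¹ · u` over an arbitrary commutative ring. -/
theorem coeff_single_mul_ofZ (K : Type*) [CommRing K] (u : PowerSeries ℤ) (n : ℤ) :
    (coeffMap (Int.castRingHom K) (HahnSeries.single (-1 : ℤ) (1 : ℤ) * ofZ u)).coeff n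
      = (HahnSeries.ofPowerSeries ℤ K (u.map (Int.castRingHom K))).coeff (n + 1) := by
  rw [map_mul, coeffMap_ofPowerSeries, coeffMap_single, map_one]
  have h := HahnSeries.coeff_single_mul_add (r := (1 : K))
    (x := HahnSeries.ofPowerSeries ℤ K (u.map (Int.castRingHom K))) (a := n + 1) (b := (-1 : ℤ))
  rw [one_mul] at h
  rw [← h]
  congr 1
  ring

theorem coeff_t2Z_map_neg_one (K : Type*) [CommRing K] :
    (coeffMap (Int.castRingHom K) t2Z).coeff (-1) = 1 := by
  rw [t2Z_eq_single_mul, coeff_single_mul_ofZ]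
  have : ((-1 : ℤ) + 1) = ((0 : ℕ) : ℤ) := by norm_num
  rw [this, HahnSeries.ofPowerSeries_apply_coeff, PowerSeries.coeff_map,
    PowerSeries.coeff_zero_eq_constantCoeff_apply, constantCoeff_u2Z]
  simp

theorem coeff_t3Z_map_neg_one (K : Type*) [CommRing K] :
    (coeffMap (Int.castRingHom K) t3Z).coeff (-1) = 1 := by
  rw [t3Z_eq_single_mul, coeff_single_mul_ofZ]
  have : ((-1 : ℤ) + 1) = ((0 : ℕ) : ℤ) := by norm_num
  rw [this, HahnSeries.ofPowerSeries_apply_coeff, PowerSeries.coeff_map,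
    PowerSeries.coeff_zero_eq_constantCoeff_apply, constantCoeff_u3Z]
  simp

theorem coeff_t2Z_map_of_lt (K : Type*) [CommRing K] {n : ℤ} (hn : n < -1) :
    (coeffMap (Int.castRingHom K) t2Z).coeff n = 0 := by
  rw [t2Z_eq_single_mul, coeff_single_mul_ofZ]
  exact ofPowerSeries_coeff_of_neg _ (by omega)

theorem coeff_t3Z_map_of_lt (K : Type*) [CommRing K] {n : ℤ} (hn : n < -1) :
    (coeffMap (Int.castRingHom K) t3Z).coeff n = 0 := by
  rw [t3Z_eq_single_mul, coeff_single_mul_ofZ]
  exact ofPowerSeries_coeff_of_neg _ (by omega)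

/-- `t₂` has a simple pole in `q` over every nontrivial commutative ring. -/
theorem order_t2Z_map (K : Type*) [CommRing K] [Nontrivial K] :
    (coeffMap (Int.castRingHom K) t2Z).order = -1 := by
  have h1 := coeff_t2Z_map_neg_one K
  have hne : coeffMap (Int.castRingHom K) t2Z ≠ 0 :=
    HahnSeries.ne_zero_of_coeff_ne_zero (g := (-1 : ℤ)) (by rw [h1]; exact one_ne_zero)
  apply le_antisymm
  · exact HahnSeries.order_le_of_coeff_ne_zero (by rw [h1]; exact one_ne_zero)
  · rw [HahnSeries.le_order_iff_forall hne]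
    intro j hj
    exact coeff_t2Z_map_of_lt K hj

/-- `t₃` has a simple pole in `q` over every nontrivial commutative ring. -/
theorem order_t3Z_map (K : Type*) [CommRing K] [Nontrivial K] :
    (coeffMap (Int.castRingHom K) t3Z).order = -1 := by
  have h1 := coeff_t3Z_map_neg_one K
  have hne : coeffMap (Int.castRingHom K) t3Z ≠ 0 :=
    HahnSeries.ne_zero_of_coeff_ne_zero (g := (-1 : ℤ)) (by rw [h1]; exact one_ne_zero)
  apply le_antisymm
  · exact HahnSeries.order_le_of_coeff_ne_zero (by rw [h1]; exact one_ne_zero)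
  · rw [HahnSeries.le_order_iff_forall hne]
    intro j hj
    exact coeff_t3Z_map_of_lt K hj

end Haupt

/-! ### The families on the special fibre -/

section Special

set_option synthInstance.maxHeartbeats 400000

variable (N : ℕ) [NeZero N] (ℓ : ℕ) [Fact ℓ.Prime] (hℓN : ¬ ℓ ∣ N)
  {L : Type*} [Field L] [Algebra ℚ L] (A : ValuationSubring L) (hA : (ℓ : L) ∈ A.nonunits)
  (D : helper5819.IntBasis N 2)

/-- `(f_i / eps₂)‾` as an element of the function field of the special fibre. -/
def y2Red (h2 : 2 ∣ N) (i : Fin D.r) :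
    modularFunctionFieldFullC (IsLocalRing.ResidueField A) N :=
  ⟨coeffMap (Int.castRingHom (IsLocalRing.ResidueField A)) (ofZ (y2Z D i)),
    intSeries_mem_fullC N ℓ hℓN A hA _ (y2Z_mem_full D h2 i)⟩

/-- `(f_i / eps₃)‾` as an element of the function field of the special fibre. -/
def y3Red (h3 : 3 ∣ N) (i : Fin D.r) :
    modularFunctionFieldFullC (IsLocalRing.ResidueField A) N :=
  ⟨coeffMap (Int.castRingHom (IsLocalRing.ResidueField A)) (ofZ (y3Z D i)),
    intSeries_mem_fullC N ℓ hℓN A hA _ (y3Z_mem_full D h3 i)⟩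

/-- `t̄₂` as an element of the function field of the special fibre. -/
def t2Red (h2 : 2 ∣ N) : modularFunctionFieldFullC (IsLocalRing.ResidueField A) N :=
  ⟨coeffMap (Int.castRingHom (IsLocalRing.ResidueField A)) t2Z,
    intSeries_mem_fullC N ℓ hℓN A hA _ (t2Z_mem_full h2)⟩

/-- `t̄₃` as an element of the function field of the special fibre. -/
def t3Red (h3 : 3 ∣ N) : modularFunctionFieldFullC (IsLocalRing.ResidueField A) N :=
  ⟨coeffMap (Int.castRingHom (IsLocalRing.ResidueField A)) t3Z,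
    intSeries_mem_fullC N ℓ hℓN A hA _ (t3Z_mem_full h3)⟩

theorem coe_t2Red (h2 : 2 ∣ N) :
    (t2Red N ℓ hℓN A hA h2 : LaurentSeries (IsLocalRing.ResidueField A))
      = coeffMap (Int.castRingHom (IsLocalRing.ResidueField A)) t2Z := rfl

theorem coe_t3Red (h3 : 3 ∣ N) :
    (t3Red N ℓ hℓN A hA h3 : LaurentSeries (IsLocalRing.ResidueField A))
      = coeffMap (Int.castRingHom (IsLocalRing.ResidueField A)) t3Z := rfl

theorem coe_y2Red (h2 : 2 ∣ N) (i : Fin D.r) :
    (y2Red N ℓ hℓN A hA D h2 i : LaurentSeries (IsLocalRing.ResidueField A))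
      = coeffMap (Int.castRingHom (IsLocalRing.ResidueField A)) (ofZ (y2Z D i)) := rfl

theorem coe_y3Red (h3 : 3 ∣ N) (i : Fin D.r) :
    (y3Red N ℓ hℓN A hA D h3 i : LaurentSeries (IsLocalRing.ResidueField A))
      = coeffMap (Int.castRingHom (IsLocalRing.ResidueField A)) (ofZ (y3Z D i)) := rfl

/-- The theta clause of `helper2707.HasCert` at `tb = t̄₂`, `η = (f_i/eps₂)‾`. -/
theorem t2Red_mul_laurent (h2 : 2 ∣ N) (i : Fin D.r) :
    (t2Red N ℓ hℓN A hA h2 : LaurentSeries (IsLocalRing.ResidueField A))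
        * D.laurent (IsLocalRing.ResidueField A) i
      = -((y2Red N ℓ hℓN A hA D h2 i : LaurentSeries (IsLocalRing.ResidueField A))
          * helper4801.theta (t2Red N ℓ hℓN A hA h2 : LaurentSeries (IsLocalRing.ResidueField A))) :=
  t2_mul_laurent D _ i

/-- The theta clause of `helper2707.HasCert` at `tb = t̄₃`, `η = (f_i/eps₃)‾`. -/
theorem t3Red_mul_laurent (h3 : 3 ∣ N) (i : Fin D.r) :
    (t3Red N ℓ hℓN A hA h3 : LaurentSeries (IsLocalRing.ResidueField A))
        * D.laurent (IsLocalRing.ResidueField A) i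
      = -((y3Red N ℓ hℓN A hA D h3 i : LaurentSeries (IsLocalRing.ResidueField A))
          * helper4801.theta (t3Red N ℓ hℓN A hA h3 : LaurentSeries (IsLocalRing.ResidueField A))) :=
  t3_mul_laurent D _ i

/-- `t̄₂` has a simple pole. -/
theorem order_t2Red (h2 : 2 ∣ N) :
    (t2Red N ℓ hℓN A hA h2 : LaurentSeries (IsLocalRing.ResidueField A)).order = -1 :=
  order_t2Z_map _

/-- `t̄₃` has a simple pole. -/
theorem order_t3Red (h3 : 3 ∣ N) :
    (t3Red N ℓ hℓN A hA h3 : LaurentSeries (IsLocalRing.ResidueField A)).order = -1 :=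
  order_t3Z_map _

theorem y2Red_linearIndependent (h2 : 2 ∣ N) :
    LinearIndependent (IsLocalRing.ResidueField A) (y2Red N ℓ hℓN A hA D h2) :=
  linearIndependent_of_indep _ _ fun c hc => y2Z_indep D _ c hc

theorem y3Red_linearIndependent (h3 : 3 ∣ N) :
    LinearIndependent (IsLocalRing.ResidueField A) (y3Red N ℓ hℓN A hA D h3) :=
  linearIndependent_of_indep _ _ fun c hc => y3Z_indep D _ c hc

/-- The span of the reduced family has dimension `dim S₂(Γ₀(N))`. -/
theorem finrank_span_y2Red (h2 : 2 ∣ N) :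
    Module.finrank (IsLocalRing.ResidueField A)
        (Submodule.span (IsLocalRing.ResidueField A) (Set.range (y2Red N ℓ hℓN A hA D h2)))
      = Module.finrank ℂ (CuspForm (Gamma0 N) 2) := by
  rw [finrank_span_eq_card (y2Red_linearIndependent N ℓ hℓN A hA D h2), Fintype.card_fin, D.r_eq]

/-- The span of the reduced family has dimension `dim S₂(Γ₀(N))`. -/
theorem finrank_span_y3Red (h3 : 3 ∣ N) :
    Module.finrank (IsLocalRing.ResidueField A)
        (Submodule.span (IsLocalRing.ResidueField A) (Set.range (y3Red N ℓ hℓN A hA D h3)))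
      = Module.finrank ℂ (CuspForm (Gamma0 N) 2) := by
  rw [finrank_span_eq_card (y3Red_linearIndependent N ℓ hℓN A hA D h3), Fintype.card_fin, D.r_eq]

end Special

end

end Fermat.Agent.S18.helper1257
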