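import Mathlib
import Fermat.Prelude.Def_ModularCurve_LaurentCoeff
import Fermat.Prelude.Def_ModularCurve_ArithmeticGalois

/-!
# S18, track B: constants of the Kummer extension over a number field (S18-NFCONST)

Track B works over a number field `K0 ⊆ ℚ̄` with the `K0`-form `F0(K0)` of the function field
`F̄` and the Kummer extension `L0 = F0(K0)(θ) ⊆ F̄(θ)`.  The Čech step needs that `K0` is
algebraically closed in `L0`.  This is *not* automatic (if `U = c0 * W ^ m` with `c0 ∈ K0` not an
`m`-th power, then `c0 ^ (1/m) ∈ L0`), but it holds as soon as the minimal polynomial of `θ` over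
`F̄` has its coefficients in `F0(K0)`, hence for all sufficiently large `K0`.

* `mem_of_algebraMap_mem_closure` : generic core, `S(θ) ∩ F = S` when `minpoly F θ` has
  coefficients in the subfield `S` of `F`.
* `exists_forall_mem_of_algebraMap_mem_closure` : directed-union form.
* `descentField` : the image in `L((q))` of `laurentBaseChange K0 F₀`, for `K0` an intermediate
  field of `L/ℚ`; closure description, monotonicity, exhaustion by finite-dimensional `K0`.
* `exists_constants_closed` : the concrete statement.
-/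

set_option autoImplicit false

noncomputable section

namespace Fermat.Agent.S18.helper296

open Polynomial

section Generic

variable {F Ω : Type*} [Field F] [Field Ω] [Algebra F Ω]

/-- **Generic core.** Let `S` be a subfield of `F` containing all coefficients of the minimal
polynomial of `θ` over `F` (`θ` algebraic over `F`).  Then `S(θ) ∩ F = S`: an element of `F` whose
image lies in the subfield of `Ω` generated by `S` and `θ` already lies in `S`. -/
theorem mem_of_algebraMap_mem_closure {θ : Ω} (hθ : IsIntegral F θ) (S : Subfield F)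
    (hS : ∀ n, (minpoly F θ).coeff n ∈ S) {y : F}
    (hy : algebraMap F Ω y ∈ Subfield.closure ((algebraMap F Ω) '' (S : Set F) ∪ {θ})) :
    y ∈ S := by
  classical
  -- the minimal polynomial lifts to a monic polynomial over `S`
  have hlift : minpoly F θ ∈ Polynomial.lifts (algebraMap S F) := by
    rw [Polynomial.lifts_iff_coeff_lifts]
    intro n
    exact ⟨⟨_, hS n⟩, rfl⟩
  obtain ⟨q, hqmap, -, hqmonic⟩ :=
    Polynomial.lifts_and_degree_eq_and_monic hlift (minpoly.monic hθ)
  -- `θ` is integral over `S`
  have hθS : IsIntegral S θ := by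
    refine ⟨q, hqmonic, ?_⟩
    have h := minpoly.aeval F θ
    rw [← hqmap, Polynomial.aeval_map_algebraMap] at h
    exact h
  -- the closure is contained in `S⟮θ⟯ = S[θ]`
  have hle : Subfield.closure ((algebraMap F Ω) '' (S : Set F) ∪ {θ}) ≤
      (IntermediateField.adjoin S {θ}).toSubfield := by
    rw [Subfield.closure_le]
    rintro z (⟨s, hs, rfl⟩ | hz)
    · exact (IntermediateField.adjoin S {θ}).algebraMap_mem (⟨s, hs⟩ : S)
    · rw [Set.mem_singleton_iff] at hz
      subst hz
      exact IntermediateField.mem_adjoin_simple_self S z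
  have hy' : algebraMap F Ω y ∈ (IntermediateField.adjoin S {θ}).toSubalgebra := hle hy
  rw [IntermediateField.adjoin_simple_toSubalgebra_of_isAlgebraic hθS.isAlgebraic,
    Algebra.adjoin_singleton_eq_range_aeval] at hy'
  obtain ⟨r, hr⟩ := hy'
  -- reduce `r` modulo `q`
  have hr' : Polynomial.aeval θ ((r %ₘ q).map (algebraMap S F)) = algebraMap F Ω y := by
    rw [Polynomial.aeval_map_algebraMap, ← hr]
    have hq0 : Polynomial.aeval θ q = 0 := by
      have h := minpoly.aeval F θ
      rw [← hqmap, Polynomial.aeval_map_algebraMap] at h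
      exact h
    conv_rhs => rw [← Polynomial.modByMonic_add_div r q]
    simp [hq0]
  -- the difference with the constant `y` has small degree and kills `θ`
  set g : F[X] := (r %ₘ q).map (algebraMap S F) - Polynomial.C y with hg
  have hg0 : Polynomial.aeval θ g = 0 := by
    rw [hg, map_sub, hr', Polynomial.aeval_C, sub_self]
  have hdeg : g.degree < (minpoly F θ).degree := by
    have h1 : ((r %ₘ q).map (algebraMap S F)).degree < (minpoly F θ).degree := by
      rw [← hqmap, Polynomial.degree_map, Polynomial.degree_map]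
      exact Polynomial.degree_modByMonic_lt r hqmonic
    have h2 : (Polynomial.C y).degree < (minpoly F θ).degree :=
      lt_of_le_of_lt Polynomial.degree_C_le (minpoly.degree_pos hθ)
    exact lt_of_le_of_lt (Polynomial.degree_sub_le _ _) (max_lt h1 h2)
  have hgz : g = 0 := by
    by_contra hne
    exact absurd (minpoly.degree_le_of_ne_zero F θ hne hg0) (not_le.mpr hdeg)
  have hy0 : y = algebraMap S F ((r %ₘ q).coeff 0) := by
    have h := congrArg (fun p : F[X] => p.coeff 0) hgz
    simp only [hg, Polynomial.coeff_sub, Polynomial.coeff_map, Polynomial.coeff_C_zero,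
      Polynomial.coeff_zero] at h
    exact (sub_eq_zero.mp h).symm
  rw [hy0]
  exact ((r %ₘ q).coeff 0).2

/-- **Directed-union form.** If `F` is the directed union of the subfields `FF i`, then for all
sufficiently large `i` one has `FF i (θ) ∩ F = FF i`. -/
theorem exists_forall_mem_of_algebraMap_mem_closure {θ : Ω} (hθ : IsIntegral F θ)
    {I : Type*} [Preorder I] [IsDirected I (· ≤ ·)] [Nonempty I]
    (FF : I → Subfield F) (hmono : Monotone FF) (hex : ∀ x : F, ∃ i, x ∈ FF i) :
    ∃ i₀, ∀ i, i₀ ≤ i → ∀ y : F,
      algebraMap F Ω y ∈ Subfield.closure ((algebraMap F Ω) '' (FF i : Set F) ∪ {θ}) →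
        y ∈ FF i := by
  classical
  choose idx hidx using hex
  obtain ⟨i₀, hi₀⟩ := Finset.exists_le
    ((Finset.range ((minpoly F θ).natDegree + 1)).image fun n => idx ((minpoly F θ).coeff n))
  refine ⟨i₀, fun i hi y hy => mem_of_algebraMap_mem_closure hθ (FF i) (fun n => ?_) hy⟩
  by_cases hn : n ≤ (minpoly F θ).natDegree
  · have h1 : idx ((minpoly F θ).coeff n) ≤ i₀ :=
      hi₀ _ (Finset.mem_image.mpr ⟨n, Finset.mem_range.mpr (Nat.lt_succ_of_le hn), rfl⟩)
    exact hmono (h1.trans hi) (hidx _)
  · rw [Polynomial.coeff_eq_zero_of_natDegree_lt (not_le.mp hn)]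
    exact zero_mem _

end Generic

section Concrete

open ModularCurve HahnSeries

variable (L : Type*) [Field L] [Algebra ℚ L] (F₀ : IntermediateField ℚ (LaurentSeries ℚ))

/-- The image in `L((q))` of the `K0`-form `laurentBaseChange K0 F₀` of the function field, under
the coefficientwise embedding `K0((q)) → L((q))`. -/
def descentField (K0 : IntermediateField ℚ L) : Subfield (LaurentSeries L) :=
  (laurentBaseChange K0 F₀).toSubfield.map (coeffMap (algebraMap K0 L))

variable {L F₀}

theorem mem_descentField_iff {K0 : IntermediateField ℚ L} {x : LaurentSeries L} :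
    x ∈ descentField L F₀ K0 ↔
      ∃ x0 ∈ laurentBaseChange K0 F₀, coeffMap (algebraMap K0 L) x0 = x :=
  Iff.rfl

theorem coeffMap_mem_descentField {K0 : IntermediateField ℚ L} {x0 : LaurentSeries K0}
    (hx0 : x0 ∈ laurentBaseChange K0 F₀) :
    coeffMap (algebraMap K0 L) x0 ∈ descentField L F₀ K0 :=
  ⟨x0, hx0, rfl⟩

variable (L F₀) in
/-- `descentField` is the subfield of `L((q))` generated by the constants of `K0` and the
rational function field `F₀`. -/
theorem descentField_eq_closure (K0 : IntermediateField ℚ L) :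
    descentField L F₀ K0 =
      Subfield.closure ((algebraMap L (LaurentSeries L)) '' (K0 : Set L) ∪
        (⇑(coeffEmb L) '' (F₀ : Set (LaurentSeries ℚ)))) := by
  rw [descentField, laurentBaseChange, IntermediateField.adjoin_toSubfield,
    RingHom.map_field_closure, Set.image_union]
  congr 2
  · ext x
    constructor
    · rintro ⟨_, ⟨c, rfl⟩, rfl⟩
      refine ⟨(c : L), c.2, ?_⟩
      rw [algebraMap_laurentSeries_eq_single, algebraMap_laurentSeries_eq_single, coeffMap_single]
      rfl
    · rintro ⟨c, hc, rfl⟩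
      refine ⟨_, ⟨(⟨c, hc⟩ : K0), rfl⟩, ?_⟩
      rw [algebraMap_laurentSeries_eq_single, algebraMap_laurentSeries_eq_single, coeffMap_single]
      rfl
  · have hcomp : ∀ z : LaurentSeries ℚ,
        coeffMap (algebraMap K0 L) (coeffEmb K0 z) = coeffEmb L z := by
      intro z
      rw [coeffEmb, coeffMap_coeffMap, coeffEmb]
      exact coeffMap_congr (IsScalarTower.algebraMap_eq ℚ K0 L).symm z
    ext x
    constructor
    · rintro ⟨_, ⟨z, hz, rfl⟩, rfl⟩
      exact ⟨z, hz, (hcomp z).symm⟩
    · rintro ⟨z, hz, rfl⟩
      exact ⟨_, ⟨z, hz, rfl⟩, hcomp z⟩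

theorem descentField_mono {K0 K0' : IntermediateField ℚ L} (h : K0 ≤ K0') :
    descentField L F₀ K0 ≤ descentField L F₀ K0' := by
  rw [descentField_eq_closure, descentField_eq_closure]
  exact Subfield.closure_mono (Set.union_subset_union_left _ (Set.image_mono h))

theorem descentField_le (K0 : IntermediateField ℚ L) :
    descentField L F₀ K0 ≤ (laurentBaseChange L F₀).toSubfield := by
  rw [descentField_eq_closure, laurentBaseChange, IntermediateField.adjoin_toSubfield]
  exact Subfield.closure_mono (Set.union_subset_union_left _ (Set.image_subset_range _ _))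

/-- A constant of `L` lying in `descentField L F₀ K0` lies in `K0`. -/
theorem mem_of_algebraMap_mem_descentField {K0 : IntermediateField ℚ L} {c : L}
    (hc : algebraMap L (LaurentSeries L) c ∈ descentField L F₀ K0) : c ∈ K0 := by
  obtain ⟨x0, -, hx0⟩ := hc
  have h := congrArg (fun s : LaurentSeries L => s.coeff 0) hx0
  simp only [coeffMap_coeff, algebraMap_laurentSeries_eq_single, HahnSeries.coeff_single_same] at h
  rw [← h]
  exact (x0.coeff 0).2

/-- **Exhaustion.** If `L/ℚ` is algebraic, every element of `laurentBaseChange L F₀` is defined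
over a finite-dimensional intermediate field `K0`. -/
theorem exists_finiteDimensional_mem_descentField [Algebra.IsAlgebraic ℚ L]
    {x : LaurentSeries L} (hx : x ∈ laurentBaseChange L F₀) :
    ∃ K0 : IntermediateField ℚ L, FiniteDimensional ℚ K0 ∧ x ∈ descentField L F₀ K0 := by
  rw [mem_laurentBaseChange_iff] at hx
  induction hx using Subfield.closure_induction with
  | mem y hy =>
      rcases hy with ⟨c, rfl⟩ | ⟨z, hz, rfl⟩
      · refine ⟨IntermediateField.adjoin ℚ {c},
          IntermediateField.adjoin.finiteDimensional (Algebra.IsIntegral.isIntegral c), ?_⟩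
        rw [descentField_eq_closure]
        exact Subfield.subset_closure
          (Or.inl ⟨c, IntermediateField.mem_adjoin_simple_self ℚ c, rfl⟩)
      · refine ⟨⊥, inferInstance, ?_⟩
        rw [descentField_eq_closure]
        exact Subfield.subset_closure (Or.inr ⟨z, hz, rfl⟩)
  | one => exact ⟨⊥, inferInstance, one_mem _⟩
  | add x y _ _ hx hy =>
      obtain ⟨K, hK, hxK⟩ := hx
      obtain ⟨K', hK', hyK⟩ := hy
      exact ⟨K ⊔ K', inferInstance,
        add_mem (descentField_mono le_sup_left hxK) (descentField_mono le_sup_right hyK)⟩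
  | neg x _ hx =>
      obtain ⟨K, hK, hxK⟩ := hx
      exact ⟨K, hK, neg_mem hxK⟩
  | inv x _ hx =>
      obtain ⟨K, hK, hxK⟩ := hx
      exact ⟨K, hK, inv_mem hxK⟩
  | mul x y _ _ hx hy =>
      obtain ⟨K, hK, hxK⟩ := hx
      obtain ⟨K', hK', hyK⟩ := hy
      exact ⟨K ⊔ K', inferInstance,
        mul_mem (descentField_mono le_sup_left hxK) (descentField_mono le_sup_right hyK)⟩

variable (L F₀) in
/-- The `K0`-form as a subfield of the type `↥(laurentBaseChange L F₀)`. -/
def descentSubfield (K0 : IntermediateField ℚ L) : Subfield (laurentBaseChange L F₀) :=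
  (descentField L F₀ K0).comap (algebraMap (laurentBaseChange L F₀) (LaurentSeries L))

theorem mem_descentSubfield_iff {K0 : IntermediateField ℚ L} {y : laurentBaseChange L F₀} :
    y ∈ descentSubfield L F₀ K0 ↔ (y : LaurentSeries L) ∈ descentField L F₀ K0 :=
  Iff.rfl

theorem descentSubfield_mono {K0 K0' : IntermediateField ℚ L} (h : K0 ≤ K0') :
    descentSubfield L F₀ K0 ≤ descentSubfield L F₀ K0' :=
  fun _ hy => descentField_mono h hy

/-- Finitely many elements of `laurentBaseChange L F₀` are defined over one finite-dimensional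
intermediate field. -/
theorem exists_finiteDimensional_forall_mem_descentSubfield [Algebra.IsAlgebraic ℚ L]
    (s : Finset (laurentBaseChange L F₀)) :
    ∃ K0 : IntermediateField ℚ L, FiniteDimensional ℚ K0 ∧
      ∀ y ∈ s, y ∈ descentSubfield L F₀ K0 := by
  classical
  induction s using Finset.induction_on with
  | empty => exact ⟨⊥, inferInstance, fun y hy => absurd hy (Finset.notMem_empty y)⟩
  | insert a s _ ih =>
      obtain ⟨K, hK, hs⟩ := ih
      obtain ⟨K', hK', ha⟩ := exists_finiteDimensional_mem_descentField (F₀ := F₀) a.2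
      refine ⟨K ⊔ K', inferInstance, fun y hy => ?_⟩
      rcases Finset.mem_insert.mp hy with rfl | hy
      · exact descentSubfield_mono le_sup_right ha
      · exact descentSubfield_mono le_sup_left (hs y hy)

/-- **S18-NFCONST.** Let `Ω` be a field over `F̄ = laurentBaseChange L F₀` (`L/ℚ` algebraic) and
`θ : Ω` algebraic over `F̄`.  There is a finite-dimensional `Kmin` (containing any prescribed
finite-dimensional `K1`) such that for every `K0 ≥ Kmin`, with `F0(K0) = descentSubfield L F₀ K0`
and `L0 = F0(K0)(θ)` (the subfield of `Ω` generated by `F0(K0)` and `θ`):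

* `L0 ∩ F̄ = F0(K0)`;
* the constants of `L` lying in `L0` lie in `K0`. -/
theorem exists_constants_closed [Algebra.IsAlgebraic ℚ L]
    {Ω : Type*} [Field Ω] [Algebra (laurentBaseChange L F₀) Ω] {θ : Ω}
    (hθ : IsIntegral (laurentBaseChange L F₀) θ)
    (K1 : IntermediateField ℚ L) [FiniteDimensional ℚ K1] :
    ∃ Kmin : IntermediateField ℚ L, K1 ≤ Kmin ∧ FiniteDimensional ℚ Kmin ∧
      ∀ K0 : IntermediateField ℚ L, Kmin ≤ K0 →
        (∀ y : laurentBaseChange L F₀,
          algebraMap (laurentBaseChange L F₀) Ω y ∈ Subfield.closure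
            ((algebraMap (laurentBaseChange L F₀) Ω) '' (descentSubfield L F₀ K0 : Set _) ∪ {θ}) →
          y ∈ descentSubfield L F₀ K0) ∧
        (∀ c : L,
          algebraMap (laurentBaseChange L F₀) Ω (algebraMap L (laurentBaseChange L F₀) c) ∈
            Subfield.closure
              ((algebraMap (laurentBaseChange L F₀) Ω) '' (descentSubfield L F₀ K0 : Set _) ∪
                {θ}) →
          c ∈ K0) := by
  classical
  obtain ⟨K, hK, hKs⟩ := exists_finiteDimensional_forall_mem_descentSubfield (L := L) (F₀ := F₀)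
    ((Finset.range ((minpoly (laurentBaseChange L F₀) θ).natDegree + 1)).image
      fun n => (minpoly (laurentBaseChange L F₀) θ).coeff n)
  refine ⟨K1 ⊔ K, le_sup_left, inferInstance, fun K0 hK0 => ?_⟩
  have hcoeff : ∀ n, (minpoly (laurentBaseChange L F₀) θ).coeff n ∈ descentSubfield L F₀ K0 := by
    intro n
    by_cases hn : n ≤ (minpoly (laurentBaseChange L F₀) θ).natDegree
    · exact descentSubfield_mono (le_sup_right.trans hK0)
        (hKs _ (Finset.mem_image.mpr ⟨n, Finset.mem_range.mpr (Nat.lt_succ_of_le hn), rfl⟩))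
    · rw [Polynomial.coeff_eq_zero_of_natDegree_lt (not_le.mp hn)]
      exact zero_mem _
  have key : ∀ y : laurentBaseChange L F₀,
      algebraMap (laurentBaseChange L F₀) Ω y ∈ Subfield.closure
        ((algebraMap (laurentBaseChange L F₀) Ω) '' (descentSubfield L F₀ K0 : Set _) ∪ {θ}) →
      y ∈ descentSubfield L F₀ K0 :=
    fun y hy => mem_of_algebraMap_mem_closure hθ (descentSubfield L F₀ K0) hcoeff hy
  exact ⟨key, fun c hc => mem_of_algebraMap_mem_descentField (F₀ := F₀) (key _ hc)⟩

/-- Consumer form of `exists_constants_closed` for an algebraically closed `L`: every element of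
`L0 = F0(K0)(θ)` which is algebraic over `L` is a constant of `K0`. -/
theorem exists_constants_closed_of_isAlgClosed [Algebra.IsAlgebraic ℚ L] [IsAlgClosed L]
    {Ω : Type*} [Field Ω] [Algebra (laurentBaseChange L F₀) Ω] [Algebra L Ω]
    [IsScalarTower L (laurentBaseChange L F₀) Ω] {θ : Ω}
    (hθ : IsIntegral (laurentBaseChange L F₀) θ)
    (K1 : IntermediateField ℚ L) [FiniteDimensional ℚ K1] :
    ∃ Kmin : IntermediateField ℚ L, K1 ≤ Kmin ∧ FiniteDimensional ℚ Kmin ∧
      ∀ K0 : IntermediateField ℚ L, Kmin ≤ K0 →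
        ∀ z ∈ Subfield.closure
            ((algebraMap (laurentBaseChange L F₀) Ω) '' (descentSubfield L F₀ K0 : Set _) ∪ {θ}),
          IsAlgebraic L z → ∃ c ∈ K0, z = algebraMap L Ω c := by
  obtain ⟨Kmin, h1, hfin, hK⟩ := exists_constants_closed (F₀ := F₀) hθ K1
  refine ⟨Kmin, h1, hfin, fun K0 hK0 z hz hzalg => ?_⟩
  have hzint : IsIntegral L z := hzalg.isIntegral
  have hdeg : (minpoly L z).degree = 1 :=
    IsAlgClosed.degree_eq_one_of_irreducible L (minpoly.irreducible hzint)
  obtain ⟨c, rfl⟩ := minpoly.mem_range_of_degree_eq_one L z hdeg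
  refine ⟨c, (hK K0 hK0).2 c ?_, rfl⟩
  rwa [← IsScalarTower.algebraMap_apply L (laurentBaseChange L F₀) Ω]

end Concrete

section Modular

open ModularCurve

/-- `ℚ̄` is algebraic over `ℚ` for the `ℚ`-algebra structure used by the Prelude
(`DivisionRing.toRatAlgebra`). -/
theorem isAlgebraic_rat_algebraicClosure :
    @Algebra.IsAlgebraic ℚ (AlgebraicClosure ℚ) _ _ DivisionRing.toRatAlgebra := by
  have h : (DivisionRing.toRatAlgebra : Algebra ℚ (AlgebraicClosure ℚ)) =
      AlgebraicClosure.instAlgebra ℚ := Subsingleton.elim _ _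
  rw [h]
  infer_instance

/-- **S18-NFCONST, modular instance.** `F̄ = modularFunctionFieldBar N`, `Ω` a field over `F̄`,
`θ : Ω` with `θ ^ m = U ∈ F̄`, `m ≠ 0`.  There is a number field `Kmin ⊆ ℚ̄` (containing any
prescribed number field `K1`) such that for every intermediate field `K0 ≥ Kmin`, with
`F0(K0) = descentSubfield ℚ̄ (modularFunctionFieldFull N) K0` (the image of
`laurentBaseChange K0 (modularFunctionFieldFull N)`) and `L0 = F0(K0)(θ)`:

* `L0 ∩ F̄ = F0(K0)`;
* every element of `L0` algebraic over `ℚ̄` is a constant of `K0`. -/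
theorem exists_constants_closed_kummer (N : ℕ) {Ω : Type*} [Field Ω]
    [Algebra (modularFunctionFieldBar N) Ω] [Algebra (AlgebraicClosure ℚ) Ω]
    [IsScalarTower (AlgebraicClosure ℚ) (modularFunctionFieldBar N) Ω]
    {θ : Ω} {m : ℕ} (hm : m ≠ 0) {U : modularFunctionFieldBar N}
    (hθ : θ ^ m = algebraMap (modularFunctionFieldBar N) Ω U)
    (K1 : IntermediateField ℚ (AlgebraicClosure ℚ)) [FiniteDimensional ℚ K1] :
    ∃ Kmin : IntermediateField ℚ (AlgebraicClosure ℚ), K1 ≤ Kmin ∧ FiniteDimensional ℚ Kmin ∧
      ∀ K0 : IntermediateField ℚ (AlgebraicClosure ℚ), Kmin ≤ K0 →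
        (∀ y : modularFunctionFieldBar N,
          algebraMap (modularFunctionFieldBar N) Ω y ∈ Subfield.closure
            ((algebraMap (modularFunctionFieldBar N) Ω) ''
              (descentSubfield (AlgebraicClosure ℚ) (modularFunctionFieldFull N) K0 : Set _) ∪
                {θ}) →
          y ∈ descentSubfield (AlgebraicClosure ℚ) (modularFunctionFieldFull N) K0) ∧
        (∀ z ∈ Subfield.closure
            ((algebraMap (modularFunctionFieldBar N) Ω) ''
              (descentSubfield (AlgebraicClosure ℚ) (modularFunctionFieldFull N) K0 : Set _) ∪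
                {θ}),
          IsAlgebraic (AlgebraicClosure ℚ) z →
            ∃ c ∈ K0, z = algebraMap (AlgebraicClosure ℚ) Ω c) := by
  have := isAlgebraic_rat_algebraicClosure
  have hint : IsIntegral (modularFunctionFieldBar N) θ :=
    ⟨Polynomial.X ^ m - Polynomial.C U, Polynomial.monic_X_pow_sub_C U hm, by simp [hθ]⟩
  obtain ⟨Kmin, h1, hfin, hK⟩ :=
    exists_constants_closed (L := AlgebraicClosure ℚ) (F₀ := modularFunctionFieldFull N) hint K1
  refine ⟨Kmin, h1, hfin, fun K0 hK0 => ⟨(hK K0 hK0).1, fun z hz hzalg => ?_⟩⟩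
  have hzint : IsIntegral (AlgebraicClosure ℚ) z := hzalg.isIntegral
  have hdeg : (minpoly (AlgebraicClosure ℚ) z).degree = 1 :=
    IsAlgClosed.degree_eq_one_of_irreducible (AlgebraicClosure ℚ) (minpoly.irreducible hzint)
  obtain ⟨c, rfl⟩ := minpoly.mem_range_of_degree_eq_one (AlgebraicClosure ℚ) z hdeg
  refine ⟨c, (hK K0 hK0).2 c ?_, rfl⟩
  rwa [← IsScalarTower.algebraMap_apply (AlgebraicClosure ℚ) (modularFunctionFieldBar N) Ω]

end Modular

end Fermat.Agent.S18.helper296
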