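import Mathlib
import Fermat.Prelude.Def_ModularCurve_X0ModL

/-!
# S18-NFDESC (backup implementation): descent from `(ℚ̄, A)` to a number field with a DVR

Generic in a field `L` algebraic over `ℚ` with a valuation subring `A`.

* `exists_coeffMap_eq` : lifting a Laurent series along a ring hom (coefficients in the range).
* `DefinedOver`, `exists_definedOver`, `exists_definedOver_finset` : (N2) field descent of
  elements of `laurentBaseChange L F₀` to a finite level `K₀`.
* `exists_series_descent` : (N3) descent of an `A`-integral series.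
* `comapHom`, `resMap`, `towerHom`, `resTower` : (N4) the residue maps.
* `exists_resDefinedOver` : (N5) descent on the residue side.
-/

set_option autoImplicit false

noncomputable section

namespace Fermat.Agent.S18.helper4661

open ModularCurve IntermediateField

/-! ## Part 0: generic coefficient-map lemmas -/

section Generic

variable {R S : Type*} [CommRing R] [CommRing S]

/-- Lifting a Laurent series along a ring hom when all coefficients are in the range. -/
theorem exists_coeffMap_eq (f : R →+* S) (x : LaurentSeries S)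
    (h : ∀ k, x.coeff k ∈ f.range) : ∃ y : LaurentSeries R, coeffMap f y = x := by
  classical
  choose c hc using h
  refine ⟨⟨fun k => if x.coeff k = 0 then 0 else c k, ?_⟩, ?_⟩
  · refine x.isPWO_support.mono ?_
    intro k hk
    simp only [Function.mem_support, ne_eq, ite_eq_left_iff, not_forall] at hk
    obtain ⟨h1, _⟩ := hk
    exact h1
  · ext k
    simp only [coeffMap_coeff]
    by_cases h0 : x.coeff k = 0
    · simp [h0]
    · simp [h0, hc]

theorem coeffMap_injective {f : R →+* S} (hf : Function.Injective f) :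
    Function.Injective (coeffMap f) := by
  intro x y hxy
  ext k
  apply hf
  have := congrArg (fun z => z.coeff k) hxy
  simpa using this

end Generic

section Fields

variable {K K' : Type*} [Field K] [Field K']

theorem coeffMap_algebraMap' (φ : K →+* K') (c : K) :
    coeffMap φ (algebraMap K (LaurentSeries K) c) = algebraMap K' (LaurentSeries K') (φ c) := by
  rw [algebraMap_laurentSeries_eq_single, algebraMap_laurentSeries_eq_single, coeffMap_single]

variable [Algebra ℚ K] [Algebra ℚ K']

theorem coeffMap_coeffEmb' (φ : K →+* K') (x : LaurentSeries ℚ) :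
    coeffMap φ (coeffEmb K x) = coeffEmb K' x := by
  rw [coeffEmb, coeffMap_coeffMap]
  exact coeffMap_congr (RingHom.ext_rat _ _) x

theorem coeffMap_mem_laurentBaseChange' (F₀ : IntermediateField ℚ (LaurentSeries ℚ))
    (φ : K →+* K') {x : LaurentSeries K} (hx : x ∈ laurentBaseChange K F₀) :
    coeffMap φ x ∈ laurentBaseChange K' F₀ := by
  rw [mem_laurentBaseChange_iff] at hx
  induction hx using Subfield.closure_induction with
  | mem y hy =>
      rcases hy with ⟨a, rfl⟩ | ⟨z, hz, rfl⟩
      · rw [coeffMap_algebraMap']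
        exact (laurentBaseChange K' F₀).algebraMap_mem _
      · rw [coeffMap_coeffEmb']
        exact coeffEmb_mem_laurentBaseChange K' hz
  | one => simp
  | add x y _ _ hx hy => simpa using add_mem hx hy
  | neg x _ hx => simpa using neg_mem hx
  | inv x _ hx => simpa using inv_mem hx
  | mul x y _ _ hx hy => simpa using mul_mem hx hy

end Fields


/-! ## Part 1 (N2): field descent of elements of `laurentBaseChange L F₀` -/

section FieldDescent

variable {L : Type*} [Field L] [Algebra ℚ L]
variable (F₀ : IntermediateField ℚ (LaurentSeries ℚ))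

/-- `x : L((q))` comes from an element of `laurentBaseChange K₀ F₀`. -/
def DefinedOver (K₀ : IntermediateField ℚ L) (x : LaurentSeries L) : Prop :=
  ∃ x₀ : LaurentSeries K₀, x₀ ∈ laurentBaseChange K₀ F₀ ∧ coeffMap (algebraMap K₀ L) x₀ = x

variable {F₀}

/-- The inclusion of intermediate fields as a plain ring hom (no `ℚ`-algebra instances). -/
def inclHom {K₀ K₁ : IntermediateField ℚ L} (h : K₀ ≤ K₁) : ↥K₀ →+* ↥K₁ where
  toFun x := ⟨x.1, h x.2⟩
  map_one' := rfl
  map_mul' _ _ := rfl
  map_zero' := rfl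
  map_add' _ _ := rfl

@[simp]
theorem inclHom_coe {K₀ K₁ : IntermediateField ℚ L} (h : K₀ ≤ K₁) (x : K₀) :
    ((inclHom h x : K₁) : L) = x := rfl

theorem DefinedOver.mem {K₀ : IntermediateField ℚ L} {x : LaurentSeries L}
    (hx : DefinedOver F₀ K₀ x) : x ∈ laurentBaseChange L F₀ := by
  obtain ⟨x₀, hx₀, rfl⟩ := hx
  exact coeffMap_mem_laurentBaseChange' F₀ _ hx₀

theorem DefinedOver.mono {K₀ K₁ : IntermediateField ℚ L} (h : K₀ ≤ K₁) {x : LaurentSeries L}
    (hx : DefinedOver F₀ K₀ x) : DefinedOver F₀ K₁ x := by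
  obtain ⟨x₀, hx₀, rfl⟩ := hx
  refine ⟨coeffMap (inclHom h) x₀,
    coeffMap_mem_laurentBaseChange' F₀ _ hx₀, ?_⟩
  rw [coeffMap_coeffMap]
  exact coeffMap_congr (RingHom.ext fun c => rfl) x₀

theorem DefinedOver.add {K₀ : IntermediateField ℚ L} {x y : LaurentSeries L}
    (hx : DefinedOver F₀ K₀ x) (hy : DefinedOver F₀ K₀ y) : DefinedOver F₀ K₀ (x + y) := by
  obtain ⟨x₀, hx₀, rfl⟩ := hx
  obtain ⟨y₀, hy₀, rfl⟩ := hy
  exact ⟨x₀ + y₀, add_mem hx₀ hy₀, map_add _ _ _⟩

theorem DefinedOver.mul {K₀ : IntermediateField ℚ L} {x y : LaurentSeries L}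
    (hx : DefinedOver F₀ K₀ x) (hy : DefinedOver F₀ K₀ y) : DefinedOver F₀ K₀ (x * y) := by
  obtain ⟨x₀, hx₀, rfl⟩ := hx
  obtain ⟨y₀, hy₀, rfl⟩ := hy
  exact ⟨x₀ * y₀, mul_mem hx₀ hy₀, map_mul _ _ _⟩

theorem DefinedOver.neg {K₀ : IntermediateField ℚ L} {x : LaurentSeries L}
    (hx : DefinedOver F₀ K₀ x) : DefinedOver F₀ K₀ (-x) := by
  obtain ⟨x₀, hx₀, rfl⟩ := hx
  exact ⟨-x₀, neg_mem hx₀, map_neg _ _⟩

theorem DefinedOver.inv {K₀ : IntermediateField ℚ L} {x : LaurentSeries L}
    (hx : DefinedOver F₀ K₀ x) : DefinedOver F₀ K₀ x⁻¹ := by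
  obtain ⟨x₀, hx₀, rfl⟩ := hx
  exact ⟨x₀⁻¹, inv_mem hx₀, map_inv₀ _ _⟩

theorem DefinedOver.one (K₀ : IntermediateField ℚ L) : DefinedOver F₀ K₀ (1 : LaurentSeries L) :=
  ⟨1, one_mem _, map_one _⟩

theorem DefinedOver.const {K₀ : IntermediateField ℚ L} {a : L} (ha : a ∈ K₀) :
    DefinedOver F₀ K₀ (algebraMap L (LaurentSeries L) a) :=
  ⟨algebraMap K₀ (LaurentSeries K₀) ⟨a, ha⟩, IntermediateField.algebraMap_mem _ _, by
    rw [coeffMap_algebraMap']; rfl⟩

theorem DefinedOver.coeffEmb (K₀ : IntermediateField ℚ L) {z : LaurentSeries ℚ} (hz : z ∈ F₀) :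
    DefinedOver F₀ K₀ (coeffEmb L z) :=
  ⟨ModularCurve.coeffEmb K₀ z, coeffEmb_mem_laurentBaseChange _ hz, coeffMap_coeffEmb' _ z⟩

/-- **(N2)** every element of `laurentBaseChange L F₀` is defined over a finite level. -/
theorem exists_definedOver [Algebra.IsAlgebraic ℚ L] {x : LaurentSeries L}
    (hx : x ∈ laurentBaseChange L F₀) :
    ∃ K₀ : IntermediateField ℚ L, FiniteDimensional ℚ K₀ ∧ DefinedOver F₀ K₀ x := by
  rw [mem_laurentBaseChange_iff] at hx
  induction hx using Subfield.closure_induction with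
  | mem y hy =>
      rcases hy with ⟨a, rfl⟩ | ⟨z, hz, rfl⟩
      · exact ⟨ℚ⟮a⟯, adjoin.finiteDimensional (Algebra.IsIntegral.isIntegral a),
          DefinedOver.const (mem_adjoin_simple_self ℚ a)⟩
      · exact ⟨⊥, inferInstance, DefinedOver.coeffEmb _ hz⟩
  | one => exact ⟨⊥, inferInstance, DefinedOver.one _⟩
  | add x y _ _ hx hy =>
      obtain ⟨K₁, h1, hx1⟩ := hx
      obtain ⟨K₂, h2, hy2⟩ := hy
      exact ⟨K₁ ⊔ K₂, inferInstance, (hx1.mono le_sup_left).add (hy2.mono le_sup_right)⟩
  | neg x _ hx =>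
      obtain ⟨K₁, h1, hx1⟩ := hx
      exact ⟨K₁, h1, hx1.neg⟩
  | inv x _ hx =>
      obtain ⟨K₁, h1, hx1⟩ := hx
      exact ⟨K₁, h1, hx1.inv⟩
  | mul x y _ _ hx hy =>
      obtain ⟨K₁, h1, hx1⟩ := hx
      obtain ⟨K₂, h2, hy2⟩ := hy
      exact ⟨K₁ ⊔ K₂, inferInstance, (hx1.mono le_sup_left).mul (hy2.mono le_sup_right)⟩

/-- **(N2), finitely many at once**, above a prescribed finite level. -/
theorem exists_definedOver_finset [Algebra.IsAlgebraic ℚ L] (K' : IntermediateField ℚ L)
    [FiniteDimensional ℚ K'] (s : Finset (LaurentSeries L))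
    (hs : ∀ x ∈ s, x ∈ laurentBaseChange L F₀) :
    ∃ K₀ : IntermediateField ℚ L, FiniteDimensional ℚ K₀ ∧ K' ≤ K₀ ∧
      ∀ x ∈ s, DefinedOver F₀ K₀ x := by
  classical
  induction s using Finset.induction_on with
  | empty => exact ⟨K', inferInstance, le_rfl, by simp⟩
  | insert a s _ ih =>
      obtain ⟨K₁, h1, hK', hK₁⟩ := ih fun x hx => hs x (Finset.mem_insert_of_mem hx)
      obtain ⟨K₂, h2, ha⟩ := exists_definedOver (hs a (Finset.mem_insert_self a s))
      refine ⟨K₁ ⊔ K₂, inferInstance, hK'.trans le_sup_left, ?_⟩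
      intro x hx
      rcases Finset.mem_insert.mp hx with rfl | hx
      · exact ha.mono le_sup_right
      · exact (hK₁ x hx).mono le_sup_left

end FieldDescent


/-! ## Part 2 (N3, N4): the valuation subring at a finite level and its residue field -/

section Comap

variable {K L : Type*} [Field K] [Field L]

/-- The ring hom `A.comap f → A`. -/
def comapHom (A : ValuationSubring L) (f : K →+* L) : ↥(A.comap f) →+* ↥A where
  toFun x := ⟨f x.1, x.2⟩
  map_one' := Subtype.ext (map_one f)
  map_mul' x y := Subtype.ext (map_mul f x.1 y.1)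
  map_zero' := Subtype.ext (map_zero f)
  map_add' x y := Subtype.ext (map_add f x.1 y.1)

@[simp]
theorem comapHom_coe (A : ValuationSubring L) (f : K →+* L) (x : A.comap f) :
    ((comapHom A f x : A) : L) = f x.1 := rfl

theorem comapHom_injective (A : ValuationSubring L) (f : K →+* L) :
    Function.Injective (comapHom A f) := by
  intro x y hxy
  apply Subtype.ext
  apply f.injective
  exact congrArg Subtype.val hxy

theorem subtype_comp_comapHom (A : ValuationSubring L) (f : K →+* L) :
    A.subtype.comp (comapHom A f) = f.comp (A.comap f).subtype := rfl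

instance isLocalHom_comapHom (A : ValuationSubring L) (f : K →+* L) :
    IsLocalHom (comapHom A f) := by
  constructor
  intro x hx
  obtain ⟨y, hy⟩ := isUnit_iff_exists_inv.mp hx
  have hy' : f x.1 * (y : L) = 1 := congrArg Subtype.val hy
  have hx0 : (x : K) ≠ 0 := by
    intro h0
    rw [h0, map_zero, zero_mul] at hy'
    exact zero_ne_one hy'
  have hyeq : (y : L) = f (x.1⁻¹) := by
    rw [map_inv₀]
    exact eq_inv_of_mul_eq_one_right hy'
  refine isUnit_iff_exists_inv.mpr ⟨⟨x.1⁻¹, ?_⟩, ?_⟩
  · show f (x.1⁻¹) ∈ A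
    rw [← hyeq]
    exact y.2
  · apply Subtype.ext
    show x.1 * x.1⁻¹ = 1
    exact mul_inv_cancel₀ hx0

/-- The induced map on residue fields. -/
def resMap (A : ValuationSubring L) (f : K →+* L) :
    IsLocalRing.ResidueField ↥(A.comap f) →+* IsLocalRing.ResidueField ↥A :=
  IsLocalRing.ResidueField.map (comapHom A f)

theorem resMap_residue (A : ValuationSubring L) (f : K →+* L) (x : A.comap f) :
    resMap A f (IsLocalRing.residue _ x) = IsLocalRing.residue _ (comapHom A f x) :=
  IsLocalRing.ResidueField.map_residue _ _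

theorem resMap_comp_residue (A : ValuationSubring L) (f : K →+* L) :
    (resMap A f).comp (IsLocalRing.residue _) = (IsLocalRing.residue _).comp (comapHom A f) :=
  IsLocalRing.ResidueField.map_comp_residue _

theorem resMap_injective (A : ValuationSubring L) (f : K →+* L) :
    Function.Injective (resMap A f) := (resMap A f).injective

/-- **(N3)** an `A`-integral series whose image in `L((q))` is defined over `K` via `f` descends
to `A.comap f`. -/
theorem exists_series_descent (A : ValuationSubring L) (f : K →+* L) (y : LaurentSeries A)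
    (x₀ : LaurentSeries K) (h : coeffMap A.subtype y = coeffMap f x₀) :
    ∃ y₀ : LaurentSeries (A.comap f),
      coeffMap (A.comap f).subtype y₀ = x₀ ∧ coeffMap (comapHom A f) y₀ = y := by
  have hcoe : ∀ k, f (x₀.coeff k) = (y.coeff k : L) := by
    intro k
    have := congrArg (fun z => z.coeff k) h
    simpa using this.symm
  obtain ⟨y₀, hy₀⟩ := exists_coeffMap_eq (A.comap f).subtype x₀ (fun k =>
    ⟨⟨x₀.coeff k, by
      show f (x₀.coeff k) ∈ A
      rw [hcoe k]
      exact (y.coeff k).2⟩, rfl⟩)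
  refine ⟨y₀, hy₀, ?_⟩
  apply coeffMap_injective (f := A.subtype) Subtype.val_injective
  rw [coeffMap_coeffMap, subtype_comp_comapHom, ← coeffMap_coeffMap, hy₀, h]

/-- **(N4)** compatibility of the two reductions. -/
theorem coeffMap_residue_comapHom (A : ValuationSubring L) (f : K →+* L)
    (y₀ : LaurentSeries (A.comap f)) :
    coeffMap (IsLocalRing.residue ↥A) (coeffMap (comapHom A f) y₀) =
      coeffMap (resMap A f) (coeffMap (IsLocalRing.residue ↥(A.comap f)) y₀) := by
  rw [coeffMap_coeffMap, coeffMap_coeffMap, resMap_comp_residue]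

end Comap


/-! ## Part 3: the tower of finite levels -/

section Tower

variable {L : Type*} [Field L] [Algebra ℚ L] (A : ValuationSubring L)

/-- The valuation subring induced by `A` on the intermediate field `K₀`. -/
abbrev levelRing (K₀ : IntermediateField ℚ L) : ValuationSubring K₀ :=
  A.comap (algebraMap K₀ L)

/-- Residue field at level `K₀`. -/
abbrev levelRes (K₀ : IntermediateField ℚ L) : Type _ :=
  IsLocalRing.ResidueField ↥(levelRing A K₀)

/-- Residue field map from level `K₀` to the top. -/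
abbrev levelResMap (K₀ : IntermediateField ℚ L) :
    levelRes A K₀ →+* IsLocalRing.ResidueField ↥A :=
  resMap A (algebraMap K₀ L)

variable {A}

/-- Transition map between the valuation rings at two levels. -/
def towerHom {K₀ K₁ : IntermediateField ℚ L} (h : K₀ ≤ K₁) :
    ↥(levelRing A K₀) →+* ↥(levelRing A K₁) where
  toFun x := ⟨inclHom h x.1, x.2⟩
  map_one' := rfl
  map_mul' _ _ := rfl
  map_zero' := rfl
  map_add' _ _ := rfl

theorem comapHom_towerHom {K₀ K₁ : IntermediateField ℚ L} (h : K₀ ≤ K₁)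
    (x : levelRing A K₀) :
    comapHom A (algebraMap K₁ L) (towerHom h x) = comapHom A (algebraMap K₀ L) x := rfl

instance isLocalHom_towerHom {K₀ K₁ : IntermediateField ℚ L} (h : K₀ ≤ K₁) :
    IsLocalHom (towerHom (A := A) h) := by
  constructor
  intro x hx
  have h1 : IsUnit (comapHom A (algebraMap K₁ L) (towerHom h x)) := hx.map _
  rw [comapHom_towerHom] at h1
  exact (isUnit_map_iff (comapHom A (algebraMap K₀ L)) x).mp h1

/-- Transition map between residue fields at two levels. -/
def resTower {K₀ K₁ : IntermediateField ℚ L} (h : K₀ ≤ K₁) :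
    levelRes A K₀ →+* levelRes A K₁ :=
  IsLocalRing.ResidueField.map (towerHom h)

theorem levelResMap_resTower {K₀ K₁ : IntermediateField ℚ L} (h : K₀ ≤ K₁)
    (c : levelRes A K₀) : levelResMap A K₁ (resTower h c) = levelResMap A K₀ c := by
  obtain ⟨x, rfl⟩ := IsLocalRing.residue_surjective c
  rw [resTower, IsLocalRing.ResidueField.map_residue]
  show resMap A (algebraMap K₁ L) _ = resMap A (algebraMap K₀ L) _
  rw [resMap_residue, resMap_residue, comapHom_towerHom]

theorem levelResMap_comp_resTower {K₀ K₁ : IntermediateField ℚ L} (h : K₀ ≤ K₁) :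
    (levelResMap A K₁).comp (resTower h) = levelResMap A K₀ :=
  RingHom.ext (levelResMap_resTower h)

/-- Every element of the residue field of `A` comes from a finite level. -/
theorem exists_levelRes_eq [Algebra.IsAlgebraic ℚ L] (c : IsLocalRing.ResidueField ↥A) :
    ∃ K₀ : IntermediateField ℚ L, FiniteDimensional ℚ K₀ ∧
      ∃ c₀ : levelRes A K₀, levelResMap A K₀ c₀ = c := by
  obtain ⟨a, rfl⟩ := IsLocalRing.residue_surjective c
  refine ⟨ℚ⟮(a : L)⟯, adjoin.finiteDimensional (Algebra.IsIntegral.isIntegral (a : L)),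
    IsLocalRing.residue _ ⟨⟨(a : L), mem_adjoin_simple_self ℚ (a : L)⟩, a.2⟩, ?_⟩
  show resMap A _ _ = _
  rw [resMap_residue]
  rfl

end Tower

/-! ## Part 4 (N5): descent on the residue side -/

section ResidueDescent

theorem coeffMap_mem_fullC {k k' : Type*} [Field k] [Field k'] (φ : k →+* k') (N : ℕ)
    {x : LaurentSeries k} (hx : x ∈ modularFunctionFieldFullC k N) :
    coeffMap φ x ∈ modularFunctionFieldFullC k' N := by
  replace hx : x ∈ Subfield.closure
      (Set.range (algebraMap k (LaurentSeries k)) ∪ divisorExpansionsC k N) := hx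
  induction hx using Subfield.closure_induction with
  | mem y hy =>
      rcases hy with ⟨a, rfl⟩ | ⟨d, hd, hdN, rfl⟩
      · rw [coeffMap_algebraMap']
        exact IntermediateField.algebraMap_mem _ _
      · rw [coeffMap_qExpand, coeffMap_jqModC]
        exact jqModCd_mem_full k' N hdN
  | one => simp
  | add x y _ _ hx hy => simpa using add_mem hx hy
  | neg x _ hx => simpa using neg_mem hx
  | inv x _ hx => simpa using inv_mem hx
  | mul x y _ _ hx hy => simpa using mul_mem hx hy

variable {L : Type*} [Field L] [Algebra ℚ L] (A : ValuationSubring L) (N : ℕ)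

/-- `w` over the residue field of `A` comes from the modular function field over the residue
field at level `K₀`. -/
def ResDefinedOver (K₀ : IntermediateField ℚ L)
    (w : LaurentSeries (IsLocalRing.ResidueField ↥A)) : Prop :=
  ∃ w₀ : LaurentSeries (levelRes A K₀), w₀ ∈ modularFunctionFieldFullC (levelRes A K₀) N ∧
    coeffMap (levelResMap A K₀) w₀ = w

variable {A N}

theorem ResDefinedOver.mem {K₀ : IntermediateField ℚ L}
    {w : LaurentSeries (IsLocalRing.ResidueField ↥A)} (hw : ResDefinedOver A N K₀ w) :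
    w ∈ modularFunctionFieldFullC (IsLocalRing.ResidueField ↥A) N := by
  obtain ⟨w₀, hw₀, rfl⟩ := hw
  exact coeffMap_mem_fullC _ N hw₀

theorem ResDefinedOver.mono {K₀ K₁ : IntermediateField ℚ L} (h : K₀ ≤ K₁)
    {w : LaurentSeries (IsLocalRing.ResidueField ↥A)} (hw : ResDefinedOver A N K₀ w) :
    ResDefinedOver A N K₁ w := by
  obtain ⟨w₀, hw₀, rfl⟩ := hw
  refine ⟨coeffMap (resTower h) w₀, coeffMap_mem_fullC _ N hw₀, ?_⟩
  rw [coeffMap_coeffMap, levelResMap_comp_resTower]

theorem ResDefinedOver.add {K₀ : IntermediateField ℚ L}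
    {x y : LaurentSeries (IsLocalRing.ResidueField ↥A)}
    (hx : ResDefinedOver A N K₀ x) (hy : ResDefinedOver A N K₀ y) :
    ResDefinedOver A N K₀ (x + y) := by
  obtain ⟨x₀, hx₀, rfl⟩ := hx
  obtain ⟨y₀, hy₀, rfl⟩ := hy
  exact ⟨x₀ + y₀, add_mem hx₀ hy₀, map_add _ _ _⟩

theorem ResDefinedOver.mul {K₀ : IntermediateField ℚ L}
    {x y : LaurentSeries (IsLocalRing.ResidueField ↥A)}
    (hx : ResDefinedOver A N K₀ x) (hy : ResDefinedOver A N K₀ y) :
    ResDefinedOver A N K₀ (x * y) := by
  obtain ⟨x₀, hx₀, rfl⟩ := hx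
  obtain ⟨y₀, hy₀, rfl⟩ := hy
  exact ⟨x₀ * y₀, mul_mem hx₀ hy₀, map_mul _ _ _⟩

theorem ResDefinedOver.neg {K₀ : IntermediateField ℚ L}
    {x : LaurentSeries (IsLocalRing.ResidueField ↥A)}
    (hx : ResDefinedOver A N K₀ x) : ResDefinedOver A N K₀ (-x) := by
  obtain ⟨x₀, hx₀, rfl⟩ := hx
  exact ⟨-x₀, neg_mem hx₀, map_neg _ _⟩

theorem ResDefinedOver.inv {K₀ : IntermediateField ℚ L}
    {x : LaurentSeries (IsLocalRing.ResidueField ↥A)}
    (hx : ResDefinedOver A N K₀ x) : ResDefinedOver A N K₀ x⁻¹ := by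
  obtain ⟨x₀, hx₀, rfl⟩ := hx
  exact ⟨x₀⁻¹, inv_mem hx₀, map_inv₀ _ _⟩

/-- **(N5)** every element of the modular function field over the residue field of `A` is
defined over the residue field at a finite level. -/
theorem exists_resDefinedOver [Algebra.IsAlgebraic ℚ L]
    {w : LaurentSeries (IsLocalRing.ResidueField ↥A)}
    (hw : w ∈ modularFunctionFieldFullC (IsLocalRing.ResidueField ↥A) N) :
    ∃ K₀ : IntermediateField ℚ L, FiniteDimensional ℚ K₀ ∧ ResDefinedOver A N K₀ w := by
  replace hw : w ∈ Subfield.closure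
      (Set.range (algebraMap (IsLocalRing.ResidueField ↥A)
        (LaurentSeries (IsLocalRing.ResidueField ↥A))) ∪
        divisorExpansionsC (IsLocalRing.ResidueField ↥A) N) := hw
  induction hw using Subfield.closure_induction with
  | mem y hy =>
      rcases hy with ⟨c, rfl⟩ | ⟨d, hd, hdN, rfl⟩
      · obtain ⟨K₀, hK₀, c₀, rfl⟩ := exists_levelRes_eq (A := A) c
        exact ⟨K₀, hK₀, algebraMap _ _ c₀, IntermediateField.algebraMap_mem _ _,
          coeffMap_algebraMap' _ _⟩
      · refine ⟨⊥, inferInstance, qExpand _ d (jqModC _), jqModCd_mem_full _ N hdN, ?_⟩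
        rw [coeffMap_qExpand, coeffMap_jqModC]
  | one => exact ⟨⊥, inferInstance, 1, one_mem _, map_one _⟩
  | add x y _ _ hx hy =>
      obtain ⟨K₁, h1, hx1⟩ := hx
      obtain ⟨K₂, h2, hy2⟩ := hy
      exact ⟨K₁ ⊔ K₂, inferInstance, (hx1.mono le_sup_left).add (hy2.mono le_sup_right)⟩
  | neg x _ hx =>
      obtain ⟨K₁, h1, hx1⟩ := hx
      exact ⟨K₁, h1, hx1.neg⟩
  | inv x _ hx =>
      obtain ⟨K₁, h1, hx1⟩ := hx
      exact ⟨K₁, h1, hx1.inv⟩
  | mul x y _ _ hx hy =>
      obtain ⟨K₁, h1, hx1⟩ := hx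
      obtain ⟨K₂, h2, hy2⟩ := hy
      exact ⟨K₁ ⊔ K₂, inferInstance, (hx1.mono le_sup_left).mul (hy2.mono le_sup_right)⟩


/-- **(N5), finitely many at once**, above a prescribed finite level. -/
theorem exists_resDefinedOver_finset [Algebra.IsAlgebraic ℚ L] (K' : IntermediateField ℚ L)
    [FiniteDimensional ℚ K'] (t : Finset (LaurentSeries (IsLocalRing.ResidueField ↥A)))
    (ht : ∀ w ∈ t, w ∈ modularFunctionFieldFullC (IsLocalRing.ResidueField ↥A) N) :
    ∃ K₀ : IntermediateField ℚ L, FiniteDimensional ℚ K₀ ∧ K' ≤ K₀ ∧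
      ∀ w ∈ t, ResDefinedOver A N K₀ w := by
  classical
  induction t using Finset.induction_on with
  | empty => exact ⟨K', inferInstance, le_rfl, by simp⟩
  | insert a t _ ih =>
      obtain ⟨K₁, h1, hK', hK₁⟩ := ih fun x hx => ht x (Finset.mem_insert_of_mem hx)
      obtain ⟨K₂, h2, ha⟩ := exists_resDefinedOver (ht a (Finset.mem_insert_self a t))
      refine ⟨K₁ ⊔ K₂, inferInstance, hK'.trans le_sup_left, ?_⟩
      intro x hx
      rcases Finset.mem_insert.mp hx with rfl | hx
      · exact ha.mono le_sup_right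
      · exact (hK₁ x hx).mono le_sup_left

/-- Finitely many residue constants come from one finite level above a prescribed one. -/
theorem exists_levelRes_eq_finset [Algebra.IsAlgebraic ℚ L] (K' : IntermediateField ℚ L)
    [FiniteDimensional ℚ K'] (u : Finset (IsLocalRing.ResidueField ↥A)) :
    ∃ K₀ : IntermediateField ℚ L, FiniteDimensional ℚ K₀ ∧ K' ≤ K₀ ∧
      ∀ c ∈ u, ∃ c₀ : levelRes A K₀, levelResMap A K₀ c₀ = c := by
  classical
  induction u using Finset.induction_on with
  | empty => exact ⟨K', inferInstance, le_rfl, by simp⟩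
  | insert a u _ ih =>
      obtain ⟨K₁, h1, hK', hK₁⟩ := ih
      obtain ⟨K₂, h2, a₀, ha⟩ := exists_levelRes_eq (A := A) a
      refine ⟨K₁ ⊔ K₂, inferInstance, hK'.trans le_sup_left, ?_⟩
      intro x hx
      rcases Finset.mem_insert.mp hx with rfl | hx
      · exact ⟨resTower le_sup_right a₀, by rw [levelResMap_resTower, ha]⟩
      · obtain ⟨c₀, hc₀⟩ := hK₁ x hx
        exact ⟨resTower le_sup_left c₀, by rw [levelResMap_resTower, hc₀]⟩

end ResidueDescent

/-! ## Part 5: the joint descent statement -/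

section Joint

variable {L : Type*} [Field L] [Algebra ℚ L] [Algebra.IsAlgebraic ℚ L]
variable (F₀ : IntermediateField ℚ (LaurentSeries ℚ)) (A : ValuationSubring L) (N : ℕ)

/-- **Joint descent**: finitely many elements of the characteristic-zero field
`laurentBaseChange L F₀`, finitely many elements of the residue-side modular function field
and finitely many residue constants are all defined over ONE finite level `K₀` containing a
prescribed finite level `K'`.  (All three properties are monotone in `K₀`: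
`DefinedOver.mono`, `ResDefinedOver.mono`, `levelResMap_resTower`.) -/
theorem exists_common_level (K' : IntermediateField ℚ L) [FiniteDimensional ℚ K']
    (s : Finset (LaurentSeries L)) (hs : ∀ x ∈ s, x ∈ laurentBaseChange L F₀)
    (t : Finset (LaurentSeries (IsLocalRing.ResidueField ↥A)))
    (ht : ∀ w ∈ t, w ∈ modularFunctionFieldFullC (IsLocalRing.ResidueField ↥A) N)
    (u : Finset (IsLocalRing.ResidueField ↥A)) :
    ∃ K₀ : IntermediateField ℚ L, FiniteDimensional ℚ K₀ ∧ K' ≤ K₀ ∧
      (∀ x ∈ s, DefinedOver F₀ K₀ x) ∧ (∀ w ∈ t, ResDefinedOver A N K₀ w) ∧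
      ∀ c ∈ u, ∃ c₀ : levelRes A K₀, levelResMap A K₀ c₀ = c := by
  obtain ⟨K₁, h1, hK'1, hs1⟩ := exists_definedOver_finset (F₀ := F₀) K' s hs
  obtain ⟨K₂, h2, hK12, ht2⟩ := exists_resDefinedOver_finset (A := A) (N := N) K₁ t ht
  obtain ⟨K₃, h3, hK23, hu3⟩ := exists_levelRes_eq_finset (A := A) K₂ u
  refine ⟨K₃, h3, hK'1.trans (hK12.trans hK23), fun x hx => (hs1 x hx).mono (hK12.trans hK23),
    fun w hw => (ht2 w hw).mono hK23, hu3⟩

omit [Algebra.IsAlgebraic ℚ L] in
/-- **(N3) for a defined-over element**: an `A`-integral series whose image in `L((q))` is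
defined over `K₀` descends (uniquely) to the valuation ring `levelRing A K₀`, and its reduction
is the image of the reduction at level `K₀` (**(N4)**). -/
theorem exists_integral_descent (K₀ : IntermediateField ℚ L) (y : LaurentSeries A)
    (hy : DefinedOver F₀ K₀ (coeffMap A.subtype y)) :
    ∃ y₀ : LaurentSeries (levelRing A K₀),
      coeffMap (levelRing A K₀).subtype y₀ ∈ laurentBaseChange K₀ F₀ ∧
      coeffMap (comapHom A (algebraMap K₀ L)) y₀ = y ∧
      coeffMap (IsLocalRing.residue ↥A) y =
        coeffMap (levelResMap A K₀) (coeffMap (IsLocalRing.residue ↥(levelRing A K₀)) y₀) := by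
  obtain ⟨x₀, hx₀, hx⟩ := hy
  obtain ⟨y₀, hy₀, hy₀'⟩ := exists_series_descent A (algebraMap K₀ L) y x₀ hx.symm
  refine ⟨y₀, by rw [hy₀]; exact hx₀, hy₀', ?_⟩
  rw [← hy₀', coeffMap_residue_comapHom]

omit [Algebra.IsAlgebraic ℚ L] in
theorem integral_descent_unique (K₀ : IntermediateField ℚ L)
    {y₀ y₀' : LaurentSeries (levelRing A K₀)}
    (h : coeffMap (comapHom A (algebraMap K₀ L)) y₀ =
      coeffMap (comapHom A (algebraMap K₀ L)) y₀') : y₀ = y₀' :=
  coeffMap_injective (comapHom_injective A _) h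

omit [Algebra.IsAlgebraic ℚ L] in
/-- Nonvanishing of the reduction is detected at the finite level. -/
theorem residue_ne_zero_iff (K₀ : IntermediateField ℚ L) (y₀ : LaurentSeries (levelRing A K₀)) :
    coeffMap (IsLocalRing.residue ↥A) (coeffMap (comapHom A (algebraMap K₀ L)) y₀) ≠ 0 ↔
      coeffMap (IsLocalRing.residue ↥(levelRing A K₀)) y₀ ≠ 0 := by
  rw [coeffMap_residue_comapHom]
  exact (map_ne_zero_iff _ (coeffMap_injective (resMap_injective A _)))

end Joint

end Fermat.Agent.S18.helper4661
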