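import Fermat.Agent.S18.helper3578_SpecB
import Fermat.Agent.S18.helper508_GaussMod

/-!
# S18, track B: `GaussData` for the concrete Gauss valuation ring (helper897)

Backup of S18-B-MODELBASE, part 1.  For a field `L` with `Algebra ℚ L` and a valuation subring
`A` of `L` in which the prime `ℓ ∤ N` is a non-unit and whose maximal ideal is generated by `ϖ`
(so: `L` a number field inside `ℚ̄` and `A` the induced discrete valuation ring), the landed
Gauss valuation ring `helper508.gaussValuationSubring` of
`F = laurentBaseChange L (modularFunctionFieldFull N)` satisfies `helper3578.GaussData ϖ j O`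
for the base coordinate `j`, **including** the clause `int` ("every Gauss-integral function
becomes integral over `A[j]` after multiplication by a primitive polynomial in `j`").

Also: `j` is transcendental over `L`, `F` is finite over `L(j)`, and a generic tower lemma for the
finiteness clause of `KData.Good`.
-/

set_option autoImplicit false
set_option synthInstance.maxHeartbeats 400000
set_option linter.unusedSectionVars false
set_option linter.style.haveILetI false

noncomputable section

namespace Fermat.Agent.S18.helper897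

open Polynomial ModularCurve IntermediateField
open Fermat.Agent.S28

section Gauss

variable (N : ℕ) [NeZero N] (ℓ : ℕ) [Fact ℓ.Prime] (hℓN : ¬ ℓ ∣ N)
variable {L : Type*} [Field L] [Algebra ℚ L] (A : ValuationSubring L)
  (hA : (ℓ : L) ∈ A.nonunits)

/-- The function field `F_L = L · F_N` as a type. -/
abbrev FL (N : ℕ) (L : Type*) [Field L] [Algebra ℚ L] : Type _ :=
  ↥(laurentBaseChange L (modularFunctionFieldFull N))

/-- The coordinate `j` as an element of the function field. -/
def jF (N : ℕ) (L : Type*) [Field L] [Algebra ℚ L] : FL N L :=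
  ⟨jqModC L, helper508.jqModC_mem_bar L N⟩

@[simp] theorem coe_jF : ((jF N L : FL N L) : LaurentSeries L) = jqModC L := rfl

/-- The `A`-algebra structure on `F_L` through `L`. -/
@[reducible] def algAF : Algebra ↥A (FL N L) :=
  ((algebraMap L (FL N L)).comp A.subtype).toAlgebra

theorem algAF_algebraMap (x : A) :
    @algebraMap ↥A (FL N L) _ _ (algAF N A) x = algebraMap L (FL N L) (x : L) := rfl

/-- `aeval j p` for `p ∈ A[X]`, as a `q`-series. -/
theorem coe_aeval_jF (p : A[X]) :
    ((@aeval ↥A (FL N L) _ _ (algAF N A) (jF N L) p : FL N L) : LaurentSeries L) =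
      aeval (jqModC L) (p.map A.subtype) := by
  letI := algAF N A
  rw [Polynomial.aeval_def, Polynomial.eval₂_eq_sum_range, Polynomial.aeval_def,
    Polynomial.eval₂_eq_sum_range, Polynomial.natDegree_map_eq_of_injective
      (Subtype.val_injective : Function.Injective A.subtype)]
  rw [AddSubmonoidClass.coe_finsetSum]
  refine Finset.sum_congr rfl fun i _ => ?_
  rw [Polynomial.coeff_map]
  rfl

end Gauss

section ValLemmas

variable {F : Type*} [Field F]

theorem inv_mem_of_not_mem_nonunits (O : ValuationSubring F) {x : F} (hx : x ∈ O)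
    (hn : x ∉ O.nonunits) : x⁻¹ ∈ O := by
  rw [← O.valuation_le_one_iff]
  have h1 : O.valuation x = 1 := by
    refine le_antisymm ((O.valuation_le_one_iff x).mpr hx) (not_lt.mp fun h => hn ?_)
    exact (O.mem_nonunits_iff).mpr h
  rw [map_inv₀, h1, inv_one]

theorem mem_nonunits_iff_not_isUnit (O : ValuationSubring F) {x : F} (hx : x ∈ O) :
    x ∈ O.nonunits ↔ ¬ IsUnit (⟨x, hx⟩ : O) := by
  rw [ValuationSubring.mem_nonunits_iff_exists_mem_maximalIdeal]
  constructor
  · rintro ⟨_, h⟩
    exact (IsLocalRing.mem_maximalIdeal _).mp h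
  · intro h
    exact ⟨hx, (IsLocalRing.mem_maximalIdeal _).mpr h⟩

end ValLemmas

section GaussData

variable (N : ℕ) [NeZero N] (ℓ : ℕ) [Fact ℓ.Prime] (hℓN : ¬ ℓ ∣ N)
variable {L : Type*} [Field L] [Algebra ℚ L] (A : ValuationSubring L)
  (hA : (ℓ : L) ∈ A.nonunits)

/-- The Gauss valuation ring (landed `helper508.gaussValuationSubring`). -/
abbrev gaussO : ValuationSubring (FL N L) := helper508.gaussValuationSubring N ℓ hℓN A hA

theorem cA_aeval_mem (p : A[X]) :
    coeffMap A.subtype (aeval (jqModC A) p) ∈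
      laurentBaseChange L (modularFunctionFieldFull N) := by
  rw [show coeffMap A.subtype (aeval (jqModC A) p) = aeval (jqModC L) (p.map A.subtype)
    from helper508.cA_aeval A p]
  exact helper508.aeval_mem_of_mem _ (helper508.jqModC_mem_bar L N) _

/-- `aeval j p` as a `q`-series over `A`. -/
theorem aeval_jF_eq (p : A[X]) :
    (@aeval ↥A (FL N L) _ _ (algAF N A) (jF N L) p : FL N L) =
      ⟨coeffMap A.subtype (aeval (jqModC A) p), cA_aeval_mem N A p⟩ :=
  Subtype.ext ((coe_aeval_jF N A p).trans (helper508.cA_aeval A p).symm)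

theorem aeval_jF_mem (p : A[X]) :
    (@aeval ↥A (FL N L) _ _ (algAF N A) (jF N L) p : FL N L) ∈ gaussO N ℓ hℓN A hA := by
  rw [aeval_jF_eq]
  exact helper508.coeffMap_mem_gaussValuationSubring N ℓ hℓN A hA _ _

/-- The residue of `p(j)` is `p̄(j̄)`. -/
theorem gaussResidue_aeval_jF (p : A[X]) :
    ((helper508.gaussResidue N ℓ hℓN A hA ⟨_, aeval_jF_mem N ℓ hℓN A hA p⟩ :
        ↥(modularFunctionFieldFullC (IsLocalRing.ResidueField A) N)) :
      LaurentSeries (IsLocalRing.ResidueField A)) =
      aeval (jqModC (IsLocalRing.ResidueField A)) (p.map (IsLocalRing.residue A)) := by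
  have h := helper508.gaussResidue_coeffMap N ℓ hℓN A hA (aeval (jqModC A) p)
    (cA_aeval_mem N A p)
  rw [← helper508.cπ_aeval A p, ← h]
  congr 3
  exact Subtype.ext (congrArg Subtype.val (aeval_jF_eq N A p))

attribute [local instance] algAF

/-- A `q`-series with integer coefficients that is integral over `ℤ[j]` is, as an element of the
function field, integral over `A[j]`. -/
theorem isIntegral_zTo (x : LaurentSeries ℤ) (hx : Spec.IsIntegralOverZj x)
    (hmem : helper508.zTo L x ∈ laurentBaseChange L (modularFunctionFieldFull N)) :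
    IsIntegral (Algebra.adjoin ↥A {jF N L}) (⟨helper508.zTo L x, hmem⟩ : FL N L) := by
  obtain ⟨P, hP, hP0⟩ := hx
  let ψ : ℤ[X] →+* ↥(Algebra.adjoin ↥A {jF N L}) :=
    ((aeval (⟨jF N L, Algebra.self_mem_adjoin_singleton _ _⟩ : ↥(Algebra.adjoin ↥A {jF N L})) :
      ℤ[X] →ₐ[ℤ] ↥(Algebra.adjoin ↥A {jF N L})) : ℤ[X] →+* ↥(Algebra.adjoin ↥A {jF N L}))
  refine ⟨P.map ψ, hP.map ψ, ?_⟩
  rw [Polynomial.eval₂_map]
  let σ : FL N L →+* LaurentSeries L :=
    (laurentBaseChange L (modularFunctionFieldFull N)).val.toRingHom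
  have hσ : Function.Injective σ := Subtype.val_injective
  apply hσ
  rw [map_zero, Polynomial.hom_eval₂]
  have hcomp : σ.comp ((algebraMap ↥(Algebra.adjoin ↥A {jF N L}) (FL N L)).comp ψ) =
      (helper508.zTo L).comp (aeval (jqModC ℤ) : ℤ[X] →ₐ[ℤ] LaurentSeries ℤ).toRingHom := by
    apply Polynomial.ringHom_ext'
    · exact RingHom.ext_int _ _
    · simp only [RingHom.comp_apply, ψ]
      rw [AlgHom.toRingHom_eq_coe, RingHom.coe_coe, aeval_X, RingHom.coe_coe, aeval_X]
      rw [helper508.zTo_jqModC]
      rfl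
  have hx0 : Polynomial.eval₂ (aeval (jqModC ℤ) : ℤ[X] →ₐ[ℤ] LaurentSeries ℤ).toRingHom x P = 0 :=
    hP0
  rw [hcomp, show σ ⟨helper508.zTo L x, hmem⟩ = helper508.zTo L x from rfl,
    ← Polynomial.hom_eval₂, hx0, map_zero]

/-- **`GaussData` for the landed Gauss valuation ring** (all five clauses, including `int`). -/
theorem gaussData (ϖ : A) (hϖ : IsLocalRing.maximalIdeal A = Ideal.span {ϖ}) :
    helper3578.GaussData ϖ (jF N L) (gaussO N ℓ hℓN A hA) where
  le x := (helper508.algebraMap_mem_gaussValuationSubring_iff N ℓ hℓN A hA (x : L)).mpr x.2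
  unif := by
    have hmem : algebraMap L (FL N L) (ϖ : L) ∈ gaussO N ℓ hℓN A hA :=
      (helper508.algebraMap_mem_gaussValuationSubring_iff N ℓ hℓN A hA _).mpr ϖ.2
    by_contra hn
    have hinv := inv_mem_of_not_mem_nonunits _ hmem hn
    rw [← map_inv₀] at hinv
    have hA' := (helper508.algebraMap_mem_gaussValuationSubring_iff N ℓ hℓN A hA _).mp hinv
    have hϖ0 : (ϖ : L) ≠ 0 := by
      intro h0
      apply hn
      rw [show (algebraMap ↥A (FL N L)) ϖ = algebraMap L (FL N L) (ϖ : L) from rfl, h0, map_zero]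
      exact (ValuationSubring.mem_nonunits_iff _).mpr (by rw [map_zero]; exact zero_lt_one)
    have hunit : IsUnit ϖ :=
      IsUnit.of_mul_eq_one (⟨(ϖ : L)⁻¹, hA'⟩ : A) (Subtype.ext (mul_inv_cancel₀ hϖ0))
    have hmem' : ϖ ∈ IsLocalRing.maximalIdeal A := hϖ ▸ Ideal.mem_span_singleton_self ϖ
    exact (IsLocalRing.mem_maximalIdeal _).mp hmem' hunit
  t_mem := by
    have := aeval_jF_mem N ℓ hℓN A hA (X : A[X])
    rwa [aeval_X] at this
  prim := by
    intro p hp i
    have hmem := aeval_jF_mem N ℓ hℓN A hA p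
    have hnu := (mem_nonunits_iff_not_isUnit _ hmem).mp hp
    have hres := (helper508.gaussResidue_eq_zero_iff N ℓ hℓN A hA ⟨_, hmem⟩).mpr hnu
    have h0 : aeval (jqModC (IsLocalRing.ResidueField A)) (p.map (IsLocalRing.residue A)) = 0 := by
      rw [← gaussResidue_aeval_jF N ℓ hℓN A hA p, hres]
      rfl
    have hp0 : p.map (IsLocalRing.residue A) = 0 := by
      by_contra hne
      exact helper508.aeval_jqModC_ne_zero hne h0
    have hc : IsLocalRing.residue A (p.coeff i) = 0 := by
      rw [← Polynomial.coeff_map, hp0, Polynomial.coeff_zero]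
    rw [IsLocalRing.residue_eq_zero_iff, hϖ, Ideal.mem_span_singleton] at hc
    exact hc
  int := by
    intro x hx
    obtain ⟨Q, y, hQ, hrel⟩ := (helper508.mem_gaussValuationSubring_iff N ℓ hℓN A hA x).mp hx
    have hyF : helper508.cA A y ∈ laurentBaseChange L (modularFunctionFieldFull N) := by
      rw [show helper508.cA A y = coeffMap A.subtype y from rfl, ← hrel]
      exact mul_mem (helper508.aeval_mem_of_mem _ (helper508.jqModC_mem_bar L N) _) x.2
    obtain ⟨Q₁, P₁, hQ₁, hrel₁⟩ := helper508.gaussBasis_spans_bar N ℓ hℓN A hA _ hyF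
    obtain ⟨Q', P', hQ', hrel'⟩ := helper508.exists_normal_form
      (helper508.gaussBasis_indepRes N ℓ hℓN A hA) y Q₁ P₁ hQ₁ hrel₁
    refine ⟨Q' * Q, ?_, ?_⟩
    · by_contra hall
      push Not at hall
      apply mul_ne_zero hQ' hQ
      rw [← Polynomial.map_mul]
      ext i
      rw [Polynomial.coeff_map, Polynomial.coeff_zero, IsLocalRing.residue_eq_zero_iff, hϖ,
        Ideal.mem_span_singleton]
      exact hall i
    · have key : aeval (jF N L) (Q' * Q) * x =
          ∑ i, aeval (jF N L) (P' i) *
            (⟨helper508.zTo L (helper508.gaussBasis N ℓ hℓN i),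
              helper508.zTo_mem_bar L N (helper508.gaussBasis_mem N ℓ hℓN i)⟩ : FL N L) := by
        apply Subtype.ext
        rw [MulMemClass.coe_mul, coe_aeval_jF, AddSubmonoidClass.coe_finsetSum]
        have e1 : aeval (jqModC L) ((Q' * Q).map A.subtype) * (x : LaurentSeries L) =
            helper508.cA A (aeval (jqModC A) Q' * y) := by
          rw [Polynomial.map_mul, map_mul, mul_assoc, hrel, map_mul, helper508.cA_aeval]
        rw [e1, hrel', map_sum]
        refine Finset.sum_congr rfl fun i _ => ?_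
        rw [map_mul, helper508.cA_aeval, helper508.coeffMap_zTo, MulMemClass.coe_mul,
          coe_aeval_jF]
      rw [key]
      refine IsIntegral.sum _ fun i _ => IsIntegral.mul ?_ ?_
      · have hmem : aeval (jF N L) (P' i) ∈ Algebra.adjoin ↥A {jF N L} :=
          Polynomial.aeval_mem_adjoin_singleton _ _
        exact (isIntegral_algebraMap (R := ↥(Algebra.adjoin ↥A {jF N L}))
          (x := (⟨_, hmem⟩ : ↥(Algebra.adjoin ↥A {jF N L}))))
      · exact isIntegral_zTo N A _ (helper508.gaussBasis_integral N ℓ hℓN i) _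

end GaussData

section Finite

variable (N : ℕ) [NeZero N] (ℓ : ℕ) [Fact ℓ.Prime] (hℓN : ¬ ℓ ∣ N)
variable {L : Type*} [Field L] [Algebra ℚ L] (A : ValuationSubring L)
  (hA : (ℓ : L) ∈ A.nonunits)

/-- `j` is transcendental over `L`. -/
theorem transcendental_jF : Transcendental L (jF N L) := by
  rintro ⟨p, hp, h0⟩
  have h1 : aeval (jqModC L) p = 0 := by
    have := Polynomial.aeval_algHom_apply
      (laurentBaseChange L (modularFunctionFieldFull N)).val (jF N L) p
    rw [h0, map_zero] at this
    exact this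
  exact helper508.aeval_jqModC_ne_zero hp h1

include hℓN hA in
/-- `F_L` is finite over `L(j)`. -/
theorem finiteDimensional_adjoin_jF : FiniteDimensional ↥L⟮jF N L⟯ (FL N L) := by
  classical
  let z : Fin (dedekindPsi N) → FL N L := fun i =>
    ⟨helper508.zTo L (helper508.gaussBasis N ℓ hℓN i),
      helper508.zTo_mem_bar L N (helper508.gaussBasis_mem N ℓ hℓN i)⟩
  have hmap : (L⟮jF N L⟯).map (laurentBaseChange L (modularFunctionFieldFull N)).val =
      L⟮jqModC L⟯ := by
    rw [IntermediateField.adjoin_map, Set.image_singleton]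
    rfl
  have hspan : Submodule.span ↥L⟮jF N L⟯ (Set.range z) = ⊤ := by
    rw [eq_top_iff]
    rintro f -
    have hf := (helper508.mem_bar_iff (helper508.gaussBasis_isBasisZ N ℓ hℓN)
      (helper508.gaussBasis_indepRes N ℓ hℓN A hA) (f : LaurentSeries L)).mp f.2
    rw [Submodule.mem_span_range_iff_exists_fun] at hf
    obtain ⟨c, hc⟩ := hf
    have hd : ∀ i, ∃ d : ↥L⟮jF N L⟯, ((d : FL N L) : LaurentSeries L) = (c i : LaurentSeries L) := by
      intro i
      have hci : (c i : LaurentSeries L) ∈
          (L⟮jF N L⟯).map (laurentBaseChange L (modularFunctionFieldFull N)).val := by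
        rw [hmap]
        exact (c i).2
      obtain ⟨x, hx, hxe⟩ := (IntermediateField.mem_map _).mp hci
      exact ⟨⟨x, hx⟩, hxe⟩
    choose d hd using hd
    rw [Submodule.mem_span_range_iff_exists_fun]
    refine ⟨d, Subtype.ext ?_⟩
    rw [AddSubmonoidClass.coe_finsetSum, ← hc]
    refine Finset.sum_congr rfl fun i _ => ?_
    rw [Algebra.smul_def, Algebra.smul_def, MulMemClass.coe_mul]
    congr 1
    exact hd i
  exact Module.finite_def.mpr (hspan ▸ Submodule.fg_span (Set.finite_range z))

/-- Generic tower lemma for the clause `finite` of `KData.Good`: if `F` is finite over `K(t)` and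
`E` is finite over `F`, then `E` is finite over `K(t)` (formed inside `E`). -/
theorem finiteDimensional_adjoin_of_tower {K F E : Type*} [Field K] [Field F] [Field E]
    [Algebra K F] [Algebra F E] [Algebra K E] [IsScalarTower K F E] (t : F)
    [FiniteDimensional ↥K⟮t⟯ F] [FiniteDimensional F E] :
    FiniteDimensional ↥K⟮algebraMap F E t⟯ E := by
  have hmap : (K⟮t⟯).map (IsScalarTower.toAlgHom K F E) = K⟮algebraMap F E t⟯ := by
    rw [IntermediateField.adjoin_map, Set.image_singleton]
    rfl
  let e₁ : ↥K⟮t⟯ ≃ₐ[K] ↥K⟮algebraMap F E t⟯ :=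
    (IntermediateField.equivMap K⟮t⟯ (IsScalarTower.toAlgHom K F E)).trans
      (IntermediateField.equivOfEq hmap)
  haveI : Module.Finite ↥K⟮t⟯ E := Module.Finite.trans F E
  refine Module.Finite.of_equiv_equiv e₁.toRingEquiv (RingEquiv.refl E) ?_
  ext x
  rfl

end Finite

end Fermat.Agent.S18.helper897
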