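import Mathlib
import Fermat.Agent.S18.helper3578_SpecB
import Fermat.Agent.S18.helper897_GaussData
import Fermat.Agent.S18.helper4661_NFDescent
import Fermat.Agent.S18.helper296_NFConst
import Fermat.Agent.Lib.helper6879_ResidueQbar

/-!
# S18, track B: the base object of the concrete model (S18-B-MODELBASE), structure side

`helper3578_SpecB` bundles the number-field model of the Kummer extension in `KData`.

GENERIC PART (Mathlib + SpecB):

* `mkKData` : the generic builder.  From a tower `A0 → K0 → F0 → Ω` (`A0` a discrete valuation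
  ring with fraction field `K0` of characteristic zero, `F0` the base function field, `Ω` any
  field extension of `F0`), a valuation subring `O` of `F0`, elements `ϖ ζ : A0`, `t U h : F0`
  and `θ : Ω`, the `KData` with `L0 := F0(θ) ⊆ Ω`; every field is exposed by a `rfl` lemma.
* `good_mkKData` : `KData.Good m` for the built object from field-level hypotheses.
* `mkKData_adjoin_θ`, `mkKData_algebra_adjoin_θ`, `finiteDimensional_mkKData` : `L0 = F0(θ)`,
  `L0 = F0[θ]` and `[L0 : F0] < ∞`, the facts about the model which `Good` does not record.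
* `exists_residual_root` : for a Kummer pair at the Gauss place (`helper508`), `U := ya / yb`
  is a Gauss unit with a residual `m`-th root `h`; `jF_inv_mem_gaussO` : `j⁻¹` is Gauss-integral.

MODULAR INSTANCE (`K0` a number field inside `ℚ̄`, `A0 := A ∩ K0`):

* `model N K0 ℓ hℓN A hA ϖ ζ U h θ : KData` with `F0 = helper897.FL N ↥K0`,
  `t = helper897.jF N ↥K0`, `O = helper897.gaussO ..`, `Algebra A0 F0 = helper897.algAF ..`,
  `L0 = F0(θ)` inside `Amb N := AlgebraicClosure (modularFunctionFieldBar N)` through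
  `levelIncl N K0 : F0 →+* modularFunctionFieldBar N` (coefficientwise `K0 ⊆ ℚ̄`).
* `model_good` : `Good m` (Gauss side from `helper897_GaussData`, constants from NFCONST).
* `exists_model_base` : for the hypotheses of `helper3054.Stmt_KF0` there are `K0` (finite over
  `ℚ`, containing a prescribed number field), `ϖ ζ U h θ` with `(model ..).Good m`,
  `ι U * b = a`, `θ ^ m = ι U`.
* `model_gen`, `model_inv_mem`, `levelIncl_jF_coe`, `levelIncl_algebraMap`,
  `not_dvd_natCast_levelRing` : the extra facts of `helper648_ModelWire` owed by the base.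
-/

set_option autoImplicit false
set_option synthInstance.maxHeartbeats 400000
set_option linter.style.haveILetI false

noncomputable section

namespace Fermat.Agent.S18.helper1267

open Polynomial IntermediateField
open Fermat.Agent.S18.helper3578

/-! ## Two field-theoretic bricks -/

/-- Finiteness over the rational function field of the base line is inherited by a finite
extension (the line coordinate being pushed into the extension). -/
theorem finiteDimensional_adjoin_tower {K F L : Type*} [Field K] [Field F] [Field L]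
    [Algebra K F] [Algebra F L] [Algebra K L] [IsScalarTower K F L] (t : F)
    [FiniteDimensional ↥(adjoin K ({t} : Set F)) F] [FiniteDimensional F L] :
    FiniteDimensional ↥(adjoin K ({algebraMap F L t} : Set L)) L := by
  let E : IntermediateField K F := adjoin K ({t} : Set F)
  let φ : F →ₐ[K] L := IsScalarTower.toAlgHom K F L
  have hmap : E.map φ = adjoin K ({algebraMap F L t} : Set L) := by
    rw [adjoin_map, Set.image_singleton]
    rfl
  let e₁ : ↥E ≃+* ↥(adjoin K ({algebraMap F L t} : Set L)) :=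
    (E.equivMap φ).toRingEquiv.trans (IntermediateField.equivOfEq hmap).toRingEquiv
  have hfin : Module.Finite ↥E L := Module.Finite.trans F L
  refine Module.Finite.of_equiv_equiv e₁ (RingEquiv.refl L) ?_
  ext x
  rfl

/-- A simple extension is generated by its generator, seen inside itself. -/
theorem adjoin_gen_eq_top {F Ω : Type*} [Field F] [Field Ω] [Algebra F Ω] (θ : Ω) :
    adjoin F ({(⟨θ, mem_adjoin_simple_self F θ⟩ : ↥(adjoin F ({θ} : Set Ω)))} :
      Set ↥(adjoin F ({θ} : Set Ω))) = ⊤ := by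
  apply IntermediateField.map_injective (adjoin F ({θ} : Set Ω)).val
  rw [adjoin_map, Set.image_singleton, ← AlgHom.fieldRange_eq_map, fieldRange_val]
  rfl

/-- A simple algebraic extension is generated as an ALGEBRA by its generator, seen inside
itself. -/
theorem algebra_adjoin_gen_eq_top {F Ω : Type*} [Field F] [Field Ω] [Algebra F Ω] {θ : Ω}
    (hθ : IsIntegral F θ) :
    Algebra.adjoin F ({(⟨θ, mem_adjoin_simple_self F θ⟩ : ↥(adjoin F ({θ} : Set Ω)))} :
      Set ↥(adjoin F ({θ} : Set Ω))) = ⊤ := by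
  have h1 : (Algebra.adjoin F ({(⟨θ, mem_adjoin_simple_self F θ⟩ :
      ↥(adjoin F ({θ} : Set Ω)))} : Set ↥(adjoin F ({θ} : Set Ω)))).map
        (adjoin F ({θ} : Set Ω)).val = Algebra.adjoin F ({θ} : Set Ω) := by
    rw [AlgHom.map_adjoin, Set.image_singleton]
    rfl
  have h2 : (⊤ : Subalgebra F ↥(adjoin F ({θ} : Set Ω))).map (adjoin F ({θ} : Set Ω)).val =
      Algebra.adjoin F ({θ} : Set Ω) := by
    rw [Algebra.map_top, IntermediateField.range_val,
      adjoin_simple_toSubalgebra_of_isAlgebraic hθ.isAlgebraic]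
  exact Subalgebra.map_injective (f := (adjoin F ({θ} : Set Ω)).val) Subtype.val_injective
    (h1.trans h2.symm)

/-! ## The generic builder -/

section Generic

variable (A0 K0 F0 Ω : Type) [CommRing A0] [IsDomain A0] [IsDiscreteValuationRing A0]
  [Field K0] [CharZero K0] [Algebra A0 K0] [IsFractionRing A0 K0]
  [Field F0] [Algebra K0 F0] [Algebra A0 F0] [IsScalarTower A0 K0 F0]
  [Field Ω] [Algebra F0 Ω]

/-- **Generic model builder.**  `L0 := F0(θ) ⊆ Ω`; the `K0`- and `A0`-algebra structures of `L0`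
are the composites through `F0`. -/
def mkKData (ϖ : A0) (t : F0) (O : ValuationSubring F0) (ζ : A0) (U h : F0) (θ : Ω) : KData :=
  letI algKL : Algebra K0 ↥(adjoin F0 ({θ} : Set Ω)) :=
    ((algebraMap F0 ↥(adjoin F0 ({θ} : Set Ω))).comp (algebraMap K0 F0)).toAlgebra
  letI algAL : Algebra A0 ↥(adjoin F0 ({θ} : Set Ω)) :=
    ((algebraMap F0 ↥(adjoin F0 ({θ} : Set Ω))).comp (algebraMap A0 F0)).toAlgebra
  { A0 := A0
    K0 := K0
    F0 := F0
    L0 := ↥(adjoin F0 ({θ} : Set Ω))
    algKL := algKL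
    algAL := algAL
    towerKFL := IsScalarTower.of_algebraMap_eq (fun _ => rfl)
    towerAKL := IsScalarTower.of_algebraMap_eq (fun x =>
      congrArg (algebraMap F0 ↥(adjoin F0 ({θ} : Set Ω)))
        (IsScalarTower.algebraMap_apply A0 K0 F0 x))
    towerAFL := IsScalarTower.of_algebraMap_eq (fun _ => rfl)
    ϖ := ϖ
    t := t
    O := O
    ζ := ζ
    U := U
    h := h
    θ := ⟨θ, mem_adjoin_simple_self F0 θ⟩ }

variable {A0 K0 F0 Ω}
variable (ϖ : A0) (t : F0) (O : ValuationSubring F0) (ζ : A0) (U h : F0) (θ : Ω)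

theorem mkKData_A0 : (mkKData A0 K0 F0 Ω ϖ t O ζ U h θ).A0 = A0 := rfl
theorem mkKData_K0 : (mkKData A0 K0 F0 Ω ϖ t O ζ U h θ).K0 = K0 := rfl
theorem mkKData_F0 : (mkKData A0 K0 F0 Ω ϖ t O ζ U h θ).F0 = F0 := rfl
theorem mkKData_L0 :
    (mkKData A0 K0 F0 Ω ϖ t O ζ U h θ).L0 = ↥(adjoin F0 ({θ} : Set Ω)) := rfl
theorem mkKData_ϖ : (mkKData A0 K0 F0 Ω ϖ t O ζ U h θ).ϖ = ϖ := rfl
theorem mkKData_t : (mkKData A0 K0 F0 Ω ϖ t O ζ U h θ).t = t := rfl
theorem mkKData_O : (mkKData A0 K0 F0 Ω ϖ t O ζ U h θ).O = O := rfl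
theorem mkKData_ζ : (mkKData A0 K0 F0 Ω ϖ t O ζ U h θ).ζ = ζ := rfl
theorem mkKData_U : (mkKData A0 K0 F0 Ω ϖ t O ζ U h θ).U = U := rfl
theorem mkKData_h : (mkKData A0 K0 F0 Ω ϖ t O ζ U h θ).h = h := rfl

/-- The inclusion of the Kummer field of the built model into the ambient field. -/
def mkKData_incl : (mkKData A0 K0 F0 Ω ϖ t O ζ U h θ).L0 →+* Ω :=
  (adjoin F0 ({θ} : Set Ω)).val.toRingHom

theorem mkKData_incl_injective :
    Function.Injective (mkKData_incl (K0 := K0) ϖ t O ζ U h θ) :=
  Subtype.val_injective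

theorem mkKData_incl_mem (z : (mkKData A0 K0 F0 Ω ϖ t O ζ U h θ).L0) :
    mkKData_incl (K0 := K0) ϖ t O ζ U h θ z ∈ adjoin F0 ({θ} : Set Ω) :=
  Subtype.property (p := fun x => x ∈ adjoin F0 ({θ} : Set Ω)) z

theorem mkKData_incl_θ :
    mkKData_incl (K0 := K0) ϖ t O ζ U h θ (mkKData A0 K0 F0 Ω ϖ t O ζ U h θ).θ = θ := rfl

theorem mkKData_incl_algebraMap_FL (x : F0) :
    mkKData_incl (K0 := K0) ϖ t O ζ U h θ
      (algebraMap (mkKData A0 K0 F0 Ω ϖ t O ζ U h θ).F0 (mkKData A0 K0 F0 Ω ϖ t O ζ U h θ).L0 x) =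
      algebraMap F0 Ω x := rfl

theorem mkKData_incl_algebraMap_KL (x : K0) :
    mkKData_incl (K0 := K0) ϖ t O ζ U h θ
      (algebraMap (mkKData A0 K0 F0 Ω ϖ t O ζ U h θ).K0 (mkKData A0 K0 F0 Ω ϖ t O ζ U h θ).L0 x) =
      algebraMap F0 Ω (algebraMap K0 F0 x) := rfl

theorem mkKData_incl_algebraMap_AL (x : A0) :
    mkKData_incl (K0 := K0) ϖ t O ζ U h θ
      (algebraMap (mkKData A0 K0 F0 Ω ϖ t O ζ U h θ).A0 (mkKData A0 K0 F0 Ω ϖ t O ζ U h θ).L0 x) =
      algebraMap F0 Ω (algebraMap A0 F0 x) := rfl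

theorem mkKData_incl_tL :
    mkKData_incl (K0 := K0) ϖ t O ζ U h θ (mkKData A0 K0 F0 Ω ϖ t O ζ U h θ).tL =
      algebraMap F0 Ω t := rfl

/-- `L0 = F0(θ)`. -/
theorem mkKData_adjoin_θ :
    adjoin (mkKData A0 K0 F0 Ω ϖ t O ζ U h θ).F0
      ({(mkKData A0 K0 F0 Ω ϖ t O ζ U h θ).θ} : Set (mkKData A0 K0 F0 Ω ϖ t O ζ U h θ).L0) = ⊤ :=
  adjoin_gen_eq_top (F := F0) θ

/-- `L0 = F0[θ]` (algebra form; `Facts.gen` of `helper648_ModelWire`). -/
theorem mkKData_algebra_adjoin_θ {m : ℕ} (hm : m ≠ 0) (hθ : θ ^ m = algebraMap F0 Ω U) :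
    Algebra.adjoin (mkKData A0 K0 F0 Ω ϖ t O ζ U h θ).F0
      ({(mkKData A0 K0 F0 Ω ϖ t O ζ U h θ).θ} : Set (mkKData A0 K0 F0 Ω ϖ t O ζ U h θ).L0) = ⊤ :=
  algebra_adjoin_gen_eq_top (F := F0)
    ⟨X ^ m - C U, monic_X_pow_sub_C U hm, by simp [hθ]⟩

/-- `L0` is finite over `F0` as soon as `θ` is a root of a power `≥ 1`. -/
theorem finiteDimensional_mkKData {m : ℕ} (hm : m ≠ 0) (hθ : θ ^ m = algebraMap F0 Ω U) :
    FiniteDimensional (mkKData A0 K0 F0 Ω ϖ t O ζ U h θ).F0
      (mkKData A0 K0 F0 Ω ϖ t O ζ U h θ).L0 := by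
  have hint : IsIntegral F0 θ :=
    ⟨X ^ m - C U, monic_X_pow_sub_C U hm, by simp [hθ]⟩
  show FiniteDimensional F0 ↥(adjoin F0 ({θ} : Set Ω))
  exact adjoin.finiteDimensional hint

/-- **`Good` for the built model**, from field-level hypotheses.  `hconst` is the statement
"`K0` is algebraically closed in `F0(θ)`" in a form which does not mention the algebra
structures of the model. -/
theorem good_mkKData (m : ℕ) (hirr : Irreducible ϖ) (hgauss : GaussData ϖ t O)
    (htr : Transcendental K0 t)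
    (hfin : FiniteDimensional ↥(adjoin K0 ({t} : Set F0)) F0)
    (hconst : ∀ z ∈ adjoin F0 ({θ} : Set Ω), ∀ p : K0[X], p ≠ 0 →
      eval₂ ((algebraMap F0 Ω).comp (algebraMap K0 F0)) z p = 0 →
      ∃ c : K0, z = algebraMap F0 Ω (algebraMap K0 F0 c))
    (hunit : IsUnit (m : A0)) (hζ : IsPrimitiveRoot ζ m) (hU : U ∈ O) (hU' : U⁻¹ ∈ O)
    (hh : h ∈ O) (hpow : h ^ m - U ∈ O.nonunits) (hθ : θ ^ m = algebraMap F0 Ω U) :
    (mkKData A0 K0 F0 Ω ϖ t O ζ U h θ).Good m := by
  have hm : m ≠ 0 := by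
    rintro rfl
    rw [Nat.cast_zero] at hunit
    exact not_isUnit_zero hunit
  refine
    { irr := hirr
      gauss := hgauss
      transc := htr
      finite := ?_
      const := ?_
      unit_m := hunit
      prim_root := hζ
      U_mem := hU
      U_inv_mem := hU'
      h_mem := hh
      h_pow := hpow
      θ_pow := ?_ }
  · have hFL := finiteDimensional_mkKData (A0 := A0) (K0 := K0) ϖ t O ζ U h θ hm hθ
    exact @finiteDimensional_adjoin_tower (mkKData A0 K0 F0 Ω ϖ t O ζ U h θ).K0
      (mkKData A0 K0 F0 Ω ϖ t O ζ U h θ).F0 (mkKData A0 K0 F0 Ω ϖ t O ζ U h θ).L0 _ _ _ _ _ _ _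
      t hfin hFL
  · intro z hz
    obtain ⟨p, hp0, hp⟩ := hz
    have h1 := congrArg (mkKData_incl (K0 := K0) ϖ t O ζ U h θ) hp
    rw [map_zero, aeval_def, hom_eval₂] at h1
    obtain ⟨c, hc⟩ := hconst _ (mkKData_incl_mem (K0 := K0) ϖ t O ζ U h θ z) p hp0 h1
    exact ⟨c, (mkKData_incl_injective (K0 := K0) ϖ t O ζ U h θ hc).symm⟩
  · exact Subtype.ext hθ

end Generic

/-! ## Valuation-subring bricks -/

section Valuation

/-- The inverse of a unit of a valuation subring lies in the valuation subring. -/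
theorem inv_mem_of_isUnit {F : Type*} [Field F] (O : ValuationSubring F) {x : F} (hx : x ∈ O)
    (hu : IsUnit (⟨x, hx⟩ : O)) : x⁻¹ ∈ O := by
  obtain ⟨y, hy⟩ := isUnit_iff_exists_inv.mp hu
  have hxy : x * (y : F) = 1 := congrArg Subtype.val hy
  have : x⁻¹ = (y : F) := (eq_inv_of_mul_eq_one_right hxy).symm
  rw [this]
  exact y.2

/-- Roots of unity lie in every valuation subring. -/
theorem mem_of_pow_eq_one {F : Type*} [Field F] (O : ValuationSubring F) {x : F} {m : ℕ}
    (hm : m ≠ 0) (hx : x ^ m = 1) : x ∈ O := by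
  rcases O.mem_or_inv_mem x with h | h
  · exact h
  · have h2 : x ^ (m - 1) * x = 1 := by
      rw [← pow_succ, Nat.sub_add_cancel (Nat.pos_of_ne_zero hm), hx]
    have h1 : x = x⁻¹ ^ (m - 1) := by
      rw [inv_pow]
      exact eq_inv_of_mul_eq_one_right h2
    rw [h1]
    exact pow_mem h _

end Valuation

/-! ## The residual root at the Gauss place (generic in the base field) -/

section Residual

open ModularCurve

variable (N : ℕ) [NeZero N] (ℓ : ℕ) [Fact ℓ.Prime] (hℓN : ¬ ℓ ∣ N)
  {L : Type*} [Field L] [Algebra ℚ L] (A : ValuationSubring L) (hA : (ℓ : L) ∈ A.nonunits)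

/-- **Kummer pair at the Gauss place.**  If `ya`, `yb` are `A`-integral elements of the function
field whose reductions satisfy `ȳa = w ^ m * ȳb` with `ȳb ≠ 0`, `w ≠ 0` in the function field of
the special fibre, then `U := ya / yb` is a unit of the Gauss valuation subring and there is `h`
in the Gauss valuation subring with `h ^ m ≡ U`. -/
theorem exists_residual_root (m : ℕ) (ya yb : LaurentSeries A)
    (hya : coeffMap A.subtype ya ∈ laurentBaseChange L (modularFunctionFieldFull N))
    (hyb : coeffMap A.subtype yb ∈ laurentBaseChange L (modularFunctionFieldFull N))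
    (hrb : coeffMap (IsLocalRing.residue A) yb ≠ 0)
    (w : LaurentSeries (IsLocalRing.ResidueField A))
    (hw : w ∈ modularFunctionFieldFullC (IsLocalRing.ResidueField A) N) (hw0 : w ≠ 0)
    (hE : coeffMap (IsLocalRing.residue A) ya = w ^ m * coeffMap (IsLocalRing.residue A) yb) :
    ∃ U h : ↥(laurentBaseChange L (modularFunctionFieldFull N)),
      U * ⟨coeffMap A.subtype yb, hyb⟩ = ⟨coeffMap A.subtype ya, hya⟩ ∧
      U ∈ helper508.gaussValuationSubring N ℓ hℓN A hA ∧
      U⁻¹ ∈ helper508.gaussValuationSubring N ℓ hℓN A hA ∧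
      h ∈ helper508.gaussValuationSubring N ℓ hℓN A hA ∧
      h ^ m - U ∈ (helper508.gaussValuationSubring N ℓ hℓN A hA).nonunits := by
  set O := helper508.gaussValuationSubring N ℓ hℓN A hA with hO
  set fa : ↥(laurentBaseChange L (modularFunctionFieldFull N)) := ⟨coeffMap A.subtype ya, hya⟩
    with hfa
  set fb : ↥(laurentBaseChange L (modularFunctionFieldFull N)) := ⟨coeffMap A.subtype yb, hyb⟩
    with hfb
  have hfaO : fa ∈ O := helper508.coeffMap_mem_gaussValuationSubring N ℓ hℓN A hA ya hya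
  have hfbO : fb ∈ O := helper508.coeffMap_mem_gaussValuationSubring N ℓ hℓN A hA yb hyb
  have hresa : ((helper508.gaussResidue N ℓ hℓN A hA ⟨fa, hfaO⟩ :
      ↥(modularFunctionFieldFullC (IsLocalRing.ResidueField A) N)) :
        LaurentSeries (IsLocalRing.ResidueField A)) = coeffMap (IsLocalRing.residue A) ya :=
    helper508.gaussResidue_coeffMap N ℓ hℓN A hA ya hya
  have hresb : ((helper508.gaussResidue N ℓ hℓN A hA ⟨fb, hfbO⟩ :
      ↥(modularFunctionFieldFullC (IsLocalRing.ResidueField A) N)) :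
        LaurentSeries (IsLocalRing.ResidueField A)) = coeffMap (IsLocalRing.residue A) yb :=
    helper508.gaussResidue_coeffMap N ℓ hℓN A hA yb hyb
  have hra : coeffMap (IsLocalRing.residue A) ya ≠ 0 := by
    rw [hE]
    exact mul_ne_zero (pow_ne_zero m hw0) hrb
  have hua : IsUnit (⟨fa, hfaO⟩ : O) := by
    by_contra hnu
    have h0 := (helper508.gaussResidue_eq_zero_iff N ℓ hℓN A hA ⟨fa, hfaO⟩).mpr hnu
    apply hra
    rw [← hresa, h0]
    rfl
  have hub : IsUnit (⟨fb, hfbO⟩ : O) := by
    by_contra hnu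
    have h0 := (helper508.gaussResidue_eq_zero_iff N ℓ hℓN A hA ⟨fb, hfbO⟩).mpr hnu
    apply hrb
    rw [← hresb, h0]
    rfl
  have hfb0 : fb ≠ 0 := by
    intro h0
    have : (⟨fb, hfbO⟩ : O) = 0 := Subtype.ext h0
    rw [this] at hub
    exact not_isUnit_zero hub
  have hfa0 : fa ≠ 0 := by
    intro h0
    have : (⟨fa, hfaO⟩ : O) = 0 := Subtype.ext h0
    rw [this] at hua
    exact not_isUnit_zero hua
  have hfbinv : fb⁻¹ ∈ O := inv_mem_of_isUnit O hfbO hub
  have hfainv : fa⁻¹ ∈ O := inv_mem_of_isUnit O hfaO hua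
  obtain ⟨hh, hhres⟩ := helper508.gaussResidue_surjective N ℓ hℓN A hA ⟨w, hw⟩
  refine ⟨fa * fb⁻¹, (hh : ↥(laurentBaseChange L (modularFunctionFieldFull N))), ?_, ?_, ?_,
    hh.2, ?_⟩
  · rw [mul_assoc, inv_mul_cancel₀ hfb0, mul_one]
  · exact mul_mem hfaO hfbinv
  · rw [mul_inv_rev, inv_inv]
    exact mul_mem hfbO hfainv
  · -- the element `h ^ m * fb - fa` of `O` has zero residue
    set x' : O := hh ^ m * ⟨fb, hfbO⟩ - ⟨fa, hfaO⟩ with hx'
    have hx'res : helper508.gaussResidue N ℓ hℓN A hA x' = 0 := by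
      apply Subtype.ext
      rw [hx', map_sub, map_mul, map_pow, hhres]
      show w ^ m * ((helper508.gaussResidue N ℓ hℓN A hA ⟨fb, hfbO⟩ :
        ↥(modularFunctionFieldFullC (IsLocalRing.ResidueField A) N)) :
          LaurentSeries (IsLocalRing.ResidueField A)) -
        ((helper508.gaussResidue N ℓ hℓN A hA ⟨fa, hfaO⟩ :
          ↥(modularFunctionFieldFullC (IsLocalRing.ResidueField A) N)) :
            LaurentSeries (IsLocalRing.ResidueField A)) = 0
      rw [hresa, hresb, hE, sub_self]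
    have hx'max : x' ∈ IsLocalRing.maximalIdeal ↥O :=
      (IsLocalRing.mem_maximalIdeal _).mpr
        ((helper508.gaussResidue_eq_zero_iff N ℓ hℓN A hA x').mp hx'res)
    have hprod : x' * ⟨fb⁻¹, hfbinv⟩ ∈ IsLocalRing.maximalIdeal ↥O :=
      Ideal.mul_mem_right _ _ hx'max
    have hcoe := ValuationSubring.coe_mem_nonunits_iff.mpr hprod
    have heq : ((x' * ⟨fb⁻¹, hfbinv⟩ : O) : ↥(laurentBaseChange L (modularFunctionFieldFull N))) =
        (hh : ↥(laurentBaseChange L (modularFunctionFieldFull N))) ^ m - fa * fb⁻¹ := by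
      show ((hh : ↥(laurentBaseChange L (modularFunctionFieldFull N))) ^ m * fb - fa) * fb⁻¹ = _
      rw [sub_mul, mul_assoc, mul_inv_cancel₀ hfb0, mul_one]
    rw [heq] at hcoe
    exact hcoe

/-- The coordinate `j` is a unit of the Gauss valuation subring (`Facts.inv_mem` of
`helper648_ModelWire` on the `j`-line). -/
theorem jF_inv_mem_gaussO :
    (helper897.jF N L)⁻¹ ∈ helper897.gaussO N ℓ hℓN A hA := by
  have hj : coeffMap A.subtype (jqModC ↥A) = jqModC L := map_jqModC A.subtype
  have hmem : coeffMap A.subtype (jqModC ↥A) ∈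
      laurentBaseChange L (modularFunctionFieldFull N) := by
    rw [hj]
    exact helper508.jqModC_mem_bar L N
  have hO := helper508.coeffMap_mem_gaussValuationSubring N ℓ hℓN A hA (jqModC ↥A) hmem
  have hres := helper508.gaussResidue_coeffMap N ℓ hℓN A hA (jqModC ↥A) hmem
  have hjk : coeffMap (IsLocalRing.residue A) (jqModC ↥A) =
      jqModC (IsLocalRing.ResidueField A) := map_jqModC _
  have hne : jqModC (IsLocalRing.ResidueField A) ≠ 0 := by
    have h1 := helper508.aeval_jqModC_ne_zero (K := IsLocalRing.ResidueField A)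
      (Q := (X : (IsLocalRing.ResidueField A)[X])) X_ne_zero
    rwa [aeval_X] at h1
  have hu : IsUnit (⟨⟨coeffMap A.subtype (jqModC ↥A), hmem⟩, hO⟩ :
      helper508.gaussValuationSubring N ℓ hℓN A hA) := by
    by_contra hnu
    have h0 := (helper508.gaussResidue_eq_zero_iff N ℓ hℓN A hA _).mpr hnu
    apply hne
    rw [← hjk, ← hres, h0]
    rfl
  have hinv := inv_mem_of_isUnit _ hO hu
  have heq : helper897.jF N L = ⟨coeffMap A.subtype (jqModC ↥A), hmem⟩ := Subtype.ext hj.symm
  rw [heq]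
  exact hinv

end Residual

/-! ## The modular instance -/

section Modular

open ModularCurve AlgebraicCurve
open Fermat.Agent.Lib

local notation "Qb" => AlgebraicClosure ℚ

variable (N : ℕ) (K0 : IntermediateField ℚ Qb)

/-- The base function field at the number-field level `K0` (`= helper897.FL N ↥K0`). -/
abbrev FLevel : Type := ↥(laurentBaseChange ↥K0 (modularFunctionFieldFull N))

/-! Shortcut instances (scoped).  The first two are the instances which Lean finds by itself,
registered with high priority because the default search takes several seconds on these types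
(`↥K0` is a subtype of `ℚ̄`, so many `IntermediateField` instance paths are tried first).  The
`A0`-algebra structure of `F0` is `helper897.algAF` (the composite through `K0`), the instance
of `helper897.gaussData`. -/

scoped instance (priority := 5000) scAlgKF : Algebra ↥K0 (FLevel N K0) :=
  SubalgebraClass.toAlgebra (laurentBaseChange (↥K0) (modularFunctionFieldFull N))

scoped instance (priority := 5000) scSMulKF : SMul ↥K0 (FLevel N K0) :=
  (SubalgebraClass.toAlgebra (laurentBaseChange (↥K0) (modularFunctionFieldFull N))).toSMul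

scoped instance (priority := 5000) scAlgAF (A : ValuationSubring Qb) :
    Algebra ↥(helper4661.levelRing A K0) (FLevel N K0) :=
  helper897.algAF N (helper4661.levelRing A K0)

scoped instance (priority := 5000) scSMulAF (A : ValuationSubring Qb) :
    SMul ↥(helper4661.levelRing A K0) (FLevel N K0) :=
  (helper897.algAF N (helper4661.levelRing A K0)).toSMul

/-- The tower `A ∩ K0 → K0 → F0`. -/
theorem isScalarTower_levelRing (A : ValuationSubring Qb) :
    IsScalarTower ↥(helper4661.levelRing A K0) ↥K0 (FLevel N K0) :=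
  IsScalarTower.of_algebraMap_eq (fun _ => rfl)

/-- The inclusion of the level-`K0` function field into the function field over `ℚ̄`
(coefficientwise inclusion of `K0` into `ℚ̄`). -/
def levelIncl : FLevel N K0 →+* ↥(modularFunctionFieldBar N) where
  toFun x := ⟨coeffMap (algebraMap ↥K0 Qb) (x : LaurentSeries ↥K0),
    helper4661.coeffMap_mem_laurentBaseChange' _ _ x.2⟩
  map_one' := Subtype.ext (map_one _)
  map_mul' _ _ := Subtype.ext (map_mul _ _ _)
  map_zero' := Subtype.ext (map_zero _)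
  map_add' _ _ := Subtype.ext (map_add _ _ _)

theorem levelIncl_coe (x : FLevel N K0) :
    ((levelIncl N K0 x : ↥(modularFunctionFieldBar N)) : LaurentSeries Qb) =
      coeffMap (algebraMap ↥K0 Qb) (x : LaurentSeries ↥K0) := rfl

theorem levelIncl_injective : Function.Injective (levelIncl N K0) :=
  (levelIncl N K0).injective

theorem levelIncl_algebraMap (c : K0) :
    levelIncl N K0 (algebraMap ↥K0 (FLevel N K0) c) =
      algebraMap Qb ↥(modularFunctionFieldBar N) (c : Qb) :=
  Subtype.ext (helper4661.coeffMap_algebraMap' (algebraMap ↥K0 Qb) c)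

/-- `ι j = j`: the image of the coordinate is the function `j` over `ℚ̄`
(`= Fermat.Agent.S24.helper24.jBar N`, whose underlying series is `coeffEmb ℚ̄ jq`). -/
theorem levelIncl_jF_coe :
    ((levelIncl N K0 (helper897.jF N ↥K0) : ↥(modularFunctionFieldBar N)) : LaurentSeries Qb) =
      coeffEmb Qb jq := by
  rw [levelIncl_coe]
  show (jqModC ↥K0).map (algebraMap ↥K0 Qb) = (jqModC ℚ).map (algebraMap ℚ Qb)
  rw [map_jqModC, map_jqModC]

/-- The image of `levelIncl` is the `K0`-form `helper296.descentSubfield` of the function field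
over `ℚ̄`. -/
theorem range_levelIncl :
    Set.range (levelIncl N K0) =
      (helper296.descentSubfield Qb (modularFunctionFieldFull N) K0 : Set _) := by
  ext y
  rw [SetLike.mem_coe, helper296.mem_descentSubfield_iff, helper296.mem_descentField_iff]
  constructor
  · rintro ⟨x, rfl⟩
    exact ⟨x.1, x.2, rfl⟩
  · rintro ⟨x0, hx0, h⟩
    exact ⟨⟨x0, hx0⟩, Subtype.ext h⟩

/-- The ambient field of the Kummer extension: an algebraic closure of the function field over
`ℚ̄`. -/
abbrev Amb : Type := AlgebraicClosure ↥(modularFunctionFieldBar N)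

/-- The algebra structure of the ambient field over the level-`K0` function field (through
`levelIncl`).  Not an instance: it is supplied explicitly to `mkKData`. -/
@[reducible] def algLevelAmb : Algebra (FLevel N K0) (Amb N) :=
  ((algebraMap ↥(modularFunctionFieldBar N) (Amb N)).comp (levelIncl N K0)).toAlgebra

theorem algLevelAmb_algebraMap (x : FLevel N K0) :
    @algebraMap (FLevel N K0) (Amb N) _ _ (algLevelAmb N K0) x =
      algebraMap ↥(modularFunctionFieldBar N) (Amb N) (levelIncl N K0 x) := rfl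

/-- Constants: the two ways from `K0` to the ambient field agree. -/
theorem algLevelAmb_algebraMap_const (c : K0) :
    @algebraMap (FLevel N K0) (Amb N) _ _ (algLevelAmb N K0) (algebraMap ↥K0 (FLevel N K0) c) =
      algebraMap Qb (Amb N) (c : Qb) := by
  rw [algLevelAmb_algebraMap, levelIncl_algebraMap,
    ← IsScalarTower.algebraMap_apply Qb ↥(modularFunctionFieldBar N) (Amb N)]

variable [NeZero N] (ℓ : ℕ) [Fact ℓ.Prime] (hℓN : ¬ ℓ ∣ N)
  (A : ValuationSubring Qb) (hA : A.LiesOverPrime ℓ)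

omit [Fact ℓ.Prime] in
include hA in
theorem natCast_mem_nonunits_levelRing :
    ((ℓ : ℕ) : ↥K0) ∈ (helper4661.levelRing A K0).nonunits :=
  helper6879.layer_liesOverPrime A K0 hA

/-- The Gauss valuation subring of the level-`K0` function field
(`= helper897.gaussO = helper508.gaussValuationSubring` at `L := K0`, `A := A ∩ K0`). -/
abbrev OLevel : ValuationSubring (FLevel N K0) :=
  helper897.gaussO N ℓ hℓN (helper4661.levelRing A K0)
    (natCast_mem_nonunits_levelRing K0 ℓ A hA)

include hA in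
theorem isDiscreteValuationRing_levelRing [FiniteDimensional ℚ K0] :
    IsDiscreteValuationRing ↥(helper4661.levelRing A K0) :=
  helper6879.isDiscreteValuationRing_layer A K0 (Fact.out : ℓ.Prime).ne_zero hA

include hA in
/-- Integers prime to `ℓ` are units of `A ∩ K0`. -/
theorem isUnit_natCast_levelRing {m : ℕ} (hm : ¬ ℓ ∣ m) :
    IsUnit ((m : ℕ) : ↥(helper4661.levelRing A K0)) := by
  have hℓ : ℓ.Prime := Fact.out
  have hcop : IsCoprime (m : ℤ) (ℓ : ℤ) := by
    rw [Int.isCoprime_iff_gcd_eq_one, Int.gcd_natCast_natCast]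
    exact Nat.Coprime.symm ((Nat.Prime.coprime_iff_not_dvd hℓ).mpr hm)
  obtain ⟨x, y, hxy⟩ := hcop
  by_contra hnu
  have hm_mem : ((m : ℕ) : ↥(helper4661.levelRing A K0)) ∈
      IsLocalRing.maximalIdeal ↥(helper4661.levelRing A K0) :=
    (IsLocalRing.mem_maximalIdeal _).mpr hnu
  have hℓ_mem : ((ℓ : ℕ) : ↥(helper4661.levelRing A K0)) ∈
      IsLocalRing.maximalIdeal ↥(helper4661.levelRing A K0) :=
    ValuationSubring.coe_mem_nonunits_iff.mp (natCast_mem_nonunits_levelRing K0 ℓ A hA)
  have h1 : (1 : ↥(helper4661.levelRing A K0)) ∈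
      IsLocalRing.maximalIdeal ↥(helper4661.levelRing A K0) := by
    have h2 : ((x : ↥(helper4661.levelRing A K0)) * (m : ℕ) + y * (ℓ : ℕ)) = 1 := by
      have := congrArg (Int.cast : ℤ → ↥(helper4661.levelRing A K0)) hxy
      push_cast at this
      exact this
    rw [← h2]
    exact add_mem (Ideal.mul_mem_left _ _ hm_mem) (Ideal.mul_mem_left _ _ hℓ_mem)
  exact (IsLocalRing.maximalIdeal.isMaximal _).ne_top ((Ideal.eq_top_iff_one _).mpr h1)

include hA in
/-- A uniformiser of `A ∩ K0` does not divide an integer prime to `ℓ`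
(`¬ D.ϖ ∣ c0` of `helper648.Stmt_ModelFacts`: `c0 = -1728`, `64`, `27`). -/
theorem not_dvd_natCast_levelRing {ϖ : ↥(helper4661.levelRing A K0)} (hϖ : Irreducible ϖ)
    {n : ℕ} (hn : ¬ ℓ ∣ n) : ¬ ϖ ∣ ((n : ℕ) : ↥(helper4661.levelRing A K0)) :=
  fun hdvd => hϖ.not_isUnit (isUnit_of_dvd_unit hdvd (isUnit_natCast_levelRing K0 ℓ A hA hn))

/-- **The concrete model** at the number-field level `K0`: `A0 := A ∩ K0`,
`F0 := laurentBaseChange K0 (modularFunctionFieldFull N)`, `t := j`, `O :=` the Gauss valuation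
subring (`helper508.gaussValuationSubring`), `L0 := F0(θ)` inside an algebraic closure of the
function field over `ℚ̄`. -/
def model [FiniteDimensional ℚ K0] (ϖ ζ : ↥(helper4661.levelRing A K0)) (U h : FLevel N K0)
    (θ : Amb N) : KData :=
  haveI : IsDiscreteValuationRing ↥(helper4661.levelRing A K0) :=
    isDiscreteValuationRing_levelRing K0 ℓ A hA
  haveI : IsScalarTower ↥(helper4661.levelRing A K0) ↥K0 (FLevel N K0) :=
    isScalarTower_levelRing N K0 A
  letI : Algebra (FLevel N K0) (Amb N) := algLevelAmb N K0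
  mkKData ↥(helper4661.levelRing A K0) ↥K0 (FLevel N K0) (Amb N) ϖ (helper897.jF N ↥K0)
    (OLevel N K0 ℓ hℓN A hA) ζ U h θ

/-- **`Good` for the concrete model.**  The Gauss-side clauses (`gauss`, `transc`, `finite`) come
from `helper897_GaussData`; `hconst` is the conclusion of NFCONST
(`helper296.exists_constants_closed_kummer`) verbatim. -/
theorem model_good [FiniteDimensional ℚ K0] (ϖ ζ : ↥(helper4661.levelRing A K0))
    (U h : FLevel N K0) (θ : Amb N) (m : ℕ) (hm : ¬ ℓ ∣ m) (hϖ : Irreducible ϖ)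
    (hζ : IsPrimitiveRoot ζ m)
    (hU : U ∈ OLevel N K0 ℓ hℓN A hA) (hU' : U⁻¹ ∈ OLevel N K0 ℓ hℓN A hA)
    (hh : h ∈ OLevel N K0 ℓ hℓN A hA)
    (hpow : h ^ m - U ∈ (OLevel N K0 ℓ hℓN A hA).nonunits)
    (hθ : θ ^ m = algebraMap ↥(modularFunctionFieldBar N) (Amb N) (levelIncl N K0 U))
    (hconst : ∀ z ∈ Subfield.closure
        ((algebraMap ↥(modularFunctionFieldBar N) (Amb N)) ''
          (helper296.descentSubfield Qb (modularFunctionFieldFull N) K0 : Set _) ∪ {θ}),
      IsAlgebraic Qb z → ∃ c ∈ K0, z = algebraMap Qb (Amb N) c) :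
    (model N K0 ℓ hℓN A hA ϖ ζ U h θ).Good m := by
  haveI : IsDiscreteValuationRing ↥(helper4661.levelRing A K0) :=
    isDiscreteValuationRing_levelRing K0 ℓ A hA
  haveI : IsScalarTower ↥(helper4661.levelRing A K0) ↥K0 (FLevel N K0) :=
    isScalarTower_levelRing N K0 A
  letI : Algebra (FLevel N K0) (Amb N) := algLevelAmb N K0
  refine good_mkKData ϖ (helper897.jF N ↥K0) (OLevel N K0 ℓ hℓN A hA) ζ U h θ m hϖ
    (helper897.gaussData N ℓ hℓN (helper4661.levelRing A K0)
      (natCast_mem_nonunits_levelRing K0 ℓ A hA) ϖ (Irreducible.maximalIdeal_eq hϖ))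
    (helper897.transcendental_jF N)
    (helper897.finiteDimensional_adjoin_jF N ℓ hℓN (helper4661.levelRing A K0)
      (natCast_mem_nonunits_levelRing K0 ℓ A hA))
    ?_ (isUnit_natCast_levelRing K0 ℓ A hA hm) hζ hU hU' hh hpow hθ
  intro z hz p hp0 hp
  have hz' : z ∈ Subfield.closure
      ((algebraMap ↥(modularFunctionFieldBar N) (Amb N)) ''
        (helper296.descentSubfield Qb (modularFunctionFieldFull N) K0 : Set _) ∪ {θ}) := by
    have hz1 : z ∈ (adjoin (FLevel N K0) ({θ} : Set (Amb N))).toSubfield := hz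
    rw [adjoin_toSubfield] at hz1
    refine Subfield.closure_mono ?_ hz1
    rintro y (⟨x, rfl⟩ | hy)
    · left
      refine ⟨levelIncl N K0 x, ?_, rfl⟩
      rw [← range_levelIncl]
      exact ⟨x, rfl⟩
    · right
      exact hy
  have hcomp : (algebraMap Qb (Amb N)).comp (algebraMap ↥K0 Qb) =
      (algebraMap (FLevel N K0) (Amb N)).comp (algebraMap ↥K0 (FLevel N K0)) :=
    RingHom.ext fun c => (algLevelAmb_algebraMap_const N K0 c).symm
  have halg : IsAlgebraic Qb z := by
    refine ⟨p.map (algebraMap ↥K0 Qb),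
      (Polynomial.map_ne_zero_iff (algebraMap ↥K0 Qb).injective).mpr hp0, ?_⟩
    rw [aeval_def, eval₂_map, hcomp]
    exact hp
  obtain ⟨c, hc, hzc⟩ := hconst z hz' halg
  refine ⟨⟨c, hc⟩, ?_⟩
  rw [hzc]
  exact (algLevelAmb_algebraMap_const N K0 ⟨c, hc⟩).symm

/-- `Facts.gen` of `helper648_ModelWire` for the concrete model: `L0 = F0[θ]`. -/
theorem model_gen [FiniteDimensional ℚ K0] (ϖ ζ : ↥(helper4661.levelRing A K0))
    (U h : FLevel N K0) (θ : Amb N) {m : ℕ} (hm : m ≠ 0)
    (hθ : θ ^ m = algebraMap ↥(modularFunctionFieldBar N) (Amb N) (levelIncl N K0 U)) :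
    Algebra.adjoin (model N K0 ℓ hℓN A hA ϖ ζ U h θ).F0
      ({(model N K0 ℓ hℓN A hA ϖ ζ U h θ).θ} : Set (model N K0 ℓ hℓN A hA ϖ ζ U h θ).L0) = ⊤ := by
  haveI : IsDiscreteValuationRing ↥(helper4661.levelRing A K0) :=
    isDiscreteValuationRing_levelRing K0 ℓ A hA
  haveI : IsScalarTower ↥(helper4661.levelRing A K0) ↥K0 (FLevel N K0) :=
    isScalarTower_levelRing N K0 A
  letI : Algebra (FLevel N K0) (Amb N) := algLevelAmb N K0
  exact mkKData_algebra_adjoin_θ (K0 := ↥K0) ϖ (helper897.jF N ↥K0) (OLevel N K0 ℓ hℓN A hA)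
    ζ U h θ hm hθ

/-- `Facts.inv_mem` of `helper648_ModelWire` for the concrete model: `j⁻¹ ∈ O`. -/
theorem model_inv_mem [FiniteDimensional ℚ K0] (ϖ ζ : ↥(helper4661.levelRing A K0))
    (U h : FLevel N K0) (θ : Amb N) :
    (model N K0 ℓ hℓN A hA ϖ ζ U h θ).t⁻¹ ∈ (model N K0 ℓ hℓN A hA ϖ ζ U h θ).O :=
  jF_inv_mem_gaussO N ℓ hℓN (helper4661.levelRing A K0)
    (natCast_mem_nonunits_levelRing K0 ℓ A hA)

/-- **Existence of the base model** for a Kummer pair (hypotheses of `helper3054.Stmt_KF0`,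
without the divisibility of the orders, which only the `OneComp` supply uses): there are a
number field `K0 ⊆ ℚ̄` (containing any prescribed number field `K'`), a uniformiser `ϖ` and a
primitive `m`-th root of unity `ζ` of `A ∩ K0`, `U, h` in the level-`K0` function field and
`θ` in the ambient field such that the concrete model is `Good m`, `ι U = a / b` and
`θ ^ m = ι U`. -/
theorem exists_model_base (K' : IntermediateField ℚ Qb) [FiniteDimensional ℚ K'] (m : ℕ)
    (hm : ¬ ℓ ∣ m) (a b : helper3054.IntegralFn A N)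
    (w : modularFunctionFieldFullC (IsLocalRing.ResidueField A) N) (hw0 : w ≠ 0)
    (hred : a.red = w ^ m * b.red) :
    ∃ (K0 : IntermediateField ℚ Qb) (_ : FiniteDimensional ℚ K0)
      (ϖ ζ : ↥(helper4661.levelRing A K0)) (U h : FLevel N K0) (θ : Amb N),
      K' ≤ K0 ∧ (model N K0 ℓ hℓN A hA ϖ ζ U h θ).Good m ∧
      levelIncl N K0 U * b.gen = a.gen ∧
      θ ^ m = algebraMap ↥(modularFunctionFieldBar N) (Amb N) (levelIncl N K0 U) := by
  classical
  have hm0 : m ≠ 0 := fun h0 => hm (h0 ▸ dvd_zero ℓ)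
  haveI : NeZero m := ⟨hm0⟩
  -- a primitive `m`-th root of unity in `ℚ̄`
  obtain ⟨ζ', hζ'⟩ := HasEnoughRootsOfUnity.exists_primitiveRoot Qb m
  have hζint : IsIntegral ℚ ζ' :=
    ⟨X ^ m - C 1, monic_X_pow_sub_C 1 hm0, by simp [hζ'.pow_eq_one]⟩
  haveI : FiniteDimensional ℚ ↥ℚ⟮ζ'⟯ := adjoin.finiteDimensional hζint
  let K1 : IntermediateField ℚ Qb := K' ⊔ ℚ⟮ζ'⟯
  haveI : FiniteDimensional ℚ ↥K1 := IntermediateField.finiteDimensional_sup K' ℚ⟮ζ'⟯
  -- the Kummer generator over `ℚ̄`
  have hb0 : b.gen ≠ 0 := b.gen_ne_zero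
  obtain ⟨θ, hθ⟩ := IsAlgClosed.exists_pow_nat_eq
    (algebraMap ↥(modularFunctionFieldBar N) (Amb N) (a.gen * b.gen⁻¹)) (Nat.pos_of_ne_zero hm0)
  obtain ⟨Kmin, hK1min, hKminfin, hKmin⟩ :=
    helper296.exists_constants_closed_kummer N hm0 hθ K1
  haveI := hKminfin
  haveI := helper296.isAlgebraic_rat_algebraicClosure
  -- the common level of `a`, `b`, `w`
  obtain ⟨K0, hK0fin, hKminK0, hs, ht, -⟩ :=
    helper4661.exists_common_level (modularFunctionFieldFull N) A N Kmin
      {coeffMap A.subtype a.y, coeffMap A.subtype b.y} (by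
        intro x hx
        rcases Finset.mem_insert.mp hx with rfl | hx
        · exact a.mem
        · rw [Finset.mem_singleton] at hx
          subst hx
          exact b.mem)
      {(w : LaurentSeries (IsLocalRing.ResidueField ↥A))} (by
        intro x hx
        rw [Finset.mem_singleton] at hx
        subst hx
        exact w.2)
      ∅
  haveI := hK0fin
  have hDa := hs _ (Finset.mem_insert_self _ _)
  have hDb := hs _ (Finset.mem_insert_of_mem (Finset.mem_singleton_self _))
  obtain ⟨w0, hw0mem, hw0eq⟩ := ht _ (Finset.mem_singleton_self _)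
  obtain ⟨ya, hya_mem, hya_up, hya_red⟩ :=
    helper4661.exists_integral_descent (modularFunctionFieldFull N) A K0 a.y hDa
  obtain ⟨yb, hyb_mem, hyb_up, hyb_red⟩ :=
    helper4661.exists_integral_descent (modularFunctionFieldFull N) A K0 b.y hDb
  -- the residual relation at level `K0`
  have hinj : Function.Injective (coeffMap (helper4661.levelResMap A K0)) :=
    helper4661.coeffMap_injective (helper4661.resMap_injective A _)
  have hredser : coeffMap (IsLocalRing.residue ↥A) a.y =
      (w : LaurentSeries (IsLocalRing.ResidueField ↥A)) ^ m *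
        coeffMap (IsLocalRing.residue ↥A) b.y := by
    have := congrArg Subtype.val hred
    simpa using this
  have hE : coeffMap (IsLocalRing.residue ↥(helper4661.levelRing A K0)) ya =
      w0 ^ m * coeffMap (IsLocalRing.residue ↥(helper4661.levelRing A K0)) yb := by
    apply hinj
    rw [map_mul, map_pow, hw0eq, ← hya_red, ← hyb_red]
    exact hredser
  have hrb : coeffMap (IsLocalRing.residue ↥(helper4661.levelRing A K0)) yb ≠ 0 := by
    intro h0
    apply b.ne
    rw [hyb_red, h0, map_zero]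
  have hw00 : w0 ≠ 0 := by
    rintro rfl
    rw [map_zero] at hw0eq
    exact hw0 (Subtype.ext hw0eq.symm)
  obtain ⟨U, h, hUb, hU, hU', hh, hpow⟩ :=
    exists_residual_root N ℓ hℓN (helper4661.levelRing A K0)
      (natCast_mem_nonunits_levelRing K0 ℓ A hA) m ya yb hya_mem hyb_mem hrb w0 hw0mem hw00 hE
  -- `ι U = a / b`
  have hιa : levelIncl N K0 ⟨coeffMap (helper4661.levelRing A K0).subtype ya, hya_mem⟩ = a.gen := by
    apply Subtype.ext
    rw [levelIncl_coe, helper3054.IntegralFn.coe_gen]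
    show coeffMap (algebraMap ↥K0 Qb) (coeffMap (helper4661.levelRing A K0).subtype ya) = _
    rw [coeffMap_coeffMap, ← helper4661.subtype_comp_comapHom, ← coeffMap_coeffMap, hya_up]
  have hιb : levelIncl N K0 ⟨coeffMap (helper4661.levelRing A K0).subtype yb, hyb_mem⟩ = b.gen := by
    apply Subtype.ext
    rw [levelIncl_coe, helper3054.IntegralFn.coe_gen]
    show coeffMap (algebraMap ↥K0 Qb) (coeffMap (helper4661.levelRing A K0).subtype yb) = _
    rw [coeffMap_coeffMap, ← helper4661.subtype_comp_comapHom, ← coeffMap_coeffMap, hyb_up]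
  have hιU : levelIncl N K0 U * b.gen = a.gen := by
    have := congrArg (levelIncl N K0) hUb
    rw [map_mul, hιa, hιb] at this
    exact this
  have hιU' : levelIncl N K0 U = a.gen * b.gen⁻¹ := by
    rw [← hιU, mul_assoc, mul_inv_cancel₀ hb0, mul_one]
  -- uniformiser and root of unity
  haveI : IsDiscreteValuationRing ↥(helper4661.levelRing A K0) :=
    isDiscreteValuationRing_levelRing K0 ℓ A hA
  obtain ⟨ϖ, hϖ⟩ := IsDiscreteValuationRing.exists_irreducible ↥(helper4661.levelRing A K0)
  have hK'K0 : K' ≤ K0 := le_sup_left.trans (hK1min.trans hKminK0)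
  have hζK0 : ζ' ∈ K0 :=
    hKminK0 (hK1min ((le_sup_right : ℚ⟮ζ'⟯ ≤ K1) (mem_adjoin_simple_self ℚ ζ')))
  have hζA : (⟨ζ', hζK0⟩ : ↥K0) ∈ helper4661.levelRing A K0 :=
    mem_of_pow_eq_one A hm0 hζ'.pow_eq_one
  have hζ : IsPrimitiveRoot (⟨⟨ζ', hζK0⟩, hζA⟩ : ↥(helper4661.levelRing A K0)) m := by
    refine IsPrimitiveRoot.of_map_of_injective
      (f := (algebraMap ↥K0 Qb).comp (helper4661.levelRing A K0).subtype) ?_ ?_
    · exact hζ'
    · exact (algebraMap ↥K0 Qb).injective.comp Subtype.val_injective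
  have hθ' : θ ^ m = algebraMap ↥(modularFunctionFieldBar N) (Amb N) (levelIncl N K0 U) := by
    rw [hθ, hιU']
  exact ⟨K0, hK0fin, ϖ, ⟨⟨ζ', hζK0⟩, hζA⟩, U, h, θ, hK'K0,
    model_good N K0 ℓ hℓN A hA ϖ _ U h θ m hm hϖ hζ hU hU' hh hpow hθ' (hKmin K0 hKminK0).2,
    hιU, hθ'⟩

end Modular

end Fermat.Agent.S18.helper1267
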