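/-
S18 track C, link (C4)(L1) (helper2707): the reduced Hauptmodul line.

`tR R r` is the image over `R` of the integer Hauptmodul series of level `r ∈ {2, 3}`
(`helper1257.t2Z`, `t3Z`).  Over a field `κ` in which the primes of `N` are invertible and
`r ∣ N`, it is an element `tbar` of `Fκ = modularFunctionFieldFullC κ N` with a simple pole;
`Fκ` is finite over `κ(tbar)` (HLINE, helper6381) and, in characteristic `ℓ` with `κ` perfect,
separable (helper9392).
-/
import Fermat.Agent.S18.helper2707_Bbar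
import Fermat.Agent.S18.helper1257_HauptFormal
import Fermat.Agent.S18.helper6381_HLine
import Fermat.Agent.S18.helper9392_Separable
import Fermat.Agent.Lib.helper3858_ResidueQbar

set_option autoImplicit false

noncomputable section

namespace Fermat.Agent.S18.helper2707

open Polynomial IntermediateField ModularCurve

/-! ## The Hauptmodul series over any ring -/

/-- The integer Hauptmodul series of level `r` (`r = 2`: `t2Z`; otherwise `t3Z`). -/
def tZ (r : ℕ) : LaurentSeries ℤ :=
  if r = 2 then Fermat.Agent.S18.helper1257.t2Z else Fermat.Agent.S18.helper1257.t3Z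

/-- The Hauptmodul series over a commutative ring `R`. -/
def tR (R : Type*) [CommRing R] (r : ℕ) : LaurentSeries R :=
  coeffMap (Int.castRingHom R) (tZ r)

theorem coeffMap_tR {R S : Type*} [CommRing R] [CommRing S] (f : R →+* S) (r : ℕ) :
    coeffMap f (tR R r) = tR S r := by
  rw [tR, tR, coeffMap_coeffMap]
  exact coeffMap_congr (RingHom.ext_int _ _) _

theorem tZ_eq_single_mul (r : ℕ) : ∃ u : PowerSeries ℤ, PowerSeries.constantCoeff u = 1 ∧
    tZ r = HahnSeries.single (-1 : ℤ) (1 : ℤ) * HahnSeries.ofPowerSeries ℤ ℤ u := by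
  by_cases hr : r = 2
  · exact ⟨_, Fermat.Agent.S18.helper1257.constantCoeff_u2Z, by
      rw [tZ, if_pos hr]; exact Fermat.Agent.S18.helper1257.t2Z_eq_single_mul⟩
  · exact ⟨_, Fermat.Agent.S18.helper1257.constantCoeff_u3Z, by
      rw [tZ, if_neg hr]; exact Fermat.Agent.S18.helper1257.t3Z_eq_single_mul⟩

theorem tR_eq_single_mul (R : Type*) [CommRing R] (r : ℕ) :
    ∃ u : PowerSeries R, PowerSeries.constantCoeff u = 1 ∧
      tR R r = HahnSeries.single (-1 : ℤ) (1 : R) * HahnSeries.ofPowerSeries ℤ R u := by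
  obtain ⟨u, hu, h⟩ := tZ_eq_single_mul r
  refine ⟨u.map (Int.castRingHom R), ?_, ?_⟩
  · rw [← PowerSeries.coeff_zero_eq_constantCoeff_apply, PowerSeries.coeff_map,
      PowerSeries.coeff_zero_eq_constantCoeff_apply, hu, map_one]
  · rw [tR, h, map_mul, coeffMap_single, coeffMap_ofPowerSeries, map_one]

/-- A series `q⁻¹ · u`, `u` a power series with nonzero constant term, has order `-1`. -/
theorem order_single_neg_one_mul {κ : Type*} [Field κ] (u : PowerSeries κ)
    (hu : PowerSeries.constantCoeff u ≠ 0) :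
    (HahnSeries.single (-1 : ℤ) (1 : κ) * HahnSeries.ofPowerSeries ℤ κ u).order = -1 := by
  set x := HahnSeries.single (-1 : ℤ) (1 : κ) * HahnSeries.ofPowerSeries ℤ κ u with hx
  have hc : ∀ a : ℤ, x.coeff (a + -1) = (HahnSeries.ofPowerSeries ℤ κ u).coeff a := by
    intro a
    rw [hx, HahnSeries.coeff_single_mul_add, one_mul]
  have h1 : x.coeff (-1) ≠ 0 := by
    have h := hc 0
    rw [zero_add] at h
    rw [h]
    have h2 := HahnSeries.ofPowerSeries_apply_coeff (Γ := ℤ) (R := κ) u 0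
    rw [Nat.cast_zero] at h2
    rw [h2, PowerSeries.coeff_zero_eq_constantCoeff_apply]
    exact hu
  have hx0 : x ≠ 0 := by
    intro h0
    rw [h0, HahnSeries.coeff_zero] at h1
    exact h1 rfl
  have hvb : VB (-1) x := by
    intro n hn
    have h := hc (n + 1)
    rw [show n + 1 + -1 = n by ring] at h
    rw [h]
    exact ofPS_coeff_neg u (by omega)
  exact le_antisymm (HahnSeries.order_le_of_coeff_ne_zero h1) (le_order_of_vb hx0 hvb)

theorem order_tR (κ : Type*) [Field κ] (r : ℕ) : (tR κ r).order = -1 := by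
  obtain ⟨u, hu, h⟩ := tR_eq_single_mul κ r
  rw [h]
  exact order_single_neg_one_mul u (by rw [hu]; exact one_ne_zero)

theorem tR_ne_zero (κ : Type*) [Field κ] (r : ℕ) : tR κ r ≠ 0 := by
  intro h
  have := order_tR κ r
  rw [h, HahnSeries.order_zero] at this
  omega

/-! ## The line inside the function field -/

section Line

variable (κ : Type) [Field κ] (N : ℕ) [NeZero N]

/-- The two `j`-identities for `tR κ 2`. -/
theorem tR_two_identities :
    jqModC κ * (tR κ 2) ^ 2 = (tR κ 2 + 256) ^ 3 ∧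
      qExpand κ 2 (jqModC κ) * tR κ 2 = (tR κ 2 + 16) ^ 3 := by
  have h := Fermat.Agent.S18.helper6381.identities2_map κ (Int.castRingHom κ)
    Fermat.Agent.S18.helper1257.t2Z Fermat.Agent.S18.helper1257.jq_mul_t2Z_sq
    Fermat.Agent.S18.helper1257.qExpand_jq_mul_t2Z
  have e : tR κ 2 = coeffMap (Int.castRingHom κ) Fermat.Agent.S18.helper1257.t2Z := by
    rw [tR, tZ, if_pos rfl]
  rw [e]
  exact h

/-- The two `j`-identities for `tR κ 3`. -/
theorem tR_three_identities :
    jqModC κ * (tR κ 3) ^ 3 = (tR κ 3 + 27) * (tR κ 3 + 243) ^ 3 ∧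
      qExpand κ 3 (jqModC κ) * tR κ 3 = (tR κ 3 + 27) * (tR κ 3 + 3) ^ 3 := by
  have h := Fermat.Agent.S18.helper6381.identities3_map κ (Int.castRingHom κ)
    Fermat.Agent.S18.helper1257.t3Z Fermat.Agent.S18.helper1257.jq_mul_t3Z_cube
    Fermat.Agent.S18.helper1257.qExpand_jq_mul_t3Z
  have e : tR κ 3 = coeffMap (Int.castRingHom κ) Fermat.Agent.S18.helper1257.t3Z := by
    rw [tR, tZ, if_neg (by norm_num)]
  rw [e]
  exact h

theorem tR_mem_fullC (r : ℕ) (hr : r = 2 ∨ r = 3) (hrN : r ∣ N)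
    (hNk : ∀ p : ℕ, p.Prime → p ∣ N → (p : κ) ≠ 0) :
    tR κ r ∈ modularFunctionFieldFullC κ N := by
  rcases hr with rfl | rfl
  · exact (Fermat.Agent.S18.helper6381.hline2_level κ (tR κ 2) (tR_two_identities κ).1
      (tR_two_identities κ).2 N hrN hNk).1
  · exact (Fermat.Agent.S18.helper6381.hline3_level κ (tR κ 3) (tR_three_identities κ).1
      (tR_three_identities κ).2 N hrN hNk).1

/-- The reduced Hauptmodul as an element of the function field. -/
def tbar (r : ℕ) (hr : r = 2 ∨ r = 3) (hrN : r ∣ N)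
    (hNk : ∀ p : ℕ, p.Prime → p ∣ N → (p : κ) ≠ 0) : ↥(modularFunctionFieldFullC κ N) :=
  ⟨tR κ r, tR_mem_fullC κ N r hr hrN hNk⟩

variable {κ N} {r : ℕ} (hr : r = 2 ∨ r = 3) (hrN : r ∣ N)
  (hNk : ∀ p : ℕ, p.Prime → p ∣ N → (p : κ) ≠ 0)

theorem coe_tbar : ((tbar κ N r hr hrN hNk : ↥(modularFunctionFieldFullC κ N)) :
    LaurentSeries κ) = tR κ r := rfl

theorem order_tbar : ((tbar κ N r hr hrN hNk : ↥(modularFunctionFieldFullC κ N)) :
    LaurentSeries κ).order = -1 := order_tR κ r

theorem finiteDimensional_tbar :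
    FiniteDimensional κ⟮tbar κ N r hr hrN hNk⟯ ↥(modularFunctionFieldFullC κ N) := by
  rcases hr with rfl | rfl
  · exact (Fermat.Agent.S18.helper6381.hline2_subtype κ N hrN hNk (tbar κ N 2 (Or.inl rfl) hrN hNk)
      (tR_two_identities κ).1 (tR_two_identities κ).2).2.1
  · exact (Fermat.Agent.S18.helper6381.hline3_subtype κ N hrN hNk (tbar κ N 3 (Or.inr rfl) hrN hNk)
      (tR_three_identities κ).1 (tR_three_identities κ).2).2.1

theorem isSeparable_tbar (ℓ : ℕ) [Fact ℓ.Prime] [CharP κ ℓ] [PerfectRing κ ℓ] :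
    Algebra.IsSeparable κ⟮tbar κ N r hr hrN hNk⟯ ↥(modularFunctionFieldFullC κ N) := by
  have hfin := finiteDimensional_tbar hr hrN hNk
  have halg : Algebra.IsAlgebraic κ⟮tbar κ N r hr hrN hNk⟯ ↥(modularFunctionFieldFullC κ N) :=
    Algebra.IsAlgebraic.of_finite _ _
  refine Fermat.Agent.S18.helper9392.algebra_isSeparable_of_order ℓ
    (modularFunctionFieldFullC κ N) (tbar κ N r hr hrN hNk) (tR_ne_zero κ r) ?_
  rw [coe_tbar, order_tR]
  intro hdvd
  have h2 := (Fact.out : ℓ.Prime).two_le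
  have := Int.le_of_dvd (by norm_num) (Int.dvd_neg.mp hdvd)
  omega

end Line

/-! ## The residue field of a valuation subring of `ℚ̄` over `ℓ ∤ N` -/

section Residue

set_option synthInstance.maxHeartbeats 400000

theorem natCast_ne_zero_of_charP (κ : Type*) [Field κ] (ℓ : ℕ) [CharP κ ℓ] (hℓ : ℓ.Prime)
    (N : ℕ) (hℓN : ¬ ℓ ∣ N) : ∀ p : ℕ, p.Prime → p ∣ N → (p : κ) ≠ 0 := by
  intro p hp hpN h0
  have h1 : ℓ ∣ p := (CharP.cast_eq_zero_iff κ ℓ p).mp h0
  have h2 : ℓ = p := (Nat.prime_dvd_prime_iff_eq hℓ hp).mp h1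
  exact hℓN (h2 ▸ hpN)

variable (N : ℕ) [NeZero N] {ℓ : ℕ} (hℓ : ℓ.Prime) (hℓN : ¬ ℓ ∣ N)
  (A : ValuationSubring (AlgebraicClosure ℚ)) (hA : A.LiesOverPrime ℓ)

omit [NeZero N] in
include hℓ hℓN hA in
theorem residue_natCast_ne_zero :
    ∀ p : ℕ, p.Prime → p ∣ N → (p : IsLocalRing.ResidueField A) ≠ 0 := by
  have := Fermat.Agent.Lib.helper3858.charP_residueField A hℓ hA
  exact natCast_ne_zero_of_charP (IsLocalRing.ResidueField A) ℓ hℓ N hℓN

/-- The reduced Hauptmodul of level `r` in the function field over the residue field of `A`. -/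
def tbarA {r : ℕ} (hr : r = 2 ∨ r = 3) (hrN : r ∣ N) :
    ↥(modularFunctionFieldFullC (IsLocalRing.ResidueField A) N) :=
  tbar (IsLocalRing.ResidueField A) N r hr hrN (residue_natCast_ne_zero N hℓ hℓN A hA)

variable {N} {r : ℕ} (hr : r = 2 ∨ r = 3) (hrN : r ∣ N)

theorem coe_tbarA : ((tbarA N hℓ hℓN A hA hr hrN :
    ↥(modularFunctionFieldFullC (IsLocalRing.ResidueField A) N)) :
      LaurentSeries (IsLocalRing.ResidueField A)) = tR (IsLocalRing.ResidueField A) r := rfl

/-- `tbarA` is the reduction of the Hauptmodul series over `A`. -/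
theorem coe_tbarA_eq_coeffMap : ((tbarA N hℓ hℓN A hA hr hrN :
    ↥(modularFunctionFieldFullC (IsLocalRing.ResidueField A) N)) :
      LaurentSeries (IsLocalRing.ResidueField A)) = coeffMap (IsLocalRing.residue A) (tR A r) :=
  (coeffMap_tR (IsLocalRing.residue A) r).symm

theorem order_tbarA : ((tbarA N hℓ hℓN A hA hr hrN :
    ↥(modularFunctionFieldFullC (IsLocalRing.ResidueField A) N)) :
      LaurentSeries (IsLocalRing.ResidueField A)).order = -1 :=
  order_tR _ r

theorem finiteDimensional_tbarA :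
    FiniteDimensional (IsLocalRing.ResidueField A)⟮tbarA N hℓ hℓN A hA hr hrN⟯
      ↥(modularFunctionFieldFullC (IsLocalRing.ResidueField A) N) :=
  finiteDimensional_tbar hr hrN _

theorem isSeparable_tbarA :
    Algebra.IsSeparable (IsLocalRing.ResidueField A)⟮tbarA N hℓ hℓN A hA hr hrN⟯
      ↥(modularFunctionFieldFullC (IsLocalRing.ResidueField A) N) := by
  have : Fact ℓ.Prime := ⟨hℓ⟩
  have := Fermat.Agent.Lib.helper3858.charP_residueField A hℓ hA
  have := Fermat.Agent.Lib.helper3858.isAlgClosed_residueField A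
  exact isSeparable_tbar hr hrN _ ℓ

/-- **(C4) with the line discharged.**  `helper99.Stmt_Bbar N A` for `ℓ ∤ N`, `r ∈ {2, 3}`,
`r ∣ N`, from the certificates (L2) and the field `ct` (L3), both stated for
`tbarA N hℓ hℓN A hA hr hrN`. -/
theorem stmt_Bbar_of_certs
    (hcert : ∀ (D : Fermat.Agent.S18.helper5819.IntBasis N 2) (i : Fin D.r),
      HasCert (tbarA N hℓ hℓN A hA hr hrN) (D.laurent (IsLocalRing.ResidueField A) i))
    (hct : ∀ (x : LaurentSeries A) (hx : coeffMap A.subtype x ∈ modularFunctionFieldBar N),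
      Fermat.Agent.S18.helper99.RegAwayInf N ⟨coeffMap A.subtype x, hx⟩ →
        coeffMap (IsLocalRing.residue A) x ∈
          Bsub (IsLocalRing.ResidueField A) N (tbarA N hℓ hℓN A hA hr hrN)) :
    Fermat.Agent.S18.helper99.Stmt_Bbar N A := by
  have := finiteDimensional_tbarA hℓ hℓN A hA hr hrN
  have := isSeparable_tbarA hℓ hℓN A hA hr hrN
  exact stmt_Bbar_of N A (tbarA N hℓ hℓN A hA hr hrN) (order_tbarA hℓ hℓN A hA hr hrN) hcert hct

/-! ## The generic fibre -/

/-- The Hauptmodul series over `ℚ̄` lies in `modularFunctionFieldBar N` (`r ∣ N`). -/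
theorem tR_mem_bar (N : ℕ) [NeZero N] {r : ℕ} (hr : r = 2 ∨ r = 3) (hrN : r ∣ N) :
    tR (AlgebraicClosure ℚ) r ∈ modularFunctionFieldBar N := by
  rcases hr with rfl | rfl
  · exact Fermat.Agent.S18.helper6381.hline2_mem_bar N hrN _
      (tR_two_identities (AlgebraicClosure ℚ)).1 (tR_two_identities (AlgebraicClosure ℚ)).2
  · exact Fermat.Agent.S18.helper6381.hline3_mem_bar N hrN _
      (tR_three_identities (AlgebraicClosure ℚ)).1 (tR_three_identities (AlgebraicClosure ℚ)).2

end Residue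

end Fermat.Agent.S18.helper2707
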