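import Fermat.Agent.S18.helper508_GaussMod
import Fermat.Agent.S18.helper99_SpecC

/-!
# S18, track C: the Prop `(C2)` `helper99.Stmt_Gauss`

`stmt_Gauss` : for a prime `ℓ ∤ N` and a valuation subring `A` of `ℚ̄` over `ℓ`, the
coefficientwise reduction of an `A`-integral `q`-series of the function field of `X₀(N)` lies in
the function field of the special fibre.  This is `helper508.coeffMap_residue_mem_fullC` (the
`(RED)` clause of GAUSSMOD) at `L = ℚ̄`, stated verbatim as `helper99.Stmt_Gauss N A`.
-/

set_option autoImplicit false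

namespace Fermat.Agent.S18.helper508

open ModularCurve HahnSeries

/-- **(C2) of track C**: `helper99.Stmt_Gauss N A` for every `A` over a prime `ℓ ∤ N`. -/
theorem stmt_Gauss (N : ℕ) [NeZero N] (ℓ : ℕ) (hℓ : ℓ.Prime) (hℓN : ¬ ℓ ∣ N)
    (A : ValuationSubring (AlgebraicClosure ℚ)) (hA : A.LiesOverPrime ℓ) :
    helper99.Stmt_Gauss N A := by
  have : Fact ℓ.Prime := ⟨hℓ⟩
  intro x hx
  exact coeffMap_residue_mem_fullC N ℓ hℓN A hA x hx

end Fermat.Agent.S18.helper508
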