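/-
S18-KLV (helper2707): the residue lemma (KL) of track C and the gap count WITHOUT cusp expansions.

Setting: a field `F` with one embedding `ι : F →ₐ[k] k((q))`, an element `t : F` whose expansion has
a simple pole, `F` finite separable over `k(t)`.  `Ω` is an algebraic closure of `k((q))`.

* `RegAway ι t y` : every `k(t)`-embedding `σ : F → Ω` other than the given one sends `y` to an
  element integral over `k[[q]]` ("`y` has no pole at the places over `t = ∞` other than the
  `q`-adic one").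
* `kl_residue` : if `y` is `RegAway`, `Tr(y φ)` is a polynomial in `t` and `(φ t)^M t` is integral
  over `k[1/t]`, then the constant term of `y φ θ(t)` vanishes.
-/
import Mathlib
import Fermat.Agent.S18.helper4801_GapAlg

set_option autoImplicit false

noncomputable section

namespace Fermat.Agent.S18.helper2707

open Polynomial IntermediateField

variable {k : Type*} [Field k]

/-! ## Laurent series vanishing below an exponent -/

/-- All coefficients of exponent `< a` vanish. -/
def VB (a : ℤ) (x : LaurentSeries k) : Prop := ∀ n : ℤ, n < a → x.coeff n = 0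

theorem VB.mul {a b : ℤ} {x y : LaurentSeries k} (hx : VB a x) (hy : VB b y) :
    VB (a + b) (x * y) := by
  intro n hn
  rw [HahnSeries.coeff_mul]
  refine Finset.sum_eq_zero fun ij hij => ?_
  rw [Finset.mem_antidiagonal] at hij
  obtain ⟨-, -, hsum⟩ := hij
  by_cases h1 : ij.1 < a
  · rw [hx _ h1, zero_mul]
  · have h2 : ij.2 < b := by omega
    rw [hy _ h2, mul_zero]

theorem VB.mono {a b : ℤ} {x : LaurentSeries k} (hx : VB a x) (hba : b ≤ a) : VB b x :=
  fun n hn => hx n (lt_of_lt_of_le hn hba)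

theorem ofPS_coeff_neg (p : PowerSeries k) {n : ℤ} (hn : n < 0) :
    (HahnSeries.ofPowerSeries ℤ k p).coeff n = 0 := by
  have h := PowerSeries.coeff_coe (f := p) n
  rw [if_pos hn] at h
  exact h

theorem vb_zero_coe (p : PowerSeries k) : VB 0 (algebraMap (PowerSeries k) (LaurentSeries k) p) := by
  intro n hn
  rw [LaurentSeries.coe_algebraMap]
  exact ofPS_coeff_neg p hn

theorem exists_coe_of_vb_zero {x : LaurentSeries k} (hx : VB 0 x) :
    ∃ p : PowerSeries k, algebraMap (PowerSeries k) (LaurentSeries k) p = x := by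
  refine ⟨PowerSeries.mk fun n => x.coeff n, ?_⟩
  rw [LaurentSeries.coe_algebraMap]
  ext n
  rcases lt_or_ge n 0 with hn | hn
  · rw [hx n hn]
    exact ofPS_coeff_neg _ hn
  · lift n to ℕ using hn
    rw [HahnSeries.ofPowerSeries_apply_coeff, PowerSeries.coeff_mk]

theorem vb_of_le_order {x : LaurentSeries k} {a : ℤ} (h : a ≤ x.order) : VB a x :=
  fun _ hn => HahnSeries.coeff_eq_zero_of_lt_order (lt_of_lt_of_le hn h)

theorem le_order_of_vb {x : LaurentSeries k} (hx0 : x ≠ 0) {a : ℤ} (h : VB a x) : a ≤ x.order := by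
  by_contra hlt
  exact hx0 (HahnSeries.coeff_order_eq_zero.mp (h _ (not_le.mp hlt)))

/-! ## Embeddings into an algebraic closure of `k((q))` -/

/-- An algebraic closure of the field of Laurent series. -/
abbrev Om (k : Type*) [Field k] : Type _ := AlgebraicClosure (LaurentSeries k)

variable {F : Type*} [Field F] [Algebra k F]

/-- The given embedding `ι : F → k((q))`, viewed in `Ω`. -/
def inc (ι : F →ₐ[k] LaurentSeries k) : F →+* Om k :=
  (algebraMap (LaurentSeries k) (Om k)).comp (ι : F →+* LaurentSeries k)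

theorem inc_apply (ι : F →ₐ[k] LaurentSeries k) (x : F) :
    inc ι x = algebraMap (LaurentSeries k) (Om k) (ι x) := rfl

/-- `σ : F → Ω` agrees with the given embedding on `k(t)`. -/
def IsConj (ι : F →ₐ[k] LaurentSeries k) (t : F) (σ : F →+* Om k) : Prop :=
  ∀ c : k⟮t⟯, σ (c : F) = inc ι (c : F)

/-- `y` is regular away from the given embedding: every conjugate embedding other than the given
one sends `y` to an element integral over `k[[q]]`. -/
def RegAway (ι : F →ₐ[k] LaurentSeries k) (t : F) (y : F) : Prop :=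
  ∀ σ : F →+* Om k, IsConj ι t σ → σ ≠ inc ι → IsIntegral (PowerSeries k) (σ y)

/-- `z` is integral over `k[s]`: explicit monic polynomial whose coefficients are polynomials
in `s`. -/
def IsIntOver (k : Type*) [Field k] {F : Type*} [Field F] [Algebra k F] (s z : F) : Prop :=
  ∃ G : Polynomial (Polynomial k), G.Monic ∧
    G.eval₂ ((aeval s : k[X] →ₐ[k] F) : k[X] →+* F) z = 0

theorem algebraMap_ps_ls_const (c : k) :
    algebraMap (PowerSeries k) (LaurentSeries k) (algebraMap k (PowerSeries k) c)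
      = algebraMap k (LaurentSeries k) c := by
  rw [LaurentSeries.coe_algebraMap, Fermat.Agent.S18.helper4801.algebraMap_eq_C]
  have h : algebraMap k (PowerSeries k) c = PowerSeries.C c := rfl
  rw [h]
  exact HahnSeries.ofPowerSeries_C c

theorem IsConj.map_algebraMap {ι : F →ₐ[k] LaurentSeries k} {t : F} {σ : F →+* Om k}
    (hσ : IsConj ι t σ) (c : k) :
    σ (algebraMap k F c)
      = algebraMap (LaurentSeries k) (Om k) (algebraMap k (LaurentSeries k) c) := by
  have h := hσ (algebraMap k k⟮t⟯ c)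
  rw [inc_apply] at h
  have h2 : ((algebraMap k k⟮t⟯ c : k⟮t⟯) : F) = algebraMap k F c := rfl
  rw [h2, AlgHom.commutes] at h
  exact h

theorem IsConj.map_gen {ι : F →ₐ[k] LaurentSeries k} {t : F} {σ : F →+* Om k}
    (hσ : IsConj ι t σ) : σ t = inc ι t :=
  hσ (AdjoinSimple.gen k t)

/-- Integrality over `k[s]` is carried by a conjugate embedding to integrality over `k[[q]]`,
as soon as `s` goes to a power series. -/
theorem IsIntOver.isIntegral_map {ι : F →ₐ[k] LaurentSeries k} {t : F} {σ : F →+* Om k}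
    (hσ : IsConj ι t σ) {s z : F} (hz : IsIntOver k s z) (u : PowerSeries k)
    (hu : σ s = algebraMap (PowerSeries k) (Om k) u) : IsIntegral (PowerSeries k) (σ z) := by
  obtain ⟨G, hG, hGz⟩ := hz
  refine ⟨G.map ((aeval u : k[X] →ₐ[k] PowerSeries k) : k[X] →+* PowerSeries k), hG.map _, ?_⟩
  rw [eval₂_map]
  have hcomp : (algebraMap (PowerSeries k) (Om k)).comp
      ((aeval u : k[X] →ₐ[k] PowerSeries k) : k[X] →+* PowerSeries k)
        = σ.comp ((aeval s : k[X] →ₐ[k] F) : k[X] →+* F) := by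
    apply Polynomial.ringHom_ext
    · intro c
      simp only [RingHom.comp_apply, RingHom.coe_coe, aeval_C]
      rw [hσ.map_algebraMap, ← algebraMap_ps_ls_const,
        ← IsScalarTower.algebraMap_apply (PowerSeries k) (LaurentSeries k) (Om k)]
    · simp only [RingHom.comp_apply, RingHom.coe_coe, aeval_X]
      exact hu.symm
  rw [hcomp, ← Polynomial.hom_eval₂, hGz, map_zero]

/-! ## The residue lemma -/

section KL

variable (t : F) (ι : F →ₐ[k] LaurentSeries k)

/-- The `k(t)`-algebra structure on `Ω` through the given embedding. -/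
@[reducible] def algOm : Algebra k⟮t⟯ (Om k) := ((inc ι).comp (algebraMap k⟮t⟯ F)).toAlgebra

/-- The given embedding as a `k(t)`-algebra map. -/
def inc0 : @AlgHom k⟮t⟯ F (Om k) _ _ _ _ (algOm t ι) :=
  letI := algOm t ι
  { inc ι with commutes' := fun _ => rfl }

theorem inc0_apply (x : F) : inc0 t ι x = inc ι x := rfl

variable {t ι}

theorem order_inv_of_order (ht : (ι t).order = -1) : ((ι t)⁻¹).order = 1 := by
  have hτ0 : ι t ≠ 0 := by
    intro h
    rw [h, HahnSeries.order_zero] at ht
    omega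
  have h := HahnSeries.order_mul hτ0 (inv_ne_zero hτ0)
  rw [mul_inv_cancel₀ hτ0, HahnSeries.order_one, ht] at h
  omega

/-- `1/t` goes to a power series. -/
theorem exists_ps_inv (ht : (ι t).order = -1) :
    ∃ u : PowerSeries k, algebraMap (PowerSeries k) (LaurentSeries k) u = (ι t)⁻¹ :=
  exists_coe_of_vb_zero (vb_of_le_order (by rw [order_inv_of_order ht]; norm_num))

theorem IsConj.map_inv_gen {σ : F →+* Om k} (hσ : IsConj ι t σ) {u : PowerSeries k}
    (hu : algebraMap (PowerSeries k) (LaurentSeries k) u = (ι t)⁻¹) :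
    σ t⁻¹ = algebraMap (PowerSeries k) (Om k) u := by
  rw [map_inv₀, hσ.map_gen, inc_apply, ← map_inv₀, ← hu,
    ← IsScalarTower.algebraMap_apply (PowerSeries k) (LaurentSeries k) (Om k)]

/-- Key algebraic step: in the integral closure `R` of `k[[q]]` in `Ω`, the elements `a` with
`a ^ M * T` integral (`T⁻¹ ∈ R`) lie in the radical of `T⁻¹ R`; hence so does any finite sum. -/
theorem exists_pow_mul_isIntegral_sum {ι' : Type*} (s : Finset ι') (a : ι' → Om k) (T : Om k)
    (hT0 : T ≠ 0) (hTinv : IsIntegral (PowerSeries k) T⁻¹) {M : ℕ} (hM : M ≠ 0)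
    (ha : ∀ i ∈ s, IsIntegral (PowerSeries k) (a i ^ M * T)) :
    ∃ K : ℕ, IsIntegral (PowerSeries k) ((∑ i ∈ s, a i) ^ K * T) := by
  classical
  let R : Subalgebra (PowerSeries k) (Om k) := integralClosure (PowerSeries k) (Om k)
  have hTinvR : T⁻¹ ∈ R := hTinv
  let v : R := ⟨T⁻¹, hTinvR⟩
  let I : Ideal R := Ideal.span {v}
  have key : ∀ b : Om k, IsIntegral (PowerSeries k) (b ^ M * T) →
      ∃ hb : b ∈ R, (⟨b, hb⟩ : R) ∈ I.radical := by
    intro b hb
    have h1 : b ^ M = (b ^ M * T) * T⁻¹ := by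
      rw [mul_assoc, mul_inv_cancel₀ hT0, mul_one]
    have h2 : IsIntegral (PowerSeries k) (b ^ M) := by
      rw [h1]
      exact hb.mul hTinv
    have h3 : b ∈ R := IsIntegral.of_pow (Nat.pos_of_ne_zero hM) h2
    refine ⟨h3, M, ?_⟩
    have h4 : (⟨b, h3⟩ : R) ^ M = (⟨b ^ M * T, hb⟩ : R) * v := Subtype.ext h1
    rw [h4]
    exact Ideal.mul_mem_left _ _ (Ideal.subset_span rfl)
  have hsum : ∃ hS : (∑ i ∈ s, a i) ∈ R, (⟨∑ i ∈ s, a i, hS⟩ : R) ∈ I.radical := by
    refine Finset.sum_induction a (fun b => ∃ hb : b ∈ R, (⟨b, hb⟩ : R) ∈ I.radical) ?_ ?_ ?_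
    · rintro b c ⟨hb, hb'⟩ ⟨hc, hc'⟩
      exact ⟨R.add_mem hb hc, I.radical.add_mem hb' hc'⟩
    · exact ⟨R.zero_mem, I.radical.zero_mem⟩
    · intro i hi
      exact key _ (ha i hi)
  obtain ⟨hS, K, hK⟩ := hsum
  obtain ⟨c, hc⟩ := Ideal.mem_span_singleton'.mp hK
  refine ⟨K, ?_⟩
  have h5 : (∑ i ∈ s, a i) ^ K = (c : Om k) * T⁻¹ := by
    have := congrArg (Subtype.val) hc
    simpa using this.symm
  rw [h5, mul_assoc, inv_mul_cancel₀ hT0, mul_one]
  exact c.2

/-- A Laurent series whose image in `Ω` is integral over `k[[q]]` is a power series. -/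
theorem vb_zero_of_isIntegral {x : LaurentSeries k}
    (hx : IsIntegral (PowerSeries k) (algebraMap (LaurentSeries k) (Om k) x)) : VB 0 x := by
  have h1 : IsIntegral (PowerSeries k) x :=
    (isIntegral_algebraMap_iff (algebraMap (LaurentSeries k) (Om k)).injective).mp hx
  obtain ⟨p, hp⟩ := IsIntegrallyClosed.isIntegral_iff.mp h1
  rw [← hp]
  exact vb_zero_coe p

/-- If `S ^ K * τ` is a power series and `τ` has a simple pole, then `S` has no constant term
and no polar part. -/
theorem vb_one_of_pow_mul {S τ : LaurentSeries k} (hτ : τ.order = -1) {K : ℕ}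
    (h : VB 0 (S ^ K * τ)) : VB 1 S := by
  by_cases hS : S = 0
  · intro n _
    rw [hS, HahnSeries.coeff_zero]
  have hτ0 : τ ≠ 0 := by
    intro h0
    rw [h0, HahnSeries.order_zero] at hτ
    omega
  have h1 : (0 : ℤ) ≤ (S ^ K * τ).order := le_order_of_vb (mul_ne_zero (pow_ne_zero K hS) hτ0) h
  rw [HahnSeries.order_mul (pow_ne_zero K hS) hτ0, HahnSeries.order_pow, hτ, nsmul_eq_mul] at h1
  apply vb_of_le_order
  by_contra hlt
  have h2 : S.order ≤ 0 := by omega
  have h3 : (K : ℤ) * S.order ≤ 0 := mul_nonpos_of_nonneg_of_nonpos (Int.natCast_nonneg K) h2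
  omega

theorem vb_theta {τ : LaurentSeries k} {a : ℤ} (hτ : VB a τ) :
    VB a (Fermat.Agent.S18.helper4801.theta τ) := by
  intro n hn
  rw [Fermat.Agent.S18.helper4801.theta_coeff, hτ n hn, mul_zero]

/-- **(KLV) Residue lemma without cusp expansions.**  Let `F ⊆ k((q))` (via `ι`) be finite
separable over `k(t)`, `t` with a simple pole.  If `y` is regular away from the given embedding,
`Tr_{F/k(t)}(y φ)` is a polynomial in `t`, and `(φ t)^M t` is integral over `k[1/t]` (cusp
certificate), then the constant term of `y φ θ(t)` vanishes. -/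
theorem kl_residue [FiniteDimensional k⟮t⟯ F] [Algebra.IsSeparable k⟮t⟯ F]
    (ht : (ι t).order = -1) {y φ : F} (hy : RegAway ι t y) (P : k[X])
    (htr : ((Algebra.trace k⟮t⟯ F (y * φ) : k⟮t⟯) : F) = aeval t P)
    {M : ℕ} (hM : M ≠ 0) (hcert : IsIntOver k t⁻¹ ((φ * t) ^ M * t)) :
    (ι (y * φ) * Fermat.Agent.S18.helper4801.theta (ι t)).coeff 0 = 0 := by
  classical
  let _ := algOm t ι
  have hτ0 : ι t ≠ 0 := by
    intro h
    rw [h, HahnSeries.order_zero] at ht
    omega
  obtain ⟨u, hu⟩ := exists_ps_inv ht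
  set T : Om k := inc ι t with hT
  have hT0 : T ≠ 0 := by
    rw [hT, inc_apply]
    exact (_root_.map_ne_zero _).mpr hτ0
  have hTinv : IsIntegral (PowerSeries k) T⁻¹ := by
    have h : T⁻¹ = algebraMap (PowerSeries k) (Om k) u := by
      rw [hT, inc_apply, ← map_inv₀, ← hu,
        ← IsScalarTower.algebraMap_apply (PowerSeries k) (LaurentSeries k) (Om k)]
    rw [h]
    exact isIntegral_algebraMap
  let z : F := y * (φ * t)
  have hconj : ∀ σ : F →ₐ[k⟮t⟯] Om k, IsConj ι t (σ : F →+* Om k) := fun σ c => σ.commutes c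
  have hσ : ∀ σ ∈ (Finset.univ.erase (inc0 t ι) : Finset (F →ₐ[k⟮t⟯] Om k)),
      IsIntegral (PowerSeries k) (σ z ^ M * T) := by
    intro σ hσ
    have hne : σ ≠ inc0 t ι := Finset.ne_of_mem_erase hσ
    have hne' : (σ : F →+* Om k) ≠ inc ι := by
      intro h
      apply hne
      ext x
      exact congrArg (fun f : F →+* Om k => f x) h
    have h1 : IsIntegral (PowerSeries k) (σ y) := hy _ (hconj σ) hne'
    have h2 : IsIntegral (PowerSeries k) (σ ((φ * t) ^ M * t)) :=
      hcert.isIntegral_map (hconj σ) u ((hconj σ).map_inv_gen hu)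
    have hσt : σ t = T := (hconj σ).map_gen
    have h3 : σ z ^ M * T = σ y ^ M * σ ((φ * t) ^ M * t) := by
      simp only [z, map_mul, map_pow, hσt]
      ring
    rw [h3]
    exact (h1.pow M).mul h2
  obtain ⟨K, hK⟩ := exists_pow_mul_isIntegral_sum _ (fun σ : F →ₐ[k⟮t⟯] Om k => σ z) T hT0 hTinv
    hM hσ
  have hsum := trace_eq_sum_embeddings (K := k⟮t⟯) (L := F) (Om k) (x := z)
  rw [← Finset.add_sum_erase Finset.univ _ (Finset.mem_univ (inc0 t ι))] at hsum
  set S₀ : LaurentSeries k := ι ((Algebra.trace k⟮t⟯ F z : k⟮t⟯) : F) - ι z with hS₀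
  have hS : ∑ σ ∈ Finset.univ.erase (inc0 t ι), σ z
      = algebraMap (LaurentSeries k) (Om k) S₀ := by
    have h1 : algebraMap k⟮t⟯ (Om k) (Algebra.trace k⟮t⟯ F z)
        = algebraMap (LaurentSeries k) (Om k) (ι ((Algebra.trace k⟮t⟯ F z : k⟮t⟯) : F)) := rfl
    rw [h1, inc0_apply, inc_apply] at hsum
    rw [hS₀, map_sub, hsum]
    ring
  have hVB0 : VB 0 (S₀ ^ K * ι t) := by
    apply vb_zero_of_isIntegral
    rw [map_mul, map_pow, ← hS, ← inc_apply]
    exact hK
  have hVB1 : VB 1 S₀ := vb_one_of_pow_mul ht hVB0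
  -- the trace of `z`
  have hz : z = (AdjoinSimple.gen k t) • (y * φ) := by
    rw [Algebra.smul_def, AdjoinSimple.algebraMap_gen]
    show y * (φ * t) = t * (y * φ)
    ring
  have htrz : ((Algebra.trace k⟮t⟯ F z : k⟮t⟯) : F) = t * aeval t P := by
    rw [hz, map_smul, smul_eq_mul, IntermediateField.coe_mul, AdjoinSimple.coe_gen, htr]
  have hS₀' : S₀ = ι t * aeval (ι t) P - ι y * (ι φ * ι t) := by
    rw [hS₀, htrz, map_mul, ← Polynomial.aeval_algHom_apply]
    simp only [z, map_mul]
  have hW : ι (y * φ) * Fermat.Agent.S18.helper4801.theta (ι t)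
      = aeval (ι t) P * Fermat.Agent.S18.helper4801.theta (ι t)
        - S₀ * ((ι t)⁻¹ * Fermat.Agent.S18.helper4801.theta (ι t)) := by
    rw [hS₀', map_mul]
    field_simp
    ring
  rw [hW, HahnSeries.coeff_sub, Fermat.Agent.S18.helper4801.coeff_zero_aeval_mul_theta, zero_sub,
    neg_eq_zero]
  have hinv : VB 1 (ι t)⁻¹ := vb_of_le_order (by rw [order_inv_of_order ht])
  have hθ : VB (-1) (Fermat.Agent.S18.helper4801.theta (ι t)) :=
    vb_theta (vb_of_le_order (by rw [ht]))
  exact (hVB1.mul (hinv.mul hθ)) 0 (by norm_num)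

end KL

end Fermat.Agent.S18.helper2707
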