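/-
S18-KLV part 2 (helper2707): closure properties of `RegAway`, the product formula
`charpoly = ∏ over embeddings`, and the COFACTOR TRANSFER: if the characteristic polynomial of `y`
over `k(t)`, read in `k((q))[X]`, is `(X - y) * Q` with `Q ∈ k[[q]][X]`, then `y` is regular away
from the given embedding.  (This is how "no pole at the other cusps" passes from characteristic
zero to the reduction: polynomial division by the monic `X - Y` over `A((q))`, then reduce.)
-/
import Fermat.Agent.S18.helper2707_ResidueVal

set_option autoImplicit false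

noncomputable section

namespace Fermat.Agent.S18.helper2707

open Polynomial IntermediateField

variable {k : Type*} [Field k] {F : Type*} [Field F] [Algebra k F]
variable {t : F} {ι : F →ₐ[k] LaurentSeries k}

/-! ## Closure properties of `RegAway` -/

theorem RegAway.add {y z : F} (hy : RegAway ι t y) (hz : RegAway ι t z) : RegAway ι t (y + z) :=
  fun σ hσ hne => by
    rw [map_add]
    exact (hy σ hσ hne).add (hz σ hσ hne)

theorem RegAway.mul {y z : F} (hy : RegAway ι t y) (hz : RegAway ι t z) : RegAway ι t (y * z) :=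
  fun σ hσ hne => by
    rw [map_mul]
    exact (hy σ hσ hne).mul (hz σ hσ hne)

theorem RegAway.neg {y : F} (hy : RegAway ι t y) : RegAway ι t (-y) :=
  fun σ hσ hne => by
    rw [map_neg]
    exact (hy σ hσ hne).neg

theorem RegAway.sub {y z : F} (hy : RegAway ι t y) (hz : RegAway ι t z) : RegAway ι t (y - z) :=
  fun σ hσ hne => by
    rw [map_sub]
    exact (hy σ hσ hne).sub (hz σ hσ hne)

theorem RegAway.pow {y : F} (hy : RegAway ι t y) (n : ℕ) : RegAway ι t (y ^ n) :=
  fun σ hσ hne => by
    rw [map_pow]
    exact (hy σ hσ hne).pow n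

/-- Roots stay regular: if `y ^ n` is regular away (`n ≠ 0`) then so is `y`. -/
theorem RegAway.of_pow {y : F} {n : ℕ} (hn : n ≠ 0) (hy : RegAway ι t (y ^ n)) : RegAway ι t y :=
  fun σ hσ hne => by
    have h := hy σ hσ hne
    rw [map_pow] at h
    exact IsIntegral.of_pow (Nat.pos_of_ne_zero hn) h

theorem regAway_algebraMap (c : k) : RegAway ι t (algebraMap k F c) :=
  fun σ hσ _ => by
    rw [hσ.map_algebraMap, ← algebraMap_ps_ls_const,
      ← IsScalarTower.algebraMap_apply (PowerSeries k) (LaurentSeries k) (Om k)]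
    exact isIntegral_algebraMap

theorem regAway_zero : RegAway ι t (0 : F) := by
  simpa using regAway_algebraMap (ι := ι) (t := t) (0 : k)

theorem regAway_one : RegAway ι t (1 : F) := by
  simpa using regAway_algebraMap (ι := ι) (t := t) (1 : k)

theorem RegAway.smul {y : F} (hy : RegAway ι t y) (c : k) : RegAway ι t (c • y) := by
  rw [Algebra.smul_def]
  exact (regAway_algebraMap c).mul hy

/-- An element integral over `k[1/t]` is regular at every conjugate embedding. -/
theorem isIntegral_map_of_isIntOver_inv (ht : (ι t).order = -1) {y : F}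
    (hy : IsIntOver k t⁻¹ y) {σ : F →+* Om k} (hσ : IsConj ι t σ) :
    IsIntegral (PowerSeries k) (σ y) := by
  obtain ⟨u, hu⟩ := exists_ps_inv ht
  exact hy.isIntegral_map hσ u (hσ.map_inv_gen hu)

theorem regAway_of_isIntOver_inv (ht : (ι t).order = -1) {y : F} (hy : IsIntOver k t⁻¹ y) :
    RegAway ι t y :=
  fun _ hσ _ => isIntegral_map_of_isIntOver_inv ht hy hσ

/-- An element of `F` whose expansion is a power series has integral image. -/
theorem isIntegral_inc_of_vb {x : F} (hx : VB 0 (ι x)) : IsIntegral (PowerSeries k) (inc ι x) := by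
  obtain ⟨p, hp⟩ := exists_coe_of_vb_zero hx
  rw [inc_apply, ← hp, ← IsScalarTower.algebraMap_apply (PowerSeries k) (LaurentSeries k) (Om k)]
  exact isIntegral_algebraMap

/-- `RegAway` is stable under multiplication by an element of the base `k(t)` whose expansion is
integral over `k[[q]]` (all conjugates agree on `k(t)`). -/
theorem RegAway.mul_base {y : F} (hy : RegAway ι t y) (g : k⟮t⟯)
    (hg : IsIntegral (PowerSeries k) (inc ι (g : F))) : RegAway ι t (y * (g : F)) :=
  fun σ hσ hne => by
    rw [map_mul, hσ g]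
    exact (hy σ hσ hne).mul hg

/-- Variant of `RegAway.mul_base` with membership and a power-series expansion. -/
theorem RegAway.mul_base_of_vb {y g : F} (hy : RegAway ι t y) (hg : g ∈ k⟮t⟯)
    (hvb : VB 0 (ι g)) : RegAway ι t (y * g) :=
  hy.mul_base ⟨g, hg⟩ (isIntegral_inc_of_vb hvb)

/-! ## Closure properties of `IsIntOver` -/

theorem isIntOver_iff {s z : F} :
    IsIntOver k s z ↔ ((aeval s : k[X] →ₐ[k] F) : k[X] →+* F).IsIntegralElem z := Iff.rfl

theorem isIntOver_aeval (s : F) (p : k[X]) : IsIntOver k s (aeval s p) :=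
  RingHom.isIntegralElem_map ((aeval s : k[X] →ₐ[k] F) : k[X] →+* F) (x := p)

theorem isIntOver_gen (s : F) : IsIntOver k s s := by
  simpa using isIntOver_aeval (k := k) s X

theorem isIntOver_algebraMap (s : F) (c : k) : IsIntOver k s (algebraMap k F c) := by
  simpa using isIntOver_aeval (k := k) s (C c)

theorem isIntOver_zero (s : F) : IsIntOver k s (0 : F) := by
  simpa using isIntOver_aeval (k := k) s 0

theorem isIntOver_one (s : F) : IsIntOver k s (1 : F) := by
  simpa using isIntOver_aeval (k := k) s 1

theorem IsIntOver.add {s z w : F} (hz : IsIntOver k s z) (hw : IsIntOver k s w) :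
    IsIntOver k s (z + w) :=
  RingHom.IsIntegralElem.add _ hz hw

theorem IsIntOver.mul {s z w : F} (hz : IsIntOver k s z) (hw : IsIntOver k s w) :
    IsIntOver k s (z * w) :=
  RingHom.IsIntegralElem.mul _ hz hw

theorem IsIntOver.neg {s z : F} (hz : IsIntOver k s z) : IsIntOver k s (-z) :=
  RingHom.IsIntegralElem.neg _ hz

theorem IsIntOver.sub {s z w : F} (hz : IsIntOver k s z) (hw : IsIntOver k s w) :
    IsIntOver k s (z - w) :=
  RingHom.IsIntegralElem.sub _ hz hw

theorem IsIntOver.pow {s z : F} (hz : IsIntOver k s z) (n : ℕ) : IsIntOver k s (z ^ n) := by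
  induction n with
  | zero => simpa using isIntOver_one (k := k) s
  | succ n ih => rw [pow_succ]; exact ih.mul hz

/-- `IsIntOver k s z` is integrality over the subalgebra `k[s]`. -/
theorem isIntOver_iff_isIntegral_adjoin {s z : F} :
    IsIntOver k s z ↔ IsIntegral (Algebra.adjoin k {s}) z := by
  let s' : Algebra.adjoin k {s} := ⟨s, Algebra.self_mem_adjoin_singleton k s⟩
  let φ : k[X] →ₐ[k] Algebra.adjoin k {s} := aeval s'
  have hφ : ∀ p : k[X], ((φ p : Algebra.adjoin k {s}) : F) = aeval s p := fun p => by
    have h1 : ((Algebra.adjoin k {s}).val.comp φ) = (aeval s : k[X] →ₐ[k] F) := by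
      apply Polynomial.algHom_ext
      simp [φ, s']
    exact congrArg (fun f : k[X] →ₐ[k] F => f p) h1
  have hcomp : (algebraMap (Algebra.adjoin k {s}) F).comp (φ : k[X] →+* Algebra.adjoin k {s})
      = ((aeval s : k[X] →ₐ[k] F) : k[X] →+* F) := by
    refine RingHom.ext fun p => ?_
    exact hφ p
  constructor
  · rintro ⟨G, hG, h0⟩
    refine ⟨G.map (φ : k[X] →+* Algebra.adjoin k {s}), hG.map _, ?_⟩
    rw [eval₂_map, hcomp]
    exact h0
  · rintro ⟨G, hG, h0⟩
    have hsurj : Function.Surjective (φ : k[X] →+* Algebra.adjoin k {s}) := by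
      intro a
      have ha : (a : F) ∈ (aeval s : k[X] →ₐ[k] F).range := by
        rw [← Algebra.adjoin_singleton_eq_range_aeval]
        exact a.2
      obtain ⟨p, hp⟩ := ha
      exact ⟨p, Subtype.ext ((hφ p).trans hp)⟩
    obtain ⟨G', hG'1, -, hG'2⟩ := Polynomial.lifts_and_degree_eq_and_monic
      ((Polynomial.mem_lifts G).mpr
        (Polynomial.map_surjective _ hsurj G)) hG
    refine ⟨G', hG'2, ?_⟩
    rw [← hG'1, eval₂_map, hcomp] at h0
    exact h0

/-! ## `charpoly = ∏ over embeddings` -/

/-- For a finite separable extension `L/K` (`K` infinite) and an algebraically closed `E`, the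
characteristic polynomial of multiplication by `y` is the product over all `K`-embeddings. -/
theorem charpoly_map_eq_prod_embeddings {K L E : Type*} [Field K] [Field L] [Field E]
    [Algebra K L] [Algebra K E] [FiniteDimensional K L] [Algebra.IsSeparable K L] [IsAlgClosed E]
    [Infinite K] (y : L) :
    (LinearMap.charpoly (Algebra.lmul K L y)).map (algebraMap K E)
      = ∏ σ : L →ₐ[K] E, (X - C (σ y)) := by
  apply Polynomial.eq_of_infinite_eval_eq
  apply Set.Infinite.mono ?_ (Set.infinite_range_of_injective (algebraMap K E).injective)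
  rintro _ ⟨c, rfl⟩
  show eval _ _ = eval _ _
  rw [eval_map, eval₂_at_apply, LinearMap.eval_charpoly]
  have h1 : algebraMap K (Module.End K L) c - Algebra.lmul K L y
      = Algebra.lmul K L (algebraMap K L c - y) := by
    ext x
    simp [Algebra.smul_def]
  rw [h1, ← Algebra.norm_apply, Algebra.norm_eq_prod_embeddings K E, eval_prod]
  refine Finset.prod_congr rfl fun σ _ => ?_
  rw [eval_sub, eval_X, eval_C, map_sub, AlgHom.commutes]

/-! ## Cofactor transfer -/

/-- `k(t)` is infinite when `t` has a pole. -/
theorem infinite_adjoin (ht : (ι t).order = -1) : Infinite k⟮t⟯ := by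
  have hτ0 : ι t ≠ 0 := by
    intro h
    rw [h, HahnSeries.order_zero] at ht
    omega
  refine Infinite.of_injective (fun n : ℕ => (AdjoinSimple.gen k t) ^ n) ?_
  intro n m hnm
  have h1 : (ι t) ^ n = (ι t) ^ m := by
    have h2 := congrArg (fun c : k⟮t⟯ => ι (c : F)) hnm
    simpa using h2
  have h3 := congrArg HahnSeries.order h1
  rw [HahnSeries.order_pow, HahnSeries.order_pow, ht] at h3
  simp only [nsmul_eq_mul] at h3
  omega

/-- **(CT) Cofactor transfer.**  If the characteristic polynomial of `y` over `k(t)`, read in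
`k((q))[X]` through `ι`, factors as `(X - ι y) * Q` with `Q` having power series coefficients,
then `y` is regular away from the given embedding. -/
theorem regAway_of_cofactor [FiniteDimensional k⟮t⟯ F] [Algebra.IsSeparable k⟮t⟯ F]
    (ht : (ι t).order = -1) (y : F) (Q : (PowerSeries k)[X])
    (h : (LinearMap.charpoly (Algebra.lmul k⟮t⟯ F y)).map
        ((ι : F →+* LaurentSeries k).comp (algebraMap k⟮t⟯ F))
      = (X - C (ι y)) * Q.map (algebraMap (PowerSeries k) (LaurentSeries k))) :
    RegAway ι t y := by
  classical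
  intro σ hσ hne
  let _ := algOm t ι
  have := infinite_adjoin ht
  -- `Q` is monic
  have hQ : Q.Monic := by
    have h1 : ((X - C (ι y)) * Q.map (algebraMap (PowerSeries k) (LaurentSeries k))).Monic := by
      rw [← h]
      exact (LinearMap.charpoly_monic _).map _
    have h2 : (Q.map (algebraMap (PowerSeries k) (LaurentSeries k))).Monic :=
      (monic_X_sub_C _).of_mul_monic_left h1
    exact monic_of_injective (IsFractionRing.injective (PowerSeries k) (LaurentSeries k)) h2
  -- `σ` as an algebra map
  let σ' : F →ₐ[k⟮t⟯] Om k := { σ with commutes' := fun c => hσ c }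
  have hne' : σ' ≠ inc0 t ι := by
    intro h0
    apply hne
    ext x
    exact congrArg (fun f : F →ₐ[k⟮t⟯] Om k => f x) h0
  have hpf := charpoly_map_eq_prod_embeddings (K := k⟮t⟯) (L := F) (E := Om k) y
  have h' : (LinearMap.charpoly (Algebra.lmul k⟮t⟯ F y)).map (algebraMap k⟮t⟯ (Om k))
      = (X - C (inc ι y)) * Q.map (algebraMap (PowerSeries k) (Om k)) := by
    have h3 := congrArg (Polynomial.map (algebraMap (LaurentSeries k) (Om k))) h
    rw [Polynomial.map_map, Polynomial.map_mul, Polynomial.map_sub, map_X, map_C,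
      Polynomial.map_map] at h3
    rw [IsScalarTower.algebraMap_eq (PowerSeries k) (LaurentSeries k) (Om k)]
    exact h3
  rw [hpf, ← Finset.mul_prod_erase Finset.univ _ (Finset.mem_univ (inc0 t ι))] at h'
  have h'' : ∏ τ ∈ Finset.univ.erase (inc0 t ι), (X - C (τ y))
      = Q.map (algebraMap (PowerSeries k) (Om k)) :=
    mul_left_cancel₀ (X_sub_C_ne_zero _) h'
  have h4 : (Q.map (algebraMap (PowerSeries k) (Om k))).eval (σ y) = 0 := by
    rw [← h'', eval_prod]
    refine Finset.prod_eq_zero (Finset.mem_erase.mpr ⟨hne', Finset.mem_univ σ'⟩) ?_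
    show eval (σ y) (X - C (σ y)) = 0
    simp
  rw [eval_map] at h4
  exact ⟨Q, hQ, h4⟩

end Fermat.Agent.S18.helper2707
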