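/-
S18, track C, [C4] `Stmt_Bbar`, field `ct` (helper7261; backup of helper2707).

The reduction of an `A`-integral function regular away from the cusp `∞` is integral over
`κ[t̄]` and regular away from the given embedding (`helper2707.RegAway`).
-/
import Mathlib
import Fermat.Agent.S18.helper2707_Cofactor
import Fermat.Prelude.Def_ModularCurve_LaurentCoeff

set_option autoImplicit false

noncomputable section

namespace Fermat.Agent.S18.helper7261

open Polynomial IntermediateField ModularCurve

/-! ## Laurent series with coefficients in a ring -/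

section Series

variable {R S : Type*} [CommRing R] [CommRing S]

theorem ofPS_coeff_neg (p : PowerSeries R) {n : ℤ} (hn : n < 0) :
    (HahnSeries.ofPowerSeries ℤ R p).coeff n = 0 := by
  have h := PowerSeries.coeff_coe (f := p) n
  rw [if_pos hn] at h
  exact h

theorem exists_ofPowerSeries_eq (x : LaurentSeries R) (hx : ∀ n : ℤ, n < 0 → x.coeff n = 0) :
    ∃ p : PowerSeries R, HahnSeries.ofPowerSeries ℤ R p = x := by
  refine ⟨PowerSeries.mk fun n => x.coeff n, ?_⟩
  ext n
  rcases lt_or_ge n 0 with hn | hn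
  · rw [hx n hn]
    exact ofPS_coeff_neg _ hn
  · lift n to ℕ using hn
    rw [HahnSeries.ofPowerSeries_apply_coeff, PowerSeries.coeff_mk]

theorem coeffMap_ofPowerSeries (f : R →+* S) (p : PowerSeries R) :
    coeffMap f (HahnSeries.ofPowerSeries ℤ R p) = HahnSeries.ofPowerSeries ℤ S (p.map f) := by
  ext n
  rw [coeffMap_coeff]
  rcases lt_or_ge n 0 with hn | hn
  · rw [ofPS_coeff_neg _ hn, ofPS_coeff_neg _ hn, map_zero]
  · lift n to ℕ using hn
    rw [HahnSeries.ofPowerSeries_apply_coeff, HahnSeries.ofPowerSeries_apply_coeff,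
      PowerSeries.coeff_map]

theorem coeffMap_injective {f : R →+* S} (hf : Function.Injective f) :
    Function.Injective (coeffMap f) := by
  intro a b h
  ext n
  apply hf
  have := congrArg (fun z : LaurentSeries S => z.coeff n) h
  simpa using this

/-- **Cofactor reduction.**  `χ` a polynomial over `R((q))`, `x ∈ R((q))`; if over `S ⊇ R` the
polynomial `χ` is `(X - x) * Q₀` with `Q₀` having power series coefficients, then the same holds
over `R`, hence after any coefficient map `g : R → T`. -/
theorem cofactor_reduction [Nontrivial S] {T : Type*} [CommRing T] (i : R →+* S)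
    (hi : Function.Injective i) (g : R →+* T) (χ : (LaurentSeries R)[X]) (x : LaurentSeries R)
    (Q₀ : (PowerSeries S)[X])
    (h₀ : χ.map (coeffMap i) =
      (X - C (coeffMap i x)) * Q₀.map (HahnSeries.ofPowerSeries ℤ S)) :
    ∃ Q : (PowerSeries T)[X], χ.map (coeffMap g) =
      (X - C (coeffMap g x)) * Q.map (HahnSeries.ofPowerSeries ℤ T) := by
  have hinj : Function.Injective (Polynomial.map (coeffMap i)) :=
    Polynomial.map_injective _ (coeffMap_injective hi)
  -- division over `R((q))`
  have hdiv := Polynomial.div_modByMonic_unique (f := χ.map (coeffMap i))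
    (g := X - C (coeffMap i x)) (Q₀.map (HahnSeries.ofPowerSeries ℤ S)) 0
    (monic_X_sub_C _) ⟨by rw [zero_add, h₀], by
      rw [degree_zero, degree_X_sub_C]; exact WithBot.bot_lt_coe _⟩
  have hmapX : (X - C x : (LaurentSeries R)[X]).map (coeffMap i) = X - C (coeffMap i x) := by
    rw [Polynomial.map_sub, map_X, map_C]
  have hq : (χ /ₘ (X - C x)).map (coeffMap i) = Q₀.map (HahnSeries.ofPowerSeries ℤ S) := by
    rw [Polynomial.map_divByMonic _ (monic_X_sub_C x), hmapX]
    exact hdiv.1
  have hr : χ %ₘ (X - C x) = 0 := by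
    apply hinj
    rw [Polynomial.map_modByMonic _ (monic_X_sub_C x), hmapX, Polynomial.map_zero]
    exact hdiv.2
  have hχ : χ = (X - C x) * (χ /ₘ (X - C x)) := by
    have := Polynomial.modByMonic_add_div χ (X - C x)
    rw [hr, zero_add] at this
    exact this.symm
  -- the quotient has power series coefficients
  have hlift : χ /ₘ (X - C x) ∈ Polynomial.lifts (HahnSeries.ofPowerSeries ℤ R) := by
    rw [Polynomial.lifts_iff_coeff_lifts]
    intro n
    obtain ⟨p, hp⟩ := exists_ofPowerSeries_eq ((χ /ₘ (X - C x)).coeff n) (fun k hk => by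
      apply hi
      have h1 := congrArg (fun P : (LaurentSeries S)[X] => (P.coeff n).coeff k) hq
      simp only [coeff_map, coeffMap_coeff] at h1
      rw [h1, map_zero]
      exact ofPS_coeff_neg _ hk)
    exact ⟨p, hp⟩
  obtain ⟨Q', hQ'⟩ := (Polynomial.mem_lifts _).mp hlift
  refine ⟨Q'.map (PowerSeries.map g), ?_⟩
  have hcomp : (coeffMap g).comp (HahnSeries.ofPowerSeries ℤ R) =
      (HahnSeries.ofPowerSeries ℤ T).comp (PowerSeries.map g) :=
    RingHom.ext fun p => coeffMap_ofPowerSeries g p
  conv_lhs => rw [hχ]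
  rw [Polynomial.map_mul, Polynomial.map_sub, map_X, map_C, ← hQ', Polynomial.map_map,
    Polynomial.map_map, hcomp]

end Series

/-! ## Gauss lemma for a valuation ring -/

section GaussLemma

variable {L : Type*} [Field L] (A : ValuationSubring L)

theorem map_subtype_injective :
    Function.Injective (Polynomial.map (A.subtype) : A[X] → L[X]) :=
  Polynomial.map_injective _ Subtype.val_injective

theorem exists_map_subtype_eq (R : L[X]) (h : ∀ j, R.coeff j ∈ A) :
    ∃ R' : A[X], R'.map A.subtype = R := by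
  have : R ∈ Polynomial.lifts A.subtype := by
    rw [Polynomial.lifts_iff_coeff_lifts]
    intro n
    exact ⟨⟨R.coeff n, h n⟩, rfl⟩
  exact (Polynomial.mem_lifts _).mp this

/-- **Gauss lemma for a valuation ring.**  `res : A → κ` a ring hom to a domain killing the
non-units.  If `R * Q = P` with `P, Q ∈ A[X]` and `Q` nonzero modulo `res`, then `R ∈ A[X]`. -/
theorem exists_map_eq_of_mul_eq {κ : Type*} [CommRing κ] [IsDomain κ] (res : A →+* κ)
    (hres : ∀ a : A, ¬ IsUnit a → res a = 0) (R : L[X]) (P Q : A[X])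
    (hQ : Q.map res ≠ 0) (h : R * Q.map A.subtype = P.map A.subtype) :
    ∃ R' : A[X], R'.map A.subtype = R ∧ R' * Q = P := by
  classical
  have key : ∀ j, R.coeff j ∈ A := by
    by_contra hcon
    push Not at hcon
    obtain ⟨j₁, hj₁⟩ := hcon
    have hj₁s : j₁ ∈ R.support := by
      rw [mem_support_iff]
      intro h0
      exact hj₁ (h0 ▸ A.zero_mem)
    obtain ⟨j₀, hj₀, hmax⟩ := Finset.exists_max_image R.support
      (fun j => A.valuation (R.coeff j)) ⟨j₁, hj₁s⟩
    set a := R.coeff j₀ with ha
    have ha0 : a ≠ 0 := mem_support_iff.mp hj₀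
    have hva : 1 < A.valuation a := by
      have h1 : 1 < A.valuation (R.coeff j₁) := by
        rw [← not_le, A.valuation_le_one_iff]
        exact hj₁
      exact lt_of_lt_of_le h1 (hmax j₁ hj₁s)
    have hva0 : A.valuation a ≠ 0 := (Valuation.ne_zero_iff _).mpr ha0
    have hainv : A.valuation a⁻¹ < 1 := by
      rw [map_inv₀]
      exact inv_lt_one_of_one_lt₀ hva
    have hainvA : a⁻¹ ∈ A := (A.valuation_le_one_iff _).mp hainv.le
    -- the rescaled polynomial
    have hR1 : ∀ j, (C a⁻¹ * R).coeff j ∈ A := by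
      intro j
      rw [coeff_C_mul, ← A.valuation_le_one_iff, map_mul, map_inv₀]
      by_cases hj : j ∈ R.support
      · calc (A.valuation a)⁻¹ * A.valuation (R.coeff j)
            ≤ (A.valuation a)⁻¹ * A.valuation a := mul_le_mul' le_rfl (hmax j hj)
          _ = 1 := inv_mul_cancel₀ hva0
      · rw [notMem_support_iff.mp hj, map_zero, mul_zero]
        exact zero_le_one
    obtain ⟨R1, hR1map⟩ := exists_map_subtype_eq A (C a⁻¹ * R) hR1
    have hprod : R1 * Q = C (⟨a⁻¹, hainvA⟩ : A) * P := by
      apply map_subtype_injective A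
      rw [Polynomial.map_mul, Polynomial.map_mul, hR1map, map_C, mul_assoc, h]
      rfl
    have hres0 : res (⟨a⁻¹, hainvA⟩ : A) = 0 := by
      apply hres
      rw [A.valuation_eq_one_iff]
      exact hainv.ne
    have hprod' := congrArg (Polynomial.map res) hprod
    rw [Polynomial.map_mul, Polynomial.map_mul, map_C, hres0, map_zero, zero_mul] at hprod'
    have hR1zero : R1.map res = 0 := (mul_eq_zero.mp hprod').resolve_right hQ
    have hc : (R1.map res).coeff j₀ = 1 := by
      rw [coeff_map]
      have h1 : R1.coeff j₀ = 1 := by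
        apply Subtype.val_injective
        have h2 := congrArg (fun p : L[X] => p.coeff j₀) hR1map
        simp only [coeff_map, coeff_C_mul] at h2
        show A.subtype (R1.coeff j₀) = 1
        rw [h2]
        exact inv_mul_cancel₀ ha0
      rw [h1, map_one]
    rw [hR1zero, coeff_zero] at hc
    exact zero_ne_one hc
  obtain ⟨R', hR'⟩ := exists_map_subtype_eq A R key
  refine ⟨R', hR', ?_⟩
  apply map_subtype_injective A
  rw [Polynomial.map_mul, hR', h]

end GaussLemma

/-! ## The characteristic polynomial of an integral element -/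

section IntegralCharpoly

open scoped IntermediateField.algebraAdjoinAdjoin

variable {L F : Type*} [Field L] [Field F] [Algebra L F]

/-- In characteristic zero, the characteristic polynomial over `L(t)` of an element integral
over `L[t]` (`t` transcendental) has coefficients in `L[t]`. -/
theorem charpoly_coeff_mem_range_aeval [CharZero L] {t : F} (ht : Transcendental L t)
    [FiniteDimensional L⟮t⟯ F] {x : F} (hx : IsIntegral (Algebra.adjoin L {t}) x) (i : ℕ) :
    ∃ R : L[X], algebraMap L⟮t⟯ F ((LinearMap.charpoly (Algebra.lmul L⟮t⟯ F x)).coeff i) =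
      aeval t R := by
  classical
  have : CharZero L⟮t⟯ := charZero_of_injective_algebraMap (algebraMap L L⟮t⟯).injective
  have : Infinite L⟮t⟯ := Infinite.of_injective (fun n : ℕ => (n : L⟮t⟯)) Nat.cast_injective
  have hpf := helper2707.charpoly_map_eq_prod_embeddings (K := L⟮t⟯) (L := F)
    (E := AlgebraicClosure F) x
  -- each conjugate is integral over `L[t]`
  have hσ : ∀ σ : F →ₐ[L⟮t⟯] AlgebraicClosure F, IsIntegral (Algebra.adjoin L {t}) (σ x) :=
    fun σ => IsIntegral.map (σ.restrictScalars (Algebra.adjoin L {t})) hx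
  have hlift : (∏ σ : F →ₐ[L⟮t⟯] AlgebraicClosure F, (X - C (σ x))) ∈
      Polynomial.lifts (algebraMap (integralClosure (Algebra.adjoin L {t}) (AlgebraicClosure F))
        (AlgebraicClosure F)) := by
    refine prod_mem fun σ _ => ?_
    rw [Polynomial.mem_lifts]
    refine ⟨X - C ⟨σ x, hσ σ⟩, ?_⟩
    rw [Polynomial.map_sub, map_X, map_C]
    rfl
  rw [← hpf, Polynomial.lifts_iff_coeff_lifts] at hlift
  obtain ⟨s, hs⟩ := hlift i
  rw [coeff_map] at hs
  have hint : IsIntegral (Algebra.adjoin L {t})
      (algebraMap L⟮t⟯ (AlgebraicClosure F)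
        ((LinearMap.charpoly (Algebra.lmul L⟮t⟯ F x)).coeff i)) := by
    rw [← hs]
    exact s.2
  have hint' : IsIntegral (Algebra.adjoin L {t})
      ((LinearMap.charpoly (Algebra.lmul L⟮t⟯ F x)).coeff i) :=
    (isIntegral_algebraMap_iff (algebraMap L⟮t⟯ (AlgebraicClosure F)).injective).mp hint
  have : IsIntegrallyClosed (Algebra.adjoin L {t}) :=
    IsIntegrallyClosed.of_equiv (Polynomial.algEquivOfTranscendental L t ht).toRingEquiv
  obtain ⟨r, hr⟩ := (IsIntegrallyClosed.isIntegral_iff (R := Algebra.adjoin L {t})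
    (K := L⟮t⟯)).mp hint'
  have hrmem : (r : F) ∈ (aeval t : L[X] →ₐ[L] F).range := by
    rw [← Algebra.adjoin_singleton_eq_range_aeval]
    exact r.2
  obtain ⟨R, hR⟩ := hrmem
  refine ⟨R, ?_⟩
  rw [← hr]
  exact hR.symm

end IntegralCharpoly

/-! ## Assembly -/

section Assembly

theorem map_sum_monomial_eq {R S : Type*} [Semiring R] [Semiring S] (f : R →+* S) (m : ℕ)
    (c : ℕ → R) (p : S[X]) (hdeg : p.natDegree ≤ m) (h : ∀ i, f (c i) = p.coeff i) :
    (∑ i ∈ Finset.range (m + 1), monomial i (c i)).map f = p := by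
  ext j
  rw [coeff_map, finsetSum_coeff]
  simp only [coeff_monomial]
  rw [Finset.sum_ite_eq' (Finset.range (m + 1)) j c]
  by_cases hj : j ∈ Finset.range (m + 1)
  · rw [if_pos hj, h]
  · rw [if_neg hj, map_zero]
    rw [Finset.mem_range, not_lt] at hj
    exact (coeff_eq_zero_of_natDegree_lt (by omega)).symm

/-- Cayley-Hamilton for the multiplication map: `x` is a root of its characteristic polynomial. -/
theorem eval_charpoly_lmul {K F : Type*} [Field K] [Field F] [Algebra K F] [FiniteDimensional K F]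
    (x : F) : ((LinearMap.charpoly (Algebra.lmul K F x)).map (algebraMap K F)).eval x = 0 := by
  have h := LinearMap.aeval_self_charpoly (Algebra.lmul K F x)
  rw [aeval_algHom_apply] at h
  have h2 : Algebra.lmul K F (aeval x (LinearMap.charpoly (Algebra.lmul K F x))) 1 = 0 := by
    rw [h]; rfl
  rw [Algebra.coe_lmul_eq_mul, LinearMap.mul_apply', mul_one] at h2
  rw [eval_map, ← aeval_def]
  exact h2

variable {L : Type*} [Field L] [CharZero L] (A : ValuationSubring L)
variable {κ : Type*} [Field κ] (res : A →+* κ)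
variable {F₀ : Type*} [Field F₀] [Algebra L F₀] (ι₀ : F₀ →ₐ[L] LaurentSeries L)
variable {Fκ : Type*} [Field Fκ] [Algebra κ Fκ] (ικ : Fκ →ₐ[κ] LaurentSeries κ)

/-- **The field `ct`, abstract form.**  `F₀ ⊆ L((q))`, `Fκ ⊆ κ((q))` fields (given with their
embeddings `ι₀`, `ικ`), `t` a line parameter with integral expansion `y`, `x` an `A`-integral
element of `F₀` which is integral over `L[t]` and whose characteristic polynomial over `L(t)` has
a cofactor with power series coefficients.  Given the charpoly reduction `hCPR`, the reduction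
`x̄` is integral over `κ[t̄]` and regular away from the given embedding. -/
theorem ct_abstract (hres : ∀ a : A, ¬ IsUnit a → res a = 0)
    (y : LaurentSeries A) (t : F₀) (tb : Fκ)
    (ht : ι₀ t = coeffMap A.subtype y) (htb : ικ tb = coeffMap res y)
    (htr : Transcendental L t) (htrb : Transcendental κ tb)
    (hord : (ικ tb).order = -1)
    [FiniteDimensional L⟮t⟯ F₀] [FiniteDimensional κ⟮tb⟯ Fκ] [Algebra.IsSeparable κ⟮tb⟯ Fκ]
    (x : LaurentSeries A) (x₀ : F₀) (xb : Fκ)
    (hx₀ : ι₀ x₀ = coeffMap A.subtype x) (hxb : ικ xb = coeffMap res x)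
    (hCPR : ∀ i : ℕ, ∃ P Q : A[X], Q.map res ≠ 0 ∧
      algebraMap L⟮t⟯ F₀ ((LinearMap.charpoly (Algebra.lmul L⟮t⟯ F₀ x₀)).coeff i) *
          aeval t (Q.map A.subtype) = aeval t (P.map A.subtype) ∧
      algebraMap κ⟮tb⟯ Fκ ((LinearMap.charpoly (Algebra.lmul κ⟮tb⟯ Fκ xb)).coeff i) *
        aeval tb (Q.map res) = aeval tb (P.map res))
    (hint : IsIntegral (Algebra.adjoin L {t}) x₀)
    (hcof : ∃ Q₀ : (PowerSeries L)[X],
      (LinearMap.charpoly (Algebra.lmul L⟮t⟯ F₀ x₀)).map
          ((ι₀ : F₀ →+* LaurentSeries L).comp (algebraMap L⟮t⟯ F₀)) =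
        (X - C (ι₀ x₀)) * Q₀.map (algebraMap (PowerSeries L) (LaurentSeries L))) :
    helper2707.IsIntOver κ tb xb ∧ helper2707.RegAway ικ tb xb := by
  classical
  -- Step 1: the coefficients of both characteristic polynomials come from `A[X]`
  have step1 : ∀ i : ℕ, ∃ R' : A[X],
      algebraMap L⟮t⟯ F₀ ((LinearMap.charpoly (Algebra.lmul L⟮t⟯ F₀ x₀)).coeff i) =
        aeval t (R'.map A.subtype) ∧
      algebraMap κ⟮tb⟯ Fκ ((LinearMap.charpoly (Algebra.lmul κ⟮tb⟯ Fκ xb)).coeff i) =
        aeval tb (R'.map res) := by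
    intro i
    obtain ⟨R, hR⟩ := charpoly_coeff_mem_range_aeval htr hint i
    obtain ⟨P, Q, hQ, h0, hκ⟩ := hCPR i
    rw [hR, ← map_mul] at h0
    have h0' : R * Q.map A.subtype = P.map A.subtype :=
      (transcendental_iff_injective.mp htr) h0
    obtain ⟨R', hR', hR'Q⟩ := exists_map_eq_of_mul_eq A res hres R P Q hQ h0'
    refine ⟨R', by rw [hR, hR'], ?_⟩
    have hQne : aeval tb (Q.map res) ≠ 0 := fun h =>
      hQ ((transcendental_iff_injective.mp htrb) (h.trans (map_zero _).symm))
    apply mul_right_cancel₀ hQne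
    rw [hκ, ← hR'Q, Polynomial.map_mul]
    exact map_mul (aeval tb) _ _
  choose Rf hRf0 hRfκ using step1
  refine ⟨?_, ?_⟩
  · -- integrality of the reduction
    have hlift : (LinearMap.charpoly (Algebra.lmul κ⟮tb⟯ Fκ xb)).map (algebraMap κ⟮tb⟯ Fκ) ∈
        Polynomial.lifts ((aeval tb : κ[X] →ₐ[κ] Fκ) : κ[X] →+* Fκ) := by
      rw [Polynomial.lifts_iff_coeff_lifts]
      intro i
      rw [coeff_map, hRfκ i]
      exact ⟨_, rfl⟩
    obtain ⟨G, hG, -, hGm⟩ := Polynomial.lifts_and_degree_eq_and_monic hlift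
      ((LinearMap.charpoly_monic _).map _)
    refine ⟨G, hGm, ?_⟩
    rw [← eval_map, hG]
    exact eval_charpoly_lmul xb
  · -- regularity away from the given embedding
    obtain ⟨Q₀, hQ₀⟩ := hcof
    set p₀ := (LinearMap.charpoly (Algebra.lmul L⟮t⟯ F₀ x₀)).map
      ((ι₀ : F₀ →+* LaurentSeries L).comp (algebraMap L⟮t⟯ F₀)) with hp₀
    set pκ := (LinearMap.charpoly (Algebra.lmul κ⟮tb⟯ Fκ xb)).map
      ((ικ : Fκ →+* LaurentSeries κ).comp (algebraMap κ⟮tb⟯ Fκ)) with hpκ
    set m := max p₀.natDegree pκ.natDegree with hm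
    -- the evaluation `A[X] → A((q))` at `y`
    set ev : A[X] →+* LaurentSeries A := eval₂RingHom (HahnSeries.C : A →+* LaurentSeries A) y
      with hev
    have hf₀ : (coeffMap A.subtype).comp ev =
        (ι₀ : F₀ →+* LaurentSeries L).comp
          (((aeval t : L[X] →ₐ[L] F₀) : L[X] →+* F₀).comp (mapRingHom A.subtype)) := by
      refine Polynomial.ringHom_ext (fun a => ?_) ?_
      · simp only [RingHom.comp_apply, hev, coe_eval₂RingHom, eval₂_C, coe_mapRingHom, map_C,
          RingHom.coe_coe, aeval_C, AlgHom.commutes]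
        rw [algebraMap_laurentSeries_eq_single]
        exact coeffMap_single _ _ _
      · simp only [RingHom.comp_apply, hev, coe_eval₂RingHom, eval₂_X, coe_mapRingHom, map_X,
          RingHom.coe_coe, aeval_X]
        exact ht.symm
    have hfκ : (coeffMap res).comp ev =
        (ικ : Fκ →+* LaurentSeries κ).comp
          (((aeval tb : κ[X] →ₐ[κ] Fκ) : κ[X] →+* Fκ).comp (mapRingHom res)) := by
      refine Polynomial.ringHom_ext (fun a => ?_) ?_
      · simp only [RingHom.comp_apply, hev, coe_eval₂RingHom, eval₂_C, coe_mapRingHom, map_C,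
          RingHom.coe_coe, aeval_C, AlgHom.commutes]
        rw [algebraMap_laurentSeries_eq_single]
        exact coeffMap_single _ _ _
      · simp only [RingHom.comp_apply, hev, coe_eval₂RingHom, eval₂_X, coe_mapRingHom, map_X,
          RingHom.coe_coe, aeval_X]
        exact htb.symm
    set G : (LaurentSeries A)[X] := (∑ i ∈ Finset.range (m + 1), monomial i (Rf i)).map ev
      with hG
    have hG₀ : G.map (coeffMap A.subtype) = p₀ := by
      rw [hG, Polynomial.map_map, hf₀]
      refine map_sum_monomial_eq _ m Rf p₀ (le_max_left _ _) fun i => ?_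
      rw [hp₀, coeff_map, RingHom.comp_apply, RingHom.comp_apply, RingHom.comp_apply, hRf0 i]
      rfl
    have hGκ : G.map (coeffMap res) = pκ := by
      rw [hG, Polynomial.map_map, hfκ]
      refine map_sum_monomial_eq _ m Rf pκ (le_max_right _ _) fun i => ?_
      rw [hpκ, coeff_map, RingHom.comp_apply, RingHom.comp_apply, RingHom.comp_apply, hRfκ i]
      rfl
    have h₀ : G.map (coeffMap A.subtype) =
        (X - C (coeffMap A.subtype x)) * Q₀.map (HahnSeries.ofPowerSeries ℤ L) := by
      rw [hG₀, hQ₀, ← hx₀]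
      rfl
    obtain ⟨Q, hQ⟩ := cofactor_reduction A.subtype Subtype.val_injective res G x Q₀ h₀
    refine helper2707.regAway_of_cofactor (ι := ικ) hord xb Q ?_
    rw [← hpκ, ← hGκ, hQ, ← hxb]
    rfl

end Assembly

end Fermat.Agent.S18.helper7261

end
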