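import Mathlib
import Fermat.Agent.S18.helper99_SpecC
import Fermat.Agent.S29.helper36_FunctionFieldL

/-!
# S18, track C, Prop (C0): the place facts of `X₀(N)` in characteristic zero

`placeFacts N : helper99.PlaceFacts N` for every level `N ≠ 0`, by wiring the landed
function-field package over an algebraically closed field of characteristic zero
(`S29/helper36_FunctionFieldL`, instantiated at `L = ℚ̄`):

* principal divisors have finite support and degree zero;
* every place has degree one;
* a function with trivial divisor is a constant;
* the cusp `∞` is a place: the `q`-adic place `cuspInf N`, whose order function is the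
  `q`-order of the `q`-expansion (`isCuspInf_cuspInf`).

By-products for the consumers of track C: `cuspInf_ord`, `isCuspInf_iff` (a place is the cusp
`∞` iff it is `cuspInf N`), `regAwayInf_iff` (`RegAwayInf` quantifies over the places
`≠ cuspInf N`), `stmt_R_iff` (the Riemann inequality (C1) at the single place `cuspInf N`).
-/

set_option autoImplicit false

noncomputable section

namespace Fermat.Agent.S18.helper288

open ModularCurve AlgebraicCurve HahnSeries

/-- the cusp `∞` of `X₀(N)` as a place of `modularFunctionFieldBar N`: the `q`-adic place. -/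
def cuspInf (N : ℕ) : Place (AlgebraicClosure ℚ) (modularFunctionFieldBar N) :=
  Fermat.Agent.S29.helper36.qPlaceL (AlgebraicClosure ℚ) N

/-- the order at the cusp `∞` is the `q`-order. -/
theorem cuspInf_ord (N : ℕ) {f : modularFunctionFieldBar N} (hf : f ≠ 0) :
    (cuspInf N).ord f = (f : LaurentSeries (AlgebraicClosure ℚ)).order :=
  Fermat.Agent.S29.helper36.qPlaceL_ord (AlgebraicClosure ℚ) N hf

/-- `cuspInf N` is the cusp `∞` in the sense of the track-C Spec. -/
theorem isCuspInf_cuspInf (N : ℕ) : helper99.IsCuspInf N (cuspInf N) :=
  fun _ hf => cuspInf_ord N hf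

/-- the cusp `∞` is unique: a place whose order function is the `q`-order is `cuspInf N`. -/
theorem isCuspInf_iff (N : ℕ) (P : Place (AlgebraicClosure ℚ) (modularFunctionFieldBar N)) :
    helper99.IsCuspInf N P ↔ P = cuspInf N := by
  constructor
  · intro h
    apply Fermat.Agent.S24.helper1370.ext_ord
    intro f
    by_cases hf : f = 0
    · rw [hf, Place.ord_zero, Place.ord_zero]
    · rw [h f hf, cuspInf_ord N hf]
  · rintro rfl
    exact isCuspInf_cuspInf N

/-- "regular away from `∞`" quantifies over the places different from `cuspInf N`. -/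
theorem regAwayInf_iff (N : ℕ) (x : modularFunctionFieldBar N) :
    helper99.RegAwayInf N x ↔
      ∀ P : Place (AlgebraicClosure ℚ) (modularFunctionFieldBar N), P ≠ cuspInf N →
        0 ≤ P.ord x := by
  unfold helper99.RegAwayInf
  simp only [isCuspInf_iff]

/-- the Riemann inequality (C1) is a statement about the single place `cuspInf N`. -/
theorem stmt_R_iff (N : ℕ) :
    helper99.Stmt_R N ↔ ∀ n : ℕ,
      (n : ℤ) + 1 - (Module.finrank ℂ (CuspForm (CongruenceSubgroup.Gamma0 N) 2) : ℤ) ≤
        (Module.finrank (AlgebraicClosure ℚ)
          (riemannRochSpace (n • Finsupp.single (cuspInf N) (1 : ℤ))) : ℤ) := by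
  constructor
  · intro h n
    exact h (cuspInf N) (isCuspInf_cuspInf N) n
  · intro h P hP n
    rw [(isCuspInf_iff N P).mp hP]
    exact h n

/-- **(C0)** the place facts of `X₀(N)` over `ℚ̄`. -/
theorem placeFacts (N : ℕ) [NeZero N] : helper99.PlaceFacts N where
  principal := Fermat.Agent.S29.helper36.hasPrincipalDivisors_L (AlgebraicClosure ℚ) N
  deg_one := Fermat.Agent.S29.helper36.place_deg_eq_one_L (AlgebraicClosure ℚ) N
  const := fun _ _ h =>
    Fermat.Agent.S29.helper36.exists_algebraMap_eq_of_ord_eq_zero (AlgebraicClosure ℚ) N h
  cusp := ⟨cuspInf N, isCuspInf_cuspInf N⟩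

end Fermat.Agent.S18.helper288
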