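/-
S18-CONJ0 (helper5675, board #1394): the place <-> embedding dictionary at the cusp `∞`.

Setting (same as `helper2707_ResidueVal`): a field `F` over `k` with ONE embedding
`ι : F →ₐ[k] k((q))`, an element `t : F` whose expansion has a simple pole.
`Ω := AlgebraicClosure k((q))`.  A ring hom `σ : F → Ω` is a *conjugate embedding* if it agrees
with the given one on `k` and on `t`.

Main results (all Mathlib + Prelude only):

* `eq_inc_of_forall_isPS_mem` (UNIQ): a conjugate embedding `σ` which maps every `y` with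
  `ι y ∈ k[[q]]` into ONE proper valuation subring `W ⊇ k[[q]]` of `Ω` is the given embedding.
* `isIntegral_conj_of_forall_valuationSubring`: if `Y` lies in every proper valuation subring of
  `F` over `k` other than the `q`-adic one, then `σ Y` is integral over `k[[q]]` for every
  conjugate embedding `σ` other than the given one (= `RegAway ι t Y` of helper2707).
* `isIntegral_conj_of_forall_place`, `isIntegral_conj_of_mem_riemannRochSpace`: the same in
  Prelude `Place` / `riemannRochSpace` vocabulary.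
* `isIntegral_adjoin_of_forall_valuationSubring` (+ place / Riemann-Roch forms): such a `Y` is
  integral over `k[t]`.
-/
import Mathlib
import Fermat.Prelude.Def_AlgebraicCurve_Repartitions

set_option autoImplicit false

noncomputable section

namespace Fermat.Agent.S18.helper5675

open Polynomial AlgebraicCurve

variable {k : Type*} [Field k]

/-- An algebraic closure of the field of Laurent series. -/
abbrev OmZ (k : Type*) [Field k] : Type _ := AlgebraicClosure (LaurentSeries k)

/-! ## Generalities -/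

/-- An element integral over a ring whose image lies in a valuation subring lies in it. -/
theorem mem_valuationSubring_of_isIntegral {R : Type*} [CommRing R] {K : Type*} [Field K]
    [Algebra R K] (W : ValuationSubring K) (hR : ∀ r : R, algebraMap R K r ∈ W) {x : K}
    (hx : IsIntegral R x) : x ∈ W := by
  obtain ⟨g, hg, hgx⟩ := hx
  let φ : R →+* W := (algebraMap R K).codRestrict W.toSubring hR
  have hint : IsIntegral W x := by
    refine ⟨g.map φ, hg.map φ, ?_⟩
    rw [eval₂_map]
    have hcomp : (algebraMap W K).comp φ = algebraMap R K := by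
      ext r
      rfl
    rw [hcomp]
    exact hgx
  obtain ⟨y, hy⟩ := (IsIntegrallyClosed.isIntegral_iff (R := W) (K := K)).mp hint
  rw [← hy]
  exact y.2

/-! ## Laurent series -/

/-- A Laurent series is a power series, or its inverse is a power series divisible by `X`. -/
theorem ps_or_inv (e : LaurentSeries k) :
    (∃ p : PowerSeries k, algebraMap (PowerSeries k) (LaurentSeries k) p = e) ∨
    (∃ p : PowerSeries k,
      e * algebraMap (PowerSeries k) (LaurentSeries k) (PowerSeries.X * p) = 1) := by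
  by_cases h : ∃ p : PowerSeries k, algebraMap (PowerSeries k) (LaurentSeries k) p = e
  · exact Or.inl h
  right
  have he0 : e ≠ 0 := by
    rintro rfl
    exact h ⟨0, map_zero _⟩
  have hv : ¬ (Valued.v e ≤ (1 : WithZero (Multiplicative ℤ))) := by
    rw [LaurentSeries.val_le_one_iff_eq_coe]
    rintro ⟨p, hp⟩
    exact h ⟨p, by rw [LaurentSeries.coe_algebraMap]; exact hp⟩
  have hv' : Valued.v e⁻¹ ≤ (1 : WithZero (Multiplicative ℤ)) := by
    rw [map_inv₀]
    exact inv_le_one_of_one_le₀ (not_le.mp hv).le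
  obtain ⟨p, hp⟩ := (LaurentSeries.val_le_one_iff_eq_coe k e⁻¹).mp hv'
  have hp' : algebraMap (PowerSeries k) (LaurentSeries k) p = e⁻¹ := by
    rw [LaurentSeries.coe_algebraMap]; exact hp
  have hc : PowerSeries.constantCoeff p = 0 := by
    by_contra hc
    have hu : IsUnit p := PowerSeries.isUnit_iff_constantCoeff.mpr (isUnit_iff_ne_zero.mpr hc)
    obtain ⟨u, rfl⟩ := hu
    apply h
    refine ⟨((u⁻¹ : (PowerSeries k)ˣ) : PowerSeries k), ?_⟩
    have h2 : algebraMap (PowerSeries k) (LaurentSeries k)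
        ((u⁻¹ : (PowerSeries k)ˣ) : PowerSeries k) *
        algebraMap (PowerSeries k) (LaurentSeries k) (u : PowerSeries k) = 1 := by
      rw [← map_mul, Units.inv_mul, map_one]
    rw [hp'] at h2
    exact eq_of_mul_inv_eq_one (by simpa using h2) |>.trans (by simp)
  obtain ⟨p', rfl⟩ := PowerSeries.X_dvd_iff.mpr hc
  exact ⟨p', by rw [hp', mul_inv_cancel₀ he0]⟩

/-- The expansion of an element with a simple pole: its inverse is `X * unit`. -/
theorem exists_unit_mul_eq_one (x : LaurentSeries k) (hx : x.order = -1) :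
    ∃ u : (PowerSeries k)ˣ,
      x * algebraMap (PowerSeries k) (LaurentSeries k) (PowerSeries.X * (u : PowerSeries k)) = 1 := by
  have hx0 : x ≠ 0 := by
    rintro rfl
    simp at hx
  have hc : PowerSeries.constantCoeff x.powerSeriesPart ≠ 0 := by
    have h1 := LaurentSeries.powerSeriesPart_coeff x 0
    rw [PowerSeries.coeff_zero_eq_constantCoeff_apply] at h1
    rw [h1]
    simpa using (HahnSeries.coeff_order_eq_zero (x := x)).not.mpr hx0
  obtain ⟨u, hu⟩ := PowerSeries.isUnit_iff_constantCoeff.mpr (isUnit_iff_ne_zero.mpr hc)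
  refine ⟨u⁻¹, ?_⟩
  have h1 := LaurentSeries.single_order_mul_powerSeriesPart x
  rw [hx, ← hu] at h1
  rw [LaurentSeries.coe_algebraMap, map_mul, HahnSeries.ofPowerSeries_X]
  calc x * ((HahnSeries.single (1 : ℤ)) (1 : k) *
          (HahnSeries.ofPowerSeries ℤ k) ((u⁻¹ : (PowerSeries k)ˣ) : PowerSeries k))
      = (HahnSeries.single (-1 : ℤ) (1 : k) * (HahnSeries.single (1 : ℤ)) (1 : k)) *
          ((HahnSeries.ofPowerSeries ℤ k) (u : PowerSeries k) *
            (HahnSeries.ofPowerSeries ℤ k) ((u⁻¹ : (PowerSeries k)ˣ) : PowerSeries k)) := by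
        rw [← h1]; ring
    _ = 1 := by
        have hs : HahnSeries.single (-1 : ℤ) (1 : k) * (HahnSeries.single (1 : ℤ)) (1 : k) = 1 := by
          rw [HahnSeries.single_mul_single]
          simp
        have hu' : (HahnSeries.ofPowerSeries ℤ k) (u : PowerSeries k) *
            (HahnSeries.ofPowerSeries ℤ k) ((u⁻¹ : (PowerSeries k)ˣ) : PowerSeries k) = 1 := by
          rw [← map_mul, Units.mul_inv, map_one]
        rw [hs, hu', mul_one]

/-- A Laurent series with a simple pole is not a power series. -/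
theorem not_ps_of_order (x : LaurentSeries k) (hx : x.order = -1) (p : PowerSeries k) :
    algebraMap (PowerSeries k) (LaurentSeries k) p ≠ x := by
  intro hp
  have hx0 : x ≠ 0 := by
    rintro rfl
    simp at hx
  have h1 : x.coeff (-1) ≠ 0 := by
    rw [← hx]
    exact (HahnSeries.coeff_order_eq_zero (x := x)).not.mpr hx0
  apply h1
  rw [← hp, LaurentSeries.coe_algebraMap]
  have h := PowerSeries.coeff_coe (f := p) (-1)
  rw [if_pos (by norm_num)] at h
  exact h

/-- Constants: the two ways of viewing `a : k` in `k((q))` agree. -/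
theorem algebraMap_C_eq (a : k) :
    algebraMap (PowerSeries k) (LaurentSeries k) (PowerSeries.C a)
      = algebraMap k (LaurentSeries k) a := by
  rw [LaurentSeries.coe_algebraMap, HahnSeries.ofPowerSeries_C, RingHom.algebraMap_toAlgebra]
  simp

section Omega

variable {W : ValuationSubring (OmZ k)}

/-- (F1) A proper valuation subring of `Ω` containing `k[[q]]` meets `k((q))` in `k[[q]]`. -/
theorem exists_ps_of_mem (hW : ∀ p : PowerSeries k, algebraMap (PowerSeries k) (OmZ k) p ∈ W)
    (hWtop : W ≠ ⊤) {e : LaurentSeries k}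
    (he : algebraMap (LaurentSeries k) (OmZ k) e ∈ W) :
    ∃ p : PowerSeries k, algebraMap (PowerSeries k) (LaurentSeries k) p = e := by
  rcases ps_or_inv e with h | ⟨p', hp'⟩
  · exact h
  exfalso
  apply hWtop
  -- the inverse of `q` lies in `W`
  set xinv : OmZ k := algebraMap (LaurentSeries k) (OmZ k) e *
    algebraMap (PowerSeries k) (OmZ k) p' with hxinv
  have hxinvW : xinv ∈ W := W.mul_mem _ _ he (hW p')
  have hXinv : algebraMap (PowerSeries k) (OmZ k) PowerSeries.X * xinv = 1 := by
    have h1 := congrArg (algebraMap (LaurentSeries k) (OmZ k)) hp'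
    rw [map_mul, map_one, map_mul, map_mul, ← IsScalarTower.algebraMap_apply,
      ← IsScalarTower.algebraMap_apply] at h1
    rw [hxinv, ← h1]
    ring
  -- every Laurent series lies in `W`
  have hE : ∀ x : LaurentSeries k, algebraMap (LaurentSeries k) (OmZ k) x ∈ W := by
    intro x
    obtain ⟨⟨p, ⟨_, n, rfl⟩⟩, hpx⟩ :=
      IsLocalization.surj (Submonoid.powers (PowerSeries.X : PowerSeries k)) x
    simp only at hpx
    have h2 : algebraMap (LaurentSeries k) (OmZ k) x =
        algebraMap (PowerSeries k) (OmZ k) p * xinv ^ n := by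
      have h3 := congrArg (algebraMap (LaurentSeries k) (OmZ k)) hpx
      rw [map_mul, ← IsScalarTower.algebraMap_apply, ← IsScalarTower.algebraMap_apply,
        map_pow] at h3
      rw [← h3, mul_assoc, ← mul_pow, hXinv, one_pow, mul_one]
    rw [h2]
    exact W.mul_mem _ _ (hW p) (W.pow_mem hxinvW n)
  refine SetLike.ext fun ω => ⟨fun _ => ValuationSubring.mem_top ω, fun _ => ?_⟩
  exact mem_valuationSubring_of_isIntegral W hE
    (Algebra.IsIntegral.isIntegral (R := LaurentSeries k) ω)

/-- (Lemma A) An element of `Ω` divisible by every power of `q` in a proper valuation subring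
containing `k[[q]]` vanishes. -/
theorem eq_zero_of_forall_pow (hW : ∀ p : PowerSeries k, algebraMap (PowerSeries k) (OmZ k) p ∈ W)
    (hWtop : W ≠ ⊤) {δ : OmZ k}
    (h : ∀ m : ℕ, ∃ w ∈ W, δ = algebraMap (PowerSeries k) (OmZ k) (PowerSeries.X ^ m) * w) :
    δ = 0 := by
  by_contra hδ
  have halg : IsAlgebraic (LaurentSeries k) δ⁻¹ := Algebra.IsAlgebraic.isAlgebraic _
  have halg' : IsAlgebraic (PowerSeries k) δ⁻¹ :=
    (IsFractionRing.isAlgebraic_iff (PowerSeries k) (LaurentSeries k) (OmZ k)).mpr halg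
  obtain ⟨d, hd0, hd⟩ := halg'.exists_integral_multiple
  have hc : d • δ⁻¹ ∈ W := mem_valuationSubring_of_isIntegral W hW hd
  apply hd0
  ext n
  rw [map_zero]
  have hdvd : PowerSeries.X ^ (n + 1) ∣ d := by
    obtain ⟨w, hw, hδw⟩ := h (n + 1)
    have hXne : algebraMap (PowerSeries k) (LaurentSeries k) (PowerSeries.X ^ (n + 1)) ≠ 0 := by
      rw [Ne, map_eq_zero_iff _ (IsFractionRing.injective (PowerSeries k) (LaurentSeries k))]
      exact pow_ne_zero _ PowerSeries.X_ne_zero
    have h1 : algebraMap (LaurentSeries k) (OmZ k)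
        (algebraMap (PowerSeries k) (LaurentSeries k) d *
          (algebraMap (PowerSeries k) (LaurentSeries k) (PowerSeries.X ^ (n + 1)))⁻¹)
        = w * (d • δ⁻¹) := by
      have hX' : algebraMap (LaurentSeries k) (OmZ k)
          (algebraMap (PowerSeries k) (LaurentSeries k) (PowerSeries.X ^ (n + 1))) ≠ 0 := by
        rw [Ne, map_eq_zero]
        exact hXne
      rw [map_mul, map_inv₀, Algebra.smul_def, IsScalarTower.algebraMap_apply (PowerSeries k)
        (LaurentSeries k) (OmZ k) d]
      rw [IsScalarTower.algebraMap_apply (PowerSeries k) (LaurentSeries k) (OmZ k)] at hδw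
      have hw' : w = (algebraMap (LaurentSeries k) (OmZ k)
          (algebraMap (PowerSeries k) (LaurentSeries k) (PowerSeries.X ^ (n + 1))))⁻¹ * δ := by
        rw [hδw, ← mul_assoc, inv_mul_cancel₀ hX', one_mul]
      rw [hw']
      field_simp
    have h2 : algebraMap (LaurentSeries k) (OmZ k)
        (algebraMap (PowerSeries k) (LaurentSeries k) d *
          (algebraMap (PowerSeries k) (LaurentSeries k) (PowerSeries.X ^ (n + 1)))⁻¹) ∈ W := by
      rw [h1]
      exact W.mul_mem _ _ hw hc
    obtain ⟨p, hp⟩ := exists_ps_of_mem hW hWtop h2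
    refine ⟨p, ?_⟩
    apply IsFractionRing.injective (PowerSeries k) (LaurentSeries k)
    rw [map_mul, hp, mul_comm, inv_mul_cancel_right₀ hXne]
  exact (PowerSeries.X_pow_dvd_iff.mp hdvd) n (Nat.lt_succ_self n)

end Omega

/-! ## The function field side -/

variable {F : Type*} [Field F] [Algebra k F]

/-- The expansion of `y` is a power series (`y` is regular at the `q`-adic place). -/
def IsPS (ι : F →ₐ[k] LaurentSeries k) (y : F) : Prop :=
  ∃ p : PowerSeries k, algebraMap (PowerSeries k) (LaurentSeries k) p = ι y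

/-- The given embedding, viewed in `Ω`. -/
def incZ (ι : F →ₐ[k] LaurentSeries k) : F →+* OmZ k :=
  (algebraMap (LaurentSeries k) (OmZ k)).comp (ι : F →+* LaurentSeries k)

theorem incZ_apply (ι : F →ₐ[k] LaurentSeries k) (x : F) :
    incZ ι x = algebraMap (LaurentSeries k) (OmZ k) (ι x) := rfl

theorem incZ_mem_of_isPS {ι : F →ₐ[k] LaurentSeries k} {W : ValuationSubring (OmZ k)}
    (hW : ∀ p : PowerSeries k, algebraMap (PowerSeries k) (OmZ k) p ∈ W) {y : F}
    (hy : IsPS ι y) : incZ ι y ∈ W := by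
  obtain ⟨p, hp⟩ := hy
  rw [incZ_apply, ← hp, ← IsScalarTower.algebraMap_apply]
  exact hW p

theorem isPS_algebraMap (ι : F →ₐ[k] LaurentSeries k) (a : k) : IsPS ι (algebraMap k F a) := by
  refine ⟨PowerSeries.C a, ?_⟩
  rw [AlgHom.commutes, algebraMap_C_eq]

theorem isPS_inv_of_order {ι : F →ₐ[k] LaurentSeries k} {t : F} (ht : (ι t).order = -1) :
    IsPS ι t⁻¹ := by
  obtain ⟨u, hu⟩ := exists_unit_mul_eq_one (ι t) ht
  exact ⟨PowerSeries.X * (u : PowerSeries k), by rw [map_inv₀]; exact (eq_inv_of_mul_eq_one_right hu)⟩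

theorem not_isPS_of_order {ι : F →ₐ[k] LaurentSeries k} {t : F} (ht : (ι t).order = -1) :
    ¬ IsPS ι t := fun ⟨p, hp⟩ => not_ps_of_order (ι t) ht p hp

/-- (Lemma B) `k[1/t]` is `q`-adically dense in the `q`-adic valuation ring of `F`. -/
theorem exists_approx (ι : F →ₐ[k] LaurentSeries k) {t : F} (ht : (ι t).order = -1) (m : ℕ) :
    ∀ y : F, IsPS ι y →
      ∃ (r : k[X]) (y' : F), IsPS ι y' ∧ y = aeval t⁻¹ r + t⁻¹ ^ m * y' := by
  obtain ⟨u, hu⟩ := exists_unit_mul_eq_one (ι t) ht
  have ht0 : t ≠ 0 := by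
    rintro rfl
    simp at ht
  induction m with
  | zero =>
    intro y hy
    exact ⟨0, y, hy, by simp⟩
  | succ m ih =>
    intro y hy
    obtain ⟨r, y', ⟨p, hp⟩, hyy'⟩ := ih y hy
    obtain ⟨p1, hp1⟩ : PowerSeries.X ∣ p - PowerSeries.C (PowerSeries.constantCoeff p) :=
      PowerSeries.X_dvd_iff.mpr (by simp)
    refine ⟨r + C (PowerSeries.constantCoeff p) * X ^ m,
      (y' - algebraMap k F (PowerSeries.constantCoeff p)) * t,
      ⟨p1 * ((u⁻¹ : (PowerSeries k)ˣ) : PowerSeries k), ?_⟩, ?_⟩
    · have hι : ι ((y' - algebraMap k F (PowerSeries.constantCoeff p)) * t)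
          = algebraMap (PowerSeries k) (LaurentSeries k) (PowerSeries.X * p1) * ι t := by
        rw [map_mul ι, map_sub ι, AlgHom.commutes, ← hp, ← algebraMap_C_eq, ← map_sub, hp1]
      rw [hι]
      have h1 : ι t = (algebraMap (PowerSeries k) (LaurentSeries k)
          (PowerSeries.X * (u : PowerSeries k)))⁻¹ := eq_inv_of_mul_eq_one_left hu
      have hX : algebraMap (PowerSeries k) (LaurentSeries k) PowerSeries.X ≠ 0 := by
        rw [Ne, map_eq_zero_iff _ (IsFractionRing.injective (PowerSeries k) (LaurentSeries k))]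
        exact PowerSeries.X_ne_zero
      have hu0 : algebraMap (PowerSeries k) (LaurentSeries k) (u : PowerSeries k) ≠ 0 := by
        rw [Ne, map_eq_zero_iff _ (IsFractionRing.injective (PowerSeries k) (LaurentSeries k))]
        exact u.ne_zero
      have huinv : algebraMap (PowerSeries k) (LaurentSeries k)
          ((u⁻¹ : (PowerSeries k)ˣ) : PowerSeries k)
          = (algebraMap (PowerSeries k) (LaurentSeries k) (u : PowerSeries k))⁻¹ := by
        apply eq_inv_of_mul_eq_one_left
        rw [← map_mul, Units.inv_mul, map_one]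
      rw [h1, map_mul, map_mul, map_mul, huinv]
      field_simp
    · rw [hyy', map_add, map_mul, aeval_C, map_pow, aeval_X, pow_succ]
      field_simp
      ring

section Conj

variable (ι : F →ₐ[k] LaurentSeries k) {t : F}

/-- (UNIQ) A conjugate embedding which maps the `q`-adic valuation ring of `F` into ONE proper
valuation subring of `Ω` containing `k[[q]]` is the given embedding. -/
theorem eq_incZ_of_forall_isPS_mem (ht : (ι t).order = -1) (σ : F →+* OmZ k)
    (hσk : ∀ a : k, σ (algebraMap k F a) = incZ ι (algebraMap k F a)) (hσt : σ t = incZ ι t)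
    {W : ValuationSubring (OmZ k)}
    (hW : ∀ p : PowerSeries k, algebraMap (PowerSeries k) (OmZ k) p ∈ W) (hWtop : W ≠ ⊤)
    (hσW : ∀ y : F, IsPS ι y → σ y ∈ W) : ∀ f : F, σ f = incZ ι f := by
  obtain ⟨u, hu⟩ := exists_unit_mul_eq_one (ι t) ht
  have hs : σ t⁻¹ = incZ ι t⁻¹ := by rw [map_inv₀, map_inv₀, hσt]
  have hcomp : σ.comp (algebraMap k F) = (incZ ι).comp (algebraMap k F) := RingHom.ext hσk
  have hjs : incZ ι t⁻¹ = algebraMap (PowerSeries k) (OmZ k) (PowerSeries.X * (u : PowerSeries k)) := by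
    rw [incZ_apply, map_inv₀, ← eq_inv_of_mul_eq_one_right hu, ← IsScalarTower.algebraMap_apply]
  -- first on the valuation ring
  have key : ∀ y : F, IsPS ι y → σ y = incZ ι y := by
    intro y hy
    rw [← sub_eq_zero]
    refine eq_zero_of_forall_pow hW hWtop fun m => ?_
    obtain ⟨r, y', hy', hyy'⟩ := exists_approx ι ht m y hy
    have hr : σ (aeval t⁻¹ r) = incZ ι (aeval t⁻¹ r) := by
      rw [aeval_def, hom_eval₂, hom_eval₂, hs, hcomp]
    refine ⟨algebraMap (PowerSeries k) (OmZ k) ((u : PowerSeries k) ^ m) * (σ y' - incZ ι y'),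
      W.mul_mem _ _ (hW _) (W.sub_mem (hσW y' hy') (incZ_mem_of_isPS hW hy')), ?_⟩
    rw [hyy', map_add, map_add, map_mul, map_mul, map_pow, map_pow, hr, hs, hjs, ← map_pow,
      ← mul_assoc, ← map_mul, ← mul_pow]
    ring
  intro f
  rcases ps_or_inv (ι f) with h | ⟨p', hp'⟩
  · exact key f h
  · have hf : IsPS ι f⁻¹ :=
      ⟨PowerSeries.X * p', by rw [map_inv₀]; exact eq_inv_of_mul_eq_one_right hp'⟩
    have h1 := key f⁻¹ hf
    rw [map_inv₀, map_inv₀] at h1
    exact inv_injective h1

/-- (Z2, valuation-subring form) If `Y` lies in every proper valuation subring of `F` over `k`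
which does not contain the `q`-adic one, then every conjugate embedding other than the given one
sends `Y` to an element integral over `k[[q]]`. -/
theorem isIntegral_conj_of_forall_valuationSubring (ht : (ι t).order = -1) (σ : F →+* OmZ k)
    (hσk : ∀ a : k, σ (algebraMap k F a) = incZ ι (algebraMap k F a)) (hσt : σ t = incZ ι t)
    (hne : σ ≠ incZ ι) {Y : F}
    (hY : ∀ V : ValuationSubring F, (∀ a : k, algebraMap k F a ∈ V) → V ≠ ⊤ →
      (∃ y : F, IsPS ι y ∧ y ∉ V) → Y ∈ V) :
    IsIntegral (PowerSeries k) (σ Y) := by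
  by_contra hnot
  have hxR : σ Y ∉ (integralClosure (PowerSeries k) (OmZ k)).toSubring := hnot
  have : IsIntegrallyClosedIn ↥(integralClosure (PowerSeries k) (OmZ k)).toSubring (OmZ k) :=
    inferInstanceAs (IsIntegrallyClosedIn ↥(integralClosure (PowerSeries k) (OmZ k)) (OmZ k))
  obtain ⟨W, hRW, hYW⟩ := Subring.exists_le_valuationSubring_of_isIntegrallyClosedIn hxR
  have hW : ∀ p : PowerSeries k, algebraMap (PowerSeries k) (OmZ k) p ∈ W := fun p =>
    hRW (isIntegral_algebraMap : IsIntegral (PowerSeries k) (algebraMap (PowerSeries k) (OmZ k) p))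
  by_cases hWtop : W = ⊤
  · exact hYW (hWtop ▸ ValuationSubring.mem_top _)
  apply hYW
  have hmem : Y ∈ W.comap σ := by
    refine hY (W.comap σ) ?_ ?_ ?_
    · intro a
      rw [ValuationSubring.mem_comap, hσk]
      exact incZ_mem_of_isPS hW (isPS_algebraMap ι a)
    · intro htop
      have htW : σ t ∈ W := ValuationSubring.mem_comap.mp (htop ▸ ValuationSubring.mem_top t)
      rw [hσt, incZ_apply] at htW
      obtain ⟨p, hp⟩ := exists_ps_of_mem hW hWtop htW
      exact not_ps_of_order (ι t) ht p hp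
    · by_contra hall
      push Not at hall
      exact hne (RingHom.ext (eq_incZ_of_forall_isPS_mem ι ht σ hσk hσt hW hWtop
        (fun y hy => ValuationSubring.mem_comap.mp (hall y hy))))
  exact ValuationSubring.mem_comap.mp hmem

/-- A valuation subring of `F` containing the `q`-adic valuation ring and `t` is everything. -/
theorem mem_of_forall_isPS_mem (ht : (ι t).order = -1) {V : ValuationSubring F}
    (hV : ∀ y : F, IsPS ι y → y ∈ V) (htV : t ∈ V) (x : F) : x ∈ V := by
  obtain ⟨u, hu⟩ := exists_unit_mul_eq_one (ι t) ht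
  have ht0 : t ≠ 0 := by
    rintro rfl
    simp at ht
  obtain ⟨⟨p, ⟨_, n, rfl⟩⟩, hpx⟩ :=
    IsLocalization.surj (Submonoid.powers (PowerSeries.X : PowerSeries k)) (ι x)
  simp only at hpx
  have hz : IsPS ι (x * t⁻¹ ^ n) := by
    refine ⟨p * (u : PowerSeries k) ^ n, ?_⟩
    have hι : ι (x * t⁻¹ ^ n) = ι x * (algebraMap (PowerSeries k) (LaurentSeries k)
        (PowerSeries.X * (u : PowerSeries k))) ^ n := by
      rw [map_mul ι, map_pow ι, map_inv₀ ι, ← eq_inv_of_mul_eq_one_right hu]
    rw [hι, map_mul, ← hpx, map_pow, map_pow, map_mul, mul_pow]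
    ring
  have hx : x = x * t⁻¹ ^ n * t ^ n := by
    rw [mul_assoc, ← mul_pow, inv_mul_cancel₀ ht0, one_pow, mul_one]
  rw [hx]
  exact V.mul_mem _ _ (hV _ hz) (V.pow_mem htV n)

/-- (Z4, valuation-subring form) Such a `Y` is integral over `k[t]`. -/
theorem isIntegral_adjoin_of_forall_valuationSubring (ht : (ι t).order = -1) {Y : F}
    (hY : ∀ V : ValuationSubring F, (∀ a : k, algebraMap k F a ∈ V) → V ≠ ⊤ →
      (∃ y : F, IsPS ι y ∧ y ∉ V) → Y ∈ V) :
    IsIntegral (Algebra.adjoin k {t}) Y := by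
  by_contra hnot
  have hxR : Y ∉ (integralClosure (Algebra.adjoin k {t}) F).toSubring := hnot
  have : IsIntegrallyClosedIn ↥(integralClosure (Algebra.adjoin k {t}) F).toSubring F :=
    inferInstanceAs (IsIntegrallyClosedIn ↥(integralClosure (Algebra.adjoin k {t}) F) F)
  obtain ⟨V, hRV, hYV⟩ := Subring.exists_le_valuationSubring_of_isIntegrallyClosedIn hxR
  have hA : ∀ a : Algebra.adjoin k {t}, (a : F) ∈ V := fun a =>
    hRV (isIntegral_algebraMap : IsIntegral (Algebra.adjoin k {t})
      (algebraMap (Algebra.adjoin k {t}) F a))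
  apply hYV
  refine hY V ?_ ?_ ?_
  · intro a
    exact hA ⟨algebraMap k F a, Subalgebra.algebraMap_mem _ a⟩
  · intro htop
    exact hYV (htop ▸ ValuationSubring.mem_top _)
  · by_contra hall
    push Not at hall
    exact hYV (mem_of_forall_isPS_mem ι ht hall
      (hA ⟨t, Algebra.self_mem_adjoin_singleton k t⟩) Y)

end Conj

/-! ## Prelude `Place` / `riemannRochSpace` forms -/

section Places

/-- An element of adic valuation `≤ 1` at a place lies in its valuation ring. -/
theorem mem_of_adicValuation_le_one (v : Place k F) {x : F} (hx : v.adicValuation x ≤ 1) :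
    x ∈ v.toValuationSubring := by
  by_contra hxV
  have hinv : x⁻¹ ∈ v.toValuationSubring :=
    (v.toValuationSubring.mem_or_inv_mem x).resolve_left hxV
  have hx0 : x ≠ 0 := fun h => hxV (h ▸ v.toValuationSubring.zero_mem)
  have h1 : v.adicValuation x⁻¹ ≤ 1 := v.adicValuation_le_one_of_mem hinv
  have h0 : v.adicValuation x ≠ 0 := v.adicValuation_ne_zero hx0
  have h2 : v.adicValuation x⁻¹ = 1 := by
    rw [map_inv₀] at h1 ⊢
    have h3 : 1 ≤ v.adicValuation x := (inv_le_one₀ (zero_lt_iff.mpr h0)).mp h1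
    rw [le_antisymm hx h3, inv_one]
  have hu : IsUnit (⟨x⁻¹, hinv⟩ : v.toValuationSubring) :=
    (v.adicValuation_coe_eq_one_iff ⟨x⁻¹, hinv⟩).mp h2
  obtain ⟨b, hb⟩ := hu.exists_right_inv
  have hb' : x⁻¹ * (b : F) = 1 := congrArg Subtype.val hb
  have hbx : (b : F) = x := by
    rw [← mul_one x, ← hb', mul_inv_cancel_left₀ hx0]
  exact hxV (hbx ▸ b.2)

/-- Elements of `L(D)` with `D ≤ 0` away from `Pinf` are regular away from `Pinf`. -/
theorem forall_place_mem_of_mem_riemannRochSpace (Pinf : Place k F) {D : Divisor k F}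
    (hD : ∀ v : Place k F, v ≠ Pinf → D v ≤ 0) {Y : F} (hY : Y ∈ riemannRochSpace D) :
    ∀ v : Place k F, v ≠ Pinf → Y ∈ v.toValuationSubring := by
  intro v hv
  apply mem_of_adicValuation_le_one
  have h : v.adicValuation Y ≤ WithZero.exp (D v) := hY v
  refine h.trans ?_
  rw [← WithZero.exp_zero]
  exact WithZero.exp_le_exp.mpr (hD v hv)

theorem zsmul_single_apply_le (Pinf : Place k F) (n : ℤ) :
    ∀ v : Place k F, v ≠ Pinf → (n • Finsupp.single Pinf (1 : ℤ)) v ≤ 0 := by
  intro v hv
  rw [Finsupp.smul_apply, Finsupp.single_eq_of_ne hv, smul_zero]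

theorem nsmul_single_apply_le (Pinf : Place k F) (n : ℕ) :
    ∀ v : Place k F, v ≠ Pinf → (n • Finsupp.single Pinf (1 : ℤ)) v ≤ 0 := by
  intro v hv
  rw [Finsupp.smul_apply, Finsupp.single_eq_of_ne hv, smul_zero]

variable (ι : F →ₐ[k] LaurentSeries k) {t : F}

/-- (Z2, Prelude `Place` form) If `Y` is regular at every place other than the `q`-adic place
`Pinf`, every conjugate embedding other than the given one sends `Y` to an element integral over
`k[[q]]`.  `hDVR` ("every proper valuation subring over `k` is a DVR") holds for function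
fields of one variable. -/
theorem isIntegral_conj_of_forall_place (ht : (ι t).order = -1)
    (hDVR : ∀ V : ValuationSubring F, (∀ a : k, algebraMap k F a ∈ V) → V ≠ ⊤ →
      IsPrincipalIdealRing V)
    (Pinf : Place k F) (hPinf : ∀ y : F, IsPS ι y → y ∈ Pinf.toValuationSubring)
    (σ : F →+* OmZ k)
    (hσk : ∀ a : k, σ (algebraMap k F a) = incZ ι (algebraMap k F a)) (hσt : σ t = incZ ι t)
    (hne : σ ≠ incZ ι) {Y : F}
    (hY : ∀ v : Place k F, v ≠ Pinf → Y ∈ v.toValuationSubring) :
    IsIntegral (PowerSeries k) (σ Y) :=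
  isIntegral_conj_of_forall_valuationSubring ι ht σ hσk hσt hne fun V hVk hVtop ⟨y, hy, hyV⟩ =>
    hY ⟨V, hVk, hVtop, hDVR V hVk hVtop⟩ (by rintro rfl; exact hyV (hPinf y hy))

/-- (Z2, Riemann-Roch form) -/
theorem isIntegral_conj_of_mem_riemannRochSpace (ht : (ι t).order = -1)
    (hDVR : ∀ V : ValuationSubring F, (∀ a : k, algebraMap k F a ∈ V) → V ≠ ⊤ →
      IsPrincipalIdealRing V)
    (Pinf : Place k F) (hPinf : ∀ y : F, IsPS ι y → y ∈ Pinf.toValuationSubring)
    (σ : F →+* OmZ k)
    (hσk : ∀ a : k, σ (algebraMap k F a) = incZ ι (algebraMap k F a)) (hσt : σ t = incZ ι t)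
    (hne : σ ≠ incZ ι) {D : Divisor k F} (hD : ∀ v : Place k F, v ≠ Pinf → D v ≤ 0) {Y : F}
    (hY : Y ∈ riemannRochSpace D) :
    IsIntegral (PowerSeries k) (σ Y) :=
  isIntegral_conj_of_forall_place ι ht hDVR Pinf hPinf σ hσk hσt hne
    (forall_place_mem_of_mem_riemannRochSpace Pinf hD hY)

/-- (Z4, Prelude `Place` form) An element regular at every place other than the `q`-adic one is
integral over `k[t]`. -/
theorem isIntegral_adjoin_of_forall_place (ht : (ι t).order = -1)
    (hDVR : ∀ V : ValuationSubring F, (∀ a : k, algebraMap k F a ∈ V) → V ≠ ⊤ →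
      IsPrincipalIdealRing V)
    (Pinf : Place k F) (hPinf : ∀ y : F, IsPS ι y → y ∈ Pinf.toValuationSubring) {Y : F}
    (hY : ∀ v : Place k F, v ≠ Pinf → Y ∈ v.toValuationSubring) :
    IsIntegral (Algebra.adjoin k {t}) Y :=
  isIntegral_adjoin_of_forall_valuationSubring ι ht fun V hVk hVtop ⟨y, hy, hyV⟩ =>
    hY ⟨V, hVk, hVtop, hDVR V hVk hVtop⟩ (by rintro rfl; exact hyV (hPinf y hy))

/-- (Z4, Riemann-Roch form) -/
theorem isIntegral_adjoin_of_mem_riemannRochSpace (ht : (ι t).order = -1)
    (hDVR : ∀ V : ValuationSubring F, (∀ a : k, algebraMap k F a ∈ V) → V ≠ ⊤ →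
      IsPrincipalIdealRing V)
    (Pinf : Place k F) (hPinf : ∀ y : F, IsPS ι y → y ∈ Pinf.toValuationSubring)
    {D : Divisor k F} (hD : ∀ v : Place k F, v ≠ Pinf → D v ≤ 0) {Y : F}
    (hY : Y ∈ riemannRochSpace D) :
    IsIntegral (Algebra.adjoin k {t}) Y :=
  isIntegral_adjoin_of_forall_place ι ht hDVR Pinf hPinf
    (forall_place_mem_of_mem_riemannRochSpace Pinf hD hY)

end Places

end Fermat.Agent.S18.helper5675
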