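/-
S18-CONJ0 (helper5675, board #1394), part (Z3): the COFACTOR form.

If a monic polynomial `χ` over `k((q))` factors over `Ω = AlgebraicClosure k((q))` as
`(X - y) * ∏ (X - ω)` with `y ∈ k((q))` and every `ω` integral over `k[[q]]`, then the cofactor
`χ / (X - y)` has coefficients in `k[[q]]`.

With `χ` = the characteristic polynomial of `Y` over `k(t)` (expanded in `k((q))`) and the
`ω` = the conjugates `σ Y`, `σ ≠` the given embedding, this is the statement
"`Y` regular at the places over `t = ∞` other than the `q`-adic one  ⟹  the cofactor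
`χ_Y(X)/(X - Y)` lies in `k[[q]][X]`" consumed by the cofactor transfer of track C.
-/
import Mathlib
import Fermat.Agent.S18.helper5675_ConjZero

set_option autoImplicit false

noncomputable section

namespace Fermat.Agent.S18.helper5675

open Polynomial

/-- A product of linear factors with integral roots has integral coefficients. -/
theorem isIntegral_coeff_prod_X_sub_C {R A : Type*} [CommRing R] [CommRing A] [Algebra R A]
    (s : Multiset A) (hs : ∀ ω ∈ s, IsIntegral R ω) (n : ℕ) :
    IsIntegral R ((s.map fun ω => X - C ω).prod.coeff n) := by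
  have hmem : (s.map fun ω => (X - C ω : A[X])).prod ∈
      Polynomial.liftsRing (algebraMap (integralClosure R A) A) := by
    apply Subring.multiset_prod_mem
    intro p hp
    obtain ⟨ω, hω, rfl⟩ := Multiset.mem_map.mp hp
    refine Subring.sub_mem _ ?_ ?_
    · exact (lifts_iff_liftsRing _ _).mp (X_mem_lifts _)
    · exact (lifts_iff_liftsRing _ _).mp
        (C_mem_lifts (algebraMap (integralClosure R A) A) ⟨ω, hs ω hω⟩)
  obtain ⟨c, hc⟩ := (lifts_iff_coeff_lifts _).mp ((lifts_iff_liftsRing _ _).mpr hmem) n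
  rw [← hc]
  exact c.2

variable {k : Type*} [Field k]

/-- (Z3, core) The cofactor of `X - y` in a monic polynomial over `k((q))` all of whose other
roots (in `Ω`) are integral over `k[[q]]` has coefficients in `k[[q]]`. -/
theorem exists_cofactor {χ : (LaurentSeries k)[X]} (hχ : χ.Monic) (y : LaurentSeries k)
    (s : Multiset (OmZ k)) (hs : ∀ ω ∈ s, IsIntegral (PowerSeries k) ω)
    (hfac : χ.map (algebraMap (LaurentSeries k) (OmZ k)) =
      (X - C (algebraMap (LaurentSeries k) (OmZ k) y)) * (s.map fun ω => X - C ω).prod) :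
    ∃ Q0 : (PowerSeries k)[X], Q0.Monic ∧
      χ = (X - C y) * Q0.map (algebraMap (PowerSeries k) (LaurentSeries k)) := by
  have hroot : χ.IsRoot y := by
    have h1 : (χ.map (algebraMap (LaurentSeries k) (OmZ k))).eval
        (algebraMap (LaurentSeries k) (OmZ k) y) = 0 := by
      rw [hfac, eval_mul, eval_sub, eval_X, eval_C, sub_self, zero_mul]
    rw [eval_map_apply] at h1
    exact (map_eq_zero _).mp h1
  obtain ⟨Q1, hQ1⟩ := dvd_iff_isRoot.mpr hroot
  have hQ1monic : Q1.Monic := (monic_X_sub_C y).of_mul_monic_left (hQ1 ▸ hχ)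
  have hmap : Q1.map (algebraMap (LaurentSeries k) (OmZ k)) = (s.map fun ω => X - C ω).prod := by
    have h2 := hfac
    rw [hQ1, Polynomial.map_mul, Polynomial.map_sub, map_X, map_C] at h2
    exact mul_left_cancel₀ (X_sub_C_ne_zero _) h2
  have hlift : Q1 ∈ lifts (algebraMap (PowerSeries k) (LaurentSeries k)) := by
    rw [lifts_iff_coeff_lifts]
    intro n
    have h3 : IsIntegral (PowerSeries k)
        (algebraMap (LaurentSeries k) (OmZ k) (Q1.coeff n)) := by
      rw [← coeff_map, hmap]
      exact isIntegral_coeff_prod_X_sub_C s hs n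
    have h4 : IsIntegral (PowerSeries k) (Q1.coeff n) :=
      (isIntegral_algHom_iff (IsScalarTower.toAlgHom (PowerSeries k) (LaurentSeries k) (OmZ k))
        (algebraMap (LaurentSeries k) (OmZ k)).injective).mp h3
    exact IsIntegrallyClosed.isIntegral_iff.mp h4
  obtain ⟨Q0, hQ0, -, hQ0monic⟩ := lifts_and_degree_eq_and_monic hlift hQ1monic
  exact ⟨Q0, hQ0monic, by rw [hQ0, hQ1]⟩

variable {F : Type*} [Field F] [Algebra k F]

/-- (Z3, consumer form) `σ i`, `i : I`, a finite family of ring homs `F → Ω` containing the given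
embedding at `i0`; if every other `σ i Y` is integral over `k[[q]]` and
`χ = ∏ i, (X - σ i Y)` over `Ω` (the product formula for the characteristic polynomial), then
`χ = (X - ι Y) * Q0` with `Q0` monic in `k[[q]][X]`. -/
theorem exists_cofactor_of_prod (ι : F →ₐ[k] LaurentSeries k) {Y : F} {I : Type*} [Fintype I]
    (σ : I → F →+* OmZ k) (i0 : I) (hi0 : σ i0 = incZ ι)
    (hreg : ∀ i : I, i ≠ i0 → IsIntegral (PowerSeries k) (σ i Y))
    {χ : (LaurentSeries k)[X]} (hχ : χ.Monic)
    (hprod : χ.map (algebraMap (LaurentSeries k) (OmZ k)) = ∏ i : I, (X - C (σ i Y))) :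
    ∃ Q0 : (PowerSeries k)[X], Q0.Monic ∧
      χ = (X - C (ι Y)) * Q0.map (algebraMap (PowerSeries k) (LaurentSeries k)) := by
  classical
  refine exists_cofactor hχ (ι Y) (((Finset.univ : Finset I).erase i0).val.map fun i => σ i Y)
    ?_ ?_
  · intro ω hω
    obtain ⟨i, hi, rfl⟩ := Multiset.mem_map.mp hω
    exact hreg i (Finset.mem_erase.mp (Finset.mem_val.mp hi)).1
  · rw [hprod, ← Finset.mul_prod_erase Finset.univ _ (Finset.mem_univ i0), hi0, Multiset.map_map]
    rfl

end Fermat.Agent.S18.helper5675
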