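/-
S18-CONJ0 (helper5675, board #1394): adapters of `helper5675_ConjZero` / `helper5675_Cofactor`
to the landed names of track C:

* `helper2707.RegAway ι t Y` (KLV, `helper2707_ResidueVal`) from Prelude places /
  `riemannRochSpace`, for `k` algebraically closed (the DVR hypothesis is discharged by the
  landed `helper7885.isDiscreteValuationRing_of_ne_top`);
* `helper2707.IsIntOver k t Y` (integrality over `k[t]`) from the same hypotheses;
* the cofactor form for a finite family of conjugate embeddings.
-/
import Mathlib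
import Fermat.Agent.S18.helper5675_Cofactor
import Fermat.Agent.S18.helper2707_ResidueVal
import Fermat.Agent.S18.helper7885_PlacesFF

set_option autoImplicit false

noncomputable section

namespace Fermat.Agent.S18.helper5675

open Polynomial IntermediateField AlgebraicCurve
open Fermat.Agent.S18

variable {k : Type*} [Field k] {F : Type*} [Field F] [Algebra k F]

/-- Over an algebraically closed constant field, every proper valuation subring of a function
field of one variable containing the constants is a DVR (landed `helper7885`). -/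
theorem isPrincipalIdealRing_of_ne_top [IsAlgClosed k] (t : F) [FiniteDimensional k⟮t⟯ F] :
    ∀ V : ValuationSubring F, (∀ a : k, algebraMap k F a ∈ V) → V ≠ ⊤ →
      IsPrincipalIdealRing V := fun V hVk hVtop =>
  have := helper7885.isDiscreteValuationRing_of_ne_top V t hVk hVtop
  inferInstance

theorem incZ_eq_inc (ι : F →ₐ[k] LaurentSeries k) : incZ ι = helper2707.inc ι := rfl

/-- A conjugate embedding in the sense of `helper2707.IsConj` satisfies the two hypotheses used
in `helper5675_ConjZero`. -/
theorem IsConj_map_algebraMap' {ι : F →ₐ[k] LaurentSeries k} {t : F} {σ : F →+* helper2707.Om k}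
    (hσ : helper2707.IsConj ι t σ) (a : k) :
    σ (algebraMap k F a) = incZ ι (algebraMap k F a) := by
  rw [hσ.map_algebraMap, incZ_apply, AlgHom.commutes]

/-- `RegAway` from the valuation-subring form: `Y` lies in every proper valuation subring of `F`
over `k` not containing the `q`-adic one. -/
theorem regAway_of_forall_valuationSubring (ι : F →ₐ[k] LaurentSeries k) {t : F}
    (ht : (ι t).order = -1) {Y : F}
    (hY : ∀ V : ValuationSubring F, (∀ a : k, algebraMap k F a ∈ V) → V ≠ ⊤ →
      (∃ y : F, IsPS ι y ∧ y ∉ V) → Y ∈ V) :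
    helper2707.RegAway ι t Y := fun σ hσ hne =>
  isIntegral_conj_of_forall_valuationSubring ι ht σ (IsConj_map_algebraMap' hσ) hσ.map_gen hne hY

/-- `RegAway` from Prelude places: `Y` regular at every place other than the `q`-adic one. -/
theorem regAway_of_forall_place [IsAlgClosed k] (ι : F →ₐ[k] LaurentSeries k) {t : F}
    [FiniteDimensional k⟮t⟯ F] (ht : (ι t).order = -1) (Pinf : Place k F)
    (hPinf : ∀ y : F, IsPS ι y → y ∈ Pinf.toValuationSubring) {Y : F}
    (hY : ∀ v : Place k F, v ≠ Pinf → Y ∈ v.toValuationSubring) :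
    helper2707.RegAway ι t Y := fun σ hσ hne =>
  isIntegral_conj_of_forall_place ι ht (isPrincipalIdealRing_of_ne_top t) Pinf hPinf σ
    (IsConj_map_algebraMap' hσ) hσ.map_gen hne hY

/-- `RegAway` for the elements of a Riemann-Roch space `L(D)`, `D ≤ 0` away from the `q`-adic
place. -/
theorem regAway_of_mem_riemannRochSpace [IsAlgClosed k] (ι : F →ₐ[k] LaurentSeries k) {t : F}
    [FiniteDimensional k⟮t⟯ F] (ht : (ι t).order = -1) (Pinf : Place k F)
    (hPinf : ∀ y : F, IsPS ι y → y ∈ Pinf.toValuationSubring) {D : Divisor k F}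
    (hD : ∀ v : Place k F, v ≠ Pinf → D v ≤ 0) {Y : F} (hY : Y ∈ riemannRochSpace D) :
    helper2707.RegAway ι t Y :=
  regAway_of_forall_place ι ht Pinf hPinf (forall_place_mem_of_mem_riemannRochSpace Pinf hD hY)

/-- `RegAway` for `Y ∈ L(n • Pinf)`. -/
theorem regAway_of_mem_riemannRochSpace_nsmul [IsAlgClosed k] (ι : F →ₐ[k] LaurentSeries k)
    {t : F} [FiniteDimensional k⟮t⟯ F] (ht : (ι t).order = -1) (Pinf : Place k F)
    (hPinf : ∀ y : F, IsPS ι y → y ∈ Pinf.toValuationSubring) (n : ℕ) {Y : F}
    (hY : Y ∈ riemannRochSpace (n • Finsupp.single Pinf (1 : ℤ))) :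
    helper2707.RegAway ι t Y :=
  regAway_of_mem_riemannRochSpace ι ht Pinf hPinf (nsmul_single_apply_le Pinf n) hY

/-- Integrality over `k[s]` in the explicit form of `helper2707.IsIntOver`. -/
theorem isIntOver_of_isIntegral_adjoin {s z : F} (h : IsIntegral (Algebra.adjoin k {s}) z) :
    helper2707.IsIntOver k s z := by
  obtain ⟨g, hg, hgz⟩ := h
  let φ : k[X] →ₐ[k] Algebra.adjoin k {s} :=
    (aeval s : k[X] →ₐ[k] F).codRestrict (Algebra.adjoin k {s}) fun p => by
      rw [Algebra.adjoin_singleton_eq_range_aeval]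
      exact ⟨p, rfl⟩
  have hφ : Function.Surjective φ := by
    rintro ⟨x, hx⟩
    rw [Algebra.adjoin_singleton_eq_range_aeval] at hx
    obtain ⟨p, rfl⟩ := hx
    exact ⟨p, Subtype.ext rfl⟩
  have hl : g ∈ lifts (φ : k[X] →+* Algebra.adjoin k {s}) :=
    (lifts_iff_coeff_lifts g).mpr fun n => hφ (g.coeff n)
  obtain ⟨G, hG, -, hGm⟩ := lifts_and_degree_eq_and_monic hl hg
  refine ⟨G, hGm, ?_⟩
  have hcomp : (algebraMap (Algebra.adjoin k {s}) F).comp (φ : k[X] →+* Algebra.adjoin k {s})
      = ((aeval s : k[X] →ₐ[k] F) : k[X] →+* F) := by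
    ext p <;> rfl
  rw [← hcomp, ← eval₂_map, hG]
  exact hgz

/-- (Z4) `Y ∈ L(D)`, `D ≤ 0` away from the `q`-adic place, is integral over `k[t]`. -/
theorem isIntOver_of_mem_riemannRochSpace [IsAlgClosed k] (ι : F →ₐ[k] LaurentSeries k) {t : F}
    [FiniteDimensional k⟮t⟯ F] (ht : (ι t).order = -1) (Pinf : Place k F)
    (hPinf : ∀ y : F, IsPS ι y → y ∈ Pinf.toValuationSubring) {D : Divisor k F}
    (hD : ∀ v : Place k F, v ≠ Pinf → D v ≤ 0) {Y : F} (hY : Y ∈ riemannRochSpace D) :
    helper2707.IsIntOver k t Y :=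
  isIntOver_of_isIntegral_adjoin
    (isIntegral_adjoin_of_mem_riemannRochSpace ι ht (isPrincipalIdealRing_of_ne_top t) Pinf hPinf
      hD hY)

/-- (Z3) Cofactor form for a `RegAway` element: for a finite family `σ i` of conjugate
embeddings in the sense of `helper2707.IsConj`, pairwise distinct as ring homs and containing
the given one at `i0`, a monic `χ` over `k((q))` with `χ = ∏ i, (X - σ i Y)` over `Ω` factors as
`(X - ι Y) * Q0` with `Q0` monic over `k[[q]]`. -/
theorem exists_cofactor_of_regAway (ι : F →ₐ[k] LaurentSeries k) {t : F} {Y : F}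
    (hY : helper2707.RegAway ι t Y) {I : Type*} [Fintype I] (σ : I → F →+* helper2707.Om k)
    (hσ : ∀ i, helper2707.IsConj ι t (σ i)) (hinj : Function.Injective σ) (i0 : I)
    (hi0 : σ i0 = helper2707.inc ι) {χ : (LaurentSeries k)[X]} (hχ : χ.Monic)
    (hprod : χ.map (algebraMap (LaurentSeries k) (helper2707.Om k)) = ∏ i : I, (X - C (σ i Y))) :
    ∃ Q0 : (PowerSeries k)[X], Q0.Monic ∧
      χ = (X - C (ι Y)) * Q0.map (algebraMap (PowerSeries k) (LaurentSeries k)) :=
  exists_cofactor_of_prod ι σ i0 hi0
    (fun i hi => hY (σ i) (hσ i) fun h => hi (hinj (h.trans hi0.symm))) hχ hprod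

end Fermat.Agent.S18.helper5675
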