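/-
S18-CONJ0, consumer shapes (helper8589; adapters on top of the LANDED `helper5675_ConjZero*`,
`helper2707_Cofactor`, `helper288_PlaceFacts` -- no second copy of the core).

* `exists_cofactor_charpoly` : the exact converse of `helper2707.regAway_of_cofactor`: for a
  `RegAway` element `y`, the characteristic polynomial of `y` over `k(t)`, read in `k((q))[X]`
  through `ι`, is `(X - ι y) * Q` with `Q` monic in `k[[q]][X]`.
* the modular instance, verbatim against `helper99_SpecC`:
  `regAway_of_regAwayInf`, `isIntOver_of_regAwayInf`, `isIntegral_adjoin_of_regAwayInf`,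
  `exists_cofactor_of_regAwayInf` : for `F = modularFunctionFieldBar N ⊆ ℚ̄((q))`, any `t : F` with a
  simple pole in `q` and `F` finite over `ℚ̄(t)`, a function `y` with `helper99.RegAwayInf N y`
  is `helper2707.RegAway`, integral over `ℚ̄[t]`, and has the cofactor factorisation.
-/
import Mathlib
import Fermat.Agent.S18.helper5675_ConjZeroInst
import Fermat.Agent.S18.helper2707_Cofactor
import Fermat.Agent.S18.helper288_PlaceFacts

set_option autoImplicit false

noncomputable section

namespace Fermat.Agent.S18.helper8589

open Polynomial IntermediateField AlgebraicCurve ModularCurve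
open Fermat.Agent.S18

section Generic

variable {k : Type*} [Field k] {F : Type*} [Field F] [Algebra k F]
variable {t : F} {ι : F →ₐ[k] LaurentSeries k}

/-- **(CONJ0), cofactor in the characteristic polynomial shape.**  The exact converse of
`helper2707.regAway_of_cofactor`: if `y` is regular away from the given embedding, the
characteristic polynomial of `y` over `k(t)`, read in `k((q))[X]` through `ι`, is
`(X - ι y) * Q` with `Q` monic with power series coefficients. -/
theorem exists_cofactor_charpoly [FiniteDimensional k⟮t⟯ F] [Algebra.IsSeparable k⟮t⟯ F]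
    (ht : (ι t).order = -1) {y : F} (hy : helper2707.RegAway ι t y) :
    ∃ Q : (PowerSeries k)[X], Q.Monic ∧
      (LinearMap.charpoly (Algebra.lmul k⟮t⟯ F y)).map
          ((ι : F →+* LaurentSeries k).comp (algebraMap k⟮t⟯ F))
        = (X - C (ι y)) * Q.map (algebraMap (PowerSeries k) (LaurentSeries k)) := by
  classical
  let _ := helper2707.algOm t ι
  have := helper2707.infinite_adjoin ht
  have hpf := helper2707.charpoly_map_eq_prod_embeddings (K := k⟮t⟯) (L := F)
    (E := helper2707.Om k) y
  refine helper5675.exists_cofactor_of_regAway ι hy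
    (fun τ : F →ₐ[k⟮t⟯] helper2707.Om k => (τ : F →+* helper2707.Om k))
    (fun τ c => τ.commutes c) ?_ (helper2707.inc0 t ι) rfl
    ((LinearMap.charpoly_monic _).map _) ?_
  · intro τ τ' h
    ext x
    exact congrArg (fun f : F →+* helper2707.Om k => f x) h
  · rw [Polynomial.map_map]
    exact hpf

end Generic

section Modular

variable (N : ℕ) {t : modularFunctionFieldBar N}

/-- A function with a power series `q`-expansion lies in the valuation ring of the cusp `∞`. -/
theorem mem_cuspInf_of_isPS {y : modularFunctionFieldBar N}
    (hy : helper5675.IsPS (modularFunctionFieldBar N).val y) :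
    y ∈ (helper288.cuspInf N).toValuationSubring := by
  rcases eq_or_ne y 0 with rfl | hy0
  · exact zero_mem _
  apply Fermat.Agent.S24.helper204.mem_of_ord_nonneg
  rw [helper288.cuspInf_ord N hy0]
  obtain ⟨p, hp⟩ := hy
  have hne : (y : LaurentSeries (AlgebraicClosure ℚ)) ≠ 0 := fun h => hy0 (Subtype.ext h)
  refine helper2707.le_order_of_vb hne ?_
  have h1 := helper2707.vb_zero_coe p
  rw [hp] at h1
  exact h1

/-- `RegAwayInf` in valuation ring form. -/
theorem mem_of_regAwayInf {y : modularFunctionFieldBar N} (hy : helper99.RegAwayInf N y)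
    (v : Place (AlgebraicClosure ℚ) (modularFunctionFieldBar N)) (hv : v ≠ helper288.cuspInf N) :
    y ∈ v.toValuationSubring :=
  Fermat.Agent.S24.helper204.mem_of_ord_nonneg v ((helper288.regAwayInf_iff N y).mp hy v hv)

/-- **(CONJ0) for `X₀(N)`, embedding form.**  A function regular away from the cusp `∞`
(`helper99.RegAwayInf`) is regular away from the given embedding `F ⊆ ℚ̄((q))` in the sense of
`helper2707.RegAway`, for every `t` with a simple pole in `q` over which `F` is finite. -/
theorem regAway_of_regAwayInf
    [FiniteDimensional (AlgebraicClosure ℚ)⟮t⟯ (modularFunctionFieldBar N)]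
    (ht : (t : LaurentSeries (AlgebraicClosure ℚ)).order = -1)
    {y : modularFunctionFieldBar N} (hy : helper99.RegAwayInf N y) :
    helper2707.RegAway (modularFunctionFieldBar N).val t y :=
  helper5675.regAway_of_forall_place (modularFunctionFieldBar N).val ht (helper288.cuspInf N)
    (fun _ h => mem_cuspInf_of_isPS N h) (mem_of_regAwayInf N hy)

/-- **(CONJ0) for `X₀(N)`, integrality.**  A function regular away from the cusp `∞` is integral
over `ℚ̄[t]`, for every `t` with a simple pole in `q` over which `F` is finite. -/
theorem isIntegral_adjoin_of_regAwayInf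
    [FiniteDimensional (AlgebraicClosure ℚ)⟮t⟯ (modularFunctionFieldBar N)]
    (ht : (t : LaurentSeries (AlgebraicClosure ℚ)).order = -1)
    {y : modularFunctionFieldBar N} (hy : helper99.RegAwayInf N y) :
    IsIntegral (Algebra.adjoin (AlgebraicClosure ℚ) {t}) y :=
  helper5675.isIntegral_adjoin_of_forall_place (modularFunctionFieldBar N).val ht
    (helper5675.isPrincipalIdealRing_of_ne_top t) (helper288.cuspInf N)
    (fun _ h => mem_cuspInf_of_isPS N h) (mem_of_regAwayInf N hy)

/-- The same in the explicit form `helper2707.IsIntOver`. -/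
theorem isIntOver_of_regAwayInf
    [FiniteDimensional (AlgebraicClosure ℚ)⟮t⟯ (modularFunctionFieldBar N)]
    (ht : (t : LaurentSeries (AlgebraicClosure ℚ)).order = -1)
    {y : modularFunctionFieldBar N} (hy : helper99.RegAwayInf N y) :
    helper2707.IsIntOver (AlgebraicClosure ℚ) t y :=
  helper5675.isIntOver_of_isIntegral_adjoin (isIntegral_adjoin_of_regAwayInf N ht hy)

/-- **(CONJ0) for `X₀(N)`, cofactor form.**  For `y` regular away from the cusp `∞`, the
characteristic polynomial of `y` over `ℚ̄(t)`, read in `ℚ̄((q))[X]`, is `(X - y) * Q` with `Q`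
monic in `ℚ̄[[q]][X]`. -/
theorem exists_cofactor_of_regAwayInf
    [FiniteDimensional (AlgebraicClosure ℚ)⟮t⟯ (modularFunctionFieldBar N)]
    (ht : (t : LaurentSeries (AlgebraicClosure ℚ)).order = -1)
    {y : modularFunctionFieldBar N} (hy : helper99.RegAwayInf N y) :
    ∃ Q : (PowerSeries (AlgebraicClosure ℚ))[X], Q.Monic ∧
      (LinearMap.charpoly (Algebra.lmul (AlgebraicClosure ℚ)⟮t⟯ (modularFunctionFieldBar N) y)).map
          (((modularFunctionFieldBar N).val :
              modularFunctionFieldBar N →+* LaurentSeries (AlgebraicClosure ℚ)).comp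
            (algebraMap (AlgebraicClosure ℚ)⟮t⟯ (modularFunctionFieldBar N)))
        = (X - C (y : LaurentSeries (AlgebraicClosure ℚ)))
          * Q.map (algebraMap (PowerSeries (AlgebraicClosure ℚ))
              (LaurentSeries (AlgebraicClosure ℚ))) :=
  exists_cofactor_charpoly (ι := (modularFunctionFieldBar N).val) ht
    (regAway_of_regAwayInf N ht hy)

end Modular

end Fermat.Agent.S18.helper8589
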