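/-
S18, track C, [C4] `Stmt_Bbar`, field `ct`: the modular instance (helper7261).

`ct_of_lineCharpolyRed` : the hypothesis `hct` of `helper2707.stmt_Bbar_of_certs`, from the ONE
remaining input `LineCharpolyRed` (reduction of the characteristic polynomial on the line `t_r`,
leaf `helper1446_LineBasis`).  Everything else is discharged from main:
`helper7261.ct_abstract` (cofactor reduction), `helper8589_ConjZeroMod` (CONJ0 in characteristic
zero), `helper2707_BbarLine` (the line `t_r`), `helper508.stmt_Gauss` (GAUSSMOD).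
-/
import Fermat.Agent.S18.helper7261_BbarCT
import Fermat.Agent.S18.helper2707_BbarLine
import Fermat.Agent.S18.helper8589_ConjZeroMod
import Fermat.Agent.S18.helper508_TrackCGauss

set_option autoImplicit false
set_option synthInstance.maxHeartbeats 400000

noncomputable section

namespace Fermat.Agent.S18.helper7261

open Polynomial IntermediateField ModularCurve

/-- **(CPR) charpoly reduction on a line** (interface with `helper1446_LineBasis`).
`y : A((q))` is the integral expansion of the line parameter.  For every `A`-integral series `x`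
of `F`, each coefficient of the characteristic polynomial of `x` over `L(t)` is `P(t)/Q(t)` with
`P, Q ∈ A[X]`, `Q` nonzero modulo the maximal ideal, and the corresponding coefficient of the
characteristic polynomial of the reduction `x̄` over `κ(t̄)` is `P̄(t̄)/Q̄(t̄)`. -/
def LineCharpolyRed (N : ℕ) [NeZero N] {L : Type*} [Field L] [Algebra ℚ L]
    (A : ValuationSubring L) (y : LaurentSeries A) : Prop :=
  ∀ (t : ↥(laurentBaseChange L (modularFunctionFieldFull N)))
    (tb : ↥(modularFunctionFieldFullC (IsLocalRing.ResidueField A) N)),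
    (t : LaurentSeries L) = coeffMap A.subtype y →
    (tb : LaurentSeries (IsLocalRing.ResidueField A)) = coeffMap (IsLocalRing.residue A) y →
    ∀ [FiniteDimensional L⟮t⟯ ↥(laurentBaseChange L (modularFunctionFieldFull N))]
      [FiniteDimensional (IsLocalRing.ResidueField A)⟮tb⟯
        ↥(modularFunctionFieldFullC (IsLocalRing.ResidueField A) N)],
    ∀ (x : LaurentSeries A) (x₀ : ↥(laurentBaseChange L (modularFunctionFieldFull N)))
      (xb : ↥(modularFunctionFieldFullC (IsLocalRing.ResidueField A) N)),
      (x₀ : LaurentSeries L) = coeffMap A.subtype x →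
      (xb : LaurentSeries (IsLocalRing.ResidueField A)) = coeffMap (IsLocalRing.residue A) x →
      ∀ i : ℕ, ∃ P Q : A[X], Q.map (IsLocalRing.residue A) ≠ 0 ∧
        algebraMap L⟮t⟯ ↥(laurentBaseChange L (modularFunctionFieldFull N))
            ((LinearMap.charpoly (Algebra.lmul L⟮t⟯
              ↥(laurentBaseChange L (modularFunctionFieldFull N)) x₀)).coeff i) *
          aeval t (Q.map A.subtype) = aeval t (P.map A.subtype) ∧
        algebraMap (IsLocalRing.ResidueField A)⟮tb⟯
            ↥(modularFunctionFieldFullC (IsLocalRing.ResidueField A) N)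
            ((LinearMap.charpoly (Algebra.lmul (IsLocalRing.ResidueField A)⟮tb⟯
              ↥(modularFunctionFieldFullC (IsLocalRing.ResidueField A) N) xb)).coeff i) *
          aeval tb (Q.map (IsLocalRing.residue A)) = aeval tb (P.map (IsLocalRing.residue A))

section Line

variable (N : ℕ) [NeZero N] {r : ℕ} (hr : r = 2 ∨ r = 3) (hrN : r ∣ N)

/-- The Hauptmodul `t_r` as an element of the generic fibre. -/
def tQ : ↥(modularFunctionFieldBar N) :=
  ⟨helper2707.tR (AlgebraicClosure ℚ) r, helper2707.tR_mem_bar N hr hrN⟩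

theorem coe_tQ : ((tQ N hr hrN : ↥(modularFunctionFieldBar N)) :
    LaurentSeries (AlgebraicClosure ℚ)) = helper2707.tR (AlgebraicClosure ℚ) r := rfl

theorem order_tQ : ((tQ N hr hrN : ↥(modularFunctionFieldBar N)) :
    LaurentSeries (AlgebraicClosure ℚ)).order = -1 := helper2707.order_tR _ r

theorem finiteDimensional_tQ :
    FiniteDimensional (AlgebraicClosure ℚ)⟮tQ N hr hrN⟯ ↥(modularFunctionFieldBar N) := by
  rcases hr with rfl | rfl
  · exact (helper6381.hline2_bar N hrN (tQ N (Or.inl rfl) hrN)
      (helper2707.tR_two_identities (AlgebraicClosure ℚ)).1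
      (helper2707.tR_two_identities (AlgebraicClosure ℚ)).2).2.1
  · exact (helper6381.hline3_bar N hrN (tQ N (Or.inr rfl) hrN)
      (helper2707.tR_three_identities (AlgebraicClosure ℚ)).1
      (helper2707.tR_three_identities (AlgebraicClosure ℚ)).2).2.1

end Line

section CT

variable (N : ℕ) [NeZero N] {ℓ : ℕ} (hℓ : ℓ.Prime) (hℓN : ¬ ℓ ∣ N)
  (A : ValuationSubring (AlgebraicClosure ℚ)) (hA : A.LiesOverPrime ℓ)
  {r : ℕ} (hr : r = 2 ∨ r = 3) (hrN : r ∣ N)

/-- **The field `ct` of (C4)** = hypothesis `hct` of `helper2707.stmt_Bbar_of_certs`, from the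
charpoly reduction on the line `t_r`. -/
theorem ct_of_lineCharpolyRed (hCPR : LineCharpolyRed N A (helper2707.tR A r)) :
    ∀ (x : LaurentSeries A) (hx : coeffMap A.subtype x ∈ modularFunctionFieldBar N),
      helper99.RegAwayInf N ⟨coeffMap A.subtype x, hx⟩ →
        coeffMap (IsLocalRing.residue A) x ∈
          helper2707.Bsub (IsLocalRing.ResidueField A) N
            (helper2707.tbarA N hℓ hℓN A hA hr hrN) := by
  intro x hx hreg
  have hxb : coeffMap (IsLocalRing.residue A) x ∈
      modularFunctionFieldFullC (IsLocalRing.ResidueField A) N :=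
    helper508.stmt_Gauss N ℓ hℓ hℓN A hA x hx
  have := finiteDimensional_tQ N hr hrN
  have := helper2707.finiteDimensional_tbarA hℓ hℓN A hA hr hrN
  have := helper2707.isSeparable_tbarA hℓ hℓN A hA hr hrN
  have hordb := helper2707.order_tbarA hℓ hℓN A hA hr hrN
  have hord := order_tQ N hr hrN
  have htr : Transcendental (AlgebraicClosure ℚ) (tQ N hr hrN) :=
    helper2707.transcendental_of_order (ι := (modularFunctionFieldBar N).val) hord
  have htrb : Transcendental (IsLocalRing.ResidueField A) (helper2707.tbarA N hℓ hℓN A hA hr hrN) :=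
    helper2707.transcendental_of_order
      (ι := (modularFunctionFieldFullC (IsLocalRing.ResidueField A) N).val) hordb
  have hint := helper8589.isIntegral_adjoin_of_regAwayInf N hord hreg
  obtain ⟨Q₀, -, hQ₀⟩ := helper8589.exists_cofactor_of_regAwayInf N hord hreg
  have key := ct_abstract A (IsLocalRing.residue A) (modularFunctionFieldBar N).val
    (modularFunctionFieldFullC (IsLocalRing.ResidueField A) N).val
    (fun a ha => (IsLocalRing.residue_eq_zero_iff a).mpr ha)
    (helper2707.tR A r) (tQ N hr hrN) (helper2707.tbarA N hℓ hℓN A hA hr hrN)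
    (helper2707.coeffMap_tR A.subtype r).symm
    (helper2707.coe_tbarA_eq_coeffMap hℓ hℓN A hA hr hrN) htr htrb hordb
    x ⟨coeffMap A.subtype x, hx⟩ ⟨coeffMap (IsLocalRing.residue A) x, hxb⟩ rfl rfl
    (hCPR (tQ N hr hrN) (helper2707.tbarA N hℓ hℓN A hA hr hrN)
      (helper2707.coeffMap_tR A.subtype r).symm
      (helper2707.coe_tbarA_eq_coeffMap hℓ hℓN A hA hr hrN)
      x ⟨coeffMap A.subtype x, hx⟩ ⟨coeffMap (IsLocalRing.residue A) x, hxb⟩ rfl rfl)
    hint ⟨Q₀, hQ₀⟩
  exact helper2707.mem_Bsub_iff.mpr ⟨hxb, key.1, key.2⟩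

end CT

end Fermat.Agent.S18.helper7261

end
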