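import Fermat.Agent.S18.helper1446_LineCharpoly
import Fermat.Agent.S18.helper7261_BbarCTMod
import Fermat.Agent.S18.helper4665_TLineInst

/-!
# S18 track C, [C4] field `ct` (helper1446): `LineCharpolyRed` on the Hauptmodul lines

* `lineCharpolyRed` : `helper7261.LineCharpolyRed N A y` on any line `y` with `t̄` transcendental
  and `j ∈ L(t)` (from `helper1446_LineCharpoly.line_charpoly_coeff`).
* `lineCharpolyRed_tR` : the instance `y = helper2707.tR A r`, `r ∈ {2, 3}`, `r ∣ N`, `ℓ ∤ N`
  (the one remaining input of `helper7261.ct_of_lineCharpolyRed`).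
* `ct_tR` : the field `ct` of (C4), i.e. the hypothesis `hct` of
  `helper2707.stmt_Bbar_of_certs`, without hypotheses.
-/

set_option autoImplicit false

noncomputable section

namespace Fermat.Agent.S18.helper1446

open Polynomial ModularCurve IntermediateField

/-- `helper7261.LineCharpolyRed` on a general line. -/
theorem lineCharpolyRed (N : ℕ) [NeZero N] (ℓ : ℕ) [Fact ℓ.Prime] (hℓN : ¬ ℓ ∣ N)
    {L : Type*} [Field L] [Algebra ℚ L] (A : ValuationSubring L) (hA : (ℓ : L) ∈ A.nonunits)
    (y : LaurentSeries A)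
    (hy : coeffMap A.subtype y ∈ laurentBaseChange L (modularFunctionFieldFull N))
    (htr : Transcendental (IsLocalRing.ResidueField A) (coeffMap (IsLocalRing.residue A) y))
    (hj : helper1733.gaussJ L N ∈
      L⟮(⟨coeffMap A.subtype y, hy⟩ : ↥(laurentBaseChange L (modularFunctionFieldFull N)))⟯) :
    helper7261.LineCharpolyRed N A y :=
  line_charpoly_coeff N ℓ hℓN A hA y hy htr hj

section Haupt

variable (N : ℕ) [NeZero N] {ℓ : ℕ} (hℓ : ℓ.Prime) (hℓN : ¬ ℓ ∣ N)
  (A : ValuationSubring (AlgebraicClosure ℚ)) (hA : A.LiesOverPrime ℓ)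
  {r : ℕ} (hr : r = 2 ∨ r = 3) (hrN : r ∣ N)

include hℓ hℓN hA hr hrN in
/-- **`LineCharpolyRed` on the Hauptmodul line `t_r`** (`r ∈ {2, 3}`, `r ∣ N`, `ℓ ∤ N`). -/
theorem lineCharpolyRed_tR : helper7261.LineCharpolyRed N A (helper2707.tR A r) := by
  have : Fact ℓ.Prime := ⟨hℓ⟩
  have hA' : (ℓ : AlgebraicClosure ℚ) ∈ A.nonunits := hA
  rcases hr with rfl | rfl
  · have e : helper2707.tR A 2 = helper4665.zSeries helper1257.t2Z A := by
      rw [helper2707.tR, helper2707.tZ, if_pos rfl]
      rfl
    rw [e]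
    have hmem := helper4665.zSeries_t2_mem (L := AlgebraicClosure ℚ) N hrN
    refine lineCharpolyRed N ℓ hℓN A hA' _
      (helper4665.coeffMap_subtype_zSeries_mem N A helper1257.t2Z hmem) ?_ ?_
    · rw [helper4665.coeffMap_zSeries]
      obtain ⟨hJ, hJ2⟩ := helper4665.zSeries_t2_identities (IsLocalRing.ResidueField A)
      exact (helper6381.hline2_level (IsLocalRing.ResidueField A) _ hJ hJ2 N hrN
        (helper4665.residue_natCast_ne_zero N ℓ hℓN A hA')).2.1
    · rw [helper4665.mk_coeffMap_subtype_zSeries N A helper1257.t2Z hmem]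
      exact helper4665.gaussJ_mem_adjoin_gaussT2 N hrN
  · have e : helper2707.tR A 3 = helper4665.zSeries helper1257.t3Z A := by
      rw [helper2707.tR, helper2707.tZ, if_neg (by norm_num)]
      rfl
    rw [e]
    have hmem := helper4665.zSeries_t3_mem (L := AlgebraicClosure ℚ) N hrN
    refine lineCharpolyRed N ℓ hℓN A hA' _
      (helper4665.coeffMap_subtype_zSeries_mem N A helper1257.t3Z hmem) ?_ ?_
    · rw [helper4665.coeffMap_zSeries]
      obtain ⟨hJ, hJ3⟩ := helper4665.zSeries_t3_identities (IsLocalRing.ResidueField A)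
      exact (helper6381.hline3_level (IsLocalRing.ResidueField A) _ hJ hJ3 N hrN
        (helper4665.residue_natCast_ne_zero N ℓ hℓN A hA')).2.1
    · rw [helper4665.mk_coeffMap_subtype_zSeries N A helper1257.t3Z hmem]
      exact helper4665.gaussJ_mem_adjoin_gaussT3 N hrN

/-- **The field `ct` of (C4)**: the hypothesis `hct` of `helper2707.stmt_Bbar_of_certs`
verbatim, with no remaining hypothesis. -/
theorem ct_tR :
    ∀ (x : LaurentSeries A) (hx : coeffMap A.subtype x ∈ modularFunctionFieldBar N),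
      helper99.RegAwayInf N ⟨coeffMap A.subtype x, hx⟩ →
        coeffMap (IsLocalRing.residue A) x ∈
          helper2707.Bsub (IsLocalRing.ResidueField A) N
            (helper2707.tbarA N hℓ hℓN A hA hr hrN) :=
  helper7261.ct_of_lineCharpolyRed N hℓ hℓN A hA hr hrN
    (lineCharpolyRed_tR N hℓ hℓN A hA hr hrN)

end Haupt

end Fermat.Agent.S18.helper1446
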