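/-
S18 (helper1446): abstract Gauss-valuation layer for a field of Laurent series over a valued
field `(L, A)` possessing an "orthonormal" family of integral series.  Mathlib + Prelude `coeffMap`.
-/
import Mathlib
import Fermat.Prelude.Def_ModularCurve_LaurentCoeff

set_option autoImplicit false

noncomputable section

namespace Fermat.Agent.S18.helper1446

open Polynomial ModularCurve

/-! ### (GM0) linear disjointness of `K` and `K₀((q))` inside `K((q))` -/

section Disjoint

variable {K₀ K : Type*} [Field K₀] [Field K] [Algebra K₀ K]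

theorem coeffMap_algebraMap_smul_coeff (c : K) (x : LaurentSeries K₀) (m : ℤ) :
    (c • coeffMap (algebraMap K₀ K) x).coeff m = x.coeff m • c := by
  rw [HahnSeries.coeff_smul, coeffMap_coeff, smul_eq_mul, Algebra.smul_def, mul_comm]

/-- A `K₀`-linearly independent family of `K₀((q))` stays linearly independent over `K` in
`K((q))`. -/
theorem linearIndependent_coeffMap {σ : Type*} (v : σ → LaurentSeries K₀)
    (hv : LinearIndependent K₀ v) :
    LinearIndependent K (fun i => coeffMap (algebraMap K₀ K) (v i)) := by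
  classical
  rw [linearIndependent_iff']
  intro s c hc i hi
  rw [linearIndependent_iff'] at hv
  set e := Module.Basis.ofVectorSpace K₀ K with he
  -- it suffices that all coordinates of `c i` vanish
  have key : ∀ α, ∀ i ∈ s, e.coord α (c i) = 0 := by
    intro α
    apply hv s (fun i => e.coord α (c i))
    ext m
    have h1 := congrArg (fun z : LaurentSeries K => z.coeff m) hc
    simp only [HahnSeries.coeff_sum, HahnSeries.coeff_zero] at h1
    have h2 : ∑ i ∈ s, (v i).coeff m • c i = 0 := by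
      rw [← h1]
      exact Finset.sum_congr rfl fun i _ => (coeffMap_algebraMap_smul_coeff (c i) (v i) m).symm
    have h3 := congrArg (e.coord α) h2
    rw [map_sum, map_zero] at h3
    simp only [HahnSeries.coeff_sum, HahnSeries.coeff_zero, HahnSeries.coeff_smul, smul_eq_mul]
    rw [← h3]
    refine Finset.sum_congr rfl fun i _ => ?_
    rw [map_smul, smul_eq_mul, mul_comm]
  have : e.repr (c i) = 0 := by
    ext α
    simpa using key α i hi
  simpa using this

end Disjoint

/-! ### coefficient maps and scaling in a valuation ring -/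

theorem algebraMap_eq_single {R : Type*} [CommRing R] (c : R) :
    algebraMap R (LaurentSeries R) c = HahnSeries.single 0 c := by
  have h1 : algebraMap R (PowerSeries R) c = PowerSeries.C c := by simp
  rw [HahnSeries.algebraMap_apply', h1, HahnSeries.ofPowerSeries_C]
  rfl

theorem coeffMap_algebraMap' {R S : Type*} [CommRing R] [CommRing S] (f : R →+* S) (r : R) :
    coeffMap f (algebraMap R (LaurentSeries R) r) = algebraMap S (LaurentSeries S) (f r) := by
  rw [algebraMap_eq_single, algebraMap_eq_single, coeffMap_single]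

theorem coeffMap_aeval {R S : Type*} [CommRing R] [CommRing S] (f : R →+* S)
    (j : LaurentSeries R) (p : R[X]) :
    coeffMap f (aeval j p) = aeval (coeffMap f j) (p.map f) := by
  induction p using Polynomial.induction_on' with
  | add p q hp hq => rw [map_add, map_add, hp, hq, Polynomial.map_add, map_add]
  | monomial n r =>
    rw [aeval_monomial, map_mul, map_pow, coeffMap_algebraMap', Polynomial.map_monomial,
      aeval_monomial]

theorem coeffMap_injective {R S : Type*} [CommRing R] [CommRing S] (f : R →+* S)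
    (hf : Function.Injective f) : Function.Injective (coeffMap f) := by
  intro x y h
  ext m
  apply hf
  have := congrArg (fun z : LaurentSeries S => z.coeff m) h
  simpa using this

theorem exists_scaling {L : Type*} [Field L] (A : ValuationSubring L) {σ : Type*} (s : Finset σ)
    (c : σ → L) (h : ∃ i ∈ s, c i ≠ 0) :
    ∃ a : L, a ≠ 0 ∧ (∀ i ∈ s, a * c i ∈ A) ∧ ∃ i ∈ s, a * c i = 1 := by
  obtain ⟨i₁, hi₁, hc₁⟩ := h
  obtain ⟨i₀, hi₀, hmax⟩ := Finset.exists_max_image s (fun i => A.valuation (c i)) ⟨i₁, hi₁⟩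
  have hc₀ : c i₀ ≠ 0 := by
    intro h0
    have := hmax i₁ hi₁
    rw [h0, map_zero] at this
    exact hc₁ ((A.valuation).zero_iff.mp (le_antisymm this zero_le))
  refine ⟨(c i₀)⁻¹, inv_ne_zero hc₀, fun i hi => ?_, i₀, hi₀, inv_mul_cancel₀ hc₀⟩
  rw [← A.valuation_le_one_iff, map_mul, map_inv₀]
  have h0 : A.valuation (c i₀) ≠ 0 := (A.valuation).ne_zero_iff.mpr hc₀
  rw [inv_mul_le_iff₀ (zero_lt_iff.mpr h0), mul_one]
  exact hmax i hi

theorem exists_scaling_poly {L : Type*} [Field L] (A : ValuationSubring L)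
    {τ : Type*} [Fintype τ] (Q : τ → L[X]) (hQ : ∃ t, Q t ≠ 0) :
    ∃ (a : L) (q : τ → (↥A)[X]), a ≠ 0 ∧ (∀ t, (q t).map A.subtype = C a * Q t) ∧
      ∃ t, (q t).map (IsLocalRing.residue A) ≠ 0 := by
  classical
  obtain ⟨t₁, ht₁⟩ := hQ
  set s : Finset (Σ _ : τ, ℕ) := Finset.univ.sigma (fun t => (Q t).support) with hs
  obtain ⟨a, ha, hmem, ⟨i₀, hi₀, h1⟩⟩ := exists_scaling A s (fun i => (Q i.1).coeff i.2)
    ⟨⟨t₁, (Q t₁).natDegree⟩, by
      simp only [hs, Finset.mem_sigma, Finset.mem_univ, true_and, Polynomial.mem_support_iff]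
      exact Polynomial.leadingCoeff_ne_zero.mpr ht₁,
      Polynomial.leadingCoeff_ne_zero.mpr ht₁⟩
  have hlift : ∀ t, ∃ q : (↥A)[X], q.map A.subtype = C a * Q t := by
    intro t
    have : C a * Q t ∈ Polynomial.lifts A.subtype := by
      rw [Polynomial.lifts_iff_coeff_lifts]
      intro m
      rw [Polynomial.coeff_C_mul]
      by_cases hm : m ∈ (Q t).support
      · exact ⟨⟨_, hmem ⟨t, m⟩ (by simp [hs, hm])⟩, rfl⟩
      · rw [Polynomial.notMem_support_iff.mp hm, mul_zero]
        exact ⟨0, map_zero _⟩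
    exact (Polynomial.mem_lifts _).mp this
  choose q hq using hlift
  refine ⟨a, q, ha, hq, i₀.1, ?_⟩
  intro h0
  have h2 : ((q i₀.1).map A.subtype).coeff i₀.2 = 1 := by
    rw [hq, Polynomial.coeff_C_mul]; exact h1
  rw [Polynomial.coeff_map] at h2
  have h3 : (q i₀.1).coeff i₀.2 = 1 := Subtype.ext h2
  have h4 := congrArg (fun p => p.coeff i₀.2) h0
  simp only [Polynomial.coeff_map, h3, map_one, Polynomial.coeff_zero] at h4
  exact one_ne_zero h4


section Gauss

variable {L : Type*} [Field L] (A : ValuationSubring L)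

/-- coefficient inclusion `A((q)) → L((q))`. -/
abbrev toL : LaurentSeries A →+* LaurentSeries L := coeffMap A.subtype

/-- coefficient reduction `A((q)) → k((q))`, `k` the residue field of `A`. -/
abbrev toK : LaurentSeries A →+* LaurentSeries (IsLocalRing.ResidueField A) :=
  coeffMap (IsLocalRing.residue A)

theorem toL_injective : Function.Injective (toL A) :=
  coeffMap_injective _ Subtype.val_injective

variable (j : LaurentSeries A) {n : ℕ} (b : Fin n → LaurentSeries A)

/-- (H0) the reduction of `j` is transcendental over the residue field. -/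
def TranscRed : Prop :=
  ∀ c : (IsLocalRing.ResidueField A)[X], aeval (toK A j) c = 0 → c = 0

/-- (H1) the reductions of the `b i` are linearly independent over `k[j̄]`. -/
def IndepRed : Prop :=
  ∀ c : Fin n → (IsLocalRing.ResidueField A)[X],
    ∑ i, aeval (toK A j) (c i) * toK A (b i) = 0 → c = 0

variable {A j b}

theorem toL_sum_aeval (p : Fin n → (↥A)[X]) :
    toL A (∑ i, aeval j (p i) * b i) =
      ∑ i, aeval (toL A j) ((p i).map A.subtype) * toL A (b i) := by
  rw [map_sum]
  exact Finset.sum_congr rfl fun i _ => by rw [map_mul, coeffMap_aeval]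

theorem toK_sum_aeval (p : Fin n → (↥A)[X]) :
    toK A (∑ i, aeval j (p i) * b i) =
      ∑ i, aeval (toK A j) ((p i).map (IsLocalRing.residue A)) * toK A (b i) := by
  rw [map_sum]
  exact Finset.sum_congr rfl fun i _ => by rw [map_mul, coeffMap_aeval]

theorem toK_sum_aeval_ne_zero (h1 : IndepRed A j b) (p : Fin n → (↥A)[X])
    (hp : ∃ i, (p i).map (IsLocalRing.residue A) ≠ 0) :
    toK A (∑ i, aeval j (p i) * b i) ≠ 0 := by
  intro h
  rw [toK_sum_aeval] at h
  obtain ⟨i, hi⟩ := hp
  exact hi (congrFun (h1 _ h) i)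

theorem toK_aeval_ne_zero (h0 : TranscRed A j) (s : (↥A)[X])
    (hs : s.map (IsLocalRing.residue A) ≠ 0) : toK A (aeval j s) ≠ 0 := by
  intro h
  rw [coeffMap_aeval] at h
  exact hs (h0 _ h)

/-- `j` is transcendental over `L`. -/
theorem transc_L (h0 : TranscRed A j) (S : L[X]) (hS : aeval (toL A j) S = 0) : S = 0 := by
  by_contra hne
  obtain ⟨a, q, ha, hq, t, hq0⟩ := exists_scaling_poly A (fun _ : Unit => S) ⟨(), hne⟩
  have h1 : toL A (aeval j (q t)) = 0 := by
    rw [coeffMap_aeval, hq, map_mul, hS, mul_zero]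
  have h2 : aeval j (q t) = 0 := toL_injective A (by rw [h1, map_zero])
  exact toK_aeval_ne_zero h0 (q t) hq0 (by rw [h2, map_zero])

/-- the `b i` are linearly independent over `L[j]`. -/
theorem indep_L (h1 : IndepRed A j b) (P : Fin n → L[X])
    (hP : ∑ i, aeval (toL A j) (P i) * toL A (b i) = 0) : P = 0 := by
  by_contra hne
  have hex : ∃ t, P t ≠ 0 := by
    by_contra hall
    push Not at hall
    exact hne (funext hall)
  obtain ⟨a, q, ha, hq, hq0⟩ := exists_scaling_poly A P hex
  have h2 : toL A (∑ i, aeval j (q i) * b i) = 0 := by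
    rw [toL_sum_aeval]
    have : ∀ i, aeval (toL A j) ((q i).map A.subtype) * toL A (b i) =
        algebraMap L (LaurentSeries L) a * (aeval (toL A j) (P i) * toL A (b i)) := fun i => by
      rw [hq, map_mul, aeval_C, mul_assoc]
    rw [Finset.sum_congr rfl fun i _ => this i, ← Finset.mul_sum, hP, mul_zero]
  have h3 : ∑ i, aeval j (q i) * b i = 0 := toL_injective A (by rw [h2, map_zero])
  exact toK_sum_aeval_ne_zero h1 q hq0 (by rw [h3, map_zero])

/-- **Orthonormal decomposition.** -/
theorem exists_decomp (h0 : TranscRed A j) (b : Fin n → LaurentSeries A) {x : LaurentSeries L}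
    (hx0 : x ≠ 0) (S : L[X]) (P : Fin n → L[X]) (hS : S ≠ 0)
    (hx : x * aeval (toL A j) S = ∑ i, aeval (toL A j) (P i) * toL A (b i)) :
    ∃ (a : L) (s : (↥A)[X]) (p : Fin n → (↥A)[X]), a ≠ 0 ∧
      s.map (IsLocalRing.residue A) ≠ 0 ∧ (∃ i, (p i).map (IsLocalRing.residue A) ≠ 0) ∧
      algebraMap L (LaurentSeries L) a * x * toL A (aeval j s) =
        toL A (∑ i, aeval j (p i) * b i) := by
  have hP : ∃ t, P t ≠ 0 := by
    by_contra hall
    push Not at hall
    have : x * aeval (toL A j) S = 0 := by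
      rw [hx]
      exact Finset.sum_eq_zero fun i _ => by rw [hall i, map_zero, zero_mul]
    rcases mul_eq_zero.mp this with h | h
    · exact hx0 h
    · exact hS (transc_L h0 S h)
  obtain ⟨a₁, p, ha₁, hp, hp0⟩ := exists_scaling_poly A P hP
  obtain ⟨a₂, s, ha₂, hs, t, hs0⟩ := exists_scaling_poly A (fun _ : Unit => S) ⟨(), hS⟩
  refine ⟨a₁ / a₂, s t, p, div_ne_zero ha₁ ha₂, hs0, hp0, ?_⟩
  rw [toL_sum_aeval, coeffMap_aeval, hs, map_mul, aeval_C]
  have : ∀ i, aeval (toL A j) ((p i).map A.subtype) * toL A (b i) =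
      algebraMap L (LaurentSeries L) a₁ * (aeval (toL A j) (P i) * toL A (b i)) := fun i => by
    rw [hp, map_mul, aeval_C, mul_assoc]
  rw [Finset.sum_congr rfl fun i _ => this i, ← Finset.mul_sum, ← hx, map_div₀]
  have h2 : algebraMap L (LaurentSeries L) a₂ ≠ 0 := by
    rw [Ne, map_eq_zero]; exact ha₂
  field_simp

end Gauss

section Field

variable {L : Type*} [Field L] (A : ValuationSubring L)
variable (j : LaurentSeries A) {n : ℕ} (b : Fin n → LaurentSeries A)
variable (F : IntermediateField L (LaurentSeries L))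

/-- Every element of `F` is an `L(j)`-combination of the `b i` (polynomial-fraction form). -/
def SpanProp : Prop :=
  ∀ x ∈ F, ∃ (S : L[X]) (P : Fin n → L[X]), S ≠ 0 ∧
    x * aeval (toL A j) S = ∑ i, aeval (toL A j) (P i) * toL A (b i)

variable {A j b F}

theorem exists_decomp_of_mem (h0 : TranscRed A j) (hspan : SpanProp A j b F)
    {x : LaurentSeries L} (hx : x ∈ F) (hx0 : x ≠ 0) :
    ∃ (a : L) (s : (↥A)[X]) (p : Fin n → (↥A)[X]), a ≠ 0 ∧
      s.map (IsLocalRing.residue A) ≠ 0 ∧ (∃ i, (p i).map (IsLocalRing.residue A) ≠ 0) ∧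
      algebraMap L (LaurentSeries L) a * x * toL A (aeval j s) =
        toL A (∑ i, aeval j (p i) * b i) := by
  obtain ⟨S, P, hS, hx'⟩ := hspan x hx
  exact exists_decomp h0 b hx0 S P hS hx'

theorem aeval_mem_of_mem {K E : Type*} [Field K] [Field E] [Algebra K E]
    (M : IntermediateField K E) {x : E} (hx : x ∈ M) (c : K[X]) : aeval x c ∈ M := by
  have := IntermediateField.aeval_coe (R := K) M (⟨x, hx⟩ : M) c
  rw [show ((⟨x, hx⟩ : M) : E) = x from rfl] at this
  rw [this]
  exact Subtype.property _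

theorem toL_aeval_mem (hjF : toL A j ∈ F) (s : (↥A)[X]) : toL A (aeval j s) ∈ F := by
  rw [coeffMap_aeval]
  exact aeval_mem_of_mem F hjF _

theorem toL_sum_aeval_mem (hjF : toL A j ∈ F) (hbF : ∀ i, toL A (b i) ∈ F)
    (p : Fin n → (↥A)[X]) : toL A (∑ i, aeval j (p i) * b i) ∈ F := by
  rw [toL_sum_aeval]
  exact sum_mem fun i _ => mul_mem (aeval_mem_of_mem F hjF _) (hbF i)

/-- (GM3) reductions of integral elements of `F` lie in `Fk`. -/
theorem toK_mem (h0 : TranscRed A j) (h1 : IndepRed A j b) (hspan : SpanProp A j b F)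
    (Fk : IntermediateField (IsLocalRing.ResidueField A)
      (LaurentSeries (IsLocalRing.ResidueField A)))
    (hjk : toK A j ∈ Fk) (hbk : ∀ i, toK A (b i) ∈ Fk)
    (y : LaurentSeries A) (hy : toL A y ∈ F) : toK A y ∈ Fk := by
  by_cases hy0 : y = 0
  · rw [hy0, map_zero]; exact zero_mem _
  have hy0' : toL A y ≠ 0 := fun h => hy0 (toL_injective A (by rw [h, map_zero]))
  obtain ⟨a, s, p, ha, hs0, hp0, hdec⟩ := exists_decomp_of_mem h0 hspan hy hy0'
  have hsK : toK A (aeval j s) ∈ Fk := by
    rw [coeffMap_aeval]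
    exact aeval_mem_of_mem Fk hjk _
  have hyK' : toK A (∑ i, aeval j (p i) * b i) ∈ Fk := by
    rw [toK_sum_aeval]
    exact sum_mem fun i _ => mul_mem (aeval_mem_of_mem Fk hjk _) (hbk i)
  have hsne := toK_aeval_ne_zero h0 s hs0
  have hy'ne := toK_sum_aeval_ne_zero h1 p hp0
  rcases A.mem_or_inv_mem a with haA | haA
  · have e1 : toL A (algebraMap A (LaurentSeries A) ⟨a, haA⟩ * y * aeval j s) =
        toL A (∑ i, aeval j (p i) * b i) := by
      rw [map_mul, map_mul, coeffMap_algebraMap']; exact hdec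
    have e3 := congrArg (toK A) (toL_injective A e1)
    rw [map_mul, map_mul, coeffMap_algebraMap'] at e3
    have hres : algebraMap (IsLocalRing.ResidueField A) (LaurentSeries (IsLocalRing.ResidueField A))
        (IsLocalRing.residue A ⟨a, haA⟩) ≠ 0 := by
      intro h; rw [h, zero_mul, zero_mul] at e3; exact hy'ne e3.symm
    have : toK A y = (algebraMap (IsLocalRing.ResidueField A)
        (LaurentSeries (IsLocalRing.ResidueField A)) (IsLocalRing.residue A ⟨a, haA⟩))⁻¹ *
          toK A (∑ i, aeval j (p i) * b i) * (toK A (aeval j s))⁻¹ := by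
      rw [← e3]; field_simp
    rw [this]
    exact mul_mem (mul_mem (inv_mem (Fk.algebraMap_mem _)) hyK') (inv_mem hsK)
  · have haL : algebraMap L (LaurentSeries L) a ≠ 0 := by rw [Ne, map_eq_zero]; exact ha
    have e1 : toL A (y * aeval j s) =
        toL A (algebraMap A (LaurentSeries A) ⟨a⁻¹, haA⟩ * ∑ i, aeval j (p i) * b i) := by
      rw [map_mul, map_mul, coeffMap_algebraMap', ← hdec]
      show _ = algebraMap L (LaurentSeries L) a⁻¹ * _
      rw [map_inv₀]; field_simp
    have e3 := congrArg (toK A) (toL_injective A e1)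
    rw [map_mul, map_mul, coeffMap_algebraMap'] at e3
    have : toK A y = algebraMap (IsLocalRing.ResidueField A)
        (LaurentSeries (IsLocalRing.ResidueField A)) (IsLocalRing.residue A ⟨a⁻¹, haA⟩) *
          toK A (∑ i, aeval j (p i) * b i) * (toK A (aeval j s))⁻¹ := by
      rw [← e3]; field_simp
    rw [this]
    exact mul_mem (mul_mem (Fk.algebraMap_mem _) hyK') (inv_mem hsK)

end Field

/-! ### the Gauss valuation ring and its reduction map -/

section Ring

variable {L : Type*} [Field L] {A : ValuationSubring L}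
variable {j : LaurentSeries A} {n : ℕ} {b : Fin n → LaurentSeries A}
variable {F : IntermediateField L (LaurentSeries L)}

/-- integrality predicate defining the Gauss valuation ring of `F`: `x = y / s` with `y, s`
integral series, `s ∈ F`, `s̄ ≠ 0`. -/
def IsGaussInt (A : ValuationSubring L) (F : IntermediateField L (LaurentSeries L))
    (x : LaurentSeries L) : Prop :=
  ∃ y s : LaurentSeries A, toL A s ∈ F ∧ toK A s ≠ 0 ∧ x * toL A s = toL A y

theorem isGaussInt_zero : IsGaussInt A F 0 :=
  ⟨0, 1, by rw [map_one]; exact one_mem _, by rw [map_one]; exact one_ne_zero, by simp⟩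

theorem isGaussInt_one : IsGaussInt A F 1 :=
  ⟨1, 1, by rw [map_one]; exact one_mem _, by rw [map_one]; exact one_ne_zero, by simp⟩

theorem IsGaussInt.mul {x x' : LaurentSeries L} (h : IsGaussInt A F x) (h' : IsGaussInt A F x') :
    IsGaussInt A F (x * x') := by
  obtain ⟨y, s, hsF, hs, e⟩ := h
  obtain ⟨y', s', hsF', hs', e'⟩ := h'
  refine ⟨y * y', s * s', by rw [map_mul]; exact mul_mem hsF hsF',
    by rw [map_mul]; exact mul_ne_zero hs hs', ?_⟩
  rw [map_mul, map_mul, ← e, ← e']; ring

theorem IsGaussInt.add {x x' : LaurentSeries L} (h : IsGaussInt A F x) (h' : IsGaussInt A F x') :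
    IsGaussInt A F (x + x') := by
  obtain ⟨y, s, hsF, hs, e⟩ := h
  obtain ⟨y', s', hsF', hs', e'⟩ := h'
  refine ⟨y * s' + y' * s, s * s', by rw [map_mul]; exact mul_mem hsF hsF',
    by rw [map_mul]; exact mul_ne_zero hs hs', ?_⟩
  rw [map_add, map_mul, map_mul, map_mul, ← e, ← e']; ring

theorem IsGaussInt.neg {x : LaurentSeries L} (h : IsGaussInt A F x) : IsGaussInt A F (-x) := by
  obtain ⟨y, s, hsF, hs, e⟩ := h
  exact ⟨-y, s, hsF, hs, by rw [map_neg, ← e]; ring⟩

theorem isGaussInt_toL (y : LaurentSeries A) : IsGaussInt A F (toL A y) :=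
  ⟨y, 1, by rw [map_one]; exact one_mem _, by rw [map_one]; exact one_ne_zero, by simp⟩

/-- valuation-ring dichotomy -/
theorem isGaussInt_or_inv (h0 : TranscRed A j) (h1 : IndepRed A j b) (hspan : SpanProp A j b F)
    (hjF : toL A j ∈ F) (hbF : ∀ i, toL A (b i) ∈ F) {x : LaurentSeries L} (hx : x ∈ F) :
    IsGaussInt A F x ∨ IsGaussInt A F x⁻¹ := by
  by_cases hx0 : x = 0
  · left; rw [hx0]; exact isGaussInt_zero
  obtain ⟨a, s, p, ha, hs0, hp0, hdec⟩ := exists_decomp_of_mem h0 hspan hx hx0
  have haL : algebraMap L (LaurentSeries L) a ≠ 0 := by rw [Ne, map_eq_zero]; exact ha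
  rcases A.mem_or_inv_mem a with haA | haA
  · right
    refine ⟨algebraMap A (LaurentSeries A) ⟨a, haA⟩ * aeval j s, ∑ i, aeval j (p i) * b i,
      toL_sum_aeval_mem hjF hbF p, toK_sum_aeval_ne_zero h1 p hp0, ?_⟩
    rw [← hdec, map_mul, coeffMap_algebraMap']
    show x⁻¹ * (algebraMap L (LaurentSeries L) a * x * _) = algebraMap L (LaurentSeries L) a * _
    field_simp
  · left
    refine ⟨algebraMap A (LaurentSeries A) ⟨a⁻¹, haA⟩ * ∑ i, aeval j (p i) * b i, aeval j s,
      toL_aeval_mem hjF s, toK_aeval_ne_zero h0 s hs0, ?_⟩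
    rw [map_mul, coeffMap_algebraMap', ← hdec]
    show _ = algebraMap L (LaurentSeries L) a⁻¹ * _
    rw [map_inv₀]; field_simp

/-- **(GM4)** the Gauss valuation subring of `F`. -/
def gaussRing (h0 : TranscRed A j) (h1 : IndepRed A j b) (hspan : SpanProp A j b F)
    (hjF : toL A j ∈ F) (hbF : ∀ i, toL A (b i) ∈ F) : ValuationSubring ↥F where
  carrier := {x | IsGaussInt A F (x : LaurentSeries L)}
  mul_mem' := fun {x y} hx hy => IsGaussInt.mul hx hy
  one_mem' := isGaussInt_one
  add_mem' := fun {x y} hx hy => IsGaussInt.add hx hy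
  zero_mem' := isGaussInt_zero
  neg_mem' := fun {x} hx => IsGaussInt.neg hx
  mem_or_inv_mem' := fun x => by
    have := isGaussInt_or_inv h0 h1 hspan hjF hbF x.2
    exact this


section RingFacts

variable (h0 : TranscRed A j) (h1 : IndepRed A j b) (hspan : SpanProp A j b F)
  (hjF : toL A j ∈ F) (hbF : ∀ i, toL A (b i) ∈ F)

theorem mem_gaussRing_iff (x : ↥F) :
    x ∈ gaussRing h0 h1 hspan hjF hbF ↔ IsGaussInt A F (x : LaurentSeries L) := Iff.rfl

theorem isGaussInt_algebraMap_iff (c : L) :
    IsGaussInt A F (algebraMap L (LaurentSeries L) c) ↔ c ∈ A := by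
  constructor
  · rintro ⟨y, s, hsF, hs, e⟩
    by_contra hc
    have hc0 : c ≠ 0 := fun h => hc (h ▸ A.zero_mem)
    have hci : c⁻¹ ∈ A := (A.mem_or_inv_mem c).resolve_left hc
    have hcL : algebraMap L (LaurentSeries L) c ≠ 0 := by rw [Ne, map_eq_zero]; exact hc0
    have e1 : toL A s = toL A (algebraMap A (LaurentSeries A) ⟨c⁻¹, hci⟩ * y) := by
      rw [map_mul, coeffMap_algebraMap', ← e]
      show _ = algebraMap L (LaurentSeries L) c⁻¹ * _
      rw [map_inv₀]; field_simp
    have e2 := congrArg (toK A) (toL_injective A e1)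
    rw [map_mul, coeffMap_algebraMap'] at e2
    have hu : IsLocalRing.residue A ⟨c⁻¹, hci⟩ ≠ 0 := by
      intro h; rw [h, map_zero, zero_mul] at e2; exact hs e2
    obtain ⟨v, hv⟩ := isUnit_iff_exists_inv.mp ((IsLocalRing.residue_ne_zero_iff_isUnit _).mp hu)
    apply hc
    have h4 : c⁻¹ * (v : L) = 1 := congrArg Subtype.val hv
    have h3 : (v : L) = c := by
      field_simp at h4
      exact h4
    rw [← h3]; exact Subtype.property _
  · intro hc
    have := isGaussInt_toL (F := F) (algebraMap A (LaurentSeries A) ⟨c, hc⟩)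
    rwa [coeffMap_algebraMap'] at this

/-- `W ∩ L = A`. -/
theorem gaussRing_comap :
    (gaussRing h0 h1 hspan hjF hbF).comap (algebraMap L ↥F) = A := by
  ext c
  rw [ValuationSubring.mem_comap, mem_gaussRing_iff]
  exact isGaussInt_algebraMap_iff c

theorem exists_red {x : LaurentSeries L} (hx : IsGaussInt A F x) :
    ∃ z : LaurentSeries (IsLocalRing.ResidueField A), ∀ y s : LaurentSeries A,
      toK A s ≠ 0 → x * toL A s = toL A y → z * toK A s = toK A y := by
  obtain ⟨y₀, s₀, -, hs₀, e₀⟩ := hx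
  refine ⟨toK A y₀ / toK A s₀, fun y s hs e => ?_⟩
  have e1 : toL A (y₀ * s) = toL A (y * s₀) := by
    rw [map_mul, map_mul, ← e₀, ← e]; ring
  have e2 := congrArg (toK A) (toL_injective A e1)
  rw [map_mul, map_mul] at e2
  rw [div_mul_eq_mul_div, e2, mul_div_assoc, div_self hs₀, mul_one]

/-- reduction of a Gauss-integral element, as a function. -/
def gaussRedFun (x : LaurentSeries L) (hx : IsGaussInt A F x) :
    LaurentSeries (IsLocalRing.ResidueField A) :=
  (exists_red hx).choose

theorem gaussRedFun_eq {x : LaurentSeries L} (hx : IsGaussInt A F x) {y s : LaurentSeries A}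
    (hs : toK A s ≠ 0) (e : x * toL A s = toL A y) :
    gaussRedFun x hx = toK A y / toK A s := by
  rw [eq_div_iff hs]
  exact (exists_red hx).choose_spec y s hs e

/-- underlying function of the reduction map. -/
def gaussRedAux (x : ↥(gaussRing h0 h1 hspan hjF hbF)) :
    LaurentSeries (IsLocalRing.ResidueField A) :=
  gaussRedFun ((x : ↥F) : LaurentSeries L) ((mem_gaussRing_iff h0 h1 hspan hjF hbF x.1).mp x.2)

theorem gaussRedAux_eq (x : ↥(gaussRing h0 h1 hspan hjF hbF)) {y s : LaurentSeries A}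
    (hs : toK A s ≠ 0) (e : ((x : ↥F) : LaurentSeries L) * toL A s = toL A y) :
    gaussRedAux h0 h1 hspan hjF hbF x = toK A y / toK A s :=
  gaussRedFun_eq _ hs e

theorem exists_rep (x : ↥(gaussRing h0 h1 hspan hjF hbF)) :
    ∃ y s : LaurentSeries A, toL A s ∈ F ∧ toK A s ≠ 0 ∧
      ((x : ↥F) : LaurentSeries L) * toL A s = toL A y :=
  (mem_gaussRing_iff h0 h1 hspan hjF hbF x.1).mp x.2

/-- **the reduction map** `W →+* k((q))`. -/
def gaussRed : ↥(gaussRing h0 h1 hspan hjF hbF) →+* LaurentSeries (IsLocalRing.ResidueField A) where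
  toFun := gaussRedAux h0 h1 hspan hjF hbF
  map_one' := by
    rw [gaussRedAux_eq (y := 1) (s := 1) _ _ _ _ _ _ (by rw [map_one]; exact one_ne_zero)
      (by simp)]
    simp
  map_zero' := by
    rw [gaussRedAux_eq (y := 0) (s := 1) _ _ _ _ _ _ (by rw [map_one]; exact one_ne_zero)
      (by simp)]
    simp
  map_mul' x x' := by
    obtain ⟨y, s, hsF, hs, e⟩ := exists_rep h0 h1 hspan hjF hbF x
    obtain ⟨y', s', hsF', hs', e'⟩ := exists_rep h0 h1 hspan hjF hbF x'
    rw [gaussRedAux_eq _ _ _ _ _ x hs e, gaussRedAux_eq _ _ _ _ _ x' hs' e',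
      gaussRedAux_eq (y := y * y') (s := s * s') _ _ _ _ _ _
        (by rw [map_mul]; exact mul_ne_zero hs hs')
        (by
          rw [map_mul, map_mul, ← e, ← e']
          show ((x : ↥F) : LaurentSeries L) * ((x' : ↥F) : LaurentSeries L) * _ = _
          ring)]
    rw [map_mul, map_mul]; field_simp
  map_add' x x' := by
    obtain ⟨y, s, hsF, hs, e⟩ := exists_rep h0 h1 hspan hjF hbF x
    obtain ⟨y', s', hsF', hs', e'⟩ := exists_rep h0 h1 hspan hjF hbF x'
    rw [gaussRedAux_eq _ _ _ _ _ x hs e, gaussRedAux_eq _ _ _ _ _ x' hs' e',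
      gaussRedAux_eq (y := y * s' + y' * s) (s := s * s') _ _ _ _ _ _
        (by rw [map_mul]; exact mul_ne_zero hs hs')
        (by
          rw [map_add, map_mul, map_mul, map_mul, ← e, ← e']
          show (((x : ↥F) : LaurentSeries L) + ((x' : ↥F) : LaurentSeries L)) * _ = _
          ring)]
    rw [map_add, map_mul, map_mul, map_mul]; field_simp

theorem gaussRed_eq (x : ↥(gaussRing h0 h1 hspan hjF hbF)) {y s : LaurentSeries A}
    (hs : toK A s ≠ 0) (e : ((x : ↥F) : LaurentSeries L) * toL A s = toL A y) :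
    gaussRed h0 h1 hspan hjF hbF x = toK A y / toK A s :=
  gaussRedAux_eq h0 h1 hspan hjF hbF x hs e

/-- on integral series the reduction map is coefficientwise reduction. -/
theorem gaussRed_toL (y : LaurentSeries A) (hy : toL A y ∈ F) :
    gaussRed h0 h1 hspan hjF hbF ⟨⟨toL A y, hy⟩, isGaussInt_toL y⟩ = toK A y := by
  rw [gaussRed_eq (y := y) (s := 1) _ _ _ _ _ _ (by rw [map_one]; exact one_ne_zero) (by simp)]
  simp

theorem gaussRed_ne_zero_iff (x : ↥(gaussRing h0 h1 hspan hjF hbF)) :
    gaussRed h0 h1 hspan hjF hbF x ≠ 0 ↔ IsUnit x := by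
  constructor
  · intro hne
    obtain ⟨y, s, hsF, hs, e⟩ := exists_rep h0 h1 hspan hjF hbF x
    rw [gaussRed_eq h0 h1 hspan hjF hbF x hs e] at hne
    have hy : toK A y ≠ 0 := fun h => hne (by rw [h, zero_div])
    have hx0 : ((x : ↥F) : LaurentSeries L) ≠ 0 := by
      intro h
      rw [h, zero_mul] at e
      have hy0 : y = 0 := toL_injective A (e.symm.trans (map_zero _).symm)
      exact hy (by rw [hy0, map_zero])
    have hyF : toL A y ∈ F := by rw [← e]; exact mul_mem (x : ↥F).2 hsF
    have hinv : IsGaussInt A F (((x : ↥F)⁻¹ : ↥F) : LaurentSeries L) := by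
      refine ⟨s, y, hyF, hy, ?_⟩
      rw [← e]
      show ((x : ↥F) : LaurentSeries L)⁻¹ * _ = _
      field_simp
    refine isUnit_iff_exists_inv.mpr ⟨⟨(x : ↥F)⁻¹, hinv⟩, ?_⟩
    apply Subtype.ext
    show (x : ↥F) * (x : ↥F)⁻¹ = 1
    have hx0' : (x : ↥F) ≠ 0 := fun h => hx0 (by rw [h]; rfl)
    exact mul_inv_cancel₀ hx0'
  · intro hu
    exact (hu.map (gaussRed h0 h1 hspan hjF hbF)).ne_zero

/-- the kernel of the reduction map is the maximal ideal of `W`. -/
theorem ker_gaussRed :
    RingHom.ker (gaussRed h0 h1 hspan hjF hbF) =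
      IsLocalRing.maximalIdeal ↥(gaussRing h0 h1 hspan hjF hbF) := by
  ext x
  rw [RingHom.mem_ker, IsLocalRing.mem_maximalIdeal, mem_nonunits_iff,
    ← gaussRed_ne_zero_iff h0 h1 hspan hjF hbF x, not_not]

section Residue

variable (Fk : IntermediateField (IsLocalRing.ResidueField A)
      (LaurentSeries (IsLocalRing.ResidueField A)))
  (hjk : toK A j ∈ Fk) (hbk : ∀ i, toK A (b i) ∈ Fk)

include hjk hbk in
/-- the reduction map takes values in `Fk`. -/
theorem gaussRed_mem (x : ↥(gaussRing h0 h1 hspan hjF hbF)) :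
    gaussRed h0 h1 hspan hjF hbF x ∈ Fk := by
  obtain ⟨y, s, hsF, hs, e⟩ := exists_rep h0 h1 hspan hjF hbF x
  have hyF : toL A y ∈ F := by rw [← e]; exact mul_mem (x : ↥F).2 hsF
  rw [gaussRed_eq h0 h1 hspan hjF hbF x hs e]
  exact div_mem (toK_mem h0 h1 hspan Fk hjk hbk y hyF) (toK_mem h0 h1 hspan Fk hjk hbk s hsF)

/-- the reduction map is onto `Fk` when `Fk` is generated by reductions of integral elements
of `F`. -/
theorem exists_gaussRed_eq (G : Set (LaurentSeries A)) (hG : ∀ g ∈ G, toL A g ∈ F)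
    (hFk : Fk ≤ IntermediateField.adjoin (IsLocalRing.ResidueField A) (toK A '' G))
    {z : LaurentSeries (IsLocalRing.ResidueField A)} (hz : z ∈ Fk) :
    ∃ x : ↥(gaussRing h0 h1 hspan hjF hbF), gaussRed h0 h1 hspan hjF hbF x = z := by
  have hz' := hFk hz
  clear hz
  induction hz' using IntermediateField.adjoin_induction with
  | mem z hz =>
    obtain ⟨g, hg, rfl⟩ := hz
    exact ⟨⟨⟨toL A g, hG g hg⟩, isGaussInt_toL g⟩, gaussRed_toL h0 h1 hspan hjF hbF g (hG g hg)⟩
  | algebraMap c =>
    obtain ⟨a, rfl⟩ := IsLocalRing.residue_surjective c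
    have hmem : toL A (algebraMap A (LaurentSeries A) a) ∈ F := by
      rw [coeffMap_algebraMap']; exact F.algebraMap_mem _
    refine ⟨⟨⟨toL A (algebraMap A (LaurentSeries A) a), hmem⟩, isGaussInt_toL _⟩, ?_⟩
    rw [gaussRed_toL h0 h1 hspan hjF hbF _ hmem, coeffMap_algebraMap']
  | add z z' _ _ hz hz' =>
    obtain ⟨x, rfl⟩ := hz
    obtain ⟨x', rfl⟩ := hz'
    exact ⟨x + x', map_add _ _ _⟩
  | mul z z' _ _ hz hz' =>
    obtain ⟨x, rfl⟩ := hz
    obtain ⟨x', rfl⟩ := hz'
    exact ⟨x * x', map_mul _ _ _⟩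
  | inv z _ hz =>
    obtain ⟨x, rfl⟩ := hz
    by_cases h : gaussRed h0 h1 hspan hjF hbF x = 0
    · exact ⟨0, by rw [h, inv_zero, map_zero]⟩
    · obtain ⟨x', hx'⟩ := isUnit_iff_exists_inv.mp
        ((gaussRed_ne_zero_iff h0 h1 hspan hjF hbF x).mp h)
      refine ⟨x', ?_⟩
      have := congrArg (gaussRed h0 h1 hspan hjF hbF) hx'
      rw [map_mul, map_one] at this
      exact eq_inv_of_mul_eq_one_right this

end Residue

end RingFacts

end Ring

/-! ### (GM0) in polynomial form -/

theorem smul_eq_algebraMap_mul {R : Type*} [CommRing R] (c : R) (x : LaurentSeries R) :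
    c • x = algebraMap R (LaurentSeries R) c * x := by
  rw [algebraMap_eq_single, ← HahnSeries.C_apply, HahnSeries.C_mul_eq_smul]

section PolyDisjoint

variable {K₀ K : Type*} [Field K₀] [Field K] [Algebra K₀ K]

/-- **(GM0), polynomial form**: independence over `K₀[J]` is preserved by the coefficient
extension `K₀((q)) → K((q))`. -/
theorem indep_poly_of_field_ext (J : LaurentSeries K₀) {n : ℕ} (b : Fin n → LaurentSeries K₀)
    (h : ∀ c : Fin n → K₀[X], ∑ i, aeval J (c i) * b i = 0 → c = 0) :
    ∀ c : Fin n → K[X],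
      ∑ i, aeval (coeffMap (algebraMap K₀ K) J) (c i) * coeffMap (algebraMap K₀ K) (b i) = 0 →
        c = 0 := by
  classical
  intro c hc
  -- a uniform degree bound
  obtain ⟨M, hM⟩ : ∃ M : ℕ, ∀ i, (c i).natDegree < M :=
    ⟨(Finset.univ.sup fun i => (c i).natDegree) + 1, fun i =>
      Nat.lt_succ_of_le (Finset.le_sup (f := fun i => (c i).natDegree) (Finset.mem_univ i))⟩
  -- the finite family `J^m * b i`
  set v : Fin n × Fin M → LaurentSeries K₀ := fun p => J ^ (p.2 : ℕ) * b p.1 with hv
  have hvli : LinearIndependent K₀ v := by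
    rw [Fintype.linearIndependent_iff]
    intro g hg
    set c₀ : Fin n → K₀[X] := fun i => ∑ m : Fin M, monomial (m : ℕ) (g (i, m)) with hc₀
    have hsum : ∑ i, aeval J (c₀ i) * b i = 0 := by
      rw [← hg, Fintype.sum_prod_type]
      refine Finset.sum_congr rfl fun i _ => ?_
      rw [hc₀, map_sum, Finset.sum_mul]
      refine Finset.sum_congr rfl fun m _ => ?_
      rw [aeval_monomial, hv, smul_eq_algebraMap_mul, mul_assoc]
    have h0 := h c₀ hsum
    intro p
    have h1 := congrArg (fun q : K₀[X] => q.coeff (p.2 : ℕ)) (congrFun h0 p.1)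
    simp only [hc₀, Polynomial.finsetSum_coeff, Polynomial.coeff_monomial, Pi.zero_apply,
      Polynomial.coeff_zero] at h1
    rw [Finset.sum_eq_single p.2 (fun m _ hm => if_neg (fun h => hm (Fin.ext h)))
      (fun h => absurd (Finset.mem_univ _) h), if_pos rfl] at h1
    exact h1
  have hwli := linearIndependent_coeffMap (K := K) v hvli
  rw [Fintype.linearIndependent_iff] at hwli
  have hsum' : ∑ p : Fin n × Fin M, (c p.1).coeff (p.2 : ℕ) • coeffMap (algebraMap K₀ K) (v p) = 0 := by
    rw [← hc, Fintype.sum_prod_type]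
    refine Finset.sum_congr rfl fun i _ => ?_
    rw [aeval_eq_sum_range' (hM i), Finset.sum_mul, Finset.sum_range]
    refine Finset.sum_congr rfl fun m _ => ?_
    rw [hv, map_mul, map_pow, smul_eq_algebraMap_mul, Algebra.smul_def, mul_assoc]
  have h2 := hwli _ hsum'
  funext i
  ext m
  rw [Pi.zero_apply, Polynomial.coeff_zero]
  by_cases hm : m < M
  · exact h2 (i, ⟨m, hm⟩)
  · exact Polynomial.coeff_eq_zero_of_natDegree_lt (lt_of_lt_of_le (hM i) (not_lt.mp hm))

end PolyDisjoint

/-! ### spanning: from generators to the whole field -/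

section SpanAbs

variable (L : Type*) {E : Type*} [Field L] [Field E] [Algebra L E] (J : E) {n : ℕ} (B : Fin n → E)

/-- polynomial-fraction form of "`x` lies in the `L(J)`-span of the `B i`". -/
def InSpan (x : E) : Prop :=
  ∃ (S : L[X]) (P : Fin n → L[X]), S ≠ 0 ∧ x * aeval J S = ∑ i, aeval J (P i) * B i

variable {L J B}

theorem aeval_mem_adjoin_simple (Q : L[X]) : aeval J Q ∈ IntermediateField.adjoin L {J} := by
  have h1 : J ∈ IntermediateField.adjoin L {J} := IntermediateField.mem_adjoin_simple_self L J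
  have := IntermediateField.aeval_coe (R := L) (IntermediateField.adjoin L {J}) ⟨J, h1⟩ Q
  rw [show ((⟨J, h1⟩ : IntermediateField.adjoin L {J}) : E) = J from rfl] at this
  rw [this]; exact Subtype.property _

theorem mem_span_of_inSpan (hJ : ∀ S : L[X], aeval J S = 0 → S = 0) {x : E}
    (hx : InSpan L J B x) :
    x ∈ Submodule.span ↥(IntermediateField.adjoin L {J}) (Set.range B) := by
  obtain ⟨S, P, hS, e⟩ := hx
  have hSJ : aeval J S ≠ 0 := fun h => hS (hJ S h)
  have hx : x = ∑ i, ((⟨aeval J (P i), aeval_mem_adjoin_simple _⟩ : IntermediateField.adjoin L {J}) *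
      (⟨aeval J S, aeval_mem_adjoin_simple _⟩ : IntermediateField.adjoin L {J})⁻¹) • B i := by
    have : ∀ i, ((⟨aeval J (P i), aeval_mem_adjoin_simple _⟩ : IntermediateField.adjoin L {J}) *
      (⟨aeval J S, aeval_mem_adjoin_simple _⟩ : IntermediateField.adjoin L {J})⁻¹) • B i =
        (aeval J S)⁻¹ * (aeval J (P i) * B i) := fun i => by
      rw [IntermediateField.smul_def]
      show aeval J (P i) * (aeval J S)⁻¹ * B i = _
      ring
    rw [Finset.sum_congr rfl fun i _ => this i, ← Finset.mul_sum, ← e]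
    field_simp
  rw [hx]
  exact Submodule.sum_mem _ fun i _ => Submodule.smul_mem _ _ (Submodule.subset_span ⟨i, rfl⟩)

theorem inSpan_of_mem_span {x : E}
    (hx : x ∈ Submodule.span ↥(IntermediateField.adjoin L {J}) (Set.range B)) :
    InSpan L J B x := by
  classical
  obtain ⟨κ, rfl⟩ := (Submodule.mem_span_range_iff_exists_fun _).mp hx
  have hκ : ∀ i, ∃ r s : L[X], aeval J s ≠ 0 ∧ ((κ i : IntermediateField.adjoin L {J}) : E) =
      aeval J r / aeval J s := by
    intro i
    obtain ⟨r, s, hrs⟩ := (IntermediateField.mem_adjoin_simple_iff L _).mp (κ i).2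
    by_cases hs : aeval J s = 0
    · refine ⟨0, 1, by rw [map_one]; exact one_ne_zero, ?_⟩
      rw [hrs, hs, div_zero, map_zero, zero_div]
    · exact ⟨r, s, hs, hrs⟩
  choose r s hs hrs using hκ
  refine ⟨∏ i, s i, fun i => r i * ∏ i' ∈ Finset.univ.erase i, s i', ?_, ?_⟩
  · refine Finset.prod_ne_zero_iff.mpr fun i _ h => hs i ?_
    rw [h, map_zero]
  · rw [Finset.sum_mul]
    refine Finset.sum_congr rfl fun i _ => ?_
    rw [IntermediateField.smul_def, hrs i, smul_eq_mul, map_mul, map_prod, map_prod,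
      ← Finset.mul_prod_erase Finset.univ (fun i' => aeval J (s i')) (Finset.mem_univ i)]
    have := hs i
    field_simp

/-- the `L(J)`-span of the `B i` is the whole field generated by `T` over `L`, provided it
contains `1`, the products `B i * B i'` and `T`. -/
theorem inSpan_of_mem_adjoin (hJ : ∀ S : L[X], aeval J S = 0 → S = 0) (T : Set E)
    (h1 : InSpan L J B 1) (hmul : ∀ i i', InSpan L J B (B i * B i'))
    (hT : ∀ t ∈ T, InSpan L J B t) :
    ∀ x ∈ IntermediateField.adjoin L T, InSpan L J B x := by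
  set K := IntermediateField.adjoin L {J} with hK
  set V : Submodule ↥K E := Submodule.span ↥K (Set.range B) with hV
  have hVmul : ∀ x y, x ∈ V → y ∈ V → x * y ∈ V := by
    intro x y hx hy
    induction hx using Submodule.span_induction with
    | mem x hx =>
      obtain ⟨i, rfl⟩ := hx
      induction hy using Submodule.span_induction with
      | mem y hy =>
        obtain ⟨i', rfl⟩ := hy
        exact mem_span_of_inSpan hJ (hmul i i')
      | zero => rw [mul_zero]; exact zero_mem _
      | add y y' _ _ hy hy' => rw [mul_add]; exact add_mem hy hy'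
      | smul κ y _ hy => rw [mul_smul_comm]; exact Submodule.smul_mem _ _ hy
    | zero => rw [zero_mul]; exact zero_mem _
    | add x x' _ _ hx hx' => rw [add_mul]; exact add_mem hx hx'
    | smul κ x _ hx => rw [smul_mul_assoc]; exact Submodule.smul_mem _ _ hx
  have h1V : (1 : E) ∈ V := mem_span_of_inSpan hJ h1
  set SA : Subalgebra ↥K E := V.toSubalgebra h1V hVmul with hSA
  have hfg : SA.toSubmodule.FG := Submodule.fg_span (Set.finite_range B)
  have hinv : ∀ x, x ∈ V → x⁻¹ ∈ V := by
    intro x hx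
    have halg : IsAlgebraic ↥K ((⟨x, hx⟩ : SA) : E) :=
      (IsIntegral.of_mem_of_fg SA hfg x hx).isAlgebraic
    exact Subalgebra.inv_mem_of_algebraic (A := SA) (x := ⟨x, hx⟩) halg
  intro x hx
  apply inSpan_of_mem_span
  induction hx using IntermediateField.adjoin_induction with
  | mem t ht => exact mem_span_of_inSpan hJ (hT t ht)
  | algebraMap c =>
    have := SA.algebraMap_mem (algebraMap L ↥K c)
    exact this
  | add x y _ _ hx hy => exact add_mem hx hy
  | inv x _ hx => exact hinv x hx
  | mul x y _ _ hx hy => exact hVmul x y hx hy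

end SpanAbs

end Fermat.Agent.S18.helper1446
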