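import Fermat.Agent.S18.helper1446_GaussAbs
import Fermat.Agent.S18.helper8991_GaussInst
import Fermat.Agent.S28.helper1595_CoreInput
import Fermat.Agent.S28.helper1457_TowerNoPhi
import Fermat.Agent.S28.helper559_TowerFromPrime
import Fermat.Agent.S28.helper508_FormalPrime
import Fermat.Prelude.Def_ModularCurve_ReductionModL

/-!
# S18-GAUSS-MOD (helper1446): the Gauss valuation of the modular function field, from S28

Setting: `L` a field of characteristic zero (`[Algebra ℚ L]`, `L : Type`), `A` a valuation
subring of `L` with residue field `k`, `N ≥ 1` such that the primes dividing `N` are invertible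
in `k` (e.g. `A` over a prime `ℓ ∤ N`), `F = laurentBaseChange L (modularFunctionFieldFull N)`,
`Fk = modularFunctionFieldFullC k N`.

Using the S28 tower theorem (`[k(j(q^d) : d ∣ N) : k(j)] = ψ(N)` over ANY field in which `N` is
invertible, `[F₀ : ℚ(j)] ≤ ψ(N)`), we get:

* `exists_monomial_basis` : `ψ(N)` monomials in the `j(q^d)` (integer `q`-series) whose
  reductions are linearly independent over `k[j̄]`;
* `exists_gauss_basis`    : the same family is independent mod the maximal ideal of `A` and spans
  `F` over `L(j)` (`SpanProp`);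
* `red_mem_full`          : **(RED)** if `y ∈ A((q))` has `ι y ∈ F` then `ȳ ∈ Fk`
  (the side condition `hyk` of `IsPlaceReductionAlong` is automatic);
* `gaussFRed_mem`, `range_gaussFRed` : the residue field of `helper8991.gaussF A (residue A) N`
  is exactly `Fk`;
* `gaussRedFk` : the reduction map `gaussF →+* Fk`, surjective, kernel the maximal ideal.
-/

set_option autoImplicit false

noncomputable section

namespace Fermat.Agent.S18.helper1446

open IntermediateField ModularCurve Polynomial Fermat.Agent.S28 Fermat.Agent.S28.helper1595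

section Basis

variable (k : Type) [Field k] (N : ℕ)

/-- coefficient map `ℤ((q)) → k((q))`. -/
abbrev toFk : LaurentSeries ℤ →+* LaurentSeries k := coeffMap (Int.castRingHom k)

theorem toFk_image_genZ :
    (toFk k) '' (genZ N) = divisorExpansionsC k N := by
  ext x
  constructor
  · rintro ⟨b, ⟨d, hd, hdN, rfl⟩, rfl⟩
    refine ⟨d, hd, hdN, ?_⟩
    show coeffMap (Int.castRingHom k) (qExpand ℤ d (jqModC ℤ)) = _
    rw [coeffMap_qExpand, coeffMap_jqModC]
  · rintro ⟨d, hd, hdN, rfl⟩
    refine ⟨qExpand ℤ d (jqModC ℤ), ⟨d, hd, hdN, rfl⟩, ?_⟩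
    show coeffMap (Int.castRingHom k) (qExpand ℤ d (jqModC ℤ)) = _
    rw [coeffMap_qExpand, coeffMap_jqModC]

theorem toFk_image_closure :
    (toFk k) '' (Submonoid.closure (genZ N) : Set (LaurentSeries ℤ)) =
      (Submonoid.closure (divisorExpansionsC k N) : Set (LaurentSeries k)) := by
  rw [← toFk_image_genZ k N]
  have := MonoidHom.map_mclosure ((toFk k : LaurentSeries ℤ →+* LaurentSeries k) :
    LaurentSeries ℤ →* LaurentSeries k) (genZ N)
  have h2 := congrArg (fun S : Submonoid (LaurentSeries k) =>
    (S : Set (LaurentSeries k))) this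
  simpa using h2

theorem toFk_mem_full_of_mem_closure {b : LaurentSeries ℤ}
    (hb : b ∈ Submonoid.closure (genZ N)) : toFk k b ∈ modularFunctionFieldFullC k N := by
  have h1 : toFk k b ∈ (Submonoid.closure (divisorExpansionsC k N) : Set (LaurentSeries k)) := by
    rw [← toFk_image_closure]; exact ⟨b, hb, rfl⟩
  have h2 : Submonoid.closure (divisorExpansionsC k N) ≤
      (modularFunctionFieldFullC k N).toSubfield.toSubmonoid := by
    rw [Submonoid.closure_le]
    exact fun x hx => subset_adjoin k _ hx
  exact h2 h1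

/-- **(GM1) The monomial basis.** For every field `k` in which the primes dividing `N` are
invertible there are `ψ(N)` monomials in the `j(q^d)`, `d ∣ N` (integer `q`-series) whose images
in `k((q))` are linearly independent over `k[j]`. -/
theorem exists_monomial_basis [NeZero N] (hNk : ∀ p : ℕ, p.Prime → p ∣ N → (p : k) ≠ 0) :
    ∃ b : Fin (dedekindPsi N) → LaurentSeries ℤ,
      (∀ i, b i ∈ Submonoid.closure (genZ N)) ∧
      ∀ c : Fin (dedekindPsi N) → k[X],
        ∑ i, aeval (jqModC k) (c i) * toFk k (b i) = 0 → c = 0 := by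
  classical
  set J := jqModC k with hJ
  have hrank := helper1457.relrank_full_eq_dedekindPsi_of_hub k N (NeZero.pos N)
    (helper559.hub_of_formalPrime k N (NeZero.pos N)
      (fun p _ _ => helper508.stmt_FormalPrime p)) hNk
  have h : k⟮J⟯ ≤ adjoin k (divisorExpansionsC k N) := adjoin_jqModC_le k N
  have hrank' : Module.rank ↥(k⟮J⟯) ↥(extendScalars h) = (dedekindPsi N : Cardinal) := by
    rw [← relrank_eq_rank_of_le h]; exact hrank
  have hfree : Module.Free ↥(k⟮J⟯) ↥(extendScalars h) := Module.Free.of_divisionRing _ _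
  have hfin : Module.Finite ↥(k⟮J⟯) ↥(extendScalars h) := Module.finite_of_rank_eq_nat hrank'
  have halg' : Algebra.IsAlgebraic ↥(k⟮J⟯) ↥(extendScalars h) := Algebra.IsAlgebraic.of_finite _ _
  have halg : ∀ x ∈ divisorExpansionsC k N, IsAlgebraic ↥(k⟮J⟯) x := by
    intro x hx
    have hx' : x ∈ extendScalars h := subset_adjoin k _ hx
    have := Algebra.IsAlgebraic.isAlgebraic (R := ↥(k⟮J⟯)) (⟨x, hx'⟩ : ↥(extendScalars h))
    exact IntermediateField.isAlgebraic_iff.mp this
  have hspan : Module.rank ↥(k⟮J⟯) ↥(Submodule.span ↥(k⟮J⟯)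
      (Submonoid.closure (divisorExpansionsC k N) : Set (LaurentSeries k))) =
      (dedekindPsi N : Cardinal) := by
    rw [← hrank', extendScalars_adjoin h, ← Algebra.adjoin_eq_span,
      Subalgebra.rank_toSubmodule, ← adjoin_toSubalgebra_of_isAlgebraic halg,
      IntermediateField.rank_eq_rank_subalgebra]
  obtain ⟨B, hBT, hBspan, hBli⟩ := exists_linearIndependent ↥(k⟮J⟯)
    (Submonoid.closure (divisorExpansionsC k N) : Set (LaurentSeries k))
  have hcard : Cardinal.mk B = (dedekindPsi N : Cardinal) := by
    rw [← hspan, ← hBspan]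
    exact (rank_span_set hBli).symm
  obtain ⟨e⟩ := Cardinal.mk_eq_nat_iff.mp hcard
  have hlift : ∀ i : Fin (dedekindPsi N), ∃ b : LaurentSeries ℤ,
      b ∈ Submonoid.closure (genZ N) ∧ toFk k b = ((e.symm i : B) : LaurentSeries k) := by
    intro i
    have := hBT (e.symm i).2
    rw [← toFk_image_closure k N] at this
    obtain ⟨b, hb, hb'⟩ := this
    exact ⟨b, hb, hb'⟩
  choose bZ hbZ_mem hbZ_red using hlift
  refine ⟨bZ, hbZ_mem, ?_⟩
  intro c hc
  have hli : LinearIndependent ↥(k⟮J⟯)
      (fun i : Fin (dedekindPsi N) => ((e.symm i : B) : LaurentSeries k)) :=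
    hBli.comp _ e.symm.injective
  rw [Fintype.linearIndependent_iff] at hli
  have hsum : ∑ i, (toAdj J (c i)) • ((e.symm i : B) : LaurentSeries k) = 0 := by
    rw [← hc]
    refine Finset.sum_congr rfl (fun i _ => ?_)
    rw [Algebra.smul_def, hbZ_red i]
    congr 1
    have e1 := algebraMap_comp_toAdj (k := k) J
    rw [← RingHom.comp_apply, e1]
    rfl
  funext i
  have h0 := hli _ hsum i
  have h1 : aeval J (c i) = 0 := by
    have e1 := algebraMap_comp_toAdj (k := k) J
    have : algebraMap ↥(k⟮J⟯) (LaurentSeries k) (toAdj J (c i)) = aeval J (c i) := by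
      rw [← RingHom.comp_apply, e1]; rfl
    rw [← this, h0, map_zero]
  exact helper3292.aeval_jqModC_injective k (by rw [h1, Pi.zero_apply, map_zero])

end Basis

/-! ### characteristic zero: spanning -/

section CharZero

variable (L : Type*) [Field L] [Algebra ℚ L]

theorem coeffEmb_jq : coeffEmb L jq = jqModC L := by
  rw [← jqModC_rat]
  exact coeffMap_jqModC _

theorem coeffEmb_toQ (b : LaurentSeries ℤ) :
    coeffEmb L (Spec.toQ b) = coeffMap (Int.castRingHom L) b := by
  show coeffMap (algebraMap ℚ L) (coeffMap (Int.castRingHom ℚ) b) = _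
  rw [coeffMap_coeffMap]
  exact coeffMap_congr (RingHom.ext_int _ _) b

/-- integer polynomials evaluated at `jq`, pushed to `L((q))`. -/
theorem coeffEmb_aeval_int (p : ℤ[X]) :
    coeffEmb L (aeval jq p) = aeval (jqModC L) (p.map (Int.castRingHom L)) := by
  rw [aeval_def, aeval_def, eval₂_map, hom_eval₂, coeffEmb_jq]
  congr 1
  exact RingHom.ext_int _ _

variable {L}

/-- every element of the rational modular function field, pushed to `L((q))`, is an
`L(j)`-combination of the images of `n` integer series that are independent over `L[j]`,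
as soon as `[F₀ : ℚ(j)] ≤ n`. -/
theorem inSpan_coeffEmb (N : ℕ) {n : ℕ} (b : Fin n → LaurentSeries ℤ)
    (hb : ∀ i, Spec.toQ (b i) ∈ modularFunctionFieldFull N)
    (hdeg : Spec.DegLE (modularFunctionFieldFull N) n)
    (hind : ∀ P : Fin n → L[X],
      ∑ i, aeval (jqModC L) (P i) * coeffMap (Int.castRingHom L) (b i) = 0 → P = 0)
    {m : LaurentSeries ℚ} (hm : m ∈ modularFunctionFieldFull N) :
    InSpan L (jqModC L) (fun i => coeffMap (Int.castRingHom L) (b i)) (coeffEmb L m) := by
  classical
  have hchar : CharZero L := algebraRat.charZero L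
  have hinj : Function.Injective (Int.castRingHom L) := Int.cast_injective
  obtain ⟨c, hc0, hc⟩ := hdeg (Fin.cons m (fun i => Spec.toQ (b i))) (by
    intro i
    refine Fin.cases ?_ (fun i => ?_) i
    · simpa using hm
    · simpa using hb i)
  rw [Fin.sum_univ_succ] at hc
  simp only [Fin.cons_zero, Fin.cons_succ] at hc
  have hc' := congrArg (coeffEmb L) hc
  rw [map_add, map_mul, map_sum, map_zero, coeffEmb_aeval_int] at hc'
  have hterm : ∀ i : Fin n, coeffEmb L (aeval jq (c i.succ) * Spec.toQ (b i)) =
      aeval (jqModC L) ((c i.succ).map (Int.castRingHom L)) *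
        coeffMap (Int.castRingHom L) (b i) := by
    intro i
    rw [map_mul, coeffEmb_aeval_int, coeffEmb_toQ]
  rw [Finset.sum_congr rfl (fun i _ => hterm i)] at hc'
  refine ⟨(c 0).map (Int.castRingHom L), fun i => -(c i.succ).map (Int.castRingHom L), ?_, ?_⟩
  · intro h0
    rw [h0, map_zero, zero_mul, zero_add] at hc'
    have hP := hind _ hc'
    apply hc0
    funext i
    refine Fin.cases ?_ (fun i => ?_) i
    · exact Polynomial.map_injective _ hinj (by simpa using h0)
    · have h1 := congrFun hP i
      exact Polynomial.map_injective _ hinj (by simpa using h1)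
  · rw [mul_comm]
    simp only [map_neg, neg_mul, Finset.sum_neg_distrib]
    exact eq_neg_of_add_eq_zero_left hc'

end CharZero

/-! ### the modular instance -/

section Modular

variable {L : Type} [Field L] (A : ValuationSubring L)

/-- integer series as series over `A`. -/
abbrev zA : LaurentSeries ℤ →+* LaurentSeries ↥A := coeffMap (Int.castRingHom ↥A)

theorem toL_jq : toL A (jqModC ↥A) = jqModC L := coeffMap_jqModC _

theorem toK_jq : toK A (jqModC ↥A) = jqModC (IsLocalRing.ResidueField A) := coeffMap_jqModC _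

theorem toL_zA (b : LaurentSeries ℤ) : toL A (zA A b) = coeffMap (Int.castRingHom L) b := by
  show coeffMap A.subtype (coeffMap (Int.castRingHom ↥A) b) = _
  rw [coeffMap_coeffMap]
  exact coeffMap_congr (RingHom.ext_int _ _) b

theorem toK_zA (b : LaurentSeries ℤ) :
    toK A (zA A b) = coeffMap (Int.castRingHom (IsLocalRing.ResidueField A)) b := by
  show coeffMap (IsLocalRing.residue A) (coeffMap (Int.castRingHom ↥A) b) = _
  rw [coeffMap_coeffMap]
  exact coeffMap_congr (RingHom.ext_int _ _) b

/-- (H0) `j̄` is transcendental over the residue field. -/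
theorem transcRed_jq : TranscRed A (jqModC ↥A) := by
  intro c hc
  rw [toK_jq] at hc
  exact helper3292.aeval_jqModC_injective _ (by rw [hc, map_zero])

/-- the primes different from the residue characteristic are invertible in the residue field. -/
theorem natCast_residue_ne_zero {ℓ : ℕ} (hℓ : ℓ.Prime) (hA : A.LiesOverPrime ℓ) {p : ℕ}
    (hp : p.Prime) (hpl : p ≠ ℓ) : ((p : ℕ) : IsLocalRing.ResidueField A) ≠ 0 := by
  intro h0
  obtain ⟨hmem, hmax⟩ := A.mem_nonunits_iff_exists_mem_maximalIdeal.mp hA
  have hℓ0 : ((ℓ : ℕ) : IsLocalRing.ResidueField A) = 0 := by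
    have h1 : IsLocalRing.residue A ⟨(ℓ : L), hmem⟩ = 0 :=
      (IsLocalRing.residue_eq_zero_iff _).mpr hmax
    have h2 : (⟨(ℓ : L), hmem⟩ : ↥A) = ((ℓ : ℕ) : ↥A) := Subtype.ext (by simp)
    rw [h2, map_natCast] at h1
    exact h1
  have hcop : IsCoprime (p : ℤ) (ℓ : ℤ) :=
    Nat.isCoprime_iff_coprime.mpr ((Nat.coprime_primes hp hℓ).mpr hpl)
  obtain ⟨a, b, hab⟩ := hcop
  have h3 := congrArg (Int.cast : ℤ → IsLocalRing.ResidueField A) hab
  push_cast at h3
  rw [h0, hℓ0, mul_zero, mul_zero, add_zero] at h3
  exact zero_ne_one h3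

theorem natCast_residue_ne_zero_of_not_dvd {ℓ : ℕ} (hℓ : ℓ.Prime) (hA : A.LiesOverPrime ℓ)
    {N : ℕ} (hℓN : ¬ ℓ ∣ N) :
    ∀ p : ℕ, p.Prime → p ∣ N → ((p : ℕ) : IsLocalRing.ResidueField A) ≠ 0 :=
  fun _ hp hpN => natCast_residue_ne_zero A hℓ hA hp (fun h => hℓN (h ▸ hpN))

variable [Algebra ℚ L] (N : ℕ) [NeZero N]

/-- **(GM1)+(GM2) the Gauss basis.** `ψ(N)` monomials in the `j(q^d)`, `d ∣ N`, integral over
`ℤ[j]`, whose reductions are independent over `k[j̄]` and which span `F` over `L(j)`. -/
theorem exists_gauss_basis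
    (hN : ∀ p : ℕ, p.Prime → p ∣ N → ((p : ℕ) : IsLocalRing.ResidueField A) ≠ 0) :
    ∃ b : Fin (dedekindPsi N) → LaurentSeries ℤ,
      (∀ i, b i ∈ Submonoid.closure (genZ N)) ∧
      (∀ i, Spec.IsIntegralOverZj (b i)) ∧
      IndepRed A (jqModC ↥A) (fun i => zA A (b i)) ∧
      SpanProp A (jqModC ↥A) (fun i => zA A (b i))
        (laurentBaseChange L (modularFunctionFieldFull N)) := by
  obtain ⟨b, hb, hind⟩ := exists_monomial_basis (IsLocalRing.ResidueField A) N hN
  have h0 : TranscRed A (jqModC ↥A) := transcRed_jq A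
  have h1 : IndepRed A (jqModC ↥A) (fun i => zA A (b i)) := by
    intro c hc
    apply hind c
    rw [← hc]
    refine Finset.sum_congr rfl (fun i _ => ?_)
    rw [toK_jq, toK_zA]
  have hFP : ∀ (p : ℕ) [Fact p.Prime], p ∣ N → helper328.Stmt_FormalPrime p :=
    fun p _ _ => helper508.stmt_FormalPrime p
  refine ⟨b, hb, fun i => isIntegral_of_mem_closure N (fun p _ hp hpN => ?_) (hb i), h1, ?_⟩
  · have hpF : Fact p.Prime := ⟨hp⟩
    exact helper28.primeRel_int p (hFP p hpN)
  -- spanning
  have hindL : ∀ P : Fin (dedekindPsi N) → L[X],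
      ∑ i, aeval (jqModC L) (P i) * coeffMap (Int.castRingHom L) (b i) = 0 → P = 0 := by
    intro P hP
    apply indep_L h1 P
    rw [← hP]
    refine Finset.sum_congr rfl (fun i _ => ?_)
    rw [toL_jq, toL_zA]
  have hJ : ∀ S : L[X], aeval (jqModC L) S = 0 → S = 0 := by
    intro S hS
    apply transc_L h0 S
    rw [toL_jq]
    exact hS
  have hgen : ∀ m : LaurentSeries ℚ, m ∈ modularFunctionFieldFull N →
      InSpan L (jqModC L) (fun i => coeffMap (Int.castRingHom L) (b i)) (coeffEmb L m) :=
    fun m hm => inSpan_coeffEmb N b (fun i => toQ_mem_full_of_mem_closure N (hb i))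
      (helper559.degLE_of_formalPrime N hFP) hindL hm
  have hall := inSpan_of_mem_adjoin hJ
    (⇑(coeffEmb L) '' ((modularFunctionFieldFull N : IntermediateField ℚ (LaurentSeries ℚ)) :
      Set (LaurentSeries ℚ)))
    (by simpa using hgen 1 (one_mem _))
    (fun i i' => by
      have := hgen _ (mul_mem (toQ_mem_full_of_mem_closure N (hb i))
        (toQ_mem_full_of_mem_closure N (hb i')))
      rwa [map_mul, coeffEmb_toQ, coeffEmb_toQ] at this)
    (by rintro _ ⟨m, hm, rfl⟩; exact hgen m hm)
  intro x hx
  obtain ⟨S, P, hS, hxe⟩ := hall x hx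
  refine ⟨S, P, hS, ?_⟩
  rw [toL_jq, hxe]
  refine Finset.sum_congr rfl (fun i _ => ?_)
  rw [toL_zA]

variable (hN : ∀ p : ℕ, p.Prime → p ∣ N → ((p : ℕ) : IsLocalRing.ResidueField A) ≠ 0)

include hN in
/-- **(RED)** The coefficientwise reduction of an `A`-integral series lying in the modular
function field `F` over `L` lies in the modular function field `Fk` over the residue field:
the side condition `hyk` of `ModularCurve.IsPlaceReductionAlong` is automatic. -/
theorem red_mem_full (y : LaurentSeries ↥A)
    (hy : coeffMap A.subtype y ∈ laurentBaseChange L (modularFunctionFieldFull N)) :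
    coeffMap (IsLocalRing.residue A) y ∈
      modularFunctionFieldFullC (IsLocalRing.ResidueField A) N := by
  obtain ⟨b, hb, -, h1, hspan⟩ := exists_gauss_basis A N hN
  refine toK_mem (transcRed_jq A) h1 hspan _ ?_ (fun i => ?_) y hy
  · rw [toK_jq]; exact jqModC_mem_full _ N
  · rw [toK_zA]; exact toFk_mem_full_of_mem_closure _ N (hb i)

include hN in
/-- The reduction map of `helper8991.gaussF` takes values in `Fk`. -/
theorem gaussFRed_mem (f : ↥(helper8991.gaussF A (IsLocalRing.residue A) N)) :
    helper8991.gaussFRed A (IsLocalRing.residue A) N f ∈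
      modularFunctionFieldFullC (IsLocalRing.ResidueField A) N := by
  by_cases hf0 : f = 0
  · rw [hf0, map_zero]; exact zero_mem _
  have hf0' : ((f : ↥(laurentBaseChange L (modularFunctionFieldFull N))) : LaurentSeries L) ≠ 0 :=
    fun h => hf0 (Subtype.ext (Subtype.ext h))
  obtain ⟨c, X, Y, hc, hX, hY, hXF, hYF, h⟩ :=
    helper8991.exists_normal_form A (IsLocalRing.residue A) N
      (f : ↥(laurentBaseChange L (modularFunctionFieldFull N))).2 hf0'
  obtain ⟨X', Y', hY', h'⟩ :=
    (helper8991.mem_gaussF_iff A (IsLocalRing.residue A) N f).mp f.2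
  have hcA : c ∈ A := by
    by_contra hcA
    have hcinv : c⁻¹ ∈ A := (A.mem_or_inv_mem c).resolve_left hcA
    have hnu : (⟨c⁻¹, hcinv⟩ : ↥A) ∈ IsLocalRing.maximalIdeal ↥A := by
      rw [IsLocalRing.mem_maximalIdeal, mem_nonunits_iff]
      intro hu
      apply hcA
      have h1 : A.valuation c⁻¹ = 1 := (A.valuation_eq_one_iff ⟨c⁻¹, hcinv⟩).mp hu
      rw [map_inv₀, inv_eq_one] at h1
      exact (A.valuation_le_one_iff c).mp h1.le
    have hres : IsLocalRing.residue ↥A ⟨c⁻¹, hcinv⟩ = 0 :=
      (IsLocalRing.residue_eq_zero_iff _).mpr hnu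
    have e1 : helper8991.inc A (X * Y') =
        helper8991.inc A (HahnSeries.C (⟨c⁻¹, hcinv⟩ : ↥A) * X' * Y) := by
      rw [map_mul, map_mul, map_mul, helper8991.inc_C]
      have e2 : HahnSeries.C c⁻¹ * (HahnSeries.C c * helper8991.inc A X) = helper8991.inc A X :=
        helper8991.C_inv_mul_C_mul hc _
      calc helper8991.inc A X * helper8991.inc A Y'
          = HahnSeries.C c⁻¹ * (HahnSeries.C c * helper8991.inc A X) * helper8991.inc A Y' := by
            rw [e2]
        _ = HahnSeries.C c⁻¹ *
            ((f : ↥(laurentBaseChange L (modularFunctionFieldFull N))) : LaurentSeries L) *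
              helper8991.inc A Y' * helper8991.inc A Y := by
            rw [← h]; ring
        _ = HahnSeries.C c⁻¹ * helper8991.inc A X' * helper8991.inc A Y := by
            rw [mul_assoc (HahnSeries.C c⁻¹), h']
    have e3 := congrArg (helper8991.red A (IsLocalRing.residue A)) (helper8991.inc_injective A e1)
    rw [map_mul, map_mul, map_mul, helper8991.red_C, hres, map_zero, zero_mul, zero_mul] at e3
    exact mul_ne_zero hX hY' e3
  have e4 : ((f : ↥(laurentBaseChange L (modularFunctionFieldFull N))) : LaurentSeries L) *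
      helper8991.inc A Y = helper8991.inc A (HahnSeries.C (⟨c, hcA⟩ : ↥A) * X) := by
    rw [h, map_mul, helper8991.inc_C]
  rw [helper8991.gaussFRed_eq A (IsLocalRing.residue A) N f hY e4]
  refine div_mem (red_mem_full A N hN _ ?_) (red_mem_full A N hN _ hYF)
  have e5 : coeffMap A.subtype (HahnSeries.C (⟨c, hcA⟩ : ↥A) * X) =
      algebraMap L (LaurentSeries L) c * helper8991.inc A X := by
    rw [← helper8991.C_eq_algebraMap]
    show helper8991.inc A _ = _
    rw [map_mul, helper8991.inc_C]
  rw [e5]
  exact mul_mem (IntermediateField.algebraMap_mem _ c) hXF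

include hN in
/-- **The residue field of the Gauss valuation is the modular function field over `k`.** -/
theorem range_gaussFRed :
    Set.range (helper8991.gaussFRed A (IsLocalRing.residue A) N) =
      (modularFunctionFieldFullC (IsLocalRing.ResidueField A) N :
        Set (LaurentSeries (IsLocalRing.ResidueField A))) := by
  ext x
  constructor
  · rintro ⟨f, rfl⟩
    exact gaussFRed_mem A N hN f
  · intro hx
    exact helper8991.exists_gaussFRed_eq A (IsLocalRing.residue A) N
      IsLocalRing.residue_surjective hx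

/-- The reduction map of the Gauss valuation ring of `F`, with values in `Fk`. -/
def gaussRedFk : ↥(helper8991.gaussF A (IsLocalRing.residue A) N) →+*
    ↥(modularFunctionFieldFullC (IsLocalRing.ResidueField A) N) :=
  (helper8991.gaussFRed A (IsLocalRing.residue A) N).codRestrict
    (modularFunctionFieldFullC (IsLocalRing.ResidueField A) N) (gaussFRed_mem A N hN)

@[simp]
theorem coe_gaussRedFk (f : ↥(helper8991.gaussF A (IsLocalRing.residue A) N)) :
    ((gaussRedFk A N hN f : ↥(modularFunctionFieldFullC (IsLocalRing.ResidueField A) N)) :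
      LaurentSeries (IsLocalRing.ResidueField A)) =
      helper8991.gaussFRed A (IsLocalRing.residue A) N f := rfl

theorem gaussRedFk_surjective : Function.Surjective (gaussRedFk A N hN) := by
  intro x
  obtain ⟨f, hf⟩ := helper8991.exists_gaussFRed_eq A (IsLocalRing.residue A) N
    IsLocalRing.residue_surjective x.2
  exact ⟨f, Subtype.ext hf⟩

theorem ker_gaussRedFk :
    RingHom.ker (gaussRedFk A N hN) =
      IsLocalRing.maximalIdeal ↥(helper8991.gaussF A (IsLocalRing.residue A) N) := by
  ext f
  rw [RingHom.mem_ker, ← helper8991.gaussFRed_eq_zero_iff]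
  constructor
  · intro h
    have := congrArg Subtype.val h
    simpa using this
  · intro h
    exact Subtype.ext h

/-- integral series of `F` reduce coefficientwise. -/
theorem gaussRedFk_inc {y : LaurentSeries ↥A}
    (hy : helper8991.inc A y ∈ laurentBaseChange L (modularFunctionFieldFull N)) :
    gaussRedFk A N hN ⟨⟨helper8991.inc A y, hy⟩,
        helper8991.inc_mem_gaussF A (IsLocalRing.residue A) N hy⟩ =
      ⟨coeffMap (IsLocalRing.residue A) y, red_mem_full A N hN y hy⟩ :=
  Subtype.ext (helper8991.gaussFRed_inc A (IsLocalRing.residue A) N hy)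

end Modular

end Fermat.Agent.S18.helper1446
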