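/-
S18 (helper1801): change of base line for orthonormal families.

Setting of `helper1733_ValuedKit`: `F` a field with a valuation `v`, and two subfields
`K₀ ⊆ K` of `F` (given as fields with `Algebra _ F`, the inclusion being the hypothesis
`hle`).  If `F` has a finite `K₀`-orthonormal spanning family `b`, then a subfamily of `b` is a
`K`-orthonormal spanning family.  No residue fields, no degree count, no completeness.

Application: `K₀ = L(j)`, `K = L(t)` for a Hauptmodul `t` with `j ∈ L(t)`: the orthonormal
`L(j)`-basis of the Gauss-valued modular function field yields an orthonormal `L(t)`-basis, so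
the cartesian theorem `helper1733.exists_isOrtho_basis` is available on the `t`-line as soon as
`t` is residually transcendental.
-/
import Mathlib
import Fermat.Agent.S18.helper1733_ValuedKit
import Fermat.Agent.S18.helper8020_OrthoKit

set_option autoImplicit false

namespace Fermat.Agent.S18.helper1801

open Fermat.Agent.S18.helper1733

section Tower

variable {F : Type*} [Field F] {Γ₀ : Type*} [LinearOrderedCommGroupWithZero Γ₀]
  {v : Valuation F Γ₀}

/-- **Distance lemma.** If `F` has a finite orthonormal `K₀`-basis `b` and `W` is a proper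
`K₀`-subspace, then some basis vector is at distance `≥ 1` from `W`. -/
theorem exists_forall_one_le_sub {K₀ : Type*} [Field K₀] [Algebra K₀ F] {ι : Type*} [Finite ι]
    {b : ι → F} (hb : IsOrtho v K₀ b) (hspan : Submodule.span K₀ (Set.range b) = ⊤)
    (W : Submodule K₀ F) (hW : W ≠ ⊤) : ∃ i, ∀ w ∈ W, 1 ≤ v (b i - w) := by
  classical
  cases nonempty_fintype ι
  by_contra hcon
  simp only [not_exists, not_forall, not_le] at hcon
  choose w hwW hw using hcon
  have hli : LinearIndependent K₀ w := by
    rw [linearIndependent_iff']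
    intro s a hsum
    by_contra hne
    simp only [not_forall] at hne
    obtain ⟨i₀, hi₀, hai₀⟩ := hne
    obtain ⟨k, hk, hmax⟩ := s.exists_max_image (fun i => v (algebraMap K₀ F (a i))) ⟨i₀, hi₀⟩
    have hvk : v (algebraMap K₀ F (a k)) ≠ 0 := by
      intro h0
      have h1 := hmax i₀ hi₀
      rw [h0] at h1
      have h2 : v (algebraMap K₀ F (a i₀)) = 0 := le_antisymm h1 zero_le
      rw [Valuation.zero_iff] at h2
      exact hai₀ ((map_eq_zero (algebraMap K₀ F)).mp h2)
    have h1 := hb.coeff_le s a hk
    have h2 : ∑ i ∈ s, a i • b i = ∑ i ∈ s, a i • (b i - w i) := by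
      have h : ∑ i ∈ s, a i • (b i - w i) = ∑ i ∈ s, a i • b i - ∑ i ∈ s, a i • w i := by
        rw [← Finset.sum_sub_distrib]
        exact Finset.sum_congr rfl fun i _ => smul_sub _ _ _
      rw [h, hsum, sub_zero]
    have h3 : v (∑ i ∈ s, a i • (b i - w i)) < v (algebraMap K₀ F (a k)) := by
      refine Valuation.map_sum_lt v hvk fun i hi => ?_
      rw [Algebra.smul_def, map_mul]
      calc v (algebraMap K₀ F (a i)) * v (b i - w i)
          ≤ v (algebraMap K₀ F (a k)) * v (b i - w i) := mul_le_mul' (hmax i hi) le_rfl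
        _ < v (algebraMap K₀ F (a k)) * 1 :=
            mul_lt_mul_of_pos_left (hw i) (zero_lt_iff.mpr hvk)
        _ = v (algebraMap K₀ F (a k)) := mul_one _
    rw [h2] at h1
    exact absurd h1 (not_le.mpr h3)
  let B : Module.Basis ι K₀ F := Module.Basis.mk hb.linearIndependent (by rw [hspan])
  have : FiniteDimensional K₀ F := Module.Finite.of_basis B
  have hcard : Fintype.card ι = Module.finrank K₀ F := (Module.finrank_eq_card_basis B).symm
  have htop : Submodule.span K₀ (Set.range w) = ⊤ :=
    hli.span_eq_top_of_card_eq_finrank' hcard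
  apply hW
  rw [eq_top_iff, ← htop, Submodule.span_le]
  rintro _ ⟨i, rfl⟩
  exact hwW i

/-- Orthonormality of the subfamily of `b` indexed by a finset, in "extended coefficient" form. -/
def OrthoOn (v : Valuation F Γ₀) (K : Type*) [Field K] [Algebra K F] {ι : Type*} (b : ι → F)
    (S : Finset ι) : Prop :=
  ∀ (c : ι → K) (k : ι), k ∈ S → v (algebraMap K F (c k)) ≤ v (∑ i ∈ S, c i • b i)

theorem orthoOn_empty (K : Type*) [Field K] [Algebra K F] {ι : Type*} (b : ι → F) :
    OrthoOn v K b ∅ := fun _ _ hk => absurd hk (Finset.notMem_empty _)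

/-- **Extension step.** Adding a vector of value `≤ 1` at distance `≥ 1` from the span keeps the
family orthonormal. -/
theorem OrthoOn.insert {K : Type*} [Field K] [Algebra K F] {ι : Type*} [DecidableEq ι]
    {b : ι → F} {S : Finset ι} (hS : OrthoOn v K b S) {i₀ : ι} (hi₀ : i₀ ∉ S)
    (h1 : v (b i₀) ≤ 1)
    (hdist : ∀ w ∈ Submodule.span K (b '' (S : Set ι)), 1 ≤ v (b i₀ - w)) :
    OrthoOn v K b (insert i₀ S) := by
  intro c k hk
  rw [Finset.sum_insert hi₀]
  set y : F := ∑ i ∈ S, c i • b i with hy
  have hyW : y ∈ Submodule.span K (b '' (S : Set ι)) :=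
    Submodule.sum_mem _ fun i hi =>
      Submodule.smul_mem _ _ (Submodule.subset_span ⟨i, hi, rfl⟩)
  -- the coefficient of the new vector is bounded by the value of the combination
  have hA : v (algebraMap K F (c i₀)) ≤ v (c i₀ • b i₀ + y) := by
    by_cases ha : c i₀ = 0
    · rw [ha, map_zero, map_zero]; exact zero_le
    · have hw : -((c i₀)⁻¹ • y) ∈ Submodule.span K (b '' (S : Set ι)) :=
        Submodule.neg_mem _ (Submodule.smul_mem _ _ hyW)
      have hd := hdist _ hw
      have heq : c i₀ • b i₀ + y = c i₀ • (b i₀ - -((c i₀)⁻¹ • y)) := by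
        rw [sub_neg_eq_add, smul_add, smul_smul, mul_inv_cancel₀ ha, one_smul]
      rw [heq, Algebra.smul_def, map_mul]
      calc v (algebraMap K F (c i₀)) = v (algebraMap K F (c i₀)) * 1 := (mul_one _).symm
        _ ≤ v (algebraMap K F (c i₀)) * v (b i₀ - -((c i₀)⁻¹ • y)) := mul_le_mul' le_rfl hd
  -- hence so is the old part
  have hB : v y ≤ v (c i₀ • b i₀ + y) := by
    have heq : y = (c i₀ • b i₀ + y) - c i₀ • b i₀ := by ring
    have hsm : v (c i₀ • b i₀) = v (algebraMap K F (c i₀)) * v (b i₀) := by
      rw [Algebra.smul_def, map_mul]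
    have hle : v (c i₀ • b i₀) ≤ v (c i₀ • b i₀ + y) := by
      calc v (c i₀ • b i₀) = v (algebraMap K F (c i₀)) * v (b i₀) := hsm
        _ ≤ v (algebraMap K F (c i₀)) * 1 := mul_le_mul' le_rfl h1
        _ = v (algebraMap K F (c i₀)) := mul_one _
        _ ≤ v (c i₀ • b i₀ + y) := hA
    calc v y = v ((c i₀ • b i₀ + y) - c i₀ • b i₀) := by rw [← heq]
      _ ≤ max (v (c i₀ • b i₀ + y)) (v (c i₀ • b i₀)) := Valuation.map_sub _ _ _
      _ ≤ v (c i₀ • b i₀ + y) := max_le le_rfl hle
  rcases Finset.mem_insert.mp hk with rfl | hkS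
  · exact hA
  · exact (hS c k hkS).trans hB

/-- From the extended-coefficient form to `IsOrtho` of the subtype family. -/
theorem OrthoOn.isOrtho {K : Type*} [Field K] [Algebra K F] {ι : Type*} [DecidableEq ι]
    {b : ι → F} {S : Finset ι} (hS : OrthoOn v K b S) (h1 : ∀ i, v (b i) ≤ 1) :
    IsOrtho v K (fun i : S => b i) := by
  refine isOrtho_of_fintype (fun i => h1 i) fun c k => ?_
  have h := hS (fun i => if h : i ∈ S then c ⟨i, h⟩ else 0) k k.2
  rw [dif_pos k.2] at h
  refine h.trans (le_of_eq ?_)
  congr 1
  rw [← Finset.sum_coe_sort S]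
  refine Finset.sum_congr rfl fun i _ => ?_
  rw [dif_pos i.2]

/-- **Change of base field for orthonormal bases.** Let `K₀ ⊆ K` be subfields of the valued field
`F` (inclusion = `hle`). If `b` is a finite `K₀`-orthonormal family spanning `F` over `K₀`, then a
subfamily of `b` is `K`-orthonormal and spans `F` over `K`. -/
theorem exists_finset_isOrtho_of_le {K₀ : Type*} [Field K₀] [Algebra K₀ F]
    {K : Type*} [Field K] [Algebra K F]
    (hle : ∀ a : K₀, ∃ a' : K, algebraMap K F a' = algebraMap K₀ F a)
    {ι : Type*} [Finite ι] {b : ι → F} (hb : IsOrtho v K₀ b)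
    (hspan : Submodule.span K₀ (Set.range b) = ⊤) :
    ∃ S : Finset ι, IsOrtho v K (fun i : S => b i) ∧
      Submodule.span K (Set.range fun i : S => b i) = ⊤ := by
  classical
  cases nonempty_fintype ι
  -- a subset of maximal cardinality among the `K`-orthonormal ones
  obtain ⟨S, hSmem, hSmax⟩ :=
    (Finset.univ.filter fun S : Finset ι => OrthoOn v K b S).exists_max_image Finset.card
      ⟨∅, by simpa using orthoOn_empty (v := v) K b⟩
  have hS : OrthoOn v K b S := (Finset.mem_filter.mp hSmem).2
  have hrange : (Set.range fun i : S => b i) = b '' (S : Set ι) := by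
    ext y
    constructor
    · rintro ⟨i, rfl⟩; exact ⟨i, i.2, rfl⟩
    · rintro ⟨i, hi, rfl⟩; exact ⟨⟨i, hi⟩, rfl⟩
  refine ⟨S, hS.isOrtho hb.le_one, ?_⟩
  rw [hrange]
  by_contra htop
  -- the `K`-span, viewed as a `K₀`-subspace
  let W₀ : Submodule K₀ F :=
    { carrier := (Submodule.span K (b '' (S : Set ι)) : Set F)
      add_mem' := fun ha hb' => Submodule.add_mem _ ha hb'
      zero_mem' := Submodule.zero_mem _
      smul_mem' := fun a x hx => by
        obtain ⟨a', ha'⟩ := hle a
        have h : a • x = a' • x := by rw [Algebra.smul_def, Algebra.smul_def, ha']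
        rw [h]
        exact Submodule.smul_mem _ _ hx }
  have hW₀ : W₀ ≠ ⊤ := by
    intro h
    apply htop
    rw [eq_top_iff]
    intro x _
    have hx : x ∈ W₀ := by rw [h]; exact Submodule.mem_top
    exact hx
  obtain ⟨i₀, hi₀⟩ := exists_forall_one_le_sub hb hspan W₀ hW₀
  have hdist : ∀ w ∈ Submodule.span K (b '' (S : Set ι)), 1 ≤ v (b i₀ - w) :=
    fun w hw => hi₀ w hw
  have hnot : i₀ ∉ S := by
    intro hmem
    have h := hdist (b i₀) (Submodule.subset_span ⟨i₀, hmem, rfl⟩)
    rw [sub_self, map_zero] at h
    exact absurd h (not_le.mpr zero_lt_one)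
  have hins : OrthoOn v K b (insert i₀ S) := hS.insert hnot (hb.le_one i₀) hdist
  have hcard := hSmax (insert i₀ S) (Finset.mem_filter.mpr ⟨Finset.mem_univ _, hins⟩)
  rw [Finset.card_insert_of_notMem hnot] at hcard
  omega

/-- Intermediate-field form: from the `x`-line to the `t`-line when `x ∈ L(t)`. -/
theorem exists_finset_isOrtho_adjoin {L : Type*} [Field L] [Algebra L F] {x t : F}
    (hxt : x ∈ IntermediateField.adjoin L {t})
    {ι : Type*} [Finite ι] {b : ι → F} (hb : IsOrtho v (IntermediateField.adjoin L {x}) b)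
    (hspan : Submodule.span (IntermediateField.adjoin L {x}) (Set.range b) = ⊤) :
    ∃ S : Finset ι, IsOrtho v (IntermediateField.adjoin L {t}) (fun i : S => b i) ∧
      Submodule.span (IntermediateField.adjoin L {t}) (Set.range fun i : S => b i) = ⊤ := by
  have hle : IntermediateField.adjoin L {x} ≤ IntermediateField.adjoin L {t} :=
    (IntermediateField.adjoin_simple_le_iff).mpr hxt
  exact exists_finset_isOrtho_of_le (fun a => ⟨⟨a.1, hle a.2⟩, rfl⟩) hb hspan

/-- **Cartesian subspaces on the `t`-line.** If `F` has a finite orthonormal spanning family over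
`L(x)`, `x ∈ L(t)`, and `t` is residually transcendental over `L`, then every finite-dimensional
`L`-subspace of `F` has an orthonormal `L`-basis (w.r.t. the SAME valuation). -/
theorem exists_isOrtho_basis_of_adjoin_le {L : Type*} [Field L] [Algebra L F] {x t : F}
    (ht : ResTranscendental v L t) (hxt : x ∈ IntermediateField.adjoin L {t})
    {ι : Type*} [Finite ι] {b : ι → F} (hb : IsOrtho v (IntermediateField.adjoin L {x}) b)
    (hspan : Submodule.span (IntermediateField.adjoin L {x}) (Set.range b) = ⊤)
    (V : Submodule L F) [FiniteDimensional L V] :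
    ∃ e : Fin (Module.finrank L V) → F,
      (∀ i, e i ∈ V) ∧ IsOrtho v L e ∧ Submodule.span L (Set.range e) = V := by
  obtain ⟨S, hS, hSspan⟩ := exists_finset_isOrtho_adjoin hxt hb hspan
  exact exists_isOrtho_basis ht hS hSspan V

/-- The degree of `F` over the bigger field is the size of the subfamily. -/
theorem finrank_eq_card_of_isOrtho {K : Type*} [Field K] [Algebra K F] {ι : Type*} [Fintype ι]
    {c : ι → F} (hc : IsOrtho v K c) (hspan : Submodule.span K (Set.range c) = ⊤) :
    Module.finrank K F = Fintype.card ι :=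
  Module.finrank_eq_card_basis (Module.Basis.mk hc.linearIndependent (by rw [hspan]))

end Tower

/-! ### Re-shapings: `Fin`-indexed output and the polynomial form `helper8020.OrthoSys` -/

section Adapters

open Polynomial

variable {F : Type*} [Field F] {Γ₀ : Type*} [LinearOrderedCommGroupWithZero Γ₀]
  {v : Valuation F Γ₀}

/-- Orthonormality is invariant under reindexing along an equivalence. -/
theorem isOrtho_comp_equiv {M : Type*} [Field M] [Algebra M F] {ι κ : Type*} {u : ι → F}
    (h : IsOrtho v M u) (σ : κ ≃ ι) : IsOrtho v M (fun k => u (σ k)) := by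
  refine ⟨fun k => h.le_one _, fun s c k hk => ?_⟩
  have h1 := h.coeff_le (s.map σ.toEmbedding) (fun i => c (σ.symm i)) (k := σ k)
    (Finset.mem_map_of_mem _ hk)
  rw [Finset.sum_map] at h1
  simpa using h1

/-- **Tower lemma, `Fin`-indexed, with the selection map.** The `K1`-orthonormal basis is
`b ∘ g` for an injective `g : Fin (finrank K1 F) → ι`. -/
theorem exists_injective_isOrtho_tower {K0 : Type*} [Field K0] [Algebra K0 F]
    {K1 : Type*} [Field K1] [Algebra K1 F]
    (h01 : ∀ a : K0, ∃ a1 : K1, algebraMap K1 F a1 = algebraMap K0 F a)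
    {ι : Type*} [Finite ι] {b : ι → F} (hb : IsOrtho v K0 b)
    (hspan : Submodule.span K0 (Set.range b) = ⊤) :
    ∃ g : Fin (Module.finrank K1 F) → ι, Function.Injective g ∧
      IsOrtho v K1 (fun i => b (g i)) ∧
      Submodule.span K1 (Set.range fun i => b (g i)) = ⊤ := by
  classical
  obtain ⟨S, hS, hSspan⟩ := exists_finset_isOrtho_of_le h01 hb hspan
  have hcard : Module.finrank K1 F = Fintype.card S := finrank_eq_card_of_isOrtho hS hSspan
  let σ : Fin (Module.finrank K1 F) ≃ S := (Fintype.equivFinOfCardEq hcard.symm).symm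
  refine ⟨fun i => (σ i : ι), fun i j hij => σ.injective (Subtype.ext hij),
    isOrtho_comp_equiv hS σ, ?_⟩
  have hrange : (Set.range fun i => b (σ i : ι)) = Set.range fun i : S => b i := by
    ext y
    constructor
    · rintro ⟨i, rfl⟩; exact ⟨σ i, rfl⟩
    · rintro ⟨i, rfl⟩; exact ⟨σ.symm i, by simp⟩
  rw [hrange, hSspan]

/-- **Tower lemma (TW), `Fin`-indexed.** `K0 ⊆ K1` subfields of the valued field `F`
(inclusion = `h01`), `b` a finite `K0`-orthonormal family spanning `F` over `K0`: then `F` has a
`K1`-orthonormal `K1`-basis indexed by `Fin (finrank K1 F)`. -/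
theorem exists_isOrtho_tower (v : Valuation F Γ₀) {K0 : Type*} [Field K0] [Algebra K0 F]
    {K1 : Type*} [Field K1] [Algebra K1 F]
    (h01 : ∀ a : K0, ∃ a1 : K1, algebraMap K1 F a1 = algebraMap K0 F a)
    {ι : Type*} [Finite ι] {b : ι → F} (hb : IsOrtho v K0 b)
    (hspan : Submodule.span K0 (Set.range b) = ⊤) :
    ∃ e : Fin (Module.finrank K1 F) → F,
      IsOrtho v K1 e ∧ Submodule.span K1 (Set.range e) = ⊤ := by
  obtain ⟨g, -, hg, hgspan⟩ := exists_injective_isOrtho_tower (K1 := K1) h01 hb hspan
  exact ⟨fun i => b (g i), hg, hgspan⟩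

/-- **(OS)** From the `helper1733` shape back to the polynomial form of `helper8020`:
`t` residually transcendental and `e` orthonormal over `L(t)` give `OrthoSys L v t e`. -/
theorem orthoSys_of_isOrtho {L : Type*} [Field L] [Algebra L F] {t : F} {ι : Type*} [Fintype ι]
    {e : ι → F} (ht : ResTranscendental v L t)
    (he : IsOrtho v (IntermediateField.adjoin L {t}) e) : helper8020.OrthoSys L v t e := by
  refine ⟨ht.map_eq_one.le, he.le_one, fun c _ hlt j i => ?_⟩
  set gen : IntermediateField.adjoin L {t} := IntermediateField.AdjoinSimple.gen L t with hgen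
  have hgent : (gen : F) = t := IntermediateField.AdjoinSimple.coe_gen L t
  have hg : ∀ j, ((aeval gen (c j) : IntermediateField.adjoin L {t}) : F) = aeval t (c j) := by
    intro j
    have h := Polynomial.aeval_algHom_apply (IntermediateField.val (IntermediateField.adjoin L {t}))
      gen (c j)
    rw [IntermediateField.coe_val, hgent] at h
    exact h.symm
  have h1 := he.coeff_le Finset.univ (fun j => aeval gen (c j)) (Finset.mem_univ j)
  have h2 : ∑ j, (aeval gen (c j) : IntermediateField.adjoin L {t}) • e j
      = ∑ j, aeval t (c j) * e j := by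
    refine Finset.sum_congr rfl fun j _ => ?_
    rw [← hg j]
    rfl
  rw [h2] at h1
  have h3 : v (algebraMap (IntermediateField.adjoin L {t}) F (aeval gen (c j)))
      = v (aeval t (c j)) := by
    rw [← hg j]
    rfl
  calc v (algebraMap L F ((c j).coeff i)) ≤ v (aeval t (c j)) := ht.coeff_le (c j) i
    _ = v (algebraMap (IntermediateField.adjoin L {t}) F (aeval gen (c j))) := h3.symm
    _ ≤ v (∑ j, aeval t (c j) * e j) := h1
    _ < 1 := hlt

/-- **(OS) on the tower.** An `OrthoSys` on the `x`-line whose family spans `F` over `L(x)`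
gives an `OrthoSys` on the `t`-line (`x ∈ L(t)`, `t` residually transcendental), whose family is a
subfamily `b ∘ g` of the old one, indexed by `Fin (finrank L(t) F)`. -/
theorem exists_injective_orthoSys_tower {L : Type*} [Field L] [Algebra L F] {x t : F}
    {ι : Type*} [Fintype ι] {b : ι → F} (h : helper8020.OrthoSys L v x b)
    (hspan : Submodule.span (IntermediateField.adjoin L {x}) (Set.range b) = ⊤)
    (hxt : x ∈ IntermediateField.adjoin L {t}) (ht : ResTranscendental v L t) :
    ∃ g : Fin (Module.finrank (IntermediateField.adjoin L {t}) F) → ι, Function.Injective g ∧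
      helper8020.OrthoSys L v t (fun i => b (g i)) ∧
      Submodule.span (IntermediateField.adjoin L {t}) (Set.range fun i => b (g i)) = ⊤ := by
  have hle : IntermediateField.adjoin L {x} ≤ IntermediateField.adjoin L {t} :=
    (IntermediateField.adjoin_simple_le_iff).mpr hxt
  obtain ⟨g, hginj, hg, hgspan⟩ :=
    exists_injective_isOrtho_tower (K1 := IntermediateField.adjoin L {t})
      (fun a => ⟨⟨a.1, hle a.2⟩, rfl⟩) h.isOrtho_adjoin hspan
  exact ⟨g, hginj, orthoSys_of_isOrtho ht hg, hgspan⟩

/-- **(OS) on the tower**, existential form. -/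
theorem orthoSys_tower {L : Type*} [Field L] [Algebra L F] {x t : F}
    {ι : Type*} [Fintype ι] {b : ι → F} (h : helper8020.OrthoSys L v x b)
    (hspan : Submodule.span (IntermediateField.adjoin L {x}) (Set.range b) = ⊤)
    (hxt : x ∈ IntermediateField.adjoin L {t}) (ht : ResTranscendental v L t) :
    ∃ e : Fin (Module.finrank (IntermediateField.adjoin L {t}) F) → F,
      helper8020.OrthoSys L v t e := by
  obtain ⟨g, -, hg, -⟩ := exists_injective_orthoSys_tower h hspan hxt ht
  exact ⟨fun i => b (g i), hg⟩

/-- **(OS) on the tower**, with the degree equality on the `x`-line instead of the span. -/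
theorem orthoSys_tower_of_finrank {L : Type*} [Field L] [Algebra L F] {x t : F}
    {ι : Type*} [Fintype ι] [Nonempty ι] {b : ι → F} (h : helper8020.OrthoSys L v x b)
    (hrank : Module.finrank (IntermediateField.adjoin L {x}) F = Fintype.card ι)
    (hxt : x ∈ IntermediateField.adjoin L {t}) (ht : ResTranscendental v L t) :
    ∃ e : Fin (Module.finrank (IntermediateField.adjoin L {t}) F) → F,
      helper8020.OrthoSys L v t e :=
  orthoSys_tower h (h.span_adjoin_eq_top hrank) hxt ht

end Adapters

end Fermat.Agent.S18.helper1801
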