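import Fermat.Agent.S18.helper1446_GaussAbs
import Fermat.Agent.S18.helper4665_ResTransc
import Fermat.Agent.S18.helper1801_OrthoTower

/-!
# S18 (helper1446): the Gauss basis on a line `t` with `j ∈ L(t)` — both fibres

Setting (vocabulary of `helper508_GaussMod` / `helper1733_GaussOrtho`): `ℓ ∤ N`, `L ⊇ ℚ` a field,
`A` a valuation subring of `L` over `ℓ`, `k` its residue field,
`F = laurentBaseChange L (modularFunctionFieldFull N)`, `Fk = modularFunctionFieldFullC k N`.
`y : LaurentSeries A` is an `A`-integral series with `T := coeffMap A.subtype y ∈ F`, whose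
reduction `T̄ := coeffMap (residue A) y` is transcendental over `k`, and `j ∈ L(T)`
(e.g. `T = t_r` a Hauptmodul, `r ∣ N`).

Then a SUBFAMILY `b i = gaussBasis (g i)`, `i : Fin [F : L(T)]`, of the Gauss basis (integer
monomials in the `j(q^d)`, the same series on both fibres) is

* an `L(T)`-basis of `F` (`line_indep_L`, `line_span_L`),
* with reductions a `k(T̄)`-basis of `Fk` (`line_indep_k`, `line_span_k`),
* and every `A`-integral series `x` of `F` has the integral normal form
  `x * Q(y) = ∑ P_i(y) b_i` in `A((q))` with `Q ∈ A[X]` primitive (`line_normal_form`);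
  hence the matrix of multiplication by `x` in the basis `b` has entries `P_ij(T)/Q(T)` and
  reduces to the matrix of `x̄` in the basis `b̄` (`line_mul_matrix`).

No degree count on the special fibre is used: spanning over `k(T̄)` comes from the surjectivity
of the Gauss residue map and the normal form.
-/

set_option autoImplicit false

noncomputable section

namespace Fermat.Agent.S18.helper1446

open Polynomial ModularCurve IntermediateField

/-! ### abstract: integral normal form -/

section AbsNF

variable {L : Type*} [Field L] {A : ValuationSubring L} {j : LaurentSeries A} {n : ℕ}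
  {b : Fin n → LaurentSeries A} {F : IntermediateField L (LaurentSeries L)}

/-- **Integral normal form.** Every `A`-integral series `x` with `ι x ∈ F` satisfies
`x * s(j) = ∑ p_i(j) b_i` in `A((q))` with `s ∈ A[X]` primitive. -/
theorem exists_int_normal_form (h0 : TranscRed A j) (h1 : IndepRed A j b)
    (hspan : SpanProp A j b F) (x : LaurentSeries A) (hx : toL A x ∈ F) :
    ∃ (s : (↥A)[X]) (p : Fin n → (↥A)[X]), s.map (IsLocalRing.residue A) ≠ 0 ∧
      x * aeval j s = ∑ i, aeval j (p i) * b i := by
  by_cases hx0 : x = 0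
  · refine ⟨1, fun _ => 0, ?_, ?_⟩
    · rw [Polynomial.map_one]; exact one_ne_zero
    · simp [hx0]
  have hx0' : toL A x ≠ 0 := fun h => hx0 (toL_injective A (by rw [h, map_zero]))
  obtain ⟨a, s, p, ha, hs0, hp0, hdec⟩ := exists_decomp_of_mem h0 hspan hx hx0'
  have hy'ne := toK_sum_aeval_ne_zero h1 p hp0
  have hinv : a⁻¹ ∈ A := by
    rcases A.mem_or_inv_mem a with haA | haA
    · have e1 : toL A (algebraMap A (LaurentSeries A) ⟨a, haA⟩ * x * aeval j s) =
          toL A (∑ i, aeval j (p i) * b i) := by
        rw [map_mul, map_mul, coeffMap_algebraMap']; exact hdec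
      have e3 := congrArg (toK A) (toL_injective A e1)
      rw [map_mul, map_mul, coeffMap_algebraMap'] at e3
      have hres : IsLocalRing.residue A ⟨a, haA⟩ ≠ 0 := by
        intro h
        rw [h, map_zero, zero_mul, zero_mul] at e3
        exact hy'ne e3.symm
      have hu : IsUnit (⟨a, haA⟩ : ↥A) := by
        by_contra hnu
        exact hres ((IsLocalRing.residue_eq_zero_iff _).mpr
          ((IsLocalRing.mem_maximalIdeal _).mpr hnu))
      obtain ⟨u, hu'⟩ := hu
      have h1' : ((u⁻¹ : (↥A)ˣ) : ↥A) * ⟨a, haA⟩ = 1 := by rw [← hu']; exact Units.inv_mul u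
      have h2' : (((u⁻¹ : (↥A)ˣ) : ↥A) : L) * a = 1 := congrArg Subtype.val h1'
      rw [← eq_inv_of_mul_eq_one_left h2']
      exact Subtype.property _
    · exact haA
  have haL : algebraMap L (LaurentSeries L) a ≠ 0 := by rw [Ne, map_eq_zero]; exact ha
  have e1 : toL A (x * aeval j s) =
      toL A (algebraMap A (LaurentSeries A) ⟨a⁻¹, hinv⟩ * ∑ i, aeval j (p i) * b i) := by
    rw [map_mul, map_mul, coeffMap_algebraMap', ← hdec]
    show _ = algebraMap L (LaurentSeries L) a⁻¹ * _
    rw [map_inv₀]; field_simp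
  have e2 := toL_injective A e1
  refine ⟨s, fun i => C (⟨a⁻¹, hinv⟩ : ↥A) * p i, hs0, ?_⟩
  rw [e2, Finset.mul_sum]
  refine Finset.sum_congr rfl fun i _ => ?_
  rw [map_mul, aeval_C, mul_assoc]

/-- Reduction of the normal form: the reductions of the `b i` span the reductions of the
integral series of `F` over `k(j̄)`. -/
theorem exists_red_normal_form (h0 : TranscRed A j) (h1 : IndepRed A j b)
    (hspan : SpanProp A j b F) (x : LaurentSeries A) (hx : toL A x ∈ F) :
    ∃ (Q : (IsLocalRing.ResidueField A)[X]) (P : Fin n → (IsLocalRing.ResidueField A)[X]),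
      Q ≠ 0 ∧ toK A x * aeval (toK A j) Q = ∑ i, aeval (toK A j) (P i) * toK A (b i) := by
  obtain ⟨s, p, hs, h⟩ := exists_int_normal_form h0 h1 hspan x hx
  refine ⟨s.map (IsLocalRing.residue A), fun i => (p i).map (IsLocalRing.residue A), hs, ?_⟩
  have h2 := congrArg (toK A) h
  rw [map_mul, coeffMap_aeval, toK_sum_aeval] at h2
  exact h2

/-- Multiplication matrix: for an integral series `x` of `F` (with the `b i` in `F`) there are
a primitive `Q ∈ A[X]` and a matrix `M` over `A[X]` with `(x * b_i) * Q(j) = ∑ M_ij(j) b_j`. -/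
theorem exists_mul_matrix (h0 : TranscRed A j) (h1 : IndepRed A j b)
    (hspan : SpanProp A j b F) (hbF : ∀ i, toL A (b i) ∈ F) (x : LaurentSeries A)
    (hx : toL A x ∈ F) :
    ∃ (Q : (↥A)[X]) (M : Fin n → Fin n → (↥A)[X]), Q.map (IsLocalRing.residue A) ≠ 0 ∧
      ∀ i, x * b i * aeval j Q = ∑ k, aeval j (M i k) * b k := by
  classical
  have hnf : ∀ i, ∃ (s : (↥A)[X]) (p : Fin n → (↥A)[X]), s.map (IsLocalRing.residue A) ≠ 0 ∧
      x * b i * aeval j s = ∑ k, aeval j (p k) * b k := fun i =>
    exists_int_normal_form h0 h1 hspan (x * b i) (by rw [map_mul]; exact mul_mem hx (hbF i))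
  choose s p hs hrel using hnf
  refine ⟨∏ i, s i, fun i k => p i k * ∏ i' ∈ Finset.univ.erase i, s i', ?_, ?_⟩
  · rw [Polynomial.map_prod]
    exact Finset.prod_ne_zero_iff.mpr fun i _ => hs i
  · intro i
    have hprod : ∏ i', s i' = s i * ∏ i' ∈ Finset.univ.erase i, s i' :=
      (Finset.mul_prod_erase Finset.univ s (Finset.mem_univ i)).symm
    rw [hprod, map_mul, ← mul_assoc, hrel i, Finset.sum_mul]
    refine Finset.sum_congr rfl fun k _ => ?_
    rw [map_mul]
    ring

end AbsNF

theorem coe_aeval_intermediate {L E : Type*} [Field L] [Field E] [Algebra L E]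
    (F : IntermediateField L E) (t : ↥F) (p : L[X]) :
    ((aeval t p : ↥F) : E) = aeval (t : E) p :=
  (aeval_algebraMap_apply E t p).symm

/-! ### the Gauss basis on the line `t` -/

section Line

variable (N : ℕ) [NeZero N] (ℓ : ℕ) [Fact ℓ.Prime] (hℓN : ¬ ℓ ∣ N)
variable {L : Type*} [Field L] [Algebra ℚ L] (A : ValuationSubring L) (hA : (ℓ : L) ∈ A.nonunits)
variable (y : LaurentSeries A)
  (hy : coeffMap A.subtype y ∈ laurentBaseChange L (modularFunctionFieldFull N))

/-- The family of `A`-integral series `zTo A (gaussBasis (g i))`. -/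
abbrev lineFam {n : ℕ} (g : Fin n → Fin (dedekindPsi N)) : Fin n → LaurentSeries A :=
  fun i => helper508.zTo A (helper508.gaussBasis N ℓ hℓN (g i))

omit [Algebra ℚ L] in
theorem toL_lineFam {n : ℕ} (g : Fin n → Fin (dedekindPsi N)) (i : Fin n) :
    toL A (lineFam N ℓ hℓN A g i) = helper508.zTo L (helper508.gaussBasis N ℓ hℓN (g i)) :=
  helper508.coeffMap_zTo _ _

omit [Algebra ℚ L] in
theorem toK_lineFam {n : ℕ} (g : Fin n → Fin (dedekindPsi N)) (i : Fin n) :
    toK A (lineFam N ℓ hℓN A g i) =
      helper508.zTo (IsLocalRing.ResidueField A) (helper508.gaussBasis N ℓ hℓN (g i)) :=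
  helper508.coeffMap_zTo _ _

include hA in
/-- **The Gauss basis on the line `t`.** A subfamily of the Gauss basis, indexed by
`Fin [F : L(t)]`, satisfies the three hypotheses of the abstract Gauss layer
(`helper1446_GaussAbs`) with base point `y` instead of `j`. -/
theorem exists_line_basis
    (htr : Transcendental (IsLocalRing.ResidueField A) (coeffMap (IsLocalRing.residue A) y))
    (hj : helper1733.gaussJ L N ∈
      L⟮(⟨coeffMap A.subtype y, hy⟩ : ↥(laurentBaseChange L (modularFunctionFieldFull N)))⟯) :
    ∃ g : Fin (Module.finrank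
        L⟮(⟨coeffMap A.subtype y, hy⟩ : ↥(laurentBaseChange L (modularFunctionFieldFull N)))⟯
        ↥(laurentBaseChange L (modularFunctionFieldFull N))) → Fin (dedekindPsi N),
      Function.Injective g ∧ TranscRed A y ∧ IndepRed A y (lineFam N ℓ hℓN A g) ∧
        SpanProp A y (lineFam N ℓ hℓN A g) (laurentBaseChange L (modularFunctionFieldFull N)) := by
  classical
  have hRT := helper4665.resTranscendental_gaussValuationSubring N ℓ hℓN A hA y hy htr
  obtain ⟨g, hg, hOS, hspan⟩ := helper1801.exists_injective_orthoSys_tower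
    (helper1733.gauss_orthoSys N ℓ hℓN A hA) (helper1733.gauss_span_eq_top N ℓ hℓN A hA) hj hRT
  refine ⟨g, hg, fun c hc => transcendental_iff.mp htr c hc, ?_, ?_⟩
  · -- independence of the reductions
    intro c hc
    have hlift : ∀ i, ∃ C : (↥A)[X], C.map (IsLocalRing.residue A) = c i := fun i =>
      Polynomial.map_surjective _ IsLocalRing.residue_surjective (c i)
    choose C hC using hlift
    have hYk : toK A (∑ i, aeval y (C i) * lineFam N ℓ hℓN A g i) = 0 := by
      rw [toK_sum_aeval]
      simp only [hC]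
      exact hc
    have hcoe : ((∑ i, aeval (⟨coeffMap A.subtype y, hy⟩ :
          ↥(laurentBaseChange L (modularFunctionFieldFull N))) ((C i).map A.subtype) *
          helper1733.gaussBasisF N ℓ hℓN L (g i) :
          ↥(laurentBaseChange L (modularFunctionFieldFull N))) : LaurentSeries L) =
        coeffMap A.subtype (∑ i, aeval y (C i) * lineFam N ℓ hℓN A g i) := by
      have h2 := toL_sum_aeval (A := A) (j := y) (b := lineFam N ℓ hℓN A g) C
      rw [h2, AddSubmonoidClass.coe_finsetSum]
      refine Finset.sum_congr rfl fun i _ => ?_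
      rw [MulMemClass.coe_mul, coe_aeval_intermediate, toL_lineFam]
      rfl
    have hmem := helper1733.mem_gaussValuationSubring_of_eq N ℓ hℓN A hA _ _ hcoe
    have hres0 : helper508.gaussResidue N ℓ hℓN A hA ⟨_, hmem⟩ = 0 := by
      apply Subtype.ext
      rw [helper1733.gaussResidue_of_eq N ℓ hℓN A hA ⟨_, hmem⟩ _ hcoe]
      exact hYk
    have hnu := (helper508.gaussResidue_eq_zero_iff N ℓ hℓN A hA ⟨_, hmem⟩).mp hres0
    have hlt := ((helper508.gaussValuationSubring N ℓ hℓN A hA).valuation_lt_one_iff ⟨_, hmem⟩).mp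
      ((IsLocalRing.mem_maximalIdeal _).mpr hnu)
    have hle : ∀ j i, (helper508.gaussValuationSubring N ℓ hℓN A hA).valuation
        (algebraMap L ↥(laurentBaseChange L (modularFunctionFieldFull N))
          (((C j).map A.subtype).coeff i)) ≤ 1 := by
      intro j i
      rw [coeff_map]
      exact (ValuationSubring.valuation_le_one_iff _ _).mpr
        ((helper508.algebraMap_mem_gaussValuationSubring_iff N ℓ hℓN A hA _).mpr
          (Subtype.property _))
    have hall := hOS.indep (fun i => (C i).map A.subtype) hle hlt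
    -- a constant of `A` of valuation `< 1` has zero residue
    have hres : ∀ a : ↥A, (helper508.gaussValuationSubring N ℓ hℓN A hA).valuation
        (algebraMap L ↥(laurentBaseChange L (modularFunctionFieldFull N)) (a : L)) < 1 →
        IsLocalRing.residue A a = 0 := by
      intro a hlt'
      by_contra hne
      have hu : IsUnit a := by
        by_contra hnu'
        exact hne ((IsLocalRing.residue_eq_zero_iff _).mpr
          ((IsLocalRing.mem_maximalIdeal _).mpr hnu'))
      obtain ⟨u, rfl⟩ := hu
      have h1 : (helper508.gaussValuationSubring N ℓ hℓN A hA).valuation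
            (algebraMap L ↥(laurentBaseChange L (modularFunctionFieldFull N)) ((u : ↥A) : L)) *
          (helper508.gaussValuationSubring N ℓ hℓN A hA).valuation
            (algebraMap L ↥(laurentBaseChange L (modularFunctionFieldFull N))
              (((u⁻¹ : (↥A)ˣ) : ↥A) : L)) = 1 := by
        rw [← map_mul, ← map_mul]
        have : ((u : ↥A) : L) * (((u⁻¹ : (↥A)ˣ) : ↥A) : L) = 1 :=
          congrArg Subtype.val (Units.mul_inv u)
        rw [this, map_one, map_one]
      have h2 : (helper508.gaussValuationSubring N ℓ hℓN A hA).valuation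
          (algebraMap L ↥(laurentBaseChange L (modularFunctionFieldFull N))
            (((u⁻¹ : (↥A)ˣ) : ↥A) : L)) ≤ 1 :=
        (ValuationSubring.valuation_le_one_iff _ _).mpr
          ((helper508.algebraMap_mem_gaussValuationSubring_iff N ℓ hℓN A hA _).mpr
            (Subtype.property _))
      have h3 := mul_le_mul_right h2 ((helper508.gaussValuationSubring N ℓ hℓN A hA).valuation
        (algebraMap L ↥(laurentBaseChange L (modularFunctionFieldFull N)) ((u : ↥A) : L)))
      rw [h1, mul_one] at h3
      exact absurd hlt' (not_lt.mpr h3)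
    funext j
    ext i
    have h4 := hres ((C j).coeff i) (by
      have h5 := hall j i
      rwa [coeff_map] at h5)
    rw [← hC j, coeff_map, h4]
    rfl
  · -- spanning
    intro x hx
    have hmem : (⟨x, hx⟩ : ↥(laurentBaseChange L (modularFunctionFieldFull N))) ∈
        Submodule.span
          L⟮(⟨coeffMap A.subtype y, hy⟩ : ↥(laurentBaseChange L (modularFunctionFieldFull N)))⟯
          (Set.range fun i => helper1733.gaussBasisF N ℓ hℓN L (g i)) := by
      rw [hspan]; exact Submodule.mem_top
    obtain ⟨S, P, hS, hrel⟩ := inSpan_of_mem_span hmem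
    refine ⟨S, P, hS, ?_⟩
    have h2 := congrArg (Subtype.val) hrel
    rw [MulMemClass.coe_mul, coe_aeval_intermediate, AddSubmonoidClass.coe_finsetSum] at h2
    rw [h2]
    refine Finset.sum_congr rfl fun i _ => ?_
    rw [MulMemClass.coe_mul, coe_aeval_intermediate, toL_lineFam]
    rfl

include hℓN hA in
/-- **The Gauss basis on the line `t`, series-level statement.**  `T = coeffMap A.subtype y`,
`T̄ = coeffMap (residue A) y`, `zTo R = coeffMap (Int.castRingHom R)`.  There are integer
`q`-series `b i`, `i : Fin [F : L(T)]` (monomials in the `j(q^d)`, `d ∣ N`) such that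

* (IND0)/(SPAN0) the `zTo L (b i)` are an `L(T)`-basis of `F`;
* (INDk)/(SPANk) the `zTo k (b i)` are a `k(T̄)`-basis of `Fk`;
* (NF) every `A`-integral series `x` of `F` satisfies `Q(y) * x = ∑ P_i(y) * zTo A (b i)` in
  `A((q))` with `Q` primitive;
* (MAT) the multiplication matrix of such an `x` in the basis `b` is `M(y) / Q(y)` with
  `M` over `A[X]`, `Q` primitive (so it reduces to the multiplication matrix of `x̄`). -/
theorem exists_line_basis_series
    (htr : Transcendental (IsLocalRing.ResidueField A) (coeffMap (IsLocalRing.residue A) y))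
    (hj : helper1733.gaussJ L N ∈
      L⟮(⟨coeffMap A.subtype y, hy⟩ : ↥(laurentBaseChange L (modularFunctionFieldFull N)))⟯) :
    ∃ b : Fin (Module.finrank
        L⟮(⟨coeffMap A.subtype y, hy⟩ : ↥(laurentBaseChange L (modularFunctionFieldFull N)))⟯
        ↥(laurentBaseChange L (modularFunctionFieldFull N))) → LaurentSeries ℤ,
      (∀ i, b i ∈ Submonoid.closure (Fermat.Agent.S28.helper1595.genZ N)) ∧
      (∀ P : _ → L[X],
        ∑ i, aeval (coeffMap A.subtype y) (P i) * helper508.zTo L (b i) = 0 → P = 0) ∧
      (∀ f ∈ laurentBaseChange L (modularFunctionFieldFull N), ∃ (Q : L[X]) (P : _ → L[X]),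
        Q ≠ 0 ∧ aeval (coeffMap A.subtype y) Q * f =
          ∑ i, aeval (coeffMap A.subtype y) (P i) * helper508.zTo L (b i)) ∧
      (∀ P : _ → (IsLocalRing.ResidueField A)[X],
        ∑ i, aeval (coeffMap (IsLocalRing.residue A) y) (P i) *
          helper508.zTo (IsLocalRing.ResidueField A) (b i) = 0 → P = 0) ∧
      (∀ z ∈ modularFunctionFieldFullC (IsLocalRing.ResidueField A) N,
        ∃ (Q : (IsLocalRing.ResidueField A)[X]) (P : _ → (IsLocalRing.ResidueField A)[X]),
          Q ≠ 0 ∧ aeval (coeffMap (IsLocalRing.residue A) y) Q * z =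
            ∑ i, aeval (coeffMap (IsLocalRing.residue A) y) (P i) *
              helper508.zTo (IsLocalRing.ResidueField A) (b i)) ∧
      (∀ x : LaurentSeries A,
        coeffMap A.subtype x ∈ laurentBaseChange L (modularFunctionFieldFull N) →
        ∃ (Q : (↥A)[X]) (P : _ → (↥A)[X]), Q.map (IsLocalRing.residue A) ≠ 0 ∧
          aeval y Q * x = ∑ i, aeval y (P i) * helper508.zTo A (b i)) ∧
      (∀ x : LaurentSeries A,
        coeffMap A.subtype x ∈ laurentBaseChange L (modularFunctionFieldFull N) →
        ∃ (Q : (↥A)[X]) (M : _ → _ → (↥A)[X]), Q.map (IsLocalRing.residue A) ≠ 0 ∧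
          ∀ i, aeval y Q * (x * helper508.zTo A (b i)) =
            ∑ k, aeval y (M i k) * helper508.zTo A (b k)) := by
  obtain ⟨g, -, h0, h1, hspan⟩ := exists_line_basis N ℓ hℓN A hA y hy htr hj
  refine ⟨fun i => helper508.gaussBasis N ℓ hℓN (g i),
    fun i => helper508.gaussBasis_mem N ℓ hℓN (g i), ?_, ?_, ?_, ?_, ?_, ?_⟩
  · intro P hP
    apply indep_L h1 P
    rw [← hP]
    exact Finset.sum_congr rfl fun i _ => by rw [toL_lineFam]
  · intro f hf
    obtain ⟨S, P, hS, e⟩ := hspan f hf
    refine ⟨S, P, hS, ?_⟩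
    rw [mul_comm, e]
    exact Finset.sum_congr rfl fun i _ => by rw [toL_lineFam]
  · intro P hP
    apply h1 P
    rw [← hP]
    exact Finset.sum_congr rfl fun i _ => by rw [toK_lineFam]
  · intro z hz
    obtain ⟨x, hxF, rfl⟩ := helper508.exists_coeffMap_residue_eq N ℓ hℓN A hA z hz
    obtain ⟨Q, P, hQ, e⟩ := exists_red_normal_form h0 h1 hspan x hxF
    refine ⟨Q, P, hQ, ?_⟩
    rw [mul_comm, e]
    exact Finset.sum_congr rfl fun i _ => by rw [toK_lineFam]
  · intro x hx
    obtain ⟨s, p, hs, e⟩ := exists_int_normal_form h0 h1 hspan x hx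
    exact ⟨s, p, hs, by rw [mul_comm]; exact e⟩
  · intro x hx
    obtain ⟨Q, M, hQ, e⟩ := exists_mul_matrix h0 h1 hspan (fun i => by
      rw [toL_lineFam]
      exact helper508.zTo_mem_bar L N (helper508.gaussBasis_mem N ℓ hℓN (g i))) x hx
    exact ⟨Q, M, hQ, fun i => by rw [mul_comm]; exact e i⟩

end Line

end Fermat.Agent.S18.helper1446
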