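import Fermat.Agent.S18.helper1446_LineBasis

/-!
# S18 (helper1446): characteristic polynomials on a line `t` — both fibres

Continuation of `helper1446_LineBasis` (same setting and vocabulary).  `y : LaurentSeries A` is an
`A`-integral series with `t := coeffMap A.subtype y ∈ F`, reduction `t̄ := coeffMap (residue A) y`
transcendental over `k`, and `j ∈ L(t)`.

* `line_finrank_eq` : `F/L(t)` and `Fk/k(t̄)` are finite and `[Fk : k(t̄)] = [F : L(t)]`.
* `exists_charpoly_scaled` (abstract) : for an `A`-integral series `x` of `F` there are a primitive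
  `Q ∈ A[X]` and `D ∈ A[X][Y]` with `Q(t)^n χ_{F/L(t)}(x) = D(t, Y)` and
  `Q̄(t̄)^n χ_{Fk/k(t̄)}(x̄) = D̄(t̄, Y)`.
* `line_charpoly_coeff` : the same coefficient by coefficient
  (= `helper7261.LineCharpolyRed N A y` unfolded).
* `line_charpoly_int`, `line_charpoly_series` : if the coefficients of `χ_{F/L(t)}(x)` are
  polynomials in `t`, one monic `P ∈ A[X][Y]` (resp. `E ∈ A((q))[Y]`) gives both
  characteristic polynomials (Gauss lemma over the valuation ring `A`).
-/

set_option autoImplicit false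

noncomputable section

namespace Fermat.Agent.S18.helper1446

open Polynomial ModularCurve IntermediateField

/-! ### charpoly of a multiplication map from a scaled matrix -/

theorem charpoly_lmul_scaled {K V : Type*} [Field K] [CommRing V] [Algebra K V] {n : ℕ}
    [Module.Free K V] [Module.Finite K V]
    (B : Module.Basis (Fin n) K V) (x : V) (q : K) (hq : q ≠ 0) (M : Matrix (Fin n) (Fin n) K)
    (h : ∀ i, q • (x * B i) = ∑ k, M i k • B k) :
    C q ^ n * LinearMap.charpoly (Algebra.lmul K V x) =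
      (C q • Matrix.scalar (Fin n) (X : K[X]) - (C : K →+* K[X]).mapMatrix M.transpose).det := by
  classical
  have hN : LinearMap.toMatrix B B (Algebra.lmul K V x) = q⁻¹ • M.transpose := by
    ext k i
    rw [LinearMap.toMatrix_apply, Matrix.smul_apply, Matrix.transpose_apply]
    have h1 : x * B i = ∑ k, (q⁻¹ * M i k) • B k := by
      have h2 := congrArg (fun v => q⁻¹ • v) (h i)
      simp only [smul_smul, inv_mul_cancel₀ hq, one_smul, Finset.smul_sum] at h2
      exact h2
    show B.repr (x * B i) k = _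
    rw [h1, Module.Basis.repr_sum_self]
    rfl
  rw [← LinearMap.charpoly_toMatrix (Algebra.lmul K V x) B, hN, Matrix.charpoly, Matrix.charmatrix]
  have h3 : (C q • Matrix.scalar (Fin n) (X : K[X]) - (C : K →+* K[X]).mapMatrix M.transpose) =
      C q • (Matrix.scalar (Fin n) (X : K[X]) -
        (C : K →+* K[X]).mapMatrix (q⁻¹ • M.transpose)) := by
    rw [smul_sub]
    congr 1
    ext i j
    simp only [RingHom.mapMatrix_apply, Matrix.map_apply, Matrix.smul_apply, Matrix.transpose_apply,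
      smul_eq_mul]
    rw [← C_mul, mul_inv_cancel_left₀ hq]
  rw [h3, Matrix.det_smul, Fintype.card_fin]

theorem charpoly_lmul_of_ringHom {R K V : Type*} [CommRing R] [Field K] [CommRing V] [Algebra K V]
    {n : ℕ} [Module.Free K V] [Module.Finite K V]
    (B : Module.Basis (Fin n) K V) (x : V) (φ : R →+* K) (Q : R) (hq : φ Q ≠ 0)
    (M : Matrix (Fin n) (Fin n) R)
    (h : ∀ i, φ Q • (x * B i) = ∑ k, φ (M i k) • B k) :
    C (φ Q) ^ n * LinearMap.charpoly (Algebra.lmul K V x) =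
      ((C Q • Matrix.scalar (Fin n) (X : R[X]) -
        (C : R →+* R[X]).mapMatrix M.transpose).det).map φ := by
  classical
  rw [charpoly_lmul_scaled B x (φ Q) hq (M.map φ) (fun i => by simpa using h i)]
  rw [← Polynomial.coe_mapRingHom, RingHom.map_det]
  congr 1
  ext i j : 1
  by_cases hij : i = j
  · subst hij
    simp [Matrix.scalar_apply]
  · simp [Matrix.scalar_apply, hij]

/-! ### Gauss lemma for polynomials over a valuation ring -/

/-- If `Q ∈ A[X]` is primitive (nonzero reduction), `D ∈ A[X]` and `Q * p = D` in `L[X]`,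
then `p ∈ A[X]`. -/
theorem exists_map_subtype_eq_of_mul {L : Type*} [Field L] (A : ValuationSubring L) (p : L[X])
    (Q D : (↥A)[X]) (hQ : Q.map (IsLocalRing.residue A) ≠ 0)
    (h : Q.map A.subtype * p = D.map A.subtype) : ∃ P : (↥A)[X], P.map A.subtype = p := by
  by_cases hp : p = 0
  · exact ⟨0, by rw [hp, Polynomial.map_zero]⟩
  obtain ⟨a, q, ha, hq, t, hq0⟩ := exists_scaling_poly A (fun _ : Unit => p) ⟨(), hp⟩
  have hinv : a⁻¹ ∈ A := by
    rcases A.mem_or_inv_mem a with haA | haA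
    · have e1 : (Q * q t).map A.subtype = (C (⟨a, haA⟩ : ↥A) * D).map A.subtype := by
        rw [Polynomial.map_mul, Polynomial.map_mul, hq, Polynomial.map_C, ← h]
        show _ = C a * _
        ring
      have e2 := Polynomial.map_injective _ Subtype.val_injective e1
      have e3 := congrArg (Polynomial.map (IsLocalRing.residue A)) e2
      rw [Polynomial.map_mul, Polynomial.map_mul, Polynomial.map_C] at e3
      have hres : IsLocalRing.residue A ⟨a, haA⟩ ≠ 0 := by
        intro h0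
        rw [h0, map_zero, zero_mul] at e3
        exact mul_ne_zero hQ hq0 e3
      have hu : IsUnit (⟨a, haA⟩ : ↥A) := by
        by_contra hnu
        exact hres ((IsLocalRing.residue_eq_zero_iff _).mpr
          ((IsLocalRing.mem_maximalIdeal _).mpr hnu))
      obtain ⟨u, hu'⟩ := hu
      have h1' : ((u⁻¹ : (↥A)ˣ) : ↥A) * ⟨a, haA⟩ = 1 := by rw [← hu']; exact Units.inv_mul u
      have h2' : (((u⁻¹ : (↥A)ˣ) : ↥A) : L) * a = 1 := congrArg Subtype.val h1'
      rw [← eq_inv_of_mul_eq_one_left h2']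
      exact Subtype.property _
    · exact haA
  refine ⟨C (⟨a⁻¹, hinv⟩ : ↥A) * q t, ?_⟩
  rw [Polynomial.map_mul, Polynomial.map_C, hq]
  show C a⁻¹ * (C a * p) = p
  rw [← mul_assoc, ← C_mul, inv_mul_cancel₀ ha, C_1, one_mul]

/-! ### a basis from the polynomial-fraction statements -/

section BasisOfPoly

variable {K F : Type*} [Field K] [Field F] [Algebra K F] {t : F} {n : ℕ} {B : Fin n → F}

theorem linearIndependent_adjoin_of_poly
    (hind : ∀ P : Fin n → K[X], ∑ i, aeval t (P i) * B i = 0 → P = 0) :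
    LinearIndependent ↥K⟮t⟯ B := by
  classical
  rw [Fintype.linearIndependent_iff]
  intro g hg i
  have hκ : ∀ i, ∃ r s : K[X], aeval t s ≠ 0 ∧ ((g i : K⟮t⟯) : F) = aeval t r / aeval t s := by
    intro i
    obtain ⟨r, s, hrs⟩ := (IntermediateField.mem_adjoin_simple_iff K _).mp (g i).2
    by_cases hs : aeval t s = 0
    · refine ⟨0, 1, by rw [map_one]; exact one_ne_zero, ?_⟩
      rw [hrs, hs, div_zero, map_zero, zero_div]
    · exact ⟨r, s, hs, hrs⟩
  choose r s hs hrs using hκ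
  have h0 : ∑ i, aeval t (r i * ∏ i' ∈ Finset.univ.erase i, s i') * B i = 0 := by
    have hterm : ∀ i, aeval t (r i * ∏ i' ∈ Finset.univ.erase i, s i') * B i =
        (∏ i', aeval t (s i')) * (g i • B i) := fun i => by
      rw [IntermediateField.smul_def, hrs i, smul_eq_mul, map_mul, map_prod,
        ← Finset.mul_prod_erase Finset.univ (fun i' => aeval t (s i')) (Finset.mem_univ i)]
      have := hs i
      field_simp
    rw [Finset.sum_congr rfl fun i _ => hterm i, ← Finset.mul_sum, hg, mul_zero]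
  have h1 := congrFun (hind _ h0) i
  have hsne : ∀ i', s i' ≠ 0 := fun i' h => hs i' (by rw [h, map_zero])
  have hr : r i = 0 := by
    rcases mul_eq_zero.mp h1 with h | h
    · exact h
    · exact absurd h (Finset.prod_ne_zero_iff.mpr fun i' _ => hsne i')
  apply Subtype.ext
  rw [hrs i, hr, map_zero, zero_div]
  rfl

theorem span_adjoin_eq_top_of_poly (htr : ∀ S : K[X], aeval t S = 0 → S = 0)
    (hspan : ∀ x : F, InSpan K t B x) : Submodule.span ↥K⟮t⟯ (Set.range B) = ⊤ :=
  eq_top_iff.mpr fun x _ => mem_span_of_inSpan htr (hspan x)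

theorem exists_basis_of_poly
    (hind : ∀ P : Fin n → K[X], ∑ i, aeval t (P i) * B i = 0 → P = 0)
    (htr : ∀ S : K[X], aeval t S = 0 → S = 0) (hspan : ∀ x : F, InSpan K t B x) :
    ∃ Bb : Module.Basis (Fin n) ↥K⟮t⟯ F, ∀ i, Bb i = B i :=
  ⟨Module.Basis.mk (linearIndependent_adjoin_of_poly hind)
    (span_adjoin_eq_top_of_poly htr hspan).ge, fun i => by rw [Module.Basis.mk_apply]⟩

/-- evaluation `R[X] → K(t)`, `p ↦ (p.map f)(t)`. -/
def evalGen {R : Type*} [CommRing R] (f : R →+* K) (t : F) : R[X] →+* ↥K⟮t⟯ :=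
  ((aeval (AdjoinSimple.gen K t)).toRingHom).comp (mapRingHom f)

theorem coe_evalGen {R : Type*} [CommRing R] (f : R →+* K) (t : F) (p : R[X]) :
    ((evalGen f t p : ↥K⟮t⟯) : F) = aeval t (p.map f) := by
  show ((aeval (AdjoinSimple.gen K t) (p.map f) : ↥K⟮t⟯) : F) = _
  rw [coe_aeval_intermediate, AdjoinSimple.coe_gen]

theorem evalGen_ne_zero {R : Type*} [CommRing R] (f : R →+* K)
    (htr : ∀ S : K[X], aeval t S = 0 → S = 0) (p : R[X]) (hp : p.map f ≠ 0) :
    evalGen f t p ≠ 0 := by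
  intro h
  apply hp
  apply htr
  rw [← coe_evalGen, h]
  rfl

theorem evalGen_injective {R : Type*} [CommRing R] (f : R →+* K) (hf : Function.Injective f)
    (htr : ∀ S : K[X], aeval t S = 0 → S = 0) : Function.Injective (evalGen f t) := by
  rw [injective_iff_map_eq_zero]
  intro p hp
  by_contra hne
  exact evalGen_ne_zero f htr p
    (fun h => hne (Polynomial.map_injective f hf (by rw [h, Polynomial.map_zero]))) hp

end BasisOfPoly

/-! ### from the ambient field to an intermediate field -/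

section Subtype

variable {K E : Type*} [Field K] [Field E] [Algebra K E] (F : IntermediateField K E) (t : ↥F)
  {n : ℕ} (B : Fin n → ↥F)

theorem coe_sum_aeval_intermediate (P : Fin n → K[X]) :
    ((∑ i, aeval t (P i) * B i : ↥F) : E) = ∑ i, aeval (t : E) (P i) * (B i : E) := by
  rw [AddSubmonoidClass.coe_finsetSum]
  exact Finset.sum_congr rfl fun i _ => by rw [MulMemClass.coe_mul, coe_aeval_intermediate]

theorem indep_subtype
    (h : ∀ P : Fin n → K[X], ∑ i, aeval (t : E) (P i) * (B i : E) = 0 → P = 0) :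
    ∀ P : Fin n → K[X], ∑ i, aeval t (P i) * B i = 0 → P = 0 := fun P hP =>
  h P (by rw [← coe_sum_aeval_intermediate, hP]; rfl)

theorem transc_subtype (h : ∀ S : K[X], aeval (t : E) S = 0 → S = 0) :
    ∀ S : K[X], aeval t S = 0 → S = 0 := fun S hS =>
  h S (by rw [← coe_aeval_intermediate, hS]; rfl)

theorem inSpan_subtype (x : ↥F) (h : InSpan K (t : E) (fun i => (B i : E)) (x : E)) :
    InSpan K t B x := by
  obtain ⟨S, P, hS, e⟩ := h
  refine ⟨S, P, hS, Subtype.ext ?_⟩
  rw [MulMemClass.coe_mul, coe_aeval_intermediate, coe_sum_aeval_intermediate]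
  exact e

theorem smul_eq_of_coe {R : Type*} [CommRing R] (f : R →+* K) (v : ↥F) (Q : R[X])
    (M : Fin n → R[X])
    (h : aeval (t : E) (Q.map f) * (v : E) = ∑ k, aeval (t : E) ((M k).map f) * (B k : E)) :
    evalGen f t Q • v = ∑ k, evalGen f t (M k) • B k := by
  apply Subtype.ext
  rw [AddSubmonoidClass.coe_finsetSum, IntermediateField.smul_def, smul_eq_mul,
    MulMemClass.coe_mul, coe_evalGen, coe_aeval_intermediate, h]
  refine Finset.sum_congr rfl fun k _ => ?_
  rw [IntermediateField.smul_def, smul_eq_mul, MulMemClass.coe_mul, coe_evalGen,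
    coe_aeval_intermediate]

end Subtype


/-! ### the two fibres: bases, degrees, characteristic polynomials -/

section TwoFibre

variable {L : Type*} [Field L] {A : ValuationSubring L} {y : LaurentSeries A} {n : ℕ}
  {b : Fin n → LaurentSeries A} {F : IntermediateField L (LaurentSeries L)}
  {Fk : IntermediateField (IsLocalRing.ResidueField A)
    (LaurentSeries (IsLocalRing.ResidueField A))}

/-- the `b i` are an `L(t)`-basis of `F`, `t = toL A y`. -/
theorem exists_basis_generic (h0 : TranscRed A y) (h1 : IndepRed A y b)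
    (hspan : SpanProp A y b F) (hyF : toL A y ∈ F) (hbF : ∀ i, toL A (b i) ∈ F) :
    ∃ B0 : Module.Basis (Fin n) ↥L⟮(⟨toL A y, hyF⟩ : ↥F)⟯ ↥F,
      ∀ i, B0 i = ⟨toL A (b i), hbF i⟩ :=
  exists_basis_of_poly
    (indep_subtype F ⟨toL A y, hyF⟩ (fun i => ⟨toL A (b i), hbF i⟩) (indep_L h1))
    (transc_subtype F ⟨toL A y, hyF⟩ (transc_L h0))
    (fun x => inSpan_subtype F ⟨toL A y, hyF⟩ (fun i => ⟨toL A (b i), hbF i⟩) x (hspan x.1 x.2))

/-- the reductions of the `b i` are a `k(t̄)`-basis of `Fk`, `t̄ = toK A y`. -/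
theorem exists_basis_special (h0 : TranscRed A y) (h1 : IndepRed A y b)
    (hspan : SpanProp A y b F) (hyk : toK A y ∈ Fk) (hbk : ∀ i, toK A (b i) ∈ Fk)
    (hsurj : ∀ z ∈ Fk, ∃ x : LaurentSeries A, toL A x ∈ F ∧ toK A x = z) :
    ∃ Bk : Module.Basis (Fin n) ↥(IsLocalRing.ResidueField A)⟮(⟨toK A y, hyk⟩ : ↥Fk)⟯ ↥Fk,
      ∀ i, Bk i = ⟨toK A (b i), hbk i⟩ :=
  exists_basis_of_poly
    (indep_subtype Fk ⟨toK A y, hyk⟩ (fun i => ⟨toK A (b i), hbk i⟩) h1)
    (transc_subtype Fk ⟨toK A y, hyk⟩ h0)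
    (fun z => inSpan_subtype Fk ⟨toK A y, hyk⟩ (fun i => ⟨toK A (b i), hbk i⟩) z (by
      obtain ⟨x, hx, hxz⟩ := hsurj z.1 z.2
      obtain ⟨Q, P, hQ, e⟩ := exists_red_normal_form h0 h1 hspan x hx
      exact ⟨Q, P, hQ, by rw [← hxz]; exact e⟩))

theorem finrank_generic (h0 : TranscRed A y) (h1 : IndepRed A y b)
    (hspan : SpanProp A y b F) (hyF : toL A y ∈ F) (hbF : ∀ i, toL A (b i) ∈ F) :
    Module.Finite ↥L⟮(⟨toL A y, hyF⟩ : ↥F)⟯ ↥F ∧
      Module.finrank ↥L⟮(⟨toL A y, hyF⟩ : ↥F)⟯ ↥F = n := by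
  obtain ⟨B0, -⟩ := exists_basis_generic h0 h1 hspan hyF hbF
  exact ⟨Module.Finite.of_basis B0, by rw [Module.finrank_eq_card_basis B0, Fintype.card_fin]⟩

theorem finrank_special (h0 : TranscRed A y) (h1 : IndepRed A y b)
    (hspan : SpanProp A y b F) (hyk : toK A y ∈ Fk) (hbk : ∀ i, toK A (b i) ∈ Fk)
    (hsurj : ∀ z ∈ Fk, ∃ x : LaurentSeries A, toL A x ∈ F ∧ toK A x = z) :
    Module.Finite ↥(IsLocalRing.ResidueField A)⟮(⟨toK A y, hyk⟩ : ↥Fk)⟯ ↥Fk ∧
      Module.finrank ↥(IsLocalRing.ResidueField A)⟮(⟨toK A y, hyk⟩ : ↥Fk)⟯ ↥Fk = n := by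
  obtain ⟨Bk, -⟩ := exists_basis_special h0 h1 hspan hyk hbk hsurj
  exact ⟨Module.Finite.of_basis Bk, by rw [Module.finrank_eq_card_basis Bk, Fintype.card_fin]⟩

/-- **Characteristic polynomials on both fibres, scaled form.**  For an `A`-integral series `x`
of `F` there are a primitive `Q ∈ A[X]` and `D ∈ A[X][Y]` with
`Q(t)^n · χ_{F/L(t)}(x) = D(t, Y)` and `Q(t̄)^n · χ_{Fk/k(t̄)}(x̄) = D̄(t̄, Y)`. -/
theorem exists_charpoly_scaled (h0 : TranscRed A y) (h1 : IndepRed A y b)
    (hspan : SpanProp A y b F) (hyF : toL A y ∈ F) (hbF : ∀ i, toL A (b i) ∈ F)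
    (hyk : toK A y ∈ Fk) (hbk : ∀ i, toK A (b i) ∈ Fk)
    (hsurj : ∀ z ∈ Fk, ∃ x : LaurentSeries A, toL A x ∈ F ∧ toK A x = z)
    [Module.Finite ↥L⟮(⟨toL A y, hyF⟩ : ↥F)⟯ ↥F]
    [Module.Finite ↥(IsLocalRing.ResidueField A)⟮(⟨toK A y, hyk⟩ : ↥Fk)⟯ ↥Fk]
    (x : LaurentSeries A) (hx : toL A x ∈ F) (hxk : toK A x ∈ Fk) :
    ∃ (Q : (↥A)[X]) (D : (↥A)[X][X]), Q.map (IsLocalRing.residue A) ≠ 0 ∧
      C (evalGen A.subtype (⟨toL A y, hyF⟩ : ↥F) Q) ^ n *
          LinearMap.charpoly (Algebra.lmul ↥L⟮(⟨toL A y, hyF⟩ : ↥F)⟯ ↥F ⟨toL A x, hx⟩) =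
        D.map (evalGen A.subtype (⟨toL A y, hyF⟩ : ↥F)) ∧
      C (evalGen (IsLocalRing.residue A) (⟨toK A y, hyk⟩ : ↥Fk) Q) ^ n *
          LinearMap.charpoly (Algebra.lmul
            ↥(IsLocalRing.ResidueField A)⟮(⟨toK A y, hyk⟩ : ↥Fk)⟯ ↥Fk ⟨toK A x, hxk⟩) =
        D.map (evalGen (IsLocalRing.residue A) (⟨toK A y, hyk⟩ : ↥Fk)) := by
  classical
  obtain ⟨Q, M, hQ, hM⟩ := exists_mul_matrix h0 h1 hspan hbF x hx
  obtain ⟨B0, hB0⟩ := exists_basis_generic h0 h1 hspan hyF hbF
  obtain ⟨Bk, hBk⟩ := exists_basis_special h0 h1 hspan hyk hbk hsurj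
  have htr0 := transc_subtype F ⟨toL A y, hyF⟩ (transc_L h0)
  have htrk := transc_subtype Fk ⟨toK A y, hyk⟩ h0
  refine ⟨Q, (C Q • Matrix.scalar (Fin n) (X : (↥A)[X][X]) -
    (C : (↥A)[X] →+* (↥A)[X][X]).mapMatrix (Matrix.transpose (Matrix.of M))).det, hQ, ?_, ?_⟩
  · refine charpoly_lmul_of_ringHom B0 _ (evalGen A.subtype (⟨toL A y, hyF⟩ : ↥F)) Q ?_
      (Matrix.of M) ?_
    · refine evalGen_ne_zero _ htr0 Q fun h => hQ ?_
      rw [Polynomial.map_injective _ Subtype.val_injective (h.trans (Polynomial.map_zero _).symm),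
        Polynomial.map_zero]
    · intro i
      simp only [hB0, Matrix.of_apply]
      refine smul_eq_of_coe F ⟨toL A y, hyF⟩ (fun k => ⟨toL A (b k), hbF k⟩) A.subtype _ Q
        (fun k => M i k) ?_
      have e := congrArg (toL A) (hM i)
      rw [map_mul, map_mul, coeffMap_aeval, toL_sum_aeval] at e
      rw [mul_comm]
      exact e
  · refine charpoly_lmul_of_ringHom Bk _
      (evalGen (IsLocalRing.residue A) (⟨toK A y, hyk⟩ : ↥Fk)) Q ?_ (Matrix.of M) ?_
    · exact evalGen_ne_zero _ htrk Q hQ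
    · intro i
      simp only [hBk, Matrix.of_apply]
      refine smul_eq_of_coe Fk ⟨toK A y, hyk⟩ (fun k => ⟨toK A (b k), hbk k⟩)
        (IsLocalRing.residue A) _ Q (fun k => M i k) ?_
      have e := congrArg (toK A) (hM i)
      rw [map_mul, map_mul, coeffMap_aeval, toK_sum_aeval] at e
      rw [mul_comm]
      exact e

end TwoFibre


section TwoFibreInt

variable {L : Type*} [Field L] {A : ValuationSubring L} {y : LaurentSeries A} {n : ℕ}
  {b : Fin n → LaurentSeries A} {F : IntermediateField L (LaurentSeries L)}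
  {Fk : IntermediateField (IsLocalRing.ResidueField A)
    (LaurentSeries (IsLocalRing.ResidueField A))}

/-- **Characteristic polynomials on both fibres, integral form.**  If the coefficients of
`χ_{F/L(t)}(x)` are polynomials in `t` (e.g. `x` integral over `L[t]`), then they are polynomials
in `t` with coefficients in `A`, and `χ_{Fk/k(t̄)}(x̄)` is the coefficientwise reduction:
one `P ∈ A[X][Y]`, monic in `Y`, gives both. -/
theorem exists_charpoly_int (h0 : TranscRed A y) (h1 : IndepRed A y b)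
    (hspan : SpanProp A y b F) (hyF : toL A y ∈ F) (hbF : ∀ i, toL A (b i) ∈ F)
    (hyk : toK A y ∈ Fk) (hbk : ∀ i, toK A (b i) ∈ Fk)
    (hsurj : ∀ z ∈ Fk, ∃ x : LaurentSeries A, toL A x ∈ F ∧ toK A x = z)
    [Module.Finite ↥L⟮(⟨toL A y, hyF⟩ : ↥F)⟯ ↥F]
    [Module.Finite ↥(IsLocalRing.ResidueField A)⟮(⟨toK A y, hyk⟩ : ↥Fk)⟯ ↥Fk]
    (x : LaurentSeries A) (hx : toL A x ∈ F) (hxk : toK A x ∈ Fk)
    (hpoly : ∀ i, ∃ p : L[X],
      (((LinearMap.charpoly (Algebra.lmul ↥L⟮(⟨toL A y, hyF⟩ : ↥F)⟯ ↥F ⟨toL A x, hx⟩)).coeff i :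
        ↥L⟮(⟨toL A y, hyF⟩ : ↥F)⟯) : ↥F) = aeval (⟨toL A y, hyF⟩ : ↥F) p) :
    ∃ P : (↥A)[X][X], P.Monic ∧
      LinearMap.charpoly (Algebra.lmul ↥L⟮(⟨toL A y, hyF⟩ : ↥F)⟯ ↥F ⟨toL A x, hx⟩) =
        P.map (evalGen A.subtype (⟨toL A y, hyF⟩ : ↥F)) ∧
      LinearMap.charpoly (Algebra.lmul
          ↥(IsLocalRing.ResidueField A)⟮(⟨toK A y, hyk⟩ : ↥Fk)⟯ ↥Fk ⟨toK A x, hxk⟩) =
        P.map (evalGen (IsLocalRing.residue A) (⟨toK A y, hyk⟩ : ↥Fk)) := by
  classical
  obtain ⟨Q, D, hQ, e0, ek⟩ := exists_charpoly_scaled h0 h1 hspan hyF hbF hyk hbk hsurj x hx hxk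
  have htr0 := transc_subtype F ⟨toL A y, hyF⟩ (transc_L h0)
  have htrk := transc_subtype Fk ⟨toK A y, hyk⟩ h0
  have hQ0 : Q.map A.subtype ≠ 0 := fun h => hQ (by
    rw [Polynomial.map_injective _ Subtype.val_injective (h.trans (Polynomial.map_zero _).symm),
      Polynomial.map_zero])
  have hφ0 := evalGen_ne_zero A.subtype htr0 Q hQ0
  have hφk := evalGen_ne_zero (IsLocalRing.residue A) htrk Q hQ
  have hdvd : ∀ i, Q ^ n ∣ D.coeff i := by
    intro i
    obtain ⟨p, hp⟩ := hpoly i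
    have e1 := congrArg (fun f => f.coeff i) e0
    simp only [coeff_map] at e1
    rw [← C_pow, coeff_C_mul] at e1
    have e2 : aeval (⟨toL A y, hyF⟩ : ↥F) ((Q ^ n).map A.subtype * p) =
        aeval (⟨toL A y, hyF⟩ : ↥F) ((D.coeff i).map A.subtype) := by
      rw [map_mul, ← coe_evalGen, ← coe_evalGen, ← hp, ← e1, map_pow]
      rfl
    have e3 : (Q ^ n).map A.subtype * p = (D.coeff i).map A.subtype := by
      have := htr0 ((Q ^ n).map A.subtype * p - (D.coeff i).map A.subtype)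
        (by rw [map_sub, e2, sub_self])
      exact sub_eq_zero.mp this
    obtain ⟨P, hP⟩ := exists_map_subtype_eq_of_mul A p (Q ^ n) (D.coeff i)
      (by rw [Polynomial.map_pow]; exact pow_ne_zero _ hQ) e3
    refine ⟨P, Polynomial.map_injective A.subtype Subtype.val_injective ?_⟩
    rw [Polynomial.map_mul, hP]
    exact e3.symm
  obtain ⟨P, hP⟩ := (Polynomial.C_dvd_iff_dvd_coeff (Q ^ n) D).mpr hdvd
  have r0 : LinearMap.charpoly (Algebra.lmul ↥L⟮(⟨toL A y, hyF⟩ : ↥F)⟯ ↥F ⟨toL A x, hx⟩) =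
      P.map (evalGen A.subtype (⟨toL A y, hyF⟩ : ↥F)) := by
    have e := e0
    rw [hP, Polynomial.map_mul, Polynomial.map_C, map_pow, C_pow] at e
    exact mul_left_cancel₀ (pow_ne_zero _ (C_ne_zero.mpr hφ0)) e
  have rk : LinearMap.charpoly (Algebra.lmul
      ↥(IsLocalRing.ResidueField A)⟮(⟨toK A y, hyk⟩ : ↥Fk)⟯ ↥Fk ⟨toK A x, hxk⟩) =
      P.map (evalGen (IsLocalRing.residue A) (⟨toK A y, hyk⟩ : ↥Fk)) := by
    have e := ek
    rw [hP, Polynomial.map_mul, Polynomial.map_C, map_pow, C_pow] at e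
    exact mul_left_cancel₀ (pow_ne_zero _ (C_ne_zero.mpr hφk)) e
  refine ⟨P, ?_, r0, rk⟩
  exact Polynomial.monic_of_injective (evalGen_injective A.subtype Subtype.val_injective htr0)
    (by rw [← r0]; exact LinearMap.charpoly_monic _)

/-- **Characteristic polynomials on both fibres, `q`-series form.**  One monic
`E ∈ A((q))[Y]` whose image in `L((q))[Y]` is `χ_{F/L(t)}(x)` and whose reduction in `k((q))[Y]`
is `χ_{Fk/k(t̄)}(x̄)`. -/
theorem exists_charpoly_series (h0 : TranscRed A y) (h1 : IndepRed A y b)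
    (hspan : SpanProp A y b F) (hyF : toL A y ∈ F) (hbF : ∀ i, toL A (b i) ∈ F)
    (hyk : toK A y ∈ Fk) (hbk : ∀ i, toK A (b i) ∈ Fk)
    (hsurj : ∀ z ∈ Fk, ∃ x : LaurentSeries A, toL A x ∈ F ∧ toK A x = z)
    [Module.Finite ↥L⟮(⟨toL A y, hyF⟩ : ↥F)⟯ ↥F]
    [Module.Finite ↥(IsLocalRing.ResidueField A)⟮(⟨toK A y, hyk⟩ : ↥Fk)⟯ ↥Fk]
    (x : LaurentSeries A) (hx : toL A x ∈ F) (hxk : toK A x ∈ Fk)
    (hpoly : ∀ i, ∃ p : L[X],
      (((LinearMap.charpoly (Algebra.lmul ↥L⟮(⟨toL A y, hyF⟩ : ↥F)⟯ ↥F ⟨toL A x, hx⟩)).coeff i :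
        ↥L⟮(⟨toL A y, hyF⟩ : ↥F)⟯) : ↥F) = aeval (⟨toL A y, hyF⟩ : ↥F) p)
    (ψ0 : ↥L⟮(⟨toL A y, hyF⟩ : ↥F)⟯ →+* LaurentSeries L)
    (hψ0 : ∀ c, ψ0 c = ((c : ↥F) : LaurentSeries L))
    (ψk : ↥(IsLocalRing.ResidueField A)⟮(⟨toK A y, hyk⟩ : ↥Fk)⟯ →+*
      LaurentSeries (IsLocalRing.ResidueField A))
    (hψk : ∀ c, ψk c = ((c : ↥Fk) : LaurentSeries (IsLocalRing.ResidueField A))) :
    ∃ E : (LaurentSeries A)[X], E.Monic ∧
      (LinearMap.charpoly (Algebra.lmul ↥L⟮(⟨toL A y, hyF⟩ : ↥F)⟯ ↥F ⟨toL A x, hx⟩)).map ψ0 =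
        E.map (toL A) ∧
      (LinearMap.charpoly (Algebra.lmul
          ↥(IsLocalRing.ResidueField A)⟮(⟨toK A y, hyk⟩ : ↥Fk)⟯ ↥Fk ⟨toK A x, hxk⟩)).map ψk =
        E.map (toK A) := by
  obtain ⟨P, hP, r0, rk⟩ :=
    exists_charpoly_int h0 h1 hspan hyF hbF hyk hbk hsurj x hx hxk hpoly
  refine ⟨P.map (aeval y : (↥A)[X] →ₐ[↥A] LaurentSeries A).toRingHom, hP.map _, ?_, ?_⟩
  · rw [r0, Polynomial.map_map, Polynomial.map_map]
    congr 1
    refine RingHom.ext fun p => ?_
    rw [RingHom.comp_apply, RingHom.comp_apply, hψ0, coe_evalGen, coe_aeval_intermediate]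
    exact (coeffMap_aeval _ _ _).symm
  · rw [rk, Polynomial.map_map, Polynomial.map_map]
    congr 1
    refine RingHom.ext fun p => ?_
    rw [RingHom.comp_apply, RingHom.comp_apply, hψk, coe_evalGen, coe_aeval_intermediate]
    exact (coeffMap_aeval _ _ _).symm

end TwoFibreInt


/-! ### the line `t`: degrees and characteristic polynomials on both fibres -/

section LineCharpoly

variable (N : ℕ) [NeZero N] (ℓ : ℕ) [Fact ℓ.Prime] (hℓN : ¬ ℓ ∣ N)
variable {L : Type*} [Field L] [Algebra ℚ L] (A : ValuationSubring L) (hA : (ℓ : L) ∈ A.nonunits)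
variable (y : LaurentSeries A)
  (hy : coeffMap A.subtype y ∈ laurentBaseChange L (modularFunctionFieldFull N))
  (hyk : coeffMap (IsLocalRing.residue A) y ∈
    modularFunctionFieldFullC (IsLocalRing.ResidueField A) N)

include hℓN hA in
/-- the hypotheses of the abstract two-fibre statements for a subfamily of the Gauss basis. -/
theorem exists_line_data
    (htr : Transcendental (IsLocalRing.ResidueField A) (coeffMap (IsLocalRing.residue A) y))
    (hj : helper1733.gaussJ L N ∈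
      L⟮(⟨coeffMap A.subtype y, hy⟩ : ↥(laurentBaseChange L (modularFunctionFieldFull N)))⟯) :
    ∃ b : Fin (Module.finrank
        L⟮(⟨coeffMap A.subtype y, hy⟩ : ↥(laurentBaseChange L (modularFunctionFieldFull N)))⟯
        ↥(laurentBaseChange L (modularFunctionFieldFull N))) → LaurentSeries A,
      TranscRed A y ∧ IndepRed A y b ∧
      SpanProp A y b (laurentBaseChange L (modularFunctionFieldFull N)) ∧
      (∀ i, toL A (b i) ∈ laurentBaseChange L (modularFunctionFieldFull N)) ∧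
      (∀ i, toK A (b i) ∈ modularFunctionFieldFullC (IsLocalRing.ResidueField A) N) ∧
      (∀ z ∈ modularFunctionFieldFullC (IsLocalRing.ResidueField A) N,
        ∃ x : LaurentSeries A,
          toL A x ∈ laurentBaseChange L (modularFunctionFieldFull N) ∧ toK A x = z) := by
  obtain ⟨g, -, h0, h1, hspan⟩ := exists_line_basis N ℓ hℓN A hA y hy htr hj
  refine ⟨lineFam N ℓ hℓN A g, h0, h1, hspan, fun i => ?_, fun i => ?_,
    helper508.exists_coeffMap_residue_eq N ℓ hℓN A hA⟩
  · rw [toL_lineFam]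
    exact helper508.zTo_mem_bar L N (helper508.gaussBasis_mem N ℓ hℓN (g i))
  · rw [toK_lineFam]
    exact helper508.zTo_mem_fullC _ N (helper508.gaussBasis_mem N ℓ hℓN (g i))

include hℓN hA in
/-- **Degrees on both fibres.**  On a line `t` with `j ∈ L(t)` and `t̄` transcendental,
`F` is finite over `L(t)`, `Fk` is finite over `k(t̄)` and `[Fk : k(t̄)] = [F : L(t)]`. -/
theorem line_finrank_eq
    (htr : Transcendental (IsLocalRing.ResidueField A) (coeffMap (IsLocalRing.residue A) y))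
    (hj : helper1733.gaussJ L N ∈
      L⟮(⟨coeffMap A.subtype y, hy⟩ : ↥(laurentBaseChange L (modularFunctionFieldFull N)))⟯) :
    Module.Finite
        ↥L⟮(⟨coeffMap A.subtype y, hy⟩ : ↥(laurentBaseChange L (modularFunctionFieldFull N)))⟯
        ↥(laurentBaseChange L (modularFunctionFieldFull N)) ∧
      Module.Finite
        ↥(IsLocalRing.ResidueField A)⟮(⟨coeffMap (IsLocalRing.residue A) y, hyk⟩ :
          ↥(modularFunctionFieldFullC (IsLocalRing.ResidueField A) N))⟯
        ↥(modularFunctionFieldFullC (IsLocalRing.ResidueField A) N) ∧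
      Module.finrank
        ↥(IsLocalRing.ResidueField A)⟮(⟨coeffMap (IsLocalRing.residue A) y, hyk⟩ :
          ↥(modularFunctionFieldFullC (IsLocalRing.ResidueField A) N))⟯
        ↥(modularFunctionFieldFullC (IsLocalRing.ResidueField A) N) =
      Module.finrank
        ↥L⟮(⟨coeffMap A.subtype y, hy⟩ : ↥(laurentBaseChange L (modularFunctionFieldFull N)))⟯
        ↥(laurentBaseChange L (modularFunctionFieldFull N)) := by
  obtain ⟨b, h0, h1, hspan, hbF, hbk, hsurj⟩ := exists_line_data N ℓ hℓN A hA y hy htr hj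
  obtain ⟨hf0, -⟩ := finrank_generic h0 h1 hspan hy hbF
  obtain ⟨hfk, hk⟩ := finrank_special h0 h1 hspan hyk hbk hsurj
  exact ⟨hf0, hfk, hk⟩

include hℓN hA in
/-- **Reduction of characteristic polynomials on the line `t`, polynomial form.**
`x` an `A`-integral series of `F` whose characteristic polynomial over `L(t)` has coefficients
in `L[t]`.  Then one `P ∈ A[X][Y]`, monic in `Y`, evaluates to `χ_{F/L(t)}(x)` at `X = t` and
to `χ_{Fk/k(t̄)}(x̄)` at `X = t̄` (after reducing coefficients). -/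
theorem line_charpoly_int
    (htr : Transcendental (IsLocalRing.ResidueField A) (coeffMap (IsLocalRing.residue A) y))
    (hj : helper1733.gaussJ L N ∈
      L⟮(⟨coeffMap A.subtype y, hy⟩ : ↥(laurentBaseChange L (modularFunctionFieldFull N)))⟯)
    [Module.Finite
      ↥L⟮(⟨coeffMap A.subtype y, hy⟩ : ↥(laurentBaseChange L (modularFunctionFieldFull N)))⟯
      ↥(laurentBaseChange L (modularFunctionFieldFull N))]
    [Module.Finite
      ↥(IsLocalRing.ResidueField A)⟮(⟨coeffMap (IsLocalRing.residue A) y, hyk⟩ :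
        ↥(modularFunctionFieldFullC (IsLocalRing.ResidueField A) N))⟯
      ↥(modularFunctionFieldFullC (IsLocalRing.ResidueField A) N)]
    (x : LaurentSeries A)
    (hx : coeffMap A.subtype x ∈ laurentBaseChange L (modularFunctionFieldFull N))
    (hxk : coeffMap (IsLocalRing.residue A) x ∈
      modularFunctionFieldFullC (IsLocalRing.ResidueField A) N)
    (hpoly : ∀ i, ∃ p : L[X],
      (((LinearMap.charpoly (Algebra.lmul
          ↥L⟮(⟨coeffMap A.subtype y, hy⟩ : ↥(laurentBaseChange L (modularFunctionFieldFull N)))⟯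
          ↥(laurentBaseChange L (modularFunctionFieldFull N)) ⟨coeffMap A.subtype x, hx⟩)).coeff i :
        ↥L⟮(⟨coeffMap A.subtype y, hy⟩ : ↥(laurentBaseChange L (modularFunctionFieldFull N)))⟯) :
        ↥(laurentBaseChange L (modularFunctionFieldFull N))) =
      aeval (⟨coeffMap A.subtype y, hy⟩ : ↥(laurentBaseChange L (modularFunctionFieldFull N))) p) :
    ∃ P : (↥A)[X][X], P.Monic ∧
      LinearMap.charpoly (Algebra.lmul
          ↥L⟮(⟨coeffMap A.subtype y, hy⟩ : ↥(laurentBaseChange L (modularFunctionFieldFull N)))⟯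
          ↥(laurentBaseChange L (modularFunctionFieldFull N)) ⟨coeffMap A.subtype x, hx⟩) =
        P.map (evalGen A.subtype
          (⟨coeffMap A.subtype y, hy⟩ : ↥(laurentBaseChange L (modularFunctionFieldFull N)))) ∧
      LinearMap.charpoly (Algebra.lmul
          ↥(IsLocalRing.ResidueField A)⟮(⟨coeffMap (IsLocalRing.residue A) y, hyk⟩ :
            ↥(modularFunctionFieldFullC (IsLocalRing.ResidueField A) N))⟯
          ↥(modularFunctionFieldFullC (IsLocalRing.ResidueField A) N)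
          ⟨coeffMap (IsLocalRing.residue A) x, hxk⟩) =
        P.map (evalGen (IsLocalRing.residue A)
          (⟨coeffMap (IsLocalRing.residue A) y, hyk⟩ :
            ↥(modularFunctionFieldFullC (IsLocalRing.ResidueField A) N))) := by
  obtain ⟨b, h0, h1, hspan, hbF, hbk, hsurj⟩ := exists_line_data N ℓ hℓN A hA y hy htr hj
  exact exists_charpoly_int h0 h1 hspan hy hbF hyk hbk hsurj x hx hxk hpoly

include hℓN hA in
/-- **Reduction of characteristic polynomials on the line `t`, `q`-series form.**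
Same hypotheses; `ψ0`, `ψk` are the inclusions `L(t) → L((q))`, `k(t̄) → k((q))`.
There is one monic `E ∈ A((q))[Y]` with `χ_{F/L(t)}(x) = E` over `L((q))` and
`χ_{Fk/k(t̄)}(x̄) = Ē` over `k((q))`. -/
theorem line_charpoly_series
    (htr : Transcendental (IsLocalRing.ResidueField A) (coeffMap (IsLocalRing.residue A) y))
    (hj : helper1733.gaussJ L N ∈
      L⟮(⟨coeffMap A.subtype y, hy⟩ : ↥(laurentBaseChange L (modularFunctionFieldFull N)))⟯)
    [Module.Finite
      ↥L⟮(⟨coeffMap A.subtype y, hy⟩ : ↥(laurentBaseChange L (modularFunctionFieldFull N)))⟯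
      ↥(laurentBaseChange L (modularFunctionFieldFull N))]
    [Module.Finite
      ↥(IsLocalRing.ResidueField A)⟮(⟨coeffMap (IsLocalRing.residue A) y, hyk⟩ :
        ↥(modularFunctionFieldFullC (IsLocalRing.ResidueField A) N))⟯
      ↥(modularFunctionFieldFullC (IsLocalRing.ResidueField A) N)]
    (x : LaurentSeries A)
    (hx : coeffMap A.subtype x ∈ laurentBaseChange L (modularFunctionFieldFull N))
    (hxk : coeffMap (IsLocalRing.residue A) x ∈
      modularFunctionFieldFullC (IsLocalRing.ResidueField A) N)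
    (hpoly : ∀ i, ∃ p : L[X],
      (((LinearMap.charpoly (Algebra.lmul
          ↥L⟮(⟨coeffMap A.subtype y, hy⟩ : ↥(laurentBaseChange L (modularFunctionFieldFull N)))⟯
          ↥(laurentBaseChange L (modularFunctionFieldFull N)) ⟨coeffMap A.subtype x, hx⟩)).coeff i :
        ↥L⟮(⟨coeffMap A.subtype y, hy⟩ : ↥(laurentBaseChange L (modularFunctionFieldFull N)))⟯) :
        ↥(laurentBaseChange L (modularFunctionFieldFull N))) =
      aeval (⟨coeffMap A.subtype y, hy⟩ : ↥(laurentBaseChange L (modularFunctionFieldFull N))) p)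
    (ψ0 : ↥L⟮(⟨coeffMap A.subtype y, hy⟩ :
      ↥(laurentBaseChange L (modularFunctionFieldFull N)))⟯ →+* LaurentSeries L)
    (hψ0 : ∀ c, ψ0 c = ((c : ↥(laurentBaseChange L (modularFunctionFieldFull N))) :
      LaurentSeries L))
    (ψk : ↥(IsLocalRing.ResidueField A)⟮(⟨coeffMap (IsLocalRing.residue A) y, hyk⟩ :
        ↥(modularFunctionFieldFullC (IsLocalRing.ResidueField A) N))⟯ →+*
      LaurentSeries (IsLocalRing.ResidueField A))
    (hψk : ∀ c, ψk c = ((c : ↥(modularFunctionFieldFullC (IsLocalRing.ResidueField A) N)) :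
      LaurentSeries (IsLocalRing.ResidueField A))) :
    ∃ E : (LaurentSeries A)[X], E.Monic ∧
      (LinearMap.charpoly (Algebra.lmul
          ↥L⟮(⟨coeffMap A.subtype y, hy⟩ : ↥(laurentBaseChange L (modularFunctionFieldFull N)))⟯
          ↥(laurentBaseChange L (modularFunctionFieldFull N))
          ⟨coeffMap A.subtype x, hx⟩)).map ψ0 = E.map (coeffMap A.subtype) ∧
      (LinearMap.charpoly (Algebra.lmul
          ↥(IsLocalRing.ResidueField A)⟮(⟨coeffMap (IsLocalRing.residue A) y, hyk⟩ :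
            ↥(modularFunctionFieldFullC (IsLocalRing.ResidueField A) N))⟯
          ↥(modularFunctionFieldFullC (IsLocalRing.ResidueField A) N)
          ⟨coeffMap (IsLocalRing.residue A) x, hxk⟩)).map ψk =
        E.map (coeffMap (IsLocalRing.residue A)) := by
  obtain ⟨b, h0, h1, hspan, hbF, hbk, hsurj⟩ := exists_line_data N ℓ hℓN A hA y hy htr hj
  exact exists_charpoly_series h0 h1 hspan hy hbF hyk hbk hsurj x hx hxk hpoly ψ0 hψ0 ψk hψk

end LineCharpoly


/-! ### per-coefficient form (the shape of `helper7261.LineCharpolyRed`) -/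

section Coeff

variable {L : Type*} [Field L] {A : ValuationSubring L} {y : LaurentSeries A} {n : ℕ}
  {b : Fin n → LaurentSeries A} {F : IntermediateField L (LaurentSeries L)}
  {Fk : IntermediateField (IsLocalRing.ResidueField A)
    (LaurentSeries (IsLocalRing.ResidueField A))}

/-- **Characteristic polynomials on both fibres, coefficient by coefficient.**  The `i`-th
coefficient of `χ_{F/L(t)}(x)` is `P(t)/Q(t)` with `P, Q ∈ A[X]`, `Q` primitive, and the `i`-th
coefficient of `χ_{Fk/k(t̄)}(x̄)` is `P̄(t̄)/Q̄(t̄)`. -/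
theorem exists_charpoly_coeff (h0 : TranscRed A y) (h1 : IndepRed A y b)
    (hspan : SpanProp A y b F) (hyF : toL A y ∈ F) (hbF : ∀ i, toL A (b i) ∈ F)
    (hyk : toK A y ∈ Fk) (hbk : ∀ i, toK A (b i) ∈ Fk)
    (hsurj : ∀ z ∈ Fk, ∃ x : LaurentSeries A, toL A x ∈ F ∧ toK A x = z)
    [Module.Finite ↥L⟮(⟨toL A y, hyF⟩ : ↥F)⟯ ↥F]
    [Module.Finite ↥(IsLocalRing.ResidueField A)⟮(⟨toK A y, hyk⟩ : ↥Fk)⟯ ↥Fk]
    (x : LaurentSeries A) (hx : toL A x ∈ F) (hxk : toK A x ∈ Fk) (i : ℕ) :
    ∃ P Q : (↥A)[X], Q.map (IsLocalRing.residue A) ≠ 0 ∧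
      algebraMap ↥L⟮(⟨toL A y, hyF⟩ : ↥F)⟯ ↥F
          ((LinearMap.charpoly
            (Algebra.lmul ↥L⟮(⟨toL A y, hyF⟩ : ↥F)⟯ ↥F ⟨toL A x, hx⟩)).coeff i) *
        aeval (⟨toL A y, hyF⟩ : ↥F) (Q.map A.subtype) =
          aeval (⟨toL A y, hyF⟩ : ↥F) (P.map A.subtype) ∧
      algebraMap ↥(IsLocalRing.ResidueField A)⟮(⟨toK A y, hyk⟩ : ↥Fk)⟯ ↥Fk
          ((LinearMap.charpoly (Algebra.lmul
            ↥(IsLocalRing.ResidueField A)⟮(⟨toK A y, hyk⟩ : ↥Fk)⟯ ↥Fk ⟨toK A x, hxk⟩)).coeff i) *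
        aeval (⟨toK A y, hyk⟩ : ↥Fk) (Q.map (IsLocalRing.residue A)) =
          aeval (⟨toK A y, hyk⟩ : ↥Fk) (P.map (IsLocalRing.residue A)) := by
  obtain ⟨Q, D, hQ, e0, ek⟩ := exists_charpoly_scaled h0 h1 hspan hyF hbF hyk hbk hsurj x hx hxk
  refine ⟨D.coeff i, Q ^ n, ?_, ?_, ?_⟩
  · rw [Polynomial.map_pow]
    exact pow_ne_zero _ hQ
  · have e1 := congrArg (fun f => f.coeff i) e0
    simp only [coeff_map] at e1
    rw [← C_pow, coeff_C_mul] at e1
    rw [← coe_evalGen, ← coe_evalGen, ← e1, map_pow, mul_comm]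
    rfl
  · have e1 := congrArg (fun f => f.coeff i) ek
    simp only [coeff_map] at e1
    rw [← C_pow, coeff_C_mul] at e1
    rw [← coe_evalGen, ← coe_evalGen, ← e1, map_pow, mul_comm]
    rfl

end Coeff

section LineCoeff

variable (N : ℕ) [NeZero N] (ℓ : ℕ) [Fact ℓ.Prime] (hℓN : ¬ ℓ ∣ N)
variable {L : Type*} [Field L] [Algebra ℚ L] (A : ValuationSubring L) (hA : (ℓ : L) ∈ A.nonunits)
variable (y : LaurentSeries A)
  (hy : coeffMap A.subtype y ∈ laurentBaseChange L (modularFunctionFieldFull N))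

include hℓN hA in
/-- **Reduction of characteristic polynomials on the line `t`, coefficient form**
(= `helper7261.LineCharpolyRed N A y` unfolded). -/
theorem line_charpoly_coeff
    (htr : Transcendental (IsLocalRing.ResidueField A) (coeffMap (IsLocalRing.residue A) y))
    (hj : helper1733.gaussJ L N ∈
      L⟮(⟨coeffMap A.subtype y, hy⟩ : ↥(laurentBaseChange L (modularFunctionFieldFull N)))⟯) :
    ∀ (t : ↥(laurentBaseChange L (modularFunctionFieldFull N)))
      (tb : ↥(modularFunctionFieldFullC (IsLocalRing.ResidueField A) N)),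
      (t : LaurentSeries L) = coeffMap A.subtype y →
      (tb : LaurentSeries (IsLocalRing.ResidueField A)) = coeffMap (IsLocalRing.residue A) y →
      ∀ [FiniteDimensional L⟮t⟯ ↥(laurentBaseChange L (modularFunctionFieldFull N))]
        [FiniteDimensional (IsLocalRing.ResidueField A)⟮tb⟯
          ↥(modularFunctionFieldFullC (IsLocalRing.ResidueField A) N)],
      ∀ (x : LaurentSeries A) (x₀ : ↥(laurentBaseChange L (modularFunctionFieldFull N)))
        (xb : ↥(modularFunctionFieldFullC (IsLocalRing.ResidueField A) N)),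
        (x₀ : LaurentSeries L) = coeffMap A.subtype x →
        (xb : LaurentSeries (IsLocalRing.ResidueField A)) = coeffMap (IsLocalRing.residue A) x →
        ∀ i : ℕ, ∃ P Q : (↥A)[X], Q.map (IsLocalRing.residue A) ≠ 0 ∧
          algebraMap L⟮t⟯ ↥(laurentBaseChange L (modularFunctionFieldFull N))
              ((LinearMap.charpoly (Algebra.lmul L⟮t⟯
                ↥(laurentBaseChange L (modularFunctionFieldFull N)) x₀)).coeff i) *
            aeval t (Q.map A.subtype) = aeval t (P.map A.subtype) ∧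
          algebraMap (IsLocalRing.ResidueField A)⟮tb⟯
              ↥(modularFunctionFieldFullC (IsLocalRing.ResidueField A) N)
              ((LinearMap.charpoly (Algebra.lmul (IsLocalRing.ResidueField A)⟮tb⟯
                ↥(modularFunctionFieldFullC (IsLocalRing.ResidueField A) N) xb)).coeff i) *
            aeval tb (Q.map (IsLocalRing.residue A)) =
              aeval tb (P.map (IsLocalRing.residue A)) := by
  intro t tb ht htb
  obtain rfl : t = ⟨coeffMap A.subtype y, hy⟩ := Subtype.ext ht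
  have hyk : coeffMap (IsLocalRing.residue A) y ∈
      modularFunctionFieldFullC (IsLocalRing.ResidueField A) N := by
    rw [← htb]; exact tb.2
  obtain rfl : tb = ⟨coeffMap (IsLocalRing.residue A) y, hyk⟩ := Subtype.ext htb
  intro _ _ x x₀ xb hx₀ hxb i
  have hx : coeffMap A.subtype x ∈ laurentBaseChange L (modularFunctionFieldFull N) := by
    rw [← hx₀]; exact x₀.2
  obtain rfl : x₀ = ⟨coeffMap A.subtype x, hx⟩ := Subtype.ext hx₀
  have hxk : coeffMap (IsLocalRing.residue A) x ∈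
      modularFunctionFieldFullC (IsLocalRing.ResidueField A) N := by
    rw [← hxb]; exact xb.2
  obtain rfl : xb = ⟨coeffMap (IsLocalRing.residue A) x, hxk⟩ := Subtype.ext hxb
  obtain ⟨b, h0, h1, hspan, hbF, hbk, hsurj⟩ := exists_line_data N ℓ hℓN A hA y hy htr hj
  exact exists_charpoly_coeff h0 h1 hspan hy hbF hyk hbk hsurj x hx hxk i

end LineCoeff

end Fermat.Agent.S18.helper1446
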