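/-
S18 (helper1466): Gauss-side inputs of the function-field Kummer core `helper2030.kummer_ff`
at the modular instance, in the vocabulary of the landed `helper508_GaussMod`.

`F = modularFunctionFieldBar N`, `O = helper508.gaussValuationSubring`, `red = gaussResidue`.
-/
import Fermat.Agent.S18.helper508_GaussMod
import Fermat.Agent.S18.helper2030_KummerFF
import Fermat.Agent.S18.helper9428_RankOne
import Fermat.Agent.S18.helper3054_Kummer
import Fermat.Agent.S18.helper1733_GaussOrtho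
import Fermat.Agent.S18.helper4226_KummerKF
import Fermat.Agent.S18.helper981_Riemann
import Fermat.Agent.S18.helper3537_InputsPlaces

set_option autoImplicit false
set_option synthInstance.maxHeartbeats 400000

noncomputable section

namespace Fermat.Agent.S18.helper1466

open ModularCurve AlgebraicCurve HahnSeries

local notation "Qb" => AlgebraicClosure ℚ

variable (N : ℕ) [NeZero N] (ℓ : ℕ) [Fact ℓ.Prime] (hℓN : ¬ ℓ ∣ N)
  (A : ValuationSubring Qb) (hA : A.LiesOverPrime ℓ)

/-- The Gauss valuation ring of `F̄_N` (landed `helper508`), at `L = ℚ̄`. -/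
abbrev gO : ValuationSubring ↥(modularFunctionFieldBar N) :=
  helper508.gaussValuationSubring N ℓ hℓN A hA

/-- Its residue map onto the function field of the special fibre. -/
abbrev gRed : ↥(gO N ℓ hℓN A hA) →+*
    ↥(modularFunctionFieldFullC (IsLocalRing.ResidueField A) N) :=
  helper508.gaussResidue N ℓ hℓN A hA

theorem algebraMap_mem_gO_iff (c : Qb) :
    algebraMap Qb ↥(modularFunctionFieldBar N) c ∈ gO N ℓ hℓN A hA ↔ c ∈ A :=
  helper508.algebraMap_mem_gaussValuationSubring_iff N ℓ hℓN A hA c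

/-- `hVG` of `kummer_ff`: the value group of the Gauss valuation is that of the constants. -/
theorem hVG (f : ↥(modularFunctionFieldBar N)) (hf : f ≠ 0) :
    ∃ c : Qb, (gO N ℓ hℓN A hA).valuation (algebraMap Qb ↥(modularFunctionFieldBar N) c) =
      (gO N ℓ hℓN A hA).valuation f := by
  obtain ⟨c, w, _, hfw, hw, hwi⟩ := helper508.exists_const_mul_unit N ℓ hℓN A hA f hf
  refine ⟨c, ?_⟩
  have hw0 : w ≠ 0 := by
    rintro rfl
    rw [mul_zero] at hfw
    exact hf hfw
  have h1 : (gO N ℓ hℓN A hA).valuation w ≤ 1 := ((gO N ℓ hℓN A hA).valuation_le_one_iff w).2 hw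
  have h2 : (gO N ℓ hℓN A hA).valuation w⁻¹ ≤ 1 :=
    ((gO N ℓ hℓN A hA).valuation_le_one_iff w⁻¹).2 hwi
  have h3 : (gO N ℓ hℓN A hA).valuation w = 1 := by
    rw [map_inv₀] at h2
    have hv0 : (gO N ℓ hℓN A hA).valuation w ≠ 0 := (Valuation.ne_zero_iff _).mpr hw0
    have : 1 ≤ (gO N ℓ hℓN A hA).valuation w := by
      rwa [inv_le_one₀ (zero_lt_iff.mpr hv0)] at h2
    exact le_antisymm h1 this
  rw [hfw, map_mul, h3, mul_one]

/-- `hred` of `kummer_ff`: the kernel of the residue map is the maximal ideal. -/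
theorem hred (f : ↥(gO N ℓ hℓN A hA)) :
    gRed N ℓ hℓN A hA f = 0 ↔ (gO N ℓ hℓN A hA).valuation (f : ↥(modularFunctionFieldBar N)) < 1 := by
  have h0 := helper508.gaussResidue_eq_zero_iff N ℓ hℓN A hA f
  have h1 := (gO N ℓ hℓN A hA).valuation_eq_one_iff f
  have h2 := (gO N ℓ hℓN A hA).valuation_le_one f
  constructor
  · intro h
    exact lt_of_le_of_ne h2 (fun h' => (h0.mp h) (h1.mpr h'))
  · intro h
    exact h0.mpr (fun h' => h.ne (h1.mp h'))

/-- The residue of a constant of `A` is the constant residue. -/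
theorem gRed_algebraMap (a : Qb) (ha : a ∈ A)
    (hc : algebraMap Qb ↥(modularFunctionFieldBar N) a ∈ gO N ℓ hℓN A hA) :
    gRed N ℓ hℓN A hA ⟨algebraMap Qb ↥(modularFunctionFieldBar N) a, hc⟩ =
      algebraMap (IsLocalRing.ResidueField A)
        ↥(modularFunctionFieldFullC (IsLocalRing.ResidueField A) N)
        (IsLocalRing.residue A ⟨a, ha⟩) := by
  have hya : coeffMap A.subtype (HahnSeries.single 0 (⟨a, ha⟩ : A)) =
      algebraMap Qb (LaurentSeries Qb) a := by
    rw [coeffMap_single, algebraMap_laurentSeries_eq_single]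
    rfl
  have hy : coeffMap A.subtype (HahnSeries.single 0 (⟨a, ha⟩ : A)) ∈ modularFunctionFieldBar N := by
    rw [hya]
    exact (modularFunctionFieldBar N).algebraMap_mem a
  have h := helper508.gaussResidue_coeffMap N ℓ hℓN A hA (HahnSeries.single 0 (⟨a, ha⟩ : A)) hy
  apply Subtype.ext
  have e1 : (⟨algebraMap Qb ↥(modularFunctionFieldBar N) a, hc⟩ : ↥(gO N ℓ hℓN A hA)) =
      ⟨⟨coeffMap A.subtype (HahnSeries.single 0 (⟨a, ha⟩ : A)), hy⟩,
        helper508.coeffMap_mem_gaussValuationSubring N ℓ hℓN A hA _ hy⟩ := by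
    apply Subtype.ext
    apply Subtype.ext
    exact hya.symm
  rw [e1]
  refine h.trans ?_
  rw [coeffMap_single]
  exact (algebraMap_laurentSeries_eq_single _ _).symm

/-- `hredk_surj` of `kummer_ff`: constants of the residue field lift to constants. -/
theorem hredk_surj (c' : IsLocalRing.ResidueField A) :
    ∃ (c : Qb) (hc : algebraMap Qb ↥(modularFunctionFieldBar N) c ∈ gO N ℓ hℓN A hA),
      gRed N ℓ hℓN A hA ⟨algebraMap Qb ↥(modularFunctionFieldBar N) c, hc⟩ =
        algebraMap (IsLocalRing.ResidueField A)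
          ↥(modularFunctionFieldFullC (IsLocalRing.ResidueField A) N) c' := by
  obtain ⟨a, rfl⟩ := IsLocalRing.residue_surjective c'
  exact ⟨a.1, (algebraMap_mem_gO_iff N ℓ hℓN A hA a.1).2 a.2,
    gRed_algebraMap N ℓ hℓN A hA a.1 a.2 _⟩

/-! ### Constants: comparison of the Gauss valuation with the valuation of `A` -/

theorem val_algebraMap_le_one_iff (c : Qb) :
    (gO N ℓ hℓN A hA).valuation (algebraMap Qb ↥(modularFunctionFieldBar N) c) ≤ 1 ↔ c ∈ A := by
  rw [(gO N ℓ hℓN A hA).valuation_le_one_iff]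
  exact algebraMap_mem_gO_iff N ℓ hℓN A hA c

theorem val_algebraMap_lt_one_iff (c : Qb) :
    (gO N ℓ hℓN A hA).valuation (algebraMap Qb ↥(modularFunctionFieldBar N) c) < 1 ↔
      c ∈ A.nonunits := by
  rcases eq_or_ne c 0 with rfl | hc
  · rw [map_zero, map_zero]
    constructor
    · intro _
      rw [ValuationSubring.mem_nonunits_iff, map_zero]
      exact zero_lt_one
    · intro _
      exact zero_lt_one
  · have hc' : algebraMap Qb ↥(modularFunctionFieldBar N) c ≠ 0 := by
      simpa using hc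
    have hv0 : (gO N ℓ hℓN A hA).valuation (algebraMap Qb ↥(modularFunctionFieldBar N) c) ≠ 0 :=
      (Valuation.ne_zero_iff _).mpr hc'
    have hi := val_algebraMap_le_one_iff N ℓ hℓN A hA c⁻¹
    rw [map_inv₀, map_inv₀, inv_le_one₀ (zero_lt_iff.mpr hv0)] at hi
    rw [ValuationSubring.mem_nonunits_iff_or, ← not_le, hi]
    constructor
    · intro h
      exact Or.inr h
    · rintro (h | h)
      · exact absurd h hc
      · exact h

/-- `harch` of `kummer_ff`: the Gauss valuation has rank one. -/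
theorem harch (ε κ : (gO N ℓ hℓN A hA).ValueGroup) (hε : ε < 1) (hκ : κ ≠ 0) :
    ∃ n : ℕ, ε ^ n < κ := by
  refine helper2030.harch_of_constants (L := Qb) (gO N ℓ hℓN A hA) (hVG N ℓ hℓN A hA) ?_ ε κ hε hκ
  intro t c ht hc
  have htA : t ∈ A.nonunits := (val_algebraMap_lt_one_iff N ℓ hℓN A hA t).mp ht
  obtain ⟨n, b, hb, hn⟩ := helper9428.exists_pow_eq_mul_Qbar hA htA hc
  refine ⟨n, ?_⟩
  rw [hn, map_mul, map_mul]
  calc (gO N ℓ hℓN A hA).valuation (algebraMap Qb ↥(modularFunctionFieldBar N) c) *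
        (gO N ℓ hℓN A hA).valuation (algebraMap Qb ↥(modularFunctionFieldBar N) b)
      ≤ (gO N ℓ hℓN A hA).valuation (algebraMap Qb ↥(modularFunctionFieldBar N) c) * 1 :=
        mul_le_mul_right ((val_algebraMap_le_one_iff N ℓ hℓN A hA b).mpr hb) _
    _ = _ := mul_one _

/-- `hm` of `kummer_ff`: an integer prime to `ℓ` has Gauss norm one. -/
theorem hm (m : ℕ) (hmℓ : ¬ ℓ ∣ m) :
    (gO N ℓ hℓN A hA).valuation ((m : ℕ) : ↥(modularFunctionFieldBar N)) = 1 := by
  have h1 : A.valuation ((m : ℤ) : Qb) = 1 :=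
    helper9428.valuation_intCast_of_not_dvd (Fact.out : ℓ.Prime) hA (m : ℤ)
      (by exact_mod_cast hmℓ)
  have hm0 : ((m : ℤ) : Qb) ≠ 0 := by
    intro h
    rw [h, map_zero] at h1
    exact zero_ne_one h1
  have e : ((m : ℕ) : ↥(modularFunctionFieldBar N)) =
      algebraMap Qb ↥(modularFunctionFieldBar N) ((m : ℤ) : Qb) := by
    simp
  rw [e]
  have hle := (val_algebraMap_le_one_iff N ℓ hℓN A hA ((m : ℤ) : Qb)).mpr
    ((A.valuation_le_one_iff _).mp h1.le)
  have hnlt : ¬ (gO N ℓ hℓN A hA).valuation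
      (algebraMap Qb ↥(modularFunctionFieldBar N) ((m : ℤ) : Qb)) < 1 := by
    intro h
    have := (val_algebraMap_lt_one_iff N ℓ hℓN A hA _).mp h
    rw [ValuationSubring.mem_nonunits_iff, h1] at this
    exact lt_irrefl _ this
  exact le_antisymm hle (not_lt.mp hnlt)

/-! ### Integral functions -/

theorem gen_mem (a : helper3054.IntegralFn A N) : a.gen ∈ gO N ℓ hℓN A hA :=
  helper508.coeffMap_mem_gaussValuationSubring N ℓ hℓN A hA a.y a.mem

theorem gRed_gen (a : helper3054.IntegralFn A N) :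
    gRed N ℓ hℓN A hA ⟨a.gen, gen_mem N ℓ hℓN A hA a⟩ = a.red :=
  Subtype.ext (helper508.gaussResidue_coeffMap N ℓ hℓN A hA a.y a.mem)

theorem val_gen (a : helper3054.IntegralFn A N) :
    (gO N ℓ hℓN A hA).valuation a.gen = 1 := by
  have h1 := (gO N ℓ hℓN A hA).valuation_le_one ⟨a.gen, gen_mem N ℓ hℓN A hA a⟩
  refine le_antisymm h1 (not_lt.mp fun hlt => ?_)
  have := (hred N ℓ hℓN A hA ⟨a.gen, gen_mem N ℓ hℓN A hA a⟩).mpr hlt
  rw [gRed_gen] at this
  exact a.red_ne_zero this

/-- The Kummer element `u = a * b⁻¹` is a unit of the Gauss valuation ring. -/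
theorem val_mul_inv (a b : helper3054.IntegralFn A N) :
    (gO N ℓ hℓN A hA).valuation (a.gen * b.gen⁻¹) = 1 := by
  rw [map_mul, map_inv₀, val_gen, val_gen, inv_one, mul_one]

theorem mul_inv_mem (a b : helper3054.IntegralFn A N) : a.gen * b.gen⁻¹ ∈ gO N ℓ hℓN A hA :=
  ((gO N ℓ hℓN A hA).valuation_le_one_iff _).mp (val_mul_inv N ℓ hℓN A hA a b).le

/-- `hredu` of `kummer_ff`: if `ā = w ^ m * b̄` then the residue of `u = a * b⁻¹` is `w ^ m`. -/
theorem gRed_mul_inv (a b : helper3054.IntegralFn A N) (m : ℕ)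
    (w : ↥(modularFunctionFieldFullC (IsLocalRing.ResidueField A) N))
    (hw : a.red = w ^ m * b.red) :
    gRed N ℓ hℓN A hA ⟨a.gen * b.gen⁻¹, mul_inv_mem N ℓ hℓN A hA a b⟩ = w ^ m := by
  have hmul : (⟨a.gen * b.gen⁻¹, mul_inv_mem N ℓ hℓN A hA a b⟩ : ↥(gO N ℓ hℓN A hA)) *
      ⟨b.gen, gen_mem N ℓ hℓN A hA b⟩ = ⟨a.gen, gen_mem N ℓ hℓN A hA a⟩ := by
    apply Subtype.ext
    show a.gen * b.gen⁻¹ * b.gen = a.gen
    exact inv_mul_cancel_right₀ b.gen_ne_zero _
  have h := congrArg (gRed N ℓ hℓN A hA) hmul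
  rw [map_mul, gRed_gen, gRed_gen, hw] at h
  exact mul_right_cancel₀ b.red_ne_zero h

/-! ### Cartesian adapter (`hcart` of `kummer_ff`) -/

section Cart

variable {L F : Type*} [Field L] [Field F] [Algebra L F]

open helper1733 in
/-- An orthonormal basis (in the sense of `helper1733.IsOrtho`) of a subspace `V` is a basis in
the `hcart` shape of `helper2030.kummer_ff`. -/
theorem hcart_of_isOrtho (O : ValuationSubring F) {r : ℕ} {e : Fin r → F}
    (he : IsOrtho O.valuation L e) :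
    LinearIndependent L e ∧
      ∀ c : Fin r → L, (∑ i, c i • e i ∈ O ↔ ∀ i, algebraMap L F (c i) ∈ O) := by
  refine ⟨he.linearIndependent, fun c => ⟨fun h i => ?_, fun h => ?_⟩⟩
  · rw [← O.valuation_le_one_iff] at h ⊢
    exact (he.coeff_le_univ c i).trans h
  · rw [← O.valuation_le_one_iff]
    exact he.sum_le Finset.univ c (fun i _ => (O.valuation_le_one_iff _).mpr (h i))

open helper1733 in
/-- `hcart` of `kummer_ff` from a residually transcendental `x` and an orthonormal spanning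
family of `F` over `L(x)`. -/
theorem hcart_of_ortho (O : ValuationSubring F) {x : F} {ι : Type*} {b : ι → F}
    (hx : ResTranscendental O.valuation L x)
    (hb : IsOrtho O.valuation (IntermediateField.adjoin L {x}) b)
    (hspan : Submodule.span (IntermediateField.adjoin L {x}) (Set.range b) = ⊤)
    (V : Submodule L F) [FiniteDimensional L V] :
    ∃ (r : ℕ) (e : Fin r → F), LinearIndependent L e ∧
      Submodule.span L (Set.range e) = V ∧
      ∀ c : Fin r → L, (∑ i, c i • e i ∈ O ↔ ∀ i, algebraMap L F (c i) ∈ O) := by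
  obtain ⟨e, _, he, hspanV⟩ := exists_isOrtho_basis hx hb hspan V
  exact ⟨_, e, (hcart_of_isOrtho O he).1, hspanV, (hcart_of_isOrtho O he).2⟩

end Cart

/-! ### `hcart` at the modular instance, and the closing theorem of track A (places form) -/

open Fermat.Agent.S24.helper24 in
/-- All Riemann–Roch spaces of `F̄_N` are finite-dimensional (landed S24 place theory +
`helper981`). -/
theorem finite_rr (E : Divisor Qb ↥(modularFunctionFieldBar N)) :
    Module.Finite Qb (riemannRochSpace E) := by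
  have : HasPrincipalDivisors Kbar (FN N) := helper4226.hasPrincipalDivisors_FN N
  have : FiniteDimensional (IntermediateField.adjoin Kbar {jBar N}) (FN N) :=
    helper4226.finiteDimensional_jBar_FN N
  obtain ⟨P₀⟩ := helper3537.nonempty_place (K := Kbar) (F := FN N) (jBar N)
    (Fermat.Agent.S24.helper3176.transcendental_jBar N)
  exact helper981.finite_riemannRochSpace (K := Kbar) (F := FN N)
    (helper4226.place_deg_eq_one_FN N) P₀ E

/-- `hcart` of `kummer_ff` at the modular instance: every Riemann–Roch space of `F̄_N` has an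
orthonormal basis for the Gauss valuation. -/
theorem hcart (E : Divisor Qb ↥(modularFunctionFieldBar N)) :
    ∃ (r : ℕ) (e : Fin r → ↥(modularFunctionFieldBar N)), LinearIndependent Qb e ∧
      Submodule.span Qb (Set.range e) = riemannRochSpace E ∧
      ∀ c : Fin r → Qb, (∑ i, c i • e i ∈ gO N ℓ hℓN A hA ↔
        ∀ i, algebraMap Qb ↥(modularFunctionFieldBar N) (c i) ∈ gO N ℓ hℓN A hA) := by
  have := finite_rr N E
  obtain ⟨e, _, he, hspan⟩ :=
    helper1733.gauss_exists_isOrtho_basis N ℓ hℓN A hA (riemannRochSpace E)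
  exact ⟨_, e, (hcart_of_isOrtho (gO N ℓ hℓN A hA) he).1, hspan,
    (hcart_of_isOrtho (gO N ℓ hℓN A hA) he).2⟩

/-- **Track A, places form, at the modular instance.** `helper2030.kummer_ff` with every
Gauss-side hypothesis (`hVG`, `harch`, `hred`, `hredk_surj`, `hcart`, `hm`, `hu`, `hredu`)
discharged: what is left is the geometry of the base line `x` on the two fibres
(pole/zero divisors of `x` and of its reduction, all of degree `d`), the reduction containment
`hRC` and ONE genus bound `γ` for both fibres. -/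
theorem exists_mem_rr_of_geom
    (x : ↥(modularFunctionFieldBar N)) (hx : x ∈ gO N ℓ hℓN A hA)
    (hxne : gRed N ℓ hℓN A hA ⟨x, hx⟩ ≠ 0)
    (Xinf X0 : Divisor Qb ↥(modularFunctionFieldBar N)) (hXinf : 0 ≤ Xinf) (hX0 : 0 ≤ X0)
    (hdisj : ∀ P : Place Qb ↥(modularFunctionFieldBar N), Xinf P = 0 ∨ X0 P = 0)
    (hordx : ∀ P : Place Qb ↥(modularFunctionFieldBar N), P.ord x = X0 P - Xinf P)
    (Yinf Y0 : Divisor (IsLocalRing.ResidueField A)
      ↥(modularFunctionFieldFullC (IsLocalRing.ResidueField A) N))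
    (hYinf : 0 ≤ Yinf) (hY0 : 0 ≤ Y0)
    (hdisjk : ∀ Q, Yinf Q = 0 ∨ Y0 Q = 0)
    (hordxk : ∀ Q : Place (IsLocalRing.ResidueField A)
      ↥(modularFunctionFieldFullC (IsLocalRing.ResidueField A) N),
      Q.ord (gRed N ℓ hℓN A hA ⟨x, hx⟩) = Y0 Q - Yinf Q)
    (d : ℤ) (hdpos : 0 < d)
    (hdX : Divisor.degree Xinf = d) (hdX0 : Divisor.degree X0 = d)
    (hdY : Divisor.degree Yinf = d) (hdY0 : Divisor.degree Y0 = d)
    (hRC : ∀ (n : ℕ) (f : ↥(modularFunctionFieldBar N)) (hf : f ∈ gO N ℓ hℓN A hA),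
      f ∈ riemannRochSpace (n • Xinf) →
      gRed N ℓ hℓN A hA ⟨f, hf⟩ ∈ riemannRochSpace (n • Yinf))
    (γ : ℤ)
    (hRiemF : ∀ D : Divisor Qb ↥(modularFunctionFieldBar N),
      Divisor.degree D + 1 - γ ≤ (Module.finrank Qb (riemannRochSpace D) : ℤ))
    (hfink : ∀ E : Divisor (IsLocalRing.ResidueField A)
      ↥(modularFunctionFieldFullC (IsLocalRing.ResidueField A) N),
      Module.Finite (IsLocalRing.ResidueField A) (riemannRochSpace E))
    (cK : ℤ)
    (hRiemk : ∀ E : Divisor (IsLocalRing.ResidueField A)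
      ↥(modularFunctionFieldFullC (IsLocalRing.ResidueField A) N),
      cK ≤ Divisor.degree E →
      (Module.finrank (IsLocalRing.ResidueField A) (riemannRochSpace E) : ℤ) ≤
        Divisor.degree E + 1 - γ)
    (m : ℕ) (hmℓ : ¬ ℓ ∣ m) (a b : helper3054.IntegralFn A N)
    (D0 : Divisor Qb ↥(modularFunctionFieldBar N)) (hD0 : Divisor.degree D0 = 0)
    (hordu : ∀ P : Place Qb ↥(modularFunctionFieldBar N),
      P.ord (a.gen * b.gen⁻¹) = (m : ℤ) * D0 P)
    (w : ↥(modularFunctionFieldFullC (IsLocalRing.ResidueField A) N)) (hw : w ≠ 0)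
    (hredab : a.red = w ^ m * b.red) :
    ∃ f : ↥(modularFunctionFieldBar N), f ≠ 0 ∧ f ∈ riemannRochSpace D0 :=
  helper2030.kummer_ff (L := Qb) (k := IsLocalRing.ResidueField A)
    (gO N ℓ hℓN A hA) (hVG N ℓ hℓN A hA) (harch N ℓ hℓN A hA) (gRed N ℓ hℓN A hA)
    (hred N ℓ hℓN A hA) (hredk_surj N ℓ hℓN A hA) x hx hxne Xinf X0 hXinf hX0 hdisj hordx
    Yinf Y0 hYinf hY0 hdisjk hordxk d hdpos hdX hdX0 hdY hdY0 hRC D0 hD0
    (hcart N ℓ hℓN A hA) γ hRiemF hfink cK hRiemk m (hm N ℓ hℓN A hA m hmℓ)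
    (a.gen * b.gen⁻¹) (mul_inv_mem N ℓ hℓN A hA a b) hordu w hw
    (gRed_mul_inv N ℓ hℓN A hA a b m w hredab)

/-- The geometric inputs of the places form of track A at a place `A` over `ℓ ∤ N`: a base line
`x` (a unit of the Gauss ring), its pole and zero divisors on both fibres, all of the same degree
`d > 0`, the reduction containment for the multiples of the pole divisor, and ONE genus bound `γ`
(Riemann's inequality on `F̄_N`, the reverse inequality in large degree on the special fibre). -/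
def GeomInputs : Prop :=
  ∃ (x : ↥(modularFunctionFieldBar N)) (hx : x ∈ gO N ℓ hℓN A hA)
    (Xinf X0 : Divisor Qb ↥(modularFunctionFieldBar N))
    (Yinf Y0 : Divisor (IsLocalRing.ResidueField A)
      ↥(modularFunctionFieldFullC (IsLocalRing.ResidueField A) N))
    (d γ cK : ℤ),
    gRed N ℓ hℓN A hA ⟨x, hx⟩ ≠ 0 ∧
    0 ≤ Xinf ∧ 0 ≤ X0 ∧
    (∀ P : Place Qb ↥(modularFunctionFieldBar N), Xinf P = 0 ∨ X0 P = 0) ∧
    (∀ P : Place Qb ↥(modularFunctionFieldBar N), P.ord x = X0 P - Xinf P) ∧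
    0 ≤ Yinf ∧ 0 ≤ Y0 ∧
    (∀ Q, Yinf Q = 0 ∨ Y0 Q = 0) ∧
    (∀ Q : Place (IsLocalRing.ResidueField A)
      ↥(modularFunctionFieldFullC (IsLocalRing.ResidueField A) N),
      Q.ord (gRed N ℓ hℓN A hA ⟨x, hx⟩) = Y0 Q - Yinf Q) ∧
    0 < d ∧ Divisor.degree Xinf = d ∧ Divisor.degree X0 = d ∧
    Divisor.degree Yinf = d ∧ Divisor.degree Y0 = d ∧
    (∀ (n : ℕ) (f : ↥(modularFunctionFieldBar N)) (hf : f ∈ gO N ℓ hℓN A hA),
      f ∈ riemannRochSpace (n • Xinf) →
      gRed N ℓ hℓN A hA ⟨f, hf⟩ ∈ riemannRochSpace (n • Yinf)) ∧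
    (∀ D : Divisor Qb ↥(modularFunctionFieldBar N),
      Divisor.degree D + 1 - γ ≤ (Module.finrank Qb (riemannRochSpace D) : ℤ)) ∧
    (∀ E : Divisor (IsLocalRing.ResidueField A)
      ↥(modularFunctionFieldFullC (IsLocalRing.ResidueField A) N),
      Module.Finite (IsLocalRing.ResidueField A) (riemannRochSpace E)) ∧
    (∀ E : Divisor (IsLocalRing.ResidueField A)
      ↥(modularFunctionFieldFullC (IsLocalRing.ResidueField A) N),
      cK ≤ Divisor.degree E →
      (Module.finrank (IsLocalRing.ResidueField A) (riemannRochSpace E) : ℤ) ≤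
        Divisor.degree E + 1 - γ)

/-- **Track A, places form: `Stmt_KF0 N ℓ` from the geometric inputs alone** (one call of
`helper2030.kummer_ff` at the Gauss valuation of `helper508` + the end adapter of
`helper4226`). -/
theorem stmt_KF0_of_geomInputs
    (H : ∀ (A : ValuationSubring Qb) (hA : A.LiesOverPrime ℓ), GeomInputs N ℓ hℓN A hA) :
    helper3054.Stmt_KF0 N ℓ := by
  refine helper4226.stmt_KF0_of_forall_mem_rr_unit N ℓ ?_
  intro A hA m hmℓ a b D0 hD0 hordu w hw hredab
  obtain ⟨x, hx, Xinf, X0, Yinf, Y0, d, γ, cK, hxne, hXinf, hX0, hdisj, hordx, hYinf, hY0,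
    hdisjk, hordxk, hdpos, hdX, hdX0, hdY, hdY0, hRC, hRiemF, hfink, hRiemk⟩ := H A hA
  exact exists_mem_rr_of_geom N ℓ hℓN A hA x hx hxne Xinf X0 hXinf hX0 hdisj hordx Yinf Y0
    hYinf hY0 hdisjk hordxk d hdpos hdX hdX0 hdY hdY0 hRC γ hRiemF hfink cK hRiemk m hmℓ a b
    D0 hD0 hordu w hw hredab

end Fermat.Agent.S18.helper1466
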