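/-
S18 (helper1466): track A, places form — the geometric inputs `GeomInputs` of
`helper1466.stmt_KF0_of_geomInputs` from a base line `t` (divisor side), in landed vocabulary.

Inputs left: the line `t` (Gauss unit, residually transcendental, `j ∈ ℚ̄(t)`), the equality of
the degrees of the two fibres over the line, and the comparison of the Riemann genera
`g(F̄_N) ≤ g(F_{k,N})`.
-/
import Fermat.Agent.S18.helper1466_GaussFF
import Fermat.Agent.S18.helper981_FundEq
import Fermat.Agent.S18.helper6458_PrincipalDegSep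
import Fermat.Agent.S18.helper9392_Separable
import Fermat.Agent.S37.helper1588_FFKDegree
import Fermat.Agent.Lib.helper6879_ResidueQbar
import Fermat.Agent.S18.helper7885_PlacesFF

set_option autoImplicit false
set_option synthInstance.maxHeartbeats 400000

noncomputable section

namespace Fermat.Agent.S18.helper1466

open ModularCurve AlgebraicCurve HahnSeries IntermediateField

local notation "Qb" => AlgebraicClosure ℚ

/-! ### Pole and zero divisors of a transcendental function -/

section Abstract

variable {K F : Type*} [Field K] [Field F] [Algebra K F]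

/-- The pole and zero divisors of a transcendental `x`, with every property used by
`helper2030.kummer_ff`: both are effective, disjoint, `div x = X0 - Xinf`, and both have degree
`[F : K(x)]` (fundamental equality, `helper981_FundEq`). -/
theorem exists_pole_zero_divisors [HasPrincipalDivisors K F]
    (hdeg : ∀ v : Place K F, v.deg = 1) (P₀ : Place K F)
    (x : F) (hx : Transcendental K x) [FiniteDimensional K⟮x⟯ F] :
    ∃ Xinf X0 : Divisor K F,
      helper6292.IsPoleDivisor x Xinf ∧ helper6292.IsZeroDivisor x X0 ∧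
      0 ≤ Xinf ∧ 0 ≤ X0 ∧
      (∀ P : Place K F, Xinf P = 0 ∨ X0 P = 0) ∧
      (∀ P : Place K F, P.ord x = X0 P - Xinf P) ∧
      Divisor.degree Xinf = (Module.finrank K⟮x⟯ F : ℤ) ∧
      Divisor.degree X0 = (Module.finrank K⟮x⟯ F : ℤ) := by
  have hx0 : x ≠ 0 := fun h => hx (h ▸ isAlgebraic_zero)
  obtain ⟨B, hB⟩ := helper981.exists_poleDivisor (K := K) hx0
  obtain ⟨Z, hZ⟩ := helper981.exists_zeroDivisor (K := K) hx0
  refine ⟨B, Z, hB, hZ, ?_, ?_, ?_, ?_, ?_, ?_⟩
  · exact Finsupp.le_def.mpr fun v => by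
      rw [hB v, Finsupp.zero_apply]; exact le_max_left _ _
  · exact Finsupp.le_def.mpr fun v => by
      rw [hZ v, Finsupp.zero_apply]; exact le_max_left _ _
  · intro P
    rcases le_total 0 (P.ord x) with h | h
    · left
      rw [hB P]
      exact max_eq_left (by omega)
    · right
      rw [hZ P]
      exact max_eq_left h
  · intro P
    rw [hB P, hZ P]
    rcases le_total 0 (P.ord x) with h | h
    · rw [max_eq_right h, max_eq_left (by omega : -(P.ord x) ≤ 0)]
      ring
    · rw [max_eq_left h, max_eq_right (by omega : 0 ≤ -(P.ord x))]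
      ring
  · exact helper981.degree_poleDivisor_eq_finrank hdeg P₀ x hx B hB
  · exact helper981.degree_zeroDivisor_eq_finrank hdeg P₀ x hx Z hZ

end Abstract

/-! ### The two-fibre statement for a valued function field -/

section TwoFibre

variable {L F k Fk : Type*} [Field L] [Field F] [Algebra L F] [Field k] [Field Fk] [Algebra k Fk]

open helper1733 in
/-- **Divisor side of `kummer_ff`** for a valued function field `(F, O, red : O → Fk)` and a
base line `x` with an orthonormal basis over `L(x)`: pole/zero divisors of `x` and of its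
reduction, all of degree `d = [F : L(x)] = [Fk : k(x̄)]`, the reduction containment `hRC`, and
the two Riemann statements with `γ = g(F)` as soon as `g(F) ≤ g(Fk)`. -/
theorem exists_geom_of_line [CharZero L]
    [HasPrincipalDivisors L F] (hdegF : ∀ v : Place L F, v.deg = 1) (P₀ : Place L F)
    [HasPrincipalDivisors k Fk] (hdegk : ∀ v : Place k Fk, v.deg = 1) (Q₀ : Place k Fk)
    (O : ValuationSubring F) (red : O →+* Fk)
    (hcompat : ∀ (a : L) (ha : algebraMap L F a ∈ O),
      ∃ c : k, red ⟨algebraMap L F a, ha⟩ = algebraMap k Fk c)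
    (x : F) (hx : x ∈ O) (hres : ResTranscendental O.valuation L x)
    {ι : Type*} [Fintype ι] {b : ι → F} (hb : IsOrtho O.valuation L⟮x⟯ b)
    (hspan : Submodule.span L⟮x⟯ (Set.range b) = ⊤)
    (hxb : Transcendental k (red ⟨x, hx⟩)) [FiniteDimensional k⟮red ⟨x, hx⟩⟯ Fk]
    (hdeg : Module.finrank L⟮x⟯ F = Module.finrank k⟮red ⟨x, hx⟩⟯ Fk)
    (hgenus : helper981.riemannGenus L F ≤ helper981.riemannGenus k Fk) :
    ∃ (Xinf X0 : Divisor L F) (Yinf Y0 : Divisor k Fk) (d γ cK : ℤ),
      red ⟨x, hx⟩ ≠ 0 ∧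
      0 ≤ Xinf ∧ 0 ≤ X0 ∧
      (∀ P : Place L F, Xinf P = 0 ∨ X0 P = 0) ∧
      (∀ P : Place L F, P.ord x = X0 P - Xinf P) ∧
      0 ≤ Yinf ∧ 0 ≤ Y0 ∧
      (∀ Q : Place k Fk, Yinf Q = 0 ∨ Y0 Q = 0) ∧
      (∀ Q : Place k Fk, Q.ord (red ⟨x, hx⟩) = Y0 Q - Yinf Q) ∧
      0 < d ∧ Divisor.degree Xinf = d ∧ Divisor.degree X0 = d ∧
      Divisor.degree Yinf = d ∧ Divisor.degree Y0 = d ∧
      (∀ (n : ℕ) (f : F) (hf : f ∈ O), f ∈ riemannRochSpace (n • Xinf) →
        red ⟨f, hf⟩ ∈ riemannRochSpace (n • Yinf)) ∧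
      (∀ D : Divisor L F,
        Divisor.degree D + 1 - γ ≤ (Module.finrank L (riemannRochSpace D) : ℤ)) ∧
      (∀ E : Divisor k Fk, Module.Finite k (riemannRochSpace E)) ∧
      (∀ E : Divisor k Fk, cK ≤ Divisor.degree E →
        (Module.finrank k (riemannRochSpace E) : ℤ) ≤ Divisor.degree E + 1 - γ) := by
  have : FiniteDimensional L⟮x⟯ F :=
    Module.Finite.of_basis (Module.Basis.mk hb.linearIndependent hspan.ge)
  have hxT : Transcendental L x := hres.transcendental
  obtain ⟨Xinf, X0, hXinf, -, hXinf0, hX00, hdisj, hordx, hdX, hdX0⟩ :=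
    exists_pole_zero_divisors hdegF P₀ x hxT
  obtain ⟨Yinf, Y0, hYinf, -, hYinf0, hY00, hdisjk, hordxk, hdY, hdY0⟩ :=
    exists_pole_zero_divisors hdegk Q₀ (red ⟨x, hx⟩) hxb
  obtain ⟨hRF, -⟩ := helper981.exists_forall_finrank_eq_of_transcendental x hxT P₀ hdegF
  obtain ⟨-, cK, hRk⟩ :=
    helper981.exists_forall_finrank_eq_of_transcendental (red ⟨x, hx⟩) hxb Q₀ hdegk
  refine ⟨Xinf, X0, Yinf, Y0, (Module.finrank L⟮x⟯ F : ℤ), (helper981.riemannGenus L F : ℤ), cK,
    ?_, hXinf0, hX00, hdisj, hordx, hYinf0, hY00, hdisjk, hordxk, ?_, hdX, hdX0, ?_, ?_, ?_,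
    hRF, ?_, ?_⟩
  · exact fun h => hxb (h ▸ isAlgebraic_zero)
  · exact_mod_cast (Module.finrank_pos : 0 < Module.finrank L⟮x⟯ F)
  · rw [hdY, hdeg]
  · rw [hdY0, hdeg]
  · intro n f hf hfL
    exact red_mem_riemannRochSpace_of_isOrtho O red hcompat hx hres hb hspan hXinf hYinf n hf hfL
  · exact fun E => helper981.finite_riemannRochSpace hdegk Q₀ E
  · intro E hE
    rw [hRk E hE]
    have : (helper981.riemannGenus L F : ℤ) ≤ (helper981.riemannGenus k Fk : ℤ) := by
      exact_mod_cast hgenus
    omega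

end TwoFibre

/-! ### The modular instance -/

section Modular

variable (N : ℕ) [NeZero N] (ℓ : ℕ) [Fact ℓ.Prime] (hℓN : ¬ ℓ ∣ N)
  (A : ValuationSubring Qb) (hA : A.LiesOverPrime ℓ)

include hℓN hA in
/-- The primes of `N` are invertible in the residue field (of characteristic `ℓ ∤ N`). -/
theorem natCast_prime_ne_zero_residue (p : ℕ) (hp : p.Prime) (hpN : p ∣ N) :
    (p : IsLocalRing.ResidueField A) ≠ 0 := by
  have hchar := helper508.charP_residueField ℓ A hA
  intro h
  have hdvd : ℓ ∣ p := (CharP.cast_eq_zero_iff (IsLocalRing.ResidueField A) ℓ p).mp h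
  have heq : ℓ = p := (Nat.prime_dvd_prime_iff_eq (Fact.out : ℓ.Prime) hp).mp hdvd
  exact hℓN (heq ▸ hpN)

include hℓN hA in
/-- **Place theory on the special fibre at every level `N` with `ℓ ∤ N`** (no place reduction
needed): principal divisors of degree zero, all places of degree one, and a place. From the
landed S28 degree theorem, separability over `k(j̄)` (`helper9392`) and `helper6458`. -/
theorem specialFibre_places :
    ∃ (_ : HasPrincipalDivisors (IsLocalRing.ResidueField A)
        ↥(modularFunctionFieldFullC (IsLocalRing.ResidueField A) N)),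
      (∀ v : Place (IsLocalRing.ResidueField A)
        ↥(modularFunctionFieldFullC (IsLocalRing.ResidueField A) N), v.deg = 1) ∧
      Nonempty (Place (IsLocalRing.ResidueField A)
        ↥(modularFunctionFieldFullC (IsLocalRing.ResidueField A) N)) := by
  have hchar : CharP (IsLocalRing.ResidueField A) ℓ := helper508.charP_residueField ℓ A hA
  have halg : IsAlgClosed (IsLocalRing.ResidueField A) :=
    Lib.helper6879.isAlgClosed_residueField A
  have hMK := natCast_prime_ne_zero_residue N ℓ hℓN A hA
  have hfin : FiniteDimensional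
      (IsLocalRing.ResidueField A)⟮helper9392.jbarC (IsLocalRing.ResidueField A) N⟯
      ↥(modularFunctionFieldFullC (IsLocalRing.ResidueField A) N) :=
    S37.helper1588.finiteDimensional_jC (IsLocalRing.ResidueField A) N hMK
  have hsep : Algebra.IsSeparable
      (IsLocalRing.ResidueField A)⟮helper9392.jbarC (IsLocalRing.ResidueField A) N⟯
      ↥(modularFunctionFieldFullC (IsLocalRing.ResidueField A) N) :=
    helper9392.isSeparable_modularFunctionFieldFullC_of_isAlgClosed
      (IsLocalRing.ResidueField A) ℓ N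
  have htr : Transcendental (IsLocalRing.ResidueField A)
      (helper9392.jbarC (IsLocalRing.ResidueField A) N) :=
    S37.helper1588.transcendental_jC (IsLocalRing.ResidueField A) N
  refine ⟨helper6458.hasPrincipalDivisors_of_isSeparable _ htr,
    fun v => helper6458.place_deg_eq_one_of_isSeparable _ htr v, ?_⟩
  obtain ⟨v, -⟩ := helper7885.exists_place_adicValuation_lt_one
    (helper9392.jbarC (IsLocalRing.ResidueField A) N) htr
  exact ⟨v⟩

open Fermat.Agent.S24.helper24 in
/-- **`GeomInputs` from a base line.** For a Gauss unit `t` which is residually transcendental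
with `j ∈ ℚ̄(t)` (so that `F̄_N` has an orthonormal basis over `ℚ̄(t)`), whose reduction is
transcendental with `[F̄_N : ℚ̄(t)] = [F_{k,N} : k(t̄)]`, the geometric inputs of the places form
of track A hold as soon as `g(F̄_N) ≤ g(F_{k,N})` (Riemann genera, `helper981.riemannGenus`). -/
theorem geomInputs_of_line
    (t : ↥(modularFunctionFieldBar N)) (htO : t ∈ gO N ℓ hℓN A hA)
    (ht : helper1733.ResTranscendental (gO N ℓ hℓN A hA).valuation Qb t)
    (hj : helper1733.gaussJ Qb N ∈ Qb⟮t⟯)
    (htb : Transcendental (IsLocalRing.ResidueField A) (gRed N ℓ hℓN A hA ⟨t, htO⟩))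
    [FiniteDimensional (IsLocalRing.ResidueField A)⟮gRed N ℓ hℓN A hA ⟨t, htO⟩⟯
      ↥(modularFunctionFieldFullC (IsLocalRing.ResidueField A) N)]
    (hdeg : Module.finrank Qb⟮t⟯ ↥(modularFunctionFieldBar N) =
      Module.finrank (IsLocalRing.ResidueField A)⟮gRed N ℓ hℓN A hA ⟨t, htO⟩⟯
        ↥(modularFunctionFieldFullC (IsLocalRing.ResidueField A) N))
    (hgenus : helper981.riemannGenus Qb ↥(modularFunctionFieldBar N) ≤
      helper981.riemannGenus (IsLocalRing.ResidueField A)
        ↥(modularFunctionFieldFullC (IsLocalRing.ResidueField A) N)) :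
    GeomInputs N ℓ hℓN A hA := by
  obtain ⟨e, -, he, hspan⟩ :=
    helper1733.gauss_exists_orthoSys_of_mem_adjoin N ℓ hℓN A hA ht hj
  obtain ⟨hPk, hdegk, ⟨Q₀⟩⟩ := specialFibre_places N ℓ hℓN A hA
  have hPF : HasPrincipalDivisors Kbar (FN N) := helper4226.hasPrincipalDivisors_FN N
  have hfinj : FiniteDimensional (IntermediateField.adjoin Kbar {jBar N}) (FN N) :=
    helper4226.finiteDimensional_jBar_FN N
  obtain ⟨P₀⟩ := helper3537.nonempty_place (K := Kbar) (F := FN N) (jBar N)
    (Fermat.Agent.S24.helper3176.transcendental_jBar N)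
  obtain ⟨Xinf, X0, Yinf, Y0, d, γ, cK, h⟩ :=
    exists_geom_of_line (L := Qb) (k := IsLocalRing.ResidueField A)
      (helper4226.place_deg_eq_one_FN N) P₀ hdegk Q₀ (gO N ℓ hℓN A hA) (gRed N ℓ hℓN A hA)
      (helper1733.gauss_compat N ℓ hℓN A hA) t htO ht he hspan htb hdeg hgenus
  exact ⟨t, htO, Xinf, X0, Yinf, Y0, d, γ, cK, h⟩

end Modular

end Fermat.Agent.S18.helper1466
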