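import Mathlib

/-!
# S18: one-shot Kummer core (helper1546)

Valuation-only form of the Kummer core of the S18 route: no Newton iteration, no rank-one
hypothesis, no chain of levels.  `M₁ = L(D₀ + n X_∞)`, `M₂ = L(D₀ + n X_0)` (twisted charts at one
level `n`), `W₁ = L(mn X_∞)`, `W₂ = L(mn X_0)` (untwisted charts at level `mn`), `div u = m D₀`,
`a₀`, `b₀` lifts of the special-fibre section in the two charts.  Conclusion: `M₁ ⊓ M₂ ≠ ⊥`,
i.e. `L(D₀) ≠ 0`.
-/

namespace Fermat.Agent.S18.helper1546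

open Finset

variable {L F Γ₀ : Type*} [Field L] [Field F] [Algebra L F] [LinearOrderedCommGroupWithZero Γ₀]

/-- `e` is a `v`-orthonormal family over `L`: every `e i` has norm `≤ 1` and every coefficient of an
`L`-linear combination is bounded by the norm of the combination
(so `v (∑ c i • e i) = max_i v (c i)`). -/
def IsOrtho (v : Valuation F Γ₀) {ι : Type*} [Fintype ι] (e : ι → F) : Prop :=
  (∀ i, v (e i) ≤ 1) ∧ ∀ (c : ι → L) (i : ι), v (algebraMap L F (c i)) ≤ v (∑ j, c j • e j)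

/-- `V` has a finite `v`-orthonormal basis. -/
def HasOrthoBasis (v : Valuation F Γ₀) (V : Submodule L F) : Prop :=
  ∃ (n : ℕ) (e : Fin n → F), IsOrtho (L := L) v e ∧ (∀ i, e i ∈ V) ∧
    V ≤ Submodule.span L (Set.range e)

theorem val_smul (v : Valuation F Γ₀) (c : L) (x : F) :
    v (c • x) = v (algebraMap L F c) * v x := by
  rw [Algebra.smul_def, map_mul]

theorem IsOrtho.val_eq_one {v : Valuation F Γ₀} {ι : Type*} [Fintype ι] [DecidableEq ι]
    {e : ι → F} (he : IsOrtho (L := L) v e) (t : ι) : v (e t) = 1 := by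
  refine le_antisymm (he.1 t) ?_
  have h := he.2 (Pi.single t (1 : L)) t
  have hsum : ∑ j, (Pi.single t (1 : L) : ι → L) j • e j = e t := by
    rw [Finset.sum_eq_single t]
    · simp
    · intro b _ hb
      simp [hb]
    · intro h; exact absurd (Finset.mem_univ t) h
  rw [hsum] at h
  simpa using h

theorem IsOrtho.exists_repr {v : Valuation F Γ₀} {ι : Type*} [Fintype ι]
    {e : ι → F} (he : IsOrtho (L := L) v e) {x : F} (hx : x ∈ Submodule.span L (Set.range e)) :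
    ∃ c : ι → L, x = ∑ i, c i • e i ∧ ∀ i, v (algebraMap L F (c i)) ≤ v x := by
  obtain ⟨c, hc⟩ := (Submodule.mem_span_range_iff_exists_fun L).1 hx
  refine ⟨c, hc.symm, fun i => ?_⟩
  rw [← hc]
  exact he.2 c i

/-- The basic estimate: if `M₁ ⊓ M₂ = ⊥` and `e t = p t - q t` is an orthonormal basis of
`M₁ ⊔ M₂` with all `p t`, `q t` of norm `≤ ν`, then `max (v a) (v b) ≤ ν * v (a - b)` on
`M₁ × M₂`. -/
theorem claim (v : Valuation F Γ₀) {M₁ M₂ : Submodule L F} (hdisj : M₁ ⊓ M₂ = ⊥)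
    {n : ℕ} {e : Fin n → F} (he : IsOrtho (L := L) v e)
    (hspan : M₁ ⊔ M₂ ≤ Submodule.span L (Set.range e))
    (p q : Fin n → F) (hp : ∀ t, p t ∈ M₁) (hq : ∀ t, q t ∈ M₂) (hpq : ∀ t, e t = p t - q t)
    (ν : Γ₀) (hν₁ : ∀ t, v (p t) ≤ ν) (hν₂ : ∀ t, v (q t) ≤ ν)
    {a b : F} (ha : a ∈ M₁) (hb : b ∈ M₂) :
    v a ≤ ν * v (a - b) ∧ v b ≤ ν * v (a - b) := by
  have hab : a - b ∈ Submodule.span L (Set.range e) :=
    hspan (Submodule.sub_mem _ (Submodule.mem_sup_left ha) (Submodule.mem_sup_right hb))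
  obtain ⟨y, hy, hyv⟩ := he.exists_repr hab
  have hsum : ∑ t, y t • e t = ∑ t, y t • p t - ∑ t, y t • q t := by
    rw [← Finset.sum_sub_distrib]
    refine Finset.sum_congr rfl fun t _ => ?_
    rw [hpq t, smul_sub]
  rw [hsum] at hy
  have hz : a - ∑ t, y t • p t = b - ∑ t, y t • q t := by linear_combination hy
  have h1 : a - ∑ t, y t • p t ∈ M₁ :=
    M₁.sub_mem ha (M₁.sum_mem fun t _ => M₁.smul_mem _ (hp t))
  have h2 : a - ∑ t, y t • p t ∈ M₂ := by
    rw [hz]; exact M₂.sub_mem hb (M₂.sum_mem fun t _ => M₂.smul_mem _ (hq t))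
  have h0 : a - ∑ t, y t • p t = 0 := by
    have h12 : a - ∑ t, y t • p t ∈ M₁ ⊓ M₂ := ⟨h1, h2⟩
    rw [hdisj] at h12
    simpa using h12
  have ha' : a = ∑ t, y t • p t := sub_eq_zero.1 h0
  have hb' : b = ∑ t, y t • q t := sub_eq_zero.1 (hz ▸ h0)
  constructor
  · calc v a = v (∑ t, y t • p t) := by rw [← ha']
      _ ≤ ν * v (a - b) := by
        refine Valuation.map_sum_le v fun t _ => ?_
        rw [val_smul, mul_comm]
        exact mul_le_mul' (hν₁ t) (hyv t)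
  · calc v b = v (∑ t, y t • q t) := by rw [← hb']
      _ ≤ ν * v (a - b) := by
        refine Valuation.map_sum_le v fun t _ => ?_
        rw [val_smul, mul_comm]
        exact mul_le_mul' (hν₂ t) (hyv t)

/-- Untwisted saturation: if `W₁` has an orthonormal basis, `1 ∈ W₁ ⊓ W₂` and the reductions of
`W₁`, `W₂` meet only in constants (`hZ`), then a pair `(a, b) ∈ W₁ × W₂` with `v (a - b) ≤ 1` can
be made integral by subtracting one constant. -/
theorem exists_const_sub (v : Valuation F Γ₀)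
    (hval : ∀ x : F, ∃ c : L, v (algebraMap L F c) = v x)
    {W₁ W₂ : Submodule L F} (hW : HasOrthoBasis v W₁) (h1W₁ : (1 : F) ∈ W₁) (h1W₂ : (1 : F) ∈ W₂)
    (hZ : ∀ a ∈ W₁, ∀ b ∈ W₂, v a ≤ 1 → v b ≤ 1 → v (a - b) < 1 →
        ∃ c : L, v (algebraMap L F c) ≤ 1 ∧ v (a - algebraMap L F c) < 1)
    {a b : F} (ha : a ∈ W₁) (hb : b ∈ W₂) (hab : v (a - b) ≤ 1) :
    ∃ c : L, v (a - algebraMap L F c) ≤ 1 ∧ v (b - algebraMap L F c) ≤ 1 := by
  obtain ⟨n, w, hw, -, hspan⟩ := hW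
  obtain ⟨ε, hε, hεv⟩ := hw.exists_repr (hspan h1W₁)
  have hex : ∃ i, v (algebraMap L F (ε i)) = 1 := by
    by_contra hcon
    rw [not_exists] at hcon
    have hlt : v (∑ i, ε i • w i) < 1 := by
      refine Valuation.map_sum_lt v one_ne_zero fun i _ => ?_
      rw [val_smul]
      have h1 : v (algebraMap L F (ε i)) < 1 :=
        lt_of_le_of_ne (by simpa using hεv i) (hcon i)
      calc v (algebraMap L F (ε i)) * v (w i) ≤ v (algebraMap L F (ε i)) * 1 :=
            mul_le_mul' le_rfl (hw.1 i)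
        _ = v (algebraMap L F (ε i)) := mul_one _
        _ < 1 := h1
    rw [← hε, map_one] at hlt
    exact lt_irrefl _ hlt
  obtain ⟨i₀, hi₀⟩ := hex
  have hε0 : ε i₀ ≠ 0 := by
    intro h
    rw [h, map_zero, map_zero] at hi₀
    exact zero_ne_one hi₀
  obtain ⟨α, hα, -⟩ := hw.exists_repr (hspan ha)
  set c : L := α i₀ / ε i₀ with hc
  have hcW : ∀ d : L, algebraMap L F d = ∑ i, (d * ε i) • w i := by
    intro d
    rw [Algebra.algebraMap_eq_smul_one]
    conv_lhs => rw [hε]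
    rw [Finset.smul_sum]
    exact Finset.sum_congr rfl fun i _ => by rw [mul_smul]
  have hcmem₁ : ∀ d : L, algebraMap L F d ∈ W₁ := fun d => by
    rw [Algebra.algebraMap_eq_smul_one]; exact W₁.smul_mem _ h1W₁
  have hcmem₂ : ∀ d : L, algebraMap L F d ∈ W₂ := fun d => by
    rw [Algebra.algebraMap_eq_smul_one]; exact W₂.smul_mem _ h1W₂
  have hA : v (a - algebraMap L F c) ≤ 1 := by
    by_contra hgt
    rw [not_le] at hgt
    obtain ⟨lam, hlam⟩ := hval (a - algebraMap L F c)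
    have hv0 : v (a - algebraMap L F c) ≠ 0 := ne_of_gt (lt_trans zero_lt_one hgt)
    have hlam0 : v (algebraMap L F lam⁻¹) * v (a - algebraMap L F c) = 1 := by
      rw [map_inv₀, map_inv₀, hlam, inv_mul_cancel₀ hv0]
    have hlamlt : v (algebraMap L F lam⁻¹) < 1 := by
      rw [map_inv₀, map_inv₀, hlam]
      exact inv_lt_one_of_one_lt₀ hgt
    set a' : F := lam⁻¹ • (a - algebraMap L F c) with ha'
    set b' : F := lam⁻¹ • (b - algebraMap L F c) with hb'
    have ha'W : a' ∈ W₁ := W₁.smul_mem _ (W₁.sub_mem ha (hcmem₁ c))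
    have hb'W : b' ∈ W₂ := W₂.smul_mem _ (W₂.sub_mem hb (hcmem₂ c))
    have hva' : v a' = 1 := by rw [ha', val_smul, hlam0]
    have hsub : a' - b' = lam⁻¹ • (a - b) := by
      rw [ha', hb', ← smul_sub]; congr 1; ring
    have hvsub : v (a' - b') < 1 := by
      rw [hsub, val_smul]
      calc v (algebraMap L F lam⁻¹) * v (a - b) ≤ v (algebraMap L F lam⁻¹) * 1 :=
            mul_le_mul' le_rfl hab
        _ = v (algebraMap L F lam⁻¹) := mul_one _
        _ < 1 := hlamlt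
    have hvb' : v b' ≤ 1 := by
      have : b' = a' - (a' - b') := by ring
      rw [this]
      exact Valuation.map_sub_le v (le_of_eq hva') (le_of_lt hvsub)
    obtain ⟨c1, -, hc1⟩ := hZ a' ha'W b' hb'W (le_of_eq hva') hvb' hvsub
    have hexp : a' - algebraMap L F c1 =
        ∑ i, (lam⁻¹ * (α i - c * ε i) - c1 * ε i) • w i := by
      rw [ha', hcW c1, hcW c]
      conv_lhs => rw [hα]
      rw [← Finset.sum_sub_distrib, Finset.smul_sum, ← Finset.sum_sub_distrib]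
      refine Finset.sum_congr rfl fun i _ => ?_
      simp only [sub_smul, mul_smul, smul_sub]
    have hcoef : lam⁻¹ * (α i₀ - c * ε i₀) - c1 * ε i₀ = -(c1 * ε i₀) := by
      rw [hc, div_mul_cancel₀ _ hε0]; ring
    have hle := hw.2 (fun i => lam⁻¹ * (α i - c * ε i) - c1 * ε i) i₀
    rw [← hexp] at hle
    simp only [hcoef] at hle
    rw [map_neg, Valuation.map_neg, map_mul, map_mul, hi₀, mul_one] at hle
    have hc1lt : v (algebraMap L F c1) < 1 := lt_of_le_of_lt hle hc1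
    have : v a' < 1 := by
      have h2 : a' = (a' - algebraMap L F c1) + algebraMap L F c1 := by ring
      rw [h2]
      exact Valuation.map_add_lt v hc1 hc1lt
    rw [hva'] at this
    exact lt_irrefl _ this
  refine ⟨c, hA, ?_⟩
  have : b - algebraMap L F c = (a - algebraMap L F c) - (a - b) := by ring
  rw [this]
  exact Valuation.map_sub_le v hA hab

theorem val_pow_sub_pow_lt (v : Valuation F Γ₀) {x y : F} (hx : v x ≤ 1) (hy : v y ≤ 1)
    (hxy : v (x - y) < 1) (j : ℕ) : v (x ^ j - y ^ j) < 1 := by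
  induction j with
  | zero => simp
  | succ j ih =>
    have e : x ^ (j + 1) - y ^ (j + 1) = x ^ j * (x - y) + (x ^ j - y ^ j) * y := by ring
    rw [e]
    refine Valuation.map_add_lt v ?_ ?_
    · rw [map_mul, map_pow]
      calc v x ^ j * v (x - y) ≤ 1 * v (x - y) := mul_le_mul' (pow_le_one' hx j) le_rfl
        _ = v (x - y) := one_mul _
        _ < 1 := hxy
    · rw [map_mul]
      calc v (x ^ j - y ^ j) * v y ≤ v (x ^ j - y ^ j) * 1 := mul_le_mul' le_rfl hy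
        _ = v (x ^ j - y ^ j) := mul_one _
        _ < 1 := ih

theorem val_eq_of_sub_lt_max (v : Valuation F Γ₀) {x y : F}
    (h : v (x - y) < max (v x) (v y)) :
    v x = max (v x) (v y) ∧ v y = max (v x) (v y) := by
  rcases lt_trichotomy (v x) (v y) with hxy | hxy | hxy
  · rw [Valuation.map_sub_eq_of_lt_right v hxy, max_eq_right hxy.le] at h
    exact absurd h (lt_irrefl _)
  · rw [hxy, max_self]; exact ⟨rfl, rfl⟩
  · rw [Valuation.map_sub_eq_of_lt_left v hxy, max_eq_left hxy.le] at h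
    exact absurd h (lt_irrefl _)

/-- **One-shot Kummer core.**  `v` a valuation on `F` with the same value group as its restriction
to `L`; `m` and `u` units; `M₁`, `M₂` the two twisted charts at one level, `W₁`, `W₂` the two
untwisted charts; `a₀ ∈ M₁`, `b₀ ∈ M₂` two integral lifts of one special-fibre section.
Hypotheses on the special fibre, all residue-free:
* `hY`: the reductions of `M₁`, `M₂` meet in the line spanned by the reduction of `a₀`;
* `hZ`: the reductions of `W₁`, `W₂` meet in the constants;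
* `hsep`: if the reduction of `f ∈ M₁ ⊔ M₂` is `ā₀ (ā - b̄)` with `a ∈ W₁`, `b ∈ W₂` integral, then
  it is a difference of reductions of integral elements of `M₁` and `M₂`.
Conclusion: `M₁ ⊓ M₂ ≠ ⊥`. -/
theorem kummer_oneshot (v : Valuation F Γ₀)
    (hval : ∀ x : F, ∃ c : L, v (algebraMap L F c) = v x)
    (m : ℕ) (hm : v (m : F) = 1) (u : F) (hu : v u = 1) (M₁ M₂ W₁ W₂ : Submodule L F)
    (hU : HasOrthoBasis v (M₁ ⊔ M₂)) (hW : HasOrthoBasis v W₁)
    (h1W₁ : (1 : F) ∈ W₁) (h1W₂ : (1 : F) ∈ W₂)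
    (hpow₁ : ∀ a ∈ M₁, a ^ m * u ∈ W₁) (hpow₂ : ∀ b ∈ M₂, b ^ m * u ∈ W₂)
    (a₀ b₀ : F) (ha₀ : a₀ ∈ M₁) (hb₀ : b₀ ∈ M₂) (hva₀ : v a₀ = 1) (hab₀ : v (a₀ - b₀) < 1)
    (hY : ∀ a ∈ M₁, ∀ b ∈ M₂, v a ≤ 1 → v b ≤ 1 → v (a - b) < 1 →
        ∃ c : L, v (algebraMap L F c) ≤ 1 ∧ v (a - c • a₀) < 1)
    (hZ : ∀ a ∈ W₁, ∀ b ∈ W₂, v a ≤ 1 → v b ≤ 1 → v (a - b) < 1 →
        ∃ c : L, v (algebraMap L F c) ≤ 1 ∧ v (a - algebraMap L F c) < 1)
    (hsep : ∀ a ∈ W₁, ∀ b ∈ W₂, v a ≤ 1 → v b ≤ 1 → ∀ f ∈ M₁ ⊔ M₂,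
        v (a₀ * (a - b) - f) < 1 →
        ∃ a' ∈ M₁, ∃ b' ∈ M₂, v a' ≤ 1 ∧ v b' ≤ 1 ∧ v (f - (a' - b')) < 1) :
    M₁ ⊓ M₂ ≠ ⊥ := by
  classical
  intro hdisj
  obtain ⟨n, e, he, hemem, hspan⟩ := hU
  have hdec : ∀ t, ∃ p ∈ M₁, ∃ q ∈ M₂, e t = p - q := by
    intro t
    obtain ⟨p, hp, q, hq, hpq⟩ := Submodule.mem_sup.1 (hemem t)
    exact ⟨p, hp, -q, M₂.neg_mem hq, by rw [sub_neg_eq_add, hpq]⟩
  choose p hp q hq hpq using hdec
  have hn : Nonempty (Fin n) := by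
    by_contra hne
    rw [not_nonempty_iff] at hne
    obtain ⟨c, hc, -⟩ := he.exists_repr (hspan (Submodule.mem_sup_left ha₀))
    rw [Finset.univ_eq_empty, Finset.sum_empty] at hc
    rw [hc, map_zero] at hva₀
    exact zero_ne_one hva₀
  obtain ⟨t0, ht0⟩ := Finite.exists_max (fun t => max (v (p t)) (v (q t)))
  obtain ⟨ν, hν⟩ : ∃ ν : Γ₀, ν = max (v (p t0)) (v (q t0)) := ⟨_, rfl⟩
  have hν₁ : ∀ t, v (p t) ≤ ν := fun t => by
    rw [hν]; exact le_trans (le_max_left _ _) (ht0 t)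
  have hν₂ : ∀ t, v (q t) ≤ ν := fun t => by
    rw [hν]; exact le_trans (le_max_right _ _) (ht0 t)
  have hcl : ∀ a ∈ M₁, ∀ b ∈ M₂, v a ≤ ν * v (a - b) ∧ v b ≤ ν * v (a - b) :=
    fun a ha b hb => claim v hdisj he hspan p q hp hq hpq ν hν₁ hν₂ ha hb
  have hν1 : 1 < ν := by
    by_contra hle
    rw [not_lt] at hle
    have h1 := (hcl a₀ ha₀ b₀ hb₀).1
    rw [hva₀] at h1
    have h2 : ν * v (a₀ - b₀) < 1 :=
      calc ν * v (a₀ - b₀) ≤ 1 * v (a₀ - b₀) := mul_le_mul' hle le_rfl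
        _ = v (a₀ - b₀) := one_mul _
        _ < 1 := hab₀
    exact absurd h1 (not_le.2 h2)
  have hν0 : ν ≠ 0 := ne_of_gt (lt_trans zero_lt_one hν1)
  obtain ⟨f, hfdef⟩ : ∃ f : F, f = e t0 := ⟨_, rfl⟩
  have hvf : v f = 1 := by rw [hfdef]; exact he.val_eq_one t0
  have hfpq : f = p t0 - q t0 := by rw [hfdef]; exact hpq t0
  have hfmem : f ∈ M₁ ⊔ M₂ := by rw [hfdef]; exact hemem t0
  have hpqmax := val_eq_of_sub_lt_max v (x := p t0) (y := q t0)
    (by rw [← hfpq, hvf, ← hν]; exact hν1)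
  have hvp : v (p t0) = ν := by rw [hν]; exact hpqmax.1
  have hvq : v (q t0) = ν := by rw [hν]; exact hpqmax.2
  -- normalise the worst basis vector
  obtain ⟨δ, hδ, hga⟩ : ∃ δ : L, v (algebraMap L F δ) = ν⁻¹ ∧ v (δ • p t0 - a₀) < 1 := by
    obtain ⟨γ0, hγ0⟩ := hval (p t0)
    rw [hvp] at hγ0
    have hγ : v (algebraMap L F γ0⁻¹) = ν⁻¹ := by rw [map_inv₀, map_inv₀, hγ0]
    have h1 : v (γ0⁻¹ • p t0) = 1 := by rw [val_smul, hγ, hvp, inv_mul_cancel₀ hν0]
    have h2 : v (γ0⁻¹ • q t0) = 1 := by rw [val_smul, hγ, hvq, inv_mul_cancel₀ hν0]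
    have h12 : v (γ0⁻¹ • p t0 - γ0⁻¹ • q t0) < 1 := by
      rw [← smul_sub, ← hfpq, val_smul, hγ, hvf, mul_one]
      exact inv_lt_one_of_one_lt₀ hν1
    obtain ⟨c, hc, hc'⟩ :=
      hY _ (M₁.smul_mem _ (hp t0)) _ (M₂.smul_mem _ (hq t0)) h1.le h2.le h12
    have hc1 : v (algebraMap L F c) = 1 := by
      refine le_antisymm hc ?_
      by_contra hlt
      rw [not_le] at hlt
      have h3 : v (γ0⁻¹ • p t0) < 1 := by
        have e1 : γ0⁻¹ • p t0 = (γ0⁻¹ • p t0 - c • a₀) + c • a₀ := by ring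
        rw [e1]
        refine Valuation.map_add_lt v hc' ?_
        rw [val_smul, hva₀, mul_one]; exact hlt
      rw [h1] at h3
      exact lt_irrefl _ h3
    have hc0 : c ≠ 0 := by
      intro h0
      rw [h0, map_zero, map_zero] at hc1
      exact zero_ne_one hc1
    refine ⟨c⁻¹ * γ0⁻¹, ?_, ?_⟩
    · rw [map_mul, map_mul, hγ, map_inv₀, map_inv₀, hc1, inv_one, one_mul]
    · have e2 : (c⁻¹ * γ0⁻¹) • p t0 - a₀ = c⁻¹ • (γ0⁻¹ • p t0 - c • a₀) := by
        rw [smul_sub, smul_smul, smul_smul, inv_mul_cancel₀ hc0, one_smul]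
      rw [e2, val_smul, map_inv₀, map_inv₀, hc1, inv_one, one_mul]
      exact hc'
  have hδlt : v (algebraMap L F δ) < 1 := by rw [hδ]; exact inv_lt_one_of_one_lt₀ hν1
  have hδ0 : δ ≠ 0 := by
    intro h0
    rw [h0, map_zero, map_zero] at hδ
    exact hν0 (inv_eq_zero.1 hδ.symm)
  obtain ⟨g1, hg1def⟩ : ∃ g1 : F, g1 = δ • p t0 := ⟨_, rfl⟩
  obtain ⟨g2, hg2def⟩ : ∃ g2 : F, g2 = δ • q t0 := ⟨_, rfl⟩
  rw [← hg1def] at hga
  have hg1M : g1 ∈ M₁ := by rw [hg1def]; exact M₁.smul_mem _ (hp t0)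
  have hg2M : g2 ∈ M₂ := by rw [hg2def]; exact M₂.smul_mem _ (hq t0)
  have hvg1 : v g1 = 1 := by rw [hg1def, val_smul, hδ, hvp, inv_mul_cancel₀ hν0]
  have hvg2 : v g2 = 1 := by rw [hg2def, val_smul, hδ, hvq, inv_mul_cancel₀ hν0]
  have hg12 : g1 - g2 = δ • f := by rw [hg1def, hg2def, hfpq, smul_sub]
  have hvg12 : v (g1 - g2) < 1 := by rw [hg12, val_smul, hvf, mul_one]; exact hδlt
  -- (K): the reduction of `f` is not a difference of reductions of integral elements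
  have hK : ∀ a' ∈ M₁, ∀ b' ∈ M₂, v a' ≤ 1 → v b' ≤ 1 → ¬ v (f - (a' - b')) < 1 := by
    intro a' ha' b' hb' hva' hvb' hlt
    have h1 := (hcl _ (M₁.sub_mem hg1M (M₁.smul_mem δ ha')) _
      (M₂.sub_mem hg2M (M₂.smul_mem δ hb'))).1
    have e1 : (g1 - δ • a') - (g2 - δ • b') = δ • (f - (a' - b')) := by
      rw [smul_sub, smul_sub, ← hg12]; ring
    rw [e1, val_smul, hδ, ← mul_assoc, mul_inv_cancel₀ hν0, one_mul] at h1
    have h2 : v (δ • a') < 1 := by
      rw [val_smul]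
      calc v (algebraMap L F δ) * v a' ≤ v (algebraMap L F δ) * 1 := mul_le_mul' le_rfl hva'
        _ = v (algebraMap L F δ) := mul_one _
        _ < 1 := hδlt
    have h3 : v g1 < 1 := by
      have e2 : g1 = (g1 - δ • a') + δ • a' := by ring
      rw [e2]
      exact Valuation.map_add_lt v (lt_of_le_of_lt h1 hlt) h2
    rw [hvg1] at h3
    exact lt_irrefl _ h3
  -- the `m`-th powers
  obtain ⟨S, hSdef⟩ : ∃ S : F, S = ∑ i ∈ Finset.range m, g1 ^ i * g2 ^ (m - 1 - i) := ⟨_, rfl⟩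
  have hvS : v S ≤ 1 := by
    rw [hSdef]
    refine Valuation.map_sum_le v fun i _ => ?_
    rw [map_mul, map_pow, map_pow, hvg1, hvg2, one_pow, one_pow, one_mul]
  have hpowsub : g1 ^ m - g2 ^ m = S * (g1 - g2) := by
    rw [hSdef]; exact (geom_sum₂_mul g1 g2 m).symm
  obtain ⟨φ, hφdef⟩ : ∃ φ : F, φ = f * u * S := ⟨_, rfl⟩
  have hvφ : v φ ≤ 1 := by
    rw [hφdef, map_mul, map_mul, hvf, hu, one_mul, one_mul]; exact hvS
  have hG12 : g1 ^ m * u - g2 ^ m * u = δ • φ := by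
    rw [← sub_mul, hpowsub, hg12, hφdef]
    simp only [Algebra.smul_def]; ring
  have hG1W : g1 ^ m * u ∈ W₁ := hpow₁ g1 hg1M
  have hG2W : g2 ^ m * u ∈ W₂ := hpow₂ g2 hg2M
  have hvG1 : v (g1 ^ m * u) = 1 := by rw [map_mul, map_pow, hvg1, hu, one_pow, one_mul]
  have hvG2 : v (g2 ^ m * u) = 1 := by rw [map_mul, map_pow, hvg2, hu, one_pow, one_mul]
  have hvG12 : v (g1 ^ m * u - g2 ^ m * u) < 1 := by
    rw [hG12, val_smul]
    calc v (algebraMap L F δ) * v φ ≤ v (algebraMap L F δ) * 1 := mul_le_mul' le_rfl hvφ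
      _ = v (algebraMap L F δ) := mul_one _
      _ < 1 := hδlt
  have hdiv : δ⁻¹ • (g1 ^ m * u) - δ⁻¹ • (g2 ^ m * u) = φ := by
    rw [← smul_sub, hG12, smul_smul, inv_mul_cancel₀ hδ0, one_smul]
  -- saturation at the untwisted level
  obtain ⟨c, hcA, hcB⟩ := exists_const_sub v hval hW h1W₁ h1W₂ hZ
    (a := δ⁻¹ • (g1 ^ m * u)) (b := δ⁻¹ • (g2 ^ m * u))
    (W₁.smul_mem _ hG1W) (W₂.smul_mem _ hG2W) (by rw [hdiv]; exact hvφ)
  have hcmem₁ : ∀ d : L, algebraMap L F d ∈ W₁ := fun d => by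
    rw [Algebra.algebraMap_eq_smul_one]; exact W₁.smul_mem _ h1W₁
  have hcmem₂ : ∀ d : L, algebraMap L F d ∈ W₂ := fun d => by
    rw [Algebra.algebraMap_eq_smul_one]; exact W₂.smul_mem _ h1W₂
  -- the constant `c0` to which `g1 ^ m * u` reduces
  obtain ⟨c0, hc0le, hc0⟩ := hZ _ hG1W _ hG2W hvG1.le hvG2.le hvG12
  have hvc0 : v (algebraMap L F c0) = 1 := by
    refine le_antisymm hc0le ?_
    by_contra hlt
    rw [not_le] at hlt
    have h3 : v (g1 ^ m * u) < 1 := by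
      have e1 : g1 ^ m * u = (g1 ^ m * u - algebraMap L F c0) + algebraMap L F c0 := by ring
      rw [e1]
      exact Valuation.map_add_lt v hc0 hlt
    rw [hvG1] at h3
    exact lt_irrefl _ h3
  obtain ⟨μ, hμdef⟩ : ∃ μ : L, μ = (m : L) * c0 := ⟨_, rfl⟩
  have hμF : algebraMap L F μ = (m : F) * algebraMap L F c0 := by
    rw [hμdef, map_mul, map_natCast]
  have hvμ : v (algebraMap L F μ) = 1 := by rw [hμF, map_mul, hm, hvc0, one_mul]
  have hμF0 : algebraMap L F μ ≠ 0 := by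
    intro h0
    rw [h0, map_zero] at hvμ
    exact zero_ne_one hvμ
  have hvμinv : v (algebraMap L F μ⁻¹) = 1 := by rw [map_inv₀, map_inv₀, hvμ, inv_one]
  -- key congruence: `a₀ * u * S ≡ μ`
  have hkey : v (a₀ * u * S - algebraMap L F μ) < 1 := by
    have hT : v (g1 * S - (m : F) * g1 ^ m) < 1 := by
      have e1 : g1 * S - (m : F) * g1 ^ m
          = ∑ i ∈ Finset.range m, g1 ^ (i + 1) * (g2 ^ (m - 1 - i) - g1 ^ (m - 1 - i)) := by
        have e2 : (m : F) * g1 ^ m = ∑ _i ∈ Finset.range m, g1 ^ m := by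
          rw [Finset.sum_const, Finset.card_range, nsmul_eq_mul]
        rw [hSdef, Finset.mul_sum, e2, ← Finset.sum_sub_distrib]
        refine Finset.sum_congr rfl fun i hi => ?_
        have hi' : i < m := Finset.mem_range.1 hi
        have e3 : g1 ^ m = g1 ^ (i + 1) * g1 ^ (m - 1 - i) := by
          rw [← pow_add]; congr 1; omega
        rw [e3]; ring
      rw [e1]
      refine Valuation.map_sum_lt v one_ne_zero fun i _ => ?_
      rw [map_mul, map_pow, hvg1, one_pow, one_mul]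
      exact val_pow_sub_pow_lt v hvg2.le hvg1.le
        (by rw [Valuation.map_sub_swap]; exact hvg12) _
    have e4 : a₀ * u * S - algebraMap L F μ
        = (a₀ - g1) * u * S + u * (g1 * S - (m : F) * g1 ^ m)
          + (m : F) * (g1 ^ m * u - algebraMap L F c0) := by
      rw [hμF]; ring
    rw [e4]
    refine Valuation.map_add_lt v (Valuation.map_add_lt v ?_ ?_) ?_
    · rw [map_mul, map_mul, hu, mul_one, Valuation.map_sub_swap]
      calc v (g1 - a₀) * v S ≤ v (g1 - a₀) * 1 := mul_le_mul' le_rfl hvS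
        _ = v (g1 - a₀) := mul_one _
        _ < 1 := hga
    · rw [map_mul, hu, one_mul]; exact hT
    · rw [map_mul, hm, one_mul]; exact hc0
  -- the pair contradicting (K)
  have hA1 : δ⁻¹ • (g1 ^ m * u) - algebraMap L F c ∈ W₁ :=
    W₁.sub_mem (W₁.smul_mem _ hG1W) (hcmem₁ c)
  have hB1 : δ⁻¹ • (g2 ^ m * u) - algebraMap L F c ∈ W₂ :=
    W₂.sub_mem (W₂.smul_mem _ hG2W) (hcmem₂ c)
  have hABsub : (δ⁻¹ • (g1 ^ m * u) - algebraMap L F c)
      - (δ⁻¹ • (g2 ^ m * u) - algebraMap L F c) = φ := by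
    rw [← hdiv]; ring
  have hfin : v (a₀ * (μ⁻¹ • (δ⁻¹ • (g1 ^ m * u) - algebraMap L F c)
      - μ⁻¹ • (δ⁻¹ • (g2 ^ m * u) - algebraMap L F c)) - f) < 1 := by
    rw [← smul_sub, hABsub]
    have e5 : a₀ * μ⁻¹ • φ - f = μ⁻¹ • (f * (a₀ * u * S - algebraMap L F μ)) := by
      rw [hφdef]
      simp only [Algebra.smul_def, map_inv₀]
      field_simp
    rw [e5, val_smul, hvμinv, one_mul, map_mul, hvf, one_mul]
    exact hkey
  obtain ⟨a', ha', b', hb', hva', hvb', hlt⟩ := hsep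
    (μ⁻¹ • (δ⁻¹ • (g1 ^ m * u) - algebraMap L F c)) (W₁.smul_mem _ hA1)
    (μ⁻¹ • (δ⁻¹ • (g2 ^ m * u) - algebraMap L F c)) (W₂.smul_mem _ hB1)
    (by rw [val_smul, hvμinv, one_mul]; exact hcA)
    (by rw [val_smul, hvμinv, one_mul]; exact hcB)
    f hfmem hfin
  exact hK a' ha' b' hb' hva' hvb' hlt

end Fermat.Agent.S18.helper1546
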