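import Mathlib

/-!
# S18-VERT: unit discriminants at the vertical prime (track B, clause (c))

Mathlib-only.  Everything is phrased with a subring `O0` of a field `K` (think: the Gauss
valuation ring of `K₀(j)`), a finite extension `F / K` with a `K`-basis `b` whose structure
constants lie in `O0` (an "integral basis"; its `O0`-span is a subring `lattice O0 b` of `F`),
and "`x` is a unit of `O0`" written as `∃ D D' : O0, D * D' = 1 ∧ (D : K) = x`.

* `exists_dual_of_unitDiscr`, `unitDiscr_of_dual` : unit discriminant ↔ existence of a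
  trace-dual family inside the lattice.
* `unitDiscr_of_reduction` : BASE LAYER.  If `O0 → κ`, `lattice → Fκ` are surjective reductions
  to fields with `Fκ / κ` separable and the basis is orthonormal (zero reduction ⇒ all
  coordinates have zero reduction), then `Algebra.discr K b` is a unit of `O0`.
* `unitDiscr_kummer` : KUMMER LAYER.  If `L = F(y)`, `1, y, …, y^(d-1)` an `F`-basis,
  `y ^ d = u` with `u, u⁻¹` in the lattice and `d` a unit of `O0`, then the discriminant of the
  tuple `b i * y ^ e` is again a unit of `O0`.  (No tower formula for discriminants is used.)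
-/

set_option autoImplicit false
set_option linter.unusedSectionVars false

noncomputable section

namespace Fermat.Agent.S18.helper1581

open Module Matrix

section Lattice

variable {K F : Type*} [Field K] [Field F] [Algebra K F]
variable {ι : Type*} [Fintype ι] [DecidableEq ι]

/-- `x : K` is (the image of) a unit of the subring `O0`. -/
def IsUnitIn (O0 : Subring K) (x : K) : Prop := ∃ D D' : O0, D * D' = 1 ∧ (D : K) = x

/-- The structure constants of the basis `b` (and the coordinates of `1`) lie in `O0`. -/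
structure IsIntegralBasis (O0 : Subring K) (b : Basis ι K F) : Prop where
  one_mem : ∀ k, b.repr 1 k ∈ O0
  mul_mem : ∀ i j k, b.repr (b i * b j) k ∈ O0

variable {O0 : Subring K} {b : Basis ι K F}

theorem IsIntegralBasis.repr_mul_mem (h : IsIntegralBasis O0 b) {x y : F}
    (hx : ∀ i, b.repr x i ∈ O0) (hy : ∀ i, b.repr y i ∈ O0) (k : ι) :
    b.repr (x * y) k ∈ O0 := by
  have hxy : x * y = ∑ i, ∑ j, (b.repr x i * b.repr y j) • (b i * b j) := by
    conv_lhs => rw [← b.sum_repr x, ← b.sum_repr y]
    rw [Finset.sum_mul_sum]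
    refine Finset.sum_congr rfl fun i _ => Finset.sum_congr rfl fun j _ => ?_
    rw [smul_mul_smul_comm]
  rw [hxy]
  simp only [map_sum, map_smul, Finsupp.coe_finsetSum, Finsupp.coe_smul, Finset.sum_apply,
    Pi.smul_apply, smul_eq_mul]
  exact Subring.sum_mem _ fun i _ => Subring.sum_mem _ fun j _ =>
    Subring.mul_mem _ (Subring.mul_mem _ (hx i) (hy j)) (h.mul_mem i j k)

/-- The `O0`-lattice spanned by an integral basis, as a subring of `F`. -/
def lattice (O0 : Subring K) (b : Basis ι K F) (h : IsIntegralBasis O0 b) : Subring F where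
  carrier := {x | ∀ i, b.repr x i ∈ O0}
  mul_mem' hx hy := h.repr_mul_mem hx hy
  one_mem' := h.one_mem
  add_mem' hx hy i := by
    rw [map_add, Finsupp.add_apply]; exact Subring.add_mem _ (hx i) (hy i)
  zero_mem' i := by rw [map_zero, Finsupp.zero_apply]; exact Subring.zero_mem _
  neg_mem' hx i := by rw [map_neg, Finsupp.neg_apply]; exact Subring.neg_mem _ (hx i)

theorem mem_lattice {h : IsIntegralBasis O0 b} {x : F} :
    x ∈ lattice O0 b h ↔ ∀ i, b.repr x i ∈ O0 := Iff.rfl

theorem basis_mem_lattice (h : IsIntegralBasis O0 b) (i : ι) : b i ∈ lattice O0 b h := by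
  intro k
  rw [b.repr_self, Finsupp.single_apply]
  split_ifs
  · exact Subring.one_mem _
  · exact Subring.zero_mem _

theorem smul_mem_lattice (h : IsIntegralBasis O0 b) {a : K} (ha : a ∈ O0) {x : F}
    (hx : x ∈ lattice O0 b h) : a • x ∈ lattice O0 b h := by
  intro k
  rw [map_smul, Finsupp.smul_apply, smul_eq_mul]
  exact Subring.mul_mem _ ha (hx k)

theorem algebraMap_mem_lattice (h : IsIntegralBasis O0 b) {a : K} (ha : a ∈ O0) :
    algebraMap K F a ∈ lattice O0 b h := by
  rw [Algebra.algebraMap_eq_smul_one]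
  exact smul_mem_lattice h ha (Subring.one_mem _)

theorem sum_smul_mem_lattice (h : IsIntegralBasis O0 b) (c : ι → K) (hc : ∀ i, c i ∈ O0) :
    ∑ i, c i • b i ∈ lattice O0 b h :=
  Subring.sum_mem _ fun i _ => smul_mem_lattice h (hc i) (basis_mem_lattice h i)

/-- Traces of lattice elements lie in `O0`. -/
theorem trace_mem_of_mem_lattice (h : IsIntegralBasis O0 b) {x : F}
    (hx : x ∈ lattice O0 b h) : Algebra.trace K F x ∈ O0 := by
  rw [Algebra.trace_eq_matrix_trace b, Matrix.trace]
  refine Subring.sum_mem _ fun i _ => ?_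
  rw [Matrix.diag_apply, Algebra.leftMulMatrix_eq_repr_mul]
  exact (Subring.mul_mem _ hx (basis_mem_lattice h i)) i

theorem traceMatrix_mem (h : IsIntegralBasis O0 b) (i j : ι) :
    Algebra.traceMatrix K b i j ∈ O0 := by
  rw [Algebra.traceMatrix_apply, Algebra.traceForm_apply]
  exact trace_mem_of_mem_lattice h
    (Subring.mul_mem _ (basis_mem_lattice h i) (basis_mem_lattice h j))

end Lattice

section Dual

variable {K L : Type*} [Field K] [CommRing L] [Algebra K L]
variable {α : Type*} [Fintype α] [DecidableEq α]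
variable {O0 : Subring K}

/-- A trace-dual family with coordinates in `O0` forces the discriminant to be a unit of `O0`. -/
theorem unitDiscr_of_dual (c : Basis α K L)
    (hT : ∀ i j, Algebra.trace K L (c i * c j) ∈ O0)
    (cd : α → L) (hcd : ∀ i j, c.repr (cd i) j ∈ O0)
    (hdual : ∀ i j, Algebra.trace K L (cd i * c j) = if i = j then 1 else 0) :
    IsUnitIn O0 (Algebra.discr K c) := by
  let T0 : Matrix α α O0 := fun i j => ⟨Algebra.trace K L (c i * c j), hT i j⟩
  let P : Matrix α α O0 := fun i j => ⟨c.repr (cd i) j, hcd i j⟩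
  have hT0 : T0.map O0.subtype = Algebra.traceMatrix K c := by
    ext i j
    rw [Algebra.traceMatrix_apply, Algebra.traceForm_apply]
    rfl
  have hPT : P * T0 = 1 := by
    ext i k
    rw [Matrix.mul_apply, Matrix.one_apply]
    have h1 : ((∑ j, P i j * T0 j k : O0) : K) = Algebra.trace K L (cd i * c k) := by
      rw [AddSubmonoidClass.coe_finsetSum]
      conv_rhs => rw [← c.sum_repr (cd i), Finset.sum_mul, map_sum]
      refine Finset.sum_congr rfl fun j _ => ?_
      rw [smul_mul_assoc, map_smul, smul_eq_mul]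
      rfl
    rw [hdual] at h1
    split_ifs with hik
    · rw [if_pos hik] at h1; simpa using h1
    · rw [if_neg hik] at h1; simpa using h1
  refine ⟨T0.det, P.det, ?_, ?_⟩
  · rw [mul_comm, ← Matrix.det_mul, hPT, Matrix.det_one]
  · rw [Algebra.discr_def, ← hT0]
    exact RingHom.map_det O0.subtype T0

end Dual

section DualConverse

variable {K F : Type*} [Field K] [Field F] [Algebra K F]
variable {ι : Type*} [Fintype ι] [DecidableEq ι]
variable {O0 : Subring K} {b : Basis ι K F}

/-- A unit discriminant gives a trace-dual family inside the lattice. -/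
theorem exists_dual_of_unitDiscr (h : IsIntegralBasis O0 b)
    (hD : IsUnitIn O0 (Algebra.discr K b)) :
    ∃ bd : ι → F, (∀ i, bd i ∈ lattice O0 b h) ∧
      ∀ i j, Algebra.trace K F (bd i * b j) = if i = j then 1 else 0 := by
  obtain ⟨D, D', hDD', hDK⟩ := hD
  let T0 : Matrix ι ι O0 := fun i j => ⟨Algebra.traceMatrix K b i j, traceMatrix_mem h i j⟩
  have hT0 : T0.map O0.subtype = Algebra.traceMatrix K b := by
    ext i j; rfl
  have hdet : T0.det = D := by
    apply Subtype.ext
    have h1 := RingHom.map_det O0.subtype T0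
    rw [RingHom.mapMatrix_apply, hT0, ← Algebra.discr_def, ← hDK] at h1
    exact h1
  let S : Matrix ι ι O0 := D' • T0.adjugate
  have hS : S * T0 = 1 := by
    show (D' • T0.adjugate) * T0 = 1
    rw [Matrix.smul_mul, Matrix.adjugate_mul, hdet, smul_smul, mul_comm, hDD', one_smul]
  refine ⟨fun i => ∑ j, (S i j : K) • b j,
    fun i => sum_smul_mem_lattice h _ fun j => (S i j).2, fun i k => ?_⟩
  have h1 : Algebra.trace K F ((∑ j, (S i j : K) • b j) * b k) = ((∑ j, S i j * T0 j k : O0) : K) := by
    rw [AddSubmonoidClass.coe_finsetSum, Finset.sum_mul, map_sum]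
    refine Finset.sum_congr rfl fun j _ => ?_
    rw [smul_mul_assoc, map_smul, smul_eq_mul]
    rfl
  rw [h1, ← Matrix.mul_apply, hS, Matrix.one_apply]
  split_ifs <;> simp

end DualConverse

section Kummer

variable {K F L : Type*} [Field K] [Field F] [Field L] [Algebra K F] [Algebra F L] [Algebra K L]
  [IsScalarTower K F L]
variable {ι : Type*} [Fintype ι] [DecidableEq ι]
variable {O0 : Subring K} {b : Basis ι K F}
variable {d : ℕ} (pb : Basis (Fin d) F L) (y : L) (hpb : ∀ e : Fin d, pb e = y ^ (e : ℕ))
  (u : F) (hy : y ^ d = algebraMap F L u)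

include hpb hy

theorem pow_eq_smul_basis [NeZero d] (n : ℕ) :
    y ^ n = u ^ (n / d) • pb ⟨n % d, Nat.mod_lt n (NeZero.pos d)⟩ := by
  rw [hpb, Algebra.smul_def, map_pow, ← hy, ← pow_mul, ← pow_add, Nat.div_add_mod]

theorem repr_pow [NeZero d] (n : ℕ) (e : Fin d) :
    pb.repr (y ^ n) e = if n % d = (e : ℕ) then u ^ (n / d) else 0 := by
  rw [pow_eq_smul_basis pb y hpb u hy n, map_smul, pb.repr_self, Finsupp.smul_apply,
    Finsupp.single_apply, smul_eq_mul]
  split_ifs with h1 h2 h2
  · simp
  · exact absurd (by rw [← h1]) h2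
  · exact absurd (Fin.ext h2) h1
  · simp

theorem trace_pow [NeZero d] (n : ℕ) :
    Algebra.trace F L (y ^ n) = if d ∣ n then (d : F) * u ^ (n / d) else 0 := by
  rw [Algebra.trace_eq_matrix_trace pb, Matrix.trace]
  simp only [Matrix.diag_apply, Algebra.leftMulMatrix_eq_repr_mul]
  have key : ∀ e : Fin d, pb.repr (y ^ n * pb e) e = if d ∣ n then u ^ (n / d) else 0 := by
    intro e
    rw [hpb, ← pow_add, repr_pow pb y hpb u hy]
    have he := e.2
    by_cases hdn : d ∣ n
    · obtain ⟨q, rfl⟩ := hdn
      rw [if_pos (Dvd.intro q rfl), if_pos (by rw [Nat.mul_add_mod, Nat.mod_eq_of_lt he])]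
      congr 1
      rw [Nat.mul_add_div (NeZero.pos d), Nat.div_eq_of_lt he, add_zero,
        Nat.mul_div_cancel_left _ (NeZero.pos d)]
    · rw [if_neg hdn, if_neg]
      intro h
      apply hdn
      have h2 : (n + (e : ℕ)) % d = (0 + (e : ℕ)) % d := by
        rw [h, zero_add, Nat.mod_eq_of_lt he]
      exact (Nat.modEq_zero_iff_dvd).mp (Nat.ModEq.add_right_cancel' _ h2)
  simp_rw [key]
  split_ifs
  · rw [Finset.sum_const, Finset.card_univ, Fintype.card_fin, nsmul_eq_mul]
  · simp

theorem trace_dual_pow_mul [NeZero d] (hu : u ≠ 0) (hdF : (d : F) ≠ 0) (e f : Fin d) :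
    Algebra.trace F L ((((d : F)⁻¹ * u⁻¹) • y ^ (d - (e : ℕ))) * pb f) =
      if e = f then 1 else 0 := by
  rw [smul_mul_assoc, map_smul, hpb, ← pow_add, trace_pow pb y hpb u hy, smul_eq_mul]
  have he := e.2
  have hf := f.2
  by_cases hef : e = f
  · subst hef
    rw [if_pos rfl, Nat.sub_add_cancel he.le, if_pos dvd_rfl, Nat.div_self (NeZero.pos d),
      pow_one]
    field_simp
  · rw [if_neg hef, if_neg, mul_zero]
    intro hdvd
    apply hef
    have h2 : d - (e : ℕ) + f = d :=
      Nat.eq_of_dvd_of_lt_two_mul (by omega) hdvd (by omega)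
    exact Fin.ext (by omega)

/-- **Kummer layer.** `L = F(y)` with `F`-basis `1, y, …, y^(d-1)`, `y ^ d = u`, where `u` and
`u⁻¹` lie in the lattice of the integral basis `b` of `F / K` and `d` is a unit of `O0`.  If
`discr K b` is a unit of `O0`, so is the discriminant of the tower basis `b i • y ^ e`. -/
theorem unitDiscr_kummer (h : IsIntegralBasis O0 b)
    (hD : IsUnitIn O0 (Algebra.discr K b)) (hd : IsUnitIn O0 (d : K))
    (hu0 : u ≠ 0) (hu : u ∈ lattice O0 b h) (hu' : u⁻¹ ∈ lattice O0 b h) :
    IsUnitIn O0 (Algebra.discr K (b.smulTower pb)) := by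
  obtain ⟨bd, hbd, hbdual⟩ := exists_dual_of_unitDiscr h hD
  obtain ⟨Dd, Dd', hDd, hDdK⟩ := hd
  have hdK : (d : K) ≠ 0 := by
    intro h0
    rw [h0] at hDdK
    have h1 : Dd = 0 := Subtype.ext hDdK
    rw [h1, zero_mul] at hDd
    exact zero_ne_one hDd
  have hd0 : d ≠ 0 := by
    rintro rfl
    simp at hdK
  have hNZ : NeZero d := ⟨hd0⟩
  have hdF : (d : F) ≠ 0 := by
    rw [← map_natCast (algebraMap K F)]
    exact (map_ne_zero _).mpr hdK
  have hdinv : ((d : K))⁻¹ ∈ O0 := by
    have h1 : (Dd : K) * (Dd' : K) = 1 := by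
      have := congrArg Subtype.val hDd
      simpa using this
    rw [hDdK] at h1
    have h2 : (Dd' : K) = (d : K)⁻¹ := eq_inv_of_mul_eq_one_right h1
    rw [← h2]
    exact Dd'.2
  have hdmem : (d : K) ∈ O0 := hDdK ▸ Dd.2
  have hdFmem : (d : F) ∈ lattice O0 b h := by
    rw [← map_natCast (algebraMap K F)]
    exact algebraMap_mem_lattice h hdmem
  have hdinvF : ((d : F))⁻¹ ∈ lattice O0 b h := by
    rw [← map_natCast (algebraMap K F), ← map_inv₀]
    exact algebraMap_mem_lattice h hdinv
  have hwmem : (d : F)⁻¹ * u⁻¹ ∈ lattice O0 b h := Subring.mul_mem _ hdinvF hu'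
  refine unitDiscr_of_dual (b.smulTower pb) ?_
    (fun p => bd p.1 • (((d : F)⁻¹ * u⁻¹) • y ^ (d - (p.2 : ℕ)))) ?_ ?_
  · rintro ⟨i, e⟩ ⟨j, f⟩
    rw [Basis.smulTower_apply, Basis.smulTower_apply, smul_mul_smul_comm,
      ← Algebra.trace_trace_of_basis b pb, map_smul, smul_eq_mul, hpb, hpb, ← pow_add,
      trace_pow pb y hpb u hy]
    apply trace_mem_of_mem_lattice h
    refine Subring.mul_mem _
      (Subring.mul_mem _ (basis_mem_lattice h i) (basis_mem_lattice h j)) ?_
    split_ifs
    · exact Subring.mul_mem _ hdFmem (Subring.pow_mem _ hu _)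
    · exact Subring.zero_mem _
  · rintro ⟨i, e⟩ ⟨j, f⟩
    rw [Basis.smulTower_repr_mk]
    show b.repr (pb.repr (bd i • ((d : F)⁻¹ * u⁻¹) • y ^ (d - (e : ℕ))) f) j ∈ O0
    rw [map_smul, map_smul, Finsupp.smul_apply, Finsupp.smul_apply,
      repr_pow pb y hpb u hy, smul_eq_mul, smul_eq_mul]
    refine (Subring.mul_mem _ (hbd i) (Subring.mul_mem _ hwmem ?_)) j
    split_ifs
    · exact Subring.pow_mem _ hu _
    · exact Subring.zero_mem _
  · rintro ⟨i, e⟩ ⟨j, f⟩
    rw [Basis.smulTower_apply]
    show Algebra.trace K L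
      ((bd i • ((d : F)⁻¹ * u⁻¹) • y ^ (d - (e : ℕ))) * (b j • pb f)) = _
    rw [smul_mul_smul_comm, ← Algebra.trace_trace_of_basis b pb, map_smul,
      trace_dual_pow_mul pb y hpb u hy hu0 hdF, smul_eq_mul]
    by_cases hef : e = f
    · subst hef
      rw [if_pos rfl, mul_one, hbdual]
      by_cases hij : i = j
      · subst hij; simp
      · rw [if_neg hij, if_neg]
        intro h1
        exact hij (congrArg Prod.fst h1)
    · rw [if_neg hef, mul_zero, map_zero, if_neg]
      intro h1
      exact hef (congrArg Prod.snd h1)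

end Kummer

section Reduction

variable {K F : Type*} [Field K] [Field F] [Algebra K F]
variable {ι : Type*} [Fintype ι] [DecidableEq ι]
variable {O0 : Subring K} {b : Basis ι K F}
variable {κ Fκ : Type*} [Field κ] [Field Fκ] [Algebra κ Fκ]

/-- A subring `O` of `F` which is exactly the `O0`-span of the basis `b` makes `b` integral. -/
theorem isIntegralBasis_of_subring (O : Subring F)
    (hO : ∀ x, x ∈ O ↔ ∀ i, b.repr x i ∈ O0) : IsIntegralBasis O0 b := by
  have hb : ∀ i, b i ∈ O := fun i => (hO _).mpr fun k => by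
    rw [b.repr_self, Finsupp.single_apply]
    split_ifs
    exacts [Subring.one_mem _, Subring.zero_mem _]
  exact ⟨(hO 1).mp (Subring.one_mem O), fun i j => (hO _).mp (Subring.mul_mem O (hb i) (hb j))⟩

theorem lattice_eq_of_subring (O : Subring F)
    (hO : ∀ x, x ∈ O ↔ ∀ i, b.repr x i ∈ O0) :
    lattice O0 b (isIntegralBasis_of_subring O hO) = O := by
  ext x
  exact (hO x).symm

variable (h : IsIntegralBasis O0 b) (red0 : O0 →+* κ) (red : lattice O0 b h →+* Fκ)

/-- Coordinates of a lattice element, as elements of `O0`. -/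
def coord (x : lattice O0 b h) (i : ι) : O0 := ⟨b.repr (x : F) i, x.2 i⟩

variable (hcompat : ∀ a : O0,
  red ⟨algebraMap K F a, algebraMap_mem_lattice h a.2⟩ = algebraMap κ Fκ (red0 a))

include hcompat in
theorem red_eq_sum (x : lattice O0 b h) :
    red x = ∑ i, red0 (coord h x i) • red ⟨b i, basis_mem_lattice h i⟩ := by
  have hx : x = ∑ i, (⟨algebraMap K F (coord h x i),
      algebraMap_mem_lattice h (coord h x i).2⟩ : lattice O0 b h) *
        ⟨b i, basis_mem_lattice h i⟩ := by
    apply Subtype.ext
    rw [AddSubmonoidClass.coe_finsetSum]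
    conv_lhs => rw [← b.sum_repr (x : F)]
    refine Finset.sum_congr rfl fun i _ => ?_
    rw [Algebra.smul_def]
    rfl
  conv_lhs => rw [hx]
  rw [map_sum]
  refine Finset.sum_congr rfl fun i _ => ?_
  rw [map_mul, hcompat, Algebra.smul_def]

include hcompat in
/-- **Base layer.** Let `b` be an integral basis of `F / K` over the subring `O0`, with
reductions `red0 : O0 → κ` and `red : lattice → Fκ` onto fields, compatible, `Fκ / κ` separable,
and such that a lattice element with zero reduction has all coordinates of zero reduction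
(orthonormality).  Then `Algebra.discr K b` is an element of `O0` with nonzero reduction. -/
theorem discr_reduction_ne_zero [Algebra.IsSeparable κ Fκ]
    (hred0 : Function.Surjective red0) (hred : Function.Surjective red)
    (hker : ∀ x : lattice O0 b h, red x = 0 → ∀ i, red0 (coord h x i) = 0) :
    ∃ D : O0, (D : K) = Algebra.discr K b ∧ red0 D ≠ 0 := by
  classical
  set bbar : ι → Fκ := fun i => red ⟨b i, basis_mem_lattice h i⟩ with hbbar
  have hsum : ∀ x : lattice O0 b h, red x = ∑ i, red0 (coord h x i) • bbar i :=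
    red_eq_sum h red0 red hcompat
  have hli : LinearIndependent κ bbar := by
    rw [Fintype.linearIndependent_iff]
    intro g hg i
    choose a ha using fun i => hred0 (g i)
    let x : lattice O0 b h :=
      ⟨∑ i, (a i : K) • b i, sum_smul_mem_lattice h _ fun i => (a i).2⟩
    have hcoord : ∀ i, coord h x i = a i := by
      intro i
      apply Subtype.ext
      show b.repr (∑ i, (a i : K) • b i) i = a i
      rw [b.repr_sum_self]
    have hx : red x = 0 := by
      rw [hsum x]
      simp_rw [hcoord, ha]
      exact hg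
    have h1 := hker x hx i
    rw [hcoord, ha] at h1
    exact h1
  have hsp : ⊤ ≤ Submodule.span κ (Set.range bbar) := by
    intro z _
    obtain ⟨x, rfl⟩ := hred z
    rw [hsum x]
    exact Submodule.sum_mem _ fun i _ =>
      Submodule.smul_mem _ _ (Submodule.subset_span ⟨i, rfl⟩)
  let B : Basis ι κ Fκ := Basis.mk hli hsp
  have hB : ∀ i, B i = bbar i := fun i => Basis.mk_apply hli hsp i
  have hrepr : ∀ (x : lattice O0 b h) (i : ι), B.repr (red x) i = red0 (coord h x i) := by
    intro x i
    rw [hsum x]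
    simp_rw [← hB]
    rw [B.repr_sum_self]
  have htrace : ∀ x : lattice O0 b h, Algebra.trace κ Fκ (red x) =
      red0 ⟨Algebra.trace K F (x : F), trace_mem_of_mem_lattice h x.2⟩ := by
    intro x
    rw [Algebra.trace_eq_matrix_trace B, Matrix.trace]
    simp only [Matrix.diag_apply, Algebra.leftMulMatrix_eq_repr_mul]
    have h1 : (⟨Algebra.trace K F (x : F), trace_mem_of_mem_lattice h x.2⟩ : O0) =
        ∑ i, coord h (x * ⟨b i, basis_mem_lattice h i⟩) i := by
      apply Subtype.ext
      rw [AddSubmonoidClass.coe_finsetSum]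
      show Algebra.trace K F (x : F) = _
      rw [Algebra.trace_eq_matrix_trace b, Matrix.trace]
      simp only [Matrix.diag_apply, Algebra.leftMulMatrix_eq_repr_mul]
      rfl
    rw [h1, map_sum]
    refine Finset.sum_congr rfl fun i _ => ?_
    rw [hB, ← map_mul, hrepr]
  let T0 : Matrix ι ι O0 := fun i j => ⟨Algebra.traceMatrix K b i j, traceMatrix_mem h i j⟩
  have hT0 : T0.map O0.subtype = Algebra.traceMatrix K b := by
    ext i j
    rfl
  have hT0bar : T0.map red0 = Algebra.traceMatrix κ B := by
    ext i j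
    rw [Algebra.traceMatrix_apply, Algebra.traceForm_apply, hB, hB, ← map_mul, htrace]
    rfl
  refine ⟨T0.det, ?_, ?_⟩
  · rw [Algebra.discr_def, ← hT0]
    exact RingHom.map_det O0.subtype T0
  · have h1 := RingHom.map_det red0 T0
    rw [RingHom.mapMatrix_apply, hT0bar, ← Algebra.discr_def] at h1
    rw [h1]
    have hfin : Module.Finite κ Fκ := Module.Finite.of_basis B
    exact Algebra.discr_not_zero_of_basis κ B

include hcompat in
/-- Base layer, unit form: if moreover every element of `O0` with nonzero reduction is a unit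
(`O0` local with `ker red0` its maximal ideal), `Algebra.discr K b` is a unit of `O0`. -/
theorem unitDiscr_of_reduction [Algebra.IsSeparable κ Fκ]
    (hred0 : Function.Surjective red0) (hred : Function.Surjective red)
    (hker : ∀ x : lattice O0 b h, red x = 0 → ∀ i, red0 (coord h x i) = 0)
    (hlocal : ∀ a : O0, red0 a ≠ 0 → IsUnit a) :
    IsUnitIn O0 (Algebra.discr K b) := by
  obtain ⟨D, hD, hD0⟩ := discr_reduction_ne_zero h red0 red hcompat hred0 hred hker
  obtain ⟨D', hD'⟩ := (hlocal D hD0).exists_right_inv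
  exact ⟨D, D', hD', hD⟩

end Reduction

end Fermat.Agent.S18.helper1581
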