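import Mathlib
import Fermat.Agent.S18.helper1581_Vertical

/-!
# S18-VERT, assembly (track B, clause (c) / (ET))

* `discr_reduction_ne_zero_of_basis` : base layer with the reduced basis given.
* `exists_basis_unitDiscr_of_valuationSubring` : VALUATION WRAPPER.  `F / K` finite,
  `O : ValuationSubring F`, `red : O →+* Fκ` surjective onto a field, `κ` a subfield (algebra)
  of `Fκ` containing the reductions of `O ∩ K`, `Fκ / κ` separable, `[F : K] ≤ [Fκ : κ]`.
  Then a lift of a `κ`-basis of `Fκ` is a `K`-basis `b` of `F` with `O = ⊕ (O ∩ K) b i` and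
  `Algebra.discr K b` a unit of `O ∩ K`.
-/

set_option autoImplicit false
set_option linter.unusedSectionVars false

noncomputable section

namespace Fermat.Agent.S18.helper1581

open Module Matrix

section ReductionBasis

variable {K F : Type*} [Field K] [Field F] [Algebra K F]
variable {ι : Type*} [Fintype ι] [DecidableEq ι]
variable {O0 : Subring K} {b : Basis ι K F}
variable {κ Fκ : Type*} [Field κ] [Field Fκ] [Algebra κ Fκ]

/-- Base layer, variant: the reductions of the `b i` form a given `κ`-basis `B` of `Fκ` and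
reduction is computed coordinatewise.  No surjectivity hypothesis. -/
theorem discr_reduction_ne_zero_of_basis [Algebra.IsSeparable κ Fκ]
    (h : IsIntegralBasis O0 b) (red0 : O0 →+* κ) (red : lattice O0 b h →+* Fκ)
    (B : Basis ι κ Fκ) (hB : ∀ i, B i = red ⟨b i, basis_mem_lattice h i⟩)
    (hsum : ∀ x : lattice O0 b h, red x = ∑ i, red0 (coord h x i) • B i) :
    ∃ D : O0, (D : K) = Algebra.discr K b ∧ red0 D ≠ 0 := by
  classical
  have hrepr : ∀ (x : lattice O0 b h) (i : ι), B.repr (red x) i = red0 (coord h x i) := by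
    intro x i
    rw [hsum x, B.repr_sum_self]
  have htrace : ∀ x : lattice O0 b h, Algebra.trace κ Fκ (red x) =
      red0 ⟨Algebra.trace K F (x : F), trace_mem_of_mem_lattice h x.2⟩ := by
    intro x
    rw [Algebra.trace_eq_matrix_trace B, Matrix.trace]
    simp only [Matrix.diag_apply, Algebra.leftMulMatrix_eq_repr_mul]
    have h1 : (⟨Algebra.trace K F (x : F), trace_mem_of_mem_lattice h x.2⟩ : O0) =
        ∑ i, coord h (x * ⟨b i, basis_mem_lattice h i⟩) i := by
      apply Subtype.ext
      rw [AddSubmonoidClass.coe_finsetSum]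
      show Algebra.trace K F (x : F) = _
      rw [Algebra.trace_eq_matrix_trace b, Matrix.trace]
      simp only [Matrix.diag_apply, Algebra.leftMulMatrix_eq_repr_mul]
      rfl
    rw [h1, map_sum]
    refine Finset.sum_congr rfl fun i _ => ?_
    rw [hB, ← map_mul, hrepr]
  let T0 : Matrix ι ι O0 := fun i j => ⟨Algebra.traceMatrix K b i j, traceMatrix_mem h i j⟩
  have hT0 : T0.map O0.subtype = Algebra.traceMatrix K b := by
    ext i j
    rfl
  have hT0bar : T0.map red0 = Algebra.traceMatrix κ B := by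
    ext i j
    rw [Algebra.traceMatrix_apply, Algebra.traceForm_apply, hB, hB, ← map_mul, htrace]
    rfl
  refine ⟨T0.det, ?_, ?_⟩
  · rw [Algebra.discr_def, ← hT0]
    exact RingHom.map_det O0.subtype T0
  · have h1 := RingHom.map_det red0 T0
    rw [RingHom.mapMatrix_apply, hT0bar, ← Algebra.discr_def] at h1
    rw [h1]
    have hfin : Module.Finite κ Fκ := Module.Finite.of_basis B
    exact Algebra.discr_not_zero_of_basis κ B

end ReductionBasis

section ValuationWrapper

variable {K F : Type*} [Field K] [Field F] [Algebra K F] [FiniteDimensional K F]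
variable {κ Fκ : Type*} [Field κ] [Field Fκ] [Algebra κ Fκ]

/-- In a local ring, a surjective ring hom onto a field kills exactly the non-units. -/
theorem isUnit_of_red_ne_zero {R : Type*} [CommRing R] [IsLocalRing R] {E : Type*} [Field E]
    (red : R →+* E) (hred : Function.Surjective red) {x : R} (hx : red x ≠ 0) : IsUnit x := by
  have hmax : (RingHom.ker red).IsMaximal := RingHom.ker_isMaximal_of_surjective red hred
  have hker : RingHom.ker red = IsLocalRing.maximalIdeal R := IsLocalRing.eq_maximalIdeal hmax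
  by_contra hu
  have h1 : x ∈ IsLocalRing.maximalIdeal R := by
    rw [IsLocalRing.mem_maximalIdeal]
    exact hu
  rw [← hker, RingHom.mem_ker] at h1
  exact hx h1

theorem inv_mem_of_red_ne_zero (O : ValuationSubring F) {E : Type*} [Field E]
    (red : O →+* E) (hred : Function.Surjective red) {x : O} (hx : red x ≠ 0) :
    ((x : F))⁻¹ ∈ O := by
  obtain ⟨u, hu⟩ := (isUnit_of_red_ne_zero red hred hx).exists_right_inv
  have h1 : (x : F) * (u : F) = 1 := by
    have := congrArg Subtype.val hu
    simpa using this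
  have h2 : ((x : F))⁻¹ = (u : F) := inv_eq_of_mul_eq_one_right h1
  rw [h2]
  exact u.2

/-- **Valuation wrapper.**  `F / K` finite, `O` a valuation subring of `F`, `O0 = O ∩ K`,
`red : O → Fκ` a surjective ring hom onto a field, `κ` a field with `Fκ` a separable
`κ`-algebra such that the reductions of `O ∩ K` lie in `κ`, and `[F : K] ≤ [Fκ : κ]`.
Then there is a `K`-basis `b` of `F` with `O = ⊕ O0 • b i` whose discriminant is a unit of
`O0`. -/
theorem exists_basis_unitDiscr_of_valuationSubring [Algebra.IsSeparable κ Fκ]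
    (O : ValuationSubring F) (O0 : Subring K)
    (hO0 : ∀ a : K, a ∈ O0 ↔ algebraMap K F a ∈ O)
    (red : O →+* Fκ) (hred : Function.Surjective red)
    (hκ : ∀ (a : K) (ha : algebraMap K F a ∈ O),
      red ⟨algebraMap K F a, ha⟩ ∈ Set.range (algebraMap κ Fκ))
    (hdeg : finrank K F ≤ finrank κ Fκ) :
    ∃ b : Basis (Fin (finrank K F)) K F,
      (∀ x : F, x ∈ O ↔ ∀ i, b.repr x i ∈ O0) ∧ IsUnitIn O0 (Algebra.discr K b) := by
  classical
  set n := finrank K F with hn
  have hnpos : 0 < n := finrank_pos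
  have hne : Nonempty (Fin n) := ⟨⟨0, hnpos⟩⟩
  obtain ⟨z, hz⟩ := exists_linearIndependent_of_le_finrank hdeg
  choose bO hbO using fun i => hred (z i)
  let incl : O0 →+* O :=
    { toFun := fun a => ⟨algebraMap K F a, (hO0 a).mp a.2⟩
      map_one' := Subtype.ext (map_one _)
      map_mul' := fun a c => Subtype.ext (map_mul _ _ _)
      map_zero' := Subtype.ext (map_zero _)
      map_add' := fun a c => Subtype.ext (map_add _ _ _) }
  have hincl : ∀ a : O0, ((incl a : O) : F) = algebraMap K F a := fun a => rfl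
  have hinj : Function.Injective (algebraMap κ Fκ) := (algebraMap κ Fκ).injective
  have hrange : ∀ a : O0, ∃ t : κ, algebraMap κ Fκ t = red (incl a) :=
    fun a => hκ a ((hO0 a).mp a.2)
  choose r0 hr0 using hrange
  let red0 : O0 →+* κ :=
    { toFun := r0
      map_one' := hinj (by rw [hr0, map_one, map_one, map_one])
      map_mul' := fun a c => hinj (by rw [hr0, map_mul, map_mul, map_mul, hr0, hr0])
      map_zero' := hinj (by rw [hr0, map_zero, map_zero, map_zero])
      map_add' := fun a c => hinj (by rw [hr0, map_add, map_add, map_add, hr0, hr0]) }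
  have hred0 : ∀ a : O0, algebraMap κ Fκ (red0 a) = red (incl a) := hr0
  -- the key orthonormality statement
  have key : ∀ c : Fin n → K, c ≠ 0 → ∃ i0, c i0 ≠ 0 ∧ ∃ hquot : ∀ i, c i / c i0 ∈ O0,
      ∃ u : O, red u ≠ 0 ∧ ∑ i, c i • (bO i : F) = algebraMap K F (c i0) * (u : F) := by
    intro c hc
    obtain ⟨i1, hi1⟩ : ∃ i, c i ≠ 0 := by
      by_contra hall
      exact hc (funext fun i => by_contra fun hi => hall ⟨i, hi⟩)
    obtain ⟨i0, -, hmax⟩ := Finset.exists_max_image Finset.univ
      (fun i => O.valuation (algebraMap K F (c i))) ⟨i1, Finset.mem_univ _⟩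
    have hci0 : c i0 ≠ 0 := by
      intro h0
      have h1 := hmax i1 (Finset.mem_univ _)
      simp only [h0, map_zero] at h1
      have h2 : O.valuation (algebraMap K F (c i1)) = 0 := le_antisymm h1 zero_le
      rw [map_eq_zero, map_eq_zero] at h2
      exact hi1 h2
    have hv0 : O.valuation (algebraMap K F (c i0)) ≠ 0 := by
      rw [ne_eq, map_eq_zero, map_eq_zero]
      exact hci0
    have hquot : ∀ i, c i / c i0 ∈ O0 := by
      intro i
      rw [hO0, ← O.valuation_le_one_iff, map_div₀, map_div₀]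
      exact (div_le_one₀ (zero_lt_iff.mpr hv0)).mpr (hmax i (Finset.mem_univ _))
    refine ⟨i0, hci0, hquot, ∑ i, incl ⟨c i / c i0, hquot i⟩ * bO i, ?_, ?_⟩
    · intro hu
      have h1 : red (∑ i, incl ⟨c i / c i0, hquot i⟩ * bO i) =
          ∑ i, red0 ⟨c i / c i0, hquot i⟩ • z i := by
        rw [map_sum]
        refine Finset.sum_congr rfl fun i _ => ?_
        rw [map_mul, hbO, ← hred0, Algebra.smul_def]
      rw [h1] at hu
      have h2 := Fintype.linearIndependent_iff.mp hz _ hu i0
      have h3 : (⟨c i0 / c i0, hquot i0⟩ : O0) = 1 := Subtype.ext (div_self hci0)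
      rw [h3, map_one] at h2
      exact one_ne_zero h2
    · rw [AddSubmonoidClass.coe_finsetSum, Finset.mul_sum]
      refine Finset.sum_congr rfl fun i _ => ?_
      rw [Algebra.smul_def]
      show algebraMap K F (c i) * (bO i : F) =
        algebraMap K F (c i0) * (algebraMap K F (c i / c i0) * (bO i : F))
      rw [← mul_assoc, ← map_mul, mul_div_cancel₀ _ hci0]
  have hli : LinearIndependent K (fun i => (bO i : F)) := by
    rw [Fintype.linearIndependent_iff]
    intro c hc
    by_contra hne
    have hc0 : c ≠ 0 := fun h0 => hne (fun i => by rw [h0]; rfl)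
    obtain ⟨i0, hci0, -, u, hu, hsum⟩ := key c hc0
    rw [hc] at hsum
    have h1 : (u : F) = 0 := by
      rcases mul_eq_zero.mp hsum.symm with h | h
      · exact absurd ((map_eq_zero _).mp h) hci0
      · exact h
    have h2 : u = 0 := Subtype.ext h1
    exact hu (by rw [h2, map_zero])
  let b : Basis (Fin n) K F :=
    basisOfLinearIndependentOfCardEqFinrank hli (by rw [Fintype.card_fin])
  have hb : ∀ i, b i = (bO i : F) := fun i => by
    show (basisOfLinearIndependentOfCardEqFinrank hli _) i = _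
    rw [coe_basisOfLinearIndependentOfCardEqFinrank]
  have hO : ∀ x : F, x ∈ O ↔ ∀ i, b.repr x i ∈ O0 := by
    intro x
    constructor
    · intro hx
      by_cases hc0 : (fun i => b.repr x i) = 0
      · intro i
        have h1 : b.repr x i = 0 := congrFun hc0 i
        rw [h1]
        exact O0.zero_mem
      · obtain ⟨i0, hci0, hquot, u, hu, hsum⟩ := key _ hc0
        have hx' : x = algebraMap K F (b.repr x i0) * (u : F) := by
          rw [← hsum]
          conv_lhs => rw [← b.sum_repr x]
          exact Finset.sum_congr rfl fun i _ => by rw [hb]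
        have huinv := inv_mem_of_red_ne_zero O red hred hu
        have hu0 : (u : F) ≠ 0 := by
          intro h0
          exact hu (by rw [show u = 0 from Subtype.ext h0, map_zero])
        have hi0 : b.repr x i0 ∈ O0 := by
          rw [hO0]
          have h1 : algebraMap K F (b.repr x i0) = x * (u : F)⁻¹ := by
            conv_rhs => rw [hx']
            rw [mul_assoc, mul_inv_cancel₀ hu0, mul_one]
          rw [h1]
          exact O.mul_mem _ _ hx huinv
        intro i
        have h1 : b.repr x i = (b.repr x i / b.repr x i0) * b.repr x i0 := by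
          rw [div_mul_cancel₀ _ hci0]
        rw [h1]
        exact O0.mul_mem (hquot i) hi0
    · intro hx
      rw [← b.sum_repr x]
      refine Subring.sum_mem O.toSubring fun i _ => ?_
      rw [Algebra.smul_def, hb]
      exact O.mul_mem _ _ ((hO0 _).mp (hx i)) (bO i).2
  have hint : IsIntegralBasis O0 b := isIntegralBasis_of_subring O.toSubring hO
  let toO : lattice O0 b hint →+* O :=
    { toFun := fun x => ⟨(x : F), (hO _).mpr x.2⟩
      map_one' := rfl
      map_mul' := fun _ _ => rfl
      map_zero' := rfl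
      map_add' := fun _ _ => rfl }
  have hsum : ∀ x : lattice O0 b hint,
      red (toO x) = ∑ i, red0 (coord hint x i) • z i := by
    intro x
    have hx : toO x = ∑ i, incl (coord hint x i) * bO i := by
      apply Subtype.ext
      rw [AddSubmonoidClass.coe_finsetSum]
      show (x : F) = _
      conv_lhs => rw [← b.sum_repr (x : F)]
      refine Finset.sum_congr rfl fun i _ => ?_
      rw [Algebra.smul_def, hb]
      rfl
    rw [hx, map_sum]
    refine Finset.sum_congr rfl fun i _ => ?_
    rw [map_mul, hbO, ← hred0, Algebra.smul_def]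
  have hsp : ⊤ ≤ Submodule.span κ (Set.range z) := by
    intro w _
    obtain ⟨x, rfl⟩ := hred w
    have h1 := hsum ⟨(x : F), (hO _).mp x.2⟩
    have h2 : toO ⟨(x : F), (hO _).mp x.2⟩ = x := Subtype.ext rfl
    rw [h2] at h1
    rw [h1]
    exact Submodule.sum_mem _ fun i _ =>
      Submodule.smul_mem _ _ (Submodule.subset_span ⟨i, rfl⟩)
  let B : Basis (Fin n) κ Fκ := Basis.mk hz hsp
  have hBz : ∀ i, B i = z i := fun i => Basis.mk_apply hz hsp i
  have hBb : ∀ i, B i = (red.comp toO) ⟨b i, basis_mem_lattice hint i⟩ := by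
    intro i
    rw [hBz, ← hbO]
    show red (bO i) = red (toO ⟨b i, basis_mem_lattice hint i⟩)
    congr 1
    exact Subtype.ext (hb i).symm
  obtain ⟨D, hD, hD0⟩ := discr_reduction_ne_zero_of_basis hint red0 (red.comp toO) B hBb
    (fun x => by
      show red (toO x) = _
      rw [hsum x]
      exact Finset.sum_congr rfl fun i _ => by rw [hBz])
  have hDu : red (incl D) ≠ 0 := by
    rw [← hred0]
    exact (map_ne_zero _).mpr hD0
  have hDinv := inv_mem_of_red_ne_zero O red hred hDu
  have hD0' : (D : K) ≠ 0 := by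
    intro h0
    apply hD0
    rw [show D = 0 from Subtype.ext h0, map_zero]
  refine ⟨b, hO, D, ⟨(D : K)⁻¹, ?_⟩, ?_, hD⟩
  · rw [hO0, map_inv₀]
    exact hDinv
  · apply Subtype.ext
    show (D : K) * (D : K)⁻¹ = 1
    exact mul_inv_cancel₀ hD0'

end ValuationWrapper

section KummerDegree

open Polynomial

variable {F L : Type*} [Field F] [Field L] [Algebra F L]

theorem multiset_prod_eq_of_forall (θ : L) (s : Multiset L)
    (hs : ∀ r ∈ s, ∃ w : F, w ≠ 0 ∧ r = algebraMap F L w * θ) :
    ∃ w : F, w ≠ 0 ∧ s.prod = algebraMap F L w * θ ^ (Multiset.card s) := by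
  induction s using Multiset.induction_on with
  | empty => exact ⟨1, one_ne_zero, by simp⟩
  | cons a s ih =>
    obtain ⟨w1, hw1, ha⟩ := hs a (Multiset.mem_cons_self a s)
    obtain ⟨w2, hw2, hs2⟩ := ih fun r hr => hs r (Multiset.mem_cons_of_mem hr)
    refine ⟨w1 * w2, mul_ne_zero hw1 hw2, ?_⟩
    rw [Multiset.prod_cons, Multiset.card_cons, ha, hs2, map_mul, pow_succ]
    ring

/-- **Kummer.** If `θ ^ m = U ∈ F`, `U ≠ 0`, and `F` contains a primitive `m`-th root of unity,
then `θ ^ d ∈ F` for `d` the degree of `θ` over `F`. -/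
theorem kummer_pow_natDegree_mem {m : ℕ} (hm : 0 < m) {ζ : F} (hζ : IsPrimitiveRoot ζ m)
    {θ : L} {U : F} (hθ : θ ^ m = algebraMap F L U) (hU : U ≠ 0) :
    ∃ u : F, u ≠ 0 ∧ θ ^ (minpoly F θ).natDegree = algebraMap F L u := by
  have hUL : algebraMap F L U ≠ 0 := (_root_.map_ne_zero _).mpr hU
  have hθ0 : θ ≠ 0 := by
    rintro rfl
    rw [zero_pow hm.ne'] at hθ
    exact hUL hθ.symm
  have hroot : aeval θ (X ^ m - C U : F[X]) = 0 := by
    simp [hθ]
  have hint : IsIntegral F θ := ⟨X ^ m - C U, monic_X_pow_sub_C U hm.ne', hroot⟩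
  have hgm : (minpoly F θ).Monic := minpoly.monic hint
  have hdvd : minpoly F θ ∣ X ^ m - C U := minpoly.dvd F θ hroot
  have hζL : IsPrimitiveRoot (algebraMap F L ζ) m :=
    hζ.map_of_injective (algebraMap F L).injective
  have hXm : ((X ^ m - C U : F[X]).map (algebraMap F L)) = X ^ m - C (algebraMap F L U) := by
    simp
  have hsplitXm : (X ^ m - C (algebraMap F L U) : L[X]).Splits :=
    X_pow_sub_C_splits_of_isPrimitiveRoot hζL hθ
  have hne : (X ^ m - C (algebraMap F L U) : L[X]) ≠ 0 :=
    (monic_X_pow_sub_C _ hm.ne').ne_zero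
  have hdvdL : (minpoly F θ).map (algebraMap F L) ∣ X ^ m - C (algebraMap F L U) := by
    rw [← hXm]
    exact Polynomial.map_dvd _ hdvd
  have hgL : ((minpoly F θ).map (algebraMap F L)).Splits := Splits.of_dvd hsplitXm hne hdvdL
  have hgLm : ((minpoly F θ).map (algebraMap F L)).Monic := hgm.map _
  have hroots : ∀ r ∈ ((minpoly F θ).map (algebraMap F L)).roots,
      ∃ w : F, w ≠ 0 ∧ r = algebraMap F L w * θ := by
    intro r hr
    have hr0 : ((minpoly F θ).map (algebraMap F L)).eval r = 0 :=
      ((mem_roots hgLm.ne_zero).mp hr)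
    have hrm : r ^ m = algebraMap F L U := by
      obtain ⟨q, hq⟩ := hdvdL
      have h1 := congrArg (eval r) hq
      rw [eval_mul, hr0, zero_mul] at h1
      simpa [sub_eq_zero] using h1
    have h1 : (r / θ) ^ m = 1 := by
      rw [div_pow, hrm, hθ, div_self hUL]
    have hNZ : NeZero m := ⟨hm.ne'⟩
    obtain ⟨i, -, hi⟩ := hζL.eq_pow_of_pow_eq_one h1
    refine ⟨ζ ^ i, pow_ne_zero _ (hζ.ne_zero hm.ne'), ?_⟩
    rw [map_pow, hi, div_mul_cancel₀ _ hθ0]
  obtain ⟨w, hw, hprod⟩ := multiset_prod_eq_of_forall θ _ hroots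
  have hcard : Multiset.card ((minpoly F θ).map (algebraMap F L)).roots =
      (minpoly F θ).natDegree := by
    rw [← hgL.natDegree_eq_card_roots, natDegree_map]
  have hc0 := hgL.coeff_zero_eq_prod_roots_of_monic hgLm
  rw [coeff_map, natDegree_map, hprod, hcard] at hc0
  have hwL : algebraMap F L w ≠ 0 := (_root_.map_ne_zero _).mpr hw
  have hθd : θ ^ (minpoly F θ).natDegree =
      algebraMap F L ((-1) ^ (minpoly F θ).natDegree * (minpoly F θ).coeff 0 / w) := by
    rw [map_div₀, map_mul, hc0, map_pow, map_neg, map_one, ← mul_assoc, ← mul_pow]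
    simp only [mul_neg, mul_one, neg_neg, one_pow, one_mul]
    rw [mul_div_assoc, mul_comm, div_mul_cancel₀ _ hwL]
  refine ⟨_, ?_, hθd⟩
  intro h0
  rw [h0, map_zero] at hθd
  exact pow_ne_zero _ hθ0 hθd

/-- **Kummer power basis.** If moreover `[L : F]` is the degree of `θ` (i.e. `L = F(θ)`), then
`d := [L : F]` divides `m`, `θ ^ d = u ∈ F`, and `1, θ, …, θ^(d-1)` is an `F`-basis of `L`. -/
theorem exists_kummer_powerBasis {m : ℕ} (hm : 0 < m) {ζ : F} (hζ : IsPrimitiveRoot ζ m)
    {θ : L} {U : F} (hθ : θ ^ m = algebraMap F L U) (hU : U ≠ 0)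
    (hgen : finrank F L = (minpoly F θ).natDegree) :
    ∃ (d : ℕ) (pb : Basis (Fin d) F L) (u : F), d ∣ m ∧ 0 < d ∧ u ≠ 0 ∧
      (∀ e : Fin d, pb e = θ ^ (e : ℕ)) ∧ θ ^ d = algebraMap F L u ∧ u ^ m = U ^ d := by
  classical
  have hUL : algebraMap F L U ≠ 0 := (_root_.map_ne_zero _).mpr hU
  have hθ0 : θ ≠ 0 := by
    rintro rfl
    rw [zero_pow hm.ne'] at hθ
    exact hUL hθ.symm
  have hroot : aeval θ (X ^ m - C U : F[X]) = 0 := by
    simp [hθ]
  have hint : IsIntegral F θ := ⟨X ^ m - C U, monic_X_pow_sub_C U hm.ne', hroot⟩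
  have hd0 : 0 < (minpoly F θ).natDegree := minpoly.natDegree_pos hint
  obtain ⟨u, hu0, hθd⟩ := kummer_pow_natDegree_mem hm hζ hθ hU
  have hdm : (minpoly F θ).natDegree ∣ m := by
    have hex : ∃ n, 0 < n ∧ θ ^ n ∈ Set.range (algebraMap F L) := ⟨m, hm, U, hθ.symm⟩
    obtain ⟨he0, a, ha⟩ := Nat.find_spec hex
    have hdiv : ∀ n, θ ^ n ∈ Set.range (algebraMap F L) → Nat.find hex ∣ n := by
      rintro n ⟨c, hc⟩
      by_contra hnd
      have hr : 0 < n % Nat.find hex :=
        Nat.pos_of_ne_zero (fun h0 => hnd (Nat.dvd_of_mod_eq_zero h0))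
      have hlt : n % Nat.find hex < Nat.find hex := Nat.mod_lt n he0
      refine Nat.find_min hex hlt ⟨hr, c / a ^ (n / Nat.find hex), ?_⟩
      have h1 : θ ^ n = (θ ^ Nat.find hex) ^ (n / Nat.find hex) * θ ^ (n % Nat.find hex) := by
        rw [← pow_mul, ← pow_add, Nat.div_add_mod]
      rw [map_div₀, map_pow, hc, ha, h1, mul_comm, mul_div_assoc,
        div_self (pow_ne_zero _ (pow_ne_zero _ hθ0)), mul_one]
    have hed : Nat.find hex ∣ (minpoly F θ).natDegree := hdiv _ ⟨u, hθd.symm⟩
    have hem : Nat.find hex ∣ m := hdiv m ⟨U, hθ.symm⟩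
    have hde : (minpoly F θ).natDegree ≤ Nat.find hex := by
      have hroot' : aeval θ (X ^ Nat.find hex - C a : F[X]) = 0 := by
        simp [ha]
      have h1 : minpoly F θ ∣ X ^ Nat.find hex - C a := minpoly.dvd F θ hroot'
      have h2 := natDegree_le_of_dvd h1 (monic_X_pow_sub_C a he0.ne').ne_zero
      rwa [natDegree_X_pow_sub_C] at h2
    have h3 : Nat.find hex = (minpoly F θ).natDegree :=
      le_antisymm (Nat.le_of_dvd hd0 hed) hde
    rw [← h3]
    exact hem
  have hne : Nonempty (Fin (minpoly F θ).natDegree) := ⟨⟨0, hd0⟩⟩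
  refine ⟨(minpoly F θ).natDegree,
    basisOfLinearIndependentOfCardEqFinrank (linearIndependent_pow θ)
      (by rw [Fintype.card_fin, hgen]), u, hdm, hd0, hu0, fun e => ?_, hθd, ?_⟩
  · rw [coe_basisOfLinearIndependentOfCardEqFinrank]
  · apply (algebraMap F L).injective
    rw [map_pow, map_pow, ← hθd, ← hθ, ← pow_mul, ← pow_mul, mul_comm]

end KummerDegree

section Scaling

variable {K L : Type*} [Field K] [CommRing L] [Algebra K L]
variable {ι : Type*} [Fintype ι] [DecidableEq ι]

/-- Scaling the members of a family multiplies its discriminant by the square of the product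
of the scalars. -/
theorem discr_smul (c : ι → L) (w : ι → K) :
    Algebra.discr K (fun i => w i • c i) = (∏ i, w i) ^ 2 * Algebra.discr K c := by
  have h1 : Algebra.traceMatrix K (fun i => w i • c i) =
      Matrix.diagonal w * Algebra.traceMatrix K c * Matrix.diagonal w := by
    ext i j
    rw [Matrix.mul_diagonal, Matrix.diagonal_mul, Algebra.traceMatrix_apply,
      Algebra.traceMatrix_apply, Algebra.traceForm_apply, Algebra.traceForm_apply,
      smul_mul_smul_comm, map_smul, smul_eq_mul]
    ring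
  rw [Algebra.discr_def, h1, Matrix.det_mul, Matrix.det_mul, Matrix.det_diagonal,
    Algebra.discr_def]
  ring

variable {O0 : Subring K}

theorem IsUnitIn.mul {x y : K} (hx : IsUnitIn O0 x) (hy : IsUnitIn O0 y) :
    IsUnitIn O0 (x * y) := by
  obtain ⟨D, D', hD, rfl⟩ := hx
  obtain ⟨E, E', hE, rfl⟩ := hy
  exact ⟨D * E, D' * E', by rw [mul_mul_mul_comm, hD, hE, mul_one], rfl⟩

theorem IsUnitIn.pow {x : K} (hx : IsUnitIn O0 x) (n : ℕ) : IsUnitIn O0 (x ^ n) := by
  obtain ⟨D, D', hD, rfl⟩ := hx
  exact ⟨D ^ n, D' ^ n, by rw [← mul_pow, hD, one_pow], rfl⟩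

theorem isUnitIn_one : IsUnitIn O0 (1 : K) := ⟨1, 1, mul_one 1, rfl⟩

theorem IsUnitIn.prod {s : Finset ι} {w : ι → K} (hw : ∀ i ∈ s, IsUnitIn O0 (w i)) :
    IsUnitIn O0 (∏ i ∈ s, w i) := by
  induction s using Finset.induction_on with
  | empty => simpa using isUnitIn_one
  | insert a s ha ih =>
    rw [Finset.prod_insert ha]
    exact (hw a (Finset.mem_insert_self a s)).mul
      (ih fun i hi => hw i (Finset.mem_insert_of_mem hi))

theorem isUnitIn_iff {x : K} : IsUnitIn O0 x ↔ x ∈ O0 ∧ x⁻¹ ∈ O0 ∧ x ≠ 0 := by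
  constructor
  · rintro ⟨D, D', hD, rfl⟩
    have h1 : (D : K) * (D' : K) = 1 := by
      have := congrArg Subtype.val hD
      simpa using this
    have h0 : (D : K) ≠ 0 := left_ne_zero_of_mul_eq_one h1
    refine ⟨D.2, ?_, h0⟩
    rw [inv_eq_of_mul_eq_one_right h1]
    exact D'.2
  · rintro ⟨hx, hx', h0⟩
    exact ⟨⟨x, hx⟩, ⟨x⁻¹, hx'⟩, Subtype.ext (mul_inv_cancel₀ h0), rfl⟩

end Scaling

section Main

variable {C K F L : Type*} [CommRing C] [IsDomain C] [IsIntegrallyClosed C]
  [Field K] [Algebra C K] [IsFractionRing C K]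
  [Field F] [Algebra K F] [Algebra C F] [IsScalarTower C K F] [FiniteDimensional K F]
  [Field L] [Algebra F L] [Algebra K L] [Algebra C L] [IsScalarTower K F L]
  [IsScalarTower C K L] [IsScalarTower C F L]
variable {κ Fκ : Type*} [Field κ] [Field Fκ] [Algebra κ Fκ]

omit [Algebra K F] [FiniteDimensional K F] in
theorem mem_of_pow_mem (O : ValuationSubring F) {x : F} {m : ℕ} (hm : 0 < m)
    (h : x ^ m ∈ O) : x ∈ O := by
  rcases O.mem_or_inv_mem x with hx | hx
  · exact hx
  · by_cases h0 : x = 0
    · rw [h0]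
      exact O.zero_mem
    · have h1 : x = x ^ m * (x⁻¹) ^ (m - 1) := by
        obtain ⟨k, rfl⟩ := Nat.exists_eq_succ_of_ne_zero hm.ne'
        rw [Nat.succ_sub_one, pow_succ, inv_pow]
        field_simp
      rw [h1]
      exact O.mul_mem _ _ h (O.pow_mem hx _)

/-- **VERT, abstract assembly.**  `C` an integrally closed domain with fraction field `K`
(think `C = A0[t]`), `π : C` (the uniformiser), `F / K` finite with a valuation subring `O`
(the Gauss place) satisfying (O1)-(O5), a surjective reduction `red : O → Fκ` onto a field which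
is separable over a subfield `κ` containing the reductions of `C`, with `[F : K] ≤ [Fκ : κ]`;
`L = F(θ)`, `θ ^ m = U`, `U` a unit of `O`, `m` a unit of `O`, `ζ ∈ F` a primitive `m`-th root
of unity.  Then `L` has a `K`-basis of elements integral over `C` whose discriminant is (the
image of) an element of `C` not divisible by `π`. -/
theorem exists_integral_basis_discr_not_dvd [Algebra.IsSeparable κ Fκ]
    (π : C) (O : ValuationSubring F)
    (hO1 : ∀ c : C, algebraMap C F c ∈ O)
    (hO2 : ∀ c : C, algebraMap C F c ∈ O.nonunits → π ∣ c)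
    (hO3 : ∀ x ∈ O, ∃ s : C, ¬ π ∣ s ∧ IsIntegral C (algebraMap C F s * x))
    (hO4 : ∀ x : K, algebraMap K F x ∈ O →
      ∃ a s : C, ¬ π ∣ s ∧ x * algebraMap C K s = algebraMap C K a)
    (hO5 : algebraMap C F π ∈ O.nonunits)
    (red : O →+* Fκ) (hred : Function.Surjective red)
    (hR1 : ∀ c : C, red ⟨algebraMap C F c, hO1 c⟩ ∈ Set.range (algebraMap κ Fκ))
    (hR3 : finrank K F ≤ finrank κ Fκ)
    (m : ℕ) (hm : 0 < m) (hmO : O.valuation (m : F) = 1)
    (ζ : F) (hζ : IsPrimitiveRoot ζ m)
    (θ : L) (U : F) (hθ : θ ^ m = algebraMap F L U) (hU : U ∈ O) (hU' : U⁻¹ ∈ O)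
    (hU0 : U ≠ 0) (hgen : finrank F L = (minpoly F θ).natDegree) :
    ∃ (d : ℕ) (c : Basis (Fin (finrank K F) × Fin d) K L) (δ : C),
      (∀ p, IsIntegral C (c p)) ∧ Algebra.discr K c = algebraMap C K δ ∧ ¬ π ∣ δ := by
  classical
  have hprim : ∀ s : C, ¬ π ∣ s → algebraMap C F s ≠ 0 ∧ (algebraMap C F s)⁻¹ ∈ O := by
    intro s hs
    have h1 : algebraMap C F s ∉ O.nonunits := fun h => hs (hO2 s h)
    rw [ValuationSubring.mem_nonunits_iff_or, not_or, not_not] at h1
    exact h1
  let O0 : Subring K := (O.comap (algebraMap K F)).toSubring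
  have hO0 : ∀ a : K, a ∈ O0 ↔ algebraMap K F a ∈ O := fun a => Iff.rfl
  have hCK : ∀ c : C, algebraMap K F (algebraMap C K c) = algebraMap C F c :=
    fun c => (IsScalarTower.algebraMap_apply C K F c).symm
  have hκ : ∀ (a : K) (ha : algebraMap K F a ∈ O),
      red ⟨algebraMap K F a, ha⟩ ∈ Set.range (algebraMap κ Fκ) := by
    intro x hx
    obtain ⟨a, s, hs, hxs⟩ := hO4 x hx
    obtain ⟨k1, hk1⟩ := hR1 a
    obtain ⟨k2, hk2⟩ := hR1 s
    have hs' := hprim s hs
    have hmul : (⟨algebraMap K F x, hx⟩ : O) * ⟨algebraMap C F s, hO1 s⟩ =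
        ⟨algebraMap C F a, hO1 a⟩ := by
      apply Subtype.ext
      show algebraMap K F x * algebraMap C F s = algebraMap C F a
      rw [← hCK, ← hCK, ← map_mul, hxs]
    have hred_mul := congrArg red hmul
    rw [map_mul, ← hk1, ← hk2] at hred_mul
    have hk2ne : k2 ≠ 0 := by
      intro h0
      rw [h0, map_zero] at hk2
      have hsu : IsUnit (⟨algebraMap C F s, hO1 s⟩ : O) := by
        refine IsUnit.of_mul_eq_one ⟨(algebraMap C F s)⁻¹, hs'.2⟩ ?_
        apply Subtype.ext
        show algebraMap C F s * (algebraMap C F s)⁻¹ = 1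
        exact mul_inv_cancel₀ hs'.1
      exact (hsu.map red).ne_zero hk2.symm
    refine ⟨k1 / k2, ?_⟩
    rw [map_div₀, ← hred_mul, mul_div_assoc, div_self ((map_ne_zero _).mpr hk2ne), mul_one]
  obtain ⟨b, hO, hDb⟩ := exists_basis_unitDiscr_of_valuationSubring O O0 hO0 red hred hκ hR3
  have hint : IsIntegralBasis O0 b := isIntegralBasis_of_subring O.toSubring hO
  have hlat : ∀ x : F, x ∈ lattice O0 b hint ↔ x ∈ O := fun x => (hO x).symm
  obtain ⟨d, pb, u, hdm, hd0, hu0, hpb, hθd, hum⟩ :=
    exists_kummer_powerBasis hm hζ hθ hU0 hgen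
  have hu : u ∈ O := mem_of_pow_mem O hm (by rw [hum]; exact O.pow_mem hU d)
  have hu' : u⁻¹ ∈ O :=
    mem_of_pow_mem O hm (by rw [inv_pow, hum, ← inv_pow]; exact O.pow_mem hU' d)
  have hmF : (m : F) ≠ 0 := by
    intro h0
    rw [h0, map_zero] at hmO
    exact zero_ne_one hmO
  obtain ⟨q, hq⟩ := hdm
  have hdne : (d : F) ≠ 0 := by
    intro h0
    apply hmF
    rw [hq, Nat.cast_mul, h0, zero_mul]
  have hqne : (q : F) ≠ 0 := by
    intro h0
    apply hmF
    rw [hq, Nat.cast_mul, h0, mul_zero]
  have hminv : ((m : F))⁻¹ ∈ O := by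
    rw [← O.valuation_le_one_iff, map_inv₀, hmO, inv_one]
  have hdF : ((d : F))⁻¹ ∈ O := by
    have h1 : ((d : F))⁻¹ = (q : F) * ((m : F))⁻¹ := by
      rw [hq, Nat.cast_mul]
      field_simp
    rw [h1]
    exact O.mul_mem _ _ (natCast_mem O q) hminv
  have hd : IsUnitIn O0 (d : K) := by
    rw [isUnitIn_iff]
    refine ⟨?_, ?_, ?_⟩
    · rw [hO0, map_natCast]
      exact natCast_mem O d
    · rw [hO0, map_inv₀, map_natCast]
      exact hdF
    · intro h0
      apply hdne
      rw [← map_natCast (algebraMap K F), h0, map_zero]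
  have hDc := unitDiscr_kummer pb θ hpb u hθd hint hDb hd hu0 ((hlat u).mpr hu)
    ((hlat _).mpr hu')
  have hbO : ∀ i, b i ∈ O := fun i => (hlat _).mp (basis_mem_lattice hint i)
  choose s hs hsint using fun i => hO3 (b i) (hbO i)
  obtain ⟨sθ, hsθ, hsθint⟩ := hO3 U hU
  have hθint : IsIntegral C (algebraMap C L sθ * θ) := by
    refine IsIntegral.of_pow hm ?_
    have h1 : (algebraMap C L sθ * θ) ^ m =
        algebraMap C L (sθ ^ (m - 1)) * algebraMap F L (algebraMap C F sθ * U) := by
      rw [mul_pow, hθ, map_mul, ← IsScalarTower.algebraMap_apply C F L, ← mul_assoc,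
        ← map_mul, ← pow_succ, Nat.sub_add_cancel hm, map_pow]
    rw [h1]
    exact isIntegral_algebraMap.mul (hsθint.map (IsScalarTower.toAlgHom C F L))
  let w : Fin (finrank K F) × Fin d → K := fun p => algebraMap C K (s p.1 * sθ ^ (p.2 : ℕ))
  have hwunit : ∀ p, IsUnitIn O0 (w p) := by
    intro p
    have hnd : ∀ t : C, ¬ π ∣ t → IsUnitIn O0 (algebraMap C K t) := by
      intro t ht
      rw [isUnitIn_iff]
      have ht' := hprim t ht
      refine ⟨?_, ?_, ?_⟩
      · rw [hO0, hCK]
        exact hO1 t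
      · rw [hO0, map_inv₀, hCK]
        exact ht'.2
      · intro h0
        apply ht'.1
        rw [← hCK, h0, map_zero]
    show IsUnitIn O0 (algebraMap C K (s p.1 * sθ ^ (p.2 : ℕ)))
    rw [map_mul, map_pow]
    exact (hnd _ (hs p.1)).mul ((hnd _ hsθ).pow _)
  have hw0 : ∀ p, IsUnit (w p) := fun p => (isUnitIn_iff.mp (hwunit p)).2.2.isUnit
  have hc : ∀ p, ((b.smulTower pb).isUnitSMul hw0) p = w p • (b.smulTower pb) p :=
    fun p => Basis.isUnitSMul_apply hw0 p
  have hcint : ∀ p, IsIntegral C (((b.smulTower pb).isUnitSMul hw0) p) := by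
    rintro ⟨i, e⟩
    have h1 : ((b.smulTower pb).isUnitSMul hw0) (i, e) =
        algebraMap F L (algebraMap C F (s i) * b i) * (algebraMap C L sθ * θ) ^ (e : ℕ) := by
      rw [hc, Basis.smulTower_apply, hpb]
      show algebraMap C K (s i * sθ ^ (e : ℕ)) • (b i • θ ^ (e : ℕ)) = _
      rw [Algebra.smul_def, Algebra.smul_def, ← IsScalarTower.algebraMap_apply C K L,
        map_mul, map_mul, map_pow, mul_pow, ← IsScalarTower.algebraMap_apply C F L]
      ring
    rw [h1]
    exact ((hsint i).map (IsScalarTower.toAlgHom C F L)).mul (hθint.pow _)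
  have hdiscr : Algebra.discr K ((b.smulTower pb).isUnitSMul hw0) =
      (∏ p, w p) ^ 2 * Algebra.discr K (b.smulTower pb) := by
    have h1 : (((b.smulTower pb).isUnitSMul hw0 : Basis _ K L) : _ → L) =
        fun p => w p • (b.smulTower pb) p := funext hc
    rw [h1, discr_smul]
  have hunit : IsUnitIn O0 (Algebra.discr K ((b.smulTower pb).isUnitSMul hw0)) := by
    rw [hdiscr]
    exact ((IsUnitIn.prod fun p _ => hwunit p).pow 2).mul hDc
  have hfinL : Module.Finite K L := Module.Finite.of_basis (b.smulTower pb)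
  have hintd : IsIntegral C (Algebra.discr K ((b.smulTower pb).isUnitSMul hw0)) :=
    Algebra.discr_isIntegral K hcint
  obtain ⟨δ, hδ⟩ := IsIntegrallyClosed.isIntegral_iff.mp hintd
  refine ⟨d, (b.smulTower pb).isUnitSMul hw0, δ, hcint, hδ.symm, ?_⟩
  rintro ⟨e, rfl⟩
  rw [← hδ] at hunit
  obtain ⟨-, hinv, hne0⟩ := isUnitIn_iff.mp hunit
  have hπe : algebraMap C F (π * e) ≠ 0 := by
    rw [← hCK]
    exact (map_ne_zero _).mpr hne0
  have hinvO : (algebraMap C F (π * e))⁻¹ ∈ O := by
    rw [← hCK, ← map_inv₀]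
    exact (hO0 _).mp hinv
  rw [ValuationSubring.mem_nonunits_iff_or] at hO5
  rw [map_mul] at hπe hinvO
  rcases hO5 with h5 | h5
  · apply hπe
    rw [h5, zero_mul]
  · apply h5
    have hπ0 : algebraMap C F π ≠ 0 := left_ne_zero_of_mul hπe
    have he0 : algebraMap C F e ≠ 0 := right_ne_zero_of_mul hπe
    have h1 : (algebraMap C F π)⁻¹ =
        algebraMap C F e * (algebraMap C F π * algebraMap C F e)⁻¹ := by
      field_simp
    rw [h1]
    exact O.mul_mem _ _ (hO1 e) hinvO

omit [FiniteDimensional K F] in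
/-- (O4) follows from (O3) because `C` is integrally closed. -/
theorem exists_num_den_of_int (π : C) (O : ValuationSubring F)
    (hO3 : ∀ x ∈ O, ∃ s : C, ¬ π ∣ s ∧ IsIntegral C (algebraMap C F s * x))
    (x : K) (hx : algebraMap K F x ∈ O) :
    ∃ a s : C, ¬ π ∣ s ∧ x * algebraMap C K s = algebraMap C K a := by
  obtain ⟨s, hs, hint⟩ := hO3 _ hx
  have h1 : IsIntegral C (algebraMap K F (algebraMap C K s * x)) := by
    rw [map_mul, ← IsScalarTower.algebraMap_apply]
    exact hint
  have h2 : IsIntegral C (algebraMap C K s * x) :=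
    (isIntegral_algebraMap_iff (algebraMap K F).injective).mp h1
  obtain ⟨a, ha⟩ := IsIntegrallyClosed.isIntegral_iff.mp h2
  exact ⟨a, s, hs, by rw [ha, mul_comm]⟩

/-- **VERT, abstract assembly, final form**: as `exists_integral_basis_discr_not_dvd`, without
the hypothesis (O4) (it follows from (O3)) and without `U ≠ 0` (if `U = 0` then `L = F`). -/
theorem exists_integral_basis_discr_not_dvd' [Algebra.IsSeparable κ Fκ]
    (π : C) (O : ValuationSubring F)
    (hO1 : ∀ c : C, algebraMap C F c ∈ O)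
    (hO2 : ∀ c : C, algebraMap C F c ∈ O.nonunits → π ∣ c)
    (hO3 : ∀ x ∈ O, ∃ s : C, ¬ π ∣ s ∧ IsIntegral C (algebraMap C F s * x))
    (hO5 : algebraMap C F π ∈ O.nonunits)
    (red : O →+* Fκ) (hred : Function.Surjective red)
    (hR1 : ∀ c : C, red ⟨algebraMap C F c, hO1 c⟩ ∈ Set.range (algebraMap κ Fκ))
    (hR3 : finrank K F ≤ finrank κ Fκ)
    (m : ℕ) (hm : 0 < m) (hmO : O.valuation (m : F) = 1)
    (ζ : F) (hζ : IsPrimitiveRoot ζ m)
    (θ : L) (U : F) (hθ : θ ^ m = algebraMap F L U) (hU : U ∈ O) (hU' : U⁻¹ ∈ O)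
    (hgen : finrank F L = (minpoly F θ).natDegree) :
    ∃ (d : ℕ) (c : Basis (Fin (finrank K F) × Fin d) K L) (δ : C),
      (∀ p, IsIntegral C (c p)) ∧ Algebra.discr K c = algebraMap C K δ ∧ ¬ π ∣ δ := by
  have hO4 : ∀ x : K, algebraMap K F x ∈ O →
      ∃ a s : C, ¬ π ∣ s ∧ x * algebraMap C K s = algebraMap C K a :=
    fun x hx => exists_num_den_of_int π O hO3 x hx
  by_cases hU0 : U = 0
  · have hθ0 : θ = 0 := by
      rw [hU0, map_zero] at hθ
      exact (pow_eq_zero_iff hm.ne').mp hθ
    have h1 : finrank F L = (minpoly F (1 : L)).natDegree := by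
      rw [hgen, hθ0, minpoly.zero, minpoly.one, Polynomial.natDegree_X, ← Polynomial.C_1,
        Polynomial.natDegree_X_sub_C]
    exact exists_integral_basis_discr_not_dvd π O hO1 hO2 hO3 hO4 hO5 red hred hR1 hR3 m hm hmO
      ζ hζ 1 1 (by simp) O.one_mem (by simp) one_ne_zero h1
  · exact exists_integral_basis_discr_not_dvd π O hO1 hO2 hO3 hO4 hO5 red hred hR1 hR3 m hm hmO
      ζ hζ θ U hθ hU hU' hU0 hgen

end Main

section Generation

variable {F L : Type*} [Field F] [Field L] [Algebra F L]

/-- The generation hypothesis `hgen` of the assembly, from `F⟮θ⟯ = ⊤`. -/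
theorem finrank_eq_natDegree_of_adjoin_eq_top {θ : L} (hint : IsIntegral F θ)
    (h : IntermediateField.adjoin F {θ} = ⊤) : finrank F L = (minpoly F θ).natDegree := by
  rw [← IntermediateField.adjoin.finrank hint, h, IntermediateField.finrank_top']

/-- The generation hypothesis `hgen` of the assembly, from `F[θ] = ⊤`. -/
theorem finrank_eq_natDegree_of_algebra_adjoin_eq_top {θ : L} (hint : IsIntegral F θ)
    (h : Algebra.adjoin F {θ} = ⊤) : finrank F L = (minpoly F θ).natDegree := by
  apply finrank_eq_natDegree_of_adjoin_eq_top hint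
  apply IntermediateField.toSubalgebra_injective
  rw [IntermediateField.adjoin_simple_toSubalgebra_of_isAlgebraic hint.isAlgebraic, h,
    IntermediateField.top_toSubalgebra]

/-- A Kummer generator is integral. -/
theorem isIntegral_of_pow_eq_algebraMap {θ : L} {U : F} {m : ℕ} (hm : 0 < m)
    (hθ : θ ^ m = algebraMap F L U) : IsIntegral F θ :=
  IsIntegral.of_pow hm (hθ ▸ isIntegral_algebraMap)

end Generation

section Transport

variable {C' K' C K L : Type*} [CommRing C'] [Field K'] [Algebra C' K'] [IsFractionRing C' K']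
  [CommRing C] [Field K] [Algebra C K] [IsFractionRing C K]
  [Field L] [Algebra K' L] [Algebra C' L] [IsScalarTower C' K' L]
  [Algebra K L] [Algebra C L] [IsScalarTower C K L]

/-- The comparison of two fraction fields of isomorphic rings is compatible with maps into a
common overfield. -/
theorem algebraMap_ringEquivOfRingEquiv (e : C' ≃+* C)
    (he : ∀ x : C', algebraMap C L (e x) = algebraMap C' L x) (x : K') :
    algebraMap K L (IsFractionRing.ringEquivOfRingEquiv (K := K') (L := K) e x) =
      algebraMap K' L x := by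
  have h : (algebraMap K L).comp
      (IsFractionRing.ringEquivOfRingEquiv (K := K') (L := K) e : K' →+* K) =
      algebraMap K' L := by
    apply IsLocalization.ringHom_ext (nonZeroDivisors C')
    ext c
    simp only [RingHom.coe_comp, Function.comp_apply, RingHom.coe_coe]
    rw [IsFractionRing.ringEquivOfRingEquiv_algebraMap, ← IsScalarTower.algebraMap_apply,
      ← IsScalarTower.algebraMap_apply, he]
  exact RingHom.congr_fun h x

/-- **Transport** of a discriminant-form tuple along an isomorphism of base rings: the same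
elements of `L` form a basis over the other fraction field, with corresponding discriminant. -/
theorem exists_basis_discr_transport (e : C' ≃+* C)
    (he : ∀ x : C', algebraMap C L (e x) = algebraMap C' L x)
    {ι : Type*} [Fintype ι] [DecidableEq ι] (c' : Basis ι K' L) (δ : C')
    (hint : ∀ i, IsIntegral C' (c' i)) (hdisc : Algebra.discr K' c' = algebraMap C' K' δ) :
    ∃ c : Basis ι K L, (∀ i, c i = c' i) ∧ (∀ i, IsIntegral C (c i)) ∧
      Algebra.discr K c = algebraMap C K (e δ) := by
  classical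
  let σ : K' ≃+* K := IsFractionRing.ringEquivOfRingEquiv e
  have hσ : ∀ x : K', algebraMap K L (σ x) = algebraMap K' L x :=
    algebraMap_ringEquivOfRingEquiv e he
  have hsmul : ∀ (k : K') (x : L), σ k • x = k • x := by
    intro k x
    rw [Algebra.smul_def, Algebra.smul_def, hσ]
  let c : Basis ι K L := c'.mapCoeffs σ hsmul
  have hc : ∀ i, c i = c' i := fun i => Basis.mapCoeffs_apply _ _ _ i
  have hcomp : (algebraMap K L).comp (σ : K' →+* K) = algebraMap K' L :=
    RingHom.ext hσ
  have htr : ∀ x : L, Algebra.trace K L x = σ (Algebra.trace K' L x) := fun x =>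
    (Algebra.trace_eq_of_ringEquiv σ hcomp x).symm
  refine ⟨c, hc, ?_, ?_⟩
  · intro i
    rw [hc]
    have h := (hint i).map_of_comp_eq (e : C' →+* C) (RingHom.id L)
      (by ext x; simp [he])
    simpa using h
  · have h1 : Algebra.traceMatrix K (c : ι → L) =
        (σ : K' →+* K).mapMatrix (Algebra.traceMatrix K' (c' : ι → L)) := by
      ext i j
      simp only [Algebra.traceMatrix_apply, Algebra.traceForm_apply, RingHom.mapMatrix_apply,
        Matrix.map_apply, RingHom.coe_coe]
      rw [hc, hc, htr]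
    rw [Algebra.discr_def, h1, ← RingHom.map_det, ← Algebra.discr_def, hdisc]
    exact IsFractionRing.ringEquivOfRingEquiv_algebraMap e δ

end Transport

end Fermat.Agent.S18.helper1581
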