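/-
S18-CECH (board #739), helper5122.  Mathlib-only, spec-independent.

Two-chart Cech connectedness:
 (A) `idempotent_rigid`   : abstract rigidity of idempotents of the special fibre;
 (B) `cech_h1_span`       : Serre finiteness of `B01 / (B0 + B1)` for the charts `t`, `1/t`;
 (C) `bounded_torsion`    : bounded `π`-power torsion of `B01 / (B0 + B1)` over a noetherian base.
-/
import Mathlib

namespace Fermat.Agent.S18.helper5122

/-! ### (A) Newton lifting of idempotents inside a subalgebra -/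

section Newton

variable {B : Type*} [CommRing B]

/-- One Newton step for the equation `x ^ 2 = x`. -/
def nwStep (x : B) : B := 3 * x ^ 2 - 2 * x ^ 3

/-- Iterated Newton steps. -/
def nw : ℕ → B → B
  | 0, x => x
  | (j + 1), x => nwStep (nw j x)

@[simp] lemma nw_zero (x : B) : nw 0 x = x := rfl

lemma nw_succ (j : ℕ) (x : B) : nw (j + 1) x = nwStep (nw j x) := rfl

lemma nwStep_mem {A : Type*} [CommRing A] [Algebra A B] (S : Subalgebra A B) {x : B}
    (hx : x ∈ S) : nwStep x ∈ S := by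
  unfold nwStep
  have h3 : (3 : B) ∈ S := by exact_mod_cast natCast_mem S 3
  have h2 : (2 : B) ∈ S := by exact_mod_cast natCast_mem S 2
  exact S.sub_mem (S.mul_mem h3 (S.pow_mem hx 2)) (S.mul_mem h2 (S.pow_mem hx 3))

lemma nw_mem {A : Type*} [CommRing A] [Algebra A B] (S : Subalgebra A B) {x : B}
    (hx : x ∈ S) (j : ℕ) : nw j x ∈ S := by
  induction j with
  | zero => simpa using hx
  | succ j ih => rw [nw_succ]; exact nwStep_mem S ih

/-- The `j`-th Newton iterate is idempotent modulo `ϖ ^ (j+1)`, inside the subalgebra `S`. -/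
lemma nw_idem {A : Type*} [CommRing A] [Algebra A B] (S : Subalgebra A B) {ϖ : B}
    (hϖ : ϖ ∈ S) {a : B} (ha : a ∈ S) (haa : ∃ x ∈ S, a * a - a = ϖ * x) (j : ℕ) :
    ∃ x ∈ S, nw j a * nw j a - nw j a = ϖ ^ (j + 1) * x := by
  induction j with
  | zero => simpa using haa
  | succ j ih =>
    obtain ⟨x, hx, he⟩ := ih
    have hy : nw j a ∈ S := nw_mem S ha j
    have h3 : (3 : B) ∈ S := by exact_mod_cast natCast_mem S 3
    have h4 : (4 : B) ∈ S := by exact_mod_cast natCast_mem S 4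
    refine ⟨ϖ ^ j * x ^ 2 * (4 * (nw j a) ^ 2 - 4 * nw j a - 3), ?_, ?_⟩
    · exact S.mul_mem (S.mul_mem (S.pow_mem hϖ j) (S.pow_mem hx 2))
        (S.sub_mem (S.sub_mem (S.mul_mem h4 (S.pow_mem hy 2)) (S.mul_mem h4 hy)) h3)
    · rw [nw_succ]
      unfold nwStep
      have key : ∀ y : B, (3 * y ^ 2 - 2 * y ^ 3) * (3 * y ^ 2 - 2 * y ^ 3) - (3 * y ^ 2 - 2 * y ^ 3)
          = (y * y - y) ^ 2 * (4 * y ^ 2 - 4 * y - 3) := fun y => by ring
      rw [key, he]
      ring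

/-- The Newton iterates stay congruent to the starting point modulo `ϖ`. -/
lemma nw_congr {A : Type*} [CommRing A] [Algebra A B] (S : Subalgebra A B) {ϖ : B}
    (hϖ : ϖ ∈ S) {a : B} (ha : a ∈ S) (haa : ∃ x ∈ S, a * a - a = ϖ * x) (j : ℕ) :
    ∃ x ∈ S, nw j a - a = ϖ * x := by
  induction j with
  | zero => exact ⟨0, S.zero_mem, by simp⟩
  | succ j ih =>
    obtain ⟨x, hx, he⟩ := ih
    obtain ⟨z, hz, hze⟩ := nw_idem S hϖ ha haa j
    have hy : nw j a ∈ S := nw_mem S ha j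
    have h2 : (2 : B) ∈ S := by exact_mod_cast natCast_mem S 2
    refine ⟨x - ϖ ^ j * z * (2 * nw j a - 1), ?_, ?_⟩
    · exact S.sub_mem hx (S.mul_mem (S.mul_mem (S.pow_mem hϖ j) hz)
        (S.sub_mem (S.mul_mem h2 hy) S.one_mem))
    · rw [nw_succ]
      unfold nwStep
      have key : ∀ y : B, (3 * y ^ 2 - 2 * y ^ 3) - a
          = (y - a) - (y * y - y) * (2 * y - 1) := fun y => by ring
      rw [key, he, hze]
      ring

/-- Two starting points congruent modulo `ϖ` have Newton iterates congruent modulo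
`ϖ ^ (j+1)`. -/
lemma nw_sub {A : Type*} [CommRing A] [Algebra A B] (S : Subalgebra A B) {ϖ : B}
    (hϖ : ϖ ∈ S) {a b : B} (ha : a ∈ S) (hb : b ∈ S) (haa : ∃ x ∈ S, a * a - a = ϖ * x)
    (hab : ∃ h ∈ S, a - b = ϖ * h) (j : ℕ) :
    ∃ h ∈ S, nw j a - nw j b = ϖ ^ (j + 1) * h := by
  induction j with
  | zero => simpa using hab
  | succ j ih =>
    obtain ⟨h, hh, he⟩ := ih
    obtain ⟨z, hz, hze⟩ := nw_idem S hϖ ha haa j
    have hx : nw j a ∈ S := nw_mem S ha j
    have hy : nw j b ∈ S := nw_mem S hb j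
    have h2 : (2 : B) ∈ S := by exact_mod_cast natCast_mem S 2
    have h3 : (3 : B) ∈ S := by exact_mod_cast natCast_mem S 3
    have h6 : (6 : B) ∈ S := by exact_mod_cast natCast_mem S 6
    refine ⟨ϖ ^ j * (h ^ 2 * (6 * nw j a - 3 - 2 * (nw j a - nw j b)) - 6 * h * z), ?_, ?_⟩
    · refine S.mul_mem (S.pow_mem hϖ j) (S.sub_mem (S.mul_mem (S.pow_mem hh 2) ?_)
        (S.mul_mem (S.mul_mem h6 hh) hz))
      exact S.sub_mem (S.sub_mem (S.mul_mem h6 hx) h3) (S.mul_mem h2 (S.sub_mem hx hy))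
    · rw [nw_succ, nw_succ]
      unfold nwStep
      have key : ∀ x y : B, (3 * x ^ 2 - 2 * x ^ 3) - (3 * y ^ 2 - 2 * y ^ 3)
          = (x - y) ^ 2 * (6 * x - 3 - 2 * (x - y)) - 6 * (x - y) * (x * x - x) :=
        fun x y => by ring
      rw [key, hze]
      generalize nw j a = X at *
      generalize nw j b = Y at *
      rw [he]
      ring

end Newton

/-! ### (A) Rigidity of idempotents -/

section Rigid

variable {A E : Type*} [CommRing A] [CommRing E] [Algebra A E]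

/-- **Cech rigidity of idempotents.**  `B0, B1 ≤ B01` are subalgebras of `E` (two charts and
their overlap), `p : A`.  Assume `H⁰ = A` (`B0 ⊓ B1` is the image of `A`), `p` is a
non-zero-divisor on `B01`, the `p`-power torsion of `H¹ = B01/(B0+B1)` is killed by `p ^ c`,
and `A/p` has only trivial idempotents.  Then every idempotent of the special fibre, i.e. a
pair `a ∈ B0`, `b ∈ B1` idempotent modulo `p` and agreeing modulo `p` on the overlap, is `0`
or `1`. -/
theorem idempotent_rigid (p : A) (B0 B1 B01 : Subalgebra A E) (h0 : B0 ≤ B01) (h1 : B1 ≤ B01)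
    (hinj : Function.Injective (algebraMap A E))
    (hnzd : ∀ x ∈ B01, algebraMap A E p * x = 0 → x = 0)
    (hH0 : ∀ x, x ∈ B0 → x ∈ B1 → ∃ α : A, algebraMap A E α = x)
    (c : ℕ)
    (hc : ∀ (n : ℕ) (x : E), x ∈ B01 →
      (∃ u ∈ B0, ∃ v ∈ B1, algebraMap A E p ^ n * x = u + v) →
      ∃ u ∈ B0, ∃ v ∈ B1, algebraMap A E p ^ c * x = u + v)
    (hA : ∀ α : A, p ∣ α * α - α → p ∣ α ∨ p ∣ α - 1)
    {a b : E} (ha : a ∈ B0) (hb : b ∈ B1)
    (haa : ∃ x ∈ B0, a * a - a = algebraMap A E p * x)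
    (hbb : ∃ y ∈ B1, b * b - b = algebraMap A E p * y)
    (hab : ∃ h ∈ B01, a - b = algebraMap A E p * h) :
    ((∃ x ∈ B0, a = algebraMap A E p * x) ∧ (∃ y ∈ B1, b = algebraMap A E p * y)) ∨
    ((∃ x ∈ B0, a - 1 = algebraMap A E p * x) ∧ (∃ y ∈ B1, b - 1 = algebraMap A E p * y)) := by
  set ϖ : E := algebraMap A E p with hϖdef
  have hϖ0 : ϖ ∈ B0 := B0.algebraMap_mem p
  have hϖ1 : ϖ ∈ B1 := B1.algebraMap_mem p
  have hϖ01 : ϖ ∈ B01 := B01.algebraMap_mem p
  -- Newton iterates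
  obtain ⟨xa, hxa, hxae⟩ := nw_congr B0 hϖ0 ha haa c
  obtain ⟨xb, hxb, hxbe⟩ := nw_congr B1 hϖ1 hb hbb c
  have haa01 : ∃ x ∈ B01, a * a - a = ϖ * x := by
    obtain ⟨x, hx, he⟩ := haa
    exact ⟨x, h0 hx, he⟩
  obtain ⟨h, hh, hhe⟩ := nw_sub B01 hϖ01 (h0 ha) (h1 hb) haa01 hab c
  have hac : nw c a ∈ B0 := nw_mem B0 ha c
  have hbc : nw c b ∈ B1 := nw_mem B1 hb c
  -- the connecting class is killed by `ϖ ^ c`
  obtain ⟨u, hu, v, hv, huv⟩ := hc (c + 1) h hh
    ⟨nw c a, hac, -nw c b, B1.neg_mem hbc, by rw [← hhe]; ring⟩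
  -- the glued constant
  have hg0 : nw c a - ϖ * u ∈ B0 := B0.sub_mem hac (B0.mul_mem hϖ0 hu)
  have hg1 : nw c a - ϖ * u ∈ B1 := by
    have : nw c a - ϖ * u = nw c b + ϖ * v := by
      have h1' : nw c a - nw c b = ϖ * (u + v) := by
        rw [hhe, ← huv]; ring
      linear_combination h1'
    rw [this]
    exact B1.add_mem hbc (B1.mul_mem hϖ1 hv)
  obtain ⟨α, hα⟩ := hH0 _ hg0 hg1
  -- `a = α + ϖ a''`, `b = α + ϖ b''`
  have ea : a = algebraMap A E α + ϖ * (u - xa) := by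
    rw [hα]; linear_combination -hxae
  have eb : b = algebraMap A E α + ϖ * (-v - xb) := by
    have h1' : nw c a - nw c b = ϖ * (u + v) := by
      rw [hhe, ← huv]; ring
    rw [hα]; linear_combination -hxbe - h1'
  have hua : u - xa ∈ B0 := B0.sub_mem hu hxa
  have hvb : -v - xb ∈ B1 := B1.sub_mem (B1.neg_mem hv) hxb
  -- `α ^ 2 - α` is divisible by `p`
  obtain ⟨x0, hx0, hx0e⟩ := haa
  obtain ⟨y0, hy0, hy0e⟩ := hbb
  set g : E := algebraMap A E α with hgdef
  have e0 : g * g - g = ϖ * (x0 - 2 * a * (u - xa) + ϖ * (u - xa) ^ 2 + (u - xa)) := by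
    have : g = a - ϖ * (u - xa) := by rw [ea]; ring
    rw [this]
    linear_combination hx0e
  have e1 : g * g - g = ϖ * (y0 - 2 * b * (-v - xb) + ϖ * (-v - xb) ^ 2 + (-v - xb)) := by
    have : g = b - ϖ * (-v - xb) := by rw [eb]; ring
    rw [this]
    linear_combination hy0e
  have h2B0 : (2 : E) ∈ B0 := by exact_mod_cast natCast_mem B0 2
  have h2B1 : (2 : E) ∈ B1 := by exact_mod_cast natCast_mem B1 2
  have hX0 : x0 - 2 * a * (u - xa) + ϖ * (u - xa) ^ 2 + (u - xa) ∈ B0 :=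
    B0.add_mem (B0.add_mem (B0.sub_mem hx0 (B0.mul_mem (B0.mul_mem h2B0 ha) hua))
      (B0.mul_mem hϖ0 (B0.pow_mem hua 2))) hua
  have hX1 : y0 - 2 * b * (-v - xb) + ϖ * (-v - xb) ^ 2 + (-v - xb) ∈ B1 :=
    B1.add_mem (B1.add_mem (B1.sub_mem hy0 (B1.mul_mem (B1.mul_mem h2B1 hb) hvb))
      (B1.mul_mem hϖ1 (B1.pow_mem hvb 2))) hvb
  have hXeq : x0 - 2 * a * (u - xa) + ϖ * (u - xa) ^ 2 + (u - xa)
      = y0 - 2 * b * (-v - xb) + ϖ * (-v - xb) ^ 2 + (-v - xb) := by
    have hz := hnzd ((x0 - 2 * a * (u - xa) + ϖ * (u - xa) ^ 2 + (u - xa))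
      - (y0 - 2 * b * (-v - xb) + ϖ * (-v - xb) ^ 2 + (-v - xb)))
      (B01.sub_mem (h0 hX0) (h1 hX1)) (by rw [mul_sub, ← e0, ← e1, sub_self])
    exact sub_eq_zero.mp hz
  obtain ⟨ξ, hξ⟩ := hH0 _ hX0 (hXeq ▸ hX1)
  have hdiv : p ∣ α * α - α := by
    refine ⟨ξ, hinj ?_⟩
    rw [map_sub, map_mul, map_mul, hξ]
    exact e0
  rcases hA α hdiv with ⟨α', hα'⟩ | ⟨α', hα'⟩
  · left
    have hg : g = ϖ * algebraMap A E α' := by
      rw [hgdef, hα', map_mul]
    refine ⟨⟨algebraMap A E α' + (u - xa), B0.add_mem (B0.algebraMap_mem α') hua, ?_⟩,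
      ⟨algebraMap A E α' + (-v - xb), B1.add_mem (B1.algebraMap_mem α') hvb, ?_⟩⟩
    · rw [ea, hg]; ring
    · rw [eb, hg]; ring
  · right
    have hg : g - 1 = ϖ * algebraMap A E α' := by
      rw [hgdef, hϖdef, ← map_mul, ← hα', map_sub, map_one]
    refine ⟨⟨algebraMap A E α' + (u - xa), B0.add_mem (B0.algebraMap_mem α') hua, ?_⟩,
      ⟨algebraMap A E α' + (-v - xb), B1.add_mem (B1.algebraMap_mem α') hvb, ?_⟩⟩
    · rw [ea]; linear_combination hg
    · rw [eb]; linear_combination hg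

end Rigid

/-! ### (B) Serre finiteness of `H¹` for the two charts `t`, `1/t` -/

section Serre

open Polynomial

variable {R E : Type*} [CommRing R] [CommRing E] [Algebra R E]

/-- **Serre finiteness, two charts.**  `t * u = 1`, `t ∈ B0`, `u ∈ B1`, `B0` is generated as an
`R[t]`-module by the finite set `G`, `B01 = B0[1/t]`, and every generator becomes an element
of `B1` after multiplication by a power of `u = 1/t`.  Then `B01 ⊆ B0 + B1 + span_R S` for a
finite set `S`. -/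
theorem cech_h1_span (t u : E) (htu : t * u = 1) (B0 B1 : Subalgebra R E) (B01 : Set E)
    (ht0 : t ∈ B0) (hu1 : u ∈ B1) (G : Finset E) (hG : ∀ g ∈ G, g ∈ B0)
    (hgen : ∀ x ∈ B0, ∃ c : E → R[X], x = ∑ g ∈ G, aeval t (c g) * g)
    (hloc : ∀ x ∈ B01, ∃ n : ℕ, t ^ n * x ∈ B0)
    (hgl : ∀ g ∈ G, ∃ n : ℕ, u ^ n * g ∈ B1) :
    ∃ S : Finset E, ∀ x ∈ B01,
      x ∈ (Subalgebra.toSubmodule B0 ⊔ Subalgebra.toSubmodule B1) ⊔
        Submodule.span R (S : Set E) := by
  classical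
  choose! a ha using hgl
  set N : ℕ := G.sup a with hN
  refine ⟨(G ×ˢ Finset.range N).image (fun q : E × ℕ => u ^ q.2 * q.1), fun x hx => ?_⟩
  obtain ⟨n, hn⟩ := hloc x hx
  obtain ⟨c, hc⟩ := hgen _ hn
  have hx' : x = ∑ g ∈ G, u ^ n * (aeval t (c g) * g) := by
    rw [← Finset.mul_sum, ← hc, ← mul_assoc, ← mul_pow, mul_comm u t, htu, one_pow, one_mul]
  rw [hx']
  refine Submodule.sum_mem _ (fun g hg => ?_)
  rw [aeval_eq_sum_range, Finset.sum_mul, Finset.mul_sum]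
  refine Submodule.sum_mem _ (fun k _ => ?_)
  rw [smul_mul_assoc, mul_smul_comm]
  refine Submodule.smul_mem _ _ ?_
  rcases le_or_gt n k with hnk | hnk
  · obtain ⟨d, rfl⟩ := Nat.exists_eq_add_of_le hnk
    have e : u ^ n * (t ^ (n + d) * g) = t ^ d * g := by
      calc u ^ n * (t ^ (n + d) * g) = (t * u) ^ n * (t ^ d * g) := by ring
        _ = t ^ d * g := by rw [htu, one_pow, one_mul]
    rw [e]
    exact Submodule.mem_sup_left (Submodule.mem_sup_left
      (B0.mul_mem (B0.pow_mem ht0 _) (hG g hg)))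
  · obtain ⟨l, rfl⟩ := Nat.exists_eq_add_of_lt hnk
    have e : u ^ (k + l + 1) * (t ^ k * g) = u ^ (l + 1) * g := by
      calc u ^ (k + l + 1) * (t ^ k * g) = (t * u) ^ k * (u ^ (l + 1) * g) := by ring
        _ = u ^ (l + 1) * g := by rw [htu, one_pow, one_mul]
    rw [e]
    rcases lt_or_ge (l + 1) N with hlN | hlN
    · refine Submodule.mem_sup_right (Submodule.subset_span ?_)
      rw [Finset.mem_coe, Finset.mem_image]
      exact ⟨(g, l + 1), Finset.mem_product.mpr ⟨hg, Finset.mem_range.mpr hlN⟩, rfl⟩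
    · have hag : a g ≤ l + 1 := le_trans (Finset.le_sup hg) hlN
      obtain ⟨d, hd⟩ := Nat.exists_eq_add_of_le hag
      have e' : u ^ (l + 1) * g = u ^ d * (u ^ a g * g) := by rw [hd]; ring
      rw [e']
      exact Submodule.mem_sup_left (Submodule.mem_sup_right
        (B1.mul_mem (B1.pow_mem hu1 _) (ha g hg)))

/-! ### (C) Bounded torsion -/

/-- If `B01 ⊆ T + span_R S` with `S` finite and `R` noetherian, then the `p`-power torsion of
`B01` modulo `T` has bounded exponent. -/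
theorem bounded_torsion [IsNoetherianRing R] (p : R) (T : Submodule R E) (S : Finset E)
    (B01 : Set E) (hS : ∀ x ∈ B01, x ∈ T ⊔ Submodule.span R (S : Set E)) :
    ∃ c : ℕ, ∀ (n : ℕ) (x : E), x ∈ B01 → p ^ n • x ∈ T → p ^ c • x ∈ T := by
  classical
  set N' : Submodule R (E ⧸ T) := (Submodule.span R (S : Set E)).map T.mkQ with hN'
  have hfg : N'.FG := (Submodule.fg_span S.finite_toSet).map _
  have hnoeth : IsNoetherian R N' := isNoetherian_of_fg_of_noetherian N' hfg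
  let f : ℕ →o Submodule R N' :=
    { toFun := fun n => LinearMap.ker (LinearMap.lsmul R N' (p ^ n))
      monotone' := by
        intro n m hnm y hy
        rw [LinearMap.mem_ker, LinearMap.lsmul_apply] at hy ⊢
        obtain ⟨d, rfl⟩ := Nat.exists_eq_add_of_le hnm
        rw [pow_add, mul_comm, mul_smul, hy, smul_zero] }
  obtain ⟨c, hc⟩ := monotone_stabilizes_iff_noetherian.mpr hnoeth f
  refine ⟨c, fun n x hx hnx => ?_⟩
  obtain ⟨τ, hτ, s, hs, rfl⟩ := Submodule.mem_sup.mp (hS x hx)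
  have hsn : p ^ n • s ∈ T := by
    have : p ^ n • s = p ^ n • (τ + s) - p ^ n • τ := by rw [smul_add]; ring
    rw [this]
    exact T.sub_mem hnx (T.smul_mem _ hτ)
  let y : N' := ⟨T.mkQ s, Submodule.mem_map_of_mem hs⟩
  have hy : y ∈ f n := by
    change y ∈ LinearMap.ker (LinearMap.lsmul R N' (p ^ n))
    rw [LinearMap.mem_ker, LinearMap.lsmul_apply]
    apply Subtype.ext
    change p ^ n • T.mkQ s = 0
    rw [← map_smul, Submodule.mkQ_apply, Submodule.Quotient.mk_eq_zero]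
    exact hsn
  have hy' : y ∈ f c := by
    have h1 : f n ≤ f (max n c) := f.monotone (le_max_left _ _)
    have h2 : f c = f (max n c) := hc _ (le_max_right _ _)
    rw [h2]
    exact h1 hy
  have hsc : p ^ c • s ∈ T := by
    change y ∈ LinearMap.ker (LinearMap.lsmul R N' (p ^ c)) at hy'
    rw [LinearMap.mem_ker, LinearMap.lsmul_apply] at hy'
    have h3 : p ^ c • T.mkQ s = 0 := congrArg Subtype.val hy'
    rw [← map_smul, Submodule.mkQ_apply, Submodule.Quotient.mk_eq_zero] at h3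
    exact h3
  rw [smul_add]
  exact T.add_mem (T.smul_mem _ hτ) hsc

end Serre

/-! ### (A)+(B)+(C): the two-chart statement -/

section TwoChart

open Polynomial

variable {A E : Type*} [CommRing A] [CommRing E] [Algebra A E]

/-- **Two-chart connectedness.**  `A` noetherian, `p : A` with `A/p` free of non-trivial
idempotents, `B0`, `B1 ≤ B01` subalgebras of `E` with `t ∈ B0`, `u = 1/t ∈ B1`,
`B0 ⊓ B1 = A`, `B0` finite over `A[t]`, `B01 = B0[1/t]` and the generators of `B0` are in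
`B1[t]`.  Then a pair `(a, b) ∈ B0 × B1` which is idempotent modulo `p` and glues modulo `p`
on the overlap is `0` or `1` modulo `p`. -/
theorem two_chart_idempotent [IsNoetherianRing A] (p : A) (t u : E) (htu : t * u = 1)
    (B0 B1 B01 : Subalgebra A E) (h0 : B0 ≤ B01) (h1 : B1 ≤ B01)
    (ht0 : t ∈ B0) (hu1 : u ∈ B1)
    (hinj : Function.Injective (algebraMap A E))
    (hnzd : ∀ x ∈ B01, algebraMap A E p * x = 0 → x = 0)
    (hH0 : ∀ x, x ∈ B0 → x ∈ B1 → ∃ α : A, algebraMap A E α = x)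
    (hA : ∀ α : A, p ∣ α * α - α → p ∣ α ∨ p ∣ α - 1)
    (G : Finset E) (hG : ∀ g ∈ G, g ∈ B0)
    (hgen : ∀ x ∈ B0, ∃ c : E → A[X], x = ∑ g ∈ G, aeval t (c g) * g)
    (hloc : ∀ x ∈ B01, ∃ n : ℕ, t ^ n * x ∈ B0)
    (hgl : ∀ g ∈ G, ∃ n : ℕ, u ^ n * g ∈ B1)
    {a b : E} (ha : a ∈ B0) (hb : b ∈ B1)
    (haa : ∃ x ∈ B0, a * a - a = algebraMap A E p * x)
    (hbb : ∃ y ∈ B1, b * b - b = algebraMap A E p * y)
    (hab : ∃ h ∈ B01, a - b = algebraMap A E p * h) :
    ((∃ x ∈ B0, a = algebraMap A E p * x) ∧ (∃ y ∈ B1, b = algebraMap A E p * y)) ∨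
    ((∃ x ∈ B0, a - 1 = algebraMap A E p * x) ∧ (∃ y ∈ B1, b - 1 = algebraMap A E p * y)) := by
  obtain ⟨S, hS⟩ := cech_h1_span t u htu B0 B1 (B01 : Set E) ht0 hu1 G hG hgen hloc hgl
  obtain ⟨c, hc⟩ := bounded_torsion p
    (Subalgebra.toSubmodule B0 ⊔ Subalgebra.toSubmodule B1) S (B01 : Set E) hS
  refine idempotent_rigid p B0 B1 B01 h0 h1 hinj hnzd hH0 c ?_ hA ha hb haa hbb hab
  intro n x hx ⟨u', hu', v', hv', he⟩
  have hmem : p ^ n • x ∈ Subalgebra.toSubmodule B0 ⊔ Subalgebra.toSubmodule B1 := by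
    rw [Algebra.smul_def, map_pow, he]
    exact Submodule.mem_sup.mpr ⟨u', hu', v', hv', rfl⟩
  have hmem' := hc n x hx hmem
  rw [Algebra.smul_def, map_pow] at hmem'
  obtain ⟨u'', hu'', v'', hv'', he'⟩ := Submodule.mem_sup.mp hmem'
  exact ⟨u'', hu'', v'', hv'', he'.symm⟩

end TwoChart

end Fermat.Agent.S18.helper5122
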