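/-
S18-CECH (board #739), helper5122: the integral-closure instance of the two-chart Cech
connectedness statement `two_chart_idempotent`.  Mathlib + helper5122_Cech only.
-/
import Fermat.Agent.S18.helper5122_Cech

namespace Fermat.Agent.S18.helper5122

open Polynomial

section Inst

variable {A L : Type*} [CommRing A] [Field L] [Algebra A L]

/-- The integral closure in `L` of an `A`-subalgebra `S` of `L`, as an `A`-subalgebra. -/
def icl (S : Subalgebra A L) : Subalgebra A L := (integralClosure S L).restrictScalars A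

lemma mem_icl {S : Subalgebra A L} {x : L} : x ∈ icl S ↔ IsIntegral S x := Iff.rfl

lemma le_icl (S : Subalgebra A L) : S ≤ icl S := fun x hx =>
  mem_icl.mpr (by simpa using (isIntegral_algebraMap (R := S) (A := L) (x := ⟨x, hx⟩)))

/-- Integrality over a smaller subalgebra implies integrality over a bigger one. -/
lemma isIntegral_mono {S S' : Subalgebra A L} (h : S ≤ S') {x : L} (hx : IsIntegral S x) :
    IsIntegral S' x := by
  obtain ⟨p, hp, hpx⟩ := hx
  refine ⟨p.map (Subalgebra.inclusion h).toRingHom, hp.map _, ?_⟩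
  rw [Polynomial.eval₂_map]
  exact hpx

lemma icl_mono {S S' : Subalgebra A L} (h : S ≤ S') : icl S ≤ icl S' := fun _ hx =>
  mem_icl.mpr (isIntegral_mono h (mem_icl.mp hx))

/-- **Clearing denominators.**  If every element of `S'` is multiplied into `S` by a power of
`s ∈ S`, then every element integral over `S'` is multiplied by a power of `s` to an element
integral over `S`. -/
lemma isIntegral_scale {S S' : Subalgebra A L} {s : L} (hs : s ∈ S)
    (hS : ∀ r ∈ S', ∃ n : ℕ, s ^ n * r ∈ S) {x : L} (hx : IsIntegral S' x) :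
    ∃ n : ℕ, IsIntegral S (s ^ n * x) := by
  classical
  obtain ⟨p, hp, hpx⟩ := hx
  set d := p.natDegree with hd
  choose! e he using hS
  set N : ℕ := (Finset.range d).sup (fun i => e (p.coeff i : L)) with hN
  have hcoef : ∀ i : Fin d, s ^ (N * (d - i)) * (p.coeff i : L) ∈ S := by
    intro i
    have h1 : e (p.coeff i : L) ≤ N :=
      Finset.le_sup (f := fun i => e (p.coeff i : L)) (Finset.mem_range.mpr i.2)
    have h2 : N ≤ N * (d - i) := Nat.le_mul_of_pos_right _ (by omega)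
    obtain ⟨m, hm⟩ := Nat.exists_eq_add_of_le (h1.trans h2)
    have e1 : s ^ (N * (d - i)) * (p.coeff i : L)
        = s ^ m * (s ^ e (p.coeff i : L) * (p.coeff i : L)) := by rw [hm]; ring
    rw [e1]
    exact S.mul_mem (S.pow_mem hs m) (he _ (p.coeff i).2)
  refine ⟨N, X ^ d + ∑ i : Fin d, C (⟨_, hcoef i⟩ : S) * X ^ (i : ℕ),
    Polynomial.monic_X_pow_add (Polynomial.degree_sum_fin_lt _), ?_⟩
  have hpx' : x ^ d + ∑ i : Fin d, (p.coeff i : L) * x ^ (i : ℕ) = 0 := by
    rw [Polynomial.eval₂_eq_sum_range, Finset.sum_range_succ, ← hd] at hpx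
    rw [Fin.sum_univ_eq_sum_range (fun i => (p.coeff i : L) * x ^ i) d, add_comm]
    have h1 : p.coeff d = 1 := hp.coeff_natDegree
    rw [h1] at hpx
    simpa using hpx
  have hterm : ∀ i : Fin d, (s ^ (N * (d - i)) * (p.coeff i : L)) * (s ^ N * x) ^ (i : ℕ)
      = s ^ (N * d) * ((p.coeff i : L) * x ^ (i : ℕ)) := by
    intro i
    have h3 : N * d = N * (d - i) + N * i := by
      rw [← Nat.mul_add]; congr 1; omega
    rw [h3, mul_pow, pow_add, pow_mul s N i]; ring
  simp only [eval₂_add, eval₂_pow, eval₂_X, eval₂_finsetSum, eval₂_mul, eval₂_C]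
  have hmap : ∀ i : Fin d, algebraMap S L (⟨_, hcoef i⟩ : S)
      = s ^ (N * (d - i)) * (p.coeff i : L) := fun i => rfl
  simp only [hmap]
  rw [Finset.sum_congr rfl (fun i _ => hterm i), ← Finset.mul_sum, mul_pow, ← pow_mul, ← mul_add,
    hpx', mul_zero]

/-- Every element of `A[t, 1/t]` is multiplied into `A[t]` by a power of `t`. -/
lemma adjoin_pair_scale (t : L) (ht : t ≠ 0) :
    ∀ r ∈ Algebra.adjoin A {t, t⁻¹}, ∃ n : ℕ, t ^ n * r ∈ Algebra.adjoin A {t} := by
  have htm : t ∈ Algebra.adjoin A {t} := Algebra.self_mem_adjoin_singleton A t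
  intro r hr
  induction hr using Algebra.adjoin_induction with
  | mem x hx =>
    rcases hx with hx | hx
    · exact ⟨0, by rw [pow_zero, one_mul, hx]; exact htm⟩
    · refine ⟨1, ?_⟩
      rw [Set.mem_singleton_iff.mp hx, pow_one, mul_inv_cancel₀ ht]
      exact Subalgebra.one_mem _
  | algebraMap a => exact ⟨0, by rw [pow_zero, one_mul]; exact Subalgebra.algebraMap_mem _ a⟩
  | add x y _ _ hx hy =>
    obtain ⟨n, hn⟩ := hx
    obtain ⟨m, hm⟩ := hy
    refine ⟨n + m, ?_⟩
    have e1 : t ^ (n + m) * (x + y) = t ^ m * (t ^ n * x) + t ^ n * (t ^ m * y) := by ring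
    rw [e1]
    exact Subalgebra.add_mem _ (Subalgebra.mul_mem _ (Subalgebra.pow_mem _ htm m) hn)
      (Subalgebra.mul_mem _ (Subalgebra.pow_mem _ htm n) hm)
  | mul x y _ _ hx hy =>
    obtain ⟨n, hn⟩ := hx
    obtain ⟨m, hm⟩ := hy
    refine ⟨n + m, ?_⟩
    have e1 : t ^ (n + m) * (x * y) = (t ^ n * x) * (t ^ m * y) := by ring
    rw [e1]
    exact Subalgebra.mul_mem _ hn hm

/-- `B01 = B0[1/t]` for the integral closures. -/
lemma icl_pair_scale (t : L) (ht : t ≠ 0) :
    ∀ x ∈ icl (Algebra.adjoin A {t, t⁻¹}), ∃ n : ℕ, t ^ n * x ∈ icl (Algebra.adjoin A {t}) :=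
  fun _ hx => isIntegral_scale (Algebra.self_mem_adjoin_singleton A t)
    (adjoin_pair_scale t ht) (mem_icl.mp hx)

/-- The symmetric statement for the chart `1/t`. -/
lemma icl_pair_scale' (t : L) (ht : t ≠ 0) :
    ∀ x ∈ icl (Algebra.adjoin A {t, t⁻¹}), ∃ n : ℕ,
      t⁻¹ ^ n * x ∈ icl (Algebra.adjoin A {t⁻¹}) := by
  intro x hx
  have h := icl_pair_scale (A := A) t⁻¹ (inv_ne_zero ht) x
  rw [inv_inv, Set.pair_comm] at h
  exact h hx

/-- Generators of the integral closure of `A[t]` as an `A[t]`-module, in the explicit form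
used by `cech_h1_span`. -/
lemma exists_gens_adjoin (t : L)
    (hfin : Module.Finite (Algebra.adjoin A {t}) (integralClosure (Algebra.adjoin A {t}) L)) :
    ∃ G : Finset L, (∀ g ∈ G, g ∈ icl (Algebra.adjoin A {t})) ∧
      ∀ x ∈ icl (Algebra.adjoin A {t}), ∃ c : L → A[X], x = ∑ g ∈ G, aeval t (c g) * g := by
  classical
  obtain ⟨G', hG'⟩ := hfin.fg_top
  refine ⟨G'.image Subtype.val, ?_, ?_⟩
  · intro g hg
    obtain ⟨g', _, rfl⟩ := Finset.mem_image.mp hg
    exact g'.2
  · intro x hx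
    have hmem : (⟨x, hx⟩ : integralClosure (Algebra.adjoin A {t}) L) ∈
        Submodule.span (Algebra.adjoin A {t}) (G' : Set _) := by rw [hG']; trivial
    obtain ⟨f, _, hf⟩ := Submodule.mem_span_finset.mp hmem
    have hq : ∀ r : Algebra.adjoin A {t}, ∃ q : A[X], aeval t q = (r : L) := by
      intro r
      have h : (r : L) ∈ (aeval t : A[X] →ₐ[A] L).range := by
        rw [← Algebra.adjoin_singleton_eq_range_aeval]
        exact r.2
      exact h
    choose q hq using hq
    refine ⟨fun g => if h : g ∈ integralClosure (Algebra.adjoin A {t}) L then q (f ⟨g, h⟩) else 0, ?_⟩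
    rw [Finset.sum_image (fun a _ b _ h => Subtype.ext h)]
    have h2 : x = ((∑ a ∈ G', f a • a : integralClosure (Algebra.adjoin A {t}) L) : L) := by
      rw [hf]
    rw [h2, AddSubmonoidClass.coe_finsetSum]
    refine Finset.sum_congr rfl (fun g' _ => ?_)
    have h3 : (g' : L) ∈ integralClosure (Algebra.adjoin A {t}) L := g'.2
    beta_reduce
    rw [dif_pos h3, hq]
    rfl

/-- **Two-chart connectedness for integral closures.**  `A` a noetherian subring of the field
`L`, `p ≠ 0` in `A` with `A/p` free of non-trivial idempotents, `t ≠ 0` in `L`,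
`B0, B1, B01` the integral closures in `L` of `A[t]`, `A[1/t]`, `A[t,1/t]`.  Assume `B0` is a
finite `A[t]`-module and `B0 ∩ B1 = A`.  Then every pair `(a, b) ∈ B0 × B1` that is
idempotent modulo `p` and glues modulo `p B01` is `0` or `1` modulo `p`. -/
theorem icl_two_chart_idempotent [IsNoetherianRing A]
    (hinj : Function.Injective (algebraMap A L)) (p : A) (hp : p ≠ 0)
    (hA : ∀ α : A, p ∣ α * α - α → p ∣ α ∨ p ∣ α - 1)
    (t : L) (ht : t ≠ 0)
    (hfin : Module.Finite (Algebra.adjoin A {t}) (integralClosure (Algebra.adjoin A {t}) L))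
    (hH0 : ∀ x : L, IsIntegral (Algebra.adjoin A {t}) x →
      IsIntegral (Algebra.adjoin A {t⁻¹}) x → ∃ α : A, algebraMap A L α = x)
    {a b : L} (ha : IsIntegral (Algebra.adjoin A {t}) a)
    (hb : IsIntegral (Algebra.adjoin A {t⁻¹}) b)
    (haa : ∃ x, IsIntegral (Algebra.adjoin A {t}) x ∧ a * a - a = algebraMap A L p * x)
    (hbb : ∃ y, IsIntegral (Algebra.adjoin A {t⁻¹}) y ∧ b * b - b = algebraMap A L p * y)
    (hab : ∃ h, IsIntegral (Algebra.adjoin A {t, t⁻¹}) h ∧ a - b = algebraMap A L p * h) :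
    ((∃ x, IsIntegral (Algebra.adjoin A {t}) x ∧ a = algebraMap A L p * x) ∧
      (∃ y, IsIntegral (Algebra.adjoin A {t⁻¹}) y ∧ b = algebraMap A L p * y)) ∨
    ((∃ x, IsIntegral (Algebra.adjoin A {t}) x ∧ a - 1 = algebraMap A L p * x) ∧
      (∃ y, IsIntegral (Algebra.adjoin A {t⁻¹}) y ∧ b - 1 = algebraMap A L p * y)) := by
  have hS0 : Algebra.adjoin A {t} ≤ Algebra.adjoin A {t, t⁻¹} :=
    Algebra.adjoin_mono (by intro x hx; exact Or.inl hx)
  have hS1 : Algebra.adjoin A {t⁻¹} ≤ Algebra.adjoin A {t, t⁻¹} :=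
    Algebra.adjoin_mono (by intro x hx; exact Or.inr hx)
  obtain ⟨G, hG, hgen⟩ := exists_gens_adjoin t hfin
  have hp' : algebraMap A L p ≠ 0 := fun h => hp (hinj (by rw [h, map_zero]))
  have key := two_chart_idempotent (A := A) (E := L) p t t⁻¹ (mul_inv_cancel₀ ht)
    (icl (Algebra.adjoin A {t})) (icl (Algebra.adjoin A {t⁻¹}))
    (icl (Algebra.adjoin A {t, t⁻¹})) (icl_mono hS0) (icl_mono hS1)
    (le_icl _ (Algebra.self_mem_adjoin_singleton A t))
    (le_icl _ (Algebra.self_mem_adjoin_singleton A t⁻¹))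
    hinj (fun x _ hx => (mul_eq_zero.mp hx).resolve_left hp')
    (fun x h0 h1 => hH0 x h0 h1) hA G hG hgen (icl_pair_scale t ht)
    (fun g hg => icl_pair_scale' t ht g (icl_mono hS0 (hG g hg)))
    (a := a) (b := b) ha hb
    (by obtain ⟨x, hx, he⟩ := haa; exact ⟨x, hx, he⟩)
    (by obtain ⟨y, hy, he⟩ := hbb; exact ⟨y, hy, he⟩)
    (by obtain ⟨h, hh, he⟩ := hab; exact ⟨h, hh, he⟩)
  rcases key with ⟨⟨x, hx, hxe⟩, ⟨y, hy, hye⟩⟩ | ⟨⟨x, hx, hxe⟩, ⟨y, hy, hye⟩⟩
  · exact Or.inl ⟨⟨x, hx, hxe⟩, ⟨y, hy, hye⟩⟩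
  · exact Or.inr ⟨⟨x, hx, hxe⟩, ⟨y, hy, hye⟩⟩

end Inst

end Fermat.Agent.S18.helper5122
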