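/-
helper4364 — S18 track B: the Gauss data of `helper3578_SpecB` pass from the coordinate `t` to the
coordinate `t⁻¹` (chart at infinity).  Needed to apply the vertical-unramifiedness input (VERT)
and any one-component supplier on the chart `A0[1/t]`.
-/
import Fermat.Agent.S18.helper3578_SpecB
import Fermat.Agent.S18.helper5122_CechInst

set_option autoImplicit false

namespace Fermat.Agent.S18.helper4364

open Polynomial

section Scale

variable {A0 F0 : Type*} [CommRing A0] [Field F0] [Algebra A0 F0]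

/-- An element integral over `A0[t]` becomes integral over `A0[t⁻¹]` after multiplication by
every sufficiently large power of `t⁻¹`. -/
theorem isIntegral_adjoin_inv {t : F0} (ht : t ≠ 0) {y : F0}
    (hy : IsIntegral (Algebra.adjoin A0 {t}) y) :
    ∃ k0 : ℕ, ∀ k, k0 ≤ k → IsIntegral (Algebra.adjoin A0 {t⁻¹}) (t⁻¹ ^ k * y) := by
  have hle : Algebra.adjoin A0 {t} ≤ Algebra.adjoin A0 {t, t⁻¹} :=
    Algebra.adjoin_mono (by intro x hx; exact Or.inl hx)
  have h1 : y ∈ helper5122.icl (Algebra.adjoin A0 {t, t⁻¹}) :=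
    helper5122.mem_icl.mpr (helper5122.isIntegral_mono hle hy)
  obtain ⟨n, hn⟩ := helper5122.icl_pair_scale' (A := A0) t ht y h1
  have hn' : IsIntegral (Algebra.adjoin A0 {t⁻¹}) (t⁻¹ ^ n * y) := helper5122.mem_icl.mp hn
  refine ⟨n, fun k hk => ?_⟩
  obtain ⟨j, rfl⟩ := Nat.exists_eq_add_of_le hk
  have htinv : IsIntegral (Algebra.adjoin A0 {t⁻¹}) (t⁻¹ : F0) := by
    have : (t⁻¹ : F0) = algebraMap (Algebra.adjoin A0 {t⁻¹}) F0
        ⟨t⁻¹, Algebra.self_mem_adjoin_singleton A0 t⁻¹⟩ := rfl
    rw [this]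
    exact isIntegral_algebraMap
  have e : t⁻¹ ^ (n + j) * y = t⁻¹ ^ j * (t⁻¹ ^ n * y) := by ring
  rw [e]
  exact (htinv.pow j).mul hn'

/-- Evaluation of a reflected polynomial at `t⁻¹`. -/
theorem aeval_inv_reflect {t : F0} (ht : t ≠ 0) (s : A0[X]) {k : ℕ} (hk : s.natDegree ≤ k) :
    aeval t⁻¹ (reflect k s) = t⁻¹ ^ k * aeval t s := by
  let _ : Invertible t := invertibleOfNonzero ht
  have h := eval₂_reflect_mul_pow (algebraMap A0 F0) t k s hk
  rw [invOf_eq_inv] at h
  rw [aeval_def, aeval_def, ← h, inv_pow]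
  field_simp

end Scale

section GaussInv

variable {A0 F0 : Type*} [CommRing A0] [Field F0] [Algebra A0 F0]
variable {ϖ : A0} {t : F0} {O : ValuationSubring F0}

/-- In Gauss data, the uniformiser does not divide `1`. -/
theorem GaussData_not_dvd_one (h : helper3578.GaussData ϖ t O) : ¬ ϖ ∣ 1 := by
  rintro ⟨c, hc⟩
  have h1 : algebraMap A0 F0 ϖ * algebraMap A0 F0 c = 1 := by
    rw [← map_mul, ← hc, map_one]
  have hne : algebraMap A0 F0 ϖ ≠ 0 := left_ne_zero_of_mul_eq_one h1
  have hinv : (algebraMap A0 F0 ϖ)⁻¹ = algebraMap A0 F0 c := inv_eq_of_mul_eq_one_right h1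
  rcases (ValuationSubring.mem_nonunits_iff_or O).mp h.unif with h0 | h0
  · exact hne h0
  · exact h0 (hinv ▸ h.le c)

/-- In Gauss data, the coordinate `t` is a unit of the Gauss valuation ring. -/
theorem GaussData_t_not_mem_nonunits (h : helper3578.GaussData ϖ t O) : t ∉ O.nonunits := by
  intro ht
  have h1 := h.prim X (by simpa using ht) 1
  rw [coeff_X_one] at h1
  exact GaussData_not_dvd_one h h1

theorem GaussData_t_ne_zero (h : helper3578.GaussData ϖ t O) : t ≠ 0 := by
  rintro rfl
  exact GaussData_t_not_mem_nonunits h O.nonunits.zero_mem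

theorem GaussData_inv_mem (h : helper3578.GaussData ϖ t O) : t⁻¹ ∈ O := by
  by_contra hc
  exact GaussData_t_not_mem_nonunits h ((ValuationSubring.mem_nonunits_iff_or O).mpr (Or.inr hc))

/-- **(GI)** Gauss data for the coordinate `t` give Gauss data for the coordinate `t⁻¹`
(the chart at infinity). -/
theorem gaussData_inv (h : helper3578.GaussData ϖ t O) : helper3578.GaussData ϖ t⁻¹ O := by
  have ht0 : t ≠ 0 := GaussData_t_ne_zero h
  have htinv : t⁻¹ ∈ O := GaussData_inv_mem h
  refine ⟨h.le, h.unif, htinv, ?_, ?_⟩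
  · -- primitivity
    intro p hp k
    have key : aeval t (reflect p.natDegree p) = t ^ p.natDegree * aeval t⁻¹ p := by
      have h1 := aeval_inv_reflect (A0 := A0) (t := t⁻¹) (inv_ne_zero ht0) p le_rfl
      rwa [inv_inv] at h1
    have hmem : aeval t (reflect p.natDegree p) ∈ O.nonunits := by
      rw [key, ValuationSubring.mem_nonunits_iff, map_mul]
      have h2 : O.valuation (t ^ p.natDegree) ≤ 1 :=
        (O.valuation_le_one_iff _).mpr (O.pow_mem h.t_mem _)
      have h3 : O.valuation (aeval t⁻¹ p) < 1 := (ValuationSubring.mem_nonunits_iff O).mp hp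
      calc O.valuation (t ^ p.natDegree) * O.valuation (aeval t⁻¹ p)
          ≤ 1 * O.valuation (aeval t⁻¹ p) := mul_le_mul_left h2 _
        _ = O.valuation (aeval t⁻¹ p) := one_mul _
        _ < 1 := h3
    have hdiv := h.prim _ hmem
    by_cases hk : k ≤ p.natDegree
    · have := hdiv (p.natDegree - k)
      rw [coeff_reflect, revAt_le (Nat.sub_le _ _), Nat.sub_sub_self hk] at this
      exact this
    · rw [coeff_eq_zero_of_natDegree_lt (not_le.mp hk)]
      exact dvd_zero _
  · -- integrality after scaling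
    intro x hx
    obtain ⟨s, ⟨i, hi⟩, hs⟩ := h.int x hx
    obtain ⟨k0, hk0⟩ := isIntegral_adjoin_inv (A0 := A0) ht0 hs
    set k := max k0 s.natDegree with hkdef
    refine ⟨reflect k s, ⟨revAt k i, ?_⟩, ?_⟩
    · rw [coeff_reflect, revAt_invol]
      exact hi
    · rw [aeval_inv_reflect ht0 s (le_max_right _ _), mul_assoc]
      exact hk0 k (le_max_left _ _)

end GaussInv

end Fermat.Agent.S18.helper4364
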