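/-
S18, track "tame specialisation" (#2117 / #2120): the assembly step of Theorem T.

`eq_of_mem_minimalPrimes_of_cech`:
two-chart model `B0`, `B1` with overlap `B01 = B0[1/t] = B1[1/s]`; if through every closed
point of the special fibre `p = 0` there is only one component (pairwise comaximality of the
minimal primes over `p`, the output of purity / Abhyankar) and the special fibre has no
non-trivial idempotent (the output of the two-chart Cech argument), then the special fibre is
irreducible: there is exactly one minimal prime over `p`.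
-/
import Mathlib

set_option autoImplicit false

namespace Fermat.Agent.S18.helper2128

open Ideal

section Idempotents

variable {R : Type*} [CommRing R]

/-- Idempotent-isation modulo an ideal: if `a * (1 - a)` is nilpotent modulo `I`, there is an
`e` which is idempotent modulo `I`, lies in every ideal containing `a`, and `1 - e` lies in
every ideal containing `1 - a`. -/
theorem exists_idem_of_mul_mem_radical (I : Ideal R) (a : R) (h : a * (1 - a) ∈ I.radical) :
    ∃ e : R, e ^ 2 - e ∈ I ∧ (∀ J : Ideal R, a ∈ J → e ∈ J) ∧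
      (∀ J : Ideal R, 1 - a ∈ J → 1 - e ∈ J) := by
  obtain ⟨N, hN⟩ := h
  have hcop : IsCoprime (a ^ (N + 1)) ((1 - a) ^ (N + 1)) := by
    have h1 : IsCoprime a (1 - a) := ⟨1, 1, by ring⟩
    exact h1.pow
  obtain ⟨u, w, huw⟩ := hcop
  have hw : w * (1 - a) ^ (N + 1) = 1 - u * a ^ (N + 1) := by linear_combination huw
  refine ⟨u * a ^ (N + 1), ?_, ?_, ?_⟩
  · have key : (u * a ^ (N + 1)) ^ 2 - u * a ^ (N + 1)
        = -(u * w * a * (1 - a)) * (a ^ N * (1 - a) ^ N) := by
      calc (u * a ^ (N + 1)) ^ 2 - u * a ^ (N + 1)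
          = -(u * a ^ (N + 1)) * (1 - u * a ^ (N + 1)) := by ring
        _ = -(u * a ^ (N + 1)) * (w * (1 - a) ^ (N + 1)) := by rw [hw]
        _ = _ := by ring
    rw [key, ← mul_pow]
    exact I.mul_mem_left _ hN
  · intro J ha
    exact J.mul_mem_left _ (J.pow_mem_of_mem ha _ (Nat.succ_pos _))
  · intro J ha
    rw [← hw]
    exact J.mul_mem_left _ (J.pow_mem_of_mem ha _ (Nat.succ_pos _))

/-- Two elements that are idempotent modulo `I` and congruent modulo the radical of `I` are
congruent modulo `I`. -/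
theorem sub_mem_of_idem_of_mem_radical (I : Ideal R) (x y : R) (hx : x ^ 2 - x ∈ I)
    (hy : y ^ 2 - y ∈ I) (hd : x - y ∈ I.radical) : x - y ∈ I := by
  have h3 : (x - y) ^ 3 - (x - y) ∈ I := by
    have : (x - y) ^ 3 - (x - y)
        = (x ^ 2 - x) * (x + 1 - 3 * y) + (y ^ 2 - y) * (3 * x - y - 1) := by ring
    rw [this]
    exact I.add_mem (I.mul_mem_right _ hx) (I.mul_mem_right _ hy)
  rw [← Ideal.Quotient.eq_zero_iff_mem] at h3 ⊢
  set d := Ideal.Quotient.mk I (x - y) with hd'
  have hnil : IsNilpotent d := by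
    obtain ⟨n, hn⟩ := hd
    exact ⟨n, by rw [hd', ← map_pow]; exact Ideal.Quotient.eq_zero_iff_mem.mpr hn⟩
  have hunit : IsUnit (1 - d ^ 2) := (hnil.pow_of_pos (by norm_num)).isUnit_one_sub
  have h0 : d * (1 - d ^ 2) = 0 := by
    have h3' : d ^ 3 - d = 0 := by simpa [hd'] using h3
    linear_combination -h3'
  exact (hunit.mul_left_eq_zero).mp h0

/-- CRT + idempotent-isation on the special fibre: if the minimal primes over `p` are pairwise
comaximal, then for each of them, `Q1`, there is an element `e`, idempotent modulo `p`, which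
is `1` on `Q1` and `0` on the other components. -/
theorem exists_component_idem [IsNoetherianRing R] (p : R)
    (hone : ∀ Q ∈ (span {p}).minimalPrimes, ∀ Q' ∈ (span {p}).minimalPrimes,
      Q ⊔ Q' ≠ ⊤ → Q = Q')
    {Q1 : Ideal R} (h1 : Q1 ∈ (span {p}).minimalPrimes) :
    ∃ e : R, e ^ 2 - e ∈ span {p} ∧ 1 - e ∈ Q1 ∧
      ∀ Q ∈ (span {p}).minimalPrimes, Q ≠ Q1 → e ∈ Q := by
  classical
  have hfin := Ideal.finite_minimalPrimes_of_isNoetherianRing R (span {p})
  set s : Finset (Ideal R) := hfin.toFinset.erase Q1 with hs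
  have hmem : ∀ Q, Q ∈ s ↔ Q ∈ (span {p}).minimalPrimes ∧ Q ≠ Q1 := by
    intro Q
    rw [hs, Finset.mem_erase, Set.Finite.mem_toFinset]
    tauto
  have htop : Q1 ⊔ ⨅ Q ∈ s, Q = ⊤ := by
    apply Ideal.sup_iInf_eq_top
    intro Q hQ
    obtain ⟨hQm, hQne⟩ := (hmem Q).mp hQ
    by_contra hne
    exact hQne (hone Q1 h1 Q hQm hne).symm
  have h1mem : (1 : R) ∈ Q1 ⊔ ⨅ Q ∈ s, Q := by rw [htop]; exact Submodule.mem_top
  obtain ⟨x, hx, a, ha, hxa⟩ := Submodule.mem_sup.mp h1mem
  have ha' : ∀ Q ∈ (span {p}).minimalPrimes, Q ≠ Q1 → a ∈ Q := by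
    intro Q hQ hne
    have := (Submodule.mem_iInf _).mp ha Q
    exact (Submodule.mem_iInf _).mp this ((hmem Q).mpr ⟨hQ, hne⟩)
  have h1a : 1 - a ∈ Q1 := by
    have : 1 - a = x := by linear_combination -hxa
    rw [this]; exact hx
  have hrad : a * (1 - a) ∈ (span {p}).radical := by
    rw [← Ideal.sInf_minimalPrimes, Ideal.mem_sInf]
    intro Q hQ
    by_cases hQ1 : Q = Q1
    · rw [hQ1]; exact Q1.mul_mem_left _ h1a
    · exact Q.mul_mem_right _ (ha' Q hQ hQ1)
  obtain ⟨e, he, hea, he1⟩ := exists_idem_of_mul_mem_radical (span {p}) a hrad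
  exact ⟨e, he, he1 Q1 h1a, fun Q hQ hne => hea Q (ha' Q hQ hne)⟩

end Idempotents

section Assembly

variable {B0 B1 B01 : Type*} [CommRing B0] [CommRing B1] [CommRing B01]
  [Algebra B0 B01] [Algebra B1 B01]

/-- **Theorem T, assembly step.** Two charts `B0`, `B1` with overlap
`B01 = B0[1/t] = B1[1/s]`, special fibre cut out by `p0`, `p1` (the same element on the
overlap).  If distinct components of the special fibre never meet (in either chart) and the
glued special fibre has only the trivial idempotents, then any component `Q1` of chart `0`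
that meets the overlap is the only component of chart `0`. -/
theorem eq_of_mem_minimalPrimes_of_cech
    [IsNoetherianRing B0] [IsNoetherianRing B1]
    (t : B0) (s : B1) [IsLocalization.Away t B01] [IsLocalization.Away s B01]
    (p0 : B0) (p1 : B1) (hp : algebraMap B0 B01 p0 = algebraMap B1 B01 p1)
    (hone0 : ∀ Q ∈ (span {p0}).minimalPrimes, ∀ Q' ∈ (span {p0}).minimalPrimes,
      Q ⊔ Q' ≠ ⊤ → Q = Q')
    (hone1 : ∀ Q ∈ (span {p1}).minimalPrimes, ∀ Q' ∈ (span {p1}).minimalPrimes,
      Q ⊔ Q' ≠ ⊤ → Q = Q')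
    (hcech : ∀ (a : B0) (b : B1), a ^ 2 - a ∈ span {p0} → b ^ 2 - b ∈ span {p1} →
      algebraMap B0 B01 a - algebraMap B1 B01 b ∈ span {algebraMap B0 B01 p0} →
      (a ∈ span {p0} ∧ b ∈ span {p1}) ∨ (a - 1 ∈ span {p0} ∧ b - 1 ∈ span {p1}))
    {Q1 Q2 : Ideal B0} (h1 : Q1 ∈ (span {p0}).minimalPrimes)
    (h2 : Q2 ∈ (span {p0}).minimalPrimes) (ht : t ∉ Q1) : Q1 = Q2 := by
  classical
  by_contra hne
  have hQ1prime : Q1.IsPrime := h1.1.1
  have hQ2prime : Q2.IsPrime := h2.1.1
  -- the prime of the overlap corresponding to `Q1`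
  have hdisj : Disjoint (Submonoid.powers t : Set B0) (Q1 : Set B0) := by
    rw [Set.disjoint_left]
    rintro x ⟨n, rfl⟩ hx
    exact ht (hQ1prime.mem_of_pow_mem n hx)
  set P1 : Ideal B01 := Q1.map (algebraMap B0 B01) with hP1
  have hP1under : P1.under B0 = Q1 :=
    IsLocalization.under_map_of_isPrime_disjoint (Submonoid.powers t) B01 hQ1prime hdisj
  have hspan0 : (span {p0}).map (algebraMap B0 B01) = span {algebraMap B0 B01 p0} := by
    rw [Ideal.map_span, Set.image_singleton]
  have hspan1 : (span {p1}).map (algebraMap B1 B01) = span {algebraMap B0 B01 p0} := by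
    rw [Ideal.map_span, Set.image_singleton, hp]
  have hmin0 : ∀ P : Ideal B01, P ∈ (span {algebraMap B0 B01 p0}).minimalPrimes ↔
      P.under B0 ∈ (span {p0}).minimalPrimes := by
    intro P
    rw [← hspan0, IsLocalization.minimalPrimes_map (Submonoid.powers t) B01 (span {p0})]
    rfl
  have hmin1 : ∀ P : Ideal B01, P ∈ (span {algebraMap B0 B01 p0}).minimalPrimes ↔
      P.under B1 ∈ (span {p1}).minimalPrimes := by
    intro P
    rw [← hspan1, IsLocalization.minimalPrimes_map (Submonoid.powers s) B01 (span {p1})]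
    rfl
  have hP1min : P1 ∈ (span {algebraMap B0 B01 p0}).minimalPrimes := by
    rw [hmin0, hP1under]; exact h1
  set Q1' : Ideal B1 := P1.under B1 with hQ1'
  have hQ1'min : Q1' ∈ (span {p1}).minimalPrimes := (hmin1 P1).mp hP1min
  -- the two idempotents
  obtain ⟨e, he, he1, heQ⟩ := exists_component_idem p0 hone0 h1
  obtain ⟨f, hf, hf1, hfQ⟩ := exists_component_idem p1 hone1 hQ1'min
  -- they agree on the overlap modulo the radical
  have hrad : algebraMap B0 B01 e - algebraMap B1 B01 f ∈
      (span {algebraMap B0 B01 p0}).radical := by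
    rw [← Ideal.sInf_minimalPrimes, Ideal.mem_sInf]
    intro P hP
    by_cases hPP : P = P1
    · have h1e : algebraMap B0 B01 (1 - e) ∈ P := by
        rw [hPP]; exact Ideal.mem_map_of_mem _ he1
      have h1f : algebraMap B1 B01 (1 - f) ∈ P := by
        rw [hPP]; exact hf1
      have : algebraMap B0 B01 e - algebraMap B1 B01 f
          = algebraMap B1 B01 (1 - f) - algebraMap B0 B01 (1 - e) := by
        simp only [map_sub, map_one]; ring
      rw [this]
      exact P.sub_mem h1f h1e
    · have hP0 : P.under B0 ≠ Q1 := by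
        intro h
        apply hPP
        rw [← IsLocalization.map_under (Submonoid.powers t) B01 P, h]
      have hP1' : P.under B1 ≠ Q1' := by
        intro h
        apply hPP
        rw [← IsLocalization.map_under (Submonoid.powers s) B01 P, h, hQ1',
          IsLocalization.map_under (Submonoid.powers s) B01 P1]
      have hee : algebraMap B0 B01 e ∈ P := heQ _ ((hmin0 P).mp hP) hP0
      have hff : algebraMap B1 B01 f ∈ P := hfQ _ ((hmin1 P).mp hP) hP1'
      exact P.sub_mem hee hff
  have hidem0 : (algebraMap B0 B01 e) ^ 2 - algebraMap B0 B01 e ∈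
      span {algebraMap B0 B01 p0} := by
    rw [← hspan0]
    have := Ideal.mem_map_of_mem (algebraMap B0 B01) he
    simpa using this
  have hidem1 : (algebraMap B1 B01 f) ^ 2 - algebraMap B1 B01 f ∈
      span {algebraMap B0 B01 p0} := by
    rw [← hspan1]
    have := Ideal.mem_map_of_mem (algebraMap B1 B01) hf
    simpa using this
  have hagree := sub_mem_of_idem_of_mem_radical _ _ _ hidem0 hidem1 hrad
  have hp0Q1 : span {p0} ≤ Q1 := h1.1.2
  have hp0Q2 : span {p0} ≤ Q2 := h2.1.2
  rcases hcech e f he hf hagree with ⟨hc, -⟩ | ⟨hc, -⟩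
  · -- `e ∈ (p0) ⊆ Q1` and `1 - e ∈ Q1`
    apply hQ1prime.ne_top
    rw [Ideal.eq_top_iff_one]
    have : (1 : B0) = (1 - e) + e := by ring
    rw [this]
    exact Q1.add_mem he1 (hp0Q1 hc)
  · -- `e - 1 ∈ (p0) ⊆ Q2` and `e ∈ Q2`
    apply hQ2prime.ne_top
    rw [Ideal.eq_top_iff_one]
    have : (1 : B0) = e - (e - 1) := by ring
    rw [this]
    exact Q2.sub_mem (heQ Q2 h2 (Ne.symm hne)) (hp0Q2 hc)

end Assembly

end Fermat.Agent.S18.helper2128
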