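/-
S18, track "tame specialisation" (#2117 / #2120), assembly of Theorem T, part 2:

* `eq_of_mem_minimalPrimes_of_cech_subalgebra`: the assembly step in the subalgebra
  vocabulary of the two-chart Cech lemma (charts `B0 B1 ≤ B01` inside one ring `E`);
* `under_eq_span_of_mem_minimalPrimes`: over an integrally closed base (going-down), the
  components of the special fibre `p = 0` lie over `(p)`;
* `pairwise_comaximal_of_local`: "one component through each closed point" is a local
  statement on the base.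
-/
import Fermat.Agent.S18.helper2128_TAssembly

set_option autoImplicit false
set_option linter.style.haveILetI false

namespace Fermat.Agent.S18.helper2128

open Ideal

section Subalgebra

variable {A E : Type*} [CommRing A] [CommRing E] [Algebra A E]

/-- A subalgebra `B01` which is obtained from `B0 ≤ B01` by inverting `t ∈ B0` is the
localisation of `B0` away from `t` (for the inclusion map). -/
theorem isLocalization_away_of_subalgebra (t u : E) (htu : t * u = 1)
    (B0 B01 : Subalgebra A E) (h0 : B0 ≤ B01) (ht0 : t ∈ B0) (hu : u ∈ B01)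
    (hloc0 : ∀ x ∈ B01, ∃ n : ℕ, t ^ n * x ∈ B0) :
    @IsLocalization.Away B0 _ (⟨t, ht0⟩ : B0) B01 _
      (Subalgebra.inclusion h0).toRingHom.toAlgebra := by
  letI : Algebra B0 B01 := (Subalgebra.inclusion h0).toRingHom.toAlgebra
  have halg0 : ∀ x : B0, ((algebraMap B0 B01 x : B01) : E) = x := fun x => rfl
  show IsLocalization (Submonoid.powers (⟨t, ht0⟩ : B0)) B01
  rw [isLocalization_iff]
  refine ⟨?_, ?_, ?_⟩
  · rintro ⟨y, n, rfl⟩
    refine IsUnit.of_mul_eq_one (⟨u ^ n, B01.pow_mem hu n⟩ : B01) ?_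
    apply Subtype.ext
    simp only [MulMemClass.coe_mul, halg0, SubmonoidClass.coe_pow, OneMemClass.coe_one]
    rw [← mul_pow, htu, one_pow]
  · intro z
    obtain ⟨n, hn⟩ := hloc0 z z.2
    refine ⟨(⟨t ^ n * z, hn⟩, ⟨(⟨t, ht0⟩ : B0) ^ n, n, rfl⟩), ?_⟩
    apply Subtype.ext
    simp only [MulMemClass.coe_mul, halg0, SubmonoidClass.coe_pow]
    ring
  · intro x y hxy
    refine ⟨1, ?_⟩
    have hxy' : (x : E) = y := by
      have := congrArg (Subtype.val) hxy
      simpa only [halg0] using this
    simp [Subtype.ext hxy']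

/-- **Theorem T, assembly step, subalgebra form.**  Charts `B0`, `B1 ≤ B01` inside a ring
`E`, `t ∈ B0`, `u = 1/t ∈ B1`, `B01 = B0[1/t] = B1[1/u]`.  If distinct components of the
special fibre `p = 0` never meet (in either chart) and the glued special fibre has only
trivial idempotents (the hypothesis `hcech` is verbatim the conclusion of the two-chart
Cech lemma), then a component `Q1` of chart `0` not containing `t` is the only component of
chart `0`. -/
theorem eq_of_mem_minimalPrimes_of_cech_subalgebra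
    (p : A) (t u : E) (htu : t * u = 1)
    (B0 B1 B01 : Subalgebra A E) (h0 : B0 ≤ B01) (h1 : B1 ≤ B01)
    [IsNoetherianRing B0] [IsNoetherianRing B1]
    (ht0 : t ∈ B0) (hu1 : u ∈ B1)
    (hloc0 : ∀ x ∈ B01, ∃ n : ℕ, t ^ n * x ∈ B0)
    (hloc1 : ∀ x ∈ B01, ∃ n : ℕ, u ^ n * x ∈ B1)
    (hone0 : ∀ Q ∈ (span {algebraMap A B0 p}).minimalPrimes,
      ∀ Q' ∈ (span {algebraMap A B0 p}).minimalPrimes, Q ⊔ Q' ≠ ⊤ → Q = Q')
    (hone1 : ∀ Q ∈ (span {algebraMap A B1 p}).minimalPrimes,
      ∀ Q' ∈ (span {algebraMap A B1 p}).minimalPrimes, Q ⊔ Q' ≠ ⊤ → Q = Q')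
    (hcech : ∀ {a b : E}, a ∈ B0 → b ∈ B1 →
      (∃ x ∈ B0, a * a - a = algebraMap A E p * x) →
      (∃ y ∈ B1, b * b - b = algebraMap A E p * y) →
      (∃ h ∈ B01, a - b = algebraMap A E p * h) →
      ((∃ x ∈ B0, a = algebraMap A E p * x) ∧ (∃ y ∈ B1, b = algebraMap A E p * y)) ∨
      ((∃ x ∈ B0, a - 1 = algebraMap A E p * x) ∧ (∃ y ∈ B1, b - 1 = algebraMap A E p * y)))
    {Q1 Q2 : Ideal B0} (hQ1 : Q1 ∈ (span {algebraMap A B0 p}).minimalPrimes)
    (hQ2 : Q2 ∈ (span {algebraMap A B0 p}).minimalPrimes)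
    (ht : (⟨t, ht0⟩ : B0) ∉ Q1) : Q1 = Q2 := by
  letI : Algebra B0 B01 := (Subalgebra.inclusion h0).toRingHom.toAlgebra
  letI : Algebra B1 B01 := (Subalgebra.inclusion h1).toRingHom.toAlgebra
  have halg0 : ∀ x : B0, ((algebraMap B0 B01 x : B01) : E) = x := fun x => rfl
  have halg1 : ∀ x : B1, ((algebraMap B1 B01 x : B01) : E) = x := fun x => rfl
  haveI : IsLocalization.Away (⟨t, ht0⟩ : B0) B01 :=
    isLocalization_away_of_subalgebra t u htu B0 B01 h0 ht0 (h1 hu1) hloc0
  haveI : IsLocalization.Away (⟨u, hu1⟩ : B1) B01 :=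
    isLocalization_away_of_subalgebra u t (by rw [mul_comm]; exact htu) B1 B01 h1 hu1
      (h0 ht0) hloc1
  have hcoe0 : ((algebraMap A B0 p : B0) : E) = algebraMap A E p := rfl
  have hcoe1 : ((algebraMap A B1 p : B1) : E) = algebraMap A E p := rfl
  refine eq_of_mem_minimalPrimes_of_cech (B01 := B01) (⟨t, ht0⟩ : B0) (⟨u, hu1⟩ : B1)
    (algebraMap A B0 p) (algebraMap A B1 p) (Subtype.ext rfl) hone0 hone1 ?_ hQ1 hQ2 ht
  intro a b ha hb hab
  rw [Ideal.mem_span_singleton] at ha hb hab
  obtain ⟨x, hx⟩ := ha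
  obtain ⟨y, hy⟩ := hb
  obtain ⟨h, hh⟩ := hab
  have hx' : (a : E) * a - a = algebraMap A E p * x := by
    have := congrArg (Subtype.val) hx
    simpa [pow_two, hcoe0] using this
  have hy' : (b : E) * b - b = algebraMap A E p * y := by
    have := congrArg (Subtype.val) hy
    simpa [pow_two, hcoe1] using this
  have hh' : (a : E) - b = algebraMap A E p * h := by
    have := congrArg (Subtype.val) hh
    simpa [halg0, halg1, hcoe0] using this
  rcases hcech a.2 b.2 ⟨x, x.2, hx'⟩ ⟨y, y.2, hy'⟩ ⟨h, h.2, hh'⟩ with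
    ⟨⟨x1, hx1, hx1'⟩, ⟨y1, hy1, hy1'⟩⟩ | ⟨⟨x1, hx1, hx1'⟩, ⟨y1, hy1, hy1'⟩⟩
  · left
    refine ⟨Ideal.mem_span_singleton.mpr ⟨⟨x1, hx1⟩, Subtype.ext ?_⟩,
      Ideal.mem_span_singleton.mpr ⟨⟨y1, hy1⟩, Subtype.ext ?_⟩⟩
    · simpa [hcoe0] using hx1'
    · simpa [hcoe1] using hy1'
  · right
    refine ⟨Ideal.mem_span_singleton.mpr ⟨⟨x1, hx1⟩, Subtype.ext ?_⟩,
      Ideal.mem_span_singleton.mpr ⟨⟨y1, hy1⟩, Subtype.ext ?_⟩⟩
    · simpa [hcoe0] using hx1'
    · simpa [hcoe1] using hy1'

end Subalgebra

section LyingOver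

variable {R S : Type*} [CommRing R] [CommRing S] [Algebra R S]

/-- Going-down: a minimal prime of `S` over a prime element `p` of `R` lies over `(p)`.
(Applies to `S` a domain integral over an integrally closed domain `R`, and to flat `S`.) -/
theorem under_eq_span_of_mem_minimalPrimes [Algebra.HasGoingDown R S] {p : R}
    (hp : (span {p}).IsPrime) {Q : Ideal S}
    (hQ : Q ∈ (span {algebraMap R S p}).minimalPrimes) : Q.under R = span {p} := by
  haveI := hp
  haveI hQprime : Q.IsPrime := hQ.1.1
  have hpQ : algebraMap R S p ∈ Q := hQ.1.2 (Ideal.mem_span_singleton_self _)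
  have hle : span {p} ≤ Q.under R := by
    rw [Ideal.span_singleton_le_iff_mem]
    exact hpQ
  by_contra hne
  have hlt : span {p} < Q.under R := lt_of_le_of_ne hle (Ne.symm hne)
  obtain ⟨P, hPQ, hPprime, hPover⟩ :=
    Algebra.HasGoingDown.exists_ideal_le_liesOver_of_lt (p := span {p}) Q hlt
  have hpP : algebraMap R S p ∈ P := by
    have : p ∈ P.under R := by
      rw [← hPover.over]; exact Ideal.mem_span_singleton_self _
    exact this
  have hQP : Q ≤ P := hQ.2 ⟨hPprime, by
    rw [Ideal.span_singleton_le_iff_mem]; exact hpP⟩ hPQ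
  have hPeq : P = Q := le_antisymm hPQ hQP
  apply hne
  rw [← hPeq, ← hPover.over]

/-- Consequence: an element of the base which is not divisible by the prime element `p` lies
in no component of the special fibre. -/
theorem algebraMap_notMem_of_mem_minimalPrimes [Algebra.HasGoingDown R S] {p : R}
    (hp : (span {p}).IsPrime) {Q : Ideal S}
    (hQ : Q ∈ (span {algebraMap R S p}).minimalPrimes) {t : R} (ht : ¬ p ∣ t) :
    algebraMap R S t ∉ Q := by
  intro h
  have : t ∈ Q.under R := h
  rw [under_eq_span_of_mem_minimalPrimes hp hQ, Ideal.mem_span_singleton] at this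
  exact ht this

end LyingOver

section Local

variable {R S : Type*} [CommRing R] [CommRing S] [Algebra R S]

/-- **Local-to-global for "one component through each closed point".**  `S` integral over
`R`, `p : R`.  If for every maximal ideal `m` of `R` containing `p` the localisation of `S`
at `m` has the property that two components of its special fibre which meet are equal,
then `S` itself has this property. -/
theorem pairwise_comaximal_of_local [Algebra.IsIntegral R S] (p : R)
    (hloc : ∀ (m : Ideal R) [m.IsMaximal], p ∈ m →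
      ∀ Q ∈ (span {algebraMap S (Localization (Algebra.algebraMapSubmonoid S m.primeCompl))
          (algebraMap R S p)}).minimalPrimes,
      ∀ Q' ∈ (span {algebraMap S (Localization (Algebra.algebraMapSubmonoid S m.primeCompl))
          (algebraMap R S p)}).minimalPrimes, Q ⊔ Q' ≠ ⊤ → Q = Q') :
    ∀ Q ∈ (span {algebraMap R S p}).minimalPrimes,
      ∀ Q' ∈ (span {algebraMap R S p}).minimalPrimes, Q ⊔ Q' ≠ ⊤ → Q = Q' := by
  intro Q hQ Q' hQ' hne
  obtain ⟨n, hn, hQn⟩ := Ideal.exists_le_maximal _ hne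
  haveI := hn
  set m : Ideal R := n.under R with hm
  haveI hmmax : m.IsMaximal := Ideal.isMaximal_comap_of_isIntegral_of_isMaximal n
  have hpm : p ∈ m := by
    show algebraMap R S p ∈ n
    exact hQn (Ideal.mem_sup_left (hQ.1.2 (Ideal.mem_span_singleton_self _)))
  set M : Submonoid S := Algebra.algebraMapSubmonoid S m.primeCompl with hM
  set S' := Localization M with hS'
  -- ideals contained in `n` are disjoint from `M`
  have hdisj : ∀ I : Ideal S, I ≤ n → Disjoint (M : Set S) (I : Set S) := by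
    intro I hI
    rw [Set.disjoint_left]
    rintro x ⟨a, ha, rfl⟩ hx
    exact ha (hI hx)
  have hQprime : Q.IsPrime := hQ.1.1
  have hQ'prime : Q'.IsPrime := hQ'.1.1
  have hQle : Q ≤ n := le_sup_left.trans hQn
  have hQ'le : Q' ≤ n := le_sup_right.trans hQn
  have hspan : (span {algebraMap R S p}).map (algebraMap S S')
      = span {algebraMap S S' (algebraMap R S p)} := by
    rw [Ideal.map_span, Set.image_singleton]
  have hmin : ∀ I : Ideal S, I ∈ (span {algebraMap R S p}).minimalPrimes → I ≤ n →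
      I.map (algebraMap S S') ∈
        (span {algebraMap S S' (algebraMap R S p)}).minimalPrimes := by
    intro I hI hIn
    rw [← hspan, IsLocalization.minimalPrimes_map M S' (span {algebraMap R S p})]
    show (I.map (algebraMap S S')).under S ∈ (span {algebraMap R S p}).minimalPrimes
    rw [IsLocalization.under_map_of_isPrime_disjoint M S' hI.1.1 (hdisj I hIn)]
    exact hI
  have hne' : Q.map (algebraMap S S') ⊔ Q'.map (algebraMap S S') ≠ ⊤ := by
    intro htop
    have hnmap : n.map (algebraMap S S') = ⊤ := by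
      rw [eq_top_iff, ← htop]
      exact sup_le (Ideal.map_mono hQle) (Ideal.map_mono hQ'le)
    have hnprime : (n.map (algebraMap S S')).IsPrime :=
      IsLocalization.isPrime_of_isPrime_disjoint M S' n hn.isPrime (hdisj n le_rfl)
    exact hnprime.ne_top hnmap
  have heq := hloc m hpm _ (hmin Q hQ hQle) _ (hmin Q' hQ' hQ'le) hne'
  have h1 := IsLocalization.under_map_of_isPrime_disjoint M S' hQprime (hdisj Q hQle)
  have h2 := IsLocalization.under_map_of_isPrime_disjoint M S' hQ'prime (hdisj Q' hQ'le)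
  rw [← h1, ← h2, heq]

end Local

end Fermat.Agent.S18.helper2128
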