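/-
S18, track B (#2117 / #2120), global wrapper of Theorem T: the hypothesis `hone1` of
`helper2128.eq_of_mem_minimalPrimes_of_cech(_subalgebra)` (chart `1/t`) follows from `hone0`
(chart `t`) plus the statement at the points at infinity `s = 1/t = 0` ONLY.

* `hone1_of_hone0` / `hone1_of_hone0_subalgebra`: two charts with common localisation
  `B01 = B0[1/t] = B1[1/s]`; components of the special fibre of chart `1` which meet outside
  `s = 0` are transported to chart `0`.
* `eq_of_sup_sup_span_ne_top_of_local(_at)`: the remaining statement on the locus `s = 0` is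
  local on the base, at the maximal ideals containing `p` and `s`; for the base `A₀[X]`,
  `p = C lam`, `s = X` this is the single maximal ideal `(lam, X)` (the cusp).

So the local theory (T1 / Legendre-Hesse descent) is needed only at the closed points of the
chart `t`, and T2 only at the one closed point `(lam, 1/t)` of the chart `1/t`: no transport
of local rings between the two charts.
-/
import Fermat.Agent.S18.helper2128_TGlobal

set_option autoImplicit false
set_option linter.style.haveILetI false

namespace Fermat.Agent.S18.helper2061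

open Ideal

section TwoCharts

variable {B0 B1 B01 : Type*} [CommRing B0] [CommRing B1] [CommRing B01]
  [Algebra B0 B01] [Algebra B1 B01]

/-- Transport of a component of the special fibre of chart `1` which does not contain `s`
to a component of the special fibre of chart `0`. -/
theorem under_map_mem_minimalPrimes (t : B0) (s : B1)
    [IsLocalization.Away t B01] [IsLocalization.Away s B01] (p0 : B0) (p1 : B1)
    (hp : algebraMap B0 B01 p0 = algebraMap B1 B01 p1)
    {Q : Ideal B1} (hQ : Q ∈ (span {p1}).minimalPrimes) (hs : s ∉ Q) :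
    (Q.map (algebraMap B1 B01)).under B0 ∈ (span {p0}).minimalPrimes := by
  have hQprime : Q.IsPrime := hQ.1.1
  have hdisj : Disjoint (Submonoid.powers s : Set B1) (Q : Set B1) := by
    rw [Set.disjoint_left]
    rintro x ⟨k, rfl⟩ hx
    exact hs (hQprime.mem_of_pow_mem k hx)
  have h1 : Q.map (algebraMap B1 B01) ∈
      ((span {p1}).map (algebraMap B1 B01)).minimalPrimes := by
    rw [IsLocalization.minimalPrimes_map (Submonoid.powers s) B01 (span {p1})]
    show (Q.map (algebraMap B1 B01)).under B1 ∈ (span {p1}).minimalPrimes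
    rw [IsLocalization.under_map_of_isPrime_disjoint (Submonoid.powers s) B01 hQprime hdisj]
    exact hQ
  have h2 : (span {p1}).map (algebraMap B1 B01) = (span {p0}).map (algebraMap B0 B01) := by
    rw [Ideal.map_span, Ideal.map_span, Set.image_singleton, Set.image_singleton, hp]
  rw [h2, IsLocalization.minimalPrimes_map (Submonoid.powers t) B01 (span {p0})] at h1
  exact h1

/-- **Chart `1` from chart `0` and the points at infinity.**  Two charts `B0`, `B1` with common
localisation `B01 = B0[1/t] = B1[1/s]`.  If distinct components of the special fibre of chart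
`0` never meet, and distinct components of the special fibre of chart `1` never meet *on the
locus `s = 0`*, then distinct components of the special fibre of chart `1` never meet. -/
theorem hone1_of_hone0 (t : B0) (s : B1)
    [IsLocalization.Away t B01] [IsLocalization.Away s B01] (p0 : B0) (p1 : B1)
    (hp : algebraMap B0 B01 p0 = algebraMap B1 B01 p1)
    (hone0 : ∀ Q ∈ (span {p0}).minimalPrimes, ∀ Q' ∈ (span {p0}).minimalPrimes,
      Q ⊔ Q' ≠ ⊤ → Q = Q')
    (hinf : ∀ Q ∈ (span {p1}).minimalPrimes, ∀ Q' ∈ (span {p1}).minimalPrimes,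
      Q ⊔ Q' ⊔ span {s} ≠ ⊤ → Q = Q') :
    ∀ Q ∈ (span {p1}).minimalPrimes, ∀ Q' ∈ (span {p1}).minimalPrimes,
      Q ⊔ Q' ≠ ⊤ → Q = Q' := by
  intro Q hQ Q' hQ' hne
  obtain ⟨n, hn, hQn⟩ := Ideal.exists_le_maximal _ hne
  have hQle : Q ≤ n := le_sup_left.trans hQn
  have hQ'le : Q' ≤ n := le_sup_right.trans hQn
  by_cases hsn : s ∈ n
  · refine hinf Q hQ Q' hQ' fun htop => hn.ne_top ?_
    rw [eq_top_iff, ← htop]
    exact sup_le hQn ((Ideal.span_singleton_le_iff_mem _).mpr hsn)
  · have hQprime : Q.IsPrime := hQ.1.1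
    have hQ'prime : Q'.IsPrime := hQ'.1.1
    have hnprime : n.IsPrime := hn.isPrime
    have hdisj : ∀ I : Ideal B1, I.IsPrime → I ≤ n →
        Disjoint (Submonoid.powers s : Set B1) (I : Set B1) := by
      intro I hI hIn
      rw [Set.disjoint_left]
      rintro x ⟨k, rfl⟩ hx
      exact hsn (hIn (hI.mem_of_pow_mem k hx))
    have hsQ : s ∉ Q := fun h => hsn (hQle h)
    have hsQ' : s ∉ Q' := fun h => hsn (hQ'le h)
    have hmem := under_map_mem_minimalPrimes (B01 := B01) t s p0 p1 hp hQ hsQ
    have hmem' := under_map_mem_minimalPrimes (B01 := B01) t s p0 p1 hp hQ' hsQ'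
    -- the transported components meet inside the transported point
    have hnprime' : (n.map (algebraMap B1 B01)).IsPrime :=
      IsLocalization.isPrime_of_isPrime_disjoint (Submonoid.powers s) B01 n hnprime
        (hdisj n hnprime le_rfl)
    have hne0 : (Q.map (algebraMap B1 B01)).under B0 ⊔ (Q'.map (algebraMap B1 B01)).under B0
        ≠ ⊤ := by
      intro htop
      have hle : (Q.map (algebraMap B1 B01)).under B0 ⊔ (Q'.map (algebraMap B1 B01)).under B0
          ≤ (n.map (algebraMap B1 B01)).under B0 :=
        sup_le (Ideal.comap_mono (Ideal.map_mono hQle)) (Ideal.comap_mono (Ideal.map_mono hQ'le))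
      rw [htop, top_le_iff] at hle
      have : (n.map (algebraMap B1 B01)).under B0 ≠ ⊤ :=
        (Ideal.comap_isPrime (algebraMap B0 B01) (n.map (algebraMap B1 B01))).ne_top
      exact this hle
    have heq0 := hone0 _ hmem _ hmem' hne0
    -- back to `B01`
    have heq01 : Q.map (algebraMap B1 B01) = Q'.map (algebraMap B1 B01) := by
      rw [← IsLocalization.map_under (Submonoid.powers t) B01 (Q.map (algebraMap B1 B01)),
        ← IsLocalization.map_under (Submonoid.powers t) B01 (Q'.map (algebraMap B1 B01))]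
      exact congrArg (Ideal.map (algebraMap B0 B01)) heq0
    -- back to `B1`
    have h1 := IsLocalization.under_map_of_isPrime_disjoint (Submonoid.powers s) B01 hQprime
      (hdisj Q hQprime hQle)
    have h2 := IsLocalization.under_map_of_isPrime_disjoint (Submonoid.powers s) B01 hQ'prime
      (hdisj Q' hQ'prime hQ'le)
    rw [← h1, ← h2, heq01]

end TwoCharts

section Subalgebra

variable {A E : Type*} [CommRing A] [CommRing E] [Algebra A E]

/-- Subalgebra form, in the vocabulary of `helper2128.eq_of_mem_minimalPrimes_of_cech_subalgebra`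
(charts `B0 B1 ≤ B01` inside one ring `E`, `t ∈ B0`, `u = 1/t ∈ B1`). -/
theorem hone1_of_hone0_subalgebra
    (p : A) (t u : E) (htu : t * u = 1)
    (B0 B1 B01 : Subalgebra A E) (h0 : B0 ≤ B01) (h1 : B1 ≤ B01)
    (ht0 : t ∈ B0) (hu1 : u ∈ B1)
    (hloc0 : ∀ x ∈ B01, ∃ n : ℕ, t ^ n * x ∈ B0)
    (hloc1 : ∀ x ∈ B01, ∃ n : ℕ, u ^ n * x ∈ B1)
    (hone0 : ∀ Q ∈ (span {algebraMap A B0 p}).minimalPrimes,
      ∀ Q' ∈ (span {algebraMap A B0 p}).minimalPrimes, Q ⊔ Q' ≠ ⊤ → Q = Q')
    (hinf : ∀ Q ∈ (span {algebraMap A B1 p}).minimalPrimes,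
      ∀ Q' ∈ (span {algebraMap A B1 p}).minimalPrimes,
        Q ⊔ Q' ⊔ span {(⟨u, hu1⟩ : B1)} ≠ ⊤ → Q = Q') :
    ∀ Q ∈ (span {algebraMap A B1 p}).minimalPrimes,
      ∀ Q' ∈ (span {algebraMap A B1 p}).minimalPrimes, Q ⊔ Q' ≠ ⊤ → Q = Q' := by
  letI : Algebra B0 B01 := (Subalgebra.inclusion h0).toRingHom.toAlgebra
  letI : Algebra B1 B01 := (Subalgebra.inclusion h1).toRingHom.toAlgebra
  haveI : IsLocalization.Away (⟨t, ht0⟩ : B0) B01 :=
    helper2128.isLocalization_away_of_subalgebra t u htu B0 B01 h0 ht0 (h1 hu1) hloc0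
  haveI : IsLocalization.Away (⟨u, hu1⟩ : B1) B01 :=
    helper2128.isLocalization_away_of_subalgebra u t (by rw [mul_comm]; exact htu) B1 B01 h1 hu1
      (h0 ht0) hloc1
  exact hone1_of_hone0 (B01 := B01) (⟨t, ht0⟩ : B0) (⟨u, hu1⟩ : B1)
    (algebraMap A B0 p) (algebraMap A B1 p) (Subtype.ext rfl) hone0 hinf

end Subalgebra

section Local

variable {R S : Type*} [CommRing R] [CommRing S] [Algebra R S]

/-- **Local-to-global on the locus `s = 0`.**  `S` integral over `R`, `p s : R`.  If for every
maximal ideal `m` of `R` containing `p` and `s` two components of the special fibre of the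
localisation of `S` at `m` which meet are equal, then two components of the special fibre of
`S` which meet on the locus `s = 0` are equal. -/
theorem eq_of_sup_sup_span_ne_top_of_local [Algebra.IsIntegral R S] (p s : R)
    (hloc : ∀ (m : Ideal R) [m.IsMaximal], p ∈ m → s ∈ m →
      ∀ Q ∈ (span {algebraMap S (Localization (Algebra.algebraMapSubmonoid S m.primeCompl))
          (algebraMap R S p)}).minimalPrimes,
      ∀ Q' ∈ (span {algebraMap S (Localization (Algebra.algebraMapSubmonoid S m.primeCompl))
          (algebraMap R S p)}).minimalPrimes, Q ⊔ Q' ≠ ⊤ → Q = Q') :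
    ∀ Q ∈ (span {algebraMap R S p}).minimalPrimes,
      ∀ Q' ∈ (span {algebraMap R S p}).minimalPrimes,
        Q ⊔ Q' ⊔ span {algebraMap R S s} ≠ ⊤ → Q = Q' := by
  intro Q hQ Q' hQ' hne
  obtain ⟨n, hn, hQn⟩ := Ideal.exists_le_maximal _ hne
  have hn' := hn
  set m : Ideal R := n.under R with hm
  haveI hmmax : m.IsMaximal := Ideal.isMaximal_comap_of_isIntegral_of_isMaximal n
  have hQle : Q ≤ n := (le_sup_left.trans le_sup_left).trans hQn
  have hQ'le : Q' ≤ n := (le_sup_right.trans le_sup_left).trans hQn
  have hpm : p ∈ m := by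
    show algebraMap R S p ∈ n
    exact hQle (hQ.1.2 (Ideal.mem_span_singleton_self _))
  have hsm : s ∈ m := by
    show algebraMap R S s ∈ n
    exact hQn (Ideal.mem_sup_right (Ideal.mem_span_singleton_self _))
  set M : Submonoid S := Algebra.algebraMapSubmonoid S m.primeCompl with hM
  set S' := Localization M with hS'
  have hdisj : ∀ I : Ideal S, I ≤ n → Disjoint (M : Set S) (I : Set S) := by
    intro I hI
    rw [Set.disjoint_left]
    rintro x ⟨a, ha, rfl⟩ hx
    exact ha (hI hx)
  have hQprime : Q.IsPrime := hQ.1.1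
  have hQ'prime : Q'.IsPrime := hQ'.1.1
  have hspan : (span {algebraMap R S p}).map (algebraMap S S')
      = span {algebraMap S S' (algebraMap R S p)} := by
    rw [Ideal.map_span, Set.image_singleton]
  have hmin : ∀ I : Ideal S, I ∈ (span {algebraMap R S p}).minimalPrimes → I ≤ n →
      I.map (algebraMap S S') ∈
        (span {algebraMap S S' (algebraMap R S p)}).minimalPrimes := by
    intro I hI hIn
    rw [← hspan, IsLocalization.minimalPrimes_map M S' (span {algebraMap R S p})]
    show (I.map (algebraMap S S')).under S ∈ (span {algebraMap R S p}).minimalPrimes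
    rw [IsLocalization.under_map_of_isPrime_disjoint M S' hI.1.1 (hdisj I hIn)]
    exact hI
  have hne' : Q.map (algebraMap S S') ⊔ Q'.map (algebraMap S S') ≠ ⊤ := by
    intro htop
    have hnmap : n.map (algebraMap S S') = ⊤ := by
      rw [eq_top_iff, ← htop]
      exact sup_le (Ideal.map_mono hQle) (Ideal.map_mono hQ'le)
    have hnprime : (n.map (algebraMap S S')).IsPrime :=
      IsLocalization.isPrime_of_isPrime_disjoint M S' n hn.isPrime (hdisj n le_rfl)
    exact hnprime.ne_top hnmap
  have heq := hloc m hpm hsm _ (hmin Q hQ hQle) _ (hmin Q' hQ' hQ'le) hne'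
  have h1 := IsLocalization.under_map_of_isPrime_disjoint M S' hQprime (hdisj Q hQle)
  have h2 := IsLocalization.under_map_of_isPrime_disjoint M S' hQ'prime (hdisj Q' hQ'le)
  rw [← h1, ← h2, heq]

/-- Same, when `(p, s)` is a maximal ideal `m₀` of the base (e.g. `R = A₀[X]`, `p` a
uniformiser of the DVR `A₀`, `s = X`): only ONE local statement is needed, at `m₀`. -/
theorem eq_of_sup_sup_span_ne_top_of_local_at (p s : R) [Algebra.IsIntegral R S]
    (m₀ : Ideal R) [hm₀ : m₀.IsMaximal] (hm₀' : m₀ = span {p, s})
    (hloc : ∀ Q ∈ (span {algebraMap S (Localization (Algebra.algebraMapSubmonoid S m₀.primeCompl))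
          (algebraMap R S p)}).minimalPrimes,
      ∀ Q' ∈ (span {algebraMap S (Localization (Algebra.algebraMapSubmonoid S m₀.primeCompl))
          (algebraMap R S p)}).minimalPrimes, Q ⊔ Q' ≠ ⊤ → Q = Q') :
    ∀ Q ∈ (span {algebraMap R S p}).minimalPrimes,
      ∀ Q' ∈ (span {algebraMap R S p}).minimalPrimes,
        Q ⊔ Q' ⊔ span {algebraMap R S s} ≠ ⊤ → Q = Q' := by
  refine eq_of_sup_sup_span_ne_top_of_local p s ?_
  intro m hm hpm hsm
  have hle : m₀ ≤ m := by
    rw [hm₀', Ideal.span_le]
    rintro x (rfl | rfl)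
    · exact hpm
    · exact hsm
  obtain rfl : m₀ = m := hm₀.eq_of_le hm.ne_top hle
  exact hloc

end Local

end Fermat.Agent.S18.helper2061
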