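/-
S18, track B (#2117 / #2120): Theorem T in chart form.

For `A ⊆ L` (think: a DVR `A0` of a number field inside a finite extension `L` of `K0(t)`)
the charts are the integral closures `B0`, `B1`, `B01` of `A[t]`, `A[1/t]`, `A[t, 1/t]` in
`L` (vocabulary of `helper5122_CechInst`).  Two-chart Cech connectedness (helper5122) and the
assembly step (helper2128) give: if distinct components of the special fibre `p = 0` never
meet, in either chart, then the special fibre is irreducible.
-/
import Fermat.Agent.S18.helper5122_CechConst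
import Fermat.Agent.S18.helper2061_ChartOne

set_option autoImplicit false
set_option linter.style.haveILetI false

namespace Fermat.Agent.S18.helper2128

open Ideal Polynomial
open Fermat.Agent.S18.helper5122

section Chart

variable {A L : Type*} [CommRing A] [Field L] [Algebra A L]

/-- The chart `icl S` is the same ring as `integralClosure S L`. -/
def iclEquiv (S : Subalgebra A L) : integralClosure S L ≃+* icl S := RingEquiv.refl _

/-- If the integral closure of `A[t]` in `L` is a finite `A[t]`-module and `A` is noetherian,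
then the chart `icl A[t]` is a noetherian ring. -/
theorem isNoetherianRing_icl_adjoin [IsNoetherianRing A] (t : L)
    (hfin : Module.Finite (Algebra.adjoin A {t}) (integralClosure (Algebra.adjoin A {t}) L)) :
    IsNoetherianRing (icl (Algebra.adjoin A {t})) := by
  haveI : IsNoetherianRing (Algebra.adjoin A {t}) := by
    rw [Algebra.adjoin_singleton_eq_range_aeval]
    exact isNoetherianRing_range (aeval t : A[X] →ₐ[A] L).toRingHom
  haveI := hfin
  haveI : IsNoetherianRing (integralClosure (Algebra.adjoin A {t}) L) :=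
    IsNoetherianRing.of_finite (Algebra.adjoin A {t}) _
  exact isNoetherianRing_of_ringEquiv _ (iclEquiv (Algebra.adjoin A {t}))

/-- **Theorem T, chart form.**  `A` noetherian inside the field `L`, `p ≠ 0` in `A` with
`A/p` free of non-trivial idempotents, `t ≠ 0`; `B0`, `B1` the integral closures of `A[t]`,
`A[1/t]` in `L`, finite over `A[t]`, `A[1/t]`, with `B0 ∩ B1 = A`.  If distinct components
of the special fibre `p = 0` never meet in `B0` and never meet in `B1`, then a component of
`B0` which does not contain `t` is the only component of `B0`. -/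
theorem icl_unique_component [IsNoetherianRing A]
    (hinj : Function.Injective (algebraMap A L)) (p : A) (hp : p ≠ 0)
    (hA : ∀ α : A, p ∣ α * α - α → p ∣ α ∨ p ∣ α - 1)
    (t : L) (ht : t ≠ 0)
    (hfin0 : Module.Finite (Algebra.adjoin A {t}) (integralClosure (Algebra.adjoin A {t}) L))
    (hfin1 : Module.Finite (Algebra.adjoin A {t⁻¹})
      (integralClosure (Algebra.adjoin A {t⁻¹}) L))
    (hH0 : ∀ x : L, IsIntegral (Algebra.adjoin A {t}) x →
      IsIntegral (Algebra.adjoin A {t⁻¹}) x → ∃ α : A, algebraMap A L α = x)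
    (hone0 : ∀ Q ∈ (span {algebraMap A (icl (Algebra.adjoin A {t})) p}).minimalPrimes,
      ∀ Q' ∈ (span {algebraMap A (icl (Algebra.adjoin A {t})) p}).minimalPrimes,
      Q ⊔ Q' ≠ ⊤ → Q = Q')
    (hone1 : ∀ Q ∈ (span {algebraMap A (icl (Algebra.adjoin A {t⁻¹})) p}).minimalPrimes,
      ∀ Q' ∈ (span {algebraMap A (icl (Algebra.adjoin A {t⁻¹})) p}).minimalPrimes,
      Q ⊔ Q' ≠ ⊤ → Q = Q')
    {Q1 Q2 : Ideal (icl (Algebra.adjoin A {t}))}
    (hQ1 : Q1 ∈ (span {algebraMap A (icl (Algebra.adjoin A {t})) p}).minimalPrimes)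
    (hQ2 : Q2 ∈ (span {algebraMap A (icl (Algebra.adjoin A {t})) p}).minimalPrimes)
    (htQ : (⟨t, le_icl _ (Algebra.self_mem_adjoin_singleton A t)⟩ :
      icl (Algebra.adjoin A {t})) ∉ Q1) : Q1 = Q2 := by
  have hS0 : Algebra.adjoin A {t} ≤ Algebra.adjoin A {t, t⁻¹} :=
    Algebra.adjoin_mono (by intro x hx; exact Or.inl hx)
  have hS1 : Algebra.adjoin A {t⁻¹} ≤ Algebra.adjoin A {t, t⁻¹} :=
    Algebra.adjoin_mono (by intro x hx; exact Or.inr hx)
  haveI := isNoetherianRing_icl_adjoin t hfin0
  haveI := isNoetherianRing_icl_adjoin t⁻¹ hfin1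
  refine eq_of_mem_minimalPrimes_of_cech_subalgebra p t t⁻¹ (mul_inv_cancel₀ ht)
    (icl (Algebra.adjoin A {t})) (icl (Algebra.adjoin A {t⁻¹}))
    (icl (Algebra.adjoin A {t, t⁻¹})) (icl_mono hS0) (icl_mono hS1)
    (le_icl _ (Algebra.self_mem_adjoin_singleton A t))
    (le_icl _ (Algebra.self_mem_adjoin_singleton A t⁻¹))
    (icl_pair_scale t ht) (icl_pair_scale' t ht) hone0 hone1 ?_ hQ1 hQ2 htQ
  intro a b ha hb haa hbb hab
  exact icl_two_chart_idempotent hinj p hp hA t ht hfin0 hH0 ha hb haa hbb hab

/-- The chart `A[t]` is a polynomial ring when `t` is transcendental over `A`. -/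
noncomputable def adjoinEquivPolynomial (t : L) (htr : Transcendental A t) :
    A[X] ≃ₐ[A] Algebra.adjoin A {t} :=
  (AlgEquiv.ofInjective (aeval t : A[X] →ₐ[A] L)
    (transcendental_iff_injective.mp htr)).trans
    (Subalgebra.equivOfEq _ _ (Algebra.adjoin_singleton_eq_range_aeval A t).symm)

theorem adjoinEquivPolynomial_apply_coe (t : L) (htr : Transcendental A t) (f : A[X]) :
    ((adjoinEquivPolynomial t htr f : Algebra.adjoin A {t}) : L) = aeval t f := rfl

/-- Going-down on a chart `icl R0`, `R0` an integrally closed subalgebra of the field `L`: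
a component of the special fibre `π = 0` (`π` a prime element of `R0`) contains no element of
`R0` which is not divisible by `π`. -/
theorem notMem_of_mem_minimalPrimes_icl (R0 : Subalgebra A L) [IsIntegrallyClosed R0]
    {π : R0} (hπ : (span {π}).IsPrime) {τ : R0} (hτ : ¬ π ∣ τ)
    {Q : Ideal (icl R0)}
    (hQ : Q ∈ (span {(⟨(π : L), le_icl R0 π.2⟩ : icl R0)}).minimalPrimes) :
    (⟨(τ : L), le_icl R0 τ.2⟩ : icl R0) ∉ Q := by
  letI : Algebra R0 (icl R0) := (Subalgebra.inclusion (le_icl R0)).toRingHom.toAlgebra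
  have halg : ∀ x : R0, ((algebraMap R0 (icl R0) x : icl R0) : L) = x := fun x => rfl
  haveI : IsScalarTower R0 (icl R0) L := IsScalarTower.of_algebraMap_eq (fun x => rfl)
  have hinj0 : Function.Injective (algebraMap R0 (icl R0)) := by
    intro x y hxy
    apply Subtype.ext
    have := congrArg (Subtype.val) hxy
    simpa only [halg] using this
  haveI : FaithfulSMul R0 (icl R0) :=
    (faithfulSMul_iff_algebraMap_injective R0 (icl R0)).mpr hinj0
  haveI : Algebra.IsIntegral R0 (icl R0) := by
    refine ⟨fun s => ?_⟩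
    have hs : IsIntegral R0 ((s : icl R0) : L) := mem_icl.mp s.2
    have hinjL : Function.Injective (algebraMap (icl R0) L) := Subtype.val_injective
    exact (isIntegral_algebraMap_iff hinjL).mp hs
  have hQ' : Q ∈ (span {algebraMap R0 (icl R0) π}).minimalPrimes := hQ
  exact algebraMap_notMem_of_mem_minimalPrimes hπ hQ' hτ

/-- Going-down on the chart `icl A[t]`: if `A` is an integrally closed domain, `p` a prime
element of `A` and `t` transcendental over `A`, then no component of the special fibre
`p = 0` contains `t`. -/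
theorem t_notMem_of_mem_minimalPrimes [IsDomain A] [IsIntegrallyClosed A]
    {p : A} (hp : Prime p) (t : L) (htr : Transcendental A t)
    {Q : Ideal (icl (Algebra.adjoin A {t}))}
    (hQ : Q ∈ (span {algebraMap A (icl (Algebra.adjoin A {t})) p}).minimalPrimes) :
    (⟨t, le_icl _ (Algebra.self_mem_adjoin_singleton A t)⟩ :
      icl (Algebra.adjoin A {t})) ∉ Q := by
  let e := adjoinEquivPolynomial t htr
  haveI : IsIntegrallyClosed (Algebra.adjoin A {t}) := IsIntegrallyClosed.of_equiv e.toRingEquiv
  have heC : e (C p) = algebraMap A (Algebra.adjoin A {t}) p := by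
    apply Subtype.ext
    rw [adjoinEquivPolynomial_apply_coe, aeval_C]
    rfl
  have heX : e X = (⟨t, Algebra.self_mem_adjoin_singleton A t⟩ : Algebra.adjoin A {t}) := by
    apply Subtype.ext
    rw [adjoinEquivPolynomial_apply_coe, aeval_X]
  have hprimeC : Prime (C p : A[X]) := Polynomial.prime_C_iff.mpr hp
  have hprime0 : Prime (algebraMap A (Algebra.adjoin A {t}) p) := by
    rw [← heC]
    exact (MulEquiv.prime_iff e.toMulEquiv).mpr hprimeC
  have hprimeI : (span {algebraMap A (Algebra.adjoin A {t}) p}).IsPrime :=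
    (Ideal.span_singleton_prime hprime0.ne_zero).mpr hprime0
  have hndvd : ¬ algebraMap A (Algebra.adjoin A {t}) p ∣
      (⟨t, Algebra.self_mem_adjoin_singleton A t⟩ : Algebra.adjoin A {t}) := by
    rw [← heC, ← heX]
    intro hdvd
    have hdvd' : (C p : A[X]) ∣ X := by
      have := map_dvd e.symm hdvd
      simpa using this
    rw [Polynomial.C_dvd_iff_dvd_coeff] at hdvd'
    have h1 := hdvd' 1
    rw [Polynomial.coeff_X_one] at h1
    exact hp.not_isUnit (isUnit_of_dvd_one h1)
  exact notMem_of_mem_minimalPrimes_icl (Algebra.adjoin A {t}) hprimeI hndvd hQ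

/-- **Theorem T, chart form, final.**  `A` a noetherian integrally closed domain inside the
field `L`, `p` a prime element of `A`, `t ∈ L` transcendental over `A`; `B0`, `B1` the
integral closures of `A[t]`, `A[1/t]` in `L`, finite over `A[t]`, `A[1/t]`, with
`B0 ∩ B1 = A`.  If distinct components of the special fibre `p = 0` never meet in `B0` and
never meet in `B1`, then the special fibre of `B0` is irreducible: there is at most one
minimal prime over `p`. -/
theorem icl_unique_component_of_prime [IsNoetherianRing A] [IsDomain A] [IsIntegrallyClosed A]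
    (hinj : Function.Injective (algebraMap A L)) {p : A} (hp : Prime p)
    (t : L) (htr : Transcendental A t)
    (hfin0 : Module.Finite (Algebra.adjoin A {t}) (integralClosure (Algebra.adjoin A {t}) L))
    (hfin1 : Module.Finite (Algebra.adjoin A {t⁻¹})
      (integralClosure (Algebra.adjoin A {t⁻¹}) L))
    (hH0 : ∀ x : L, IsIntegral (Algebra.adjoin A {t}) x →
      IsIntegral (Algebra.adjoin A {t⁻¹}) x → ∃ α : A, algebraMap A L α = x)
    (hone0 : ∀ Q ∈ (span {algebraMap A (icl (Algebra.adjoin A {t})) p}).minimalPrimes,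
      ∀ Q' ∈ (span {algebraMap A (icl (Algebra.adjoin A {t})) p}).minimalPrimes,
      Q ⊔ Q' ≠ ⊤ → Q = Q')
    (hone1 : ∀ Q ∈ (span {algebraMap A (icl (Algebra.adjoin A {t⁻¹})) p}).minimalPrimes,
      ∀ Q' ∈ (span {algebraMap A (icl (Algebra.adjoin A {t⁻¹})) p}).minimalPrimes,
      Q ⊔ Q' ≠ ⊤ → Q = Q')
    {Q1 Q2 : Ideal (icl (Algebra.adjoin A {t}))}
    (hQ1 : Q1 ∈ (span {algebraMap A (icl (Algebra.adjoin A {t})) p}).minimalPrimes)
    (hQ2 : Q2 ∈ (span {algebraMap A (icl (Algebra.adjoin A {t})) p}).minimalPrimes) :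
    Q1 = Q2 := by
  have ht : t ≠ 0 := by
    rintro rfl
    exact htr ⟨X, X_ne_zero, by simp⟩
  have hA : ∀ α : A, p ∣ α * α - α → p ∣ α ∨ p ∣ α - 1 := by
    intro α h
    have : α * α - α = α * (α - 1) := by ring
    rw [this] at h
    exact hp.dvd_or_dvd h
  exact icl_unique_component hinj p hp.ne_zero hA t ht hfin0 hfin1 hH0 hone0 hone1 hQ1 hQ2
    (t_notMem_of_mem_minimalPrimes hp t htr hQ1)

/-- **Theorem T, chart form, with `H⁰ = A` discharged** (helper5122 `H0`).  `A` a noetherian
integrally closed domain which is integrally closed in the field `L` (`hcl`), `p` a prime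
element of `A`, `t ∈ L` transcendental over `A`, both charts finite.  If distinct components
of the special fibre never meet in `B0` and never meet in `B1`, the special fibre of `B0` has
at most one component. -/
theorem icl_unique_component_of_closed [IsNoetherianRing A] [IsDomain A] [IsIntegrallyClosed A]
    (hcl : ∀ x : L, IsIntegral A x → ∃ α : A, algebraMap A L α = x)
    {p : A} (hp : Prime p) (t : L) (htr : Transcendental A t)
    (hfin0 : Module.Finite (Algebra.adjoin A {t}) (integralClosure (Algebra.adjoin A {t}) L))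
    (hfin1 : Module.Finite (Algebra.adjoin A {t⁻¹})
      (integralClosure (Algebra.adjoin A {t⁻¹}) L))
    (hone0 : ∀ Q ∈ (span {algebraMap A (icl (Algebra.adjoin A {t})) p}).minimalPrimes,
      ∀ Q' ∈ (span {algebraMap A (icl (Algebra.adjoin A {t})) p}).minimalPrimes,
      Q ⊔ Q' ≠ ⊤ → Q = Q')
    (hone1 : ∀ Q ∈ (span {algebraMap A (icl (Algebra.adjoin A {t⁻¹})) p}).minimalPrimes,
      ∀ Q' ∈ (span {algebraMap A (icl (Algebra.adjoin A {t⁻¹})) p}).minimalPrimes,
      Q ⊔ Q' ≠ ⊤ → Q = Q')
    {Q1 Q2 : Ideal (icl (Algebra.adjoin A {t}))}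
    (hQ1 : Q1 ∈ (span {algebraMap A (icl (Algebra.adjoin A {t})) p}).minimalPrimes)
    (hQ2 : Q2 ∈ (span {algebraMap A (icl (Algebra.adjoin A {t})) p}).minimalPrimes) :
    Q1 = Q2 :=
  icl_unique_component_of_prime (algebraMap_injective_of_transcendental htr) hp t htr hfin0 hfin1
    (fun x h0 h1 => const_of_isIntegral_two_charts t htr hcl x h0 h1) hone0 hone1 hQ1 hQ2

/-- **Theorem T, chart form, points at infinity only** (helper2061 `hone1_of_hone0`).  As
`icl_unique_component_of_closed`, but in the chart `1/t` the hypothesis is needed only for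
components which meet on the locus `1/t = 0`. -/
theorem icl_unique_component_of_inf [IsNoetherianRing A] [IsDomain A] [IsIntegrallyClosed A]
    (hcl : ∀ x : L, IsIntegral A x → ∃ α : A, algebraMap A L α = x)
    {p : A} (hp : Prime p) (t : L) (htr : Transcendental A t)
    (hfin0 : Module.Finite (Algebra.adjoin A {t}) (integralClosure (Algebra.adjoin A {t}) L))
    (hfin1 : Module.Finite (Algebra.adjoin A {t⁻¹})
      (integralClosure (Algebra.adjoin A {t⁻¹}) L))
    (hone0 : ∀ Q ∈ (span {algebraMap A (icl (Algebra.adjoin A {t})) p}).minimalPrimes,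
      ∀ Q' ∈ (span {algebraMap A (icl (Algebra.adjoin A {t})) p}).minimalPrimes,
      Q ⊔ Q' ≠ ⊤ → Q = Q')
    (hinf : ∀ Q ∈ (span {algebraMap A (icl (Algebra.adjoin A {t⁻¹})) p}).minimalPrimes,
      ∀ Q' ∈ (span {algebraMap A (icl (Algebra.adjoin A {t⁻¹})) p}).minimalPrimes,
      Q ⊔ Q' ⊔ span {(⟨t⁻¹, le_icl _ (Algebra.self_mem_adjoin_singleton A t⁻¹)⟩ :
        icl (Algebra.adjoin A {t⁻¹}))} ≠ ⊤ → Q = Q')
    {Q1 Q2 : Ideal (icl (Algebra.adjoin A {t}))}
    (hQ1 : Q1 ∈ (span {algebraMap A (icl (Algebra.adjoin A {t})) p}).minimalPrimes)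
    (hQ2 : Q2 ∈ (span {algebraMap A (icl (Algebra.adjoin A {t})) p}).minimalPrimes) :
    Q1 = Q2 := by
  have ht : t ≠ 0 := ne_zero_of_transcendental htr
  have hS0 : Algebra.adjoin A {t} ≤ Algebra.adjoin A {t, t⁻¹} :=
    Algebra.adjoin_mono (by intro x hx; exact Or.inl hx)
  have hS1 : Algebra.adjoin A {t⁻¹} ≤ Algebra.adjoin A {t, t⁻¹} :=
    Algebra.adjoin_mono (by intro x hx; exact Or.inr hx)
  have hone1 := helper2061.hone1_of_hone0_subalgebra p t t⁻¹ (mul_inv_cancel₀ ht)
    (icl (Algebra.adjoin A {t})) (icl (Algebra.adjoin A {t⁻¹}))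
    (icl (Algebra.adjoin A {t, t⁻¹})) (icl_mono hS0) (icl_mono hS1)
    (le_icl _ (Algebra.self_mem_adjoin_singleton A t))
    (le_icl _ (Algebra.self_mem_adjoin_singleton A t⁻¹))
    (icl_pair_scale t ht) (icl_pair_scale' t ht) hone0 hinf
  exact icl_unique_component_of_closed hcl hp t htr hfin0 hfin1 hone0 hone1 hQ1 hQ2

end Chart

end Fermat.Agent.S18.helper2128
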