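/-
S18-DK (helper2720): Dedekind–Kummer splitting at a prime of a normal domain / at an arbitrary
valuation subring.

Mathlib-only, spec-independent.

* `exists_prime_over_of_eval_mem` : `B` integrally closed domain, `S` an integral domain
  extension, `x : S`, `c : B` a root of `minpoly B x` modulo the prime `P`: there is a prime
  `Q` of `S` over `P` containing `x - c`.
* `exists_two_primes_over` : if a monic `f ∈ B[X]` with `f(x) = 0` splits modulo `P` into
  pairwise distinct linear factors and `deg (minpoly B x) ≥ 2`, then `S` has two distinct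
  primes over `P`.
* `kummer_exists_two_primes_over`, `kummer_mem_range_of_unique_prime` (DK2, prime-ideal form):
  `x ^ m = U`, `m ∉ P`, `ζ ∈ B` a primitive `m`-th root of unity, `h ^ m ≡ U mod P`, `U ∉ P`;
  if `S` has at most one prime over `P` then `x ∈ B`.
* `kummer_exists_two_valuationSubrings`, `kummer_mem_range_of_unique_valuationSubring`
  (DK1, valuation form): `O` a valuation subring of `F` (no discreteness), `E / F` a field
  extension, `V ^ m = U`; if at most one valuation subring of `E` lies over `O`,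
  then `V ∈ F`.
-/
import Mathlib

set_option autoImplicit false

open Polynomial

namespace Fermat.Agent.S18.helper2720

section Core

variable {B S : Type*} [CommRing B] [IsDomain B] [IsIntegrallyClosed B]
  [CommRing S] [IsDomain S] [Algebra B S] [Algebra.IsIntegral B S]

/-- **Core construction.** If `c` is a root modulo `P` of the minimal polynomial of `x` over
the integrally closed domain `B`, then some prime of `S` over `P` contains `x - c`. -/
theorem exists_prime_over_of_eval_mem (hinj : Function.Injective (algebraMap B S))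
    (P : Ideal B) [P.IsPrime] (x : S) (c : B) (hc : (minpoly B x).eval c ∈ P) :
    ∃ Q : Ideal S, Q.IsPrime ∧ Q.comap (algebraMap B S) = P ∧ x - algebraMap B S c ∈ Q := by
  classical
  have : Module.IsTorsionFree B S := Module.isTorsionFree_iff_algebraMap_injective.mpr hinj
  have hx : IsIntegral B x := Algebra.IsIntegral.isIntegral x
  set g := minpoly B x with hg
  let ψ : AdjoinRoot g →+* B ⧸ P :=
    AdjoinRoot.lift (Ideal.Quotient.mk P) (Ideal.Quotient.mk P c) (by
      rw [Polynomial.eval₂_at_apply, Ideal.Quotient.eq_zero_iff_mem]; exact hc)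
  let φ : AdjoinRoot g →ₐ[B] S :=
    AdjoinRoot.liftAlgHom g (Algebra.ofId B S) x (by
      have := minpoly.aeval B x
      rwa [Polynomial.aeval_def] at this)
  have hφmk : ∀ p : B[X], φ (AdjoinRoot.mk g p) = Polynomial.aeval x p := fun p => by
    rw [Polynomial.aeval_def]; rfl
  have hφinj : Function.Injective φ := by
    rw [injective_iff_map_eq_zero]
    intro a ha
    obtain ⟨p, rfl⟩ := AdjoinRoot.mk_surjective a
    rw [AdjoinRoot.mk_eq_zero]
    apply minpoly.isIntegrallyClosed_dvd hx
    rw [← hφmk]; exact ha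
  let _ : Algebra (AdjoinRoot g) S := φ.toRingHom.toAlgebra
  have : IsScalarTower B (AdjoinRoot g) S :=
    IsScalarTower.of_algebraMap_eq fun b => (φ.commutes b).symm
  have : Algebra.IsIntegral (AdjoinRoot g) S := Algebra.IsIntegral.tower_top (R := B)
  have : (RingHom.ker ψ).IsPrime := RingHom.ker_isPrime ψ
  obtain ⟨Q, -, hQ, hQc⟩ := Ideal.exists_ideal_over_prime_of_isIntegral (RingHom.ker ψ)
    (⊥ : Ideal S) (by
      intro a ha
      have h0 : algebraMap (AdjoinRoot g) S a = 0 := by
        simpa only [Ideal.mem_comap, Ideal.mem_bot] using ha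
      have : φ a = 0 := h0
      rw [(injective_iff_map_eq_zero φ).mp hφinj a this]
      exact Ideal.zero_mem _)
  refine ⟨Q, hQ, ?_, ?_⟩
  · ext b
    have h1 : algebraMap B S b = algebraMap (AdjoinRoot g) S (AdjoinRoot.of g b) :=
      (φ.commutes b).symm
    rw [Ideal.mem_comap, h1, ← Ideal.mem_comap, hQc, RingHom.mem_ker]
    show AdjoinRoot.lift _ _ _ (AdjoinRoot.of g b) = 0 ↔ _
    rw [AdjoinRoot.lift_of, Ideal.Quotient.eq_zero_iff_mem]
  · have h1 : x - algebraMap B S c
        = algebraMap (AdjoinRoot g) S (AdjoinRoot.root g - AdjoinRoot.of g c) := by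
      show _ = φ (AdjoinRoot.root g - AdjoinRoot.of g c)
      rw [map_sub, AdjoinRoot.liftAlgHom_root]
      congr 1
      exact (φ.commutes c).symm
    rw [h1, ← Ideal.mem_comap, hQc, RingHom.mem_ker]
    show AdjoinRoot.lift _ _ _ (AdjoinRoot.root g - AdjoinRoot.of g c) = 0
    rw [map_sub, AdjoinRoot.lift_root, AdjoinRoot.lift_of, sub_self]

end Core

section Roots

/-- Root counting in a domain: a monic divisor of degree `≥ 2` of a product of pairwise distinct
linear factors vanishes at two of the roots. -/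
theorem exists_two_roots {D : Type*} [CommRing D] [IsDomain D] {ι : Type*} (s : Finset ι)
    (r : ι → D) (hr : ∀ i ∈ s, ∀ j ∈ s, i ≠ j → r i ≠ r j) (g : D[X]) (hg : g.Monic)
    (hdvd : g ∣ ∏ i ∈ s, (X - C (r i))) (hdeg : 2 ≤ g.natDegree) :
    ∃ i ∈ s, ∃ j ∈ s, i ≠ j ∧ g.eval (r i) = 0 ∧ g.eval (r j) = 0 := by
  classical
  obtain ⟨q, hq⟩ := hdvd
  have hprod_ne : (∏ i ∈ s, (X - C (r i))) ≠ 0 :=
    (Polynomial.monic_prod_of_monic _ _ fun i _ => Polynomial.monic_X_sub_C (r i)).ne_zero
  have hq0 : q ≠ 0 := by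
    rintro rfl
    rw [mul_zero] at hq
    exact hprod_ne hq
  have hdegs : s.card = g.natDegree + q.natDegree := by
    rw [← Polynomial.natDegree_mul hg.ne_zero hq0, ← hq,
      Polynomial.natDegree_finsetProd_X_sub_C_eq_card]
  set T := s.filter (fun i => g.eval (r i) = 0) with hT
  have hqroot : ∀ i ∈ s \ T, q.eval (r i) = 0 := by
    intro i hi
    rw [Finset.mem_sdiff, hT, Finset.mem_filter] at hi
    have h0 : (∏ k ∈ s, (X - C (r k))).eval (r i) = 0 := by
      rw [Polynomial.eval_prod]
      exact Finset.prod_eq_zero hi.1 (by simp)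
    rw [hq, Polynomial.eval_mul] at h0
    rcases mul_eq_zero.mp h0 with h | h
    · exact absurd ⟨hi.1, h⟩ hi.2
    · exact h
  have hinjOn : Set.InjOn r (↑(s \ T) : Set ι) := by
    intro i hi j hj hij
    by_contra hne
    exact hr i (Finset.mem_sdiff.mp hi).1 j (Finset.mem_sdiff.mp hj).1 hne hij
  have hcard : (s \ T).card ≤ q.natDegree := by
    rw [← Finset.card_image_of_injOn hinjOn]
    apply Polynomial.card_le_degree_of_subset_roots
    intro a ha
    rw [Finset.mem_val, Finset.mem_image] at ha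
    obtain ⟨i, hi, rfl⟩ := ha
    rw [Polynomial.mem_roots hq0]
    exact hqroot i hi
  have hTs : T ⊆ s := Finset.filter_subset _ _
  have hTcard : 2 ≤ T.card := by
    have h1 : (s \ T).card = s.card - T.card := Finset.card_sdiff_of_subset hTs
    have h2 : T.card ≤ s.card := Finset.card_le_card hTs
    omega
  obtain ⟨i, hi, j, hj, hij⟩ := Finset.one_lt_card.mp hTcard
  rw [hT, Finset.mem_filter] at hi hj
  exact ⟨i, hi.1, j, hj.1, hij, hi.2, hj.2⟩

end Roots

section TwoPrimes

variable {B S : Type*} [CommRing B] [IsDomain B] [IsIntegrallyClosed B]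
  [CommRing S] [IsDomain S] [Algebra B S] [Algebra.IsIntegral B S]

/-- **Dedekind–Kummer splitting, general form.** If a monic `f ∈ B[X]` with `f(x) = 0` splits
modulo the prime `P` into linear factors `X - c i` that are pairwise distinct modulo `P`, and
`x` has degree `≥ 2` over `B`, then there are two indices `i ≠ j` and primes `Q ∋ x - c i`,
`Q' ∋ x - c j` of `S` over `P`. -/
theorem exists_two_primes_over' (hinj : Function.Injective (algebraMap B S))
    (P : Ideal B) [P.IsPrime] (x : S) (f : B[X]) (hfx : Polynomial.aeval x f = 0)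
    {ι : Type*} (s : Finset ι) (c : ι → B)
    (hsplit : f.map (Ideal.Quotient.mk P) = ∏ i ∈ s, (X - C (Ideal.Quotient.mk P (c i))))
    (hdist : ∀ i ∈ s, ∀ j ∈ s, i ≠ j → c i - c j ∉ P)
    (hdeg : 2 ≤ (minpoly B x).natDegree) :
    ∃ i ∈ s, ∃ j ∈ s, i ≠ j ∧ ∃ Q Q' : Ideal S, Q.IsPrime ∧ Q'.IsPrime ∧
      Q.comap (algebraMap B S) = P ∧ Q'.comap (algebraMap B S) = P ∧
      x - algebraMap B S (c i) ∈ Q ∧ x - algebraMap B S (c j) ∈ Q' := by
  classical
  have : Module.IsTorsionFree B S := Module.isTorsionFree_iff_algebraMap_injective.mpr hinj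
  have hx : IsIntegral B x := Algebra.IsIntegral.isIntegral x
  have hgmonic : (minpoly B x).Monic := minpoly.monic hx
  have hgf : minpoly B x ∣ f := minpoly.isIntegrallyClosed_dvd hx hfx
  have hdvd : (minpoly B x).map (Ideal.Quotient.mk P)
      ∣ ∏ i ∈ s, (X - C (Ideal.Quotient.mk P (c i))) := by
    rw [← hsplit]
    exact Polynomial.map_dvd _ hgf
  have hr : ∀ i ∈ s, ∀ j ∈ s, i ≠ j →
      Ideal.Quotient.mk P (c i) ≠ Ideal.Quotient.mk P (c j) := by
    intro i hi j hj hij h
    exact hdist i hi j hj hij (Ideal.Quotient.eq.mp h)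
  obtain ⟨i, hi, j, hj, hij, hei, hej⟩ := exists_two_roots s
    (fun i => Ideal.Quotient.mk P (c i)) hr _ (hgmonic.map _) hdvd
    (by rw [hgmonic.natDegree_map]; exact hdeg)
  have hmem : ∀ k, ((minpoly B x).map (Ideal.Quotient.mk P)).eval (Ideal.Quotient.mk P (c k)) = 0 →
      (minpoly B x).eval (c k) ∈ P := by
    intro k hk
    rw [Polynomial.eval_map, Polynomial.eval₂_at_apply, Ideal.Quotient.eq_zero_iff_mem] at hk
    exact hk
  obtain ⟨Q, hQ, hQP, hQx⟩ := exists_prime_over_of_eval_mem hinj P x (c i) (hmem i hei)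
  obtain ⟨Q', hQ', hQP', hQx'⟩ := exists_prime_over_of_eval_mem hinj P x (c j) (hmem j hej)
  exact ⟨i, hi, j, hj, hij, Q, Q', hQ, hQ', hQP, hQP', hQx, hQx'⟩

/-- **Dedekind–Kummer splitting, general form**: two distinct primes over `P`. -/
theorem exists_two_primes_over (hinj : Function.Injective (algebraMap B S))
    (P : Ideal B) [P.IsPrime] (x : S) (f : B[X]) (hfx : Polynomial.aeval x f = 0)
    {ι : Type*} (s : Finset ι) (c : ι → B)
    (hsplit : f.map (Ideal.Quotient.mk P) = ∏ i ∈ s, (X - C (Ideal.Quotient.mk P (c i))))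
    (hdist : ∀ i ∈ s, ∀ j ∈ s, i ≠ j → c i - c j ∉ P)
    (hdeg : 2 ≤ (minpoly B x).natDegree) :
    ∃ Q Q' : Ideal S, Q.IsPrime ∧ Q'.IsPrime ∧
      Q.comap (algebraMap B S) = P ∧ Q'.comap (algebraMap B S) = P ∧ Q ≠ Q' := by
  obtain ⟨i, hi, j, hj, hij, Q, Q', hQ, hQ', hQP, hQP', hQx, hQx'⟩ :=
    exists_two_primes_over' hinj P x f hfx s c hsplit hdist hdeg
  refine ⟨Q, Q', hQ, hQ', hQP, hQP', ?_⟩
  rintro rfl
  apply hdist i hi j hj hij
  rw [← hQP, Ideal.mem_comap, map_sub]
  have := Q.sub_mem hQx' hQx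
  rwa [sub_sub_sub_cancel_left] at this

/-- If `S` has at most one prime over `P` and a monic `f` with `f(x) = 0` splits modulo `P`
into pairwise distinct linear factors, then `x ∈ B`. -/
theorem mem_range_of_unique_prime (hinj : Function.Injective (algebraMap B S))
    (P : Ideal B) [P.IsPrime] (x : S) (f : B[X]) (hfx : Polynomial.aeval x f = 0)
    {ι : Type*} (s : Finset ι) (c : ι → B)
    (hsplit : f.map (Ideal.Quotient.mk P) = ∏ i ∈ s, (X - C (Ideal.Quotient.mk P (c i))))
    (hdist : ∀ i ∈ s, ∀ j ∈ s, i ≠ j → c i - c j ∉ P)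
    (huniq : ∀ Q Q' : Ideal S, Q.IsPrime → Q'.IsPrime → Q.comap (algebraMap B S) = P →
      Q'.comap (algebraMap B S) = P → Q = Q') :
    x ∈ (algebraMap B S).range := by
  by_contra hx
  have hdeg : 2 ≤ (minpoly B x).natDegree :=
    (minpoly.two_le_natDegree_iff (Algebra.IsIntegral.isIntegral x)).mpr hx
  obtain ⟨Q, Q', hQ, hQ', hQP, hQP', hne⟩ :=
    exists_two_primes_over hinj P x f hfx s c hsplit hdist hdeg
  exact hne (huniq Q Q' hQ hQ' hQP hQP')

end TwoPrimes

section Kummer

variable {B S : Type*} [CommRing B] [IsDomain B] [IsIntegrallyClosed B]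
  [CommRing S] [IsDomain S] [Algebra B S] [Algebra.IsIntegral B S]

omit [IsIntegrallyClosed B] in
private theorem pow_sub_pow_not_mem_of_lt {P : Ideal B} [P.IsPrime] {m : ℕ} (hm : (m : B) ∉ P)
    {ζ : B} (hζ : IsPrimitiveRoot ζ m) {i j : ℕ} (hj : j < m) (hij : i < j) :
    ζ ^ i - ζ ^ j ∉ P := by
  intro hmem
  have hfac : ζ ^ i - ζ ^ j = ζ ^ i * (1 - ζ ^ (j - i)) := by
    rw [mul_sub, mul_one, ← pow_add, Nat.add_sub_cancel' hij.le]
  rw [hfac] at hmem
  rcases (Ideal.IsPrime.mem_or_mem ‹P.IsPrime› hmem) with h | h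
  · have hζP : ζ ∈ P := Ideal.IsPrime.mem_of_pow_mem ‹P.IsPrime› i h
    have h1 : (1 : B) ∈ P := by
      rw [← hζ.pow_eq_one]
      exact Ideal.pow_mem_of_mem P hζP m (by omega)
    exact (Ideal.IsPrime.ne_top ‹P.IsPrime›) ((Ideal.eq_top_iff_one P).mpr h1)
  · obtain ⟨n, rfl⟩ : ∃ n, m = n + 1 := ⟨m - 1, by omega⟩
    have hprod := hζ.prod_one_sub_pow_eq_order
    have hdvd : (1 - ζ ^ (j - i)) ∣ ∏ k ∈ Finset.range n, (1 - ζ ^ (k + 1)) := by
      have hk : j - i - 1 ∈ Finset.range n := by rw [Finset.mem_range]; omega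
      have := Finset.dvd_prod_of_mem (fun k => (1 - ζ ^ (k + 1))) hk
      rwa [show j - i - 1 + 1 = j - i by omega] at this
    rw [hprod] at hdvd
    apply hm
    push_cast
    exact Ideal.mem_of_dvd P hdvd h

omit [IsIntegrallyClosed B] in
/-- Distinct powers of a primitive `m`-th root of unity stay distinct modulo a prime not
containing `m`. -/
theorem pow_sub_pow_not_mem {P : Ideal B} [P.IsPrime] {m : ℕ} (hm : (m : B) ∉ P)
    {ζ : B} (hζ : IsPrimitiveRoot ζ m) {i j : ℕ} (hi : i < m) (hj : j < m) (hij : i ≠ j) :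
    ζ ^ i - ζ ^ j ∉ P := by
  rcases Nat.lt_or_gt_of_ne hij with h | h
  · exact pow_sub_pow_not_mem_of_lt hm hζ hj h
  · intro hmem
    apply pow_sub_pow_not_mem_of_lt hm hζ hi h
    rw [← neg_sub]
    exact P.neg_mem hmem

omit [IsIntegrallyClosed B] in
/-- The `m` roots `ζ ^ i * h` of `X ^ m - U` modulo `P` are pairwise distinct modulo `P`. -/
theorem kummer_root_sub_not_mem {P : Ideal B} [P.IsPrime] {m : ℕ} (hm : (m : B) ∉ P)
    {ζ : B} (hζ : IsPrimitiveRoot ζ m) {U h : B} (hU : U ∉ P) (hh : h ^ m - U ∈ P)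
    {i j : ℕ} (hi : i < m) (hj : j < m) (hij : i ≠ j) :
    ζ ^ i * h - ζ ^ j * h ∉ P := by
  have hm0 : 0 < m := by
    rcases Nat.eq_zero_or_pos m with h0 | h0
    · exfalso; apply hm; rw [h0, Nat.cast_zero]; exact P.zero_mem
    · exact h0
  have hhP : h ∉ P := by
    intro hmem
    apply hU
    have h1 : h ^ m ∈ P := Ideal.pow_mem_of_mem P hmem m hm0
    have := P.sub_mem h1 hh
    rwa [sub_sub_cancel] at this
  intro hmem
  rw [← sub_mul] at hmem
  rcases (Ideal.IsPrime.mem_or_mem ‹P.IsPrime› hmem) with h1 | h1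
  · exact pow_sub_pow_not_mem hm hζ hi hj hij h1
  · exact hhP h1

/-- **Dedekind–Kummer splitting, Kummer case (DK2, with the distinguishing elements).**
`x ^ m = U` in an integral domain extension `S` of the integrally closed domain `B`, `P` a prime
of `B` with `m ∉ P`, `ζ ∈ B` a primitive `m`-th root of unity, `U ∉ P` and `h ^ m ≡ U mod P`.
If `x` has degree `≥ 2` over `B`, there are `i ≠ j` and primes `Q ∋ x - ζ ^ i h`,
`Q' ∋ x - ζ ^ j h` of `S` over `P`. -/
theorem kummer_exists_two_primes_over' (hinj : Function.Injective (algebraMap B S))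
    (P : Ideal B) [P.IsPrime] {m : ℕ} (hm : (m : B) ∉ P) {ζ : B} (hζ : IsPrimitiveRoot ζ m)
    {U h : B} (hU : U ∉ P) (hh : h ^ m - U ∈ P) (x : S) (hx : x ^ m = algebraMap B S U)
    (hdeg : 2 ≤ (minpoly B x).natDegree) :
    ∃ i < m, ∃ j < m, i ≠ j ∧ ∃ Q Q' : Ideal S, Q.IsPrime ∧ Q'.IsPrime ∧
      Q.comap (algebraMap B S) = P ∧ Q'.comap (algebraMap B S) = P ∧
      x - algebraMap B S (ζ ^ i * h) ∈ Q ∧ x - algebraMap B S (ζ ^ j * h) ∈ Q' := by
  have hm0 : 0 < m := by
    rcases Nat.eq_zero_or_pos m with h0 | h0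
    · exfalso; apply hm; rw [h0, Nat.cast_zero]; exact P.zero_mem
    · exact h0
  have hfx : Polynomial.aeval x (X ^ m - C U : B[X]) = 0 := by
    simp [hx]
  have hmk : Ideal.Quotient.mk P (h ^ m) = Ideal.Quotient.mk P U := Ideal.Quotient.eq.mpr hh
  have hsplit : (X ^ m - C U : B[X]).map (Ideal.Quotient.mk P)
      = ∏ i ∈ Finset.range m, (X - C (Ideal.Quotient.mk P (ζ ^ i * h))) := by
    have h1 : (X ^ m - C U : B[X]).map (Ideal.Quotient.mk P)
        = (X ^ m - C (h ^ m) : B[X]).map (Ideal.Quotient.mk P) := by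
      simp only [Polynomial.map_sub, Polynomial.map_pow, Polynomial.map_X, Polynomial.map_C, hmk]
    rw [h1, X_pow_sub_C_eq_prod hζ hm0 (rfl : h ^ m = h ^ m), Polynomial.map_prod]
    refine Finset.prod_congr rfl fun i _ => ?_
    simp only [Polynomial.map_sub, Polynomial.map_X, Polynomial.map_C]
  have hdist : ∀ i ∈ Finset.range m, ∀ j ∈ Finset.range m, i ≠ j →
      ζ ^ i * h - ζ ^ j * h ∉ P := fun i hi j hj hij =>
    kummer_root_sub_not_mem hm hζ hU hh (Finset.mem_range.mp hi) (Finset.mem_range.mp hj) hij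
  obtain ⟨i, hi, j, hj, hij, Q, Q', hQ⟩ := exists_two_primes_over' hinj P x _ hfx
    (Finset.range m) (fun i => ζ ^ i * h) hsplit hdist hdeg
  exact ⟨i, Finset.mem_range.mp hi, j, Finset.mem_range.mp hj, hij, Q, Q', hQ⟩

/-- **Dedekind–Kummer splitting, Kummer case (DK2).** Two distinct primes of `S` over `P`. -/
theorem kummer_exists_two_primes_over (hinj : Function.Injective (algebraMap B S))
    (P : Ideal B) [P.IsPrime] {m : ℕ} (hm : (m : B) ∉ P) {ζ : B} (hζ : IsPrimitiveRoot ζ m)
    {U h : B} (hU : U ∉ P) (hh : h ^ m - U ∈ P) (x : S) (hx : x ^ m = algebraMap B S U)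
    (hdeg : 2 ≤ (minpoly B x).natDegree) :
    ∃ Q Q' : Ideal S, Q.IsPrime ∧ Q'.IsPrime ∧
      Q.comap (algebraMap B S) = P ∧ Q'.comap (algebraMap B S) = P ∧ Q ≠ Q' := by
  obtain ⟨i, hi, j, hj, hij, Q, Q', hQ, hQ', hQP, hQP', hQx, hQx'⟩ :=
    kummer_exists_two_primes_over' hinj P hm hζ hU hh x hx hdeg
  refine ⟨Q, Q', hQ, hQ', hQP, hQP', ?_⟩
  rintro rfl
  apply kummer_root_sub_not_mem hm hζ hU hh hi hj hij
  rw [← hQP, Ideal.mem_comap, map_sub]
  have := Q.sub_mem hQx' hQx
  rwa [sub_sub_sub_cancel_left] at this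

/-- **Dedekind–Kummer, Kummer case (DK2, consumer form).** If `S` has at most one prime over
`P`, then the `m`-th root `x` of `U` lies in `B`. -/
theorem kummer_mem_range_of_unique_prime (hinj : Function.Injective (algebraMap B S))
    (P : Ideal B) [P.IsPrime] {m : ℕ} (hm : (m : B) ∉ P) {ζ : B} (hζ : IsPrimitiveRoot ζ m)
    {U h : B} (hU : U ∉ P) (hh : h ^ m - U ∈ P) (x : S) (hx : x ^ m = algebraMap B S U)
    (huniq : ∀ Q Q' : Ideal S, Q.IsPrime → Q'.IsPrime → Q.comap (algebraMap B S) = P →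
      Q'.comap (algebraMap B S) = P → Q = Q') :
    x ∈ (algebraMap B S).range := by
  by_contra hxr
  have hdeg : 2 ≤ (minpoly B x).natDegree :=
    (minpoly.two_le_natDegree_iff (Algebra.IsIntegral.isIntegral x)).mpr hxr
  obtain ⟨Q, Q', hQ, hQ', hQP, hQP', hne⟩ :=
    kummer_exists_two_primes_over hinj P hm hζ hU hh x hx hdeg
  exact hne (huniq Q Q' hQ hQ' hQP hQP')

end Kummer

section Valuation

variable {F E : Type*} [Field F] [Field E] [Algebra F E]

/-- A proper ideal `Q` of a subring `A ⊆ E` containing (the image of) `O` and such that `Q`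
contains the image of the maximal ideal of `O` is contained in the maximal ideal of a valuation
subring `W ⊇ A` of `E` lying over `O`. No discreteness assumption. -/
theorem exists_valuationSubring_over (O : ValuationSubring F) (A : Subring E)
    (hOA : ∀ a ∈ O, algebraMap F E a ∈ A) (Q : Ideal A) (hQ : Q ≠ ⊤)
    (hQO : ∀ (a : F) (ha : a ∈ O), O.valuation a < 1 →
      (⟨algebraMap F E a, hOA a ha⟩ : A) ∈ Q) :
    ∃ W : ValuationSubring E, A ≤ W.toSubring ∧ (∀ q ∈ Q, (q : E) ∈ W.nonunits) ∧
      W.comap (algebraMap F E) = O := by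
  obtain ⟨W, hAW, hQW⟩ := Ideal.image_subset_nonunits_valuationSubring Q hQ
  refine ⟨W, hAW, fun q hq => hQW ⟨q, hq, rfl⟩, ?_⟩
  ext a
  rw [ValuationSubring.mem_comap]
  constructor
  · intro haW
    by_contra haO
    have hinv : a⁻¹ ∈ O := (O.mem_or_inv_mem a).resolve_left haO
    have hva : 1 < O.valuation a := by
      rw [← not_le, O.valuation_le_one_iff]; exact haO
    have hvinv : O.valuation a⁻¹ < 1 := by
      rw [map_inv₀]
      exact inv_lt_one_of_one_lt₀ hva
    have hmem : (algebraMap F E a⁻¹) ∈ W.nonunits :=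
      hQW ⟨_, hQO a⁻¹ hinv hvinv, rfl⟩
    rw [ValuationSubring.mem_nonunits_iff] at hmem
    have hle : W.valuation (algebraMap F E a) ≤ 1 := (W.valuation_le_one_iff _).mpr haW
    have ha0 : a ≠ 0 := fun h0 => haO (h0 ▸ O.zero_mem)
    have hone : W.valuation (algebraMap F E a) * W.valuation (algebraMap F E a⁻¹) = 1 := by
      rw [← map_mul, ← map_mul, mul_inv_cancel₀ ha0, map_one, map_one]
    have hlt : W.valuation (algebraMap F E a) * W.valuation (algebraMap F E a⁻¹) < 1 :=
      calc W.valuation (algebraMap F E a) * W.valuation (algebraMap F E a⁻¹)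
          ≤ 1 * W.valuation (algebraMap F E a⁻¹) := mul_le_mul_left hle _
        _ = W.valuation (algebraMap F E a⁻¹) := one_mul _
        _ < 1 := hmem
    exact (lt_irrefl _) (hone ▸ hlt)
  · intro haO
    exact hAW (hOA a haO)

/-- **Dedekind–Kummer splitting at a valuation subring (DK1).**
`O` a valuation subring of `F` (arbitrary rank, not necessarily discrete), `m` a unit of `O`,
`ζ ∈ F` a primitive `m`-th root of unity, `U` a unit of `O` whose reduction is an `m`-th power
(`h ^ m ≡ U` modulo the maximal ideal). If `V ∈ E` is an `m`-th root of `U` not lying in `F`,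
then `E` has two distinct valuation subrings lying over `O`. -/
theorem kummer_exists_two_valuationSubrings (O : ValuationSubring F) {m : ℕ}
    (hm : O.valuation (m : F) = 1) {ζ : F} (hζ : IsPrimitiveRoot ζ m) {U h : F}
    (hU : O.valuation U = 1) (hh : O.valuation (h ^ m - U) < 1) (V : E)
    (hV : V ^ m = algebraMap F E U) (hVF : V ∉ (algebraMap F E).range) :
    ∃ W W' : ValuationSubring E, W ≠ W' ∧ W.comap (algebraMap F E) = O ∧
      W'.comap (algebraMap F E) = O := by
  classical
  let _ : Algebra O E := ((algebraMap F E).comp O.subtype).toAlgebra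
  have hm0 : m ≠ 0 := by
    rintro rfl
    simp at hm
  have hpow1 : ∀ {z : F}, O.valuation z ^ m = 1 → O.valuation z = 1 := fun {z} hz => by
    rcases lt_trichotomy (O.valuation z) 1 with h | h | h
    · exact absurd hz (pow_lt_one' h hm0).ne
    · exact h
    · exact absurd hz (one_lt_pow' h hm0).ne'
  have hvζ : O.valuation ζ = 1 := hpow1 (by rw [← map_pow, hζ.pow_eq_one, map_one])
  have hvh : O.valuation h = 1 := by
    apply hpow1
    rw [← map_pow]
    have h1 : h ^ m = (h ^ m - U) + U := by ring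
    rw [h1, Valuation.map_add_eq_of_lt_right _ (by rw [hU]; exact hh), hU]
  have hζO : ζ ∈ O := (O.valuation_le_one_iff ζ).mp hvζ.le
  have hUO : U ∈ O := (O.valuation_le_one_iff U).mp hU.le
  have hhO : h ∈ O := (O.valuation_le_one_iff h).mp hvh.le
  have hmP : ((m : ℕ) : O) ∉ IsLocalRing.maximalIdeal O := by
    rw [O.valuation_lt_one_iff]
    push_cast
    rw [hm]
    exact lt_irrefl _
  have hζ' : IsPrimitiveRoot (⟨ζ, hζO⟩ : O) m :=
    IsPrimitiveRoot.of_map_of_injective (f := O.subtype) hζ Subtype.val_injective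
  have hUP : (⟨U, hUO⟩ : O) ∉ IsLocalRing.maximalIdeal O := by
    rw [O.valuation_lt_one_iff]
    show ¬ O.valuation U < 1
    rw [hU]
    exact lt_irrefl _
  have hhP : (⟨h, hhO⟩ : O) ^ m - ⟨U, hUO⟩ ∈ IsLocalRing.maximalIdeal O := by
    rw [O.valuation_lt_one_iff]
    exact hh
  -- the integral closure of `O` in `E`
  have hVint : IsIntegral O V := by
    refine ⟨X ^ m - C (⟨U, hUO⟩ : O), Polynomial.monic_X_pow_sub_C _ hm0, ?_⟩
    rw [Polynomial.eval₂_sub, Polynomial.eval₂_pow, Polynomial.eval₂_X, Polynomial.eval₂_C, hV]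
    exact sub_self _
  let x : integralClosure O E := ⟨V, hVint⟩
  have hinj : Function.Injective (algebraMap O (integralClosure O E)) := by
    intro a b hab
    apply Subtype.ext
    have h1 : algebraMap F E (a : F) = algebraMap F E (b : F) :=
      congrArg (fun s : integralClosure O E => (s : E)) hab
    exact (algebraMap F E).injective h1
  have hx : x ^ m = algebraMap O (integralClosure O E) ⟨U, hUO⟩ := Subtype.ext hV
  have hdeg : 2 ≤ (minpoly O x).natDegree := by
    rw [minpoly.two_le_natDegree_iff (Algebra.IsIntegral.isIntegral x)]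
    rintro ⟨b, hb⟩
    exact hVF ⟨(b : F), congrArg (fun s : integralClosure O E => (s : E)) hb⟩
  obtain ⟨i, hi, j, hj, hij, Q, Q', hQ, hQ', hQP, hQP', hQx, hQx'⟩ :=
    kummer_exists_two_primes_over' hinj (IsLocalRing.maximalIdeal O) hmP hζ' hUP hhP x hx hdeg
  -- valuation subrings centred at `Q` and `Q'`
  have hOA : ∀ a ∈ O, algebraMap F E a ∈ (integralClosure O E).toSubring := fun a ha =>
    (integralClosure O E).algebraMap_mem ⟨a, ha⟩
  have key : ∀ (Q₀ : Ideal (integralClosure O E)), Q₀.IsPrime →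
      Q₀.comap (algebraMap O (integralClosure O E)) = IsLocalRing.maximalIdeal O →
      ∃ W : ValuationSubring E, (∀ q ∈ Q₀, (q : E) ∈ W.nonunits) ∧
        W.comap (algebraMap F E) = O := by
    intro Q₀ hQ₀ hQ₀P
    obtain ⟨W, -, hW1, hW2⟩ := exists_valuationSubring_over O (integralClosure O E).toSubring hOA
      (Q₀ : Ideal (integralClosure O E).toSubring) hQ₀.ne_top (by
        intro a ha hva
        have hmem : (⟨a, ha⟩ : O) ∈ Q₀.comap (algebraMap O (integralClosure O E)) := by
          rw [hQ₀P, O.valuation_lt_one_iff]; exact hva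
        exact hmem)
    exact ⟨W, hW1, hW2⟩
  obtain ⟨W, hWQ, hWO⟩ := key Q hQ hQP
  obtain ⟨W', hWQ', hWO'⟩ := key Q' hQ' hQP'
  refine ⟨W, W', ?_, hWO, hWO'⟩
  rintro rfl
  -- the two elements `V - ζ^i h`, `V - ζ^j h` are non-units of `W`, but their difference is a unit
  have h1 := hWQ _ hQx
  have h2 := hWQ' _ hQx'
  rw [ValuationSubring.mem_nonunits_iff] at h1 h2
  set d : F := ζ ^ i * h - ζ ^ j * h with hd
  have hdO : d ∈ O :=
    sub_mem (mul_mem (pow_mem hζO i) hhO) (mul_mem (pow_mem hζO j) hhO)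
  have hdP : (⟨d, hdO⟩ : O) ∉ IsLocalRing.maximalIdeal O :=
    kummer_root_sub_not_mem (B := O) hmP hζ' hUP hhP hi hj hij
  have hvd : O.valuation d = 1 := by
    rw [O.valuation_lt_one_iff] at hdP
    exact le_antisymm ((O.valuation_le_one_iff d).mpr hdO) (not_lt.mp hdP)
  have hd0 : d ≠ 0 := by
    rintro h0
    rw [h0, map_zero] at hvd
    exact zero_ne_one hvd
  have hdinvO : d⁻¹ ∈ O := by
    rw [← O.valuation_le_one_iff, map_inv₀, hvd, inv_one]
  have hdW : algebraMap F E d ∈ W := by
    have : d ∈ W.comap (algebraMap F E) := hWO ▸ hdO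
    exact this
  have hdinvW : algebraMap F E d⁻¹ ∈ W := by
    have : d⁻¹ ∈ W.comap (algebraMap F E) := hWO ▸ hdinvO
    exact this
  have hvW : W.valuation (algebraMap F E d) = 1 := by
    have hle1 : W.valuation (algebraMap F E d) ≤ 1 := (W.valuation_le_one_iff _).mpr hdW
    have hle2 : W.valuation (algebraMap F E d⁻¹) ≤ 1 := (W.valuation_le_one_iff _).mpr hdinvW
    have hone : W.valuation (algebraMap F E d) * W.valuation (algebraMap F E d⁻¹) = 1 := by
      rw [← map_mul, ← map_mul, mul_inv_cancel₀ hd0, map_one, map_one]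
    refine le_antisymm hle1 ?_
    calc (1 : W.ValueGroup) = W.valuation (algebraMap F E d) * W.valuation (algebraMap F E d⁻¹) :=
          hone.symm
      _ ≤ W.valuation (algebraMap F E d) * 1 := mul_le_mul_right hle2 _
      _ = W.valuation (algebraMap F E d) := mul_one _
  have hdiff : algebraMap F E d
      = ((x - algebraMap O (integralClosure O E) (⟨ζ, hζO⟩ ^ j * ⟨h, hhO⟩) :
            integralClosure O E) : E)
        - ((x - algebraMap O (integralClosure O E) (⟨ζ, hζO⟩ ^ i * ⟨h, hhO⟩) :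
            integralClosure O E) : E) := by
    have e1 : ∀ k : ℕ, ((algebraMap O (integralClosure O E) (⟨ζ, hζO⟩ ^ k * ⟨h, hhO⟩) :
        integralClosure O E) : E) = algebraMap F E (ζ ^ k * h) := fun k => rfl
    rw [AddSubgroupClass.coe_sub, AddSubgroupClass.coe_sub, e1, e1, hd, map_sub]
    ring
  have hlt : W.valuation (algebraMap F E d) < 1 := by
    rw [hdiff]
    exact lt_of_le_of_lt (Valuation.map_sub _ _ _) (max_lt h2 h1)
  rw [hvW] at hlt
  exact lt_irrefl _ hlt

/-- **Dedekind–Kummer at a valuation subring (DK1, consumer form).** If at most one valuation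
subring of `E` lies over `O`, then every `m`-th root `V ∈ E` of the unit `U` (whose reduction is
an `m`-th power, `m` a unit of `O`, `μ_m ⊆ F`) already lies in `F`. -/
theorem kummer_mem_range_of_unique_valuationSubring (O : ValuationSubring F) {m : ℕ}
    (hm : O.valuation (m : F) = 1) {ζ : F} (hζ : IsPrimitiveRoot ζ m) {U h : F}
    (hU : O.valuation U = 1) (hh : O.valuation (h ^ m - U) < 1) (V : E)
    (hV : V ^ m = algebraMap F E U)
    (huniq : ∀ W W' : ValuationSubring E, W.comap (algebraMap F E) = O →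
      W'.comap (algebraMap F E) = O → W = W') :
    V ∈ (algebraMap F E).range := by
  by_contra hVF
  obtain ⟨W, W', hne, hW, hW'⟩ := kummer_exists_two_valuationSubrings O hm hζ hU hh V hV hVF
  exact hne (huniq W W' hW hW')

/-- Variant of `kummer_mem_range_of_unique_valuationSubring` producing the root in `F`. -/
theorem kummer_exists_root_of_unique_valuationSubring (O : ValuationSubring F) {m : ℕ}
    (hm : O.valuation (m : F) = 1) {ζ : F} (hζ : IsPrimitiveRoot ζ m) {U h : F}
    (hU : O.valuation U = 1) (hh : O.valuation (h ^ m - U) < 1) (V : E)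
    (hV : V ^ m = algebraMap F E U)
    (huniq : ∀ W W' : ValuationSubring E, W.comap (algebraMap F E) = O →
      W'.comap (algebraMap F E) = O → W = W') :
    ∃ b : F, b ^ m = U ∧ algebraMap F E b = V := by
  obtain ⟨b, hb⟩ := kummer_mem_range_of_unique_valuationSubring O hm hζ hU hh V hV huniq
  refine ⟨b, (algebraMap F E).injective ?_, hb⟩
  rw [map_pow, hb, hV]

end Valuation

end Fermat.Agent.S18.helper2720
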