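import Fermat.Agent.S18.helper3578_SpecB
import Fermat.Agent.S18.helper2128_TChart
import Fermat.Agent.S18.helper5377_CechIdempotent
import Fermat.Agent.S18.helper2720_DedekindKummer

/-!
# S18, track B: proof of `helper3578.Stmt_KummerGlobal`

The abstract half of track B.  In a good model `D : helper3578.KData` whose two charts have one
component through every closed point of the special fibre, the Gauss unit `U` is an `m`-th power
in `F0`.

* the finite chart has exactly one minimal prime over `ϖ`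
  (`helper2128.icl_unique_component_of_closed`);
* hence the integral closure of the Gauss valuation ring `O` in `L0` has at most one prime over
  the maximal ideal of `O` (`unique_prime_over`, using `GaussData.prim` and `GaussData.int`);
* Dedekind-Kummer (`helper2720.kummer_mem_range_of_unique_prime`) puts `θ` in `F0`.
-/

set_option autoImplicit false
set_option synthInstance.maxHeartbeats 400000
set_option linter.style.haveILetI false

noncomputable section

namespace Fermat.Agent.S18.helper2759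

open Polynomial Ideal
open Fermat.Agent.S18.helper3578
open Fermat.Agent.S18.helper5122

section Gauss

variable {A0 F0 L0 : Type*} [CommRing A0] [Field F0] [Algebra A0 F0] [Field L0] [Algebra F0 L0]
  [Algebra A0 L0] [IsScalarTower A0 F0 L0]
variable {ϖ : A0} {t : F0} {O : ValuationSubring F0}

/-- Polynomials in `t` lie in the Gauss valuation ring. -/
theorem aeval_mem (hG : GaussData ϖ t O) (f : A0[X]) : aeval t f ∈ O := by
  rw [Polynomial.aeval_eq_sum_range]
  refine sum_mem (fun i _ => ?_)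
  rw [Algebra.smul_def]
  exact mul_mem (hG.le _) (pow_mem hG.t_mem _)

/-- `f ↦ f(t)`, as a ring hom into the Gauss valuation ring. -/
def polyToO (hG : GaussData ϖ t O) : A0[X] →+* ↥O :=
  RingHom.codRestrict ((aeval t : A0[X] →ₐ[A0] F0) : A0[X] →+* F0) O (aeval_mem hG)

theorem coe_polyToO (hG : GaussData ϖ t O) (f : A0[X]) : (polyToO hG f : F0) = aeval t f := rfl

theorem algebraMap_polyToO (hG : GaussData ϖ t O) (f : A0[X]) :
    algebraMap ↥O L0 (polyToO hG f) = aeval (algebraMap F0 L0 t) f := by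
  rw [Polynomial.aeval_algebraMap_apply]
  rfl

/-- Integral over `A0[t]` implies integral over the Gauss valuation ring. -/
theorem isIntegral_O_of_adjoin (hG : GaussData ϖ t O) {y : L0}
    (h : IsIntegral (Algebra.adjoin A0 {algebraMap F0 L0 t}) y) : IsIntegral ↥O y := by
  obtain ⟨P, hP, hPy⟩ := exists_monic_of_isIntegral_adjoin (algebraMap F0 L0 t) y h
  refine ⟨P.map (polyToO hG), hP.map _, ?_⟩
  rw [Polynomial.eval₂_map]
  have h1 : (algebraMap ↥O L0).comp (polyToO hG)
      = (aeval (algebraMap F0 L0 t) : A0[X] →ₐ[A0] L0).toRingHom :=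
    RingHom.ext (fun f => algebraMap_polyToO hG f)
  rw [h1]
  exact hPy

/-- Integrality over `A0[t]` inside `F0` is transported to `L0`. -/
theorem isIntegral_adjoin_map {y : F0} (h : IsIntegral (Algebra.adjoin A0 {t}) y) :
    IsIntegral (Algebra.adjoin A0 {algebraMap F0 L0 t}) (algebraMap F0 L0 y) := by
  obtain ⟨P, hP, hPy⟩ := exists_monic_of_isIntegral_adjoin t y h
  refine ⟨P.map (aevalAdjoin (A := A0) (algebraMap F0 L0 t)).toRingHom, hP.map _, ?_⟩
  rw [Polynomial.eval₂_map]
  have h1 : (algebraMap (Algebra.adjoin A0 {algebraMap F0 L0 t}) L0).comp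
        (aevalAdjoin (A := A0) (algebraMap F0 L0 t)).toRingHom
      = (algebraMap F0 L0).comp (aeval t : A0[X] →ₐ[A0] F0).toRingHom :=
    RingHom.ext (fun f => Polynomial.aeval_algebraMap_apply L0 t f)
  rw [h1, ← Polynomial.hom_eval₂, hPy, map_zero]

/-- A polynomial in `t` with a coefficient prime to `ϖ` is a unit of the Gauss valuation ring. -/
theorem valuation_aeval_eq_one (hG : GaussData ϖ t O) {s : A0[X]} (hs : ∃ i, ¬ ϖ ∣ s.coeff i) :
    O.valuation (aeval t s) = 1 := by
  have h1 : O.valuation (aeval t s) ≤ 1 :=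
    (ValuationSubring.valuation_le_one_iff O _).mpr (aeval_mem hG s)
  have h2 : ¬ O.valuation (aeval t s) < 1 := fun h => by
    obtain ⟨i, hi⟩ := hs
    exact hi (hG.prim s (O.mem_nonunits_iff.mpr h) i)
  exact le_antisymm h1 (not_lt.mp h2)

/-- **Clearing denominators at the Gauss place.**  An element of `L0` integral over the Gauss
valuation ring `O` becomes integral over `A0[t]` after multiplication by a polynomial in `t`
which is a unit of `O`. -/
theorem exists_unit_mul_isIntegral (hG : GaussData ϖ t O) {x : L0} (hx : IsIntegral ↥O x) :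
    ∃ s : A0[X], O.valuation (aeval t s) = 1 ∧
      IsIntegral (Algebra.adjoin A0 {algebraMap F0 L0 t}) (aeval (algebraMap F0 L0 t) s * x) := by
  classical
  obtain ⟨p, hp, hpx⟩ := hx
  set d := p.natDegree with hd
  have hint : ∀ c : ↥O, ∃ s : A0[X], O.valuation (aeval t s) = 1 ∧
      IsIntegral (Algebra.adjoin A0 {t}) (aeval t s * (c : F0)) := by
    intro c
    obtain ⟨s, hs, hsi⟩ := hG.int c c.2
    exact ⟨s, valuation_aeval_eq_one hG hs, hsi⟩
  choose s hs1 hs2 using hint
  set σ : A0[X] := ∏ i ∈ Finset.range d, s (p.coeff i) with hσ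
  set τ : L0 := aeval (algebraMap F0 L0 t) σ with hτ
  have hτF : τ = algebraMap F0 L0 (aeval t σ) := Polynomial.aeval_algebraMap_apply L0 t σ
  have hτR : IsIntegral (Algebra.adjoin A0 {algebraMap F0 L0 t}) τ := by
    have h1 : τ ∈ Algebra.adjoin A0 {algebraMap F0 L0 t} := by
      rw [Algebra.adjoin_singleton_eq_range_aeval]
      exact ⟨σ, rfl⟩
    exact isIntegral_algebraMap (R := Algebra.adjoin A0 {algebraMap F0 L0 t}) (A := L0)
      (x := ⟨τ, h1⟩)
  -- `τ * c_i` is integral over `A0[t]`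
  have hτc : ∀ i ∈ Finset.range d,
      IsIntegral (Algebra.adjoin A0 {algebraMap F0 L0 t}) (τ * algebraMap ↥O L0 (p.coeff i)) := by
    intro i hi
    have h1 : aeval t σ * (p.coeff i : F0)
        = aeval t (∏ j ∈ (Finset.range d).erase i, s (p.coeff j))
          * (aeval t (s (p.coeff i)) * (p.coeff i : F0)) := by
      rw [hσ, ← Finset.mul_prod_erase _ _ hi, map_mul]
      ring
    have h2 : IsIntegral (Algebra.adjoin A0 {t}) (aeval t σ * (p.coeff i : F0)) := by
      rw [h1]
      refine IsIntegral.mul ?_ (hs2 _)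
      have h3 : aeval t (∏ j ∈ (Finset.range d).erase i, s (p.coeff j)) ∈ Algebra.adjoin A0 {t} := by
        rw [Algebra.adjoin_singleton_eq_range_aeval]
        exact ⟨_, rfl⟩
      exact isIntegral_algebraMap (R := Algebra.adjoin A0 {t}) (A := F0) (x := ⟨_, h3⟩)
    have h4 := isIntegral_adjoin_map (L0 := L0) h2
    rw [map_mul, ← hτF] at h4
    exact h4
  -- the unit `aeval t σ`
  have hσ1 : O.valuation (aeval t σ) = 1 := by
    rw [hσ, map_prod, map_prod]
    exact Finset.prod_eq_one (fun i _ => hs1 _)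
  refine ⟨σ, hσ1, ?_⟩
  -- the scaled monic equation, with coefficients in the integral closure of `A0[t]`
  have hpx' : x ^ d + ∑ i : Fin d, algebraMap ↥O L0 (p.coeff i) * x ^ (i : ℕ) = 0 := by
    rw [Polynomial.eval₂_eq_sum_range, Finset.sum_range_succ, ← hd] at hpx
    rw [Fin.sum_univ_eq_sum_range (fun i => algebraMap ↥O L0 (p.coeff i) * x ^ i) d, add_comm]
    have h1 : p.coeff d = 1 := hp.coeff_natDegree
    rw [h1] at hpx
    simpa using hpx
  have hb : ∀ i : Fin d, τ ^ (d - 1 - i) * (τ * algebraMap ↥O L0 (p.coeff i))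
      ∈ integralClosure (Algebra.adjoin A0 {algebraMap F0 L0 t}) L0 := fun i =>
    IsIntegral.mul (IsIntegral.pow hτR _) (hτc i (Finset.mem_range.mpr i.2))
  have hy : IsIntegral ↥(integralClosure (Algebra.adjoin A0 {algebraMap F0 L0 t}) L0) (τ * x) := by
    refine ⟨X ^ d + ∑ i : Fin d, C (⟨_, hb i⟩ :
        ↥(integralClosure (Algebra.adjoin A0 {algebraMap F0 L0 t}) L0)) * X ^ (i : ℕ),
      Polynomial.monic_X_pow_add (Polynomial.degree_sum_fin_lt _), ?_⟩
    have hterm : ∀ i : Fin d,
        (τ ^ (d - 1 - i) * (τ * algebraMap ↥O L0 (p.coeff i))) * (τ * x) ^ (i : ℕ)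
          = τ ^ d * (algebraMap ↥O L0 (p.coeff i) * x ^ (i : ℕ)) := by
      intro i
      have h3 : τ ^ d = τ ^ (d - 1 - i) * τ * τ ^ (i : ℕ) := by
        rw [← pow_succ, ← pow_add]
        congr 1
        omega
      rw [h3, mul_pow]
      ring
    simp only [eval₂_add, eval₂_pow, eval₂_X, eval₂_finsetSum, eval₂_mul, eval₂_C]
    have hmap : ∀ i : Fin d,
        algebraMap ↥(integralClosure (Algebra.adjoin A0 {algebraMap F0 L0 t}) L0) L0 ⟨_, hb i⟩
          = τ ^ (d - 1 - i) * (τ * algebraMap ↥O L0 (p.coeff i)) := fun i => rfl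
    simp only [hmap]
    rw [Finset.sum_congr rfl (fun i _ => hterm i), ← Finset.mul_sum, mul_pow, ← mul_add, hpx',
      mul_zero]
  exact isIntegral_trans (R := Algebra.adjoin A0 {algebraMap F0 L0 t})
    (A := ↥(integralClosure (Algebra.adjoin A0 {algebraMap F0 L0 t}) L0)) (τ * x) hy

/-- `f ↦ f(s)`, as a ring hom into the chart (integral closure of `A0[s]`). -/
def polyToChart (s : L0) : A0[X] →+* ↥(icl (Algebra.adjoin A0 {s})) :=
  RingHom.codRestrict ((aeval s : A0[X] →ₐ[A0] L0) : A0[X] →+* L0) (icl (Algebra.adjoin A0 {s}))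
    (fun f => le_icl _ (by
      rw [Algebra.adjoin_singleton_eq_range_aeval]
      exact ⟨f, rfl⟩))

/-- The inclusion of the finite chart in the integral closure of the Gauss valuation ring. -/
def chartToS (hG : GaussData ϖ t O) :
    ↥(icl (Algebra.adjoin A0 {algebraMap F0 L0 t})) →+* ↥(integralClosure ↥O L0) :=
  RingHom.codRestrict
    ((icl (Algebra.adjoin A0 {algebraMap F0 L0 t})).val :
      ↥(icl (Algebra.adjoin A0 {algebraMap F0 L0 t})) →+* L0)
    (integralClosure ↥O L0) (fun x => isIntegral_O_of_adjoin hG (mem_icl.mp x.2))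

/-- **Claim A.**  A prime of the integral closure of `O` over the maximal ideal of `O` restricts
to a minimal prime over `ϖ` of the finite chart. -/
theorem comap_mem_minimalPrimes (hG : GaussData ϖ t O) (Q : Ideal ↥(integralClosure ↥O L0))
    [hQ : Q.IsPrime]
    (hQP : Q.comap (algebraMap ↥O ↥(integralClosure ↥O L0)) = IsLocalRing.maximalIdeal ↥O) :
    Q.comap (chartToS hG) ∈ (Ideal.span
      {algebraMap A0 ↥(icl (Algebra.adjoin A0 {algebraMap F0 L0 t})) ϖ}).minimalPrimes := by
  have key : ∀ f : A0[X], polyToChart (algebraMap F0 L0 t) f ∈ Q.comap (chartToS hG) →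
      C ϖ ∣ f := by
    intro f hf
    rw [Polynomial.C_dvd_iff_dvd_coeff]
    apply hG.prim
    have h1 : polyToO hG f ∈ IsLocalRing.maximalIdeal ↥O := by
      rw [← hQP, Ideal.mem_comap]
      have h2 : algebraMap ↥O ↥(integralClosure ↥O L0) (polyToO hG f)
          = chartToS hG (polyToChart (algebraMap F0 L0 t) f) :=
        Subtype.ext (algebraMap_polyToO hG f)
      rw [h2]
      exact hf
    exact ValuationSubring.coe_mem_nonunits_iff.mpr h1
  have hϖmem : algebraMap A0 ↥(icl (Algebra.adjoin A0 {algebraMap F0 L0 t})) ϖ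
      ∈ Q.comap (chartToS hG) := by
    rw [Ideal.mem_comap]
    have h1 : (⟨algebraMap A0 F0 ϖ, hG.le ϖ⟩ : ↥O) ∈ IsLocalRing.maximalIdeal ↥O :=
      ValuationSubring.coe_mem_nonunits_iff.mp hG.unif
    rw [← hQP, Ideal.mem_comap] at h1
    have h2 : algebraMap ↥O ↥(integralClosure ↥O L0) ⟨algebraMap A0 F0 ϖ, hG.le ϖ⟩
        = chartToS hG (algebraMap A0 ↥(icl (Algebra.adjoin A0 {algebraMap F0 L0 t})) ϖ) :=
      Subtype.ext (IsScalarTower.algebraMap_apply A0 F0 L0 ϖ).symm
    rw [← h2]
    exact h1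
  refine ⟨⟨inferInstance, ?_⟩, ?_⟩
  · rw [Ideal.span_le, Set.singleton_subset_iff]
    exact hϖmem
  · rintro q' ⟨hq'prime, hq'le⟩ hq'q
    by_contra hnot
    obtain ⟨x, hxq, hxq'⟩ := Set.not_subset.mp hnot
    letI : Algebra A0[X] ↥(icl (Algebra.adjoin A0 {algebraMap F0 L0 t})) :=
      (polyToChart (algebraMap F0 L0 t)).toAlgebra
    have hxint : IsIntegral A0[X] x := by
      obtain ⟨P, hP, hPx⟩ := exists_monic_of_isIntegral_adjoin (algebraMap F0 L0 t) (x : L0)
        (mem_icl.mp x.2)
      refine ⟨P, hP, ?_⟩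
      apply Subtype.ext
      have h1 := Polynomial.hom_eval₂ P (polyToChart (algebraMap F0 L0 t))
        ((icl (Algebra.adjoin A0 {algebraMap F0 L0 t})).val :
          ↥(icl (Algebra.adjoin A0 {algebraMap F0 L0 t})) →+* L0) x
      exact h1.trans hPx
    haveI := hq'prime
    have hlt := Ideal.comap_lt_comap_of_integral_mem_sdiff (R := A0[X]) hq'q ⟨hxq, hxq'⟩ hxint
    obtain ⟨f, hfq, hfq'⟩ := Set.exists_of_ssubset hlt
    obtain ⟨g, rfl⟩ := key f hfq
    apply hfq'
    rw [SetLike.mem_coe, Ideal.mem_comap, map_mul]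
    refine Ideal.mul_mem_right _ _ ?_
    have h3 : algebraMap A0[X] ↥(icl (Algebra.adjoin A0 {algebraMap F0 L0 t})) (C ϖ)
        = algebraMap A0 ↥(icl (Algebra.adjoin A0 {algebraMap F0 L0 t})) ϖ :=
      Subtype.ext (Polynomial.aeval_C (algebraMap F0 L0 t) ϖ)
    rw [h3]
    exact hq'le (Ideal.subset_span rfl)

/-- **Claim C.**  Two primes of the integral closure of `O` with the same restriction to the
finite chart, the second one lying over the maximal ideal of `O`, are comparable. -/
theorem le_of_comap_eq (hG : GaussData ϖ t O) (Q Q' : Ideal ↥(integralClosure ↥O L0))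
    (hQ' : Q'.IsPrime)
    (hQ'P : Q'.comap (algebraMap ↥O ↥(integralClosure ↥O L0)) = IsLocalRing.maximalIdeal ↥O)
    (hq : Q.comap (chartToS hG) = Q'.comap (chartToS hG)) : Q ≤ Q' := by
  intro x hx
  obtain ⟨s, hs1, hs2⟩ := exists_unit_mul_isIntegral hG (x := (x : L0)) x.2
  have h1 : chartToS hG ⟨aeval (algebraMap F0 L0 t) s * (x : L0), hs2⟩
      = algebraMap ↥O ↥(integralClosure ↥O L0) (polyToO hG s) * x :=
    Subtype.ext (by
      show aeval (algebraMap F0 L0 t) s * (x : L0) = algebraMap ↥O L0 (polyToO hG s) * (x : L0)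
      rw [algebraMap_polyToO])
  have h2 : (⟨aeval (algebraMap F0 L0 t) s * (x : L0), hs2⟩ :
      ↥(icl (Algebra.adjoin A0 {algebraMap F0 L0 t}))) ∈ Q.comap (chartToS hG) := by
    rw [Ideal.mem_comap, h1]
    exact Ideal.mul_mem_left _ _ hx
  rw [hq, Ideal.mem_comap, h1] at h2
  rcases hQ'.mem_or_mem h2 with h3 | h3
  · exfalso
    have h4 : polyToO hG s ∈ IsLocalRing.maximalIdeal ↥O := by
      rw [← hQ'P]
      exact h3
    have h5 : O.valuation (aeval t s) < 1 := (O.valuation_lt_one_iff _).mp h4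
    rw [hs1] at h5
    exact lt_irrefl _ h5
  · exact h3

/-- **Uniqueness of the prime over the Gauss place.**  If the finite chart has at most one
minimal prime over `ϖ`, then the integral closure of the Gauss valuation ring `O` in `L0` has at
most one prime over the maximal ideal of `O`. -/
theorem unique_prime_over (hG : GaussData ϖ t O)
    (huniq : ∀ Q1 Q2 : Ideal ↥(icl (Algebra.adjoin A0 {algebraMap F0 L0 t})),
      Q1 ∈ (Ideal.span
        {algebraMap A0 ↥(icl (Algebra.adjoin A0 {algebraMap F0 L0 t})) ϖ}).minimalPrimes →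
      Q2 ∈ (Ideal.span
        {algebraMap A0 ↥(icl (Algebra.adjoin A0 {algebraMap F0 L0 t})) ϖ}).minimalPrimes →
      Q1 = Q2)
    (Q Q' : Ideal ↥(integralClosure ↥O L0)) (hQ : Q.IsPrime) (hQ' : Q'.IsPrime)
    (hQP : Q.comap (algebraMap ↥O ↥(integralClosure ↥O L0)) = IsLocalRing.maximalIdeal ↥O)
    (hQ'P : Q'.comap (algebraMap ↥O ↥(integralClosure ↥O L0)) = IsLocalRing.maximalIdeal ↥O) :
    Q = Q' := by
  have hq : Q.comap (chartToS hG) = Q'.comap (chartToS hG) :=
    huniq _ _ (comap_mem_minimalPrimes hG Q hQP) (comap_mem_minimalPrimes hG Q' hQ'P)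
  exact le_antisymm (le_of_comap_eq hG Q Q' hQ' hQ'P hq) (le_of_comap_eq hG Q' Q hQ hQP hq.symm)

end Gauss

section Main

/-- **Abstract half of track B**: `helper3578.Stmt_KummerGlobal`, with no hypotheses. -/
theorem stmt_KummerGlobal : Stmt_KummerGlobal := by
  intro D m hG hOne
  have hgauss := hG.gauss
  have hm0 : m ≠ 0 := by
    rintro rfl
    have h1 := hG.unit_m
    rw [Nat.cast_zero] at h1
    exact not_isUnit_zero h1
  by_cases hU0 : D.U = 0
  · exact ⟨0, by rw [hU0, zero_pow hm0]⟩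
  -- transcendence of `t` and `1/t`
  have htK : Transcendental D.K0 D.tL :=
    (transcendental_algebraMap_iff (algebraMap D.F0 D.L0).injective).mpr hG.transc
  have htA : Transcendental D.A0 D.tL :=
    htK.restrictScalars (IsFractionRing.injective D.A0 D.K0)
  have htK' : Transcendental D.K0 D.tL⁻¹ := fun h => htK (by simpa using h.inv)
  have htA' : Transcendental D.A0 D.tL⁻¹ :=
    htK'.restrictScalars (IsFractionRing.injective D.A0 D.K0)
  -- finiteness of the two charts
  haveI := hG.finite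
  have hfin0 := helper5377.finite_integralClosure_adjoin (A0 := D.A0) (K0 := D.K0) D.tL htA
  have hadj : IntermediateField.adjoin D.K0 ({D.tL⁻¹} : Set D.L0)
      = IntermediateField.adjoin D.K0 ({D.tL} : Set D.L0) := by
    apply le_antisymm
    · rw [IntermediateField.adjoin_simple_le_iff]
      exact inv_mem (IntermediateField.mem_adjoin_simple_self _ _)
    · rw [IntermediateField.adjoin_simple_le_iff]
      have h1 := inv_mem (IntermediateField.mem_adjoin_simple_self D.K0 D.tL⁻¹)
      rwa [inv_inv] at h1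
  haveI : FiniteDimensional ↥(IntermediateField.adjoin D.K0 ({D.tL⁻¹} : Set D.L0)) D.L0 := by
    rw [hadj]
    exact hG.finite
  have hfin1 := helper5377.finite_integralClosure_adjoin (A0 := D.A0) (K0 := D.K0) D.tL⁻¹ htA'
  -- `A0` is integrally closed in `L0`
  have hcl : ∀ x : D.L0, IsIntegral D.A0 x → ∃ α : D.A0, algebraMap D.A0 D.L0 α = x :=
    fun x hx => helper5377.range_of_isIntegral_of_algClosed (K0 := D.K0)
      (fun z hz => hG.const z hz) x hx
  -- the finite chart has a unique minimal prime over `ϖ`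
  have huniq : ∀ Q1 Q2 : Ideal ↥(icl (Algebra.adjoin D.A0 {algebraMap D.F0 D.L0 D.t})),
      Q1 ∈ (Ideal.span
        {algebraMap D.A0 ↥(icl (Algebra.adjoin D.A0 {algebraMap D.F0 D.L0 D.t})) D.ϖ}).minimalPrimes →
      Q2 ∈ (Ideal.span
        {algebraMap D.A0 ↥(icl (Algebra.adjoin D.A0 {algebraMap D.F0 D.L0 D.t})) D.ϖ}).minimalPrimes →
      Q1 = Q2 := fun Q1 Q2 h1 h2 =>
    helper2128.icl_unique_component_of_closed hcl hG.irr.prime D.tL htA hfin0 hfin1
      hOne.1 hOne.2 h1 h2
  -- Dedekind-Kummer over the Gauss valuation ring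
  have hinjBS : Function.Injective (algebraMap ↥D.O ↥(integralClosure ↥D.O D.L0)) := by
    intro a b hab
    have h1 : algebraMap D.F0 D.L0 (a : D.F0) = algebraMap D.F0 D.L0 (b : D.F0) :=
      congrArg Subtype.val hab
    exact Subtype.ext ((algebraMap D.F0 D.L0).injective h1)
  let j : D.A0 →+* ↥D.O := RingHom.codRestrict (algebraMap D.A0 D.F0) D.O hgauss.le
  have hj : Function.Injective j := by
    intro a b hab
    have h1 : algebraMap D.A0 D.F0 a = algebraMap D.A0 D.F0 b := congrArg Subtype.val hab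
    rw [IsScalarTower.algebraMap_apply D.A0 D.K0 D.F0,
      IsScalarTower.algebraMap_apply D.A0 D.K0 D.F0 b] at h1
    exact IsFractionRing.injective D.A0 D.K0 ((algebraMap D.K0 D.F0).injective h1)
  have hζ : IsPrimitiveRoot (j D.ζ) m := hG.prim_root.map_of_injective hj
  have hm : ((m : ℕ) : ↥D.O) ∉ IsLocalRing.maximalIdeal ↥D.O := by
    have h1 : IsUnit ((m : ℕ) : ↥D.O) := by
      have h2 := hG.unit_m.map j
      rwa [map_natCast] at h2
    exact fun h => (IsLocalRing.mem_maximalIdeal _).mp h h1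
  have hU : (⟨D.U, hG.U_mem⟩ : ↥D.O) ∉ IsLocalRing.maximalIdeal ↥D.O := by
    intro h
    refine (IsLocalRing.mem_maximalIdeal _).mp h ?_
    exact isUnit_iff_exists_inv.mpr ⟨⟨D.U⁻¹, hG.U_inv_mem⟩, Subtype.ext (mul_inv_cancel₀ hU0)⟩
  have hh : (⟨D.h, hG.h_mem⟩ : ↥D.O) ^ m - ⟨D.U, hG.U_mem⟩ ∈ IsLocalRing.maximalIdeal ↥D.O :=
    (ValuationSubring.coe_mem_nonunits_iff
      (a := (⟨D.h, hG.h_mem⟩ : ↥D.O) ^ m - ⟨D.U, hG.U_mem⟩)).mp hG.h_pow
  have hθint : IsIntegral ↥D.O D.θ := by
    refine ⟨X ^ m - C (⟨D.U, hG.U_mem⟩ : ↥D.O), monic_X_pow_sub_C _ hm0, ?_⟩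
    rw [eval₂_sub, eval₂_pow, eval₂_X, eval₂_C, hG.θ_pow]
    exact sub_self _
  have hx : (⟨D.θ, hθint⟩ : ↥(integralClosure ↥D.O D.L0)) ^ m
      = algebraMap ↥D.O ↥(integralClosure ↥D.O D.L0) ⟨D.U, hG.U_mem⟩ := Subtype.ext hG.θ_pow
  obtain ⟨v, hv⟩ := helper2720.kummer_mem_range_of_unique_prime hinjBS
    (IsLocalRing.maximalIdeal ↥D.O) hm hζ hU hh ⟨D.θ, hθint⟩ hx
    (fun Q Q' hQ hQ' hQP hQ'P => unique_prime_over hgauss huniq Q Q' hQ hQ' hQP hQ'P)
  refine ⟨(v : D.F0), ?_⟩
  apply (algebraMap D.F0 D.L0).injective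
  have h1 : algebraMap D.F0 D.L0 (v : D.F0) = D.θ := congrArg Subtype.val hv
  rw [map_pow, h1, hG.θ_pow]

end Main

end Fermat.Agent.S18.helper2759
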