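import Fermat.Agent.S18.helper3578_SpecB
import Fermat.Agent.S18.helper2118_Spec

/-!
# S18, track B: wiring of SpecB into the captain's top-level Props

`helper2118.Stmt_KFj`, `helper2118.Stmt_KFr r` and the two weak forms at `ℓ = 3`, `ℓ = 2`
from `helper3578.Stmt_KummerGlobal` (abstract half) and `helper3578.Stmt_Model0` on the
corresponding family of levels and primes (concrete half); then the frozen statement.
-/

set_option autoImplicit false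

namespace Fermat.Agent.S18.helper3578

open ModularCurve

/-- `j`-line family (`ℓ ≥ 5`, level `N` itself). -/
theorem kfj_of_specB (hG : Stmt_KummerGlobal)
    (hM : ∀ (N : ℕ) [NeZero N] (ℓ : ℕ), ℓ.Prime → 5 ≤ ℓ → ¬ ℓ ∣ N → Stmt_Model0 N ℓ) :
    helper2118.Stmt_KFj :=
  fun N _ ℓ hℓ h5 hℓN => kf0_of_specB N ℓ hG (hM N ℓ hℓ h5 hℓN)

/-- Hauptmodul line `t_r` family (`r ∣ N'`, `ℓ ∤ N'`, `ℓ ≠ r`). -/
theorem kfr_of_specB (r : ℕ) (hG : Stmt_KummerGlobal)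
    (hM : ∀ (N' : ℕ) [NeZero N'] (ℓ : ℕ), ℓ.Prime → r ∣ N' → ¬ ℓ ∣ N' → ℓ ≠ r →
      Stmt_Model0 N' ℓ) :
    helper2118.Stmt_KFr r :=
  fun N' _ ℓ hℓ hr hℓN hne => kf0_of_specB N' ℓ hG (hM N' ℓ hℓ hr hℓN hne)

/-- The frozen statement S18 from the weakest set of track-B obligations: the `j`-line model
for `ℓ ≥ 5`, the `t_2`-line model at `ℓ = 3` and the `t_3`-line model at `ℓ = 2`. -/
theorem result_of_specB (hG : Stmt_KummerGlobal)
    (hj : ∀ (N : ℕ) [NeZero N] (ℓ : ℕ), ℓ.Prime → 5 ≤ ℓ → ¬ ℓ ∣ N → Stmt_Model0 N ℓ)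
    (h23 : ∀ (N' : ℕ) [NeZero N'], 2 ∣ N' → ¬ 3 ∣ N' → Stmt_Model0 N' 3)
    (h32 : ∀ (N' : ℕ) [NeZero N'], 3 ∣ N' → ¬ 2 ∣ N' → Stmt_Model0 N' 2)
    (N : ℕ) [NeZero N] {ℓ : ℕ} [Fact ℓ.Prime] (hℓN : ¬ ℓ ∣ N)
    (A : ValuationSubring (AlgebraicClosure ℚ)) (hA : A.LiesOverPrime ℓ)
    (h : ModularCurve.ReductionInputsModL A N) (m : ℕ) (hm : ¬ ℓ ∣ m)
    (z : ModularCurve.JZero N) (hmz : m • z = 0)
    (hz : ModularCurve.reductionModL A N z = 0) : z = 0 :=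
  helper2118.result_of_small (kfj_of_specB hG hj)
    (fun N' _ h2 h3 => kf0_of_specB N' 3 hG (h23 N' h2 h3))
    (fun N' _ h3 h2 => kf0_of_specB N' 2 hG (h32 N' h3 h2))
    N hℓN A hA h m hm z hmz hz

end Fermat.Agent.S18.helper3578
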