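/-
S18-B-TLINE (board #1508), helper648: change of the base line of a track-B model.

`helper3578.GaussData ϖ t O` (the Gauss place of the `t`-line) is transported to the
`τ`-line whenever `t * τ ^ r = P(τ)` with `P ∈ A0[X]` monic of degree `> r` and
`P(0)` prime to `ϖ` (or `r = 0`).  Instances: the Hauptmodul lines
`j * τ ^ 2 = (τ + 256) ^ 3` and `j * τ ^ 3 = (τ + 27) * (τ + 243) ^ 3`.
Then `KData.withLine` replaces the coordinate of a `KData`, and `Good` is preserved.
-/
import Mathlib
import Fermat.Agent.S18.helper3578_SpecB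
import Fermat.Agent.S18.helper5122_CechInst

set_option autoImplicit false
set_option synthInstance.maxHeartbeats 400000

noncomputable section

namespace Fermat.Agent.S18.helper648

open Polynomial

section Gauss

variable {A0 F0 : Type*} [CommRing A0] [Field F0] [Algebra A0 F0]
  {ϖ : A0} {O : ValuationSubring F0}

/-- The structure map `A0 → O`. -/
def toO (hle : ∀ x : A0, algebraMap A0 F0 x ∈ O) : A0 →+* O :=
  (algebraMap A0 F0).codRestrict O hle

/-- The residue map `A0 → κ(O)`. -/
def resA (hle : ∀ x : A0, algebraMap A0 F0 x ∈ O) : A0 →+* IsLocalRing.ResidueField O :=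
  (IsLocalRing.residue O).comp (toO hle)

lemma coe_eval₂_toO (hle : ∀ x : A0, algebraMap A0 F0 x ∈ O) (x : O) (q : A0[X]) :
    ((q.eval₂ (toO hle) x : O) : F0) = aeval (x : F0) q := by
  have h := Polynomial.hom_eval₂ q (toO hle) O.subtype x
  have hc : O.subtype.comp (toO hle) = algebraMap A0 F0 := RingHom.ext fun _ => rfl
  rw [hc] at h
  rw [aeval_def]
  exact h

lemma residue_eval₂_toO (hle : ∀ x : A0, algebraMap A0 F0 x ∈ O) (x : O) (q : A0[X]) :
    IsLocalRing.residue O (q.eval₂ (toO hle) x) = q.eval₂ (resA hle) (IsLocalRing.residue O x) :=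
  Polynomial.hom_eval₂ q (toO hle) (IsLocalRing.residue O) x

/-- A polynomial value at a point of `O` is a non-unit iff its residue vanishes. -/
lemma aeval_mem_nonunits_iff (hle : ∀ x : A0, algebraMap A0 F0 x ∈ O) (x : O) (q : A0[X]) :
    aeval (x : F0) q ∈ O.nonunits ↔ q.eval₂ (resA hle) (IsLocalRing.residue O x) = 0 := by
  rw [← coe_eval₂_toO hle, ValuationSubring.coe_mem_nonunits_iff, ← residue_eval₂_toO,
    IsLocalRing.residue_eq_zero_iff]

lemma aeval_mem (hle : ∀ x : A0, algebraMap A0 F0 x ∈ O) {x : F0} (hx : x ∈ O) (q : A0[X]) :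
    aeval x q ∈ O := by
  have h := coe_eval₂_toO hle ⟨x, hx⟩ q
  rw [← h]
  exact Subtype.mem _

lemma resA_unif (hle : ∀ x : A0, algebraMap A0 F0 x ∈ O)
    (hunif : algebraMap A0 F0 ϖ ∈ O.nonunits) : resA hle ϖ = 0 := by
  have h := (aeval_mem_nonunits_iff hle (0 : O) (C ϖ)).mp (by simpa using hunif)
  simpa using h

/-- The residue map `A0 / ϖ → κ(O)`. -/
def resK (hle : ∀ x : A0, algebraMap A0 F0 x ∈ O) (hunif : algebraMap A0 F0 ϖ ∈ O.nonunits) :
    A0 ⧸ Ideal.span {ϖ} →+* IsLocalRing.ResidueField O :=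
  Ideal.Quotient.lift _ (resA hle) (by
    intro a ha
    obtain ⟨c, rfl⟩ := Ideal.mem_span_singleton.mp ha
    rw [map_mul, resA_unif hle hunif, zero_mul])

lemma eval₂_resK_map (hle : ∀ x : A0, algebraMap A0 F0 x ∈ O)
    (hunif : algebraMap A0 F0 ϖ ∈ O.nonunits) (y : IsLocalRing.ResidueField O) (q : A0[X]) :
    (q.map (Ideal.Quotient.mk (Ideal.span {ϖ}))).eval₂ (resK hle hunif) y
      = q.eval₂ (resA hle) y := by
  rw [Polynomial.eval₂_map]
  congr 1

lemma map_mk_eq_zero_iff (q : A0[X]) :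
    q.map (Ideal.Quotient.mk (Ideal.span {ϖ})) = 0 ↔ ∀ i, ϖ ∣ q.coeff i := by
  constructor
  · intro h i
    have hi := congrArg (fun p => p.coeff i) h
    simp only [coeff_map, coeff_zero] at hi
    exact Ideal.mem_span_singleton.mp (Ideal.Quotient.eq_zero_iff_mem.mp hi)
  · intro h
    ext i
    rw [coeff_map, coeff_zero]
    exact Ideal.Quotient.eq_zero_iff_mem.mpr (Ideal.mem_span_singleton.mpr (h i))

/-- The primitivity clause of `GaussData` for a point `x` of `O` says that the residue of `x`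
satisfies no nonzero polynomial over `A0 / ϖ`. -/
lemma prim_iff (hle : ∀ x : A0, algebraMap A0 F0 x ∈ O)
    (hunif : algebraMap A0 F0 ϖ ∈ O.nonunits) (x : O) :
    (∀ p : A0[X], aeval (x : F0) p ∈ O.nonunits → ∀ i, ϖ ∣ p.coeff i) ↔
      ∀ q : (A0 ⧸ Ideal.span {ϖ})[X],
        q.eval₂ (resK hle hunif) (IsLocalRing.residue O x) = 0 → q = 0 := by
  constructor
  · intro h q hq
    obtain ⟨p, rfl⟩ := Polynomial.map_surjective _ Ideal.Quotient.mk_surjective q
    rw [eval₂_resK_map, ← aeval_mem_nonunits_iff] at hq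
    exact (map_mk_eq_zero_iff p).mpr (h p hq)
  · intro h p hp
    rw [aeval_mem_nonunits_iff hle, ← eval₂_resK_map hle hunif] at hp
    exact (map_mk_eq_zero_iff p).mp (h _ hp)

/-- The new coordinate is integral over `O`, hence lies in `O`. -/
lemma mem_of_rel {t τ : F0} (hle : ∀ x : A0, algebraMap A0 F0 x ∈ O) (ht : t ∈ O)
    (P : A0[X]) (hP : P.Monic) (r : ℕ) (hr : r < P.natDegree)
    (hrel : t * τ ^ r = aeval τ P) : τ ∈ O := by
  have hint : IsIntegral O τ := by
    refine ⟨P.map (toO hle) - C (⟨t, ht⟩ : O) * X ^ r, ?_, ?_⟩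
    · apply (hP.map _).sub_of_left
      rw [degree_eq_natDegree (hP.map (toO hle)).ne_zero, hP.natDegree_map]
      refine lt_of_le_of_lt (degree_C_mul_X_pow_le r _) ?_
      exact_mod_cast hr
    · rw [eval₂_sub, eval₂_map, eval₂_mul, eval₂_C, eval₂_pow, eval₂_X]
      have hc : (algebraMap (↥O) F0).comp (toO hle) = algebraMap A0 F0 := RingHom.ext fun _ => rfl
      rw [hc, ← aeval_def, ← hrel]
      exact sub_self _
  obtain ⟨y, hy⟩ := IsIntegrallyClosed.isIntegral_iff.mp hint
  rw [← hy]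
  exact y.2

/-- Clearing the denominators of a polynomial in `t` with powers of `τ ^ r`. -/
lemma scale_mem_adjoin {t τ : F0} (P : A0[X]) (r : ℕ) (hrel : t * τ ^ r = aeval τ P)
    (a : A0[X]) (d : ℕ) (hd : a.natDegree ≤ d) :
    (τ ^ r) ^ d * aeval t a ∈ Algebra.adjoin A0 {τ} := by
  rw [aeval_eq_sum_range' (Nat.lt_succ_of_le hd), Finset.mul_sum]
  refine Subalgebra.sum_mem _ (fun i hi => ?_)
  have hi' : i ≤ d := Nat.lt_succ_iff.mp (Finset.mem_range.mp hi)
  obtain ⟨e, rfl⟩ := Nat.exists_eq_add_of_le hi'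
  have e1 : (τ ^ r) ^ (i + e) * (a.coeff i • t ^ i)
      = a.coeff i • ((aeval τ P) ^ i * (τ ^ r) ^ e) := by
    rw [← hrel, Algebra.smul_def, Algebra.smul_def]
    ring
  rw [e1]
  have hτ : τ ∈ Algebra.adjoin A0 {τ} := Algebra.self_mem_adjoin_singleton A0 τ
  exact Subalgebra.smul_mem _ (Subalgebra.mul_mem _
    (Subalgebra.pow_mem _ (aeval_mem_adjoin_singleton A0 τ) i)
    (Subalgebra.pow_mem _ (Subalgebra.pow_mem _ hτ r) e)) _

/-- **Line change for the Gauss place.**  If `t * τ ^ r = P(τ)` with `P` monic of degree `> r`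
and `P(0)` prime to `ϖ` (or `r = 0`), the Gauss data of the `t`-line are Gauss data of the
`τ`-line. -/
theorem gaussData_lineChange {t τ : F0} (hG : helper3578.GaussData ϖ t O)
    (hmax : (Ideal.span {ϖ}).IsMaximal) (P : A0[X]) (hP : P.Monic) (r : ℕ)
    (hr : r < P.natDegree) (hP0 : r = 0 ∨ ¬ ϖ ∣ P.coeff 0)
    (hrel : t * τ ^ r = aeval τ P) : helper3578.GaussData ϖ τ O := by
  classical
  have hle := hG.le
  have hunif := hG.unif
  have hτ : τ ∈ O := mem_of_rel hle hG.t_mem P hP r hr hrel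
  set tO : O := ⟨t, hG.t_mem⟩ with htO
  set τO : O := ⟨τ, hτ⟩ with hτO
  set κ := IsLocalRing.ResidueField O with hκ
  set tb : κ := IsLocalRing.residue O tO with htb
  set τb : κ := IsLocalRing.residue O τO with hτb
  -- the relation in the residue field
  have hrelO : tO * τO ^ r = P.eval₂ (toO hle) τO := by
    apply Subtype.ext
    rw [coe_eval₂_toO]
    exact hrel
  have hrelb : tb * τb ^ r = P.eval₂ (resA hle) τb := by
    rw [← residue_eval₂_toO, ← hrelO, map_mul, map_pow]
  -- `τ ^ r` is a unit of `O`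
  have hunit : τb ^ r ≠ 0 := by
    rcases hP0 with h0 | h0
    · rw [h0, pow_zero]; exact one_ne_zero
    · intro hz
      have hr0 : r ≠ 0 := by
        rintro rfl
        rw [pow_zero] at hz
        exact one_ne_zero hz
      have hτ0 : τb = 0 := by
        rcases pow_eq_zero_iff hr0 |>.mp hz with h
        exact h
      rw [hz, mul_zero, hτ0, eval₂_at_zero] at hrelb
      have h1 : aeval ((0 : O) : F0) (C (P.coeff 0)) ∈ O.nonunits := by
        rw [aeval_mem_nonunits_iff hle, eval₂_C]
        exact hrelb.symm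
      have h2 : aeval t (C (P.coeff 0)) ∈ O.nonunits := by
        rw [aeval_C] at h1 ⊢
        exact h1
      have h3 := hG.prim _ h2 0
      rw [coeff_C_zero] at h3
      exact h0 h3
  have hunitO : τ ^ r ∉ O.nonunits := by
    intro hmem
    apply hunit
    have h1 : ((τO ^ r : O) : F0) ∈ O.nonunits := hmem
    rw [ValuationSubring.coe_mem_nonunits_iff, ← IsLocalRing.residue_eq_zero_iff, map_pow] at h1
    exact h1
  have hval : O.valuation (τ ^ r) = 1 := by
    have h1 : O.valuation (τ ^ r) ≤ 1 :=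
      (ValuationSubring.valuation_le_one_iff O _).mpr (O.pow_mem hτ r)
    have h2 : ¬ O.valuation (τ ^ r) < 1 := fun h =>
      hunitO ((ValuationSubring.mem_nonunits_iff O).mpr h)
    exact le_antisymm h1 (not_lt.mp h2)
  -- the field `k = A0 / ϖ`
  have := hmax
  let _ : Field (A0 ⧸ Ideal.span {ϖ}) := Ideal.Quotient.field _
  let _ : Algebra (A0 ⧸ Ideal.span {ϖ}) κ := (resK hle hunif).toAlgebra
  have halg : ∀ (y : κ) (q : (A0 ⧸ Ideal.span {ϖ})[X]),
      aeval y q = q.eval₂ (resK hle hunif) y := fun y q => rfl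
  have htrans : ∀ q : (A0 ⧸ Ideal.span {ϖ})[X], q.eval₂ (resK hle hunif) tb = 0 → q = 0 :=
    (prim_iff hle hunif tO).mp hG.prim
  refine ⟨hle, hunif, hτ, ?_, ?_⟩
  · -- primitivity
    refine (prim_iff hle hunif τO).mpr ?_
    intro q hq
    by_contra hq0
    have hτalg : IsAlgebraic (A0 ⧸ Ideal.span {ϖ}) τb := ⟨q, hq0, by rw [halg]; exact hq⟩
    have hPalg : IsAlgebraic (A0 ⧸ Ideal.span {ϖ})
        (aeval τb (P.map (Ideal.Quotient.mk (Ideal.span {ϖ})))) := by
      have hmem : τb ∈ Subalgebra.algebraicClosure (A0 ⧸ Ideal.span {ϖ}) κ :=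
        (Subalgebra.mem_algebraicClosure _ _).mpr hτalg
      have hle' : Algebra.adjoin (A0 ⧸ Ideal.span {ϖ}) {τb}
          ≤ Subalgebra.algebraicClosure (A0 ⧸ Ideal.span {ϖ}) κ :=
        Algebra.adjoin_le (Set.singleton_subset_iff.mpr hmem)
      exact (Subalgebra.mem_algebraicClosure _ _).mp
        (hle' (aeval_mem_adjoin_singleton _ τb))
    have htalg : IsAlgebraic (A0 ⧸ Ideal.span {ϖ}) tb := by
      have e : tb = aeval τb (P.map (Ideal.Quotient.mk (Ideal.span {ϖ}))) * (τb ^ r)⁻¹ := by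
        rw [halg, eval₂_resK_map, ← hrelb, mul_assoc, mul_inv_cancel₀ hunit, mul_one]
      rw [e]
      exact hPalg.mul (hτalg.pow r).inv
    obtain ⟨q', hq'0, hq'⟩ := htalg
    exact hq'0 (htrans q' (by rw [← halg]; exact hq'))
  · -- integrality
    intro x hx
    obtain ⟨s, ⟨i0, hi0⟩, hs⟩ := hG.int x hx
    have hscale : ∀ y ∈ Algebra.adjoin A0 {t}, ∃ n : ℕ,
        (τ ^ r) ^ n * y ∈ Algebra.adjoin A0 {τ} := by
      intro y hy
      rw [Algebra.adjoin_singleton_eq_range_aeval] at hy
      obtain ⟨a, rfl⟩ := hy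
      exact ⟨a.natDegree, scale_mem_adjoin P r hrel a _ le_rfl⟩
    have hτr : τ ^ r ∈ Algebra.adjoin A0 {τ} :=
      Subalgebra.pow_mem _ (Algebra.self_mem_adjoin_singleton A0 τ) r
    obtain ⟨n, hn⟩ := helper5122.isIntegral_scale hτr hscale hs
    have hs' := scale_mem_adjoin P r hrel s _ le_rfl
    rw [Algebra.adjoin_singleton_eq_range_aeval] at hs'
    obtain ⟨s1, hs1⟩ := hs'
    have hs1' : aeval τ s1 = (τ ^ r) ^ s.natDegree * aeval t s := hs1
    refine ⟨X ^ (r * n) * s1, ?_, ?_⟩
    · -- primitive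
      by_contra hall
      rw [not_exists] at hall
      have hall : ∀ i, ϖ ∣ (X ^ (r * n) * s1).coeff i := fun i => not_not.mp (hall i)
      obtain ⟨s2, hs2⟩ := (C_dvd_iff_dvd_coeff ϖ _).mpr hall
      have h1 : aeval τ (X ^ (r * n) * s1) ∈ O.nonunits := by
        rw [hs2, map_mul, aeval_C, ValuationSubring.mem_nonunits_iff, map_mul]
        have ha : O.valuation (algebraMap A0 F0 ϖ) < 1 :=
          (ValuationSubring.mem_nonunits_iff O).mp hunif
        have hb : O.valuation (aeval τ s2) ≤ 1 :=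
          (ValuationSubring.valuation_le_one_iff O _).mpr (aeval_mem hle hτ s2)
        calc O.valuation (algebraMap A0 F0 ϖ) * O.valuation (aeval τ s2)
            ≤ O.valuation (algebraMap A0 F0 ϖ) * 1 := mul_le_mul' le_rfl hb
          _ < 1 := by rw [mul_one]; exact ha
      have h2 : aeval t s ∈ O.nonunits := by
        rw [ValuationSubring.mem_nonunits_iff] at h1 ⊢
        have e : aeval τ (X ^ (r * n) * s1) = (τ ^ r) ^ (n + s.natDegree) * aeval t s := by
          rw [map_mul, map_pow, aeval_X, hs1', pow_mul, pow_add]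
          ring
        rw [e, map_mul, map_pow, hval, one_pow, one_mul] at h1
        exact h1
      exact hi0 (hG.prim s h2 i0)
    · -- integral
      have e : aeval τ (X ^ (r * n) * s1) * x
          = algebraMap (Algebra.adjoin A0 {τ}) F0
              ⟨(τ ^ r) ^ s.natDegree, Subalgebra.pow_mem _ hτr _⟩
            * ((τ ^ r) ^ n * (aeval t s * x)) := by
        rw [map_mul, map_pow, aeval_X, hs1', pow_mul]
        show _ = (τ ^ r) ^ s.natDegree * ((τ ^ r) ^ n * (aeval t s * x))
        ring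
      rw [e]
      exact IsIntegral.mul isIntegral_algebraMap hn

/-- In the situation of `gaussData_lineChange`, `τ ^ r` is not in the maximal ideal of `O`
(because `τ ^ r` divides `P(τ) ≡ P(0)` there). -/
lemma pow_notMem_nonunits {t τ : F0} (hG : helper3578.GaussData ϖ t O) (hτ : τ ∈ O)
    (P : A0[X]) (r : ℕ) (hP0 : r = 0 ∨ ¬ ϖ ∣ P.coeff 0)
    (hrel : t * τ ^ r = aeval τ P) : τ ^ r ∉ O.nonunits := by
  have hle := hG.le
  intro hmem
  rcases hP0 with h0 | h0
  · rw [h0, pow_zero, ValuationSubring.mem_nonunits_iff, map_one] at hmem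
    exact lt_irrefl _ hmem
  · have hr0 : r ≠ 0 := by
      rintro rfl
      rw [pow_zero, ValuationSubring.mem_nonunits_iff, map_one] at hmem
      exact lt_irrefl _ hmem
    have hτn : τ ∈ O.nonunits := by
      rw [ValuationSubring.mem_nonunits_iff] at hmem ⊢
      rw [map_pow] at hmem
      by_contra hge
      have h1 : O.valuation τ = 1 :=
        le_antisymm ((ValuationSubring.valuation_le_one_iff O _).mpr hτ) (not_lt.mp hge)
      rw [h1, one_pow] at hmem
      exact lt_irrefl _ hmem
    have hτb : IsLocalRing.residue O (⟨τ, hτ⟩ : O) = 0 := by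
      rw [IsLocalRing.residue_eq_zero_iff, ← ValuationSubring.coe_mem_nonunits_iff]
      exact hτn
    have hPn : aeval τ P ∈ O.nonunits := by
      rw [← hrel, ValuationSubring.mem_nonunits_iff, map_mul]
      have ha : O.valuation t ≤ 1 := (ValuationSubring.valuation_le_one_iff O _).mpr hG.t_mem
      have hb : O.valuation (τ ^ r) < 1 := (ValuationSubring.mem_nonunits_iff O).mp hmem
      calc O.valuation t * O.valuation (τ ^ r) ≤ 1 * O.valuation (τ ^ r) := mul_le_mul' ha le_rfl
        _ < 1 := by rw [one_mul]; exact hb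
    have h1 := (aeval_mem_nonunits_iff hle (⟨τ, hτ⟩ : O) P).mp hPn
    rw [hτb, eval₂_at_zero] at h1
    have h2 : aeval t (C (P.coeff 0)) ∈ O.nonunits := by
      have h3 := (aeval_mem_nonunits_iff hle (⟨t, hG.t_mem⟩ : O) (C (P.coeff 0))).mpr
        (by rw [eval₂_C]; exact h1)
      exact h3
    have h4 := hG.prim _ h2 0
    rw [coeff_C_zero] at h4
    exact h0 h4

/-- The Hauptmodul line of level two: `j * τ ^ 2 = (τ + 256) ^ 3`, at a place prime to `2`. -/
theorem gaussData_line_two {t τ : F0} (hG : helper3578.GaussData ϖ t O)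
    (hmax : (Ideal.span {ϖ}).IsMaximal) (h2 : ¬ ϖ ∣ 2)
    (hrel : t * τ ^ 2 = (τ + 256) ^ 3) : helper3578.GaussData ϖ τ O := by
  have hnt : Nontrivial A0 := by
    by_contra hnt
    rw [not_nontrivial_iff_subsingleton] at hnt
    exact h2 ⟨0, Subsingleton.elim _ _⟩
  refine gaussData_lineChange hG hmax ((X + C 256) ^ 3) ((monic_X_add_C 256).pow 3) 2 ?_
    (Or.inr ?_) ?_
  · rw [(monic_X_add_C (256 : A0)).natDegree_pow, natDegree_X_add_C]
    norm_num
  · rw [coeff_zero_eq_eval_zero, eval_pow, eval_add, eval_X, eval_C, zero_add]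
    intro h
    apply h2
    have e : (256 : A0) ^ 3 = 2 ^ 24 := by norm_num
    rw [e, ← Ideal.mem_span_singleton] at h
    exact Ideal.mem_span_singleton.mp (hmax.isPrime.mem_of_pow_mem _ h)
  · rw [hrel, map_pow, map_add, aeval_X, aeval_C, map_ofNat]

/-- The Hauptmodul line of level three: `j * τ ^ 3 = (τ + 27) * (τ + 243) ^ 3`, at a place
prime to `3`. -/
theorem gaussData_line_three {t τ : F0} (hG : helper3578.GaussData ϖ t O)
    (hmax : (Ideal.span {ϖ}).IsMaximal) (h3 : ¬ ϖ ∣ 3)
    (hrel : t * τ ^ 3 = (τ + 27) * (τ + 243) ^ 3) : helper3578.GaussData ϖ τ O := by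
  have hnt : Nontrivial A0 := by
    by_contra hnt
    rw [not_nontrivial_iff_subsingleton] at hnt
    exact h3 ⟨0, Subsingleton.elim _ _⟩
  have hmon : ((X + C 27) * (X + C 243) ^ 3 : A0[X]).Monic :=
    (monic_X_add_C 27).mul ((monic_X_add_C 243).pow 3)
  refine gaussData_lineChange hG hmax ((X + C 27) * (X + C 243) ^ 3) hmon 3 ?_ (Or.inr ?_) ?_
  · rw [(monic_X_add_C (27 : A0)).natDegree_mul ((monic_X_add_C 243).pow 3),
      (monic_X_add_C (243 : A0)).natDegree_pow, natDegree_X_add_C, natDegree_X_add_C]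
    norm_num
  · rw [coeff_zero_eq_eval_zero, eval_mul, eval_pow, eval_add, eval_X, eval_C, zero_add,
      eval_add, eval_X, eval_C, zero_add]
    intro h
    apply h3
    have e : (27 : A0) * 243 ^ 3 = 3 ^ 18 := by norm_num
    rw [e, ← Ideal.mem_span_singleton] at h
    exact Ideal.mem_span_singleton.mp (hmax.isPrime.mem_of_pow_mem _ h)
  · rw [hrel, map_mul, map_pow, map_add, map_add, aeval_X, aeval_C, aeval_C, map_ofNat,
      map_ofNat]

end Gauss

section Model

open helper3578

/-- The same model with another coordinate on the base line. -/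
def withLine (D : KData) (τ : D.F0) : KData := { D with t := τ }

lemma withLine_tL (D : KData) (τ : D.F0) :
    (withLine D τ).tL = algebraMap D.F0 D.L0 τ := rfl

/-- The `OneComponent` clause of the model on the new line, spelled out. -/
lemma oneComp_withLine_iff (D : KData) (τ : D.F0) :
    (withLine D τ).OneComp ↔
      OneComponent ↥(Chart D.A0 (algebraMap D.F0 D.L0 τ))
          (algebraMap D.A0 ↥(Chart D.A0 (algebraMap D.F0 D.L0 τ)) D.ϖ) ∧
        OneComponent ↥(Chart D.A0 (algebraMap D.F0 D.L0 τ)⁻¹)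
          (algebraMap D.A0 ↥(Chart D.A0 (algebraMap D.F0 D.L0 τ)⁻¹) D.ϖ) :=
  Iff.rfl

/-- **Line change for a good model.**  If `t * τ ^ r = P(τ)` with `P ∈ A0[X]` monic of degree
`> r` and `P(0)` prime to `ϖ` (or `r = 0`), then the model with coordinate `τ` is good. -/
theorem good_withLine (D : KData) (m : ℕ) (hD : D.Good m) (τ : D.F0) (P : D.A0[X])
    (hP : P.Monic) (r : ℕ) (hr : r < P.natDegree) (hP0 : r = 0 ∨ ¬ D.ϖ ∣ P.coeff 0)
    (hrel : D.t * τ ^ r = aeval τ P) : (withLine D τ).Good m := by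
  have hmax : (Ideal.span {D.ϖ}).IsMaximal := PrincipalIdealRing.isMaximal_of_irreducible hD.irr
  have hG : GaussData D.ϖ τ D.O := gaussData_lineChange hD.gauss hmax P hP r hr hP0 hrel
  have hτr : τ ^ r ≠ 0 := by
    intro h0
    apply pow_notMem_nonunits hD.gauss hG.t_mem P r hP0 hrel
    rw [h0, ValuationSubring.mem_nonunits_iff, map_zero]
    exact zero_lt_one
  have hPK : ∀ y : D.F0, aeval y P = aeval y (P.map (algebraMap D.A0 D.K0)) := fun y =>
    (aeval_map_algebraMap D.K0 y P).symm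
  refine ⟨hD.irr, hG, ?_, ?_, hD.const, hD.unit_m, hD.prim_root, hD.U_mem, hD.U_inv_mem,
    hD.h_mem, hD.h_pow, hD.θ_pow⟩
  · -- transcendence
    intro hτalg
    have hτalg : IsAlgebraic D.K0 τ := hτalg
    apply hD.transc
    have hPalg : IsAlgebraic D.K0 (aeval τ (P.map (algebraMap D.A0 D.K0))) := by
      have hmem : τ ∈ Subalgebra.algebraicClosure D.K0 D.F0 :=
        (Subalgebra.mem_algebraicClosure _ _).mpr hτalg
      have hle' : Algebra.adjoin D.K0 {τ} ≤ Subalgebra.algebraicClosure D.K0 D.F0 :=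
        Algebra.adjoin_le (Set.singleton_subset_iff.mpr hmem)
      exact (Subalgebra.mem_algebraicClosure _ _).mp (hle' (aeval_mem_adjoin_singleton _ τ))
    have e : D.t = aeval τ (P.map (algebraMap D.A0 D.K0)) * (τ ^ r)⁻¹ := by
      rw [← hPK, ← hrel, mul_assoc, mul_inv_cancel₀ hτr, mul_one]
    rw [e]
    exact hPalg.mul (hτalg.pow r).inv
  · -- finiteness over `K0(τ)`
    have hfin := hD.finite
    set τL : D.L0 := algebraMap D.F0 D.L0 τ with hτL
    have hτLr : τL ^ r ≠ 0 := by
      rw [hτL, ← map_pow]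
      exact (_root_.map_ne_zero _).mpr hτr
    have hrelL : D.tL * τL ^ r = aeval τL (P.map (algebraMap D.A0 D.K0)) := by
      have h1 := congrArg (algebraMap D.F0 D.L0) hrel
      rw [map_mul, map_pow, ← aeval_algebraMap_apply] at h1
      rw [aeval_map_algebraMap]
      exact h1
    have hτmem : τL ∈ IntermediateField.adjoin D.K0 ({τL} : Set D.L0) :=
      IntermediateField.mem_adjoin_simple_self D.K0 τL
    have htmem : D.tL ∈ IntermediateField.adjoin D.K0 ({τL} : Set D.L0) := by
      have e : D.tL = aeval τL (P.map (algebraMap D.A0 D.K0)) * (τL ^ r)⁻¹ := by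
        rw [← hrelL, mul_assoc, mul_inv_cancel₀ hτLr, mul_one]
      rw [e]
      refine mul_mem ?_ (inv_mem (pow_mem hτmem r))
      exact IntermediateField.algebra_adjoin_le_adjoin D.K0 _ (aeval_mem_adjoin_singleton _ τL)
    have hle' : IntermediateField.adjoin D.K0 ({D.tL} : Set D.L0)
        ≤ IntermediateField.adjoin D.K0 ({τL} : Set D.L0) :=
      IntermediateField.adjoin_le_iff.mpr (Set.singleton_subset_iff.mpr htmem)
    let _ : Algebra ↥(IntermediateField.adjoin D.K0 ({D.tL} : Set D.L0))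
        ↥(IntermediateField.adjoin D.K0 ({τL} : Set D.L0)) :=
      (IntermediateField.inclusion hle').toRingHom.toAlgebra
    have : IsScalarTower ↥(IntermediateField.adjoin D.K0 ({D.tL} : Set D.L0))
        ↥(IntermediateField.adjoin D.K0 ({τL} : Set D.L0)) D.L0 :=
      IsScalarTower.of_algebraMap_eq (fun x => rfl)
    exact Module.Finite.of_restrictScalars_finite
      ↥(IntermediateField.adjoin D.K0 ({D.tL} : Set D.L0))
      ↥(IntermediateField.adjoin D.K0 ({τL} : Set D.L0)) D.L0

/-- The model on the Hauptmodul line of level two (for residue characteristic `≠ 2`). -/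
theorem good_withLine_two (D : KData) (m : ℕ) (hD : D.Good m) (τ : D.F0) (h2 : ¬ D.ϖ ∣ 2)
    (hrel : D.t * τ ^ 2 = (τ + 256) ^ 3) : (withLine D τ).Good m := by
  have hprime : Prime D.ϖ := hD.irr.prime
  refine good_withLine D m hD τ ((X + C 256) ^ 3) ((monic_X_add_C 256).pow 3) 2 ?_
    (Or.inr ?_) ?_
  · rw [(monic_X_add_C (256 : D.A0)).natDegree_pow, natDegree_X_add_C]
    norm_num
  · rw [coeff_zero_eq_eval_zero, eval_pow, eval_add, eval_X, eval_C, zero_add]
    intro h
    apply h2
    have e : (256 : D.A0) ^ 3 = 2 ^ 24 := by norm_num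
    rw [e] at h
    exact hprime.dvd_of_dvd_pow h
  · rw [hrel, map_pow, map_add, aeval_X, aeval_C, map_ofNat]

/-- The model on the Hauptmodul line of level three (for residue characteristic `≠ 3`). -/
theorem good_withLine_three (D : KData) (m : ℕ) (hD : D.Good m) (τ : D.F0) (h3 : ¬ D.ϖ ∣ 3)
    (hrel : D.t * τ ^ 3 = (τ + 27) * (τ + 243) ^ 3) : (withLine D τ).Good m := by
  have hprime : Prime D.ϖ := hD.irr.prime
  have hmon : ((X + C 27) * (X + C 243) ^ 3 : D.A0[X]).Monic :=
    (monic_X_add_C 27).mul ((monic_X_add_C 243).pow 3)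
  refine good_withLine D m hD τ ((X + C 27) * (X + C 243) ^ 3) hmon 3 ?_ (Or.inr ?_) ?_
  · rw [(monic_X_add_C (27 : D.A0)).natDegree_mul ((monic_X_add_C 243).pow 3),
      (monic_X_add_C (243 : D.A0)).natDegree_pow, natDegree_X_add_C, natDegree_X_add_C]
    norm_num
  · rw [coeff_zero_eq_eval_zero, eval_mul, eval_pow, eval_add, eval_X, eval_C, zero_add,
      eval_add, eval_X, eval_C, zero_add]
    intro h
    apply h3
    have e : (27 : D.A0) * 243 ^ 3 = 3 ^ 18 := by norm_num
    rw [e] at h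
    exact hprime.dvd_of_dvd_pow h
  · rw [hrel, map_mul, map_pow, map_add, map_add, aeval_X, aeval_C, aeval_C, map_ofNat,
      map_ofNat]

/-- Packaging: a good model on the new line with one component on both charts is a model
in the sense of `Stmt_KummerGlobal`, with the same Gauss unit. -/
theorem withLine_U (D : KData) (τ : D.F0) : (withLine D τ).U = D.U := rfl

end Model

end Fermat.Agent.S18.helper648
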