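/-
S18, track B, END WIRE (helper648, deputy per captain ruling 03:00 "B-DN END WIRE").

INTERFACE between the concrete model (MODELBASE) and the `OneComp` suppliers
(VERT / HORIZ / DN / CHARTBASE), stated for an ARBITRARY `D : helper3578.KData`:

* `ResDatum D`   (X-res): residue data of the Gauss place `D.O` consumed by VERT;
* `BarDatum D c0` (X-bar): the embedding of `D.L0` into a function field over an algebraically
  closed field, with the branch data of the coordinate `D.tL` consumed by HORIZ;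
* `Facts D c0`   : (X-gen) + (X-res) + (X-bar) + `t⁻¹ ∈ O`;
* `OneCompSupply` : the Prop "`Good` + `Facts` give `OneComp`" (trace-duality normality on both
  charts, chart polynomials `X (X + c0)` and `X (c0 X + 1)`);
* `Stmt_ModelFacts N ℓ` : the output of the concrete side;
* `stmt_Model0_of_facts` : the two together give `helper3578.Stmt_Model0 N ℓ`, and
  `result_of_facts` the frozen statement.

Line change of the facts (additions, second part of the file):

* `natDegree_le_relfinrank` : `[K(τ) : K(t)] ≥ deg P` when `t * τ ^ r = P(τ)`;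
* `ResDatum.withLine`, `Facts.withLine` : the residue data of the `t`-line give those of the
  `τ`-line (no residue computation on the Hauptmodul lines);
* `stmt_ModelFacts_of_jline`, `stmt_ModelFacts_of_line_two`, `stmt_ModelFacts_of_line_three`.
-/
import Fermat.Agent.S18.helper3578_SpecBTop
import Fermat.Agent.S18.helper2759_KummerGlobal
import Fermat.Agent.S18.helper648_LineChange

set_option autoImplicit false
set_option synthInstance.maxHeartbeats 400000

noncomputable section

namespace Fermat.Agent.S18.helper648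

open Polynomial ModularCurve AlgebraicCurve
open Fermat.Agent.S18.helper3578

/-- **(X-res)** Residue data of the Gauss place of a model: a surjection `red` of `D.O` onto a
field `Fκ`, separable over a subfield `κ` containing the residues of the constants and of the
coordinate `D.t`, of degree at least `[F0 : K0(t)]`.
(Concrete case: `Fκ` = the function field of level `N` over the residue field `k0` of `A0`,
`κ = k0(t̄)`, `red` = the reduction of `q`-expansions.) -/
structure ResDatum (D : KData) where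
  κ : Type
  Fκ : Type
  [fieldκ : Field κ]
  [fieldF : Field Fκ]
  [alg : Algebra κ Fκ]
  [sep : Algebra.IsSeparable κ Fκ]
  red : D.O →+* Fκ
  red_surj : Function.Surjective red
  red_base : ∀ (a : D.A0) (h : algebraMap D.A0 D.F0 a ∈ D.O),
    red ⟨algebraMap D.A0 D.F0 a, h⟩ ∈ Set.range (algebraMap κ Fκ)
  red_coord : ∀ h : D.t ∈ D.O, red ⟨D.t, h⟩ ∈ Set.range (algebraMap κ Fκ)
  finrank_le : Module.finrank ↥(IntermediateField.adjoin D.K0 ({D.t} : Set D.F0)) D.F0
    ≤ Module.finrank κ Fκ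

attribute [instance] ResDatum.fieldκ ResDatum.fieldF ResDatum.alg ResDatum.sep

/-- **(X-bar)** The geometric model: a `K0`-embedding `i` of `D.L0` into a function field `Eb`
over an algebraically closed field `Kb` of characteristic zero, algebraic over `K0`, such that
the coordinate `i tL` is transcendental, `Eb` is finite over `Kb(i tL)`, and every zero of
`i tL - c` is simple for `c ≠ 0, -c0` (no horizontal branching outside `t = 0, -c0, ∞`).
(Concrete case: `Kb = ℚ̄`, `Eb = F_N(θ)` over `ℚ̄`; `c0 = -1728` on the `j`-line, `64` resp. `27`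
on the Hauptmodul lines of level `2` resp. `3`.) -/
structure BarDatum (D : KData) (c0 : D.A0) where
  Kb : Type
  Eb : Type
  [fieldK : Field Kb]
  [algClosed : IsAlgClosed Kb]
  [charZero : CharZero Kb]
  [algK0 : Algebra D.K0 Kb]
  [isAlg : Algebra.IsAlgebraic D.K0 Kb]
  [fieldE : Field Eb]
  [algKE : Algebra Kb Eb]
  [algK0E : Algebra D.K0 Eb]
  [tower : IsScalarTower D.K0 Kb Eb]
  i : D.L0 →ₐ[D.K0] Eb
  transc : Transcendental Kb (i D.tL)
  finite : FiniteDimensional ↥(IntermediateField.adjoin Kb ({i D.tL} : Set Eb)) Eb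
  simple : ∀ c : Kb, c ≠ 0 → c ≠ -algebraMap D.K0 Kb (algebraMap D.A0 D.K0 c0) →
    ∀ P : Place Kb Eb, 0 < P.ord (i D.tL - algebraMap Kb Eb c) →
      P.ord (i D.tL - algebraMap Kb Eb c) = 1

attribute [instance] BarDatum.fieldK BarDatum.algClosed BarDatum.charZero BarDatum.algK0
  BarDatum.isAlg BarDatum.fieldE BarDatum.algKE BarDatum.algK0E BarDatum.tower

/-- **The extra facts** a concrete model exports beyond `Good` and `ι`:
(X-gen) `L0 = F0(θ)`, the coordinate is a Gauss unit, (X-res), (X-bar). -/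
structure Facts (D : KData) (c0 : D.A0) where
  gen : Algebra.adjoin D.F0 ({D.θ} : Set D.L0) = ⊤
  inv_mem : D.t⁻¹ ∈ D.O
  res : ResDatum D
  bar : BarDatum D c0

/-- **OneComp supply** (abstract; = VERT + HORIZ + DN-A + DN + CHARTBASE on both charts, chart
polynomials `X (X + c0)` for `t` and `X (c0 X + 1)` for `1/t`): a good model with the extra
facts, `c0` prime to `ϖ`, has one component through every closed point of both charts. -/
def OneCompSupply : Prop :=
  ∀ (D : KData) (m : ℕ) (c0 : D.A0), D.Good m → ¬ D.ϖ ∣ c0 → Facts D c0 → D.OneComp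

/-- **Output of the concrete side**: for the hypotheses of `helper3054.Stmt_KF0 N ℓ` there is a
good model with the extra facts (on the `j`-line or on a Hauptmodul line, see
`helper648.withLine`) and the comparison map `ι`. -/
def Stmt_ModelFacts (N : ℕ) [NeZero N] (ℓ : ℕ) : Prop :=
  ∀ (A : ValuationSubring (AlgebraicClosure ℚ)), A.LiesOverPrime ℓ → ∀ m : ℕ, ¬ ℓ ∣ m →
  ∀ a b : helper3054.IntegralFn A N,
    (∀ P : Place (AlgebraicClosure ℚ) (modularFunctionFieldBar N),
      (m : ℤ) ∣ P.ord a.gen - P.ord b.gen) →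
    ∀ w : modularFunctionFieldFullC (IsLocalRing.ResidueField A) N, w ≠ 0 →
      a.red = w ^ m * b.red →
      ∃ (D : KData) (c0 : D.A0), D.Good m ∧ ¬ D.ϖ ∣ c0 ∧ Nonempty (Facts D c0) ∧
        ∃ ι : D.F0 →+* modularFunctionFieldBar N, ι D.U * b.gen = a.gen

/-- The concrete half of SpecB from the two sides of the interface. -/
theorem stmt_Model0_of_facts (N : ℕ) [NeZero N] (ℓ : ℕ) (hS : OneCompSupply)
    (hF : Stmt_ModelFacts N ℓ) : Stmt_Model0 N ℓ := by
  intro A hA m hm a b hdiv w hw hred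
  obtain ⟨D, c0, hgood, hc0, ⟨hfacts⟩, ι, hι⟩ := hF A hA m hm a b hdiv w hw hred
  exact ⟨D, hgood, hS D m c0 hgood hc0 hfacts, ι, hι⟩

/-- `Stmt_KF0` at one level and one prime from the two sides of the interface. -/
theorem kf0_of_facts (N : ℕ) [NeZero N] (ℓ : ℕ) (hS : OneCompSupply)
    (hF : Stmt_ModelFacts N ℓ) : helper3054.Stmt_KF0 N ℓ :=
  kf0_of_specB N ℓ helper2759.stmt_KummerGlobal (stmt_Model0_of_facts N ℓ hS hF)

/-- **The frozen statement S18 from the interface**: the `OneComp` supply and the concrete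
facts on the `j`-line (`ℓ ≥ 5`), at `ℓ = 3` (levels divisible by `2`) and at `ℓ = 2` (levels
divisible by `3`). -/
theorem result_of_facts (hS : OneCompSupply)
    (hj : ∀ (N : ℕ) [NeZero N] (ℓ : ℕ), ℓ.Prime → 5 ≤ ℓ → ¬ ℓ ∣ N → Stmt_ModelFacts N ℓ)
    (h23 : ∀ (N' : ℕ) [NeZero N'], 2 ∣ N' → ¬ 3 ∣ N' → Stmt_ModelFacts N' 3)
    (h32 : ∀ (N' : ℕ) [NeZero N'], 3 ∣ N' → ¬ 2 ∣ N' → Stmt_ModelFacts N' 2)
    (N : ℕ) [NeZero N] {ℓ : ℕ} [Fact ℓ.Prime] (hℓN : ¬ ℓ ∣ N)
    (A : ValuationSubring (AlgebraicClosure ℚ)) (hA : A.LiesOverPrime ℓ)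
    (h : ModularCurve.ReductionInputsModL A N) (m : ℕ) (hm : ¬ ℓ ∣ m)
    (z : ModularCurve.JZero N) (hmz : m • z = 0)
    (hz : ModularCurve.reductionModL A N z = 0) : z = 0 :=
  result_of_specB helper2759.stmt_KummerGlobal
    (fun N _ ℓ hℓ h5 hN => stmt_Model0_of_facts N ℓ hS (hj N ℓ hℓ h5 hN))
    (fun N' _ h2 h3 => stmt_Model0_of_facts N' 3 hS (h23 N' h2 h3))
    (fun N' _ h3 h2 => stmt_Model0_of_facts N' 2 hS (h32 N' h3 h2))
    N hℓN A hA h m hm z hmz hz

section Degree

variable {K : Type*} [Field K] {F : Type*} [Field F] [Algebra K F]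

/-- **Degree of a Hauptmodul-type relation.**  If `τ` is transcendental over `K` and
`t * τ ^ r = P(τ)` with `P` of degree `> r` and `P(0) ≠ 0` (or `r = 0`), then
`[K(τ) : K(t)] ≥ deg P` (in fact equality; only this bound is used). -/
theorem natDegree_le_relfinrank (t τ : F) (hτ : Transcendental K τ) (P : K[X]) (r : ℕ)
    (hr : r < P.natDegree) (hP0 : r = 0 ∨ P.coeff 0 ≠ 0) (hrel : t * τ ^ r = aeval τ P) :
    P.natDegree ≤ (IntermediateField.adjoin K ({t} : Set F)).relfinrank
      (IntermediateField.adjoin K ({τ} : Set F)) := by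
  classical
  have hinj : Function.Injective (aeval τ : K[X] →ₐ[K] F) :=
    transcendental_iff_injective.mp hτ
  set φ : RatFunc K →ₐ[K] F := RatFunc.liftAlgHom (aeval τ)
    (nonZeroDivisors_le_comap_nonZeroDivisors_of_injective _ hinj) with hφ
  set f : RatFunc K := algebraMap K[X] (RatFunc K) P / algebraMap K[X] (RatFunc K) (X ^ r)
    with hf
  have hτ0 : τ ≠ 0 := by
    rintro rfl
    have h := hinj (show aeval (0 : F) (X : K[X]) = aeval (0 : F) (0 : K[X]) by simp)
    exact X_ne_zero h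
  have hφX : φ RatFunc.X = τ := by
    have h := RatFunc.liftAlgHom_apply_div (aeval τ : K[X] →ₐ[K] F)
      (nonZeroDivisors_le_comap_nonZeroDivisors_of_injective _ hinj) X 1
    rw [map_one, div_one, RatFunc.algebraMap_X, map_one, div_one, aeval_X] at h
    exact h
  have hφf : φ f = t := by
    rw [hφ, hf, RatFunc.liftAlgHom_apply_div, map_pow, aeval_X, ← hrel, mul_div_assoc,
      div_self (pow_ne_zero r hτ0), mul_one]
  have h1 : (IntermediateField.adjoin K ({t} : Set F)).relfinrank
      (IntermediateField.adjoin K ({τ} : Set F))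
      = Module.finrank (IntermediateField.adjoin K ({f} : Set (RatFunc K))) (RatFunc K) := by
    rw [← IntermediateField.relfinrank_top_right, ← RatFunc.adjoin_X,
      ← IntermediateField.relfinrank_map_map _ _ φ, IntermediateField.adjoin_map,
      IntermediateField.adjoin_map, Set.image_singleton, Set.image_singleton, hφX, hφf]
  rw [h1, RatFunc.finrank_eq_max_natDegree]
  have hXr : (X ^ r : K[X]) ≠ 0 := pow_ne_zero r X_ne_zero
  have h2 : f.num * X ^ r = P * f.denom := (RatFunc.num_mul_eq_mul_denom_iff hXr).mpr rfl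
  have hP : P ≠ 0 := by
    rintro rfl
    simp at hr
  have hden : f.denom ≠ 0 := RatFunc.denom_ne_zero f
  have hnum : f.num ≠ 0 := by
    intro h0
    rw [h0, zero_mul] at h2
    exact mul_ne_zero hP hden h2.symm
  have hcop : IsCoprime (X ^ r : K[X]) P := by
    rcases hP0 with rfl | h0
    · rw [pow_zero]
      exact isCoprime_one_left
    · exact ((irreducible_X.coprime_iff_not_dvd).mpr (fun h => h0 (X_dvd_iff.mp h))).pow_left
  have hdvd : (X ^ r : K[X]) ∣ f.denom := hcop.dvd_of_dvd_mul_left (Dvd.intro_left _ h2)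
  have h3 : r ≤ f.denom.natDegree := by
    have h := natDegree_le_of_dvd hdvd hden
    rwa [natDegree_X_pow] at h
  have h4 : f.num.natDegree + r = P.natDegree + f.denom.natDegree := by
    have h := congrArg natDegree h2
    rwa [natDegree_mul hnum hXr, natDegree_X_pow, natDegree_mul hP hden] at h
  have h5 : P.natDegree ≤ f.num.natDegree := by omega
  exact le_trans h5 (le_max_left _ _)

end Degree

section LineRes

open Fermat.Agent.S18.helper3578

/-- The relation `t * τ ^ r = P(τ)` inside the valuation ring `O`. -/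
lemma rel_in_O {A0 F0 : Type*} [CommRing A0] [Field F0] [Algebra A0 F0] {O : ValuationSubring F0}
    (hle : ∀ x : A0, algebraMap A0 F0 x ∈ O) {t τ : F0} (ht : t ∈ O) (hτ : τ ∈ O) (P : A0[X])
    (r : ℕ) (hrel : t * τ ^ r = aeval τ P) :
    (⟨t, ht⟩ : O) * (⟨τ, hτ⟩ : O) ^ r = P.eval₂ (toO hle) (⟨τ, hτ⟩ : O) := by
  apply Subtype.ext
  rw [coe_eval₂_toO]
  exact hrel

/-- **Line change of the residue data.**  If `t * τ ^ r = P(τ)` (`P` monic of degree `> r`,
`P(0)` prime to `ϖ` or `r = 0`), the residue data of the `t`-line give residue data of the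
`τ`-line: same `red`, `κ' := κ(red τ)`; the degree inequality follows from
`[K0(τ) : K0(t)] ≥ deg P ≥ [κ(τ̄) : κ]`. -/
def ResDatum.withLine {D : KData} (R : ResDatum D) {m : ℕ} (hD : D.Good m) (τ : D.F0)
    (P : D.A0[X]) (hP : P.Monic) (r : ℕ) (hr : r < P.natDegree)
    (hP0 : r = 0 ∨ ¬ D.ϖ ∣ P.coeff 0) (hrel : D.t * τ ^ r = aeval τ P) :
    ResDatum (withLine D τ) where
  κ := ↥(IntermediateField.adjoin R.κ
    ({R.red ⟨τ, mem_of_rel hD.gauss.le hD.gauss.t_mem P hP r hr hrel⟩} : Set R.Fκ))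
  Fκ := R.Fκ
  sep := Algebra.isSeparable_tower_top_of_isSeparable R.κ _ R.Fκ
  red := R.red
  red_surj := R.red_surj
  red_base := fun a h => by
    obtain ⟨x, hx⟩ := R.red_base a h
    exact ⟨algebraMap R.κ _ x, hx⟩
  red_coord := fun h =>
    ⟨⟨R.red ⟨τ, mem_of_rel hD.gauss.le hD.gauss.t_mem P hP r hr hrel⟩,
      IntermediateField.mem_adjoin_simple_self _ _⟩, rfl⟩
  finrank_le := by
    classical
    have hle := hD.gauss.le
    have ht := hD.gauss.t_mem
    have hτ : τ ∈ D.O := mem_of_rel hle ht P hP r hr hrel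
    set τb : R.Fκ := R.red ⟨τ, hτ⟩ with hτb
    have hn : 0 < P.natDegree := lt_of_le_of_lt (Nat.zero_le r) hr
    have hgood' := good_withLine D m hD τ P hP r hr hP0 hrel
    have hτtr : Transcendental D.K0 τ := hgood'.transc
    have hτr : τ ^ r ≠ 0 := by
      intro h0
      apply pow_notMem_nonunits hD.gauss hτ P r hP0 hrel
      rw [h0, ValuationSubring.mem_nonunits_iff, map_zero]
      exact zero_lt_one
    -- the polynomial over `K0`
    set P' : D.K0[X] := P.map (algebraMap D.A0 D.K0) with hP'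
    have hP'deg : P'.natDegree = P.natDegree := hP.natDegree_map _
    have hrel' : D.t * τ ^ r = aeval τ P' := by
      rw [hP', aeval_map_algebraMap]
      exact hrel
    have hP0' : r = 0 ∨ P'.coeff 0 ≠ 0 := by
      rcases hP0 with h | h
      · exact Or.inl h
      · refine Or.inr ?_
        rw [hP', coeff_map]
        intro h0
        apply h
        have : P.coeff 0 = 0 :=
          (IsFractionRing.injective D.A0 D.K0) (by rw [h0, map_zero])
        rw [this]
        exact dvd_zero _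
    -- upstairs
    have hdeg : P.natDegree ≤ (IntermediateField.adjoin D.K0 ({D.t} : Set D.F0)).relfinrank
        (IntermediateField.adjoin D.K0 ({τ} : Set D.F0)) := by
      rw [← hP'deg]
      exact natDegree_le_relfinrank D.t τ hτtr P' r (by rw [hP'deg]; exact hr) hP0' hrel'
    have hτmem : τ ∈ IntermediateField.adjoin D.K0 ({τ} : Set D.F0) :=
      IntermediateField.mem_adjoin_simple_self D.K0 τ
    have htmem : D.t ∈ IntermediateField.adjoin D.K0 ({τ} : Set D.F0) := by
      have e : D.t = aeval τ P' * (τ ^ r)⁻¹ := by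
        rw [← hrel', mul_assoc, mul_inv_cancel₀ hτr, mul_one]
      rw [e]
      refine mul_mem ?_ (inv_mem (pow_mem hτmem r))
      exact IntermediateField.algebra_adjoin_le_adjoin D.K0 _ (aeval_mem_adjoin_singleton _ τ)
    have hEE' : IntermediateField.adjoin D.K0 ({D.t} : Set D.F0)
        ≤ IntermediateField.adjoin D.K0 ({τ} : Set D.F0) :=
      IntermediateField.adjoin_le_iff.mpr (Set.singleton_subset_iff.mpr htmem)
    have hup := IntermediateField.relfinrank_mul_finrank_top (E := D.F0) hEE'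
    -- downstairs
    set pF : R.Fκ[X] := P.map (R.red.comp (toO hle)) - C (R.red ⟨D.t, ht⟩) * X ^ r with hpF
    have hmapmonic : (P.map (R.red.comp (toO hle))).Monic := hP.map _
    have hmapdeg : (P.map (R.red.comp (toO hle))).natDegree = P.natDegree := hP.natDegree_map _
    have hsmall : (C (R.red ⟨D.t, ht⟩) * X ^ r : R.Fκ[X]).degree
        < (P.map (R.red.comp (toO hle))).degree := by
      rw [degree_eq_natDegree hmapmonic.ne_zero, hmapdeg]
      refine lt_of_le_of_lt (degree_C_mul_X_pow_le r _) ?_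
      exact_mod_cast hr
    have hpFmonic : pF.Monic := hmapmonic.sub_of_left hsmall
    have hpFdeg : pF.natDegree = P.natDegree := by
      rw [hpF, natDegree_sub_eq_left_of_natDegree_lt, hmapdeg]
      rw [hmapdeg]
      exact lt_of_le_of_lt (natDegree_C_mul_X_pow_le _ r) hr
    have hlift : pF ∈ lifts (algebraMap R.κ R.Fκ) := by
      rw [lifts_iff_coeff_lifts]
      intro k
      obtain ⟨x, hx⟩ := R.red_base (P.coeff k) (hle _)
      obtain ⟨y, hy⟩ := R.red_coord ht
      rw [hpF, coeff_sub, coeff_map, coeff_C_mul_X_pow]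
      split_ifs
      · exact ⟨x - y, by rw [map_sub, hx, hy]; rfl⟩
      · exact ⟨x, by rw [hx, sub_zero]; rfl⟩
    obtain ⟨Q, hQmap, hQdeg, hQmonic⟩ := lifts_and_natDegree_eq_and_monic hlift hpFmonic
    have hroot : aeval τb Q = 0 := by
      rw [aeval_def, ← eval_map, hQmap, hpF, eval_sub, eval_map, eval_mul, eval_C, eval_pow,
        eval_X]
      have h1 := Polynomial.hom_eval₂ P (toO hle) R.red ⟨τ, hτ⟩
      rw [← h1, ← rel_in_O hle ht hτ P r hrel, map_mul, map_pow]
      exact sub_self _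
    have hint : IsIntegral R.κ τb := ⟨Q, hQmonic, hroot⟩
    have hdown1 : Module.finrank R.κ ↥(IntermediateField.adjoin R.κ ({τb} : Set R.Fκ))
        ≤ P.natDegree := by
      rw [IntermediateField.adjoin.finrank hint, ← hpFdeg, ← hQdeg]
      exact natDegree_le_of_dvd (minpoly.dvd R.κ τb hroot) hQmonic.ne_zero
    have hdown2 := Module.finrank_mul_finrank R.κ
      ↥(IntermediateField.adjoin R.κ ({τb} : Set R.Fκ)) R.Fκ
    have hR := R.finrank_le
    show Module.finrank ↥(IntermediateField.adjoin D.K0 ({τ} : Set D.F0)) D.F0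
      ≤ Module.finrank ↥(IntermediateField.adjoin R.κ ({τb} : Set R.Fκ)) R.Fκ
    refine Nat.le_of_mul_le_mul_left ?_ hn
    calc P.natDegree * Module.finrank ↥(IntermediateField.adjoin D.K0 ({τ} : Set D.F0)) D.F0
        ≤ (IntermediateField.adjoin D.K0 ({D.t} : Set D.F0)).relfinrank
            (IntermediateField.adjoin D.K0 ({τ} : Set D.F0))
          * Module.finrank ↥(IntermediateField.adjoin D.K0 ({τ} : Set D.F0)) D.F0 :=
          Nat.mul_le_mul_right _ hdeg
      _ = Module.finrank ↥(IntermediateField.adjoin D.K0 ({D.t} : Set D.F0)) D.F0 := hup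
      _ ≤ Module.finrank R.κ R.Fκ := hR
      _ = Module.finrank R.κ ↥(IntermediateField.adjoin R.κ ({τb} : Set R.Fκ))
          * Module.finrank ↥(IntermediateField.adjoin R.κ ({τb} : Set R.Fκ)) R.Fκ := hdown2.symm
      _ ≤ P.natDegree
          * Module.finrank ↥(IntermediateField.adjoin R.κ ({τb} : Set R.Fκ)) R.Fκ :=
          Nat.mul_le_mul_right _ hdown1

/-- In the situation of `gaussData_lineChange` with `r ≠ 0`, the new coordinate is a unit of
the Gauss place. -/
lemma inv_mem_of_rel {A0 F0 : Type*} [CommRing A0] [Field F0] [Algebra A0 F0] {ϖ : A0}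
    {O : ValuationSubring F0} {t τ : F0} (hG : GaussData ϖ t O) (hτ : τ ∈ O) (P : A0[X]) (r : ℕ)
    (hr0 : r ≠ 0) (hP0 : ¬ ϖ ∣ P.coeff 0) (hrel : t * τ ^ r = aeval τ P) : τ⁻¹ ∈ O := by
  have h1 := pow_notMem_nonunits hG hτ P r (Or.inr hP0) hrel
  have hle : O.valuation τ ≤ 1 := (ValuationSubring.valuation_le_one_iff O _).mpr hτ
  have hval : O.valuation τ = 1 := by
    refine le_antisymm hle (not_lt.mp fun hlt => h1 ?_)
    rw [ValuationSubring.mem_nonunits_iff, map_pow]
    obtain ⟨k, rfl⟩ := Nat.exists_eq_succ_of_ne_zero hr0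
    rw [pow_succ]
    calc O.valuation τ ^ k * O.valuation τ ≤ 1 * O.valuation τ :=
          mul_le_mul' (pow_le_one' hle k) le_rfl
      _ < 1 := by rw [one_mul]; exact hlt
  rw [← ValuationSubring.valuation_le_one_iff, map_inv₀, hval, inv_one]

/-- **Line change of the facts**: the facts of the `t`-line model that do not depend on the
line (`gen`, residue data) together with the branch data on the `τ`-line give the facts of the
`τ`-line model. -/
def Facts.withLine {D : KData} (hgen : Algebra.adjoin D.F0 ({D.θ} : Set D.L0) = ⊤)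
    (R : ResDatum D) {m : ℕ} (hD : D.Good m) (τ : D.F0) (P : D.A0[X]) (hP : P.Monic) (r : ℕ)
    (hr : r < P.natDegree) (hr0 : r ≠ 0) (hP0 : ¬ D.ϖ ∣ P.coeff 0)
    (hrel : D.t * τ ^ r = aeval τ P) {c0 : D.A0} (B : BarDatum (withLine D τ) c0) :
    Facts (withLine D τ) c0 where
  gen := hgen
  inv_mem := by
    show τ⁻¹ ∈ D.O
    exact inv_mem_of_rel hD.gauss
      (mem_of_rel hD.gauss.le hD.gauss.t_mem P hP r hr hrel) P r hr0 hP0 hrel
  res := R.withLine hD τ P hP r hr (Or.inr hP0) hrel
  bar := B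

/-- `Stmt_ModelFacts` on the `j`-line (`c0 = -1728`). -/
theorem stmt_ModelFacts_of_jline (N : ℕ) [NeZero N] (ℓ : ℕ)
    (H : ∀ (A : ValuationSubring (AlgebraicClosure ℚ)), A.LiesOverPrime ℓ → ∀ m : ℕ, ¬ ℓ ∣ m →
      ∀ a b : helper3054.IntegralFn A N,
      (∀ P : Place (AlgebraicClosure ℚ) (modularFunctionFieldBar N),
        (m : ℤ) ∣ P.ord a.gen - P.ord b.gen) →
      ∀ w : modularFunctionFieldFullC (IsLocalRing.ResidueField A) N, w ≠ 0 →
        a.red = w ^ m * b.red →
        ∃ D : KData, D.Good m ∧ ¬ D.ϖ ∣ 1728 ∧ Algebra.adjoin D.F0 ({D.θ} : Set D.L0) = ⊤ ∧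
          D.t⁻¹ ∈ D.O ∧ Nonempty (ResDatum D) ∧ Nonempty (BarDatum D (-1728)) ∧
          ∃ ι : D.F0 →+* modularFunctionFieldBar N, ι D.U * b.gen = a.gen) :
    Stmt_ModelFacts N ℓ := by
  intro A hA m hm a b hdiv w hw hred
  obtain ⟨D, hD, h1728, hgen, hinv, ⟨R⟩, ⟨B⟩, ι, hι⟩ := H A hA m hm a b hdiv w hw hred
  exact ⟨D, -1728, hD, fun h => h1728 ((dvd_neg).mp h), ⟨⟨hgen, hinv, R, B⟩⟩, ι, hι⟩

/-- `Stmt_ModelFacts` on the Hauptmodul line of level two: from the `j`-line model (with its
line-independent facts `gen`, `ResDatum`), the Hauptmodul `τ` with `j * τ ^ 2 = (τ + 256) ^ 3`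
and the branch data of the `τ`-line (`c0 = 64`). -/
theorem stmt_ModelFacts_of_line_two (N : ℕ) [NeZero N] (ℓ : ℕ)
    (H : ∀ (A : ValuationSubring (AlgebraicClosure ℚ)), A.LiesOverPrime ℓ → ∀ m : ℕ, ¬ ℓ ∣ m →
      ∀ a b : helper3054.IntegralFn A N,
      (∀ P : Place (AlgebraicClosure ℚ) (modularFunctionFieldBar N),
        (m : ℤ) ∣ P.ord a.gen - P.ord b.gen) →
      ∀ w : modularFunctionFieldFullC (IsLocalRing.ResidueField A) N, w ≠ 0 →
        a.red = w ^ m * b.red →
        ∃ D : KData, D.Good m ∧ ¬ D.ϖ ∣ 2 ∧ Algebra.adjoin D.F0 ({D.θ} : Set D.L0) = ⊤ ∧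
          Nonempty (ResDatum D) ∧
          ∃ τ : D.F0, D.t * τ ^ 2 = (τ + 256) ^ 3 ∧ Nonempty (BarDatum (withLine D τ) 64) ∧
            ∃ ι : D.F0 →+* modularFunctionFieldBar N, ι D.U * b.gen = a.gen) :
    Stmt_ModelFacts N ℓ := by
  intro A hA m hm a b hdiv w hw hred
  obtain ⟨D, hD, h2, hgen, ⟨R⟩, τ, hrel, ⟨B⟩, ι, hι⟩ := H A hA m hm a b hdiv w hw hred
  have hprime : Prime D.ϖ := hD.irr.prime
  have hmon : ((X + C 256) ^ 3 : D.A0[X]).Monic := (monic_X_add_C 256).pow 3
  have hdeg : 2 < ((X + C 256) ^ 3 : D.A0[X]).natDegree := by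
    rw [(monic_X_add_C (256 : D.A0)).natDegree_pow, natDegree_X_add_C]
    norm_num
  have hc : ¬ D.ϖ ∣ ((X + C 256) ^ 3 : D.A0[X]).coeff 0 := by
    rw [coeff_zero_eq_eval_zero, eval_pow, eval_add, eval_X, eval_C, zero_add]
    intro h
    apply h2
    have e : (256 : D.A0) ^ 3 = 2 ^ 24 := by norm_num
    rw [e] at h
    exact hprime.dvd_of_dvd_pow h
  have hrel' : D.t * τ ^ 2 = aeval τ ((X + C 256) ^ 3 : D.A0[X]) := by
    rw [hrel, map_pow, map_add, aeval_X, aeval_C, map_ofNat]
  have h64 : ¬ (withLine D τ).ϖ ∣ (64 : (withLine D τ).A0) := by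
    intro h
    apply h2
    have e : (64 : D.A0) = 2 ^ 6 := by norm_num
    have h' : D.ϖ ∣ (64 : D.A0) := h
    rw [e] at h'
    exact hprime.dvd_of_dvd_pow h'
  exact ⟨withLine D τ, 64, good_withLine_two D m hD τ h2 hrel, h64,
    ⟨Facts.withLine hgen R hD τ _ hmon 2 hdeg (by norm_num) hc hrel' B⟩, ι, hι⟩

/-- `Stmt_ModelFacts` on the Hauptmodul line of level three: from the `j`-line model, the
Hauptmodul `τ` with `j * τ ^ 3 = (τ + 27) * (τ + 243) ^ 3` and the branch data of the `τ`-line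
(`c0 = 27`). -/
theorem stmt_ModelFacts_of_line_three (N : ℕ) [NeZero N] (ℓ : ℕ)
    (H : ∀ (A : ValuationSubring (AlgebraicClosure ℚ)), A.LiesOverPrime ℓ → ∀ m : ℕ, ¬ ℓ ∣ m →
      ∀ a b : helper3054.IntegralFn A N,
      (∀ P : Place (AlgebraicClosure ℚ) (modularFunctionFieldBar N),
        (m : ℤ) ∣ P.ord a.gen - P.ord b.gen) →
      ∀ w : modularFunctionFieldFullC (IsLocalRing.ResidueField A) N, w ≠ 0 →
        a.red = w ^ m * b.red →
        ∃ D : KData, D.Good m ∧ ¬ D.ϖ ∣ 3 ∧ Algebra.adjoin D.F0 ({D.θ} : Set D.L0) = ⊤ ∧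
          Nonempty (ResDatum D) ∧
          ∃ τ : D.F0, D.t * τ ^ 3 = (τ + 27) * (τ + 243) ^ 3 ∧
            Nonempty (BarDatum (withLine D τ) 27) ∧
            ∃ ι : D.F0 →+* modularFunctionFieldBar N, ι D.U * b.gen = a.gen) :
    Stmt_ModelFacts N ℓ := by
  intro A hA m hm a b hdiv w hw hred
  obtain ⟨D, hD, h3, hgen, ⟨R⟩, τ, hrel, ⟨B⟩, ι, hι⟩ := H A hA m hm a b hdiv w hw hred
  have hprime : Prime D.ϖ := hD.irr.prime
  have hmon : ((X + C 27) * (X + C 243) ^ 3 : D.A0[X]).Monic :=
    (monic_X_add_C 27).mul ((monic_X_add_C 243).pow 3)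
  have hdeg : 3 < ((X + C 27) * (X + C 243) ^ 3 : D.A0[X]).natDegree := by
    rw [(monic_X_add_C (27 : D.A0)).natDegree_mul ((monic_X_add_C 243).pow 3),
      (monic_X_add_C (243 : D.A0)).natDegree_pow, natDegree_X_add_C, natDegree_X_add_C]
    norm_num
  have hc : ¬ D.ϖ ∣ ((X + C 27) * (X + C 243) ^ 3 : D.A0[X]).coeff 0 := by
    rw [coeff_zero_eq_eval_zero, eval_mul, eval_pow, eval_add, eval_X, eval_C, zero_add,
      eval_add, eval_X, eval_C, zero_add]
    intro h
    apply h3
    have e : (27 : D.A0) * 243 ^ 3 = 3 ^ 18 := by norm_num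
    rw [e] at h
    exact hprime.dvd_of_dvd_pow h
  have hrel' : D.t * τ ^ 3 = aeval τ ((X + C 27) * (X + C 243) ^ 3 : D.A0[X]) := by
    rw [hrel, map_mul, map_pow, map_add, map_add, aeval_X, aeval_C, aeval_C, map_ofNat,
      map_ofNat]
  have h27 : ¬ (withLine D τ).ϖ ∣ (27 : (withLine D τ).A0) := by
    intro h
    apply h3
    have e : (27 : D.A0) = 3 ^ 3 := by norm_num
    have h' : D.ϖ ∣ (27 : D.A0) := h
    rw [e] at h'
    exact hprime.dvd_of_dvd_pow h'
  exact ⟨withLine D τ, 27, good_withLine_three D m hD τ h3 hrel, h27,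
    ⟨Facts.withLine hgen R hD τ _ hmon 3 hdeg (by norm_num) hc hrel' B⟩, ι, hι⟩

end LineRes

end Fermat.Agent.S18.helper648
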