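import Mathlib
import Fermat.Agent.S18.helper3578_SpecB
import Fermat.Agent.S18.helper403_ChartBase
import Fermat.Agent.S18.helper4364_GaussInv
import Fermat.Agent.S18.helper648_ModelWire
import Fermat.Agent.S18.helper1581_VerticalApp

/-!
# S18-VERT, chart instance (track B, clause (c) / (ET) on the SpecB charts)

`exists_basis_discr_of_gaussData` : for a Gauss place `O` of `F0 ⊇ K0(t)` in the sense of
`helper3578.GaussData`, with a surjective reduction `red : O → Fκ` onto a field separable over a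
subfield `κ` containing the reductions of `A0` and of `t`, and `[F0 : K0(t)] ≤ [Fκ : κ]`, and for
a Kummer extension `L0 = F0(θ)`, `θ ^ m = U` a unit of `O`, `m` a unit of `A0`: the field `L0`
has a basis over (any presentation `K` of) the fraction field of `P = Algebra.adjoin A0 {tL}`
consisting of elements integral over `P`, whose discriminant is an element of `P` not divisible
by `ϖ`.  This is the hypothesis `hc` of the trace-duality normality criterion (DN), verbatim.
-/

set_option autoImplicit false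
set_option linter.unusedSectionVars false
set_option linter.style.haveILetI false

noncomputable section

namespace Fermat.Agent.S18.helper1581

open Module Polynomial
open Fermat.Agent.S18.helper3578 (GaussData KData)

section GaussFacts

variable {A0 F0 : Type*} [CommRing A0] [Field F0] [Algebra A0 F0]
variable {ϖ : A0} {t : F0} {O : ValuationSubring F0}

/-- (O1): `A0[t] ⊆ O`. -/
theorem gaussData_mem_of_mem_adjoin (hG : GaussData ϖ t O) {c : F0}
    (hc : c ∈ Algebra.adjoin A0 {t}) : c ∈ O := by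
  let S : Subalgebra A0 F0 := { O.toSubring with algebraMap_mem' := hG.le }
  have h : Algebra.adjoin A0 {t} ≤ S :=
    Algebra.adjoin_le (Set.singleton_subset_iff.mpr hG.t_mem)
  exact h hc

/-- (O2): a non-unit of `O` lying in `A0[t]` is divisible by `ϖ` in `A0[t]`. -/
theorem gaussData_dvd_of_mem_nonunits (hG : GaussData ϖ t O) {c : F0}
    (hc : c ∈ Algebra.adjoin A0 {t}) (hcn : c ∈ O.nonunits) :
    ∃ c' ∈ Algebra.adjoin A0 {t}, c = algebraMap A0 F0 ϖ * c' := by
  rw [Algebra.adjoin_singleton_eq_range_aeval] at hc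
  obtain ⟨p, rfl⟩ := hc
  have h := hG.prim p hcn
  obtain ⟨q, rfl⟩ := (Polynomial.C_dvd_iff_dvd_coeff ϖ p).mpr h
  refine ⟨aeval t q, ?_, ?_⟩
  · rw [Algebra.adjoin_singleton_eq_range_aeval]
    exact ⟨q, rfl⟩
  · simp

/-- (O3): every element of `O` becomes integral over `A0[t]` after multiplication by an element
of `A0[t]` which is not divisible by `ϖ`. -/
theorem gaussData_exists_mul_isIntegral (hG : GaussData ϖ t O) {x : F0} (hx : x ∈ O) :
    ∃ s ∈ Algebra.adjoin A0 {t},
      (∀ c' ∈ Algebra.adjoin A0 {t}, s ≠ algebraMap A0 F0 ϖ * c') ∧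
      IsIntegral ↥(Algebra.adjoin A0 {t}) (s * x) := by
  obtain ⟨s, ⟨i, hi⟩, hint⟩ := hG.int x hx
  refine ⟨aeval t s, ?_, ?_, hint⟩
  · rw [Algebra.adjoin_singleton_eq_range_aeval]
    exact ⟨s, rfl⟩
  · intro c' hc' heq
    apply hi
    apply hG.prim s
    rw [heq]
    have h1 : O.valuation c' ≤ 1 :=
      (O.valuation_le_one_iff _).mpr (gaussData_mem_of_mem_adjoin hG hc')
    have h2 : O.valuation (algebraMap A0 F0 ϖ) < 1 :=
      (O.mem_nonunits_iff).mp hG.unif
    rw [ValuationSubring.mem_nonunits_iff, map_mul]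
    exact lt_of_le_of_lt (mul_le_of_le_one_right' h1) h2

/-- The reduction of `A0[t]` lies in any subfield containing the reductions of `A0` and `t`. -/
theorem red_mem_range_of_mem_adjoin {κ Fκ : Type*} [Field κ] [Field Fκ] [Algebra κ Fκ]
    (hG : GaussData ϖ t O) (red : O →+* Fκ)
    (hRA : ∀ a : A0, red ⟨algebraMap A0 F0 a, hG.le a⟩ ∈ Set.range (algebraMap κ Fκ))
    (hRt : red ⟨t, hG.t_mem⟩ ∈ Set.range (algebraMap κ Fκ)) {c : F0}
    (hc : c ∈ Algebra.adjoin A0 {t}) (h : c ∈ O) :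
    red ⟨c, h⟩ ∈ Set.range (algebraMap κ Fκ) := by
  revert h
  induction hc using Algebra.adjoin_induction with
  | mem x hx =>
    intro h
    rw [Set.mem_singleton_iff] at hx
    subst hx
    exact hRt
  | algebraMap r =>
    intro h
    exact hRA r
  | add x y hx hy ihx ihy =>
    intro h
    have hx' := gaussData_mem_of_mem_adjoin hG hx
    have hy' := gaussData_mem_of_mem_adjoin hG hy
    have h1 : (⟨x + y, h⟩ : O) = ⟨x, hx'⟩ + ⟨y, hy'⟩ := rfl
    obtain ⟨a, ha⟩ := ihx hx'
    obtain ⟨b, hb⟩ := ihy hy'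
    exact ⟨a + b, by rw [h1, map_add, map_add, ha, hb]⟩
  | mul x y hx hy ihx ihy =>
    intro h
    have hx' := gaussData_mem_of_mem_adjoin hG hx
    have hy' := gaussData_mem_of_mem_adjoin hG hy
    have h1 : (⟨x * y, h⟩ : O) = ⟨x, hx'⟩ * ⟨y, hy'⟩ := rfl
    obtain ⟨a, ha⟩ := ihx hx'
    obtain ⟨b, hb⟩ := ihy hy'
    exact ⟨a * b, by rw [h1, map_mul, map_mul, ha, hb]⟩

/-- A natural number which is a unit of `A0` is a unit of `O`. -/
theorem valuation_natCast_eq_one (hG : GaussData ϖ t O) {m : ℕ} (hm : IsUnit (m : A0)) :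
    O.valuation (m : F0) = 1 := by
  obtain ⟨n, hn⟩ := isUnit_iff_exists_inv.mp hm
  have h1 : (m : F0) * algebraMap A0 F0 n = 1 := by
    rw [← map_natCast (algebraMap A0 F0), ← map_mul, hn, map_one]
  have hm1 : O.valuation (m : F0) ≤ 1 := by
    rw [← map_natCast (algebraMap A0 F0)]
    exact (O.valuation_le_one_iff _).mpr (hG.le _)
  have hn1 : O.valuation (algebraMap A0 F0 n) ≤ 1 := (O.valuation_le_one_iff _).mpr (hG.le n)
  have h2 : O.valuation (m : F0) * O.valuation (algebraMap A0 F0 n) = 1 := by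
    rw [← map_mul, h1, map_one]
  refine le_antisymm hm1 ?_
  calc (1 : _) = O.valuation (m : F0) * O.valuation (algebraMap A0 F0 n) := h2.symm
    _ ≤ O.valuation (m : F0) := mul_le_of_le_one_right' hn1

end GaussFacts

section Chart

variable {A0 K0 F0 L0 : Type*} [CommRing A0] [IsDomain A0] [Field K0] [Algebra A0 K0]
  [IsFractionRing A0 K0] [Field F0] [Algebra K0 F0] [Algebra A0 F0] [IsScalarTower A0 K0 F0]
  [Field L0] [Algebra F0 L0] [Algebra A0 L0] [IsScalarTower A0 F0 L0]

omit [IsDomain A0] [IsFractionRing A0 K0] in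
theorem adjoin_le_adjoin_simple (t : F0) {x : F0} (hx : x ∈ Algebra.adjoin A0 {t}) :
    x ∈ IntermediateField.adjoin K0 {t} := by
  have h : Algebra.adjoin A0 {t} ≤
      (IntermediateField.adjoin K0 {t}).toSubalgebra.restrictScalars A0 :=
    Algebra.adjoin_le (Set.singleton_subset_iff.mpr (IntermediateField.mem_adjoin_simple_self K0 t))
  exact h hx

/-- Every element of `K0(t)` is a quotient of two elements of `A0[t]`. -/
theorem exists_div_of_mem_adjoin_simple {t z : F0} (hz : z ∈ IntermediateField.adjoin K0 {t}) :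
    ∃ x ∈ Algebra.adjoin A0 {t}, ∃ y ∈ Algebra.adjoin A0 {t}, z = x / y := by
  obtain ⟨r, s, rfl⟩ := (IntermediateField.mem_adjoin_simple_iff K0 z).mp hz
  obtain ⟨br, hbrM, hbr⟩ :=
    IsLocalization.integerNormalization_spec (nonZeroDivisors A0) r
  obtain ⟨bs, hbsM, hbs⟩ :=
    IsLocalization.integerNormalization_spec (nonZeroDivisors A0) s
  have hinj : Function.Injective (algebraMap A0 F0) := by
    rw [IsScalarTower.algebraMap_eq A0 K0 F0]
    exact (algebraMap K0 F0).injective.comp (IsFractionRing.injective A0 K0)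
  have hbr0 : algebraMap A0 F0 br ≠ 0 := fun h =>
    nonZeroDivisors.ne_zero hbrM (hinj (by rw [h, map_zero]))
  have hbs0 : algebraMap A0 F0 bs ≠ 0 := fun h =>
    nonZeroDivisors.ne_zero hbsM (hinj (by rw [h, map_zero]))
  have key : ∀ (p : K0[X]) (b : A0) (p0 : A0[X]), p0.map (algebraMap A0 K0) = b • p →
      aeval t p0 = aeval t p * algebraMap A0 F0 b := by
    intro p b p0 h
    rw [← aeval_map_algebraMap K0 t p0, h, ← algebraMap_smul K0 b p, map_smul, Algebra.smul_def,
      ← IsScalarTower.algebraMap_apply, mul_comm]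
  have hr := key r br _ hbr
  have hs := key s bs _ hbs
  have hmem : ∀ p0 : A0[X], aeval t p0 ∈ Algebra.adjoin A0 {t} := by
    intro p0
    rw [Algebra.adjoin_singleton_eq_range_aeval]
    exact ⟨p0, rfl⟩
  refine ⟨aeval t (IsLocalization.integerNormalization (nonZeroDivisors A0) r) *
      algebraMap A0 F0 bs, Subalgebra.mul_mem _ (hmem _) (Subalgebra.algebraMap_mem _ _),
    aeval t (IsLocalization.integerNormalization (nonZeroDivisors A0) s) *
      algebraMap A0 F0 br, Subalgebra.mul_mem _ (hmem _) (Subalgebra.algebraMap_mem _ _), ?_⟩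
  rw [hr, hs, mul_assoc, mul_assoc, mul_comm (algebraMap A0 F0 bs),
    mul_div_mul_right _ _ (mul_ne_zero hbr0 hbs0)]

/-- The inclusion `A0[t] → K0(t)` (inside `F0`). -/
def adjoinToAdjoinSimple (t : F0) :
    ↥(Algebra.adjoin A0 {t}) →+* ↥(IntermediateField.adjoin K0 {t}) :=
  ((Algebra.adjoin A0 {t}).val : ↥(Algebra.adjoin A0 {t}) →+* F0).codRestrict
    (IntermediateField.adjoin K0 {t}) (fun x => adjoin_le_adjoin_simple t x.2)

/-- `K0(t)` is the fraction field of `A0[t]`. -/
theorem isFractionRing_adjoin_adjoin_simple (t : F0) :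
    letI := (adjoinToAdjoinSimple (A0 := A0) (K0 := K0) t).toAlgebra
    IsFractionRing ↥(Algebra.adjoin A0 {t}) ↥(IntermediateField.adjoin K0 {t}) := by
  letI := (adjoinToAdjoinSimple (A0 := A0) (K0 := K0) t).toAlgebra
  have hinj : Function.Injective
      (algebraMap ↥(Algebra.adjoin A0 {t}) ↥(IntermediateField.adjoin K0 {t})) := by
    intro x y hxy
    apply Subtype.ext
    exact congrArg (fun z : ↥(IntermediateField.adjoin K0 {t}) => (z : F0)) hxy
  haveI : FaithfulSMul ↥(Algebra.adjoin A0 {t}) ↥(IntermediateField.adjoin K0 {t}) :=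
    (faithfulSMul_iff_algebraMap_injective _ _).mpr hinj
  refine IsFractionRing.of_field _ _ fun z => ?_
  obtain ⟨x, hx, y, hy, hz⟩ := exists_div_of_mem_adjoin_simple (A0 := A0) z.2
  refine ⟨⟨x, hx⟩, ⟨y, hy⟩, ?_⟩
  apply Subtype.ext
  rw [IntermediateField.coe_div]
  exact hz

/-- **VERT on a chart** (clause (c) of DN / (ET) of GRDUAL, in the `hc` shape): see the module
docstring. -/
theorem exists_basis_discr_of_gaussData
    {ϖ : A0} {t : F0} {O : ValuationSubring F0} (hG : GaussData ϖ t O)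
    (tL : L0) (htL : algebraMap F0 L0 t = tL)
    [IsIntegrallyClosed ↥(Algebra.adjoin A0 {tL})]
    {K : Type*} [Field K] [Algebra ↥(Algebra.adjoin A0 {tL}) K]
    [IsFractionRing ↥(Algebra.adjoin A0 {tL}) K] [Algebra K L0]
    [IsScalarTower ↥(Algebra.adjoin A0 {tL}) K L0] [FiniteDimensional K L0]
    {κ Fκ : Type*} [Field κ] [Field Fκ] [Algebra κ Fκ] [Algebra.IsSeparable κ Fκ]
    (red : O →+* Fκ) (hred : Function.Surjective red)
    (hRA : ∀ a : A0, red ⟨algebraMap A0 F0 a, hG.le a⟩ ∈ Set.range (algebraMap κ Fκ))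
    (hRt : red ⟨t, hG.t_mem⟩ ∈ Set.range (algebraMap κ Fκ))
    (hR3 : finrank ↥(IntermediateField.adjoin K0 {t}) F0 ≤ finrank κ Fκ)
    (m : ℕ) (hm : 0 < m) (hmA : IsUnit (m : A0)) (ζ : A0) (hζ : IsPrimitiveRoot ζ m)
    (θ : L0) (U : F0) (hθ : θ ^ m = algebraMap F0 L0 U) (hU : U ∈ O) (hU' : U⁻¹ ∈ O)
    (hgen : finrank F0 L0 = (minpoly F0 θ).natDegree) :
    ∃ (ι : Type) (_ : Fintype ι) (_ : DecidableEq ι) (c : Basis ι K L0)
      (d : ↥(Algebra.adjoin A0 {tL})),
      (∀ i, IsIntegral ↥(Algebra.adjoin A0 {tL}) (c i)) ∧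
        Algebra.discr K c = algebraMap ↥(Algebra.adjoin A0 {tL}) K d ∧
        ¬ algebraMap A0 ↥(Algebra.adjoin A0 {tL}) ϖ ∣ d := by
  classical
  subst htL
  -- the isomorphism `A0[t] ≃ A0[tL]`
  let f : F0 →ₐ[A0] L0 := IsScalarTower.toAlgHom A0 F0 L0
  have hf : Function.Injective f := (algebraMap F0 L0).injective
  have hmap : (Algebra.adjoin A0 {t}).map f = Algebra.adjoin A0 {algebraMap F0 L0 t} :=
    AlgHom.map_adjoin_singleton f t
  let eA : ↥(Algebra.adjoin A0 {t}) ≃ₐ[A0] ↥(Algebra.adjoin A0 {algebraMap F0 L0 t}) :=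
    ((Algebra.adjoin A0 {t}).equivMapOfInjective f hf).trans (Subalgebra.equivOfEq _ _ hmap)
  have he : ∀ x : ↥(Algebra.adjoin A0 {t}),
      algebraMap ↥(Algebra.adjoin A0 {algebraMap F0 L0 t}) L0 (eA.toRingEquiv x) =
        algebraMap ↥(Algebra.adjoin A0 {t}) L0 x := fun x => rfl
  have hinj : Function.Injective (algebraMap A0 F0) := by
    rw [IsScalarTower.algebraMap_eq A0 K0 F0]
    exact (algebraMap K0 F0).injective.comp (IsFractionRing.injective A0 K0)
  -- instances on the `F0`-side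
  letI algCK : Algebra ↥(Algebra.adjoin A0 {t}) ↥(IntermediateField.adjoin K0 {t}) :=
    (adjoinToAdjoinSimple (A0 := A0) (K0 := K0) t).toAlgebra
  haveI : IsFractionRing ↥(Algebra.adjoin A0 {t}) ↥(IntermediateField.adjoin K0 {t}) :=
    isFractionRing_adjoin_adjoin_simple t
  haveI : IsScalarTower ↥(Algebra.adjoin A0 {t}) ↥(IntermediateField.adjoin K0 {t}) F0 :=
    IsScalarTower.of_algebraMap_eq fun x => rfl
  haveI : IsScalarTower ↥(Algebra.adjoin A0 {t}) ↥(IntermediateField.adjoin K0 {t}) L0 :=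
    IsScalarTower.of_algebraMap_eq fun x => rfl
  haveI : IsScalarTower ↥(Algebra.adjoin A0 {t}) F0 L0 :=
    IsScalarTower.of_algebraMap_eq fun x => rfl
  haveI : IsIntegrallyClosed ↥(Algebra.adjoin A0 {t}) :=
    IsIntegrallyClosed.of_equiv eA.symm.toRingEquiv
  -- finiteness on the `F0`-side
  let σ : ↥(IntermediateField.adjoin K0 {t}) ≃+* K :=
    IsFractionRing.ringEquivOfRingEquiv eA.toRingEquiv
  have hσ : ∀ x : ↥(IntermediateField.adjoin K0 {t}),
      algebraMap K L0 (σ x) = algebraMap ↥(IntermediateField.adjoin K0 {t}) L0 x :=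
    algebraMap_ringEquivOfRingEquiv eA.toRingEquiv he
  haveI : FiniteDimensional ↥(IntermediateField.adjoin K0 {t}) L0 := by
    refine Module.Finite.of_equiv_equiv (A₁ := K) (B₁ := L0) σ.symm (RingEquiv.refl L0) ?_
    ext x
    simp only [RingHom.coe_comp, Function.comp_apply, RingHom.coe_coe, RingEquiv.refl_apply]
    rw [← hσ, RingEquiv.apply_symm_apply]
  haveI : FiniteDimensional ↥(IntermediateField.adjoin K0 {t}) F0 :=
    FiniteDimensional.left ↥(IntermediateField.adjoin K0 {t}) F0 L0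
  -- the abstract assembly on the `F0`-side
  obtain ⟨d, c', δ', hint', hdisc', hnd'⟩ :=
    exists_integral_basis_discr_not_dvd' (C := ↥(Algebra.adjoin A0 {t}))
      (K := ↥(IntermediateField.adjoin K0 {t})) (F := F0) (L := L0) (κ := κ) (Fκ := Fκ)
      (algebraMap A0 ↥(Algebra.adjoin A0 {t}) ϖ) O
      (fun c => gaussData_mem_of_mem_adjoin hG c.2)
      (fun c hc => by
        obtain ⟨c', hc', h⟩ := gaussData_dvd_of_mem_nonunits hG c.2 hc
        exact ⟨⟨c', hc'⟩, Subtype.ext h⟩)
      (fun x hx => by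
        obtain ⟨s, hs, hns, hint⟩ := gaussData_exists_mul_isIntegral hG hx
        refine ⟨⟨s, hs⟩, ?_, hint⟩
        rintro ⟨c', hc'⟩
        exact hns c'.1 c'.2 (congrArg Subtype.val hc'))
      hG.unif red hred
      (fun c => red_mem_range_of_mem_adjoin hG red hRA hRt c.2 _)
      hR3 m hm (valuation_natCast_eq_one hG hmA) (algebraMap A0 F0 ζ)
      (hζ.map_of_injective hinj) θ U hθ hU hU' hgen
  -- transport to `A0[tL] ⊂ K`
  obtain ⟨c, hc, hint, hdisc⟩ :=
    exists_basis_discr_transport (K' := ↥(IntermediateField.adjoin K0 {t})) (K := K)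
      eA.toRingEquiv he c' δ' hint' hdisc'
  refine ⟨Fin (finrank ↥(IntermediateField.adjoin K0 {t}) F0) × Fin d, inferInstance,
    inferInstance, c, eA δ', hint, hdisc, ?_⟩
  rintro ⟨y, hy⟩
  apply hnd'
  refine ⟨eA.symm y, ?_⟩
  apply eA.injective
  rw [map_mul, AlgEquiv.apply_symm_apply, AlgEquiv.commutes]
  exact hy

end Chart

section KDataInstance

variable (D : KData) {m : ℕ}

/-- **VERT for a good model** (`helper3578.KData`), on both charts `s ∈ {tL, tL⁻¹}`, in the `hc`
shape of the trace-duality normality criterion and in the `∀ s` shape of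
`helper403.kdata_oneComp_of_charts`.  The only inputs beyond `D.Good m` are the residue data of the
Gauss place (`red` onto a field `Fκ`, separable over a subfield `κ` containing the reductions of
`A0` and of `t`, with `[F0 : K0(t)] ≤ [Fκ : κ]`) and the generation hypothesis `L0 = F0(θ)`. -/
theorem kdata_pos (hg : D.Good m) : 0 < m := by
  rcases Nat.eq_zero_or_pos m with h0 | h0
  · exfalso
    have h1 := hg.unit_m
    rw [h0, Nat.cast_zero] at h1
    exact not_isUnit_zero h1
  · exact h0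

theorem kdata_exists_basis_discr (hg : D.Good m)
    {κ Fκ : Type*} [Field κ] [Field Fκ] [Algebra κ Fκ] [Algebra.IsSeparable κ Fκ]
    (red : D.O →+* Fκ) (hred : Function.Surjective red)
    (hRA : ∀ a : D.A0,
      red ⟨algebraMap D.A0 D.F0 a, hg.gauss.le a⟩ ∈ Set.range (algebraMap κ Fκ))
    (hRt : red ⟨D.t, hg.gauss.t_mem⟩ ∈ Set.range (algebraMap κ Fκ))
    (hR3 : finrank ↥(IntermediateField.adjoin D.K0 {D.t}) D.F0 ≤ finrank κ Fκ)
    (hgen : finrank D.F0 D.L0 = (minpoly D.F0 D.θ).natDegree)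
    (s : D.L0) (hs : s = D.tL ∨ s = D.tL⁻¹)
    {K : Type*} [Field K] [Algebra ↥(Algebra.adjoin D.A0 {s}) K]
    [IsFractionRing ↥(Algebra.adjoin D.A0 {s}) K] [Algebra K D.L0]
    [IsScalarTower ↥(Algebra.adjoin D.A0 {s}) K D.L0] [FiniteDimensional K D.L0] :
    ∃ (ι : Type) (_ : Fintype ι) (_ : DecidableEq ι) (c : Basis ι K D.L0)
      (d : ↥(Algebra.adjoin D.A0 {s})),
      (∀ i, IsIntegral ↥(Algebra.adjoin D.A0 {s}) (c i)) ∧
        Algebra.discr K c = algebraMap ↥(Algebra.adjoin D.A0 {s}) K d ∧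
        ¬ algebraMap D.A0 ↥(Algebra.adjoin D.A0 {s}) D.ϖ ∣ d := by
  have hm : 0 < m := kdata_pos D hg
  have htr : Transcendental D.K0 D.tL := helper403.kdata_transcendental_tL D hg
  rcases hs with rfl | rfl
  · haveI : IsIntegrallyClosed ↥(Algebra.adjoin D.A0 {D.tL}) :=
      helper403.isIntegrallyClosed_adjoin D.tL (helper403.kdata_transcendental_base D htr)
    exact exists_basis_discr_of_gaussData (K0 := D.K0) hg.gauss D.tL rfl red hred hRA hRt hR3
      m hm hg.unit_m D.ζ hg.prim_root D.θ D.U hg.θ_pow hg.U_mem hg.U_inv_mem hgen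
  · have hG1 := helper4364.gaussData_inv hg.gauss
    haveI : IsIntegrallyClosed ↥(Algebra.adjoin D.A0 {D.tL⁻¹}) :=
      helper403.isIntegrallyClosed_adjoin D.tL⁻¹
        (helper403.kdata_transcendental_base D (helper403.kdata_transcendental_tL_inv D hg))
    have hRt1 : red ⟨D.t⁻¹, hG1.t_mem⟩ ∈ Set.range (algebraMap κ Fκ) := by
      obtain ⟨a, ha⟩ := hRt
      have ht0 : D.t ≠ 0 := helper4364.GaussData_t_ne_zero hg.gauss
      have h1 : (⟨D.t, hg.gauss.t_mem⟩ : D.O) * ⟨D.t⁻¹, hG1.t_mem⟩ = 1 :=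
        Subtype.ext (mul_inv_cancel₀ ht0)
      have h2 := congrArg red h1
      rw [map_mul, map_one, ← ha] at h2
      exact ⟨a⁻¹, by rw [map_inv₀, eq_inv_of_mul_eq_one_right h2]⟩
    have hR31 : finrank ↥(IntermediateField.adjoin D.K0 {D.t⁻¹}) D.F0 ≤ finrank κ Fκ := by
      rw [helper403.adjoinSimple_inv]
      exact hR3
    exact exists_basis_discr_of_gaussData (K0 := D.K0) hG1 D.tL⁻¹ (map_inv₀ _ _) red hred hRA
      hRt1 hR31 m hm hg.unit_m D.ζ hg.prim_root D.θ D.U hg.θ_pow hg.U_mem hg.U_inv_mem hgen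

/-- The same with `K := K0(s)` carrying the chart-base algebra structure
`helper403.algebraAdjoinSimple`: the hypothesis `hc` of `helper1148.dualBound_chart`, verbatim. -/
theorem kdata_exists_basis_discr_adjoinSimple (hg : D.Good m)
    {κ Fκ : Type*} [Field κ] [Field Fκ] [Algebra κ Fκ] [Algebra.IsSeparable κ Fκ]
    (red : D.O →+* Fκ) (hred : Function.Surjective red)
    (hRA : ∀ a : D.A0,
      red ⟨algebraMap D.A0 D.F0 a, hg.gauss.le a⟩ ∈ Set.range (algebraMap κ Fκ))
    (hRt : red ⟨D.t, hg.gauss.t_mem⟩ ∈ Set.range (algebraMap κ Fκ))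
    (hR3 : finrank ↥(IntermediateField.adjoin D.K0 {D.t}) D.F0 ≤ finrank κ Fκ)
    (hgen : finrank D.F0 D.L0 = (minpoly D.F0 D.θ).natDegree)
    (s : D.L0) (hs : s = D.tL ∨ s = D.tL⁻¹) :
    letI := helper403.algebraAdjoinSimple (A := D.A0) (K := D.K0) s
    ∃ (ι : Type) (_ : Fintype ι) (_ : DecidableEq ι)
      (c : Basis ι ↥(IntermediateField.adjoin D.K0 {s}) D.L0) (d : ↥(Algebra.adjoin D.A0 {s})),
      (∀ i, IsIntegral ↥(Algebra.adjoin D.A0 {s}) (c i)) ∧
        Algebra.discr ↥(IntermediateField.adjoin D.K0 {s}) c =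
          algebraMap ↥(Algebra.adjoin D.A0 {s}) ↥(IntermediateField.adjoin D.K0 {s}) d ∧
        ¬ algebraMap D.A0 ↥(Algebra.adjoin D.A0 {s}) D.ϖ ∣ d := by
  letI := helper403.algebraAdjoinSimple (A := D.A0) (K := D.K0) s
  haveI := helper403.isFractionRing_adjoinSimple (A := D.A0) (K := D.K0) s
  haveI := helper403.isScalarTower_adjoinSimple (A := D.A0) (K := D.K0) s
  haveI : FiniteDimensional ↥(IntermediateField.adjoin D.K0 {s}) D.L0 := by
    rcases hs with rfl | rfl
    · exact helper403.kdata_finite D hg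
    · exact helper403.kdata_finite_inv D hg
  exact kdata_exists_basis_discr D hg red hred hRA hRt hR3 hgen s hs

/-- **VERT from the model facts** (`helper648.Facts`): clause (c) on both charts of a good model,
in the `hc` shape of `helper1148.dualBound_chart` / `helper98.oneComponent_of_dualNormal`. -/
theorem kdata_exists_basis_discr_of_facts (hg : D.Good m) (c0 : D.A0)
    (F : helper648.Facts D c0) (s : D.L0) (hs : s = D.tL ∨ s = D.tL⁻¹) :
    letI := helper403.algebraAdjoinSimple (A := D.A0) (K := D.K0) s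
    ∃ (ι : Type) (_ : Fintype ι) (_ : DecidableEq ι)
      (c : Basis ι ↥(IntermediateField.adjoin D.K0 {s}) D.L0) (d : ↥(Algebra.adjoin D.A0 {s})),
      (∀ i, IsIntegral ↥(Algebra.adjoin D.A0 {s}) (c i)) ∧
        Algebra.discr ↥(IntermediateField.adjoin D.K0 {s}) c =
          algebraMap ↥(Algebra.adjoin D.A0 {s}) ↥(IntermediateField.adjoin D.K0 {s}) d ∧
        ¬ algebraMap D.A0 ↥(Algebra.adjoin D.A0 {s}) D.ϖ ∣ d :=
  kdata_exists_basis_discr_adjoinSimple D hg F.res.red F.res.red_surj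
    (fun a => F.res.red_base a _) (F.res.red_coord _) F.res.finrank_le
    (finrank_eq_natDegree_of_algebra_adjoin_eq_top
      (isIntegral_of_pow_eq_algebraMap (kdata_pos D hg) hg.θ_pow) F.gen) s hs

end KDataInstance

end Fermat.Agent.S18.helper1581
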