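import Mathlib
import Fermat.Agent.S18.helper1581_VertChart

/-!
# S18-VERT in the SpecB v3 shapes

`kdata_vertAt_of_facts` : `D.Good m` and `helper648.Facts D c0` give `D.VertAt s` on both charts
`s ∈ {tL, tL⁻¹}` (clause (c) of `helper3578.Stmt_DNChart`).
-/

set_option autoImplicit false
set_option linter.style.haveILetI false

noncomputable section

namespace Fermat.Agent.S18.helper1581

open Module Polynomial
open Fermat.Agent.S18.helper3578 (GaussData KData)

section VertAt

variable (D : KData) {m : ℕ}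

/-- **(c) on both charts, SpecB v3 shape**: `helper3578.KData.VertAt s` for `s = tL` and
`s = tL⁻¹`, from `Good` and the model facts (only `Facts.res` and `Facts.gen` are used). -/
theorem kdata_vertAt_of_facts (hg : D.Good m) (c0 : D.A0) (F : helper648.Facts D c0)
    (s : D.L0) (hs : s = D.tL ∨ s = D.tL⁻¹) : D.VertAt s := by
  letI := helper403.algebraAdjoinSimple (A := D.A0) (K := D.K0) s
  obtain ⟨ι, hF, hDec, c, d, hint, hdisc, hnd⟩ :=
    kdata_exists_basis_discr_of_facts D hg c0 F s hs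
  have hd : (d : D.L0) ∈ (aeval s : D.A0[X] →ₐ[D.A0] D.L0).range :=
    (Algebra.adjoin_singleton_eq_range_aeval D.A0 s).le d.2
  obtain ⟨dp, hdp⟩ := hd
  refine ⟨ι, hF, hDec, c, dp, hint, ?_, ?_⟩
  · rw [hdisc]
    exact hdp.symm
  · by_contra hcon
    have hcon' : ∀ i, D.ϖ ∣ dp.coeff i := fun i => by
      by_contra h
      exact hcon ⟨i, h⟩
    obtain ⟨q, rfl⟩ := (Polynomial.C_dvd_iff_dvd_coeff D.ϖ dp).mpr hcon'
    apply hnd
    have hq : aeval s q ∈ Algebra.adjoin D.A0 {s} := by
      rw [Algebra.adjoin_singleton_eq_range_aeval]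
      exact ⟨q, rfl⟩
    refine ⟨⟨aeval s q, hq⟩, Subtype.ext ?_⟩
    have h1 : (aeval s) (C D.ϖ * q) = algebraMap D.A0 D.L0 D.ϖ * aeval s q := by
      rw [map_mul, aeval_C]
    exact hdp.symm.trans h1

end VertAt

end Fermat.Agent.S18.helper1581
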