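/-
S18-HLINE (helper1622, backup of board #1239): the Hauptmodul line `x = t_r` (`r = 2, 3`) inside
the frozen function fields `modularFunctionFieldFullC K N'`, for every field `K : Type` in which
`r` is invertible (characteristic zero or the residue field), by pure field algebra.

Input: two identities of Laurent series over `K` (reductions of integer `q`-series identities):
* `r = 2`: `j * x ^ 2 = (x + 256) ^ 3` and `j(q²) * x = (x + 16) ^ 3`;
* `r = 3`: `j * x ^ 3 = (x + 27) * (x + 243) ^ 3` and `j(q³) * x = (x + 27) * (x + 3) ^ 3`.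

Output: `K(x) = K(j, j(q^r))`, `[K(x) : K(j)] = r + 1`, `x` transcendental,
`[F_{N'} : K(x)] * (r + 1) = ψ(N')`.
-/
import Mathlib
import Fermat.Prelude.Def_ModularCurve_X0ModL
import Fermat.Prelude.Def_ModularCurve_ArithmeticGalois
import Fermat.Agent.S28.helper1457_TowerNoPhi
import Fermat.Agent.S28.helper559_TowerFromPrime
import Fermat.Agent.S28.helper508_FormalPrime

set_option autoImplicit false

noncomputable section

namespace Fermat.Agent.S18.helper1622

open IntermediateField ModularCurve Polynomial Cardinal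

section Generic

variable {k Ω : Type*} [Field k] [Field Ω] [Algebra k Ω]

theorem one_le_relrank (A B : IntermediateField k Ω) : 1 ≤ A.relrank B := by
  rw [Cardinal.one_le_iff_ne_zero]
  intro h
  have h2 : A.relrank B = Module.rank ↥(A ⊓ B) (extendScalars (inf_le_right : A ⊓ B ≤ B)) := by
    rw [← inf_relrank_right, relrank_eq_rank_of_le inf_le_right]
  rw [h2] at h
  exact (rank_pos (R := ↥(A ⊓ B)) (M := ↥(extendScalars (inf_le_right : A ⊓ B ≤ B)))).ne' h

/-- Squeeze: `A ≤ B ≤ C`, `n ≤ [B : A]`, `[C : A] ≤ n` imply `B = C` and both degrees are `n`. -/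
theorem eq_of_relrank_squeeze (A B C : IntermediateField k Ω) (hAB : A ≤ B) (hBC : B ≤ C) (n : ℕ)
    (hn : 0 < n) (h1 : (n : Cardinal) ≤ A.relrank B) (h2 : A.relrank C ≤ (n : Cardinal)) :
    B = C ∧ A.relrank C = (n : Cardinal) ∧ A.relrank B = (n : Cardinal) := by
  have hmul := relrank_mul_relrank hAB hBC
  have hBle : A.relrank B ≤ A.relrank C := by
    calc A.relrank B = A.relrank B * 1 := (mul_one _).symm
      _ ≤ A.relrank B * B.relrank C := by gcongr; exact one_le_relrank B C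
      _ = A.relrank C := hmul
  have hB : A.relrank B = (n : Cardinal) := le_antisymm (hBle.trans h2) h1
  have hC : A.relrank C = (n : Cardinal) := le_antisymm h2 (h1.trans hBle)
  refine ⟨?_, hC, hB⟩
  have hBC1 : B.relrank C = 1 := by
    rw [hB, hC] at hmul
    have hfin : B.relrank C < aleph0 := by
      by_contra hcon
      rw [not_lt] at hcon
      have : aleph0 ≤ (n : Cardinal) := by
        calc aleph0 ≤ B.relrank C := hcon
          _ = 1 * B.relrank C := (one_mul _).symm
          _ ≤ (n : Cardinal) * B.relrank C := by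
              gcongr
              exact_mod_cast hn
          _ = (n : Cardinal) := hmul
      exact absurd this (not_le.mpr (natCast_lt_aleph0))
    obtain ⟨m, hm⟩ := Cardinal.lt_aleph0.mp hfin
    rw [hm] at hmul ⊢
    have hm' : n * m = n := by exact_mod_cast hmul
    have : m = 1 := by
      have := Nat.eq_of_mul_eq_mul_left hn (hm'.trans (mul_one n).symm)
      exact this
    rw [this]; simp
  exact le_antisymm hBC (relrank_eq_one_iff.mp hBC1)

end Generic

section Line

variable (K : Type) [Field K]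

/-- For a prime `r`, the level-`r` field is `K(j, j(q^r))`. -/
theorem full_prime_eq_pair (r : ℕ) [NeZero r] (hr : r.Prime) :
    modularFunctionFieldFullC K r = K⟮jqModC K, qExpand K r (jqModC K)⟯ := by
  apply le_antisymm
  · rw [modularFunctionFieldFullC, adjoin_le_iff]
    rintro x ⟨d, hd0, hd, rfl⟩
    rcases (Nat.dvd_prime hr).mp hd with rfl | rfl
    · rw [qExpand_one_apply]
      exact subset_adjoin K _ (Set.mem_insert _ _)
    · exact subset_adjoin K _ (Set.mem_insert_of_mem _ rfl)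
  · rw [adjoin_le_iff]
    rintro x (rfl | rfl)
    · exact jqModC_mem_full K r
    · exact jqModCd_mem_full K r dvd_rfl

theorem simple_jq_le_full (N : ℕ) : K⟮jqModC K⟯ ≤ modularFunctionFieldFullC K N := by
  rw [adjoin_le_iff]
  rintro x rfl
  exact jqModC_mem_full K N

/-- `j` is transcendental over the coefficient field. -/
theorem transcendental_jqModC : Transcendental K (jqModC K) :=
  (transcendental_iff_injective).mpr (Fermat.Agent.S28.helper3292.aeval_jqModC_injective K)

/-- **Abstract Hauptmodul line.** If `j` and `j(q^r)` are rational functions of `x` and `x` is a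
root of a monic polynomial of degree `r + 1` over `K(j)`, then `K(x) = K(j, j(q^r))` is the
level-`r` function field, of degree `r + 1` over `K(j)`. -/
theorem hline_abstract (r : ℕ) [NeZero r] (hr : r.Prime) (hrK : (r : K) ≠ 0)
    (x : LaurentSeries K) (hj : jqModC K ∈ K⟮x⟯) (hjr : qExpand K r (jqModC K) ∈ K⟮x⟯)
    (p : (↥(K⟮jqModC K⟯))[X]) (hp : p.Monic) (hdeg : p.natDegree = r + 1)
    (hroot : aeval x p = 0) :
    K⟮x⟯ = modularFunctionFieldFullC K r ∧
      (K⟮jqModC K⟯).relrank K⟮x⟯ = ((r + 1 : ℕ) : Cardinal) := by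
  have hAB : K⟮jqModC K⟯ ≤ K⟮jqModC K, qExpand K r (jqModC K)⟯ := by
    rw [adjoin_le_iff]
    rintro z rfl
    exact subset_adjoin K _ (Set.mem_insert _ _)
  have hBC : K⟮jqModC K, qExpand K r (jqModC K)⟯ ≤ K⟮x⟯ := by
    rw [adjoin_le_iff]
    rintro z (rfl | rfl)
    · exact hj
    · exact hjr
  have hint : IsIntegral ↥(K⟮jqModC K⟯) x := ⟨p, hp, hroot⟩
  have hC : K⟮x⟯ = ((↥(K⟮jqModC K⟯))⟮x⟯).restrictScalars K := by
    rw [adjoin_simple_adjoin_simple]
    apply le_antisymm
    · rw [adjoin_le_iff]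
      rintro z rfl
      exact subset_adjoin K _ (Set.mem_insert_of_mem _ rfl)
    · rw [adjoin_le_iff]
      rintro z (rfl | rfl)
      · exact hj
      · exact mem_adjoin_simple_self K _
  have h2 : (K⟮jqModC K⟯).relrank K⟮x⟯ ≤ ((r + 1 : ℕ) : Cardinal) := by
    rw [hC, Fermat.Agent.S28.helper1595.relrank_adjoin_simple _ _ hint]
    have hle : (minpoly ↥(K⟮jqModC K⟯) x).natDegree ≤ p.natDegree :=
      natDegree_le_of_dvd (minpoly.dvd _ _ hroot) hp.ne_zero
    rw [hdeg] at hle
    exact_mod_cast hle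
  have h1 := Fermat.Agent.S28.helper1457.natCast_succ_le_relrank_pair K r hr hrK
  obtain ⟨hBCeq, hrk, -⟩ := eq_of_relrank_squeeze _ _ _ hAB hBC (r + 1) (Nat.succ_pos r) h1 h2
  exact ⟨by rw [full_prime_eq_pair K r hr, hBCeq], hrk⟩

/-- `x` is transcendental as soon as `j` is a rational function of `x`. -/
theorem transcendental_of_jq_mem (x : LaurentSeries K) (hj : jqModC K ∈ K⟮x⟯) :
    Transcendental K x := by
  intro hx
  have halg : Algebra.IsAlgebraic K ↥(K⟮x⟯) := isAlgebraic_adjoin_simple hx.isIntegral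
  have h1 : IsAlgebraic K (⟨jqModC K, hj⟩ : ↥(K⟮x⟯)) := halg.isAlgebraic _
  exact transcendental_jqModC K ((isAlgebraic_iff (S := K⟮x⟯)).mp h1)

/-- Tower law on the Hauptmodul line: `[F_{N'} : K(x)] * (r + 1) = ψ(N')`. -/
theorem relrank_hline_full (r : ℕ) [NeZero r] (x : LaurentSeries K)
    (hfull : K⟮x⟯ = modularFunctionFieldFullC K r)
    (hrk : (K⟮jqModC K⟯).relrank K⟮x⟯ = ((r + 1 : ℕ) : Cardinal))
    (N' : ℕ) [NeZero N'] (hrN : r ∣ N') (hNK : ∀ p : ℕ, p.Prime → p ∣ N' → (p : K) ≠ 0) :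
    (K⟮x⟯).relrank (modularFunctionFieldFullC K N') * ((r + 1 : ℕ) : Cardinal) =
      (dedekindPsi N' : Cardinal) := by
  have hdeg : (K⟮jqModC K⟯).relrank (modularFunctionFieldFullC K N') = (dedekindPsi N' : Cardinal) :=
    Fermat.Agent.S28.helper1457.relrank_full_eq_dedekindPsi_of_hub K N' (NeZero.pos N')
      (Fermat.Agent.S28.helper559.hub_of_formalPrime K N' (NeZero.pos N')
        (fun p _ _ => Fermat.Agent.S28.helper508.stmt_FormalPrime p)) hNK
  have h1 : K⟮jqModC K⟯ ≤ K⟮x⟯ := by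
    rw [hfull]; exact simple_jq_le_full K r
  have h2 : K⟮x⟯ ≤ modularFunctionFieldFullC K N' := by
    rw [hfull]; exact full_degeneracyC_le K hrN
  rw [← hdeg, ← relrank_mul_relrank h1 h2, hrk, mul_comm]

/-- A monic polynomial minus a lower-degree monomial is monic of the same degree. -/
theorem monic_sub_C_mul_X_pow {R : Type*} [CommRing R] [Nontrivial R] {q : R[X]} (hq : q.Monic)
    (a : R) {d : ℕ} (hd : d < q.natDegree) :
    (q - C a * X ^ d).Monic ∧ (q - C a * X ^ d).natDegree = q.natDegree := by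
  have hlt : (C a * X ^ d).natDegree < q.natDegree :=
    lt_of_le_of_lt (natDegree_C_mul_X_pow_le a d) hd
  have hdeg : (C a * X ^ d).degree < q.degree :=
    degree_lt_degree hlt
  exact ⟨hq.sub_of_left hdeg, natDegree_sub_eq_left_of_natDegree_lt hlt⟩

theorem ofNat_laurent_ne_zero (n : ℕ) [n.AtLeastTwo] (hn : ((n : ℕ) : K) ≠ 0) :
    (OfNat.ofNat n : LaurentSeries K) ≠ 0 := by
  intro h
  apply hn
  have h1 : algebraMap K (LaurentSeries K) ((n : ℕ) : K) = 0 := by
    rw [map_natCast]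
    rw [← h]
    exact (Nat.cast_ofNat (R := LaurentSeries K) (n := n))
  exact (map_eq_zero (algebraMap K (LaurentSeries K))).mp h1

/-- **Level 2.** For `2 ∈ Kˣ` and `x` with `j x² = (x + 256)³`, `j(q²) x = (x + 16)³`:
`K(x)` is the level-two function field and has degree `3` over `K(j)`. -/
theorem hline_two (h2K : (2 : K) ≠ 0) (x : LaurentSeries K)
    (h1 : jqModC K * x ^ 2 = (x + 256) ^ 3)
    (h2 : qExpand K 2 (jqModC K) * x = (x + 16) ^ 3) :
    K⟮x⟯ = modularFunctionFieldFullC K 2 ∧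
      (K⟮jqModC K⟯).relrank K⟮x⟯ = ((2 + 1 : ℕ) : Cardinal) := by
  have h256 : (256 : LaurentSeries K) ≠ 0 := by
    apply ofNat_laurent_ne_zero K 256
    have : ((256 : ℕ) : K) = (2 : K) ^ 8 := by norm_num
    rw [this]
    exact pow_ne_zero 8 h2K
  have hx0 : x ≠ 0 := by
    rintro rfl
    rw [zero_pow two_ne_zero, mul_zero, zero_add] at h1
    exact pow_ne_zero 3 h256 h1.symm
  have hxm : x ∈ K⟮x⟯ := mem_adjoin_simple_self K x
  have hj : jqModC K ∈ K⟮x⟯ := by
    have : jqModC K = (x + 256) ^ 3 / x ^ 2 := eq_div_of_mul_eq (pow_ne_zero 2 hx0) h1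
    rw [this]
    exact div_mem (pow_mem (add_mem hxm (ofNat_mem _ 256)) 3) (pow_mem hxm 2)
  have hjr : qExpand K 2 (jqModC K) ∈ K⟮x⟯ := by
    have : qExpand K 2 (jqModC K) = (x + 16) ^ 3 / x := eq_div_of_mul_eq hx0 h2
    rw [this]
    exact div_mem (pow_mem (add_mem hxm (ofNat_mem _ 16)) 3) hxm
  let J : ↥(K⟮jqModC K⟯) := ⟨jqModC K, mem_adjoin_simple_self K _⟩
  have hq : ((X + C (256 : ↥(K⟮jqModC K⟯))) ^ 3 : (↥(K⟮jqModC K⟯))[X]).Monic :=
    (monic_X_add_C _).pow 3
  have hqd : ((X + C (256 : ↥(K⟮jqModC K⟯))) ^ 3 : (↥(K⟮jqModC K⟯))[X]).natDegree = 3 := by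
    rw [(monic_X_add_C _).natDegree_pow, natDegree_X_add_C]
  obtain ⟨hpm, hpd⟩ := monic_sub_C_mul_X_pow hq J (d := 2) (by rw [hqd]; norm_num)
  refine hline_abstract K 2 Nat.prime_two (by exact_mod_cast h2K) x hj hjr _ hpm (hpd.trans hqd) ?_
  have hJ : algebraMap ↥(K⟮jqModC K⟯) (LaurentSeries K) J = jqModC K := rfl
  simp only [map_sub, map_pow, map_add, map_mul, aeval_X, aeval_C, hJ, map_ofNat]
  rw [h1, sub_self]

/-- **Level 3.** For `3 ∈ Kˣ` and `x` with `j x³ = (x + 27)(x + 243)³`,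
`j(q³) x = (x + 27)(x + 3)³`: `K(x)` is the level-three function field and has degree `4` over
`K(j)`. -/
theorem hline_three (h3K : (3 : K) ≠ 0) (x : LaurentSeries K)
    (h1 : jqModC K * x ^ 3 = (x + 27) * (x + 243) ^ 3)
    (h2 : qExpand K 3 (jqModC K) * x = (x + 27) * (x + 3) ^ 3) :
    K⟮x⟯ = modularFunctionFieldFullC K 3 ∧
      (K⟮jqModC K⟯).relrank K⟮x⟯ = ((3 + 1 : ℕ) : Cardinal) := by
  have h27 : (27 : LaurentSeries K) ≠ 0 := by
    apply ofNat_laurent_ne_zero K 27
    have : ((27 : ℕ) : K) = (3 : K) ^ 3 := by norm_num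
    rw [this]
    exact pow_ne_zero 3 h3K
  have h243 : (243 : LaurentSeries K) ≠ 0 := by
    apply ofNat_laurent_ne_zero K 243
    have : ((243 : ℕ) : K) = (3 : K) ^ 5 := by norm_num
    rw [this]
    exact pow_ne_zero 5 h3K
  have hx0 : x ≠ 0 := by
    rintro rfl
    rw [zero_pow three_ne_zero, mul_zero, zero_add, zero_add] at h1
    exact mul_ne_zero h27 (pow_ne_zero 3 h243) h1.symm
  have hxm : x ∈ K⟮x⟯ := mem_adjoin_simple_self K x
  have hj : jqModC K ∈ K⟮x⟯ := by
    have : jqModC K = (x + 27) * (x + 243) ^ 3 / x ^ 3 :=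
      eq_div_of_mul_eq (pow_ne_zero 3 hx0) h1
    rw [this]
    exact div_mem (mul_mem (add_mem hxm (ofNat_mem _ 27))
      (pow_mem (add_mem hxm (ofNat_mem _ 243)) 3)) (pow_mem hxm 3)
  have hjr : qExpand K 3 (jqModC K) ∈ K⟮x⟯ := by
    have : qExpand K 3 (jqModC K) = (x + 27) * (x + 3) ^ 3 / x := eq_div_of_mul_eq hx0 h2
    rw [this]
    exact div_mem (mul_mem (add_mem hxm (ofNat_mem _ 27))
      (pow_mem (add_mem hxm (ofNat_mem _ 3)) 3)) hxm
  let J : ↥(K⟮jqModC K⟯) := ⟨jqModC K, mem_adjoin_simple_self K _⟩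
  have hq : ((X + C (27 : ↥(K⟮jqModC K⟯))) * (X + C (243 : ↥(K⟮jqModC K⟯))) ^ 3 :
      (↥(K⟮jqModC K⟯))[X]).Monic :=
    (monic_X_add_C _).mul ((monic_X_add_C _).pow 3)
  have hqd : ((X + C (27 : ↥(K⟮jqModC K⟯))) * (X + C (243 : ↥(K⟮jqModC K⟯))) ^ 3 :
      (↥(K⟮jqModC K⟯))[X]).natDegree = 4 := by
    rw [(monic_X_add_C _).natDegree_mul ((monic_X_add_C _).pow 3),
      (monic_X_add_C _).natDegree_pow, natDegree_X_add_C, natDegree_X_add_C]
  obtain ⟨hpm, hpd⟩ := monic_sub_C_mul_X_pow hq J (d := 3) (by rw [hqd]; norm_num)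
  refine hline_abstract K 3 Nat.prime_three (by exact_mod_cast h3K) x hj hjr _ hpm
    (hpd.trans hqd) ?_
  have hJ : algebraMap ↥(K⟮jqModC K⟯) (LaurentSeries K) J = jqModC K := rfl
  simp only [map_sub, map_pow, map_add, map_mul, aeval_X, aeval_C, hJ, map_ofNat]
  rw [h1, sub_self]

/-- Level 2, complete package: transcendence and the tower law at every level `N'` divisible
by `2` whose prime divisors are invertible in `K`. -/
theorem hline_two_full (h2K : (2 : K) ≠ 0) (x : LaurentSeries K)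
    (h1 : jqModC K * x ^ 2 = (x + 256) ^ 3)
    (h2 : qExpand K 2 (jqModC K) * x = (x + 16) ^ 3) :
    Transcendental K x ∧
    (∀ (N' : ℕ) [NeZero N'], 2 ∣ N' → x ∈ modularFunctionFieldFullC K N') ∧
    (∀ (N' : ℕ) [NeZero N'], 2 ∣ N' → (∀ p : ℕ, p.Prime → p ∣ N' → (p : K) ≠ 0) →
      (K⟮x⟯).relrank (modularFunctionFieldFullC K N') * ((2 + 1 : ℕ) : Cardinal) =
        (dedekindPsi N' : Cardinal)) := by
  obtain ⟨hfull, hrk⟩ := hline_two K h2K x h1 h2
  refine ⟨transcendental_of_jq_mem K x (hfull ▸ jqModC_mem_full K 2), fun N' _ hN' => ?_,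
    fun N' _ hN' hNK => relrank_hline_full K 2 x hfull hrk N' hN' hNK⟩
  exact full_degeneracyC_le K hN' (hfull ▸ mem_adjoin_simple_self K x)

/-- Level 3, complete package. -/
theorem hline_three_full (h3K : (3 : K) ≠ 0) (x : LaurentSeries K)
    (h1 : jqModC K * x ^ 3 = (x + 27) * (x + 243) ^ 3)
    (h2 : qExpand K 3 (jqModC K) * x = (x + 27) * (x + 3) ^ 3) :
    Transcendental K x ∧
    (∀ (N' : ℕ) [NeZero N'], 3 ∣ N' → x ∈ modularFunctionFieldFullC K N') ∧
    (∀ (N' : ℕ) [NeZero N'], 3 ∣ N' → (∀ p : ℕ, p.Prime → p ∣ N' → (p : K) ≠ 0) →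
      (K⟮x⟯).relrank (modularFunctionFieldFullC K N') * ((3 + 1 : ℕ) : Cardinal) =
        (dedekindPsi N' : Cardinal)) := by
  obtain ⟨hfull, hrk⟩ := hline_three K h3K x h1 h2
  refine ⟨transcendental_of_jq_mem K x (hfull ▸ jqModC_mem_full K 3), fun N' _ hN' => ?_,
    fun N' _ hN' hNK => relrank_hline_full K 3 x hfull hrk N' hN' hNK⟩
  exact full_degeneracyC_le K hN' (hfull ▸ mem_adjoin_simple_self K x)

end Line

section Bar

variable (L : Type*) [Field L] [Algebra ℚ L]

theorem coeffEmb_jq_eq : coeffEmb L jq = jqModC L := by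
  rw [← jqModC_rat, coeffEmb, coeffMap_jqModC]

theorem coeffEmb_qExpand_jq (d : ℕ) [NeZero d] :
    coeffEmb L (qExpand ℚ d jq) = qExpand L d (jqModC L) := by
  rw [coeffEmb, coeffMap_qExpand, ← coeffEmb, coeffEmb_jq_eq]

theorem coeffEmb_mem_fullC {N : ℕ} {x : LaurentSeries ℚ}
    (hx : x ∈ modularFunctionFieldFull N) : coeffEmb L x ∈ modularFunctionFieldFullC L N := by
  unfold modularFunctionFieldFull at hx
  induction hx using IntermediateField.adjoin_induction with
  | mem x hx =>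
      obtain ⟨d, hd0, hd, rfl⟩ := hx
      rw [coeffEmb_qExpand_jq]
      exact jqModCd_mem_full L N hd
  | algebraMap c =>
      have : coeffEmb L (algebraMap ℚ (LaurentSeries ℚ) c) =
          algebraMap L (LaurentSeries L) (algebraMap ℚ L c) := by
        rw [algebraMap_laurentSeries_eq_single, algebraMap_laurentSeries_eq_single, coeffEmb,
          coeffMap_single]
      rw [this]
      exact (modularFunctionFieldFullC L N).algebraMap_mem _
  | add x y _ _ hx hy => rw [map_add]; exact add_mem hx hy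
  | inv x _ hx => rw [map_inv₀]; exact inv_mem hx
  | mul x y _ _ hx hy => rw [map_mul]; exact mul_mem hx hy

/-- The base change of the rational modular function field is the field generated over `L` by
the `j(q^d)`, `d ∣ N`, i.e. the Prelude's `modularFunctionFieldFullC L N`. -/
theorem laurentBaseChange_full_eq_fullC (N : ℕ) :
    laurentBaseChange L (modularFunctionFieldFull N) = modularFunctionFieldFullC L N := by
  apply le_antisymm
  · rw [laurentBaseChange, adjoin_le_iff]
    rintro _ ⟨y, hy, rfl⟩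
    exact coeffEmb_mem_fullC L hy
  · rw [modularFunctionFieldFullC, adjoin_le_iff]
    rintro _ ⟨d, hd0, hd, rfl⟩
    rw [← coeffEmb_qExpand_jq]
    exact coeffEmb_mem_laurentBaseChange L (jqd_mem_full N hd)

/-- `modularFunctionFieldBar N` is the Prelude's `modularFunctionFieldFullC ℚ̄ N`. -/
theorem modularFunctionFieldBar_eq_fullC (N : ℕ) :
    modularFunctionFieldBar N = modularFunctionFieldFullC (AlgebraicClosure ℚ) N :=
  laurentBaseChange_full_eq_fullC (AlgebraicClosure ℚ) N

end Bar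

end Fermat.Agent.S18.helper1622
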