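import Mathlib
import Fermat.Agent.Lib.helper1219_NormRel
import Fermat.Agent.S28.helper1448_DegBound

/-!
# S18-CERT-R: characteristic-zero integrality certificates from level-one norm relations

* `exists_relation_levelOne`: for a modular form `G` of weight `12 M` on a finite-index group and a
  LEVEL ONE form `E0` of the same weight, the norm of `G - c E0` gives a relation
  `∑ j, P_j(J) G^j E0^(n-j) = 0` whose top coefficient is explicit:
  `Δ^(M n) P_n(J) = (-E0)^n`.
* `isIntegral_adjoin_J_of_div_disc` (T1): `G / Δ^M` is integral over `ℂ[j]`.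
* `isIntegral_adjoin_Jinv_of_div_E4` (T2): `G / E₄^(3M)` is integral over `ℂ[1/j]`.
* `isIntegral_of_isCoprime_mul` (T3): Bezout chart lemma.
* `exists_pow_mul_isIntegral` (T3'): base change along `r = N(h)/D(h)`.
-/

set_option autoImplicit false

open UpperHalfPlane ModularForm SlashInvariantForm Polynomial EisensteinSeries
open scoped MatrixGroups Manifold

namespace Fermat.Agent.S18.helper208

open Fermat.Agent.Lib.helper1219
open Fermat.Agent.S28.helper1448 (G0 IsMF)

local notation "Δ" => ModularForm.discriminant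

/-! ### Pure algebra: integrality from explicit monic relations -/

section Algebra

variable {R L : Type*} [CommRing R] [CommRing L] [Nontrivial L] [Algebra R L]

/-- A root of a monic polynomial over `L` all of whose coefficients come from `R` is integral
over `R`. -/
theorem isIntegral_of_monic_of_coeff_mem (p : L[X]) (hp : p.Monic) (y : L) (hy : p.eval y = 0)
    (hc : ∀ i, p.coeff i ∈ (algebraMap R L).range) : IsIntegral R y := by
  have hl : p ∈ Polynomial.lifts (algebraMap R L) := by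
    rw [Polynomial.lifts_iff_coeff_lifts]
    intro i
    exact hc i
  obtain ⟨q, hq, -, hqm⟩ := Polynomial.lifts_and_degree_eq_and_monic hl hp
  refine ⟨q, hqm, ?_⟩
  rw [← Polynomial.eval_map, hq, hy]

end Algebra

section AlgebraField

variable {k L : Type*} [Field k] [CommRing L] [Nontrivial L] [Algebra k L]

omit [Nontrivial L] in
/-- Elements of `k[t]` are in the range of the algebra map of the subalgebra `k[t]`. -/
theorem aeval_mem_range_adjoin (t : L) (p : k[X]) :
    Polynomial.aeval t p ∈ (algebraMap (Algebra.adjoin k {t}) L).range :=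
  ⟨⟨Polynomial.aeval t p, Polynomial.aeval_mem_adjoin_singleton k t⟩, rfl⟩

/-- An explicit monic relation with coefficients in `k[t]` gives integrality over `k[t]`. -/
theorem isIntegral_adjoin_of_eval₂ (t x : L) (Q : (k[X])[X]) (hQ : Q.Monic)
    (h : Q.eval₂ (Polynomial.aeval t).toRingHom x = 0) :
    IsIntegral (Algebra.adjoin k {t}) x := by
  refine isIntegral_of_monic_of_coeff_mem (Q.map (Polynomial.aeval t).toRingHom)
    (hQ.map _) x ?_ ?_
  · rw [Polynomial.eval_map]; exact h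
  · intro i
    rw [Polynomial.coeff_map]
    exact aeval_mem_range_adjoin t (Q.coeff i)

omit [Nontrivial L] in
theorem mem_range_of_mem_adjoin {t y : L} (hy : y ∈ Algebra.adjoin k {t}) :
    y ∈ (algebraMap (Algebra.adjoin k {t}) L).range :=
  ⟨⟨y, hy⟩, rfl⟩

omit [Nontrivial L] in
theorem isIntegral_of_mem_adjoin {t y : L} (hy : y ∈ Algebra.adjoin k {t}) :
    IsIntegral (Algebra.adjoin k {t}) y :=
  isIntegral_algebraMap (R := Algebra.adjoin k {t}) (x := ⟨y, hy⟩)

omit [Nontrivial L] in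
/-- **Bezout chart lemma** (T3). If `P(h) x` and `Q(h) x` are integral over `k[h]` with `P`, `Q`
coprime, then `x` is integral over `k[h]`. -/
theorem isIntegral_of_isCoprime_mul (h x : L) {P Q : k[X]} (hPQ : IsCoprime P Q)
    (hP : IsIntegral (Algebra.adjoin k {h}) (Polynomial.aeval h P * x))
    (hQ : IsIntegral (Algebra.adjoin k {h}) (Polynomial.aeval h Q * x)) :
    IsIntegral (Algebra.adjoin k {h}) x := by
  obtain ⟨u, v, huv⟩ := hPQ
  have hx : x = Polynomial.aeval h u * (Polynomial.aeval h P * x)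
      + Polynomial.aeval h v * (Polynomial.aeval h Q * x) := by
    have h1 := congrArg (Polynomial.aeval h) huv
    simp only [map_add, map_mul, map_one] at h1
    calc x = 1 * x := (one_mul x).symm
      _ = _ := by rw [← h1]; ring
  rw [hx]
  exact ((isIntegral_of_mem_adjoin (Polynomial.aeval_mem_adjoin_singleton k h)).mul hP).add
    ((isIntegral_of_mem_adjoin (Polynomial.aeval_mem_adjoin_singleton k h)).mul hQ)

omit [Nontrivial L] in
/-- If `r D(h) = N(h)` then `q(r) D(h)^B ∈ k[h]` for every polynomial `q` of degree `≤ B`. -/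
theorem aeval_mul_pow_mem_adjoin (r h : L) (Nm Dn : k[X])
    (hr : r * Polynomial.aeval h Dn = Polynomial.aeval h Nm) (q : k[X]) (B : ℕ)
    (hq : q.natDegree ≤ B) :
    Polynomial.aeval r q * Polynomial.aeval h Dn ^ B ∈ Algebra.adjoin k {h} := by
  rw [Polynomial.aeval_eq_sum_range' (Nat.lt_succ_of_le hq), Finset.sum_mul]
  refine Subalgebra.sum_mem _ fun a ha => ?_
  have ha' : a ≤ B := Nat.lt_succ_iff.mp (Finset.mem_range.mp ha)
  have h1 : r ^ a * Polynomial.aeval h Dn ^ B
      = Polynomial.aeval h (Nm ^ a * Dn ^ (B - a)) := by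
    rw [map_mul, map_pow, map_pow, ← hr, mul_pow, mul_assoc, ← pow_add, Nat.add_sub_cancel' ha']
  rw [smul_mul_assoc, h1]
  exact Subalgebra.smul_mem _ (Polynomial.aeval_mem_adjoin_singleton k h) _

/-- **Base change** (T3'). If `r = N(h) / D(h)` and `x` is integral over `k[r]`, then
`D(h)^d x` is integral over `k[h]` for some `d`. -/
theorem exists_pow_mul_isIntegral (r h : L) (Nm Dn : k[X])
    (hr : r * Polynomial.aeval h Dn = Polynomial.aeval h Nm) {x : L}
    (hx : IsIntegral (Algebra.adjoin k {r}) x) :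
    ∃ d : ℕ, IsIntegral (Algebra.adjoin k {h}) (Polynomial.aeval h Dn ^ d * x) := by
  obtain ⟨p, hp, hpx⟩ := hx
  set pL : L[X] := p.map (algebraMap (Algebra.adjoin k {r}) L) with hpL
  have hpLm : pL.Monic := hp.map _
  have hpLx : pL.eval x = 0 := by rw [hpL, Polynomial.eval_map]; exact hpx
  have hcoeff : ∀ i, ∃ q : k[X], Polynomial.aeval r q = pL.coeff i := by
    intro i
    have h1 : pL.coeff i ∈ Algebra.adjoin k {r} := by
      rw [hpL, Polynomial.coeff_map]; exact (p.coeff i).2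
    rw [Algebra.adjoin_singleton_eq_range_aeval] at h1
    exact h1
  choose q hq using hcoeff
  set n := pL.natDegree with hn
  set B := (Finset.range (n + 1)).sup (fun i => (q i).natDegree) with hB
  refine ⟨B, ?_⟩
  set s := Polynomial.aeval h Dn ^ B with hs
  have hsmem : s ∈ Algebra.adjoin k {h} := by
    rw [hs, ← map_pow]; exact Polynomial.aeval_mem_adjoin_singleton k h
  refine isIntegral_of_monic_of_coeff_mem (Polynomial.scaleRoots pL s)
    ((Polynomial.monic_scaleRoots_iff s).mpr hpLm) (s * x) ?_ ?_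
  · have h1 := Polynomial.scaleRoots_eval₂_eq_zero (RingHom.id L) (p := pL) (r := x) (s := s)
      (by rw [Polynomial.eval₂_id]; exact hpLx)
    rw [Polynomial.eval₂_id] at h1
    simpa using h1
  · intro i
    rw [Polynomial.coeff_scaleRoots]
    rcases lt_trichotomy i n with hi | hi | hi
    · apply mem_range_of_mem_adjoin
      have h1 : pL.coeff i * s ^ (n - i) = (Polynomial.aeval r (q i) * s) * s ^ (n - i - 1) := by
        rw [hq i, mul_assoc, ← pow_succ']
        congr 2
        omega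
      rw [← hn, h1]
      refine Subalgebra.mul_mem _ ?_ (Subalgebra.pow_mem _ hsmem _)
      refine aeval_mul_pow_mem_adjoin r h Nm Dn hr (q i) B ?_
      exact Finset.le_sup (f := fun i => (q i).natDegree)
        (Finset.mem_range.mpr (Nat.lt_succ_of_lt hi))
    · rw [hi, hn, hpLm.coeff_natDegree, Nat.sub_self, pow_zero, mul_one]
      exact ⟨1, map_one _⟩
    · rw [Polynomial.coeff_eq_zero_of_natDegree_lt hi, zero_mul]
      exact ⟨0, map_zero _⟩

end AlgebraField

/-! ### The norm relation with a level-one denominator -/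

section Relation

variable {𝒢 : Subgroup (GL (Fin 2) ℝ)} [𝒢.IsFiniteRelIndex 𝒮ℒ] [𝒢.HasDetOne] {k : ℤ}

omit [𝒢.IsFiniteRelIndex 𝒮ℒ] [𝒢.HasDetOne] in
/-- The translates of (the restriction of) a level one form are the form itself. -/
lemma quotientFunc_of_levelOne (E : ModularForm 𝒢 k) (E0 : ModularForm 𝒮ℒ k)
    (hE : (⇑E : ℍ → ℂ) = ⇑E0) (q : ↥𝒮ℒ ⧸ 𝒢.subgroupOf 𝒮ℒ) (τ : ℍ) :
    quotientFunc E q τ = E0 τ := by
  induction q using Quotient.inductionOn with
  | h r =>
    simp only [quotientFunc_mk]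
    rw [hE, SlashInvariantFormClass.slash_action_eq E0 (r.val⁻¹) (inv_mem r.2)]

/-- **The norm relation with explicit top coefficient.** `G` of weight `12 M` on `𝒢`, `E0` of
level one and the same weight, `n = [𝒮ℒ : 𝒢]`. -/
theorem exists_relation_levelOne (M : ℕ) (hk : k = 12 * (M : ℤ)) (G E : ModularForm 𝒢 k)
    (E0 : ModularForm 𝒮ℒ k) (hE : (⇑E : ℍ → ℂ) = ⇑E0) :
    ∃ P : Polynomial (Polynomial ℂ),
      (∀ j, (P.coeff j).natDegree ≤ M * Nat.card (↥𝒮ℒ ⧸ 𝒢.subgroupOf 𝒮ℒ)) ∧
      (∀ τ : ℍ, ∑ j ∈ Finset.range (Nat.card (↥𝒮ℒ ⧸ 𝒢.subgroupOf 𝒮ℒ) + 1),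
        (P.coeff j).eval (E₄ τ ^ 3 / Δ τ) * G τ ^ j *
          E0 τ ^ (Nat.card (↥𝒮ℒ ⧸ 𝒢.subgroupOf 𝒮ℒ) - j) = 0) ∧
      (∀ τ : ℍ, Δ τ ^ (M * Nat.card (↥𝒮ℒ ⧸ 𝒢.subgroupOf 𝒮ℒ)) *
          (P.coeff (Nat.card (↥𝒮ℒ ⧸ 𝒢.subgroupOf 𝒮ℒ))).eval (E₄ τ ^ 3 / Δ τ)
            = (-E0 τ) ^ Nat.card (↥𝒮ℒ ⧸ 𝒢.subgroupOf 𝒮ℒ)) := by
  classical
  let _ : Fintype (↥𝒮ℒ ⧸ 𝒢.subgroupOf 𝒮ℒ) := Fintype.ofFinite _
  set n : ℕ := Nat.card (↥𝒮ℒ ⧸ 𝒢.subgroupOf 𝒮ℒ) with hn
  have hcard : (Finset.univ : Finset (↥𝒮ℒ ⧸ 𝒢.subgroupOf 𝒮ℒ)).card = n := by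
    rw [Finset.card_univ, hn, Nat.card_eq_fintype_card]
  -- nodes
  set s : Finset ℕ := Finset.range (n + 1) with hs
  set v : ℕ → ℂ := fun i => (i : ℂ) with hv
  have hvinj : Set.InjOn v (s : Set ℕ) := fun a _ b _ h => by
    simpa [hv] using h
  have hscard : s.card = n + 1 := by simp [hs]
  -- the norms
  let Nm : ℕ → ModularForm 𝒮ℒ (k * n) := fun i => ModularForm.norm 𝒮ℒ (G - (i : ℂ) • E)
  have hkn : k * (n : ℤ) = 12 * ((M * n : ℕ) : ℤ) := by rw [hk]; push_cast; ring
  have hR : ∀ i, ∃ R : Polynomial ℂ, R.natDegree ≤ M * n ∧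
      ∀ τ : ℍ, Nm i τ = Δ τ ^ (M * n) * R.eval (E₄ τ ^ 3 / Δ τ) :=
    fun i => levelOne_eq_pow_mul_poly (M * n) (k * n) hkn (Nm i)
  choose R hRdeg hRev using hR
  -- pointwise polynomial in `c`
  let p : ℍ → ℂ[X] := fun τ =>
    ∏ q : (↥𝒮ℒ ⧸ 𝒢.subgroupOf 𝒮ℒ), (C (quotientFunc G q τ) - C (quotientFunc E q τ) * X)
  have hpeval : ∀ (τ : ℍ) (i : ℕ), (p τ).eval (v i) = Nm i τ := by
    intro τ i
    have h1 : (Nm i : ℍ → ℂ)
        = ∏ q : (↥𝒮ℒ ⧸ 𝒢.subgroupOf 𝒮ℒ), quotientFunc (G - (i : ℂ) • E) q := by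
      show ⇑(ModularForm.norm 𝒮ℒ (G - (i : ℂ) • E)) = _
      rw [ModularForm.coe_norm]
    rw [h1, Finset.prod_apply]
    simp only [p, eval_prod, eval_sub, eval_mul, eval_C, eval_X, hv]
    refine Finset.prod_congr rfl fun q _ => ?_
    rw [quotientFunc_sub_smul]
    ring
  have hpdeg : ∀ τ, (p τ).degree < s.card := by
    intro τ
    have h1 : (p τ).natDegree ≤ n := by
      refine (natDegree_prod_le _ _).trans ?_
      calc ∑ q : (↥𝒮ℒ ⧸ 𝒢.subgroupOf 𝒮ℒ),
              (C (quotientFunc G q τ) - C (quotientFunc E q τ) * X).natDegree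
            ≤ ∑ _q : (↥𝒮ℒ ⧸ 𝒢.subgroupOf 𝒮ℒ), 1 := by
            refine Finset.sum_le_sum fun q _ => ?_
            refine (natDegree_sub_le _ _).trans (max_le (by simp) ?_)
            exact (natDegree_C_mul_le _ _).trans natDegree_X_le
        _ = n := by simp [hcard]
    rw [hscard]
    exact lt_of_le_of_lt degree_le_natDegree (by exact_mod_cast Nat.lt_succ_of_le h1)
  have hpcoeff : ∀ (τ : ℍ) (j : ℕ),
      (p τ).coeff j = ∑ i ∈ s, Nm i τ * (Lagrange.basis s v i).coeff j := by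
    intro τ j
    have h1 := Lagrange.eq_interpolate (s := s) (v := v) (f := p τ) hvinj (hpdeg τ)
    have h2 : (p τ).coeff j = ((Lagrange.interpolate s v) fun i => eval (v i) (p τ)).coeff j := by
      rw [← h1]
    rw [h2, Lagrange.interpolate_apply, finsetSum_coeff]
    refine Finset.sum_congr rfl fun i _ => ?_
    rw [coeff_C_mul, hpeval]
  -- the polynomial
  let P : Polynomial (Polynomial ℂ) := ∑ i ∈ s, C (R i) * (Lagrange.basis s v i).map C
  have hPcoeff : ∀ j, P.coeff j = ∑ i ∈ s, R i * C ((Lagrange.basis s v i).coeff j) := by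
    intro j
    simp only [P, finsetSum_coeff, coeff_C_mul, coeff_map]
  have hterm : ∀ (τ : ℍ) (j : ℕ), (p τ).coeff j
      = Δ τ ^ (M * n) * (P.coeff j).eval (E₄ τ ^ 3 / Δ τ) := by
    intro τ j
    rw [hpcoeff, hPcoeff, eval_finsetSum, Finset.mul_sum]
    refine Finset.sum_congr rfl fun i _ => ?_
    rw [hRev i τ, eval_mul, eval_C]
    ring
  refine ⟨P, ?_, ?_, ?_⟩
  · -- degree in J
    intro j
    rw [hPcoeff]
    refine natDegree_sum_le_of_forall_le _ _ fun i _ => ?_
    exact (natDegree_mul_C_le _ _).trans (hRdeg i)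
  · -- the relation
    intro τ
    have hΔ := discriminant_ne_zero τ
    have hmain : ∑ j ∈ Finset.range (n + 1), (p τ).coeff j * G τ ^ j * E0 τ ^ (n - j) = 0 := by
      have h := homog_prod (Finset.univ : Finset (↥𝒮ℒ ⧸ 𝒢.subgroupOf 𝒮ℒ))
        (fun q => quotientFunc G q τ) (fun q => quotientFunc E q τ) (E0 τ) (G τ)
      rw [hcard] at h
      rw [h]
      refine Finset.prod_eq_zero (Finset.mem_univ (⟦1⟧ : ↥𝒮ℒ ⧸ 𝒢.subgroupOf 𝒮ℒ)) ?_
      rw [quotientFunc_one, quotientFunc_of_levelOne E E0 hE]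
      ring
    have h2 : Δ τ ^ (M * n) * ∑ j ∈ Finset.range (n + 1),
        (P.coeff j).eval (E₄ τ ^ 3 / Δ τ) * G τ ^ j * E0 τ ^ (n - j) = 0 := by
      rw [← hmain, Finset.mul_sum]
      refine Finset.sum_congr rfl fun j _ => ?_
      rw [hterm τ j]
      ring
    exact (mul_eq_zero.mp h2).resolve_left (pow_ne_zero _ hΔ)
  · -- the top coefficient
    intro τ
    rw [← hterm τ n]
    have h := homog_prod (Finset.univ : Finset (↥𝒮ℒ ⧸ 𝒢.subgroupOf 𝒮ℒ))
      (fun q => quotientFunc G q τ) (fun q => quotientFunc E q τ) 0 1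
    rw [hcard] at h
    rw [Finset.sum_range_succ, Finset.sum_eq_zero, zero_add, Nat.sub_self, pow_zero, mul_one,
      one_pow, mul_one] at h
    · rw [h, ← hcard, ← Finset.prod_const]
      refine Finset.prod_congr rfl fun q _ => ?_
      rw [quotientFunc_of_levelOne E E0 hE]
      ring
    · intro j hj
      have hj' : j < n := Finset.mem_range.mp hj
      rw [zero_pow (by omega), mul_zero]

end Relation

/-! ### The relation for `q`-expansions, in `LaurentSeries ℂ` -/

section QExp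

local notation "ι" => HahnSeries.ofPowerSeries ℤ ℂ

/-- The index `[SL(2,ℤ) : Γ₀(N)]`, in the form produced by Mathlib's norm. -/
noncomputable abbrev idx (N : ℕ) : ℕ := Nat.card (↥𝒮ℒ ⧸ (G0 N).subgroupOf 𝒮ℒ)

lemma ofPS_disc_ne_zero : ι (qExpansion 1 Δ) ≠ 0 := by
  intro h
  have h4 : qExpansion 1 Δ = 0 := HahnSeries.ofPowerSeries_injective (by rw [h, map_zero])
  have h5 := (ModularForm.qExpansion_eq_zero_iff one_pos one_mem_strictPeriods_SL
    (ModularFormClass.modularForm CuspForm.discriminant : ModularForm 𝒮ℒ 12)).mp h4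
  have h6 := congrArg (fun f : ModularForm 𝒮ℒ 12 => f UpperHalfPlane.I) h5
  exact discriminant_ne_zero UpperHalfPlane.I h6

variable (N : ℕ) [NeZero N]

/-- **The norm relation for `q`-expansions with explicit top coefficient.** -/
theorem exists_relation_laurent (M : ℕ) (G : ModularForm (G0 N) (12 * (M : ℤ)))
    (E0 : ModularForm 𝒮ℒ (12 * (M : ℤ))) (jC : LaurentSeries ℂ)
    (hj : jC * ι (qExpansion 1 Δ) = ι (qExpansion 1 ⇑E₄) ^ 3) :
    ∃ P : Polynomial (Polynomial ℂ),
      (∀ j, (P.coeff j).natDegree ≤ M * idx N) ∧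
      ∑ j ∈ Finset.range (idx N + 1), Polynomial.aeval jC (P.coeff j) *
        ι (qExpansion 1 ⇑G) ^ j * ι (qExpansion 1 ⇑E0) ^ (idx N - j) = 0 ∧
      ι (qExpansion 1 Δ) ^ (M * idx N) * Polynomial.aeval jC (P.coeff (idx N))
        = (-ι (qExpansion 1 ⇑E0)) ^ idx N := by
  have hle : G0 N ≤ 𝒮ℒ := Subgroup.map_le_range _ _
  let E : ModularForm (G0 N) (12 * (M : ℤ)) :=
    { toFun := E0
      slash_action_eq' := fun γ hγ => E0.slash_action_eq' γ (hle hγ)
      holo' := E0.holo'
      bdd_at_cusps' := fun hc => E0.bdd_at_cusps' (hc.mono hle) }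
  have hE : (⇑E : ℍ → ℂ) = ⇑E0 := rfl
  obtain ⟨P, hPc, hrel, htop⟩ := exists_relation_levelOne M rfl G E E0 hE
  refine ⟨P, hPc, ?_, ?_⟩ <;> set n : ℕ := idx N with hn <;> set m : ℕ := M * n with hm
  all_goals
    set D : LaurentSeries ℂ := ι (qExpansion 1 Δ) with hD
    have hDne : D ≠ 0 := ofPS_disc_ne_zero
    have h1 : (1 : ℝ) ∈ (G0 N).strictPeriods := IsMF.one_mem_strictPeriods N
    let gN : niceSub := formN h1 G
    let e0N : niceSub := ⟨⇑E0, isNice_of_modularForm one_mem_strictPeriods_SL E0⟩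
    -- pointwise evaluation of the inner sums
    have hinnerτ : ∀ (j : ℕ) (τ : ℍ), ∑ a ∈ Finset.range (m + 1),
        (P.coeff j).coeff a * Δ τ ^ (m - a) * E₄ τ ^ (3 * a)
          = Δ τ ^ m * (P.coeff j).eval (E₄ τ ^ 3 / Δ τ) := by
      intro j τ
      have hΔ := discriminant_ne_zero τ
      rw [eval_eq_sum_range' (Nat.lt_succ_of_le (hPc j)), Finset.mul_sum]
      refine Finset.sum_congr rfl fun a ha => ?_
      have ha' : a ≤ m := Nat.lt_succ_iff.mp (Finset.mem_range.mp ha)
      have hpow : Δ τ ^ m = Δ τ ^ (m - a) * Δ τ ^ a := by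
        rw [← pow_add, Nat.sub_add_cancel ha']
      rw [hpow, div_pow, pow_mul]
      field_simp
    -- the inner sums in `LaurentSeries ℂ`
    have hinner : ∀ j, ∑ a ∈ Finset.range (m + 1),
        ι (PowerSeries.C ((P.coeff j).coeff a)) * D ^ (m - a) * ι (qExpansion 1 ⇑E₄) ^ (3 * a)
          = D ^ m * Polynomial.aeval jC (P.coeff j) := by
      intro j
      rw [Polynomial.aeval_eq_sum_range' (Nat.lt_succ_of_le (hPc j)), Finset.mul_sum]
      refine Finset.sum_congr rfl fun a ha => ?_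
      have ha' : a ≤ m := Nat.lt_succ_iff.mp (Finset.mem_range.mp ha)
      have hpow : D ^ m = D ^ (m - a) * D ^ a := by rw [← pow_add, Nat.sub_add_cancel ha']
      rw [pow_mul, ← hj, mul_pow, hpow, HahnSeries.ofPowerSeries_C, Algebra.smul_def]
      have hC : (HahnSeries.C ((P.coeff j).coeff a) : LaurentSeries ℂ)
          = algebraMap ℂ (LaurentSeries ℂ) ((P.coeff j).coeff a) := by
        have h1 : algebraMap ℂ (PowerSeries ℂ) ((P.coeff j).coeff a)
            = PowerSeries.C ((P.coeff j).coeff a) := by simp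
        rw [HahnSeries.algebraMap_apply', h1, HahnSeries.ofPowerSeries_C]
      rw [hC]
      ring
  · -- the relation
    have key : ∑ j ∈ Finset.range (n + 1),
        (∑ a ∈ Finset.range (m + 1),
            algebraMap ℂ niceSub ((P.coeff j).coeff a) * discN ^ (m - a) * e4N ^ (3 * a)) *
          gN ^ j * e0N ^ (n - j) = 0 := by
      apply Subtype.ext
      funext τ
      have hval : ((∑ j ∈ Finset.range (n + 1),
          (∑ a ∈ Finset.range (m + 1),
              algebraMap ℂ niceSub ((P.coeff j).coeff a) * discN ^ (m - a) * e4N ^ (3 * a)) *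
            gN ^ j * e0N ^ (n - j) : niceSub) : ℍ → ℂ) τ
          = ∑ j ∈ Finset.range (n + 1),
            (∑ a ∈ Finset.range (m + 1), (P.coeff j).coeff a * Δ τ ^ (m - a) * E₄ τ ^ (3 * a)) *
              G τ ^ j * E0 τ ^ (n - j) := by
        simp only [AddSubmonoidClass.coe_finsetSum, MulMemClass.coe_mul, SubmonoidClass.coe_pow,
          Finset.sum_apply, Pi.mul_apply, Pi.pow_apply]
        rfl
      rw [hval]
      have h2 : ∑ j ∈ Finset.range (n + 1),
            (∑ a ∈ Finset.range (m + 1), (P.coeff j).coeff a * Δ τ ^ (m - a) * E₄ τ ^ (3 * a)) *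
              G τ ^ j * E0 τ ^ (n - j)
          = Δ τ ^ m * ∑ j ∈ Finset.range (n + 1),
            (P.coeff j).eval (E₄ τ ^ 3 / Δ τ) * G τ ^ j * E0 τ ^ (n - j) := by
        rw [Finset.mul_sum]
        refine Finset.sum_congr rfl fun j _ => ?_
        rw [hinnerτ j τ]
        ring
      rw [h2, hrel τ, mul_zero]
      rfl
    have key2 := congrArg qexpHom key
    simp only [map_sum, map_mul, map_pow, map_zero, AlgHom.commutes] at key2
    have key3 := congrArg ι key2
    simp only [map_sum, map_mul, map_pow, map_zero] at key3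
    have h3 : D ^ m * ∑ j ∈ Finset.range (n + 1), Polynomial.aeval jC (P.coeff j) *
        ι (qExpansion 1 ⇑G) ^ j * ι (qExpansion 1 ⇑E0) ^ (n - j) = 0 := by
      rw [← key3, Finset.mul_sum]
      refine Finset.sum_congr rfl fun j _ => ?_
      have := hinner j
      simp only [qexpHom_apply] at *
      rw [show (algebraMap ℂ (PowerSeries ℂ)) = PowerSeries.C from rfl]
      rw [show ((discN : niceSub) : ℍ → ℂ) = Δ from rfl, show ((e4N : niceSub) : ℍ → ℂ) = ⇑E₄ from rfl,
        show ((gN : niceSub) : ℍ → ℂ) = ⇑G from rfl, show ((e0N : niceSub) : ℍ → ℂ) = ⇑E0 from rfl,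
        this]
      ring
    exact (mul_eq_zero.mp h3).resolve_left (pow_ne_zero _ hDne)
  · -- the top coefficient
    have key : (∑ a ∈ Finset.range (m + 1),
            algebraMap ℂ niceSub ((P.coeff n).coeff a) * discN ^ (m - a) * e4N ^ (3 * a))
          = (-e0N) ^ n := by
      apply Subtype.ext
      funext τ
      have hval : ((∑ a ∈ Finset.range (m + 1),
              algebraMap ℂ niceSub ((P.coeff n).coeff a) * discN ^ (m - a) * e4N ^ (3 * a)
            : niceSub) : ℍ → ℂ) τ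
          = ∑ a ∈ Finset.range (m + 1), (P.coeff n).coeff a * Δ τ ^ (m - a) * E₄ τ ^ (3 * a) := by
        simp only [AddSubmonoidClass.coe_finsetSum, MulMemClass.coe_mul, SubmonoidClass.coe_pow,
          Finset.sum_apply, Pi.mul_apply, Pi.pow_apply]
        rfl
      rw [hval, hinnerτ n τ, htop τ]
      rfl
    have key2 := congrArg qexpHom key
    simp only [map_sum, map_mul, map_pow, map_neg, AlgHom.commutes] at key2
    have key3 := congrArg ι key2
    simp only [map_sum, map_mul, map_pow, map_neg] at key3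
    rw [← hinner n]
    simp only [qexpHom_apply] at key3
    rw [show (algebraMap ℂ (PowerSeries ℂ)) = PowerSeries.C from rfl] at key3
    exact key3

end QExp

/-! ### Integrality over `ℂ[j]` and over `ℂ[1/j]` -/

section Integrality

local notation "ι" => HahnSeries.ofPowerSeries ℤ ℂ

/-- From a relation `∑ j ≤ n, P_j(t) x^j = 0` with `P_n(t)` a nonzero constant to integrality of
`x` over `k[t]`. -/
theorem isIntegral_adjoin_of_sum {k L : Type*} [Field k] [CommRing L] [Nontrivial L]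
    [Algebra k L] (t x : L) (n : ℕ) (P : ℕ → k[X]) (u : k) (hu : u ≠ 0)
    (htop : Polynomial.aeval t (P n) = algebraMap k L u)
    (hsum : ∑ j ∈ Finset.range (n + 1), Polynomial.aeval t (P j) * x ^ j = 0) :
    IsIntegral (Algebra.adjoin k {t}) x := by
  set Q : (k[X])[X] := X ^ n + ∑ j ∈ Finset.range n, C (C u⁻¹ * P j) * X ^ j with hQ
  have hdeg : (∑ j ∈ Finset.range n, C (C u⁻¹ * P j) * (X : (k[X])[X]) ^ j).degree < n := by
    refine lt_of_le_of_lt (degree_sum_le _ _) ?_
    refine (Finset.sup_lt_iff (WithBot.bot_lt_coe n)).mpr fun j hj => ?_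
    exact lt_of_le_of_lt (degree_C_mul_X_pow_le j _) (WithBot.coe_lt_coe.mpr (Finset.mem_range.mp hj))
  have hQm : Q.Monic := monic_X_pow_add hdeg
  refine isIntegral_adjoin_of_eval₂ t x Q hQm ?_
  rw [hQ, eval₂_add, eval₂_pow, eval₂_X, eval₂_finsetSum]
  have h1 : ∀ j ∈ Finset.range n, eval₂ (Polynomial.aeval t).toRingHom x (C (C u⁻¹ * P j) * X ^ j)
      = algebraMap k L u⁻¹ * (Polynomial.aeval t (P j) * x ^ j) := by
    intro j _
    rw [eval₂_mul, eval₂_C, eval₂_pow, eval₂_X]
    show Polynomial.aeval t (C u⁻¹ * P j) * x ^ j = _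
    rw [map_mul, Polynomial.aeval_C, mul_assoc]
  rw [Finset.sum_congr rfl h1, ← Finset.mul_sum]
  rw [Finset.sum_range_succ, htop] at hsum
  have h2 : ∑ j ∈ Finset.range n, Polynomial.aeval t (P j) * x ^ j = -(algebraMap k L u * x ^ n) :=
    eq_neg_of_add_eq_zero_left hsum
  rw [h2, mul_neg, ← mul_assoc, ← map_mul, inv_mul_cancel₀ hu, map_one, one_mul, add_neg_cancel]

/-- `Δ ^ M` as a level one form of weight `12 M`. -/
noncomputable def discPow (M : ℕ) : ModularForm 𝒮ℒ (12 * (M : ℤ)) :=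
  ModularForm.mcast (by ring)
    ((ModularFormClass.modularForm CuspForm.discriminant : ModularForm 𝒮ℒ 12).pow M)

/-- `E₄ ^ (3 M)` as a level one form of weight `12 M`. -/
noncomputable def e4Pow (M : ℕ) : ModularForm 𝒮ℒ (12 * (M : ℤ)) :=
  ModularForm.mcast (by push_cast; ring) (E₄.pow (3 * M))

lemma qExpansion_discPow (M : ℕ) : qExpansion 1 ⇑(discPow M) = qExpansion 1 Δ ^ M := by
  rw [discPow, ModularForm.qExpansion_mcast,
    ModularForm.qExpansion_pow one_pos one_mem_strictPeriods_SL]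
  rfl

lemma qExpansion_e4Pow (M : ℕ) : qExpansion 1 ⇑(e4Pow M) = qExpansion 1 ⇑E₄ ^ (3 * M) := by
  rw [e4Pow, ModularForm.qExpansion_mcast,
    ModularForm.qExpansion_pow one_pos one_mem_strictPeriods_SL]

lemma ofPS_E4_ne_zero : ι (qExpansion 1 ⇑E₄) ≠ 0 := by
  intro h
  have h4 : qExpansion 1 ⇑E₄ = 0 := HahnSeries.ofPowerSeries_injective (by rw [h, map_zero])
  have h5 := E_qExpansion_coeff_zero (k := 4) (by norm_num) ⟨2, rfl⟩
  rw [h4] at h5
  simp at h5

variable (N : ℕ) [NeZero N]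

/-- **(T1)** For `g` a modular form of weight `12 M` on `Γ₀(N)`, the ratio `g / Δ^M` (as a Laurent
series) is integral over `ℂ[j]`. -/
theorem isIntegral_adjoin_J_of_div_disc (M : ℕ) {g : ℍ → ℂ} (hg : IsMF N (12 * (M : ℤ)) g)
    (jC x : LaurentSeries ℂ)
    (hj : jC * ι (qExpansion 1 Δ) = ι (qExpansion 1 ⇑E₄) ^ 3)
    (hx : x * ι (qExpansion 1 Δ) ^ M = ι (qExpansion 1 g)) :
    IsIntegral (Algebra.adjoin ℂ {jC}) x := by
  obtain ⟨G, rfl⟩ := hg
  obtain ⟨P, hPc, hrel, htop⟩ := exists_relation_laurent N M G (discPow M) jC hj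
  set n : ℕ := idx N with hn
  set D : LaurentSeries ℂ := ι (qExpansion 1 Δ) with hD
  have hDne : D ≠ 0 := ofPS_disc_ne_zero
  rw [qExpansion_discPow, map_pow] at hrel htop
  refine isIntegral_adjoin_of_sum jC x n (fun j => P.coeff j) ((-1) ^ n)
    (pow_ne_zero _ (by norm_num)) ?_ ?_
  · -- top coefficient
    have h1 : D ^ (M * n) * Polynomial.aeval jC (P.coeff n)
        = D ^ (M * n) * algebraMap ℂ (LaurentSeries ℂ) ((-1) ^ n) := by
      rw [htop, neg_pow, map_pow, map_neg, map_one, pow_mul]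
      ring
    exact mul_left_cancel₀ (pow_ne_zero _ hDne) h1
  · -- the sum
    have h1 : D ^ (M * n) * ∑ j ∈ Finset.range (n + 1), Polynomial.aeval jC (P.coeff j) * x ^ j
        = 0 := by
      rw [← hrel, Finset.mul_sum]
      refine Finset.sum_congr rfl fun j hj' => ?_
      have hjn : j ≤ n := Nat.lt_succ_iff.mp (Finset.mem_range.mp hj')
      rw [← hx, mul_pow, ← pow_mul, ← pow_mul]
      have : D ^ (M * n) = D ^ (M * j) * D ^ (M * (n - j)) := by
        rw [← pow_add, ← Nat.mul_add, Nat.add_sub_cancel' hjn]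
      rw [this]
      ring
    exact (mul_eq_zero.mp h1).resolve_left (pow_ne_zero _ hDne)

/-- **(T2)** For `g` a modular form of weight `12 M` on `Γ₀(N)`, the ratio `g / E₄^(3M)` (as a
Laurent series) is integral over `ℂ[1/j]`. -/
theorem isIntegral_adjoin_Jinv_of_div_E4 (M : ℕ) {g : ℍ → ℂ} (hg : IsMF N (12 * (M : ℤ)) g)
    (jC x : LaurentSeries ℂ)
    (hj : jC * ι (qExpansion 1 Δ) = ι (qExpansion 1 ⇑E₄) ^ 3)
    (hx : x * ι (qExpansion 1 ⇑E₄) ^ (3 * M) = ι (qExpansion 1 g)) :
    IsIntegral (Algebra.adjoin ℂ {jC⁻¹}) x := by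
  obtain ⟨G, rfl⟩ := hg
  obtain ⟨P, hPc, hrel, htop⟩ := exists_relation_laurent N M G (e4Pow M) jC hj
  set n : ℕ := idx N with hn
  set m : ℕ := M * n with hm
  set D : LaurentSeries ℂ := ι (qExpansion 1 Δ) with hD
  set e4 : LaurentSeries ℂ := ι (qExpansion 1 ⇑E₄) with he4
  have hDne : D ≠ 0 := ofPS_disc_ne_zero
  have he4ne : e4 ≠ 0 := ofPS_E4_ne_zero
  have hjne : jC ≠ 0 := by
    intro h
    rw [h, zero_mul] at hj
    exact pow_ne_zero 3 he4ne hj.symm
  rw [qExpansion_e4Pow, map_pow] at hrel htop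
  -- the relation over `ℂ[jC]`
  have hsum : ∑ j ∈ Finset.range (n + 1), Polynomial.aeval jC (P.coeff j) * x ^ j = 0 := by
    have h1 : e4 ^ (3 * M * n) *
        ∑ j ∈ Finset.range (n + 1), Polynomial.aeval jC (P.coeff j) * x ^ j = 0 := by
      rw [← hrel, Finset.mul_sum]
      refine Finset.sum_congr rfl fun j hj' => ?_
      have hjn : j ≤ n := Nat.lt_succ_iff.mp (Finset.mem_range.mp hj')
      rw [← hx, mul_pow, ← pow_mul, ← pow_mul]
      have : e4 ^ (3 * M * n) = e4 ^ (3 * M * j) * e4 ^ (3 * M * (n - j)) := by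
        rw [← pow_add, ← Nat.mul_add, Nat.add_sub_cancel' hjn]
      rw [this]
      ring
    exact (mul_eq_zero.mp h1).resolve_left (pow_ne_zero _ he4ne)
  have htop' : Polynomial.aeval jC (P.coeff n) = (-1) ^ n * jC ^ m := by
    have h1 : D ^ m * Polynomial.aeval jC (P.coeff n) = D ^ m * ((-1) ^ n * jC ^ m) := by
      rw [htop, neg_pow, ← pow_mul]
      have : e4 ^ (3 * M * n) = (jC * D) ^ m := by rw [hj, ← pow_mul, hm]; ring_nf
      rw [this, mul_pow]
      ring
    exact mul_left_cancel₀ (pow_ne_zero _ hDne) h1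
  -- pass to `ℂ[jC⁻¹]` by reflecting the coefficients
  let _ : Invertible jC := invertibleOfNonzero hjne
  have hrefl : ∀ j, Polynomial.aeval jC⁻¹ (Polynomial.reflect m (P.coeff j)) * jC ^ m
      = Polynomial.aeval jC (P.coeff j) := by
    intro j
    have h1 := Polynomial.eval₂_reflect_mul_pow (algebraMap ℂ (LaurentSeries ℂ)) jC m (P.coeff j)
      (hPc j)
    rw [invOf_eq_inv] at h1
    exact h1
  refine isIntegral_adjoin_of_sum jC⁻¹ x n (fun j => Polynomial.reflect m (P.coeff j)) ((-1) ^ n)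
    (pow_ne_zero _ (by norm_num)) ?_ ?_
  · have h1 : Polynomial.aeval jC⁻¹ (Polynomial.reflect m (P.coeff n)) * jC ^ m
        = algebraMap ℂ (LaurentSeries ℂ) ((-1) ^ n) * jC ^ m := by
      rw [hrefl n, htop', map_pow, map_neg, map_one]
    exact mul_right_cancel₀ (pow_ne_zero _ hjne) h1
  · have h1 : (∑ j ∈ Finset.range (n + 1),
        Polynomial.aeval jC⁻¹ (Polynomial.reflect m (P.coeff j)) * x ^ j) * jC ^ m = 0 := by
      rw [← hsum, Finset.sum_mul]
      refine Finset.sum_congr rfl fun j _ => ?_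
      rw [← hrefl j]
      ring
    exact (mul_eq_zero.mp h1).resolve_right (pow_ne_zero _ hjne)

end Integrality

end Fermat.Agent.S18.helper208
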