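import Mathlib
import Fermat.Agent.S18.helper208_CertR
import Fermat.Agent.S18.helper1257_HauptFormal
import Fermat.Agent.S20.helper146_CuspToolkit
import Fermat.Agent.S20.helper1040_Lower

/-!
# S18-CERT-R, part 2: division by the discriminant and the certificates on the Hauptmodul lines

* `isMF_pow_div_disc` (T4): for a cusp form `f` of weight `k` on `Γ₀(N)` and `m ≥ N`, the function
  `f^m / Δ` is a modular form of weight `m k - 12` on `Γ₀(N)`.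
-/

set_option autoImplicit false

open UpperHalfPlane ModularForm SlashInvariantForm Polynomial EisensteinSeries CongruenceSubgroup
open Filter Asymptotics
open scoped MatrixGroups Manifold Real

namespace Fermat.Agent.S18.helper208

open Fermat.Agent.Lib.helper1219 hiding G0
open Fermat.Agent.S28.helper1448 (G0 IsMF)
open Fermat.Agent.S20

local notation "Δ" => ModularForm.discriminant

/-! ### (T4) Division by the discriminant -/

section DivDisc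

/-- Slashing by `T ^ n` is translation by `n`. -/
lemma slash_T_pow_apply (k : ℤ) (F : ℍ → ℂ) (n : ℕ) (z : ℍ) :
    (F ∣[k] (ModularGroup.T ^ n)) z = F ((n : ℝ) +ᵥ z) := by
  induction n generalizing z with
  | zero =>
    rw [pow_zero, SlashAction.slash_one]
    congr 1
    ext
    simp
  | succ n ih =>
    rw [pow_succ, SlashAction.slash_mul, helper146.slash_T_apply, ih]
    congr 1
    ext
    simp
    ring

/-- The `SL(2,ℤ)`-translates of a `Γ₀(N)`-invariant function have period `N`. -/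
lemma slash_vadd_of_invariant (N : ℕ) {k : ℤ} {f : ℍ → ℂ}
    (hinv : ∀ γ ∈ Gamma0 N, f ∣[k] γ = f) (g : SL(2, ℤ)) (z : ℍ) :
    (f ∣[k] g) ((N : ℝ) +ᵥ z) = (f ∣[k] g) z := by
  rw [← slash_T_pow_apply k (f ∣[k] g) N z, ← SlashAction.slash_mul]
  have h1 : g * ModularGroup.T ^ N = (g * ModularGroup.T ^ N * g⁻¹) * g := by group
  rw [h1, SlashAction.slash_mul, hinv]
  have h2 : ModularGroup.T ^ N ∈ Gamma N := by
    have := ModularGroup_T_pow_mem_Gamma (N : ℤ) (N : ℤ) dvd_rfl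
    simpa using this
  have h3 : g * ModularGroup.T ^ N * g⁻¹ ∈ Gamma N := (Gamma_normal (N := N)).conj_mem _ h2 g
  rw [Gamma_mem] at h3
  rw [Gamma0_mem]
  exact h3.2.2.1

/-- Exponential decay of the translates of a cusp form on `Γ₀(N)`. -/
lemma slash_isBigO_of_isCF (N : ℕ) [NeZero N] {k : ℤ} {f : ℍ → ℂ}
    (hf : helper1040.IsCF (Gamma0 N) k f) (g : SL(2, ℤ)) :
    (f ∣[k] g) =O[atImInfty] fun τ : ℍ => Real.exp (-2 * π * τ.im / N) := by
  have hN : (0 : ℝ) < N := Nat.cast_pos.mpr (Nat.pos_of_ne_zero (NeZero.ne N))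
  have hhol : MDiff (f ∣[k] g) := by
    rw [ModularForm.SL_slash]
    exact hf.holo.slash k _
  exact (hf.zero g).exp_decay_atImInfty hN
    (helper1040.periodic_comp_ofComplex_of_vadd_aux (slash_vadd_of_invariant N hf.inv g))
    hhol (hf.zero g).isBoundedAtImInfty

/-- Slash of a power. -/
lemma pow_slash_SL2 (k : ℤ) (f : ℍ → ℂ) (m : ℕ) (γ : SL(2, ℤ)) :
    (f ^ m) ∣[(m : ℤ) * k] γ = (f ∣[k] γ) ^ m := by
  induction m with
  | zero => simpa using is_invariant_one γ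
  | succ m ih =>
    rw [pow_succ, pow_succ, ← ih, ← mul_slash_SL2]
    congr 1
    push_cast
    ring

/-- **(T4)** For a cusp form `f` of weight `k` on `Γ₀(N)` and `m ≥ N`, `f^m / Δ` is a modular
form of weight `m k - 12` on `Γ₀(N)`. -/
theorem isMF_pow_div_disc (N : ℕ) [NeZero N] {k : ℤ} (f : CuspForm (G0 N) k) (m : ℕ)
    (hm : N ≤ m) : IsMF N ((m : ℤ) * k - 12) (fun τ => f τ ^ m / Δ τ) := by
  have hN : (0 : ℝ) < N := Nat.cast_pos.mpr (Nat.pos_of_ne_zero (NeZero.ne N))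
  have hf : helper1040.IsCF (Gamma0 N) k ⇑f := helper1040.isCF_of_cuspForm f
  have hpow : helper1040.IsMF (Gamma0 N) ((m : ℤ) * k) (⇑f ^ m) := helper146.isMF_pow hf.isMF m
  have hdecay : ∀ γ : SL(2, ℤ), ((⇑f ^ m) ∣[(m : ℤ) * k] γ) =O[atImInfty]
      fun z : ℍ => Real.exp (-2 * π * z.im) := by
    intro γ
    rw [pow_slash_SL2]
    refine ((slash_isBigO_of_isCF N hf γ).pow m).trans ?_
    refine IsBigO.of_bound 1 (Eventually.of_forall fun z => ?_)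
    rw [one_mul, Real.norm_of_nonneg (Real.exp_pos _).le, ← Real.exp_nat_mul,
      Real.norm_of_nonneg (Real.exp_pos _).le, Real.exp_le_exp]
    have hz := z.im_pos
    have hmN : (N : ℝ) ≤ m := Nat.cast_le.mpr hm
    have h1 : (m : ℝ) * (-2 * π * z.im / N) = -(2 * π * z.im) * ((m : ℝ) / N) := by
      field_simp
    rw [h1]
    have h2 : (1 : ℝ) ≤ (m : ℝ) / N := by rw [le_div_iff₀ hN]; linarith
    have h3 : 0 ≤ 2 * π * z.im := by positivity
    nlinarith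
  have h := helper146.isMF_div_discriminant hpow hdecay
  exact helper1040.isMF_iff.mp h

end DivDisc

/-! ### The two-chart criterion -/

section TwoCharts

variable {k L : Type*} [Field k] [Field L] [Algebra k L]

/-- **Two-chart criterion.** Let `J = Nm(t) / Dn(t)` with `Nm`, `Dn` coprime. If `x` is integral
over `k[J]` and `x / Nm(t)^u` is integral over `k[1/J]`, then `x` is integral over `k[t]`. -/
theorem isIntegral_of_two_charts (J t x y : L) (Nm Dn : k[X]) (hcop : IsCoprime Nm Dn)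
    (hJ : J * Polynomial.aeval t Dn = Polynomial.aeval t Nm) (hJ0 : J ≠ 0) (u : ℕ)
    (h1 : IsIntegral (Algebra.adjoin k {J}) x)
    (h2 : IsIntegral (Algebra.adjoin k {J⁻¹}) y)
    (hxy : x = Polynomial.aeval t Nm ^ u * y) :
    IsIntegral (Algebra.adjoin k {t}) x := by
  obtain ⟨d, hd⟩ := exists_pow_mul_isIntegral J t Nm Dn hJ h1
  have hJi : J⁻¹ * Polynomial.aeval t Nm = Polynomial.aeval t Dn := by
    rw [← hJ, ← mul_assoc, inv_mul_cancel₀ hJ0, one_mul]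
  obtain ⟨d', hd'⟩ := exists_pow_mul_isIntegral J⁻¹ t Dn Nm hJi h2
  have hcop' : IsCoprime (Dn ^ d) (Nm ^ d') := hcop.symm.pow
  refine isIntegral_of_isCoprime_mul t x hcop' ?_ ?_
  · rw [map_pow]; exact hd
  · rw [map_pow, hxy]
    have e : Polynomial.aeval t Nm ^ d' * (Polynomial.aeval t Nm ^ u * y)
        = Polynomial.aeval t Nm ^ u * (Polynomial.aeval t Nm ^ d' * y) := by ring
    rw [e]
    refine (isIntegral_of_mem_adjoin ?_).mul hd'
    rw [← map_pow]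
    exact Polynomial.aeval_mem_adjoin_singleton k t

lemma isCoprime_X_add_C (c : k) (hc : c ≠ 0) : IsCoprime (X + C c : k[X]) X := by
  refine ⟨C c⁻¹, -C c⁻¹, ?_⟩
  calc C c⁻¹ * (X + C c) + -C c⁻¹ * X = C c⁻¹ * C c := by ring
    _ = 1 := by rw [← C_mul, inv_mul_cancel₀ hc, C_1]

lemma isCoprime_C_mul_X_add_one (c : k) : IsCoprime (C c * X + 1 : k[X]) X :=
  ⟨1, -C c, by ring⟩

end TwoCharts

/-! ### Series of nice functions -/

section Ser

local notation "ι" => HahnSeries.ofPowerSeries ℤ ℂ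

/-- The `q`-expansion of a function on the upper half plane, as a Laurent series. -/
noncomputable def ser (g : ℍ → ℂ) : LaurentSeries ℂ := ι (qExpansion 1 g)

lemma isNice_of_isMF {N : ℕ} {k : ℤ} {g : ℍ → ℂ} (h : IsMF N k g) : IsNice g := by
  obtain ⟨G, rfl⟩ := h
  exact isNice_of_modularForm (Fermat.Agent.S28.helper1448.IsMF.one_mem_strictPeriods N) G

lemma isNice_pow {f : ℍ → ℂ} (hf : IsNice f) (n : ℕ) : IsNice (f ^ n) :=
  Subalgebra.pow_mem niceSub hf n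

lemma ser_mul {f g : ℍ → ℂ} (hf : IsNice f) (hg : IsNice g) : ser (f * g) = ser f * ser g := by
  unfold ser
  rw [UpperHalfPlane.qExpansion_mul hf.analyticAt hg.analyticAt, map_mul]

lemma ser_pow {f : ℍ → ℂ} (hf : IsNice f) (n : ℕ) : ser (f ^ n) = ser f ^ n := by
  induction n with
  | zero =>
    rw [pow_zero, pow_zero]
    unfold ser
    rw [UpperHalfPlane.qExpansion_one, map_one]
  | succ n ih => rw [pow_succ, pow_succ, ser_mul (isNice_pow hf n) hf, ih]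

lemma ser_add {f g : ℍ → ℂ} (hf : IsNice f) (hg : IsNice g) : ser (f + g) = ser f + ser g := by
  unfold ser
  rw [UpperHalfPlane.qExpansion_add hf.analyticAt hg.analyticAt, map_add]

lemma ser_smul (a : ℂ) {f : ℍ → ℂ} (hf : IsNice f) :
    ser (a • f) = HahnSeries.C a * ser f := by
  unfold ser
  rw [UpperHalfPlane.qExpansion_smul hf.analyticAt a, ← HahnSeries.ofPowerSeries_C, ← map_mul]
  congr 1
  ext n
  simp

lemma ser_disc_ne_zero : ser Δ ≠ 0 := ofPS_disc_ne_zero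

lemma ser_E4_ne_zero : ser ⇑E₄ ≠ 0 := ofPS_E4_ne_zero

lemma ser_ne_zero_of_forall_ne {N : ℕ} {k : ℤ} {g : ℍ → ℂ} (h : IsMF N k g)
    (h0 : ∀ τ, g τ ≠ 0) : ser g ≠ 0 := by
  intro hs
  have h1 : qExpansion 1 g = 0 := HahnSeries.ofPowerSeries_injective (by rw [← ser, hs, map_zero])
  have h2 := (h.qExpansion_eq_zero_iff).mp h1
  exact h0 UpperHalfPlane.I (by rw [h2]; rfl)

/-- **Chart certificate.** `x` is integral over `ℂ[t]` as soon as `x Δ^M₁` and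
`x E₄^(3M₂) / Nm(t)^u` are (series of) modular forms on `Γ₀(N)`, where `j = Nm(t)/Dn(t)`. -/
theorem chart_cert (N : ℕ) [NeZero N] (t x : LaurentSeries ℂ) (Nm Dn : ℂ[X])
    (hcop : IsCoprime Nm Dn)
    (hJ : ser ⇑E₄ ^ 3 / ser Δ * Polynomial.aeval t Dn = Polynomial.aeval t Nm)
    (M₁ : ℕ) (g₁ : ℍ → ℂ) (hg₁ : IsMF N (12 * (M₁ : ℤ)) g₁) (hx₁ : x * ser Δ ^ M₁ = ser g₁)
    (u M₂ : ℕ) (g₂ : ℍ → ℂ) (hg₂ : IsMF N (12 * (M₂ : ℤ)) g₂)
    (hx₂ : x * ser ⇑E₄ ^ (3 * M₂) = Polynomial.aeval t Nm ^ u * ser g₂) :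
    IsIntegral (Algebra.adjoin ℂ {t}) x := by
  have hD : ser Δ ≠ 0 := ser_disc_ne_zero
  have he4 : ser ⇑E₄ ≠ 0 := ser_E4_ne_zero
  have hj : ser ⇑E₄ ^ 3 / ser Δ * ser Δ = ser ⇑E₄ ^ 3 := div_mul_cancel₀ _ hD
  have hj0 : ser ⇑E₄ ^ 3 / ser Δ ≠ 0 := div_ne_zero (pow_ne_zero 3 he4) hD
  have h1 := isIntegral_adjoin_J_of_div_disc N M₁ hg₁ (ser ⇑E₄ ^ 3 / ser Δ) x hj hx₁
  have h2 := isIntegral_adjoin_Jinv_of_div_E4 N M₂ hg₂ (ser ⇑E₄ ^ 3 / ser Δ)
    (ser g₂ / ser ⇑E₄ ^ (3 * M₂)) hj (div_mul_cancel₀ _ (pow_ne_zero _ he4))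
  refine isIntegral_of_two_charts (ser ⇑E₄ ^ 3 / ser Δ) t x _ Nm Dn hcop hJ hj0 u h1 h2 ?_
  rw [← mul_div_assoc, ← hx₂, mul_div_assoc, div_self (pow_ne_zero _ he4), mul_one]

end Ser

/-! ### Level restriction -/

section Restrict

lemma Gamma0_le_Gamma0_of_dvd {M N : ℕ} (h : M ∣ N) : Gamma0 N ≤ Gamma0 M := by
  intro A hA
  rw [Gamma0_mem] at hA ⊢
  rw [ZMod.intCast_zmod_eq_zero_iff_dvd] at hA ⊢
  exact (Int.natCast_dvd_natCast.mpr h).trans hA

/-- A modular form on `Γ₀(M)` is a modular form on `Γ₀(N)` for `M ∣ N`. -/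
lemma isMF_of_dvd {M N : ℕ} [NeZero M] [NeZero N] (h : M ∣ N) {k : ℤ}
    (G : ModularForm (Gamma0 M) k) : IsMF N k ⇑G := by
  have h1 : helper1040.IsMF (Gamma0 M) k ⇑G := helper1040.isMF_of_modularForm G
  have h2 : helper1040.IsMF (Gamma0 N) k ⇑G := h1.mono (Gamma0_le_Gamma0_of_dvd h)
  exact helper1040.isMF_iff.mp h2

lemma isMF_of_cuspForm {N : ℕ} {k : ℤ} (f : CuspForm (G0 N) k) : IsMF N k ⇑f :=
  ⟨ModularFormClass.modularForm f, rfl⟩

end Restrict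

/-! ### Division by the discriminant, series form -/

section SerDiv

lemma isNice_discriminant : IsNice (Δ : ℍ → ℂ) :=
  isNice_of_isMF (Fermat.Agent.S28.helper1448.isMF_discriminant 1)

lemma ser_divDisc (N : ℕ) [NeZero N] (f : CuspForm (G0 N) 2) (m : ℕ) (hm : N ≤ m) :
    ser (fun τ => f τ ^ m / Δ τ) * ser Δ = ser ⇑f ^ m := by
  have hH := isNice_of_isMF (isMF_pow_div_disc N f m hm)
  have hf := isNice_of_isMF (isMF_of_cuspForm f)
  rw [← ser_mul hH isNice_discriminant, ← ser_pow hf]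
  congr 1
  funext τ
  rw [Pi.mul_apply, Pi.pow_apply]
  exact div_mul_cancel₀ _ (ModularForm.discriminant_ne_zero τ)

end SerDiv

/-! ### Level 2 -/

section Level2

open Fermat.Agent.S18.helper1257

variable (N : ℕ) [NeZero N]

lemma isMF_c2 (h2 : 2 ∣ N) : IsMF N 4 c2 := by
  have h := isMF_of_dvd h2 C2f
  rwa [show (⇑C2f : ℍ → ℂ) = c2 from funext C2f_apply] at h

lemma isMF_d2 (h2 : 2 ∣ N) : IsMF N 4 d2 := by
  have h := isMF_of_dvd h2 D2f
  rwa [show (⇑D2f : ℍ → ℂ) = d2 from funext D2f_apply] at h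

lemma ser_E4_eq2 (h2 : 2 ∣ N) : ser ⇑E₄ = ser d2 + 256 * ser c2 := by
  have hc := isNice_of_isMF (isMF_c2 N h2)
  have hd := isNice_of_isMF (isMF_d2 N h2)
  have e : (⇑E₄ : ℍ → ℂ) = d2 + (256 : ℂ) • c2 := by
    funext τ
    rw [Pi.add_apply, Pi.smul_apply, smul_eq_mul]
    exact E4_eq2 τ
  rw [e, ser_add hd (Subalgebra.smul_mem niceSub hc 256), ser_smul 256 hc, map_ofNat]

lemma ser_disc_eq2 (h2 : 2 ∣ N) : ser Δ = ser c2 * ser d2 ^ 2 := by
  have hc := isNice_of_isMF (isMF_c2 N h2)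
  have hd := isNice_of_isMF (isMF_d2 N h2)
  have e : (Δ : ℍ → ℂ) = c2 * d2 ^ 2 := by
    funext τ
    rw [Pi.mul_apply, Pi.pow_apply]
    exact discriminant_eq2 τ
  rw [e, ser_mul hc (isNice_pow hd 2), ser_pow hd]

lemma ser_c2_ne_zero (h2 : 2 ∣ N) : ser c2 ≠ 0 := fun h =>
  ser_disc_ne_zero (by rw [ser_disc_eq2 N h2, h, zero_mul])

lemma ser_d2_ne_zero (h2 : 2 ∣ N) : ser d2 ≠ 0 := fun h =>
  ser_disc_ne_zero (by rw [ser_disc_eq2 N h2, h]; simp)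

/-- The Hauptmodul of level 2 (`= Δ(τ)/Δ(2τ)`) as a Laurent series. -/
noncomputable def t2C : LaurentSeries ℂ := ser d2 / ser c2

lemma t2C_add (h2 : 2 ∣ N) : t2C + 256 = ser ⇑E₄ / ser c2 := by
  have hB := ser_c2_ne_zero N h2
  rw [t2C, ser_E4_eq2 N h2]
  field_simp

lemma t2C_inv_add (h2 : 2 ∣ N) : 256 * t2C⁻¹ + 1 = ser ⇑E₄ / ser d2 := by
  have hB := ser_c2_ne_zero N h2
  have hA := ser_d2_ne_zero N h2
  rw [t2C, ser_E4_eq2 N h2]
  field_simp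
  ring

/-- `j t² = (t + 256)³`. -/
lemma hJ2 (h2 : 2 ∣ N) :
    ser ⇑E₄ ^ 3 / ser Δ * Polynomial.aeval t2C (X ^ 2 : ℂ[X])
      = Polynomial.aeval t2C ((X + C 256) ^ 3 : ℂ[X]) := by
  have hB := ser_c2_ne_zero N h2
  have hA := ser_d2_ne_zero N h2
  simp only [map_pow, map_add, aeval_X, map_ofNat]
  rw [t2C_add N h2, t2C, ser_disc_eq2 N h2]
  field_simp

/-- `j / t = (256/t + 1)³`. -/
lemma hJ2' (h2 : 2 ∣ N) :
    ser ⇑E₄ ^ 3 / ser Δ * Polynomial.aeval t2C⁻¹ (X : ℂ[X])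
      = Polynomial.aeval t2C⁻¹ ((C 256 * X + 1) ^ 3 : ℂ[X]) := by
  have hB := ser_c2_ne_zero N h2
  have hA := ser_d2_ne_zero N h2
  simp only [map_pow, map_add, map_mul, map_one, aeval_X, map_ofNat]
  rw [t2C_inv_add N h2, t2C, ser_disc_eq2 N h2]
  field_simp

/-- **(K1, level 2)** `f²/c₂ = (f/ε₂)² (t + 64)` is integral over `ℂ[t]`. -/
theorem cert2_z (h2 : 2 ∣ N) (f : CuspForm (G0 N) 2) :
    IsIntegral (Algebra.adjoin ℂ {t2C}) (ser ⇑f ^ 2 / ser c2) := by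
  have hD := ser_disc_eq2 N h2
  have hB := ser_c2_ne_zero N h2
  have hA := ser_d2_ne_zero N h2
  have hfM := isMF_of_cuspForm f
  have hcM := isMF_c2 N h2
  have hdM := isMF_d2 N h2
  have hfN := isNice_of_isMF hfM
  have hcN := isNice_of_isMF hcM
  have hdN := isNice_of_isMF hdM
  refine chart_cert N t2C _ ((X + C 256) ^ 3) (X ^ 2)
    ((isCoprime_X_add_C 256 (by norm_num)).pow) (hJ2 N h2)
    1 (⇑f ^ 2 * d2 ^ 2) (((hfM.pow 2).mul (hdM.pow 2)).cast (by norm_num)) ?_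
    1 1 (⇑f ^ 2 * c2 ^ 2) (((hfM.pow 2).mul (hcM.pow 2)).cast (by norm_num)) ?_
  · rw [ser_mul (isNice_pow hfN 2) (isNice_pow hdN 2), ser_pow hfN, ser_pow hdN, hD]
    field_simp
  · simp only [map_pow, map_add, aeval_X, map_ofNat]
    rw [ser_mul (isNice_pow hfN 2) (isNice_pow hcN 2), ser_pow hfN, ser_pow hcN, t2C_add N h2]
    field_simp

/-- **(K2, level 2)** `(f²/c₂)^E / t` is integral over `ℂ[t]` for `2E ≥ N`. -/
theorem cert2_w (h2 : 2 ∣ N) (f : CuspForm (G0 N) 2) (E : ℕ) (hE : N ≤ 2 * E) :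
    IsIntegral (Algebra.adjoin ℂ {t2C}) ((ser ⇑f ^ 2 / ser c2) ^ E / t2C) := by
  have hD := ser_disc_eq2 N h2
  have hB := ser_c2_ne_zero N h2
  have hA := ser_d2_ne_zero N h2
  have hfM := isMF_of_cuspForm f
  have hcM := isMF_c2 N h2
  have hdM := isMF_d2 N h2
  have hfN := isNice_of_isMF hfM
  have hcN := isNice_of_isMF hcM
  have hdN := isNice_of_isMF hdM
  have hHM := isMF_pow_div_disc N f (2 * E) hE
  have hHN := isNice_of_isMF hHM
  have hH : ser (fun τ => f τ ^ (2 * E) / Δ τ) = ser ⇑f ^ (2 * E) / (ser c2 * ser d2 ^ 2) := by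
    rw [eq_div_iff (mul_ne_zero hB (pow_ne_zero 2 hA)), ← hD]
    exact ser_divDisc N f (2 * E) hE
  refine chart_cert N t2C _ ((X + C 256) ^ 3) (X ^ 2)
    ((isCoprime_X_add_C 256 (by norm_num)).pow) (hJ2 N h2)
    (E + 1) (⇑f ^ (2 * E) * (c2 ^ 2 * d2 ^ (2 * E + 1)))
    (((hfM.pow (2 * E)).mul ((hcM.pow 2).mul (hdM.pow (2 * E + 1)))).cast (by push_cast; ring)) ?_
    E E ((fun τ => f τ ^ (2 * E) / Δ τ) * (d2 * c2 ^ (2 * E + 2)))
    ((hHM.mul (hdM.mul (hcM.pow (2 * E + 2)))).cast (by push_cast; ring)) ?_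
  · rw [ser_mul (isNice_pow hfN _) ((isNice_pow hcN 2).mul (isNice_pow hdN _)), ser_pow hfN,
      ser_mul (isNice_pow hcN 2) (isNice_pow hdN _), ser_pow hcN, ser_pow hdN, hD, t2C]
    simp only [div_pow, ← pow_mul]
    field_simp
    ring
  · simp only [map_pow, map_add, aeval_X, map_ofNat]
    rw [ser_mul hHN (hdN.mul (isNice_pow hcN _)), ser_mul hdN (isNice_pow hcN _), ser_pow hcN,
      t2C_add N h2, t2C, hH]
    simp only [div_pow, ← pow_mul]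
    field_simp
    ring

/-- **(K3, level 2)** `f²/d₂ = (f/ε₂)² (64/t + 1)` is integral over `ℂ[1/t]`. -/
theorem cert2_z' (h2 : 2 ∣ N) (f : CuspForm (G0 N) 2) :
    IsIntegral (Algebra.adjoin ℂ {t2C⁻¹}) (ser ⇑f ^ 2 / ser d2) := by
  have hD := ser_disc_eq2 N h2
  have hB := ser_c2_ne_zero N h2
  have hA := ser_d2_ne_zero N h2
  have hfM := isMF_of_cuspForm f
  have hcM := isMF_c2 N h2
  have hdM := isMF_d2 N h2
  have hfN := isNice_of_isMF hfM
  have hcN := isNice_of_isMF hcM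
  have hdN := isNice_of_isMF hdM
  refine chart_cert N t2C⁻¹ _ ((C 256 * X + 1) ^ 3) X
    ((isCoprime_C_mul_X_add_one 256).pow_left) (hJ2' N h2)
    1 (⇑f ^ 2 * (d2 * c2)) (((hfM.pow 2).mul (hdM.mul hcM)).cast (by norm_num)) ?_
    1 1 (⇑f ^ 2 * d2 ^ 2) (((hfM.pow 2).mul (hdM.pow 2)).cast (by norm_num)) ?_
  · rw [ser_mul (isNice_pow hfN 2) (hdN.mul hcN), ser_pow hfN, ser_mul hdN hcN, hD]
    field_simp
  · simp only [map_pow, map_add, map_mul, map_one, aeval_X, map_ofNat]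
    rw [ser_mul (isNice_pow hfN 2) (isNice_pow hdN 2), ser_pow hfN, ser_pow hdN, t2C_inv_add N h2]
    field_simp

/-- **(K4, level 2)** `(f²/d₂)^E · t` is integral over `ℂ[1/t]` for `2E ≥ N`. -/
theorem cert2_w' (h2 : 2 ∣ N) (f : CuspForm (G0 N) 2) (E : ℕ) (hE : N ≤ 2 * E) :
    IsIntegral (Algebra.adjoin ℂ {t2C⁻¹}) ((ser ⇑f ^ 2 / ser d2) ^ E * t2C) := by
  have hD := ser_disc_eq2 N h2
  have hB := ser_c2_ne_zero N h2
  have hA := ser_d2_ne_zero N h2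
  have hfM := isMF_of_cuspForm f
  have hcM := isMF_c2 N h2
  have hdM := isMF_d2 N h2
  have hfN := isNice_of_isMF hfM
  have hcN := isNice_of_isMF hcM
  have hdN := isNice_of_isMF hdM
  have hHM := isMF_pow_div_disc N f (2 * E) hE
  have hHN := isNice_of_isMF hHM
  have hH : ser (fun τ => f τ ^ (2 * E) / Δ τ) = ser ⇑f ^ (2 * E) / (ser c2 * ser d2 ^ 2) := by
    rw [eq_div_iff (mul_ne_zero hB (pow_ne_zero 2 hA)), ← hD]
    exact ser_divDisc N f (2 * E) hE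
  refine chart_cert N t2C⁻¹ _ ((C 256 * X + 1) ^ 3) X
    ((isCoprime_C_mul_X_add_one 256).pow_left) (hJ2' N h2)
    (E + 1) (⇑f ^ (2 * E) * (c2 ^ E * d2 ^ (E + 3)))
    (((hfM.pow (2 * E)).mul ((hcM.pow E).mul (hdM.pow (E + 3)))).cast (by push_cast; ring)) ?_
    E E ((fun τ => f τ ^ (2 * E) / Δ τ) * d2 ^ (2 * E + 3))
    ((hHM.mul (hdM.pow (2 * E + 3))).cast (by push_cast; ring)) ?_
  · rw [ser_mul (isNice_pow hfN _) ((isNice_pow hcN _).mul (isNice_pow hdN _)), ser_pow hfN,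
      ser_mul (isNice_pow hcN _) (isNice_pow hdN _), ser_pow hcN, ser_pow hdN, hD, t2C]
    simp only [div_pow, ← pow_mul]
    field_simp
    ring
  · simp only [map_pow, map_add, map_mul, map_one, aeval_X, map_ofNat]
    rw [ser_mul hHN (isNice_pow hdN _), ser_pow hdN, t2C_inv_add N h2, t2C, hH]
    simp only [div_pow, ← pow_mul]
    field_simp
    ring

end Level2

/-! ### Level 3 -/

section Level3

open Fermat.Agent.S18.helper1257

variable (N : ℕ) [NeZero N]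

lemma isMF_b3 (h3 : 3 ∣ N) : IsMF N 2 ⇑b3 := isMF_of_dvd h3 b3

lemma isMF_c3 (h3 : 3 ∣ N) : IsMF N 4 c3 := by
  have h := isMF_of_dvd h3 C3f
  rwa [show (⇑C3f : ℍ → ℂ) = c3 from funext C3f_apply] at h

lemma isMF_d3 (h3 : 3 ∣ N) : IsMF N 6 d3 := by
  have hb := isMF_b3 N h3
  have hc := isMF_c3 N h3
  have hE6 : IsMF N 6 ⇑(dil 3 E₆) := isMF_of_dvd h3 (dil 3 E₆)
  have h : IsMF N 6 ((1 / 216 : ℂ) • (⇑(dil 3 E₆) + ((-1 : ℂ) • (⇑b3 ^ 3)
      + (36 : ℂ) • (⇑b3 * c3)))) :=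
    (hE6.add ((((hb.pow 3).cast (by norm_num)).smul (-1)).add
      (((hb.mul hc).cast (by norm_num)).smul 36))).smul (1 / 216)
  convert h using 1
  funext τ
  simp only [Pi.smul_apply, Pi.add_apply, Pi.mul_apply, Pi.pow_apply, smul_eq_mul, dil_apply]
  rw [d3]
  ring

/-- `P = b c - 27 d`, weight 6 on `Γ₀(3)` (`Δ(3τ) = d P`). -/
noncomputable def P3 : ℍ → ℂ := ⇑b3 * c3 + (-27 : ℂ) • d3

/-- `Q = b³ - 54 b c + 729 d`, weight 6 on `Γ₀(3)` (`Δ = P Q`, `P² = Q d`). -/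
noncomputable def Q3 : ℍ → ℂ := ⇑b3 ^ 3 + ((-54 : ℂ) • (⇑b3 * c3) + (729 : ℂ) • d3)

lemma isMF_P3 (h3 : 3 ∣ N) : IsMF N 6 P3 :=
  (((isMF_b3 N h3).mul (isMF_c3 N h3)).cast (by norm_num)).add ((isMF_d3 N h3).smul (-27))

lemma isMF_Q3 (h3 : 3 ∣ N) : IsMF N 6 Q3 :=
  (((isMF_b3 N h3).pow 3).cast (by norm_num)).add
    (((((isMF_b3 N h3).mul (isMF_c3 N h3)).cast (by norm_num)).smul (-54)).add
      ((isMF_d3 N h3).smul 729))

/-- `n = b² - 27 c` as a Laurent series. -/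
noncomputable def n3C : LaurentSeries ℂ := ser ⇑b3 ^ 2 - 27 * ser c3

/-- The Hauptmodul of level 3 (`= (η(τ)/η(3τ))¹²`) as a Laurent series. -/
noncomputable def t3C : LaurentSeries ℂ := n3C / ser c3

lemma ser_b3_ne_zero : ser ⇑b3 ≠ 0 := by
  intro h
  have h1 : qExpansion 1 ⇑b3 = 0 :=
    HahnSeries.ofPowerSeries_injective (by rw [← ser, h, map_zero])
  have h2 := b3_coeff0
  rw [h1] at h2
  simp at h2

lemma ser_d3_ne_zero (h3 : 3 ∣ N) : ser d3 ≠ 0 :=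
  ser_ne_zero_of_forall_ne (isMF_d3 N h3) d3_ne_zero

lemma ser_c3_sq (h3 : 3 ∣ N) : ser c3 ^ 2 = ser ⇑b3 * ser d3 := by
  have hb := isNice_of_isMF (isMF_b3 N h3)
  have hc := isNice_of_isMF (isMF_c3 N h3)
  have hd := isNice_of_isMF (isMF_d3 N h3)
  rw [← ser_pow hc, ← ser_mul hb hd]
  congr 1
  funext τ
  rw [Pi.pow_apply, Pi.mul_apply]
  exact c3_sq τ

lemma ser_c3_ne_zero (h3 : 3 ∣ N) : ser c3 ≠ 0 := by
  intro h
  have h1 := ser_c3_sq N h3
  rw [h] at h1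
  exact mul_ne_zero ser_b3_ne_zero (ser_d3_ne_zero N h3) (by rw [← h1]; ring)

lemma ser_d3_eq (h3 : 3 ∣ N) : ser d3 = ser c3 ^ 2 / ser ⇑b3 := by
  rw [eq_div_iff ser_b3_ne_zero, ser_c3_sq N h3]
  ring

lemma ser_b3_sq : ser ⇑b3 ^ 2 = n3C + 27 * ser c3 := by
  rw [n3C]
  ring

lemma ser_E4_eq3 (h3 : 3 ∣ N) : ser ⇑E₄ = n3C + 243 * ser c3 := by
  have hb := isNice_of_isMF (isMF_b3 N h3)
  have hc := isNice_of_isMF (isMF_c3 N h3)
  have e : (⇑E₄ : ℍ → ℂ) = ⇑b3 ^ 2 + (216 : ℂ) • c3 := by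
    funext τ
    rw [Pi.add_apply, Pi.smul_apply, Pi.pow_apply, smul_eq_mul]
    exact E4_eq3 τ
  rw [e, ser_add (isNice_pow hb 2) (Subalgebra.smul_mem niceSub hc 216), ser_smul 216 hc,
    map_ofNat, ser_pow hb, n3C]
  ring

lemma ser_P3_eq (h3 : 3 ∣ N) : ser P3 = ser c3 * n3C / ser ⇑b3 := by
  have hb := isNice_of_isMF (isMF_b3 N h3)
  have hc := isNice_of_isMF (isMF_c3 N h3)
  have hd := isNice_of_isMF (isMF_d3 N h3)
  have hb0 := ser_b3_ne_zero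
  rw [P3, ser_add (hb.mul hc) (Subalgebra.smul_mem niceSub hd (-27)), ser_mul hb hc,
    ser_smul (-27) hd, map_neg, map_ofNat, ser_d3_eq N h3, n3C]
  field_simp
  ring

lemma ser_Q3_eq (h3 : 3 ∣ N) : ser Q3 = n3C ^ 2 / ser ⇑b3 := by
  have hb := isNice_of_isMF (isMF_b3 N h3)
  have hc := isNice_of_isMF (isMF_c3 N h3)
  have hd := isNice_of_isMF (isMF_d3 N h3)
  have hb0 := ser_b3_ne_zero
  rw [Q3, ser_add (isNice_pow hb 3) ((Subalgebra.smul_mem niceSub (hb.mul hc) (-54)).add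
      (Subalgebra.smul_mem niceSub hd 729)),
    ser_add (Subalgebra.smul_mem niceSub (hb.mul hc) (-54)) (Subalgebra.smul_mem niceSub hd 729),
    ser_pow hb, ser_smul (-54) (hb.mul hc), ser_mul hb hc, ser_smul 729 hd, map_neg, map_ofNat,
    map_ofNat, ser_d3_eq N h3, n3C]
  field_simp
  ring

lemma ser_disc_eq3 (h3 : 3 ∣ N) : ser Δ = ser c3 * n3C ^ 3 / ser ⇑b3 ^ 2 := by
  have hP := isNice_of_isMF (isMF_P3 N h3)
  have hQ := isNice_of_isMF (isMF_Q3 N h3)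
  have hb0 := ser_b3_ne_zero
  have e : (Δ : ℍ → ℂ) = P3 * Q3 := by
    funext τ
    simp only [P3, Q3, Pi.mul_apply, Pi.add_apply, Pi.smul_apply, Pi.pow_apply, smul_eq_mul]
    rw [discriminant_eq3 τ]
    ring
  rw [e, ser_mul hP hQ, ser_P3_eq N h3, ser_Q3_eq N h3]
  field_simp

lemma n3C_ne_zero (h3 : 3 ∣ N) : n3C ≠ 0 := by
  intro h
  have h1 := ser_disc_eq3 N h3
  rw [h] at h1
  exact ser_disc_ne_zero (by rw [h1]; simp)

lemma t3C_add27 (h3 : 3 ∣ N) : t3C + 27 = ser ⇑b3 ^ 2 / ser c3 := by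
  have hc := ser_c3_ne_zero N h3
  rw [t3C, ser_b3_sq]
  field_simp

lemma t3C_add243 (h3 : 3 ∣ N) : t3C + 243 = ser ⇑E₄ / ser c3 := by
  have hc := ser_c3_ne_zero N h3
  rw [t3C, ser_E4_eq3 N h3]
  field_simp

lemma t3C_inv27 (h3 : 3 ∣ N) : 27 * t3C⁻¹ + 1 = ser ⇑b3 ^ 2 / n3C := by
  have hc := ser_c3_ne_zero N h3
  have hn := n3C_ne_zero N h3
  rw [t3C, ser_b3_sq]
  field_simp
  ring

lemma t3C_inv243 (h3 : 3 ∣ N) : 243 * t3C⁻¹ + 1 = ser ⇑E₄ / n3C := by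
  have hc := ser_c3_ne_zero N h3
  have hn := n3C_ne_zero N h3
  rw [t3C, ser_E4_eq3 N h3]
  field_simp
  ring

/-- `j t³ = (t + 27)(t + 243)³`. -/
lemma hJ3 (h3 : 3 ∣ N) :
    ser ⇑E₄ ^ 3 / ser Δ * Polynomial.aeval t3C (X ^ 3 : ℂ[X])
      = Polynomial.aeval t3C ((X + C 27) * (X + C 243) ^ 3 : ℂ[X]) := by
  have hb := ser_b3_ne_zero
  have hc := ser_c3_ne_zero N h3
  have hn := n3C_ne_zero N h3
  simp only [map_pow, map_add, map_mul, aeval_X, map_ofNat]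
  rw [t3C_add27 N h3, t3C_add243 N h3, t3C, ser_disc_eq3 N h3]
  field_simp

/-- `j / t = (27/t + 1)(243/t + 1)³`. -/
lemma hJ3' (h3 : 3 ∣ N) :
    ser ⇑E₄ ^ 3 / ser Δ * Polynomial.aeval t3C⁻¹ (X : ℂ[X])
      = Polynomial.aeval t3C⁻¹ ((C 27 * X + 1) * (C 243 * X + 1) ^ 3 : ℂ[X]) := by
  have hb := ser_b3_ne_zero
  have hc := ser_c3_ne_zero N h3
  have hn := n3C_ne_zero N h3
  simp only [map_pow, map_add, map_mul, map_one, aeval_X, map_ofNat]
  rw [t3C_inv27 N h3, t3C_inv243 N h3, t3C, ser_disc_eq3 N h3]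
  field_simp

lemma isCoprime_Nm3 : IsCoprime ((X + C 27) * (X + C 243) ^ 3 : ℂ[X]) (X ^ 3) :=
  (IsCoprime.mul_left (isCoprime_X_add_C 27 (by norm_num))
    (isCoprime_X_add_C 243 (by norm_num)).pow_left).pow_right

lemma isCoprime_Nm3' : IsCoprime ((C 27 * X + 1) * (C 243 * X + 1) ^ 3 : ℂ[X]) X :=
  IsCoprime.mul_left (isCoprime_C_mul_X_add_one 27) (isCoprime_C_mul_X_add_one 243).pow_left

/-- **(K1, level 3)** `f³/d₃ = (f/ε₃)³ (t + 27)²` is integral over `ℂ[t]`. -/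
theorem cert3_z (h3 : 3 ∣ N) (f : CuspForm (G0 N) 2) :
    IsIntegral (Algebra.adjoin ℂ {t3C}) (ser ⇑f ^ 3 / ser d3) := by
  have hb := ser_b3_ne_zero
  have hc := ser_c3_ne_zero N h3
  have hn := n3C_ne_zero N h3
  have hfM := isMF_of_cuspForm f
  have hdM := isMF_d3 N h3
  have hQM := isMF_Q3 N h3
  have hfN := isNice_of_isMF hfM
  have hdN := isNice_of_isMF hdM
  have hQN := isNice_of_isMF hQM
  refine chart_cert N t3C _ _ _ isCoprime_Nm3 (hJ3 N h3)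
    2 (⇑f ^ 3 * Q3 ^ 3) (((hfM.pow 3).mul (hQM.pow 3)).cast (by norm_num)) ?_
    1 1 (⇑f ^ 3 * d3) (((hfM.pow 3).mul hdM).cast (by norm_num)) ?_
  · rw [ser_mul (isNice_pow hfN 3) (isNice_pow hQN 3), ser_pow hfN, ser_pow hQN,
      ser_Q3_eq N h3, ser_disc_eq3 N h3, ser_d3_eq N h3]
    field_simp
  · simp only [map_pow, map_add, map_mul, aeval_X, map_ofNat]
    rw [ser_mul (isNice_pow hfN 3) hdN, ser_pow hfN, t3C_add27 N h3, t3C_add243 N h3,
      ser_d3_eq N h3]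
    field_simp

/-- **(K2, level 3)** `(f³/d₃)^E / t` is integral over `ℂ[t]` for `3E ≥ N`. -/
theorem cert3_w (h3 : 3 ∣ N) (f : CuspForm (G0 N) 2) (E : ℕ) (hE : N ≤ 3 * E) :
    IsIntegral (Algebra.adjoin ℂ {t3C}) ((ser ⇑f ^ 3 / ser d3) ^ E / t3C) := by
  have hb := ser_b3_ne_zero
  have hc := ser_c3_ne_zero N h3
  have hn := n3C_ne_zero N h3
  have hfM := isMF_of_cuspForm f
  have hdM := isMF_d3 N h3
  have hQM := isMF_Q3 N h3
  have hfN := isNice_of_isMF hfM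
  have hdN := isNice_of_isMF hdM
  have hQN := isNice_of_isMF hQM
  have hHM := isMF_pow_div_disc N f (3 * E) hE
  have hHN := isNice_of_isMF hHM
  have hH : ser (fun τ => f τ ^ (3 * E) / Δ τ)
      = ser ⇑f ^ (3 * E) / (ser c3 * n3C ^ 3 / ser ⇑b3 ^ 2) := by
    rw [← ser_disc_eq3 N h3, eq_div_iff ser_disc_ne_zero]
    exact ser_divDisc N f (3 * E) hE
  refine chart_cert N t3C _ _ _ isCoprime_Nm3 (hJ3 N h3)
    (2 * E + 1) (⇑f ^ (3 * E) * (Q3 ^ (3 * E + 1) * d3))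
    (((hfM.pow (3 * E)).mul ((hQM.pow (3 * E + 1)).mul hdM)).cast (by push_cast; ring)) ?_
    E E ((fun τ => f τ ^ (3 * E) / Δ τ) * (Q3 * d3 ^ (E + 1)))
    ((hHM.mul (hQM.mul (hdM.pow (E + 1)))).cast (by push_cast; ring)) ?_
  · rw [ser_mul (isNice_pow hfN _) ((isNice_pow hQN _).mul hdN), ser_pow hfN,
      ser_mul (isNice_pow hQN _) hdN, ser_pow hQN, ser_Q3_eq N h3, ser_disc_eq3 N h3,
      ser_d3_eq N h3, t3C]
    simp only [div_pow, mul_pow, ← pow_mul]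
    field_simp
    ring
  · simp only [map_pow, map_add, map_mul, aeval_X, map_ofNat]
    rw [ser_mul hHN (hQN.mul (isNice_pow hdN _)), ser_mul hQN (isNice_pow hdN _), ser_pow hdN,
      ser_Q3_eq N h3, t3C_add27 N h3, t3C_add243 N h3, ser_d3_eq N h3, t3C, hH]
    simp only [div_pow, mul_pow, ← pow_mul]
    field_simp
    ring

/-- **(K3, level 3)** `f³/(t² d₃) = (f/ε₃)³ (27/t + 1)²` is integral over `ℂ[1/t]`. -/
theorem cert3_z' (h3 : 3 ∣ N) (f : CuspForm (G0 N) 2) :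
    IsIntegral (Algebra.adjoin ℂ {t3C⁻¹}) (ser ⇑f ^ 3 / (t3C ^ 2 * ser d3)) := by
  have hb := ser_b3_ne_zero
  have hc := ser_c3_ne_zero N h3
  have hn := n3C_ne_zero N h3
  have hfM := isMF_of_cuspForm f
  have hPM := isMF_P3 N h3
  have hQM := isMF_Q3 N h3
  have hfN := isNice_of_isMF hfM
  have hPN := isNice_of_isMF hPM
  have hQN := isNice_of_isMF hQM
  refine chart_cert N t3C⁻¹ _ _ _ isCoprime_Nm3' (hJ3' N h3)
    1 (⇑f ^ 3 * P3) (((hfM.pow 3).mul hPM).cast (by norm_num)) ?_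
    1 1 (⇑f ^ 3 * Q3) (((hfM.pow 3).mul hQM).cast (by norm_num)) ?_
  · rw [ser_mul (isNice_pow hfN 3) hPN, ser_pow hfN, ser_P3_eq N h3, ser_disc_eq3 N h3,
      ser_d3_eq N h3, t3C]
    field_simp
  · simp only [map_pow, map_add, map_mul, map_one, aeval_X, map_ofNat]
    rw [ser_mul (isNice_pow hfN 3) hQN, ser_pow hfN, ser_Q3_eq N h3, t3C_inv27 N h3,
      t3C_inv243 N h3, ser_d3_eq N h3, t3C]
    field_simp

/-- **(K4, level 3)** `(f³/(t² d₃))^E · t` is integral over `ℂ[1/t]` for `3E ≥ N`. -/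
theorem cert3_w' (h3 : 3 ∣ N) (f : CuspForm (G0 N) 2) (E : ℕ) (hE : N ≤ 3 * E) :
    IsIntegral (Algebra.adjoin ℂ {t3C⁻¹}) ((ser ⇑f ^ 3 / (t3C ^ 2 * ser d3)) ^ E * t3C) := by
  have hb := ser_b3_ne_zero
  have hc := ser_c3_ne_zero N h3
  have hn := n3C_ne_zero N h3
  have hfM := isMF_of_cuspForm f
  have hPM := isMF_P3 N h3
  have hQM := isMF_Q3 N h3
  have hfN := isNice_of_isMF hfM
  have hPN := isNice_of_isMF hPM
  have hQN := isNice_of_isMF hQM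
  have hHM := isMF_pow_div_disc N f (3 * E) hE
  have hHN := isNice_of_isMF hHM
  have hH : ser (fun τ => f τ ^ (3 * E) / Δ τ)
      = ser ⇑f ^ (3 * E) / (ser c3 * n3C ^ 3 / ser ⇑b3 ^ 2) := by
    rw [← ser_disc_eq3 N h3, eq_div_iff ser_disc_ne_zero]
    exact ser_divDisc N f (3 * E) hE
  refine chart_cert N t3C⁻¹ _ _ _ isCoprime_Nm3' (hJ3' N h3)
    (E + 1) (⇑f ^ (3 * E) * (P3 ^ E * Q3 ^ 2))
    (((hfM.pow (3 * E)).mul ((hPM.pow E).mul (hQM.pow 2))).cast (by push_cast; ring)) ?_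
    E E ((fun τ => f τ ^ (3 * E) / Δ τ) * Q3 ^ (E + 2))
    ((hHM.mul (hQM.pow (E + 2))).cast (by push_cast; ring)) ?_
  · rw [ser_mul (isNice_pow hfN _) ((isNice_pow hPN _).mul (isNice_pow hQN _)), ser_pow hfN,
      ser_mul (isNice_pow hPN _) (isNice_pow hQN _), ser_pow hPN, ser_pow hQN, ser_P3_eq N h3,
      ser_Q3_eq N h3, ser_disc_eq3 N h3, ser_d3_eq N h3, t3C]
    simp only [div_pow, mul_pow, ← pow_mul]
    field_simp
    ring
  · simp only [map_pow, map_add, map_mul, map_one, aeval_X, map_ofNat]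
    rw [ser_mul hHN (isNice_pow hQN _), ser_pow hQN, ser_Q3_eq N h3, t3C_inv27 N h3,
      t3C_inv243 N h3, ser_d3_eq N h3, t3C, hH]
    simp only [div_pow, mul_pow, ← pow_mul]
    field_simp
    ring

end Level3

end Fermat.Agent.S18.helper208
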