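import Mathlib
import Fermat.Prelude.Def_ModularCurve_LaurentCoeff
import Fermat.Prelude.Def_ModularCurve_X0ModL
import Fermat.Agent.S18.helper208_CertAsm

/-!
# S18-CERT-R, part 3: descent of integrality to a field of coefficients, integer-series forms

* `isIntegral_adjoin_of_coeffMap`: for Laurent series `t, x` over a field `L` and a field
  homomorphism `φ : L → M`: if `x` is integral over `M[t]` after base change, then `x` is integral
  over `L[t]`.
* `cert2L`, `cert3L`: the four certificates on the Hauptmodul lines over any field `L` with a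
  homomorphism to `ℂ`, in terms of the integer series of `helper1257_HauptFormal`.
-/

set_option autoImplicit false

open UpperHalfPlane ModularForm Polynomial EisensteinSeries CongruenceSubgroup
open scoped MatrixGroups Manifold

namespace Fermat.Agent.S18.helper208

open Fermat.Agent.Lib.helper1219 hiding G0
open Fermat.Agent.S28.helper1448 (G0 IsMF)
open ModularCurve (coeffMap)

local notation "Δ" => ModularForm.discriminant

/-! ### From integrality to an explicit monic relation -/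

section Monic

variable {k L : Type*} [Field k] [CommRing L] [Nontrivial L] [Algebra k L]

/-- Integrality over `k[t]` gives a monic polynomial with coefficients in `k[X]`. -/
theorem exists_monic_eval₂_of_isIntegral (t x : L) (h : IsIntegral (Algebra.adjoin k {t}) x) :
    ∃ Q : (k[X])[X], Q.Monic ∧ Q.eval₂ (Polynomial.aeval t).toRingHom x = 0 := by
  obtain ⟨p, hp, hpx⟩ := h
  set t' : Algebra.adjoin k {t} := ⟨t, Algebra.self_mem_adjoin_singleton k t⟩ with ht'
  set g : k[X] →+* Algebra.adjoin k {t} := (Polynomial.aeval t').toRingHom with hg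
  have hval : ∀ q : k[X], ((g q : Algebra.adjoin k {t}) : L) = Polynomial.aeval t q := fun q =>
    Polynomial.aeval_subalgebra_coe q _ t'
  have hsurj : Function.Surjective g := by
    rintro ⟨y, hy⟩
    have hy' := hy
    rw [Algebra.adjoin_singleton_eq_range_aeval] at hy'
    obtain ⟨q, rfl⟩ := hy'
    exact ⟨q, Subtype.ext (hval q)⟩
  have hl : p ∈ Polynomial.lifts g := by
    rw [Polynomial.lifts_iff_coeff_lifts]
    intro i
    exact hsurj (p.coeff i)
  obtain ⟨Q, hQ, -, hQm⟩ := Polynomial.lifts_and_degree_eq_and_monic hl hp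
  refine ⟨Q, hQm, ?_⟩
  have hcomp : (algebraMap (Algebra.adjoin k {t}) L).comp g = (Polynomial.aeval t).toRingHom :=
    RingHom.ext fun q => hval q
  rw [← hcomp, ← Polynomial.eval₂_map, hQ]
  exact hpx

/-- Integrality over `k[t]` is reflected by injective algebra homomorphisms. -/
theorem isIntegral_adjoin_of_algHom {A B : Type*} [CommRing A] [CommRing B] [Nontrivial A]
    [Nontrivial B]
    [Algebra k A] [Algebra k B] (ψ : A →ₐ[k] B) (hψ : Function.Injective ψ) (t x : A)
    (h : IsIntegral (Algebra.adjoin k {ψ t}) (ψ x)) : IsIntegral (Algebra.adjoin k {t}) x := by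
  obtain ⟨Q, hQm, hQ⟩ := exists_monic_eval₂_of_isIntegral _ _ h
  refine isIntegral_adjoin_of_eval₂ t x Q hQm (hψ ?_)
  rw [map_zero, ← hQ, ← AlgHom.coe_toRingHom, Polynomial.hom_eval₂]
  congr 1
  refine RingHom.ext fun q => ?_
  show ψ (Polynomial.aeval t q) = Polynomial.aeval (ψ t) q
  exact (Polynomial.aeval_algHom_apply ψ t q).symm

end Monic

/-! ### Descent along a field extension -/

section Descent

variable {k K : Type*} [Field k] [Field K] [Algebra k K]

lemma algebraMap_eq_C (L : Type*) [Field L] (c : L) :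
    algebraMap L (LaurentSeries L) c = HahnSeries.C c := by
  rw [ModularCurve.algebraMap_laurentSeries_eq_single]
  rfl

lemma exists_retraction : ∃ ρ : K →ₗ[k] k, ρ 1 = 1 := by
  obtain ⟨φ, hφ⟩ : ∃ φ : Module.Dual k K, φ 1 ≠ 0 := by
    by_contra hcon
    push Not at hcon
    exact one_ne_zero ((Module.forall_dual_apply_eq_zero_iff k (1 : K)).mp hcon)
  refine ⟨(φ 1)⁻¹ • φ, ?_⟩
  rw [LinearMap.smul_apply, smul_eq_mul, inv_mul_cancel₀ hφ]

lemma retract_sum {ι : Type*} (s : Finset ι) (v₀ : LaurentSeries k) (v : ι → LaurentSeries k)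
    (c : ι → K) (ρ : K →ₗ[k] k) (hρ : ρ 1 = 1)
    (h : coeffMap (algebraMap k K) v₀
      + ∑ i ∈ s, HahnSeries.C (c i) * coeffMap (algebraMap k K) (v i) = 0) :
    v₀ + ∑ i ∈ s, HahnSeries.C (ρ (c i)) * v i = 0 := by
  ext m
  have hm := congrArg (fun z => HahnSeries.coeff z m) h
  simp only [HahnSeries.coeff_add, HahnSeries.coeff_sum, HahnSeries.coeff_zero,
    HahnSeries.C_mul_eq_smul, HahnSeries.coeff_smul, ModularCurve.coeffMap_coeff,
    smul_eq_mul] at hm ⊢
  have h2 := congrArg ρ hm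
  rw [map_add, map_sum, map_zero] at h2
  rw [← h2]
  congr 1
  · rw [Algebra.algebraMap_eq_smul_one, map_smul, hρ, smul_eq_mul, mul_one]
  · refine Finset.sum_congr rfl fun i _ => ?_
    rw [mul_comm (c i), ← Algebra.smul_def, map_smul, smul_eq_mul, mul_comm]

/-- **Descent.** If `x ∈ k((q))` is integral over `K[t]` after base change to `K ⊇ k`, then it
is integral over `k[t]`. -/
theorem isIntegral_adjoin_of_coeffMap_algebraMap (t x : LaurentSeries k)
    (h : IsIntegral (Algebra.adjoin K {coeffMap (algebraMap k K) t})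
      (coeffMap (algebraMap k K) x)) :
    IsIntegral (Algebra.adjoin k {t}) x := by
  classical
  obtain ⟨Q, hQm, hQ⟩ := exists_monic_eval₂_of_isIntegral _ _ h
  obtain ⟨ρ, hρ⟩ := exists_retraction (k := k) (K := K)
  set n := Q.natDegree with hn
  set A : ℕ := (Finset.range n).sup fun b => (Q.coeff b).natDegree with hA
  have hAb : ∀ b ∈ Finset.range n, (Q.coeff b).natDegree < A + 1 := fun b hb =>
    Nat.lt_succ_of_le (Finset.le_sup (f := fun b => (Q.coeff b).natDegree) hb)
  have hrel : coeffMap (algebraMap k K) (x ^ n)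
      + ∑ ab ∈ Finset.range (A + 1) ×ˢ Finset.range n,
        HahnSeries.C ((Q.coeff ab.2).coeff ab.1)
          * coeffMap (algebraMap k K) (t ^ ab.1 * x ^ ab.2) = 0 := by
    rw [Finset.sum_product_right' (Finset.range (A + 1)) (Finset.range n)
      (fun a b => HahnSeries.C ((Q.coeff b).coeff a)
        * coeffMap (algebraMap k K) (t ^ a * x ^ b))]
    rw [Polynomial.eval₂_eq_sum_range, ← hn, Finset.sum_range_succ, hn, hQm.coeff_natDegree,
      ← hn, map_one, one_mul, add_comm] at hQ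
    rw [← hQ, map_pow]
    congr 1
    refine Finset.sum_congr rfl fun b hb => ?_
    rw [AlgHom.toRingHom_eq_coe, RingHom.coe_coe, Polynomial.aeval_eq_sum_range' (hAb b hb),
      Finset.sum_mul]
    refine Finset.sum_congr rfl fun a _ => ?_
    rw [map_mul, map_pow, map_pow, Algebra.smul_def, algebraMap_eq_C, mul_assoc]
  have hdesc := retract_sum _ (x ^ n) (fun ab : ℕ × ℕ => t ^ ab.1 * x ^ ab.2)
    (fun ab : ℕ × ℕ => (Q.coeff ab.2).coeff ab.1) ρ hρ hrel
  rw [Finset.sum_product_right' (Finset.range (A + 1)) (Finset.range n)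
    (fun a b => HahnSeries.C (ρ ((Q.coeff b).coeff a)) * (t ^ a * x ^ b))] at hdesc
  refine isIntegral_adjoin_of_sum t x n (fun b => if b = n then 1 else
    ∑ a ∈ Finset.range (A + 1), Polynomial.monomial a (ρ ((Q.coeff b).coeff a))) 1 one_ne_zero
    ?_ ?_
  · simp
  · rw [Finset.sum_range_succ, if_pos rfl, map_one, one_mul, add_comm, ← hdesc]
    congr 1
    refine Finset.sum_congr rfl fun b hb => ?_
    rw [if_neg (Finset.mem_range.mp hb).ne, map_sum, Finset.sum_mul]
    refine Finset.sum_congr rfl fun a _ => ?_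
    rw [Polynomial.aeval_monomial, mul_assoc, algebraMap_eq_C]

/-- **Descent**, ring homomorphism form. -/
theorem isIntegral_adjoin_of_coeffMap {L M : Type*} [Field L] [Field M] (φ : L →+* M)
    (t x : LaurentSeries L)
    (h : IsIntegral (Algebra.adjoin M {coeffMap φ t}) (coeffMap φ x)) :
    IsIntegral (Algebra.adjoin L {t}) x := by
  let _ : Algebra L M := φ.toAlgebra
  exact isIntegral_adjoin_of_coeffMap_algebraMap (K := M) t x h

end Descent

/-! ### Ascent (base change) -/

section Ascent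

variable {L M : Type*} [Field L] [Field M]

lemma coeffMap_aeval' (φ : L →+* M) (t : LaurentSeries L) (c : L[X]) :
    coeffMap φ (Polynomial.aeval t c) = Polynomial.aeval (coeffMap φ t) (c.map φ) := by
  induction c using Polynomial.induction_on with
  | C a =>
    rw [Polynomial.aeval_C, Polynomial.map_C, Polynomial.aeval_C,
      ModularCurve.algebraMap_laurentSeries_eq_single,
      ModularCurve.algebraMap_laurentSeries_eq_single, ModularCurve.coeffMap_single]
  | add p q hp hq => rw [map_add, map_add, hp, hq, Polynomial.map_add, map_add]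
  | monomial m a _ =>
    simp only [Polynomial.map_mul, Polynomial.map_pow, Polynomial.map_C, Polynomial.map_X, map_mul,
      map_pow, Polynomial.aeval_C, Polynomial.aeval_X,
      ModularCurve.algebraMap_laurentSeries_eq_single, ModularCurve.coeffMap_single]

/-- **Ascent.** Integrality over `L[t]` is preserved by base change of the coefficients. -/
theorem isIntegral_adjoin_coeffMap (φ : L →+* M) (t x : LaurentSeries L)
    (h : IsIntegral (Algebra.adjoin L {t}) x) :
    IsIntegral (Algebra.adjoin M {coeffMap φ t}) (coeffMap φ x) := by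
  obtain ⟨Q, hQm, hQ⟩ := exists_monic_eval₂_of_isIntegral _ _ h
  refine isIntegral_adjoin_of_eval₂ (coeffMap φ t) (coeffMap φ x)
    (Q.map (Polynomial.mapRingHom φ)) (hQm.map _) ?_
  rw [Polynomial.eval₂_map]
  have hcomp : (Polynomial.aeval (coeffMap φ t)).toRingHom.comp (Polynomial.mapRingHom φ)
      = (coeffMap φ).comp (Polynomial.aeval t).toRingHom :=
    RingHom.ext fun c => (coeffMap_aeval' φ t c).symm
  rw [hcomp, ← Polynomial.hom_eval₂, hQ, map_zero]

lemma coeffMap_cast_cast (φ : L →+* M) (x : LaurentSeries ℤ) :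
    coeffMap φ (coeffMap (Int.castRingHom L) x) = coeffMap (Int.castRingHom M) x := by
  rw [ModularCurve.coeffMap_coeffMap]
  exact ModularCurve.coeffMap_congr (RingHom.ext_int _ _) x

end Ascent

/-! ### Comparison with the integer series of `helper1257_HauptFormal` -/

section IntSeries

open Fermat.Agent.S18.helper1257

lemma ser_eq_of_qexp {g : ℍ → ℂ} {s : PowerSeries ℤ} (h : qExpansion 1 g = toCZ s) :
    ser g = coeffMap (Int.castRingHom ℂ) (ofZ s) := by
  rw [ser, h, ModularCurve.coeffMap_ofPowerSeries]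

lemma ser_c2_int : ser c2 = coeffMap (Int.castRingHom ℂ) (ofZ c2Z) := by
  rw [← show (⇑C2f : ℍ → ℂ) = c2 from funext C2f_apply]
  exact ser_eq_of_qexp qexp_C2f

lemma ser_d2_int : ser d2 = coeffMap (Int.castRingHom ℂ) (ofZ d2Z) := by
  rw [← show (⇑D2f : ℍ → ℂ) = d2 from funext D2f_apply]
  exact ser_eq_of_qexp qexp_D2f

lemma t2C_int : t2C = coeffMap (Int.castRingHom ℂ) t2Z := by
  have h := congrArg (coeffMap (Int.castRingHom ℂ)) t2Z_mul
  rw [map_mul, ← ser_c2_int, ← ser_d2_int] at h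
  rw [t2C, eq_comm, eq_div_iff (ser_c2_ne_zero 2 dvd_rfl)]
  exact h

lemma ser_b3_int : ser ⇑b3 = coeffMap (Int.castRingHom ℂ) (ofZ b3Z) :=
  ser_eq_of_qexp qexp_b3

lemma ser_c3_int : ser c3 = coeffMap (Int.castRingHom ℂ) (ofZ c3Z) := by
  rw [← show (⇑C3f : ℍ → ℂ) = c3 from funext C3f_apply]
  exact ser_eq_of_qexp qexp_C3f

lemma n3C_int : n3C = coeffMap (Int.castRingHom ℂ) (ofZ n3Z) := by
  have h := congrArg (fun x => coeffMap (Int.castRingHom ℂ) (ofZ x)) b3Z_sq
  simp only [map_pow, map_add, map_mul, map_ofNat] at h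
  rw [← ser_b3_int, ← ser_c3_int] at h
  rw [n3C, h]
  ring

lemma t3C_int : t3C = coeffMap (Int.castRingHom ℂ) t3Z := by
  have h := congrArg (coeffMap (Int.castRingHom ℂ)) t3Z_mul
  rw [map_mul, ← ser_c3_int, ← n3C_int] at h
  rw [t3C, eq_comm, eq_div_iff (ser_c3_ne_zero 3 dvd_rfl)]
  exact h

lemma ser_d3_int : ser d3 = coeffMap (Int.castRingHom ℂ) (ofZ d3Z) := by
  have h := congrArg (fun x => coeffMap (Int.castRingHom ℂ) (ofZ x)) b3Z_mul_d3Z
  simp only [map_pow, map_mul] at h
  rw [← ser_b3_int, ← ser_c3_int] at h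
  rw [ser_d3_eq 3 dvd_rfl, eq_comm, eq_div_iff ser_b3_ne_zero, ← h]
  ring

end IntSeries

/-! ### The certificates over an arbitrary field of coefficients -/

section LForms

open Fermat.Agent.S18.helper1257

/-- The four level-2 certificates for a series `F` (the `q`-expansion of a cusp form) over a
field `L`: with `t = t₂`, `c = c₂`, `d = d₂ = t c`: `F²/c` and `(F²/c)^E / t` are integral over
`L[t]`, `F²/d` and `(F²/d)^E t` are integral over `L[1/t]`. -/
def Cert2 (L : Type*) [Field L] (F : LaurentSeries L) (E : ℕ) : Prop :=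
  IsIntegral (Algebra.adjoin L {coeffMap (Int.castRingHom L) t2Z})
      (F ^ 2 / coeffMap (Int.castRingHom L) (ofZ c2Z)) ∧
  IsIntegral (Algebra.adjoin L {coeffMap (Int.castRingHom L) t2Z})
      ((F ^ 2 / coeffMap (Int.castRingHom L) (ofZ c2Z)) ^ E / coeffMap (Int.castRingHom L) t2Z) ∧
  IsIntegral (Algebra.adjoin L {(coeffMap (Int.castRingHom L) t2Z)⁻¹})
      (F ^ 2 / coeffMap (Int.castRingHom L) (ofZ d2Z)) ∧
  IsIntegral (Algebra.adjoin L {(coeffMap (Int.castRingHom L) t2Z)⁻¹})
      ((F ^ 2 / coeffMap (Int.castRingHom L) (ofZ d2Z)) ^ E * coeffMap (Int.castRingHom L) t2Z)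

/-- The four level-3 certificates for a series `F` over a field `L`: with `t = t₃`, `d = d₃`:
`F³/d` and `(F³/d)^E / t` are integral over `L[t]`, `F³/(t² d)` and `(F³/(t² d))^E t` are
integral over `L[1/t]`. -/
def Cert3 (L : Type*) [Field L] (F : LaurentSeries L) (E : ℕ) : Prop :=
  IsIntegral (Algebra.adjoin L {coeffMap (Int.castRingHom L) t3Z})
      (F ^ 3 / coeffMap (Int.castRingHom L) (ofZ d3Z)) ∧
  IsIntegral (Algebra.adjoin L {coeffMap (Int.castRingHom L) t3Z})
      ((F ^ 3 / coeffMap (Int.castRingHom L) (ofZ d3Z)) ^ E / coeffMap (Int.castRingHom L) t3Z) ∧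
  IsIntegral (Algebra.adjoin L {(coeffMap (Int.castRingHom L) t3Z)⁻¹})
      (F ^ 3 / (coeffMap (Int.castRingHom L) t3Z ^ 2 * coeffMap (Int.castRingHom L) (ofZ d3Z))) ∧
  IsIntegral (Algebra.adjoin L {(coeffMap (Int.castRingHom L) t3Z)⁻¹})
      ((F ^ 3 / (coeffMap (Int.castRingHom L) t3Z ^ 2 * coeffMap (Int.castRingHom L) (ofZ d3Z))) ^ E
        * coeffMap (Int.castRingHom L) t3Z)

variable {L M : Type*} [Field L] [Field M]

lemma isIntegral_adjoin_congr {t t' x x' : LaurentSeries L} (ht : t = t') (hx : x = x')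
    (h : IsIntegral (Algebra.adjoin L {t}) x) : IsIntegral (Algebra.adjoin L {t'}) x' := by
  subst ht hx
  exact h

set_option linter.unusedSimpArgs false in
theorem Cert2.descend (φ : L →+* M) {F : LaurentSeries L} {E : ℕ}
    (h : Cert2 M (coeffMap φ F) E) : Cert2 L F E := by
  obtain ⟨h1, h2, h3, h4⟩ := h
  refine ⟨isIntegral_adjoin_of_coeffMap φ _ _ ?_, isIntegral_adjoin_of_coeffMap φ _ _ ?_,
    isIntegral_adjoin_of_coeffMap φ _ _ ?_, isIntegral_adjoin_of_coeffMap φ _ _ ?_⟩
  · exact isIntegral_adjoin_congr (by simp only [coeffMap_cast_cast])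
      (by simp only [map_div₀, map_pow, map_mul, coeffMap_cast_cast]) h1
  · exact isIntegral_adjoin_congr (by simp only [coeffMap_cast_cast])
      (by simp only [map_div₀, map_pow, map_mul, coeffMap_cast_cast]) h2
  · exact isIntegral_adjoin_congr (by simp only [map_inv₀, coeffMap_cast_cast])
      (by simp only [map_div₀, map_pow, map_mul, coeffMap_cast_cast]) h3
  · exact isIntegral_adjoin_congr (by simp only [map_inv₀, coeffMap_cast_cast])
      (by simp only [map_div₀, map_pow, map_mul, coeffMap_cast_cast]) h4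

set_option linter.unusedSimpArgs false in
theorem Cert2.ascend (φ : L →+* M) {F : LaurentSeries L} {E : ℕ}
    (h : Cert2 L F E) : Cert2 M (coeffMap φ F) E := by
  obtain ⟨h1, h2, h3, h4⟩ := h
  have k1 := isIntegral_adjoin_coeffMap φ _ _ h1
  have k2 := isIntegral_adjoin_coeffMap φ _ _ h2
  have k3 := isIntegral_adjoin_coeffMap φ _ _ h3
  have k4 := isIntegral_adjoin_coeffMap φ _ _ h4
  exact ⟨isIntegral_adjoin_congr (by simp only [coeffMap_cast_cast])
      (by simp only [map_div₀, map_pow, map_mul, coeffMap_cast_cast]) k1,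
    isIntegral_adjoin_congr (by simp only [coeffMap_cast_cast])
      (by simp only [map_div₀, map_pow, map_mul, coeffMap_cast_cast]) k2,
    isIntegral_adjoin_congr (by simp only [map_inv₀, coeffMap_cast_cast])
      (by simp only [map_div₀, map_pow, map_mul, coeffMap_cast_cast]) k3,
    isIntegral_adjoin_congr (by simp only [map_inv₀, coeffMap_cast_cast])
      (by simp only [map_div₀, map_pow, map_mul, coeffMap_cast_cast]) k4⟩

set_option linter.unusedSimpArgs false in
theorem Cert3.descend (φ : L →+* M) {F : LaurentSeries L} {E : ℕ}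
    (h : Cert3 M (coeffMap φ F) E) : Cert3 L F E := by
  obtain ⟨h1, h2, h3, h4⟩ := h
  refine ⟨isIntegral_adjoin_of_coeffMap φ _ _ ?_, isIntegral_adjoin_of_coeffMap φ _ _ ?_,
    isIntegral_adjoin_of_coeffMap φ _ _ ?_, isIntegral_adjoin_of_coeffMap φ _ _ ?_⟩
  · exact isIntegral_adjoin_congr (by simp only [coeffMap_cast_cast])
      (by simp only [map_div₀, map_pow, map_mul, coeffMap_cast_cast]) h1
  · exact isIntegral_adjoin_congr (by simp only [coeffMap_cast_cast])
      (by simp only [map_div₀, map_pow, map_mul, coeffMap_cast_cast]) h2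
  · exact isIntegral_adjoin_congr (by simp only [map_inv₀, coeffMap_cast_cast])
      (by simp only [map_div₀, map_pow, map_mul, coeffMap_cast_cast]) h3
  · exact isIntegral_adjoin_congr (by simp only [map_inv₀, coeffMap_cast_cast])
      (by simp only [map_div₀, map_pow, map_mul, coeffMap_cast_cast]) h4

set_option linter.unusedSimpArgs false in
theorem Cert3.ascend (φ : L →+* M) {F : LaurentSeries L} {E : ℕ}
    (h : Cert3 L F E) : Cert3 M (coeffMap φ F) E := by
  obtain ⟨h1, h2, h3, h4⟩ := h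
  have k1 := isIntegral_adjoin_coeffMap φ _ _ h1
  have k2 := isIntegral_adjoin_coeffMap φ _ _ h2
  have k3 := isIntegral_adjoin_coeffMap φ _ _ h3
  have k4 := isIntegral_adjoin_coeffMap φ _ _ h4
  exact ⟨isIntegral_adjoin_congr (by simp only [coeffMap_cast_cast])
      (by simp only [map_div₀, map_pow, map_mul, coeffMap_cast_cast]) k1,
    isIntegral_adjoin_congr (by simp only [coeffMap_cast_cast])
      (by simp only [map_div₀, map_pow, map_mul, coeffMap_cast_cast]) k2,
    isIntegral_adjoin_congr (by simp only [map_inv₀, coeffMap_cast_cast])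
      (by simp only [map_div₀, map_pow, map_mul, coeffMap_cast_cast]) k3,
    isIntegral_adjoin_congr (by simp only [map_inv₀, coeffMap_cast_cast])
      (by simp only [map_div₀, map_pow, map_mul, coeffMap_cast_cast]) k4⟩

/-- The level-2 certificates over `ℂ`. -/
theorem cert2C (N : ℕ) [NeZero N] (h2 : 2 ∣ N) (f : CuspForm (G0 N) 2) (E : ℕ)
    (hE : N ≤ 2 * E) : Cert2 ℂ (ser ⇑f) E := by
  unfold Cert2
  rw [← t2C_int, ← ser_c2_int, ← ser_d2_int]
  exact ⟨cert2_z N h2 f, cert2_w N h2 f E hE, cert2_z' N h2 f, cert2_w' N h2 f E hE⟩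

/-- The level-3 certificates over `ℂ`. -/
theorem cert3C (N : ℕ) [NeZero N] (h3 : 3 ∣ N) (f : CuspForm (G0 N) 2) (E : ℕ)
    (hE : N ≤ 3 * E) : Cert3 ℂ (ser ⇑f) E := by
  unfold Cert3
  rw [← t3C_int, ← ser_d3_int]
  exact ⟨cert3_z N h3 f, cert3_w N h3 f E hE, cert3_z' N h3 f, cert3_w' N h3 f E hE⟩

/-- **Level 2, coefficients in a subfield of `ℂ`.** -/
theorem cert2L (φ : L →+* ℂ) (N : ℕ) [NeZero N] (h2 : 2 ∣ N) (f : CuspForm (G0 N) 2)
    (s : PowerSeries L) (hs : qExpansion 1 ⇑f = s.map φ) (E : ℕ) (hE : N ≤ 2 * E) :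
    Cert2 L (HahnSeries.ofPowerSeries ℤ L s) E := by
  refine Cert2.descend φ ?_
  rw [ModularCurve.coeffMap_ofPowerSeries, ← hs]
  exact cert2C N h2 f E hE

/-- **Level 3, coefficients in a subfield of `ℂ`.** -/
theorem cert3L (φ : L →+* ℂ) (N : ℕ) [NeZero N] (h3 : 3 ∣ N) (f : CuspForm (G0 N) 2)
    (s : PowerSeries L) (hs : qExpansion 1 ⇑f = s.map φ) (E : ℕ) (hE : N ≤ 3 * E) :
    Cert3 L (HahnSeries.ofPowerSeries ℤ L s) E := by
  refine Cert3.descend φ ?_
  rw [ModularCurve.coeffMap_ofPowerSeries, ← hs]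
  exact cert3C N h3 f E hE

/-- **Level 2, integer `q`-expansion, any field of characteristic zero.** -/
theorem cert2Z [CharZero L] (N : ℕ) [NeZero N] (h2 : 2 ∣ N) (f : CuspForm (G0 N) 2)
    (s : PowerSeries ℤ) (hs : qExpansion 1 ⇑f = s.map (Int.castRingHom ℂ)) (E : ℕ)
    (hE : N ≤ 2 * E) : Cert2 L (coeffMap (Int.castRingHom L) (ofZ s)) E := by
  have hQ : Cert2 ℚ (coeffMap (Int.castRingHom ℚ) (ofZ s)) E := by
    refine Cert2.descend (algebraMap ℚ ℂ) ?_
    rw [coeffMap_cast_cast, ModularCurve.coeffMap_ofPowerSeries, ← hs]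
    exact cert2C N h2 f E hE
  have h := Cert2.ascend (algebraMap ℚ L) hQ
  rwa [coeffMap_cast_cast] at h

/-- **Level 3, integer `q`-expansion, any field of characteristic zero.** -/
theorem cert3Z [CharZero L] (N : ℕ) [NeZero N] (h3 : 3 ∣ N) (f : CuspForm (G0 N) 2)
    (s : PowerSeries ℤ) (hs : qExpansion 1 ⇑f = s.map (Int.castRingHom ℂ)) (E : ℕ)
    (hE : N ≤ 3 * E) : Cert3 L (coeffMap (Int.castRingHom L) (ofZ s)) E := by
  have hQ : Cert3 ℚ (coeffMap (Int.castRingHom ℚ) (ofZ s)) E := by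
    refine Cert3.descend (algebraMap ℚ ℂ) ?_
    rw [coeffMap_cast_cast, ModularCurve.coeffMap_ofPowerSeries, ← hs]
    exact cert3C N h3 f E hE
  have h := Cert3.ascend (algebraMap ℚ L) hQ
  rwa [coeffMap_cast_cast] at h

end LForms

/-! ### The certificates in the shape consumed by the gap count (`y = f / ε_r`) -/

section Gap

open Fermat.Agent.S18.helper1257

variable {L : Type*} [Field L]

lemma coeffMap_ofZ_ne_zero (s : PowerSeries ℤ) (n : ℕ) (h : PowerSeries.coeff n s = 1) :
    coeffMap (Int.castRingHom L) (ofZ s) ≠ 0 := by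
  intro h0
  have h1 := congrArg (fun z => HahnSeries.coeff z (n : ℤ)) h0
  simp only [ModularCurve.coeffMap_coeff, HahnSeries.coeff_zero] at h1
  rw [HahnSeries.ofPowerSeries_apply_coeff, h] at h1
  simp at h1

/-- **Level 2 certificates, gap-count shape**: with `y = F/ε₂`, `t = t₂`:
`z = y² (t + 64)` is integral over `L[t]` and `z^E = t · w` with `w` integral over `L[t]`;
`z' = y² (64/t + 1)` is integral over `L[1/t]` and `z'^E = t⁻¹ · w'` with `w'` integral over
`L[1/t]`. -/
theorem Cert2.gap {F : LaurentSeries L} {E : ℕ} (h : Cert2 L F E) :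
    IsIntegral (Algebra.adjoin L {coeffMap (Int.castRingHom L) t2Z})
      ((F / coeffMap (Int.castRingHom L) (ofZ a2Z)) ^ 2
        * (coeffMap (Int.castRingHom L) t2Z + 64)) ∧
    (∃ w, IsIntegral (Algebra.adjoin L {coeffMap (Int.castRingHom L) t2Z}) w ∧
      ((F / coeffMap (Int.castRingHom L) (ofZ a2Z)) ^ 2
        * (coeffMap (Int.castRingHom L) t2Z + 64)) ^ E
        = coeffMap (Int.castRingHom L) t2Z * w) ∧
    IsIntegral (Algebra.adjoin L {(coeffMap (Int.castRingHom L) t2Z)⁻¹})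
      ((F / coeffMap (Int.castRingHom L) (ofZ a2Z)) ^ 2
        * (64 * (coeffMap (Int.castRingHom L) t2Z)⁻¹ + 1)) ∧
    (∃ w, IsIntegral (Algebra.adjoin L {(coeffMap (Int.castRingHom L) t2Z)⁻¹}) w ∧
      ((F / coeffMap (Int.castRingHom L) (ofZ a2Z)) ^ 2
        * (64 * (coeffMap (Int.castRingHom L) t2Z)⁻¹ + 1)) ^ E
        = (coeffMap (Int.castRingHom L) t2Z)⁻¹ * w) := by
  obtain ⟨h1, h2, h3, h4⟩ := h
  have hc : coeffMap (Int.castRingHom L) (ofZ c2Z) ≠ 0 := coeffMap_ofZ_ne_zero c2Z 1 coeff_c2Z_one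
  have hd : coeffMap (Int.castRingHom L) (ofZ d2Z) ≠ 0 := coeffMap_ofZ_ne_zero d2Z 0 (by
    rw [PowerSeries.coeff_zero_eq_constantCoeff_apply, constantCoeff_d2Z])
  have ha : coeffMap (Int.castRingHom L) (ofZ a2Z) ≠ 0 := coeffMap_ofZ_ne_zero a2Z 0 (by
    rw [a2Z, PowerSeries.coeff_mk, if_pos rfl])
  have htc : coeffMap (Int.castRingHom L) t2Z * coeffMap (Int.castRingHom L) (ofZ c2Z)
      = coeffMap (Int.castRingHom L) (ofZ d2Z) := by
    rw [← map_mul, t2Z_mul]
  have hasq : coeffMap (Int.castRingHom L) (ofZ a2Z) ^ 2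
      = (coeffMap (Int.castRingHom L) t2Z + 64) * coeffMap (Int.castRingHom L) (ofZ c2Z) := by
    rw [← map_pow, ofZ_a2Z_sq, map_mul, map_add, map_ofNat]
  generalize coeffMap (Int.castRingHom L) t2Z = t at *
  generalize coeffMap (Int.castRingHom L) (ofZ c2Z) = c at *
  generalize coeffMap (Int.castRingHom L) (ofZ d2Z) = d at *
  generalize coeffMap (Int.castRingHom L) (ofZ a2Z) = a at *
  have ht : t ≠ 0 := fun h0 => hd (by rw [← htc, h0, zero_mul])
  have ht64 : t + 64 ≠ 0 := fun h0 => pow_ne_zero 2 ha (by rw [hasq, h0, zero_mul])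
  have e1 : (F / a) ^ 2 * (t + 64) = F ^ 2 / c := by
    rw [div_pow, hasq]
    field_simp
  have e2 : (F / a) ^ 2 * (64 * t⁻¹ + 1) = F ^ 2 / d := by
    rw [div_pow, hasq, ← htc]
    field_simp
    ring
  rw [e1, e2]
  refine ⟨h1, ⟨_, h2, ?_⟩, h3, ⟨_, h4, ?_⟩⟩
  · field_simp
  · field_simp

/-- **Level 3 certificates, gap-count shape**: with `y = F/ε₃`, `t = t₃`:
`z = y³ (t + 27)²` is integral over `L[t]` and `z^E = t · w` with `w` integral over `L[t]`;
`z' = y³ (27/t + 1)²` is integral over `L[1/t]` and `z'^E = t⁻¹ · w'` with `w'` integral over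
`L[1/t]`. -/
theorem Cert3.gap {F : LaurentSeries L} {E : ℕ} (h : Cert3 L F E) :
    IsIntegral (Algebra.adjoin L {coeffMap (Int.castRingHom L) t3Z})
      ((F / coeffMap (Int.castRingHom L) (ofZ b3Z)) ^ 3
        * (coeffMap (Int.castRingHom L) t3Z + 27) ^ 2) ∧
    (∃ w, IsIntegral (Algebra.adjoin L {coeffMap (Int.castRingHom L) t3Z}) w ∧
      ((F / coeffMap (Int.castRingHom L) (ofZ b3Z)) ^ 3
        * (coeffMap (Int.castRingHom L) t3Z + 27) ^ 2) ^ E
        = coeffMap (Int.castRingHom L) t3Z * w) ∧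
    IsIntegral (Algebra.adjoin L {(coeffMap (Int.castRingHom L) t3Z)⁻¹})
      ((F / coeffMap (Int.castRingHom L) (ofZ b3Z)) ^ 3
        * (27 * (coeffMap (Int.castRingHom L) t3Z)⁻¹ + 1) ^ 2) ∧
    (∃ w, IsIntegral (Algebra.adjoin L {(coeffMap (Int.castRingHom L) t3Z)⁻¹}) w ∧
      ((F / coeffMap (Int.castRingHom L) (ofZ b3Z)) ^ 3
        * (27 * (coeffMap (Int.castRingHom L) t3Z)⁻¹ + 1) ^ 2) ^ E
        = (coeffMap (Int.castRingHom L) t3Z)⁻¹ * w) := by
  obtain ⟨h1, h2, h3, h4⟩ := h
  have hc : coeffMap (Int.castRingHom L) (ofZ c3Z) ≠ 0 := coeffMap_ofZ_ne_zero c3Z 1 coeff_c3Z_one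
  have hn : coeffMap (Int.castRingHom L) (ofZ n3Z) ≠ 0 := coeffMap_ofZ_ne_zero n3Z 0 (by
    rw [PowerSeries.coeff_zero_eq_constantCoeff_apply, constantCoeff_n3Z])
  have hb : coeffMap (Int.castRingHom L) (ofZ b3Z) ≠ 0 := coeffMap_ofZ_ne_zero b3Z 0 (by
    rw [PowerSeries.coeff_zero_eq_constantCoeff_apply, constantCoeff_b3Z])
  have htc : coeffMap (Int.castRingHom L) t3Z * coeffMap (Int.castRingHom L) (ofZ c3Z)
      = coeffMap (Int.castRingHom L) (ofZ n3Z) := by
    rw [← map_mul, t3Z_mul]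
  have hbd : coeffMap (Int.castRingHom L) (ofZ b3Z) * coeffMap (Int.castRingHom L) (ofZ d3Z)
      = coeffMap (Int.castRingHom L) (ofZ c3Z) ^ 2 := by
    rw [← map_mul, ← map_mul, b3Z_mul_d3Z, map_pow, map_pow]
  have hb3 : coeffMap (Int.castRingHom L) (ofZ b3Z) ^ 3
      = (coeffMap (Int.castRingHom L) t3Z + 27) ^ 2 * coeffMap (Int.castRingHom L) (ofZ d3Z) := by
    rw [← map_pow, ofZ_b3Z_cube, map_mul, map_pow, map_add, map_ofNat]
  generalize coeffMap (Int.castRingHom L) t3Z = t at *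
  generalize coeffMap (Int.castRingHom L) (ofZ c3Z) = c at *
  generalize coeffMap (Int.castRingHom L) (ofZ n3Z) = n at *
  generalize coeffMap (Int.castRingHom L) (ofZ d3Z) = d at *
  generalize coeffMap (Int.castRingHom L) (ofZ b3Z) = b at *
  have ht : t ≠ 0 := fun h0 => hn (by rw [← htc, h0, zero_mul])
  have hd : d ≠ 0 := fun h0 => pow_ne_zero 2 hc (by rw [← hbd, h0, mul_zero])
  have ht27 : t + 27 ≠ 0 := fun h0 => pow_ne_zero 3 hb (by rw [hb3, h0]; simp)
  have e1 : (F / b) ^ 3 * (t + 27) ^ 2 = F ^ 3 / d := by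
    rw [div_pow, hb3]
    field_simp
  have e2 : (F / b) ^ 3 * (27 * t⁻¹ + 1) ^ 2 = F ^ 3 / (t ^ 2 * d) := by
    rw [div_pow, hb3]
    field_simp
    ring
  rw [e1, e2]
  refine ⟨h1, ⟨_, h2, ?_⟩, h3, ⟨_, h4, ?_⟩⟩
  · field_simp
  · field_simp

end Gap

end Fermat.Agent.S18.helper208
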