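/-
S18 (helper20), RCUSP step 3: the Riemann inequality on `F_N = modularFunctionFieldBar N`
with `g = dim S_2(Γ₀(N))`:

  `riemann_inequality : deg D + 1 - dim S_2(Γ₀(N)) ≤ l(D)` for EVERY divisor `D` of `F_N / ℚ̄`.

Route (no analytic dictionary): for `m ≥ 1` let `D_m = m (j)_∞ - (sum of the poles of j)`, of
degree `m ψ(N) - #cusps`.  The `dim S_{12m}(Γ₀(N)) = m ψ(N) + 1 - dim S_2 - #cusps` functions
`f / Δ^m` of `helper20_CuspInt.exists_family` are `ℚ̄`-linearly independent and lie in `L(D_m)`,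
because each is a root of a monic polynomial over `ℚ̄[j]` whose coefficient of `X^(n-1-i)` has
degree `< m (i+1)` (valuation lemma `val_le_of_monic_relation`).  Hence
`l(D_m) ≥ deg D_m + 1 - dim S_2` for all `m`, and Riemann's theorem (`helper981`) gives the
inequality for all divisors.
-/
import Fermat.Agent.S24.helper204_Places
import Fermat.Agent.S18.helper8185_RamData
import Fermat.Agent.S18.helper981_Riemann
import Fermat.Agent.S18.helper20_CuspDim
import Fermat.Agent.S18.helper20_CuspInt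

set_option autoImplicit false

open AlgebraicCurve IntermediateField ModularCurve Polynomial WithZero Module

namespace Fermat.Agent.S18.helper20

/-! ## Valuation lemmas -/

section Val

variable {F Γ₀ : Type*} [Field F] [LinearOrderedCommGroupWithZero Γ₀] (w : Valuation F Γ₀)

/-- A root of a monic polynomial with coefficients of value `≤ 1` has value `≤ 1`. -/
theorem val_le_one_of_monic (y : F) (n : ℕ) (c : Fin n → F) (hc : ∀ i, w (c i) ≤ 1)
    (h : y ^ n + ∑ i : Fin n, c i * y ^ (n - 1 - (i : ℕ)) = 0) : w y ≤ 1 := by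
  by_contra hy
  rw [not_le] at hy
  have hy0 : w y ≠ 0 := (zero_lt_one.trans hy).ne'
  have hlt : w (∑ i : Fin n, c i * y ^ (n - 1 - (i : ℕ))) < w y ^ n := by
    refine Valuation.map_sum_lt w (pow_ne_zero n hy0) fun i _ => ?_
    rw [map_mul, map_pow]
    calc w (c i) * w y ^ (n - 1 - (i : ℕ)) ≤ w y ^ (n - 1 - (i : ℕ)) :=
          mul_le_of_le_one_left' (hc i)
      _ < w y ^ n := pow_lt_pow_right₀ hy (by have := i.2; omega)
  have heq : y ^ n = -∑ i : Fin n, c i * y ^ (n - 1 - (i : ℕ)) := eq_neg_of_add_eq_zero_left h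
  have h2 : w y ^ n = w (∑ i : Fin n, c i * y ^ (n - 1 - (i : ℕ))) := by
    rw [← map_pow, heq, Valuation.map_neg]
  rw [h2] at hlt
  exact lt_irrefl _ hlt

/-- If moreover all coefficients have value `≤ γ ≤ 1`, then `w y ^ n ≤ γ`. -/
theorem val_pow_le_of_monic (y : F) (n : ℕ) (c : Fin n → F) (γ : Γ₀) (hγ : γ ≤ 1)
    (hc : ∀ i, w (c i) ≤ γ)
    (h : y ^ n + ∑ i : Fin n, c i * y ^ (n - 1 - (i : ℕ)) = 0) : w y ^ n ≤ γ := by
  have hy : w y ≤ 1 := val_le_one_of_monic w y n c (fun i => (hc i).trans hγ) h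
  have heq : y ^ n = -∑ i : Fin n, c i * y ^ (n - 1 - (i : ℕ)) := eq_neg_of_add_eq_zero_left h
  rw [← map_pow, heq, Valuation.map_neg]
  refine Valuation.map_sum_le w fun i _ => ?_
  rw [map_mul, map_pow]
  calc w (c i) * w y ^ (n - 1 - (i : ℕ)) ≤ γ * 1 := mul_le_mul' (hc i) (pow_le_one' hy _)
    _ = γ := mul_one _

end Val

/-! ## The place-level statement -/

section PlaceLemma

variable {K F : Type*} [Field K] [Field F] [Algebra K F]

theorem val_aeval_le_one (v : Place K F) {j : F} (hj : v.adicValuation j ≤ 1) (P : K[X]) :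
    v.adicValuation (aeval j P) ≤ 1 := by
  rw [aeval_eq_sum_range]
  refine Valuation.map_sum_le _ fun a _ => ?_
  rw [Algebra.smul_def, map_mul, map_pow]
  calc v.adicValuation (algebraMap K F (P.coeff a)) * v.adicValuation j ^ a ≤ 1 * 1 :=
        mul_le_mul' (v.adicValuation_algebraMap_le_one _) (pow_le_one' hj a)
    _ = 1 := mul_one _

theorem val_aeval_le_pow (v : Place K F) {j : F} (hj : 1 ≤ v.adicValuation j) (P : K[X]) {d : ℕ}
    (hd : P.natDegree ≤ d) : v.adicValuation (aeval j P) ≤ v.adicValuation j ^ d := by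
  rw [aeval_eq_sum_range]
  refine Valuation.map_sum_le _ fun a ha => ?_
  rw [Algebra.smul_def, map_mul, map_pow]
  have had : a ≤ d := (Nat.lt_succ_iff.mp (Finset.mem_range.mp ha)).trans hd
  calc v.adicValuation (algebraMap K F (P.coeff a)) * v.adicValuation j ^ a
      ≤ v.adicValuation j ^ a := mul_le_of_le_one_left' (v.adicValuation_algebraMap_le_one _)
    _ ≤ v.adicValuation j ^ d := pow_le_pow_right₀ hj had

/-- **Places adapter.** Let `x` be a root of `X^n + ∑ P_i(j) X^(n-1-i)` with `P_i ∈ K[j]` of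
degree `< m (i+1)`.  Then `x` is regular at every place where `j` is regular, and at a pole `v`
of `j` one has `ord_v x ≥ 1 + m ord_v j`. -/
theorem val_le_of_monic_relation (v : Place K F) (j x : F) (m n : ℕ) (P : Fin n → K[X])
    (hdeg : ∀ i : Fin n, (P i).natDegree < m * ((i : ℕ) + 1))
    (hrel : x ^ n + ∑ i : Fin n, aeval j (P i) * x ^ (n - 1 - (i : ℕ)) = 0) :
    (v.adicValuation j ≤ 1 → v.adicValuation x ≤ 1) ∧
    (1 < v.adicValuation j → v.adicValuation x ≤ exp (-1 : ℤ) * v.adicValuation j ^ m) := by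
  refine ⟨fun hj => val_le_one_of_monic _ x n (fun i => aeval j (P i))
    (fun i => val_aeval_le_one v hj (P i)) hrel, fun hj => ?_⟩
  have hj0 : j ≠ 0 := by
    rintro rfl
    simp at hj
  have hwj0 : v.adicValuation j ≠ 0 := (zero_lt_one.trans hj).ne'
  have hn : n ≠ 0 := by
    rintro rfl
    simp at hrel
  -- the normalised element
  set y : F := x / j ^ m with hy
  have hjm : j ^ (m * n) ≠ 0 := pow_ne_zero _ hj0
  have hrel' : y ^ n + ∑ i : Fin n,
      (aeval j (P i) / j ^ (m * ((i : ℕ) + 1))) * y ^ (n - 1 - (i : ℕ)) = 0 := by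
    refine (mul_eq_zero.mp ?_).resolve_right hjm
    rw [← hrel, add_mul, Finset.sum_mul]
    congr 1
    · rw [hy, div_pow, ← pow_mul, div_mul_cancel₀ _ hjm]
    · refine Finset.sum_congr rfl fun i _ => ?_
      have hi : (i : ℕ) + 1 + (n - 1 - (i : ℕ)) = n := by have := i.2; omega
      have hsplit : j ^ (m * n) = j ^ (m * ((i : ℕ) + 1)) * j ^ (m * (n - 1 - (i : ℕ))) := by
        rw [← pow_add, ← Nat.mul_add, hi]
      rw [hsplit, hy, div_pow, ← pow_mul]
      have h1 : j ^ (m * ((i : ℕ) + 1)) ≠ 0 := pow_ne_zero _ hj0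
      have h2 : j ^ (m * (n - 1 - (i : ℕ))) ≠ 0 := pow_ne_zero _ hj0
      field_simp
  have hγ : (v.adicValuation j)⁻¹ ≤ 1 := inv_le_one_of_one_le₀ hj.le
  have hc : ∀ i : Fin n,
      v.adicValuation (aeval j (P i) / j ^ (m * ((i : ℕ) + 1))) ≤ (v.adicValuation j)⁻¹ := by
    intro i
    have hM : 1 ≤ m * ((i : ℕ) + 1) := by have := hdeg i; omega
    have h1 := val_aeval_le_pow v hj.le (P i) (d := m * ((i : ℕ) + 1) - 1)
      (by have := hdeg i; omega)
    rw [map_div₀, map_pow, div_eq_mul_inv]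
    calc v.adicValuation (aeval j (P i)) * (v.adicValuation j ^ (m * ((i : ℕ) + 1)))⁻¹
        ≤ v.adicValuation j ^ (m * ((i : ℕ) + 1) - 1) *
          (v.adicValuation j ^ (m * ((i : ℕ) + 1)))⁻¹ := mul_le_mul' h1 le_rfl
      _ = (v.adicValuation j)⁻¹ := by
        conv_lhs => rw [← Nat.sub_add_cancel hM, pow_succ, Nat.add_sub_cancel, mul_inv, ← mul_assoc,
          mul_inv_cancel₀ (pow_ne_zero _ hwj0), one_mul]
  have hpow := val_pow_le_of_monic v.adicValuation y n _ _ hγ hc hrel'
  have hylt : v.adicValuation y < 1 := by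
    by_contra hcon
    rw [not_lt] at hcon
    have h1 : (1 : ℤᵐ⁰) ≤ v.adicValuation y ^ n := one_le_pow₀ hcon
    have h2 : (v.adicValuation j)⁻¹ < 1 := inv_lt_one_of_one_lt₀ hj
    exact absurd (h1.trans hpow) (not_le.mpr h2)
  have hyle : v.adicValuation y ≤ exp (-1 : ℤ) := by
    have := (Fermat.Agent.S18.helper981.val_lt_exp_succ_iff v (f := y) (n := -1)).mp
      (by simpa using hylt)
    exact this
  have hx : x = y * j ^ m := by rw [hy, div_mul_cancel₀ _ (pow_ne_zero _ hj0)]
  rw [hx, map_mul, map_pow]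
  exact mul_le_mul' hyle le_rfl

end PlaceLemma

/-! ## The modular function field -/

section Modular

open Fermat.Agent.S24 Fermat.Agent.S24.helper24 Fermat.Agent.S18.helper981

variable (N : ℕ) [NeZero N]

theorem finiteDimensional_j : FiniteDimensional Kbar⟮jBar N⟯ (FN N) :=
  (Fermat.Agent.S18.helper8185.stmt_JFinrank N).1

theorem finrank_j : Module.finrank Kbar⟮jBar N⟯ (FN N) = dedekindPsi N :=
  ((Fermat.Agent.S18.helper8185.stmt_JFinrank N).2).trans (leaf_Index N)

/-- Every place of `F_N / ℚ̄` has degree one. -/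
theorem place_deg (v : Place Kbar (FN N)) : v.deg = 1 := by
  have := finiteDimensional_j N
  exact helper204.place_deg_eq_one (jBar N) (leaf_JTranscendental N) v

/-- Principal divisors of `F_N / ℚ̄` have degree zero. -/
theorem hasPrincipalDivisors : HasPrincipalDivisors Kbar (FN N) := by
  have := finiteDimensional_j N
  exact helper204.hasPrincipalDivisors (jBar N) (leaf_JTranscendental N)

/-- The poles of `j` on `F_N`: a finite set of `#cusps` places whose pole orders add up to
`ψ(N)`. -/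
theorem exists_poles : ∃ s : Finset (Place Kbar (FN N)),
    (∀ v, v ∈ s ↔ v.ord (jBar N) < 0) ∧ ∑ v ∈ s, -v.ord (jBar N) = (dedekindPsi N : ℤ) ∧
      s.card = cuspCount N := by
  have := finiteDimensional_j N
  obtain ⟨s, hs, hsum⟩ := helper204.exists_finset_poles (jBar N) (leaf_JTranscendental N)
  refine ⟨s, hs, ?_, ?_⟩
  · rw [hsum, finrank_j]
  · rw [← (Fermat.Agent.S18.helper8185.stmt_Places N).2.2.2,
      ← Nat.card_congr (Equiv.subtypeEquivRight hs), Nat.card_eq_fintype_card, Fintype.card_coe]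

/-- **The divisors `D_m = m (j)_∞ - (poles of j)`.** -/
theorem exists_divisor (m : ℕ) : ∃ D : Divisor Kbar (FN N),
    Divisor.degree D = (m : ℤ) * dedekindPsi N - cuspCount N ∧
    ∀ (x : FN N) (n : ℕ) (P : Fin n → Kbar[X]),
      (∀ i : Fin n, (P i).natDegree < m * ((i : ℕ) + 1)) →
      x ^ n + ∑ i : Fin n, aeval (jBar N) (P i) * x ^ (n - 1 - (i : ℕ)) = 0 →
      x ∈ riemannRochSpace D := by
  classical
  obtain ⟨s, hs, hsum, hcard⟩ := exists_poles N
  refine ⟨∑ v ∈ s, Finsupp.single v ((m : ℤ) * (-v.ord (jBar N)) - 1), ?_, ?_⟩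
  · rw [map_sum]
    have h1 : ∀ v ∈ s, Divisor.degree (Finsupp.single v ((m : ℤ) * (-v.ord (jBar N)) - 1)) =
        (m : ℤ) * (-v.ord (jBar N)) - 1 := by
      intro v _
      rw [Divisor.degree_single, place_deg N v]
      simp
    rw [Finset.sum_congr rfl h1, Finset.sum_sub_distrib, ← Finset.mul_sum, hsum, Finset.sum_const,
      hcard]
    simp
  · intro x n P hdeg hrel v
    have hDv : (∑ v ∈ s, Finsupp.single v ((m : ℤ) * (-v.ord (jBar N)) - 1)) v =
        if v ∈ s then (m : ℤ) * (-v.ord (jBar N)) - 1 else 0 := by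
      rw [Finsupp.finsetSum_apply]
      simp only [Finsupp.single_apply]
      rw [Finset.sum_ite_eq' s v]
    show v.adicValuation x ≤ exp ((∑ v ∈ s, Finsupp.single v ((m : ℤ) * (-v.ord (jBar N)) - 1)) v)
    rw [hDv]
    obtain ⟨ha, hb⟩ := val_le_of_monic_relation v (jBar N) x m n P hdeg hrel
    by_cases hv : v ∈ s
    · rw [if_pos hv]
      have hord : v.ord (jBar N) < 0 := (hs v).mp hv
      have hj0 : jBar N ≠ 0 := by
        rintro h0
        rw [h0, Place.ord_zero] at hord
        exact lt_irrefl _ hord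
      have hlt : 1 < v.adicValuation (jBar N) :=
        not_le.mp (v.not_adicValuation_le_one_iff.mpr hord)
      refine (hb hlt).trans (le_of_eq ?_)
      rw [v.adicValuation_eq_exp_neg_ord hj0, ← exp_nsmul, ← exp_add]
      congr 1
      rw [nsmul_eq_mul]
      ring
    · rw [if_neg hv]
      have hord : 0 ≤ v.ord (jBar N) := not_lt.mp (fun h => hv ((hs v).mpr h))
      simpa using ha (v.adicValuation_le_one_iff.mpr (Or.inr hord))

/-- `l(D_m) ≥ deg D_m + 1 - dim S_2(Γ₀(N))` for the divisors `D_m`, `m ≥ 1`. -/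
theorem exists_divisor_le_finrank (m : ℕ) (hm : 1 ≤ m) : ∃ D : Divisor Kbar (FN N),
    Divisor.degree D = (m : ℤ) * dedekindPsi N - cuspCount N ∧
    Divisor.degree D + 1 - (Module.finrank ℂ (CuspForm (CongruenceSubgroup.Gamma0 N) 2) : ℤ) ≤
      (Module.finrank Kbar (riemannRochSpace D) : ℤ) := by
  obtain ⟨D, hD, hmem⟩ := exists_divisor N m
  obtain ⟨x, hx, hrel⟩ := exists_family N m hm
  have hxD : ∀ i, x i ∈ riemannRochSpace D := by
    intro i
    obtain ⟨n, P, hdeg, h⟩ := hrel i
    exact hmem (x i) n P hdeg h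
  have := hasPrincipalDivisors N
  obtain ⟨s, hs, hsum, hcard⟩ := exists_poles N
  have hpsi : 0 < dedekindPsi N := by
    rw [← finrank_j N]
    have := finiteDimensional_j N
    exact Module.finrank_pos
  obtain ⟨P₀, -⟩ : ∃ P₀, P₀ ∈ s := by
    by_contra hcon
    have hemp : s = ∅ := Finset.eq_empty_of_forall_notMem fun v hv => hcon ⟨v, hv⟩
    rw [hemp, Finset.sum_empty] at hsum
    have : (0 : ℤ) < dedekindPsi N := by exact_mod_cast hpsi
    omega
  have : Module.Finite Kbar (riemannRochSpace D) :=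
    finite_riemannRochSpace (place_deg N) P₀ D
  have hli : LinearIndependent Kbar (fun i => (⟨x i, hxD i⟩ : riemannRochSpace D)) :=
    LinearIndependent.of_comp (riemannRochSpace D).subtype hx
  have hcardle := hli.fintype_card_le_finrank
  rw [Fintype.card_fin] at hcardle
  have hdim := finrank_cuspForm_twelve N m hm
  refine ⟨D, hD, ?_⟩
  rw [hD]
  have h1 : (Module.finrank ℂ (CuspForm (CongruenceSubgroup.Gamma0 N) (12 * (m : ℤ))) : ℤ) +
      (Module.finrank ℂ (CuspForm (CongruenceSubgroup.Gamma0 N) 2) : ℤ) + (cuspCount N : ℤ) =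
      (m : ℤ) * (dedekindPsi N : ℤ) + 1 := by exact_mod_cast hdim
  have h2 : (Module.finrank ℂ (CuspForm (CongruenceSubgroup.Gamma0 N) (12 * (m : ℤ))) : ℤ) ≤
      (Module.finrank Kbar (riemannRochSpace D) : ℤ) := by exact_mod_cast hcardle
  linarith

/-- Riemann's inequality (weak form) holds on `F_N / ℚ̄`. -/
theorem hasRiemannBound : HasRiemannBound Kbar (FN N) := by
  classical
  have := hasPrincipalDivisors N
  have := finiteDimensional_j N
  obtain ⟨s, hs, hsum, hcard⟩ := exists_poles N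
  have hpsi : 0 < dedekindPsi N := by
    rw [← finrank_j N]
    exact Module.finrank_pos
  obtain ⟨P₀, -⟩ : ∃ P₀, P₀ ∈ s := by
    by_contra hcon
    have hemp : s = ∅ := Finset.eq_empty_of_forall_notMem fun v hv => hcon ⟨v, hv⟩
    rw [hemp, Finset.sum_empty] at hsum
    have : (0 : ℤ) < dedekindPsi N := by exact_mod_cast hpsi
    omega
  refine hasRiemannBound_of_transcendental (jBar N) (leaf_JTranscendental N) P₀ (place_deg N)
    (∑ v ∈ s, Finsupp.single v (-v.ord (jBar N))) (fun v => ?_) ?_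
  · rw [Finsupp.finsetSum_apply]
    simp only [Finsupp.single_apply]
    rw [Finset.sum_ite_eq' s v]
    by_cases hv : v ∈ s
    · rw [if_pos hv]
      have := (hs v).mp hv
      omega
    · rw [if_neg hv]
      have : 0 ≤ v.ord (jBar N) := not_lt.mp (fun h => hv ((hs v).mpr h))
      omega
  · rw [map_sum]
    have h1 : ∀ v ∈ s, Divisor.degree (Finsupp.single v (-v.ord (jBar N))) = -v.ord (jBar N) := by
      intro v _
      rw [Divisor.degree_single, place_deg N v]
      simp
    rw [Finset.sum_congr rfl h1, hsum, finrank_j]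

/-- The Riemann genus of `F_N / ℚ̄` is at most `dim S_2(Γ₀(N))`. -/
theorem riemannGenus_le :
    (riemannGenus Kbar (FN N) : ℤ) ≤
      (Module.finrank ℂ (CuspForm (CongruenceSubgroup.Gamma0 N) 2) : ℤ) := by
  have := hasPrincipalDivisors N
  obtain ⟨s, hs, hsum, hcard⟩ := exists_poles N
  have hpsi : 0 < dedekindPsi N := by
    rw [← finrank_j N]
    have := finiteDimensional_j N
    exact Module.finrank_pos
  obtain ⟨P₀, -⟩ : ∃ P₀, P₀ ∈ s := by
    by_contra hcon
    have hemp : s = ∅ := Finset.eq_empty_of_forall_notMem fun v hv => hcon ⟨v, hv⟩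
    rw [hemp, Finset.sum_empty] at hsum
    have : (0 : ℤ) < dedekindPsi N := by exact_mod_cast hpsi
    omega
  obtain ⟨c₀, hc₀⟩ := exists_forall_finrank_eq (place_deg N) P₀ (hasRiemannBound N)
  set m : ℕ := (c₀ + cuspCount N).toNat + 1 with hm
  obtain ⟨D, hD, hle⟩ := exists_divisor_le_finrank N m (by omega)
  have hmge : c₀ + (cuspCount N : ℤ) ≤ (m : ℤ) := by
    have := Int.self_le_toNat (c₀ + (cuspCount N : ℤ))
    rw [hm]
    push_cast
    omega
  have hpsi' : (1 : ℤ) ≤ (dedekindPsi N : ℤ) := by exact_mod_cast hpsi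
  have hm0 : (0 : ℤ) ≤ (m : ℤ) := Int.natCast_nonneg m
  have hdegD : c₀ ≤ Divisor.degree D := by
    rw [hD]
    nlinarith
  have := hc₀ D hdegD
  linarith

/-- **RCUSP: Riemann's inequality on `F_N / ℚ̄` with `g = dim S_2(Γ₀(N))`**, all divisors. -/
theorem riemann_inequality (D : Divisor Kbar (FN N)) :
    Divisor.degree D + 1 - (Module.finrank ℂ (CuspForm (CongruenceSubgroup.Gamma0 N) 2) : ℤ) ≤
      (Module.finrank Kbar (riemannRochSpace D) : ℤ) := by
  have h1 := riemannGenus_mem (hasRiemannBound N) D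
  have h2 := riemannGenus_le N
  linarith

end Modular

end Fermat.Agent.S18.helper20
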