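/-
S18 (helper20): the track-C interface Prop (C1) `helper99.Stmt_R N` — Riemann's inequality at the
cusp `∞` with `g = dim S₂(Γ₀(N))` — from `helper20.riemann_inequality` (all divisors).
-/
import Fermat.Agent.S18.helper99_SpecC
import Fermat.Agent.S18.helper20_RiemannCusp

set_option autoImplicit false

open AlgebraicCurve ModularCurve

namespace Fermat.Agent.S18.helper20

/-- **(C1) of track C**, for every level `N ≥ 1`. -/
theorem stmt_R (N : ℕ) [NeZero N] : Fermat.Agent.S18.helper99.Stmt_R N := by
  intro P _ n
  have h := riemann_inequality N (n • Finsupp.single P (1 : ℤ))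
  rw [map_nsmul, Divisor.degree_single, place_deg N P] at h
  simpa using h

/-- Riemann's inequality for the multiples of any single place of `F_N / ℚ̄`. -/
theorem le_finrank_nsmul_single (N : ℕ) [NeZero N]
    (P : Place (AlgebraicClosure ℚ) (modularFunctionFieldBar N)) (n : ℕ) :
    (n : ℤ) + 1 - (Module.finrank ℂ (CuspForm (CongruenceSubgroup.Gamma0 N) 2) : ℤ) ≤
      (Module.finrank (AlgebraicClosure ℚ)
        (riemannRochSpace (n • Finsupp.single P (1 : ℤ))) : ℤ) := by
  have h := riemann_inequality N (n • Finsupp.single P (1 : ℤ))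
  rw [map_nsmul, Divisor.degree_single, place_deg N P] at h
  simpa using h

end Fermat.Agent.S18.helper20
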