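import Mathlib
import Fermat.Prelude.Def_AlgebraicCurve_DivisorPushPull
import Fermat.Agent.S24.helper1370_PlaceBasics

/-!
# S18-HORIZ (K): a Kummer extension with `m`-divisible radicand is unramified at every place

`K` algebraically closed, `(m : K) ≠ 0`, `F ⊆ E` fields over `K`, `E` generated over `F` by `y`
with `y ^ m = U ∈ F`.  If `w` is a place of `E`, `v = w.restrict F`, the residue field of `v` is
`K` and `m ∣ ord_v U`, then the ramification index of `w` over `F` is `1`
(`ramificationIndex_eq_one_of_kummer`), i.e. `ord_w (f) = ord_v (f)` for `f ∈ F`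
(`ord_algebraMap_eq_of_kummer`).

Proof: Newton approximation of `z = y / t ^ k` (`z ^ m = u` a `v`-unit) by elements of `F`,
no completions, no integral closures.
-/

set_option autoImplicit false

noncomputable section

open AlgebraicCurve Polynomial

namespace Fermat.Agent.S18.helper2778

open Fermat.Agent.S24.helper1370

section Kummer

variable {K F E : Type*} [Field K] [Field F] [Field E] [Algebra K F] [Algebra K E] [Algebra F E]
  [IsScalarTower K F E]

/-- In a multiset of nonzero elements regular at `w`, if the product vanishes at `w` then some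
factor does. -/
theorem exists_ord_pos_of_ord_prod_pos (w : Place K E) (s : Multiset E)
    (h0 : ∀ x ∈ s, x ≠ 0) (hn : ∀ x ∈ s, 0 ≤ w.ord x) (hp : 0 < w.ord s.prod) :
    ∃ x ∈ s, 0 < w.ord x := by
  induction s using Multiset.induction with
  | empty => simp at hp
  | cons a t ih =>
    have ha0 : a ≠ 0 := h0 a (Multiset.mem_cons_self a t)
    have ht0 : ∀ x ∈ t, x ≠ 0 := fun x hx => h0 x (Multiset.mem_cons_of_mem hx)
    have htp : t.prod ≠ 0 := Multiset.prod_ne_zero fun h => ht0 0 h rfl
    rw [Multiset.prod_cons, w.ord_mul ha0 htp] at hp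
    by_cases ha : 0 < w.ord a
    · exact ⟨a, Multiset.mem_cons_self a t, ha⟩
    · have ha' : 0 ≤ w.ord a := hn a (Multiset.mem_cons_self a t)
      obtain ⟨x, hx, hx'⟩ := ih ht0 (fun x hx => hn x (Multiset.mem_cons_of_mem hx)) (by omega)
      exact ⟨x, Multiset.mem_cons_of_mem hx, hx'⟩

/-- Initial approximation: if `z ^ m` is congruent to a nonzero constant `a` at `w`, then `z` is
congruent to a nonzero constant `r` (an `m`-th root of `a`). -/
theorem exists_const_approx [IsAlgClosed K] (w : Place K E) (m : ℕ) (hm : m ≠ 0) (z : E)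
    (hz : 0 ≤ w.ord z) (a : K) (ha : a ≠ 0)
    (hza : z ^ m = algebraMap K E a ∨ 0 < w.ord (z ^ m - algebraMap K E a)) :
    ∃ r : K, r ≠ 0 ∧ (z = algebraMap K E r ∨ 0 < w.ord (z - algebraMap K E r)) := by
  classical
  set p : K[X] := X ^ m - C a with hp
  have hmonic : p.Monic := monic_X_pow_sub_C a hm
  have hsplit : p.Splits := IsAlgClosed.splits p
  have hfac := hsplit.eq_prod_roots_of_monic hmonic
  have hroot : ∀ r ∈ p.roots, r ≠ 0 := by
    intro r hr h0
    rw [mem_roots hmonic.ne_zero, IsRoot.def, hp, eval_sub, eval_pow, eval_X, eval_C, h0,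
      zero_pow hm, zero_sub, neg_eq_zero] at hr
    exact ha hr
  have heval : z ^ m - algebraMap K E a = (p.roots.map fun r => z - algebraMap K E r).prod := by
    have h1 : aeval z p = z ^ m - algebraMap K E a := by
      simp [hp]
    rw [← h1]
    conv_lhs => rw [hfac]
    rw [map_multiset_prod, Multiset.map_map]
    congr 1
    apply Multiset.map_congr rfl
    intro r _
    simp
  by_cases hex : ∃ r ∈ p.roots, z = algebraMap K E r
  · obtain ⟨r, hr, hzr⟩ := hex
    exact ⟨r, hroot r hr, Or.inl hzr⟩
  · push Not at hex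
    have hne : ∀ x ∈ p.roots.map (fun r => z - algebraMap K E r), x ≠ 0 := by
      intro x hx
      obtain ⟨r, hr, rfl⟩ := Multiset.mem_map.mp hx
      exact sub_ne_zero.mpr (hex r hr)
    have hprod_ne : (p.roots.map fun r => z - algebraMap K E r).prod ≠ 0 :=
      Multiset.prod_ne_zero fun h => hne 0 h rfl
    have hpos : 0 < w.ord (p.roots.map fun r => z - algebraMap K E r).prod := by
      rcases hza with h | h
      · exact absurd (by rw [← heval, h, sub_self]) hprod_ne
      · rwa [← heval]
    have hnn : ∀ x ∈ p.roots.map (fun r => z - algebraMap K E r), 0 ≤ w.ord x := by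
      intro x hx
      obtain ⟨r, _, rfl⟩ := Multiset.mem_map.mp hx
      exact ord_sub_algebraMap_nonneg w hz r
    obtain ⟨x, hx, hx'⟩ := exists_ord_pos_of_ord_prod_pos w _ hne hnn hpos
    obtain ⟨r, hr, rfl⟩ := Multiset.mem_map.mp hx
    exact ⟨r, hroot r hr, Or.inr hx'⟩


omit [IsScalarTower K F E] in
/-- **Newton step.** If `z ^ m = u ∈ F`, `z ∉ F`, and the `w`-unit `f ∈ F` approximates `z` at
`w`, then `f' = f + (u - f ^ m) / (m f ^ (m - 1))` is a strictly better approximation. -/
theorem newton_step (w : Place K E) (m : ℕ) (hm : (m : K) ≠ 0) (u : F) (z : E)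
    (hz : z ^ m = algebraMap F E u) (hzF : ∀ f : F, z ≠ algebraMap F E f) (hz0 : w.ord z = 0)
    (f : F) (hf0 : f ≠ 0) (hf : w.ord (algebraMap F E f) = 0)
    (hs : 0 < w.ord (z - algebraMap F E f)) :
    ∃ f' : F, f' ≠ 0 ∧ w.ord (algebraMap F E f') = 0 ∧
      w.ord (z - algebraMap F E f) < w.ord (z - algebraMap F E f') := by
  have hzO : z ∈ w.toValuationSubring := mem_of_ord_nonneg w (by omega)
  have hfO : algebraMap F E f ∈ w.toValuationSubring := mem_of_ord_nonneg w (by omega)
  obtain ⟨k, hk⟩ := Polynomial.powAddExpansion (⟨algebraMap F E f, hfO⟩ : w.toValuationSubring)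
    (⟨z, hzO⟩ - ⟨algebraMap F E f, hfO⟩) m
  have hk' : z ^ m = (algebraMap F E f) ^ m
      + (m : E) * (algebraMap F E f) ^ (m - 1) * (z - algebraMap F E f)
      + (k : E) * (z - algebraMap F E f) ^ 2 := by
    have h1 := congrArg (fun a : w.toValuationSubring => (a : E)) hk
    simp only [add_sub_cancel] at h1
    push_cast at h1
    exact h1
  have hmE : (m : E) ≠ 0 := by
    have h : (m : E) = algebraMap K E (m : K) := by simp
    rw [h]
    exact (_root_.map_ne_zero _).mpr hm
  have hmF : (m : F) ≠ 0 := by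
    have h : (m : F) = algebraMap K F (m : K) := by simp
    rw [h]
    exact (_root_.map_ne_zero _).mpr hm
  have hFf0 : algebraMap F E f ≠ 0 := (_root_.map_ne_zero _).mpr hf0
  set δ : F := (u - f ^ m) / ((m : F) * f ^ (m - 1)) with hδdef
  have hδ : algebraMap F E δ
      = (z ^ m - (algebraMap F E f) ^ m) / ((m : E) * (algebraMap F E f) ^ (m - 1)) := by
    rw [hδdef, map_div₀, map_sub, map_mul, map_pow, map_pow, map_natCast, hz]
  have hden : (m : E) * (algebraMap F E f) ^ (m - 1) ≠ 0 := mul_ne_zero hmE (pow_ne_zero _ hFf0)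
  have key : z - algebraMap F E (f + δ)
      = -((k : E) * (z - algebraMap F E f) ^ 2) / ((m : E) * (algebraMap F E f) ^ (m - 1)) := by
    rw [map_add, hδ, hk', eq_div_iff hden]
    field_simp
    ring
  have hne : z - algebraMap F E (f + δ) ≠ 0 := sub_ne_zero.mpr (hzF _)
  have hzf0 : z - algebraMap F E f ≠ 0 := sub_ne_zero.mpr (hzF f)
  have hk0 : (k : E) ≠ 0 := by
    intro h
    rw [h] at key
    simp only [zero_mul, neg_zero, zero_div] at key
    exact hne key
  have hnum0 : -((k : E) * (z - algebraMap F E f) ^ 2) ≠ 0 :=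
    neg_ne_zero.mpr (mul_ne_zero hk0 (pow_ne_zero _ hzf0))
  have hord : w.ord (z - algebraMap F E (f + δ))
      = w.ord (k : E) + 2 * w.ord (z - algebraMap F E f) := by
    rw [key, ord_div w hnum0 hden, ord_neg, w.ord_mul hk0 (pow_ne_zero _ hzf0), ord_pow,
      w.ord_mul hmE (pow_ne_zero _ hFf0), ord_natCast, ord_pow, hf]
    push_cast
    ring
  have hk_nn : 0 ≤ w.ord (k : E) := ord_coe_nonneg w k
  have hlt : w.ord (z - algebraMap F E f) < w.ord (z - algebraMap F E (f + δ)) := by omega
  have hz_ne : z ≠ 0 := by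
    intro h
    exact hzF 0 (by rw [h, map_zero])
  have hord' : w.ord (algebraMap F E (f + δ)) = 0 := by
    have h1 : algebraMap F E (f + δ) = z + -(z - algebraMap F E (f + δ)) := by ring
    rw [h1, ord_add_eq_of_lt w hz_ne (by rw [ord_neg]; omega), hz0]
  refine ⟨f + δ, ?_, hord', hlt⟩
  intro h0
  rw [h0, map_zero, sub_zero] at hlt
  omega

omit [IsScalarTower K F E] in
/-- Iterating the Newton step: approximations of `z` by `w`-units of `F` to any order. -/
theorem exists_approx (w : Place K E) (m : ℕ) (hm : (m : K) ≠ 0) (u : F) (z : E)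
    (hz : z ^ m = algebraMap F E u) (hzF : ∀ f : F, z ≠ algebraMap F E f) (hz0 : w.ord z = 0)
    (f₀ : F) (hf₀ : f₀ ≠ 0) (h₀ : w.ord (algebraMap F E f₀) = 0)
    (hs : 0 < w.ord (z - algebraMap F E f₀)) (N : ℕ) :
    ∃ f : F, f ≠ 0 ∧ w.ord (algebraMap F E f) = 0 ∧ (N : ℤ) < w.ord (z - algebraMap F E f) := by
  induction N with
  | zero => exact ⟨f₀, hf₀, h₀, by simpa using hs⟩
  | succ N ih =>
    obtain ⟨f, hf0, hf, hN⟩ := ih
    obtain ⟨f', hf'0, hf', hlt⟩ := newton_step w m hm u z hz hzF hz0 f hf0 hf (by omega)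
    exact ⟨f', hf'0, hf', by push_cast; omega⟩

variable [Algebra.IsIntegral F E]

/-- If `z` (regular at `w`, generating `E` over `F` as a ring) can be approximated at `w` to any
order by elements of `F`, then every value of `ord_w` is a multiple of the ramification index. -/
theorem ramificationIndex_dvd_ord_of_approx (w : Place K E) (z : E) (hz0 : 0 ≤ w.ord z)
    (hgen : ∀ g : E, ∃ p : F[X], aeval z p = g)
    (happ : ∀ N : ℕ, ∃ f : F, 0 ≤ w.ord (algebraMap F E f) ∧
      (N : ℤ) < w.ord (z - algebraMap F E f))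
    (g : E) (hg : g ≠ 0) :
    ((Place.ramificationIndex w F : ℕ) : ℤ) ∣ w.ord g := by
  classical
  obtain ⟨p, rfl⟩ := hgen g
  obtain ⟨M, hM⟩ := Finset.exists_le
    (p.support.image fun i => -w.ord (algebraMap F E (p.coeff i)))
  obtain ⟨β, hβ⟩ : ∃ β : ℤ, ∀ i ∈ p.support, β ≤ w.ord (algebraMap F E (p.coeff i)) :=
    ⟨-M, fun i hi => by
      have := hM _ (Finset.mem_image_of_mem (fun i => -w.ord (algebraMap F E (p.coeff i))) hi)
      omega⟩
  obtain ⟨f, hf, hN⟩ := happ (w.ord (aeval z p) - β).toNat
  have hN' : w.ord (aeval z p) - β < w.ord (z - algebraMap F E f) := by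
    have := Int.self_le_toNat (w.ord (aeval z p) - β)
    omega
  have hzO : z ∈ w.toValuationSubring := mem_of_ord_nonneg w hz0
  have hfO : algebraMap F E f ∈ w.toValuationSubring := mem_of_ord_nonneg w hf
  have hG : algebraMap F E (p.eval f) = aeval (algebraMap F E f) p := by
    rw [aeval_algebraMap_apply, coe_aeval_eq_eval]
  have hsum : aeval z p - algebraMap F E (p.eval f)
      = ∑ i ∈ p.support, algebraMap F E (p.coeff i) * (z ^ i - (algebraMap F E f) ^ i) := by
    rw [hG, aeval_def, aeval_def, eval₂_eq_sum, eval₂_eq_sum, sum_def, sum_def,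
      ← Finset.sum_sub_distrib]
    exact Finset.sum_congr rfl fun i _ => by ring
  have hdvd : ((Place.ramificationIndex w F : ℕ) : ℤ) ∣ w.ord (algebraMap F E (p.eval f)) :=
    ⟨_, w.ord_restrict (p.eval f)⟩
  by_cases hzero : aeval z p - algebraMap F E (p.eval f) = 0
  · rw [sub_eq_zero.mp hzero]
    exact hdvd
  · have hterm : ∀ i ∈ p.support,
        algebraMap F E (p.coeff i) * (z ^ i - (algebraMap F E f) ^ i) = 0 ∨
        β + w.ord (z - algebraMap F E f)
          ≤ w.ord (algebraMap F E (p.coeff i) * (z ^ i - (algebraMap F E f) ^ i)) := by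
      intro i hi
      by_cases h0 : algebraMap F E (p.coeff i) * (z ^ i - (algebraMap F E f) ^ i) = 0
      · exact Or.inl h0
      · right
        obtain ⟨c, hc⟩ := sub_dvd_pow_sub_pow (⟨z, hzO⟩ : w.toValuationSubring)
          ⟨algebraMap F E f, hfO⟩ i
        have hc' : z ^ i - (algebraMap F E f) ^ i = (z - algebraMap F E f) * (c : E) := by
          have h1 := congrArg (fun a : w.toValuationSubring => (a : E)) hc
          push_cast at h1
          exact h1
        have hcoef0 : algebraMap F E (p.coeff i) ≠ 0 := left_ne_zero_of_mul h0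
        have hdiff0 : z ^ i - (algebraMap F E f) ^ i ≠ 0 := right_ne_zero_of_mul h0
        rw [hc'] at hdiff0
        have hzf0 : z - algebraMap F E f ≠ 0 := left_ne_zero_of_mul hdiff0
        have hc0 : (c : E) ≠ 0 := right_ne_zero_of_mul hdiff0
        rw [hc', w.ord_mul hcoef0 (mul_ne_zero hzf0 hc0), w.ord_mul hzf0 hc0]
        have h1 : β ≤ w.ord (algebraMap F E (p.coeff i)) := hβ i hi
        have h2 : 0 ≤ w.ord (c : E) := ord_coe_nonneg w c
        omega
    have hge := ord_sum_ge w p.support _ (β + w.ord (z - algebraMap F E f)) hterm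
      (by rw [← hsum]; exact hzero)
    rw [← hsum] at hge
    have h1 : algebraMap F E (p.eval f)
        = aeval z p + -(aeval z p - algebraMap F E (p.eval f)) := by ring
    have h2 : w.ord (algebraMap F E (p.eval f)) = w.ord (aeval z p) := by
      rw [h1, ord_add_eq_of_lt w hg (by rw [ord_neg]; omega)]
    rw [← h2]
    exact hdvd

omit [Algebra K F] [IsScalarTower K F E] [Algebra.IsIntegral F E] in
/-- If every value of `ord_w` is a multiple of the ramification index, the index is `1`. -/
theorem ramificationIndex_eq_one_of_dvd (w : Place K E)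
    (h : ∀ g : E, g ≠ 0 → ((Place.ramificationIndex w F : ℕ) : ℤ) ∣ w.ord g) :
    Place.ramificationIndex w F = 1 := by
  obtain ⟨π, hπ⟩ := exists_uniformizer w
  have h1 := h π (uniformizer_ne_zero w hπ)
  rw [hπ] at h1
  have h2 : (Place.ramificationIndex w F : ℕ) ∣ 1 := by exact_mod_cast h1
  exact Nat.dvd_one.mp h2

/-- **Unit radicand.** `z ^ m = u` with `u ∈ F` a `w`-unit congruent to a constant `a` at
`w.restrict F`: then `w` is unramified over `F`. -/
theorem ramificationIndex_eq_one_of_unit_radicand [IsAlgClosed K] (w : Place K E) (m : ℕ)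
    (hm : (m : K) ≠ 0) (u : F) (hu0 : u ≠ 0) (hu : (w.restrict F).ord u = 0) (z : E)
    (hz : z ^ m = algebraMap F E u) (hgen : ∀ g : E, ∃ p : F[X], aeval z p = g)
    (a : K) (ha : u = algebraMap K F a ∨ 0 < (w.restrict F).ord (u - algebraMap K F a)) :
    Place.ramificationIndex w F = 1 := by
  have hm0 : m ≠ 0 := by
    rintro rfl
    simp at hm
  have hepos : 0 < Place.ramificationIndex w F := w.ramificationIndex_pos
  by_cases hzF : ∃ f : F, z = algebraMap F E f
  · -- `E = F`
    obtain ⟨f, rfl⟩ := hzF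
    apply ramificationIndex_eq_one_of_dvd
    intro g _
    obtain ⟨p, rfl⟩ := hgen g
    rw [aeval_algebraMap_apply, coe_aeval_eq_eval]
    exact ⟨_, w.ord_restrict (p.eval f)⟩
  · push Not at hzF
    have hEu : w.ord (algebraMap F E u) = 0 := by rw [w.ord_restrict, hu, mul_zero]
    have hz0 : w.ord z = 0 := by
      have h1 : w.ord (z ^ m) = 0 := by rw [hz, hEu]
      rw [ord_pow] at h1
      have hm' : (m : ℤ) ≠ 0 := by exact_mod_cast hm0
      rcases mul_eq_zero.mp h1 with h | h
      · exact absurd h hm'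
      · exact h
    have ha0 : a ≠ 0 := by
      rintro rfl
      rw [map_zero, sub_zero] at ha
      rcases ha with h | h
      · exact hu0 h
      · omega
    have hza : z ^ m = algebraMap K E a ∨ 0 < w.ord (z ^ m - algebraMap K E a) := by
      rcases ha with h | h
      · left
        rw [hz, h, ← IsScalarTower.algebraMap_apply]
      · right
        have h1 : z ^ m - algebraMap K E a = algebraMap F E (u - algebraMap K F a) := by
          rw [map_sub, hz, ← IsScalarTower.algebraMap_apply]
        rw [h1, w.ord_restrict]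
        positivity
    obtain ⟨r, hr0, hr⟩ := exists_const_approx w m hm0 z (by omega) a ha0 hza
    have hrE : algebraMap K E r = algebraMap F E (algebraMap K F r) :=
      IsScalarTower.algebraMap_apply K F E r
    have hr' : 0 < w.ord (z - algebraMap F E (algebraMap K F r)) := by
      rcases hr with h | h
      · exact absurd (h.trans hrE) (hzF _)
      · rwa [← hrE]
    have hrunit : w.ord (algebraMap F E (algebraMap K F r)) = 0 := by
      rw [← hrE, ord_algebraMap]
    apply ramificationIndex_eq_one_of_dvd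
    intro g hg
    refine ramificationIndex_dvd_ord_of_approx w z (by omega) hgen (fun N => ?_) g hg
    obtain ⟨f, _, hf, hN⟩ := exists_approx w m hm u z hz hzF hz0 (algebraMap K F r)
      ((_root_.map_ne_zero _).mpr hr0) hrunit hr' N
    exact ⟨f, by omega, hN⟩

/-- **Kummer extensions with `m`-divisible radicand are unramified.** `K` algebraically closed,
`(m : K) ≠ 0`, `E = F[y]`, `y ^ m = U ∈ F`, `w` a place of `E` whose restriction `v` to `F` has
residue field `K` and satisfies `m ∣ ord_v U`: then `e(w | v) = 1`. -/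
theorem ramificationIndex_eq_one_of_kummer [IsAlgClosed K] (m : ℕ) (hm : (m : K) ≠ 0) (U : F)
    (hU : U ≠ 0) (y : E) (hy : y ^ m = algebraMap F E U)
    (hgen : ∀ g : E, ∃ p : F[X], aeval y p = g) (w : Place K E)
    (hres : Function.Surjective (algebraMap K (w.restrict F).ResidueField))
    (hdiv : (m : ℤ) ∣ (w.restrict F).ord U) :
    Place.ramificationIndex w F = 1 := by
  set v := w.restrict F with hv
  obtain ⟨t, ht⟩ := exists_uniformizer v
  have ht0 : t ≠ 0 := uniformizer_ne_zero v ht
  obtain ⟨k, hk⟩ := hdiv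
  -- the unit radicand and the new generator
  set u : F := U * (t ^ (-k)) ^ m with hudef
  set z : E := y * algebraMap F E (t ^ (-k)) with hzdef
  have hu0 : u ≠ 0 := mul_ne_zero hU (pow_ne_zero _ (zpow_ne_zero _ ht0))
  have hu : v.ord u = 0 := by
    rw [hudef, v.ord_mul hU (pow_ne_zero _ (zpow_ne_zero _ ht0)), ord_pow, v.ord_zpow, ht, hk]
    ring
  have hz : z ^ m = algebraMap F E u := by
    rw [hzdef, mul_pow, hy, hudef, map_mul, map_pow]
  have hgen' : ∀ g : E, ∃ p : F[X], aeval z p = g := by
    intro g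
    obtain ⟨p, rfl⟩ := hgen g
    refine ⟨p.comp (C (t ^ k) * X), ?_⟩
    rw [aeval_comp]
    congr 1
    rw [map_mul, aeval_C, aeval_X, hzdef, mul_comm y, ← mul_assoc, ← map_mul, ← zpow_add₀ ht0]
    simp
  -- the residue of `u` is a constant
  have huO : u ∈ v.toValuationSubring := mem_of_ord_nonneg v (by omega)
  obtain ⟨a, ha⟩ := hres (IsLocalRing.residue v.toValuationSubring ⟨u, huO⟩)
  have ha' : u = algebraMap K F a ∨ 0 < v.ord (u - algebraMap K F a) := by
    by_cases h : u = algebraMap K F a
    · exact Or.inl h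
    · right
      rw [ord_pos_iff]
      refine ⟨sub_ne_zero.mpr h, sub_mem huO (v.algebraMap_mem' a), ?_⟩
      have h1 : (⟨u - algebraMap K F a, sub_mem huO (v.algebraMap_mem' a)⟩ : v.toValuationSubring)
          = ⟨u, huO⟩ - algebraMap K v.toValuationSubring a := rfl
      rw [h1, ← Ideal.Quotient.eq]
      exact ha.symm
  exact ramificationIndex_eq_one_of_unit_radicand w m hm u hu0 hu z hz hgen' a ha'

/-- Consumer form: orders of elements of `F` do not change in the Kummer extension. -/
theorem ord_algebraMap_eq_of_kummer [IsAlgClosed K] (m : ℕ) (hm : (m : K) ≠ 0) (U : F)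
    (hU : U ≠ 0) (y : E) (hy : y ^ m = algebraMap F E U)
    (hgen : ∀ g : E, ∃ p : F[X], aeval y p = g) (w : Place K E)
    (hres : Function.Surjective (algebraMap K (w.restrict F).ResidueField))
    (hdiv : (m : ℤ) ∣ (w.restrict F).ord U) (f : F) :
    w.ord (algebraMap F E f) = (w.restrict F).ord f := by
  rw [w.ord_restrict, ramificationIndex_eq_one_of_kummer m hm U hU y hy hgen w hres hdiv]
  simp

end Kummer

end Fermat.Agent.S18.helper2778
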