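import Mathlib
import Fermat.Agent.S18.helper2778_KummerUnram
import Fermat.Agent.S18.helper8185_RamData

/-!
# S18-RAMKUM: the ramification data of `F_N / ℚ̄(j)` on a Kummer layer `E = F_N(θ)`

`E` a field over `F_N = modularFunctionFieldBar N` (`ℚ̄`-tower), `θ ^ m = U ∈ F_N`, `U ≠ 0`,
`m ≠ 0`, `E = F_N[θ]`, and `m ∣ ord_P U` at every place `P` of `F_N`.  Then `E / F_N` is
unramified at every place (`helper2778.ord_algebraMap_eq_of_kummer`, residue hypothesis discharged
by the landed S24 theorem `helper489.stmt_ResidueK`), hence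

* `ord_algebraMap_eq` (T): `ord_w f = ord_{w ∣ F_N} f` for every place `w` of `E`, `f ∈ F_N`;
* `forall_place_of_forall` : any statement `∀ v, P (ord_v f)` on `F_N` lifts to `E`;
* (R1E)-(R4E): the ramification data (R1)-(R4) of `helper8185_RamData` hold for the places of
  `E`, in the hypothesis shapes `hR1 … hR4` of `helper9121.jline_unramified`,
  `jline_index_zero`, `jline_index_1728`, `jline_index_infty`;
* `transcendental_j`, `finiteDimensional_j` : the image of `j` in `E` is transcendental over `ℚ̄`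
  and `E` is finite over `ℚ̄(j)`.
-/

set_option autoImplicit false

noncomputable section

open AlgebraicCurve Polynomial IntermediateField

namespace Fermat.Agent.S18.helper2778

open Fermat.Agent.S24 Fermat.Agent.S24.helper24

namespace RamKummer

/-- Every place of `F_N` has residue field `ℚ̄` (landed in S24). -/
theorem residue_surjective_FN (N : ℕ) [NeZero N] (v : Place Kbar (FN N)) :
    Function.Surjective (algebraMap Kbar v.ResidueField) := by
  have : FiniteDimensional Kbar⟮jBar N⟯ (FN N) := (helper8185.stmt_JFinrank N).1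
  exact helper489.stmt_ResidueK Kbar (FN N) (jBar N) (leaf_JTranscendental N) v

variable (N : ℕ) [NeZero N] {E : Type*} [Field E] [Algebra (FN N) E] [Algebra Kbar E]
  [IsScalarTower Kbar (FN N) E] [Algebra.IsIntegral (FN N) E]

/-- **(T)** Orders of elements of `F_N` do not change on the Kummer layer `E = F_N[θ]`,
`θ ^ m = U`, `m ∣ div U`. -/
theorem ord_algebraMap_eq (m : ℕ) (hm : m ≠ 0) (U : FN N) (hU : U ≠ 0) (θ : E)
    (hθ : θ ^ m = algebraMap (FN N) E U) (hgen : ∀ g : E, ∃ p : (FN N)[X], aeval θ p = g)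
    (hdiv : ∀ P : Place Kbar (FN N), (m : ℤ) ∣ P.ord U) (w : Place Kbar E) (f : FN N) :
    w.ord (algebraMap (FN N) E f) = (w.restrict (FN N)).ord f :=
  ord_algebraMap_eq_of_kummer m (Nat.cast_ne_zero.mpr hm) U hU θ hθ hgen w
    (residue_surjective_FN N _) (hdiv _) f

/-- Transfer principle: a statement about the orders of `f ∈ F_N` at all places of `F_N` holds
at all places of `E`. -/
theorem forall_place_of_forall (m : ℕ) (hm : m ≠ 0) (U : FN N) (hU : U ≠ 0) (θ : E)
    (hθ : θ ^ m = algebraMap (FN N) E U) (hgen : ∀ g : E, ∃ p : (FN N)[X], aeval θ p = g)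
    (hdiv : ∀ P : Place Kbar (FN N), (m : ℤ) ∣ P.ord U) (f : FN N) (P : ℤ → Prop)
    (h : ∀ v : Place Kbar (FN N), P (v.ord f)) (w : Place Kbar E) :
    P (w.ord (algebraMap (FN N) E f)) := by
  rw [ord_algebraMap_eq N m hm U hU θ hθ hgen hdiv w f]
  exact h _

omit [NeZero N] [Algebra.IsIntegral (FN N) E] in
theorem algebraMap_sub_const (f : FN N) (c : Kbar) :
    algebraMap (FN N) E f - algebraMap Kbar E c
      = algebraMap (FN N) E (f - algebraMap Kbar (FN N) c) := by
  rw [map_sub, ← IsScalarTower.algebraMap_apply]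

/-- **(R1E)** `E / ℚ̄(j)` is unramified over every `c ≠ 0, 1728`
(shape `hR1` of `helper9121.jline_unramified`). -/
theorem ord_j_sub_eq_one (m : ℕ) (hm : m ≠ 0) (U : FN N) (hU : U ≠ 0) (θ : E)
    (hθ : θ ^ m = algebraMap (FN N) E U) (hgen : ∀ g : E, ∃ p : (FN N)[X], aeval θ p = g)
    (hdiv : ∀ P : Place Kbar (FN N), (m : ℤ) ∣ P.ord U) :
    ∀ c : Kbar, c ≠ 0 → c ≠ 1728 → ∀ w : Place Kbar E,
      0 < w.ord (algebraMap (FN N) E (jBar N) - algebraMap Kbar E c) →
      w.ord (algebraMap (FN N) E (jBar N) - algebraMap Kbar E c) = 1 := by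
  intro c hc0 hc w hw
  rw [algebraMap_sub_const, ord_algebraMap_eq N m hm U hU θ hθ hgen hdiv] at hw ⊢
  exact helper8185.ord_j_sub_eq_one N c hc0 hc _ hw

/-- **(R2E)** the ramification indices of `E / ℚ̄(j)` over `j = 0` divide `3`
(shape `hR2` of `helper9121.jline_index_zero`). -/
theorem ord_j_dvd_three (m : ℕ) (hm : m ≠ 0) (U : FN N) (hU : U ≠ 0) (θ : E)
    (hθ : θ ^ m = algebraMap (FN N) E U) (hgen : ∀ g : E, ∃ p : (FN N)[X], aeval θ p = g)
    (hdiv : ∀ P : Place Kbar (FN N), (m : ℤ) ∣ P.ord U) :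
    ∀ w : Place Kbar E, 0 < w.ord (algebraMap (FN N) E (jBar N)) →
      w.ord (algebraMap (FN N) E (jBar N)) ∣ 3 := by
  intro w hw
  rw [ord_algebraMap_eq N m hm U hU θ hθ hgen hdiv] at hw ⊢
  exact helper8185.ord_j_dvd_three N _ hw

/-- **(R3E)** the ramification indices of `E / ℚ̄(j)` over `j = 1728` divide `2`
(shape `hR3` of `helper9121.jline_index_1728`). -/
theorem ord_j_sub_1728_dvd_two (m : ℕ) (hm : m ≠ 0) (U : FN N) (hU : U ≠ 0) (θ : E)
    (hθ : θ ^ m = algebraMap (FN N) E U) (hgen : ∀ g : E, ∃ p : (FN N)[X], aeval θ p = g)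
    (hdiv : ∀ P : Place Kbar (FN N), (m : ℤ) ∣ P.ord U) :
    ∀ w : Place Kbar E, 0 < w.ord (algebraMap (FN N) E (jBar N) - algebraMap Kbar E 1728) →
      w.ord (algebraMap (FN N) E (jBar N) - algebraMap Kbar E 1728) ∣ 2 := by
  intro w hw
  rw [algebraMap_sub_const, ord_algebraMap_eq N m hm U hU θ hθ hgen hdiv] at hw ⊢
  exact helper8185.ord_j_sub_1728_dvd_two N _ hw

/-- **(R4E)** the pole orders of `j` on `E` divide `N`
(shape `hR4` of `helper9121.jline_index_infty`). -/
theorem neg_ord_j_dvd_level (m : ℕ) (hm : m ≠ 0) (U : FN N) (hU : U ≠ 0) (θ : E)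
    (hθ : θ ^ m = algebraMap (FN N) E U) (hgen : ∀ g : E, ∃ p : (FN N)[X], aeval θ p = g)
    (hdiv : ∀ P : Place Kbar (FN N), (m : ℤ) ∣ P.ord U) :
    ∀ w : Place Kbar E, w.ord (algebraMap (FN N) E (jBar N)) < 0 →
      -w.ord (algebraMap (FN N) E (jBar N)) ∣ (N : ℤ) := by
  intro w hw
  rw [ord_algebraMap_eq N m hm U hU θ hθ hgen hdiv] at hw ⊢
  exact (neg_dvd).mpr (helper8185.ord_j_dvd_level N _ hw)

omit [Algebra.IsIntegral (FN N) E] in
/-- The image of `j` in `E` is transcendental over `ℚ̄`. -/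
theorem transcendental_j : Transcendental Kbar (algebraMap (FN N) E (jBar N)) := by
  have h := leaf_JTranscendental N
  intro halg
  exact h ((isAlgebraic_algebraMap_iff (algebraMap (FN N) E).injective).mp halg)

end RamKummer

/-! ## Finiteness over `ℚ̄(j)` and the case `E = F_N⟮θ⟯ ⊆ Ω` -/

section Generic

/-- If `F` is finite over `K(x)` and `E` is finite over `F`, then `E` is finite over `K(x)`
(`x` viewed in `E`). -/
theorem finiteDimensional_adjoin_algebraMap {K F E : Type*} [Field K] [Field F] [Field E]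
    [Algebra K F] [Algebra K E] [Algebra F E] [IsScalarTower K F E] (x : F)
    [FiniteDimensional K⟮x⟯ F] [FiniteDimensional F E] :
    FiniteDimensional K⟮algebraMap F E x⟯ E := by
  have h1 : Module.Finite ↥K⟮x⟯ E := Module.Finite.trans F E
  let f : F →ₐ[K] E := IsScalarTower.toAlgHom K F E
  have hmap : (K⟮x⟯).map f = K⟮algebraMap F E x⟯ := by
    rw [IntermediateField.adjoin_map, Set.image_singleton]
    rfl
  let e₁ : ↥K⟮x⟯ ≃+* ↥K⟮algebraMap F E x⟯ :=
    ((K⟮x⟯).equivMap f).toRingEquiv.trans (IntermediateField.equivOfEq hmap).toRingEquiv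
  refine Module.Finite.of_equiv_equiv e₁ (RingEquiv.refl E) ?_
  ext r
  rfl

/-- In a simple algebraic extension `F⟮θ⟯` every element is a polynomial in the generator
(the hypothesis `hgen` of the Kummer theorems). -/
theorem exists_aeval_gen_eq {F Ω : Type*} [Field F] [Field Ω] [Algebra F Ω] (θ : Ω)
    (hθ : IsIntegral F θ) (g : ↥F⟮θ⟯) :
    ∃ p : F[X], aeval (AdjoinSimple.gen F θ) p = g := by
  have hg : (g : Ω) ∈ Algebra.adjoin F {θ} := by
    rw [← IntermediateField.adjoin_simple_toSubalgebra_of_isAlgebraic hθ.isAlgebraic]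
    exact g.2
  rw [Algebra.adjoin_singleton_eq_range_aeval] at hg
  obtain ⟨p, hp⟩ := hg
  refine ⟨p, Subtype.ext ?_⟩
  have h := Polynomial.aeval_algHom_apply (F⟮θ⟯.val) (AdjoinSimple.gen F θ) p
  rw [IntermediateField.val_mk, AdjoinSimple.coe_gen] at h
  exact h.symm.trans hp

end Generic

namespace RamKummer

variable (N : ℕ) [NeZero N]

/-- `E` is finite over `ℚ̄(j)`. -/
theorem finiteDimensional_j {E : Type*} [Field E] [Algebra (FN N) E] [Algebra Kbar E]
    [IsScalarTower Kbar (FN N) E] [FiniteDimensional (FN N) E] :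
    FiniteDimensional Kbar⟮algebraMap (FN N) E (jBar N)⟯ E := by
  have : FiniteDimensional Kbar⟮jBar N⟯ (FN N) := (helper8185.stmt_JFinrank N).1
  exact finiteDimensional_adjoin_algebraMap (jBar N)

variable {Ω : Type*} [Field Ω] [Algebra (FN N) Ω] [Algebra Kbar Ω] [IsScalarTower Kbar (FN N) Ω]

/-- **(T)** for `E := F_N⟮θ⟯` inside an extension `Ω` of `F_N`, `θ ^ m = U`. -/
theorem ord_algebraMap_eq_adjoin (m : ℕ) (hm : m ≠ 0) (U : FN N) (hU : U ≠ 0) (θ : Ω)
    (hθ : θ ^ m = algebraMap (FN N) Ω U)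
    (hdiv : ∀ P : Place Kbar (FN N), (m : ℤ) ∣ P.ord U)
    [Algebra.IsIntegral (FN N) ↥(FN N)⟮θ⟯]
    (w : Place Kbar ↥(FN N)⟮θ⟯) (f : FN N) :
    w.ord (algebraMap (FN N) ↥(FN N)⟮θ⟯ f) = (w.restrict (FN N)).ord f := by
  have hint : IsIntegral (FN N) θ :=
    ⟨X ^ m - C U, monic_X_pow_sub_C U hm, by simp [hθ]⟩
  refine ord_algebraMap_eq N m hm U hU (AdjoinSimple.gen (FN N) θ) ?_
    (exists_aeval_gen_eq θ hint) hdiv w f
  apply Subtype.ext
  simp [hθ]

omit [NeZero N] [Algebra Kbar Ω] [IsScalarTower Kbar (FN N) Ω] in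
/-- `F_N⟮θ⟯` is finite, hence integral, over `F_N` when `θ ^ m ∈ F_N`, `m ≠ 0`. -/
theorem finiteDimensional_adjoin (m : ℕ) (hm : m ≠ 0) (U : FN N) (θ : Ω)
    (hθ : θ ^ m = algebraMap (FN N) Ω U) : FiniteDimensional (FN N) ↥(FN N)⟮θ⟯ :=
  IntermediateField.adjoin.finiteDimensional
    ⟨X ^ m - C U, monic_X_pow_sub_C U hm, by simp [hθ]⟩

end RamKummer

end Fermat.Agent.S18.helper2778
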