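/-
S18, track B (DN route), (X-bar): MODEL-INDEPENDENT construction of `helper648.BarDatum`.

For ANY `D : helper3578.KData` with `L0 = F0[θ]`, `θ ^ m = U`, a ring hom `ι : F0 → F_N`
(`F_N = modularFunctionFieldBar N`) and a compatible `κ : K0 → ℚ̄`, with `m ∣ div (ι U)`:
an extension of `ι` to `L0 → Ω := AlgebraicClosure F_N` lands in `E := F_N(θ')`, `θ'` the image
of `θ`, a Kummer layer over `ℚ̄`; `helper2778_RamKummer` transfers the branch data of the
coordinate from `F_N` to `E`.  This gives `BarDatum D c0` from the branch data of `ι t` on `F_N`: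

* `nonempty_barDatum_of_branch` : generic coordinate, branch hypothesis on `F_N`;
* `nonempty_barDatum_jline`     : `ι t = j`, `c0 = -1728` (no hypothesis: `helper8185` (R1));
* `nonempty_barDatum_line_two`, `nonempty_barDatum_line_three` : the Hauptmodul lines
  (`c0 = 64`, `27`; `helper2866_BranchFN`), in the shape of the `Nonempty (BarDatum ..)` clauses
  of `helper648.stmt_ModelFacts_of_jline / _of_line_two / _of_line_three`.
-/
import Fermat.Agent.S18.helper648_ModelWire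
import Fermat.Agent.S18.helper2778_RamKummer
import Fermat.Agent.S18.helper2866_BranchFN

set_option autoImplicit false
set_option linter.style.haveILetI false
set_option linter.unusedSectionVars false

noncomputable section

namespace Fermat.Agent.S18.helper2128

open AlgebraicCurve IntermediateField Polynomial ModularCurve
open Fermat.Agent.S24 Fermat.Agent.S24.helper24
open Fermat.Agent.S18.helper3578

section Generic

/-- `ℚ̄` is algebraic over any field mapping to it. -/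
theorem isAlgebraic_Kbar_of_hom {K₀ : Type*} [Field K₀] (κ : K₀ →+* Kbar) :
    letI : Algebra K₀ Kbar := κ.toAlgebra
    Algebra.IsAlgebraic K₀ Kbar := by
  letI : Algebra K₀ Kbar := κ.toAlgebra
  haveI : CharZero K₀ := κ.charZero
  haveI : IsScalarTower ℚ K₀ Kbar := IsScalarTower.of_algebraMap_eq (fun q => by
    rw [RingHom.algebraMap_toAlgebra, eq_ratCast, eq_ratCast, map_ratCast])
  haveI : Algebra.IsAlgebraic ℚ Kbar := AlgebraicClosure.isAlgebraic ℚ
  exact Algebra.IsAlgebraic.tower_top (K := ℚ) K₀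

variable {K F : Type*} [Field K] [Field F] [Algebra K F]

/-- If `j * t ^ r = P(t)` and `t ≠ 0`, then `j ∈ K(t)`. -/
theorem mem_adjoin_of_rel (j t : F) (P : K[X]) (r : ℕ) (ht0 : t ≠ 0)
    (hrel : j * t ^ r = aeval t P) : j ∈ K⟮t⟯ := by
  have htmem : t ∈ K⟮t⟯ := mem_adjoin_simple_self K t
  have e : j = aeval t P * (t ^ r)⁻¹ := by
    rw [← hrel, mul_assoc, mul_inv_cancel₀ (pow_ne_zero r ht0), mul_one]
  rw [e]
  refine mul_mem ?_ (inv_mem (pow_mem htmem r))
  exact algebra_adjoin_le_adjoin K _ (aeval_mem_adjoin_singleton _ t)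

/-- If `j` is transcendental over `K` and `j ∈ K(t)`, then `t` is transcendental over `K`. -/
theorem transcendental_of_mem_adjoin (j t : F) (hj : Transcendental K j) (hmem : j ∈ K⟮t⟯) :
    Transcendental K t := by
  intro halg
  apply hj
  haveI : Algebra.IsAlgebraic K K⟮t⟯ := isAlgebraic_adjoin_simple halg.isIntegral
  exact (IntermediateField.isAlgebraic_iff (S := K⟮t⟯) (x := ⟨j, hmem⟩)).mp
    (Algebra.IsAlgebraic.isAlgebraic _)

/-- If `F` is finite over `K(j)` and `j ∈ K(t)`, then `F` is finite over `K(t)`. -/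
theorem finiteDimensional_of_mem_adjoin (j t : F) [FiniteDimensional K⟮j⟯ F]
    (hmem : j ∈ K⟮t⟯) : FiniteDimensional K⟮t⟯ F := by
  have hle : K⟮j⟯ ≤ K⟮t⟯ := adjoin_le_iff.mpr (Set.singleton_subset_iff.mpr hmem)
  let _ : Algebra ↥K⟮j⟯ ↥K⟮t⟯ := (IntermediateField.inclusion hle).toRingHom.toAlgebra
  have : IsScalarTower ↥K⟮j⟯ ↥K⟮t⟯ F := IsScalarTower.of_algebraMap_eq (fun x => rfl)
  exact Module.Finite.of_restrictScalars_finite ↥K⟮j⟯ ↥K⟮t⟯ F

/-- Level two: `j * t ^ 2 = (t + 256) ^ 3` puts `j` in `K(t)`. -/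
theorem mem_adjoin_of_rel_two [CharZero F] (j t : F) (ht : j * t ^ 2 = (t + 256) ^ 3) :
    j ∈ K⟮t⟯ := by
  have ht0 : t ≠ 0 := by
    rintro rfl
    norm_num at ht
  exact mem_adjoin_of_rel j t ((X + C 256) ^ 3) 2 ht0
    (by rw [ht, map_pow, map_add, aeval_X, aeval_C, map_ofNat])

/-- Level three: `j * t ^ 3 = (t + 27) (t + 243) ^ 3` puts `j` in `K(t)`. -/
theorem mem_adjoin_of_rel_three [CharZero F] (j t : F)
    (ht : j * t ^ 3 = (t + 27) * (t + 243) ^ 3) : j ∈ K⟮t⟯ := by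
  have ht0 : t ≠ 0 := by
    rintro rfl
    norm_num at ht
  exact mem_adjoin_of_rel j t ((X + C 27) * (X + C 243) ^ 3) 3 ht0
    (by rw [ht, map_mul, map_pow, map_add, map_add, aeval_X, aeval_C, aeval_C, map_ofNat,
      map_ofNat])

end Generic

section Kummer

variable (D : KData) (N : ℕ) [NeZero N]

/-- **`BarDatum` from a ring hom into a Kummer layer** `E` over `F_N` (finite over `F_N`, a
`ℚ̄`-tower): `κ : K0 → ℚ̄`, `σ : L0 → E` compatible on `K0`, `σ tL = f ∈ F_N` transcendental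
with `F_N` finite over `ℚ̄(f)`, and the zeros of `f - c` on `E` simple for `c ≠ 0, -c0`. -/
def barDatumOfHom (c0 : D.A0) {E : Type} [Field E] [Algebra (FN N) E] [Algebra Kbar E]
    [IsScalarTower Kbar (FN N) E] [FiniteDimensional (FN N) E]
    (κ : D.K0 →+* Kbar) (σ : D.L0 →+* E)
    (hσκ : ∀ a : D.K0, σ (algebraMap D.K0 D.L0 a) = algebraMap Kbar E (κ a))
    (f : FN N) (hf : Transcendental Kbar f) [FiniteDimensional Kbar⟮f⟯ (FN N)]
    (hx : σ D.tL = algebraMap (FN N) E f)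
    (hsimple : ∀ c : Kbar, c ≠ 0 → c ≠ -κ (algebraMap D.A0 D.K0 c0) → ∀ w : Place Kbar E,
      0 < w.ord (algebraMap (FN N) E f - algebraMap Kbar E c) →
      w.ord (algebraMap (FN N) E f - algebraMap Kbar E c) = 1) :
    helper648.BarDatum D c0 :=
  letI : Algebra D.K0 Kbar := κ.toAlgebra
  letI : Algebra D.K0 E := ((algebraMap Kbar E).comp κ).toAlgebra
  { Kb := Kbar
    Eb := E
    algK0 := κ.toAlgebra
    isAlg := isAlgebraic_Kbar_of_hom κ
    algK0E := ((algebraMap Kbar E).comp κ).toAlgebra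
    tower := IsScalarTower.of_algebraMap_eq (fun _ => rfl)
    i := { σ with commutes' := fun a => hσκ a }
    transc := by
      show Transcendental Kbar (σ D.tL)
      rw [hx]
      exact fun halg => hf ((isAlgebraic_algebraMap_iff (algebraMap (FN N) E).injective).mp halg)
    finite := by
      show FiniteDimensional Kbar⟮σ D.tL⟯ E
      rw [hx]
      exact helper2778.finiteDimensional_adjoin_algebraMap f
    simple := by
      intro c hc0 hc P hP
      have hP' : 0 < P.ord (σ D.tL - algebraMap Kbar E c) := hP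
      show P.ord (σ D.tL - algebraMap Kbar E c) = 1
      rw [hx] at hP' ⊢
      exact hsimple c hc0 hc P hP' }

/-- **The embedding of the model into a Kummer layer over `ℚ̄`.**  If `L0 = F0[θ]` and
`θ ^ m = U`, any ring hom `ι : F0 → F_N` extends to `σ : L0 → F_N(θ')`, `θ'` a root of
`X ^ m - ι U` in the algebraic closure of `F_N`. -/
theorem exists_hom_kummer (hgen : Algebra.adjoin D.F0 ({D.θ} : Set D.L0) = ⊤)
    (ι : D.F0 →+* FN N) (m : ℕ) (hm : m ≠ 0) (hθ : D.θ ^ m = algebraMap D.F0 D.L0 D.U) :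
    ∃ (θ' : AlgebraicClosure (FN N)) (σ : D.L0 →+* ↥(FN N)⟮θ'⟯),
      θ' ^ m = algebraMap (FN N) (AlgebraicClosure (FN N)) (ι D.U) ∧
      ∀ x : D.F0, σ (algebraMap D.F0 D.L0 x) = algebraMap (FN N) ↥(FN N)⟮θ'⟯ (ι x) := by
  classical
  letI : Algebra D.F0 (AlgebraicClosure (FN N)) :=
    ((algebraMap (FN N) (AlgebraicClosure (FN N))).comp ι).toAlgebra
  have hθint : IsIntegral D.F0 D.θ :=
    ⟨X ^ m - C D.U, monic_X_pow_sub_C D.U hm, by simp [hθ]⟩
  haveI : Algebra.IsAlgebraic D.F0 D.L0 := by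
    have hle : Algebra.adjoin D.F0 ({D.θ} : Set D.L0) ≤ integralClosure D.F0 D.L0 :=
      Algebra.adjoin_le (Set.singleton_subset_iff.mpr hθint)
    refine ⟨fun x => IsIntegral.isAlgebraic (hle ?_)⟩
    rw [hgen]
    exact Algebra.mem_top
  let σΩ : D.L0 →ₐ[D.F0] AlgebraicClosure (FN N) := IsAlgClosed.lift
  have hbase : ∀ a : D.F0, σΩ (algebraMap D.F0 D.L0 a)
      = algebraMap (FN N) (AlgebraicClosure (FN N)) (ι a) := fun a => σΩ.commutes a
  have hmem : ∀ x : D.L0, σΩ x ∈ (FN N)⟮σΩ D.θ⟯ := by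
    intro x
    have hx : x ∈ Algebra.adjoin D.F0 ({D.θ} : Set D.L0) := by
      rw [hgen]
      exact Algebra.mem_top
    induction hx using Algebra.adjoin_induction with
    | mem x hx =>
      rw [Set.mem_singleton_iff.mp hx]
      exact mem_adjoin_simple_self _ _
    | algebraMap a =>
      rw [hbase]
      exact IntermediateField.algebraMap_mem _ (ι a)
    | add x y _ _ hx hy =>
      rw [map_add]
      exact add_mem hx hy
    | mul x y _ _ hx hy =>
      rw [map_mul]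
      exact mul_mem hx hy
  refine ⟨σΩ D.θ, (σΩ : D.L0 →+* AlgebraicClosure (FN N)).codRestrict (FN N)⟮σΩ D.θ⟯ hmem,
    ?_, ?_⟩
  · rw [← map_pow, hθ, hbase]
  · intro x
    apply Subtype.ext
    exact hbase x

/-- **(X-bar) for an arbitrary model, generic coordinate.**  `L0 = F0[θ]`, `θ ^ m = U`,
`ι : F0 → F_N` with `m ∣ div (ι U)`, `κ : K0 → ℚ̄` compatible with `ι`; if `ι t` is
transcendental, `F_N` is finite over `ℚ̄(ι t)` and the zeros of `ι t - c` on `F_N` are simple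
for `c ≠ 0, -c0`, then `D` has a `BarDatum` (`Kb = ℚ̄`, `Eb = F_N(θ')`). -/
theorem nonempty_barDatum_of_branch (c0 : D.A0)
    (hgen : Algebra.adjoin D.F0 ({D.θ} : Set D.L0) = ⊤)
    (ι : D.F0 →+* FN N) (κ : D.K0 →+* Kbar)
    (hικ : ∀ c : D.K0, ι (algebraMap D.K0 D.F0 c) = algebraMap Kbar (FN N) (κ c))
    (m : ℕ) (hm : m ≠ 0) (hθ : D.θ ^ m = algebraMap D.F0 D.L0 D.U) (hU : ι D.U ≠ 0)
    (hdiv : ∀ P : Place Kbar (FN N), (m : ℤ) ∣ P.ord (ι D.U))
    (hf : Transcendental Kbar (ι D.t)) [FiniteDimensional Kbar⟮ι D.t⟯ (FN N)]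
    (hR1 : ∀ c : Kbar, c ≠ 0 → c ≠ -κ (algebraMap D.A0 D.K0 c0) → ∀ v : Place Kbar (FN N),
      0 < v.ord (ι D.t - algebraMap Kbar (FN N) c) →
      v.ord (ι D.t - algebraMap Kbar (FN N) c) = 1) :
    Nonempty (helper648.BarDatum D c0) := by
  obtain ⟨θ', σ, hθ', hσ⟩ := exists_hom_kummer D N hgen ι m hm hθ
  haveI : FiniteDimensional (FN N) ↥(FN N)⟮θ'⟯ :=
    helper2778.RamKummer.finiteDimensional_adjoin N m hm (ι D.U) θ' hθ'
  have hint : IsIntegral (FN N) θ' :=
    ⟨X ^ m - C (ι D.U), monic_X_pow_sub_C _ hm, by simp [hθ']⟩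
  have hθE : (AdjoinSimple.gen (FN N) θ') ^ m = algebraMap (FN N) ↥(FN N)⟮θ'⟯ (ι D.U) := by
    apply Subtype.ext
    simp [hθ']
  refine ⟨barDatumOfHom D N c0 κ σ ?_ (ι D.t) hf (hσ D.t) ?_⟩
  · intro a
    rw [IsScalarTower.algebraMap_apply D.K0 D.F0 D.L0, hσ, hικ,
      ← IsScalarTower.algebraMap_apply]
  · intro c hc0 hc w hw
    rw [helper2778.RamKummer.algebraMap_sub_const,
      helper2778.RamKummer.ord_algebraMap_eq N m hm (ι D.U) hU (AdjoinSimple.gen (FN N) θ') hθE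
        (helper2778.exists_aeval_gen_eq θ' hint) hdiv] at hw ⊢
    exact hR1 c hc0 hc _ hw

/-- **(X-bar) on the `j`-line** (`c0 = -1728`), for an arbitrary model with `ι t = j`: no
branch hypothesis (`helper8185` (R1)). -/
theorem nonempty_barDatum_jline (hgen : Algebra.adjoin D.F0 ({D.θ} : Set D.L0) = ⊤)
    (ι : D.F0 →+* FN N) (κ : D.K0 →+* Kbar)
    (hικ : ∀ c : D.K0, ι (algebraMap D.K0 D.F0 c) = algebraMap Kbar (FN N) (κ c))
    (hιt : ι D.t = jBar N)
    (m : ℕ) (hm : m ≠ 0) (hθ : D.θ ^ m = algebraMap D.F0 D.L0 D.U) (hU : ι D.U ≠ 0)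
    (hdiv : ∀ P : Place Kbar (FN N), (m : ℤ) ∣ P.ord (ι D.U)) :
    Nonempty (helper648.BarDatum D (-1728)) := by
  haveI : FiniteDimensional Kbar⟮ι D.t⟯ (FN N) := by
    rw [hιt]
    exact (helper8185.stmt_JFinrank N).1
  refine nonempty_barDatum_of_branch D N (-1728) hgen ι κ hικ m hm hθ hU hdiv
    (by rw [hιt]; exact leaf_JTranscendental N) ?_
  intro c hc0 hc v hv
  rw [hιt] at hv ⊢
  refine helper8185.ord_j_sub_eq_one N c hc0 ?_ v hv
  rwa [map_neg, map_neg, neg_neg, map_ofNat, map_ofNat] at hc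

/-- **(X-bar) on the Hauptmodul line of level two** (`c0 = 64`): the model `withLine D τ`,
`j * τ ^ 2 = (τ + 256) ^ 3`, `ι t = j`. -/
theorem nonempty_barDatum_line_two (hgen : Algebra.adjoin D.F0 ({D.θ} : Set D.L0) = ⊤)
    (ι : D.F0 →+* FN N) (κ : D.K0 →+* Kbar)
    (hικ : ∀ c : D.K0, ι (algebraMap D.K0 D.F0 c) = algebraMap Kbar (FN N) (κ c))
    (hιt : ι D.t = jBar N) (τ : D.F0) (hrel : D.t * τ ^ 2 = (τ + 256) ^ 3)
    (m : ℕ) (hm : m ≠ 0) (hθ : D.θ ^ m = algebraMap D.F0 D.L0 D.U) (hU : ι D.U ≠ 0)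
    (hdiv : ∀ P : Place Kbar (FN N), (m : ℤ) ∣ P.ord (ι D.U)) :
    Nonempty (helper648.BarDatum (helper648.withLine D τ) 64) := by
  have ht : jBar N * ι τ ^ 2 = (ι τ + 256) ^ 3 := by
    have h := congrArg ι hrel
    rwa [map_mul, map_pow, map_pow, map_add, map_ofNat, hιt] at h
  have hmem : jBar N ∈ Kbar⟮ι τ⟯ := mem_adjoin_of_rel_two (jBar N) (ι τ) ht
  have hf : Transcendental Kbar (ι (helper648.withLine D τ).t) :=
    transcendental_of_mem_adjoin (jBar N) (ι τ) (leaf_JTranscendental N) hmem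
  haveI : FiniteDimensional Kbar⟮jBar N⟯ (FN N) := (helper8185.stmt_JFinrank N).1
  haveI : FiniteDimensional Kbar⟮ι (helper648.withLine D τ).t⟯ (FN N) :=
    finiteDimensional_of_mem_adjoin (jBar N) (ι τ) hmem
  refine nonempty_barDatum_of_branch (helper648.withLine D τ) N 64 hgen ι κ hικ m hm hθ hU hdiv
    hf ?_
  intro c hc0 hc v hv
  refine helper2866.FN_level2_ord_sub_eq_one N (ι τ) ht c hc0 ?_ v hv
  have hc' : c ≠ -κ (algebraMap D.A0 D.K0 64) := hc
  rwa [map_ofNat, map_ofNat] at hc'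

/-- **(X-bar) on the Hauptmodul line of level three** (`c0 = 27`): the model `withLine D τ`,
`j * τ ^ 3 = (τ + 27) (τ + 243) ^ 3`, `ι t = j`. -/
theorem nonempty_barDatum_line_three (hgen : Algebra.adjoin D.F0 ({D.θ} : Set D.L0) = ⊤)
    (ι : D.F0 →+* FN N) (κ : D.K0 →+* Kbar)
    (hικ : ∀ c : D.K0, ι (algebraMap D.K0 D.F0 c) = algebraMap Kbar (FN N) (κ c))
    (hιt : ι D.t = jBar N) (τ : D.F0) (hrel : D.t * τ ^ 3 = (τ + 27) * (τ + 243) ^ 3)
    (m : ℕ) (hm : m ≠ 0) (hθ : D.θ ^ m = algebraMap D.F0 D.L0 D.U) (hU : ι D.U ≠ 0)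
    (hdiv : ∀ P : Place Kbar (FN N), (m : ℤ) ∣ P.ord (ι D.U)) :
    Nonempty (helper648.BarDatum (helper648.withLine D τ) 27) := by
  have ht : jBar N * ι τ ^ 3 = (ι τ + 27) * (ι τ + 243) ^ 3 := by
    have h := congrArg ι hrel
    rwa [map_mul, map_pow, map_mul, map_pow, map_add, map_add, map_ofNat, map_ofNat, hιt] at h
  have hmem : jBar N ∈ Kbar⟮ι τ⟯ := mem_adjoin_of_rel_three (jBar N) (ι τ) ht
  have hf : Transcendental Kbar (ι (helper648.withLine D τ).t) :=
    transcendental_of_mem_adjoin (jBar N) (ι τ) (leaf_JTranscendental N) hmem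
  haveI : FiniteDimensional Kbar⟮jBar N⟯ (FN N) := (helper8185.stmt_JFinrank N).1
  haveI : FiniteDimensional Kbar⟮ι (helper648.withLine D τ).t⟯ (FN N) :=
    finiteDimensional_of_mem_adjoin (jBar N) (ι τ) hmem
  refine nonempty_barDatum_of_branch (helper648.withLine D τ) N 27 hgen ι κ hικ m hm hθ hU hdiv
    hf ?_
  intro c hc0 hc v hv
  refine helper2866.FN_level3_ord_sub_eq_one N (ι τ) ht c hc0 ?_ v hv
  have hc' : c ≠ -κ (algebraMap D.A0 D.K0 27) := hc
  rwa [map_ofNat, map_ofNat] at hc'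

/-- The Kummer hypotheses `ι U ≠ 0`, `m ∣ div (ι U)` from the shape of `Stmt_ModelFacts`:
`ι U * b = a`, `a ≠ 0`, `m ∣ div a - div b`. -/
theorem ne_zero_and_dvd_ord_of_mul_eq {u a b : FN N} (m : ℕ) (hab : u * b = a) (ha : a ≠ 0)
    (hdiv : ∀ P : Place Kbar (FN N), (m : ℤ) ∣ P.ord a - P.ord b) :
    u ≠ 0 ∧ ∀ P : Place Kbar (FN N), (m : ℤ) ∣ P.ord u := by
  have hu : u ≠ 0 := by
    rintro rfl
    exact ha (by rw [← hab, zero_mul])
  have hb : b ≠ 0 := by
    rintro rfl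
    exact ha (by rw [← hab, mul_zero])
  refine ⟨hu, fun P => ?_⟩
  have h := hdiv P
  rwa [← hab, P.ord_mul hu hb, add_sub_cancel_right] at h

/-! ### The same, in the vocabulary of `helper648.Stmt_ModelFacts`

`D` a good model (`j`-line), `ι : F0 → F_N` with `ι t = j` and `ι U * b.gen = a.gen`, `κ : K0 → ℚ̄`
compatible with `ι`, and the divisibility hypothesis of `Stmt_KF0`. -/

section ModelFacts

variable {D N}
variable {m : ℕ} {A : ValuationSubring (AlgebraicClosure ℚ)}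

omit [NeZero N] in
theorem ne_zero_of_good (hD : D.Good m) : m ≠ 0 := by
  rintro rfl
  have h := hD.unit_m
  rw [Nat.cast_zero] at h
  exact not_isUnit_zero h

/-- `Nonempty (BarDatum D (-1728))` — the clause of `helper648.stmt_ModelFacts_of_jline`. -/
theorem nonempty_barDatum_jline_of_good (hD : D.Good m)
    (hgen : Algebra.adjoin D.F0 ({D.θ} : Set D.L0) = ⊤)
    (ι : D.F0 →+* modularFunctionFieldBar N) (κ : D.K0 →+* AlgebraicClosure ℚ)
    (hικ : ∀ c : D.K0, ι (algebraMap D.K0 D.F0 c)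
      = algebraMap (AlgebraicClosure ℚ) (modularFunctionFieldBar N) (κ c))
    (hιt : ι D.t = jBar N) (a b : helper3054.IntegralFn A N)
    (hdiv : ∀ P : Place (AlgebraicClosure ℚ) (modularFunctionFieldBar N),
      (m : ℤ) ∣ P.ord a.gen - P.ord b.gen)
    (hab : ι D.U * b.gen = a.gen) : Nonempty (helper648.BarDatum D (-1728)) := by
  obtain ⟨hU, hdivU⟩ := ne_zero_and_dvd_ord_of_mul_eq N m hab a.gen_ne_zero hdiv
  exact nonempty_barDatum_jline D N hgen ι κ hικ hιt m (ne_zero_of_good hD) hD.θ_pow hU hdivU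

/-- `Nonempty (BarDatum (withLine D τ) 64)` — the clause of
`helper648.stmt_ModelFacts_of_line_two`. -/
theorem nonempty_barDatum_line_two_of_good (hD : D.Good m)
    (hgen : Algebra.adjoin D.F0 ({D.θ} : Set D.L0) = ⊤)
    (ι : D.F0 →+* modularFunctionFieldBar N) (κ : D.K0 →+* AlgebraicClosure ℚ)
    (hικ : ∀ c : D.K0, ι (algebraMap D.K0 D.F0 c)
      = algebraMap (AlgebraicClosure ℚ) (modularFunctionFieldBar N) (κ c))
    (hιt : ι D.t = jBar N) (τ : D.F0) (hrel : D.t * τ ^ 2 = (τ + 256) ^ 3)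
    (a b : helper3054.IntegralFn A N)
    (hdiv : ∀ P : Place (AlgebraicClosure ℚ) (modularFunctionFieldBar N),
      (m : ℤ) ∣ P.ord a.gen - P.ord b.gen)
    (hab : ι D.U * b.gen = a.gen) :
    Nonempty (helper648.BarDatum (helper648.withLine D τ) 64) := by
  obtain ⟨hU, hdivU⟩ := ne_zero_and_dvd_ord_of_mul_eq N m hab a.gen_ne_zero hdiv
  exact nonempty_barDatum_line_two D N hgen ι κ hικ hιt τ hrel m (ne_zero_of_good hD) hD.θ_pow
    hU hdivU

/-- `Nonempty (BarDatum (withLine D τ) 27)` — the clause of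
`helper648.stmt_ModelFacts_of_line_three`. -/
theorem nonempty_barDatum_line_three_of_good (hD : D.Good m)
    (hgen : Algebra.adjoin D.F0 ({D.θ} : Set D.L0) = ⊤)
    (ι : D.F0 →+* modularFunctionFieldBar N) (κ : D.K0 →+* AlgebraicClosure ℚ)
    (hικ : ∀ c : D.K0, ι (algebraMap D.K0 D.F0 c)
      = algebraMap (AlgebraicClosure ℚ) (modularFunctionFieldBar N) (κ c))
    (hιt : ι D.t = jBar N) (τ : D.F0) (hrel : D.t * τ ^ 3 = (τ + 27) * (τ + 243) ^ 3)
    (a b : helper3054.IntegralFn A N)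
    (hdiv : ∀ P : Place (AlgebraicClosure ℚ) (modularFunctionFieldBar N),
      (m : ℤ) ∣ P.ord a.gen - P.ord b.gen)
    (hab : ι D.U * b.gen = a.gen) :
    Nonempty (helper648.BarDatum (helper648.withLine D τ) 27) := by
  obtain ⟨hU, hdivU⟩ := ne_zero_and_dvd_ord_of_mul_eq N m hab a.gen_ne_zero hdiv
  exact nonempty_barDatum_line_three D N hgen ι κ hικ hιt τ hrel m (ne_zero_of_good hD)
    hD.θ_pow hU hdivU

end ModelFacts

end Kummer

end Fermat.Agent.S18.helper2128
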