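import Mathlib
import Fermat.Prelude.Def_AlgebraicCurve_DivisorClassGroup
import Fermat.Agent.S24.helper204_Places

/-!
# S18, track B: number-field / valuation-ring form of ramification data (helper9121)

Bridge between `Place.ord` data of a function field `F/K` over an algebraically closed field
(e.g. the S24 ramification data of `F_N` over `ℚ̄(j)`) and valuation rings of a subfield
`F₀ ⊆ F` over a smaller constant field `K₀` (a number field).

* `exists_valuationSubring_comap` : Chevalley: every valuation subring of a subfield is the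
  trace of a valuation subring of the big field.
* `exists_place_of_valuationSubring` : a valuation subring `≠ ⊤` of a function field `F/K`
  (characteristic zero) containing the constants is the valuation ring of a Prelude `Place`.
* `exists_place_comap` **(RN1)** : `K` algebraic over `K₀`, `F₀ → F` any field over `K₀`: every
  valuation subring `W ≠ ⊤` of `F₀` containing `K₀` is the trace of a `Place` of `F/K`.
* `exists_uniformizer_of_valuationSubring` **(RN-dvr)** : such a `W` is a discrete valuation ring.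
* `exists_uniformizer_index_dvd` **(RN-idx)** : if `ord_v g ∣ E` at every place `v` of `F/K`
  where `g : F₀` vanishes, then the index of `g` at `W` divides `E`.
* `ord_aeval_eq_ord_sub` **(P1)**, `ord_aeval_irreducible` : `ord_v p(x) = ord_v (x - c)` for
  separable `p` and the root `c` at which `v` is centred.
* `aeval_uniformizer_of_ord_eq_one` **(RN-unr)** : unramified points.
* `jline_unramified`, `jline_index_zero`, `jline_index_1728`, `jline_index_infty` **(RN2)** :
  the four clauses on the `j`-line, with the S24 ramification data as hypotheses.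
-/

set_option autoImplicit false

namespace Fermat.Agent.S18.helper9121

open AlgebraicCurve IntermediateField IsDedekindDomain Polynomial

section Chevalley

variable {F₀ F : Type*} [Field F₀] [Field F] [Algebra F₀ F]

/-- Chevalley's extension theorem in trace form: every valuation subring `W` of `F₀` is the
trace on `F₀` of a valuation subring of the extension field `F`. -/
theorem exists_valuationSubring_comap (W : ValuationSubring F₀) :
    ∃ V : ValuationSubring F, ∀ f : F₀, algebraMap F₀ F f ∈ V ↔ f ∈ W := by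
  obtain ⟨V, hle, hloc⟩ :=
    (W.toLocalSubring.map (algebraMap F₀ F)).exists_le_valuationSubring
  refine ⟨V, fun f => ⟨fun hf => ?_, fun hf => hle ⟨f, hf, rfl⟩⟩⟩
  by_contra hfW
  have hf0 : f ≠ 0 := fun h => hfW (h ▸ W.zero_mem)
  have hinv : f⁻¹ ∈ W := (W.mem_or_inv_mem f).resolve_left hfW
  -- the image of `f⁻¹` is a unit of `V`, hence of the image of `W`
  have hmem : algebraMap F₀ F f⁻¹ ∈ (W.toLocalSubring.map (algebraMap F₀ F)).toSubring :=
    ⟨f⁻¹, hinv, rfl⟩
  have hunit : IsUnit (Subring.inclusion hle ⟨algebraMap F₀ F f⁻¹, hmem⟩) := by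
    refine isUnit_iff_exists_inv.mpr ⟨⟨algebraMap F₀ F f, hf⟩, Subtype.ext ?_⟩
    show algebraMap F₀ F f⁻¹ * algebraMap F₀ F f = 1
    rw [← map_mul, inv_mul_cancel₀ hf0, map_one]
  have hunit' := hloc.map_nonunit _ hunit
  obtain ⟨⟨b, g, hg, rfl⟩, hb⟩ := isUnit_iff_exists_inv.mp hunit'
  have h1 : algebraMap F₀ F f⁻¹ * algebraMap F₀ F g = 1 := congrArg Subtype.val hb
  rw [← map_mul, ← (algebraMap F₀ F).map_one] at h1
  have h2 := (algebraMap F₀ F).injective h1
  have : g = f := by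
    field_simp at h2
    exact h2
  exact hfW (this ▸ hg)

end Chevalley

section PlaceOfValuationSubring

open scoped IntermediateField.algebraAdjoinAdjoin
open Fermat.Agent.S24.helper204

variable {K F : Type*} [Field K] [Field F] [Algebra K F]

/-- A valuation subring `≠ ⊤` of a function field containing the constants and `x` is the
valuation ring of a `Place`. -/
theorem exists_place_of_valuationSubring_of_mem [CharZero K] (x : F)
    [FiniteDimensional K⟮x⟯ F] (V : ValuationSubring F)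
    (hK : ∀ a : K, algebraMap K F a ∈ V) (hV : V ≠ ⊤) (hxV : x ∈ V) :
    ∃ v : Place K F, v.toValuationSubring = V := by
  have hAV : ∀ a ∈ Algebra.adjoin K {x}, a ∈ V := by
    let Ov : Subalgebra K F := { V.toSubring with algebraMap_mem' := hK }
    have h : Algebra.adjoin K {x} ≤ Ov := Algebra.adjoin_le (Set.singleton_subset_iff.mpr hxV)
    exact fun a ha => h ha
  have hBV : ∀ b : integralClosure (Algebra.adjoin K {x}) F, (b : F) ∈ V := fun b =>
    mem_of_isIntegral_of_le V (Algebra.adjoin K {x}) hAV b.2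
  let φ : integralClosure (Algebra.adjoin K {x}) F →+* V :=
    { toFun := fun b => ⟨b, hBV b⟩
      map_one' := rfl
      map_mul' := fun _ _ => rfl
      map_zero' := rfl
      map_add' := fun _ _ => rfl }
  let P : Ideal (integralClosure (Algebra.adjoin K {x}) F) :=
    Ideal.comap φ (IsLocalRing.maximalIdeal V)
  have hPprime : P.IsPrime := Ideal.comap_isPrime φ _
  -- elements outside `P` are units of `V`
  have hunit : ∀ r : integralClosure (Algebra.adjoin K {x}) F, r ∉ P →
      (algebraMap (integralClosure (Algebra.adjoin K {x}) F) F r)⁻¹ ∈ V := by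
    intro r hr
    have hr' : ¬ (φ r ∈ IsLocalRing.maximalIdeal V) := hr
    rw [IsLocalRing.mem_maximalIdeal, mem_nonunits_iff, not_not] at hr'
    obtain ⟨u, hu⟩ := hr'
    have h1 : ((u⁻¹ : Vˣ) : V) * φ r = 1 := by
      rw [← hu]; simp
    have h2 := congrArg (fun z : V => (z : F)) h1
    simp only [MulMemClass.coe_mul, OneMemClass.coe_one] at h2
    have h3 : ((φ r : V) : F) = algebraMap _ F r := rfl
    rw [h3] at h2
    have h4 : (algebraMap (integralClosure (Algebra.adjoin K {x}) F) F r)⁻¹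
        = ((u⁻¹ : Vˣ) : V) :=
      (eq_inv_of_mul_eq_one_left h2).symm
    rw [h4]
    exact SetLike.coe_mem _
  have hPne : P ≠ ⊥ := by
    intro hbot
    apply hV
    rw [eq_top_iff]
    intro f _
    obtain ⟨b, c, hc, rfl⟩ := IsFractionRing.div_surjective
      (A := integralClosure (Algebra.adjoin K {x}) F) f
    have hcP : c ∉ P := by
      rw [hbot, Ideal.mem_bot]
      exact nonZeroDivisors.ne_zero hc
    rw [div_eq_mul_inv]
    exact mul_mem (hBV b) (hunit c hcP)
  let w : HeightOneSpectrum (integralClosure (Algebra.adjoin K {x}) F) := ⟨P, hPprime, hPne⟩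
  refine ⟨Place.ofHeightOneSpectrum (K := K) (F := F) w, ?_⟩
  rw [Place.ofHeightOneSpectrum_toValuationSubring,
    ← HeightOneSpectrum.valuationSubringAtPrime_eq_valuationSubring]
  refine ValuationSubring.eq_of_le_of_ne_top _ ?_ hV
  intro f hf
  rw [HeightOneSpectrum.valuationSubringAtPrime_eq_valuationSubring,
    Valuation.mem_valuationSubring_iff] at hf
  obtain ⟨n, d, hnd⟩ := w.exists_primeCompl_mul_eq_of_integer f hf
  have hd0 : algebraMap (integralClosure (Algebra.adjoin K {x}) F) F (d : _) ≠ 0 := by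
    intro h0
    have := (FaithfulSMul.algebraMap_injective (integralClosure (Algebra.adjoin K {x}) F) F)
      (h0.trans (map_zero _).symm)
    exact d.2 (this ▸ w.asIdeal.zero_mem)
  have : f = algebraMap _ F n * (algebraMap (integralClosure (Algebra.adjoin K {x}) F) F (d : _))⁻¹ := by
    rw [← hnd, mul_assoc, mul_inv_cancel₀ hd0, mul_one]
  rw [this]
  exact mul_mem (hBV n) (hunit d d.2)

/-- A valuation subring `≠ ⊤` of a function field `F/K` (finite over `K(x)`, characteristic
zero) containing the constants is the valuation ring of a `Place`. -/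
theorem exists_place_of_valuationSubring [CharZero K] (x : F)
    [FiniteDimensional K⟮x⟯ F] (V : ValuationSubring F)
    (hK : ∀ a : K, algebraMap K F a ∈ V) (hV : V ≠ ⊤) :
    ∃ v : Place K F, v.toValuationSubring = V := by
  rcases V.mem_or_inv_mem x with hx | hx
  · exact exists_place_of_valuationSubring_of_mem x V hK hV hx
  · have : FiniteDimensional K⟮x⁻¹⟯ F := finiteDimensional_adjoin_inv
    exact exists_place_of_valuationSubring_of_mem x⁻¹ V hK hV hx

end PlaceOfValuationSubring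

section RN1

open Fermat.Agent.S24.helper204

variable {K₀ K F₀ F : Type*} [Field K₀] [Field K] [Field F₀] [Field F]
  [Algebra K₀ K] [Algebra K F] [Algebra K₀ F₀] [Algebra F₀ F] [Algebra K₀ F]
  [IsScalarTower K₀ K F] [IsScalarTower K₀ F₀ F]

/-- **(RN1)** `K` algebraic over `K₀`, `F/K` a function field of characteristic zero, `F₀` any
field between `K₀` and `F`.  Every valuation subring `W ≠ ⊤` of `F₀` containing `K₀` is the
trace on `F₀` of a `Place` of `F/K`. -/
theorem exists_place_comap [CharZero K] [Algebra.IsAlgebraic K₀ K] (x : F)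
    [FiniteDimensional K⟮x⟯ F] (W : ValuationSubring F₀)
    (hK₀ : ∀ a : K₀, algebraMap K₀ F₀ a ∈ W) (hW : W ≠ ⊤) :
    ∃ v : Place K F, ∀ f : F₀, algebraMap F₀ F f ∈ v.toValuationSubring ↔ f ∈ W := by
  obtain ⟨V, hV⟩ := exists_valuationSubring_comap (F := F) W
  have hK : ∀ a : K, algebraMap K F a ∈ V := by
    intro a
    have hint : IsIntegral K₀ a := (Algebra.IsAlgebraic.isAlgebraic a).isIntegral
    have hint' : IsIntegral K₀ (algebraMap K F a) := hint.map (IsScalarTower.toAlgHom K₀ K F)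
    refine mem_of_isIntegral_of_range_le V (S := K₀) (fun s => ?_) hint'
    rw [IsScalarTower.algebraMap_apply K₀ F₀ F]
    exact (hV _).mpr (hK₀ s)
  have hVtop : V ≠ ⊤ := by
    intro h
    apply hW
    rw [eq_top_iff]
    intro f _
    exact (hV f).mp (h ▸ ValuationSubring.mem_top _)
  obtain ⟨v, hv⟩ := exists_place_of_valuationSubring x V hK hVtop
  exact ⟨v, fun f => by rw [hv]; exact hV f⟩

end RN1

section Uniformizer

open Fermat.Agent.S24.helper204

variable {K F₀ F : Type*} [Field K] [Field F₀] [Field F] [Algebra K F] [Algebra F₀ F]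

/-- Membership in the trace `W = v ∩ F₀` in terms of the order function of `v`. -/
theorem mem_iff_ord_nonneg (v : Place K F) (W : ValuationSubring F₀)
    (hv : ∀ f : F₀, algebraMap F₀ F f ∈ v.toValuationSubring ↔ f ∈ W) (f : F₀) :
    f ∈ W ↔ 0 ≤ v.ord (algebraMap F₀ F f) := by
  rw [ord_nonneg_iff, hv]

/-- `f ∈ W` with `f⁻¹ ∉ W` (a nonzero nonunit of `W`) has positive order. -/
theorem ord_pos_of_mem_of_inv_not_mem (v : Place K F) (W : ValuationSubring F₀)
    (hv : ∀ f : F₀, algebraMap F₀ F f ∈ v.toValuationSubring ↔ f ∈ W) {f : F₀}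
    (hf : f⁻¹ ∉ W) : 0 < v.ord (algebraMap F₀ F f) := by
  by_contra h
  apply hf
  rw [mem_iff_ord_nonneg v W hv, map_inv₀, v.ord_inv]
  omega

/-- The trace `W = v ∩ F₀ ≠ ⊤` of a place is a discrete valuation ring: there is `π : F₀` of
minimal positive order `d`, and `d` divides the order of every element of `F₀`. -/
theorem exists_uniformizer (v : Place K F) (W : ValuationSubring F₀)
    (hv : ∀ f : F₀, algebraMap F₀ F f ∈ v.toValuationSubring ↔ f ∈ W) (hW : W ≠ ⊤) :
    ∃ (π : F₀) (d : ℕ), 0 < d ∧ v.ord (algebraMap F₀ F π) = d ∧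
      ∀ f : F₀, (d : ℤ) ∣ v.ord (algebraMap F₀ F f) := by
  classical
  have hex : ∃ n : ℕ, 0 < n ∧ ∃ f : F₀, v.ord (algebraMap F₀ F f) = n := by
    obtain ⟨f, hf⟩ : ∃ f : F₀, f ∉ W := by
      by_contra h
      push Not at h
      exact hW (eq_top_iff.mpr fun f _ => h f)
    have h1 : v.ord (algebraMap F₀ F f) < 0 := by
      by_contra h
      exact hf ((mem_iff_ord_nonneg v W hv f).mpr (not_lt.mp h))
    refine ⟨(-(v.ord (algebraMap F₀ F f))).toNat, ?_, f⁻¹, ?_⟩
    · omega
    · rw [map_inv₀, v.ord_inv]; omega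
  obtain ⟨hd0, π, hπ⟩ := Nat.find_spec hex
  refine ⟨π, Nat.find hex, hd0, hπ, fun f => ?_⟩
  rcases eq_or_ne f 0 with rfl | hf0
  · simp
  have hπ0 : π ≠ 0 := by
    rintro rfl
    simp at hπ
    omega
  have hf0' : algebraMap F₀ F f ≠ 0 := by simpa using hf0
  have hπ0' : algebraMap F₀ F π ≠ 0 := by simpa using hπ0
  have hdpos : (0 : ℤ) < (Nat.find hex : ℤ) := by exact_mod_cast hd0
  have hg : v.ord (algebraMap F₀ F (f * π ^ (-(v.ord (algebraMap F₀ F f) / (Nat.find hex : ℤ)))))
      = v.ord (algebraMap F₀ F f) % (Nat.find hex : ℤ) := by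
    rw [map_mul, map_zpow₀, v.ord_mul hf0' (zpow_ne_zero _ hπ0'), v.ord_zpow, hπ]
    have := Int.emod_add_mul_ediv (v.ord (algebraMap F₀ F f)) (Nat.find hex : ℤ)
    linarith
  have hr0 : 0 ≤ v.ord (algebraMap F₀ F f) % (Nat.find hex : ℤ) :=
    Int.emod_nonneg _ (by omega)
  have hrd : v.ord (algebraMap F₀ F f) % (Nat.find hex : ℤ) < (Nat.find hex : ℤ) :=
    Int.emod_lt_of_pos _ hdpos
  by_contra hdvd
  have hrne : v.ord (algebraMap F₀ F f) % (Nat.find hex : ℤ) ≠ 0 := fun h =>
    hdvd (Int.dvd_of_emod_eq_zero h)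
  have hmin := Nat.find_min' hex
    (m := (v.ord (algebraMap F₀ F f) % (Nat.find hex : ℤ)).toNat)
    ⟨by omega, f * π ^ (-(v.ord (algebraMap F₀ F f) / (Nat.find hex : ℤ))), by rw [hg]; omega⟩
  omega

end Uniformizer

section RamIdx

open Fermat.Agent.S24.helper204

variable {K₀ K F₀ F : Type*} [Field K₀] [Field K] [Field F₀] [Field F]
  [Algebra K₀ K] [Algebra K F] [Algebra K₀ F₀] [Algebra F₀ F] [Algebra K₀ F]
  [IsScalarTower K₀ K F] [IsScalarTower K₀ F₀ F]

/-- **(RN-dvr)** Every valuation subring `W ≠ ⊤` of `F₀` containing `K₀` is a discrete valuation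
ring: it has a uniformiser `π` (every nonzero nonunit of `W` is divisible by `π` in `W`) and
every nonzero `f : F₀` is a unit times a power of `π`. -/
theorem exists_uniformizer_of_valuationSubring [CharZero K] [Algebra.IsAlgebraic K₀ K] (x : F)
    [FiniteDimensional K⟮x⟯ F] (W : ValuationSubring F₀)
    (hK₀ : ∀ a : K₀, algebraMap K₀ F₀ a ∈ W) (hW : W ≠ ⊤) :
    ∃ π : F₀, π ∈ W ∧ π⁻¹ ∉ W ∧ (∀ f ∈ W, f⁻¹ ∉ W → f / π ∈ W) ∧
      ∀ f : F₀, f ≠ 0 → ∃ n : ℤ, f / π ^ n ∈ W ∧ π ^ n / f ∈ W := by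
  obtain ⟨v, hv⟩ := exists_place_comap (K₀ := K₀) (K := K) x W hK₀ hW
  obtain ⟨π, d, hd0, hπ, hdvd⟩ := exists_uniformizer v W hv hW
  have hdpos : (0 : ℤ) < (d : ℤ) := by exact_mod_cast hd0
  have hπ0 : π ≠ 0 := by
    rintro rfl
    simp at hπ
    omega
  have hπ0' : algebraMap F₀ F π ≠ 0 := by simpa using hπ0
  refine ⟨π, ?_, ?_, ?_, ?_⟩
  · rw [mem_iff_ord_nonneg v W hv, hπ]; omega
  · rw [mem_iff_ord_nonneg v W hv, map_inv₀, v.ord_inv, hπ]; omega
  · intro f _ hf'
    have hpos := ord_pos_of_mem_of_inv_not_mem v W hv hf'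
    obtain ⟨c, hc⟩ := hdvd f
    have hf0 : algebraMap F₀ F f ≠ 0 := by
      intro h0
      rw [h0] at hpos
      simp at hpos
    rw [mem_iff_ord_nonneg v W hv, map_div₀, div_eq_mul_inv,
      v.ord_mul hf0 (inv_ne_zero hπ0'), v.ord_inv, hπ, hc]
    have hcpos : 0 < c := by
      rw [hc] at hpos
      by_contra h
      have : (d : ℤ) * c ≤ 0 := mul_nonpos_of_nonneg_of_nonpos hdpos.le (not_lt.mp h)
      omega
    nlinarith
  · intro f hf0
    have hf0' : algebraMap F₀ F f ≠ 0 := by simpa using hf0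
    obtain ⟨c, hc⟩ := hdvd f
    refine ⟨c, ?_, ?_⟩
    · rw [mem_iff_ord_nonneg v W hv, map_div₀, map_zpow₀, div_eq_mul_inv,
        v.ord_mul hf0' (inv_ne_zero (zpow_ne_zero _ hπ0')), v.ord_inv, v.ord_zpow, hπ, hc]
      nlinarith
    · rw [mem_iff_ord_nonneg v W hv, map_div₀, map_zpow₀, div_eq_mul_inv,
        v.ord_mul (zpow_ne_zero _ hπ0') (inv_ne_zero hf0'), v.ord_inv, v.ord_zpow, hπ, hc]
      nlinarith

/-- **(RN-idx)** Ramification index transfer.  Let `g : F₀` be a nonzero nonunit of the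
valuation subring `W` of `F₀` (over `K₀`).  If at every `Place` of `F/K` where `g` vanishes its
order divides `E`, then the index `e` of `g` at `W` (`g = unit * π ^ e`, `π` a uniformiser of
`W`) divides `E`. -/
theorem exists_uniformizer_index_dvd [CharZero K] [Algebra.IsAlgebraic K₀ K] (x : F)
    [FiniteDimensional K⟮x⟯ F] (W : ValuationSubring F₀)
    (hK₀ : ∀ a : K₀, algebraMap K₀ F₀ a ∈ W) (g : F₀) (hgW' : g⁻¹ ∉ W) (E : ℤ)
    (hE : ∀ v : Place K F, 0 < v.ord (algebraMap F₀ F g) → v.ord (algebraMap F₀ F g) ∣ E) :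
    ∃ (π : F₀) (e : ℕ), π ∈ W ∧ π⁻¹ ∉ W ∧ (∀ f ∈ W, f⁻¹ ∉ W → f / π ∈ W) ∧
      (e : ℤ) ∣ E ∧ 0 < e ∧ g / π ^ e ∈ W ∧ π ^ e / g ∈ W := by
  have hW : W ≠ ⊤ := fun h => hgW' (h ▸ ValuationSubring.mem_top _)
  obtain ⟨v, hv⟩ := exists_place_comap (K₀ := K₀) (K := K) x W hK₀ hW
  obtain ⟨π, d, hd0, hπ, hdvd⟩ := exists_uniformizer v W hv hW
  have hdpos : (0 : ℤ) < (d : ℤ) := by exact_mod_cast hd0
  have hπ0 : π ≠ 0 := by
    rintro rfl
    simp at hπ
    omega
  have hπ0' : algebraMap F₀ F π ≠ 0 := by simpa using hπ0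
  have hgpos := ord_pos_of_mem_of_inv_not_mem v W hv hgW'
  have hg0' : algebraMap F₀ F g ≠ 0 := by
    intro h0
    rw [h0] at hgpos
    simp at hgpos
  obtain ⟨c, hc⟩ := hdvd g
  have hcpos : 0 < c := by
    rw [hc] at hgpos
    by_contra h
    have : (d : ℤ) * c ≤ 0 := mul_nonpos_of_nonneg_of_nonpos hdpos.le (not_lt.mp h)
    omega
  have hcE : c ∣ E := (Dvd.intro_left (d : ℤ) hc.symm).trans (hE v hgpos)
  refine ⟨π, c.toNat, ?_, ?_, ?_, ?_, ?_, ?_, ?_⟩
  · rw [mem_iff_ord_nonneg v W hv, hπ]; omega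
  · rw [mem_iff_ord_nonneg v W hv, map_inv₀, v.ord_inv, hπ]; omega
  · intro f _ hf'
    have hpos := ord_pos_of_mem_of_inv_not_mem v W hv hf'
    obtain ⟨c', hc'⟩ := hdvd f
    have hf0 : algebraMap F₀ F f ≠ 0 := by
      intro h0
      rw [h0] at hpos
      simp at hpos
    rw [mem_iff_ord_nonneg v W hv, map_div₀, div_eq_mul_inv,
      v.ord_mul hf0 (inv_ne_zero hπ0'), v.ord_inv, hπ, hc']
    have hc'pos : 0 < c' := by
      rw [hc'] at hpos
      by_contra h
      have : (d : ℤ) * c' ≤ 0 := mul_nonpos_of_nonneg_of_nonpos hdpos.le (not_lt.mp h)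
      omega
    nlinarith
  · rw [Int.toNat_of_nonneg hcpos.le]; exact hcE
  · omega
  · rw [mem_iff_ord_nonneg v W hv, map_div₀, map_pow, div_eq_mul_inv,
      v.ord_mul hg0' (inv_ne_zero (pow_ne_zero _ hπ0')), v.ord_inv, ← zpow_natCast,
      v.ord_zpow, hπ, hc, Int.toNat_of_nonneg hcpos.le]
    nlinarith
  · rw [mem_iff_ord_nonneg v W hv, map_div₀, map_pow, div_eq_mul_inv,
      v.ord_mul (pow_ne_zero _ hπ0') (inv_ne_zero hg0'), v.ord_inv, ← zpow_natCast,
      v.ord_zpow, hπ, hc, Int.toNat_of_nonneg hcpos.le]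
    nlinarith

end RamIdx

section OrdAeval

open Fermat.Agent.S24.helper204

variable {K F : Type*} [Field K] [Field F] [Algebra K F] {x : F}

/-- The order of a product of linear factors is the sum of the orders. -/
theorem ord_prod_sub (v : Place K F) (hx : Transcendental K x) (s : Multiset K) :
    (s.map (fun r => x - algebraMap K F r)).prod ≠ 0 ∧
      v.ord (s.map (fun r => x - algebraMap K F r)).prod =
        (s.map (fun r => v.ord (x - algebraMap K F r))).sum := by
  induction s using Multiset.induction_on with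
  | empty => simp
  | cons a s ih =>
    rw [Multiset.map_cons, Multiset.prod_cons, Multiset.map_cons, Multiset.sum_cons]
    have ha := sub_ne_zero_of_transcendental hx a
    refine ⟨mul_ne_zero ha ih.1, ?_⟩
    rw [v.ord_mul ha ih.1, ih.2]

/-- If `x - c` has positive order at `v`, then `x - r` has order zero for every `r ≠ c`. -/
theorem ord_sub_eq_zero_of_ne (v : Place K F) {c r : K}
    (hc : 0 < v.ord (x - algebraMap K F c)) (hr : r ≠ c) :
    v.ord (x - algebraMap K F r) = 0 := by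
  have hxc : x - algebraMap K F c ∈ v.toValuationSubring := mem_of_ord_nonneg v hc.le
  have hxv : x ∈ v.toValuationSubring := by
    have := add_mem hxc (v.algebraMap_mem' c)
    simpa using this
  have h1 : 0 ≤ v.ord (x - algebraMap K F r) :=
    ord_nonneg_of_mem v (sub_mem hxv (v.algebraMap_mem' r))
  by_contra hne
  have hpos : 0 < v.ord (x - algebraMap K F r) := lt_of_le_of_ne h1 (Ne.symm hne)
  have hsub : (x - algebraMap K F c) - (x - algebraMap K F r) = algebraMap K F (r - c) := by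
    rw [map_sub]; ring
  have hne' : (x - algebraMap K F c) - (x - algebraMap K F r) ≠ 0 := by
    rw [hsub, Ne, map_eq_zero, sub_eq_zero]
    exact hr
  have := ord_sub_pos v hc hpos hne'
  rw [hsub, ord_algebraMap_eq_zero] at this
  exact lt_irrefl _ this

/-- **(P1)** For a separable polynomial `q` over the algebraically closed constant field, if
`q(x)` has positive order at `v` then `v` is centred at a root `c` of `q` and
`ord_v q(x) = ord_v (x - c)`. -/
theorem ord_aeval_eq_ord_sub [IsAlgClosed K] (v : Place K F) (hx : Transcendental K x)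
    (q : K[X]) (hq : q.Separable) (hpos : 0 < v.ord (Polynomial.aeval x q)) :
    ∃ c : K, q.IsRoot c ∧ 0 < v.ord (x - algebraMap K F c) ∧
      v.ord (Polynomial.aeval x q) = v.ord (x - algebraMap K F c) := by
  classical
  have hq0 : q ≠ 0 := hq.ne_zero
  have hsplit := IsAlgClosed.splits q
  have hq' := hsplit.eq_prod_roots
  have h1 : Polynomial.aeval x q = algebraMap K F q.leadingCoeff *
      (q.roots.map (fun r => x - algebraMap K F r)).prod := by
    conv_lhs => rw [hq']
    rw [map_mul, Polynomial.aeval_C, map_multiset_prod, Multiset.map_map]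
    congr 2
    apply Multiset.map_congr rfl
    intro r _
    simp
  have hlc : algebraMap K F q.leadingCoeff ≠ 0 := by
    rw [Ne, map_eq_zero]
    exact Polynomial.leadingCoeff_ne_zero.mpr hq0
  obtain ⟨hp1, hp2⟩ := ord_prod_sub v hx q.roots
  have hsum : v.ord (Polynomial.aeval x q) =
      (q.roots.map (fun r => v.ord (x - algebraMap K F r))).sum := by
    rw [h1, v.ord_mul hlc hp1, ord_algebraMap_eq_zero, hp2, zero_add]
  -- some root has positive order
  obtain ⟨c, hcmem, hcpos⟩ : ∃ c ∈ q.roots, 0 < v.ord (x - algebraMap K F c) := by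
    by_contra hno
    push Not at hno
    have : (q.roots.map (fun r => v.ord (x - algebraMap K F r))).sum ≤ 0 := by
      have h := Multiset.sum_le_card_nsmul
        (q.roots.map (fun r => v.ord (x - algebraMap K F r))) 0 (by
          intro y hy
          obtain ⟨r, hr, rfl⟩ := Multiset.mem_map.mp hy
          exact hno r hr)
      simpa using h
    omega
  refine ⟨c, (Polynomial.mem_roots hq0).mp hcmem, hcpos, ?_⟩
  have hnodup : q.roots.Nodup := Polynomial.nodup_roots hq
  rw [hsum, ← Multiset.cons_erase hcmem, Multiset.map_cons, Multiset.sum_cons]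
  have hzero : ((q.roots.erase c).map (fun r => v.ord (x - algebraMap K F r))).sum = 0 := by
    apply Multiset.sum_eq_zero
    intro y hy
    obtain ⟨r, hr, rfl⟩ := Multiset.mem_map.mp hy
    have hrc : r ≠ c := (hnodup.mem_erase_iff.mp hr).1
    exact ord_sub_eq_zero_of_ne v hcpos hrc
  rw [hzero, add_zero]

end OrdAeval

section Unramified

open Fermat.Agent.S24.helper204

variable {K₀ K F₀ F : Type*} [Field K₀] [Field K] [Field F₀] [Field F]
  [Algebra K₀ K] [Algebra K F] [Algebra K₀ F₀] [Algebra F₀ F] [Algebra K₀ F]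
  [IsScalarTower K₀ K F] [IsScalarTower K₀ F₀ F]

/-- For an irreducible `p ∈ K₀[X]` (characteristic zero), if `p(x₀)` has positive order at a
place `v` of `F/K` then `v` is centred at a root `c ∈ K` of `p` and
`ord_v p(x₀) = ord_v (x₀ - c)`. -/
theorem ord_aeval_irreducible [CharZero K] [IsAlgClosed K] (v : Place K F) (x₀ : F₀)
    (hx : Transcendental K (algebraMap F₀ F x₀)) (p : K₀[X]) (hp : Irreducible p)
    (hpos : 0 < v.ord (algebraMap F₀ F (Polynomial.aeval x₀ p))) :
    ∃ c : K, (p.map (algebraMap K₀ K)).IsRoot c ∧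
      0 < v.ord (algebraMap F₀ F x₀ - algebraMap K F c) ∧
      v.ord (algebraMap F₀ F (Polynomial.aeval x₀ p)) =
        v.ord (algebraMap F₀ F x₀ - algebraMap K F c) := by
  have : CharZero K₀ := (algebraMap K₀ K).charZero
  have hsep : (p.map (algebraMap K₀ K)).Separable := hp.separable.map
  have he : algebraMap F₀ F (Polynomial.aeval x₀ p) =
      Polynomial.aeval (algebraMap F₀ F x₀) (p.map (algebraMap K₀ K)) := by
    rw [Polynomial.aeval_map_algebraMap, Polynomial.aeval_algebraMap_apply]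
  rw [he] at hpos ⊢
  exact ord_aeval_eq_ord_sub v hx _ hsep hpos

/-- **(RN-unr)** Unramified points.  `p ∈ K₀[X]` irreducible with `p(x₀)` a nonunit of the
valuation subring `W` of `F₀` (over `K₀`).  If every place of `F/K` centred at a root `c` of `p`
has `ord (x₀ - c) = 1`, then `p(x₀)` is a uniformiser of `W`: every nonzero nonunit of `W` is
divisible by `p(x₀)` in `W`. -/
theorem aeval_uniformizer_of_ord_eq_one [CharZero K] [IsAlgClosed K] [Algebra.IsAlgebraic K₀ K]
    (x₀ : F₀) (hx : Transcendental K (algebraMap F₀ F x₀))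
    [FiniteDimensional K⟮algebraMap F₀ F x₀⟯ F] (W : ValuationSubring F₀)
    (hK₀ : ∀ a : K₀, algebraMap K₀ F₀ a ∈ W) (p : K₀[X]) (hp : Irreducible p)
    (hpW' : (Polynomial.aeval x₀ p)⁻¹ ∉ W)
    (hR : ∀ c : K, (p.map (algebraMap K₀ K)).IsRoot c → ∀ v : Place K F,
      0 < v.ord (algebraMap F₀ F x₀ - algebraMap K F c) →
      v.ord (algebraMap F₀ F x₀ - algebraMap K F c) = 1) :
    ∀ f ∈ W, f⁻¹ ∉ W → f / Polynomial.aeval x₀ p ∈ W := by
  have hW : W ≠ ⊤ := fun h => hpW' (h ▸ ValuationSubring.mem_top _)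
  obtain ⟨v, hv⟩ := exists_place_comap (K₀ := K₀) (K := K) (algebraMap F₀ F x₀) W hK₀ hW
  have hppos := ord_pos_of_mem_of_inv_not_mem v W hv hpW'
  obtain ⟨c, hc, hcpos, hceq⟩ := ord_aeval_irreducible v x₀ hx p hp hppos
  have hp1 : v.ord (algebraMap F₀ F (Polynomial.aeval x₀ p)) = 1 := by
    rw [hceq]; exact hR c hc v hcpos
  have hp0 : algebraMap F₀ F (Polynomial.aeval x₀ p) ≠ 0 := by
    intro h0
    rw [h0] at hp1
    simp at hp1
  intro f _ hf'
  have hpos := ord_pos_of_mem_of_inv_not_mem v W hv hf'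
  have hf0 : algebraMap F₀ F f ≠ 0 := by
    intro h0
    rw [h0] at hpos
    simp at hpos
  rw [mem_iff_ord_nonneg v W hv, map_div₀, div_eq_mul_inv,
    v.ord_mul hf0 (inv_ne_zero hp0), v.ord_inv, hp1]
  omega

/-- **(RN2-a)** On the `j`-line (`x₀ = j`): `W` is unramified over `K₀(j)` at every irreducible
`p` not vanishing at `0` and `1728`. -/
theorem jline_unramified [CharZero K] [IsAlgClosed K] [Algebra.IsAlgebraic K₀ K]
    (x₀ : F₀) (hx : Transcendental K (algebraMap F₀ F x₀))
    [FiniteDimensional K⟮algebraMap F₀ F x₀⟯ F]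
    (hR1 : ∀ c : K, c ≠ 0 → c ≠ 1728 → ∀ v : Place K F,
      0 < v.ord (algebraMap F₀ F x₀ - algebraMap K F c) →
      v.ord (algebraMap F₀ F x₀ - algebraMap K F c) = 1)
    (W : ValuationSubring F₀) (hK₀ : ∀ a : K₀, algebraMap K₀ F₀ a ∈ W)
    (p : K₀[X]) (hp : Irreducible p) (hp0 : p.eval 0 ≠ 0) (hp1728 : p.eval 1728 ≠ 0)
    (hpW' : (Polynomial.aeval x₀ p)⁻¹ ∉ W) :
    ∀ f ∈ W, f⁻¹ ∉ W → f / Polynomial.aeval x₀ p ∈ W := by
  refine aeval_uniformizer_of_ord_eq_one (K := K) (F := F) x₀ hx W hK₀ p hp hpW' ?_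
  intro c hc v hv
  refine hR1 c ?_ ?_ v hv
  · rintro rfl
    rw [Polynomial.IsRoot, Polynomial.eval_zero_map] at hc
    exact hp0 ((map_eq_zero _).mp hc)
  · rintro rfl
    have h1 : (p.map (algebraMap K₀ K)).eval (1728 : K) = algebraMap K₀ K (p.eval 1728) := by
      have := Polynomial.eval_natCast_map (algebraMap K₀ K) p 1728
      simpa using this
    rw [Polynomial.IsRoot, h1] at hc
    exact hp1728 ((map_eq_zero _).mp hc)

/-- **(RN2-b)** On the `j`-line: if `j` is a nonunit of `W` then its index at `W` divides `3`. -/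
theorem jline_index_zero [CharZero K] [Algebra.IsAlgebraic K₀ K]
    (x₀ : F₀) [FiniteDimensional K⟮algebraMap F₀ F x₀⟯ F]
    (hR2 : ∀ v : Place K F, 0 < v.ord (algebraMap F₀ F x₀) → v.ord (algebraMap F₀ F x₀) ∣ 3)
    (W : ValuationSubring F₀) (hK₀ : ∀ a : K₀, algebraMap K₀ F₀ a ∈ W) (hx₀ : x₀⁻¹ ∉ W) :
    ∃ (π : F₀) (e : ℕ), π ∈ W ∧ π⁻¹ ∉ W ∧ (∀ f ∈ W, f⁻¹ ∉ W → f / π ∈ W) ∧
      e ∣ 3 ∧ 0 < e ∧ x₀ / π ^ e ∈ W ∧ π ^ e / x₀ ∈ W := by
  obtain ⟨π, e, h1, h2, h3, h4, h5, h6, h7⟩ :=
    exists_uniformizer_index_dvd (K₀ := K₀) (K := K) (algebraMap F₀ F x₀) W hK₀ x₀ hx₀ 3 hR2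
  exact ⟨π, e, h1, h2, h3, by exact_mod_cast h4, h5, h6, h7⟩

/-- **(RN2-c)** On the `j`-line: if `j - 1728` is a nonunit of `W` then its index divides `2`. -/
theorem jline_index_1728 [CharZero K] [Algebra.IsAlgebraic K₀ K]
    (x₀ : F₀) [FiniteDimensional K⟮algebraMap F₀ F x₀⟯ F]
    (hR3 : ∀ v : Place K F, 0 < v.ord (algebraMap F₀ F x₀ - algebraMap K F 1728) →
      v.ord (algebraMap F₀ F x₀ - algebraMap K F 1728) ∣ 2)
    (W : ValuationSubring F₀) (hK₀ : ∀ a : K₀, algebraMap K₀ F₀ a ∈ W)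
    (hx₀ : (x₀ - 1728)⁻¹ ∉ W) :
    ∃ (π : F₀) (e : ℕ), π ∈ W ∧ π⁻¹ ∉ W ∧ (∀ f ∈ W, f⁻¹ ∉ W → f / π ∈ W) ∧
      e ∣ 2 ∧ 0 < e ∧ (x₀ - 1728) / π ^ e ∈ W ∧ π ^ e / (x₀ - 1728) ∈ W := by
  have he : algebraMap F₀ F (x₀ - 1728) = algebraMap F₀ F x₀ - algebraMap K F 1728 := by
    rw [map_sub, map_ofNat, map_ofNat]
  obtain ⟨π, e, h1, h2, h3, h4, h5, h6, h7⟩ :=
    exists_uniformizer_index_dvd (K₀ := K₀) (K := K) (algebraMap F₀ F x₀) W hK₀ (x₀ - 1728)
      hx₀ 2 (by rw [he]; exact hR3)
  exact ⟨π, e, h1, h2, h3, by exact_mod_cast h4, h5, h6, h7⟩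

/-- **(RN2-d)** On the `j`-line: if `j ∉ W` (a cusp) then the index of `1/j` at `W` divides
`N`. -/
theorem jline_index_infty [CharZero K] [Algebra.IsAlgebraic K₀ K] (N : ℕ)
    (x₀ : F₀) [FiniteDimensional K⟮algebraMap F₀ F x₀⟯ F]
    (hR4 : ∀ v : Place K F, v.ord (algebraMap F₀ F x₀) < 0 →
      -v.ord (algebraMap F₀ F x₀) ∣ (N : ℤ))
    (W : ValuationSubring F₀) (hK₀ : ∀ a : K₀, algebraMap K₀ F₀ a ∈ W) (hx₀ : x₀ ∉ W) :
    ∃ (π : F₀) (e : ℕ), π ∈ W ∧ π⁻¹ ∉ W ∧ (∀ f ∈ W, f⁻¹ ∉ W → f / π ∈ W) ∧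
      e ∣ N ∧ 0 < e ∧ x₀⁻¹ / π ^ e ∈ W ∧ π ^ e / x₀⁻¹ ∈ W := by
  obtain ⟨π, e, h1, h2, h3, h4, h5, h6, h7⟩ :=
    exists_uniformizer_index_dvd (K₀ := K₀) (K := K) (algebraMap F₀ F x₀) W hK₀ x₀⁻¹
      (by rwa [inv_inv]) (N : ℤ) (by
        intro v hv
        rw [map_inv₀, v.ord_inv] at hv ⊢
        exact hR4 v (by omega))
  exact ⟨π, e, h1, h2, h3, by exact_mod_cast h4, h5, h6, h7⟩

end Unramified

end Fermat.Agent.S18.helper9121
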