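/-
S18, track B (DN route): ramification data in Dedekind (ideal) form.

Bridge from the valuation-subring form of unramifiedness (`helper9121_RamNF`: `p(x₀)` is a
uniformiser of every valuation subring `W ⊇ K₀` of `F₀` in which it is a non-unit) to the ideal
form consumed by the trace-dual bound (hypothesis `hs` of the tame certificate): for `S` the
integral closure of `K₀[x₀]` in `F₀` and every non-zero prime `Q` of `S` not containing
`G(x₀)`, `Q ^ 2` does not divide the extension of `Q ∩ K₀[x₀]`.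
No Dedekind or finiteness hypothesis on `S` is used.
-/
import Fermat.Agent.S18.helper9121_RamNF
import Fermat.Agent.S24.helper1370_PlaceBasics

set_option autoImplicit false

namespace Fermat.Agent.S18.helper2128

open AlgebraicCurve IntermediateField Polynomial

section Core

variable {R E : Type*} [CommRing R] [Field E]

/-- Chevalley: a proper ideal of a ring mapping to a field, containing the kernel, is
contained in the maximal ideal of a valuation subring of the field containing the image of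
the ring. -/
theorem exists_valuationSubring_of_ne_top (f : R →+* E) (Q : Ideal R) (hQ : Q ≠ ⊤)
    (hker : RingHom.ker f ≤ Q) :
    ∃ W : ValuationSubring E, (∀ r : R, f r ∈ W) ∧ ∀ x ∈ Q, f x ∈ W.nonunits := by
  let I : Ideal f.range := Q.map f.rangeRestrict
  have hI : I ≠ ⊤ := by
    intro h
    apply hQ
    have h1 : (1 : f.range) ∈ Q.map f.rangeRestrict := by
      rw [show Q.map f.rangeRestrict = I from rfl, h]; trivial
    rw [Ideal.mem_map_iff_of_surjective _ f.rangeRestrict_surjective] at h1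
    obtain ⟨x, hxQ, hx1⟩ := h1
    have hx1' : f x = 1 := congrArg Subtype.val hx1
    have hk : x - 1 ∈ RingHom.ker f := by
      rw [RingHom.mem_ker, map_sub, hx1', map_one, sub_self]
    have h2 : (1 : R) ∈ Q := by
      have := Q.sub_mem hxQ (hker hk)
      simpa using this
    exact (Ideal.eq_top_iff_one Q).mpr h2
  obtain ⟨B, hB1, hB2⟩ := Ideal.image_subset_nonunits_valuationSubring I hI
  refine ⟨B, fun r => hB1 ⟨r, rfl⟩, fun x hx => ?_⟩
  apply hB2
  exact ⟨f.rangeRestrict x, Ideal.mem_map_of_mem _ hx, rfl⟩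

/-- **Uniformiser criterion.**  Let `Q` be a proper ideal of `R ⊆ E` and `π ∈ Q` an element
which is a uniformiser of every valuation subring `W ⊇ R` of `E` in which it is a non-unit
(every non-zero non-unit of `W` is divisible by `π` in `W`).  Then `π ∉ Q ^ 2`. -/
theorem notMem_sq_of_uniformizer (f : R →+* E) (Q : Ideal R) (hQ : Q ≠ ⊤)
    (hker : RingHom.ker f ≤ Q) (π : R) (hπ : π ∈ Q) (hπ0 : f π ≠ 0)
    (h : ∀ W : ValuationSubring E, (∀ r : R, f r ∈ W) → (f π)⁻¹ ∉ W →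
      ∀ g ∈ W, g⁻¹ ∉ W → g / f π ∈ W) :
    π ∉ Q ^ 2 := by
  obtain ⟨W, hW, hWQ⟩ := exists_valuationSubring_of_ne_top f Q hQ hker
  have hlt : ∀ x ∈ Q, W.valuation (f x) < 1 := fun x hx =>
    W.mem_nonunits_iff.mp (hWQ x hx)
  have hπlt : W.valuation (f π) < 1 := hlt π hπ
  have hπpos : 0 < W.valuation (f π) := by
    rw [pos_iff_ne_zero, Ne, map_eq_zero]
    exact hπ0
  have hπinv : (f π)⁻¹ ∉ W := by
    rw [← W.valuation_le_one_iff, map_inv₀, not_le]
    exact (one_lt_inv₀ hπpos).mpr hπlt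
  have hdiv := h W hW hπinv
  -- every element of `Q` has valuation at most that of `π`
  have hle : ∀ a ∈ Q, W.valuation (f a) ≤ W.valuation (f π) := by
    intro a ha
    by_cases ha0 : f a = 0
    · rw [ha0, map_zero]; exact hπpos.le
    · have hainv : (f a)⁻¹ ∉ W := by
        rw [← W.valuation_le_one_iff, map_inv₀, not_le]
        have hapos : 0 < W.valuation (f a) := by
          rw [pos_iff_ne_zero, Ne, map_eq_zero]; exact ha0
        exact (one_lt_inv₀ hapos).mpr (hlt a ha)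
      have h1 := hdiv (f a) (hW a) hainv
      rw [← W.valuation_le_one_iff, map_div₀] at h1
      exact (div_le_one₀ hπpos).mp h1
  -- every element of `Q ^ 2` has valuation smaller than that of `π`
  have hsq : ∀ z ∈ Q ^ 2, W.valuation (f z) < W.valuation (f π) := by
    intro z hz
    rw [pow_two] at hz
    refine Submodule.mul_induction_on hz ?_ ?_
    · intro a ha b hb
      rw [map_mul, map_mul]
      calc W.valuation (f a) * W.valuation (f b)
          ≤ W.valuation (f π) * W.valuation (f b) := mul_le_mul_left (hle a ha) _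
        _ < W.valuation (f π) * 1 := by
            exact mul_lt_mul_of_pos_left (hlt b hb) hπpos
        _ = W.valuation (f π) := mul_one _
    · intro x y hx hy
      rw [map_add]
      exact lt_of_le_of_lt (W.valuation.map_add _ _) (max_lt hx hy)
  intro hcon
  exact lt_irrefl _ (hsq π hcon)

end Core

section Main

variable {K₀ K F₀ F : Type*} [Field K₀] [Field K] [Field F₀] [Field F]
  [Algebra K₀ K] [Algebra K F] [Algebra K₀ F₀] [Algebra F₀ F] [Algebra K₀ F]
  [IsScalarTower K₀ K F] [IsScalarTower K₀ F₀ F]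

/-- **(RL2) Dedekind form of unramifiedness.**  `K` algebraically closed of characteristic
zero and algebraic over `K₀`; `F/K` a function field, `F₀` a field over `K₀` inside `F`,
`x₀ ∈ F₀` transcendental over `K` with `F` finite over `K(x₀)`.  Let `G ∈ K₀[X]` be such that
every place of `F/K` centred at `x₀ = c` with `G(c) ≠ 0` is unramified over the `x₀`-line
(`ord (x₀ - c) = 1`).  Then for `S` the integral closure of `K₀[x₀]` in `F₀` and every
non-zero prime `Q` of `S` not containing `G(x₀)`, the ideal `Q ^ 2` does not divide the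
extension to `S` of `Q ∩ K₀[x₀]`. -/
theorem not_sq_dvd_map_under [CharZero K] [IsAlgClosed K] [Algebra.IsAlgebraic K₀ K]
    (x₀ : F₀) (hx : Transcendental K (algebraMap F₀ F x₀))
    [FiniteDimensional K⟮algebraMap F₀ F x₀⟯ F] (G : K₀[X])
    (hR : ∀ c : K, (G.map (algebraMap K₀ K)).eval c ≠ 0 → ∀ v : Place K F,
      0 < v.ord (algebraMap F₀ F x₀ - algebraMap K F c) →
      v.ord (algebraMap F₀ F x₀ - algebraMap K F c) = 1)
    (Q : Ideal (integralClosure (Algebra.adjoin K₀ {x₀}) F₀)) (hQ : Q.IsPrime) (hQ0 : Q ≠ ⊥)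
    (GB : integralClosure (Algebra.adjoin K₀ {x₀}) F₀) (hGB : (GB : F₀) = aeval x₀ G)
    (hG : GB ∉ Q) :
    ¬ Q ^ 2 ∣ (Q.under (Algebra.adjoin K₀ {x₀})).map
      (algebraMap (Algebra.adjoin K₀ {x₀}) (integralClosure (Algebra.adjoin K₀ {x₀}) F₀)) := by
  classical
  -- the evaluation map `K₀[X] → K₀[x₀]`
  let ψ : K₀[X] →ₐ[K₀] Algebra.adjoin K₀ {x₀} :=
    (aeval x₀ : K₀[X] →ₐ[K₀] F₀).codRestrict (Algebra.adjoin K₀ {x₀}) (fun q => by
      rw [Algebra.adjoin_singleton_eq_range_aeval]; exact ⟨q, rfl⟩)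
  have hψsurj : Function.Surjective ψ := by
    rintro ⟨y, hy⟩
    have hy' : y ∈ (aeval x₀ : K₀[X] →ₐ[K₀] F₀).range := by
      rw [← Algebra.adjoin_singleton_eq_range_aeval]; exact hy
    obtain ⟨q, hq⟩ := hy'
    exact ⟨q, Subtype.ext hq⟩
  let φ : K₀[X] →+* integralClosure (Algebra.adjoin K₀ {x₀}) F₀ :=
    (algebraMap (Algebra.adjoin K₀ {x₀}) (integralClosure (Algebra.adjoin K₀ {x₀}) F₀)).comp
      ψ.toRingHom
  have hφ : ∀ q : K₀[X], ((φ q : integralClosure (Algebra.adjoin K₀ {x₀}) F₀) : F₀) =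
      aeval x₀ q := fun q => rfl
  -- the prime of `K₀[X]` below `Q`
  let J : Ideal K₀[X] := Q.comap φ
  have hJprime : J.IsPrime := Ideal.comap_isPrime φ Q
  have hPne : Q.comap (algebraMap (Algebra.adjoin K₀ {x₀})
      (integralClosure (Algebra.adjoin K₀ {x₀}) F₀)) ≠ ⊥ := by
    intro hbot
    exact hQ0 (Ideal.eq_bot_of_comap_eq_bot hbot)
  have hJne : J ≠ ⊥ := by
    intro hbot
    apply hPne
    rw [eq_bot_iff]
    intro a ha
    obtain ⟨q, rfl⟩ := hψsurj a
    have hqJ : q ∈ J := ha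
    rw [hbot, Ideal.mem_bot] at hqJ
    rw [hqJ, map_zero]
    exact Ideal.zero_mem _
  -- its irreducible generator
  have hJspan : Ideal.span {Submodule.IsPrincipal.generator J} = J :=
    Ideal.span_singleton_generator J
  obtain ⟨π, hπJ, hJspan⟩ : ∃ π : K₀[X], π ∈ J ∧ Ideal.span {π} = J :=
    ⟨_, Submodule.IsPrincipal.generator_mem J, hJspan⟩
  have hπ0 : π ≠ 0 := by
    intro h0
    apply hJne
    rw [← hJspan, h0, Ideal.span_singleton_eq_bot]
  have hπprime : Prime π := by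
    rw [← Ideal.span_singleton_prime hπ0, hJspan]
    exact hJprime
  have hπirr : Irreducible π := hπprime.irreducible
  have hπQ : φ π ∈ Q := hπJ
  -- `π` does not divide `G`
  have hndvd : ¬ π ∣ G := by
    rintro ⟨r, hr⟩
    apply hG
    have hgeq : GB = φ π * φ r := by
      apply Subtype.ext
      rw [Subalgebra.coe_mul, hφ, hφ, ← map_mul, ← hr]
      exact hGB
    rw [hgeq]
    exact Q.mul_mem_right _ hπQ
  have hcop : IsCoprime π G := (hπirr.isCoprime_or_dvd G).resolve_right hndvd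
  -- the roots of `π` are not roots of `G`
  have hroots : ∀ c : K, (π.map (algebraMap K₀ K)).IsRoot c →
      (G.map (algebraMap K₀ K)).eval c ≠ 0 := by
    intro c hc h0
    obtain ⟨a, b, hab⟩ := hcop
    have h1 := congrArg (fun q : K₀[X] => (q.map (algebraMap K₀ K)).eval c) hab
    simp only [Polynomial.map_add, Polynomial.map_mul, Polynomial.map_one, eval_add, eval_mul,
      eval_one] at h1
    rw [hc.eq_zero, h0, mul_zero, mul_zero, add_zero] at h1
    exact zero_ne_one h1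
  -- `φ π` is a uniformiser of every valuation subring of `F₀` over `S` where it is a non-unit
  have hQtop : Q ≠ ⊤ := hQ.ne_top
  have hπne : algebraMap (integralClosure (Algebra.adjoin K₀ {x₀}) F₀) F₀ (φ π) ≠ 0 := by
    show ((φ π : integralClosure (Algebra.adjoin K₀ {x₀}) F₀) : F₀) ≠ 0
    rw [hφ]
    intro h0
    have h1 : aeval (algebraMap F₀ F x₀) (π.map (algebraMap K₀ K)) = 0 := by
      rw [aeval_map_algebraMap, aeval_algebraMap_apply, h0, map_zero]
    exact hx ⟨π.map (algebraMap K₀ K),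
      (Polynomial.map_ne_zero_iff (algebraMap K₀ K).injective).mpr hπ0, h1⟩
  have hkey : φ π ∉ Q ^ 2 := by
    refine notMem_sq_of_uniformizer
      (algebraMap (integralClosure (Algebra.adjoin K₀ {x₀}) F₀) F₀) Q hQtop ?_ (φ π) hπQ hπne ?_
    · intro s hs
      rw [RingHom.mem_ker] at hs
      have : s = 0 := Subtype.ext hs
      rw [this]
      exact Q.zero_mem
    · intro W hW hπW
      have hK₀ : ∀ a : K₀, algebraMap K₀ F₀ a ∈ W := by
        intro a
        exact hW (algebraMap (Algebra.adjoin K₀ {x₀}) _ (algebraMap K₀ (Algebra.adjoin K₀ {x₀}) a))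
      have hπW' : (aeval x₀ π)⁻¹ ∉ W := hπW
      exact helper9121.aeval_uniformizer_of_ord_eq_one (K := K) (F := F) x₀ hx W hK₀ π hπirr
        hπW' (fun c hc v hv => hR c (hroots c hc) v hv)
  intro hdvd
  apply hkey
  have hle := Ideal.le_of_dvd hdvd
  apply hle
  apply Ideal.mem_map_of_mem
  show algebraMap (Algebra.adjoin K₀ {x₀}) (integralClosure (Algebra.adjoin K₀ {x₀}) F₀) (ψ π) ∈ Q
  exact hπQ

/-- Unramifiedness transfers to the coordinate `x⁻¹`: a place centred at `x⁻¹ = c` (`c ≠ 0`)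
is centred at `x = c⁻¹`, with the same order. -/
theorem ord_inv_sub_eq_one (v : Place K F) (x : F) (c : K) (hc : c ≠ 0)
    (hR : 0 < v.ord (x - algebraMap K F c⁻¹) → v.ord (x - algebraMap K F c⁻¹) = 1)
    (h : 0 < v.ord (x⁻¹ - algebraMap K F c)) : v.ord (x⁻¹ - algebraMap K F c) = 1 := by
  have ha : algebraMap K F c ≠ 0 := (_root_.map_ne_zero _).mpr hc
  have hx0 : x ≠ 0 := by
    rintro rfl
    rw [inv_zero, zero_sub, S24.helper1370.ord_neg, S24.helper1370.ord_algebraMap] at h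
    exact lt_irrefl _ h
  have hxinv : v.ord x⁻¹ = 0 := by
    have := S24.helper1370.ord_sub_algebraMap_eq_zero v h hc (b := 0)
    rwa [map_zero, sub_zero] at this
  have hne : x - algebraMap K F c⁻¹ ≠ 0 := by
    intro h0
    have hx' : x = (algebraMap K F c)⁻¹ := by rw [← map_inv₀]; exact sub_eq_zero.mp h0
    rw [hx', inv_inv, sub_self, Place.ord_zero] at h
    exact lt_irrefl _ h
  have hid : x⁻¹ - algebraMap K F c =
      (-algebraMap K F c * x⁻¹) * (x - algebraMap K F c⁻¹) := by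
    rw [map_inv₀]
    field_simp
    ring
  have h1 : v.ord (x⁻¹ - algebraMap K F c) = v.ord (x - algebraMap K F c⁻¹) := by
    rw [hid, v.ord_mul (mul_ne_zero (neg_ne_zero.mpr ha) (inv_ne_zero hx0)) hne,
      v.ord_mul (neg_ne_zero.mpr ha) (inv_ne_zero hx0), S24.helper1370.ord_neg,
      S24.helper1370.ord_algebraMap, hxinv]
    ring
  rw [h1]
  exact hR (h1 ▸ h)

/-- **(RL2), chart `x₀`, two finite branch values `0`, `b`** (`G = X (X - b)`).  If every
place of `F/K` centred at `x₀ = c`, `c ≠ 0, b`, is unramified over the `x₀`-line, then every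
non-zero prime `Q` of the integral closure `S` of `K₀[x₀]` in `F₀` with `x₀ (x₀ - b) ∉ Q` is
unramified over `K₀[x₀]`. -/
theorem line_not_sq_dvd [CharZero K] [IsAlgClosed K] [Algebra.IsAlgebraic K₀ K] (b : K₀)
    (x₀ : F₀) (hx : Transcendental K (algebraMap F₀ F x₀))
    [FiniteDimensional K⟮algebraMap F₀ F x₀⟯ F]
    (hR1 : ∀ c : K, c ≠ 0 → c ≠ algebraMap K₀ K b → ∀ v : Place K F,
      0 < v.ord (algebraMap F₀ F x₀ - algebraMap K F c) →
      v.ord (algebraMap F₀ F x₀ - algebraMap K F c) = 1)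
    (Q : Ideal (integralClosure (Algebra.adjoin K₀ {x₀}) F₀)) (hQ : Q.IsPrime) (hQ0 : Q ≠ ⊥)
    (GB : integralClosure (Algebra.adjoin K₀ {x₀}) F₀)
    (hGB : (GB : F₀) = x₀ * (x₀ - algebraMap K₀ F₀ b)) (hG : GB ∉ Q) :
    ¬ Q ^ 2 ∣ (Q.under (Algebra.adjoin K₀ {x₀})).map
      (algebraMap (Algebra.adjoin K₀ {x₀}) (integralClosure (Algebra.adjoin K₀ {x₀}) F₀)) := by
  refine not_sq_dvd_map_under (K := K) (F := F) x₀ hx (X * (X - C b)) ?_ Q hQ hQ0 GB ?_ hG
  · intro c hc v hv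
    simp only [Polynomial.map_mul, Polynomial.map_sub, Polynomial.map_X, Polynomial.map_C,
      eval_mul, eval_sub, eval_X, eval_C] at hc
    refine hR1 c ?_ ?_ v hv
    · rintro rfl
      exact hc (zero_mul _)
    · intro h
      exact hc (by rw [h, sub_self, mul_zero])
  · rw [hGB]
    simp [Algebra.algebraMap_eq_smul_one]

/-- **(RL2), chart `x₀⁻¹`, two finite branch values `0`, `b` of `x₀`** (`G = X (b X - 1)`).
If every place of `F/K` centred at `x₀ = c`, `c ≠ 0, b`, is unramified over the `x₀`-line,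
then every non-zero prime `Q` of the integral closure `S` of `K₀[x₀⁻¹]` in `F₀` with
`x₀⁻¹ (b x₀⁻¹ - 1) ∉ Q` is unramified over `K₀[x₀⁻¹]`. -/
theorem line_inv_not_sq_dvd [CharZero K] [IsAlgClosed K] [Algebra.IsAlgebraic K₀ K] (b : K₀)
    (x₀ : F₀) (hx : Transcendental K (algebraMap F₀ F x₀))
    [FiniteDimensional K⟮algebraMap F₀ F x₀⟯ F]
    (hR1 : ∀ c : K, c ≠ 0 → c ≠ algebraMap K₀ K b → ∀ v : Place K F,
      0 < v.ord (algebraMap F₀ F x₀ - algebraMap K F c) →
      v.ord (algebraMap F₀ F x₀ - algebraMap K F c) = 1)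
    (Q : Ideal (integralClosure (Algebra.adjoin K₀ {x₀⁻¹}) F₀)) (hQ : Q.IsPrime) (hQ0 : Q ≠ ⊥)
    (GB : integralClosure (Algebra.adjoin K₀ {x₀⁻¹}) F₀)
    (hGB : (GB : F₀) = x₀⁻¹ * (algebraMap K₀ F₀ b * x₀⁻¹ - 1)) (hG : GB ∉ Q) :
    ¬ Q ^ 2 ∣ (Q.under (Algebra.adjoin K₀ {x₀⁻¹})).map
      (algebraMap (Algebra.adjoin K₀ {x₀⁻¹})
        (integralClosure (Algebra.adjoin K₀ {x₀⁻¹}) F₀)) := by
  have hx' : Transcendental K (algebraMap F₀ F x₀⁻¹) := by
    rw [map_inv₀]
    exact S24.helper204.transcendental_inv hx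
  have : FiniteDimensional K⟮algebraMap F₀ F x₀⁻¹⟯ F := by
    rw [map_inv₀]
    exact S24.helper204.finiteDimensional_adjoin_inv
  refine not_sq_dvd_map_under (K := K) (F := F) x₀⁻¹ hx' (X * (C b * X - 1)) ?_ Q hQ hQ0 GB ?_ hG
  · intro c hc v hv
    simp only [Polynomial.map_mul, Polynomial.map_sub, Polynomial.map_X, Polynomial.map_C,
      Polynomial.map_one, eval_mul, eval_sub, eval_X, eval_C, eval_one] at hc
    have hc0 : c ≠ 0 := by
      rintro rfl
      exact hc (zero_mul _)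
    rw [map_inv₀] at hv ⊢
    refine ord_inv_sub_eq_one v _ c hc0 (fun h => hR1 c⁻¹ (inv_ne_zero hc0) ?_ v h) hv
    intro h
    apply hc
    rw [← h, inv_mul_cancel₀ hc0, sub_self, mul_zero]
  · rw [hGB]
    simp [Algebra.algebraMap_eq_smul_one]

/-! ### Literal forms on the `j`-line and on the Hauptmodul lines `t₂`, `t₃`
(`G`-table: `j`-line `X (X - 1728)`, `X (1728 X - 1)`; `t`-lines `X (X + n)`, `X (n X + 1)`
with `n = 64`, `27`) -/

/-- **`j`-line, chart `j`** (`G = j (j - 1728)`), hypothesis in the shape of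
`helper9121.jline_unramified` / `helper8185.ord_j_sub_eq_one` / `helper2778` (R1E). -/
theorem jline_not_sq_dvd [CharZero K] [IsAlgClosed K] [Algebra.IsAlgebraic K₀ K]
    (x₀ : F₀) (hx : Transcendental K (algebraMap F₀ F x₀))
    [FiniteDimensional K⟮algebraMap F₀ F x₀⟯ F]
    (hR1 : ∀ c : K, c ≠ 0 → c ≠ 1728 → ∀ v : Place K F,
      0 < v.ord (algebraMap F₀ F x₀ - algebraMap K F c) →
      v.ord (algebraMap F₀ F x₀ - algebraMap K F c) = 1)
    (Q : Ideal (integralClosure (Algebra.adjoin K₀ {x₀}) F₀)) (hQ : Q.IsPrime) (hQ0 : Q ≠ ⊥)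
    (GB : integralClosure (Algebra.adjoin K₀ {x₀}) F₀)
    (hGB : (GB : F₀) = x₀ * (x₀ - 1728)) (hG : GB ∉ Q) :
    ¬ Q ^ 2 ∣ (Q.under (Algebra.adjoin K₀ {x₀})).map
      (algebraMap (Algebra.adjoin K₀ {x₀}) (integralClosure (Algebra.adjoin K₀ {x₀}) F₀)) := by
  refine line_not_sq_dvd (K := K) (F := F) (1728 : K₀) x₀ hx ?_ Q hQ hQ0 GB ?_ hG
  · intro c hc0 hc v hv
    exact hR1 c hc0 (by rwa [map_ofNat] at hc) v hv
  · rw [hGB, map_ofNat]

/-- **`j`-line, chart `1/j`** (`G = s (1728 s - 1)`, `s = 1/j`). -/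
theorem jline_inv_not_sq_dvd [CharZero K] [IsAlgClosed K] [Algebra.IsAlgebraic K₀ K]
    (x₀ : F₀) (hx : Transcendental K (algebraMap F₀ F x₀))
    [FiniteDimensional K⟮algebraMap F₀ F x₀⟯ F]
    (hR1 : ∀ c : K, c ≠ 0 → c ≠ 1728 → ∀ v : Place K F,
      0 < v.ord (algebraMap F₀ F x₀ - algebraMap K F c) →
      v.ord (algebraMap F₀ F x₀ - algebraMap K F c) = 1)
    (Q : Ideal (integralClosure (Algebra.adjoin K₀ {x₀⁻¹}) F₀)) (hQ : Q.IsPrime) (hQ0 : Q ≠ ⊥)
    (GB : integralClosure (Algebra.adjoin K₀ {x₀⁻¹}) F₀)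
    (hGB : (GB : F₀) = x₀⁻¹ * (1728 * x₀⁻¹ - 1)) (hG : GB ∉ Q) :
    ¬ Q ^ 2 ∣ (Q.under (Algebra.adjoin K₀ {x₀⁻¹})).map
      (algebraMap (Algebra.adjoin K₀ {x₀⁻¹})
        (integralClosure (Algebra.adjoin K₀ {x₀⁻¹}) F₀)) := by
  refine line_inv_not_sq_dvd (K := K) (F := F) (1728 : K₀) x₀ hx ?_ Q hQ hQ0 GB ?_ hG
  · intro c hc0 hc v hv
    exact hR1 c hc0 (by rwa [map_ofNat] at hc) v hv
  · rw [hGB, map_ofNat]

/-- **Hauptmodul line, chart `t`** with finite branch values `0` and `-n` (`n = 64` on the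
`t₂`-line, `n = 27` on the `t₃`-line; `G = t (t + n)`), hypothesis in the shape of
`helper2866.FN_level2_ord_sub_eq_one` / `FN_level3_ord_sub_eq_one`. -/
theorem tline_not_sq_dvd [CharZero K] [IsAlgClosed K] [Algebra.IsAlgebraic K₀ K] (n : ℕ)
    (x₀ : F₀) (hx : Transcendental K (algebraMap F₀ F x₀))
    [FiniteDimensional K⟮algebraMap F₀ F x₀⟯ F]
    (hR1 : ∀ c : K, c ≠ 0 → c ≠ -(n : K) → ∀ v : Place K F,
      0 < v.ord (algebraMap F₀ F x₀ - algebraMap K F c) →
      v.ord (algebraMap F₀ F x₀ - algebraMap K F c) = 1)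
    (Q : Ideal (integralClosure (Algebra.adjoin K₀ {x₀}) F₀)) (hQ : Q.IsPrime) (hQ0 : Q ≠ ⊥)
    (GB : integralClosure (Algebra.adjoin K₀ {x₀}) F₀)
    (hGB : (GB : F₀) = x₀ * (x₀ + (n : F₀))) (hG : GB ∉ Q) :
    ¬ Q ^ 2 ∣ (Q.under (Algebra.adjoin K₀ {x₀})).map
      (algebraMap (Algebra.adjoin K₀ {x₀}) (integralClosure (Algebra.adjoin K₀ {x₀}) F₀)) := by
  refine line_not_sq_dvd (K := K) (F := F) (-(n : K₀)) x₀ hx ?_ Q hQ hQ0 GB ?_ hG
  · intro c hc0 hc v hv
    exact hR1 c hc0 (by rwa [map_neg, map_natCast] at hc) v hv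
  · rw [hGB, map_neg, map_natCast, sub_neg_eq_add]

/-- **Hauptmodul line, chart `1/t`** with finite branch values `0` and `-n` of `t`
(`G = s (n s + 1)`, `s = 1/t`). -/
theorem tline_inv_not_sq_dvd [CharZero K] [IsAlgClosed K] [Algebra.IsAlgebraic K₀ K] (n : ℕ)
    (x₀ : F₀) (hx : Transcendental K (algebraMap F₀ F x₀))
    [FiniteDimensional K⟮algebraMap F₀ F x₀⟯ F]
    (hR1 : ∀ c : K, c ≠ 0 → c ≠ -(n : K) → ∀ v : Place K F,
      0 < v.ord (algebraMap F₀ F x₀ - algebraMap K F c) →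
      v.ord (algebraMap F₀ F x₀ - algebraMap K F c) = 1)
    (Q : Ideal (integralClosure (Algebra.adjoin K₀ {x₀⁻¹}) F₀)) (hQ : Q.IsPrime) (hQ0 : Q ≠ ⊥)
    (GB : integralClosure (Algebra.adjoin K₀ {x₀⁻¹}) F₀)
    (hGB : (GB : F₀) = x₀⁻¹ * ((n : F₀) * x₀⁻¹ + 1)) (hG : GB ∉ Q) :
    ¬ Q ^ 2 ∣ (Q.under (Algebra.adjoin K₀ {x₀⁻¹})).map
      (algebraMap (Algebra.adjoin K₀ {x₀⁻¹})
        (integralClosure (Algebra.adjoin K₀ {x₀⁻¹}) F₀)) := by
  refine line_inv_not_sq_dvd (K := K) (F := F) (-(n : K₀)) x₀ hx ?_ Q hQ hQ0 (-GB) ?_ ?_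
  · intro c hc0 hc v hv
    exact hR1 c hc0 (by rwa [map_neg, map_natCast] at hc) v hv
  · rw [NegMemClass.coe_neg, hGB, map_neg, map_natCast]
    ring
  · intro h
    exact hG (by simpa using Q.neg_mem h)

end Main

end Fermat.Agent.S18.helper2128
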