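import Fermat.Agent.S18.helper8185_RamData
import Fermat.Agent.S24.helper1370_PlaceBasics

/-!
# S18-BRANCH (helper2193): the branch locus of `F_N` over the Hauptmodul lines

The function field `F_N = ℚ̄(j(q^d) : d ∣ N)` of `X₀(N)` is ramified over the `j`-line only above
`j = 0, 1728, ∞` (landed: `helper8185_RamData`, (R1)-(R3)).  Here this is transported to a base
line `t` with `j = R(t)`:

* `ord_sub_eq_mul` : generic multiplicity lemma.  If `q(t) * j = p(t)`, `q(c) ≠ 0` and
  `p - c' q = (X - c)^μ * Q` with `Q(c) ≠ 0`, then `ord_v (j - c') = μ * ord_v (t - c)` at every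
  place `v` with `0 < ord_v (t - c)`.
* level 2 (`j * t^2 = (t + 256)^3`): `ord_t2_sub_eq_one` (unramified over every `c ≠ 0, -64`),
  `ord_t2_add_dvd_two` (index dividing `2` over `t = -64`).
* level 3 (`j * t^3 = (t + 27) * (t + 243)^3`): `ord_t3_sub_eq_one` (unramified over every
  `c ≠ 0, -27`), `ord_t3_add_dvd_three` (index dividing `3` over `t = -27`).

`t` is a variable: any element of `F_N` satisfying the polynomial identity with `j`.
-/

set_option autoImplicit false

open AlgebraicCurve Polynomial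

namespace Fermat.Agent.S18.helper2193

open Fermat.Agent.S24 Fermat.Agent.S24.helper24

/-! ## Generic lemmas on places -/

section Generic

variable {K F : Type*} [Field K] [Field F] [Algebra K F]

/-- A positive order forces the element to be nonzero (`ord 0 = 0`). -/
theorem ne_zero_of_ord_pos (v : Place K F) {f : F} (h : 0 < v.ord f) : f ≠ 0 := by
  rintro rfl
  simp at h

/-- Polynomials (with constant coefficients) in an element regular at `v` are regular at `v`. -/
theorem aeval_mem (v : Place K F) {t : F} (ht : t ∈ v.toValuationSubring) (Q : K[X]) :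
    aeval t Q ∈ v.toValuationSubring := by
  rw [Polynomial.aeval_eq_sum_range]
  refine sum_mem fun i _ => ?_
  rw [Algebra.smul_def]
  exact mul_mem (v.algebraMap_mem' _) (pow_mem ht i)

/-- If `t` takes the value `c` at `v` and `Q(c) ≠ 0`, then `Q(t)` is a unit at `v`. -/
theorem aeval_ne_zero_and_ord_eq_zero (v : Place K F) {t : F} {c : K}
    (h : 0 < v.ord (t - algebraMap K F c)) (Q : K[X]) (hQ : Q.eval c ≠ 0) :
    aeval t Q ≠ 0 ∧ v.ord (aeval t Q) = 0 := by
  have ht : t ∈ v.toValuationSubring :=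
    helper1370.mem_of_ord_nonneg v (helper1370.ord_nonneg_of_ord_sub_algebraMap_pos v h)
  have hdecomp : Q = C (Q.eval c) + (X - C c) * (Q /ₘ (X - C c)) := by
    have h1 := Polynomial.modByMonic_add_div Q (X - C c)
    rw [Polynomial.modByMonic_X_sub_C_eq_C_eval] at h1
    exact h1.symm
  set Q' := Q /ₘ (X - C c) with hQ'
  have hval : aeval t Q
      = algebraMap K F (Q.eval c) + (t - algebraMap K F c) * aeval t Q' := by
    conv_lhs => rw [hdecomp]
    simp only [map_add, map_mul, map_sub, aeval_X, aeval_C]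
  have hfa : algebraMap K F (Q.eval c) ≠ 0 := (_root_.map_ne_zero _).mpr hQ
  have hfa0 : v.ord (algebraMap K F (Q.eval c)) = 0 := helper1370.ord_algebraMap v _
  have hs0 : t - algebraMap K F c ≠ 0 := ne_zero_of_ord_pos v h
  rcases eq_or_ne (aeval t Q') 0 with hR | hR
  · rw [hval, hR, mul_zero, add_zero]
    exact ⟨hfa, hfa0⟩
  · have hRord : 0 ≤ v.ord (aeval t Q') := helper1370.ord_nonneg_of_mem v (aeval_mem v ht Q')
    have hg : 0 < v.ord ((t - algebraMap K F c) * aeval t Q') := by
      rw [v.ord_mul hs0 hR]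
      omega
    have hlt : v.ord (algebraMap K F (Q.eval c))
        < v.ord ((t - algebraMap K F c) * aeval t Q') := by
      rw [hfa0]
      exact hg
    have hord := helper1370.ord_add_eq_of_lt v hfa hlt
    refine ⟨?_, by rw [hval, hord, hfa0]⟩
    intro h0
    rw [hval] at h0
    have h1 : (t - algebraMap K F c) * aeval t Q' = -algebraMap K F (Q.eval c) :=
      eq_neg_of_add_eq_zero_right h0
    rw [h1, helper1370.ord_neg, hfa0] at hg
    exact lt_irrefl _ hg

/-- **Generic multiplicity lemma.** If `q(t) * j = p(t)`, `q(c) ≠ 0` and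
`p - c' q = (X - c)^μ * Q` with `Q(c) ≠ 0`, then at every place `v` where `t` takes the value `c`
one has `ord_v (j - c') = μ * ord_v (t - c)`. -/
theorem ord_sub_eq_mul (v : Place K F) {t j : F} {p q : K[X]}
    (hpq : aeval t q * j = aeval t p) {c c' : K} (hqc : q.eval c ≠ 0) {μ : ℕ} {Q : K[X]}
    (hfac : p - C c' * q = (X - C c) ^ μ * Q) (hQ : Q.eval c ≠ 0)
    (h : 0 < v.ord (t - algebraMap K F c)) :
    v.ord (j - algebraMap K F c') = μ * v.ord (t - algebraMap K F c) := by
  obtain ⟨hq0, hqord⟩ := aeval_ne_zero_and_ord_eq_zero v h q hqc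
  obtain ⟨hQ0, hQord⟩ := aeval_ne_zero_and_ord_eq_zero v h Q hQ
  have hs0 : t - algebraMap K F c ≠ 0 := ne_zero_of_ord_pos v h
  have key : aeval t q * (j - algebraMap K F c')
      = (t - algebraMap K F c) ^ μ * aeval t Q := by
    have h1 := congrArg (aeval t) hfac
    simp only [map_sub, map_mul, map_pow, aeval_X, aeval_C] at h1
    rw [← h1, mul_sub, hpq]
    ring
  have hj0 : j - algebraMap K F c' ≠ 0 := by
    intro h0
    rw [h0, mul_zero] at key
    exact (mul_ne_zero (pow_ne_zero μ hs0) hQ0) key.symm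
  have h2 := congrArg v.ord key
  rw [v.ord_mul hq0 hj0, v.ord_mul (pow_ne_zero μ hs0) hQ0, hqord, hQord,
    helper1370.ord_pow] at h2
  linarith

/-- Root-multiplicity form: with `c' = p(c)/q(c)` there is `μ ≥ 1` with
`ord_v (j - c') = μ * ord_v (t - c)`. -/
theorem exists_pos_ord_sub_eq_mul (v : Place K F) {t j : F} {p q : K[X]}
    (hpq : aeval t q * j = aeval t p) {c c' : K} (hqc : q.eval c ≠ 0)
    (hc' : p.eval c = c' * q.eval c) (hne : p - C c' * q ≠ 0)
    (h : 0 < v.ord (t - algebraMap K F c)) :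
    ∃ μ : ℕ, 0 < μ ∧ v.ord (j - algebraMap K F c') = μ * v.ord (t - algebraMap K F c) := by
  set P := p - C c' * q with hP
  have hroot : P.IsRoot c := by
    rw [Polynomial.IsRoot.def, hP, eval_sub, eval_mul, eval_C, hc', sub_self]
  obtain ⟨Q, hfac, hQ⟩ := Polynomial.exists_eq_pow_rootMultiplicity_mul_and_not_dvd P hne c
  have hQc : Q.eval c ≠ 0 := fun h0 => hQ (Polynomial.dvd_iff_isRoot.mpr h0)
  exact ⟨P.rootMultiplicity c, (Polynomial.rootMultiplicity_pos hne).mpr hroot,
    ord_sub_eq_mul v hpq hqc hfac hQc h⟩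

end Generic

/-! ## Elementary arithmetic -/

theorem eq_one_of_mul_dvd {n e : ℤ} (hn : 0 < n) (he : 0 < e) (h : n * e ∣ n) : e = 1 := by
  obtain ⟨k, hk⟩ := h
  have h1 : e * k = 1 := by
    have h2 : n * (e * k) = n * 1 := by rw [mul_one, ← mul_assoc]; exact hk.symm
    exact mul_left_cancel₀ hn.ne' h2
  exact Int.eq_one_of_mul_eq_one_right he.le h1

theorem eq_one_of_pos_mul_eq_one {μ : ℕ} {e : ℤ} (he : 0 < e) (h : (μ : ℤ) * e = 1) :
    e = 1 :=
  Int.eq_one_of_mul_eq_one_left he.le h

/-! ## The Hauptmodul lines -/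

section Modular

variable (N : ℕ) [NeZero N]

/-! ### Level 2: `j * t^2 = (t + 256)^3` -/

section Level2

variable (t : FN N) (ht : jBar N * t ^ 2 = (t + 256) ^ 3)

omit [NeZero N] in
include ht in
theorem aeval_t2 :
    aeval t (X ^ 2 : Kbar[X]) * jBar N = aeval t ((X + 256) ^ 3 : Kbar[X]) := by
  simp only [map_pow, map_add, aeval_X, map_ofNat]
  rw [mul_comm]
  exact ht

include ht in
/-- **(BR2)** `F_N` is unramified over the `t`-line (`j t² = (t+256)³`) above every finite
value `c ≠ 0, -64`. -/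
theorem ord_t2_sub_eq_one (c : Kbar) (hc0 : c ≠ 0) (hc : c ≠ -64) (v : Place Kbar (FN N))
    (hv : 0 < v.ord (t - algebraMap Kbar (FN N) c)) :
    v.ord (t - algebraMap Kbar (FN N) c) = 1 := by
  have hpq := aeval_t2 N t ht
  have hqc : (X ^ 2 : Kbar[X]).eval c ≠ 0 := by simp [hc0]
  by_cases h1 : c = -256
  · -- `j = 0`, multiplicity `3`
    have hfac : ((X + 256) ^ 3 : Kbar[X]) - C (0 : Kbar) * X ^ 2 = (X - C c) ^ 3 * 1 := by
      rw [h1]
      simp only [map_zero, map_neg, map_ofNat]
      ring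
    have h3 := ord_sub_eq_mul v hpq hqc hfac (by simp) hv
    rw [map_zero, sub_zero] at h3
    have hj : 0 < v.ord (jBar N) := by rw [h3]; push_cast; omega
    have hd := helper8185.ord_j_dvd_three N v hj
    rw [h3] at hd
    exact eq_one_of_mul_dvd (n := 3) (by norm_num) hv (by exact_mod_cast hd)
  by_cases h2 : c = 512
  · -- `j = 1728`, multiplicity `2`
    have hfac : ((X + 256) ^ 3 : Kbar[X]) - C (1728 : Kbar) * X ^ 2
        = (X - C c) ^ 2 * (X + 64) := by
      rw [h2]
      simp only [map_ofNat]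
      ring
    have h3 := ord_sub_eq_mul v hpq hqc hfac (by rw [h2]; norm_num) hv
    have hj : 0 < v.ord (jBar N - algebraMap Kbar (FN N) 1728) := by
      rw [h3]; push_cast; omega
    have hd := helper8185.ord_j_sub_1728_dvd_two N v hj
    rw [h3] at hd
    exact eq_one_of_mul_dvd (n := 2) (by norm_num) hv (by exact_mod_cast hd)
  · -- generic value
    have hc2 : c ^ 2 ≠ 0 := pow_ne_zero 2 hc0
    have hc256 : c + 256 ≠ 0 := fun h => h1 (eq_neg_of_add_eq_zero_left h)
    set c' : Kbar := (c + 256) ^ 3 / c ^ 2 with hc'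
    have hc'0 : c' ≠ 0 := div_ne_zero (pow_ne_zero 3 hc256) hc2
    have hc'1728 : c' ≠ 1728 := by
      intro h
      rw [hc', div_eq_iff hc2] at h
      have h4 : (c - 512) ^ 2 * (c + 64) = 0 := by linear_combination h
      rcases mul_eq_zero.mp h4 with h5 | h5
      · exact h2 (sub_eq_zero.mp ((pow_eq_zero_iff (two_ne_zero)).mp h5))
      · exact hc (eq_neg_of_add_eq_zero_left h5)
    have hev : ((X + 256) ^ 3 : Kbar[X]).eval c = c' * (X ^ 2 : Kbar[X]).eval c := by
      simp only [eval_pow, eval_add, eval_X, eval_ofNat, hc']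
      field_simp
    have hne : ((X + 256) ^ 3 : Kbar[X]) - C c' * X ^ 2 ≠ 0 := by
      intro h
      have h4 := congrArg (eval 0) h
      simp at h4
    obtain ⟨μ, hμ, h3⟩ := exists_pos_ord_sub_eq_mul v hpq hqc hev hne hv
    have hj : 0 < v.ord (jBar N - algebraMap Kbar (FN N) c') := by
      rw [h3]; positivity
    have h5 := helper8185.ord_j_sub_eq_one N c' hc'0 hc'1728 v hj
    rw [h3] at h5
    exact eq_one_of_pos_mul_eq_one hv h5

include ht in
/-- **(BR2, elliptic value)** the ramification indices of `F_N` over `t = -64` divide `2`. -/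
theorem ord_t2_sub_neg64_dvd_two (v : Place Kbar (FN N))
    (hv : 0 < v.ord (t - algebraMap Kbar (FN N) (-64))) :
    v.ord (t - algebraMap Kbar (FN N) (-64)) ∣ 2 := by
  have hpq := aeval_t2 N t ht
  have hqc : (X ^ 2 : Kbar[X]).eval (-64 : Kbar) ≠ 0 := by norm_num
  have hfac : ((X + 256) ^ 3 : Kbar[X]) - C (1728 : Kbar) * X ^ 2
      = (X - C (-64 : Kbar)) ^ 1 * (X - 512) ^ 2 := by
    simp only [map_neg, map_ofNat]
    ring
  have h3 := ord_sub_eq_mul v hpq hqc hfac (by norm_num) hv
  rw [Nat.cast_one, one_mul] at h3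
  have hj : 0 < v.ord (jBar N - algebraMap Kbar (FN N) 1728) := by rw [h3]; exact hv
  have hd := helper8185.ord_j_sub_1728_dvd_two N v hj
  rwa [h3] at hd

include ht in
/-- Numeral form of `ord_t2_sub_neg64_dvd_two`. -/
theorem ord_t2_add_dvd_two (v : Place Kbar (FN N)) (hv : 0 < v.ord (t + 64)) :
    v.ord (t + 64) ∣ 2 := by
  have h : t - algebraMap Kbar (FN N) (-64) = t + 64 := by
    rw [map_neg, map_ofNat, sub_neg_eq_add]
  rw [← h] at hv ⊢
  exact ord_t2_sub_neg64_dvd_two N t ht v hv

end Level2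

/-! ### Level 3: `j * t^3 = (t + 27) * (t + 243)^3` -/

section Level3

variable (t : FN N) (ht : jBar N * t ^ 3 = (t + 27) * (t + 243) ^ 3)

omit [NeZero N] in
include ht in
theorem aeval_t3 :
    aeval t (X ^ 3 : Kbar[X]) * jBar N = aeval t ((X + 27) * (X + 243) ^ 3 : Kbar[X]) := by
  simp only [map_pow, map_add, map_mul, aeval_X, map_ofNat]
  rw [mul_comm]
  exact ht

include ht in
/-- **(BR3)** `F_N` is unramified over the `t`-line (`j t³ = (t+27)(t+243)³`) above every finite
value `c ≠ 0, -27`. -/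
theorem ord_t3_sub_eq_one (c : Kbar) (hc0 : c ≠ 0) (hc : c ≠ -27) (v : Place Kbar (FN N))
    (hv : 0 < v.ord (t - algebraMap Kbar (FN N) c)) :
    v.ord (t - algebraMap Kbar (FN N) c) = 1 := by
  have hpq := aeval_t3 N t ht
  have hqc : (X ^ 3 : Kbar[X]).eval c ≠ 0 := by simp [hc0]
  by_cases h1 : c = -243
  · -- `j = 0`, multiplicity `3`
    have hfac : ((X + 27) * (X + 243) ^ 3 : Kbar[X]) - C (0 : Kbar) * X ^ 3
        = (X - C c) ^ 3 * (X + 27) := by
      rw [h1]
      simp only [map_zero, map_neg, map_ofNat]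
      ring
    have h3 := ord_sub_eq_mul v hpq hqc hfac (by rw [h1]; norm_num) hv
    rw [map_zero, sub_zero] at h3
    have hj : 0 < v.ord (jBar N) := by rw [h3]; push_cast; omega
    have hd := helper8185.ord_j_dvd_three N v hj
    rw [h3] at hd
    exact eq_one_of_mul_dvd (n := 3) (by norm_num) hv (by exact_mod_cast hd)
  by_cases h2 : c ^ 2 - 486 * c - 19683 = 0
  · -- `j = 1728`, multiplicity `2`
    have hfac : ((X + 27) * (X + 243) ^ 3 : Kbar[X]) - C (1728 : Kbar) * X ^ 3
        = (X - C c) ^ 2 * (X - C (486 - c)) ^ 2 := by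
      have h4 : (C c : Kbar[X]) ^ 2 - 486 * C c - 19683 = 0 := by
        have := congrArg (C : Kbar → Kbar[X]) h2
        simpa only [map_sub, map_mul, map_pow, map_ofNat, map_zero] using this
      simp only [map_sub, map_ofNat]
      linear_combination
        (2 * X ^ 2 - 972 * X - (C c : Kbar[X]) ^ 2 + 486 * C c - 19683) * h4
    have hQ : ((X - C (486 - c)) ^ 2 : Kbar[X]).eval c ≠ 0 := by
      simp only [eval_pow, eval_sub, eval_X, eval_C]
      refine pow_ne_zero 2 ?_
      intro h5
      have h6 : c = 243 := by linear_combination h5 / 2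
      rw [h6] at h2
      norm_num at h2
    have h3 := ord_sub_eq_mul v hpq hqc hfac hQ hv
    have hj : 0 < v.ord (jBar N - algebraMap Kbar (FN N) 1728) := by
      rw [h3]; push_cast; omega
    have hd := helper8185.ord_j_sub_1728_dvd_two N v hj
    rw [h3] at hd
    exact eq_one_of_mul_dvd (n := 2) (by norm_num) hv (by exact_mod_cast hd)
  · -- generic value
    have hc3 : c ^ 3 ≠ 0 := pow_ne_zero 3 hc0
    have hc27 : c + 27 ≠ 0 := fun h => hc (eq_neg_of_add_eq_zero_left h)
    have hc243 : c + 243 ≠ 0 := fun h => h1 (eq_neg_of_add_eq_zero_left h)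
    set c' : Kbar := (c + 27) * (c + 243) ^ 3 / c ^ 3 with hc'
    have hc'0 : c' ≠ 0 := div_ne_zero (mul_ne_zero hc27 (pow_ne_zero 3 hc243)) hc3
    have hc'1728 : c' ≠ 1728 := by
      intro h
      rw [hc', div_eq_iff hc3] at h
      have h4 : (c ^ 2 - 486 * c - 19683) ^ 2 = 0 := by linear_combination h
      exact h2 ((pow_eq_zero_iff (two_ne_zero)).mp h4)
    have hev : ((X + 27) * (X + 243) ^ 3 : Kbar[X]).eval c
        = c' * (X ^ 3 : Kbar[X]).eval c := by
      simp only [eval_pow, eval_add, eval_mul, eval_X, eval_ofNat, hc']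
      field_simp
    have hne : ((X + 27) * (X + 243) ^ 3 : Kbar[X]) - C c' * X ^ 3 ≠ 0 := by
      intro h
      have h4 := congrArg (eval 0) h
      simp at h4
    obtain ⟨μ, hμ, h3⟩ := exists_pos_ord_sub_eq_mul v hpq hqc hev hne hv
    have hj : 0 < v.ord (jBar N - algebraMap Kbar (FN N) c') := by
      rw [h3]; positivity
    have h5 := helper8185.ord_j_sub_eq_one N c' hc'0 hc'1728 v hj
    rw [h3] at h5
    exact eq_one_of_pos_mul_eq_one hv h5

include ht in
/-- **(BR3, elliptic value)** the ramification indices of `F_N` over `t = -27` divide `3`. -/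
theorem ord_t3_sub_neg27_dvd_three (v : Place Kbar (FN N))
    (hv : 0 < v.ord (t - algebraMap Kbar (FN N) (-27))) :
    v.ord (t - algebraMap Kbar (FN N) (-27)) ∣ 3 := by
  have hpq := aeval_t3 N t ht
  have hqc : (X ^ 3 : Kbar[X]).eval (-27 : Kbar) ≠ 0 := by norm_num
  have hfac : ((X + 27) * (X + 243) ^ 3 : Kbar[X]) - C (0 : Kbar) * X ^ 3
      = (X - C (-27 : Kbar)) ^ 1 * (X + 243) ^ 3 := by
    simp only [map_zero, map_neg, map_ofNat]
    ring
  have h3 := ord_sub_eq_mul v hpq hqc hfac (by norm_num) hv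
  rw [Nat.cast_one, one_mul, map_zero, sub_zero] at h3
  have hj : 0 < v.ord (jBar N) := by rw [h3]; exact hv
  have hd := helper8185.ord_j_dvd_three N v hj
  rwa [h3] at hd

include ht in
/-- Numeral form of `ord_t3_sub_neg27_dvd_three`. -/
theorem ord_t3_add_dvd_three (v : Place Kbar (FN N)) (hv : 0 < v.ord (t + 27)) :
    v.ord (t + 27) ∣ 3 := by
  have h : t - algebraMap Kbar (FN N) (-27) = t + 27 := by
    rw [map_neg, map_ofNat, sub_neg_eq_add]
  rw [← h] at hv ⊢
  exact ord_t3_sub_neg27_dvd_three N t ht v hv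

end Level3

end Modular

end Fermat.Agent.S18.helper2193
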