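/-
S18, track C (plan #2494, leaf D6 = steps 3(b)-4 of findings #2248): the abstract endgame.

Dictionary: `O` = DVR of a number field with uniformiser `pi`, `E = O((q))`, `Epos = O[[q]]`
("no polar part"), `M1` = integral functions regular off the cusp `∞`,
`Mchi = h * L(* ∞ + D) ∩ O((q))` with `h ^ p = u`, `D = div(u) / p`.
-/
import Mathlib

set_option autoImplicit false

namespace Fermat.Agent.S18.helper705

section Endgame

variable {O E : Type*} [CommRing O] [CommRing E] [Algebra O E]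

/-- Binomial expansion to first order: `(x + y)^p = x^p + p x^(p-1) y + y^2 X`. -/
lemma exists_add_pow_eq (x y : E) (p : ℕ) :
    ∃ X : E, (x + y) ^ p = x ^ p + (p : E) * x ^ (p - 1) * y + y ^ 2 * X := by
  induction p with
  | zero => exact ⟨0, by simp⟩
  | succ p ih =>
    obtain ⟨X, hX⟩ := ih
    refine ⟨x * X + (p : E) * x ^ (p - 1) + y * X, ?_⟩
    have h1 : p + 1 - 1 = p := by omega
    rw [pow_succ, hX, h1]
    rcases Nat.eq_zero_or_pos p with rfl | hp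
    · simp
      ring
    · have h2 : x ^ p = x ^ (p - 1) * x := by
        rw [← pow_succ]; congr 1; omega
      push_cast
      linear_combination (-(p : E) * y) * h2

/-- `(1 + ϖ w)^k = 1 + ϖ w'`. -/
lemma exists_one_add_mul_pow (ϖ w : E) (k : ℕ) : ∃ w' : E, (1 + ϖ * w) ^ k = 1 + ϖ * w' := by
  induction k with
  | zero => exact ⟨0, by simp⟩
  | succ k ih =>
    obtain ⟨w', hw'⟩ := ih
    exact ⟨w' + w + ϖ * w' * w, by rw [pow_succ, hw']; ring⟩

/-- Iterated saturation of the "positive part". -/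
lemma mem_of_pow_smul_mem (pi : O) (Epos : Subalgebra O E)
    (hsat : ∀ x : E, pi • x ∈ Epos → x ∈ Epos) (j : ℕ) (x : E) (h : pi ^ j • x ∈ Epos) :
    x ∈ Epos := by
  induction j with
  | zero => simpa using h
  | succ j ih =>
    apply ih
    apply hsat
    rw [smul_smul, ← pow_succ']
    exact h

/-- Step 2 iterated: an element of `M1` whose polar part is divisible by `pi^j` is a constant
modulo `pi^j M1`. -/
lemma exists_const_add_pow_smul (pi : O) (Epos : Subalgebra O E) (M1 : Submodule O E)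
    (hsat : ∀ x : E, pi • x ∈ Epos → x ∈ Epos)
    (hconst : ∀ z ∈ M1, (∃ w : E, z - pi • w ∈ Epos) →
      ∃ c : O, ∃ t ∈ M1, z = algebraMap O E c + pi • t) (j : ℕ) :
    ∀ z ∈ M1, (∃ Y : E, z - pi ^ j • Y ∈ Epos) →
      ∃ c : O, ∃ t ∈ M1, z = algebraMap O E c + pi ^ j • t := by
  induction j with
  | zero =>
    intro z hz _
    exact ⟨0, z, hz, by simp⟩
  | succ j ih =>
    rintro z hz ⟨Y, hY⟩
    obtain ⟨c, t, ht, hzt⟩ := ih z hz ⟨pi • Y, by rw [smul_smul, ← pow_succ]; exact hY⟩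
    have h1 : pi ^ j • (t - pi • Y) ∈ Epos := by
      have : pi ^ j • (t - pi • Y) = (z - pi ^ (j + 1) • Y) - algebraMap O E c := by
        rw [hzt, smul_sub, smul_smul, ← pow_succ]; ring
      rw [this]
      exact Epos.sub_mem hY (Epos.algebraMap_mem c)
    have h2 : t - pi • Y ∈ Epos := mem_of_pow_smul_mem pi Epos hsat j _ h1
    obtain ⟨c', t', ht', htt'⟩ := hconst t ht ⟨Y, h2⟩
    refine ⟨c + pi ^ j * c', t', ht', ?_⟩
    rw [hzt, htt', smul_add, smul_smul, ← pow_succ, map_add, map_mul, Algebra.smul_def,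
      Algebra.smul_def, map_pow]
    ring

/-- Step 4 (the induction): approximate `p`-th roots `G_m ∈ Mchi` with `G_m ≡ 1 mod pi` and
polar part divisible by `pi^(m+1)`. -/
lemma exists_approx (pi : O) (p : ℕ) (hp : IsUnit (p : O)) (Epos : Subalgebra O E)
    (M1 Mchi : Submodule O E)
    (hsat : ∀ x : E, pi • x ∈ Epos → x ∈ Epos)
    (h1 : (1 : E) ∈ M1)
    (hpow : ∀ G ∈ Mchi, G ^ p ∈ M1)
    (hconst : ∀ z ∈ M1, (∃ w : E, z - pi • w ∈ Epos) →
      ∃ c : O, ∃ t ∈ M1, z = algebraMap O E c + pi • t)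
    (hred : ∀ t ∈ M1, ∃ G ∈ Mchi, ∃ w : E, G = t + pi • w) (m : ℕ) :
    ∃ G ∈ Mchi, (∃ w : E, G = 1 + pi • w) ∧ ∃ Psi : E, G - pi ^ (m + 1) • Psi ∈ Epos := by
  induction m with
  | zero =>
    obtain ⟨G, hG, w, hw⟩ := hred 1 h1
    refine ⟨G, hG, ⟨w, hw⟩, w, ?_⟩
    rw [hw, zero_add, pow_one, add_sub_cancel_right]
    exact Epos.one_mem
  | succ m ih =>
    obtain ⟨G, hG, ⟨w, hw⟩, Psi, hPsi⟩ := ih
    obtain ⟨p', hp'⟩ := hp.exists_right_inv
    -- notation inside `E`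
    set ϖ : E := algebraMap O E pi with hϖ
    set q : E := algebraMap O E p' with hq
    have hpq : (p : E) * q = 1 := by
      rw [hq, ← map_natCast (algebraMap O E), ← map_mul, hp', map_one]
    have smul_eq : ∀ (k : ℕ) (x : E), pi ^ k • x = ϖ ^ k * x := by
      intro k x; rw [Algebra.smul_def, map_pow]
    have smul_eq1 : ∀ x : E, pi • x = ϖ * x := by
      intro x; rw [Algebra.smul_def]
    set U : E := G - pi ^ (m + 1) • Psi with hU
    -- `U ≡ 1 mod pi`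
    have hU1 : U = 1 + ϖ * (w - ϖ ^ m * Psi) := by
      rw [hU, hw, smul_eq, smul_eq1]; ring
    obtain ⟨w'', hw''⟩ := exists_one_add_mul_pow ϖ (w - ϖ ^ m * Psi) (p - 1)
    -- binomial expansion of `G^p`
    obtain ⟨X, hX⟩ := exists_add_pow_eq U (ϖ ^ (m + 1) * Psi) p
    have hGU : G = U + ϖ ^ (m + 1) * Psi := by rw [hU, smul_eq]; ring
    set Y₁ : E := (p : E) * w'' * Psi + ϖ ^ m * (Psi ^ 2 * X) with hY₁
    set Y : E := (p : E) * Psi + ϖ * Y₁ with hY
    have hUpow : U ^ (p - 1) = 1 + ϖ * w'' := by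
      rw [← hw'', ← hU1]
    have hz : G ^ p - pi ^ (m + 1) • Y = U ^ p := by
      rw [smul_eq, hGU, hX, hUpow, hY, hY₁]
      ring
    have hzmem : G ^ p - pi ^ (m + 1) • Y ∈ Epos := by
      rw [hz]; exact Epos.pow_mem hPsi p
    obtain ⟨c, t, ht, hzt⟩ :=
      exists_const_add_pow_smul pi Epos M1 hsat hconst (m + 1) (G ^ p) (hpow G hG) ⟨Y, hzmem⟩
    have htY : t - Y ∈ Epos := by
      apply mem_of_pow_smul_mem pi Epos hsat (m + 1)
      have : pi ^ (m + 1) • (t - Y) = (G ^ p - pi ^ (m + 1) • Y) - algebraMap O E c := by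
        rw [hzt, smul_sub]; ring
      rw [this]
      exact Epos.sub_mem hzmem (Epos.algebraMap_mem c)
    obtain ⟨G', hG', W, hW⟩ := hred (p' • t) (M1.smul_mem p' ht)
    refine ⟨G - pi ^ (m + 1) • G', Mchi.sub_mem hG (Mchi.smul_mem _ hG'),
      ⟨w - ϖ ^ m * G', ?_⟩, -(q * Y₁ + W), ?_⟩
    · rw [hw, smul_eq, smul_eq1, smul_eq1]; ring
    · have hkey : G - pi ^ (m + 1) • G' - pi ^ (m + 1 + 1) • (-(q * Y₁ + W)) =
          U - pi ^ (m + 1) • (p' • (t - Y)) := by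
        rw [hW, smul_eq, smul_eq, smul_eq, smul_eq1, hGU, Algebra.smul_def p' t,
          Algebra.smul_def p' (t - Y), ← hq, hY]
        linear_combination (-(ϖ ^ (m + 1) * Psi)) * hpq
      rw [hkey]
      exact Epos.sub_mem hPsi (Epos.smul_mem (Epos.smul_mem htY p') _)

/-- **Track C endgame** (steps 3(b)-4 of #2248).  Bounded torsion of the cokernel of the polar
part on `Mchi` is incompatible with the injectivity of the polar part on `Mchi`
(`chi ≠ 1`, i.e. `L(D) = 0`). -/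
theorem trackC_endgame (pi : O) (p : ℕ) (hp : IsUnit (p : O)) (Epos : Subalgebra O E)
    (M1 Mchi : Submodule O E)
    (hsat : ∀ x : E, pi • x ∈ Epos → x ∈ Epos)
    (h1 : (1 : E) ∈ M1)
    (hpow : ∀ G ∈ Mchi, G ^ p ∈ M1)
    (hinj : ∀ G ∈ Mchi, G ∈ Epos → G = 0)
    (hconst : ∀ z ∈ M1, (∃ w : E, z - pi • w ∈ Epos) →
      ∃ c : O, ∃ t ∈ M1, z = algebraMap O E c + pi • t)
    (hred : ∀ t ∈ M1, ∃ G ∈ Mchi, ∃ w : E, G = t + pi • w)
    (hBT : ∃ e : ℕ, ∀ (Psi : E) (j : ℕ), (∃ G ∈ Mchi, pi ^ j • Psi - G ∈ Epos) →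
      ∃ G'' ∈ Mchi, pi ^ e • Psi - G'' ∈ Epos)
    (hone : ¬ ∃ w : E, (1 : E) = pi • w) : False := by
  obtain ⟨e, hBT⟩ := hBT
  obtain ⟨G, hG, ⟨w, hw⟩, Psi, hPsi⟩ :=
    exists_approx pi p hp Epos M1 Mchi hsat h1 hpow hconst hred e
  obtain ⟨G'', hG'', hG''mem⟩ := hBT Psi (e + 1) ⟨G, hG, by
    have : pi ^ (e + 1) • Psi - G = -(G - pi ^ (e + 1) • Psi) := by ring
    rw [this]; exact Epos.neg_mem hPsi⟩
  have hmem : G - pi • G'' ∈ Epos := by
    have : G - pi • G'' = (G - pi ^ (e + 1) • Psi) + pi • (pi ^ e • Psi - G'') := by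
      rw [smul_sub, smul_smul, ← pow_succ']; ring
    rw [this]
    exact Epos.add_mem hPsi (Epos.smul_mem hG''mem pi)
  have hzero : G - pi • G'' = 0 :=
    hinj _ (Mchi.sub_mem hG (Mchi.smul_mem pi hG'')) hmem
  apply hone
  refine ⟨G'' - w, ?_⟩
  rw [smul_sub]
  linear_combination hzero - hw

/-! ### Twisted, fixed-level form

`u ∈ Epos` with `u ≡ 1 mod pi` replaces the `p`-th root `h`: take
`Mchi = L(* ∞ + D) ∩ O((q))` inside the function field itself, with `u * G^p ∈ M1`.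
`En` = series of pole order `≤ n` (a fixed level); `En = ⊤` gives the untwisted statement. -/

/-- If `G ∈ Mchi ⊆ En` and `G - pi^k Psi ∈ Epos ⊆ En` then `Psi ∈ En`. -/
lemma mem_level_of_sub_mem (pi : O) (Epos : Subalgebra O E) (En Mchi : Submodule O E)
    (hEn_pos : ∀ x ∈ Epos, x ∈ En) (hEn_sat : ∀ x : E, pi • x ∈ En → x ∈ En)
    (hchi_En : ∀ G ∈ Mchi, G ∈ En) (k : ℕ) {G Psi : E} (hG : G ∈ Mchi)
    (h : G - pi ^ k • Psi ∈ Epos) : Psi ∈ En := by
  have h1 : pi ^ k • Psi ∈ En := by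
    have : pi ^ k • Psi = G - (G - pi ^ k • Psi) := by ring
    rw [this]
    exact En.sub_mem (hchi_En G hG) (hEn_pos _ h)
  clear h
  induction k with
  | zero => simpa using h1
  | succ k ih =>
    apply ih
    apply hEn_sat
    rw [smul_smul, ← pow_succ']
    exact h1

/-- Step 4 in the twisted, fixed-level form. -/
lemma exists_approx_twisted (pi : O) (p : ℕ) (hp : IsUnit (p : O)) (Epos : Subalgebra O E)
    (En M1 Mchi : Submodule O E) (u v : E) (hu : u ∈ Epos) (huv : u = 1 + pi • v)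
    (hsat : ∀ x : E, pi • x ∈ Epos → x ∈ Epos)
    (hEn_pos : ∀ x ∈ Epos, x ∈ En) (hEn_sat : ∀ x : E, pi • x ∈ En → x ∈ En)
    (hchi_En : ∀ G ∈ Mchi, G ∈ En)
    (h1 : (1 : E) ∈ M1)
    (hpow : ∀ G ∈ Mchi, u * G ^ p ∈ M1)
    (hconst : ∀ z ∈ M1, (∃ w : E, z - pi • w ∈ Epos) →
      ∃ c : O, ∃ t ∈ M1, z = algebraMap O E c + pi • t)
    (hred : ∀ t ∈ M1, (∃ w : E, t - pi • w ∈ En) → ∃ G ∈ Mchi, ∃ w : E, G = t + pi • w)
    (m : ℕ) :
    ∃ G ∈ Mchi, (∃ w : E, G = 1 + pi • w) ∧ ∃ Psi : E, G - pi ^ (m + 1) • Psi ∈ Epos := by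
  induction m with
  | zero =>
    obtain ⟨G, hG, w, hw⟩ := hred 1 h1 ⟨0, by simpa using hEn_pos 1 Epos.one_mem⟩
    refine ⟨G, hG, ⟨w, hw⟩, w, ?_⟩
    rw [hw, zero_add, pow_one, add_sub_cancel_right]
    exact Epos.one_mem
  | succ m ih =>
    obtain ⟨G, hG, ⟨w, hw⟩, Psi, hPsi⟩ := ih
    have hPsiEn : Psi ∈ En :=
      mem_level_of_sub_mem pi Epos En Mchi hEn_pos hEn_sat hchi_En (m + 1) hG hPsi
    obtain ⟨p', hp'⟩ := hp.exists_right_inv
    set ϖ : E := algebraMap O E pi with hϖ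
    set q : E := algebraMap O E p' with hq
    have hpq : (p : E) * q = 1 := by
      rw [hq, ← map_natCast (algebraMap O E), ← map_mul, hp', map_one]
    have smul_eq : ∀ (k : ℕ) (x : E), pi ^ k • x = ϖ ^ k * x := by
      intro k x; rw [Algebra.smul_def, map_pow]
    have smul_eq1 : ∀ x : E, pi • x = ϖ * x := by
      intro x; rw [Algebra.smul_def]
    set U : E := G - pi ^ (m + 1) • Psi with hU
    have hU1 : U = 1 + ϖ * (w - ϖ ^ m * Psi) := by
      rw [hU, hw, smul_eq, smul_eq1]; ring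
    obtain ⟨w'', hw''⟩ := exists_one_add_mul_pow ϖ (w - ϖ ^ m * Psi) (p - 1)
    obtain ⟨X, hX⟩ := exists_add_pow_eq U (ϖ ^ (m + 1) * Psi) p
    have hGU : G = U + ϖ ^ (m + 1) * Psi := by rw [hU, smul_eq]; ring
    have huv' : u = 1 + ϖ * v := by rw [huv, smul_eq1]
    -- `Y = u (p U^(p-1) Psi + ϖ^(m+1) Psi^2 X) = p Psi + ϖ Y₁`
    set Y₁ : E := (p : E) * w'' * Psi + ϖ ^ m * (Psi ^ 2 * X) +
      v * ((p : E) * (1 + ϖ * w'') * Psi + ϖ ^ (m + 1) * (Psi ^ 2 * X)) with hY₁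
    set Y : E := (p : E) * Psi + ϖ * Y₁ with hY
    have hUpow : U ^ (p - 1) = 1 + ϖ * w'' := by
      rw [← hw'', ← hU1]
    have hz : u * G ^ p - pi ^ (m + 1) • Y = u * U ^ p := by
      rw [smul_eq, hGU, hX, hUpow, hY, hY₁, huv']
      ring
    have hzmem : u * G ^ p - pi ^ (m + 1) • Y ∈ Epos := by
      rw [hz]; exact Epos.mul_mem hu (Epos.pow_mem hPsi p)
    obtain ⟨c, t, ht, hzt⟩ :=
      exists_const_add_pow_smul pi Epos M1 hsat hconst (m + 1) (u * G ^ p) (hpow G hG)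
        ⟨Y, hzmem⟩
    have htY : t - Y ∈ Epos := by
      apply mem_of_pow_smul_mem pi Epos hsat (m + 1)
      have : pi ^ (m + 1) • (t - Y) = (u * G ^ p - pi ^ (m + 1) • Y) - algebraMap O E c := by
        rw [hzt, smul_sub]; ring
      rw [this]
      exact Epos.sub_mem hzmem (Epos.algebraMap_mem c)
    have hlev : ∃ w₀ : E, p' • t - pi • w₀ ∈ En := by
      refine ⟨q * Y₁, ?_⟩
      have : p' • t - pi • (q * Y₁) = p' • (t - Y) + Psi := by
        rw [smul_eq1, Algebra.smul_def p' t, Algebra.smul_def p' (t - Y), ← hq, hY]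
        linear_combination Psi * hpq
      rw [this]
      exact En.add_mem (En.smul_mem p' (hEn_pos _ htY)) hPsiEn
    obtain ⟨G', hG', W, hW⟩ := hred (p' • t) (M1.smul_mem p' ht) hlev
    refine ⟨G - pi ^ (m + 1) • G', Mchi.sub_mem hG (Mchi.smul_mem _ hG'),
      ⟨w - ϖ ^ m * G', ?_⟩, -(q * Y₁ + W), ?_⟩
    · rw [hw, smul_eq, smul_eq1, smul_eq1]; ring
    · have hkey : G - pi ^ (m + 1) • G' - pi ^ (m + 1 + 1) • (-(q * Y₁ + W)) =
          U - pi ^ (m + 1) • (p' • (t - Y)) := by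
        rw [hW, smul_eq, smul_eq, smul_eq, smul_eq1, hGU, Algebra.smul_def p' t,
          Algebra.smul_def p' (t - Y), ← hq, hY]
        linear_combination (-(ϖ ^ (m + 1) * Psi)) * hpq
      rw [hkey]
      exact Epos.sub_mem hPsi (Epos.smul_mem (Epos.smul_mem htY p') _)

/-- **Track C endgame, twisted fixed-level form.**  `u ∈ Epos`, `u ≡ 1 mod pi`,
`u * G^p ∈ M1` for `G ∈ Mchi ⊆ En`; `hred` and `hBT` are only required at the level `En`. -/
theorem trackC_endgame_twisted (pi : O) (p : ℕ) (hp : IsUnit (p : O)) (Epos : Subalgebra O E)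
    (En M1 Mchi : Submodule O E) (u v : E) (hu : u ∈ Epos) (huv : u = 1 + pi • v)
    (hsat : ∀ x : E, pi • x ∈ Epos → x ∈ Epos)
    (hEn_pos : ∀ x ∈ Epos, x ∈ En) (hEn_sat : ∀ x : E, pi • x ∈ En → x ∈ En)
    (hchi_En : ∀ G ∈ Mchi, G ∈ En)
    (h1 : (1 : E) ∈ M1)
    (hpow : ∀ G ∈ Mchi, u * G ^ p ∈ M1)
    (hinj : ∀ G ∈ Mchi, G ∈ Epos → G = 0)
    (hconst : ∀ z ∈ M1, (∃ w : E, z - pi • w ∈ Epos) →
      ∃ c : O, ∃ t ∈ M1, z = algebraMap O E c + pi • t)
    (hred : ∀ t ∈ M1, (∃ w : E, t - pi • w ∈ En) → ∃ G ∈ Mchi, ∃ w : E, G = t + pi • w)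
    (hBT : ∃ e : ℕ, ∀ Psi ∈ En, ∀ j : ℕ, (∃ G ∈ Mchi, pi ^ j • Psi - G ∈ Epos) →
      ∃ G'' ∈ Mchi, pi ^ e • Psi - G'' ∈ Epos)
    (hone : ¬ ∃ w : E, (1 : E) = pi • w) : False := by
  obtain ⟨e, hBT⟩ := hBT
  obtain ⟨G, hG, ⟨w, hw⟩, Psi, hPsi⟩ :=
    exists_approx_twisted pi p hp Epos En M1 Mchi u v hu huv hsat hEn_pos hEn_sat hchi_En h1
      hpow hconst hred e
  have hPsiEn : Psi ∈ En :=
    mem_level_of_sub_mem pi Epos En Mchi hEn_pos hEn_sat hchi_En (e + 1) hG hPsi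
  obtain ⟨G'', hG'', hG''mem⟩ := hBT Psi hPsiEn (e + 1) ⟨G, hG, by
    have : pi ^ (e + 1) • Psi - G = -(G - pi ^ (e + 1) • Psi) := by ring
    rw [this]; exact Epos.neg_mem hPsi⟩
  have hmem : G - pi • G'' ∈ Epos := by
    have : G - pi • G'' = (G - pi ^ (e + 1) • Psi) + pi • (pi ^ e • Psi - G'') := by
      rw [smul_sub, smul_smul, ← pow_succ']; ring
    rw [this]
    exact Epos.add_mem hPsi (Epos.smul_mem hG''mem pi)
  have hzero : G - pi • G'' = 0 :=
    hinj _ (Mchi.sub_mem hG (Mchi.smul_mem pi hG'')) hmem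
  apply hone
  refine ⟨G'' - w, ?_⟩
  rw [smul_sub]
  linear_combination hzero - hw

/-- **Bounded torsion from noetherianity.**  If polar parts at the level `En` are
parametrised (modulo `Epos` and `Mchi`) by a noetherian `O`-module `P`, then the cokernel of
the polar part on `Mchi` has bounded `pi`-power torsion at the level `En`. -/
theorem bounded_torsion_of_noetherian {P : Type*} [AddCommGroup P] [Module O P]
    [IsNoetherian O P] (pi : O) (φ : P →ₗ[O] E) (Epos : Subalgebra O E)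
    (En Mchi : Submodule O E)
    (hφ : ∀ Psi ∈ En, ∃ G ∈ Mchi, ∃ a : P, Psi - G - φ a ∈ Epos) :
    ∃ e : ℕ, ∀ Psi ∈ En, ∀ j : ℕ, (∃ G ∈ Mchi, pi ^ j • Psi - G ∈ Epos) →
      ∃ G'' ∈ Mchi, pi ^ e • Psi - G'' ∈ Epos := by
  -- polar parts realised by `Mchi`
  let N : Submodule O P :=
    { carrier := {a | ∃ G ∈ Mchi, φ a - G ∈ Epos}
      add_mem' := by
        rintro a b ⟨G, hG, hGa⟩ ⟨G', hG', hGb⟩
        refine ⟨G + G', Mchi.add_mem hG hG', ?_⟩
        have : φ (a + b) - (G + G') = (φ a - G) + (φ b - G') := by rw [map_add]; ring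
        rw [this]; exact Epos.add_mem hGa hGb
      zero_mem' := ⟨0, Mchi.zero_mem, by simp [Epos.zero_mem]⟩
      smul_mem' := by
        rintro c a ⟨G, hG, hGa⟩
        refine ⟨c • G, Mchi.smul_mem c hG, ?_⟩
        have : φ (c • a) - c • G = c • (φ a - G) := by rw [map_smul, smul_sub]
        rw [this]; exact Epos.smul_mem hGa c }
  -- the chain `T j = {a | pi^j a ∈ N}`
  let T : ℕ →o Submodule O P :=
    { toFun := fun j => N.comap ((pi ^ j) • (LinearMap.id : P →ₗ[O] P))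
      monotone' := by
        intro i j hij a ha
        simp only [Submodule.mem_comap, LinearMap.smul_apply, LinearMap.id_coe, id_eq] at ha ⊢
        obtain ⟨k, rfl⟩ := Nat.exists_eq_add_of_le hij
        rw [pow_add, mul_comm, mul_smul]
        exact N.smul_mem _ ha }
  obtain ⟨e, he⟩ := (monotone_stabilizes_iff_noetherian (R := O) (M := P)).mpr inferInstance T
  refine ⟨e, ?_⟩
  rintro Psi hPsi j ⟨G, hG, hGmem⟩
  obtain ⟨G₁, hG₁, a, ha⟩ := hφ Psi hPsi
  -- `a ∈ T j`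
  have haT : a ∈ T j := by
    show (pi ^ j) • a ∈ N
    refine ⟨G - pi ^ j • G₁, Mchi.sub_mem hG (Mchi.smul_mem _ hG₁), ?_⟩
    have : φ (pi ^ j • a) - (G - pi ^ j • G₁) =
        (pi ^ j • Psi - G) - pi ^ j • (Psi - G₁ - φ a) := by
      rw [map_smul, smul_sub, smul_sub]; ring
    rw [this]
    exact Epos.sub_mem hGmem (Epos.smul_mem ha _)
  have haTe : a ∈ T e := by
    rcases le_total j e with hje | hej
    · exact T.monotone hje haT
    · rw [he j hej]; exact haT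
  obtain ⟨G₃, hG₃, hG₃mem⟩ : (pi ^ e) • a ∈ N := haTe
  refine ⟨pi ^ e • G₁ + G₃, Mchi.add_mem (Mchi.smul_mem _ hG₁) hG₃, ?_⟩
  have : pi ^ e • Psi - (pi ^ e • G₁ + G₃) =
      pi ^ e • (Psi - G₁ - φ a) + (φ (pi ^ e • a) - G₃) := by
    rw [map_smul, smul_sub, smul_sub]; ring
  rw [this]
  exact Epos.add_mem (Epos.smul_mem ha _) hG₃mem

end Endgame

end Fermat.Agent.S18.helper705
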