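/-
S18, track C (plan #2494, leaf D6 = steps 2-4 of findings #2248 with (P3)/(P4) of #2396, in the
twisted fixed-level form of `helper705.trackC_endgame_twisted`): the LAURENT-SERIES INSTANCE of
the polar-part induction, with every hypothesis stated coefficientwise.

Dictionary: `O` = a PID (e.g. the DVR of a number field) with prime element `ϖ` and residue map
`res : O → κ` (surjective, kernel `(ϖ)`);
`R1`  = expansions at `∞` of the integral functions regular off `∞` (all pole orders);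
`Lam` = expansions of the integral elements of `L(n ∞ + D0)` (pole order at most `n`);
`u`   = the normalised Kummer element, `u ∈ 1 + ϖ O[[q]]`, with `u * G ^ p ∈ R1` for `G ∈ Lam`;
`Bbar` = a `κ`-space of expansions in characteristic `l` containing the reductions of `R1` and
`Lam` and satisfying (CONST); its part of pole order `≤ n` has dimension `≤ r`
(from (KL) against `g` reduced cusp forms: `r = n + 1 - g`), while `Lam` has rank `≥ r`
(Riemann).  Conclusion: `False`, unless `Lam` contains a nonzero series without polar part.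

What this file adds to the abstract endgame: the supply of its three hypotheses
`hconst` (from (CONST) + saturation), `hred` (dimension count + reduction of an `O`-basis of the
saturated lattice `Lam`) and `hBT` (noetherianity of `O ^ n`), all at ONE fixed level `n`.
-/
import Mathlib
import Fermat.Prelude.Def_ModularCurve_LaurentCoeff
import Fermat.Agent.S18.helper705_TrackCEnd
import Fermat.Agent.S18.helper4801_GapAlg

set_option autoImplicit false

namespace Fermat.Agent.S18.helper2210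

open ModularCurve

/- The default instance `Algebra O (LaurentSeries O)` is `HahnSeries.powerSeriesAlgebra`, whose
scalar action is not reducibly the coefficientwise one.  In this file the coefficientwise algebra
structure is used (its module structure is the standard `HahnSeries.instModule`). -/
attribute [local instance 2000] HahnSeries.instAlgebra

section Series

/-- Laurent series without polar part, as a subalgebra.  The algebra structure is the
coefficientwise one (`HahnSeries.instAlgebra`, whose module structure is the standard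
`HahnSeries.instModule`), NOT the default `HahnSeries.powerSeriesAlgebra`. -/
def noPole (R : Type*) [CommRing R] : Subalgebra R (LaurentSeries R) where
  carrier := {x | ∀ i : ℤ, i < 0 → x.coeff i = 0}
  mul_mem' := by
    intro x y hx hy i hi
    rw [HahnSeries.coeff_mul]
    apply Finset.sum_eq_zero
    intro ab hab
    obtain ⟨h1, h2, h3⟩ := Finset.mem_antidiagonal.mp hab
    by_cases ha : ab.1 < 0
    · rw [hx _ ha, zero_mul]
    · have hb : ab.2 < 0 := by omega
      rw [hy _ hb, mul_zero]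
  add_mem' := by
    intro x y hx hy i hi
    rw [HahnSeries.coeff_add, hx i hi, hy i hi, add_zero]
  algebraMap_mem' := by
    intro r i hi
    show (HahnSeries.C r : LaurentSeries R).coeff i = 0
    rw [HahnSeries.C_apply, HahnSeries.coeff_single_of_ne hi.ne]

theorem mem_noPole {R : Type*} [CommRing R] (x : LaurentSeries R) :
    x ∈ noPole R ↔ ∀ i : ℤ, i < 0 → x.coeff i = 0 := Iff.rfl

/-- Laurent series with pole order at most `n`, as a submodule. -/
def ordGE (R : Type*) [CommRing R] (n : ℕ) : Submodule R (LaurentSeries R) where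
  carrier := {x | ∀ i : ℤ, i < -(n : ℤ) → x.coeff i = 0}
  add_mem' := by
    intro x y hx hy i hi
    rw [HahnSeries.coeff_add, hx i hi, hy i hi, add_zero]
  zero_mem' := by
    intro i _
    rfl
  smul_mem' := by
    intro c x hx i hi
    rw [HahnSeries.coeff_smul, hx i hi, smul_zero]

theorem mem_ordGE {R : Type*} [CommRing R] (n : ℕ) (x : LaurentSeries R) :
    x ∈ ordGE R n ↔ ∀ i : ℤ, i < -(n : ℤ) → x.coeff i = 0 := Iff.rfl

/-- The polar part `(c_{-1}, …, c_{-n})`, over any commutative ring. -/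
def polar (R : Type*) [CommRing R] (n : ℕ) : LaurentSeries R →ₗ[R] (Fin n → R) where
  toFun x := fun i => x.coeff (-((i : ℤ) + 1))
  map_add' x y := by
    ext i
    simp
  map_smul' a x := by
    ext i
    simp

@[simp]
theorem polar_apply {R : Type*} [CommRing R] (n : ℕ) (x : LaurentSeries R) (i : Fin n) :
    polar R n x i = x.coeff (-((i : ℤ) + 1)) := rfl

/-- A series of pole order at most `n` with vanishing polar part has no polar part. -/
theorem mem_noPole_of_polar_eq_zero {R : Type*} [CommRing R] (n : ℕ) (x : LaurentSeries R)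
    (hx : x ∈ ordGE R n) (h : polar R n x = 0) : x ∈ noPole R := by
  intro i hi
  by_cases hin : i < -(n : ℤ)
  · exact hx i hin
  · have hlt : (-i - 1).toNat < n := by omega
    have h2 := congrFun h ⟨(-i - 1).toNat, hlt⟩
    simp only [polar_apply, Pi.zero_apply] at h2
    have e : -(((-i - 1).toNat : ℤ) + 1) = i := by omega
    rwa [e] at h2

/-- Coefficientwise divisibility by a nonzero element of a domain is divisibility. -/
theorem exists_smul_of_dvd_coeff {R : Type*} [CommRing R] [IsDomain R] (a : R) (ha : a ≠ 0)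
    (x : LaurentSeries R) (h : ∀ i, a ∣ x.coeff i) : ∃ y : LaurentSeries R, x = a • y := by
  classical
  choose c hc using h
  have hsupp : Function.support c ⊆ x.support := by
    intro i hi
    rw [HahnSeries.mem_support, hc i]
    exact mul_ne_zero ha hi
  refine ⟨⟨c, x.isPWO_support.mono hsupp⟩, ?_⟩
  ext i
  rw [HahnSeries.coeff_smul, smul_eq_mul]
  exact hc i

/-- `coeffMap` is semilinear. -/
theorem coeffMap_smul {R S : Type*} [CommRing R] [CommRing S] (f : R →+* S) (a : R)
    (x : LaurentSeries R) : coeffMap f (a • x) = f a • coeffMap f x := by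
  ext i
  simp

theorem coeffMap_C {R S : Type*} [CommRing R] [CommRing S] (f : R →+* S) (a : R) :
    coeffMap f (HahnSeries.C a) = HahnSeries.C (f a) := by
  rw [HahnSeries.C_apply, HahnSeries.C_apply, coeffMap_single]

/-- The polar part of a series without polar part vanishes. -/
theorem polar_eq_zero_of_mem_noPole {R : Type*} [CommRing R] (n : ℕ) (x : LaurentSeries R)
    (hx : x ∈ noPole R) : polar R n x = 0 := by
  funext i
  rw [polar_apply]
  exact hx _ (by omega)

theorem coeffMap_mem_ordGE {R S : Type*} [CommRing R] [CommRing S] (f : R →+* S) (n : ℕ)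
    (x : LaurentSeries R) (hx : x ∈ ordGE R n) : coeffMap f x ∈ ordGE S n := by
  intro i hi
  rw [coeffMap_coeff, hx i hi, map_zero]

end Series


section Main

variable {O : Type*} [CommRing O] [IsDomain O] {κ : Type*} [Field κ]

/-- The kernel of reduction modulo `ϖ` on Laurent series is `ϖ • _`. -/
theorem exists_smul_of_coeffMap_eq_zero (ϖ : O) (hϖ0 : ϖ ≠ 0) (res : O →+* κ)
    (hres_ker : ∀ a, res a = 0 ↔ ϖ ∣ a) (x : LaurentSeries O) (h : coeffMap res x = 0) :
    ∃ y : LaurentSeries O, x = ϖ • y := by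
  apply exists_smul_of_dvd_coeff ϖ hϖ0
  intro i
  rw [← hres_ker, ← coeffMap_coeff, h]
  rfl

/-- Saturation of `noPole`. -/
theorem noPole_sat (ϖ : O) (hϖ0 : ϖ ≠ 0) (x : LaurentSeries O) (h : ϖ • x ∈ noPole O) :
    x ∈ noPole O := by
  intro i hi
  have := h i hi
  rw [HahnSeries.coeff_smul, smul_eq_mul] at this
  exact (mul_eq_zero.mp this).resolve_left hϖ0

/-- Saturation of `ordGE`. -/
theorem ordGE_sat (ϖ : O) (hϖ0 : ϖ ≠ 0) (n : ℕ) (x : LaurentSeries O)
    (h : ϖ • x ∈ ordGE O n) : x ∈ ordGE O n := by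
  intro i hi
  have := h i hi
  rw [HahnSeries.coeff_smul, smul_eq_mul] at this
  exact (mul_eq_zero.mp this).resolve_left hϖ0

/-- **(H3)** An element of `R1` whose polar part vanishes modulo `ϖ` is a constant modulo
`ϖ • R1`. -/
theorem exists_const_add_smul (ϖ : O) (hϖ0 : ϖ ≠ 0) (res : O →+* κ)
    (hres_ker : ∀ a, res a = 0 ↔ ϖ ∣ a)
    (R1 : Submodule O (LaurentSeries O)) (Bbar : Submodule κ (LaurentSeries κ))
    (h1 : (1 : LaurentSeries O) ∈ R1)
    (hR1sat : ∀ x, ϖ • x ∈ R1 → x ∈ R1)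
    (hR1red : ∀ x ∈ R1, coeffMap res x ∈ Bbar)
    (hconst : ∀ y ∈ Bbar, (∀ i : ℤ, i ≤ 0 → y.coeff i = 0) → y = 0)
    (z : LaurentSeries O) (hz : z ∈ R1)
    (hzw : ∃ w : LaurentSeries O, z - ϖ • w ∈ noPole O) :
    ∃ c : O, ∃ t ∈ R1, z = HahnSeries.C c + ϖ • t := by
  obtain ⟨w, hw⟩ := hzw
  have hC : HahnSeries.C (z.coeff 0) = z.coeff 0 • (1 : LaurentSeries O) := by
    rw [← HahnSeries.C_mul_eq_smul, mul_one]
  have hz' : z - HahnSeries.C (z.coeff 0) ∈ R1 := by
    rw [hC]
    exact R1.sub_mem hz (R1.smul_mem _ h1)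
  have hred0 : coeffMap res (z - HahnSeries.C (z.coeff 0)) = 0 := by
    apply hconst _ (hR1red _ hz')
    intro i hi
    rw [coeffMap_coeff, HahnSeries.coeff_sub, HahnSeries.C_apply]
    rcases hi.lt_or_eq with hi | rfl
    · rw [HahnSeries.coeff_single_of_ne hi.ne, sub_zero, hres_ker]
      have h0 := hw i hi
      rw [HahnSeries.coeff_sub, HahnSeries.coeff_smul, smul_eq_mul, sub_eq_zero] at h0
      exact ⟨_, h0⟩
    · rw [HahnSeries.coeff_single_same, sub_self, map_zero]
  obtain ⟨t, ht⟩ := exists_smul_of_coeffMap_eq_zero ϖ hϖ0 res hres_ker _ hred0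
  refine ⟨z.coeff 0, t, hR1sat t (ht ▸ hz'), ?_⟩
  rw [← ht]
  ring

omit [IsDomain O] in
/-- Bounded `ϖ`-power torsion in the cokernel of a submodule of a Noetherian module. -/
theorem exists_torsion_bound {M : Type*} [AddCommGroup M] [Module O M] [IsNoetherian O M]
    (ϖ : O) (P : Submodule O M) :
    ∃ e : ℕ, ∀ (x : M) (j : ℕ), ϖ ^ j • x ∈ P → ϖ ^ e • x ∈ P := by
  have hmono : ∀ {a b : ℕ}, a ≤ b → ∀ x : M, ϖ ^ a • x ∈ P → ϖ ^ b • x ∈ P := by
    intro a b hab x hx
    have : ϖ ^ b • x = ϖ ^ (b - a) • (ϖ ^ a • x) := by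
      rw [smul_smul, ← pow_add, Nat.sub_add_cancel hab]
    rw [this]
    exact P.smul_mem _ hx
  let f : ℕ →o Submodule O M :=
    ⟨fun k => P.comap (LinearMap.lsmul O M (ϖ ^ k)), fun a b hab x hx => hmono hab x hx⟩
  obtain ⟨e, he⟩ := monotone_stabilizes_iff_noetherian.mpr (inferInstance : IsNoetherian O M) f
  refine ⟨e, fun x j hx => ?_⟩
  rcases le_total j e with hje | hje
  · exact hmono hje x hx
  · have hxj : x ∈ f j := hx
    rw [← he j hje] at hxj
    exact hxj

/-- Laurent series over a domain are torsion-free over the base ring. -/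
theorem laurent_isTorsionFree (O : Type*) [CommRing O] [IsDomain O] :
    Module.IsTorsionFree O (LaurentSeries O) :=
  Module.IsTorsionFree.of_smul_eq_zero (fun r x h => by
    by_cases hr : r = 0
    · exact Or.inl hr
    · right
      ext i
      have := congrArg (fun z => z.coeff i) h
      simp only [HahnSeries.coeff_smul, smul_eq_mul, HahnSeries.coeff_zero] at this
      exact (mul_eq_zero.mp this).resolve_left hr)

variable [IsPrincipalIdealRing O]

/-- The lattice `Lam` has a finite `O`-basis whose reduction is `κ`-linearly independent. -/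
theorem exists_lattice_basis (ϖ : O) (hϖ0 : ϖ ≠ 0) (res : O →+* κ)
    (hres_surj : Function.Surjective res) (hres_ker : ∀ a, res a = 0 ↔ ϖ ∣ a) (n r : ℕ)
    (Lam : Submodule O (LaurentSeries O))
    (hLord : ∀ G ∈ Lam, G ∈ ordGE O n)
    (hLsat : ∀ x, ϖ • x ∈ Lam → x ∈ Lam)
    (hLinj : ∀ G ∈ Lam, G ∈ noPole O → G = 0)
    (hLrank : ∃ b : Fin r → LaurentSeries O, (∀ i, b i ∈ Lam) ∧ LinearIndependent O b) :
    ∃ (ρ : ℕ) (e : Fin ρ → LaurentSeries O), r ≤ ρ ∧ (∀ i, e i ∈ Lam) ∧
      (∀ G ∈ Lam, ∃ c : Fin ρ → O, G = ∑ i, c i • e i) ∧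
      LinearIndependent κ (fun i => coeffMap res (e i)) := by
  classical
  let φ : Lam →ₗ[O] (Fin n → O) := (polar O n).comp Lam.subtype
  have hφ : Function.Injective φ := by
    rw [← LinearMap.ker_eq_bot, LinearMap.ker_eq_bot']
    intro x hx
    apply Subtype.ext
    have hx' : polar O n (x : LaurentSeries O) = 0 := hx
    exact hLinj x x.2 (mem_noPole_of_polar_eq_zero n (x : LaurentSeries O) (hLord x x.2) hx')
  have hfin : Module.Finite O Lam := Module.Finite.of_injective φ hφ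
  have htf : Module.IsTorsionFree O (LaurentSeries O) := laurent_isTorsionFree O
  have hfree : Module.Free O Lam := Module.free_of_finite_type_torsion_free'
  let b := Module.finBasis O Lam
  refine ⟨Module.finrank O Lam, fun i => (b i : LaurentSeries O), ?_, fun i => (b i).2, ?_, ?_⟩
  · obtain ⟨b0, hb0, hli⟩ := hLrank
    have hli' : LinearIndependent O (fun i => (⟨b0 i, hb0 i⟩ : Lam)) := by
      apply LinearIndependent.of_comp Lam.subtype
      exact hli
    simpa using hli'.fintype_card_le_finrank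
  · intro G hG
    refine ⟨fun i => b.repr ⟨G, hG⟩ i, ?_⟩
    have h2 := congrArg Subtype.val (b.sum_repr ⟨G, hG⟩)
    simp only [Submodule.coe_sum, Submodule.coe_smul] at h2
    exact h2.symm
  · rw [Fintype.linearIndependent_iff]
    intro c hc i
    choose c' hc' using fun i => hres_surj (c i)
    have hmem : ((∑ i, c' i • b i : Lam) : LaurentSeries O) ∈ Lam := (∑ i, c' i • b i : Lam).2
    have hred0 : coeffMap res ((∑ i, c' i • b i : Lam) : LaurentSeries O) = 0 := by
      rw [← hc]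
      simp [coeffMap_smul, hc']
    obtain ⟨x, hx⟩ := exists_smul_of_coeffMap_eq_zero ϖ hϖ0 res hres_ker _ hred0
    have hxL : x ∈ Lam := hLsat x (hx ▸ hmem)
    have hcoord : (∑ i, c' i • b i : Lam) = ϖ • (⟨x, hxL⟩ : Lam) := by
      apply Subtype.ext
      rw [hx]
      rfl
    have hrepr := congrArg (fun v => b.repr v i) hcoord
    simp only [map_sum, map_smul, Module.Basis.repr_self, Finsupp.coe_smul, Pi.smul_apply,
      smul_eq_mul] at hrepr
    rw [← hc' i, hres_ker]
    refine ⟨b.repr ⟨x, hxL⟩ i, ?_⟩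
    rw [← hrepr]
    simp [Finsupp.single_apply]

/-- **(H4)** Every element of `Bbar` of pole order at most `n` is the reduction of an element of
`Lam`, as soon as `dim Bbar_{≤ n} ≤ r ≤ rank Lam`. -/
theorem exists_lift_of_finrank_le (ϖ : O) (hϖ0 : ϖ ≠ 0) (res : O →+* κ)
    (hres_surj : Function.Surjective res) (hres_ker : ∀ a, res a = 0 ↔ ϖ ∣ a) (n r : ℕ)
    (Lam : Submodule O (LaurentSeries O)) (Bbar : Submodule κ (LaurentSeries κ))
    (hLord : ∀ G ∈ Lam, G ∈ ordGE O n)
    (hLsat : ∀ x, ϖ • x ∈ Lam → x ∈ Lam)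
    (hLinj : ∀ G ∈ Lam, G ∈ noPole O → G = 0)
    (hLred : ∀ x ∈ Lam, coeffMap res x ∈ Bbar)
    (hLrank : ∃ b : Fin r → LaurentSeries O, (∀ i, b i ∈ Lam) ∧ LinearIndependent O b)
    (hfin : Module.Finite κ ↥(Bbar ⊓ ordGE κ n))
    (hdim : Module.finrank κ ↥(Bbar ⊓ ordGE κ n) ≤ r)
    (y : LaurentSeries κ) (hy : y ∈ Bbar) (hyn : y ∈ ordGE κ n) :
    ∃ G ∈ Lam, coeffMap res G = y := by
  classical
  obtain ⟨ρ, e, hρ, heL, -, hli⟩ :=
    exists_lattice_basis ϖ hϖ0 res hres_surj hres_ker n r Lam hLord hLsat hLinj hLrank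
  have hmemV : ∀ i, coeffMap res (e i) ∈ Bbar ⊓ ordGE κ n := fun i =>
    ⟨hLred _ (heL i), coeffMap_mem_ordGE res n _ (hLord _ (heL i))⟩
  let v : Fin ρ → ↥(Bbar ⊓ ordGE κ n) := fun i => ⟨coeffMap res (e i), hmemV i⟩
  have hvli : LinearIndependent κ v :=
    LinearIndependent.of_comp (Bbar ⊓ ordGE κ n).subtype hli
  have hle : ρ ≤ Module.finrank κ ↥(Bbar ⊓ ordGE κ n) := by
    simpa using hvli.fintype_card_le_finrank
  have hcard : Fintype.card (Fin ρ) = Module.finrank κ ↥(Bbar ⊓ ordGE κ n) := by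
    rw [Fintype.card_fin]
    omega
  have hspanV := hvli.span_eq_top_of_card_eq_finrank' hcard
  have hyV : (⟨y, hy, hyn⟩ : ↥(Bbar ⊓ ordGE κ n)) ∈ Submodule.span κ (Set.range v) := by
    rw [hspanV]
    trivial
  obtain ⟨c, hc⟩ := (Submodule.mem_span_range_iff_exists_fun κ).mp hyV
  choose c' hc' using fun i => hres_surj (c i)
  refine ⟨∑ i, c' i • e i, Lam.sum_mem (fun i _ => Lam.smul_mem _ (heL i)), ?_⟩
  have h2 := congrArg Subtype.val hc
  simp only [Submodule.coe_sum, Submodule.coe_smul] at h2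
  rw [map_sum, ← h2]
  refine Finset.sum_congr rfl (fun i _ => ?_)
  rw [coeffMap_smul, hc']

/-- **Polar-part induction, Laurent form, from a dimension bound** (twisted, fixed level `n`).
`r` is any number with `dim_κ Bbar_{≤ n} ≤ r ≤ rank_O Lam`. -/
theorem polar_induction_of_finrank_le
    (ϖ : O) (hϖ : Irreducible ϖ) (res : O →+* κ) (hres_surj : Function.Surjective res)
    (hres_ker : ∀ a, res a = 0 ↔ ϖ ∣ a)
    (p : ℕ) (hp : IsUnit (p : O)) (n r : ℕ)
    (R1 Lam : Submodule O (LaurentSeries O)) (Bbar : Submodule κ (LaurentSeries κ))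
    (u : LaurentSeries O) (hu : ∀ i : ℤ, i < 0 → u.coeff i = 0)
    (hu1 : ∀ i : ℤ, ϖ ∣ (u - 1).coeff i)
    (h1 : (1 : LaurentSeries O) ∈ R1)
    (hR1sat : ∀ x, ϖ • x ∈ R1 → x ∈ R1)
    (hR1red : ∀ x ∈ R1, coeffMap res x ∈ Bbar)
    (hLord : ∀ G ∈ Lam, ∀ i : ℤ, i < -(n : ℤ) → G.coeff i = 0)
    (hLsat : ∀ x, ϖ • x ∈ Lam → x ∈ Lam)
    (hLpow : ∀ G ∈ Lam, u * G ^ p ∈ R1)
    (hLinj : ∀ G ∈ Lam, (∀ i : ℤ, i < 0 → G.coeff i = 0) → G = 0)
    (hLred : ∀ x ∈ Lam, coeffMap res x ∈ Bbar)
    (hLrank : ∃ b : Fin r → LaurentSeries O, (∀ i, b i ∈ Lam) ∧ LinearIndependent O b)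
    (hconst : ∀ y ∈ Bbar, (∀ i : ℤ, i ≤ 0 → y.coeff i = 0) → y = 0)
    (hfin : Module.Finite κ ↥(Bbar ⊓ ordGE κ n))
    (hdim : Module.finrank κ ↥(Bbar ⊓ ordGE κ n) ≤ r) : False := by
  have hϖ0 : ϖ ≠ 0 := hϖ.ne_zero
  obtain ⟨v, hv⟩ := exists_smul_of_dvd_coeff ϖ hϖ0 (u - 1) hu1
  have huv : u = 1 + ϖ • v := by rw [← hv]; ring
  refine helper705.trackC_endgame_twisted ϖ p hp (noPole O) (ordGE O n) R1 Lam u v hu huv
    (noPole_sat ϖ hϖ0) ?hEn_pos (ordGE_sat ϖ hϖ0 n) hLord h1 hLpow hLinj ?hconst ?hred ?hBT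
    ?hone
  case hEn_pos =>
    intro x hx i hi
    exact hx i (by omega)
  case hconst =>
    exact fun z hz hzw =>
      exists_const_add_smul ϖ hϖ0 res hres_ker R1 Bbar h1 hR1sat hR1red hconst z hz hzw
  case hred =>
    rintro t ht ⟨w, hw⟩
    have hty : coeffMap res t ∈ ordGE κ n := by
      intro i hi
      have h0 := hw i hi
      rw [HahnSeries.coeff_sub, HahnSeries.coeff_smul, smul_eq_mul, sub_eq_zero] at h0
      rw [coeffMap_coeff, hres_ker]
      exact ⟨_, h0⟩
    obtain ⟨G, hG, hGt⟩ := exists_lift_of_finrank_le ϖ hϖ0 res hres_surj hres_ker n r Lam Bbar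
      hLord hLsat hLinj hLred hLrank hfin hdim _ (hR1red t ht) hty
    have h0 : coeffMap res (G - t) = 0 := by rw [map_sub, hGt, sub_self]
    obtain ⟨w', hw'⟩ := exists_smul_of_coeffMap_eq_zero ϖ hϖ0 res hres_ker _ h0
    exact ⟨G, hG, w', by rw [← hw']; ring⟩
  case hBT =>
    obtain ⟨e, he⟩ :=
      exists_torsion_bound ϖ (LinearMap.range ((polar O n).comp Lam.subtype))
    refine ⟨e, ?_⟩
    rintro Psi hPsi j ⟨G, hG, hGmem⟩
    have hpol : ϖ ^ j • polar O n Psi = polar O n G := by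
      have h0 := polar_eq_zero_of_mem_noPole n _ hGmem
      rw [map_sub, map_smul, sub_eq_zero] at h0
      exact h0
    have hmem : ϖ ^ j • polar O n Psi ∈ LinearMap.range ((polar O n).comp Lam.subtype) := by
      rw [hpol]
      exact ⟨⟨G, hG⟩, rfl⟩
    obtain ⟨G'', hG''⟩ := he _ j hmem
    refine ⟨G'', G''.2, ?_⟩
    apply mem_noPole_of_polar_eq_zero n
    · exact (ordGE O n).sub_mem ((ordGE O n).smul_mem _ hPsi) (hLord _ G''.2)
    · rw [map_sub, map_smul, sub_eq_zero]
      exact hG''.symm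
  case hone =>
    rintro ⟨w, hw⟩
    have h0 := congrArg (fun z => z.coeff 0) hw
    simp only [HahnSeries.coeff_one, HahnSeries.coeff_smul, smul_eq_mul, if_true] at h0
    exact hϖ.not_isUnit (IsUnit.of_mul_eq_one _ h0.symm)

/-- **Polar-part induction, Laurent form** (twisted, fixed level `n`; leaf D6 of track C).
The dimension bound is obtained from the residue relations (KL) against `g` series `fbar r`
whose `n`-truncations are linearly independent (`helper4801.finrank_add_le_of_polar`). -/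
theorem polar_induction_twisted
    (ϖ : O) (hϖ : Irreducible ϖ) (res : O →+* κ) (hres_surj : Function.Surjective res)
    (hres_ker : ∀ a, res a = 0 ↔ ϖ ∣ a)
    (p : ℕ) (hp : IsUnit (p : O)) (n g : ℕ)
    (R1 Lam : Submodule O (LaurentSeries O)) (Bbar : Submodule κ (LaurentSeries κ))
    (fbar : Fin g → LaurentSeries κ)
    (u : LaurentSeries O) (hu : ∀ i : ℤ, i < 0 → u.coeff i = 0)
    (hu1 : ∀ i : ℤ, ϖ ∣ (u - 1).coeff i)
    (h1 : (1 : LaurentSeries O) ∈ R1)
    (hR1sat : ∀ x, ϖ • x ∈ R1 → x ∈ R1)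
    (hR1red : ∀ x ∈ R1, coeffMap res x ∈ Bbar)
    (hLord : ∀ G ∈ Lam, ∀ i : ℤ, i < -(n : ℤ) → G.coeff i = 0)
    (hLsat : ∀ x, ϖ • x ∈ Lam → x ∈ Lam)
    (hLpow : ∀ G ∈ Lam, u * G ^ p ∈ R1)
    (hLinj : ∀ G ∈ Lam, (∀ i : ℤ, i < 0 → G.coeff i = 0) → G = 0)
    (hLred : ∀ x ∈ Lam, coeffMap res x ∈ Bbar)
    (hLrank : ∃ b : Fin (n + 1 - g) → LaurentSeries O,
      (∀ i, b i ∈ Lam) ∧ LinearIndependent O b)
    (hconst : ∀ y ∈ Bbar, (∀ i : ℤ, i ≤ 0 → y.coeff i = 0) → y = 0)
    (hKL : ∀ y ∈ Bbar, ∀ r, (y * fbar r).coeff 0 = 0)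
    (hf0 : ∀ r, ∀ j : ℤ, j ≤ 0 → (fbar r).coeff j = 0)
    (hfind : LinearIndependent κ
      (fun r : Fin g => fun j : Fin n => (fbar r).coeff ((j : ℤ) + 1))) : False := by
  have h1bar : (1 : LaurentSeries κ) ∈ Bbar := by
    have h := hR1red 1 h1
    rwa [map_one] at h
  have hG3 := helper4801.finrank_add_le_of_polar n g (Bbar ⊓ ordGE κ n) fbar
    (fun x hx => hx.2) ?_ hf0 (fun x hx r => hKL x hx.1 r) hfind
  · exact polar_induction_of_finrank_le ϖ hϖ res hres_surj hres_ker p hp n (n + 1 - g) R1 Lam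
      Bbar u hu hu1 h1 hR1sat hR1red hLord hLsat hLpow hLinj hLred hLrank hconst hG3.1
      (by have := hG3.2; omega)
  · intro x hx hneg
    refine ⟨x.coeff 0, ?_⟩
    have hC : HahnSeries.C (x.coeff 0) = x.coeff 0 • (1 : LaurentSeries κ) := by
      rw [← HahnSeries.C_mul_eq_smul, mul_one]
    have hmem : x - HahnSeries.C (x.coeff 0) ∈ Bbar := by
      rw [hC]
      exact Bbar.sub_mem hx.1 (Bbar.smul_mem _ h1bar)
    have h0 := hconst _ hmem (by
      intro i hi
      rw [HahnSeries.coeff_sub, HahnSeries.C_apply]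
      rcases hi.lt_or_eq with hi | rfl
      · rw [HahnSeries.coeff_single_of_ne hi.ne, sub_zero]
        exact hneg i hi
      · rw [HahnSeries.coeff_single_same, sub_self])
    exact sub_eq_zero.mp h0

/-- **Untwisted form** (`u = 1`: `Lam` = expansions of `h * f` with `h ^ p` the Kummer element),
as announced in team chat #153. -/
theorem polar_induction_false
    (ϖ : O) (hϖ : Irreducible ϖ) (res : O →+* κ) (hres_surj : Function.Surjective res)
    (hres_ker : ∀ a, res a = 0 ↔ ϖ ∣ a)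
    (p : ℕ) (hp : IsUnit (p : O)) (n g : ℕ)
    (R1 Lam : Submodule O (LaurentSeries O)) (Bbar : Submodule κ (LaurentSeries κ))
    (fbar : Fin g → LaurentSeries κ)
    (h1 : (1 : LaurentSeries O) ∈ R1)
    (hR1sat : ∀ x, ϖ • x ∈ R1 → x ∈ R1)
    (hR1red : ∀ x ∈ R1, coeffMap res x ∈ Bbar)
    (hLord : ∀ G ∈ Lam, ∀ i : ℤ, i < -(n : ℤ) → G.coeff i = 0)
    (hLsat : ∀ x, ϖ • x ∈ Lam → x ∈ Lam)
    (hLpow : ∀ G ∈ Lam, G ^ p ∈ R1)
    (hLinj : ∀ G ∈ Lam, (∀ i : ℤ, i < 0 → G.coeff i = 0) → G = 0)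
    (hLred : ∀ x ∈ Lam, coeffMap res x ∈ Bbar)
    (hLrank : ∃ b : Fin (n + 1 - g) → LaurentSeries O,
      (∀ i, b i ∈ Lam) ∧ LinearIndependent O b)
    (hconst : ∀ y ∈ Bbar, (∀ i : ℤ, i ≤ 0 → y.coeff i = 0) → y = 0)
    (hKL : ∀ y ∈ Bbar, ∀ r, (y * fbar r).coeff 0 = 0)
    (hf0 : ∀ r, ∀ j : ℤ, j ≤ 0 → (fbar r).coeff j = 0)
    (hfind : LinearIndependent κ
      (fun r : Fin g => fun j : Fin n => (fbar r).coeff ((j : ℤ) + 1))) : False :=
  polar_induction_twisted ϖ hϖ res hres_surj hres_ker p hp n g R1 Lam Bbar fbar 1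
    (fun i hi => by rw [HahnSeries.coeff_one, if_neg hi.ne])
    (fun i => by rw [sub_self]; exact ⟨0, by simp⟩)
    h1 hR1sat hR1red hLord hLsat (fun G hG => by rw [one_mul]; exact hLpow G hG) hLinj hLred
    hLrank hconst hKL hf0 hfind

/-- **Existence form**: under the hypotheses of `polar_induction_twisted` other than `hLinj`,
the lattice `Lam` contains a nonzero series without polar part. -/
theorem exists_ne_zero_mem_noPole
    (ϖ : O) (hϖ : Irreducible ϖ) (res : O →+* κ) (hres_surj : Function.Surjective res)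
    (hres_ker : ∀ a, res a = 0 ↔ ϖ ∣ a)
    (p : ℕ) (hp : IsUnit (p : O)) (n g : ℕ)
    (R1 Lam : Submodule O (LaurentSeries O)) (Bbar : Submodule κ (LaurentSeries κ))
    (fbar : Fin g → LaurentSeries κ)
    (u : LaurentSeries O) (hu : ∀ i : ℤ, i < 0 → u.coeff i = 0)
    (hu1 : ∀ i : ℤ, ϖ ∣ (u - 1).coeff i)
    (h1 : (1 : LaurentSeries O) ∈ R1)
    (hR1sat : ∀ x, ϖ • x ∈ R1 → x ∈ R1)
    (hR1red : ∀ x ∈ R1, coeffMap res x ∈ Bbar)
    (hLord : ∀ G ∈ Lam, ∀ i : ℤ, i < -(n : ℤ) → G.coeff i = 0)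
    (hLsat : ∀ x, ϖ • x ∈ Lam → x ∈ Lam)
    (hLpow : ∀ G ∈ Lam, u * G ^ p ∈ R1)
    (hLred : ∀ x ∈ Lam, coeffMap res x ∈ Bbar)
    (hLrank : ∃ b : Fin (n + 1 - g) → LaurentSeries O,
      (∀ i, b i ∈ Lam) ∧ LinearIndependent O b)
    (hconst : ∀ y ∈ Bbar, (∀ i : ℤ, i ≤ 0 → y.coeff i = 0) → y = 0)
    (hKL : ∀ y ∈ Bbar, ∀ r, (y * fbar r).coeff 0 = 0)
    (hf0 : ∀ r, ∀ j : ℤ, j ≤ 0 → (fbar r).coeff j = 0)
    (hfind : LinearIndependent κ
      (fun r : Fin g => fun j : Fin n => (fbar r).coeff ((j : ℤ) + 1))) :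
    ∃ G ∈ Lam, G ≠ 0 ∧ ∀ i : ℤ, i < 0 → G.coeff i = 0 := by
  by_contra hcon
  refine polar_induction_twisted ϖ hϖ res hres_surj hres_ker p hp n g R1 Lam Bbar fbar u hu hu1
    h1 hR1sat hR1red hLord hLsat hLpow (fun G hG hGpos => ?_) hLred hLrank hconst hKL hf0 hfind
  by_contra hG0
  exact hcon ⟨G, hG, hG0, hGpos⟩

end Main

section Ext

/-- Linear independence of Laurent series survives an arbitrary extension of the coefficient
field (the argument of `helper2149.linearIndependent_map_field`, coefficientwise). -/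
theorem linearIndependent_coeffMap {κ₀ κ : Type*} [Field κ₀] [Field κ] (ι : κ₀ →+* κ)
    {J : Type*} {y : J → LaurentSeries κ₀} (hy : LinearIndependent κ₀ y) :
    LinearIndependent κ (fun j => coeffMap ι (y j)) := by
  let _ : Algebra κ₀ κ := ι.toAlgebra
  rw [linearIndependent_iff'] at hy ⊢
  intro s g hg i hi
  rw [← Module.forall_dual_apply_eq_zero_iff κ₀ (g i)]
  intro ρ
  refine hy s (fun j => ρ (g j)) ?_ i hi
  ext n
  have h := congrArg (fun z : LaurentSeries κ => z.coeff n) hg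
  simp only [HahnSeries.coeff_sum, HahnSeries.coeff_smul, coeffMap_coeff, smul_eq_mul,
    HahnSeries.coeff_zero] at h ⊢
  have h2 := congrArg ρ h
  rw [map_sum, map_zero] at h2
  rw [← h2]
  refine Finset.sum_congr rfl fun j _ => ?_
  have h3 : g j * ι ((y j).coeff n) = ((y j).coeff n) • g j := by
    rw [Algebra.smul_def, mul_comm]
    rfl
  rw [h3, map_smul, smul_eq_mul, mul_comm]

/-- A `κ₀`-space of series whose extensions of scalars lie in a finite-dimensional `κ`-space `V`
is finite-dimensional of dimension at most `dim_κ V`. -/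
theorem finrank_le_of_coeffMap_mem {κ₀ κ : Type*} [Field κ₀] [Field κ] (ι : κ₀ →+* κ)
    (V₀ : Submodule κ₀ (LaurentSeries κ₀)) (V : Submodule κ (LaurentSeries κ))
    (hV : ∀ y ∈ V₀, coeffMap ι y ∈ V) (hfin : Module.Finite κ V) :
    Module.Finite κ₀ V₀ ∧ Module.finrank κ₀ V₀ ≤ Module.finrank κ V := by
  classical
  have hrank : Module.rank κ₀ V₀ ≤ ((Module.finrank κ V : ℕ) : Cardinal) := by
    apply rank_le
    intro s hs
    have h1 : LinearIndependent κ₀ (fun i : s => ((i : V₀) : LaurentSeries κ₀)) :=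
      hs.map' V₀.subtype (Submodule.ker_subtype _)
    have h2 := linearIndependent_coeffMap ι h1
    have h3 : LinearIndependent κ
        (fun i : s => (⟨coeffMap ι ((i : V₀) : LaurentSeries κ₀), hV _ (i : V₀).2⟩ : V)) :=
      LinearIndependent.of_comp V.subtype h2
    simpa using h3.fintype_card_le_finrank
  have hlt : Module.rank κ₀ V₀ < Cardinal.aleph0 :=
    lt_of_le_of_lt hrank (Cardinal.natCast_lt_aleph0)
  exact ⟨Module.rank_lt_aleph0_iff.mp hlt, Module.finrank_le_of_rank_le hrank⟩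

variable {O : Type*} [CommRing O] [IsDomain O] [IsPrincipalIdealRing O] {κ : Type*} [Field κ]

/-- **Polar-part induction, Laurent form, over an arbitrary extension of the residue field**
(twisted, fixed level `n`).  Here `red : O →+* κ` is ANY ring homomorphism into a field with
kernel `(ϖ)` (no surjectivity: `κ` may be an algebraic closure of the residue field of `O`), and
`B`, `fbar` live over `κ`.  `hconst` is in the form of `helper99.Stmt_Bbar`. -/
theorem polar_induction_twisted_ext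
    (ϖ : O) (hϖ : Irreducible ϖ) (red : O →+* κ) (hred_ker : ∀ a, red a = 0 ↔ ϖ ∣ a)
    (p : ℕ) (hp : IsUnit (p : O)) (n g : ℕ)
    (R1 Lam : Submodule O (LaurentSeries O)) (B : Submodule κ (LaurentSeries κ))
    (fbar : Fin g → LaurentSeries κ)
    (u : LaurentSeries O) (hu : ∀ i : ℤ, i < 0 → u.coeff i = 0)
    (hu1 : ∀ i : ℤ, ϖ ∣ (u - 1).coeff i)
    (h1 : (1 : LaurentSeries O) ∈ R1)
    (hR1sat : ∀ x, ϖ • x ∈ R1 → x ∈ R1)
    (hR1red : ∀ x ∈ R1, coeffMap red x ∈ B)
    (hLord : ∀ G ∈ Lam, ∀ i : ℤ, i < -(n : ℤ) → G.coeff i = 0)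
    (hLsat : ∀ x, ϖ • x ∈ Lam → x ∈ Lam)
    (hLpow : ∀ G ∈ Lam, u * G ^ p ∈ R1)
    (hLinj : ∀ G ∈ Lam, (∀ i : ℤ, i < 0 → G.coeff i = 0) → G = 0)
    (hLred : ∀ x ∈ Lam, coeffMap red x ∈ B)
    (hLrank : ∃ b : Fin (n + 1 - g) → LaurentSeries O,
      (∀ i, b i ∈ Lam) ∧ LinearIndependent O b)
    (hconst : ∀ y ∈ B, (∀ i : ℤ, i < 0 → y.coeff i = 0) → ∃ c : κ, y = HahnSeries.C c)
    (hKL : ∀ y ∈ B, ∀ r, (y * fbar r).coeff 0 = 0)
    (hf0 : ∀ r, ∀ j : ℤ, j ≤ 0 → (fbar r).coeff j = 0)
    (hfind : LinearIndependent κ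
      (fun r : Fin g => fun j : Fin n => (fbar r).coeff ((j : ℤ) + 1))) : False := by
  classical
  -- the residue field of `O` and its embedding into `κ`
  have hmax : (Ideal.span ({ϖ} : Set O)).IsMaximal :=
    PrincipalIdealRing.isMaximal_of_irreducible hϖ
  let _ : Field (O ⧸ Ideal.span ({ϖ} : Set O)) := Ideal.Quotient.field _
  let res : O →+* (O ⧸ Ideal.span ({ϖ} : Set O)) := Ideal.Quotient.mk _
  have hres_surj : Function.Surjective res := Ideal.Quotient.mk_surjective
  have hres_ker : ∀ a, res a = 0 ↔ ϖ ∣ a := fun a => by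
    rw [Ideal.Quotient.eq_zero_iff_mem, Ideal.mem_span_singleton]
  let ι : (O ⧸ Ideal.span ({ϖ} : Set O)) →+* κ :=
    Ideal.Quotient.lift _ red (fun a ha => (hred_ker a).mpr (Ideal.mem_span_singleton.mp ha))
  have hιres : ∀ x : LaurentSeries O, coeffMap ι (coeffMap res x) = coeffMap red x := by
    intro x
    ext i
    simp only [coeffMap_coeff]
    exact Ideal.Quotient.lift_mk _ _ _
  have hιinj : ∀ y : LaurentSeries (O ⧸ Ideal.span ({ϖ} : Set O)), coeffMap ι y = 0 → y = 0 := by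
    intro y hy
    ext i
    have h0 := congrArg (fun z : LaurentSeries κ => z.coeff i) hy
    simp only [coeffMap_coeff, HahnSeries.coeff_zero] at h0
    exact (map_eq_zero ι).mp h0
  -- the pull-back of `B`
  let B₀ : Submodule (O ⧸ Ideal.span ({ϖ} : Set O))
      (LaurentSeries (O ⧸ Ideal.span ({ϖ} : Set O))) :=
    { carrier := {y | coeffMap ι y ∈ B}
      add_mem' := by
        intro x y hx hy
        show coeffMap ι (x + y) ∈ B
        rw [map_add]
        exact B.add_mem hx hy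
      zero_mem' := by
        show coeffMap ι 0 ∈ B
        rw [map_zero]
        exact B.zero_mem
      smul_mem' := by
        intro c x hx
        show coeffMap ι (c • x) ∈ B
        rw [coeffMap_smul]
        exact B.smul_mem _ hx }
  have h1B : (1 : LaurentSeries κ) ∈ B := by
    have h := hR1red 1 h1
    rwa [map_one] at h
  -- dimension count over `κ`, transported to the residue field of `O`
  have hG3 := helper4801.finrank_add_le_of_polar n g (B ⊓ ordGE κ n) fbar
    (fun x hx => hx.2) (fun x hx hneg => hconst x hx.1 hneg) hf0 (fun x hx r => hKL x hx.1 r)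
    hfind
  have hcmp := finrank_le_of_coeffMap_mem ι (B₀ ⊓ ordGE _ n) (B ⊓ ordGE κ n)
    (fun y hy => ⟨hy.1, coeffMap_mem_ordGE ι n y hy.2⟩) hG3.1
  refine polar_induction_of_finrank_le ϖ hϖ res hres_surj hres_ker p hp n (n + 1 - g) R1 Lam
    B₀ u hu hu1 h1 hR1sat (fun x hx => ?_) hLord hLsat hLpow hLinj (fun x hx => ?_) hLrank
    (fun y hy hy0 => ?_) hcmp.1 (by have := hG3.2; have := hcmp.2; omega)
  · show coeffMap ι (coeffMap res x) ∈ B
    rw [hιres]
    exact hR1red x hx
  · show coeffMap ι (coeffMap res x) ∈ B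
    rw [hιres]
    exact hLred x hx
  · apply hιinj
    have hyB : coeffMap ι y ∈ B := hy
    obtain ⟨c, hc⟩ := hconst _ hyB (fun i hi => by
      rw [coeffMap_coeff, hy0 i hi.le, map_zero])
    have hc0 : c = 0 := by
      have h0 := congrArg (fun z : LaurentSeries κ => z.coeff 0) hc
      simp only [coeffMap_coeff, hy0 0 le_rfl, map_zero, HahnSeries.C_apply,
        HahnSeries.coeff_single_same] at h0
      exact h0.symm
    rw [hc, hc0, map_zero]

end Ext

end Fermat.Agent.S18.helper2210
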