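/-
S18 leaf (helper6895): Hauptmodul identities at levels 2 and 3, WITHOUT eta-products.

All identities are obtained from six low-weight identities between modular forms on `Γ₀(2)` and
`Γ₀(3)`, each proved by the Prelude Sturm bound from the first two or three `q`-coefficients.
-/
import Mathlib
import Fermat.Prelude.Thm_ModularForm_sturm_bound_Gamma0
import Fermat.Agent.S16.helper8794_EisensteinP
import Fermat.Agent.Lib.helper1219_LevelRaise
import Fermat.Agent.Lib.helper1356_Gamma0Index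

set_option autoImplicit false

open UpperHalfPlane ModularForm EisensteinSeries CongruenceSubgroup
open scoped MatrixGroups ModularForm

namespace Fermat.Agent.S18.helper6895

noncomputable section

open Fermat.Agent.Lib.helper1219 (diagMat coe_diagMat_smul levelRaise levelRaise_apply
  qExpansion_levelRaise_coeff)
open Fermat.Agent.S16.helper8794 (eisP eisFun eisFun_apply qExpansion_eisP_coeff eisCoeff
  sigmaPrime)

/-! ### The point `N z` and the basic forms of level `N` -/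

/-- The point `N · z` of the upper half plane. -/
def dil (N : ℕ) [NeZero N] (z : ℍ) : ℍ := diagMat N • z

theorem coe_dil (N : ℕ) [NeZero N] (z : ℍ) : ((dil N z : ℍ) : ℂ) = (N : ℂ) * (z : ℂ) :=
  coe_diagMat_smul N z

theorem heckeDiagMatrix_smul_eq_dil (N : ℕ) [NeZero N] (z : ℍ) :
    heckeDiagMatrix N • z = dil N z := by
  apply UpperHalfPlane.ext
  rw [coe_heckeDiagMatrix_smul (NeZero.ne N), coe_dil]

/-- A level one form, regarded as a form on `Γ₀(N)`. -/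
def res (N : ℕ) {k : ℤ} (f : ModularForm 𝒮ℒ k) : ModularForm (Gamma0 N) k where
  toFun := f
  slash_action_eq' γ hγ := f.slash_action_eq' γ (Subgroup.map_le_range _ _ hγ)
  holo' := f.holo'
  bdd_at_cusps' hc := f.bdd_at_cusps' (hc.mono (Subgroup.map_le_range _ _))

@[simp] theorem res_apply (N : ℕ) {k : ℤ} (f : ModularForm 𝒮ℒ k) (z : ℍ) : res N f z = f z := rfl

theorem qExpansion_res (N : ℕ) {k : ℤ} (f : ModularForm 𝒮ℒ k) :
    qExpansion 1 (res N f) = qExpansion 1 f := rfl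

/-- `z ↦ f (N z)` as a form on `Γ₀(N)`. -/
def vee (N : ℕ) [NeZero N] {k : ℤ} (f : ModularForm 𝒮ℒ k) : ModularForm (Gamma0 N) k :=
  levelRaise N N dvd_rfl f

@[simp] theorem vee_apply (N : ℕ) [NeZero N] {k : ℤ} (f : ModularForm 𝒮ℒ k) (z : ℍ) :
    vee N f z = f (dil N z) := levelRaise_apply N N dvd_rfl f z

theorem qExpansion_vee_coeff (N : ℕ) [NeZero N] {k : ℤ} (f : ModularForm 𝒮ℒ k) (m : ℕ) :
    (qExpansion 1 (vee N f)).coeff m = if N ∣ m then (qExpansion 1 f).coeff (m / N) else 0 :=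
  qExpansion_levelRaise_coeff N N dvd_rfl f m


/-! ### Truncation of power series modulo `X ^ n` -/

/-- The ideal `(X ^ n)` of `ℂ⟦X⟧`. -/
def trI (n : ℕ) : Ideal (PowerSeries ℂ) := Ideal.span {(PowerSeries.X : PowerSeries ℂ) ^ n}

/-- The truncation map `ℂ⟦X⟧ → ℂ⟦X⟧ / (X ^ n)`. -/
def trπ (n : ℕ) : PowerSeries ℂ →+* (PowerSeries ℂ ⧸ trI n) := Ideal.Quotient.mk (trI n)

theorem trπ_eq_zero_iff (n : ℕ) (f : PowerSeries ℂ) :
    trπ n f = 0 ↔ ∀ m < n, f.coeff m = 0 := by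
  rw [trπ, Ideal.Quotient.eq_zero_iff_mem, trI, Ideal.mem_span_singleton,
    PowerSeries.X_pow_dvd_iff]

theorem trπ_X_pow (n : ℕ) : trπ n PowerSeries.X ^ n = 0 := by
  rw [← map_pow, trπ_eq_zero_iff]
  intro m hm
  rw [PowerSeries.coeff_X_pow, if_neg hm.ne]

theorem trπ_two_eq (f : PowerSeries ℂ) (c0 c1 : ℂ) (h0 : f.coeff 0 = c0) (h1 : f.coeff 1 = c1) :
    trπ 2 f = trπ 2 (PowerSeries.C c0) + trπ 2 (PowerSeries.C c1) * trπ 2 PowerSeries.X := by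
  rw [← sub_eq_zero, ← map_mul, ← map_add, ← map_sub, trπ_eq_zero_iff]
  subst h0 h1
  intro m hm
  interval_cases m
  · simp
  · simp

theorem trπ_three_eq (f : PowerSeries ℂ) (c0 c1 c2 : ℂ) (h0 : f.coeff 0 = c0)
    (h1 : f.coeff 1 = c1) (h2 : f.coeff 2 = c2) :
    trπ 3 f = trπ 3 (PowerSeries.C c0) + trπ 3 (PowerSeries.C c1) * trπ 3 PowerSeries.X +
      trπ 3 (PowerSeries.C c2) * trπ 3 PowerSeries.X ^ 2 := by
  rw [← sub_eq_zero, ← map_pow, ← map_mul, ← map_mul, ← map_add, ← map_add, ← map_sub,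
    trπ_eq_zero_iff]
  subst h0 h1 h2
  intro m hm
  interval_cases m
  · simp
  · simp
  · simp [PowerSeries.coeff_X_pow]

/-! ### Sturm bound at levels 2 and 3 -/

theorem index_Gamma0_two : (Gamma0 2).index = 3 := by
  have h := Fermat.Agent.Lib.helper1356.relIndex_Gamma0_mul_prime (M := 1) (p := 2)
    Nat.prime_two one_ne_zero
  rw [Fermat.Agent.Lib.helper1356.Gamma0_one_eq_top, Subgroup.relIndex_top_right] at h
  simpa using h

theorem index_Gamma0_three : (Gamma0 3).index = 4 := by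
  have h := Fermat.Agent.Lib.helper1356.relIndex_Gamma0_mul_prime (M := 1) (p := 3)
    Nat.prime_three one_ne_zero
  rw [Fermat.Agent.Lib.helper1356.Gamma0_one_eq_top, Subgroup.relIndex_top_right] at h
  simpa using h

/-- Sturm at level 2: a form of weight `k` on `Γ₀(2)` whose `q`-expansion vanishes modulo `X ^ n`
with `k / 4 < n` is zero. -/
theorem eq_zero_of_trπ_two {k : ℤ} (f : ModularForm (Gamma0 2) k) (n : ℕ)
    (hn : (k * 3).toNat / 12 < n) (h : trπ n (qExpansion 1 f) = 0) : f = 0 := by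
  refine ModularForm.sturm_bound_Gamma0 2 f fun m hm => (trπ_eq_zero_iff n _).mp h m ?_
  rw [index_Gamma0_two] at hm
  exact lt_of_le_of_lt hm hn

/-- Sturm at level 3: a form of weight `k` on `Γ₀(3)` whose `q`-expansion vanishes modulo `X ^ n`
with `k / 3 < n` is zero. -/
theorem eq_zero_of_trπ_three {k : ℤ} (f : ModularForm (Gamma0 3) k) (n : ℕ)
    (hn : (k * 4).toNat / 12 < n) (h : trπ n (qExpansion 1 f) = 0) : f = 0 := by
  refine ModularForm.sturm_bound_Gamma0 3 f fun m hm => (trπ_eq_zero_iff n _).mp h m ?_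
  rw [index_Gamma0_three] at hm
  exact lt_of_le_of_lt hm hn

/-! ### `q`-expansions of sums and products at level `N` -/

section qexp

variable {N : ℕ} {k l : ℤ}

theorem qe_add (f g : ModularForm (Gamma0 N) k) :
    qExpansion 1 (⇑(f + g)) = qExpansion 1 f + qExpansion 1 g := by
  rw [FunLike.coe_add]
  exact ModularForm.qExpansion_add one_pos (one_mem_strictPeriods_Gamma0 N) f g

theorem qe_sub (f g : ModularForm (Gamma0 N) k) :
    qExpansion 1 (⇑(f - g)) = qExpansion 1 f - qExpansion 1 g := by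
  rw [FunLike.coe_sub]
  exact ModularForm.qExpansion_sub one_pos (one_mem_strictPeriods_Gamma0 N) f g

theorem qe_smul (c : ℂ) (f : ModularForm (Gamma0 N) k) :
    qExpansion 1 (⇑(c • f)) = PowerSeries.C c * qExpansion 1 f := by
  rw [FunLike.coe_smul, ← PowerSeries.smul_eq_C_mul]
  exact ModularForm.qExpansion_smul one_pos (one_mem_strictPeriods_Gamma0 N) c f

theorem qe_mul (f : ModularForm (Gamma0 N) k) (g : ModularForm (Gamma0 N) l) :
    qExpansion 1 (f.mul g) = qExpansion 1 f * qExpansion 1 g :=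
  ModularForm.qExpansion_mul one_pos (one_mem_strictPeriods_Gamma0 N) f g

theorem qe_mcast {k' : ℤ} (h : k = k') (f : ModularForm (Gamma0 N) k) :
    qExpansion 1 (ModularForm.mcast h f) = qExpansion 1 f := rfl

end qexp


/-! ### Basic `q`-coefficients -/

theorem E₄_coeff_zero : (qExpansion 1 E₄).coeff 0 = 1 := E_qExpansion_coeff_zero _ ⟨2, rfl⟩

theorem E₄_coeff_one : (qExpansion 1 E₄).coeff 1 = 240 := E₄_qExpansion_coeff_one

theorem E₄_coeff_two : (qExpansion 1 E₄).coeff 2 = 2160 := by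
  norm_num [E_qExpansion_coeff _ ⟨2, rfl⟩, show bernoulli 4 = -1 / 30 by decide +kernel,
    show ArithmeticFunction.sigma 3 2 = 9 by decide]

theorem E₆_coeff_zero : (qExpansion 1 E₆).coeff 0 = 1 := E_qExpansion_coeff_zero _ ⟨3, rfl⟩

theorem E₆_coeff_one : (qExpansion 1 E₆).coeff 1 = -504 := E₆_qExpansion_coeff_one

theorem E₆_coeff_two : (qExpansion 1 E₆).coeff 2 = -16632 := by
  norm_num [E_qExpansion_coeff _ ⟨3, rfl⟩, show bernoulli 6 = 1 / 42 by decide +kernel,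
    show ArithmeticFunction.sigma 5 2 = 33 by decide]

/-- `E₄(z)` as a form on `Γ₀(N)`. -/
def e4 (N : ℕ) : ModularForm (Gamma0 N) 4 := res N E₄

/-- `E₆(z)` as a form on `Γ₀(N)`. -/
def e6 (N : ℕ) : ModularForm (Gamma0 N) 6 := res N E₆

/-- `E₄(N z)` as a form on `Γ₀(N)`. -/
def v4 (N : ℕ) [NeZero N] : ModularForm (Gamma0 N) 4 := vee N E₄

/-- `E₆(N z)` as a form on `Γ₀(N)`. -/
def v6 (N : ℕ) [NeZero N] : ModularForm (Gamma0 N) 6 := vee N E₆

/-- `ε₂(z) = 2 E₂(2z) - E₂(z)`, of weight 2 on `Γ₀(2)`. -/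
def eps2 : ModularForm (Gamma0 2) 2 := (24 : ℂ) • eisP 2

/-- `ε₃(z) = (3 E₂(3z) - E₂(z)) / 2`, of weight 2 on `Γ₀(3)`. -/
def eps3 : ModularForm (Gamma0 3) 2 := (12 : ℂ) • eisP 3

@[simp] theorem e4_apply (N : ℕ) (z : ℍ) : e4 N z = E₄ z := rfl

@[simp] theorem e6_apply (N : ℕ) (z : ℍ) : e6 N z = E₆ z := rfl

@[simp] theorem v4_apply (N : ℕ) [NeZero N] (z : ℍ) : v4 N z = E₄ (dil N z) := vee_apply N E₄ z

@[simp] theorem v6_apply (N : ℕ) [NeZero N] (z : ℍ) : v6 N z = E₆ (dil N z) := vee_apply N E₆ z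

theorem eps2_apply (z : ℍ) : eps2 z = 2 * E2 (dil 2 z) - E2 z := by
  show (24 : ℂ) * eisFun 2 z = _
  rw [eisFun_apply two_ne_zero, heckeDiagMatrix_smul_eq_dil]
  push_cast
  ring

theorem eps3_apply (z : ℍ) : eps3 z = (3 * E2 (dil 3 z) - E2 z) / 2 := by
  show (12 : ℂ) * eisFun 3 z = _
  rw [eisFun_apply three_ne_zero, heckeDiagMatrix_smul_eq_dil]
  push_cast
  ring

local notation "x₂" => trπ 2 PowerSeries.X
local notation "x₃" => trπ 3 PowerSeries.X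

theorem tr2_e4 (N : ℕ) : trπ 2 (qExpansion 1 (e4 N)) = 1 + 240 * x₂ := by
  rw [e4, qExpansion_res, trπ_two_eq _ 1 240 E₄_coeff_zero E₄_coeff_one]
  simp [map_ofNat]

theorem tr3_e4 (N : ℕ) : trπ 3 (qExpansion 1 (e4 N)) = 1 + 240 * x₃ + 2160 * x₃ ^ 2 := by
  rw [e4, qExpansion_res, trπ_three_eq _ 1 240 2160 E₄_coeff_zero E₄_coeff_one E₄_coeff_two]
  simp [map_ofNat]

theorem tr2_e6 (N : ℕ) : trπ 2 (qExpansion 1 (e6 N)) = 1 - 504 * x₂ := by
  rw [e6, qExpansion_res, trπ_two_eq _ 1 (-504) E₆_coeff_zero E₆_coeff_one]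
  simp [map_ofNat]
  ring

theorem tr3_e6 (N : ℕ) : trπ 3 (qExpansion 1 (e6 N)) = 1 - 504 * x₃ - 16632 * x₃ ^ 2 := by
  rw [e6, qExpansion_res,
    trπ_three_eq _ 1 (-504) (-16632) E₆_coeff_zero E₆_coeff_one E₆_coeff_two]
  simp [map_ofNat]
  ring

theorem tr2_v4_two : trπ 2 (qExpansion 1 (v4 2)) = 1 := by
  rw [trπ_two_eq _ 1 0 (by simp [v4, qExpansion_vee_coeff, E₄_coeff_zero])
    (by simp [v4, qExpansion_vee_coeff])]
  simp

theorem tr2_v6_two : trπ 2 (qExpansion 1 (v6 2)) = 1 := by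
  rw [trπ_two_eq _ 1 0 (by simp [v6, qExpansion_vee_coeff, E₆_coeff_zero])
    (by simp [v6, qExpansion_vee_coeff])]
  simp

theorem tr2_eps2 : trπ 2 (qExpansion 1 eps2) = 1 + 24 * x₂ := by
  have h0 : (qExpansion 1 eps2).coeff 0 = 1 := by
    rw [eps2, qe_smul, PowerSeries.coeff_C_mul, qExpansion_eisP_coeff]
    norm_num [eisCoeff]
  have h1 : (qExpansion 1 eps2).coeff 1 = 24 := by
    rw [eps2, qe_smul, PowerSeries.coeff_C_mul, qExpansion_eisP_coeff]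
    norm_num [eisCoeff, show sigmaPrime 2 1 = 1 by decide]
  rw [trπ_two_eq _ 1 24 h0 h1]
  simp [map_ofNat]

/-! ### The three identities at level 2 -/

/-- `5 ε₂² = E₄(z) + 4 E₄(2z)` as forms on `Γ₀(2)`. -/
theorem form_two_sq :
    (5 : ℂ) • ModularForm.mcast (show (2 : ℤ) + 2 = 4 by norm_num) (eps2.mul eps2) -
      (e4 2 + (4 : ℂ) • v4 2) = 0 := by
  apply eq_zero_of_trπ_two _ 2 (by decide)
  simp only [qe_sub, qe_add, qe_smul, qe_mul, qe_mcast, map_sub, map_add, map_mul, map_ofNat,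
    tr2_e4, tr2_v4_two, tr2_eps2]
  linear_combination (2880 : PowerSeries ℂ ⧸ trI 2) * trπ_X_pow 2

/-- `5 E₆(z) = ε₂ (16 E₄(2z) - 11 E₄(z))` as forms on `Γ₀(2)`. -/
theorem form_two_e6 :
    (5 : ℂ) • e6 2 - ModularForm.mcast (show (2 : ℤ) + 4 = 6 by norm_num)
      (eps2.mul ((16 : ℂ) • v4 2 - (11 : ℂ) • e4 2)) = 0 := by
  apply eq_zero_of_trπ_two _ 2 (by decide)
  simp only [qe_sub, qe_smul, qe_mul, qe_mcast, map_sub, map_mul, map_ofNat,
    tr2_e4, tr2_e6, tr2_v4_two, tr2_eps2]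
  linear_combination (63360 : PowerSeries ℂ ⧸ trI 2) * trπ_X_pow 2

/-- `10 E₆(2z) = ε₂ (11 E₄(2z) - E₄(z))` as forms on `Γ₀(2)`. -/
theorem form_two_v6 :
    (10 : ℂ) • v6 2 - ModularForm.mcast (show (2 : ℤ) + 4 = 6 by norm_num)
      (eps2.mul ((11 : ℂ) • v4 2 - e4 2)) = 0 := by
  apply eq_zero_of_trπ_two _ 2 (by decide)
  simp only [qe_sub, qe_smul, qe_mul, qe_mcast, map_sub, map_mul, map_ofNat,
    tr2_e4, tr2_v6_two, tr2_v4_two, tr2_eps2]
  linear_combination (5760 : PowerSeries ℂ ⧸ trI 2) * trπ_X_pow 2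

/-! ### The three identities at level 3 -/

theorem tr3_v4_three : trπ 3 (qExpansion 1 (v4 3)) = 1 := by
  rw [trπ_three_eq _ 1 0 0 (by simp [v4, qExpansion_vee_coeff, E₄_coeff_zero])
    (by simp [v4, qExpansion_vee_coeff]) (by simp [v4, qExpansion_vee_coeff])]
  simp

theorem tr3_v6_three : trπ 3 (qExpansion 1 (v6 3)) = 1 := by
  rw [trπ_three_eq _ 1 0 0 (by simp [v6, qExpansion_vee_coeff, E₆_coeff_zero])
    (by simp [v6, qExpansion_vee_coeff]) (by simp [v6, qExpansion_vee_coeff])]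
  simp

theorem tr3_eps3 : trπ 3 (qExpansion 1 eps3) = 1 + 12 * x₃ + 36 * x₃ ^ 2 := by
  have h0 : (qExpansion 1 eps3).coeff 0 = 1 := by
    rw [eps3, qe_smul, PowerSeries.coeff_C_mul, qExpansion_eisP_coeff]
    norm_num [eisCoeff]
  have h1 : (qExpansion 1 eps3).coeff 1 = 12 := by
    rw [eps3, qe_smul, PowerSeries.coeff_C_mul, qExpansion_eisP_coeff]
    norm_num [eisCoeff, show sigmaPrime 3 1 = 1 by decide]
  have h2 : (qExpansion 1 eps3).coeff 2 = 36 := by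
    rw [eps3, qe_smul, PowerSeries.coeff_C_mul, qExpansion_eisP_coeff]
    norm_num [eisCoeff, show sigmaPrime 3 2 = 3 by decide]
  rw [trπ_three_eq _ 1 12 36 h0 h1 h2]
  simp [map_ofNat]

/-- `10 ε₃² = E₄(z) + 9 E₄(3z)` as forms on `Γ₀(3)`. -/
theorem form_three_sq :
    (10 : ℂ) • ModularForm.mcast (show (2 : ℤ) + 2 = 4 by norm_num) (eps3.mul eps3) -
      (e4 3 + (9 : ℂ) • v4 3) = 0 := by
  apply eq_zero_of_trπ_three _ 3 (by decide)
  simp only [qe_sub, qe_add, qe_smul, qe_mul, qe_mcast, map_sub, map_add, map_mul, map_ofNat,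
    tr3_e4, tr3_v4_three, tr3_eps3]
  linear_combination (12960 * x₃ + 8640 : PowerSeries ℂ ⧸ trI 3) * trπ_X_pow 3

/-- `10 E₆(z) + 270 E₆(3z) = 280 ε₃³ - 63 ε₃ (E₄(z) - E₄(3z))` as forms on `Γ₀(3)`. -/
theorem form_three_e6 :
    (10 : ℂ) • e6 3 + (270 : ℂ) • v6 3 -
      ((280 : ℂ) • ModularForm.mcast (show (2 : ℤ) + (2 + 2) = 6 by norm_num)
          (eps3.mul (eps3.mul eps3)) -
        (63 : ℂ) • ModularForm.mcast (show (2 : ℤ) + 4 = 6 by norm_num)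
          (eps3.mul (e4 3 - v4 3))) = 0 := by
  apply eq_zero_of_trπ_three _ 3 (by decide)
  simp only [qe_sub, qe_add, qe_smul, qe_mul, qe_mcast, map_sub, map_add, map_mul, map_ofNat,
    tr3_e4, tr3_e6, tr3_v4_three, tr3_v6_three, tr3_eps3]
  linear_combination (-13063680 * x₃ ^ 3 - 13063680 * x₃ ^ 2 - 544320 * x₃ + 967680 :
    PowerSeries ℂ ⧸ trI 3) * trπ_X_pow 3

/-- `3 (E₄(z) - E₄(3z))² = 800 ε₃ (E₆(3z) - ε₃³) + 120 ε₃² (E₄(z) - E₄(3z))` as forms on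
`Γ₀(3)`. -/
theorem form_three_rel :
    ((3 : ℂ) • ModularForm.mcast (show (4 : ℤ) + 4 = 8 by norm_num)
        ((e4 3 - v4 3).mul (e4 3 - v4 3)) -
      ((800 : ℂ) • ModularForm.mcast (show (2 : ℤ) + 6 = 8 by norm_num)
          (eps3.mul (v6 3 - ModularForm.mcast (show (2 : ℤ) + (2 + 2) = 6 by norm_num)
            (eps3.mul (eps3.mul eps3)))) +
        (120 : ℂ) • ModularForm.mcast (show (2 : ℤ) + (2 + 4) = 8 by norm_num)
          (eps3.mul (eps3.mul (e4 3 - v4 3)))) : ModularForm (Gamma0 3) 8) = 0 := by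
  apply eq_zero_of_trπ_three _ 3 (by decide)
  simp only [qe_sub, qe_add, qe_smul, qe_mul, qe_mcast, map_sub, map_add, map_mul, map_ofNat,
    tr3_e4, tr3_v4_three, tr3_v6_three, tr3_eps3]
  linear_combination (1343692800 * x₃ ^ 5 + 1791590400 * x₃ ^ 4 + 709171200 * x₃ ^ 3 +
    87091200 * x₃ ^ 2 + 5702400 * x₃ + 345600 : PowerSeries ℂ ⧸ trI 3) * trπ_X_pow 3

/-! ### Pointwise form of the six identities -/

theorem eps2_sq (z : ℍ) : 5 * eps2 z ^ 2 = E₄ z + 4 * E₄ (dil 2 z) := by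
  have h := DFunLike.congr_fun form_two_sq z
  change 5 * (eps2 z * eps2 z) - (E₄ z + 4 * v4 2 z) = 0 at h
  rw [v4_apply] at h
  linear_combination h

theorem E₆_eq_two (z : ℍ) : 5 * E₆ z = eps2 z * (16 * E₄ (dil 2 z) - 11 * E₄ z) := by
  have h := DFunLike.congr_fun form_two_e6 z
  change 5 * E₆ z - eps2 z * (16 * v4 2 z - 11 * E₄ z) = 0 at h
  rw [v4_apply] at h
  linear_combination h

theorem E₆_dil_two (z : ℍ) : 10 * E₆ (dil 2 z) = eps2 z * (11 * E₄ (dil 2 z) - E₄ z) := by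
  have h := DFunLike.congr_fun form_two_v6 z
  change 10 * v6 2 z - eps2 z * (11 * v4 2 z - E₄ z) = 0 at h
  rw [v4_apply, v6_apply] at h
  linear_combination h

theorem eps3_sq (z : ℍ) : 10 * eps3 z ^ 2 = E₄ z + 9 * E₄ (dil 3 z) := by
  have h := DFunLike.congr_fun form_three_sq z
  change 10 * (eps3 z * eps3 z) - (E₄ z + 9 * v4 3 z) = 0 at h
  rw [v4_apply] at h
  linear_combination h

theorem E₆_eq_three (z : ℍ) :
    10 * E₆ z + 270 * E₆ (dil 3 z) =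
      280 * eps3 z ^ 3 - 63 * eps3 z * (E₄ z - E₄ (dil 3 z)) := by
  have h := DFunLike.congr_fun form_three_e6 z
  change 10 * E₆ z + 270 * v6 3 z - (280 * (eps3 z * (eps3 z * eps3 z)) -
    63 * (eps3 z * (E₄ z - v4 3 z))) = 0 at h
  rw [v4_apply, v6_apply] at h
  linear_combination h

theorem rel_three (z : ℍ) :
    3 * (E₄ z - E₄ (dil 3 z)) ^ 2 =
      800 * eps3 z * (E₆ (dil 3 z) - eps3 z ^ 3) +
        120 * eps3 z ^ 2 * (E₄ z - E₄ (dil 3 z)) := by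
  have h := DFunLike.congr_fun form_three_rel z
  change 3 * ((E₄ z - v4 3 z) * (E₄ z - v4 3 z)) -
    (800 * (eps3 z * (v6 3 z - eps3 z * (eps3 z * eps3 z))) +
      120 * (eps3 z * (eps3 z * (E₄ z - v4 3 z)))) = 0 at h
  rw [v4_apply, v6_apply] at h
  linear_combination h

/-! ### Level 2: the forms `a`, `b` and the Hauptmodul `h₂ = a / b = Δ(z) / Δ(2z)` -/

local notation "Δ" => ModularForm.discriminant

/-- `a(z) = (16 E₄(2z) - E₄(z)) / 15` (`= η(z)^16 / η(2z)^8`), of weight 4 on `Γ₀(2)`. -/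
def a2 : ModularForm (Gamma0 2) 4 := (1 / 15 : ℂ) • ((16 : ℂ) • v4 2 - e4 2)

/-- `b(z) = (E₄(z) - E₄(2z)) / 240` (`= η(2z)^16 / η(z)^8`), of weight 4 on `Γ₀(2)`. -/
def b2 : ModularForm (Gamma0 2) 4 := (1 / 240 : ℂ) • (e4 2 - v4 2)

theorem a2_apply (z : ℍ) : a2 z = (16 * E₄ (dil 2 z) - E₄ z) / 15 := by
  show (1 / 15 : ℂ) * (16 * v4 2 z - E₄ z) = _
  rw [v4_apply]
  ring

theorem b2_apply (z : ℍ) : b2 z = (E₄ z - E₄ (dil 2 z)) / 240 := by
  show (1 / 240 : ℂ) * (E₄ z - v4 2 z) = _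
  rw [v4_apply]
  ring

theorem E₄_eq_a2_b2 (z : ℍ) : E₄ z = a2 z + 256 * b2 z := by
  rw [a2_apply, b2_apply]
  ring

theorem E₄_dil_two_eq (z : ℍ) : E₄ (dil 2 z) = a2 z + 16 * b2 z := by
  rw [a2_apply, b2_apply]
  ring

theorem eps2_sq_eq (z : ℍ) : eps2 z ^ 2 = a2 z + 64 * b2 z := by
  rw [a2_apply, b2_apply]
  linear_combination (1 / 5 : ℂ) * eps2_sq z

theorem E₆_eq_eps2_mul (z : ℍ) : E₆ z = eps2 z * (a2 z - 512 * b2 z) := by
  rw [a2_apply, b2_apply]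
  linear_combination (1 / 5 : ℂ) * E₆_eq_two z

theorem E₆_dil_two_eq (z : ℍ) : E₆ (dil 2 z) = eps2 z * (a2 z - 8 * b2 z) := by
  rw [a2_apply, b2_apply]
  linear_combination (1 / 10 : ℂ) * E₆_dil_two z

/-- `Δ(z) = a² b`. -/
theorem discriminant_eq_a2_b2 (z : ℍ) : Δ z = a2 z ^ 2 * b2 z := by
  rw [discriminant_eq_E₄_cube_sub_E₆_sq, E₆_eq_eps2_mul z, E₄_eq_a2_b2 z]
  linear_combination (-(a2 z - 512 * b2 z) ^ 2 / 1728) * eps2_sq_eq z

/-- `Δ(2z) = a b²`. -/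
theorem discriminant_dil_two_eq (z : ℍ) : Δ (dil 2 z) = a2 z * b2 z ^ 2 := by
  rw [discriminant_eq_E₄_cube_sub_E₆_sq, E₆_dil_two_eq z, E₄_dil_two_eq z]
  linear_combination (-(a2 z - 8 * b2 z) ^ 2 / 1728) * eps2_sq_eq z

theorem a2_ne_zero (z : ℍ) : a2 z ≠ 0 := by
  intro h
  apply discriminant_ne_zero z
  rw [discriminant_eq_a2_b2, h]
  ring

theorem b2_ne_zero (z : ℍ) : b2 z ≠ 0 := by
  intro h
  apply discriminant_ne_zero z
  rw [discriminant_eq_a2_b2, h]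
  ring

/-- The Hauptmodul `h₂ = a / b = Δ(z) / Δ(2z)` of `Γ₀(2)`. -/
def h2 (z : ℍ) : ℂ := a2 z / b2 z

theorem h2_ne_zero (z : ℍ) : h2 z ≠ 0 := div_ne_zero (a2_ne_zero z) (b2_ne_zero z)

theorem h2_eq_discriminant_div (z : ℍ) : h2 z = Δ z / Δ (dil 2 z) := by
  have ha := a2_ne_zero z
  have hb := b2_ne_zero z
  rw [h2, discriminant_eq_a2_b2, discriminant_dil_two_eq]
  field_simp

/-- `j(z) = (h₂ + 256)³ / h₂²`, in the form `E₄(z)³ h₂² = Δ(z) (h₂ + 256)³`. -/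
theorem E₄_cube_mul_h2_sq (z : ℍ) : E₄ z ^ 3 * h2 z ^ 2 = Δ z * (h2 z + 256) ^ 3 := by
  have hb := b2_ne_zero z
  rw [h2, discriminant_eq_a2_b2, E₄_eq_a2_b2 z]
  field_simp

/-- `j(2z) = (h₂ + 16)³ / h₂`, in the form `E₄(2z)³ h₂ = Δ(2z) (h₂ + 16)³`. -/
theorem E₄_dil_two_cube_mul_h2 (z : ℍ) :
    E₄ (dil 2 z) ^ 3 * h2 z = Δ (dil 2 z) * (h2 z + 16) ^ 3 := by
  have hb := b2_ne_zero z
  rw [h2, discriminant_dil_two_eq, E₄_dil_two_eq z]
  field_simp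

/-- `ε₂² = (h₂ + 64) b`: the square of `ε₂` is the elliptic-point factor `h₂ + 64` times the
nowhere vanishing form `b`. -/
theorem eps2_sq_eq_h2 (z : ℍ) : eps2 z ^ 2 = (h2 z + 64) * b2 z := by
  have hb := b2_ne_zero z
  rw [h2, eps2_sq_eq]
  field_simp

/-- For any `g`, `(g / ε₂)² (h₂ + 64) = g² / b` wherever `ε₂ ≠ 0`. -/
theorem div_eps2_sq_mul (z : ℍ) (g : ℂ) (h : eps2 z ≠ 0) :
    (g / eps2 z) ^ 2 * (h2 z + 64) = g ^ 2 / b2 z := by
  have hb := b2_ne_zero z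
  have h' : (h2 z + 64) = eps2 z ^ 2 / b2 z := by
    rw [eps2_sq_eq_h2]
    field_simp
  rw [h']
  field_simp

/-! ### Level 3: the forms `B`, `C` and the Hauptmodul `h₃` with `h₃² = Δ(z) / Δ(3z)` -/

/-- `B(z) = (E₄(z) - E₄(3z)) / 240`, of weight 4 on `Γ₀(3)`. -/
def B3 : ModularForm (Gamma0 3) 4 := (1 / 240 : ℂ) • (e4 3 - v4 3)

/-- `C(z) = (E₆(3z) - ε₃³ + 36 ε₃ B) / 216` (`= η(3z)^18 / η(z)^6`), of weight 6 on `Γ₀(3)`. -/
def C3 : ModularForm (Gamma0 3) 6 :=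
  (1 / 216 : ℂ) • (v6 3 - ModularForm.mcast (show (2 : ℤ) + (2 + 2) = 6 by norm_num)
      (eps3.mul (eps3.mul eps3)) +
    (36 : ℂ) • ModularForm.mcast (show (2 : ℤ) + 4 = 6 by norm_num) (eps3.mul B3))

theorem B3_apply (z : ℍ) : B3 z = (E₄ z - E₄ (dil 3 z)) / 240 := by
  show (1 / 240 : ℂ) * (E₄ z - v4 3 z) = _
  rw [v4_apply]
  ring

theorem C3_apply (z : ℍ) :
    C3 z = (E₆ (dil 3 z) - eps3 z ^ 3 + 36 * eps3 z * B3 z) / 216 := by
  show (1 / 216 : ℂ) * (v6 3 z - eps3 z * (eps3 z * eps3 z) + 36 * (eps3 z * B3 z)) = _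
  rw [v6_apply]
  ring

theorem E₄_sub_dil_three (z : ℍ) : E₄ z - E₄ (dil 3 z) = 240 * B3 z := by
  rw [B3_apply]
  ring

theorem E₄_eq_three (z : ℍ) : E₄ z = eps3 z ^ 2 + 216 * B3 z := by
  rw [B3_apply]
  linear_combination (-1 / 10 : ℂ) * eps3_sq z

theorem E₄_dil_three_eq (z : ℍ) : E₄ (dil 3 z) = eps3 z ^ 2 - 24 * B3 z := by
  rw [B3_apply]
  linear_combination (-1 / 10 : ℂ) * eps3_sq z

theorem E₆_dil_three_eq (z : ℍ) :
    E₆ (dil 3 z) = eps3 z ^ 3 - 36 * eps3 z * B3 z + 216 * C3 z := by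
  rw [C3_apply]
  ring

theorem E₆_three_eq (z : ℍ) :
    E₆ z = eps3 z ^ 3 - 540 * eps3 z * B3 z - 5832 * C3 z := by
  have h := E₆_eq_three z
  rw [E₆_dil_three_eq z] at h
  linear_combination (1 / 10 : ℂ) * h - (63 / 10 : ℂ) * eps3 z * E₄_sub_dil_three z

/-- `B² = ε₃ C`. -/
theorem B3_sq (z : ℍ) : B3 z ^ 2 = eps3 z * C3 z := by
  have h := rel_three z
  rw [E₄_sub_dil_three z, E₆_dil_three_eq z] at h
  linear_combination (1 / 172800 : ℂ) * h

/-- `Δ(3z) = B³ - 27 C²`. -/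
theorem discriminant_dil_three_eq (z : ℍ) : Δ (dil 3 z) = B3 z ^ 3 - 27 * C3 z ^ 2 := by
  rw [discriminant_eq_E₄_cube_sub_E₆_sq, E₆_dil_three_eq z, E₄_dil_three_eq z]
  linear_combination ((432 * eps3 z ^ 2 - 15552 * B3 z) / 1728) * B3_sq z

/-- `Δ(3z) = C (ε₃ B - 27 C)`. -/
theorem discriminant_dil_three_eq' (z : ℍ) :
    Δ (dil 3 z) = C3 z * (eps3 z * B3 z - 27 * C3 z) := by
  linear_combination discriminant_dil_three_eq z + B3 z * B3_sq z

/-- `C Δ(z) = (ε₃ B - 27 C)³`. -/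
theorem C3_mul_discriminant (z : ℍ) : C3 z * Δ z = (eps3 z * B3 z - 27 * C3 z) ^ 3 := by
  rw [discriminant_eq_E₄_cube_sub_E₆_sq, E₆_three_eq z, E₄_eq_three z]
  linear_combination ((-1728 * eps3 z ^ 3 * B3 z - 11664 * eps3 z ^ 2 * C3 z +
    10077696 * B3 z * C3 z) / 1728) * B3_sq z

theorem C3_ne_zero (z : ℍ) : C3 z ≠ 0 := by
  intro h
  apply discriminant_ne_zero (dil 3 z)
  rw [discriminant_dil_three_eq', h]
  ring

theorem eps3_mul_B3_sub_ne_zero (z : ℍ) : eps3 z * B3 z - 27 * C3 z ≠ 0 := by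
  intro h
  apply discriminant_ne_zero (dil 3 z)
  rw [discriminant_dil_three_eq', h]
  ring

/-- The Hauptmodul `h₃ = (ε₃ B - 27 C) / C` of `Γ₀(3)`; `h₃² = Δ(z) / Δ(3z)`. -/
def h3 (z : ℍ) : ℂ := (eps3 z * B3 z - 27 * C3 z) / C3 z

theorem h3_ne_zero (z : ℍ) : h3 z ≠ 0 :=
  div_ne_zero (eps3_mul_B3_sub_ne_zero z) (C3_ne_zero z)

theorem discriminant_eq_three (z : ℍ) : Δ z = (eps3 z * B3 z - 27 * C3 z) ^ 3 / C3 z := by
  rw [eq_div_iff (C3_ne_zero z), mul_comm]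
  exact C3_mul_discriminant z

theorem h3_sq_eq_discriminant_div (z : ℍ) : h3 z ^ 2 = Δ z / Δ (dil 3 z) := by
  have hC := C3_ne_zero z
  have hD := eps3_mul_B3_sub_ne_zero z
  rw [h3, discriminant_eq_three, discriminant_dil_three_eq']
  field_simp

theorem h3_add_eq (z : ℍ) : h3 z + 27 = eps3 z * B3 z / C3 z := by
  have hC := C3_ne_zero z
  rw [h3]
  field_simp
  ring

/-- `j(z) = (h₃ + 27)(h₃ + 243)³ / h₃³`, in the form
`E₄(z)³ h₃³ = Δ(z) (h₃ + 27) (h₃ + 243)³`. -/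
theorem E₄_cube_mul_h3_cube (z : ℍ) :
    E₄ z ^ 3 * h3 z ^ 3 = Δ z * (h3 z + 27) * (h3 z + 243) ^ 3 := by
  have hC := C3_ne_zero z
  have hkey : eps3 z * B3 z * (eps3 z * B3 z + 216 * C3 z) ^ 3 =
      C3 z ^ 2 * (eps3 z ^ 2 + 216 * B3 z) ^ 3 := by
    linear_combination (eps3 z ^ 5 * C3 z + eps3 z ^ 4 * B3 z ^ 2 +
      648 * eps3 z ^ 3 * B3 z * C3 z - 10077696 * B3 z * C3 z ^ 2) * B3_sq z
  have e2 : h3 z + 243 = (eps3 z * B3 z + 216 * C3 z) / C3 z := by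
    rw [h3]
    field_simp
    ring
  rw [e2, h3_add_eq, discriminant_eq_three, h3, E₄_eq_three z]
  field_simp
  linear_combination (-(eps3 z * B3 z - 27 * C3 z) ^ 3) * hkey

/-- `j(3z) = (h₃ + 27)(h₃ + 3)³ / h₃`, in the form
`E₄(3z)³ h₃ = Δ(3z) (h₃ + 27) (h₃ + 3)³`. -/
theorem E₄_dil_three_cube_mul_h3 (z : ℍ) :
    E₄ (dil 3 z) ^ 3 * h3 z = Δ (dil 3 z) * (h3 z + 27) * (h3 z + 3) ^ 3 := by
  have hC := C3_ne_zero z
  have hkey : eps3 z * B3 z * (eps3 z * B3 z - 24 * C3 z) ^ 3 =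
      C3 z ^ 2 * (eps3 z ^ 2 - 24 * B3 z) ^ 3 := by
    linear_combination (eps3 z ^ 5 * C3 z + eps3 z ^ 4 * B3 z ^ 2 -
      72 * eps3 z ^ 3 * B3 z * C3 z + 13824 * B3 z * C3 z ^ 2) * B3_sq z
  have e2 : h3 z + 3 = (eps3 z * B3 z - 24 * C3 z) / C3 z := by
    rw [h3]
    field_simp
    ring
  rw [e2, h3_add_eq, discriminant_dil_three_eq', h3, E₄_dil_three_eq z]
  field_simp
  linear_combination (-(eps3 z * B3 z - 27 * C3 z)) * hkey

/-- `ε₃³ = (h₃ + 27)² C`: the cube of `ε₃` is the square of the elliptic-point factor `h₃ + 27`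
times the nowhere vanishing form `C`. -/
theorem eps3_cube_eq_h3 (z : ℍ) : eps3 z ^ 3 = (h3 z + 27) ^ 2 * C3 z := by
  have hC := C3_ne_zero z
  rw [h3_add_eq]
  field_simp
  linear_combination (-(eps3 z ^ 2)) * B3_sq z

/-- For any `g`, `(g / ε₃)³ (h₃ + 27)² = g³ / C` wherever `ε₃ ≠ 0`. -/
theorem div_eps3_cube_mul (z : ℍ) (g : ℂ) (h : eps3 z ≠ 0) :
    (g / eps3 z) ^ 3 * (h3 z + 27) ^ 2 = g ^ 3 / C3 z := by
  have hC := C3_ne_zero z
  have h' : (h3 z + 27) ^ 2 = eps3 z ^ 3 / C3 z := by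
    rw [eps3_cube_eq_h3]
    field_simp
  rw [h']
  field_simp

end

end Fermat.Agent.S18.helper6895
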