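import Fermat.Agent.S18.helper2346_CertT
import Fermat.Agent.S18.helper6895_Hauptmodul

/-!
# S18 (CERT-T): the four char-0 integrality certificates on the Hauptmodul lines (helper2346)

For `f ∈ S₂(Γ₀(N))`, `r ∈ {2, 3}`, `r ∣ N`, and the Hauptmodul `t = h_r` of `helper6895`:

* chart `t ≠ ∞`: `z = f^a / D` is integral over `ℂ[t]` and `z^N / t` is integral over `ℂ[t]`;
* chart `t ≠ 0`: `z' = f^a / D'` is integral over `ℂ[1/t]` and `z'^N t` is integral over `ℂ[1/t]`,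

where `(a, D, D') = (2, b₂, a₂)` for `r = 2` and `(3, C₃, C₃ h₃²)` for `r = 3`; in terms of
`y = f / ε_r` these are `z = y^a (t + c)^(a-1)` and `z' = y^a (c/t + 1)^(a-1)` with `c = 64, 27`.
Analytic form (monic polynomials, pointwise on `ℍ`) and `q`-expansion form.

Main results: `exists_monic_cert_infty`, `exists_monic_cert_zero` (generic, analytic),
`LevelData`, `exists_monic_certZ`, `exists_monic_certZ_pow`, `exists_monic_certZ'`,
`exists_monic_certZ'_pow` (the four certificates, analytic), `series_certificates` (over `ℂ`),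
`series_certificates_descent` (over a subfield `K ⊆ ℂ`), `levelData_two`, `levelData_three`,
`level_two_certificates`, `level_three_certificates`, `hasExp_h2`, `hasExp_h3`,
`hasExp_modularForm`, `hasExp_cuspForm`.
-/

set_option autoImplicit false

open UpperHalfPlane hiding I
open ModularForm Filter Complex CongruenceSubgroup
open scoped Manifold Topology MatrixGroups Real

noncomputable section

namespace Fermat.Agent.S18.helper2346

open Fermat.Agent.S24 Fermat.Agent.S24.helper315 Fermat.Agent.S28.helper2346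

/-! ## `O(q^e)` at `i∞` -/

/-- `f = O(q^e)` at `i∞`, for a real exponent `e`. -/
def BigOq (f : ℍ → ℂ) (e : ℝ) : Prop :=
  IsBoundedAtImInfty (fun τ => f τ * expI (-e) τ)

theorem BigOq.congr {f g : ℍ → ℂ} {e : ℝ} (hf : BigOq f e) (h : ∀ τ, f τ = g τ) : BigOq g e := by
  have : f = g := funext h
  rwa [← this]

theorem bigOq_of_asymp {f : ℍ → ℂ} {C : ℂ} {e : ℝ} (hf : Asymp f C e) : BigOq f e :=
  bdd_of_tendsto hf

theorem bigOq_const (c : ℂ) : BigOq (fun _ => c) 0 := bigOq_of_asymp (asymp_const c)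

theorem BigOq.mul {f g : ℍ → ℂ} {e e' : ℝ} (hf : BigOq f e) (hg : BigOq g e') :
    BigOq (fun τ => f τ * g τ) (e + e') := by
  have h := bdd_mul hf hg
  refine h.congr' (Filter.Eventually.of_forall fun τ => ?_)
    (Filter.Eventually.of_forall fun _ => rfl)
  show f τ * expI (-e) τ * (g τ * expI (-e') τ) = f τ * g τ * expI (-(e + e')) τ
  rw [neg_add, expI_add]
  ring

theorem BigOq.pow {f : ℍ → ℂ} {e : ℝ} (hf : BigOq f e) (n : ℕ) :
    BigOq (fun τ => f τ ^ n) (n * e) := by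
  induction n with
  | zero => simpa using bigOq_const 1
  | succ n ih =>
    have h := ih.mul hf
    have he : (n : ℝ) * e + e = ((n + 1 : ℕ) : ℝ) * e := by push_cast; ring
    rw [he] at h
    exact h.congr fun τ => by rw [pow_succ]

theorem norm_expI_le_one {e : ℝ} (he : 0 ≤ e) (τ : ℍ) : ‖expI e τ‖ ≤ 1 := by
  rw [norm_expI]
  apply Real.exp_le_one_iff.mpr
  have := τ.im_pos
  have hπ := Real.pi_pos
  have : 0 ≤ π * e * τ.im := by positivity
  linarith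

theorem bdd_expI {e : ℝ} (he : 0 ≤ e) : IsBoundedAtImInfty (expI e) := by
  rw [isBoundedAtImInfty_iff]
  exact ⟨1, 0, fun τ _ => norm_expI_le_one he τ⟩

theorem BigOq.mono {f : ℍ → ℂ} {e e' : ℝ} (hf : BigOq f e) (h : e' ≤ e) : BigOq f e' := by
  have h1 := bdd_mul hf (bdd_expI (sub_nonneg.mpr h))
  refine h1.congr' (Filter.Eventually.of_forall fun τ => ?_)
    (Filter.Eventually.of_forall fun _ => rfl)
  show f τ * expI (-e) τ * expI (e - e') τ = f τ * expI (-e') τ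
  rw [mul_assoc, ← expI_add]
  congr 2
  ring

theorem BigOq.bdd {f : ℍ → ℂ} {e : ℝ} (hf : BigOq f e) (he : 0 ≤ e) : IsBoundedAtImInfty f := by
  have h := hf.mono he
  unfold BigOq at h
  simpa [expI_zero] using h

theorem BigOq.evGrowth {f : ℍ → ℂ} {e : ℝ} (hf : BigOq f e) : EvGrowth f := by
  obtain ⟨m, hm⟩ := exists_nat_ge (-e)
  unfold BigOq at hf
  rw [isBoundedAtImInfty_iff] at hf
  obtain ⟨M, A, hA⟩ := hf
  refine ⟨m, M, A, fun τ hτ => ?_⟩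
  have h1 := hA τ hτ
  have h2 : f τ = (f τ * expI (-e) τ) * expI e τ := by
    rw [mul_assoc, expI_neg, inv_mul_cancel₀ (expI_ne_zero e τ), mul_one]
  rw [h2, norm_mul, norm_expI]
  have him : 0 < τ.im := τ.im_pos
  have h3 : Real.exp (-2 * π * e * τ.im) ≤ Real.exp (2 * π * m * τ.im) := by
    apply Real.exp_le_exp.mpr
    have : -e * τ.im ≤ m * τ.im := mul_le_mul_of_nonneg_right hm him.le
    nlinarith [Real.pi_pos]
  have hM : 0 ≤ M := (norm_nonneg _).trans h1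
  exact mul_le_mul h1 h3 (Real.exp_pos _).le hM

theorem bdd_of_pow {f : ℍ → ℂ} {n : ℕ} (hn : n ≠ 0) (h : IsBoundedAtImInfty (fun τ => f τ ^ n)) :
    IsBoundedAtImInfty f := by
  rw [isBoundedAtImInfty_iff] at h ⊢
  obtain ⟨M, A, hA⟩ := h
  refine ⟨max M 1, A, fun τ hτ => ?_⟩
  have h1 := hA τ hτ
  rw [norm_pow] at h1
  by_contra hlt
  push Not at hlt
  have h2 : 1 < ‖f τ‖ := (le_max_right M 1).trans_lt hlt
  have h3 : ‖f τ‖ ≤ ‖f τ‖ ^ n := le_self_pow₀ h2.le hn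
  exact absurd (h3.trans h1) (not_le.mpr ((le_max_left M 1).trans_lt hlt))

theorem expI_pow (e : ℝ) (n : ℕ) (τ : ℍ) : expI e τ ^ n = expI (n * e) τ := by
  rw [expI, expI, ← Complex.exp_nat_mul]
  congr 1
  push_cast
  ring

theorem BigOq.of_pow {f : ℍ → ℂ} {e : ℝ} {n : ℕ} (hn : n ≠ 0)
    (h : BigOq (fun τ => f τ ^ n) (n * e)) : BigOq f e := by
  refine bdd_of_pow hn (h.congr' (Filter.Eventually.of_forall fun τ => ?_)
    (Filter.Eventually.of_forall fun _ => rfl))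
  show f τ ^ n * expI (-(n * e)) τ = (f τ * expI (-e) τ) ^ n
  rw [mul_pow, expI_pow]
  congr 2
  ring

theorem qH_eq_expI {h : ℝ} (τ : ℍ) : qH h τ = expI (1 / h) τ := by
  rw [qH_apply, Function.Periodic.qParam, expI]
  congr 1
  push_cast
  ring

/-- A periodic holomorphic function a power of which tends to a nonzero limit at `i∞` tends to
a nonzero limit itself. -/
theorem exists_tendsto_of_pow {G : ℍ → ℂ} {h : ℝ} (hh : 0 < h) (hG : MDiff G)
    (hper : HPeriodic h G) {e : ℕ} (he : e ≠ 0) {C : ℂ} (hC : C ≠ 0)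
    (hlim : Tendsto (fun τ => G τ ^ e) atImInfty (𝓝 C)) :
    ∃ a : ℂ, a ≠ 0 ∧ Tendsto G atImInfty (𝓝 a) := by
  have hbd : IsBoundedAtImInfty G := bdd_of_pow he (bdd_of_tendsto hlim)
  obtain ⟨a, ha, -⟩ := exists_limit_decay hh hG hper hbd
  refine ⟨a, ?_, ha⟩
  have h2 := tendsto_nhds_unique (ha.pow e) hlim
  intro h0
  rw [h0, zero_pow he] at h2
  exact hC h2.symm

/-! ## Cusp forms at all cusps -/

theorem conj_T_pow_mem_Gamma0 (N : ℕ) (γ : SL(2, ℤ)) :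
    γ * ModularGroup.T ^ N * γ⁻¹ ∈ Gamma0 N := by
  rw [Gamma0_mem]
  have h : (γ * ModularGroup.T ^ N * γ⁻¹ : SL(2, ℤ)) 1 0 = -(N : ℤ) * (γ 1 0) ^ 2 := by
    have hT : ((ModularGroup.T ^ N : SL(2, ℤ)) : Matrix (Fin 2) (Fin 2) ℤ)
        = !![1, (N : ℤ); 0, 1] := by
      have := ModularGroup.coe_T_zpow (N : ℤ)
      rwa [zpow_natCast] at this
    simp [Matrix.SpecialLinearGroup.coe_mul, Matrix.mul_apply, Fin.sum_univ_two, hT,
      Matrix.SpecialLinearGroup.coe_inv, Matrix.adjugate_fin_two]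
    ring
  rw [h]
  simp

theorem denom_SL (γ : SL(2, ℤ)) (τ : ℍ) :
    denom (γ : SL(2, ℤ)) τ = (γ 1 0 : ℂ) * τ + γ 1 1 := by
  simp [denom]

section CuspForm

variable {N : ℕ} {k : ℤ} (f : CuspForm (Gamma0 N) k)

theorem slash_eq_of_mem_Gamma0 {γ : SL(2, ℤ)} (hγ : γ ∈ Gamma0 N) : ⇑f ∣[k] γ = ⇑f :=
  SlashInvariantForm.slash_action_eqn f _ (Subgroup.mem_map_of_mem _ hγ)

theorem hPeriodic_slash (γ : SL(2, ℤ)) : HPeriodic (N : ℝ) (⇑f ∣[k] γ) := by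
  intro τ
  have h1 : ((N : ℝ) +ᵥ τ : ℍ) = ModularGroup.T ^ (N : ℤ) • τ := by
    rw [UpperHalfPlane.modular_T_zpow_smul]
    simp
  have h2 : (⇑f ∣[k] γ) ∣[k] (ModularGroup.T ^ N) = ⇑f ∣[k] γ := by
    rw [← SlashAction.slash_mul]
    have : γ * ModularGroup.T ^ N = (γ * ModularGroup.T ^ N * γ⁻¹) * γ := by group
    rw [this, SlashAction.slash_mul, slash_eq_of_mem_Gamma0 f (conj_T_pow_mem_Gamma0 N γ)]
  have h3 := congrFun h2 τ
  rw [SL_slash_apply] at h3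
  have hd : denom (ModularGroup.T ^ N : SL(2, ℤ)) τ = 1 := by
    have hT : ((ModularGroup.T ^ N : SL(2, ℤ)) : Matrix (Fin 2) (Fin 2) ℤ)
        = !![1, (N : ℤ); 0, 1] := by
      have := ModularGroup.coe_T_zpow (N : ℤ)
      rwa [zpow_natCast] at this
    have h10 : (ModularGroup.T ^ N : SL(2, ℤ)) 1 0 = 0 := by rw [hT]; rfl
    have h11 : (ModularGroup.T ^ N : SL(2, ℤ)) 1 1 = 1 := by rw [hT]; rfl
    rw [denom_SL, h10, h11]
    simp
  rw [hd, one_zpow, mul_one, ← zpow_natCast] at h3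
  rw [h1, h3]

theorem mdiff_slash (γ : SL(2, ℤ)) : MDiff (⇑f ∣[k] γ) :=
  (CuspFormClass.holo f).slash k γ

theorem bigOq_slash [NeZero N] (γ : SL(2, ℤ)) : BigOq (⇑f ∣[k] γ) (1 / N) := by
  have hN : (0 : ℝ) < N := by exact_mod_cast Nat.pos_of_ne_zero (NeZero.ne N)
  have hz : IsZeroAtImInfty (⇑f ∣[k] γ) := CuspFormClass.zero_at_infty_slash f γ
  have hper : Function.Periodic ((⇑f ∣[k] γ) ∘ ofComplex) ((N : ℝ) : ℂ) :=
    (periodic_comp_ofComplex_iff (N : ℝ) _).mpr (hPeriodic_slash f γ)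
  have hdec := UpperHalfPlane.IsZeroAtImInfty.exp_decay_atImInfty hz hN hper (mdiff_slash f γ)
    hz.isBoundedAtImInfty
  have h2 : (fun τ : ℍ => expI (-(1 / (N : ℝ))) τ) =O[atImInfty]
      (fun τ : ℍ => ‖expI (-(1 / (N : ℝ))) τ‖) := (Asymptotics.isBigO_refl _ _).norm_right
  have h3 := hdec.mul h2
  refine h3.congr_right fun τ => ?_
  rw [norm_expI, ← Real.exp_add]
  have : -2 * π * τ.im / (N : ℝ) + -2 * π * -(1 / (N : ℝ)) * τ.im = 0 := by
    field_simp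
    ring
  rw [this, Real.exp_zero]
  rfl

end CuspForm

/-! ## The quotients `Δ(τ)/Δ(pτ)` -/

/-- `Δ(τ) / Δ(pτ)`. -/
def dq (p : ℕ) (τ : ℍ) : ℂ := discriminant τ / discriminant (affH p 0 1 τ)

/-- The exponents of `dq p` as an eta quotient. -/
def dqExp (p : ℕ) : ℕ → ℤ := fun δ => if δ = 1 then 1 else if δ = p then -1 else 0

theorem affH_one (τ : ℍ) : affH 1 0 1 τ = τ := by
  apply UpperHalfPlane.ext
  rw [coe_affH one_pos one_pos]
  simp

theorem dq_eq_etaQ {p : ℕ} (hp : p.Prime) (τ : ℍ) : dq p τ = etaQ p (dqExp p) τ := by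
  unfold etaQ dq
  rw [hp.divisors, Finset.prod_pair hp.one_lt.ne]
  have h1 : dqExp p 1 = 1 := by simp [dqExp]
  have h2 : dqExp p p = -1 := by simp [dqExp, hp.one_lt.ne']
  rw [h1, h2, affH_one, zpow_one, zpow_neg_one, div_eq_mul_inv]

theorem sum_dqExp {p : ℕ} (hp : p.Prime) : ∑ δ ∈ p.divisors, dqExp p δ = 0 := by
  rw [hp.divisors, Finset.sum_pair hp.one_lt.ne]
  have h1 : dqExp p 1 = 1 := by simp [dqExp]
  have h2 : dqExp p p = -1 := by simp [dqExp, hp.one_lt.ne']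
  rw [h1, h2]
  ring

theorem dq_ne_zero (p : ℕ) (τ : ℍ) : dq p τ ≠ 0 :=
  div_ne_zero (discriminant_ne_zero _) (discriminant_ne_zero _)

theorem mdiff_dq {p : ℕ} (hp : p.Prime) : MDiff (dq p) := by
  have h : dq p = etaQ p (dqExp p) := funext (dq_eq_etaQ hp)
  rw [h]
  exact mdiff_etaQ p _

theorem dq_smul_of_mem {p : ℕ} (hp : p.Prime) {γ : SL(2, ℤ)} (hγ : γ ∈ Gamma0 p) (τ : ℍ) :
    dq p (γ • τ) = dq p τ := by
  rw [dq_eq_etaQ hp, dq_eq_etaQ hp]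
  exact etaQ_smul_of_mem_Gamma0 p _ (sum_dqExp hp) hγ τ

/-- General form of the asymptotics of `dq p ∘ γ`. -/
theorem exists_asymp_dq_aux {p : ℕ} (hp : p.Prime) (γ : SL(2, ℤ)) :
    ∃ (A D : ℕ → ℕ) (C : ℂ), (∀ δ : ℕ, 0 < δ → A δ * D δ = δ ∧
      A δ = Nat.gcd δ (γ 1 0).natAbs) ∧ C ≠ 0 ∧
      Asymp (fun τ => dq p (γ • τ)) C ((A 1 : ℝ) / D 1 - (A p : ℝ) / D p) := by
  obtain ⟨A, D, C, h, hC, hAs⟩ := exists_asymp_etaQ_smul p (dqExp p) (sum_dqExp hp) γ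
  refine ⟨A, D, C, h, ?_, ?_⟩
  · intro h0
    rw [h0, norm_zero] at hC
    have hne : ∏ δ ∈ p.divisors, ((D δ : ℝ) ^ 12) ^ (-dqExp p δ) ≠ 0 := by
      refine Finset.prod_ne_zero_iff.mpr fun δ hδ => ?_
      have hδ0 : 0 < δ := Nat.pos_of_mem_divisors hδ
      have hD : D δ ≠ 0 := by
        intro hD0
        have := (h δ hδ0).1
        rw [hD0, mul_zero] at this
        omega
      exact zpow_ne_zero _ (pow_ne_zero _ (by exact_mod_cast hD))
    exact hne hC.symm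
  · have hsum : ∑ δ ∈ p.divisors, (dqExp p δ : ℝ) * ((A δ : ℝ) / D δ)
        = (A 1 : ℝ) / D 1 - (A p : ℝ) / D p := by
      rw [hp.divisors, Finset.sum_pair hp.one_lt.ne]
      have h1 : dqExp p 1 = 1 := by simp [dqExp]
      have h2 : dqExp p p = -1 := by simp [dqExp, hp.one_lt.ne']
      rw [h1, h2]
      push_cast
      ring
    rw [hsum] at hAs
    exact hAs.congr fun τ => (dq_eq_etaQ hp _).symm

theorem exists_asymp_dq {p : ℕ} (hp : p.Prime) :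
    ∃ C : ℂ, C ≠ 0 ∧ Asymp (dq p) C (1 - p) := by
  obtain ⟨A, D, C, h, hC, hAs⟩ := exists_asymp_dq_aux hp 1
  have hA : ∀ δ : ℕ, 0 < δ → A δ = δ ∧ D δ = 1 := by
    intro δ hδ
    obtain ⟨h1, h2⟩ := h δ hδ
    have hA : A δ = δ := by
      rw [h2]
      simp
    refine ⟨hA, ?_⟩
    rw [hA] at h1
    exact Nat.eq_of_mul_eq_mul_left hδ (by rw [h1, mul_one])
  refine ⟨C, hC, ?_⟩
  rw [(hA 1 one_pos).1, (hA 1 one_pos).2, (hA p hp.pos).1, (hA p hp.pos).2] at hAs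
  have e : ((1 : ℕ) : ℝ) / ((1 : ℕ) : ℝ) - (p : ℝ) / ((1 : ℕ) : ℝ) = 1 - p := by simp
  rw [e] at hAs
  exact hAs.congr fun τ => by rw [one_smul]

theorem exists_asymp_dq_smul {p : ℕ} (hp : p.Prime) {γ : SL(2, ℤ)} (hγ : γ ∉ Gamma0 p) :
    ∃ C : ℂ, C ≠ 0 ∧ Asymp (fun τ => dq p (γ • τ)) C (1 - 1 / p) := by
  obtain ⟨A, D, C, h, hC, hAs⟩ := exists_asymp_dq_aux hp γ
  rw [Gamma0_mem, ZMod.intCast_zmod_eq_zero_iff_dvd] at hγ
  have hcop : Nat.Coprime p (γ 1 0).natAbs := by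
    rw [hp.coprime_iff_not_dvd]
    intro hdvd
    exact hγ (Int.natCast_dvd.mpr hdvd)
  obtain ⟨h1, h2⟩ := h 1 one_pos
  obtain ⟨h3, h4⟩ := h p hp.pos
  have hA1 : A 1 = 1 := by rw [h2]; simp
  have hD1 : D 1 = 1 := by rw [hA1, one_mul] at h1; exact h1
  have hAp : A p = 1 := by rw [h4]; exact hcop
  have hDp : D p = p := by rw [hAp, one_mul] at h3; exact h3
  refine ⟨C, hC, ?_⟩
  rw [hA1, hD1, hAp, hDp] at hAs
  have e : ((1 : ℕ) : ℝ) / ((1 : ℕ) : ℝ) - ((1 : ℕ) : ℝ) / (p : ℝ) = 1 - 1 / p := by simp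
  rw [e] at hAs
  exact hAs

/-! ## The function `f⁶/Δ` of a weight two cusp form -/

section CuspQuot

variable {N : ℕ} (f : CuspForm (Gamma0 N) 2)

/-- `f⁶ / Δ`, a `Γ₀(N)`-invariant holomorphic function. -/
def cuspQuot (τ : ℍ) : ℂ := f τ ^ 6 * (discriminant τ)⁻¹

theorem cuspQuot_smul (γ : SL(2, ℤ)) (τ : ℍ) :
    cuspQuot f (γ • τ) = (⇑f ∣[(2 : ℤ)] γ) τ ^ 6 * (discriminant τ)⁻¹ := by
  unfold cuspQuot
  rw [SL_slash_apply, helper167.discriminant_smul_eq]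
  have hd : denom γ τ ≠ 0 := denom_ne_zero γ τ
  have hΔ := discriminant_ne_zero τ
  simp only [zpow_neg, zpow_ofNat]
  field_simp

theorem cuspQuot_smul_of_mem {γ : SL(2, ℤ)} (hγ : γ ∈ Gamma0 N) (τ : ℍ) :
    cuspQuot f (γ • τ) = cuspQuot f τ := by
  rw [cuspQuot_smul, slash_eq_of_mem_Gamma0 f hγ]
  rfl

theorem mdiff_cuspQuot : MDiff (cuspQuot f) := by
  have h1 : MDiff (fun τ => (discriminant τ)⁻¹) := by
    have := mdiff_zpow mdiff_discriminant discriminant_ne_zero (-1)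
    simpa [zpow_neg_one] using this
  exact ((CuspFormClass.holo f).pow 6).mul h1

theorem bigOq_cuspQuot_smul [NeZero N] (γ : SL(2, ℤ)) :
    BigOq (fun τ => cuspQuot f (γ • τ)) (6 / N - 1) := by
  have h1 := (bigOq_slash f γ).pow 6
  have h2 : BigOq (fun τ => (discriminant τ)⁻¹) (-1) :=
    bigOq_of_asymp (asymp_discriminant.inv one_ne_zero)
  have h3 := h1.mul h2
  have e : ((6 : ℕ) : ℝ) * (1 / (N : ℝ)) + -1 = 6 / N - 1 := by push_cast; ring
  rw [e] at h3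
  exact h3.congr fun τ => (cuspQuot_smul f γ τ).symm

end CuspQuot

/-! ## Hauptmoduln of `Γ₀(p)` -/

/-- `u` is a holomorphic `Γ₀(p)`-invariant function with `u^e = Δ(τ)/Δ(pτ)`. -/
structure IsHaupt (p e : ℕ) (u : ℍ → ℂ) : Prop where
  mdiff : MDiff u
  inv : ∀ γ ∈ Gamma0 p, ∀ τ : ℍ, u (γ • τ) = u τ
  pow : ∀ τ : ℍ, u τ ^ e = dq p τ

section HauptLemmas

variable {p e : ℕ} {u : ℍ → ℂ}

theorem IsHaupt.e_ne_zero (hp : p.Prime) (he : e + 1 = p) : e ≠ 0 := by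
  have := hp.two_le
  omega

theorem IsHaupt.ne_zero (hp : p.Prime) (he : e + 1 = p) (hu : IsHaupt p e u) (τ : ℍ) :
    u τ ≠ 0 := by
  intro h0
  have h1 := hu.pow τ
  rw [h0, zero_pow (IsHaupt.e_ne_zero hp he)] at h1
  exact dq_ne_zero p τ h1.symm

theorem IsHaupt.mdiff_inv (hp : p.Prime) (he : e + 1 = p) (hu : IsHaupt p e u) :
    MDiff (fun τ => (u τ)⁻¹) := by
  have := mdiff_zpow hu.mdiff (IsHaupt.ne_zero hp he hu) (-1)
  simpa [zpow_neg_one] using this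

theorem IsHaupt.bigOq_of_mem (hp : p.Prime) (he : e + 1 = p) (hu : IsHaupt p e u)
    {γ : SL(2, ℤ)} (hγ : γ ∈ Gamma0 p) : BigOq (fun τ => u (γ • τ)) (-1) := by
  obtain ⟨C, hC, hAs⟩ := exists_asymp_dq hp
  have h1 := bigOq_of_asymp hAs
  have e1 : (1 : ℝ) - p = e * (-1) := by rw [← he]; push_cast; ring
  rw [e1] at h1
  exact BigOq.of_pow (IsHaupt.e_ne_zero hp he)
    (h1.congr fun τ => by rw [hu.inv γ hγ, hu.pow])

theorem IsHaupt.bigOq_inv_of_mem (hp : p.Prime) (he : e + 1 = p) (hu : IsHaupt p e u)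
    {γ : SL(2, ℤ)} (hγ : γ ∈ Gamma0 p) : BigOq (fun τ => (u (γ • τ))⁻¹) 1 := by
  obtain ⟨C, hC, hAs⟩ := exists_asymp_dq hp
  have h1 := bigOq_of_asymp (hAs.inv hC)
  have e1 : -((1 : ℝ) - p) = e * 1 := by rw [← he]; push_cast; ring
  rw [e1] at h1
  exact BigOq.of_pow (IsHaupt.e_ne_zero hp he)
    (h1.congr fun τ => by rw [hu.inv γ hγ, inv_pow, hu.pow])

theorem IsHaupt.bigOq_of_not_mem (hp : p.Prime) (he : e + 1 = p) (hu : IsHaupt p e u)
    {γ : SL(2, ℤ)} (hγ : γ ∉ Gamma0 p) : BigOq (fun τ => u (γ • τ)) (1 / p) := by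
  obtain ⟨C, hC, hAs⟩ := exists_asymp_dq_smul hp hγ
  have h1 := bigOq_of_asymp hAs
  have hp0 : (p : ℝ) ≠ 0 := by exact_mod_cast hp.ne_zero
  have e1 : (1 : ℝ) - 1 / p = e * (1 / p) := by
    have : (p : ℝ) = e + 1 := by rw [← he]; push_cast; ring
    field_simp
    linarith
  rw [e1] at h1
  exact BigOq.of_pow (IsHaupt.e_ne_zero hp he) (h1.congr fun τ => by rw [hu.pow])

theorem IsHaupt.bigOq_inv_of_not_mem (hp : p.Prime) (he : e + 1 = p) (hu : IsHaupt p e u)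
    {γ : SL(2, ℤ)} (hγ : γ ∉ Gamma0 p) : BigOq (fun τ => (u (γ • τ))⁻¹) (-(1 / p)) := by
  obtain ⟨C, hC, hAs⟩ := exists_asymp_dq_smul hp hγ
  have h1 := bigOq_of_asymp (hAs.inv hC)
  have hp0 : (p : ℝ) ≠ 0 := by exact_mod_cast hp.ne_zero
  have e1 : -((1 : ℝ) - 1 / p) = e * (-(1 / p)) := by
    have : (p : ℝ) = e + 1 := by rw [← he]; push_cast; ring
    field_simp
    linarith
  rw [e1] at h1
  exact BigOq.of_pow (IsHaupt.e_ne_zero hp he)
    (h1.congr fun τ => by rw [inv_pow, hu.pow])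

theorem IsHaupt.exists_tendsto_infty (hp : p.Prime) (he : e + 1 = p) (hu : IsHaupt p e u) :
    ∃ C : ℂ, C ≠ 0 ∧ Tendsto (fun τ => u τ * qH 1 τ) atImInfty (𝓝 C) := by
  obtain ⟨C, hC, hAs⟩ := exists_asymp_dq hp
  have hG : MDiff (fun τ => u τ * qH 1 τ) := hu.mdiff.mul (mdiff_qH 1)
  have hper : HPeriodic 1 (fun τ => u τ * qH 1 τ) := by
    intro τ
    have h1 : u ((1 : ℝ) +ᵥ τ) = u τ := by
      rw [← UpperHalfPlane.modular_T_smul]
      exact hu.inv _ (T_mem_Gamma0 p) τ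
    show u ((1 : ℝ) +ᵥ τ) * qH 1 ((1 : ℝ) +ᵥ τ) = u τ * qH 1 τ
    rw [h1, hPeriodic_qH one_ne_zero τ]
  have hlim : Tendsto (fun τ => (u τ * qH 1 τ) ^ e) atImInfty (𝓝 C) := by
    unfold Asymp at hAs
    refine hAs.congr fun τ => ?_
    rw [mul_pow, hu.pow, qH_eq_expI, expI_pow]
    congr 2
    rw [← he]
    push_cast
    ring
  exact exists_tendsto_of_pow one_pos hG hper (IsHaupt.e_ne_zero hp he) hC hlim

theorem S_not_mem_Gamma0 (hp : p.Prime) : ModularGroup.S ∉ Gamma0 p := by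
  rw [Gamma0_mem, ZMod.intCast_zmod_eq_zero_iff_dvd]
  have h : (ModularGroup.S : SL(2, ℤ)) 1 0 = 1 := by
    rw [ModularGroup.coe_S]
    rfl
  rw [h]
  intro hdvd
  have := Int.natCast_dvd_natCast.mp (by simpa using hdvd : ((p : ℕ) : ℤ) ∣ ((1 : ℕ) : ℤ))
  exact hp.one_lt.ne' (Nat.dvd_one.mp this)

theorem IsHaupt.exists_tendsto_zero (hp : p.Prime) (he : e + 1 = p) (hu : IsHaupt p e u) :
    ∃ C : ℂ, C ≠ 0 ∧
      Tendsto (fun τ => (u (ModularGroup.S • τ))⁻¹ * qH p τ) atImInfty (𝓝 C) := by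
  obtain ⟨C, hC, hAs⟩ := exists_asymp_dq_smul hp (S_not_mem_Gamma0 hp)
  have hpR : (0 : ℝ) < p := by exact_mod_cast hp.pos
  have hG : MDiff (fun τ => (u (ModularGroup.S • τ))⁻¹ * qH p τ) :=
    (mdiff_comp_smul (IsHaupt.mdiff_inv hp he hu) ModularGroup.S).mul (mdiff_qH p)
  have hper : HPeriodic p (fun τ => (u (ModularGroup.S • τ))⁻¹ * qH p τ) := by
    intro τ
    have h1 : ((p : ℝ) +ᵥ τ : ℍ) = ModularGroup.T ^ (p : ℤ) • τ := by
      rw [UpperHalfPlane.modular_T_zpow_smul]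
      simp
    have h2 : ModularGroup.S • (ModularGroup.T ^ (p : ℤ) • τ)
        = (ModularGroup.S * ModularGroup.T ^ p * ModularGroup.S⁻¹) • (ModularGroup.S • τ) := by
      rw [← mul_smul, ← mul_smul, zpow_natCast]
      congr 1
      group
    have h3 : u (ModularGroup.S • ((p : ℝ) +ᵥ τ)) = u (ModularGroup.S • τ) := by
      rw [h1, h2, hu.inv _ (S_T_pow_mem_Gamma0 p)]
    show (u (ModularGroup.S • ((p : ℝ) +ᵥ τ)))⁻¹ * qH p ((p : ℝ) +ᵥ τ)
      = (u (ModularGroup.S • τ))⁻¹ * qH p τ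
    rw [h3, hPeriodic_qH hpR.ne' τ]
  have hlim : Tendsto (fun τ => ((u (ModularGroup.S • τ))⁻¹ * qH p τ) ^ e) atImInfty
      (𝓝 C⁻¹) := by
    have hAs' := hAs.inv hC
    unfold Asymp at hAs'
    refine hAs'.congr fun τ => ?_
    rw [mul_pow, inv_pow, hu.pow, qH_eq_expI, expI_pow]
    congr 2
    have : (p : ℝ) = e + 1 := by rw [← he]; push_cast; ring
    field_simp
    linarith
  exact exists_tendsto_of_pow hpR hG hper (IsHaupt.e_ne_zero hp he) (inv_ne_zero hC) hlim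

end HauptLemmas

/-! ## The two certificates, generic form -/

section Generic

variable {p e N : ℕ} [NeZero N] {u : ℍ → ℂ} (f : CuspForm (Gamma0 N) 2) {W : ℍ → ℂ}
  {e0 k1 m1 m2 : ℕ}

/-- Growth of `W ∘ γ` from the growth of `u ∘ γ` and `(u ∘ γ)⁻¹`. -/
theorem bigOq_of_pow_eq (he0 : e0 ≠ 0)
    (hWpow : ∀ τ : ℍ, W τ ^ e0 = cuspQuot f τ ^ k1 * u τ ^ m1 * (u τ)⁻¹ ^ m2)
    (γ : SL(2, ℤ)) {x y : ℝ} (hx : BigOq (fun τ => u (γ • τ)) x)
    (hy : BigOq (fun τ => (u (γ • τ))⁻¹) y) :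
    BigOq (fun τ => W (γ • τ)) ((k1 * (6 / N - 1) + m1 * x + m2 * y) / e0) := by
  have he0R : (e0 : ℝ) ≠ 0 := by exact_mod_cast he0
  have h1 := (((bigOq_cuspQuot_smul f γ).pow k1).mul (hx.pow m1)).mul (hy.pow m2)
  have e1 : (k1 : ℝ) * (6 / N - 1) + m1 * x + m2 * y
      = e0 * ((k1 * (6 / N - 1) + m1 * x + m2 * y) / e0) := by
    field_simp
  rw [e1] at h1
  exact BigOq.of_pow he0 (h1.congr fun τ => (hWpow (γ • τ)).symm)

theorem evGrowth_of_pow_eq (hp : p.Prime) (he : e + 1 = p) (hu : IsHaupt p e u) (he0 : e0 ≠ 0)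
    (hWpow : ∀ τ : ℍ, W τ ^ e0 = cuspQuot f τ ^ k1 * u τ ^ m1 * (u τ)⁻¹ ^ m2)
    (γ : SL(2, ℤ)) : EvGrowth (fun τ => W (γ • τ)) := by
  by_cases hγ : γ ∈ Gamma0 p
  · exact (bigOq_of_pow_eq f he0 hWpow γ (IsHaupt.bigOq_of_mem hp he hu hγ)
      (IsHaupt.bigOq_inv_of_mem hp he hu hγ)).evGrowth
  · exact (bigOq_of_pow_eq f he0 hWpow γ (IsHaupt.bigOq_of_not_mem hp he hu hγ)
      (IsHaupt.bigOq_inv_of_not_mem hp he hu hγ)).evGrowth

/-- **Certificate on the chart `u ≠ ∞`.**  `W` holomorphic, `Γ₀(N)`-invariant, with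
`W^e0 = (f⁶/Δ)^k1 u^m1 u^(-m2)` and nonnegative order at the cusps over `u = 0`:
`W` is integral over `ℂ[u]`. -/
theorem exists_monic_cert_infty (hp : p.Prime) (he : e + 1 = p) (hpN : p ∣ N)
    (hu : IsHaupt p e u) (hW : MDiff W) (hWinv : ∀ γ ∈ Gamma0 N, ∀ τ : ℍ, W (γ • τ) = W τ)
    (he0 : e0 ≠ 0)
    (hWpow : ∀ τ : ℍ, W τ ^ e0 = cuspQuot f τ ^ k1 * u τ ^ m1 * (u τ)⁻¹ ^ m2)
    (hexp : (0 : ℝ) ≤ k1 * (6 / N - 1) + m1 * (1 / p) + m2 * (-(1 / p))) :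
    ∃ P : Polynomial (Polynomial ℂ), P.Monic ∧
      ∀ τ : ℍ, (P.map (Polynomial.evalRingHom (u τ))).eval (W τ) = 0 := by
  have : NeZero p := ⟨hp.ne_zero⟩
  obtain ⟨C, hC, htas⟩ := IsHaupt.exists_tendsto_infty hp he hu
  have hp0 : (0 : ℝ) ≤ 1 / p := by positivity
  refine exists_monic_over_t hpN hu.mdiff hu.inv hC htas
    (fun γ hγ => (IsHaupt.bigOq_of_not_mem hp he hu hγ).bdd hp0) hW hWinv
    (evGrowth_of_pow_eq f hp he hu he0 hWpow) (fun γ hγ => ?_)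
  exact (bigOq_of_pow_eq f he0 hWpow γ (IsHaupt.bigOq_of_not_mem hp he hu hγ)
    (IsHaupt.bigOq_inv_of_not_mem hp he hu hγ)).bdd (div_nonneg hexp (Nat.cast_nonneg e0))

/-- **Certificate on the chart `u ≠ 0`.**  Same data, nonnegative order at the cusps over
`u = ∞`: `W` is integral over `ℂ[1/u]`. -/
theorem exists_monic_cert_zero (hp : p.Prime) (he : e + 1 = p) (hpN : p ∣ N)
    (hu : IsHaupt p e u) (hW : MDiff W) (hWinv : ∀ γ ∈ Gamma0 N, ∀ τ : ℍ, W (γ • τ) = W τ)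
    (he0 : e0 ≠ 0)
    (hWpow : ∀ τ : ℍ, W τ ^ e0 = cuspQuot f τ ^ k1 * u τ ^ m1 * (u τ)⁻¹ ^ m2)
    (hexp : (0 : ℝ) ≤ k1 * (6 / N - 1) + m1 * (-1) + m2 * 1) :
    ∃ P : Polynomial (Polynomial ℂ), P.Monic ∧
      ∀ τ : ℍ, (P.map (Polynomial.evalRingHom (u τ)⁻¹)).eval (W τ) = 0 := by
  obtain ⟨C, hC, htas⟩ := IsHaupt.exists_tendsto_zero hp he hu
  refine exists_monic_over_t_inv hp hpN (u := fun τ => (u τ)⁻¹) (IsHaupt.mdiff_inv hp he hu)
    (fun γ hγ τ => by rw [hu.inv γ hγ]) hC htas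
    (fun γ hγ => (IsHaupt.bigOq_inv_of_mem hp he hu hγ).bdd zero_le_one) hW hWinv
    (evGrowth_of_pow_eq f hp he hu he0 hWpow) (fun γ hγ => ?_)
  exact (bigOq_of_pow_eq f he0 hWpow γ (IsHaupt.bigOq_of_mem hp he hu hγ)
    (IsHaupt.bigOq_inv_of_mem hp he hu hγ)).bdd (div_nonneg hexp (Nat.cast_nonneg e0))

end Generic

/-! ## Level data and the four functions -/

/-- Level-`p` data: a Hauptmodul `u` (`u^e = Δ(τ)/Δ(pτ)`), a nowhere vanishing form `D` of weight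
`2a` on `Γ₀(p)` with `D^e0 u^p = Δ`, and a weight two form `ε` with `ε^a = (u + c)^(a-1) D`.
(`(p, e, a, e0, c) = (2, 1, 2, 3, 64)` and `(3, 2, 3, 2, 27)`.) -/
structure LevelData (p e a e0 : ℕ) (c : ℂ) (u D ε : ℍ → ℂ) : Prop where
  haupt : IsHaupt p e u
  mdiffD : MDiff D
  D_ne : ∀ τ : ℍ, D τ ≠ 0
  D_smul : ∀ γ ∈ Gamma0 p, ∀ τ : ℍ, D (γ • τ) = denom γ τ ^ (2 * a) * D τ
  rel : ∀ τ : ℍ, D τ ^ e0 * u τ ^ p = discriminant τ
  eps : ∀ τ : ℍ, ε τ ^ a = (u τ + c) ^ (a - 1) * D τ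

theorem mdiff_inv_of_ne {g : ℍ → ℂ} (hg : MDiff g) (h0 : ∀ τ, g τ ≠ 0) :
    MDiff (fun τ => (g τ)⁻¹) := by
  have := mdiff_zpow hg h0 (-1)
  simpa [zpow_neg_one] using this

section Functions

variable {p e a e0 N : ℕ} {c : ℂ} {u D ε : ℍ → ℂ} (f : CuspForm (Gamma0 N) 2)

/-- `z = f^a / D` (`= (f/ε)^a (u + c)^(a-1)`). -/
def certZ (a : ℕ) (D : ℍ → ℂ) (τ : ℍ) : ℂ := f τ ^ a * (D τ)⁻¹

/-- `z' = f^a / (D u^(a-1))` (`= (f/ε)^a (c/u + 1)^(a-1)`). -/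
def certZ' (a : ℕ) (u D : ℍ → ℂ) (τ : ℍ) : ℂ := f τ ^ a * (D τ)⁻¹ * (u τ)⁻¹ ^ (a - 1)

theorem mdiff_certZ (hL : LevelData p e a e0 c u D ε) : MDiff (certZ f a D) :=
  ((CuspFormClass.holo f).pow a).mul (mdiff_inv_of_ne hL.mdiffD hL.D_ne)

theorem mdiff_certZ' (hp : p.Prime) (he : e + 1 = p) (hL : LevelData p e a e0 c u D ε) :
    MDiff (certZ' f a u D) :=
  (mdiff_certZ f hL).mul ((IsHaupt.mdiff_inv hp he hL.haupt).pow (a - 1))

theorem certZ_smul (hpN : p ∣ N) (hL : LevelData p e a e0 c u D ε) {γ : SL(2, ℤ)}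
    (hγ : γ ∈ Gamma0 N) (τ : ℍ) : certZ f a D (γ • τ) = certZ f a D τ := by
  have h1 : f (γ • τ) = denom γ τ ^ (2 : ℤ) * f τ :=
    SlashInvariantForm.slash_action_eqn_SL'' f hγ τ
  have h2 := hL.D_smul γ (Gamma0_le_of_dvd hpN hγ) τ
  have hd : denom γ τ ≠ 0 := denom_ne_zero γ τ
  have hD := hL.D_ne τ
  unfold certZ
  rw [h1, h2, zpow_ofNat, mul_pow, ← pow_mul, mul_inv]
  field_simp

theorem certZ'_smul (hpN : p ∣ N) (hL : LevelData p e a e0 c u D ε) {γ : SL(2, ℤ)}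
    (hγ : γ ∈ Gamma0 N) (τ : ℍ) : certZ' f a u D (γ • τ) = certZ' f a u D τ := by
  have h1 := certZ_smul f hpN hL hγ τ
  unfold certZ at h1
  unfold certZ'
  rw [h1, hL.haupt.inv γ (Gamma0_le_of_dvd hpN hγ)]

/-- `z^e0 = (f⁶/Δ) u^p`. -/
theorem certZ_pow (hp : p.Prime) (he : e + 1 = p) (ha : a * e0 = 6)
    (hL : LevelData p e a e0 c u D ε) (τ : ℍ) :
    certZ f a D τ ^ e0 = cuspQuot f τ ^ 1 * u τ ^ p * (u τ)⁻¹ ^ 0 := by
  have hD := hL.D_ne τ
  have hu := IsHaupt.ne_zero hp he hL.haupt τ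
  unfold certZ cuspQuot
  rw [← hL.rel τ, mul_pow, ← pow_mul, ha, inv_pow, pow_one, pow_zero, mul_one, mul_inv]
  field_simp

/-- `z'^e0 = (f⁶/Δ) u⁻¹`. -/
theorem certZ'_pow (hp : p.Prime) (he : e + 1 = p) (ha : a * e0 = 6) (ha' : (a - 1) * e0 = p + 1)
    (hL : LevelData p e a e0 c u D ε) (τ : ℍ) :
    certZ' f a u D τ ^ e0 = cuspQuot f τ ^ 1 * u τ ^ 0 * (u τ)⁻¹ ^ 1 := by
  have h1 := certZ_pow f hp he ha hL τ
  have hu := IsHaupt.ne_zero hp he hL.haupt τ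
  unfold certZ at h1
  unfold certZ'
  rw [mul_pow, h1, ← pow_mul, ha']
  simp only [pow_one, pow_zero, mul_one, inv_pow]
  field_simp
  ring

theorem certZ_pow_mul_pow (hp : p.Prime) (he : e + 1 = p) (ha : a * e0 = 6)
    (hL : LevelData p e a e0 c u D ε) (E : ℕ) (τ : ℍ) :
    (certZ f a D τ ^ E * (u τ)⁻¹) ^ e0
      = cuspQuot f τ ^ E * u τ ^ (p * E) * (u τ)⁻¹ ^ e0 := by
  rw [mul_pow, ← pow_mul, mul_comm E e0, pow_mul, certZ_pow f hp he ha hL τ]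
  ring

theorem certZ'_pow_mul_pow (hp : p.Prime) (he : e + 1 = p) (ha : a * e0 = 6)
    (ha' : (a - 1) * e0 = p + 1) (hL : LevelData p e a e0 c u D ε) (E : ℕ) (τ : ℍ) :
    (certZ' f a u D τ ^ E * u τ) ^ e0
      = cuspQuot f τ ^ E * u τ ^ e0 * (u τ)⁻¹ ^ E := by
  rw [mul_pow, ← pow_mul, mul_comm E e0, pow_mul, certZ'_pow f hp he ha ha' hL τ]
  ring

end Functions

/-! ## The four certificates: analytic form -/

section Certificates

variable {p e a e0 N : ℕ} [NeZero N] {c : ℂ} {u D ε : ℍ → ℂ} (f : CuspForm (Gamma0 N) 2)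

theorem isModFun_of_pow_eq (hp : p.Prime) (he : e + 1 = p) (hu : IsHaupt p e u) {W : ℍ → ℂ}
    (hW : MDiff W) (hWinv : ∀ γ ∈ Gamma0 N, ∀ τ : ℍ, W (γ • τ) = W τ) {k1 m1 m2 : ℕ}
    (he0 : e0 ≠ 0)
    (hWpow : ∀ τ : ℍ, W τ ^ e0 = cuspQuot f τ ^ k1 * u τ ^ m1 * (u τ)⁻¹ ^ m2) : IsModFun N W :=
  ⟨hW, hWinv, evGrowth_of_pow_eq f hp he hu he0 hWpow⟩

theorem e0_ne_zero_of_mul {a e0 : ℕ} (ha : a * e0 = 6) : e0 ≠ 0 := by
  rintro rfl
  simp at ha

/-- (1) `z = f^a/D` is integral over `ℂ[u]`. -/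
theorem exists_monic_certZ (hp : p.Prime) (he : e + 1 = p) (hpN : p ∣ N) (ha : a * e0 = 6)
    (hL : LevelData p e a e0 c u D ε) :
    ∃ P : Polynomial (Polynomial ℂ), P.Monic ∧
      ∀ τ : ℍ, (P.map (Polynomial.evalRingHom (u τ))).eval (certZ f a D τ) = 0 := by
  refine exists_monic_cert_infty f hp he hpN hL.haupt (mdiff_certZ f hL)
    (fun γ hγ τ => certZ_smul f hpN hL hγ τ) (e0_ne_zero_of_mul ha) (certZ_pow f hp he ha hL) ?_
  have hp0 : (p : ℝ) ≠ 0 := by exact_mod_cast hp.ne_zero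
  have hN : (0 : ℝ) < N := by exact_mod_cast Nat.pos_of_ne_zero (NeZero.ne N)
  have e1 : ((1 : ℕ) : ℝ) * (6 / N - 1) + p * (1 / p) + ((0 : ℕ) : ℝ) * (-(1 / p)) = 6 / N := by
    push_cast
    field_simp
    ring
  rw [e1]
  positivity

/-- (2) `z^E/u` is integral over `ℂ[u]`. -/
theorem exists_monic_certZ_pow (hp : p.Prime) (he : e + 1 = p) (hpN : p ∣ N) (ha : a * e0 = 6)
    (he0 : e0 ≤ 3) (hL : LevelData p e a e0 c u D ε) (E : ℕ) (hE : N ≤ 2 * E) :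
    ∃ P : Polynomial (Polynomial ℂ), P.Monic ∧
      ∀ τ : ℍ, (P.map (Polynomial.evalRingHom (u τ))).eval
        (certZ f a D τ ^ E * (u τ)⁻¹) = 0 := by
  refine exists_monic_cert_infty f hp he hpN hL.haupt
    (((mdiff_certZ f hL).pow E).mul (IsHaupt.mdiff_inv hp he hL.haupt))
    (fun γ hγ τ => by
      rw [certZ_smul f hpN hL hγ τ, hL.haupt.inv γ (Gamma0_le_of_dvd hpN hγ)])
    (e0_ne_zero_of_mul ha) (certZ_pow_mul_pow f hp he ha hL E) ?_
  have hp1 : (1 : ℝ) ≤ p := by exact_mod_cast hp.one_lt.le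
  have hN : (0 : ℝ) < N := by exact_mod_cast Nat.pos_of_ne_zero (NeZero.ne N)
  have hE' : (N : ℝ) ≤ 2 * E := by exact_mod_cast hE
  have he0' : (e0 : ℝ) ≤ 3 := by exact_mod_cast he0
  have he0'' : (0 : ℝ) ≤ e0 := Nat.cast_nonneg e0
  have e1 : (E : ℝ) * (6 / N - 1) + ((p * E : ℕ) : ℝ) * (1 / p) + (e0 : ℝ) * (-(1 / p))
      = (6 * E * p - e0 * N) / (N * p) := by
    push_cast
    field_simp
    ring
  rw [e1]
  apply div_nonneg _ (by positivity)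
  nlinarith [mul_nonneg hN.le (sub_nonneg.mpr he0'), mul_nonneg hN.le (sub_nonneg.mpr hp1)]

/-- (3) `z' = f^a/(D u^(a-1))` is integral over `ℂ[1/u]`. -/
theorem exists_monic_certZ' (hp : p.Prime) (he : e + 1 = p) (hpN : p ∣ N) (ha : a * e0 = 6)
    (ha' : (a - 1) * e0 = p + 1) (hL : LevelData p e a e0 c u D ε) :
    ∃ P : Polynomial (Polynomial ℂ), P.Monic ∧
      ∀ τ : ℍ, (P.map (Polynomial.evalRingHom (u τ)⁻¹)).eval (certZ' f a u D τ) = 0 := by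
  refine exists_monic_cert_zero f hp he hpN hL.haupt (mdiff_certZ' f hp he hL)
    (fun γ hγ τ => certZ'_smul f hpN hL hγ τ) (e0_ne_zero_of_mul ha)
    (certZ'_pow f hp he ha ha' hL) ?_
  have hN : (0 : ℝ) < N := by exact_mod_cast Nat.pos_of_ne_zero (NeZero.ne N)
  have e1 : ((1 : ℕ) : ℝ) * (6 / N - 1) + ((0 : ℕ) : ℝ) * (-1) + ((1 : ℕ) : ℝ) * 1 = 6 / N := by
    push_cast
    ring
  rw [e1]
  positivity

/-- (4) `z'^E u` is integral over `ℂ[1/u]`. -/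
theorem exists_monic_certZ'_pow (hp : p.Prime) (he : e + 1 = p) (hpN : p ∣ N) (ha : a * e0 = 6)
    (ha' : (a - 1) * e0 = p + 1) (he0 : e0 ≤ 3) (hL : LevelData p e a e0 c u D ε) (E : ℕ)
    (hE : N ≤ 2 * E) :
    ∃ P : Polynomial (Polynomial ℂ), P.Monic ∧
      ∀ τ : ℍ, (P.map (Polynomial.evalRingHom (u τ)⁻¹)).eval
        (certZ' f a u D τ ^ E * u τ) = 0 := by
  refine exists_monic_cert_zero f hp he hpN hL.haupt
    (((mdiff_certZ' f hp he hL).pow E).mul hL.haupt.mdiff)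
    (fun γ hγ τ => by
      rw [certZ'_smul f hpN hL hγ τ, hL.haupt.inv γ (Gamma0_le_of_dvd hpN hγ)])
    (e0_ne_zero_of_mul ha) (certZ'_pow_mul_pow f hp he ha ha' hL E) ?_
  have hN : (0 : ℝ) < N := by exact_mod_cast Nat.pos_of_ne_zero (NeZero.ne N)
  have hE' : (N : ℝ) ≤ 2 * E := by exact_mod_cast hE
  have he0' : (e0 : ℝ) ≤ 3 := by exact_mod_cast he0
  have e1 : (E : ℝ) * (6 / N - 1) + (e0 : ℝ) * (-1) + (E : ℝ) * 1
      = (6 * E - e0 * N) / N := by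
    field_simp
    ring
  rw [e1]
  apply div_nonneg _ hN.le
  nlinarith [mul_nonneg hN.le (sub_nonneg.mpr he0')]

end Certificates

/-! ## `q`-expansions -/

theorem hasExp_of_isModFun {N : ℕ} {W : ℍ → ℂ} (hW : IsModFun N W) :
    HasExp W (cuspExpFun 1 W) := ⟨hW.isCuspMer, rfl⟩

theorem hasExp_eq_mul_inv {W Dn F : ℍ → ℂ} {wS dS fS : LaurentSeries ℂ} (hW : HasExp W wS)
    (hD : HasExp Dn dS) (hF : HasExp F fS) (hd : dS ≠ 0) (h : ∀ τ, W τ * Dn τ = F τ) :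
    wS = fS * dS⁻¹ := by
  have h2 := ((hW.mul hD).congr h).unique hF
  rw [← h2, mul_assoc, mul_inv_cancel₀ hd, mul_one]

theorem hasExp_ne_zero {F : ℍ → ℂ} {fS : LaurentSeries ℂ} (hF : HasExp F fS) {τ₀ : ℍ}
    (h : F τ₀ ≠ 0) : fS ≠ 0 := by
  obtain ⟨hcm, rfl⟩ := hF
  intro h0
  rw [cuspExpFun_eq_zero_iff one_pos hcm] at h0
  rw [h0] at h
  exact h rfl

/-- The `q`-expansion of a holomorphic, `1`-periodic function bounded at `i∞`. -/
theorem hasExp_of_isCuspHol {F : ℍ → ℂ} (hF : IsCuspHol 1 F) :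
    HasExp F (HahnSeries.ofPowerSeries ℤ ℂ (qExpansion 1 F)) :=
  ⟨hF.isCuspMer, cuspExpFun_of_isCuspHol one_pos hF⟩

theorem isCuspHol_modularForm {N : ℕ} [NeZero N] {k : ℤ} (g : ModularForm (Gamma0 N) k) :
    IsCuspHol 1 g := by
  refine ⟨ModularFormClass.holo g, fun τ => ?_, ModularFormClass.bdd_at_infty g⟩
  have h1 : g (ModularGroup.T • τ) = denom ModularGroup.T τ ^ k * g τ :=
    SlashInvariantForm.slash_action_eqn_SL'' g (T_mem_Gamma0 N) τ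
  have hd : denom ModularGroup.T τ = 1 := by
    rw [denom_SL]
    simp [ModularGroup.T]
  rw [hd, one_zpow, one_mul, UpperHalfPlane.modular_T_smul] at h1
  exact h1

/-- The `q`-expansion of a modular form on `Γ₀(N)`. -/
theorem hasExp_modularForm {N : ℕ} [NeZero N] {k : ℤ} (g : ModularForm (Gamma0 N) k) :
    HasExp g (HahnSeries.ofPowerSeries ℤ ℂ (qExpansion 1 g)) :=
  hasExp_of_isCuspHol (isCuspHol_modularForm g)

theorem isCuspHol_cuspForm {N : ℕ} [NeZero N] {k : ℤ} (g : CuspForm (Gamma0 N) k) :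
    IsCuspHol 1 g := by
  refine ⟨CuspFormClass.holo g, fun τ => ?_, ModularFormClass.bdd_at_infty g⟩
  have h1 : g (ModularGroup.T • τ) = denom ModularGroup.T τ ^ k * g τ :=
    SlashInvariantForm.slash_action_eqn_SL'' g (T_mem_Gamma0 N) τ
  have hd : denom ModularGroup.T τ = 1 := by
    rw [denom_SL]
    simp [ModularGroup.T]
  rw [hd, one_zpow, one_mul, UpperHalfPlane.modular_T_smul] at h1
  exact h1

/-- The `q`-expansion of a cusp form on `Γ₀(N)`. -/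
theorem hasExp_cuspForm {N : ℕ} [NeZero N] {k : ℤ} (g : CuspForm (Gamma0 N) k) :
    HasExp g (HahnSeries.ofPowerSeries ℤ ℂ (qExpansion 1 g)) :=
  hasExp_of_isCuspHol (isCuspHol_cuspForm g)

section HauptSeries

variable {p e : ℕ} {u : ℍ → ℂ}

theorem IsHaupt.isModFun (hp : p.Prime) (he : e + 1 = p) (hu : IsHaupt p e u) : IsModFun p u :=
  ⟨hu.mdiff, hu.inv, fun γ => by
    by_cases hγ : γ ∈ Gamma0 p
    · exact (IsHaupt.bigOq_of_mem hp he hu hγ).evGrowth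
    · exact (IsHaupt.bigOq_of_not_mem hp he hu hγ).evGrowth⟩

theorem IsHaupt.isModFun_inv (hp : p.Prime) (he : e + 1 = p) (hu : IsHaupt p e u) :
    IsModFun p (fun τ => (u τ)⁻¹) :=
  ⟨IsHaupt.mdiff_inv hp he hu, fun γ hγ τ => by rw [hu.inv γ hγ], fun γ => by
    by_cases hγ : γ ∈ Gamma0 p
    · exact (IsHaupt.bigOq_inv_of_mem hp he hu hγ).evGrowth
    · exact (IsHaupt.bigOq_inv_of_not_mem hp he hu hγ).evGrowth⟩

/-- The expansion of `1/u`. -/
theorem IsHaupt.hasExp_inv (hp : p.Prime) (he : e + 1 = p) (hu : IsHaupt p e u)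
    {tS : LaurentSeries ℂ} (ht : HasExp u tS) :
    tS ≠ 0 ∧ HasExp (fun τ => (u τ)⁻¹) tS⁻¹ := by
  have ht0 : tS ≠ 0 := hasExp_ne_zero ht (IsHaupt.ne_zero hp he hu UpperHalfPlane.I)
  refine ⟨ht0, ?_⟩
  have h1 := hasExp_of_isModFun (IsHaupt.isModFun_inv hp he hu)
  have h2 : HasExp (fun _ : ℍ => (1 : ℂ)) (1 : LaurentSeries ℂ) := by
    have := HasExp.const 1
    rwa [map_one] at this
  have h3 := hasExp_eq_mul_inv h1 ht h2 ht0
    (fun τ => inv_mul_cancel₀ (IsHaupt.ne_zero hp he hu τ))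
  rw [one_mul] at h3
  rw [← h3]
  exact h1

/-- A Hauptmodul is not constant. -/
theorem IsHaupt.exists_ne (hp : p.Prime) (he : e + 1 = p) (hu : IsHaupt p e u) (c : ℂ) :
    ∃ τ : ℍ, u τ ≠ c := by
  by_contra hcon
  push Not at hcon
  obtain ⟨C, hC, hlim⟩ := IsHaupt.exists_tendsto_infty hp he hu
  have h0 : Tendsto (fun τ : ℍ => c * qH 1 τ) atImInfty (𝓝 (c * 0)) :=
    (UpperHalfPlane.qParam_tendsto_atImInfty one_pos).const_mul c
  have h1 : (fun τ : ℍ => u τ * qH 1 τ) = fun τ : ℍ => c * qH 1 τ := by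
    funext τ
    rw [hcon τ]
  rw [h1] at hlim
  have := tendsto_nhds_unique hlim h0
  rw [mul_zero] at this
  exact hC this

end HauptSeries

/-! ## The four certificates: `q`-expansion form -/

section Series

variable {p e a e0 N : ℕ} [NeZero N] {c : ℂ} {u D ε : ℍ → ℂ} (f : CuspForm (Gamma0 N) 2)

theorem LevelData.epsS_ne_zero (hp : p.Prime) (he : e + 1 = p) (ha' : (a - 1) * e0 = p + 1)
    (hL : LevelData p e a e0 c u D ε) {epsS : LaurentSeries ℂ} (heps : HasExp ε epsS) :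
    epsS ≠ 0 := by
  obtain ⟨τ, hτ⟩ := IsHaupt.exists_ne hp he hL.haupt (-c)
  refine hasExp_ne_zero heps (τ₀ := τ) ?_
  intro h0
  have h1 := hL.eps τ
  have ha0 : a ≠ 0 := by
    rintro rfl
    simp at ha'
  rw [h0, zero_pow ha0] at h1
  rcases mul_eq_zero.mp h1.symm with h2 | h2
  · exact hτ (eq_neg_of_add_eq_zero_left (pow_eq_zero_iff (by
      intro h3
      rw [h3, zero_mul] at ha'
      omega) |>.mp h2))
  · exact hL.D_ne τ h2

/-- **The four certificates on `q`-expansions.**  With `y = f/ε`, `t = u`: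
`z = y^a (t + c)^(a-1)` and `z^E / t` are integral over `ℂ[t]`;
`z' = y^a (c/t + 1)^(a-1)` and `z'^E t` are integral over `ℂ[1/t]`. -/
theorem series_certificates (hp : p.Prime) (he : e + 1 = p) (hpN : p ∣ N) (ha : a * e0 = 6)
    (ha' : (a - 1) * e0 = p + 1) (he0 : e0 ≤ 3) (hL : LevelData p e a e0 c u D ε) (E : ℕ)
    (hE : N ≤ 2 * E) {fS epsS tS : LaurentSeries ℂ} (hf : HasExp f fS) (heps : HasExp ε epsS)
    (ht : HasExp u tS) :
    (∃ P : Polynomial (Polynomial ℂ), P.Monic ∧ P.eval₂ (Polynomial.aeval tS).toRingHom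
      ((fS * epsS⁻¹) ^ a * (tS + HahnSeries.C c) ^ (a - 1)) = 0) ∧
    (∃ P : Polynomial (Polynomial ℂ), P.Monic ∧ P.eval₂ (Polynomial.aeval tS).toRingHom
      (((fS * epsS⁻¹) ^ a * (tS + HahnSeries.C c) ^ (a - 1)) ^ E * tS⁻¹) = 0) ∧
    (∃ P : Polynomial (Polynomial ℂ), P.Monic ∧ P.eval₂ (Polynomial.aeval tS⁻¹).toRingHom
      ((fS * epsS⁻¹) ^ a * (HahnSeries.C c * tS⁻¹ + 1) ^ (a - 1)) = 0) ∧
    (∃ P : Polynomial (Polynomial ℂ), P.Monic ∧ P.eval₂ (Polynomial.aeval tS⁻¹).toRingHom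
      (((fS * epsS⁻¹) ^ a * (HahnSeries.C c * tS⁻¹ + 1) ^ (a - 1)) ^ E * tS) = 0) := by
  have he0' : e0 ≠ 0 := e0_ne_zero_of_mul ha
  have heps0 : epsS ≠ 0 := hL.epsS_ne_zero hp he ha' heps
  obtain ⟨ht0, htinv⟩ := IsHaupt.hasExp_inv hp he hL.haupt ht
  -- the expansion of `z`
  have hZmod : IsModFun N (certZ f a D) :=
    isModFun_of_pow_eq f hp he hL.haupt (mdiff_certZ f hL)
      (fun γ hγ τ => certZ_smul f hpN hL hγ τ) he0' (certZ_pow f hp he ha hL)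
  have hZ := hasExp_of_isModFun hZmod
  have hZeq : cuspExpFun 1 (certZ f a D)
      = (fS * epsS⁻¹) ^ a * (tS + HahnSeries.C c) ^ (a - 1) := by
    have h1 := hasExp_eq_mul_inv hZ (heps.pow a)
      ((hf.pow a).mul ((ht.add (HasExp.const c)).pow (a - 1))) (pow_ne_zero a heps0)
      (fun τ => by
        have hD := hL.D_ne τ
        show certZ f a D τ * ε τ ^ a = f τ ^ a * (u τ + c) ^ (a - 1)
        rw [hL.eps τ]
        unfold certZ
        field_simp)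
    rw [h1, mul_pow, inv_pow]
    ring
  rw [hZeq] at hZ
  -- the expansion of `z'`
  have hZ' : HasExp (certZ' f a u D)
      ((fS * epsS⁻¹) ^ a * (HahnSeries.C c * tS⁻¹ + 1) ^ (a - 1)) := by
    have h1 := hZ.mul (htinv.pow (a - 1))
    have e1 : (fS * epsS⁻¹) ^ a * (tS + HahnSeries.C c) ^ (a - 1) * tS⁻¹ ^ (a - 1)
        = (fS * epsS⁻¹) ^ a * (HahnSeries.C c * tS⁻¹ + 1) ^ (a - 1) := by
      rw [mul_assoc, ← mul_pow, add_mul, mul_inv_cancel₀ ht0, add_comm]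
    rw [e1] at h1
    exact h1
  refine ⟨?_, ?_, ?_, ?_⟩
  · obtain ⟨P, hP, hP0⟩ := exists_monic_certZ f hp he hpN ha hL
    exact ⟨P, hP, series_relation_of_pointwise ht hZ P hP0⟩
  · obtain ⟨P, hP, hP0⟩ := exists_monic_certZ_pow f hp he hpN ha he0 hL E hE
    exact ⟨P, hP, series_relation_of_pointwise ht ((hZ.pow E).mul htinv) P hP0⟩
  · obtain ⟨P, hP, hP0⟩ := exists_monic_certZ' f hp he hpN ha ha' hL
    exact ⟨P, hP, series_relation_of_pointwise htinv hZ' P hP0⟩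
  · obtain ⟨P, hP, hP0⟩ := exists_monic_certZ'_pow f hp he hpN ha ha' he0 hL E hE
    exact ⟨P, hP, series_relation_of_pointwise htinv ((hZ'.pow E).mul ht) P hP0⟩

end Series

/-! ## Levels 2 and 3: the forms of `helper6895` -/

theorem dil_eq_affH (p : ℕ) [NeZero p] (τ : ℍ) : helper6895.dil p τ = affH p 0 1 τ := by
  apply UpperHalfPlane.ext
  rw [helper6895.coe_dil, coe_affH (Nat.pos_of_ne_zero (NeZero.ne p)) one_pos]
  simp

theorem h2_eq_dq (τ : ℍ) : helper6895.h2 τ = dq 2 τ := by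
  rw [helper6895.h2_eq_discriminant_div, dil_eq_affH]
  rfl

theorem isHaupt_h2 : IsHaupt 2 1 helper6895.h2 := by
  have h : helper6895.h2 = dq 2 := funext h2_eq_dq
  refine ⟨h ▸ mdiff_dq Nat.prime_two, fun γ hγ τ => ?_, fun τ => ?_⟩
  · rw [h2_eq_dq, h2_eq_dq, dq_smul_of_mem Nat.prime_two hγ]
  · rw [pow_one, h2_eq_dq]

/-- Level 2: `(u, D, ε) = (h₂, b₂, ε₂)`, `c = 64`. -/
theorem levelData_two :
    LevelData 2 1 2 3 64 helper6895.h2 (helper6895.b2 : ℍ → ℂ) (helper6895.eps2 : ℍ → ℂ) where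
  haupt := isHaupt_h2
  mdiffD := ModularFormClass.holo helper6895.b2
  D_ne := helper6895.b2_ne_zero
  D_smul γ hγ τ := by
    have h1 : helper6895.b2 (γ • τ) = denom γ τ ^ (4 : ℤ) * helper6895.b2 τ :=
      SlashInvariantForm.slash_action_eqn_SL'' helper6895.b2 hγ τ
    rw [h1, zpow_ofNat]
  rel τ := by
    have hb := helper6895.b2_ne_zero τ
    rw [helper6895.discriminant_eq_a2_b2, helper6895.h2]
    field_simp
  eps τ := by
    rw [helper6895.eps2_sq_eq_h2]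
    simp

theorem h3_sq_eq_dq (τ : ℍ) : helper6895.h3 τ ^ 2 = dq 3 τ := by
  rw [helper6895.h3_sq_eq_discriminant_div, dil_eq_affH]
  rfl

theorem isHaupt_h3 : IsHaupt 3 2 helper6895.h3 := by
  refine ⟨?_, fun γ hγ τ => ?_, h3_sq_eq_dq⟩
  · have h1 : MDiff (fun τ => (helper6895.eps3 τ * helper6895.B3 τ - 27 * helper6895.C3 τ)
        * (helper6895.C3 τ)⁻¹) :=
      (((ModularFormClass.holo helper6895.eps3).mul (ModularFormClass.holo helper6895.B3)).sub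
        (mdifferentiable_const.mul (ModularFormClass.holo helper6895.C3))).mul
        (mdiff_inv_of_ne (ModularFormClass.holo helper6895.C3) helper6895.C3_ne_zero)
    have h2 : helper6895.h3 = fun τ => (helper6895.eps3 τ * helper6895.B3 τ
        - 27 * helper6895.C3 τ) * (helper6895.C3 τ)⁻¹ := by
      funext τ
      rw [helper6895.h3, div_eq_mul_inv]
    rw [h2]
    exact h1
  · have h1 : helper6895.eps3 (γ • τ) = denom γ τ ^ (2 : ℤ) * helper6895.eps3 τ :=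
      SlashInvariantForm.slash_action_eqn_SL'' helper6895.eps3 hγ τ
    have h2 : helper6895.B3 (γ • τ) = denom γ τ ^ (4 : ℤ) * helper6895.B3 τ :=
      SlashInvariantForm.slash_action_eqn_SL'' helper6895.B3 hγ τ
    have h3 : helper6895.C3 (γ • τ) = denom γ τ ^ (6 : ℤ) * helper6895.C3 τ :=
      SlashInvariantForm.slash_action_eqn_SL'' helper6895.C3 hγ τ
    have hd : denom γ τ ≠ 0 := denom_ne_zero γ τ
    have hC := helper6895.C3_ne_zero τ
    rw [helper6895.h3, helper6895.h3, h1, h2, h3]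
    simp only [zpow_ofNat]
    field_simp

/-- Level 3: `(u, D, ε) = (h₃, C₃, ε₃)`, `c = 27`. -/
theorem levelData_three :
    LevelData 3 2 3 2 27 helper6895.h3 (helper6895.C3 : ℍ → ℂ) (helper6895.eps3 : ℍ → ℂ) where
  haupt := isHaupt_h3
  mdiffD := ModularFormClass.holo helper6895.C3
  D_ne := helper6895.C3_ne_zero
  D_smul γ hγ τ := by
    have h1 : helper6895.C3 (γ • τ) = denom γ τ ^ (6 : ℤ) * helper6895.C3 τ :=
      SlashInvariantForm.slash_action_eqn_SL'' helper6895.C3 hγ τ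
    rw [h1, zpow_ofNat]
  rel τ := by
    have hC := helper6895.C3_ne_zero τ
    have h1 := helper6895.C3_mul_discriminant τ
    rw [helper6895.h3]
    field_simp
    linear_combination -h1
  eps τ := by
    rw [helper6895.eps3_cube_eq_h3]

/-- The `q`-expansion of `h₂ = a₂/b₂`. -/
theorem hasExp_h2 : HasExp helper6895.h2
    (HahnSeries.ofPowerSeries ℤ ℂ (qExpansion 1 helper6895.a2) *
      (HahnSeries.ofPowerSeries ℤ ℂ (qExpansion 1 helper6895.b2))⁻¹) := by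
  have hb := hasExp_modularForm helper6895.b2
  have ha := hasExp_modularForm helper6895.a2
  have hu := hasExp_of_isModFun (IsHaupt.isModFun Nat.prime_two rfl isHaupt_h2)
  have hb0 := hasExp_ne_zero hb (helper6895.b2_ne_zero UpperHalfPlane.I)
  have h := hasExp_eq_mul_inv hu hb ha hb0 (fun τ => by
    have := helper6895.b2_ne_zero τ
    rw [helper6895.h2]
    field_simp)
  rw [← h]
  exact hu

/-- The `q`-expansion of `h₃ = (ε₃ B₃ - 27 C₃)/C₃`. -/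
theorem hasExp_h3 : HasExp helper6895.h3
    ((HahnSeries.ofPowerSeries ℤ ℂ (qExpansion 1 helper6895.eps3) *
        HahnSeries.ofPowerSeries ℤ ℂ (qExpansion 1 helper6895.B3) -
      27 * HahnSeries.ofPowerSeries ℤ ℂ (qExpansion 1 helper6895.C3)) *
      (HahnSeries.ofPowerSeries ℤ ℂ (qExpansion 1 helper6895.C3))⁻¹) := by
  have hC := hasExp_modularForm helper6895.C3
  have hB := hasExp_modularForm helper6895.B3
  have hE := hasExp_modularForm helper6895.eps3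
  have hu := hasExp_of_isModFun (IsHaupt.isModFun Nat.prime_three rfl isHaupt_h3)
  have hC0 := hasExp_ne_zero hC (helper6895.C3_ne_zero UpperHalfPlane.I)
  have hF := (hE.mul hB).add ((HasExp.const (-27)).mul hC)
  have e27 : (HahnSeries.C (-27 : ℂ) : LaurentSeries ℂ) = -27 := by
    rw [map_neg, map_ofNat]
  rw [e27] at hF
  have h := hasExp_eq_mul_inv hu hC hF hC0 (fun τ => by
    have := helper6895.C3_ne_zero τ
    rw [helper6895.h3]
    field_simp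
    ring)
  have e : (HahnSeries.ofPowerSeries ℤ ℂ (qExpansion 1 helper6895.eps3) *
        HahnSeries.ofPowerSeries ℤ ℂ (qExpansion 1 helper6895.B3) -
      27 * HahnSeries.ofPowerSeries ℤ ℂ (qExpansion 1 helper6895.C3))
      = HahnSeries.ofPowerSeries ℤ ℂ (qExpansion 1 helper6895.eps3) *
        HahnSeries.ofPowerSeries ℤ ℂ (qExpansion 1 helper6895.B3) +
      -27 * HahnSeries.ofPowerSeries ℤ ℂ (qExpansion 1 helper6895.C3) := by ring
  rw [e, ← h]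
  exact hu

/-! ## Descent of the four certificates to a subfield of `ℂ` -/

section DescentCert

open ModularCurve

variable {K : Type*} [Field K] [Algebra K ℂ]

/-- The four certificates over a subfield `K ⊆ ℂ` containing the coefficients of the
`q`-expansions of `f`, `ε`, `u` (and `c`). -/
theorem series_certificates_descent {p e a e0 N : ℕ} [NeZero N] {c : ℂ} {u D ε : ℍ → ℂ}
    (f : CuspForm (Gamma0 N) 2) (hp : p.Prime) (he : e + 1 = p) (hpN : p ∣ N) (ha : a * e0 = 6)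
    (ha' : (a - 1) * e0 = p + 1) (he0 : e0 ≤ 3) (hL : LevelData p e a e0 c u D ε) (E : ℕ)
    (hE : N ≤ 2 * E) {fK epsK tK : LaurentSeries K} {cK : K} (hc : algebraMap K ℂ cK = c)
    (hf : HasExp f (coeffMap (algebraMap K ℂ) fK))
    (heps : HasExp ε (coeffMap (algebraMap K ℂ) epsK))
    (ht : HasExp u (coeffMap (algebraMap K ℂ) tK)) :
    (∃ P : Polynomial (Polynomial K), P.Monic ∧ P.eval₂ (Polynomial.aeval tK).toRingHom
      ((fK * epsK⁻¹) ^ a * (tK + HahnSeries.C cK) ^ (a - 1)) = 0) ∧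
    (∃ P : Polynomial (Polynomial K), P.Monic ∧ P.eval₂ (Polynomial.aeval tK).toRingHom
      (((fK * epsK⁻¹) ^ a * (tK + HahnSeries.C cK) ^ (a - 1)) ^ E * tK⁻¹) = 0) ∧
    (∃ P : Polynomial (Polynomial K), P.Monic ∧ P.eval₂ (Polynomial.aeval tK⁻¹).toRingHom
      ((fK * epsK⁻¹) ^ a * (HahnSeries.C cK * tK⁻¹ + 1) ^ (a - 1)) = 0) ∧
    (∃ P : Polynomial (Polynomial K), P.Monic ∧ P.eval₂ (Polynomial.aeval tK⁻¹).toRingHom
      (((fK * epsK⁻¹) ^ a * (HahnSeries.C cK * tK⁻¹ + 1) ^ (a - 1)) ^ E * tK) = 0) := by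
  set φ : LaurentSeries K →+* LaurentSeries ℂ := coeffMap (algebraMap K ℂ) with hφ
  have hC : φ (HahnSeries.C cK) = HahnSeries.C c := by
    rw [← hc, HahnSeries.C_apply, HahnSeries.C_apply, hφ, coeffMap_single]
  obtain ⟨⟨P1, hP1, h1⟩, ⟨P2, hP2, h2⟩, ⟨P3, hP3, h3⟩, ⟨P4, hP4, h4⟩⟩ :=
    series_certificates f hp he hpN ha ha' he0 hL E hE hf heps ht
  refine ⟨?_, ?_, ?_, ?_⟩
  · obtain ⟨Q, hQ, -, hQ0⟩ := exists_monic_descent tK
      ((fK * epsK⁻¹) ^ a * (tK + HahnSeries.C cK) ^ (a - 1)) P1 hP1 (by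
        rw [← hφ]
        simp only [map_mul, map_pow, map_add, map_inv₀, hC]
        exact h1)
    exact ⟨Q, hQ, hQ0⟩
  · obtain ⟨Q, hQ, -, hQ0⟩ := exists_monic_descent tK
      (((fK * epsK⁻¹) ^ a * (tK + HahnSeries.C cK) ^ (a - 1)) ^ E * tK⁻¹) P2 hP2 (by
        rw [← hφ]
        simp only [map_mul, map_pow, map_add, map_inv₀, hC]
        exact h2)
    exact ⟨Q, hQ, hQ0⟩
  · obtain ⟨Q, hQ, -, hQ0⟩ := exists_monic_descent tK⁻¹
      ((fK * epsK⁻¹) ^ a * (HahnSeries.C cK * tK⁻¹ + 1) ^ (a - 1)) P3 hP3 (by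
        rw [← hφ]
        simp only [map_mul, map_pow, map_add, map_inv₀, map_one, hC]
        exact h3)
    exact ⟨Q, hQ, hQ0⟩
  · obtain ⟨Q, hQ, -, hQ0⟩ := exists_monic_descent tK⁻¹
      (((fK * epsK⁻¹) ^ a * (HahnSeries.C cK * tK⁻¹ + 1) ^ (a - 1)) ^ E * tK) P4 hP4 (by
        rw [← hφ]
        simp only [map_mul, map_pow, map_add, map_inv₀, map_one, hC]
        exact h4)
    exact ⟨Q, hQ, hQ0⟩

/-- **Level 2**, over `K ⊆ ℂ`: with `y = f/ε₂`, `t = h₂`: `z = y² (t + 64)` and `z^E/t` are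
integral over `K[t]`; `z' = y² (64/t + 1)` and `z'^E t` are integral over `K[1/t]`. -/
theorem level_two_certificates {N : ℕ} [NeZero N] (h2N : 2 ∣ N) (f : CuspForm (Gamma0 N) 2)
    (E : ℕ) (hE : N ≤ 2 * E) {fK epsK tK : LaurentSeries K}
    (hf : HasExp f (coeffMap (algebraMap K ℂ) fK))
    (heps : HasExp helper6895.eps2 (coeffMap (algebraMap K ℂ) epsK))
    (ht : HasExp helper6895.h2 (coeffMap (algebraMap K ℂ) tK)) :
    (∃ P : Polynomial (Polynomial K), P.Monic ∧ P.eval₂ (Polynomial.aeval tK).toRingHom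
      ((fK * epsK⁻¹) ^ 2 * (tK + 64)) = 0) ∧
    (∃ P : Polynomial (Polynomial K), P.Monic ∧ P.eval₂ (Polynomial.aeval tK).toRingHom
      (((fK * epsK⁻¹) ^ 2 * (tK + 64)) ^ E * tK⁻¹) = 0) ∧
    (∃ P : Polynomial (Polynomial K), P.Monic ∧ P.eval₂ (Polynomial.aeval tK⁻¹).toRingHom
      ((fK * epsK⁻¹) ^ 2 * (64 * tK⁻¹ + 1)) = 0) ∧
    (∃ P : Polynomial (Polynomial K), P.Monic ∧ P.eval₂ (Polynomial.aeval tK⁻¹).toRingHom
      (((fK * epsK⁻¹) ^ 2 * (64 * tK⁻¹ + 1)) ^ E * tK) = 0) := by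
  have h := series_certificates_descent (K := K) (cK := 64) f Nat.prime_two rfl h2N rfl rfl
    (by norm_num) levelData_two E hE (map_ofNat (algebraMap K ℂ) 64) hf heps ht
  have e64 : (HahnSeries.C (64 : K) : LaurentSeries K) = 64 := map_ofNat HahnSeries.C 64
  rw [e64] at h
  simpa only [Nat.add_one_sub_one, pow_one] using h

/-- **Level 3**, over `K ⊆ ℂ`: with `y = f/ε₃`, `t = h₃`: `z = y³ (t + 27)²` and `z^E/t` are
integral over `K[t]`; `z' = y³ (27/t + 1)²` and `z'^E t` are integral over `K[1/t]`. -/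
theorem level_three_certificates {N : ℕ} [NeZero N] (h3N : 3 ∣ N) (f : CuspForm (Gamma0 N) 2)
    (E : ℕ) (hE : N ≤ 2 * E) {fK epsK tK : LaurentSeries K}
    (hf : HasExp f (coeffMap (algebraMap K ℂ) fK))
    (heps : HasExp helper6895.eps3 (coeffMap (algebraMap K ℂ) epsK))
    (ht : HasExp helper6895.h3 (coeffMap (algebraMap K ℂ) tK)) :
    (∃ P : Polynomial (Polynomial K), P.Monic ∧ P.eval₂ (Polynomial.aeval tK).toRingHom
      ((fK * epsK⁻¹) ^ 3 * (tK + 27) ^ 2) = 0) ∧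
    (∃ P : Polynomial (Polynomial K), P.Monic ∧ P.eval₂ (Polynomial.aeval tK).toRingHom
      (((fK * epsK⁻¹) ^ 3 * (tK + 27) ^ 2) ^ E * tK⁻¹) = 0) ∧
    (∃ P : Polynomial (Polynomial K), P.Monic ∧ P.eval₂ (Polynomial.aeval tK⁻¹).toRingHom
      ((fK * epsK⁻¹) ^ 3 * (27 * tK⁻¹ + 1) ^ 2) = 0) ∧
    (∃ P : Polynomial (Polynomial K), P.Monic ∧ P.eval₂ (Polynomial.aeval tK⁻¹).toRingHom
      (((fK * epsK⁻¹) ^ 3 * (27 * tK⁻¹ + 1) ^ 2) ^ E * tK) = 0) := by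
  have h := series_certificates_descent (K := K) (cK := 27) f Nat.prime_three rfl h3N rfl rfl
    (by norm_num) levelData_three E hE (map_ofNat (algebraMap K ℂ) 27) hf heps ht
  have e27 : (HahnSeries.C (27 : K) : LaurentSeries K) = 27 := map_ofNat HahnSeries.C 27
  rw [e27] at h
  exact h

end DescentCert

end Fermat.Agent.S18.helper2346

end
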