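import Fermat.Agent.S18.helper2346_HauptCrit
import Fermat.Agent.S28.helper2346_Dict

/-!
# S18 (CERT-T): integrality over a Hauptmodul line, both charts (helper2346)

* `exists_monic_over_haupt` : `r ∣ N`, Hauptmodul data `(σ, h, u)` for `Γ₀(r)` as in
  `exists_poly_of_growth`, and `W` holomorphic, `Γ₀(N)`-invariant, of exponential growth at all
  cusps and bounded at the cusps not `Γ₀(r)`-equivalent to `σ∞`.  Then `W` is a root of a monic
  polynomial with coefficients in `ℂ[u]`.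
* `exists_monic_over_t` (chart `t ≠ ∞`) and `exists_monic_over_t_inv` (chart `t ≠ 0`, `r` prime).
* `series_relation_of_pointwise` : the relation on `q`-expansions (`HasExp`).
* `exists_monic_descent` : descent of a monic relation from `L[t]` to `K[t]` for series with
  coefficients in a subfield `K ⊆ L`; `isIntegral_adjoin_of_eval₂` : the `IsIntegral` form.
-/

set_option autoImplicit false

open UpperHalfPlane hiding I
open ModularForm Filter Complex CongruenceSubgroup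
open scoped Manifold Topology MatrixGroups Real

noncomputable section

namespace Fermat.Agent.S18.helper2346

open Fermat.Agent.S24 Fermat.Agent.S24.helper315 Fermat.Agent.S28.helper2346

/-! ## Cosets -/

theorem Gamma0_le_of_dvd {r N : ℕ} (hrN : r ∣ N) : Gamma0 N ≤ Gamma0 r := by
  intro A hA
  rw [Gamma0_mem] at hA ⊢
  rw [ZMod.intCast_zmod_eq_zero_iff_dvd] at hA ⊢
  exact (Int.natCast_dvd_natCast.mpr hrN).trans hA

/-- Explicit form of `conjFun_perm`. -/
theorem conjFun_smul {N : ℕ} {f : ℍ → ℂ}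
    (hinv : ∀ γ ∈ Gamma0 N, ∀ τ : ℍ, f (γ • τ) = f τ) (g : SL(2, ℤ))
    (x : SL(2, ℤ) ⧸ Gamma0 N) (τ : ℍ) :
    conjFun N f x (g • τ) = conjFun N f (g⁻¹ • x) τ := by
  simp only [conjFun]
  set y : SL(2, ℤ) ⧸ Gamma0 N := g⁻¹ • x with hy
  have hx : (QuotientGroup.mk (Quotient.out x) : SL(2, ℤ) ⧸ Gamma0 N) = x := Quotient.out_eq x
  have hy' : (QuotientGroup.mk (Quotient.out y) : SL(2, ℤ) ⧸ Gamma0 N) = y := Quotient.out_eq y
  have h1 : (QuotientGroup.mk (Quotient.out y) : SL(2, ℤ) ⧸ Gamma0 N)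
      = QuotientGroup.mk (g⁻¹ * Quotient.out x) := by
    rw [hy', hy]
    conv_lhs => rw [← hx]
    rfl
  have key : (Quotient.out y)⁻¹ * (g⁻¹ * Quotient.out x) ∈ Gamma0 N := QuotientGroup.eq.mp h1
  have h2 : (Quotient.out y)⁻¹ • τ
      = ((Quotient.out y)⁻¹ * (g⁻¹ * Quotient.out x)) • ((Quotient.out x)⁻¹ • g • τ) := by
    rw [← mul_smul, ← mul_smul]
    congr 1
    group
  rw [h2, hinv _ key]

theorem out_mk_mem_iff {r N : ℕ} (hrN : r ∣ N) (γ : SL(2, ℤ)) :
    Quotient.out (QuotientGroup.mk γ : SL(2, ℤ) ⧸ Gamma0 N) ∈ Gamma0 r ↔ γ ∈ Gamma0 r := by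
  have h : (QuotientGroup.mk (Quotient.out (QuotientGroup.mk γ : SL(2, ℤ) ⧸ Gamma0 N)) :
      SL(2, ℤ) ⧸ Gamma0 N) = QuotientGroup.mk γ := Quotient.out_eq _
  have key : (Quotient.out (QuotientGroup.mk γ : SL(2, ℤ) ⧸ Gamma0 N))⁻¹ * γ ∈ Gamma0 r :=
    Gamma0_le_of_dvd hrN (QuotientGroup.eq.mp h)
  constructor
  · intro h1
    have := (Gamma0 r).mul_mem h1 key
    simpa using this
  · intro h1
    have := (Gamma0 r).mul_mem h1 ((Gamma0 r).inv_mem key)
    simpa using this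

theorem out_smul_mem_iff {r N : ℕ} (hrN : r ∣ N) {g : SL(2, ℤ)} (hg : g ∈ Gamma0 r)
    (x : SL(2, ℤ) ⧸ Gamma0 N) :
    Quotient.out (g • x) ∈ Gamma0 r ↔ Quotient.out x ∈ Gamma0 r := by
  have hx : (QuotientGroup.mk (Quotient.out x) : SL(2, ℤ) ⧸ Gamma0 N) = x := Quotient.out_eq x
  have h1 : g • x = (QuotientGroup.mk (g * Quotient.out x) : SL(2, ℤ) ⧸ Gamma0 N) := by
    conv_lhs => rw [← hx]
    rfl
  rw [h1, out_mk_mem_iff hrN]
  constructor
  · intro h2
    have := (Gamma0 r).mul_mem ((Gamma0 r).inv_mem hg) h2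
    simpa using this
  · intro h2
    exact (Gamma0 r).mul_mem hg h2

/-! ## The certificate -/

/-- **Integrality over a Hauptmodul line** (general chart). -/
theorem exists_monic_over_haupt {r N : ℕ} [NeZero r] [NeZero N] (hrN : r ∣ N)
    (σ : SL(2, ℤ)) (h : ℕ) (hh : 0 < h)
    (hσ : σ * ModularGroup.T ^ h * σ⁻¹ ∈ Gamma0 r)
    {u : ℍ → ℂ} (hu : MDiff u) (huinv : ∀ γ ∈ Gamma0 r, ∀ τ : ℍ, u (γ • τ) = u τ)
    {C : ℂ} (hC : C ≠ 0)
    (huas : Tendsto (fun τ => u (σ • τ) * qH h τ) atImInfty (𝓝 C))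
    (hubd : ∀ γ : SL(2, ℤ), (∀ g ∈ Gamma0 r, ∀ k : ℤ, γ ≠ g * σ * ModularGroup.T ^ k) →
      IsBoundedAtImInfty (fun τ => u (γ • τ)))
    {W : ℍ → ℂ} (hW : MDiff W) (hWinv : ∀ γ ∈ Gamma0 N, ∀ τ : ℍ, W (γ • τ) = W τ)
    (hWgr : ∀ γ : SL(2, ℤ), EvGrowth (fun τ => W (γ • τ)))
    (hWbd : ∀ γ : SL(2, ℤ), (∀ g ∈ Gamma0 r, ∀ k : ℤ, γ ≠ g * σ * ModularGroup.T ^ k) →
      IsBoundedAtImInfty (fun τ => W (γ • τ))) :
    ∃ P : Polynomial (Polynomial ℂ), P.Monic ∧
      ∀ τ : ℍ, (P.map (Polynomial.evalRingHom (u τ))).eval (W τ) = 0 := by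
  classical
  let _ : Fintype (SL(2, ℤ) ⧸ Gamma0 N) := Fintype.ofFinite _
  set φ : SL(2, ℤ) ⧸ Gamma0 N → ℍ → ℂ := conjFun N W with hφ
  set Xr : Finset (SL(2, ℤ) ⧸ Gamma0 N) :=
    Finset.univ.filter fun x => Quotient.out x ∈ Gamma0 r with hXr
  have hmemXr : ∀ x, x ∈ Xr ↔ Quotient.out x ∈ Gamma0 r := fun x => by simp [hXr]
  let Q : ℍ → Polynomial ℂ := fun τ => ∏ x ∈ Xr, (Polynomial.X - Polynomial.C (φ x τ))
  set n := Xr.card with hn
  -- the coefficient functions
  have hc_hol : ∀ k, MDiff (fun τ => (Q τ).coeff k) := fun k =>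
    helper167.mdiff_coeff_prod_X_sub_C φ (fun x => mdiff_comp_smul hW _) Xr k
  have hc_inv : ∀ k, ∀ γ ∈ Gamma0 r, ∀ τ : ℍ, (Q (γ • τ)).coeff k = (Q τ).coeff k := by
    intro k γ hγ τ
    have hQ : Q (γ • τ) = Q τ := by
      show ∏ x ∈ Xr, (Polynomial.X - Polynomial.C (φ x (γ • τ))) = _
      refine Finset.prod_equiv (MulAction.toPerm γ⁻¹) (fun x => ?_) (fun x _ => ?_)
      · rw [hmemXr, hmemXr, MulAction.toPerm_apply,
          out_smul_mem_iff hrN ((Gamma0 r).inv_mem hγ)]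
      · rw [hφ, conjFun_smul hWinv, MulAction.toPerm_apply]
    rw [hQ]
  have hnotclass : ∀ γ : SL(2, ℤ),
      (∀ g ∈ Gamma0 r, ∀ k : ℤ, γ ≠ g * σ * ModularGroup.T ^ k) → ∀ x ∈ Xr,
        ∀ g ∈ Gamma0 r, ∀ k : ℤ, (Quotient.out x)⁻¹ * γ ≠ g * σ * ModularGroup.T ^ k := by
    intro γ hγ x hx g hg k heq
    have hxr : Quotient.out x ∈ Gamma0 r := (hmemXr x).mp hx
    refine hγ (Quotient.out x * g) ((Gamma0 r).mul_mem hxr hg) k ?_
    have : γ = Quotient.out x * ((Quotient.out x)⁻¹ * γ) := by group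
    rw [this, heq]
    group
  have hc_bd : ∀ k, ∀ γ : SL(2, ℤ),
      (∀ g ∈ Gamma0 r, ∀ k : ℤ, γ ≠ g * σ * ModularGroup.T ^ k) →
        IsBoundedAtImInfty (fun τ => (Q (γ • τ)).coeff k) := by
    intro k γ hγ
    refine bdd_coeff_prod (fun x τ => φ x (γ • τ)) Xr (fun x hx => ?_) k
    have h1 := hWbd _ (hnotclass γ hγ x hx)
    refine h1.congr' (Filter.Eventually.of_forall fun τ => ?_)
      (Filter.Eventually.of_forall fun _ => rfl)
    show W (((Quotient.out x)⁻¹ * γ) • τ) = W ((Quotient.out x)⁻¹ • γ • τ)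
    rw [mul_smul]
  have hc_gr : ∀ k, ∃ m : ℕ, IsBoundedAtImInfty (fun τ => (Q (σ • τ)).coeff k * qH h τ ^ m) := by
    intro k
    have hev : EvGrowth (fun τ => (Q (σ • τ)).coeff k) := by
      refine coeff_prod_induction EvGrowth EvGrowth.const (fun _ _ => EvGrowth.add)
        (fun _ _ => EvGrowth.mul) (fun x τ => φ x (σ • τ)) Xr (fun x _ => ?_) k
      have h1 := hWgr ((Quotient.out x)⁻¹ * σ)
      have e : (fun τ => W (((Quotient.out x)⁻¹ * σ) • τ)) = fun τ => φ x (σ • τ) := by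
        funext τ
        rw [mul_smul]
        rfl
      rwa [e] at h1
    obtain ⟨m, C₀, A, hm⟩ := hev
    refine ⟨m * h, ?_⟩
    rw [isBoundedAtImInfty_iff]
    refine ⟨|C₀|, A, fun τ hτ => ?_⟩
    have h2 := hm τ hτ
    have hhR : (0 : ℝ) < (h : ℝ) := by exact_mod_cast hh
    rw [norm_mul, norm_pow, norm_qH, ← Real.exp_nat_mul]
    have h3 : ‖(Q (σ • τ)).coeff k‖ ≤ |C₀| * Real.exp (2 * π * m * τ.im) :=
      h2.trans (mul_le_mul_of_nonneg_right (le_abs_self C₀) (Real.exp_pos _).le)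
    calc ‖(Q (σ • τ)).coeff k‖ * Real.exp (((m * h : ℕ) : ℝ) * (-2 * π * τ.im / (h : ℝ)))
        ≤ |C₀| * Real.exp (2 * π * m * τ.im) *
            Real.exp (((m * h : ℕ) : ℝ) * (-2 * π * τ.im / (h : ℝ))) :=
          mul_le_mul_of_nonneg_right h3 (Real.exp_pos _).le
      _ = |C₀| := by
          rw [mul_assoc, ← Real.exp_add]
          have : 2 * π * (m : ℝ) * τ.im + ((m * h : ℕ) : ℝ) * (-2 * π * τ.im / (h : ℝ)) = 0 := by
            push_cast
            field_simp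
            ring
          rw [this, Real.exp_zero, mul_one]
  choose m hm using hc_gr
  choose p hpdeg hp using fun k =>
    exists_poly_of_growth σ h hh hσ hu huinv hC huas hubd (m k) (hc_hol k) (hc_inv k) (hc_bd k)
      (hm k)
  have hQmonic : ∀ τ : ℍ, (Q τ).Monic := fun τ =>
    Polynomial.monic_prod_of_monic _ _ fun x _ => Polynomial.monic_X_sub_C _
  have hQdeg : ∀ τ : ℍ, (Q τ).natDegree = n := fun τ => by
    show (∏ x ∈ Xr, (Polynomial.X - Polynomial.C (φ x τ))).natDegree = n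
    rw [Polynomial.natDegree_finsetProd_X_sub_C_eq_card]
  have hlt : (∑ i ∈ Finset.range n, Polynomial.C (p i) * Polynomial.X ^ i :
      Polynomial (Polynomial ℂ)).degree < n := by
    refine (Polynomial.degree_sum_le _ _).trans_lt
      ((Finset.sup_lt_iff (WithBot.bot_lt_coe n)).mpr fun i hi => ?_)
    exact (Polynomial.degree_C_mul_X_pow_le i _).trans_lt
      (WithBot.coe_lt_coe.mpr (Finset.mem_range.mp hi))
  refine ⟨Polynomial.X ^ n + ∑ i ∈ Finset.range n, Polynomial.C (p i) * Polynomial.X ^ i,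
    Polynomial.monic_X_pow_add hlt, fun τ => ?_⟩
  have hmap : (Polynomial.X ^ n + ∑ i ∈ Finset.range n, Polynomial.C (p i) * Polynomial.X ^ i :
      Polynomial (Polynomial ℂ)).map (Polynomial.evalRingHom (u τ)) = Q τ := by
    conv_rhs => rw [(hQmonic τ).as_sum, hQdeg τ]
    simp only [Polynomial.map_add, Polynomial.map_pow, Polynomial.map_X, Polynomial.map_sum,
      Polynomial.map_mul, Polynomial.map_C, Polynomial.coe_evalRingHom]
    congr 1
    refine Finset.sum_congr rfl fun i _ => ?_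
    rw [← hp i τ]
  rw [hmap]
  show (∏ x ∈ Xr, (Polynomial.X - Polynomial.C (φ x τ))).eval (W τ) = 0
  rw [Polynomial.eval_prod]
  have h1mem : (QuotientGroup.mk 1 : SL(2, ℤ) ⧸ Gamma0 N) ∈ Xr := by
    rw [hmemXr, out_mk_mem_iff hrN]
    exact (Gamma0 r).one_mem
  refine Finset.prod_eq_zero h1mem ?_
  rw [hφ, conjFun_one hWinv]
  simp

/-! ## The two charts -/

theorem S_T_pow_mem_Gamma0 (r : ℕ) :
    ModularGroup.S * ModularGroup.T ^ r * ModularGroup.S⁻¹ ∈ Gamma0 r := by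
  rw [Gamma0_mem]
  have h : (ModularGroup.S * ModularGroup.T ^ r * ModularGroup.S⁻¹ : SL(2, ℤ)) 1 0 = -(r : ℤ) := by
    have hT : ((ModularGroup.T ^ r : SL(2, ℤ)) : Matrix (Fin 2) (Fin 2) ℤ) = !![1, (r : ℤ); 0, 1] := by
      have := ModularGroup.coe_T_zpow (r : ℤ)
      rwa [zpow_natCast] at this
    simp [Matrix.SpecialLinearGroup.coe_mul, Matrix.mul_apply, Fin.sum_univ_two, hT,
      ModularGroup.coe_S, Matrix.SpecialLinearGroup.coe_inv, Matrix.adjugate_fin_two]
  rw [h]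
  simp

/-- For `r` prime, every `γ ∉ Γ₀(r)` lies in `Γ₀(r) S T^k` for some `k`. -/
theorem exists_eq_mul_S_mul_T_zpow {r : ℕ} (hr : r.Prime) {γ : SL(2, ℤ)} (hγ : γ ∉ Gamma0 r) :
    ∃ g ∈ Gamma0 r, ∃ k : ℤ, γ = g * ModularGroup.S * ModularGroup.T ^ k := by
  rw [Gamma0_mem, ZMod.intCast_zmod_eq_zero_iff_dvd] at hγ
  have hcop : IsCoprime (γ 1 0) (r : ℤ) := by
    have hp : Prime (r : ℤ) := Nat.prime_iff_prime_int.mp hr
    exact (hp.coprime_iff_not_dvd.mpr hγ).symm
  obtain ⟨x, y, hxy⟩ := hcop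
  refine ⟨γ * ModularGroup.T ^ (-(γ 1 1 * x)) * ModularGroup.S⁻¹, ?_, γ 1 1 * x, ?_⟩
  · rw [Gamma0_mem, ZMod.intCast_zmod_eq_zero_iff_dvd]
    have h : (γ * ModularGroup.T ^ (-(γ 1 1 * x)) * ModularGroup.S⁻¹ : SL(2, ℤ)) 1 0
        = -(γ 1 1) * (y * r) := by
      simp [Matrix.SpecialLinearGroup.coe_mul, Matrix.mul_apply, Fin.sum_univ_two,
        ModularGroup.coe_T_zpow, ModularGroup.coe_S, Matrix.SpecialLinearGroup.coe_inv,
        Matrix.adjugate_fin_two]
      linear_combination (γ 1 1) * hxy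
    rw [h]
    exact ⟨-(γ 1 1) * y, by ring⟩
  · rw [zpow_neg]
    group

/-- **Chart `t ≠ ∞`**: `t` has a simple pole at `i∞` and is bounded at the cusps not
`Γ₀(r)`-equivalent to `i∞`; `W` is bounded at the same cusps.  Then `W` is integral over
`ℂ[t]`. -/
theorem exists_monic_over_t {r N : ℕ} [NeZero r] [NeZero N] (hrN : r ∣ N)
    {t : ℍ → ℂ} (ht : MDiff t) (htinv : ∀ γ ∈ Gamma0 r, ∀ τ : ℍ, t (γ • τ) = t τ)
    {C : ℂ} (hC : C ≠ 0) (htas : Tendsto (fun τ => t τ * qH 1 τ) atImInfty (𝓝 C))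
    (htbd : ∀ γ : SL(2, ℤ), γ ∉ Gamma0 r → IsBoundedAtImInfty (fun τ => t (γ • τ)))
    {W : ℍ → ℂ} (hW : MDiff W) (hWinv : ∀ γ ∈ Gamma0 N, ∀ τ : ℍ, W (γ • τ) = W τ)
    (hWgr : ∀ γ : SL(2, ℤ), EvGrowth (fun τ => W (γ • τ)))
    (hWbd : ∀ γ : SL(2, ℤ), γ ∉ Gamma0 r → IsBoundedAtImInfty (fun τ => W (γ • τ))) :
    ∃ P : Polynomial (Polynomial ℂ), P.Monic ∧
      ∀ τ : ℍ, (P.map (Polynomial.evalRingHom (t τ))).eval (W τ) = 0 := by
  have hcls : ∀ γ : SL(2, ℤ), (∀ g ∈ Gamma0 r, ∀ k : ℤ, γ ≠ g * 1 * ModularGroup.T ^ k) →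
      γ ∉ Gamma0 r := by
    intro γ hγ hmem
    exact hγ γ hmem 0 (by simp)
  have hσ : (1 : SL(2, ℤ)) * ModularGroup.T ^ 1 * 1⁻¹ ∈ Gamma0 r := by
    rw [one_mul, pow_one, inv_one, mul_one]
    exact T_mem_Gamma0 r
  refine exists_monic_over_haupt hrN 1 1 one_pos hσ ht htinv hC ?_
    (fun γ hγ => htbd γ (hcls γ hγ)) hW hWinv hWgr (fun γ hγ => hWbd γ (hcls γ hγ))
  simpa using htas

/-- **Chart `t ≠ 0`** (`r` prime): `u = 1/t` has a simple pole at the cusp `0` (local parameter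
`q_r`) and is bounded at the cusps `Γ₀(r)`-equivalent to `i∞`; `W` is bounded at the same cusps.
Then `W` is integral over `ℂ[u]`. -/
theorem exists_monic_over_t_inv {r N : ℕ} [NeZero N] (hr : r.Prime) (hrN : r ∣ N)
    {u : ℍ → ℂ} (hu : MDiff u) (huinv : ∀ γ ∈ Gamma0 r, ∀ τ : ℍ, u (γ • τ) = u τ)
    {C : ℂ} (hC : C ≠ 0)
    (huas : Tendsto (fun τ => u (ModularGroup.S • τ) * qH r τ) atImInfty (𝓝 C))
    (hubd : ∀ γ ∈ Gamma0 r, IsBoundedAtImInfty (fun τ => u (γ • τ)))
    {W : ℍ → ℂ} (hW : MDiff W) (hWinv : ∀ γ ∈ Gamma0 N, ∀ τ : ℍ, W (γ • τ) = W τ)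
    (hWgr : ∀ γ : SL(2, ℤ), EvGrowth (fun τ => W (γ • τ)))
    (hWbd : ∀ γ ∈ Gamma0 r, IsBoundedAtImInfty (fun τ => W (γ • τ))) :
    ∃ P : Polynomial (Polynomial ℂ), P.Monic ∧
      ∀ τ : ℍ, (P.map (Polynomial.evalRingHom (u τ))).eval (W τ) = 0 := by
  have : NeZero r := ⟨hr.ne_zero⟩
  have hcls : ∀ γ : SL(2, ℤ),
      (∀ g ∈ Gamma0 r, ∀ k : ℤ, γ ≠ g * ModularGroup.S * ModularGroup.T ^ k) → γ ∈ Gamma0 r := by
    intro γ hγ
    by_contra hmem
    obtain ⟨g, hg, k, hk⟩ := exists_eq_mul_S_mul_T_zpow hr hmem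
    exact hγ g hg k hk
  exact exists_monic_over_haupt hrN ModularGroup.S r hr.pos (S_T_pow_mem_Gamma0 r) hu huinv hC
    huas (fun γ hγ => hubd γ (hcls γ hγ)) hW hWinv hWgr (fun γ hγ => hWbd γ (hcls γ hγ))

/-! ## Series form -/

theorem hasExp_eval_poly {u : ℍ → ℂ} {uS : LaurentSeries ℂ} (hu : HasExp u uS)
    (p : Polynomial ℂ) : HasExp (fun τ => p.eval (u τ)) (Polynomial.aeval uS p) := by
  induction p using Polynomial.induction_on' with
  | add p q hp hq =>
    simp only [Polynomial.eval_add, map_add]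
    exact hp.add hq
  | monomial n a =>
    simp only [Polynomial.eval_monomial, Polynomial.aeval_monomial]
    have h := (HasExp.const a).mul (hu.pow n)
    have e : (HahnSeries.C a : LaurentSeries ℂ) = algebraMap ℂ (LaurentSeries ℂ) a := by
      rw [ModularCurve.algebraMap_laurentSeries_eq_single, HahnSeries.C_apply]
    rwa [e] at h

/-- A pointwise polynomial relation between `W` and `u` passes to the `q`-expansions. -/
theorem series_relation_of_pointwise {u W : ℍ → ℂ} {uS wS : LaurentSeries ℂ} (hu : HasExp u uS)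
    (hW : HasExp W wS) (P : Polynomial (Polynomial ℂ))
    (hP : ∀ τ : ℍ, (P.map (Polynomial.evalRingHom (u τ))).eval (W τ) = 0) :
    P.eval₂ (Polynomial.aeval uS).toRingHom wS = 0 := by
  have hE := HasExp.finset_sum (Finset.range (P.natDegree + 1))
    (f := fun i τ => (P.coeff i).eval (u τ) * W τ ^ i)
    (fun i _ => (hasExp_eval_poly hu (P.coeff i)).mul (hW.pow i))
  have hzero : ∀ τ, (∑ i ∈ Finset.range (P.natDegree + 1),
      (P.coeff i).eval (u τ) * W τ ^ i) = 0 := by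
    intro τ
    have h1 := hP τ
    rw [Polynomial.eval_map, Polynomial.eval₂_eq_sum_range] at h1
    simpa using h1
  have h0 := HasExp.const 0
  rw [map_zero] at h0
  rw [Polynomial.eval₂_eq_sum_range]
  exact (hE.congr hzero).unique h0

open ModularCurve

/-! ## Descent of monic relations along a field extension -/

section Descent

variable {K L : Type*} [Field K] [Field L] [Algebra K L]

/-- Apply a `K`-linear map `ρ : L → K` to the coefficients of a polynomial. -/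
def retrPoly (ρ : L →ₗ[K] K) (p : Polynomial L) : Polynomial K :=
  ∑ j ∈ p.support, Polynomial.monomial j (ρ (p.coeff j))

theorem coeff_aeval_retrPoly (ρ : L →ₗ[K] K) (p : Polynomial L) (t x : LaurentSeries K)
    (k : ℤ) :
    ρ ((Polynomial.aeval (coeffMap (algebraMap K L) t) p * coeffMap (algebraMap K L) x).coeff k)
      = (Polynomial.aeval t (retrPoly ρ p) * x).coeff k := by
  have h1 : Polynomial.aeval (coeffMap (algebraMap K L) t) p
      = ∑ j ∈ p.support, algebraMap L (LaurentSeries L) (p.coeff j)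
          * coeffMap (algebraMap K L) (t ^ j) := by
    rw [Polynomial.aeval_def, Polynomial.eval₂_eq_sum, Polynomial.sum_def]
    simp only [map_pow]
  have h2 : Polynomial.aeval t (retrPoly ρ p)
      = ∑ j ∈ p.support, algebraMap K (LaurentSeries K) (ρ (p.coeff j)) * t ^ j := by
    rw [retrPoly, map_sum]
    simp only [Polynomial.aeval_monomial]
  rw [h1, h2, Finset.sum_mul, Finset.sum_mul, HahnSeries.coeff_sum, HahnSeries.coeff_sum, map_sum]
  refine Finset.sum_congr rfl fun j _ => ?_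
  rw [mul_assoc, mul_assoc, ← map_mul, algebraMap_laurentSeries_eq_single,
    algebraMap_laurentSeries_eq_single, ← HahnSeries.C_apply, ← HahnSeries.C_apply,
    HahnSeries.C_mul_eq_smul, HahnSeries.C_mul_eq_smul, HahnSeries.coeff_smul,
    HahnSeries.coeff_smul, coeffMap_coeff, smul_eq_mul, smul_eq_mul]
  have e : p.coeff j * algebraMap K L ((t ^ j * x).coeff k) = (t ^ j * x).coeff k • p.coeff j := by
    rw [Algebra.smul_def, mul_comm]
  rw [e, map_smul, smul_eq_mul, mul_comm]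

/-- **Descent.** A monic relation over `L[t]` between series with coefficients in `K ⊆ L`
gives a monic relation over `K[t]`. -/
theorem exists_monic_descent (t z : LaurentSeries K) (P : Polynomial (Polynomial L))
    (hP : P.Monic)
    (h : P.eval₂ (Polynomial.aeval (coeffMap (algebraMap K L) t)).toRingHom
        (coeffMap (algebraMap K L) z) = 0) :
    ∃ Q : Polynomial (Polynomial K), Q.Monic ∧ Q.natDegree = P.natDegree ∧
      Q.eval₂ (Polynomial.aeval t).toRingHom z = 0 := by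
  classical
  obtain ⟨ρ, hρ⟩ := LinearMap.exists_leftInverse_of_injective (Algebra.linearMap K L)
    (LinearMap.ker_eq_bot.mpr (algebraMap K L).injective)
  have hρ1 : ∀ a : K, ρ (algebraMap K L a) = a := fun a => by
    have := LinearMap.congr_fun hρ a
    simpa using this
  set n := P.natDegree with hn
  have hlt : (∑ i ∈ Finset.range n, Polynomial.C (retrPoly ρ (P.coeff i)) * Polynomial.X ^ i :
      Polynomial (Polynomial K)).degree < n := by
    refine (Polynomial.degree_sum_le _ _).trans_lt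
      ((Finset.sup_lt_iff (WithBot.bot_lt_coe n)).mpr fun i hi => ?_)
    exact (Polynomial.degree_C_mul_X_pow_le i _).trans_lt
      (WithBot.coe_lt_coe.mpr (Finset.mem_range.mp hi))
  have hdeg : (Polynomial.X ^ n + ∑ i ∈ Finset.range n,
      Polynomial.C (retrPoly ρ (P.coeff i)) * Polynomial.X ^ i :
      Polynomial (Polynomial K)).natDegree = n := by
    refine Polynomial.natDegree_eq_of_degree_eq_some ?_
    rw [Polynomial.degree_add_eq_left_of_degree_lt (by rwa [Polynomial.degree_X_pow]),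
      Polynomial.degree_X_pow]
  refine ⟨Polynomial.X ^ n + ∑ i ∈ Finset.range n,
      Polynomial.C (retrPoly ρ (P.coeff i)) * Polynomial.X ^ i,
    Polynomial.monic_X_pow_add hlt, hdeg, ?_⟩
  rw [Polynomial.eval₂_eq_sum_range, ← hn, Finset.sum_range_succ] at h
  have hlead : P.coeff n = 1 := hP
  rw [hlead, map_one, one_mul] at h
  simp only [Polynomial.eval₂_add, Polynomial.eval₂_pow, Polynomial.eval₂_X,
    Polynomial.eval₂_finsetSum, Polynomial.eval₂_mul, Polynomial.eval₂_C]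
  ext k
  have hk := congrArg (fun s : LaurentSeries L => ρ (s.coeff k)) h
  simp only [HahnSeries.coeff_add, HahnSeries.coeff_sum, HahnSeries.coeff_zero, map_add, map_sum,
    map_zero] at hk
  rw [HahnSeries.coeff_add, HahnSeries.coeff_sum, HahnSeries.coeff_zero, ← hk, add_comm]
  congr 1
  · refine Finset.sum_congr rfl fun i _ => ?_
    have := coeff_aeval_retrPoly ρ (P.coeff i) t (z ^ i) k
    rw [map_pow] at this
    exact this.symm
  · rw [← map_pow, coeffMap_coeff, hρ1]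

end Descent

/-- A monic relation with coefficients in `K[t]` is an integrality statement over the
subalgebra `K[t]`. -/
theorem isIntegral_adjoin_of_eval₂ {K A : Type*} [Field K] [CommRing A] [Algebra K A] (t z : A)
    (Q : Polynomial (Polynomial K)) (hQ : Q.Monic)
    (h : Q.eval₂ (Polynomial.aeval t).toRingHom z = 0) :
    IsIntegral (Algebra.adjoin K {t}) z := by
  let φ : Polynomial K →ₐ[K] Algebra.adjoin K {t} :=
    (Polynomial.aeval t).codRestrict (Algebra.adjoin K {t})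
      (fun p => Polynomial.aeval_mem_adjoin_singleton K t)
  refine ⟨Q.map φ.toRingHom, hQ.map _, ?_⟩
  rw [Polynomial.eval₂_map]
  have e : (algebraMap (Algebra.adjoin K {t}) A).comp φ.toRingHom
      = (Polynomial.aeval t).toRingHom := by
    ext p <;> simp [φ]
  rw [e]
  exact h

end Fermat.Agent.S18.helper2346

end
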