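import Fermat.Agent.S28.helper2346_Orbit
import Fermat.Agent.S24.helper315_CuspExp

/-!
# S18 (CERT-T): the Hauptmodul polynomial criterion (helper2346)

Analytic, hypothesis-passing in the Hauptmodul `u` (no eta function, no Sturm bound).

* `eq_const_of_bounded` : a holomorphic `Γ₀(r)`-invariant function on `ℍ` all of whose
  `SL(2,ℤ)`-translates are bounded at `i∞` is constant.
* `exists_poly_of_growth` : **Hauptmodul polynomial criterion**.  Data: `σ ∈ SL(2,ℤ)` (the cusp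
  `σ∞`), a period `h` with `σ T^h σ⁻¹ ∈ Γ₀(r)`, and `u` holomorphic, `Γ₀(r)`-invariant, with a
  simple pole at the cusp `σ∞` (`u(στ) q_h → C ≠ 0`) and bounded at the other cusps.  Then every
  holomorphic `Γ₀(r)`-invariant `c`, bounded at the other cusps and with `c(στ) q_h^m` bounded,
  is a polynomial of degree `≤ m` in `u`.
-/

set_option autoImplicit false

open UpperHalfPlane hiding I
open ModularForm Filter Complex CongruenceSubgroup
open scoped Manifold Topology MatrixGroups Real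

noncomputable section

namespace Fermat.Agent.S18.helper2346

open Fermat.Agent.S24 Fermat.Agent.S24.helper315 Fermat.Agent.S28.helper2346

/-! ## Boundedness at `i∞`: elementary closure properties -/

theorem bdd_const (c : ℂ) : IsBoundedAtImInfty (fun _ : ℍ => c) :=
  Filter.const_boundedAtFilter _ c

theorem bdd_add {f g : ℍ → ℂ} (hf : IsBoundedAtImInfty f) (hg : IsBoundedAtImInfty g) :
    IsBoundedAtImInfty (fun τ => f τ + g τ) :=
  Filter.BoundedAtFilter.add hf hg

theorem bdd_mul {f g : ℍ → ℂ} (hf : IsBoundedAtImInfty f) (hg : IsBoundedAtImInfty g) :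
    IsBoundedAtImInfty (fun τ => f τ * g τ) :=
  Filter.BoundedAtFilter.mul hf hg

theorem bdd_sub {f g : ℍ → ℂ} (hf : IsBoundedAtImInfty f) (hg : IsBoundedAtImInfty g) :
    IsBoundedAtImInfty (fun τ => f τ - g τ) := by
  have h := bdd_add hf (bdd_mul (bdd_const (-1)) hg)
  refine h.congr' ?_ ?_ <;> exact Filter.Eventually.of_forall fun τ => by ring

theorem bdd_pow {f : ℍ → ℂ} (hf : IsBoundedAtImInfty f) (n : ℕ) :
    IsBoundedAtImInfty (fun τ => f τ ^ n) := by
  induction n with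
  | zero => simpa using bdd_const 1
  | succ n ih =>
    have h := bdd_mul ih hf
    refine h.congr' ?_ ?_ <;> exact Filter.Eventually.of_forall fun τ => by ring

theorem bdd_finset_sum {ι : Type*} (s : Finset ι) (f : ι → ℍ → ℂ)
    (h : ∀ i ∈ s, IsBoundedAtImInfty (f i)) :
    IsBoundedAtImInfty (fun τ => ∑ i ∈ s, f i τ) := by
  classical
  induction s using Finset.induction_on with
  | empty => simpa using bdd_const 0
  | insert b s hb ih =>
    simp only [Finset.sum_insert hb]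
    exact bdd_add (h b (Finset.mem_insert_self b s))
      (ih fun i hi => h i (Finset.mem_insert_of_mem hi))

theorem bdd_of_tendsto {f : ℍ → ℂ} {a : ℂ} (hf : Tendsto f atImInfty (𝓝 a)) :
    IsBoundedAtImInfty f :=
  hf.isBigO_one ℝ

theorem bdd_coeff_prod {ι : Type*} (a : ι → ℍ → ℂ) (s : Finset ι)
    (ha : ∀ i ∈ s, IsBoundedAtImInfty (a i)) (k : ℕ) :
    IsBoundedAtImInfty
      (fun τ => (∏ i ∈ s, (Polynomial.X - Polynomial.C (a i τ))).coeff k) :=
  coeff_prod_induction IsBoundedAtImInfty bdd_const (fun _ _ => bdd_add) (fun _ _ => bdd_mul)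
    a s ha k

/-- Boundedness at `i∞` is invariant under real translations. -/
theorem bdd_vadd {f : ℍ → ℂ} (hf : IsBoundedAtImInfty f) (x : ℝ) :
    IsBoundedAtImInfty (fun τ => f (x +ᵥ τ)) := by
  have ht : Tendsto (fun τ : ℍ => x +ᵥ τ) atImInfty atImInfty := by
    rw [atImInfty, tendsto_comap_iff]
    have : (UpperHalfPlane.im ∘ fun τ : ℍ => x +ᵥ τ) = UpperHalfPlane.im := by
      funext τ
      simp
    rw [this]
    exact tendsto_comap
  exact hf.comp_tendsto ht

/-! ## Bounded at all cusps implies constant -/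

/-- A holomorphic `Γ₀(r)`-invariant function all of whose `SL(2,ℤ)`-translates are bounded at
`i∞` is constant. -/
theorem eq_const_of_bounded (r : ℕ) [NeZero r] {c : ℍ → ℂ} (hc : MDiff c)
    (hinv : ∀ γ ∈ Gamma0 r, ∀ τ : ℍ, c (γ • τ) = c τ)
    (hb : ∀ γ : SL(2, ℤ), IsBoundedAtImInfty (fun τ => c (γ • τ))) :
    ∃ K : ℂ, ∀ τ : ℍ, c τ = K := by
  classical
  let _ : Fintype (SL(2, ℤ) ⧸ Gamma0 r) := Fintype.ofFinite _
  set φ : SL(2, ℤ) ⧸ Gamma0 r → ℍ → ℂ := conjFun r c with hφ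
  let Q : ℍ → Polynomial ℂ := fun τ => ∏ x, (Polynomial.X - Polynomial.C (φ x τ))
  have hcoef : ∀ k : ℕ, ∃ K : ℂ, ∀ τ : ℍ, (Q τ).coeff k = K := by
    intro k
    have hol : MDiff (fun τ => (Q τ).coeff k) :=
      helper167.mdiff_coeff_prod_X_sub_C φ (fun x => mdiff_comp_smul hc _) Finset.univ k
    have inv : ∀ (γ : SL(2, ℤ)) (τ : ℍ), (Q (γ • τ)).coeff k = (Q τ).coeff k := by
      intro γ τ
      obtain ⟨s, hs⟩ := conjFun_perm hinv γ
      show (∏ x, (Polynomial.X - Polynomial.C (φ x (γ • τ)))).coeff k = _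
      simp_rw [hφ, hs]
      rw [Equiv.prod_comp s (fun x => Polynomial.X - Polynomial.C (conjFun r c x τ))]
    have bdd : IsBoundedAtImInfty (fun τ => discriminant τ ^ 0 * (Q τ).coeff k) := by
      simp only [pow_zero, one_mul]
      exact bdd_coeff_prod φ Finset.univ (fun x _ => hb _) k
    obtain ⟨P, hPdeg, hP⟩ := helper167.polyInJ_of_invariant _ hol inv 0 bdd
    refine ⟨P.coeff 0, fun τ => ?_⟩
    rw [hP τ, Polynomial.eq_C_of_natDegree_le_zero hPdeg]
    simp
  have hQ : ∀ τ τ' : ℍ, Q τ = Q τ' := by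
    intro τ τ'
    ext k
    obtain ⟨K, hK⟩ := hcoef k
    rw [hK, hK]
  have hmonic : ∀ τ : ℍ, (Q τ).Monic := fun τ =>
    Polynomial.monic_prod_of_monic _ _ fun x _ => Polynomial.monic_X_sub_C _
  have hroot : ∀ τ0 τ : ℍ, c τ ∈ (Q τ0).roots := by
    intro τ0 τ
    rw [Polynomial.mem_roots (hmonic τ0).ne_zero, hQ τ0 τ, Polynomial.IsRoot, Polynomial.eval_prod]
    refine Finset.prod_eq_zero (Finset.mem_univ (QuotientGroup.mk 1)) ?_
    rw [hφ, conjFun_one hinv]
    simp
  let τ0 : ℍ := UpperHalfPlane.I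
  have hfin : (Set.range c).Finite := by
    refine Set.Finite.subset ((Q τ0).roots.toFinset.finite_toSet) ?_
    rintro _ ⟨τ, rfl⟩
    simpa using hroot τ0 τ
  have hpre : IsPreconnected (Set.range c) := isPreconnected_range hc.continuous
  have hsub : (Set.range c).Subsingleton :=
    hfin.countable.isTotallyDisconnected _ subset_rfl hpre
  exact ⟨c τ0, fun τ => hsub (Set.mem_range_self τ) (Set.mem_range_self τ0)⟩

/-! ## Exponential decay of a bounded periodic holomorphic function -/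

theorem norm_qH (h : ℝ) (τ : ℍ) : ‖qH h τ‖ = Real.exp (-2 * π * τ.im / h) := by
  rw [qH_apply, Function.Periodic.norm_qParam]
  rfl

/-- A bounded, `h`-periodic holomorphic function on `ℍ` has a limit `a` at `i∞`, and
`(g - a)/q_h` is still bounded. -/
theorem exists_limit_decay {h : ℝ} (hh : 0 < h) {g : ℍ → ℂ} (hg : MDiff g)
    (hper : HPeriodic h g) (hbd : IsBoundedAtImInfty g) :
    ∃ a : ℂ, Tendsto g atImInfty (𝓝 a) ∧
      IsBoundedAtImInfty (fun τ => (g τ - a) * (qH h τ)⁻¹) := by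
  have hper' : Function.Periodic (g ∘ ofComplex) (h : ℂ) :=
    (periodic_comp_ofComplex_iff h g).mpr hper
  have hdec := UpperHalfPlane.exp_decay_sub_atImInfty hh hper' hg hbd
  refine ⟨valueAtInfty g, ?_, ?_⟩
  · have h0 : Tendsto (fun τ : ℍ => Real.exp (-2 * π * τ.im / h)) atImInfty (𝓝 0) := by
      have h1 := UpperHalfPlane.qParam_tendsto_atImInfty hh
      have h2 := h1.norm
      simp only [norm_zero] at h2
      refine h2.congr fun τ => ?_
      rw [Function.Periodic.norm_qParam]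
      rfl
    have h3 := hdec.trans_tendsto h0
    have h4 := h3.add_const (valueAtInfty g)
    simp only [sub_add_cancel, zero_add] at h4
    exact h4
  · have h2 : (fun τ : ℍ => (qH h τ)⁻¹) =O[atImInfty] (fun τ : ℍ => ‖(qH h τ)⁻¹‖) :=
      (Asymptotics.isBigO_refl _ _).norm_right
    have h3 := hdec.mul h2
    refine h3.congr_right fun τ => ?_
    rw [norm_inv, norm_qH]
    simp only [Pi.one_apply]
    exact mul_inv_cancel₀ (Real.exp_pos _).ne'

/-! ## The criterion -/

/-- **Hauptmodul polynomial criterion.** -/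
theorem exists_poly_of_growth {r : ℕ} [NeZero r] (σ : SL(2, ℤ)) (h : ℕ) (hh : 0 < h)
    (hσ : σ * ModularGroup.T ^ h * σ⁻¹ ∈ Gamma0 r)
    {u : ℍ → ℂ} (hu : MDiff u) (huinv : ∀ γ ∈ Gamma0 r, ∀ τ : ℍ, u (γ • τ) = u τ)
    {C : ℂ} (hC : C ≠ 0)
    (huas : Tendsto (fun τ => u (σ • τ) * qH h τ) atImInfty (𝓝 C))
    (hubd : ∀ γ : SL(2, ℤ), (∀ g ∈ Gamma0 r, ∀ k : ℤ, γ ≠ g * σ * ModularGroup.T ^ k) →
      IsBoundedAtImInfty (fun τ => u (γ • τ)))
    (m : ℕ) {c : ℍ → ℂ} (hc : MDiff c) (hcinv : ∀ γ ∈ Gamma0 r, ∀ τ : ℍ, c (γ • τ) = c τ)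
    (hcbd : ∀ γ : SL(2, ℤ), (∀ g ∈ Gamma0 r, ∀ k : ℤ, γ ≠ g * σ * ModularGroup.T ^ k) →
      IsBoundedAtImInfty (fun τ => c (γ • τ)))
    (hcm : IsBoundedAtImInfty (fun τ => c (σ • τ) * qH h τ ^ m)) :
    ∃ p : Polynomial ℂ, p.natDegree ≤ m ∧ ∀ τ : ℍ, c τ = p.eval (u τ) := by
  have hhR : (0 : ℝ) < (h : ℝ) := by exact_mod_cast hh
  -- periodicity of `f ∘ σ` for invariant `f`
  have hperσ : ∀ f : ℍ → ℂ, (∀ γ ∈ Gamma0 r, ∀ τ : ℍ, f (γ • τ) = f τ) →
      ∀ τ : ℍ, f (σ • ((h : ℝ) +ᵥ τ)) = f (σ • τ) := by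
    intro f hf τ
    have h1 : ((h : ℝ) +ᵥ τ : ℍ) = ModularGroup.T ^ (h : ℤ) • τ := by
      rw [UpperHalfPlane.modular_T_zpow_smul]
      simp
    have h2 : σ • (ModularGroup.T ^ (h : ℤ) • τ)
        = (σ * ModularGroup.T ^ h * σ⁻¹) • (σ • τ) := by
      rw [← mul_smul, ← mul_smul, zpow_natCast]
      congr 1
      group
    rw [h1, h2, hf _ hσ]
  have hqper : HPeriodic (h : ℝ) (qH (h : ℝ)) := hPeriodic_qH hhR.ne'
  -- the normalised Hauptmodul
  set U : ℍ → ℂ := fun τ => u (σ • τ) * qH h τ with hU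
  have hUbd : IsBoundedAtImInfty U := bdd_of_tendsto huas
  have hUmd : MDiff U := (mdiff_comp_smul hu σ).mul (mdiff_qH h)
  have hUper : HPeriodic (h : ℝ) U := fun τ => by
    simp only [hU]
    rw [hperσ u huinv τ, hqper τ]
  obtain ⟨a', ha'lim, ha'bd⟩ := exists_limit_decay hhR hUmd hUper hUbd
  have ha'C : a' = C := tendsto_nhds_unique ha'lim huas
  rw [ha'C] at ha'bd
  induction m generalizing c with
  | zero =>
    have hb : ∀ γ : SL(2, ℤ), IsBoundedAtImInfty (fun τ => c (γ • τ)) := by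
      intro γ
      by_cases hγ : ∀ g ∈ Gamma0 r, ∀ k : ℤ, γ ≠ g * σ * ModularGroup.T ^ k
      · exact hcbd γ hγ
      · push Not at hγ
        obtain ⟨g, hg, k, rfl⟩ := hγ
        have h0 : IsBoundedAtImInfty (fun τ => c (σ • τ)) := by
          simpa using hcm
        have h1 := bdd_vadd h0 (k : ℝ)
        refine h1.congr' ?_ (Filter.Eventually.of_forall fun _ => rfl)
        refine Filter.Eventually.of_forall fun τ => ?_
        show c (σ • ((k : ℝ) +ᵥ τ)) = c ((g * σ * ModularGroup.T ^ k) • τ)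
        rw [mul_smul, mul_smul, hcinv g hg, UpperHalfPlane.modular_T_zpow_smul]
    obtain ⟨K, hK⟩ := eq_const_of_bounded r hc hcinv hb
    exact ⟨Polynomial.C K, by simp, fun τ => by simp [hK]⟩
  | succ m ih =>
    set gF : ℍ → ℂ := fun τ => c (σ • τ) * qH h τ ^ (m + 1) with hgF
    have hgmd : MDiff gF := (mdiff_comp_smul hc σ).mul ((mdiff_qH h).pow (m + 1))
    have hgper : HPeriodic (h : ℝ) gF := fun τ => by
      simp only [hgF]
      rw [hperσ c hcinv τ, hqper τ]
    obtain ⟨a, -, habd⟩ := exists_limit_decay hhR hgmd hgper hcm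
    set lam : ℂ := a / C ^ (m + 1) with hlam
    set c' : ℍ → ℂ := fun τ => c τ - lam * u τ ^ (m + 1) with hc'
    have hc'md : MDiff c' := hc.sub (mdifferentiable_const.mul (hu.pow (m + 1)))
    have hc'inv : ∀ γ ∈ Gamma0 r, ∀ τ : ℍ, c' (γ • τ) = c' τ := by
      intro γ hγ τ
      simp only [hc']
      rw [hcinv γ hγ, huinv γ hγ]
    have hc'bd : ∀ γ : SL(2, ℤ), (∀ g ∈ Gamma0 r, ∀ k : ℤ, γ ≠ g * σ * ModularGroup.T ^ k) →
        IsBoundedAtImInfty (fun τ => c' (γ • τ)) := by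
      intro γ hγ
      exact bdd_sub (hcbd γ hγ) (bdd_mul (bdd_const lam) (bdd_pow (hubd γ hγ) (m + 1)))
    have hc'm : IsBoundedAtImInfty (fun τ => c' (σ • τ) * qH h τ ^ m) := by
      have hsum : IsBoundedAtImInfty
          (fun τ => ∑ i ∈ Finset.range (m + 1), U τ ^ i * C ^ (m + 1 - 1 - i)) :=
        bdd_finset_sum _ _ fun i _ => bdd_mul (bdd_pow hUbd i) (bdd_const _)
      have h1 := bdd_sub habd (bdd_mul (bdd_const lam) (bdd_mul hsum ha'bd))
      refine h1.congr' ?_ (Filter.Eventually.of_forall fun _ => rfl)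
      refine Filter.Eventually.of_forall fun τ => ?_
      have hq : qH (h : ℝ) τ ≠ 0 := qH_ne_zero _ τ
      have hgeom := geom_sum₂_mul (U τ) C (m + 1)
      have hCpow : C ^ (m + 1) ≠ 0 := pow_ne_zero _ hC
      have e1 : (∑ i ∈ Finset.range (m + 1), U τ ^ i * C ^ (m + 1 - 1 - i)) *
          ((U τ - C) * (qH h τ)⁻¹) = (U τ ^ (m + 1) - C ^ (m + 1)) * (qH h τ)⁻¹ := by
        rw [← mul_assoc, hgeom]
      show (gF τ - a) * (qH h τ)⁻¹ - lam * ((∑ i ∈ Finset.range (m + 1),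
          U τ ^ i * C ^ (m + 1 - 1 - i)) * ((U τ - C) * (qH h τ)⁻¹))
          = c' (σ • τ) * qH h τ ^ m
      rw [e1]
      simp only [hgF, hc', hU, hlam]
      field_simp
      ring
    obtain ⟨p', hp'deg, hp'⟩ := ih hc'md hc'inv hc'bd hc'm
    refine ⟨p' + Polynomial.C lam * Polynomial.X ^ (m + 1), ?_, fun τ => ?_⟩
    · refine (Polynomial.natDegree_add_le _ _).trans (max_le (hp'deg.trans (Nat.le_succ m)) ?_)
      exact Polynomial.natDegree_C_mul_X_pow_le _ _
    · have := hp' τ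
      simp only [hc'] at this
      simp only [Polynomial.eval_add, Polynomial.eval_mul, Polynomial.eval_C, Polynomial.eval_pow,
        Polynomial.eval_X]
      rw [← this]
      ring

end Fermat.Agent.S18.helper2346

end
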