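import Mathlib

set_option autoImplicit false

noncomputable section

namespace Fermat.Agent.S18.helper375

/-- A reduction datum: a valuation subring `A` of `L`, a subring `O` of `F` containing the image
of `A`, and compatible residue maps `A → k` (onto) and `O → Fb`. -/
structure RedDatum (L F k Fb : Type*) [Field L] [Field F] [Algebra L F] [Field k] [Field Fb]
    [Algebra k Fb] where
  A : ValuationSubring L
  O : Subring F
  map_mem : ∀ a : L, a ∈ A → algebraMap L F a ∈ O
  resA : A →+* k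
  resA_surj : Function.Surjective resA
  resO : O →+* Fb
  compat : ∀ (a : L) (ha : a ∈ A),
    resO ⟨algebraMap L F a, map_mem a ha⟩ = algebraMap k Fb (resA ⟨a, ha⟩)

variable {L F k Fb : Type*} [Field L] [Field F] [Algebra L F] [Field k] [Field Fb] [Algebra k Fb]

namespace RedDatum

variable (R : RedDatum L F k Fb)

/-- The inclusion of `A` into `O`. -/
def incl (a : R.A) : R.O := ⟨algebraMap L F a, R.map_mem a a.2⟩

@[simp] theorem coe_incl (a : R.A) : ((R.incl a : R.O) : F) = algebraMap L F (a : L) := rfl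

theorem resO_incl (a : R.A) : R.resO (R.incl a) = algebraMap k Fb (R.resA a) :=
  R.compat a a.2

theorem exists_max_val {ι : Type*} [Finite ι] [Nonempty ι] (c : ι → L) :
    ∃ i₀, ∀ i, R.A.valuation (c i) ≤ R.A.valuation (c i₀) :=
  Finite.exists_max fun i => R.A.valuation (c i)

theorem resA_eq_zero_of_inv_notMem {x : L} (hx : x ∈ R.A) (hx' : x⁻¹ ∉ R.A) :
    R.resA ⟨x, hx⟩ = 0 := by
  by_contra h
  obtain ⟨b, hb⟩ := R.resA_surj (R.resA ⟨x, hx⟩)⁻¹
  have h1 : R.resA (⟨x, hx⟩ * b) = 1 := by rw [map_mul, hb, mul_inv_cancel₀ h]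
  have hw : ¬ IsUnit (⟨x, hx⟩ * b - 1 : R.A) := by
    intro hu
    have h0 : R.resA (⟨x, hx⟩ * b - 1) = 0 := by rw [map_sub, h1, map_one, sub_self]
    have h2 := hu.map R.resA
    rw [h0] at h2
    exact not_isUnit_zero h2
  have hxb : IsUnit (⟨x, hx⟩ * b : R.A) := by
    rcases IsLocalRing.isUnit_or_isUnit_of_add_one
      (a := (⟨x, hx⟩ * b : R.A)) (b := 1 - ⟨x, hx⟩ * b) (by ring) with h | h
    · exact h
    · exfalso
      apply hw
      have h3 := h.neg
      rwa [neg_sub] at h3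
  have hxu : IsUnit (⟨x, hx⟩ : R.A) := isUnit_of_mul_isUnit_left hxb
  obtain ⟨y, hy⟩ := hxu.exists_right_inv
  apply hx'
  have hxy : x * (y : L) = 1 := congrArg (fun t : R.A => (t : L)) hy
  rw [inv_eq_of_mul_eq_one_right hxy]
  exact y.2

theorem mul_inv_mem_of_max {ι : Type*} (c : ι → L) (i₀ : ι)
    (h : ∀ i, R.A.valuation (c i) ≤ R.A.valuation (c i₀)) (j : ι) :
    c j * (c i₀)⁻¹ ∈ R.A := by
  rw [← ValuationSubring.valuation_le_one_iff, map_mul, map_inv₀]
  exact mul_inv_le_one_of_le₀ (h j) zero_le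

theorem resO_sum_incl {ι : Type*} [Fintype ι] (e : ι → R.O) (c : ι → R.A) :
    R.resO (∑ i, R.incl (c i) * e i) = ∑ i, R.resA (c i) • R.resO (e i) := by
  simp [map_sum, map_mul, R.resO_incl, Algebra.smul_def]

theorem coe_sum_incl {ι : Type*} [Fintype ι] (e : ι → R.O) (c : ι → R.A) :
    ((∑ i, R.incl (c i) * e i : R.O) : F) = ∑ i, (c i : L) • (e i : F) := by
  simp [Algebra.smul_def]

/-- A normalised integral combination of an orthonormal family has nonzero reduction. -/
theorem resO_sum_incl_ne_zero {ι : Type*} [Fintype ι] (e : ι → R.O)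
    (he : LinearIndependent k fun i => R.resO (e i)) (c : ι → R.A) (i₀ : ι)
    (h : R.resA (c i₀) ≠ 0) : R.resO (∑ i, R.incl (c i) * e i) ≠ 0 := by
  rw [R.resO_sum_incl]
  intro h0
  exact h (Fintype.linearIndependent_iff.mp he (fun i => R.resA (c i)) h0 i₀)

/-- Orthonormality: an `L`-combination of an orthonormal family which lies in `O` has all its
coefficients in `A`. -/
theorem coeff_mem {ι : Type*} [Fintype ι] (e : ι → R.O)
    (he : LinearIndependent k fun i => R.resO (e i)) (c : ι → L) (x : R.O)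
    (hx : (x : F) = ∑ i, c i • (e i : F)) (i : ι) : c i ∈ R.A := by
  by_contra hi
  have : Nonempty ι := ⟨i⟩
  obtain ⟨i₀, hi₀⟩ := R.exists_max_val c
  have hc0 : c i₀ ∉ R.A := by
    intro h0
    apply hi
    rw [← ValuationSubring.valuation_le_one_iff] at h0 ⊢
    exact (hi₀ i).trans h0
  have hne : c i₀ ≠ 0 := fun h => hc0 (h ▸ R.A.zero_mem)
  have ht : (c i₀)⁻¹ ∈ R.A := (R.A.mem_or_inv_mem (c i₀)).resolve_left hc0
  have hres : R.resA ⟨(c i₀)⁻¹, ht⟩ = 0 :=
    R.resA_eq_zero_of_inv_notMem ht (by rwa [inv_inv])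
  have hz : (∑ j, R.incl ⟨c j * (c i₀)⁻¹, R.mul_inv_mem_of_max c i₀ hi₀ j⟩ * e j : R.O)
      = R.incl ⟨(c i₀)⁻¹, ht⟩ * x := by
    apply Subtype.ext
    rw [R.coe_sum_incl]
    simp only [Subring.coe_mul, coe_incl, hx, Finset.mul_sum, Algebra.smul_def, map_mul]
    exact Finset.sum_congr rfl fun j _ => by ring
  have h2 := R.resO_sum_incl_ne_zero e he
    (fun j => ⟨c j * (c i₀)⁻¹, R.mul_inv_mem_of_max c i₀ hi₀ j⟩) i₀ (by
      have h1 : (⟨c i₀ * (c i₀)⁻¹, R.mul_inv_mem_of_max c i₀ hi₀ i₀⟩ : R.A) = 1 :=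
        Subtype.ext (mul_inv_cancel₀ hne)
      rw [h1, map_one]
      exact one_ne_zero)
  apply h2
  rw [hz, map_mul, R.resO_incl, hres, map_zero, zero_mul]

/-- An orthonormal family is `L`-linearly independent. -/
theorem linearIndependent_coe {ι : Type*} [Fintype ι] (e : ι → R.O)
    (he : LinearIndependent k fun i => R.resO (e i)) :
    LinearIndependent L fun i => (e i : F) := by
  rw [Fintype.linearIndependent_iff]
  intro c hc i
  by_contra hi
  have : Nonempty ι := ⟨i⟩
  obtain ⟨i₀, hi₀⟩ := R.exists_max_val c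
  have hne : c i₀ ≠ 0 := by
    intro h0
    have h1 := hi₀ i
    rw [h0, map_zero] at h1
    exact hi ((map_eq_zero _).mp (le_antisymm h1 zero_le))
  have hz : (∑ j, R.incl ⟨c j * (c i₀)⁻¹, R.mul_inv_mem_of_max c i₀ hi₀ j⟩ * e j : R.O) = 0 := by
    apply Subtype.ext
    rw [R.coe_sum_incl]
    have h3 : ∑ j, (c j * (c i₀)⁻¹) • (e j : F) = (c i₀)⁻¹ • ∑ j, c j • (e j : F) := by
      rw [Finset.smul_sum]
      exact Finset.sum_congr rfl fun j _ => by rw [smul_smul, mul_comm]
    rw [h3, hc, smul_zero]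
    rfl
  have h2 := R.resO_sum_incl_ne_zero e he
    (fun j => ⟨c j * (c i₀)⁻¹, R.mul_inv_mem_of_max c i₀ hi₀ j⟩) i₀ (by
      have h1 : (⟨c i₀ * (c i₀)⁻¹, R.mul_inv_mem_of_max c i₀ hi₀ i₀⟩ : R.A) = 1 :=
        Subtype.ext (mul_inv_cancel₀ hne)
      rw [h1, map_one]
      exact one_ne_zero)
  apply h2
  rw [hz, map_zero]

/-- The reduction of an `L`-subspace of `F`: the `k`-subspace of `Fb` of reductions of its
elements lying in `O`. -/
def red (W : Submodule L F) : Submodule k Fb where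
  carrier := {z | ∃ x : R.O, (x : F) ∈ W ∧ R.resO x = z}
  add_mem' := by
    rintro _ _ ⟨x, hx, rfl⟩ ⟨y, hy, rfl⟩
    exact ⟨x + y, by simpa using W.add_mem hx hy, map_add _ _ _⟩
  zero_mem' := ⟨0, by simp, map_zero _⟩
  smul_mem' := by
    rintro κ _ ⟨x, hx, rfl⟩
    obtain ⟨a, rfl⟩ := R.resA_surj κ
    refine ⟨R.incl a * x, ?_, ?_⟩
    · have h1 : ((R.incl a * x : R.O) : F) = (a : L) • (x : F) := by
        simp [Algebra.smul_def]
      rw [h1]
      exact W.smul_mem _ hx
    · rw [map_mul, R.resO_incl, Algebra.smul_def]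

theorem mem_red {W : Submodule L F} {z : Fb} :
    z ∈ R.red W ↔ ∃ x : R.O, (x : F) ∈ W ∧ R.resO x = z := Iff.rfl

theorem resO_mem_red {W : Submodule L F} (x : R.O) (hx : (x : F) ∈ W) : R.resO x ∈ R.red W :=
  ⟨x, hx, rfl⟩

theorem red_mono {W W' : Submodule L F} (h : W ≤ W') : R.red W ≤ R.red W' := by
  rintro _ ⟨x, hx, rfl⟩
  exact ⟨x, h hx, rfl⟩

theorem red_sup_le (W W' : Submodule L F) : R.red W ⊔ R.red W' ≤ R.red (W ⊔ W') :=
  sup_le (R.red_mono le_sup_left) (R.red_mono le_sup_right)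

/-- A `k`-linearly independent family in `red W` has at most `dim_L W` members. -/
theorem card_le_finrank_of_linearIndependent (W : Submodule L F) [FiniteDimensional L W]
    {ι : Type*} [Fintype ι] (z : ι → Fb) (hz : ∀ i, z i ∈ R.red W) (hli : LinearIndependent k z) :
    Fintype.card ι ≤ Module.finrank L W := by
  choose x hxW hxz using hz
  have he : LinearIndependent k fun i => R.resO (x i) := by
    have h1 : (fun i => R.resO (x i)) = z := funext hxz
    rw [h1]
    exact hli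
  have h2 := R.linearIndependent_coe x he
  have h3 : LinearIndependent L (fun i => (⟨(x i : F), hxW i⟩ : W)) :=
    LinearIndependent.of_comp W.subtype h2
  exact h3.fintype_card_le_finrank

theorem rank_red_le (W : Submodule L F) [FiniteDimensional L W] :
    Module.rank k (R.red W) ≤ (Module.finrank L W : Cardinal) := by
  apply rank_le
  intro s hs
  have h1 : LinearIndependent k (fun i : s => ((i : R.red W) : Fb)) :=
    hs.map' (R.red W).subtype (Submodule.ker_subtype _)
  have h2 := R.card_le_finrank_of_linearIndependent W (fun i : s => ((i : R.red W) : Fb))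
    (fun i => (i : R.red W).2) h1
  simpa using h2

instance finiteDimensional_red (W : Submodule L F) [FiniteDimensional L W] :
    FiniteDimensional k (R.red W) :=
  Module.rank_lt_aleph0_iff.mp ((R.rank_red_le W).trans_lt Cardinal.natCast_lt_aleph0)

theorem finrank_red_le (W : Submodule L F) [FiniteDimensional L W] :
    Module.finrank k (R.red W) ≤ Module.finrank L W :=
  Module.finrank_le_of_rank_le (R.rank_red_le W)

/-- `W` is cartesian: finite-dimensional over `L` with `dim_L W ≤ dim_k (red W)` (hence equal). -/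
def IsCart (W : Submodule L F) : Prop :=
  FiniteDimensional L W ∧ Module.finrank L W ≤ Module.finrank k (R.red W)

theorem IsCart.finrank_eq {W : Submodule L F} (h : R.IsCart W) :
    Module.finrank k (R.red W) = Module.finrank L W :=
  haveI := h.1
  le_antisymm (R.finrank_red_le W) h.2

/-- A subspace spanned by an orthonormal family is cartesian. -/
theorem isCart_of_orthonormal {ι : Type*} [Fintype ι] (e : ι → R.O)
    (he : LinearIndependent k fun i => R.resO (e i)) (W : Submodule L F)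
    (hW : Submodule.span L (Set.range fun i => (e i : F)) = W) : R.IsCart W := by
  subst hW
  have hfd : FiniteDimensional L (Submodule.span L (Set.range fun i => (e i : F))) :=
    FiniteDimensional.span_of_finite L (Set.finite_range _)
  refine ⟨hfd, ?_⟩
  rw [finrank_span_eq_card (R.linearIndependent_coe e he)]
  have hmem : ∀ i, R.resO (e i) ∈ R.red (Submodule.span L (Set.range fun i => (e i : F))) :=
    fun i => R.resO_mem_red (e i) (Submodule.subset_span ⟨i, rfl⟩)
  have h3 : LinearIndependent k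
      (fun i => (⟨R.resO (e i), hmem i⟩ : R.red (Submodule.span L (Set.range fun i => (e i : F))))) :=
    LinearIndependent.of_comp (Submodule.subtype _) he
  exact h3.fintype_card_le_finrank

/-- Frame decomposition in a cartesian space `V12 ⊇ V1, V2`: an integral element with zero
reduction is a sum of integral elements of `V1`, `V2` with zero reduction and a remainder `q`
which is either zero or `a * y` with `y` integral and `ȳ ∉ red V1 + red V2`. -/
theorem exists_decomp (V1 V2 V12 : Submodule L F) (hV12 : R.IsCart V12) (h1 : V1 ≤ V12)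
    (h2 : V2 ≤ V12) (d : R.O) (hd : (d : F) ∈ V12) (hd0 : R.resO d = 0) :
    ∃ x1 x2 q : R.O, (x1 : F) ∈ V1 ∧ (x2 : F) ∈ V2 ∧ R.resO x1 = 0 ∧ R.resO x2 = 0 ∧
      d = x1 + x2 + q ∧
      (q = 0 ∨ ∃ (a : R.A) (y : R.O), a ≠ 0 ∧ (y : F) ∈ V12 ∧ q = R.incl a * y ∧
        R.resO y ∉ R.red V1 ⊔ R.red V2) := by
  obtain ⟨hfd, hcart⟩ := hV12
  have := hfd
  have hTle : R.red V1 ⊔ R.red V2 ≤ R.red V12 := sup_le (R.red_mono h1) (R.red_mono h2)
  obtain ⟨C0, hC0⟩ := Submodule.exists_isCompl (R.red V1 ⊔ R.red V2)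
  have hTC : (R.red V1 ⊔ R.red V2) ⊔ (C0 ⊓ R.red V12) = R.red V12 := by
    rw [← sup_inf_assoc_of_le _ hTle, hC0.sup_eq_top, top_inf_eq]
  have hdisj : Disjoint (R.red V1 ⊔ R.red V2) (C0 ⊓ R.red V12) :=
    hC0.disjoint.mono_right inf_le_left
  have : FiniteDimensional k ↥(R.red V1 ⊔ R.red V2) := Submodule.finiteDimensional_of_le hTle
  have : FiniteDimensional k ↥(C0 ⊓ R.red V12) := Submodule.finiteDimensional_of_le inf_le_right
  let bT := Module.finBasis k ↥(R.red V1 ⊔ R.red V2)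
  let bC := Module.finBasis k ↥(C0 ⊓ R.red V12)
  have hTlift : ∀ i, ∃ p p' : R.O, (p : F) ∈ V1 ∧ (p' : F) ∈ V2 ∧
      R.resO p + R.resO p' = (bT i : Fb) := by
    intro i
    obtain ⟨u1, hu1, u2, hu2, hsum⟩ := Submodule.mem_sup.mp (bT i).2
    obtain ⟨p, hp, rfl⟩ := hu1
    obtain ⟨p', hp', rfl⟩ := hu2
    exact ⟨p, p', hp, hp', hsum⟩
  choose p p' hp hp' hpp using hTlift
  have hClift : ∀ j, ∃ f : R.O, (f : F) ∈ V12 ∧ R.resO f = (bC j : Fb) := fun j =>
    R.mem_red.mp ((inf_le_right : C0 ⊓ R.red V12 ≤ R.red V12) (bC j).2)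
  choose f hf hff using hClift
  let ℓ : Fin (Module.finrank k ↥(R.red V1 ⊔ R.red V2)) ⊕
      Fin (Module.finrank k ↥(C0 ⊓ R.red V12)) → R.O := Sum.elim (fun i => p i + p' i) f
  have hℓres : (fun s => R.resO (ℓ s)) =
      Sum.elim (fun i => (bT i : Fb)) (fun j => (bC j : Fb)) := by
    funext s
    rcases s with i | j
    · simp [ℓ, hpp]
    · simp [ℓ, hff]
  have e1 : Submodule.span k (Set.range fun i => (bT i : Fb)) = R.red V1 ⊔ R.red V2 := by
    rw [show (fun i => (bT i : Fb)) = (R.red V1 ⊔ R.red V2).subtype ∘ bT from rfl, Set.range_comp,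
      ← Submodule.map_span, bT.span_eq, Submodule.map_subtype_top]
  have e2 : Submodule.span k (Set.range fun j => (bC j : Fb)) = C0 ⊓ R.red V12 := by
    rw [show (fun j => (bC j : Fb)) = (C0 ⊓ R.red V12).subtype ∘ bC from rfl, Set.range_comp,
      ← Submodule.map_span, bC.span_eq, Submodule.map_subtype_top]
  have hCli : LinearIndependent k (fun j => (bC j : Fb)) :=
    bC.linearIndependent.map' (C0 ⊓ R.red V12).subtype (Submodule.ker_subtype _)
  have hli : LinearIndependent k (fun s => R.resO (ℓ s)) := by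
    rw [hℓres]
    apply LinearIndependent.sum_type
    · exact bT.linearIndependent.map' (R.red V1 ⊔ R.red V2).subtype (Submodule.ker_subtype _)
    · exact hCli
    · rw [e1, e2]
      exact hdisj
  have hLli := R.linearIndependent_coe ℓ hli
  have hℓmem : ∀ s, (ℓ s : F) ∈ V12 := by
    rintro (i | j)
    · simpa [ℓ] using V12.add_mem (h1 (hp i)) (h2 (hp' i))
    · exact hf j
  have hspan : Submodule.span L (Set.range fun s => (ℓ s : F)) = V12 := by
    apply Submodule.eq_of_le_of_finrank_le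
    · exact Submodule.span_le.mpr (by rintro _ ⟨s, rfl⟩; exact hℓmem s)
    · rw [finrank_span_eq_card hLli]
      have h3 : Module.finrank k ↥(R.red V12) = Module.finrank k ↥(R.red V1 ⊔ R.red V2) +
          Module.finrank k ↥(C0 ⊓ R.red V12) := by
        have h4 := Submodule.finrank_sup_add_finrank_inf_eq (R.red V1 ⊔ R.red V2) (C0 ⊓ R.red V12)
        rw [hdisj.eq_bot, finrank_bot, add_zero, hTC] at h4
        exact h4
      simp only [Fintype.card_sum, Fintype.card_fin]
      omega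
  have hdspan : (d : F) ∈ Submodule.span L (Set.range fun s => (ℓ s : F)) := by
    rw [hspan]
    exact hd
  obtain ⟨c, hc⟩ := (Submodule.mem_span_range_iff_exists_fun L).mp hdspan
  have hcA := R.coeff_mem ℓ hli c d hc.symm
  let cA : Fin (Module.finrank k ↥(R.red V1 ⊔ R.red V2)) ⊕
      Fin (Module.finrank k ↥(C0 ⊓ R.red V12)) → R.A := fun s => ⟨c s, hcA s⟩
  have hdO : d = ∑ s, R.incl (cA s) * ℓ s := by
    apply Subtype.ext
    rw [R.coe_sum_incl]
    exact hc.symm
  have hres0 : ∀ s, R.resA (cA s) = 0 := by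
    have h4 := R.resO_sum_incl ℓ cA
    rw [← hdO, hd0] at h4
    exact fun s => Fintype.linearIndependent_iff.mp hli (fun s => R.resA (cA s)) h4.symm s
  refine ⟨∑ i, R.incl (cA (Sum.inl i)) * p i, ∑ i, R.incl (cA (Sum.inl i)) * p' i,
    ∑ j, R.incl (cA (Sum.inr j)) * f j, ?_, ?_, ?_, ?_, ?_, ?_⟩
  · rw [R.coe_sum_incl]
    exact V1.sum_mem fun i _ => V1.smul_mem _ (hp i)
  · rw [R.coe_sum_incl]
    exact V2.sum_mem fun i _ => V2.smul_mem _ (hp' i)
  · rw [R.resO_sum_incl]
    simp [hres0]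
  · rw [R.resO_sum_incl]
    simp [hres0]
  · rw [hdO, Fintype.sum_sum_type]
    simp only [ℓ, Sum.elim_inl, Sum.elim_inr, mul_add, Finset.sum_add_distrib]
  · by_cases hall : ∀ j, c (Sum.inr j) = 0
    · left
      apply Finset.sum_eq_zero
      intro j _
      have h5 : R.incl (cA (Sum.inr j)) = 0 := by
        apply Subtype.ext
        simp [cA, hall j]
      rw [h5, zero_mul]
    · right
      push Not at hall
      obtain ⟨j1, hj1⟩ := hall
      have : Nonempty (Fin (Module.finrank k ↥(C0 ⊓ R.red V12))) := ⟨j1⟩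
      obtain ⟨j0, hj0⟩ := R.exists_max_val (fun j => c (Sum.inr j))
      have hne : c (Sum.inr j0) ≠ 0 := by
        intro h0
        have h6 := hj0 j1
        rw [h0, map_zero] at h6
        exact hj1 ((map_eq_zero _).mp (le_antisymm h6 zero_le))
      let dA : Fin (Module.finrank k ↥(C0 ⊓ R.red V12)) → R.A := fun j =>
        ⟨c (Sum.inr j) * (c (Sum.inr j0))⁻¹,
          R.mul_inv_mem_of_max (fun j => c (Sum.inr j)) j0 hj0 j⟩
      refine ⟨cA (Sum.inr j0), ∑ j, R.incl (dA j) * f j, ?_, ?_, ?_, ?_⟩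
      · intro h
        exact hne (congrArg Subtype.val h)
      · rw [R.coe_sum_incl]
        exact V12.sum_mem fun j _ => V12.smul_mem _ (hf j)
      · apply Subtype.ext
        rw [Subring.coe_mul, R.coe_sum_incl, R.coe_sum_incl, coe_incl, Finset.mul_sum]
        refine Finset.sum_congr rfl fun j _ => ?_
        simp only [cA, dA, Algebra.smul_def]
        rw [← mul_assoc, ← map_mul]
        congr 2
        field_simp
      · intro hyT
        have hyC : R.resO (∑ j, R.incl (dA j) * f j) ∈ C0 ⊓ R.red V12 := by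
          rw [R.resO_sum_incl]
          exact Submodule.sum_mem _ fun j _ => Submodule.smul_mem _ _ (by
            rw [hff j]
            exact (bC j).2)
        have h0 : R.resO (∑ j, R.incl (dA j) * f j) = 0 :=
          Submodule.disjoint_def.mp hdisj _ hyT hyC
        have hfli : LinearIndependent k (fun j => R.resO (f j)) := by
          have h7 : (fun j => R.resO (f j)) = fun j => (bC j : Fb) := funext hff
          rw [h7]
          exact hCli
        exact R.resO_sum_incl_ne_zero f hfli dA j0 (by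
          have h8 : dA j0 = 1 := Subtype.ext (mul_inv_cancel₀ hne)
          rw [h8, map_one]
          exact one_ne_zero) h0

/-- For two cartesian spaces containing `1` whose reductions meet only in the constants, the
reduction of the sum is the sum of the reductions. -/
theorem red_sup_eq (G1 G2 : Submodule L F) (hG1 : R.IsCart G1) (hG2 : R.IsCart G2)
    (hone1 : (1 : F) ∈ G1) (hone2 : (1 : F) ∈ G2)
    (hbar : R.red G1 ⊓ R.red G2 ≤ Submodule.span k {(1 : Fb)}) :
    R.red (G1 ⊔ G2) = R.red G1 ⊔ R.red G2 := by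
  obtain ⟨hfd1, hc1⟩ := hG1
  obtain ⟨hfd2, hc2⟩ := hG2
  have := hfd1
  have := hfd2
  symm
  apply Submodule.eq_of_le_of_finrank_le (R.red_sup_le G1 G2)
  have hL := Submodule.finrank_sup_add_finrank_inf_eq G1 G2
  have hk := Submodule.finrank_sup_add_finrank_inf_eq (R.red G1) (R.red G2)
  have h1 : 1 ≤ Module.finrank L ↥(G1 ⊓ G2) := by
    have hmem : (1 : F) ∈ G1 ⊓ G2 := ⟨hone1, hone2⟩
    have : Nontrivial ↥(G1 ⊓ G2) :=
      ⟨⟨⟨1, hmem⟩, 0, fun h => one_ne_zero (congrArg Subtype.val h)⟩⟩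
    exact Module.finrank_pos
  have h2 : Module.finrank k ↥(R.red G1 ⊓ R.red G2) ≤ 1 :=
    (Submodule.finrank_mono hbar).trans
      ((finrank_span_le_card ({(1 : Fb)} : Set Fb)).trans (by simp))
  have h3 := R.finrank_red_le (G1 ⊔ G2)
  have h4 := R.finrank_red_le G1
  have h5 := R.finrank_red_le G2
  omega

end RedDatum

/-- **One-level Kummer core.** -/
theorem exists_ne_zero_mem_inf (R : RedDatum L F k Fb) (m : ℕ) (hm : (m : Fb) ≠ 0)
    (u : R.O) (ω : Fb) (hω : ω ≠ 0) (hu : R.resO u = ω ^ m)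
    (V1 V2 V12 G1 G2 : Submodule L F)
    (hV12 : R.IsCart V12) (hG1 : R.IsCart G1) (hG2 : R.IsCart G2)
    (h1 : V1 ≤ V12) (h2 : V2 ≤ V12) (hone1 : (1 : F) ∈ G1) (hone2 : (1 : F) ∈ G2)
    (hpow1 : ∀ s : R.O, (s : F) ∈ V1 → ((s ^ m * u : R.O) : F) ∈ G1)
    (hpow2 : ∀ s : R.O, (s : F) ∈ V2 → ((s ^ m * u : R.O) : F) ∈ G2)
    (hVone1 : ω⁻¹ ∈ R.red V1) (hVone2 : ω⁻¹ ∈ R.red V2)
    (hGbar : R.red G1 ⊓ R.red G2 ≤ Submodule.span k {(1 : Fb)})
    (hsep : ∀ r1 ∈ R.red G1, ∀ r2 ∈ R.red G2, ∀ y ∈ R.red V12,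
      r1 - r2 = (m : Fb) * ω * y → ω⁻¹ * r1 ∈ R.red V1 ∧ ω⁻¹ * r2 ∈ R.red V2) :
    ∃ f : F, f ≠ 0 ∧ f ∈ V1 ∧ f ∈ V2 := by
  obtain ⟨s1, hs1, hs1r⟩ := hVone1
  obtain ⟨s2, hs2, hs2r⟩ := hVone2
  have hd : ((s2 - s1 : R.O) : F) ∈ V12 := by
    simpa using V12.sub_mem (h2 hs2) (h1 hs1)
  have hd0 : R.resO (s2 - s1) = 0 := by rw [map_sub, hs1r, hs2r, sub_self]
  obtain ⟨x1, x2, q, hx1, hx2, hx1r, hx2r, hdq, hq⟩ :=
    R.exists_decomp V1 V2 V12 hV12 h1 h2 (s2 - s1) hd hd0
  have ht1 : ((s1 + x1 : R.O) : F) ∈ V1 := by simpa using V1.add_mem hs1 hx1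
  have ht2 : ((s2 - x2 : R.O) : F) ∈ V2 := by simpa using V2.sub_mem hs2 hx2
  have ht1r : R.resO (s1 + x1) = ω⁻¹ := by rw [map_add, hs1r, hx1r, add_zero]
  have ht2r : R.resO (s2 - x2) = ω⁻¹ := by rw [map_sub, hs2r, hx2r, sub_zero]
  have hdiff : (s2 - x2) - (s1 + x1) = q := by linear_combination hdq
  rcases hq with hq0 | ⟨a, y, ha, hy, hqa, hyT⟩
  · refine ⟨((s1 + x1 : R.O) : F), ?_, ht1, ?_⟩
    · intro h0
      have h3 : (s1 + x1 : R.O) = 0 := Subtype.ext h0
      rw [h3, map_zero] at ht1r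
      exact inv_ne_zero hω ht1r.symm
    · have h3 : (s1 + x1 : R.O) = s2 - x2 := by
        rw [hq0] at hdiff
        exact (sub_eq_zero.mp hdiff).symm
      rw [h3]
      exact ht2
  · exfalso
    have hm1 : m ≠ 0 := by
      rintro rfl
      simp at hm
    have hg : (s2 - x2) ^ m * u - (s1 + x1) ^ m * u =
        R.incl a * (y * (u * ∑ i ∈ Finset.range m, (s2 - x2) ^ i * (s1 + x1) ^ (m - 1 - i))) := by
      have hgeom := Commute.geom_sum₂_mul (Commute.all (s2 - x2) (s1 + x1)) m
      calc (s2 - x2) ^ m * u - (s1 + x1) ^ m * u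
          = ((s2 - x2) ^ m - (s1 + x1) ^ m) * u := by ring
        _ = ((∑ i ∈ Finset.range m, (s2 - x2) ^ i * (s1 + x1) ^ (m - 1 - i)) *
              ((s2 - x2) - (s1 + x1))) * u := by rw [hgeom]
        _ = R.incl a * (y * (u * ∑ i ∈ Finset.range m,
              (s2 - x2) ^ i * (s1 + x1) ^ (m - 1 - i))) := by
            rw [hdiff, hqa]
            ring
    have hhr : R.resO (u * ∑ i ∈ Finset.range m, (s2 - x2) ^ i * (s1 + x1) ^ (m - 1 - i)) =
        (m : Fb) * ω := by
      rw [map_mul, hu, map_sum]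
      simp only [map_mul, map_pow, ht1r, ht2r]
      have h3 : ∀ i ∈ Finset.range m, (ω⁻¹) ^ i * (ω⁻¹) ^ (m - 1 - i) = (ω⁻¹) ^ (m - 1) := by
        intro i hi
        rw [← pow_add]
        congr 1
        have := Finset.mem_range.mp hi
        omega
      rw [Finset.sum_congr rfl h3, Finset.sum_const, Finset.card_range, nsmul_eq_mul]
      obtain ⟨n, rfl⟩ := Nat.exists_eq_succ_of_ne_zero hm1
      simp only [Nat.succ_sub_one, pow_succ, inv_pow]
      field_simp
    have hsum := R.red_sup_eq G1 G2 hG1 hG2 hone1 hone2 hGbar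
    have hzmem : ((y * (u * ∑ i ∈ Finset.range m, (s2 - x2) ^ i * (s1 + x1) ^ (m - 1 - i)) : R.O) : F)
        ∈ G1 ⊔ G2 := by
      have hg2 := hpow2 (s2 - x2) ht2
      have hg1 := hpow1 (s1 + x1) ht1
      have h5 : ((R.incl a * (y * (u * ∑ i ∈ Finset.range m,
          (s2 - x2) ^ i * (s1 + x1) ^ (m - 1 - i))) : R.O) : F) ∈ G1 ⊔ G2 := by
        rw [← hg, AddSubgroupClass.coe_sub]
        exact Submodule.sub_mem _ (Submodule.mem_sup_right hg2) (Submodule.mem_sup_left hg1)
      have haL : (a : L) ≠ 0 := fun h => ha (Subtype.ext h)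
      rw [Subring.coe_mul, RedDatum.coe_incl, ← Algebra.smul_def] at h5
      exact (Submodule.smul_mem_iff _ haL).mp h5
    have hzr := R.resO_mem_red _ hzmem
    rw [hsum] at hzr
    obtain ⟨r1', hr1', r2, hr2, hr⟩ := Submodule.mem_sup.mp hzr
    rw [map_mul, hhr] at hr
    obtain ⟨hA, hB⟩ := hsep (-r1') (Submodule.neg_mem _ hr1') r2 hr2 (-(R.resO y))
      (Submodule.neg_mem _ (R.resO_mem_red y hy)) (by linear_combination (-1 : Fb) * hr)
    apply hyT
    have hmk : (m : k) ≠ 0 := by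
      intro h0
      apply hm
      have h9 := congrArg (algebraMap k Fb) h0
      simpa using h9
    have hy_eq : R.resO y = (m : k)⁻¹ • (ω⁻¹ * r2 - ω⁻¹ * (-r1')) := by
      rw [Algebra.smul_def, map_inv₀, map_natCast]
      field_simp
      linear_combination (-1 : Fb) * hr
    rw [hy_eq]
    exact Submodule.smul_mem _ _
      (Submodule.sub_mem _ (Submodule.mem_sup_right hB) (Submodule.mem_sup_left hA))

end Fermat.Agent.S18.helper375
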