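/-
S18, leaf S18-A1-ASM (helper2375): the closing theorem of track A on top of the one-level Kummer
core `helper375.exists_ne_zero_mem_inf`, with a CHART-ONLY special fibre.

Setting: `F / L` a function field in the Prelude `Place` vocabulary (all places of degree one),
`R : helper375.RedDatum L F k Fk` a reduction datum, `x` a unit of `R.O` with reduction `xb`,
`X` the pole divisor of `x`.  The special fibre `Fk / k` is used only through the two charts
`k[xb]`, `k[xb⁻¹]`: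

* (CART)   every finite-dimensional `L`-subspace of `F` is `R.IsCart`;
* (IT)     integrality over `L[x]` (resp. `L[x⁻¹]`) of elements of `R.O` is transferred to
           integrality over `k[xb]` (resp. `k[xb⁻¹]`);
* (CONST)  an element of `Fk` integral over `k[xb]` and over `k[xb⁻¹]` is a constant;
* (RIEM_F) Riemann's inequality on `F` with the integer `g`;
* (GAP_k)  a `k`-linearly independent family `z` with `z i` integral over `k[xb]` and
           `xb⁻¹ ^ n * z i` integral over `k[xb⁻¹]` has at most `n * deg X + 1 - g` members,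
           and the mirror statement for the chart `xb⁻¹`.

Conclusion: if `u ∈ R.O` is nonzero with `m ∣ ord_P u` for all places `P` and the reduction of
`u` is an `m`-th power `ω ^ m` with `ω ≠ 0`, `(m : Fk) ≠ 0`, then `f ^ m * u` is a nonzero
constant for some `f ≠ 0` in `F`.
-/
import Mathlib
import Fermat.Agent.S18.helper375_KummerOneStep
import Fermat.Agent.S18.helper6292_RedContain
import Fermat.Agent.S18.helper981_Riemann

set_option autoImplicit false

noncomputable section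

namespace Fermat.Agent.S18.helper2375

open AlgebraicCurve
open Fermat.Agent.S24.helper204 Fermat.Agent.S18.helper6292 Fermat.Agent.S18.helper981
open Fermat.Agent.S18.helper375

variable {L F k Fk : Type*} [Field L] [Field F] [Algebra L F] [Field k] [Field Fk] [Algebra k Fk]

/-- Membership in the chart space of level `n` of the special fibre: `z` is integral over
`k[xb]` and `xb⁻¹ ^ n * z` is integral over `k[xb⁻¹]`. -/
abbrev InChart (k : Type*) {Fk : Type*} [Field k] [Field Fk] [Algebra k Fk] (xb : Fk) (n : ℕ)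
    (z : Fk) : Prop :=
  IsIntegral (Algebra.adjoin k {xb}) z ∧ IsIntegral (Algebra.adjoin k {xb⁻¹}) (xb⁻¹ ^ n * z)

theorem ord_pow' (v : Place L F) (f : F) (n : ℕ) : v.ord (f ^ n) = n * v.ord f := by
  rw [← zpow_natCast, v.ord_zpow]

theorem isIntegral_self_adjoin (xb : Fk) : IsIntegral (Algebra.adjoin k {xb}) xb :=
  isIntegral_algebraMap (R := Algebra.adjoin k {xb}) (A := Fk)
    (x := ⟨xb, Algebra.self_mem_adjoin_singleton k xb⟩)

theorem isIntegral_algebraMap_adjoin (xb : Fk) (c : k) :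
    IsIntegral (Algebra.adjoin k {xb}) (algebraMap k Fk c) :=
  isIntegral_algebraMap (R := Algebra.adjoin k {xb}) (A := Fk)
    (x := algebraMap k (Algebra.adjoin k {xb}) c)

theorem isIntegral_natCast_adjoin (xb : Fk) (m : ℕ) :
    IsIntegral (Algebra.adjoin k {xb}) (m : Fk) := by
  have h := isIntegral_algebraMap_adjoin (k := k) xb (m : k)
  rwa [map_natCast] at h

/-- (T) Transfer with a twist.  If `s ∈ R.O` lies in `L(E)` where `E ≤ D₀ + b * (x)` at all
places where `x` is regular, `m * D₀ = (u)`, and the reduction of `u` is `ω ^ m`, then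
`xb ^ b * (red s * ω)` is integral over `k[xb]`. -/
theorem isIntegral_pow_mul_res (R : RedDatum L F k Fk) {x : F} (hxO : x ∈ R.O) {xb : Fk}
    (hxb : R.resO ⟨x, hxO⟩ = xb) (hx0 : x ≠ 0) (hC : ChartIntegral L x)
    (hIT : ∀ y : R.O, IsIntegral (Algebra.adjoin L {x}) (y : F) →
      IsIntegral (Algebra.adjoin k {xb}) (R.resO y))
    {m : ℕ} (hm : 0 < m) (u : R.O) (hu0 : (u : F) ≠ 0) {ω : Fk} (hu : R.resO u = ω ^ m)
    (D₀ : Divisor L F) (hD₀ : ∀ v : Place L F, (m : ℤ) * D₀ v = v.ord (u : F))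
    (E : Divisor L F) (b : ℕ)
    (hE : ∀ v : Place L F, 0 ≤ v.ord x → E v ≤ D₀ v + b * v.ord x)
    (s : R.O) (hs : (s : F) ∈ riemannRochSpace E) :
    IsIntegral (Algebra.adjoin k {xb}) (xb ^ b * (R.resO s * ω)) := by
  apply IsIntegral.of_pow hm
  have hcoe : (((⟨x, hxO⟩ : R.O) ^ (m * b) * s ^ m * u : R.O) : F)
      = x ^ (m * b) * (s : F) ^ m * (u : F) := by
    push_cast
    rfl
  have key : IsIntegral (Algebra.adjoin L {x})
      (((⟨x, hxO⟩ : R.O) ^ (m * b) * s ^ m * u : R.O) : F) := by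
    apply hC
    intro v hxv
    rw [hcoe]
    by_cases hs0 : (s : F) = 0
    · rw [hs0, zero_pow hm.ne', mul_zero, zero_mul]
      exact zero_mem _
    · apply mem_of_ord_nonneg
      have hx := ord_nonneg_of_mem v hxv
      have h1 := (mem_riemannRochSpace_iff.mp hs v).resolve_left hs0
      have h2 := hE v hx
      have h3 := hD₀ v
      rw [v.ord_mul (mul_ne_zero (pow_ne_zero _ hx0) (pow_ne_zero _ hs0)) hu0,
        v.ord_mul (pow_ne_zero _ hx0) (pow_ne_zero _ hs0), ord_pow', ord_pow', ← h3]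
      have h4 : 0 ≤ (b : ℤ) * v.ord x + v.ord (s : F) + D₀ v := by linarith
      have h5 := mul_nonneg (Nat.cast_nonneg (α := ℤ) m) h4
      push_cast
      linarith
  have h6 := hIT _ key
  have h7 : R.resO ((⟨x, hxO⟩ : R.O) ^ (m * b) * s ^ m * u) = (xb ^ b * (R.resO s * ω)) ^ m := by
    rw [map_mul, map_mul, map_pow, map_pow, hxb, hu]
    ring
  rwa [h7] at h6

/-- (SQ) The squeeze.  If the reduction of `L(E)`, multiplied by `ω`, lands in the chart space of
level `n`, Riemann's inequality on `F` gives `B ≤ l(E)` and the chart space has no independent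
family with more than `B` members, then `ω⁻¹ * z` lies in the reduction of `L(E)` for every `z`
of the chart space. -/
theorem inv_mul_mem_red_of_inChart [HasPrincipalDivisors L F]
    (hdeg : ∀ v : Place L F, v.deg = 1) (P₀ : Place L F) (R : RedDatum L F k Fk)
    (hcart : ∀ W : Submodule L F, FiniteDimensional L W → R.IsCart W)
    {xb : Fk} {ω : Fk} (hω : ω ≠ 0) (n : ℕ) (E : Divisor L F) (B : ℤ)
    (hriem : B ≤ (Module.finrank L (riemannRochSpace E) : ℤ))
    (hgap : ∀ (r : ℕ) (z : Fin r → Fk), LinearIndependent k z →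
      (∀ i, InChart k xb n (z i)) → (r : ℤ) ≤ B)
    (htrans : ∀ s : R.O, (s : F) ∈ riemannRochSpace E → InChart k xb n (R.resO s * ω))
    (z : Fk) (hz : InChart k xb n z) : ω⁻¹ * z ∈ R.red (riemannRochSpace E) := by
  by_contra hnot
  have hfin : FiniteDimensional L (riemannRochSpace E) := finite_riemannRochSpace hdeg P₀ E
  have heq := (hcart _ hfin).finrank_eq
  have hfinW : FiniteDimensional k (R.red (riemannRochSpace E)) := R.finiteDimensional_red _
  let b := Module.finBasis k (R.red (riemannRochSpace E))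
  have hli : LinearIndependent k (fun i => (b i : Fk)) :=
    b.linearIndependent.map' (R.red (riemannRochSpace E)).subtype (Submodule.ker_subtype _)
  have hspan : Submodule.span k (Set.range fun i => (b i : Fk)) = R.red (riemannRochSpace E) := by
    have h1 := b.span_eq
    have h2 := congrArg (Submodule.map (R.red (riemannRochSpace E)).subtype) h1
    rw [Submodule.map_span, Submodule.map_subtype_top, ← Set.range_comp] at h2
    exact h2
  have hli2 : LinearIndependent k (Fin.cons (ω⁻¹ * z) (fun i => (b i : Fk)) :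
      Fin (Module.finrank k (R.red (riemannRochSpace E)) + 1) → Fk) := by
    rw [linearIndependent_finCons]
    exact ⟨hli, by rw [hspan]; exact hnot⟩
  have hinj : (LinearMap.mulLeft k ω).ker = ⊥ :=
    LinearMap.ker_eq_bot.mpr (mul_right_injective₀ hω)
  have hli3 := hli2.map' (LinearMap.mulLeft k ω) hinj
  have h4 := hgap _ _ hli3 (by
    intro i
    refine Fin.cases ?_ (fun j => ?_) i
    · simp only [Function.comp_apply, Fin.cons_zero, LinearMap.mulLeft_apply]
      rw [mul_inv_cancel_left₀ hω]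
      exact hz
    · simp only [Function.comp_apply, Fin.cons_succ, LinearMap.mulLeft_apply]
      obtain ⟨s, hs, hsr⟩ := (b j).2
      rw [← hsr, mul_comm]
      exact htrans s hs)
  rw [heq] at h4
  push_cast at h4
  linarith

/-- The zero divisor of `x`, from its pole divisor and the principal divisor of `x`. -/
theorem exists_isZeroDivisor [HasPrincipalDivisors L F] {x : F} (hx0 : x ≠ 0) {X : Divisor L F}
    (hX : IsPoleDivisor x X) :
    ∃ X0 : Divisor L F, IsZeroDivisor x X0 ∧ Divisor.degree X0 = Divisor.degree X := by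
  obtain ⟨Dx, hDx, hDxdeg⟩ := HasPrincipalDivisors.exists_divisor (K := L) x hx0
  refine ⟨Dx + X, ?_, ?_⟩
  · intro v
    rw [Finsupp.add_apply, hDx v, hX v]
    rcases le_total 0 (v.ord x) with h | h
    · rw [max_eq_left (by omega), max_eq_right h]; ring
    · rw [max_eq_right (by omega), max_eq_left h]; ring
  · rw [map_add, hDxdeg, zero_add]

/-- The divisor `(u) / m` when `m` divides all orders of `u`. -/
theorem exists_divisor_div [HasPrincipalDivisors L F] {u : F} (hu0 : u ≠ 0) {m : ℕ}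
    (hm0 : 0 < m) (hdiv : ∀ v : Place L F, (m : ℤ) ∣ v.ord u) :
    ∃ D₀ : Divisor L F, (∀ v : Place L F, (m : ℤ) * D₀ v = v.ord u) ∧
      Divisor.degree D₀ = 0 := by
  have hmZ : (m : ℤ) ≠ 0 := by exact_mod_cast hm0.ne'
  obtain ⟨Du, hDu, hDudeg⟩ := HasPrincipalDivisors.exists_divisor (K := L) u hu0
  have hD₀ : ∀ v : Place L F,
      (m : ℤ) * (Du.mapRange (fun z => z / (m : ℤ)) (by simp) : Divisor L F) v = v.ord u := by
    intro v
    rw [Finsupp.mapRange_apply, hDu v]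
    exact Int.mul_ediv_cancel' (hdiv v)
  refine ⟨Du.mapRange (fun z => z / (m : ℤ)) (by simp), hD₀, ?_⟩
  have h1 : (m : ℤ) • (Du.mapRange (fun z => z / (m : ℤ)) (by simp) : Divisor L F) = Du := by
    ext v
    rw [Finsupp.smul_apply, smul_eq_mul, hD₀ v, hDu v]
  have h2 : (m : ℤ) • Divisor.degree
      (Du.mapRange (fun z => z / (m : ℤ)) (by simp) : Divisor L F) = 0 := by
    rw [← map_zsmul, h1, hDudeg]
  rw [smul_eq_mul] at h2
  rcases mul_eq_zero.mp h2 with h | h
  · exact absurd h hmZ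
  · exact h

theorem add_nsmul_apply (D₀ X : Divisor L F) (n : ℕ) (v : Place L F) :
    (D₀ + n • X) v = D₀ v + n * X v := by
  rw [Finsupp.add_apply, Finsupp.smul_apply, nsmul_eq_mul]

theorem nsmul_apply' (X : Divisor L F) (n : ℕ) (v : Place L F) : (n • X) v = n * X v := by
  rw [Finsupp.smul_apply, nsmul_eq_mul]

/-- `s ∈ L(D₀ + n X)` implies `s ^ m * u ∈ L(m n X)` when `m D₀ = (u)`. -/
theorem pow_mul_mem_riemannRochSpace {m : ℕ} (hm0 : 0 < m) {u : F} (hu0 : u ≠ 0)
    (D₀ : Divisor L F) (hD₀ : ∀ v : Place L F, (m : ℤ) * D₀ v = v.ord u) (X : Divisor L F)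
    (n : ℕ) {s : F} (hs : s ∈ riemannRochSpace (D₀ + n • X)) :
    s ^ m * u ∈ riemannRochSpace ((m * n) • X) := by
  rw [mem_riemannRochSpace_iff]
  intro v
  by_cases hs0 : s = 0
  · left
    rw [hs0, zero_pow hm0.ne', zero_mul]
  · right
    have h1 := (mem_riemannRochSpace_iff.mp hs v).resolve_left hs0
    rw [add_nsmul_apply] at h1
    rw [nsmul_apply', v.ord_mul (pow_ne_zero _ hs0) hu0, ord_pow', ← hD₀ v]
    have h5 := mul_le_mul_of_nonneg_left h1 (Nat.cast_nonneg (α := ℤ) m)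
    push_cast
    linarith

theorem one_mem_riemannRochSpace_nsmul {X : Divisor L F} (hX : ∀ v, 0 ≤ X v) (n : ℕ) :
    (1 : F) ∈ riemannRochSpace (n • X) := by
  rw [mem_riemannRochSpace_iff]
  intro v
  right
  rw [nsmul_apply', v.ord_one]
  have h := mul_nonneg (Nat.cast_nonneg (α := ℤ) n) (hX v)
  linarith

theorem riemannRochSpace_le_add_nsmul (D : Divisor L F) {X : Divisor L F} (hX : ∀ v, 0 ≤ X v)
    (n : ℕ) : riemannRochSpace D ≤ riemannRochSpace (D + n • X) := by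
  refine riemannRochSpace_mono (Finsupp.le_def.mpr fun v => ?_)
  rw [add_nsmul_apply]
  have h := mul_nonneg (Nat.cast_nonneg (α := ℤ) n) (hX v)
  linarith

/-- A nonzero `f ∈ L(D₀ + n X) ∩ L(D₀ + n X0)` with `X`, `X0` of disjoint supports and
`m D₀ = (u)` makes `f ^ m * u` a nonzero constant. -/
theorem exists_const_of_mem_inf [HasPrincipalDivisors L F]
    (hdeg : ∀ v : Place L F, v.deg = 1) (P₀ : Place L F) {m : ℕ} {u : F} (hu0 : u ≠ 0)
    (D₀ : Divisor L F) (hD₀ : ∀ v : Place L F, (m : ℤ) * D₀ v = v.ord u)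
    (X X0 : Divisor L F) (hdisj : ∀ v : Place L F, X v = 0 ∨ X0 v = 0) (n : ℕ)
    {f : F} (hf0 : f ≠ 0) (hf1 : f ∈ riemannRochSpace (D₀ + n • X))
    (hf2 : f ∈ riemannRochSpace (D₀ + n • X0)) :
    ∃ c : L, c ≠ 0 ∧ f ^ m * u = algebraMap L F c := by
  have hmem : f ^ m * u ∈ riemannRochSpace (0 : Divisor L F) := by
    rw [mem_riemannRochSpace_iff]
    intro v
    right
    rw [Finsupp.zero_apply, neg_zero, v.ord_mul (pow_ne_zero _ hf0) hu0, ord_pow', ← hD₀ v]
    have a1 := (mem_riemannRochSpace_iff.mp hf1 v).resolve_left hf0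
    have a2 := (mem_riemannRochSpace_iff.mp hf2 v).resolve_left hf0
    rw [add_nsmul_apply] at a1 a2
    have h3 : 0 ≤ v.ord f + D₀ v := by
      rcases hdisj v with h | h
      · rw [h] at a1
        linarith
      · rw [h] at a2
        linarith
    have h4 := mul_nonneg (Nat.cast_nonneg (α := ℤ) m) h3
    linarith
  have hfin0 := finite_riemannRochSpace hdeg P₀ (0 : Divisor L F)
  have h1 : Module.finrank L (riemannRochSpace (0 : Divisor L F)) = 1 := finrank_zero hdeg P₀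
  have hone : (⟨1, one_mem_riemannRochSpace_zero⟩ : riemannRochSpace (0 : Divisor L F)) ≠ 0 := by
    intro h
    have h' : (1 : F) = 0 := congrArg Subtype.val h
    exact one_ne_zero h'
  obtain ⟨c, hc⟩ := (finrank_eq_one_iff_of_nonzero' _ hone).mp h1 ⟨f ^ m * u, hmem⟩
  have hc' : c • (1 : F) = f ^ m * u := congrArg Subtype.val hc
  refine ⟨c, ?_, ?_⟩
  · rintro rfl
    rw [zero_smul] at hc'
    exact mul_ne_zero (pow_ne_zero _ hf0) hu0 hc'.symm
  · rw [← hc', Algebra.smul_def, mul_one]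

set_option maxHeartbeats 1600000 in
/-- **S18-A1-ASM, abstract closing theorem** (chart-only special fibre, one level `n`): a nonzero
common section of `L(D₀ + n X)` and `L(D₀ + n X0)`. -/
theorem exists_ne_zero_mem_riemannRochSpace [HasPrincipalDivisors L F]
    (hdeg : ∀ v : Place L F, v.deg = 1) (P₀ : Place L F) (R : RedDatum L F k Fk)
    (x : F) (hx0 : x ≠ 0) (hxO : x ∈ R.O) (hxiO : x⁻¹ ∈ R.O) (xb : Fk)
    (hxb : R.resO ⟨x, hxO⟩ = xb)
    (hC : ChartIntegral L x) (hC' : ChartIntegral L x⁻¹)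
    (X : Divisor L F) (hX : IsPoleDivisor x X) (d : ℤ) (hd : Divisor.degree X = d)
    (n : ℕ) (g : ℤ)
    (hcart : ∀ W : Submodule L F, FiniteDimensional L W → R.IsCart W)
    (hIT : ∀ y : R.O, IsIntegral (Algebra.adjoin L {x}) (y : F) →
      IsIntegral (Algebra.adjoin k {xb}) (R.resO y))
    (hIT' : ∀ y : R.O, IsIntegral (Algebra.adjoin L {x⁻¹}) (y : F) →
      IsIntegral (Algebra.adjoin k {xb⁻¹}) (R.resO y))
    (hconst : ∀ z : Fk, IsIntegral (Algebra.adjoin k {xb}) z →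
      IsIntegral (Algebra.adjoin k {xb⁻¹}) z → ∃ c : k, z = algebraMap k Fk c)
    (hriem : ∀ D : Divisor L F,
      Divisor.degree D + 1 - g ≤ (Module.finrank L (riemannRochSpace D) : ℤ))
    (hgap : ∀ (r : ℕ) (z : Fin r → Fk), LinearIndependent k z →
      (∀ i, IsIntegral (Algebra.adjoin k {xb}) (z i) ∧
        IsIntegral (Algebra.adjoin k {xb⁻¹}) (xb⁻¹ ^ n * z i)) →
      (r : ℤ) + g ≤ n * d + 1)
    (hgap' : ∀ (r : ℕ) (z : Fin r → Fk), LinearIndependent k z →
      (∀ i, IsIntegral (Algebra.adjoin k {xb⁻¹}) (z i) ∧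
        IsIntegral (Algebra.adjoin k {xb}) (xb ^ n * z i)) →
      (r : ℤ) + g ≤ n * d + 1)
    (m : ℕ) (hm : (m : Fk) ≠ 0) (u : R.O) (hu0 : (u : F) ≠ 0)
    (D₀ : Divisor L F) (hD₀deg : Divisor.degree D₀ = 0)
    (hD₀ : ∀ v : Place L F, (m : ℤ) * D₀ v = v.ord (u : F))
    (ω : Fk) (hω : ω ≠ 0) (hu : R.resO u = ω ^ m) :
    ∃ f : F, f ≠ 0 ∧ f ∈ riemannRochSpace (D₀ + n • X) ∧
      ∃ X0 : Divisor L F, IsZeroDivisor x X0 ∧ f ∈ riemannRochSpace (D₀ + n • X0) := by
  have hm0 : 0 < m := Nat.pos_of_ne_zero (by rintro rfl; simp at hm)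
  subst hd
  obtain ⟨X0, hX0, hX0deg⟩ := exists_isZeroDivisor hx0 hX
  -- the reduction of `x⁻¹`
  have hxib : R.resO ⟨x⁻¹, hxiO⟩ = xb⁻¹ := by
    apply eq_inv_of_mul_eq_one_right
    rw [← hxb, ← map_mul]
    have h1 : (⟨x, hxO⟩ : R.O) * ⟨x⁻¹, hxiO⟩ = 1 := Subtype.ext (mul_inv_cancel₀ hx0)
    rw [h1, map_one]
  have hxi0 : x⁻¹ ≠ 0 := inv_ne_zero hx0
  -- pointwise description of `X`, `X0`
  have hXnn : ∀ v, 0 ≤ X v := hX.nonneg
  have hX0nn : ∀ v, 0 ≤ X0 v := hX0.nonneg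
  have hXv : ∀ v : Place L F, 0 ≤ v.ord x → X v = 0 ∧ X0 v = v.ord x := by
    intro v h
    rw [hX v, hX0 v, max_eq_left (by omega), max_eq_right h]
    exact ⟨rfl, rfl⟩
  have hXv' : ∀ v : Place L F, v.ord x ≤ 0 → X v = -v.ord x ∧ X0 v = 0 := by
    intro v h
    rw [hX v, hX0 v, max_eq_right (by omega), max_eq_left h]
    exact ⟨rfl, rfl⟩
  -- transfer on `V1`, `V2`, `V12`
  have hT1 : ∀ s : R.O, (s : F) ∈ riemannRochSpace (D₀ + n • X) →
      InChart k xb n (R.resO s * ω) := by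
    intro s hs
    constructor
    · have h := isIntegral_pow_mul_res R hxO hxb hx0 hC hIT hm0 u hu0 hu D₀ hD₀ (D₀ + n • X) 0
        (by
          intro v hv
          obtain ⟨e1, -⟩ := hXv v hv
          rw [add_nsmul_apply, e1]
          simp) s hs
      rwa [pow_zero, one_mul] at h
    · exact isIntegral_pow_mul_res R hxiO hxib hxi0 hC' hIT' hm0 u hu0 hu D₀ hD₀ (D₀ + n • X) n
        (by
          intro v hv
          rw [v.ord_inv] at hv ⊢
          obtain ⟨e1, -⟩ := hXv' v (by omega)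
          rw [add_nsmul_apply, e1]) s hs
  have hT2 : ∀ s : R.O, (s : F) ∈ riemannRochSpace (D₀ + n • X0) →
      InChart k xb⁻¹ n (R.resO s * ω) := by
    intro s hs
    constructor
    · have h := isIntegral_pow_mul_res R hxiO hxib hxi0 hC' hIT' hm0 u hu0 hu D₀ hD₀
        (D₀ + n • X0) 0
        (by
          intro v hv
          rw [v.ord_inv] at hv
          obtain ⟨-, e2⟩ := hXv' v (by omega)
          rw [add_nsmul_apply, e2]
          simp) s hs
      rwa [pow_zero, one_mul] at h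
    · rw [inv_inv]
      exact isIntegral_pow_mul_res R hxO hxb hx0 hC hIT hm0 u hu0 hu D₀ hD₀ (D₀ + n • X0) n
        (by
          intro v hv
          obtain ⟨-, e2⟩ := hXv v hv
          rw [add_nsmul_apply, e2]) s hs
  have hT12a : ∀ s : R.O, (s : F) ∈ riemannRochSpace (D₀ + n • X + n • X0) →
      IsIntegral (Algebra.adjoin k {xb}) (xb ^ n * (R.resO s * ω)) := by
    intro s hs
    exact isIntegral_pow_mul_res R hxO hxb hx0 hC hIT hm0 u hu0 hu D₀ hD₀ _ n
      (by
        intro v hv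
        obtain ⟨e1, e2⟩ := hXv v hv
        rw [add_nsmul_apply, add_nsmul_apply, e1, e2]
        simp) s hs
  have hT12b : ∀ s : R.O, (s : F) ∈ riemannRochSpace (D₀ + n • X + n • X0) →
      IsIntegral (Algebra.adjoin k {xb⁻¹}) (xb⁻¹ ^ n * (R.resO s * ω)) := by
    intro s hs
    exact isIntegral_pow_mul_res R hxiO hxib hxi0 hC' hIT' hm0 u hu0 hu D₀ hD₀ _ n
      (by
        intro v hv
        rw [v.ord_inv] at hv ⊢
        obtain ⟨e1, e2⟩ := hXv' v (by omega)
        rw [add_nsmul_apply, add_nsmul_apply, e1, e2]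
        simp) s hs
  -- integrality of the reductions of `G1`, `G2`
  have hG1int : ∀ t : R.O, (t : F) ∈ riemannRochSpace ((m * n) • X) →
      IsIntegral (Algebra.adjoin k {xb}) (R.resO t) := fun t ht =>
    hIT t (isIntegral_of_mem_riemannRochSpace hX hC (m * n) ht)
  have hG2int : ∀ t : R.O, (t : F) ∈ riemannRochSpace ((m * n) • X0) →
      IsIntegral (Algebra.adjoin k {xb⁻¹}) (R.resO t) := fun t ht =>
    hIT' t (isIntegral_of_mem_riemannRochSpace hX0.isPoleDivisor_inv hC' (m * n) ht)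
  -- the squeeze on both charts
  have hS1 : ∀ z : Fk, InChart k xb n z → ω⁻¹ * z ∈ R.red (riemannRochSpace (D₀ + n • X)) := by
    refine inv_mul_mem_red_of_inChart hdeg P₀ R hcart hω n (D₀ + n • X)
      (n * Divisor.degree X + 1 - g) ?_ ?_ hT1
    · have h := hriem (D₀ + n • X)
      rw [map_add, map_nsmul, hD₀deg, nsmul_eq_mul, zero_add] at h
      exact h
    · intro r z hz hi
      have h := hgap r z hz hi
      linarith
  have hS2 : ∀ z : Fk, InChart k xb⁻¹ n z →
      ω⁻¹ * z ∈ R.red (riemannRochSpace (D₀ + n • X0)) := by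
    refine inv_mul_mem_red_of_inChart hdeg P₀ R hcart hω n (D₀ + n • X0)
      (n * Divisor.degree X + 1 - g) ?_ ?_ hT2
    · have h := hriem (D₀ + n • X0)
      rw [map_add, map_nsmul, hD₀deg, nsmul_eq_mul, zero_add, hX0deg] at h
      exact h
    · intro r z hz hi
      have h := hgap' r z hz (fun i => by
        have h' : IsIntegral (Algebra.adjoin k {xb⁻¹}) (z i) ∧
            IsIntegral (Algebra.adjoin k {xb⁻¹⁻¹}) (xb⁻¹⁻¹ ^ n * z i) := hi i
        rw [inv_inv] at h'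
        exact h')
      linarith
  have hVone1 : ω⁻¹ ∈ R.red (riemannRochSpace (D₀ + n • X)) := by
    have h := hS1 1 ⟨isIntegral_one, ((isIntegral_self_adjoin xb⁻¹).pow n).mul isIntegral_one⟩
    rwa [mul_one] at h
  have hVone2 : ω⁻¹ ∈ R.red (riemannRochSpace (D₀ + n • X0)) := by
    have h := hS2 1
      ⟨isIntegral_one, ((isIntegral_self_adjoin xb⁻¹⁻¹).pow n).mul isIntegral_one⟩
    rwa [mul_one] at h
  have hGbar : R.red (riemannRochSpace ((m * n) • X)) ⊓ R.red (riemannRochSpace ((m * n) • X0))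
      ≤ Submodule.span k {(1 : Fk)} := by
    rintro z ⟨hz1, hz2⟩
    obtain ⟨t1, ht1, rfl⟩ := hz1
    obtain ⟨t2, ht2, ht2r⟩ := hz2
    have i1 := hG1int t1 ht1
    have i2 : IsIntegral (Algebra.adjoin k {xb⁻¹}) (R.resO t1) := by
      rw [← ht2r]
      exact hG2int t2 ht2
    obtain ⟨c, hc⟩ := hconst _ i1 i2
    rw [hc, Submodule.mem_span_singleton]
    exact ⟨c, by rw [Algebra.smul_def, mul_one]⟩
  have hsep : ∀ r1 ∈ R.red (riemannRochSpace ((m * n) • X)),
      ∀ r2 ∈ R.red (riemannRochSpace ((m * n) • X0)),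
      ∀ y ∈ R.red (riemannRochSpace (D₀ + n • X + n • X0)),
      r1 - r2 = (m : Fk) * ω * y →
        ω⁻¹ * r1 ∈ R.red (riemannRochSpace (D₀ + n • X)) ∧
          ω⁻¹ * r2 ∈ R.red (riemannRochSpace (D₀ + n • X0)) := by
    intro r1 hr1 r2 hr2 y hy hrel
    obtain ⟨t1, ht1, rfl⟩ := hr1
    obtain ⟨t2, ht2, rfl⟩ := hr2
    obtain ⟨s, hs, rfl⟩ := hy
    have i1 := hG1int t1 ht1
    have i2 := hG2int t2 ht2
    have j1 := hT12a s hs
    have j2 := hT12b s hs
    constructor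
    · apply hS1
      refine ⟨i1, ?_⟩
      have e : xb⁻¹ ^ n * R.resO t1
          = xb⁻¹ ^ n * R.resO t2 + (m : Fk) * (xb⁻¹ ^ n * (R.resO s * ω)) := by
        have e1 : R.resO t1 = R.resO t2 + (m : Fk) * ω * R.resO s := by
          rw [← hrel]; ring
        rw [e1]; ring
      rw [e]
      exact (((isIntegral_self_adjoin xb⁻¹).pow n).mul i2).add
        ((isIntegral_natCast_adjoin xb⁻¹ m).mul j2)
    · apply hS2
      refine ⟨i2, ?_⟩
      rw [inv_inv]
      have e : xb ^ n * R.resO t2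
          = xb ^ n * R.resO t1 - (m : Fk) * (xb ^ n * (R.resO s * ω)) := by
        have e1 : R.resO t2 = R.resO t1 - (m : Fk) * ω * R.resO s := by
          rw [← hrel]; ring
        rw [e1]; ring
      rw [e]
      exact (((isIntegral_self_adjoin xb).pow n).mul i1).sub
        ((isIntegral_natCast_adjoin xb m).mul j1)
  -- the one-level core
  obtain ⟨f, hf0, hf1, hf2⟩ := exists_ne_zero_mem_inf R m hm u ω hω hu
    (riemannRochSpace (D₀ + n • X)) (riemannRochSpace (D₀ + n • X0))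
    (riemannRochSpace (D₀ + n • X + n • X0)) (riemannRochSpace ((m * n) • X))
    (riemannRochSpace ((m * n) • X0))
    (hcart _ (finite_riemannRochSpace hdeg P₀ _)) (hcart _ (finite_riemannRochSpace hdeg P₀ _))
    (hcart _ (finite_riemannRochSpace hdeg P₀ _))
    (riemannRochSpace_le_add_nsmul _ hX0nn n)
    (by
      have h := riemannRochSpace_le_add_nsmul (D₀ + n • X0) hXnn n
      rwa [add_right_comm] at h)
    (one_mem_riemannRochSpace_nsmul hXnn _) (one_mem_riemannRochSpace_nsmul hX0nn _)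
    (fun s hs => pow_mul_mem_riemannRochSpace hm0 hu0 D₀ hD₀ X n hs)
    (fun s hs => pow_mul_mem_riemannRochSpace hm0 hu0 D₀ hD₀ X0 n hs)
    hVone1 hVone2 hGbar hsep
  exact ⟨f, hf0, hf1, X0, hX0, hf2⟩

/-- For `f` in `L(D₀ + n X) ∩ L(D₀ + n X0)` with `X`, `X0` the pole and zero divisors of `x`,
`f ∈ L(D₀)`. -/
theorem mem_riemannRochSpace_of_mem_inf {x : F} {X X0 : Divisor L F} (hX : IsPoleDivisor x X)
    (hX0 : IsZeroDivisor x X0) (D₀ : Divisor L F) (n : ℕ) {f : F}
    (hf1 : f ∈ riemannRochSpace (D₀ + n • X)) (hf2 : f ∈ riemannRochSpace (D₀ + n • X0)) :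
    f ∈ riemannRochSpace D₀ := by
  rw [mem_riemannRochSpace_iff]
  intro v
  by_cases hf0 : f = 0
  · exact Or.inl hf0
  right
  have a1 := (mem_riemannRochSpace_iff.mp hf1 v).resolve_left hf0
  have a2 := (mem_riemannRochSpace_iff.mp hf2 v).resolve_left hf0
  rw [add_nsmul_apply] at a1 a2
  rcases le_total 0 (v.ord x) with h | h
  · rw [hX v, max_eq_left (by omega)] at a1
    linarith
  · rw [hX0 v, max_eq_left h] at a2
    linarith

/-- **S18-A1-ASM, closing theorem, `L(D₀)` form**: the degree-zero divisor `D₀ = (u) / m` has a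
nonzero section, i.e. `D₀` is principal. -/
theorem exists_ne_zero_mem_riemannRochSpace_div [HasPrincipalDivisors L F]
    (hdeg : ∀ v : Place L F, v.deg = 1) (P₀ : Place L F) (R : RedDatum L F k Fk)
    (x : F) (hx0 : x ≠ 0) (hxO : x ∈ R.O) (hxiO : x⁻¹ ∈ R.O) (xb : Fk)
    (hxb : R.resO ⟨x, hxO⟩ = xb)
    (hC : ChartIntegral L x) (hC' : ChartIntegral L x⁻¹)
    (X : Divisor L F) (hX : IsPoleDivisor x X) (d : ℤ) (hd : Divisor.degree X = d)
    (n : ℕ) (g : ℤ)
    (hcart : ∀ W : Submodule L F, FiniteDimensional L W → R.IsCart W)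
    (hIT : ∀ y : R.O, IsIntegral (Algebra.adjoin L {x}) (y : F) →
      IsIntegral (Algebra.adjoin k {xb}) (R.resO y))
    (hIT' : ∀ y : R.O, IsIntegral (Algebra.adjoin L {x⁻¹}) (y : F) →
      IsIntegral (Algebra.adjoin k {xb⁻¹}) (R.resO y))
    (hconst : ∀ z : Fk, IsIntegral (Algebra.adjoin k {xb}) z →
      IsIntegral (Algebra.adjoin k {xb⁻¹}) z → ∃ c : k, z = algebraMap k Fk c)
    (hriem : ∀ D : Divisor L F,
      Divisor.degree D + 1 - g ≤ (Module.finrank L (riemannRochSpace D) : ℤ))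
    (hgap : ∀ (r : ℕ) (z : Fin r → Fk), LinearIndependent k z →
      (∀ i, IsIntegral (Algebra.adjoin k {xb}) (z i) ∧
        IsIntegral (Algebra.adjoin k {xb⁻¹}) (xb⁻¹ ^ n * z i)) →
      (r : ℤ) + g ≤ n * d + 1)
    (hgap' : ∀ (r : ℕ) (z : Fin r → Fk), LinearIndependent k z →
      (∀ i, IsIntegral (Algebra.adjoin k {xb⁻¹}) (z i) ∧
        IsIntegral (Algebra.adjoin k {xb}) (xb ^ n * z i)) →
      (r : ℤ) + g ≤ n * d + 1)
    (m : ℕ) (hm : (m : Fk) ≠ 0) (u : R.O) (hu0 : (u : F) ≠ 0)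
    (D₀ : Divisor L F) (hD₀deg : Divisor.degree D₀ = 0)
    (hD₀ : ∀ v : Place L F, (m : ℤ) * D₀ v = v.ord (u : F))
    (ω : Fk) (hω : ω ≠ 0) (hu : R.resO u = ω ^ m) :
    ∃ f : F, f ≠ 0 ∧ f ∈ riemannRochSpace D₀ := by
  obtain ⟨f, hf0, hf1, X0, hX0, hf2⟩ := exists_ne_zero_mem_riemannRochSpace hdeg P₀ R x hx0 hxO
    hxiO xb hxb hC hC' X hX d hd n g hcart hIT hIT' hconst hriem hgap hgap' m hm u hu0 D₀
    hD₀deg hD₀ ω hω hu
  exact ⟨f, hf0, mem_riemannRochSpace_of_mem_inf hX hX0 D₀ n hf1 hf2⟩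

/-- **S18-A1-ASM, closing theorem, Kummer form**: `f ^ m * u` is a nonzero constant for some
`f ≠ 0`. -/
theorem exists_pow_mul_eq_const [HasPrincipalDivisors L F]
    (hdeg : ∀ v : Place L F, v.deg = 1) (P₀ : Place L F) (R : RedDatum L F k Fk)
    (x : F) (hx0 : x ≠ 0) (hxO : x ∈ R.O) (hxiO : x⁻¹ ∈ R.O) (xb : Fk)
    (hxb : R.resO ⟨x, hxO⟩ = xb)
    (hC : ChartIntegral L x) (hC' : ChartIntegral L x⁻¹)
    (X : Divisor L F) (hX : IsPoleDivisor x X) (d : ℤ) (hd : Divisor.degree X = d)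
    (n : ℕ) (g : ℤ)
    (hcart : ∀ W : Submodule L F, FiniteDimensional L W → R.IsCart W)
    (hIT : ∀ y : R.O, IsIntegral (Algebra.adjoin L {x}) (y : F) →
      IsIntegral (Algebra.adjoin k {xb}) (R.resO y))
    (hIT' : ∀ y : R.O, IsIntegral (Algebra.adjoin L {x⁻¹}) (y : F) →
      IsIntegral (Algebra.adjoin k {xb⁻¹}) (R.resO y))
    (hconst : ∀ z : Fk, IsIntegral (Algebra.adjoin k {xb}) z →
      IsIntegral (Algebra.adjoin k {xb⁻¹}) z → ∃ c : k, z = algebraMap k Fk c)
    (hriem : ∀ D : Divisor L F,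
      Divisor.degree D + 1 - g ≤ (Module.finrank L (riemannRochSpace D) : ℤ))
    (hgap : ∀ (r : ℕ) (z : Fin r → Fk), LinearIndependent k z →
      (∀ i, IsIntegral (Algebra.adjoin k {xb}) (z i) ∧
        IsIntegral (Algebra.adjoin k {xb⁻¹}) (xb⁻¹ ^ n * z i)) →
      (r : ℤ) + g ≤ n * d + 1)
    (hgap' : ∀ (r : ℕ) (z : Fin r → Fk), LinearIndependent k z →
      (∀ i, IsIntegral (Algebra.adjoin k {xb⁻¹}) (z i) ∧
        IsIntegral (Algebra.adjoin k {xb}) (xb ^ n * z i)) →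
      (r : ℤ) + g ≤ n * d + 1)
    (m : ℕ) (hm : (m : Fk) ≠ 0) (u : R.O) (hu0 : (u : F) ≠ 0)
    (hdiv : ∀ v : Place L F, (m : ℤ) ∣ v.ord (u : F))
    (ω : Fk) (hω : ω ≠ 0) (hu : R.resO u = ω ^ m) :
    ∃ (f : F) (c : L), f ≠ 0 ∧ c ≠ 0 ∧ f ^ m * (u : F) = algebraMap L F c := by
  have hm0 : 0 < m := Nat.pos_of_ne_zero (by rintro rfl; simp at hm)
  obtain ⟨D₀, hD₀, hD₀deg⟩ := exists_divisor_div hu0 hm0 hdiv
  obtain ⟨f, hf0, hf1, X0, hX0, hf2⟩ := exists_ne_zero_mem_riemannRochSpace hdeg P₀ R x hx0 hxO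
    hxiO xb hxb hC hC' X hX d hd n g hcart hIT hIT' hconst hriem hgap hgap' m hm u hu0 D₀
    hD₀deg hD₀ ω hω hu
  obtain ⟨c, hc0, hc⟩ := exists_const_of_mem_inf hdeg P₀ hu0 D₀ hD₀ X X0
    (fun v => by
      rw [hX v, hX0 v]
      rcases le_total 0 (v.ord x) with h | h
      · exact Or.inl (max_eq_left (by omega))
      · exact Or.inr (max_eq_left h)) n hf0 hf1 hf2
  exact ⟨f, c, hf0, hc0, hc⟩

/-- Characteristic-zero form: the chart dictionary is automatic. -/
theorem exists_ne_zero_mem_riemannRochSpace_of_charZero [CharZero L] [HasPrincipalDivisors L F]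
    (hdeg : ∀ v : Place L F, v.deg = 1) (P₀ : Place L F) (R : RedDatum L F k Fk)
    (x : F) [FiniteDimensional (IntermediateField.adjoin L {x}) F]
    (hx0 : x ≠ 0) (hxO : x ∈ R.O) (hxiO : x⁻¹ ∈ R.O) (xb : Fk)
    (hxb : R.resO ⟨x, hxO⟩ = xb)
    (X : Divisor L F) (hX : IsPoleDivisor x X) (d : ℤ) (hd : Divisor.degree X = d)
    (n : ℕ) (g : ℤ)
    (hcart : ∀ W : Submodule L F, FiniteDimensional L W → R.IsCart W)
    (hIT : ∀ y : R.O, IsIntegral (Algebra.adjoin L {x}) (y : F) →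
      IsIntegral (Algebra.adjoin k {xb}) (R.resO y))
    (hIT' : ∀ y : R.O, IsIntegral (Algebra.adjoin L {x⁻¹}) (y : F) →
      IsIntegral (Algebra.adjoin k {xb⁻¹}) (R.resO y))
    (hconst : ∀ z : Fk, IsIntegral (Algebra.adjoin k {xb}) z →
      IsIntegral (Algebra.adjoin k {xb⁻¹}) z → ∃ c : k, z = algebraMap k Fk c)
    (hriem : ∀ D : Divisor L F,
      Divisor.degree D + 1 - g ≤ (Module.finrank L (riemannRochSpace D) : ℤ))
    (hgap : ∀ (r : ℕ) (z : Fin r → Fk), LinearIndependent k z →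
      (∀ i, IsIntegral (Algebra.adjoin k {xb}) (z i) ∧
        IsIntegral (Algebra.adjoin k {xb⁻¹}) (xb⁻¹ ^ n * z i)) →
      (r : ℤ) + g ≤ n * d + 1)
    (hgap' : ∀ (r : ℕ) (z : Fin r → Fk), LinearIndependent k z →
      (∀ i, IsIntegral (Algebra.adjoin k {xb⁻¹}) (z i) ∧
        IsIntegral (Algebra.adjoin k {xb}) (xb ^ n * z i)) →
      (r : ℤ) + g ≤ n * d + 1)
    (m : ℕ) (hm : (m : Fk) ≠ 0) (u : R.O) (hu0 : (u : F) ≠ 0)
    (D₀ : Divisor L F) (hD₀deg : Divisor.degree D₀ = 0)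
    (hD₀ : ∀ v : Place L F, (m : ℤ) * D₀ v = v.ord (u : F))
    (ω : Fk) (hω : ω ≠ 0) (hu : R.resO u = ω ^ m) :
    ∃ f : F, f ≠ 0 ∧ f ∈ riemannRochSpace D₀ :=
  exists_ne_zero_mem_riemannRochSpace_div hdeg P₀ R x hx0 hxO hxiO xb hxb
    (chartIntegral_of_charZero x) (chartIntegral_inv_of_charZero x) X hX d hd n g hcart hIT hIT'
    hconst hriem hgap hgap' m hm u hu0 D₀ hD₀deg hD₀ ω hω hu

/-! ## The inputs as one structure -/

/-- The chart-only inputs of S18-A1-ASM for a reduction datum `R` and a chart `x` whose pole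
divisor has degree `d` (one level `n`, one integer `g`). -/
structure ChartInputs (R : RedDatum L F k Fk) (x : F) (d : ℤ) : Prop where
  x_ne : x ≠ 0
  x_mem : x ∈ R.O
  x_inv_mem : x⁻¹ ∈ R.O
  /-- (CART) -/
  cart : ∀ W : Submodule L F, FiniteDimensional L W → R.IsCart W
  /-- (IT) -/
  it : ∀ y : R.O, IsIntegral (Algebra.adjoin L {x}) (y : F) →
    IsIntegral (Algebra.adjoin k {R.resO ⟨x, x_mem⟩}) (R.resO y)
  /-- (IT), chart at infinity -/
  it_inv : ∀ y : R.O, IsIntegral (Algebra.adjoin L {x⁻¹}) (y : F) →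
    IsIntegral (Algebra.adjoin k {(R.resO ⟨x, x_mem⟩)⁻¹}) (R.resO y)
  /-- (CONST) -/
  const : ∀ z : Fk, IsIntegral (Algebra.adjoin k {R.resO ⟨x, x_mem⟩}) z →
    IsIntegral (Algebra.adjoin k {(R.resO ⟨x, x_mem⟩)⁻¹}) z → ∃ c : k, z = algebraMap k Fk c
  /-- (RIEM_F) and (GAP_k) on both charts, for one level `n` and one integer `g` -/
  gap : ∃ (n : ℕ) (g : ℤ),
    (∀ D : Divisor L F,
      Divisor.degree D + 1 - g ≤ (Module.finrank L (riemannRochSpace D) : ℤ)) ∧
    (∀ (r : ℕ) (z : Fin r → Fk), LinearIndependent k z →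
      (∀ i, IsIntegral (Algebra.adjoin k {R.resO ⟨x, x_mem⟩}) (z i) ∧
        IsIntegral (Algebra.adjoin k {(R.resO ⟨x, x_mem⟩)⁻¹})
          ((R.resO ⟨x, x_mem⟩)⁻¹ ^ n * z i)) →
      (r : ℤ) + g ≤ n * d + 1) ∧
    (∀ (r : ℕ) (z : Fin r → Fk), LinearIndependent k z →
      (∀ i, IsIntegral (Algebra.adjoin k {(R.resO ⟨x, x_mem⟩)⁻¹}) (z i) ∧
        IsIntegral (Algebra.adjoin k {R.resO ⟨x, x_mem⟩}) ((R.resO ⟨x, x_mem⟩) ^ n * z i)) →
      (r : ℤ) + g ≤ n * d + 1)

/-- The closing theorem from `ChartInputs`, characteristic zero. -/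
theorem ChartInputs.exists_ne_zero_mem [CharZero L] [HasPrincipalDivisors L F]
    (hdeg : ∀ v : Place L F, v.deg = 1) (P₀ : Place L F) {R : RedDatum L F k Fk} {x : F}
    [FiniteDimensional (IntermediateField.adjoin L {x}) F] {d : ℤ} (I : ChartInputs R x d)
    (X : Divisor L F) (hX : IsPoleDivisor x X) (hd : Divisor.degree X = d)
    (m : ℕ) (hm : (m : Fk) ≠ 0) (u : R.O) (hu0 : (u : F) ≠ 0)
    (D₀ : Divisor L F) (hD₀deg : Divisor.degree D₀ = 0)
    (hD₀ : ∀ v : Place L F, (m : ℤ) * D₀ v = v.ord (u : F))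
    (ω : Fk) (hω : ω ≠ 0) (hu : R.resO u = ω ^ m) :
    ∃ f : F, f ≠ 0 ∧ f ∈ riemannRochSpace D₀ := by
  obtain ⟨n, g, hriem, hgap, hgap'⟩ := I.gap
  exact exists_ne_zero_mem_riemannRochSpace_of_charZero hdeg P₀ R x I.x_ne I.x_mem I.x_inv_mem
    _ rfl X hX d hd n g I.cart I.it I.it_inv I.const hriem hgap hgap' m hm u hu0 D₀ hD₀deg hD₀
    ω hω hu

/-- The closing theorem from `ChartInputs` for a quotient `a / b` of two elements of the ring of
the datum, `b` a unit: if `(a / b) = m D₀` and `red a = ω ^ m * red b`, then `L(D₀) ≠ 0`. -/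
theorem ChartInputs.exists_ne_zero_mem_div [CharZero L] [HasPrincipalDivisors L F]
    (hdeg : ∀ v : Place L F, v.deg = 1) (P₀ : Place L F) {R : RedDatum L F k Fk} {x : F}
    [FiniteDimensional (IntermediateField.adjoin L {x}) F] {d : ℤ} (I : ChartInputs R x d)
    (X : Divisor L F) (hX : IsPoleDivisor x X) (hd : Divisor.degree X = d)
    (m : ℕ) (hm : (m : Fk) ≠ 0) (a b : R.O) (ha0 : (a : F) ≠ 0) (hb0 : (b : F) ≠ 0)
    (hbinv : (b : F)⁻¹ ∈ R.O)
    (D₀ : Divisor L F) (hD₀deg : Divisor.degree D₀ = 0)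
    (hD₀ : ∀ v : Place L F, v.ord ((a : F) * (b : F)⁻¹) = (m : ℤ) * D₀ v)
    (ω : Fk) (hω : ω ≠ 0) (hred : R.resO a = ω ^ m * R.resO b) :
    ∃ f : F, f ≠ 0 ∧ f ∈ riemannRochSpace D₀ := by
  have h1 : R.resO b * R.resO ⟨(b : F)⁻¹, hbinv⟩ = 1 := by
    rw [← map_mul]
    have h2 : b * (⟨(b : F)⁻¹, hbinv⟩ : R.O) = 1 := Subtype.ext (mul_inv_cancel₀ hb0)
    rw [h2, map_one]
  obtain ⟨u, hu⟩ : ∃ u : R.O, u = a * ⟨(b : F)⁻¹, hbinv⟩ := ⟨_, rfl⟩
  have hcoe : (u : F) = (a : F) * (b : F)⁻¹ := by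
    rw [hu]
    push_cast
    rfl
  have hures : R.resO u = ω ^ m := by
    rw [hu, map_mul, hred, mul_assoc, h1, mul_one]
  have hu0 : (u : F) ≠ 0 := by
    rw [hcoe]
    exact mul_ne_zero ha0 (inv_ne_zero hb0)
  have hD₀' : ∀ v : Place L F, (m : ℤ) * D₀ v = v.ord (u : F) := by
    intro v
    rw [hcoe]
    exact (hD₀ v).symm
  exact I.exists_ne_zero_mem hdeg P₀ X hX hd m hm u hu0 D₀ hD₀deg hD₀' ω hω hures

end Fermat.Agent.S18.helper2375
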