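import Fermat.Agent.S18.helper375_KummerOneStep
import Fermat.Agent.S18.helper1733_ValuedKit
import Fermat.Agent.S18.helper1733_ITAdapter
import Fermat.Agent.S18.helper1801_OrthoTower
import Fermat.Agent.S18.helper8991_GaussInst
import Fermat.Agent.S18.helper3054_Top

/-!
# S18 (helper375): suppliers for the one-level Kummer core in `RedDatum` vocabulary

* Part 1 (cartesian adapter).  For a reduction datum `R` whose ring `R.O` is the unit ball of a
  valuation `v` of `F`, an orthonormal family in the sense of `helper1733.IsOrtho v L` reduces to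
  a `k`-linearly independent family, hence its span is `R.IsCart`.  Together with
  `helper1733.exists_isOrtho_basis` (resp. `helper1801.exists_isOrtho_basis_of_adjoin_le` on a
  Hauptmodul line) EVERY finite-dimensional `L`-subspace of `F` is `R.IsCart`.

* Part 2 (the concrete datum).  The reduction datum of the Gauss valuation subring
  `helper8991.gaussF A π N` of `F = laurentBaseChange L (modularFunctionFieldFull N)`, with
  residue map `helper8991.gaussFRed`, first with values in `LaurentSeries k` (no hypothesis), then
  with values in `modularFunctionFieldFullC k N` (under the range hypothesis, which is the Igusa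
  degree equality).  For `L = AlgebraicClosure ℚ` the generic fibre is `modularFunctionFieldBar N`
  and the reduction of `a.gen` is `a.red` for every `helper3054.IntegralFn`.
-/

set_option autoImplicit false

noncomputable section

namespace Fermat.Agent.S18.helper375

open ModularCurve HahnSeries IntermediateField

/-! ## Part 1: orthonormal families are cartesian -/

section Cart

variable {L F k Fb : Type*} [Field L] [Field F] [Algebra L F] [Field k] [Field Fb] [Algebra k Fb]

namespace RedDatum

variable (R : RedDatum L F k Fb) {Γ₀ : Type*} [LinearOrderedCommGroupWithZero Γ₀]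
  (v : Valuation F Γ₀)

/-- `R.O` is the unit ball of the valuation `v`. -/
def IsBall : Prop := ∀ f : F, f ∈ R.O ↔ v f ≤ 1

variable {R v}

/-- Elements of value `1` have nonzero reduction. -/
theorem IsBall.resO_ne_zero (hv : R.IsBall v) (x : R.O) (hx : v (x : F) = 1) : R.resO x ≠ 0 := by
  have hx0 : (x : F) ≠ 0 := by
    intro h0
    rw [h0, map_zero] at hx
    exact zero_ne_one hx
  have hinv : (x : F)⁻¹ ∈ R.O := (hv _).mpr (by rw [map_inv₀, hx, inv_one])
  have h1 : x * (⟨(x : F)⁻¹, hinv⟩ : R.O) = 1 := Subtype.ext (mul_inv_cancel₀ hx0)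
  intro h0
  have h2 := congrArg R.resO h1
  rw [map_mul, h0, zero_mul, map_one] at h2
  exact zero_ne_one h2

/-- A constant of `A` with nonzero residue has value `1`. -/
theorem IsBall.map_algebraMap_eq_one (hv : R.IsBall v) (a : R.A) (ha : R.resA a ≠ 0) :
    v (algebraMap L F (a : L)) = 1 := by
  have hinv : (a : L)⁻¹ ∈ R.A := by
    by_contra hcon
    exact ha (R.resA_eq_zero_of_inv_notMem a.2 hcon)
  have ha0 : (a : L) ≠ 0 := by
    intro h0
    apply ha
    have : a = 0 := Subtype.ext h0
    rw [this, map_zero]
  have h1 : v (algebraMap L F (a : L)) ≤ 1 := (hv _).mp (R.map_mem _ a.2)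
  have h2 : v (algebraMap L F (a : L)⁻¹) ≤ 1 := (hv _).mp (R.map_mem _ hinv)
  have h3 : v (algebraMap L F (a : L)) * v (algebraMap L F (a : L)⁻¹) = 1 := by
    rw [← map_mul, ← map_mul, mul_inv_cancel₀ ha0, map_one, map_one]
  refine le_antisymm h1 ?_
  calc (1 : Γ₀) = v (algebraMap L F (a : L)) * v (algebraMap L F (a : L)⁻¹) := h3.symm
    _ ≤ v (algebraMap L F (a : L)) * 1 := mul_le_mul_right h2 _
    _ = v (algebraMap L F (a : L)) := mul_one _

/-- Constants of `A` have value at most `1`. -/
theorem IsBall.map_algebraMap_le_one (hv : R.IsBall v) (a : R.A) :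
    v (algebraMap L F (a : L)) ≤ 1 := (hv _).mp (R.map_mem _ a.2)

/-- **Orthonormal families reduce to linearly independent families.** -/
theorem IsBall.linearIndependent_resO (hv : R.IsBall v) {ι : Type*} [Fintype ι] (e : ι → R.O)
    (he : helper1733.IsOrtho v L fun i => (e i : F)) :
    LinearIndependent k fun i => R.resO (e i) := by
  classical
  rw [Fintype.linearIndependent_iff]
  intro κ hκ i₀
  by_contra hi₀
  choose a ha using fun i => R.resA_surj (κ i)
  have h1 : v (∑ i, ((a i : R.A) : L) • (e i : F)) = 1 :=
    he.map_sum_eq_one Finset.univ (fun i => ((a i : R.A) : L))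
      (fun i _ => hv.map_algebraMap_le_one (a i)) (Finset.mem_univ i₀)
      (hv.map_algebraMap_eq_one (a i₀) (by rw [ha]; exact hi₀))
  have h2 : R.resO (∑ i, R.incl (a i) * e i) ≠ 0 :=
    hv.resO_ne_zero _ (by rw [R.coe_sum_incl]; exact h1)
  apply h2
  rw [R.resO_sum_incl]
  simpa [ha] using hκ

/-- **Cartesian adapter.** The span of a finite `helper1733`-orthonormal family is `R.IsCart`. -/
theorem IsBall.isCart_of_isOrtho (hv : R.IsBall v) {ι : Type*} [Fintype ι] (e : ι → F)
    (he : helper1733.IsOrtho v L e) (W : Submodule L F)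
    (hW : Submodule.span L (Set.range e) = W) : R.IsCart W := by
  have hmem : ∀ i, e i ∈ R.O := fun i => (hv _).mpr (he.le_one i)
  exact R.isCart_of_orthonormal (fun i => (⟨e i, hmem i⟩ : R.O))
    (hv.linearIndependent_resO (fun i => (⟨e i, hmem i⟩ : R.O)) he) W hW

/-- **(CART) on the `x`-line.** If `x` is residually transcendental over `L` and `F` has an
orthonormal spanning family over `L(x)`, every finite-dimensional `L`-subspace is cartesian. -/
theorem IsBall.isCart_of_gauss (hv : R.IsBall v) {x : F} {ι : Type*} {b : ι → F}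
    (hx : helper1733.ResTranscendental v L x)
    (hb : helper1733.IsOrtho v (IntermediateField.adjoin L {x}) b)
    (hspan : Submodule.span (IntermediateField.adjoin L {x}) (Set.range b) = ⊤)
    (W : Submodule L F) [FiniteDimensional L W] : R.IsCart W := by
  obtain ⟨e, -, he, hspanW⟩ := helper1733.exists_isOrtho_basis hx hb hspan W
  exact hv.isCart_of_isOrtho e he W hspanW

/-- **(CART) on a second line.** The orthonormal family is given over `L(x)` and `x ∈ L(t)` with
`t` residually transcendental (e.g. `x = j`, `t` a Hauptmodul). -/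
theorem IsBall.isCart_of_gauss_of_adjoin_le (hv : R.IsBall v) {x t : F} {ι : Type*} [Finite ι]
    {b : ι → F} (ht : helper1733.ResTranscendental v L t)
    (hxt : x ∈ IntermediateField.adjoin L {t})
    (hb : helper1733.IsOrtho v (IntermediateField.adjoin L {x}) b)
    (hspan : Submodule.span (IntermediateField.adjoin L {x}) (Set.range b) = ⊤)
    (W : Submodule L F) [FiniteDimensional L W] : R.IsCart W := by
  obtain ⟨e, -, he, hspanW⟩ := helper1801.exists_isOrtho_basis_of_adjoin_le ht hxt hb hspan W
  exact hv.isCart_of_isOrtho e he W hspanW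

end RedDatum

end Cart

/-! ## Part 1b: integrality transfer in `RedDatum` form -/

section Transfer

variable {L F k Fb : Type*} [Field L] [Field F] [Algebra L F] [Field k] [Field Fb] [Algebra k Fb]

namespace RedDatum

variable (R : RedDatum L F k Fb)

/-- A constant lying in `R.O` lies in `R.A`. -/
theorem mem_A_of_algebraMap_mem {a : L} (ha : algebraMap L F a ∈ R.O) : a ∈ R.A := by
  by_contra hcon
  have hinv : a⁻¹ ∈ R.A := (R.A.mem_or_inv_mem a).resolve_left hcon
  have h0 : R.resA ⟨a⁻¹, hinv⟩ = 0 := R.resA_eq_zero_of_inv_notMem hinv (by rwa [inv_inv])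
  have ha0 : a ≠ 0 := fun h => hcon (h ▸ R.A.zero_mem)
  have h1 : (⟨algebraMap L F a, ha⟩ : R.O) * R.incl ⟨a⁻¹, hinv⟩ = 1 := by
    apply Subtype.ext
    show algebraMap L F a * algebraMap L F a⁻¹ = 1
    rw [← map_mul, mul_inv_cancel₀ ha0, map_one]
  have h2 := congrArg R.resO h1
  rw [map_mul, R.resO_incl, h0, map_zero, mul_zero, map_one] at h2
  exact zero_ne_one h2

/-- The reduction map of `R`, on a valuation subring contained in `R.O`. -/
def resV (O : ValuationSubring F) (hO : ∀ f : F, f ∈ O → f ∈ R.O) : ↥O →+* Fb :=
  R.resO.comp (Subring.inclusion (show O.toSubring ≤ R.O from hO))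

theorem resV_apply (O : ValuationSubring F) (hO : ∀ f : F, f ∈ O → f ∈ R.O) (g : F)
    (hg : g ∈ O) : R.resV O hO ⟨g, hg⟩ = R.resO ⟨g, hO g hg⟩ := rfl

/-- The weak compatibility of `resV` with constants (the `hcompat` of `helper1733`). -/
theorem resV_compat (O : ValuationSubring F) (hO : ∀ f : F, f ∈ O → f ∈ R.O) (a : L)
    (ha : algebraMap L F a ∈ O) :
    ∃ c : k, R.resV O hO ⟨algebraMap L F a, ha⟩ = algebraMap k Fb c :=
  ⟨R.resA ⟨a, R.mem_A_of_algebraMap_mem (hO _ ha)⟩,
    R.compat a (R.mem_A_of_algebraMap_mem (hO _ ha))⟩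

/-- **(IT), chart `x`.** If `R.O` is the valuation subring `O`, `x` is residually transcendental
and `F` has an orthonormal spanning family over `L(x)`, then an element of `R.O` integral over
`L[x]` has reduction integral over `k[x̄]`. -/
theorem isIntegral_resO_of_isOrtho (O : ValuationSubring F) (hO : ∀ f : F, f ∈ R.O ↔ f ∈ O)
    {x : F} (hx : x ∈ R.O) (hres : helper1733.ResTranscendental O.valuation L x)
    {ι : Type*} [Fintype ι] {b : ι → F} (hb : helper1733.IsOrtho O.valuation L⟮x⟯ b)
    (hspan : Submodule.span L⟮x⟯ (Set.range b) = ⊤) (g : F) (hg : g ∈ R.O)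
    (hgi : IsIntegral (Algebra.adjoin L {x}) g) :
    IsIntegral (Algebra.adjoin k {R.resO ⟨x, hx⟩}) (R.resO ⟨g, hg⟩) :=
  helper1733.integralityTransfer_of_isOrtho O (R.resV O fun f hf => (hO f).mpr hf)
    (R.resV_compat O fun f hf => (hO f).mpr hf) ((hO x).mp hx) hres hb hspan g ((hO g).mp hg) hgi

/-- **(IT), chart `x⁻¹`.** -/
theorem isIntegral_resO_inv_of_isOrtho (O : ValuationSubring F) (hO : ∀ f : F, f ∈ R.O ↔ f ∈ O)
    {x : F} (hx : x ∈ R.O) (hres : helper1733.ResTranscendental O.valuation L x)
    {ι : Type*} [Fintype ι] {b : ι → F} (hb : helper1733.IsOrtho O.valuation L⟮x⟯ b)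
    (hspan : Submodule.span L⟮x⟯ (Set.range b) = ⊤) (g : F) (hg : g ∈ R.O)
    (hgi : IsIntegral (Algebra.adjoin L {x⁻¹}) g) :
    IsIntegral (Algebra.adjoin k {(R.resO ⟨x, hx⟩)⁻¹}) (R.resO ⟨g, hg⟩) :=
  helper1733.integralityTransfer_inv_of_isOrtho O (R.resV O fun f hf => (hO f).mpr hf)
    (R.resV_compat O fun f hf => (hO f).mpr hf) ((hO x).mp hx) hres hb hspan g ((hO g).mp hg) hgi

/-- If `R.O` is the valuation subring `O`, it is the unit ball of `O.valuation`. -/
theorem isBall_of_valuationSubring (O : ValuationSubring F) (hO : ∀ f : F, f ∈ R.O ↔ f ∈ O) :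
    R.IsBall O.valuation := fun f => (hO f).trans (O.valuation_le_one_iff f).symm

/-- The residue of the inverse of a unit. -/
theorem resO_inv {x : F} (hx : x ∈ R.O) (hxi : x⁻¹ ∈ R.O) (hx0 : x ≠ 0) :
    R.resO ⟨x⁻¹, hxi⟩ = (R.resO ⟨x, hx⟩)⁻¹ := by
  have h1 : (⟨x, hx⟩ * ⟨x⁻¹, hxi⟩ : R.O) = 1 := Subtype.ext (mul_inv_cancel₀ hx0)
  have h2 : R.resO ⟨x, hx⟩ * R.resO ⟨x⁻¹, hxi⟩ = 1 := by rw [← map_mul, h1, map_one]
  exact eq_inv_of_mul_eq_one_right h2

end RedDatum

end Transfer

/-! ## Part 2: the reduction datum of the Gauss valuation subring -/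

section Gauss

variable {L : Type*} [Field L] [Algebra ℚ L] (A : ValuationSubring L) {k : Type*} [Field k]
  (π : A →+* k) (hπ : Function.Surjective π) (N : ℕ)

/-- The reduction map of the Gauss valuation subring, on the underlying subring. -/
def gaussResSeries :
    ↥(helper8991.gaussF A π N).toSubring →+* LaurentSeries k := helper8991.gaussFRed A π N

theorem gaussResSeries_apply (x : ↥(helper8991.gaussF A π N).toSubring) :
    gaussResSeries A π N x = helper8991.gaussFRed A π N ⟨x.1, x.2⟩ := rfl

/-- The reduction datum of the Gauss valuation subring of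
`F = laurentBaseChange L (modularFunctionFieldFull N)`, with values in `k((q))`. -/
def gaussRedDatumSeries :
    RedDatum L ↥(laurentBaseChange L (modularFunctionFieldFull N)) k (LaurentSeries k) where
  A := A
  O := (helper8991.gaussF A π N).toSubring
  map_mem a ha := helper8991.algebraMap_mem_gaussSubring A π _ _ ha
  resA := π
  resA_surj := hπ
  resO := gaussResSeries A π N
  compat a ha := by
    rw [gaussResSeries_apply]
    exact (helper8991.gaussRed_algebraMap A π _ _ ha).trans (helper8991.C_eq_algebraMap _)

@[simp] theorem gaussRedDatumSeries_A : (gaussRedDatumSeries A π hπ N).A = A := rfl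

@[simp] theorem gaussRedDatumSeries_O :
    (gaussRedDatumSeries A π hπ N).O = (helper8991.gaussF A π N).toSubring := rfl

theorem mem_gaussRedDatumSeries_O (f : ↥(laurentBaseChange L (modularFunctionFieldFull N))) :
    f ∈ (gaussRedDatumSeries A π hπ N).O ↔ f ∈ helper8991.gaussF A π N := Iff.rfl

theorem gaussRedDatumSeries_resO (x : (gaussRedDatumSeries A π hπ N).O) :
    (gaussRedDatumSeries A π hπ N).resO x = helper8991.gaussFRed A π N ⟨x.1, x.2⟩ := rfl

/-- The ring of the datum is the unit ball of the Gauss valuation. -/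
theorem gaussRedDatumSeries_isBall :
    (gaussRedDatumSeries A π hπ N).IsBall (helper8991.gaussF A π N).valuation := fun f =>
  ((helper8991.gaussF A π N).valuation_le_one_iff f).symm

variable (hrange : ∀ f : ↥(helper8991.gaussF A π N),
  helper8991.gaussFRed A π N f ∈ modularFunctionFieldFullC k N)

/-- The reduction map with values in the characteristic-`ℓ` function field. -/
def gaussRes :
    ↥(helper8991.gaussF A π N).toSubring →+* ↥(modularFunctionFieldFullC k N) :=
  (gaussResSeries A π N).codRestrict (modularFunctionFieldFullC k N)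
    (fun x => hrange ⟨x.1, x.2⟩)

theorem coe_gaussRes (x : ↥(helper8991.gaussF A π N).toSubring) :
    ((gaussRes A π N hrange x : ↥(modularFunctionFieldFullC k N)) : LaurentSeries k)
      = helper8991.gaussFRed A π N ⟨x.1, x.2⟩ := rfl

/-- The reduction datum of the Gauss valuation subring with values in
`modularFunctionFieldFullC k N`, under the range hypothesis (Igusa degree equality). -/
def gaussRedDatum :
    RedDatum L ↥(laurentBaseChange L (modularFunctionFieldFull N)) k
      ↥(modularFunctionFieldFullC k N) where
  A := A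
  O := (helper8991.gaussF A π N).toSubring
  map_mem a ha := helper8991.algebraMap_mem_gaussSubring A π _ _ ha
  resA := π
  resA_surj := hπ
  resO := gaussRes A π N hrange
  compat a ha := by
    apply Subtype.ext
    rw [coe_gaussRes]
    exact (helper8991.gaussRed_algebraMap A π _ _ ha).trans (helper8991.C_eq_algebraMap _)

@[simp] theorem gaussRedDatum_A : (gaussRedDatum A π hπ N hrange).A = A := rfl

@[simp] theorem gaussRedDatum_O :
    (gaussRedDatum A π hπ N hrange).O = (helper8991.gaussF A π N).toSubring := rfl

theorem mem_gaussRedDatum_O (f : ↥(laurentBaseChange L (modularFunctionFieldFull N))) :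
    f ∈ (gaussRedDatum A π hπ N hrange).O ↔ f ∈ helper8991.gaussF A π N := Iff.rfl

theorem coe_gaussRedDatum_resO (x : (gaussRedDatum A π hπ N hrange).O) :
    (((gaussRedDatum A π hπ N hrange).resO x : ↥(modularFunctionFieldFullC k N)) :
      LaurentSeries k) = helper8991.gaussFRed A π N ⟨x.1, x.2⟩ := rfl

/-- The ring of the datum is the unit ball of the Gauss valuation. -/
theorem gaussRedDatum_isBall :
    (gaussRedDatum A π hπ N hrange).IsBall (helper8991.gaussF A π N).valuation := fun f =>
  ((helper8991.gaussF A π N).valuation_le_one_iff f).symm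

/-- The ring of the datum is a valuation ring. -/
theorem gaussRedDatum_mem_or_inv_mem (f : ↥(laurentBaseChange L (modularFunctionFieldFull N))) :
    f ∈ (gaussRedDatum A π hπ N hrange).O ∨ f⁻¹ ∈ (gaussRedDatum A π hπ N hrange).O :=
  (helper8991.gaussF A π N).mem_or_inv_mem f

/-- An element of the datum with nonzero reduction has its inverse in the datum. -/
theorem gaussRedDatum_inv_mem (x : (gaussRedDatum A π hπ N hrange).O)
    (hx : (gaussRedDatum A π hπ N hrange).resO x ≠ 0) :
    (x : ↥(laurentBaseChange L (modularFunctionFieldFull N)))⁻¹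
      ∈ (gaussRedDatum A π hπ N hrange).O := by
  have h1 : helper8991.gaussFRed A π N ⟨x.1, x.2⟩ ≠ 0 := by
    intro h0
    apply hx
    apply Subtype.ext
    rw [coe_gaussRedDatum_resO, h0]
    rfl
  have hu := (helper8991.isUnit_iff_gaussFRed_ne_zero A π N ⟨x.1, x.2⟩).mpr h1
  obtain ⟨y, hy⟩ := hu.exists_right_inv
  have hxy : (x : ↥(laurentBaseChange L (modularFunctionFieldFull N))) *
      (y : ↥(laurentBaseChange L (modularFunctionFieldFull N))) = 1 := congrArg Subtype.val hy
  rw [inv_eq_of_mul_eq_one_right hxy]
  exact y.2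

/-- Every function of the generic fibre is a constant times an element of the datum with nonzero
reduction. -/
theorem gaussRedDatum_exists_const_mul (f : ↥(laurentBaseChange L (modularFunctionFieldFull N)))
    (hf : f ≠ 0) :
    ∃ (c : L) (u : (gaussRedDatum A π hπ N hrange).O), c ≠ 0 ∧
      (gaussRedDatum A π hπ N hrange).resO u ≠ 0 ∧
      f = algebraMap L ↥(laurentBaseChange L (modularFunctionFieldFull N)) c *
        (u : ↥(laurentBaseChange L (modularFunctionFieldFull N))) := by
  obtain ⟨c, u, hc, hu, hfu⟩ := helper8991.exists_const_mul_unit_F A π N f hf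
  refine ⟨c, ⟨u.1, u.2⟩, hc, ?_, hfu⟩
  intro h0
  apply hu
  have h1 := congrArg (Subtype.val : ↥(modularFunctionFieldFullC k N) → LaurentSeries k) h0
  rw [coe_gaussRedDatum_resO] at h1
  exact h1

/-- Integral series lying in the generic fibre belong to the datum and reduce coefficientwise. -/
theorem gaussRedDatum_inc_mem {y : LaurentSeries A}
    (hy : coeffMap A.subtype y ∈ laurentBaseChange L (modularFunctionFieldFull N)) :
    (⟨coeffMap A.subtype y, hy⟩ : ↥(laurentBaseChange L (modularFunctionFieldFull N)))
      ∈ (gaussRedDatum A π hπ N hrange).O :=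
  helper8991.inc_mem_gaussF A π N hy

theorem coe_gaussRedDatum_resO_inc {y : LaurentSeries A}
    (hy : coeffMap A.subtype y ∈ laurentBaseChange L (modularFunctionFieldFull N)) :
    (((gaussRedDatum A π hπ N hrange).resO
        ⟨⟨coeffMap A.subtype y, hy⟩, gaussRedDatum_inc_mem A π hπ N hrange hy⟩ :
        ↥(modularFunctionFieldFullC k N)) : LaurentSeries k) = coeffMap π y :=
  helper8991.gaussFRed_inc A π N hy

end Gauss

/-! ## The datum over `AlgebraicClosure ℚ` and `helper3054.IntegralFn` -/

section Bar

set_option synthInstance.maxHeartbeats 400000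

variable (A : ValuationSubring (AlgebraicClosure ℚ)) (N : ℕ)
  (hrange : ∀ f : ↥(helper8991.gaussF A (IsLocalRing.residue A) N),
    helper8991.gaussFRed A (IsLocalRing.residue A) N f
      ∈ modularFunctionFieldFullC (IsLocalRing.ResidueField A) N)

/-- The reduction datum on `modularFunctionFieldBar N` at a valuation subring `A` of
`AlgebraicClosure ℚ`, with residue function field `modularFunctionFieldFullC (residue field) N`. -/
def barRedDatum :
    RedDatum (AlgebraicClosure ℚ) ↥(modularFunctionFieldBar N) (IsLocalRing.ResidueField A)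
      ↥(modularFunctionFieldFullC (IsLocalRing.ResidueField A) N) :=
  gaussRedDatum A (IsLocalRing.residue A) IsLocalRing.residue_surjective N hrange

/-- The generic function of an integral function lies in the ring of the datum. -/
theorem gen_mem_barRedDatum (a : helper3054.IntegralFn A N) :
    a.gen ∈ (barRedDatum A N hrange).O :=
  gaussRedDatum_inc_mem A (IsLocalRing.residue A) IsLocalRing.residue_surjective N hrange a.mem

/-- The reduction of the generic function of an integral function is its reduced function. -/
theorem barRedDatum_resO_gen (a : helper3054.IntegralFn A N) :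
    (barRedDatum A N hrange).resO ⟨a.gen, gen_mem_barRedDatum A N hrange a⟩ = a.red :=
  Subtype.ext
    (coe_gaussRedDatum_resO_inc A (IsLocalRing.residue A) IsLocalRing.residue_surjective N hrange
      a.mem)

/-- The ring of the datum is the unit ball of the Gauss valuation. -/
theorem barRedDatum_isBall :
    (barRedDatum A N hrange).IsBall
      (helper8991.gaussF A (IsLocalRing.residue A) N).valuation :=
  gaussRedDatum_isBall A (IsLocalRing.residue A) IsLocalRing.residue_surjective N hrange

end Bar

end Fermat.Agent.S18.helper375
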