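/-
S18, leaf S18-A1-ASM (helper2375), modular instance: `helper3054.Stmt_KF0 N ℓ` from a reduction
datum on `modularFunctionFieldBar N` and the chart-only inputs `helper2375.ChartInputs` at one
function `x` (the Hauptmodul `t_r` on the lines of track A, or `j`).

* `OneLevelInputs A N R x` : the inputs as one Prop-valued structure (three bookkeeping fields
  on `helper3054.IntegralFn`, `x` transcendental with `[F_N : ℚ̄(x)] < ∞`, and
  `ChartInputs R x [F_N : ℚ̄(x)]`);
* `stmt_KF0_of_oneLevelInputs` : `(∀ A over ℓ, ∃ R x, OneLevelInputs A N R x) → Stmt_KF0 N ℓ`;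
* `oneLevelInputs_barRedDatum` : the three bookkeeping fields are automatic for the Gauss datum
  `helper375.barRedDatum A N hrange`.
-/
import Fermat.Agent.S18.helper2375_OneLevelAsm
import Fermat.Agent.S18.helper4226_KummerKF
import Fermat.Agent.S18.helper1903_RiemannAsm
import Fermat.Agent.S18.helper375_RedSupply
import Fermat.Agent.Lib.helper3858_ResidueQbar

set_option autoImplicit false
set_option synthInstance.maxHeartbeats 400000

noncomputable section

namespace Fermat.Agent.S18.helper2375

open ModularCurve AlgebraicCurve IntermediateField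
open Fermat.Agent.S24.helper24 Fermat.Agent.S18.helper3054 Fermat.Agent.S18.helper375
open Fermat.Agent.S18.helper6292

/-- The inputs of S18-A1-ASM at a place `A` of `ℚ̄`, for the level `N`, a reduction datum `R` on
`F_N` with residue function field `modularFunctionFieldFullC k N`, and the chart `x`. -/
structure OneLevelInputs (A : ValuationSubring (AlgebraicClosure ℚ)) (N : ℕ) [NeZero N]
    (R : RedDatum (AlgebraicClosure ℚ) ↥(modularFunctionFieldBar N) (IsLocalRing.ResidueField A)
      ↥(modularFunctionFieldFullC (IsLocalRing.ResidueField A) N))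
    (x : ↥(modularFunctionFieldBar N)) : Prop where
  /-- integral functions lie in the ring of the datum -/
  gen_mem : ∀ a : IntegralFn A N, a.gen ∈ R.O
  /-- and reduce to their reduced function -/
  resO_gen : ∀ a : IntegralFn A N, R.resO ⟨a.gen, gen_mem a⟩ = a.red
  /-- an element with nonzero reduction is a unit of the ring of the datum -/
  inv_mem : ∀ y : R.O, R.resO y ≠ 0 → (y : ↥(modularFunctionFieldBar N))⁻¹ ∈ R.O
  transcendental : Transcendental (AlgebraicClosure ℚ) x
  finite : FiniteDimensional (AlgebraicClosure ℚ)⟮x⟯ ↥(modularFunctionFieldBar N)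
  /-- (CART), (IT), (CONST), (RIEM_F), (GAP_k) with `d = [F_N : ℚ̄(x)]` -/
  chart : ChartInputs R x
    (Module.finrank (AlgebraicClosure ℚ)⟮x⟯ ↥(modularFunctionFieldBar N) : ℤ)

/-- `ℓ ∤ m` makes `m` invertible in the residue function field. -/
theorem natCast_ne_zero_of_not_dvd (A : ValuationSubring (AlgebraicClosure ℚ)) (N : ℕ)
    {ℓ : ℕ} (hℓ : ℓ.Prime) (hA : A.LiesOverPrime ℓ) {m : ℕ} (hm : ¬ ℓ ∣ m) :
    ((m : ℕ) : ↥(modularFunctionFieldFullC (IsLocalRing.ResidueField A) N)) ≠ 0 := by
  have := Fermat.Agent.Lib.helper3858.charP_residueField A hℓ hA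
  intro h
  have h1 : algebraMap (IsLocalRing.ResidueField A)
      ↥(modularFunctionFieldFullC (IsLocalRing.ResidueField A) N)
      ((m : ℕ) : IsLocalRing.ResidueField A) = 0 := by
    rw [map_natCast]
    exact h
  have h2 : ((m : ℕ) : IsLocalRing.ResidueField A) = 0 := by
    rw [← map_zero (algebraMap (IsLocalRing.ResidueField A)
      ↥(modularFunctionFieldFullC (IsLocalRing.ResidueField A) N))] at h1
    exact (algebraMap (IsLocalRing.ResidueField A)
      ↥(modularFunctionFieldFullC (IsLocalRing.ResidueField A) N)).injective h1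
  exact hm ((CharP.cast_eq_zero_iff (IsLocalRing.ResidueField A) ℓ m).mp h2)

/-- **S18-A1-ASM at one place.**  Under `OneLevelInputs`, the degree-zero divisor `D0` with
`m D0 = (a / b)` has a nonzero section. -/
theorem exists_ne_zero_mem_of_oneLevelInputs (A : ValuationSubring (AlgebraicClosure ℚ)) (N : ℕ)
    [NeZero N]
    (R : RedDatum (AlgebraicClosure ℚ) ↥(modularFunctionFieldBar N) (IsLocalRing.ResidueField A)
      ↥(modularFunctionFieldFullC (IsLocalRing.ResidueField A) N))
    (x : ↥(modularFunctionFieldBar N)) (I : OneLevelInputs A N R x) (m : ℕ)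
    (hm : ((m : ℕ) : ↥(modularFunctionFieldFullC (IsLocalRing.ResidueField A) N)) ≠ 0)
    (a b : IntegralFn A N)
    (D0 : Divisor (AlgebraicClosure ℚ) ↥(modularFunctionFieldBar N))
    (hdeg0 : Divisor.degree D0 = 0)
    (hD0 : ∀ P : Place (AlgebraicClosure ℚ) ↥(modularFunctionFieldBar N),
      P.ord (a.gen * b.gen⁻¹) = (m : ℤ) * D0 P)
    (w : ↥(modularFunctionFieldFullC (IsLocalRing.ResidueField A) N)) (hw : w ≠ 0)
    (hred : a.red = w ^ m * b.red) :
    ∃ f : ↥(modularFunctionFieldBar N), f ≠ 0 ∧ f ∈ riemannRochSpace D0 := by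
  have hP := Fermat.Agent.S18.helper4226.hasPrincipalDivisors_FN N
  obtain ⟨P₀⟩ := Fermat.Agent.S18.helper1903.nonempty_place_FN N
  have hfin := I.finite
  obtain ⟨X, hX, hXdeg⟩ := Fermat.Agent.S18.helper1903.exists_poleDivisor x I.transcendental
  have hbinv : (b.gen)⁻¹ ∈ R.O :=
    I.inv_mem ⟨b.gen, I.gen_mem b⟩ (by rw [I.resO_gen]; exact b.red_ne_zero)
  have hres : R.resO ⟨a.gen, I.gen_mem a⟩ = w ^ m * R.resO ⟨b.gen, I.gen_mem b⟩ := by
    rw [I.resO_gen, I.resO_gen]
    exact hred
  have k1 := I.chart.exists_ne_zero_mem_div (Fermat.Agent.S18.helper4226.place_deg_eq_one_FN N)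
    P₀ X hX hXdeg m hm
  have k2 := k1 ⟨a.gen, I.gen_mem a⟩ ⟨b.gen, I.gen_mem b⟩ a.gen_ne_zero b.gen_ne_zero hbinv
  have k3 := k2 D0 hdeg0 hD0
  exact k3 w hw hres

/-- **S18-A1-ASM, final form.**  `Stmt_KF0 N ℓ` from the chart-only inputs at every place of
`ℚ̄` over the prime `ℓ`. -/
theorem stmt_KF0_of_oneLevelInputs (N : ℕ) [NeZero N] (ℓ : ℕ) (hℓ : ℓ.Prime)
    (H : ∀ A : ValuationSubring (AlgebraicClosure ℚ), A.LiesOverPrime ℓ →
      ∃ (R : RedDatum (AlgebraicClosure ℚ) ↥(modularFunctionFieldBar N)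
          (IsLocalRing.ResidueField A)
          ↥(modularFunctionFieldFullC (IsLocalRing.ResidueField A) N))
        (x : ↥(modularFunctionFieldBar N)), OneLevelInputs A N R x) :
    Stmt_KF0 N ℓ := by
  refine Fermat.Agent.S18.helper4226.stmt_KF0_of_forall_mem_rr_unit N ℓ ?_
  intro A hA m hm a b D0 hdeg0 hD0 w hw hred
  obtain ⟨R, x, I⟩ := H A hA
  exact exists_ne_zero_mem_of_oneLevelInputs A N R x I m
    (natCast_ne_zero_of_not_dvd A N hℓ hA hm) a b D0 hdeg0 hD0 w hw hred

/-- For the Gauss datum `helper375.barRedDatum A N hrange` the bookkeeping fields of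
`OneLevelInputs` are automatic: only `ChartInputs` remains. -/
theorem oneLevelInputs_barRedDatum (A : ValuationSubring (AlgebraicClosure ℚ)) (N : ℕ) [NeZero N]
    (hrange : ∀ f : ↥(helper8991.gaussF A (IsLocalRing.residue A) N),
      helper8991.gaussFRed A (IsLocalRing.residue A) N f
        ∈ modularFunctionFieldFullC (IsLocalRing.ResidueField A) N)
    (x : ↥(modularFunctionFieldBar N)) (hx : Transcendental (AlgebraicClosure ℚ) x)
    (hfin : FiniteDimensional (AlgebraicClosure ℚ)⟮x⟯ ↥(modularFunctionFieldBar N))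
    (hchart : ChartInputs (barRedDatum A N hrange) x
      (Module.finrank (AlgebraicClosure ℚ)⟮x⟯ ↥(modularFunctionFieldBar N) : ℤ)) :
    OneLevelInputs A N (barRedDatum A N hrange) x where
  gen_mem := gen_mem_barRedDatum A N hrange
  resO_gen := barRedDatum_resO_gen A N hrange
  inv_mem := fun y hy =>
    gaussRedDatum_inv_mem A (IsLocalRing.residue A) IsLocalRing.residue_surjective N hrange y hy
  transcendental := hx
  finite := hfin
  chart := hchart

/-- `Stmt_KF0 N ℓ` from the Igusa range hypothesis and `ChartInputs` for the Gauss datum at every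
place over `ℓ`. -/
theorem stmt_KF0_of_barRedDatum (N : ℕ) [NeZero N] (ℓ : ℕ) (hℓ : ℓ.Prime)
    (H : ∀ A : ValuationSubring (AlgebraicClosure ℚ), A.LiesOverPrime ℓ →
      ∃ (hrange : ∀ f : ↥(helper8991.gaussF A (IsLocalRing.residue A) N),
          helper8991.gaussFRed A (IsLocalRing.residue A) N f
            ∈ modularFunctionFieldFullC (IsLocalRing.ResidueField A) N)
        (x : ↥(modularFunctionFieldBar N)), Transcendental (AlgebraicClosure ℚ) x ∧
        FiniteDimensional (AlgebraicClosure ℚ)⟮x⟯ ↥(modularFunctionFieldBar N) ∧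
        ChartInputs (barRedDatum A N hrange) x
          (Module.finrank (AlgebraicClosure ℚ)⟮x⟯ ↥(modularFunctionFieldBar N) : ℤ)) :
    Stmt_KF0 N ℓ := by
  refine stmt_KF0_of_oneLevelInputs N ℓ hℓ fun A hA => ?_
  obtain ⟨hrange, x, hx, hfin, hchart⟩ := H A hA
  exact ⟨barRedDatum A N hrange, x, oneLevelInputs_barRedDatum A N hrange x hx hfin hchart⟩

end Fermat.Agent.S18.helper2375
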