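import Mathlib

/-!
# S18 track B, leaf T2 (Abhyankar, local form) — helper2636

Trace-dual form of "unramified at a prime" (`UnrAt`) and its stability properties:

* `unrAt_of_discr`      : an integral tuple with discriminant outside `p` gives `UnrAt`;
* `unrAt_tower`         : the tower step `K ⊆ K' ⊆ L' = L[s]`, `s ^ e = g`, `e, g ∉ p`;
* `unrAt_of_localization` : `UnrAt` for a localisation gives `UnrAt` at the contracted prime.
-/

set_option autoImplicit false

namespace Fermat.Agent.S18.helper2636

open Polynomial

/-- Trace-dual form of "the integral closure of `B` in `L` is unramified over the prime `p`":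
every `x : L` whose trace pairing (over `K`) with all `B`-integral elements is `B`-integral
becomes `B`-integral after multiplication by some `a ∉ p`.  (`K` need not be `Frac B`.) -/
def UnrAt (B K L : Type*) [CommRing B] [Field K] [Field L] [Algebra B K] [Algebra K L]
    [Algebra B L] (p : Ideal B) : Prop :=
  ∀ x : L, (∀ y : L, IsIntegral B y → IsIntegral B (Algebra.trace K L (x * y))) →
    ∃ a : B, a ∉ p ∧ IsIntegral B (algebraMap B L a * x)

section Tower

variable {B K L K' L' : Type*}
  [CommRing B] [IsDomain B] [IsNoetherianRing B] [IsIntegrallyClosed B]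
  [Field K] [Algebra B K] [IsFractionRing B K]
  [Field L] [Algebra K L] [Algebra B L] [IsScalarTower B K L]
  [FiniteDimensional K L] [Algebra.IsSeparable K L]
  [Field L'] [Algebra L L'] [Algebra K L'] [IsScalarTower K L L']
  [Algebra B L'] [IsScalarTower B L L'] [IsScalarTower B K L']
  [FiniteDimensional L L'] [Algebra.IsSeparable L L']
  [Field K'] [Algebra K K'] [Algebra K' L'] [IsScalarTower K K' L']
  [Algebra B K'] [IsScalarTower B K K']

/-- **Tower step.**  `L' = L[s]` with `s ^ e = g`, and `e, g ∉ p`: unramifiedness of `L/K` at `p`
passes to `L'/K'` for any intermediate field `K'` of `L'/K`. -/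
theorem unrAt_tower (p : Ideal B) [p.IsPrime] (e : ℕ) (g : B) (s : L')
    (hs : s ^ e = algebraMap B L' g) (htop : Algebra.adjoin L {s} = ⊤)
    (he : (e : B) ∉ p) (hg : g ∉ p) (h : UnrAt B K L p) : UnrAt B K' L' p := by
  classical
  have hfinKL' : FiniteDimensional K L' := FiniteDimensional.trans K L L'
  have hfin1 : FiniteDimensional K K' := FiniteDimensional.left K K' L'
  have hfin2 : FiniteDimensional K' L' := FiniteDimensional.right K K' L'
  have hsepKL' : Algebra.IsSeparable K L' := Algebra.IsSeparable.trans K L L'
  intro x hx
  -- (1) the trace down to `K` of `x * y'` is integral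
  have h1 : ∀ y' : L', IsIntegral B y' → IsIntegral B (Algebra.trace K L' (x * y')) := by
    intro y' hy'
    rw [← Algebra.trace_trace (S := K')]
    exact Algebra.isIntegral_trace (hx y' hy')
  -- (2) for each integral `y'`, some multiple of `Tr_{L'/L}(x y')` is integral
  have h2 : ∀ y' : L', IsIntegral B y' →
      ∃ a : B, a ∉ p ∧ IsIntegral B (algebraMap B L a * Algebra.trace L L' (x * y')) := by
    intro y' hy'
    apply h
    intro y hy
    have : Algebra.trace L L' (x * y') * y = Algebra.trace L L' (x * (y' * algebraMap L L' y)) := by
      rw [← mul_assoc, mul_comm (x * y') (algebraMap L L' y), ← Algebra.smul_def, map_smul,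
        smul_eq_mul, mul_comm]
    rw [this, Algebra.trace_trace]
    exact h1 _ (hy'.mul (hy.algebraMap))
  -- (3) one multiplier `a` for all integral `y'` (finite generation of the integral closure)
  obtain ⟨a, hap, ha⟩ : ∃ a : B, a ∉ p ∧ ∀ y' : L', IsIntegral B y' →
      IsIntegral B (algebraMap B L a * Algebra.trace L L' (x * y')) := by
    have hfinR' : Module.Finite B (integralClosure B L') :=
      IsIntegralClosure.finite B K L' (integralClosure B L')
    obtain ⟨t, ht⟩ := (Module.finite_def.mp hfinR')
    choose! af haf using h2
    refine ⟨∏ y ∈ t, af (y : L'), ?_, ?_⟩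
    · intro hmem
      obtain ⟨y, -, hy⟩ := (Ideal.IsPrime.prod_mem_iff (p := p)).mp hmem
      exact (haf (y : L') y.2).1 hy
    · intro y' hy'
      let a0 : B := ∏ y ∈ t, af (y : L')
      let φ : (integralClosure B L') →ₗ[B] L :=
        (LinearMap.mulLeft B (algebraMap B L a0)).comp
          (((Algebra.trace L L').restrictScalars B).comp
            ((LinearMap.mulLeft B x).comp (integralClosure B L').val.toLinearMap))
      have hφ : ∀ v : integralClosure B L',
          φ v = algebraMap B L a0 * Algebra.trace L L' (x * (v : L')) := fun v => rfl
      have hle : Submodule.span B (t : Set (integralClosure B L')) ≤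
          (Subalgebra.toSubmodule (integralClosure B L)).comap φ := by
        rw [Submodule.span_le]
        intro y hyt
        have hyt' : y ∈ t := hyt
        show φ y ∈ integralClosure B L
        rw [hφ]
        have hsplit : a0 = (∏ z ∈ t.erase y, af (z : L')) * af (y : L') :=
          (Finset.prod_erase_mul t _ hyt').symm
        rw [hsplit, map_mul, mul_assoc]
        exact (isIntegral_algebraMap).mul (haf (y : L') y.2).2
      have hmem : (⟨y', hy'⟩ : integralClosure B L') ∈
          (Subalgebra.toSubmodule (integralClosure B L)).comap φ := hle (ht ▸ Submodule.mem_top)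
      exact hmem
  -- (4) `w := a x` pairs integrally (over `L`) with all integral elements
  set w : L' := algebraMap B L' a * x with hw
  have hwtr : ∀ y' : L', IsIntegral B y' → IsIntegral B (Algebra.trace L L' (w * y')) := by
    intro y' hy'
    have : Algebra.trace L L' (w * y') = algebraMap B L a * Algebra.trace L L' (x * y') := by
      rw [hw, mul_assoc, IsScalarTower.algebraMap_apply B L L', ← Algebra.smul_def, map_smul,
        smul_eq_mul]
    rw [this]
    exact ha y' hy'
  -- (5) Euler's formula for `R[s]`, `R` the integral closure of `B` in `L`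
  have hfracR : IsFractionRing (integralClosure B L) L :=
    integralClosure.isFractionRing_of_finite_extension K L
  have hicR : IsIntegrallyClosed (integralClosure B L) :=
    integralClosure.isIntegrallyClosedOfFiniteExtension K
  have he0 : e ≠ 0 := by
    rintro rfl
    exact he (by simp)
  have hsB : IsIntegral B s := by
    refine ⟨X ^ e - C g, monic_X_pow_sub_C g he0, ?_⟩
    simp [hs]
  have hsR : IsIntegral (integralClosure B L) s := hsB.tower_top
  have hEuler := traceForm_dualSubmodule_adjoin (integralClosure B L) L htop hsR
  have hwdual : w ∈ (Algebra.traceForm L L').dualSubmodule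
      (Subalgebra.toSubmodule (Algebra.adjoin (integralClosure B L) {s})) := by
    rw [LinearMap.BilinForm.mem_dualSubmodule]
    intro y hy
    have hyR : IsIntegral (integralClosure B L) y := by
      have hle : Algebra.adjoin (integralClosure B L) {s} ≤ integralClosure (integralClosure B L) L' :=
        Algebra.adjoin_le (by
          intro z hz
          rw [Set.mem_singleton_iff] at hz
          subst hz
          exact hsR)
      exact hle hy
    have hyB : IsIntegral B y := isIntegral_trans y hyR
    rw [Algebra.traceForm_apply, Submodule.mem_one]
    exact ⟨⟨_, hwtr y hyB⟩, rfl⟩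
  rw [hEuler] at hwdual
  have hder0 : aeval s (derivative (minpoly L s)) ≠ 0 :=
    (Algebra.IsSeparable.isSeparable L s).aeval_derivative_ne_zero (minpoly.aeval _ _)
  -- `f'(s) * w` lies in `R[s]`, hence is integral
  have hfw : IsIntegral B (aeval s (derivative (minpoly L s)) * w) := by
    obtain ⟨v, hv, hvw⟩ := (Submodule.mem_smul_pointwise_iff_exists _ _ _).mp hwdual
    have hvR : IsIntegral (integralClosure B L) v := by
      have hle : Algebra.adjoin (integralClosure B L) {s} ≤ integralClosure (integralClosure B L) L' :=
        Algebra.adjoin_le (by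
          intro z hz
          rw [Set.mem_singleton_iff] at hz
          subst hz
          exact hsR)
      exact hle hv
    have : aeval s (derivative (minpoly L s)) * w = v := by
      rw [← hvw, smul_eq_mul, mul_inv_cancel_left₀ hder0]
    rw [this]
    exact isIntegral_trans v hvR
  -- (6) `minpoly R s ∣ X ^ e - g`, so `e s^(e-1) = f'(s) * q(s)` with `q(s)` integral
  have hdvd : minpoly (integralClosure B L) s ∣
      (X ^ e - C (algebraMap B (integralClosure B L) g) : (integralClosure B L)[X]) := by
    apply minpoly.isIntegrallyClosed_dvd hsR
    simp only [map_sub, map_pow, aeval_X, aeval_C]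
    rw [← IsScalarTower.algebraMap_apply B (integralClosure B L) L', hs, sub_self]
  obtain ⟨q, hq⟩ := hdvd
  have hminmap : minpoly L s = (minpoly (integralClosure B L) s).map
      (algebraMap (integralClosure B L) L) :=
    minpoly.isIntegrallyClosed_eq_field_fractions' L hsR
  have hderiv : (e : L') * s ^ (e - 1) = aeval s (derivative (minpoly L s)) * aeval s q := by
    have h3 := congrArg (fun P => aeval s (derivative P)) hq
    simp only [derivative_sub, derivative_X_pow, derivative_C, sub_zero, derivative_mul, map_add,
      map_mul, minpoly.aeval, zero_mul, add_zero, map_natCast, map_pow, aeval_X] at h3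
    rw [hminmap, derivative_map, aeval_map_algebraMap]
    exact h3
  have hqint : IsIntegral B (aeval s q) := by
    have hqR : IsIntegral (integralClosure B L) (aeval s q) := by
      have hle : Algebra.adjoin (integralClosure B L) {s} ≤ integralClosure (integralClosure B L) L' :=
        Algebra.adjoin_le (by
          intro z hz
          rw [Set.mem_singleton_iff] at hz
          subst hz
          exact hsR)
      exact hle (aeval_mem_adjoin_singleton _ _)
    exact isIntegral_trans _ hqR
  refine ⟨(e : B) * g * a, ?_, ?_⟩
  · intro hmem
    rcases (Ideal.IsPrime.mem_or_mem inferInstance hmem) with h' | h'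
    · rcases (Ideal.IsPrime.mem_or_mem inferInstance h') with h'' | h''
      · exact he h''
      · exact hg h''
    · exact hap h'
  · have hkey : algebraMap B L' ((e : B) * g * a) * x =
        s * (aeval s q * (aeval s (derivative (minpoly L s)) * w)) := by
      have hse : s * s ^ (e - 1) = algebraMap B L' g := by
        rw [← pow_succ', Nat.sub_add_cancel (Nat.one_le_iff_ne_zero.mpr he0), hs]
      calc algebraMap B L' ((e : B) * g * a) * x
          = (e : L') * algebraMap B L' g * w := by
            rw [hw, map_mul, map_mul, map_natCast]; ring
        _ = s * ((e : L') * s ^ (e - 1) * w) := by rw [← hse]; ring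
        _ = s * (aeval s q * (aeval s (derivative (minpoly L s)) * w)) := by rw [hderiv]; ring
    rw [hkey]
    exact hsB.mul (hqint.mul hfw)

end Tower

section Adapters

/-- **Discriminant form implies trace-dual form.**  An integral tuple of `[L : K]` elements
whose discriminant lies outside `p` witnesses `UnrAt B K L p`. -/
theorem unrAt_of_discr {B K L : Type*} [CommRing B] [IsDomain B] [IsIntegrallyClosed B]
    [Field K] [Algebra B K] [IsFractionRing B K] [Field L] [Algebra K L] [Algebra B L]
    [IsScalarTower B K L] [FiniteDimensional K L] [Algebra.IsSeparable K L]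
    (p : Ideal B) {ι : Type*} [Fintype ι] [DecidableEq ι] (b : ι → L)
    (hb : ∀ i, IsIntegral B (b i)) (hcard : Fintype.card ι = Module.finrank K L)
    (d : B) (hd : Algebra.discr K b = algebraMap B K d) (hdp : d ∉ p) : UnrAt B K L p := by
  have hd0 : d ≠ 0 := fun h => hdp (h ▸ p.zero_mem)
  have hdK : Algebra.discr K b ≠ 0 := by
    rw [hd]
    exact fun h => hd0 (IsFractionRing.injective B K (h.trans (map_zero _).symm))
  have hli : LinearIndependent K b := by
    by_contra hli
    exact hdK (Algebra.discr_zero_of_not_linearIndependent K hli)
  have hne : Nonempty ι := by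
    rw [← Fintype.card_pos_iff, hcard]
    exact Module.finrank_pos
  let bb : Module.Basis ι K L := basisOfLinearIndependentOfCardEqFinrank hli hcard
  have hbb : ∀ i, bb i = b i := fun i => by
    simp [bb]
  intro x hx
  refine ⟨d, hdp, ?_⟩
  have hxd : x ∈ Submodule.traceDual B K (1 : Submodule (integralClosure B L) L) := by
    rw [Submodule.mem_traceDual]
    intro a ha
    obtain ⟨r, rfl⟩ := Submodule.mem_one.mp ha
    have hr : IsIntegral B (algebraMap (integralClosure B L) L r) := r.2
    exact IsIntegrallyClosed.isIntegral_iff.mp (hx _ hr)
  have h1 : (1 : L) ∈ (1 : Submodule (integralClosure B L) L) := Submodule.one_le.mp le_rfl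
  have key := isIntegral_discr_mul_of_mem_traceDual (A := B) (K := K) (L := L)
    (B := integralClosure B L) (1 : Submodule (integralClosure B L) L) (b := bb)
    (fun i => by rw [hbb]; exact hb i) h1 hxd
  have hbbfun : (bb : ι → L) = b := funext hbb
  rw [hbbfun, hd, Algebra.smul_def, mul_one, ← IsScalarTower.algebraMap_apply] at key
  exact key

/-- **Localisation adapter.**  If `O` is a localisation of `B` and the integral closure of `O`
is unramified at a prime `P` of `O`, then the integral closure of `B` is unramified at the
contraction of `P`. -/
theorem unrAt_of_isLocalization {B O K L : Type*} [CommRing B] [CommRing O] [Algebra B O]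
    (M : Submonoid B) [IsLocalization M O] [Field K] [Field L] [Algebra B K] [Algebra O K]
    [IsScalarTower B O K] [Algebra K L] [Algebra B L] [Algebra O L] [IsScalarTower B O L]
    [IsScalarTower B K L]
    (P : Ideal O) [P.IsPrime] (h : UnrAt O K L P) :
    UnrAt B K L (P.comap (algebraMap B O)) := by
  intro x hx
  have hxO : ∀ y : L, IsIntegral O y → IsIntegral O (Algebra.trace K L (x * y)) := by
    intro y hy
    obtain ⟨m, hm⟩ := IsIntegral.exists_multiple_integral_of_isLocalization M y hy
    have h1 := hx _ hm
    have h2 : Algebra.trace K L (x * (m • y)) =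
        algebraMap B K (m : B) * Algebra.trace K L (x * y) := by
      rw [Submonoid.smul_def, Algebra.smul_def, IsScalarTower.algebraMap_apply B K L,
        ← mul_assoc, mul_comm x, mul_assoc, ← Algebra.smul_def, map_smul, smul_eq_mul]
    rw [h2] at h1
    have h3 : IsIntegral O (algebraMap B K (m : B) * Algebra.trace K L (x * y)) := h1.tower_top
    obtain ⟨u, hu⟩ := (IsLocalization.map_units O m).exists_left_inv
    have h4 : Algebra.trace K L (x * y) =
        algebraMap O K u * (algebraMap B K (m : B) * Algebra.trace K L (x * y)) := by
      rw [← mul_assoc, IsScalarTower.algebraMap_apply B O K, ← map_mul, hu, map_one, one_mul]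
    rw [h4]
    exact isIntegral_algebraMap.mul h3
  obtain ⟨a, haP, ha⟩ := h x hxO
  obtain ⟨⟨b, m1⟩, hbm⟩ := IsLocalization.surj M a
  simp only at hbm
  have h5 : IsIntegral O (algebraMap B L b * x) := by
    have : algebraMap B L b * x = algebraMap O L (algebraMap B O (m1 : B)) * (algebraMap O L a * x) := by
      rw [← mul_assoc, ← map_mul, mul_comm _ a, hbm, ← IsScalarTower.algebraMap_apply]
    rw [this]
    exact isIntegral_algebraMap.mul ha
  obtain ⟨m2, hm2⟩ := IsIntegral.exists_multiple_integral_of_isLocalization M _ h5
  refine ⟨(m2 : B) * b, ?_, ?_⟩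
  · rw [Ideal.mem_comap, map_mul]
    intro hmem
    have hb : algebraMap B O b ∈ P := by
      rcases Ideal.IsPrime.mem_or_mem inferInstance hmem with h' | h'
      · exact absurd (P.eq_top_of_isUnit_mem h' (IsLocalization.map_units O m2))
          (Ideal.IsPrime.ne_top inferInstance)
      · exact h'
    rw [← hbm] at hb
    rcases Ideal.IsPrime.mem_or_mem inferInstance hb with h' | h'
    · exact haP h'
    · exact absurd (P.eq_top_of_isUnit_mem h' (IsLocalization.map_units O m1))
        (Ideal.IsPrime.ne_top inferInstance)
  · rw [map_mul, mul_assoc, ← Algebra.smul_def]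
    exact hm2

end Adapters

end Fermat.Agent.S18.helper2636
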