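import Mathlib
import Fermat.Agent.S16.helper903_DeuringCore

/-!
# S18, track T1: purity in dimension two (helper3881)

Pure commutative algebra, no modular forms.
-/

namespace Fermat.Agent.S18.helper3881

open IsLocalRing TensorProduct
open scoped Matrix

/-- (P1) A finitely presented module over a local ring whose maximal ideal is generated by an
`M`-regular sequence `lam, g` is free. -/
theorem free_of_regular_pair {B M : Type*} [CommRing B] [IsLocalRing B] [AddCommGroup M]
    [Module B M] [Module.FinitePresentation B M] (lam g : B)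
    (hm : maximalIdeal B = Ideal.span {lam, g})
    (hlam : ∀ x : M, lam • x = 0 → x = 0)
    (hg : ∀ x y : M, g • x = lam • y → ∃ z : M, x = lam • z) : Module.Free B M := by
  apply Module.free_of_maximalIdeal_rTensor_injective
  have hlm : lam ∈ maximalIdeal B := by rw [hm]; exact Ideal.subset_span (by simp)
  have hgm : g ∈ maximalIdeal B := by rw [hm]; exact Ideal.subset_span (by simp)
  have key : ∀ t : maximalIdeal B ⊗[B] M, ∃ x y : M,
      t = (⟨lam, hlm⟩ : maximalIdeal B) ⊗ₜ[B] x + (⟨g, hgm⟩ : maximalIdeal B) ⊗ₜ[B] y := by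
    intro t
    induction t using TensorProduct.induction_on with
    | zero => exact ⟨0, 0, by simp⟩
    | tmul a x =>
      obtain ⟨a, ha⟩ := a
      have ha' := ha
      rw [hm, Ideal.mem_span_pair] at ha'
      obtain ⟨c, d, hcd⟩ := ha'
      refine ⟨c • x, d • x, ?_⟩
      have : (⟨a, ha⟩ : maximalIdeal B) =
          c • (⟨lam, hlm⟩ : maximalIdeal B) + d • (⟨g, hgm⟩ : maximalIdeal B) := by
        ext; simp [← hcd]
      rw [this, TensorProduct.add_tmul, TensorProduct.smul_tmul, TensorProduct.smul_tmul]
    | add t s ht hs =>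
      obtain ⟨x, y, rfl⟩ := ht
      obtain ⟨x', y', rfl⟩ := hs
      refine ⟨x + x', y + y', ?_⟩
      simp only [TensorProduct.tmul_add]
      abel
  rw [injective_iff_map_eq_zero]
  intro t ht
  obtain ⟨x, y, rfl⟩ := key t
  have h0 : lam • x + g • y = 0 := by
    have := congrArg (TensorProduct.lid B M) ht
    simpa using this
  obtain ⟨z, hz⟩ := hg y (-x) (by rw [smul_neg]; exact eq_neg_of_add_eq_zero_right h0)
  have hx : x = -(g • z) := by
    apply eq_neg_of_add_eq_zero_left
    apply hlam
    rw [smul_add, smul_smul, mul_comm, ← smul_smul, ← hz]; exact h0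
  rw [hx, hz]
  rw [TensorProduct.tmul_neg, ← TensorProduct.smul_tmul, ← TensorProduct.smul_tmul]
  have : g • (⟨lam, hlm⟩ : maximalIdeal B) = lam • (⟨g, hgm⟩ : maximalIdeal B) := by
    ext; simp [mul_comm]
  rw [this]; simp


/-- A noetherian local ring whose maximal ideal is generated by a non-zero-divisor is a
domain. -/
theorem isDomain_of_maximalIdeal_eq_span {S : Type*} [CommRing S] [IsNoetherianRing S]
    [IsLocalRing S] (π : S) (hπ : maximalIdeal S = Ideal.span {π})
    (hreg : ∀ x : S, π * x = 0 → x = 0) : IsDomain S := by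
  have hpow : ∀ k : ℕ, ∀ x : S, π ^ k * x = 0 → x = 0 := by
    intro k
    induction k with
    | zero => intro x hx; simpa using hx
    | succ k ih =>
      intro x hx
      apply ih
      apply hreg
      rw [← mul_assoc, ← pow_succ']
      exact hx
  have hK : ⨅ i : ℕ, (maximalIdeal S) ^ i = ⊥ :=
    Ideal.iInf_pow_eq_bot_of_isLocalRing _ (IsLocalRing.maximalIdeal.isMaximal S).ne_top
  have key : ∀ x : S, x ≠ 0 → ∃ (k : ℕ) (u : S), IsUnit u ∧ x = π ^ k * u := by
    intro x hx
    have hex : ∃ k : ℕ, x ∉ (maximalIdeal S) ^ k := by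
      by_contra hcon
      push Not at hcon
      apply hx
      have : x ∈ ⨅ i : ℕ, (maximalIdeal S) ^ i := by
        rw [Ideal.mem_iInf]
        exact hcon
      rwa [hK] at this
    classical
    have hk : x ∉ maximalIdeal S ^ Nat.find hex := Nat.find_spec hex
    have hk0 : Nat.find hex ≠ 0 := by
      intro h0
      rw [h0, pow_zero, Ideal.one_eq_top] at hk
      exact hk trivial
    obtain ⟨j, hj⟩ := Nat.exists_eq_succ_of_ne_zero hk0
    have hxj : x ∈ maximalIdeal S ^ j := by
      by_contra hc
      exact Nat.find_min hex (by omega : j < Nat.find hex) hc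
    rw [hπ, Ideal.span_singleton_pow, Ideal.mem_span_singleton] at hxj
    obtain ⟨u, hu⟩ := hxj
    refine ⟨j, u, ?_, hu⟩
    by_contra hnu
    have hum : u ∈ maximalIdeal S := hnu
    rw [hπ, Ideal.mem_span_singleton] at hum
    obtain ⟨v, rfl⟩ := hum
    apply hk
    rw [hj, hπ, Ideal.span_singleton_pow, Ideal.mem_span_singleton, hu]
    exact ⟨v, by rw [Nat.succ_eq_add_one, pow_succ]; ring⟩
  have : NoZeroDivisors S := ⟨by
    intro a b hab
    by_contra hcon
    push Not at hcon
    obtain ⟨k, u, hu, rfl⟩ := key a hcon.1
    obtain ⟨l, v, hv, rfl⟩ := key b hcon.2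
    have h1 : π ^ (k + l) * (u * v) = 0 := by
      rw [← hab]
      ring
    exact (hu.mul hv).ne_zero (hpow _ _ h1)⟩
  exact NoZeroDivisors.to_isDomain S

section IntegralClosure

variable (B K : Type*) [CommRing B] [Field K] [Algebra B K] [IsFractionRing B K]
variable (L : Type*) [Field L] (R : Type*) [CommRing R]
variable [Algebra K L] [Algebra B L] [IsScalarTower B K L]
variable [Algebra R L] [IsIntegralClosure R B L] [Algebra B R] [IsScalarTower B R L]
variable [IsDomain B] [IsIntegrallyClosed B] [IsNoetherianRing B] [IsLocalRing B]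
variable [FiniteDimensional K L] [Algebra.IsSeparable K L]

include K L in
/-- (P2) The integral closure of a two-dimensional "regular" local normal domain in a finite
separable extension is a free module. -/
theorem free_integralClosure (lam g : B) (hlam : Prime lam) (hlg : ¬ lam ∣ g)
    (hm : maximalIdeal B = Ideal.span {lam, g}) : Module.Free B R := by
  have hfin : Module.Finite B R := IsIntegralClosure.finite B K L R
  have : Module.FinitePresentation B R := Module.finitePresentation_of_finite B R
  have hBL : Function.Injective (algebraMap B L) := by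
    rw [IsScalarTower.algebraMap_eq B K L]
    exact (algebraMap K L).injective.comp (IsFractionRing.injective B K)
  have hRL : Function.Injective (algebraMap R L) := IsIntegralClosure.algebraMap_injective R B L
  have : FaithfulSMul B L := (faithfulSMul_iff_algebraMap_injective B L).2 hBL
  refine free_of_regular_pair lam g hm ?_ ?_
  · intro x hx
    apply hRL
    have := congrArg (algebraMap R L) hx
    rw [Algebra.smul_def, map_mul, ← IsScalarTower.algebraMap_apply, map_zero] at this
    rcases mul_eq_zero.1 this with h | h
    · exact absurd (hBL (h.trans (map_zero _).symm)) hlam.ne_zero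
    · rw [h, map_zero]
  · intro x y hxy
    have h := congrArg (algebraMap R L) hxy
    rw [Algebra.smul_def, Algebra.smul_def, map_mul, map_mul, ← IsScalarTower.algebraMap_apply,
      ← IsScalarTower.algebraMap_apply] at h
    have hx : IsIntegral B (algebraMap R L x) := IsIntegralClosure.isIntegral_iff.mpr ⟨x, rfl⟩
    have hy : IsIntegral B (algebraMap R L y) := IsIntegralClosure.isIntegral_iff.mpr ⟨y, rfl⟩
    obtain ⟨w, hw, hxw⟩ := Fermat.Agent.S16.helper903.isIntegral_div_prime_pow hlam hlg 1
      hx hy (by rw [pow_one]; exact h)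
    refine ⟨IsIntegralClosure.mk' R w hw, hRL ?_⟩
    rw [Algebra.smul_def, map_mul, IsIntegralClosure.algebraMap_mk',
      ← IsScalarTower.algebraMap_apply, hxw, pow_one]

omit [IsLocalRing B] in
include K L in
/-- The discriminant over `B` of a family in the (free) integral closure is the discriminant
over `K` of its image in `L`. -/
theorem algebraMap_discr [Module.Free B R] {ι : Type*} [Fintype ι] [DecidableEq ι] (b : ι → R) :
    algebraMap B K (Algebra.discr B b) = Algebra.discr K (fun i => algebraMap R L (b i)) := by
  have hfin : Module.Finite B R := IsIntegralClosure.finite B K L R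
  have hloc : IsLocalization (Algebra.algebraMapSubmonoid R (nonZeroDivisors B)) L :=
    IsIntegralClosure.isLocalization B K L R
  rw [Algebra.discr_def, Algebra.discr_def, RingHom.map_det]
  congr 1
  ext i j
  simp only [RingHom.mapMatrix_apply, Matrix.map_apply, Algebra.traceMatrix_apply,
    Algebra.traceForm_apply]
  rw [← map_mul]
  exact (Algebra.trace_localization B (nonZeroDivisors B) (b i * b j)).symm

omit [IsLocalRing B] in
include K L in
theorem finrank_integralClosure [Module.Free B R] :
    Module.finrank B R = Module.finrank K L := by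
  have hfin : Module.Finite B R := IsIntegralClosure.finite B K L R
  have hloc : IsLocalization (Algebra.algebraMapSubmonoid R (nonZeroDivisors B)) L :=
    IsIntegralClosure.isLocalization B K L R
  let b := Module.Basis.localizationLocalization K (nonZeroDivisors B) L
    (Module.Free.chooseBasis B R)
  rw [Module.finrank_eq_card_chooseBasisIndex, Module.finrank_eq_card_basis b]

/-- The unramifiedness hypothesis in codimension one, in discriminant form: every prime of `B`
minimal over a nonzero principal ideal misses the discriminant of some `n`-tuple of integral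
elements. -/
def UnramifiedCodimOne : Prop :=
  ∀ (a : B) (𝔭 : Ideal B), a ≠ 0 → 𝔭 ∈ (Ideal.span {a}).minimalPrimes →
    ∃ (b : Fin (Module.finrank K L) → R) (d : B),
      algebraMap B K d = Algebra.discr K (fun i => algebraMap R L (b i)) ∧ d ∉ 𝔭

include K L in
/-- (P3) Under `UnramifiedCodimOne`, every `B`-basis of the integral closure has unit
discriminant. -/
theorem isUnit_discr (hunr : UnramifiedCodimOne B K L R)
    {ι : Type*} [Fintype ι] [DecidableEq ι] (e : Module.Basis ι B R) :
    IsUnit (Algebra.discr B e) := by
  have hfree : Module.Free B R := Module.Free.of_basis e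
  have hfin : Module.Finite B R := IsIntegralClosure.finite B K L R
  have hloc : IsLocalization (Algebra.algebraMapSubmonoid R (nonZeroDivisors B)) L :=
    IsIntegralClosure.isLocalization B K L R
  have hBK : Function.Injective (algebraMap B K) := IsFractionRing.injective B K
  have hd0 : Algebra.discr B e ≠ 0 := by
    intro h0
    have h1 := Algebra.discr_localizationLocalization B (nonZeroDivisors B) L (Rₘ := K) e
    rw [h0, map_zero] at h1
    exact Algebra.discr_not_zero_of_basis K _ h1
  by_contra hnu
  have hmem : Algebra.discr B e ∈ maximalIdeal B := hnu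
  obtain ⟨𝔭, h𝔭, -⟩ := Ideal.exists_minimalPrimes_le
    (I := Ideal.span {Algebra.discr B e}) (J := maximalIdeal B)
    ((Ideal.span_singleton_le_iff_mem _).2 hmem)
  obtain ⟨b, d, hd, hd𝔭⟩ := hunr _ 𝔭 hd0 h𝔭
  apply hd𝔭
  have hcard : Fintype.card ι = Module.finrank K L := by
    rw [← finrank_integralClosure B K L R, Module.finrank_eq_card_basis e]
  let f : ι ≃ Fin (Module.finrank K L) := Fintype.equivFinOfCardEq hcard
  let e' : Module.Basis (Fin (Module.finrank K L)) B R := e.reindex f
  have he' : Algebra.discr B e' = Algebra.discr B e := by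
    have := Algebra.discr_reindex B e f
    rwa [← Module.Basis.coe_reindex] at this
  let P : Matrix (Fin (Module.finrank K L)) (Fin (Module.finrank K L)) B :=
    fun i j => e'.repr (b i) j
  have hb : b = P.map (algebraMap B R) *ᵥ ⇑e' := by
    funext i
    conv_lhs => rw [← e'.sum_repr (b i)]
    simp only [Matrix.mulVec, dotProduct, Matrix.map_apply, P, Algebra.smul_def]
  have hdb : d = Algebra.discr B b := by
    apply hBK
    rw [hd, algebraMap_discr B K L R b]
  rw [hdb, hb, Algebra.discr_of_matrix_mulVec, he']
  exact Ideal.mul_mem_left _ _ (h𝔭.1.2 (Ideal.mem_span_singleton_self _))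


section Reduced

attribute [local instance] Ideal.Quotient.field

include K L in
/-- (P4) Under `UnramifiedCodimOne` the closed fibre `R / 𝔪 R` is reduced. -/
theorem isReduced_quotient (lam g : B) (hlam : Prime lam) (hlg : ¬ lam ∣ g)
    (hm : maximalIdeal B = Ideal.span {lam, g}) (hunr : UnramifiedCodimOne B K L R) :
    IsReduced (R ⧸ (maximalIdeal B).map (algebraMap B R)) := by
  have hfree : Module.Free B R := free_integralClosure B K L R lam g hlam hlg hm
  have hfin : Module.Finite B R := IsIntegralClosure.finite B K L R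
  classical
  let e := Module.Free.chooseBasis B R
  have hu := isUnit_discr B K L R hunr e
  let ē := IsLocalRing.basisQuotient e
  have hd : Algebra.discr (B ⧸ maximalIdeal B) ē ≠ 0 := by
    have h1 : Algebra.traceMatrix (B ⧸ maximalIdeal B) ē =
        (Ideal.Quotient.mk (maximalIdeal B)).mapMatrix (Algebra.traceMatrix B e) := by
      ext i j
      simp only [Algebra.traceMatrix_apply, Algebra.traceForm_apply, RingHom.mapMatrix_apply,
        Matrix.map_apply, ē, IsLocalRing.basisQuotient_apply, ← map_mul]
      exact Algebra.trace_quotient_mk _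
    rw [Algebra.discr_def, h1, ← RingHom.map_det, ← Algebra.discr_def]
    exact (hu.map _).ne_zero
  have hnd : (Algebra.traceForm (B ⧸ maximalIdeal B)
      (R ⧸ (maximalIdeal B).map (algebraMap B R))).Nondegenerate := by
    apply LinearMap.BilinForm.nondegenerate_of_det_ne_zero _ ē
    rw [← Algebra.traceMatrix_of_basis]
    exact hd
  refine ⟨fun x hx => ?_⟩
  apply hnd.1 x
  intro y
  rw [Algebra.traceForm_apply]
  exact (Algebra.isNilpotent_trace_of_isNilpotent
    ((Commute.all x y).isNilpotent_mul_right hx)).eq_zero

include K L in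
/-- (P4') For every maximal ideal `n` of `R` there is `s ∉ n` with `s * n ⊆ 𝔪 R`:
locally at `n`, the maximal ideal is generated by the maximal ideal of `B`. -/
theorem exists_notMem_mul_mem (lam g : B) (hlam : Prime lam) (hlg : ¬ lam ∣ g)
    (hm : maximalIdeal B = Ideal.span {lam, g}) (hunr : UnramifiedCodimOne B K L R)
    (n : Ideal R) [hn : n.IsMaximal] :
    ∃ s : R, s ∉ n ∧ ∀ x ∈ n, s * x ∈ (maximalIdeal B).map (algebraMap B R) := by
  have hfin : Module.Finite B R := IsIntegralClosure.finite B K L R
  have hint : Algebra.IsIntegral B R := IsIntegralClosure.isIntegral_algebra B L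
  set I := (maximalIdeal B).map (algebraMap B R) with hI
  have hIn : I ≤ n := by
    rw [hI, Ideal.map_le_iff_le_comap]
    have : (n.comap (algebraMap B R)).IsMaximal :=
      Ideal.isMaximal_comap_of_isIntegral_of_isMaximal n
    rw [IsLocalRing.eq_maximalIdeal this]
  have hred : IsReduced (R ⧸ I) := isReduced_quotient B K L R lam g hlam hlg hm hunr
  have hfinq : Module.Finite (B ⧸ maximalIdeal B) (R ⧸ I) :=
    Module.Finite.of_restrictScalars_finite B _ _
  have hart : IsArtinianRing (R ⧸ I) := IsArtinianRing.of_finite (B ⧸ maximalIdeal B) (R ⧸ I)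
  let φ : R ⧸ I →+* R ⧸ n := Ideal.Quotient.factor hIn
  have hφ : Function.Surjective φ := by
    intro y
    obtain ⟨x, rfl⟩ := Ideal.Quotient.mk_surjective y
    exact ⟨Ideal.Quotient.mk I x, Ideal.Quotient.factor_mk hIn x⟩
  have hker : (RingHom.ker φ).IsMaximal := RingHom.ker_isMaximal_of_surjective φ hφ
  classical
  let I₀ : MaximalSpectrum (R ⧸ I) := ⟨RingHom.ker φ, hker⟩
  let E := IsArtinianRing.equivPi (R ⧸ I)
  let sb : R ⧸ I := E.symm (Pi.single I₀ 1)
  have hsb : E sb = Pi.single I₀ 1 := E.apply_symm_apply _
  obtain ⟨s, hs⟩ := Ideal.Quotient.mk_surjective sb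
  refine ⟨s, ?_, ?_⟩
  · intro hsn
    have h1 : sb ∈ RingHom.ker φ := by
      rw [RingHom.mem_ker, ← hs]
      show Ideal.Quotient.factor hIn (Ideal.Quotient.mk I s) = 0
      rw [Ideal.Quotient.factor_mk, Ideal.Quotient.eq_zero_iff_mem]
      exact hsn
    have h2 : E sb I₀ = 0 := by
      rw [IsArtinianRing.equivPi_apply]
      exact Ideal.Quotient.eq_zero_iff_mem.2 h1
    rw [hsb, Pi.single_eq_same] at h2
    exact one_ne_zero h2
  · intro x hx
    rw [← Ideal.Quotient.eq_zero_iff_mem, map_mul, hs]
    apply E.injective
    rw [map_mul, hsb, map_zero]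
    funext J
    by_cases hJ : J = I₀
    · subst hJ
      rw [Pi.mul_apply, Pi.single_eq_same, one_mul, IsArtinianRing.equivPi_apply]
      apply Ideal.Quotient.eq_zero_iff_mem.2
      show Ideal.Quotient.mk I x ∈ RingHom.ker φ
      rw [RingHom.mem_ker]
      show Ideal.Quotient.factor hIn (Ideal.Quotient.mk I x) = 0
      rw [Ideal.Quotient.factor_mk, Ideal.Quotient.eq_zero_iff_mem]
      exact hx
    · rw [Pi.mul_apply, Pi.single_eq_of_ne hJ, zero_mul]
      rfl

end Reduced

section Local

omit [IsNoetherianRing B] [IsLocalRing B] [FiniteDimensional K L] [Algebra.IsSeparable K L] in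
include K L in
/-- `lam, g` is a regular sequence on the integral closure (helper903's brick, ring form). -/
theorem regular_pair (lam g : B) (hlam : Prime lam) (hlg : ¬ lam ∣ g) (x y : R)
    (hxy : algebraMap B R g * x = algebraMap B R lam * y) :
    ∃ z : R, x = algebraMap B R lam * z := by
  have hBL : Function.Injective (algebraMap B L) := by
    rw [IsScalarTower.algebraMap_eq B K L]
    exact (algebraMap K L).injective.comp (IsFractionRing.injective B K)
  have hRL : Function.Injective (algebraMap R L) := IsIntegralClosure.algebraMap_injective R B L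
  have : FaithfulSMul B L := (faithfulSMul_iff_algebraMap_injective B L).2 hBL
  have h := congrArg (algebraMap R L) hxy
  rw [map_mul, map_mul, ← IsScalarTower.algebraMap_apply, ← IsScalarTower.algebraMap_apply] at h
  have hx : IsIntegral B (algebraMap R L x) := IsIntegralClosure.isIntegral_iff.mpr ⟨x, rfl⟩
  have hy : IsIntegral B (algebraMap R L y) := IsIntegralClosure.isIntegral_iff.mpr ⟨y, rfl⟩
  obtain ⟨w, hw, hxw⟩ := Fermat.Agent.S16.helper903.isIntegral_div_prime_pow hlam hlg 1
    hx hy (by rw [pow_one]; exact h)
  refine ⟨IsIntegralClosure.mk' R w hw, hRL ?_⟩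
  rw [map_mul, IsIntegralClosure.algebraMap_mk', ← IsScalarTower.algebraMap_apply, hxw, pow_one]

include K L in
/-- (P5) Under `UnramifiedCodimOne`, for every maximal ideal `n` of `R` the element `lam`
generates a prime ideal of the local ring `R_n`: the special fibre `lam = 0` is (locally)
irreducible and reduced at every closed point. -/
theorem isPrime_span_localization (lam g : B) (hlam : Prime lam) (hlg : ¬ lam ∣ g)
    (hm : maximalIdeal B = Ideal.span {lam, g}) (hunr : UnramifiedCodimOne B K L R)
    (n : Ideal R) [hn : n.IsMaximal] :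
    (Ideal.span {algebraMap R (Localization.AtPrime n) (algebraMap B R lam)}).IsPrime := by
  have hRL : Function.Injective (algebraMap R L) := IsIntegralClosure.algebraMap_injective R B L
  have hdom : IsDomain R := hRL.isDomain (algebraMap R L)
  have hnoeth : IsNoetherianRing R := IsIntegralClosure.isNoetherianRing B K L R
  have hint : Algebra.IsIntegral B R := IsIntegralClosure.isIntegral_algebra B L
  have hnR : IsNoetherianRing (Localization.AtPrime n) :=
    IsLocalization.isNoetherianRing n.primeCompl _ hnoeth
  have hinj : Function.Injective (algebraMap R (Localization.AtPrime n)) :=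
    IsLocalization.injective _ n.primeCompl_le_nonZeroDivisors
  set lamR := algebraMap B R lam with hlamR
  set gR := algebraMap B R g with hgR
  set lam' := algebraMap R (Localization.AtPrime n) lamR with hlam'
  set g' := algebraMap R (Localization.AtPrime n) gR with hg'
  have hIn : (maximalIdeal B).map (algebraMap B R) ≤ n := by
    rw [Ideal.map_le_iff_le_comap]
    have : (n.comap (algebraMap B R)).IsMaximal :=
      Ideal.isMaximal_comap_of_isIntegral_of_isMaximal n
    rw [IsLocalRing.eq_maximalIdeal this]
  have hIspan : (maximalIdeal B).map (algebraMap B R) = Ideal.span {lamR, gR} := by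
    rw [hm, Ideal.map_span, Set.image_pair]
  have hlamn : lamR ∈ n := hIn (by rw [hIspan]; exact Ideal.subset_span (by simp))
  have hgn : gR ∈ n := hIn (by rw [hIspan]; exact Ideal.subset_span (by simp))
  -- (i) the maximal ideal of `R_n` is `(lam', g')`
  have hmax : maximalIdeal (Localization.AtPrime n) = Ideal.span {lam', g'} := by
    rw [← Localization.AtPrime.map_eq_maximalIdeal]
    apply le_antisymm
    · rw [Ideal.map_le_iff_le_comap]
      intro x hx
      obtain ⟨s, hs, hsx⟩ := exists_notMem_mul_mem B K L R lam g hlam hlg hm hunr n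
      have h1 := hsx x hx
      rw [hIspan, Ideal.mem_span_pair] at h1
      obtain ⟨a, b, hab⟩ := h1
      have hu : IsUnit (algebraMap R (Localization.AtPrime n) s) :=
        IsLocalization.map_units _ (⟨s, hs⟩ : n.primeCompl)
      rw [Ideal.mem_comap, ← Ideal.unit_mul_mem_iff_mem _ hu, ← map_mul, ← hab, map_add, map_mul,
        map_mul]
      exact Ideal.add_mem _ (Ideal.mul_mem_left _ _ (Ideal.subset_span (Set.mem_insert _ _)))
        (Ideal.mul_mem_left _ _ (Ideal.subset_span (Set.mem_insert_of_mem _ rfl)))
    · rw [Ideal.span_le]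
      intro y hy
      rcases hy with rfl | rfl
      · exact Ideal.mem_map_of_mem _ hlamn
      · exact Ideal.mem_map_of_mem _ hgn
  set J : Ideal (Localization.AtPrime n) := Ideal.span {lam'} with hJ
  have hJle : J ≤ maximalIdeal (Localization.AtPrime n) := by
    rw [hmax, hJ]
    exact Ideal.span_mono (by simp)
  have hJtop : J ≠ ⊤ := fun h => (IsLocalRing.maximalIdeal.isMaximal _).ne_top
    (top_le_iff.1 (h ▸ hJle))
  have hnt : Nontrivial (Localization.AtPrime n ⧸ J) := Ideal.Quotient.nontrivial_iff.2 hJtop
  have hloc : IsLocalRing (Localization.AtPrime n ⧸ J) :=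
    IsLocalRing.of_surjective' (Ideal.Quotient.mk J) Ideal.Quotient.mk_surjective
  -- (ii) the maximal ideal of the quotient is generated by `g'`
  have hgnu : Ideal.Quotient.mk J g' ∈ maximalIdeal (Localization.AtPrime n ⧸ J) := by
    intro hu
    obtain ⟨c, hc⟩ := hu.exists_right_inv
    obtain ⟨c', rfl⟩ := Ideal.Quotient.mk_surjective c
    rw [← map_mul, ← map_one (Ideal.Quotient.mk J), Ideal.Quotient.eq] at hc
    have h1 : g' * c' - 1 ∈ maximalIdeal (Localization.AtPrime n) := hJle hc
    have h2 : g' * c' ∈ maximalIdeal (Localization.AtPrime n) := by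
      rw [hmax]
      exact Ideal.mul_mem_right _ _ (Ideal.subset_span (by simp))
    have h3 : (1 : Localization.AtPrime n) ∈ maximalIdeal (Localization.AtPrime n) := by
      have := Ideal.sub_mem _ h2 h1
      simp at this
    exact (IsLocalRing.maximalIdeal.isMaximal _).ne_top ((Ideal.eq_top_iff_one _).2 h3)
  have hmaxq : maximalIdeal (Localization.AtPrime n ⧸ J) =
      Ideal.span {Ideal.Quotient.mk J g'} := by
    apply le_antisymm
    · intro x hx
      obtain ⟨y, rfl⟩ := Ideal.Quotient.mk_surjective x
      have hy : y ∈ maximalIdeal (Localization.AtPrime n) := by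
        intro hu
        exact hx (hu.map _)
      rw [hmax, Ideal.mem_span_pair] at hy
      obtain ⟨a, b, rfl⟩ := hy
      rw [Ideal.mem_span_singleton]
      refine ⟨Ideal.Quotient.mk J b, ?_⟩
      rw [map_add, map_mul, map_mul]
      have : Ideal.Quotient.mk J lam' = 0 :=
        Ideal.Quotient.eq_zero_iff_mem.2 (Ideal.subset_span (by simp))
      rw [this, mul_zero, zero_add, mul_comm]
    · rw [Ideal.span_le]
      intro y hy
      rw [Set.mem_singleton_iff] at hy
      rw [hy]
      exact hgnu
  -- (iii) `g'` is a non-zero-divisor on the quotient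
  have hreg : ∀ x : Localization.AtPrime n ⧸ J, Ideal.Quotient.mk J g' * x = 0 → x = 0 := by
    intro x hx
    obtain ⟨y, rfl⟩ := Ideal.Quotient.mk_surjective x
    rw [← map_mul, Ideal.Quotient.eq_zero_iff_mem, hJ, Ideal.mem_span_singleton'] at hx
    obtain ⟨z, hz⟩ := hx
    obtain ⟨r, t, rfl⟩ := IsLocalization.exists_mk'_eq n.primeCompl y
    obtain ⟨r', t', rfl⟩ := IsLocalization.exists_mk'_eq n.primeCompl z
    have h1 : algebraMap R (Localization.AtPrime n) (gR * (r * t')) =
        algebraMap R (Localization.AtPrime n) (lamR * (r' * t)) := by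
      have e1 := IsLocalization.mk'_spec (Localization.AtPrime n) r t
      have e2 := IsLocalization.mk'_spec (Localization.AtPrime n) r' t'
      simp only [map_mul]
      rw [← e1, ← e2]
      linear_combination (-(algebraMap R (Localization.AtPrime n) t) *
        (algebraMap R (Localization.AtPrime n) t')) * hz
    have h2 := hinj h1
    obtain ⟨w, hw⟩ := regular_pair B K L R lam g hlam hlg (r * t') (r' * t) h2
    rw [Ideal.Quotient.eq_zero_iff_mem, hJ, Ideal.mem_span_singleton']
    have hut : IsUnit (algebraMap R (Localization.AtPrime n) t) := IsLocalization.map_units _ t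
    have hut' : IsUnit (algebraMap R (Localization.AtPrime n) t') := IsLocalization.map_units _ t'
    refine ⟨IsLocalization.mk' (Localization.AtPrime n) w (t * t'), ?_⟩
    apply (hut.mul hut').mul_left_cancel
    have e1 := IsLocalization.mk'_spec' (Localization.AtPrime n) r t
    have e3 := IsLocalization.mk'_spec' (Localization.AtPrime n) w (t * t')
    have e4 := congrArg (algebraMap R (Localization.AtPrime n)) hw
    simp only [map_mul, Submonoid.coe_mul] at e3 e4 ⊢
    linear_combination (algebraMap R (Localization.AtPrime n) lamR) * e3 + (-1 : Localization.AtPrime n) * e4 +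
      (- algebraMap R (Localization.AtPrime n) t') * e1
  have := isDomain_of_maximalIdeal_eq_span (Ideal.Quotient.mk J g') hmaxq hreg
  exact (Ideal.Quotient.isDomain_iff_prime J).1 this

include K L in
/-- (P5') Consumer form: under `UnramifiedCodimOne`, two primes of `R` lying over `(lam)` that
are not comaximal are equal, i.e. every closed point of the special fibre `lam = 0` lies on
exactly one of its components. -/
theorem eq_of_sup_ne_top (lam g : B) (hlam : Prime lam) (hlg : ¬ lam ∣ g)
    (hm : maximalIdeal B = Ideal.span {lam, g}) (hunr : UnramifiedCodimOne B K L R)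
    (Q Q' : Ideal R) [hQp : Q.IsPrime] [hQ'p : Q'.IsPrime]
    (hQ : Q.comap (algebraMap B R) = Ideal.span {lam})
    (hQ' : Q'.comap (algebraMap B R) = Ideal.span {lam}) (h : Q ⊔ Q' ≠ ⊤) : Q = Q' := by
  obtain ⟨n, hn, hle⟩ := Ideal.exists_le_maximal _ h
  have hRL : Function.Injective (algebraMap R L) := IsIntegralClosure.algebraMap_injective R B L
  have hdom : IsDomain R := hRL.isDomain (algebraMap R L)
  have hint : Algebra.IsIntegral B R := IsIntegralClosure.isIntegral_algebra B L
  have hinj : Function.Injective (algebraMap R (Localization.AtPrime n)) :=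
    IsLocalization.injective _ n.primeCompl_le_nonZeroDivisors
  have hP := isPrime_span_localization B K L R lam g hlam hlg hm hunr n
  set P : Ideal R := (Ideal.span {algebraMap R (Localization.AtPrime n)
    (algebraMap B R lam)}).comap (algebraMap R (Localization.AtPrime n)) with hPdef
  have hPprime : P.IsPrime := Ideal.comap_isPrime _ _
  have key : ∀ Q₁ : Ideal R, Q₁.IsPrime → Q₁.comap (algebraMap B R) = Ideal.span {lam} →
      Q₁ ≤ n → P = Q₁ := by
    intro Q₁ hQ₁ hc hQn
    have hlamQ : algebraMap B R lam ∈ Q₁ := by
      have : lam ∈ Q₁.comap (algebraMap B R) := by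
        rw [hc]
        exact Ideal.mem_span_singleton_self _
      exact this
    have hPQ : P ≤ Q₁ := by
      intro x hx
      rw [hPdef, Ideal.mem_comap, Ideal.mem_span_singleton'] at hx
      obtain ⟨z, hz⟩ := hx
      obtain ⟨r, t, rfl⟩ := IsLocalization.exists_mk'_eq n.primeCompl z
      have h1 : algebraMap R (Localization.AtPrime n) (r * algebraMap B R lam) =
          algebraMap R (Localization.AtPrime n) (t * x) := by
        have e1 := IsLocalization.mk'_spec' (Localization.AtPrime n) r t
        simp only [map_mul]
        rw [← e1, ← hz]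
        ring
      have h2 := hinj h1
      have h3 : (t : R) * x ∈ Q₁ := by
        rw [← h2]
        exact Ideal.mul_mem_left _ _ hlamQ
      rcases hQ₁.mem_or_mem h3 with h4 | h4
      · exact absurd (hQn h4) t.2
      · exact h4
    by_contra hne
    have hlt : P < Q₁ := lt_of_le_of_ne hPQ hne
    have hlt' := Ideal.IsIntegral.comap_lt_comap (R := B) hlt
    have hge : Q₁.comap (algebraMap B R) ≤ P.comap (algebraMap B R) := by
      rw [hc, Ideal.span_le]
      intro y hy
      rw [Set.mem_singleton_iff] at hy
      subst hy
      show algebraMap B R y ∈ P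
      rw [hPdef, Ideal.mem_comap]
      exact Ideal.mem_span_singleton_self _
    exact absurd hlt' (not_lt_of_ge hge)
  rw [← key Q hQp hQ (le_sup_left.trans hle), ← key Q' hQ'p hQ' (le_sup_right.trans hle)]

set_option linter.unusedSectionVars false in
omit [IsLocalRing B] in
include K L in
/-- Adapter: `UnramifiedCodimOne` from the same condition at all height-one primes
(Krull's principal ideal theorem). -/
theorem unramifiedCodimOne_of_height_one
    (h : ∀ 𝔭 : Ideal B, 𝔭.IsPrime → 𝔭.height = 1 →
      ∃ (b : Fin (Module.finrank K L) → R) (d : B),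
        algebraMap B K d = Algebra.discr K (fun i => algebraMap R L (b i)) ∧ d ∉ 𝔭) :
    UnramifiedCodimOne B K L R := by
  intro a 𝔭 ha h𝔭
  have hp : 𝔭.IsPrime := h𝔭.1.1
  have hpn : 𝔭 ≠ ⊥ := fun hb => ha <|
    Ideal.span_singleton_eq_bot.mp <| bot_unique (h𝔭.1.2.trans_eq hb)
  exact h 𝔭 hp <| le_antisymm
    (Ideal.height_le_one_of_isPrincipal_of_mem_minimalPrimes _ 𝔭 h𝔭)
    (by simpa [Order.one_le_iff_ne_zero])

set_option linter.unusedSectionVars false in
omit [IsLocalRing B] [IsNoetherianRing B] [IsIntegrallyClosed B] [FiniteDimensional K L]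
  [Algebra.IsSeparable K L] [IsFractionRing B K] in
include K L in
/-- Adapter: over a UFD it suffices to check the condition at prime elements. -/
theorem unramifiedCodimOne_of_prime_elements [UniqueFactorizationMonoid B]
    (h : ∀ π : B, Prime π →
      ∃ (b : Fin (Module.finrank K L) → R) (d : B),
        algebraMap B K d = Algebra.discr K (fun i => algebraMap R L (b i)) ∧ ¬ π ∣ d) :
    UnramifiedCodimOne B K L R := by
  intro a 𝔭 ha h𝔭
  have hp : 𝔭.IsPrime := h𝔭.1.1
  have ha𝔭 : a ∈ 𝔭 := h𝔭.1.2 (Ideal.mem_span_singleton_self a)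
  obtain ⟨f, hf, u, hfu⟩ := UniqueFactorizationMonoid.exists_prime_factors a ha
  have hprod : f.prod ∈ 𝔭 := by
    have : f.prod * (u : B) ∈ 𝔭 := hfu ▸ ha𝔭
    exact (Ideal.mul_unit_mem_iff_mem _ u.isUnit).1 this
  obtain ⟨π, hπf, hπ𝔭⟩ := (Ideal.IsPrime.multiset_prod_mem_iff_exists_mem hp f).1 hprod
  have hπ : Prime π := hf π hπf
  have hdvd : π ∣ a := by
    rw [← hfu]
    exact Dvd.dvd.mul_right (Multiset.dvd_prod hπf) _
  have hspan : (Ideal.span {π} : Ideal B).IsPrime :=
    (Ideal.span_singleton_prime hπ.ne_zero).2 hπ
  have hle : 𝔭 ≤ Ideal.span {π} :=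
    h𝔭.2 ⟨hspan, (Ideal.span_singleton_le_span_singleton).2 hdvd⟩
      ((Ideal.span_singleton_le_iff_mem _).2 hπ𝔭)
  obtain ⟨b, d, hd, hπd⟩ := h π hπ
  exact ⟨b, d, hd, fun hd𝔭 => hπd (Ideal.mem_span_singleton.1 (hle hd𝔭))⟩

end Local

end IntegralClosure

end Fermat.Agent.S18.helper3881
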