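import Fermat.Agent.S18.helper403_TGlobal
import Fermat.Agent.S18.helper3881_Purity

/-!
# S18, track B: descent of the one-component property along an integral extension
(helper3841)

The "one component through each closed point of the special fibre" property (the conclusion of
the purity leaf T1 and of the Abhyankar leaf T2, `helper403.OneComponent`) descends along **any**
integral extension `R ⊆ R'` of domains with `R` integrally closed, by going-down.  No group
action is needed: the auxiliary cover used at the closed point `j = 0 = 1728` of the special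
fibre for `ℓ = 2, 3` need not be Galois.

* `oneComponent_of_isIntegral` : `OneComponent R' x → OneComponent R x` (minimal-primes form).
* `eq_of_sup_ne_top_of_goingDown` : the same in "lying over `span {lam}`" form, relative to base
  rings `B → B'`.
* `oneComponent_of_purity_cover` : the composite used at a bad closed point: purity (T1,
  `helper3881.eq_of_sup_ne_top`) at a regular local ring `B'` of an auxiliary cover, for the
  integral closure `R'` of `B'` in the compositum, gives the one-component property of any
  integrally closed domain `R` of which `R'` is an integral extension.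

Pure commutative algebra, `Mathlib` only (plus the definition `helper403.OneComponent`).
-/

set_option autoImplicit false

namespace Fermat.Agent.S18.helper3841

open Ideal

section MinimalPrimes

variable {R R' : Type*} [CommRing R] [CommRing R'] [Algebra R R']

/-- A prime of an integral extension lying over a minimal prime over `x` is a minimal prime
over the image of `x`. -/
theorem mem_minimalPrimes_of_liesOver [Algebra.IsIntegral R R'] {x : R} {Q : Ideal R}
    (hQ : Q ∈ (span {x}).minimalPrimes) (Q' : Ideal R') [hQ'p : Q'.IsPrime]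
    (hQ' : Q'.comap (algebraMap R R') = Q) :
    Q' ∈ (span {algebraMap R R' x}).minimalPrimes := by
  have hxQ : x ∈ Q := hQ.1.2 (subset_span rfl)
  have hxQ' : algebraMap R R' x ∈ Q' := by
    have : x ∈ Q'.comap (algebraMap R R') := by rw [hQ']; exact hxQ
    exact this
  refine ⟨⟨hQ'p, (span_singleton_le_iff_mem _).2 hxQ'⟩, ?_⟩
  rintro P' ⟨hP'p, hP'x⟩ hP'le
  by_contra hnot
  have hlt : P' < Q' := lt_of_le_not_ge hP'le hnot
  have h1 : P'.comap (algebraMap R R') < Q'.comap (algebraMap R R') :=
    Ideal.IsIntegral.comap_lt_comap hlt
  have hxP : span {x} ≤ P'.comap (algebraMap R R') := by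
    rw [span_singleton_le_iff_mem]
    exact hP'x (subset_span rfl)
  have h2 : Q ≤ P'.comap (algebraMap R R') :=
    hQ.2 ⟨Ideal.comap_isPrime _ _, hxP⟩ (hQ' ▸ h1.le)
  exact absurd (hQ' ▸ h1) (not_lt_of_ge h2)

/-- **Descent of the one-component property by going-down.**  Let `R` be an integrally closed
domain and `R'` a domain which is an integral extension of `R`.  If `R'` has the one-component
property for (the image of) `x`, then so does `R`. -/
theorem oneComponent_of_isIntegral [IsDomain R] [IsIntegrallyClosed R] [IsDomain R']
    [FaithfulSMul R R'] [Algebra.IsIntegral R R'] (x : R)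
    (h : helper403.OneComponent R' (algebraMap R R' x)) : helper403.OneComponent R x := by
  intro Q1 Q2 hQ1 hQ2 hne
  have h1 : Q1.IsPrime := hQ1.1.1
  have h2 : Q2.IsPrime := hQ2.1.1
  obtain ⟨n, hn, hle⟩ := Ideal.exists_le_maximal _ hne
  have hker : RingHom.ker (algebraMap R R') ≤ n := by
    rw [(RingHom.injective_iff_ker_eq_bot _).mp (FaithfulSMul.algebraMap_injective R R')]
    exact bot_le
  obtain ⟨n', hn', hn'n⟩ := Ideal.exists_ideal_over_maximal_of_isIntegral n hker
  have hn'p : n'.IsPrime := hn'.isPrime
  have hn'o : n'.LiesOver n := ⟨hn'n.symm⟩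
  obtain ⟨Q1', hQ1'le, hQ1'p, hQ1'o⟩ :=
    Ideal.exists_ideal_le_liesOver_of_le (p := Q1) (q := n) n' (le_sup_left.trans hle)
  obtain ⟨Q2', hQ2'le, hQ2'p, hQ2'o⟩ :=
    Ideal.exists_ideal_le_liesOver_of_le (p := Q2) (q := n) n' (le_sup_right.trans hle)
  have hne' : Q1' ⊔ Q2' ≠ ⊤ := by
    intro htop
    exact hn'.ne_top (top_le_iff.mp (htop ▸ sup_le hQ1'le hQ2'le))
  have heq := h Q1' Q2' (mem_minimalPrimes_of_liesOver hQ1 Q1' hQ1'o.over.symm)
    (mem_minimalPrimes_of_liesOver hQ2 Q2' hQ2'o.over.symm) hne'
  rw [hQ1'o.over, hQ2'o.over, heq]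

end MinimalPrimes

section LiesOver

/-- **Descent in "lying over `span {lam}`" form** (the consumer form of the purity leaf T1).
`R` is an integrally closed domain, `R'` a domain which is an integral extension of `R`, over
base rings `B → B'`.  If the only prime of `B'` over `span {lam}` is `span {lam}`, and two
primes of `R'` lying over `span {lam}` of `B'` and contained in a common proper ideal are equal,
then the same holds for primes of `R` lying over `span {lam}` of `B`. -/
theorem eq_of_sup_ne_top_of_goingDown
    {B B' R R' : Type*} [CommRing B] [CommRing B'] [CommRing R] [CommRing R']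
    [Algebra B B'] [Algebra B R] [Algebra B' R'] [Algebra R R'] [Algebra B R']
    [IsScalarTower B R R'] [IsScalarTower B B' R']
    [IsDomain R] [IsIntegrallyClosed R] [IsDomain R'] [FaithfulSMul R R']
    [Algebra.IsIntegral R R']
    (lam : B)
    (hB' : ∀ P' : Ideal B', P'.IsPrime → P'.comap (algebraMap B B') = span {lam} →
      P' = span {algebraMap B B' lam})
    (hUP : ∀ Q1' Q2' : Ideal R', Q1'.IsPrime → Q2'.IsPrime →
      Q1'.comap (algebraMap B' R') = span {algebraMap B B' lam} →
      Q2'.comap (algebraMap B' R') = span {algebraMap B B' lam} →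
      Q1' ⊔ Q2' ≠ ⊤ → Q1' = Q2')
    {Q1 Q2 : Ideal R} (h1 : Q1.IsPrime) (h2 : Q2.IsPrime)
    (hQ1 : Q1.comap (algebraMap B R) = span {lam})
    (hQ2 : Q2.comap (algebraMap B R) = span {lam})
    (hne : Q1 ⊔ Q2 ≠ ⊤) : Q1 = Q2 := by
  obtain ⟨n, hn, hle⟩ := Ideal.exists_le_maximal _ hne
  have hker : RingHom.ker (algebraMap R R') ≤ n := by
    rw [(RingHom.injective_iff_ker_eq_bot _).mp (FaithfulSMul.algebraMap_injective R R')]
    exact bot_le
  obtain ⟨n', hn', hn'n⟩ := Ideal.exists_ideal_over_maximal_of_isIntegral n hker
  have hn'p : n'.IsPrime := hn'.isPrime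
  have hn'o : n'.LiesOver n := ⟨hn'n.symm⟩
  obtain ⟨Q1', hQ1'le, hQ1'p, hQ1'o⟩ :=
    Ideal.exists_ideal_le_liesOver_of_le (p := Q1) (q := n) n' (le_sup_left.trans hle)
  obtain ⟨Q2', hQ2'le, hQ2'p, hQ2'o⟩ :=
    Ideal.exists_ideal_le_liesOver_of_le (p := Q2) (q := n) n' (le_sup_right.trans hle)
  have key : ∀ (Q : Ideal R) (Q' : Ideal R'), Q'.IsPrime → Q'.LiesOver Q →
      Q.comap (algebraMap B R) = span {lam} →
      Q'.comap (algebraMap B' R') = span {algebraMap B B' lam} := by
    intro Q Q' hQ'p hQ'o hQ
    apply hB' _ (Ideal.comap_isPrime _ _)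
    have hcm : Q'.comap (algebraMap R R') = Q := hQ'o.over.symm
    rw [Ideal.comap_comap, ← IsScalarTower.algebraMap_eq, IsScalarTower.algebraMap_eq B R R',
      ← Ideal.comap_comap, hcm, hQ]
  have hne' : Q1' ⊔ Q2' ≠ ⊤ := by
    intro htop
    exact hn'.ne_top (top_le_iff.mp (htop ▸ sup_le hQ1'le hQ2'le))
  have heq := hUP Q1' Q2' hQ1'p hQ2'p (key Q1 Q1' hQ1'p hQ1'o hQ1)
    (key Q2 Q2' hQ2'p hQ2'o hQ2) hne'
  rw [hQ1'o.over, hQ2'o.over, heq]

end LiesOver

section PurityCover

open IsLocalRing

/-- **Purity upstairs + going-down.**  `B'` is a two-dimensional "regular" local normal domain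
(maximal ideal `(lam, g)`, `lam` prime) — e.g. the local ring of an auxiliary cover of the base
line at a closed point of its special fibre —, `R'` the integral closure of `B'` in a finite
separable extension `L'` of `Frac B'`, unramified in codimension one
(`helper3881.UnramifiedCodimOne`).  If `R` is an integrally closed domain of which `R'` is an
integral extension, and `x : R` maps to `lam`, then `R` has the one-component property for `x`:
two minimal primes over `x` contained in a common proper ideal are equal.

No group action and no tameness are used: `R → R'` only has to be injective and integral. -/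
theorem oneComponent_of_purity_cover
    {R : Type*} [CommRing R] [IsDomain R] [IsIntegrallyClosed R] (x : R)
    (B' K' L' R' : Type*) [CommRing B'] [Field K'] [Algebra B' K'] [IsFractionRing B' K']
    [Field L'] [CommRing R'] [Algebra K' L'] [Algebra B' L'] [IsScalarTower B' K' L']
    [Algebra R' L'] [IsIntegralClosure R' B' L'] [Algebra B' R'] [IsScalarTower B' R' L']
    [IsDomain B'] [IsIntegrallyClosed B'] [IsNoetherianRing B'] [IsLocalRing B']
    [FiniteDimensional K' L'] [Algebra.IsSeparable K' L']
    [Algebra R R'] [FaithfulSMul R R'] [Algebra.IsIntegral R R']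
    (lam g : B') (hlam : Prime lam) (hlg : ¬ lam ∣ g)
    (hm : maximalIdeal B' = Ideal.span {lam, g})
    (hunr : helper3881.UnramifiedCodimOne B' K' L' R')
    (hx : algebraMap R R' x = algebraMap B' R' lam) :
    helper403.OneComponent R x := by
  have hRL : Function.Injective (algebraMap R' L') :=
    IsIntegralClosure.algebraMap_injective R' B' L'
  have hdom : IsDomain R' := hRL.isDomain (algebraMap R' L')
  have hint : Algebra.IsIntegral B' R' := IsIntegralClosure.isIntegral_algebra B' L'
  have hBL : Function.Injective (algebraMap B' L') := by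
    rw [IsScalarTower.algebraMap_eq B' K' L']
    exact (algebraMap K' L').injective.comp (IsFractionRing.injective B' K')
  have hfaith : FaithfulSMul B' R' := by
    rw [faithfulSMul_iff_algebraMap_injective]
    intro a b hab
    apply hBL
    rw [IsScalarTower.algebraMap_apply B' R' L', hab, ← IsScalarTower.algebraMap_apply B' R' L']
  apply oneComponent_of_isIntegral (R' := R') x
  rw [hx]
  exact helper403.oneComponent_of_liesOver hlam fun Q Q' hQ hQ' hc hc' hne =>
    helper3881.eq_of_sup_ne_top B' K' L' R' lam g hlam hlg hm hunr Q Q' hc hc' hne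

end PurityCover

end Fermat.Agent.S18.helper3841
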