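import Mathlib
import Fermat.Agent.S18.helper3881_Purity
import Fermat.Agent.S18.helper2636_Abhyankar

/-!
# S18, track T1: purity with the trace-dual form of unramifiedness (helper3881)

Adapter between `helper2636.UnrAt` (trace-dual form of "unramified at a prime") and the
discriminant form `UnramifiedCodimOne` consumed by the purity theorem `eq_of_sup_ne_top`.
-/

namespace Fermat.Agent.S18.helper3881

open IsLocalRing
open scoped Matrix

section Dual

variable (B K : Type*) [CommRing B] [Field K] [Algebra B K] [IsFractionRing B K]
variable (L : Type*) [Field L] (R : Type*) [CommRing R]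
variable [Algebra K L] [Algebra B L] [IsScalarTower B K L]
variable [Algebra R L] [IsIntegralClosure R B L] [Algebra B R] [IsScalarTower B R L]
variable [IsDomain B] [IsIntegrallyClosed B] [IsNoetherianRing B]
variable [FiniteDimensional K L] [Algebra.IsSeparable K L]

include K L in
/-- If the integral closure `R` is free over `B` with basis `e` and `L/K` is unramified at the
prime `p` in the trace-dual sense, then the discriminant of `e` lies outside `p`. -/
theorem discr_notMem_of_unrAt {ι : Type*} [Fintype ι] [DecidableEq ι]
    (e : Module.Basis ι B R) (p : Ideal B) [hp : p.IsPrime]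
    (h : Fermat.Agent.S18.helper2636.UnrAt B K L p) : Algebra.discr B e ∉ p := by
  have hfree : Module.Free B R := Module.Free.of_basis e
  have hfin : Module.Finite B R := IsIntegralClosure.finite B K L R
  have hloc : IsLocalization (Algebra.algebraMapSubmonoid R (nonZeroDivisors B)) L :=
    IsIntegralClosure.isLocalization B K L R
  have hBK : Function.Injective (algebraMap B K) := IsFractionRing.injective B K
  let e' : Module.Basis ι K L := e.localizationLocalization K (nonZeroDivisors B) L
  have he' : ∀ i, e' i = algebraMap R L (e i) := fun i =>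
    Module.Basis.localizationLocalization_apply K (nonZeroDivisors B) L e i
  let x : Module.Basis ι K L :=
    (Algebra.traceForm K L).dualBasis (traceForm_nondegenerate K L) e'
  have hx : ∀ i j, Algebra.trace K L (x i * e' j) = if j = i then 1 else 0 := by
    intro i j
    have := LinearMap.BilinForm.apply_dualBasis_left (traceForm_nondegenerate K L) e' i j
    rwa [Algebra.traceForm_apply] at this
  -- the trace pairing of `x i` with an element of `R` is a coordinate
  have hsum : ∀ r : R, algebraMap R L r = ∑ j, algebraMap B K (e.repr r j) • e' j := by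
    intro r
    conv_lhs => rw [← e.sum_repr r]
    rw [map_sum]
    refine Finset.sum_congr rfl fun j _ => ?_
    rw [Algebra.smul_def, map_mul, ← IsScalarTower.algebraMap_apply, he', Algebra.smul_def,
      ← IsScalarTower.algebraMap_apply]
  have hpair : ∀ (i : ι) (r : R),
      Algebra.trace K L (x i * algebraMap R L r) = algebraMap B K (e.repr r i) := by
    intro i r
    rw [hsum r, Finset.mul_sum, map_sum]
    have : ∀ j, Algebra.trace K L (x i * algebraMap B K (e.repr r j) • e' j) =
        algebraMap B K (e.repr r j) * (if j = i then 1 else 0) := by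
      intro j
      rw [mul_smul_comm, map_smul, hx, smul_eq_mul]
    simp only [this, mul_ite, mul_one, mul_zero, Finset.sum_ite_eq', Finset.mem_univ, if_true]
  have hint : ∀ i, ∃ a : B, a ∉ p ∧ IsIntegral B (algebraMap B L a * x i) := by
    intro i
    apply h
    intro y hy
    obtain ⟨r, rfl⟩ := IsIntegralClosure.isIntegral_iff (A := R) |>.1 hy
    rw [hpair]
    exact isIntegral_algebraMap
  choose a hap ha using hint
  have hr : ∀ i, ∃ r : R, algebraMap R L r = algebraMap B L (a i) * x i := fun i =>
    IsIntegralClosure.isIntegral_iff (A := R) |>.1 (ha i)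
  choose r hr using hr
  let C : Matrix ι ι B := fun i j => e.repr (r i) j
  have hCG : C * Algebra.traceMatrix B e = Matrix.diagonal a := by
    ext i k
    apply hBK
    rw [Matrix.mul_apply, map_sum]
    have h1 : ∀ j, algebraMap B K (C i j * Algebra.traceMatrix B e j k) =
        Algebra.trace K L (algebraMap B K (e.repr (r i) j) • e' j * e' k) := by
      intro j
      rw [map_mul, Algebra.traceMatrix_apply, Algebra.traceForm_apply,
        ← Algebra.trace_localization B (nonZeroDivisors B) (Rₘ := K) (Sₘ := L), map_mul,
        ← he', ← he', smul_mul_assoc, map_smul, smul_eq_mul]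
    simp only [h1]
    rw [← map_sum, ← Finset.sum_mul, ← hsum (r i), hr, mul_assoc,
      IsScalarTower.algebraMap_apply B K L, ← Algebra.smul_def, map_smul,
      hx, Matrix.diagonal_apply, smul_eq_mul]
    by_cases hik : i = k
    · subst hik; simp
    · have hki : ¬ k = i := fun h => hik h.symm
      simp [hik, hki]
  intro hmem
  have hdet : C.det * Algebra.discr B e = ∏ i, a i := by
    rw [Algebra.discr_def, ← Matrix.det_mul, hCG, Matrix.det_diagonal]
  have hprod : ∏ i, a i ∈ p := by
    rw [← hdet]
    exact Ideal.mul_mem_left _ _ hmem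
  obtain ⟨i, -, hi⟩ := (Ideal.IsPrime.prod_mem_iff (p := p)).1 hprod
  exact hap i hi

variable [IsLocalRing B]

include K L in
/-- **Trace-dual form of the unramifiedness hypothesis.**  If `L/K` is unramified (in the
trace-dual sense of `helper2636.UnrAt`) at every non-maximal prime of the two-dimensional
local ring `B`, then `UnramifiedCodimOne` holds. -/
theorem unramifiedCodimOne_of_unrAt (lam g : B) (hlam : Prime lam) (hlg : ¬ lam ∣ g)
    (hm : maximalIdeal B = Ideal.span {lam, g})
    (h : ∀ p : Ideal B, p.IsPrime → p ≠ maximalIdeal B →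
      Fermat.Agent.S18.helper2636.UnrAt B K L p) :
    UnramifiedCodimOne B K L R := by
  classical
  have hfree : Module.Free B R := free_integralClosure B K L R lam g hlam hlg hm
  have hfin : Module.Finite B R := IsIntegralClosure.finite B K L R
  let e : Module.Basis (Fin (Module.finrank K L)) B R :=
    Module.finBasisOfFinrankEq B R (finrank_integralClosure B K L R)
  intro a0 𝔭 ha0 h𝔭
  have hp : 𝔭.IsPrime := h𝔭.1.1
  have hne : 𝔭 ≠ maximalIdeal B := by
    intro hEq
    have hht : 𝔭.height ≤ 1 :=
      Ideal.height_le_one_of_isPrincipal_of_mem_minimalPrimes _ 𝔭 h𝔭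
    have hspan : (Ideal.span {lam} : Ideal B).IsPrime :=
      (Ideal.span_singleton_prime hlam.ne_zero).2 hlam
    have hlt : (Ideal.span {lam} : Ideal B) < maximalIdeal B := by
      refine lt_of_le_of_ne (IsLocalRing.le_maximalIdeal hspan.ne_top) ?_
      intro hE
      have : g ∈ (Ideal.span {lam} : Ideal B) := by
        rw [hE, hm]
        exact Ideal.subset_span (by simp)
      exact hlg (Ideal.mem_span_singleton.1 this)
    have hpos : (Ideal.span {lam} : Ideal B).height ≠ 0 := by
      rw [Ne, Ideal.height_eq_zero_iff_eq_bot, Ideal.span_singleton_eq_bot]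
      exact hlam.ne_zero
    have h2 : (Ideal.span {lam} : Ideal B).height + 1 ≤ (maximalIdeal B).height :=
      Ideal.height_add_one_le_of_lt_of_isPrime hlt
    rw [← hEq] at h2
    have h3 : (Ideal.span {lam} : Ideal B).height + 1 ≤ 1 := h2.trans hht
    have h4 : (1 : ℕ∞) ≤ (Ideal.span {lam} : Ideal B).height := by
      rwa [Order.one_le_iff_ne_zero]
    have h5 : (1 : ℕ∞) + 1 ≤ 1 := (add_le_add h4 le_rfl).trans h3
    exact absurd h5 (by decide)
  refine ⟨e, Algebra.discr B e, algebraMap_discr B K L R e, ?_⟩
  exact discr_notMem_of_unrAt B K L R e 𝔭 (h 𝔭 hp hne)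

include K L in
/-- **Purity, trace-dual form** (consumer form of T1 with `helper2636.UnrAt`): two primes of
`R` lying over `(lam)` that are not comaximal are equal. -/
theorem eq_of_sup_ne_top_of_unrAt (lam g : B) (hlam : Prime lam) (hlg : ¬ lam ∣ g)
    (hm : maximalIdeal B = Ideal.span {lam, g})
    (h : ∀ p : Ideal B, p.IsPrime → p ≠ maximalIdeal B →
      Fermat.Agent.S18.helper2636.UnrAt B K L p)
    (Q Q' : Ideal R) [Q.IsPrime] [Q'.IsPrime]
    (hQ : Q.comap (algebraMap B R) = Ideal.span {lam})
    (hQ' : Q'.comap (algebraMap B R) = Ideal.span {lam}) (hsup : Q ⊔ Q' ≠ ⊤) : Q = Q' :=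
  eq_of_sup_ne_top B K L R lam g hlam hlg hm
    (unramifiedCodimOne_of_unrAt B K L R lam g hlam hlg hm h) Q Q' hQ hQ' hsup

end Dual

end Fermat.Agent.S18.helper3881
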