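import Mathlib
import Fermat.Agent.S18.helper2636_Abhyankar
import Fermat.Agent.S18.helper3881_Purity
import Fermat.Agent.S18.helper3881_PurityDual
import Fermat.Agent.S18.helper3841_IntegralDescent

/-!
# S18, track B, leaf T2 (Abhyankar, local form), part 2: the core (helper2636)

`B` is an integrally closed noetherian local domain with maximal ideal `(lam, g)`, `lam` and `g`
prime, `K = Frac B`, and `K' = K(s)` with `s ^ e = g`, `e` a unit of `B`.

* Kummer base `B[s] = Algebra.adjoin B {s} ⊆ K'`:
  `mem_adjoin_of_isIntegral`, `isIntegralClosure_adjoin` (`B[s]` is the integral closure of `B`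
  in `K'`), `isNoetherianRing_adjoin`, `isFractionRing_adjoin`, `isIntegrallyClosed_adjoin`,
  `isLocalRing_adjoin`, `maximalIdeal_adjoin` (maximal ideal `(lam, s)`),
  `prime_algebraMap_adjoin` (`lam` stays prime), `not_dvd_adjoin` (`lam ∤ s`).
* `eq_span_of_mem_of_ne_maximalIdeal` : a non-maximal prime of `B` containing `g` is `(g)`.
* `unrAt_of_isIntegral_base` : `UnrAt` over `B` at `p' ∩ B` gives `UnrAt` over `B'` at `p'`
  (`B'` integral over `B`).
* `unrAt_adjoin_of_ne_maximalIdeal` : unramifiedness of `L(s)/K(s)` at all non-maximal primes of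
  `B[s]`, from unramifiedness of `L/K` away from `g` and the tame step over `(g)`.
* `abhyankar_oneComponent_core`, `abhyankar_eq_of_sup_ne_top_core` : Abhyankar's lemma in the
  consumer shapes of the purity leaf T1 (`helper403.OneComponent`, resp. "lying over"), with
  the tame step as the single hypothesis `hT : UnrAt B K' L' (Ideal.span {g})`.

Proof of the core: purity (T1, `helper3881.eq_of_sup_ne_top_of_unrAt`) for the integral closure
of `B[s]` in `L' = L(s)`, then descent by going-down (`helper3841.oneComponent_of_isIntegral`).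
-/

set_option autoImplicit false
set_option linter.unusedSectionVars false

namespace Fermat.Agent.S18.helper2636

open Polynomial

section KummerBase

variable {B : Type*} (K : Type*) {K' : Type*} [CommRing B] [IsDomain B] [IsIntegrallyClosed B]
  [Field K] [Algebra B K] [IsFractionRing B K]
  [Field K'] [Algebra K K'] [Algebra B K'] [IsScalarTower B K K']

include K

theorem algebraMap_injective_of_tower : Function.Injective (algebraMap B K') := by
  rw [IsScalarTower.algebraMap_eq B K K']
  exact (algebraMap K K').injective.comp (IsFractionRing.injective B K)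

omit K [IsDomain B] [IsIntegrallyClosed B] in
theorem isIntegral_of_pow_eq {e : ℕ} (he : e ≠ 0) {g : B} {s : K'}
    (hs : s ^ e = algebraMap B K' g) : IsIntegral B s := by
  refine ⟨X ^ e - C g, monic_X_pow_sub_C g he, ?_⟩
  simp [hs]

/-- If `s ^ e = g` with `g` prime in `B`, `x` is integral over `B` and `s * x ∈ B[s]`, then
`x ∈ B[s]`. -/
theorem mem_adjoin_of_mul_mem {g : B} (hg : Prime g) {e : ℕ} (he : e ≠ 0) {s : K'}
    (hs : s ^ e = algebraMap B K' g) {x : K'} (hx : IsIntegral B x)
    (hsx : s * x ∈ Algebra.adjoin B {s}) : x ∈ Algebra.adjoin B {s} := by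
  have hinj : Function.Injective (algebraMap B K') := algebraMap_injective_of_tower K
  have hsint : IsIntegral B s := isIntegral_of_pow_eq he hs
  have hg0 : algebraMap B K' g ≠ 0 := fun h => hg.ne_zero (hinj (h.trans (map_zero _).symm))
  have hs0 : s ≠ 0 := by
    rintro rfl
    rw [zero_pow he] at hs
    exact hg0 hs.symm
  rw [Algebra.adjoin_singleton_eq_range_aeval] at hsx
  obtain ⟨p, hp⟩ := hsx
  have hp2 : aeval s p = s * x := hp
  have hp' : aeval s p.divX * s + algebraMap B K' (p.coeff 0) = s * x := by
    have := congrArg (aeval s) (divX_mul_X_add p)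
    rw [hp2] at this
    simpa using this
  set w1 : K' := aeval s p.divX with hw1
  set c0 : B := p.coeff 0 with hc0
  have hw1mem : w1 ∈ Algebra.adjoin B {s} := aeval_mem_adjoin_singleton B s
  have hw1int : IsIntegral B w1 :=
    (Algebra.IsIntegral.adjoin (S := {s}) (by simpa using hsint)).isIntegral ⟨w1, hw1mem⟩ |>.map
      (Algebra.adjoin B {s}).val
  -- `y = x - w1` is integral and `c0 = s * y`
  set y : K' := x - w1 with hy
  have hyint : IsIntegral B y := hx.sub hw1int
  have hc0y : algebraMap B K' c0 = s * y := by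
    rw [hy, mul_sub, ← hp']; ring
  -- `c0 ^ e = g * y ^ e`, so `g ∣ c0 ^ e` in `B`
  have hpow : algebraMap B K' (c0 ^ e) = algebraMap B K' g * y ^ e := by
    rw [map_pow, hc0y, mul_pow, hs]
  have hq : IsIntegral B (algebraMap B K (c0 ^ e) / algebraMap B K g) := by
    have h1 : algebraMap K K' (algebraMap B K (c0 ^ e) / algebraMap B K g) = y ^ e := by
      rw [map_div₀, ← IsScalarTower.algebraMap_apply, ← IsScalarTower.algebraMap_apply, hpow,
        mul_div_cancel_left₀ _ hg0]
    have h2 : IsIntegral B (algebraMap K K' (algebraMap B K (c0 ^ e) / algebraMap B K g)) := by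
      rw [h1]; exact hyint.pow e
    exact (isIntegral_algebraMap_iff (algebraMap K K').injective).mp h2
  obtain ⟨b, hb⟩ := IsIntegrallyClosed.isIntegral_iff.mp hq
  have hgK : algebraMap B K g ≠ 0 := fun h =>
    hg.ne_zero (IsFractionRing.injective B K (h.trans (map_zero _).symm))
  have hdvd : g ∣ c0 ^ e := by
    refine ⟨b, IsFractionRing.injective B K ?_⟩
    rw [map_mul, hb, mul_div_cancel₀ _ hgK]
  obtain ⟨c1, hc1⟩ := hg.dvd_of_dvd_pow hdvd
  -- `y = s ^ (e - 1) * c1`
  have hy' : y = s ^ (e - 1) * algebraMap B K' c1 := by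
    apply mul_left_cancel₀ hs0
    rw [← hc0y, hc1, map_mul, ← hs, ← mul_assoc, ← pow_succ', Nat.sub_add_cancel (Nat.pos_of_ne_zero he)]
  have hx' : x = w1 + s ^ (e - 1) * algebraMap B K' c1 := by
    rw [← hy', hy]; ring
  rw [hx']
  exact add_mem hw1mem (mul_mem (pow_mem (Algebra.self_mem_adjoin_singleton B s) _)
    (Subalgebra.algebraMap_mem _ c1))

/-- If `s ^ k * x ∈ B[s]` and `x` is integral over `B`, then `x ∈ B[s]`. -/
theorem mem_adjoin_of_pow_mul_mem {g : B} (hg : Prime g) {e : ℕ} (he : e ≠ 0) {s : K'}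
    (hs : s ^ e = algebraMap B K' g) (k : ℕ) {x : K'} (hx : IsIntegral B x)
    (hsx : s ^ k * x ∈ Algebra.adjoin B {s}) : x ∈ Algebra.adjoin B {s} := by
  have hsint : IsIntegral B s := isIntegral_of_pow_eq he hs
  induction k with
  | zero => simpa using hsx
  | succ k ih =>
    apply ih
    apply mem_adjoin_of_mul_mem K hg he hs ((hsint.pow k).mul hx)
    rw [← mul_assoc, ← pow_succ']
    exact hsx

/-- **Euler's formula for the Kummer order.**  If `e` is a unit of `B` and `K' = K(s)`, then
`s ^ (e - 1) * x ∈ B[s]` for every `x : K'` integral over `B`. -/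
theorem pow_mul_mem_adjoin_of_isIntegral [FiniteDimensional K K'] [Algebra.IsSeparable K K']
    {g : B} {e : ℕ} (he : IsUnit (e : B)) (he0 : e ≠ 0) {s : K'}
    (hs : s ^ e = algebraMap B K' g) (hK' : Algebra.adjoin K {s} = ⊤) {x : K'}
    (hx : IsIntegral B x) : s ^ (e - 1) * x ∈ Algebra.adjoin B {s} := by
  have hinj : Function.Injective (algebraMap B K') := algebraMap_injective_of_tower K
  have hsint : IsIntegral B s := isIntegral_of_pow_eq he0 hs
  have hdual := traceForm_dualSubmodule_adjoin B K hK' hsint
  -- `x` lies in the trace dual of `B[s]`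
  have hxd : x ∈ (Algebra.traceForm K K').dualSubmodule
      (Subalgebra.toSubmodule (Algebra.adjoin B {s})) := by
    rw [LinearMap.BilinForm.mem_dualSubmodule]
    intro y hy
    have hyint : IsIntegral B y :=
      ((Algebra.IsIntegral.adjoin (S := {s}) (by simpa using hsint)).isIntegral ⟨y, hy⟩).map
        (Algebra.adjoin B {s}).val
    have htr : IsIntegral B (Algebra.trace K K' (x * y)) := Algebra.isIntegral_trace (hx.mul hyint)
    obtain ⟨b, hb⟩ := IsIntegrallyClosed.isIntegral_iff.mp htr
    rw [Algebra.traceForm_apply, ← hb]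
    exact Submodule.mem_one.mpr ⟨b, rfl⟩
  rw [hdual, Submodule.mem_smul_pointwise_iff_exists] at hxd
  obtain ⟨w, hw, hwx⟩ := hxd
  -- the minimal polynomial of `s` divides `X ^ e - g`
  have hroot : aeval s (X ^ e - C g : B[X]) = 0 := by simp [hs]
  have : Module.IsTorsionFree B K' := by
    have : FaithfulSMul B K' := (faithfulSMul_iff_algebraMap_injective B K').mpr hinj
    infer_instance
  obtain ⟨h0, hh0⟩ := minpoly.isIntegrallyClosed_dvd hsint hroot
  have hmin : minpoly K s = (minpoly B s).map (algebraMap B K) :=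
    minpoly.isIntegrallyClosed_eq_field_fractions' K hsint
  have hder : aeval s (derivative (minpoly K s)) = aeval s (derivative (minpoly B s)) := by
    rw [hmin, derivative_map, aeval_map_algebraMap]
  have hEuler : (e : K') * s ^ (e - 1) =
      aeval s (derivative (minpoly B s)) * aeval s h0 := by
    have h1 := congrArg (fun q => aeval s (derivative q)) hh0
    simp only [derivative_sub, derivative_X_pow, derivative_C, sub_zero, derivative_mul,
      map_add, map_mul, minpoly.aeval, zero_mul, add_zero, map_natCast, map_pow, aeval_X] at h1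
    simpa using h1
  set d : K' := aeval s (derivative (minpoly B s)) with hd
  have hh0mem : aeval s h0 ∈ Algebra.adjoin B {s} := aeval_mem_adjoin_singleton B s
  have hdx : d * x ∈ Algebra.adjoin B {s} := by
    by_cases hd0 : d = 0
    · rw [hd0, zero_mul]; exact zero_mem _
    · have : d * x = w := by
        rw [← hwx, hder, smul_eq_mul, ← mul_assoc, mul_inv_cancel₀ hd0, one_mul]
      rw [this]; exact hw
  have hkey : (e : K') * (s ^ (e - 1) * x) ∈ Algebra.adjoin B {s} := by
    have : (e : K') * (s ^ (e - 1) * x) = aeval s h0 * (d * x) := by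
      rw [← mul_assoc, hEuler]; ring
    rw [this]
    exact mul_mem hh0mem hdx
  obtain ⟨u, hu⟩ := he.exists_left_inv
  have hfin : s ^ (e - 1) * x = algebraMap B K' u * ((e : K') * (s ^ (e - 1) * x)) := by
    have h1 : algebraMap B K' u * (e : K') = 1 := by
      have := congrArg (algebraMap B K') hu
      simpa using this
    rw [← mul_assoc, h1, one_mul]
  rw [hfin]
  exact mul_mem (Subalgebra.algebraMap_mem _ u) hkey

/-- **`B[s]` is the integral closure of `B` in `K' = K(s)`**, `s ^ e = g` with `g` prime and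
`e` a unit of `B`. -/
theorem mem_adjoin_of_isIntegral [FiniteDimensional K K'] [Algebra.IsSeparable K K']
    {g : B} (hg : Prime g) {e : ℕ} (he : IsUnit (e : B)) (he0 : e ≠ 0) {s : K'}
    (hs : s ^ e = algebraMap B K' g) (hK' : Algebra.adjoin K {s} = ⊤) {x : K'}
    (hx : IsIntegral B x) : x ∈ Algebra.adjoin B {s} :=
  mem_adjoin_of_pow_mul_mem K hg he0 hs (e - 1) hx
    (pow_mul_mem_adjoin_of_isIntegral K he he0 hs hK' hx)

/-- `B[s]` is the integral closure of `B` in `K'`, in `IsIntegralClosure` form. -/
theorem isIntegralClosure_adjoin [FiniteDimensional K K'] [Algebra.IsSeparable K K']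
    {g : B} (hg : Prime g) {e : ℕ} (he : IsUnit (e : B)) (he0 : e ≠ 0) {s : K'}
    (hs : s ^ e = algebraMap B K' g) (hK' : Algebra.adjoin K {s} = ⊤) :
    IsIntegralClosure (Algebra.adjoin B {s}) B K' where
  algebraMap_injective := Subtype.val_injective
  isIntegral_iff := by
    intro x
    constructor
    · intro hx
      exact ⟨⟨x, mem_adjoin_of_isIntegral K hg he he0 hs hK' hx⟩, rfl⟩
    · rintro ⟨y, rfl⟩
      have hsint : IsIntegral B s := isIntegral_of_pow_eq he0 hs
      exact ((Algebra.IsIntegral.adjoin (S := {s}) (by simpa using hsint)).isIntegral y).map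
        (Algebra.adjoin B {s}).val

end KummerBase

section KummerLocal

open IsLocalRing

variable {B : Type*} (K : Type*) {K' : Type*} [CommRing B] [IsDomain B] [IsIntegrallyClosed B]
  [IsNoetherianRing B] [IsLocalRing B]
  [Field K] [Algebra B K] [IsFractionRing B K]
  [Field K'] [Algebra K K'] [Algebra B K'] [IsScalarTower B K K']

omit [IsDomain B] [IsIntegrallyClosed B] [IsNoetherianRing B] [IsLocalRing B] in
/-- Every element of `B[s]` is `c0 + s * w1` with `c0 ∈ B`, `w1 ∈ B[s]`. -/
theorem exists_eq_add_mul (s : K') (w : Algebra.adjoin B {s}) :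
    ∃ (c0 : B) (w1 : Algebra.adjoin B {s}),
      w = algebraMap B _ c0 + ⟨s, Algebra.self_mem_adjoin_singleton B s⟩ * w1 := by
  have hw : (w : K') ∈ (aeval s : B[X] →ₐ[B] K').range := by
    rw [← Algebra.adjoin_singleton_eq_range_aeval]; exact w.2
  obtain ⟨p, hp⟩ := hw
  have hp2 : aeval s p = (w : K') := hp
  refine ⟨p.coeff 0, ⟨aeval s p.divX, aeval_mem_adjoin_singleton B s⟩, Subtype.ext ?_⟩
  have h := congrArg (aeval s) (divX_mul_X_add p)
  rw [hp2, map_add, map_mul, aeval_X, aeval_C] at h
  rw [← h]
  simp only [Subalgebra.coe_add, Subalgebra.coe_mul, Subalgebra.coe_algebraMap]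
  ring

include K

/-- The ideal `(lam, s)` of `B[s]` is maximal and is the only maximal ideal. -/
theorem isMaximal_span_pair_adjoin {lam g : B} (hm : maximalIdeal B = Ideal.span {lam, g})
    {e : ℕ} (he0 : e ≠ 0) {s : K'} (hs : s ^ e = algebraMap B K' g) :
    (Ideal.span {algebraMap B (Algebra.adjoin B {s}) lam,
        (⟨s, Algebra.self_mem_adjoin_singleton B s⟩ : Algebra.adjoin B {s})}).IsMaximal ∧
      ∀ n' : Ideal (Algebra.adjoin B {s}), n'.IsMaximal →
        n' = Ideal.span {algebraMap B (Algebra.adjoin B {s}) lam,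
          (⟨s, Algebra.self_mem_adjoin_singleton B s⟩ : Algebra.adjoin B {s})} := by
  have hsint : IsIntegral B s := isIntegral_of_pow_eq he0 hs
  have hint : Algebra.IsIntegral B (Algebra.adjoin B {s}) :=
    Algebra.IsIntegral.adjoin (S := {s}) (by simpa using hsint)
  set s' : Algebra.adjoin B {s} := ⟨s, Algebra.self_mem_adjoin_singleton B s⟩ with hs'
  set lam' : Algebra.adjoin B {s} := algebraMap B (Algebra.adjoin B {s}) lam with hlam'
  have hgs : algebraMap B (Algebra.adjoin B {s}) g = s' ^ e := Subtype.ext (by simp [hs', hs])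
  -- every maximal ideal contains `(lam, s)`
  have hle : ∀ n' : Ideal (Algebra.adjoin B {s}), n'.IsMaximal → Ideal.span {lam', s'} ≤ n' := by
    intro n' hn'
    have hmax : (n'.comap (algebraMap B (Algebra.adjoin B {s}))).IsMaximal :=
      Ideal.isMaximal_comap_of_isIntegral_of_isMaximal n'
    have heq : n'.comap (algebraMap B (Algebra.adjoin B {s})) = Ideal.span {lam, g} := by
      rw [← hm]; exact IsLocalRing.eq_maximalIdeal hmax
    have h1 : lam' ∈ n' := by
      have : lam ∈ n'.comap (algebraMap B (Algebra.adjoin B {s})) := by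
        rw [heq]; exact Ideal.subset_span (by simp)
      exact this
    have h2 : s' ∈ n' := by
      have : g ∈ n'.comap (algebraMap B (Algebra.adjoin B {s})) := by
        rw [heq]; exact Ideal.subset_span (by simp)
      have h3 : s' ^ e ∈ n' := by rw [← hgs]; exact this
      exact hn'.isPrime.mem_of_pow_mem e h3
    rw [Ideal.span_le]
    intro z hz
    rcases hz with rfl | rfl
    · exact h1
    · exact h2
  have hlamM : lam' ∈ Ideal.span {lam', s'} := Ideal.subset_span (Set.mem_insert _ _)
  have hsM : s' ∈ Ideal.span {lam', s'} :=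
    Ideal.subset_span (Set.mem_insert_of_mem _ (Set.mem_singleton _))
  have hne : (1 : Algebra.adjoin B {s}) ∉ Ideal.span {lam', s'} := by
    obtain ⟨n', hn'⟩ := Ideal.exists_maximal (Algebra.adjoin B {s})
    intro h1
    exact hn'.ne_top ((Ideal.eq_top_iff_one _).mpr (hle n' hn' h1))
  have hmax : (Ideal.span {lam', s'}).IsMaximal := by
    rw [Ideal.isMaximal_iff]
    refine ⟨hne, fun J w hJ hw hwJ => ?_⟩
    obtain ⟨c0, w1, hw1⟩ := exists_eq_add_mul s w
    have hsJ : s' ∈ J := hJ hsM
    have hc0J : algebraMap B (Algebra.adjoin B {s}) c0 ∈ J := by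
      have : algebraMap B (Algebra.adjoin B {s}) c0 = w - s' * w1 := by rw [hw1]; ring
      rw [this]
      exact J.sub_mem hwJ (J.mul_mem_right _ hsJ)
    have hc0u : IsUnit c0 := by
      by_contra hnu
      have hc0m : c0 ∈ maximalIdeal B := hnu
      rw [hm, Ideal.mem_span_pair] at hc0m
      obtain ⟨a, b, hab⟩ := hc0m
      apply hw
      rw [hw1, ← hab, map_add, map_mul, map_mul, hgs]
      refine add_mem (add_mem ?_ ?_) ?_
      · exact Ideal.mul_mem_left _ _ hlamM
      · exact Ideal.mul_mem_left _ _ (Ideal.pow_mem_of_mem _ hsM e (Nat.pos_of_ne_zero he0))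
      · exact Ideal.mul_mem_right _ _ hsM
    exact (Ideal.eq_top_iff_one J).mp
      (Ideal.eq_top_of_isUnit_mem J hc0J (hc0u.map (algebraMap B (Algebra.adjoin B {s}))))
  exact ⟨hmax, fun n' hn' => (hmax.eq_of_le hn'.ne_top (hle n' hn')).symm⟩

/-- `B[s]` is a local ring. -/
theorem isLocalRing_adjoin {lam g : B} (hm : maximalIdeal B = Ideal.span {lam, g})
    {e : ℕ} (he0 : e ≠ 0) {s : K'} (hs : s ^ e = algebraMap B K' g) :
    IsLocalRing (Algebra.adjoin B {s}) := by
  obtain ⟨hmax, huniq⟩ := isMaximal_span_pair_adjoin K hm he0 hs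
  exact IsLocalRing.of_unique_max_ideal ⟨_, hmax, huniq⟩

/-- The maximal ideal of `B[s]` is `(lam, s)`. -/
theorem maximalIdeal_adjoin {lam g : B} (hm : maximalIdeal B = Ideal.span {lam, g})
    {e : ℕ} (he0 : e ≠ 0) {s : K'} (hs : s ^ e = algebraMap B K' g)
    [IsLocalRing (Algebra.adjoin B {s})] :
    maximalIdeal (Algebra.adjoin B {s}) =
      Ideal.span {algebraMap B (Algebra.adjoin B {s}) lam,
        (⟨s, Algebra.self_mem_adjoin_singleton B s⟩ : Algebra.adjoin B {s})} :=
  (IsLocalRing.eq_maximalIdeal (isMaximal_span_pair_adjoin K hm he0 hs).1).symm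

end KummerLocal

section KummerRegular

open IsLocalRing

variable {B : Type*} (K : Type*) {K' : Type*} [CommRing B] [IsDomain B] [IsIntegrallyClosed B]
  [IsNoetherianRing B] [IsLocalRing B]
  [Field K] [Algebra B K] [IsFractionRing B K]
  [Field K'] [Algebra K K'] [Algebra B K'] [IsScalarTower B K K']
  [FiniteDimensional K K'] [Algebra.IsSeparable K K']

/-- `B[s]` is noetherian. -/
theorem isNoetherianRing_adjoin {e : ℕ} (he0 : e ≠ 0) {g : B} {s : K'}
    (hs : s ^ e = algebraMap B K' g) : IsNoetherianRing (Algebra.adjoin B {s}) := by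
  have hsint : IsIntegral B s := isIntegral_of_pow_eq he0 hs
  have : Module.Finite B (Algebra.adjoin B {s}) := Algebra.finite_adjoin_simple_of_isIntegral hsint
  exact IsNoetherianRing.of_finite B _

include K

/-- `K'` is the fraction field of `B[s]`. -/
theorem isFractionRing_adjoin {g : B} (hg : Prime g) {e : ℕ} (he : IsUnit (e : B)) (he0 : e ≠ 0)
    {s : K'} (hs : s ^ e = algebraMap B K' g) (hK' : Algebra.adjoin K {s} = ⊤) :
    IsFractionRing (Algebra.adjoin B {s}) K' := by
  have := isIntegralClosure_adjoin K hg he he0 hs hK'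
  exact IsIntegralClosure.isFractionRing_of_finite_extension B K K' (Algebra.adjoin B {s})

/-- `B[s]` is integrally closed. -/
theorem isIntegrallyClosed_adjoin {g : B} (hg : Prime g) {e : ℕ} (he : IsUnit (e : B))
    (he0 : e ≠ 0) {s : K'} (hs : s ^ e = algebraMap B K' g) (hK' : Algebra.adjoin K {s} = ⊤) :
    IsIntegrallyClosed (Algebra.adjoin B {s}) := by
  have := isFractionRing_adjoin K hg he he0 hs hK'
  have hsint : IsIntegral B s := isIntegral_of_pow_eq he0 hs
  have hint : Algebra.IsIntegral B (Algebra.adjoin B {s}) :=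
    Algebra.IsIntegral.adjoin (S := {s}) (by simpa using hsint)
  rw [isIntegrallyClosed_iff K']
  intro x hx
  exact ⟨⟨x, mem_adjoin_of_isIntegral K hg he he0 hs hK' (isIntegral_trans x hx)⟩, rfl⟩

/-- `s` is a non-zero-divisor modulo `lam` on `B[s]`. -/
theorem exists_eq_mul_of_mul_eq {lam g : B} (hlam : Prime lam) (hg : Prime g)
    (hlg : ¬ lam ∣ g) {e : ℕ} (he : IsUnit (e : B)) (he0 : e ≠ 0) {s : K'}
    (hs : s ^ e = algebraMap B K' g) (hK' : Algebra.adjoin K {s} = ⊤) {x y : K'}
    (hx : x ∈ Algebra.adjoin B {s}) (hy : y ∈ Algebra.adjoin B {s})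
    (h : s * x = algebraMap B K' lam * y) :
    ∃ w ∈ Algebra.adjoin B {s}, x = algebraMap B K' lam * w := by
  have hsint : IsIntegral B s := isIntegral_of_pow_eq he0 hs
  have hint : Algebra.IsIntegral B (Algebra.adjoin B {s}) :=
    Algebra.IsIntegral.adjoin (S := {s}) (by simpa using hsint)
  have hxint : IsIntegral B x := (hint.isIntegral ⟨x, hx⟩).map (Algebra.adjoin B {s}).val
  have hyint : IsIntegral B y := (hint.isIntegral ⟨y, hy⟩).map (Algebra.adjoin B {s}).val
  have : FaithfulSMul B K' :=
    (faithfulSMul_iff_algebraMap_injective B K').mpr (algebraMap_injective_of_tower K)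
  have h1 : algebraMap B K' g * x = algebraMap B K' lam ^ 1 * (s ^ (e - 1) * y) := by
    have hse : s ^ e = s ^ (e - 1) * s := by
      rw [← pow_succ, Nat.sub_add_cancel (Nat.pos_of_ne_zero he0)]
    rw [← hs, hse, mul_assoc, h, pow_one]; ring
  obtain ⟨w, hwint, hw⟩ := Fermat.Agent.S16.helper903.isIntegral_div_prime_pow hlam hlg 1 hxint
    ((hsint.pow _).mul hyint) h1
  exact ⟨w, mem_adjoin_of_isIntegral K hg he he0 hs hK' hwint, by rw [hw, pow_one]⟩

/-- `lam` does not divide `s` in `B[s]`. -/
theorem not_dvd_adjoin {lam g : B} (hlam : Prime lam) (hg : Prime g) (hlg : ¬ lam ∣ g)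
    (hm : maximalIdeal B = Ideal.span {lam, g})
    {e : ℕ} (he : IsUnit (e : B)) (he0 : e ≠ 0) {s : K'}
    (hs : s ^ e = algebraMap B K' g) (hK' : Algebra.adjoin K {s} = ⊤) :
    ¬ (algebraMap B (Algebra.adjoin B {s}) lam ∣
      (⟨s, Algebra.self_mem_adjoin_singleton B s⟩ : Algebra.adjoin B {s})) := by
  rintro ⟨w, hw⟩
  have hw' : s = algebraMap B K' lam * (w : K') := by
    have := congrArg Subtype.val hw
    simpa using this
  have hsint : IsIntegral B s := isIntegral_of_pow_eq he0 hs
  have hint : Algebra.IsIntegral B (Algebra.adjoin B {s}) :=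
    Algebra.IsIntegral.adjoin (S := {s}) (by simpa using hsint)
  have hwint : IsIntegral B (w : K') := (hint.isIntegral w).map (Algebra.adjoin B {s}).val
  obtain ⟨wv, hwv⟩ : ∃ wv : K', wv = (w : K') := ⟨_, rfl⟩
  rw [← hwv] at hw' hwint
  have : FaithfulSMul B K' :=
    (faithfulSMul_iff_algebraMap_injective B K').mpr (algebraMap_injective_of_tower K)
  have hlamint : IsIntegral B (algebraMap B K' lam) := isIntegral_algebraMap
  have h1 : algebraMap B K' g * 1 =
      algebraMap B K' lam ^ 1 * (algebraMap B K' lam ^ (e - 1) * wv ^ e) := by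
    have hle : algebraMap B K' lam ^ e = algebraMap B K' lam ^ (e - 1) * algebraMap B K' lam := by
      rw [← pow_succ, Nat.sub_add_cancel (Nat.pos_of_ne_zero he0)]
    have hse : s ^ e = (algebraMap B K' lam * wv) ^ e := congrArg (· ^ e) hw'
    rw [← hs, hse, mul_pow, hle]; ring
  obtain ⟨w0, hw0int, hw0⟩ := Fermat.Agent.S16.helper903.isIntegral_div_prime_pow hlam hlg 1
    (isIntegral_one (R := B) (B := K')) ((hlamint.pow _).mul (hwint.pow _)) h1
  have hw0mem := mem_adjoin_of_isIntegral K hg he he0 hs hK' hw0int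
  obtain ⟨hmax, -⟩ := isMaximal_span_pair_adjoin K hm he0 hs
  apply hmax.ne_top
  apply Ideal.eq_top_of_isUnit_mem _ (Ideal.subset_span (Set.mem_insert _ _))
  refine IsUnit.of_mul_eq_one (⟨w0, hw0mem⟩ : Algebra.adjoin B {s}) (Subtype.ext ?_)
  simpa using hw0.symm

/-- `lam` stays prime in `B[s]`. -/
theorem prime_algebraMap_adjoin {lam g : B} (hlam : Prime lam) (hg : Prime g) (hlg : ¬ lam ∣ g)
    (hm : maximalIdeal B = Ideal.span {lam, g})
    {e : ℕ} (he : IsUnit (e : B)) (he0 : e ≠ 0) {s : K'}
    (hs : s ^ e = algebraMap B K' g) (hK' : Algebra.adjoin K {s} = ⊤) :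
    Prime (algebraMap B (Algebra.adjoin B {s}) lam) := by
  have := isLocalRing_adjoin K hm he0 hs
  have := isNoetherianRing_adjoin he0 hs
  have hmax := maximalIdeal_adjoin K hm he0 hs
  set s' : Algebra.adjoin B {s} := ⟨s, Algebra.self_mem_adjoin_singleton B s⟩ with hs'
  set lam' : Algebra.adjoin B {s} := algebraMap B (Algebra.adjoin B {s}) lam with hlam'
  have hinj : Function.Injective (algebraMap B K') := algebraMap_injective_of_tower K
  have hs'v : (s' : K') = s := rfl
  have hlam'v : (lam' : K') = algebraMap B K' lam := rfl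
  have hlam'0 : lam' ≠ 0 := by
    intro h0
    have : algebraMap B K' lam = 0 := by
      rw [← hlam'v, h0]; rfl
    exact hlam.ne_zero (hinj (this.trans (map_zero _).symm))
  have hlamM : lam' ∈ maximalIdeal (Algebra.adjoin B {s}) := by
    rw [hmax]; exact Ideal.subset_span (Set.mem_insert _ _)
  have hspan_le : Ideal.span {lam'} ≤ maximalIdeal (Algebra.adjoin B {s}) := by
    rw [Ideal.span_singleton_le_iff_mem]; exact hlamM
  have hne : Ideal.span {lam'} ≠ ⊤ := by
    intro htop
    rw [htop] at hspan_le
    exact (IsLocalRing.maximalIdeal.isMaximal (Algebra.adjoin B {s})).ne_top (top_le_iff.mp hspan_le)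
  rw [← Ideal.span_singleton_prime hlam'0, ← Ideal.Quotient.isDomain_iff_prime]
  have : Nontrivial (Algebra.adjoin B {s} ⧸ Ideal.span {lam'}) :=
    Ideal.Quotient.nontrivial_iff.mpr hne
  have : IsLocalRing (Algebra.adjoin B {s} ⧸ Ideal.span {lam'}) :=
    IsLocalRing.of_surjective' (Ideal.Quotient.mk _) Ideal.Quotient.mk_surjective
  apply Fermat.Agent.S18.helper3881.isDomain_of_maximalIdeal_eq_span
    (Ideal.Quotient.mk (Ideal.span {lam'}) s')
  · have h1 := Ideal.map_eq_top_or_isMaximal_of_surjective (Ideal.Quotient.mk (Ideal.span {lam'}))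
      Ideal.Quotient.mk_surjective (IsLocalRing.maximalIdeal.isMaximal (Algebra.adjoin B {s}))
    have h2 : (maximalIdeal (Algebra.adjoin B {s})).map (Ideal.Quotient.mk (Ideal.span {lam'})) =
        Ideal.span {Ideal.Quotient.mk (Ideal.span {lam'}) s'} := by
      rw [hmax, Ideal.map_span, Set.image_pair,
        Ideal.Quotient.eq_zero_iff_mem.mpr (Ideal.mem_span_singleton_self lam'),
        Ideal.span_insert_zero]
    rw [h2] at h1
    refine (IsLocalRing.eq_maximalIdeal (h1.resolve_left ?_)).symm
    intro htop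
    have h3 := Ideal.comap_map_of_surjective (Ideal.Quotient.mk (Ideal.span {lam'}))
      Ideal.Quotient.mk_surjective (maximalIdeal (Algebra.adjoin B {s}))
    rw [h2, htop, Ideal.comap_top, ← RingHom.ker_eq_comap_bot, Ideal.mk_ker,
      sup_eq_left.mpr hspan_le] at h3
    exact (IsLocalRing.maximalIdeal.isMaximal (Algebra.adjoin B {s})).ne_top h3.symm
  · intro x hx
    obtain ⟨x0, rfl⟩ := Ideal.Quotient.mk_surjective x
    rw [← map_mul, Ideal.Quotient.eq_zero_iff_mem, Ideal.mem_span_singleton] at hx
    obtain ⟨y0, hy0⟩ := hx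
    have hy0' : s * (x0 : K') = algebraMap B K' lam * (y0 : K') := by
      have := congrArg Subtype.val hy0
      rw [Subalgebra.coe_mul, Subalgebra.coe_mul, hs'v, hlam'v] at this
      exact this
    obtain ⟨w, hw, hxw⟩ := exists_eq_mul_of_mul_eq K hlam hg hlg he he0 hs hK' x0.2 y0.2 hy0'
    rw [Ideal.Quotient.eq_zero_iff_mem, Ideal.mem_span_singleton]
    refine ⟨⟨w, hw⟩, Subtype.ext ?_⟩
    rw [Subalgebra.coe_mul, hlam'v]
    exact hxw

end KummerRegular

section PrimesOverG

open IsLocalRing

/-- In a noetherian local ring with maximal ideal `(lam, g)`, a non-maximal prime containing `g`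
is `(g)`. -/
theorem eq_span_of_mem_of_ne_maximalIdeal {B : Type*} [CommRing B] [IsNoetherianRing B]
    [IsLocalRing B] {lam g : B} (hm : maximalIdeal B = Ideal.span {lam, g}) (p : Ideal B)
    [hp : p.IsPrime] (hgp : g ∈ p) (hne : p ≠ maximalIdeal B) : p = Ideal.span {g} := by
  have hple : p ≤ maximalIdeal B := IsLocalRing.le_maximalIdeal hp.ne_top
  have hlam : lam ∉ p := by
    intro hlam
    apply hne
    refine le_antisymm hple ?_
    rw [hm, Ideal.span_le]
    intro z hz
    rcases hz with rfl | rfl
    · exact hlam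
    · exact hgp
  refine le_antisymm ?_ ((Ideal.span_singleton_le_iff_mem _).mpr hgp)
  intro x hx
  -- `x ∈ lam ^ n * p + (g)` for all `n`
  have key : ∀ n : ℕ, ∃ a ∈ p, ∃ b : B, x = lam ^ n * a + g * b := by
    intro n
    induction n with
    | zero => exact ⟨x, hx, 0, by ring⟩
    | succ n ih =>
      obtain ⟨a, ha, b, hab⟩ := ih
      have ham : a ∈ maximalIdeal B := hple ha
      rw [hm, Ideal.mem_span_pair] at ham
      obtain ⟨a', b', hab'⟩ := ham
      have ha' : a' ∈ p := by
        have h1 : a' * lam ∈ p := by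
          have : a' * lam = a - b' * g := by rw [← hab']; ring
          rw [this]
          exact p.sub_mem ha (p.mul_mem_left _ hgp)
        exact (hp.mem_or_mem h1).resolve_right hlam
      exact ⟨a', ha', b + lam ^ n * b', by rw [hab, ← hab']; ring⟩
  have hmem : Ideal.Quotient.mk (Ideal.span {g}) x ∈
      ⨅ i : ℕ, (maximalIdeal B) ^ i • (⊤ : Submodule B (B ⧸ Ideal.span {g})) := by
    rw [Submodule.mem_iInf]
    intro n
    obtain ⟨a, -, b, hab⟩ := key n
    have h1 : Ideal.Quotient.mk (Ideal.span {g}) x =
        (lam ^ n) • Ideal.Quotient.mk (Ideal.span {g}) a := by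
      rw [hab, map_add, map_mul, map_mul,
        Ideal.Quotient.eq_zero_iff_mem.mpr (Ideal.mem_span_singleton_self g), zero_mul, add_zero,
        Algebra.smul_def]
      rfl
    rw [h1]
    refine Submodule.smul_mem_smul (Ideal.pow_mem_pow ?_ n) Submodule.mem_top
    rw [hm]
    exact Ideal.subset_span (Set.mem_insert _ _)
  rw [Ideal.iInf_pow_smul_eq_bot_of_isLocalRing (maximalIdeal B)
    (IsLocalRing.maximalIdeal.isMaximal B).ne_top, Submodule.mem_bot,
    Ideal.Quotient.eq_zero_iff_mem] at hmem
  exact hmem

end PrimesOverG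

section BaseChange

/-- **Integral change of the base ring.**  If `B'` is integral over `B`, unramifiedness over `B`
at the contraction of a prime `p'` of `B'` gives unramifiedness over `B'` at `p'`. -/
theorem unrAt_of_isIntegral_base {B B' K' L' : Type*} [CommRing B] [CommRing B'] [Algebra B B']
    [Algebra.IsIntegral B B'] [Field K'] [Field L'] [Algebra B K'] [Algebra B' K']
    [IsScalarTower B B' K'] [Algebra K' L'] [Algebra B L'] [Algebra B' L']
    [IsScalarTower B B' L'] (p' : Ideal B')
    (h : UnrAt B K' L' (p'.comap (algebraMap B B'))) : UnrAt B' K' L' p' := by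
  intro x hx
  have hx' : ∀ y : L', IsIntegral B y → IsIntegral B (Algebra.trace K' L' (x * y)) := by
    intro y hy
    exact isIntegral_trans (R := B) (A := B') _ (hx y hy.tower_top)
  obtain ⟨a, ha, hax⟩ := h x hx'
  refine ⟨algebraMap B B' a, ha, ?_⟩
  rw [← IsScalarTower.algebraMap_apply B B' L']
  exact hax.tower_top

end BaseChange

section Core

open IsLocalRing

variable (B K L R : Type*) [CommRing B] [Field K] [Algebra B K] [IsFractionRing B K]
  [Field L] [CommRing R] [Algebra K L] [Algebra B L] [IsScalarTower B K L]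
  [Algebra R L] [IsIntegralClosure R B L] [Algebra B R] [IsScalarTower B R L]
  [IsDomain B] [IsIntegrallyClosed B] [IsNoetherianRing B] [IsLocalRing B]
  [FiniteDimensional K L] [Algebra.IsSeparable K L]
  (K' L' : Type*) [Field K'] [Field L'] [Algebra K K'] [Algebra B K'] [IsScalarTower B K K']
  [Algebra K' L'] [Algebra L L'] [Algebra K L'] [IsScalarTower K L L'] [IsScalarTower K K' L']
  [Algebra B L'] [IsScalarTower B L L'] [IsScalarTower B K L'] [IsScalarTower B K' L']
  [FiniteDimensional L L'] [Algebra.IsSeparable L L']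

/-- **Unramifiedness upstairs.**  With `B' = B[s] ⊆ K' = K(s)`, `s ^ e = g`, `L' = L(s)`:
if `L/K` is unramified at all primes of `B` not containing `g`, and `L'/K'` is unramified over
the prime `(g)` of `B` (the tame step), then `L'/K'` is unramified at every non-maximal prime
of `B'`. -/
theorem unrAt_adjoin_of_ne_maximalIdeal {lam g : B}
    (hm : maximalIdeal B = Ideal.span {lam, g})
    {e : ℕ} (he : IsUnit (e : B)) (he0 : e ≠ 0) {s : K'} (hs : s ^ e = algebraMap B K' g)
    (htop : Algebra.adjoin L {algebraMap K' L' s} = ⊤)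
    (hU : ∀ p : Ideal B, p.IsPrime → g ∉ p → UnrAt B K L p)
    (hT : UnrAt B K' L' (Ideal.span {g}))
    [IsLocalRing (Algebra.adjoin B {s})]
    (p' : Ideal (Algebra.adjoin B {s})) (hp' : p'.IsPrime)
    (hne : p' ≠ maximalIdeal (Algebra.adjoin B {s})) :
    UnrAt (Algebra.adjoin B {s}) K' L' p' := by
  have hsint : IsIntegral B s := isIntegral_of_pow_eq he0 hs
  have hint : Algebra.IsIntegral B (Algebra.adjoin B {s}) :=
    Algebra.IsIntegral.adjoin (S := {s}) (by simpa using hsint)
  apply unrAt_of_isIntegral_base (B := B)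
  have hpp : (p'.comap (algebraMap B (Algebra.adjoin B {s}))).IsPrime := Ideal.comap_isPrime _ _
  by_cases hgp : g ∈ p'.comap (algebraMap B (Algebra.adjoin B {s}))
  · have hpne : p'.comap (algebraMap B (Algebra.adjoin B {s})) ≠ maximalIdeal B := by
      intro hpm
      have hmax : p'.IsMaximal := Ideal.isMaximal_of_isIntegral_of_isMaximal_comap p'
        (hpm ▸ IsLocalRing.maximalIdeal.isMaximal B)
      exact hne (IsLocalRing.eq_maximalIdeal hmax)
    rw [eq_span_of_mem_of_ne_maximalIdeal hm _ hgp hpne]
    exact hT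
  · have hs' : (algebraMap K' L' s) ^ e = algebraMap B L' g := by
      rw [← map_pow, hs, ← IsScalarTower.algebraMap_apply]
    have hep : (e : B) ∉ p'.comap (algebraMap B (Algebra.adjoin B {s})) := fun h =>
      hpp.ne_top (Ideal.eq_top_of_isUnit_mem _ h he)
    exact unrAt_tower _ e g (algebraMap K' L' s) hs' htop hep hgp (hU _ hpp hgp)

/-- **Abhyankar's lemma, local form (core).**  `B` a noetherian integrally closed local domain
with maximal ideal `(lam, g)`, `lam` and `g` prime; `R` the integral closure of `B` in a finite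
separable extension `L` of `K = Frac B`, unramified (trace-dual form) at every prime of `B` not
containing `g`; `K' = K(s)`, `L' = L(s)` with `s ^ e = g`, `e` a unit of `B`; and `L'/K'`
unramified over the prime `(g)` of `B` (the tame step, `hT`).  Then `R` has the one-component
property for `lam`. -/
theorem abhyankar_oneComponent_core (lam g : B) (hlam : Prime lam) (hg : Prime g)
    (hlg : ¬ lam ∣ g) (hm : maximalIdeal B = Ideal.span {lam, g})
    (e : ℕ) (he : IsUnit (e : B)) (he0 : e ≠ 0)
    (s : K') (hs : s ^ e = algebraMap B K' g) (hK' : Algebra.adjoin K {s} = ⊤)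
    (htop : Algebra.adjoin L {algebraMap K' L' s} = ⊤)
    (hU : ∀ p : Ideal B, p.IsPrime → g ∉ p → UnrAt B K L p)
    (hT : UnrAt B K' L' (Ideal.span {g})) :
    helper403.OneComponent R (algebraMap B R lam) := by
  classical
  have hfinKL' : FiniteDimensional K L' := FiniteDimensional.trans K L L'
  have hfin1 : FiniteDimensional K K' := FiniteDimensional.left K K' L'
  have hfin2 : FiniteDimensional K' L' := FiniteDimensional.right K K' L'
  have hsepKL' : Algebra.IsSeparable K L' := Algebra.IsSeparable.trans K L L'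
  have hsep1 : Algebra.IsSeparable K K' := Algebra.isSeparable_tower_bot_of_isSeparable K K' L'
  have hsep2 : Algebra.IsSeparable K' L' := Algebra.isSeparable_tower_top_of_isSeparable K K' L'
  -- the base `B' = B[s]`
  have hloc' : IsLocalRing (Algebra.adjoin B {s}) := isLocalRing_adjoin K hm he0 hs
  have hnoeth' : IsNoetherianRing (Algebra.adjoin B {s}) := isNoetherianRing_adjoin he0 hs
  have hfrac' : IsFractionRing (Algebra.adjoin B {s}) K' :=
    isFractionRing_adjoin K hg he he0 hs hK'
  have hic' : IsIntegrallyClosed (Algebra.adjoin B {s}) :=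
    isIntegrallyClosed_adjoin K hg he he0 hs hK'
  have hmax' := maximalIdeal_adjoin K hm he0 hs
  have hlam' := prime_algebraMap_adjoin K hlam hg hlg hm he he0 hs hK'
  have hls' := not_dvd_adjoin K hlam hg hlg hm he he0 hs hK'
  have hsint : IsIntegral B s := isIntegral_of_pow_eq he0 hs
  have hint' : Algebra.IsIntegral B (Algebra.adjoin B {s}) :=
    Algebra.IsIntegral.adjoin (S := {s}) (by simpa using hsint)
  -- purity upstairs
  have hup : ∀ Q Q' : Ideal (integralClosure (Algebra.adjoin B {s}) L'), Q.IsPrime → Q'.IsPrime →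
      Q.comap (algebraMap (Algebra.adjoin B {s}) (integralClosure (Algebra.adjoin B {s}) L')) =
        Ideal.span {algebraMap B (Algebra.adjoin B {s}) lam} →
      Q'.comap (algebraMap (Algebra.adjoin B {s}) (integralClosure (Algebra.adjoin B {s}) L')) =
        Ideal.span {algebraMap B (Algebra.adjoin B {s}) lam} →
      Q ⊔ Q' ≠ ⊤ → Q = Q' := by
    intro Q Q' hQ hQ' hc hc' hsup
    exact Fermat.Agent.S18.helper3881.eq_of_sup_ne_top_of_unrAt (Algebra.adjoin B {s}) K' L'
      (integralClosure (Algebra.adjoin B {s}) L') _ _ hlam' hls' hmax'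
      (fun p' hp' hne => unrAt_adjoin_of_ne_maximalIdeal B K L K' L' hm he he0 hs htop hU hT
        p' hp' hne) Q Q' hc hc' hsup
  have hBL' : Function.Injective (algebraMap (Algebra.adjoin B {s}) L') := by
    rw [IsScalarTower.algebraMap_eq (Algebra.adjoin B {s}) K' L']
    exact (algebraMap K' L').injective.comp Subtype.val_injective
  have hfaith' : FaithfulSMul (Algebra.adjoin B {s}) (integralClosure (Algebra.adjoin B {s}) L') := by
    rw [faithfulSMul_iff_algebraMap_injective]
    intro a b hab
    apply hBL'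
    have := congrArg Subtype.val hab
    exact this
  have h1 : Fermat.Agent.S18.helper403.OneComponent (integralClosure (Algebra.adjoin B {s}) L')
      (algebraMap (Algebra.adjoin B {s}) (integralClosure (Algebra.adjoin B {s}) L')
        (algebraMap B (Algebra.adjoin B {s}) lam)) :=
    Fermat.Agent.S18.helper403.oneComponent_of_liesOver hlam' hup
  -- the ring `R` and the map `R → R'`
  have hRL : Function.Injective (algebraMap R L) := IsIntegralClosure.algebraMap_injective R B L
  have hdomR : IsDomain R := hRL.isDomain (algebraMap R L)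
  have hintBR : Algebra.IsIntegral B R := IsIntegralClosure.isIntegral_algebra B L
  have hfracR : IsFractionRing R L := IsIntegralClosure.isFractionRing_of_finite_extension B K L R
  have hicR : IsIntegrallyClosed R := by
    rw [isIntegrallyClosed_iff L]
    intro x hx
    exact IsIntegralClosure.isIntegral_iff.mp (isIntegral_trans (R := B) (A := R) x hx)
  let φ : R →+* integralClosure (Algebra.adjoin B {s}) L' :=
    ((algebraMap L L').comp (algebraMap R L)).codRestrict
      (integralClosure (Algebra.adjoin B {s}) L') (fun r =>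
        (((IsIntegralClosure.isIntegral B L r).algebraMap (B := L)).algebraMap
          (B := L')).tower_top)
  let algRR' : Algebra R (integralClosure (Algebra.adjoin B {s}) L') := φ.toAlgebra
  have hφval : ∀ r : R, ((algebraMap R (integralClosure (Algebra.adjoin B {s}) L') r :
      integralClosure (Algebra.adjoin B {s}) L') : L') = algebraMap L L' (algebraMap R L r) :=
    fun r => rfl
  have hfaithR : FaithfulSMul R (integralClosure (Algebra.adjoin B {s}) L') := by
    rw [faithfulSMul_iff_algebraMap_injective]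
    intro a b hab
    have := congrArg Subtype.val hab
    rw [hφval, hφval] at this
    exact hRL ((algebraMap L L').injective this)
  have htowerBRR' : IsScalarTower B R (integralClosure (Algebra.adjoin B {s}) L') := by
    refine IsScalarTower.of_algebraMap_eq fun b => Subtype.ext ?_
    rw [hφval, ← IsScalarTower.algebraMap_apply B R L, ← IsScalarTower.algebraMap_apply B L L']
    rfl
  have hintRR' : Algebra.IsIntegral R (integralClosure (Algebra.adjoin B {s}) L') := by
    refine ⟨fun y => ?_⟩
    have hyB' : IsIntegral (Algebra.adjoin B {s}) (y : L') := y.2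
    have hyB : IsIntegral B (y : L') := isIntegral_trans (R := B) (A := Algebra.adjoin B {s}) _ hyB'
    have hyB2 : IsIntegral B y :=
      (isIntegral_algHom_iff ((integralClosure (Algebra.adjoin B {s}) L').val.restrictScalars B)
        Subtype.val_injective).mp hyB
    exact hyB2.tower_top
  have hx : algebraMap R (integralClosure (Algebra.adjoin B {s}) L') (algebraMap B R lam) =
      algebraMap (Algebra.adjoin B {s}) (integralClosure (Algebra.adjoin B {s}) L')
        (algebraMap B (Algebra.adjoin B {s}) lam) := by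
    rw [← IsScalarTower.algebraMap_apply B R, ← IsScalarTower.algebraMap_apply B (Algebra.adjoin B {s})]
  exact Fermat.Agent.S18.helper3841.oneComponent_of_isIntegral
    (R' := integralClosure (Algebra.adjoin B {s}) L') (algebraMap B R lam) (hx ▸ h1)

/-- **Abhyankar's lemma, local form (core), "lying over" consumer shape** (same conclusion as
the purity leaf `helper3881.eq_of_sup_ne_top`). -/
theorem abhyankar_eq_of_sup_ne_top_core (lam g : B) (hlam : Prime lam) (hg : Prime g)
    (hlg : ¬ lam ∣ g) (hm : maximalIdeal B = Ideal.span {lam, g})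
    (e : ℕ) (he : IsUnit (e : B)) (he0 : e ≠ 0)
    (s : K') (hs : s ^ e = algebraMap B K' g) (hK' : Algebra.adjoin K {s} = ⊤)
    (htop : Algebra.adjoin L {algebraMap K' L' s} = ⊤)
    (hU : ∀ p : Ideal B, p.IsPrime → g ∉ p → UnrAt B K L p)
    (hT : UnrAt B K' L' (Ideal.span {g}))
    (Q Q' : Ideal R) [Q.IsPrime] [Q'.IsPrime]
    (hQ : Q.comap (algebraMap B R) = Ideal.span {lam})
    (hQ' : Q'.comap (algebraMap B R) = Ideal.span {lam}) (hsup : Q ⊔ Q' ≠ ⊤) : Q = Q' := by
  have hintBR : Algebra.IsIntegral B R := IsIntegralClosure.isIntegral_algebra B L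
  exact Fermat.Agent.S18.helper403.eq_of_liesOver_of_oneComponent
    (abhyankar_oneComponent_core B K L R K' L' lam g hlam hg hlg hm e he he0 s hs hK' htop hU hT)
    hQ hQ' hsup

end Core

end Fermat.Agent.S18.helper2636
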