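/-
S18 / T2a (helper3577): tame ramification is killed by adjoining a root of the uniformiser
(the "unramified at (s)" ingredient of Abhyankar's lemma).  Mathlib only.

Main statements:
* `not_mem_sq_of_pow_eq_uniformizer` (Step 2), `not_mem_sq_of_kummer_unit` (Step 1):
  the two one-step computations with the different ideal;
* `not_mem_sq_of_tower`, `not_mem_sq_of_tame`: the two steps combined along a tower
  `L ⊆ M ⊆ L'`;
* `differentIdeal_eq_top_of_forall_uniformizer`, `mem_range_of_forall_trace_mem`: a uniformiser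
  coming from the base ring at every prime (residue characteristic zero) forces a trivial
  different, i.e. the integral closure is its own trace dual;
* `tame_uniformizer`: `O` Dedekind with residue characteristic zero, `L / Frac O` finite, `g`
  of exact order dividing `e` at all primes of the integral closure in `L`, `L' = L(s)`,
  `s ^ e = g`: then `s` is a uniformiser at every prime of the integral closure in `L'`;
* `tame_traceDual`: the resulting trace-dual statement over any `K'` between `K` and `L'`
  containing `s` (the shape consumed by `helper2636`'s `UnrAt`).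
-/
import Mathlib

set_option autoImplicit false

open Polynomial IsDedekindDomain nonZeroDivisors IntermediateField

namespace Fermat.Agent.S18.helper3577

attribute [local instance] FractionRing.liftAlgebra FractionRing.isScalarTower_liftAlgebra

/-- Exact order of a nonzero element at a maximal ideal of a Dedekind domain, in a form that is
stable under powers. -/
theorem exists_order {B : Type*} [CommRing B] [IsDedekindDomain B] (Q : Ideal B) [Q.IsMaximal]
    (hQ0 : Q ≠ ⊥) {s : B} (hs : s ≠ 0) :
    ∃ a : ℕ, ∀ k m : ℕ, s ^ k ∈ Q ^ m ↔ m ≤ a * k := by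
  let v : HeightOneSpectrum B := ⟨Q, inferInstance, hQ0⟩
  have hw0 : v.intValuation s ≠ 0 := v.intValuation_ne_zero s hs
  have hw1 : v.intValuation s ≤ 1 := v.intValuation_le_one s
  have hlog : WithZero.log (v.intValuation s) ≤ 0 := by
    rw [WithZero.log_le_iff_le_exp hw0]
    simpa using hw1
  obtain ⟨a, ha⟩ : ∃ a : ℕ, WithZero.log (v.intValuation s) = -(a : ℤ) :=
    ⟨(-WithZero.log (v.intValuation s)).toNat, by
      rw [Int.toNat_of_nonneg (by omega)]; ring⟩
  have hwa : v.intValuation s = WithZero.exp (-(a : ℤ)) := by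
    rw [← ha, WithZero.exp_log hw0]
  refine ⟨a, fun k m => ?_⟩
  have h1 := v.intValuation_le_pow_iff_mem (s ^ k) m
  change _ ↔ s ^ k ∈ Q ^ m at h1
  rw [← h1, map_pow, hwa, ← WithZero.exp_nsmul, WithZero.exp_le_exp]
  simp only [nsmul_eq_mul, mul_neg, neg_le_neg_iff]
  constructor
  · intro h
    have : (m : ℤ) ≤ (a * k : ℕ) := by push_cast; linarith
    exact_mod_cast this
  · intro h
    have : (m : ℤ) ≤ (a * k : ℕ) := by exact_mod_cast h
    push_cast at this; linarith

/-- If `u ∈ P \ P²` in a Dedekind domain, some `d ∉ P` multiplies `P` into `(u)`. -/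
theorem exists_mul_mem_span {A : Type*} [CommRing A] [IsDedekindDomain A] (P : Ideal A)
    [P.IsPrime] {u : A} (hu : u ∈ P) (hu2 : u ∉ P ^ 2) :
    ∃ d : A, d ∉ P ∧ ∀ t ∈ P, ∃ r : A, t * d = r * u := by
  have hle : Ideal.span {u} ≤ P := (Ideal.span_singleton_le_iff_mem P).mpr hu
  obtain ⟨c, hc⟩ := Ideal.dvd_iff_le.mpr hle
  have hcP : ¬ c ≤ P := by
    intro h
    apply hu2
    have : Ideal.span {u} ≤ P ^ 2 := by
      rw [hc, pow_two]
      exact Ideal.mul_mono_right h
    exact this (Ideal.mem_span_singleton_self u)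
  obtain ⟨d, hdc, hdP⟩ := SetLike.not_le_iff_exists.mp hcP
  refine ⟨d, hdP, fun t ht => ?_⟩
  have : t * d ∈ Ideal.span {u} := by
    rw [hc]
    exact Ideal.mul_mem_mul ht hdc
  obtain ⟨r, hr⟩ := Ideal.mem_span_singleton'.mp this
  exact ⟨r, hr.symm⟩

/-- If `u ∈ P \ P²` (with `P = Q ∩ A`) and `u ∈ Q ^ m`, then `P B ⊆ Q ^ m`. -/
theorem map_le_pow_of_mem {A B : Type*} [CommRing A] [IsDedekindDomain A] [CommRing B]
    [IsDedekindDomain B] [Algebra A B] (Q : Ideal B) [Q.IsPrime] {u : A}
    (hu : u ∈ Q.comap (algebraMap A B)) (hu2 : u ∉ (Q.comap (algebraMap A B)) ^ 2) (m : ℕ)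
    (hm : algebraMap A B u ∈ Q ^ m) :
    (Q.comap (algebraMap A B)).map (algebraMap A B) ≤ Q ^ m := by
  obtain ⟨d, hd, hdt⟩ := exists_mul_mem_span (Q.comap (algebraMap A B)) hu hu2
  rw [Ideal.map_le_iff_le_comap]
  intro t ht
  obtain ⟨r, hr⟩ := hdt t ht
  have h1 : algebraMap A B d * algebraMap A B t ∈ Q ^ m := by
    rw [← map_mul, mul_comm, hr, map_mul]
    exact Ideal.mul_mem_left _ _ hm
  rcases Ideal.IsPrime.mul_mem_pow Q h1 with h | h
  · exact absurd h hd
  · exact h

section AKLB

variable {A K E B : Type*} [CommRing A] [IsDedekindDomain A] [Field K] [Algebra A K]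
  [IsFractionRing A K] [Field E] [Algebra K E] [FiniteDimensional K E] [Algebra A E]
  [IsScalarTower A K E] [CharZero K] [CommRing B] [Algebra A B] [Algebra B E]
  [IsScalarTower A B E] [IsIntegralClosure B A E]

include K E in
/-- Bundle of the derived facts in the `AKLB` setting with `char K = 0`. -/
theorem aklb_facts :
    IsDomain B ∧ IsDedekindDomain B ∧ Module.IsTorsionFree A B ∧ Module.Finite A B ∧
      IsFractionRing B E ∧ Algebra.IsSeparable K E := by
  have hsep : Algebra.IsSeparable K E := inferInstance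
  have hdom : IsDomain B := (IsIntegralClosure.algebraMap_injective B A E).isDomain _
  have htf0 : Module.IsTorsionFree A E := .trans_faithfulSMul A K E
  have htf : Module.IsTorsionFree A B := IsIntegralClosure.isTorsionFree A E
  have hded : IsDedekindDomain B := IsIntegralClosure.isDedekindDomain A K E B
  have hfin : Module.Finite A B := IsIntegralClosure.finite A K E B
  have hfr : IsFractionRing B E := IsIntegralClosure.isFractionRing_of_finite_extension A K E B
  exact ⟨hdom, hded, htf, hfin, hfr, hsep⟩

omit [IsFractionRing A K] [FiniteDimensional K E] [IsScalarTower A K E] [IsScalarTower A B E]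
  [IsIntegralClosure B A E] [Algebra B E] [Algebra A E] [Algebra K E] [Field E] in
include K in
theorem isSeparable_fractionRing [IsDomain B] [Module.IsTorsionFree A B] [Module.Finite A B] :
    Algebra.IsSeparable (FractionRing A) (FractionRing B) := by
  have : CharZero A := (algebraMap A K).charZero
  have : CharZero (FractionRing A) :=
    charZero_of_injective_algebraMap (FaithfulSMul.algebraMap_injective A (FractionRing A))
  have : FiniteDimensional (FractionRing A) (FractionRing B) :=
    .of_isLocalization A B (nonZeroDivisors A)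
  infer_instance

include K E in
/-- Root extraction `s ^ c = ρ`: the element `c * s ^ (c - 1)` lies in the different. -/
theorem natCast_mul_pow_mem_differentIdeal [IsDedekindDomain B] [Module.IsTorsionFree A B]
    (s : B) (ρ : A) (c : ℕ) (hsc : s ^ c = algebraMap A B ρ)
    (hgen : Algebra.adjoin K {algebraMap B E s} = ⊤) :
    (c : B) * s ^ (c - 1) ∈ differentIdeal A B := by
  have hsep : Algebra.IsSeparable K E := inferInstance
  have hint : IsIntegral A s := IsIntegralClosure.isIntegral A E s
  have h0 : aeval s (X ^ c - C ρ : A[X]) = 0 := by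
    simp [hsc]
  obtain ⟨q, hq⟩ := minpoly.isIntegrallyClosed_dvd hint h0
  have hder := congrArg (fun p => aeval s (derivative p)) hq
  simp only [derivative_sub, derivative_X_pow, derivative_C, sub_zero, derivative_mul, map_add,
    map_mul, minpoly.aeval, zero_mul, add_zero, map_natCast, map_pow, aeval_X] at hder
  rw [hder]
  exact Ideal.mul_mem_right _ _ (aeval_derivative_mem_differentIdeal A K E s hgen)

include K E in
/-- **Step 2 (Eisenstein-type root extraction).** If `ρ` is a uniformiser at `P = Q ∩ A`,
`s ^ c = ρ`, `E = K(s)` and `c ∉ Q`, then `s` is a uniformiser at `Q`. -/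
theorem not_mem_sq_of_pow_eq_uniformizer
    (s : B) (ρ : A) (c : ℕ) (hsc : s ^ c = algebraMap A B ρ)
    (hgen : Algebra.adjoin K {algebraMap B E s} = ⊤)
    (Q : Ideal B) [hQ : Q.IsMaximal] (hcQ : (c : B) ∉ Q)
    (hρ : ρ ∈ Q.comap (algebraMap A B)) (hρ2 : ρ ∉ (Q.comap (algebraMap A B)) ^ 2) :
    s ∈ Q ∧ s ∉ Q ^ 2 := by
  obtain ⟨hdom, hded, htf, hfin, hfr, hsep⟩ := aklb_facts (A := A) (K := K) (E := E) (B := B)
  have hsepF := isSeparable_fractionRing (A := A) (K := K) (B := B)
  have hint : Algebra.IsIntegral A B := IsIntegralClosure.isIntegral_algebra A E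
  have hPmax : (Q.comap (algebraMap A B)).IsMaximal :=
    Ideal.isMaximal_comap_of_isIntegral_of_isMaximal Q
  have hρ0 : ρ ≠ 0 := by
    rintro rfl
    exact hρ2 (Ideal.zero_mem _)
  have hP0 : Q.comap (algebraMap A B) ≠ ⊥ := by
    intro h
    rw [h] at hρ
    exact hρ0 (by simpa using hρ)
  have hc0 : c ≠ 0 := by
    rintro rfl
    exact hcQ (by simp)
  have hs0 : s ≠ 0 := by
    rintro rfl
    rw [zero_pow hc0] at hsc
    exact hρ0 ((FaithfulSMul.algebraMap_injective A B) (by rw [← hsc, map_zero]))
  have hsQ : s ∈ Q := by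
    have : s ^ c ∈ Q := by rw [hsc]; exact hρ
    exact hQ.isPrime.mem_of_pow_mem c this
  have hQ0 : Q ≠ ⊥ := by
    rintro rfl
    exact hs0 (by simpa using hsQ)
  refine ⟨hsQ, fun hs2 => ?_⟩
  obtain ⟨a, ha⟩ := exists_order Q hQ0 hs0
  have ha2 : 2 ≤ a := by
    have := (ha 1 2).mp (by simpa using hs2)
    simpa using this
  -- `ρ ∈ Q ^ (a * c)`
  have hρQ : algebraMap A B ρ ∈ Q ^ (a * c) := by
    rw [← hsc]
    exact (ha c (a * c)).mpr le_rfl
  have hmap := map_le_pow_of_mem Q hρ hρ2 (a * c) hρQ
  have hdiff : Q ^ (a * c - 1) ∣ differentIdeal A B :=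
    pow_sub_one_dvd_differentIdeal A Q (a * c) hP0 (Ideal.dvd_iff_le.mpr hmap)
  have hmem : (c : B) * s ^ (c - 1) ∈ Q ^ (a * c - 1) :=
    Ideal.dvd_iff_le.mp hdiff
      (natCast_mul_pow_mem_differentIdeal (K := K) (E := E) s ρ c hsc hgen)
  have hmem' : s ^ (c - 1) ∈ Q ^ (a * c - 1) := by
    rcases Ideal.IsPrime.mul_mem_pow Q hmem with h | h
    · exact absurd h hcQ
    · exact h
  have hle := (ha (c - 1) (a * c - 1)).mp hmem'
  have hc1 : 1 ≤ c := Nat.one_le_iff_ne_zero.mpr hc0
  have h1 : a * c - 1 + a ≤ a * c := by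
    calc a * c - 1 + a ≤ a * (c - 1) + a := Nat.add_le_add_right hle a
      _ = a * c := by
        obtain ⟨c', rfl⟩ : ∃ c', c = c' + 1 := ⟨c - 1, by omega⟩
        simp [Nat.mul_succ]
  have h2 : 1 ≤ a * c := Nat.one_le_iff_ne_zero.mpr (Nat.mul_ne_zero (by omega) hc0)
  omega

include K E in
/-- **Step 1 (unramified Kummer step).** If `E = K(y)`, `y ^ n = x` with `x ∉ Q` and `n ∉ Q`,
then a uniformiser `u` at `P = Q ∩ A` is still a uniformiser at `Q`. -/
theorem not_mem_sq_of_kummer_unit
    (y : B) (x : A) (n : ℕ) (hy : y ^ n = algebraMap A B x)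
    (hgen : Algebra.adjoin K {algebraMap B E y} = ⊤)
    (Q : Ideal B) [hQ : Q.IsMaximal] (hnQ : (n : B) ∉ Q) (hxQ : algebraMap A B x ∉ Q)
    (u : A) (hu : u ∈ Q.comap (algebraMap A B)) (hu2 : u ∉ (Q.comap (algebraMap A B)) ^ 2) :
    algebraMap A B u ∉ Q ^ 2 := by
  obtain ⟨hdom, hded, htf, hfin, hfr, hsep⟩ := aklb_facts (A := A) (K := K) (E := E) (B := B)
  have hsepF := isSeparable_fractionRing (A := A) (K := K) (B := B)
  have hint : Algebra.IsIntegral A B := IsIntegralClosure.isIntegral_algebra A E
  have hPmax : (Q.comap (algebraMap A B)).IsMaximal :=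
    Ideal.isMaximal_comap_of_isIntegral_of_isMaximal Q
  have hu0 : u ≠ 0 := by
    rintro rfl
    exact hu2 (Ideal.zero_mem _)
  have hP0 : Q.comap (algebraMap A B) ≠ ⊥ := by
    intro h
    rw [h] at hu
    exact hu0 (by simpa using hu)
  intro hmem
  have hmap := map_le_pow_of_mem Q hu hu2 2 hmem
  have hdiff : Q ^ (2 - 1) ∣ differentIdeal A B :=
    pow_sub_one_dvd_differentIdeal A Q 2 hP0 (Ideal.dvd_iff_le.mpr hmap)
  have h1 : (n : B) * y ^ (n - 1) ∈ Q := by
    have := Ideal.dvd_iff_le.mp hdiff
      (natCast_mul_pow_mem_differentIdeal (K := K) (E := E) y x n hy hgen)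
    simpa using this
  have hn0 : n ≠ 0 := by
    rintro rfl
    exact hnQ (by simp)
  rcases hQ.isPrime.mem_or_mem h1 with h | h
  · exact hnQ h
  · have hyQ : y ∈ Q := by
      by_cases hn1 : n - 1 = 0
      · rw [hn1, pow_zero] at h
        exact absurd ((Ideal.eq_top_iff_one Q).mpr h) hQ.ne_top
      · exact hQ.isPrime.mem_of_pow_mem _ h
    apply hxQ
    rw [← hy]
    exact Ideal.pow_mem_of_mem Q hyQ n (Nat.pos_of_ne_zero hn0)

end AKLB

/-- If `g ∈ P ^ n \ P ^ (n+1)` for a nonzero maximal ideal `P` of a Dedekind domain, then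
`d ^ n * g = x * u ^ n` with `u` a uniformiser at `P` and `d, x ∉ P`. -/
theorem exists_uniformizer_decomp {R : Type*} [CommRing R] [IsDedekindDomain R] (P : Ideal R)
    [hP : P.IsMaximal] (hP0 : P ≠ ⊥) {g : R} {n : ℕ} (hg : g ∈ P ^ n) (hg' : g ∉ P ^ (n + 1)) :
    ∃ u d x : R, u ∈ P ∧ u ∉ P ^ 2 ∧ d ∉ P ∧ x ∉ P ∧ d ^ n * g = x * u ^ n := by
  obtain ⟨u, hu1, hu2⟩ := Ideal.exists_mem_pow_notMem_pow_succ P hP0 hP.ne_top 1
  rw [pow_one] at hu1
  have hle : Ideal.span {u} ≤ P := (Ideal.span_singleton_le_iff_mem P).mpr hu1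
  obtain ⟨c, hc⟩ := Ideal.dvd_iff_le.mpr hle
  have hcP : ¬ c ≤ P := by
    intro h
    apply hu2
    have : Ideal.span {u} ≤ P ^ 2 := by
      rw [hc, pow_two]
      exact Ideal.mul_mono_right h
    exact this (Ideal.mem_span_singleton_self u)
  obtain ⟨d, hdc, hdP⟩ := SetLike.not_le_iff_exists.mp hcP
  have hmem : g * d ^ n ∈ Ideal.span {u ^ n} := by
    rw [← Ideal.span_singleton_pow, hc, mul_pow]
    exact Ideal.mul_mem_mul hg (Ideal.pow_mem_pow hdc n)
  obtain ⟨x, hx⟩ := Ideal.mem_span_singleton'.mp hmem
  refine ⟨u, d, x, hu1, hu2, hdP, ?_, by rw [mul_comm, ← hx]⟩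
  intro hxP
  have h1 : d ^ n * g ∈ P ^ (n + 1) := by
    rw [mul_comm, ← hx, pow_succ']
    exact Ideal.mul_mem_mul hxP (Ideal.pow_mem_pow hu1 n)
  rcases Ideal.IsPrime.mul_mem_pow P h1 with h | h
  · exact hdP (hP.isPrime.mem_of_pow_mem n h)
  · exact hg' h

section Tower

variable {R L RM M B L' : Type*}
  [CommRing R] [IsDedekindDomain R] [Field L] [Algebra R L] [IsFractionRing R L] [CharZero L]
  [Field M] [Algebra L M] [FiniteDimensional L M] [Algebra R M] [IsScalarTower R L M]
  [CommRing RM] [Algebra R RM] [Algebra RM M] [IsScalarTower R RM M] [IsIntegralClosure RM R M]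
  [Field L'] [Algebra M L'] [FiniteDimensional M L'] [Algebra RM L'] [IsScalarTower RM M L']
  [CommRing B] [Algebra RM B] [Algebra B L'] [IsScalarTower RM B L'] [IsIntegralClosure B RM L']

include L M L' in
/-- **Tame tower.** `R ⊆ RM ⊆ B` integral closures in `L ⊆ M ⊆ L'`; at `P = Q ∩ R` we have
`d ^ n * g = x * u ^ n` with `u` a uniformiser and `d, x ∉ P` (i.e. `ord_P g = n`); `ρ ^ n = g`,
`M = L(y)` with `d * ρ = y * u`, and `L' = M(s)` with `s ^ c = ρ`. Then `s` is a uniformiser
at `Q`. -/
theorem not_mem_sq_of_tower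
    (Q : Ideal B) [hQ : Q.IsMaximal] (n c : ℕ) (hn : n ≠ 0)
    (hnQ : (n : B) ∉ Q) (hcQ : (c : B) ∉ Q)
    (g u d x : R)
    (hu : u ∈ (Q.comap (algebraMap RM B)).comap (algebraMap R RM))
    (hu2 : u ∉ ((Q.comap (algebraMap RM B)).comap (algebraMap R RM)) ^ 2)
    (hd : d ∉ (Q.comap (algebraMap RM B)).comap (algebraMap R RM))
    (hx : x ∉ (Q.comap (algebraMap RM B)).comap (algebraMap R RM))
    (hdx : d ^ n * g = x * u ^ n)
    (s : B) (ρ y : RM)
    (hsc : s ^ c = algebraMap RM B ρ) (hρn : ρ ^ n = algebraMap R RM g)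
    (hyu : algebraMap R RM d * ρ = y * algebraMap R RM u)
    (hgenM : Algebra.adjoin L {algebraMap RM M y} = ⊤)
    (hgenL' : Algebra.adjoin M {algebraMap B L' s} = ⊤) :
    s ∈ Q ∧ s ∉ Q ^ 2 := by
  obtain ⟨hdomM, hdedM, htfM, hfinM, hfrM, hsepM⟩ :=
    aklb_facts (A := R) (K := L) (E := M) (B := RM)
  have hcharM : CharZero M := charZero_of_injective_algebraMap (algebraMap L M).injective
  obtain ⟨hdomB, hdedB, htfB, hfinB, hfrB, hsepB⟩ :=
    aklb_facts (A := RM) (K := M) (E := L') (B := B)
  have hintB : Algebra.IsIntegral RM B := IsIntegralClosure.isIntegral_algebra RM L'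
  have hQM : (Q.comap (algebraMap RM B)).IsMaximal :=
    Ideal.isMaximal_comap_of_isIntegral_of_isMaximal Q
  have hintM : Algebra.IsIntegral R RM := IsIntegralClosure.isIntegral_algebra R M
  have hP : ((Q.comap (algebraMap RM B)).comap (algebraMap R RM)).IsMaximal :=
    Ideal.isMaximal_comap_of_isIntegral_of_isMaximal _
  have hu0 : u ≠ 0 := by
    rintro rfl
    exact hu2 (Ideal.zero_mem _)
  have hinj : Function.Injective (algebraMap R RM) := FaithfulSMul.algebraMap_injective R RM
  -- `y ^ n = x`
  have hyn : y ^ n = algebraMap R RM x := by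
    have h1 : (algebraMap R RM d * ρ) ^ n = (y * algebraMap R RM u) ^ n := by rw [hyu]
    rw [mul_pow, mul_pow, hρn, ← map_pow, ← map_mul, hdx, map_mul, map_pow] at h1
    have hu' : algebraMap R RM u ^ n ≠ 0 :=
      pow_ne_zero _ (by rwa [Ne, map_eq_zero_iff _ hinj])
    exact (mul_right_cancel₀ hu' h1).symm
  -- Step 1
  have hstep1 : algebraMap R RM u ∉ (Q.comap (algebraMap RM B)) ^ 2 := by
    refine not_mem_sq_of_kummer_unit (K := L) (E := M) y x n hyn hgenM
      (Q.comap (algebraMap RM B)) ?_ ?_ u hu hu2
    · intro h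
      apply hnQ
      have : algebraMap RM B (n : RM) ∈ Q := h
      simpa using this
    · exact hx
  -- `g ∈ P`
  have hgP : g ∈ (Q.comap (algebraMap RM B)).comap (algebraMap R RM) := by
    have : d ^ n * g ∈ (Q.comap (algebraMap RM B)).comap (algebraMap R RM) := by
      rw [hdx]
      exact Ideal.mul_mem_left _ _ (Ideal.pow_mem_of_mem _ hu n (Nat.pos_of_ne_zero hn))
    rcases hP.isPrime.mem_or_mem this with h | h
    · exact absurd (hP.isPrime.mem_of_pow_mem n h) hd
    · exact h
  have hρQ : ρ ∈ Q.comap (algebraMap RM B) := by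
    have : ρ ^ n ∈ Q.comap (algebraMap RM B) := by rw [hρn]; exact hgP
    exact hQM.isPrime.mem_of_pow_mem n this
  have hyQ : y ∉ Q.comap (algebraMap RM B) := by
    intro h
    apply hx
    have : y ^ n ∈ Q.comap (algebraMap RM B) :=
      Ideal.pow_mem_of_mem _ h n (Nat.pos_of_ne_zero hn)
    rw [hyn] at this
    exact this
  have hρ2 : ρ ∉ (Q.comap (algebraMap RM B)) ^ 2 := by
    intro h
    have h1 : y * algebraMap R RM u ∈ (Q.comap (algebraMap RM B)) ^ 2 := by
      rw [← hyu]
      exact Ideal.mul_mem_left _ _ h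
    rcases Ideal.IsPrime.mul_mem_pow _ h1 with h2 | h2
    · exact hyQ h2
    · exact hstep1 h2
  -- Step 2
  exact not_mem_sq_of_pow_eq_uniformizer (K := M) (E := L') s ρ c hsc hgenL' Q hcQ hρQ hρ2

include L M L' in
/-- **Tame tower, ideal form.** As `not_mem_sq_of_tower`, with the hypothesis `ord_P g = n`
in the form `g ∈ P ^ n \ P ^ (n + 1)` and `M = L(ρ)`. -/
theorem not_mem_sq_of_tame
    (Q : Ideal B) [hQ : Q.IsMaximal] (n c : ℕ)
    (hnQ : (n : B) ∉ Q) (hcQ : (c : B) ∉ Q)
    (g : R)
    (hg : g ∈ ((Q.comap (algebraMap RM B)).comap (algebraMap R RM)) ^ n)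
    (hg' : g ∉ ((Q.comap (algebraMap RM B)).comap (algebraMap R RM)) ^ (n + 1))
    (s : B) (ρ : RM)
    (hsc : s ^ c = algebraMap RM B ρ) (hρn : ρ ^ n = algebraMap R RM g)
    (hgenM : Algebra.adjoin L {algebraMap RM M ρ} = ⊤)
    (hgenL' : Algebra.adjoin M {algebraMap B L' s} = ⊤) :
    s ∈ Q ∧ s ∉ Q ^ 2 := by
  obtain ⟨hdomM, hdedM, htfM, hfinM, hfrM, hsepM⟩ :=
    aklb_facts (A := R) (K := L) (E := M) (B := RM)
  have hcharM : CharZero M := charZero_of_injective_algebraMap (algebraMap L M).injective
  obtain ⟨hdomB, hdedB, htfB, hfinB, hfrB, hsepB⟩ :=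
    aklb_facts (A := RM) (K := M) (E := L') (B := B)
  have hintB : Algebra.IsIntegral RM B := IsIntegralClosure.isIntegral_algebra RM L'
  have hQM : (Q.comap (algebraMap RM B)).IsMaximal :=
    Ideal.isMaximal_comap_of_isIntegral_of_isMaximal Q
  have hintM : Algebra.IsIntegral R RM := IsIntegralClosure.isIntegral_algebra R M
  have hP : ((Q.comap (algebraMap RM B)).comap (algebraMap R RM)).IsMaximal :=
    Ideal.isMaximal_comap_of_isIntegral_of_isMaximal _
  have hn : n ≠ 0 := by
    rintro rfl
    exact hnQ (by simp)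
  have hP0 : (Q.comap (algebraMap RM B)).comap (algebraMap R RM) ≠ ⊥ := by
    intro h
    rw [h] at hg hg'
    apply hg'
    have h0 : g = 0 := by
      have : (⊥ : Ideal R) ^ n = ⊥ := by
        rw [← Ideal.zero_eq_bot, zero_pow hn]
      rw [this] at hg
      simpa using hg
    rw [h0]
    exact Ideal.zero_mem _
  obtain ⟨u, d, x, hu, hu2, hd, hx, hdx⟩ := exists_uniformizer_decomp _ hP0 hg hg'
  have hu0 : u ≠ 0 := by
    rintro rfl
    exact hu2 (Ideal.zero_mem _)
  have hinjRM : Function.Injective (algebraMap R M) := by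
    rw [IsScalarTower.algebraMap_eq R L M]
    exact (algebraMap L M).injective.comp (IsFractionRing.injective R L)
  have huM : algebraMap R M u ≠ 0 := by
    rwa [Ne, map_eq_zero_iff _ hinjRM]
  -- the element `y = d ρ / u`
  have hyint : IsIntegral R (algebraMap R M d * algebraMap RM M ρ / algebraMap R M u) := by
    refine ⟨X ^ n - C x, monic_X_pow_sub_C x hn, ?_⟩
    simp only [eval₂_sub, eval₂_pow, eval₂_X, eval₂_C, div_pow, mul_pow]
    rw [← map_pow (algebraMap RM M), hρn, ← IsScalarTower.algebraMap_apply R RM M, ← map_pow,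
      ← map_mul, hdx, map_mul, map_pow, mul_div_assoc, div_self (pow_ne_zero n huM), mul_one,
      sub_self]
  obtain ⟨y, hy⟩ : ∃ y : RM, algebraMap RM M y =
      algebraMap R M d * algebraMap RM M ρ / algebraMap R M u :=
    ⟨IsIntegralClosure.mk' RM _ hyint, IsIntegralClosure.algebraMap_mk' RM _ hyint⟩
  have hyu : algebraMap R RM d * ρ = y * algebraMap R RM u := by
    apply IsIntegralClosure.algebraMap_injective RM R M
    rw [map_mul, map_mul, hy, ← IsScalarTower.algebraMap_apply R RM M,
      ← IsScalarTower.algebraMap_apply R RM M, div_mul_cancel₀ _ huM]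
  have hdM : algebraMap R M d ≠ 0 := by
    rw [Ne, map_eq_zero_iff _ hinjRM]
    rintro rfl
    exact hd (Ideal.zero_mem _)
  have hgenM' : Algebra.adjoin L {algebraMap RM M y} = ⊤ := by
    rw [eq_top_iff, ← hgenM]
    apply Algebra.adjoin_le
    intro z hz
    rw [Set.mem_singleton_iff] at hz
    subst hz
    have : algebraMap RM M ρ =
        (algebraMap R L u / algebraMap R L d) • algebraMap RM M y := by
      rw [Algebra.smul_def, hy, map_div₀, ← IsScalarTower.algebraMap_apply R L M,
        ← IsScalarTower.algebraMap_apply R L M]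
      field_simp
    rw [this]
    exact Subalgebra.smul_mem _ (Algebra.subset_adjoin (Set.mem_singleton _)) _
  exact not_mem_sq_of_tower (L := L) (M := M) (L' := L') Q n c hn hnQ hcQ g u d x hu hu2 hd hx hdx
    s ρ y hsc hρn hyu hgenM' hgenL'

end Tower

section Unramified

variable {A K E B : Type*} [CommRing A] [IsDedekindDomain A] [Field K] [Algebra A K]
  [IsFractionRing A K] [Field E] [Algebra K E] [FiniteDimensional K E] [Algebra A E]
  [IsScalarTower A K E] [CharZero K] [CommRing B] [Algebra A B] [Algebra B E]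
  [IsScalarTower A B E] [IsIntegralClosure B A E]

include K E in
/-- If every nonzero maximal ideal `Q` of `B` contains an element of `A` that is a uniformiser
at `Q`, and the residue characteristics are zero, then the different is trivial. -/
theorem differentIdeal_eq_top_of_forall_uniformizer [IsDedekindDomain B]
    [Module.IsTorsionFree A B]
    (hchar : ∀ m : ℕ, m ≠ 0 → IsUnit (m : A))
    (hunr : ∀ Q : Ideal B, Q.IsMaximal → Q ≠ ⊥ →
      ∃ π : A, algebraMap A B π ∈ Q ∧ algebraMap A B π ∉ Q ^ 2) :
    differentIdeal A B = ⊤ := by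
  obtain ⟨hdom, -, -, hfin, hfr, hsep⟩ := aklb_facts (A := A) (K := K) (E := E) (B := B)
  have hsepF := isSeparable_fractionRing (A := A) (K := K) (B := B)
  have hint : Algebra.IsIntegral A B := IsIntegralClosure.isIntegral_algebra A E
  by_contra hne
  obtain ⟨Q, hQ, hle⟩ := Ideal.exists_le_maximal _ hne
  have hQdvd : Q ∣ differentIdeal A B := Ideal.dvd_iff_le.mpr hle
  have hQ0 : Q ≠ ⊥ := by
    rintro rfl
    exact differentIdeal_ne_bot (A := A) (B := B) (le_bot_iff.mp hle)
  obtain ⟨π, hπ, hπ2⟩ := hunr Q hQ hQ0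
  have hPmax : (Q.comap (algebraMap A B)).IsMaximal :=
    Ideal.isMaximal_comap_of_isIntegral_of_isMaximal Q
  have hlies : Q.LiesOver (Q.comap (algebraMap A B)) := ⟨rfl⟩
  have hmap : (Q.comap (algebraMap A B)).map (algebraMap A B) ≤ Q := Ideal.map_comap_le
  obtain ⟨J, hJ⟩ := Ideal.dvd_iff_le.mpr hmap
  have hJQ : ¬ J ≤ Q := by
    intro h
    apply hπ2
    have h2 : (Q.comap (algebraMap A B)).map (algebraMap A B) ≤ Q ^ 2 := by
      rw [hJ, pow_two]
      exact Ideal.mul_mono_right h
    exact h2 (Ideal.mem_map_of_mem _ hπ)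
  have hcop : IsCoprime Q J := by
    rw [Ideal.isCoprime_iff_sup_eq]
    by_contra hne'
    have := hQ.eq_of_le hne' le_sup_left
    exact hJQ (this ▸ le_sup_right)
  let _ := Ideal.Quotient.field (Q.comap (algebraMap A B))
  let _ := Ideal.Quotient.field Q
  have : CharZero (A ⧸ Q.comap (algebraMap A B)) := by
    refine charZero_of_inj_zero fun m hm => ?_
    by_contra hm0
    have h1 : ((m : A) : A ⧸ Q.comap (algebraMap A B)) = 0 := by
      rw [← hm]; simp
    rw [Ideal.Quotient.eq_zero_iff_mem] at h1
    exact hPmax.ne_top (Ideal.eq_top_of_isUnit_mem _ h1 (hchar m hm0))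
  have : Algebra.IsSeparable (A ⧸ Q.comap (algebraMap A B)) (B ⧸ Q) := inferInstance
  exact not_dvd_differentIdeal_of_isCoprime_of_isSeparable A Q J hcop hJ.symm hQdvd

include K in
/-- **Trivial different in trace-dual form.** Under the hypotheses of
`differentIdeal_eq_top_of_forall_uniformizer`, an element of `E` whose trace pairing with `B`
takes values in `A` lies in `B`. -/
theorem mem_range_of_forall_trace_mem
    (hchar : ∀ m : ℕ, m ≠ 0 → IsUnit (m : A))
    (hunr : ∀ Q : Ideal B, Q.IsMaximal → Q ≠ ⊥ →
      ∃ π : A, algebraMap A B π ∈ Q ∧ algebraMap A B π ∉ Q ^ 2)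
    (x : E)
    (hx : ∀ y : B, Algebra.trace K E (x * algebraMap B E y) ∈ (algebraMap A K).range) :
    x ∈ (algebraMap B E).range := by
  obtain ⟨hdom, hded, htf, hfin, hfr, hsep⟩ := aklb_facts (A := A) (K := K) (E := E) (B := B)
  have hD := differentIdeal_eq_top_of_forall_uniformizer (K := K) (E := E) hchar hunr
  have h1 := coeIdeal_differentIdeal A K E B
  rw [hD, FractionalIdeal.coeIdeal_top, eq_comm, inv_eq_one] at h1
  have hxmem : x ∈ FractionalIdeal.dual A K (1 : FractionalIdeal B⁰ E) := by
    rw [FractionalIdeal.mem_dual (one_ne_zero : (1 : FractionalIdeal B⁰ E) ≠ 0)]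
    intro a ha
    obtain ⟨b, rfl⟩ := (FractionalIdeal.mem_one_iff _).mp ha
    rw [Algebra.traceForm_apply]
    exact hx b
  rw [h1] at hxmem
  obtain ⟨b, hb⟩ := (FractionalIdeal.mem_one_iff _).mp hxmem
  exact ⟨b, hb⟩

end Unramified

/-- A generator over the bottom field generates over any intermediate ring. -/
theorem adjoin_singleton_eq_top_of_tower (F : Type*) {M E : Type*} [CommSemiring F]
    [CommSemiring M] [Semiring E] [Algebra F M] [Algebra M E] [Algebra F E] [IsScalarTower F M E]
    (s : E) (h : Algebra.adjoin F {s} = ⊤) : Algebra.adjoin M {s} = ⊤ := by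
  rw [eq_top_iff]
  intro z _
  have hz : z ∈ Algebra.adjoin F {s} := by rw [h]; exact Algebra.mem_top
  have hle : Algebra.adjoin F {s} ≤ (Algebra.adjoin M {s}).restrictScalars F := by
    apply Algebra.adjoin_le
    intro w hw
    rw [Set.mem_singleton_iff] at hw
    rw [hw, SetLike.mem_coe, Subalgebra.mem_restrictScalars]
    exact Algebra.subset_adjoin (Set.mem_singleton s)
  exact (Subalgebra.mem_restrictScalars F).mp (hle hz)

section Final

variable {O K L L' : Type*}
    [CommRing O] [IsDedekindDomain O]
    [Field K] [Algebra O K] [IsFractionRing O K]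
    [Field L] [Algebra K L] [Algebra O L] [IsScalarTower O K L] [FiniteDimensional K L]
    [Field L'] [Algebra L L'] [Algebra O L'] [IsScalarTower O L L'] [FiniteDimensional L L']

include K in
/-- **Tame ramification is killed by adjoining an `e`-th root of `g`.** If `g` has exact order
`n ∣ e` at every maximal ideal of the integral closure of `O` in `L`, and `L' = L(s)` with
`s ^ e = g`, then `s` is a uniformiser at every maximal ideal of the integral closure of `O`
in `L'`. -/
theorem tame_uniformizer
    (hchar : ∀ m : ℕ, m ≠ 0 → IsUnit (m : O))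
    (g : O) (e : ℕ) (he : e ≠ 0) (s : integralClosure O L')
    (hs : (s : L') ^ e = algebraMap O L' g)
    (htop : Algebra.adjoin L {(s : L')} = ⊤)
    (htame : ∀ P : Ideal (integralClosure O L), P.IsMaximal → ∃ n : ℕ, n ∣ e ∧
      algebraMap O (integralClosure O L) g ∈ P ^ n ∧
      algebraMap O (integralClosure O L) g ∉ P ^ (n + 1))
    (Q : Ideal (integralClosure O L')) [hQ : Q.IsMaximal] :
    s ∈ Q ∧ s ∉ Q ^ 2 := by
  classical
  have hcharK : CharZero K := by
    refine charZero_of_inj_zero fun m hm => ?_
    by_contra hm0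
    have h1 : algebraMap O K (m : O) = 0 := by rw [map_natCast]; exact hm
    rw [map_eq_zero_iff _ (IsFractionRing.injective O K)] at h1
    exact (hchar m hm0).ne_zero h1
  have hcharL : CharZero L := charZero_of_injective_algebraMap (algebraMap K L).injective
  have hRded : IsDedekindDomain (integralClosure O L) := integralClosure.isDedekindDomain O K L
  have hRfr : IsFractionRing (integralClosure O L) L :=
    integralClosure.isFractionRing_of_finite_extension K L
  -- the inclusion of integral closures
  let φ : integralClosure O L →+* integralClosure O L' :=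
    ((algebraMap L L').comp (algebraMap (integralClosure O L) L)).codRestrict
      (integralClosure O L') (fun r => by
        have h1 : IsIntegral O (r : L) := r.2
        exact h1.algebraMap)
  have hφint : φ.IsIntegral := by
    have hcomp : φ.comp (algebraMap O (integralClosure O L)) =
        algebraMap O (integralClosure O L') := by
      ext a
      change algebraMap L L' (algebraMap O L a) = algebraMap O L' a
      rw [← IsScalarTower.algebraMap_apply O L L']
    apply RingHom.IsIntegral.tower_top (algebraMap O (integralClosure O L)) φ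
    rw [hcomp]
    exact (Algebra.IsIntegral.isIntegral (R := O) (A := integralClosure O L'))
  have hPmax : (Q.comap φ).IsMaximal :=
    Ideal.isMaximal_comap_of_isIntegral_of_isMaximal' φ hφint Q
  obtain ⟨n, ⟨c, rfl⟩, hgn, hgn'⟩ := htame (Q.comap φ) hPmax
  have hn0 : n ≠ 0 := fun h => he (by rw [h, zero_mul])
  have hc0 : c ≠ 0 := fun h => he (by rw [h, mul_zero])
  -- the intermediate field `M = L(s ^ c)` and its ring of integers
  let M := IntermediateField.adjoin L {(s : L') ^ c}
  have hsint : IsIntegral L ((s : L') ^ c) := IsIntegral.of_finite L _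
  have hT1 : IsScalarTower (integralClosure O L) (integralClosure (integralClosure O L) M) L' :=
    IsScalarTower.of_algebraMap_eq (fun x => rfl)
  have hT2 : IsScalarTower O (integralClosure O L) L' := inferInstance
  have hint1 : Algebra.IsIntegral (integralClosure O L) (integralClosure (integralClosure O L) M) :=
    inferInstance
  have hint2 : Algebra.IsIntegral O (integralClosure O L) := inferInstance
  have hRMint : ∀ r : integralClosure (integralClosure O L) M,
      IsIntegral O (algebraMap (integralClosure (integralClosure O L) M) L' r) := by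
    intro r
    have h1 : IsIntegral (integralClosure O L) r := Algebra.IsIntegral.isIntegral r
    have h2 : IsIntegral (integralClosure O L)
        (algebraMap (integralClosure (integralClosure O L) M) L' r) := h1.algebraMap
    exact isIntegral_trans _ h2
  let ψ : integralClosure (integralClosure O L) M →+* integralClosure O L' :=
    (algebraMap (integralClosure (integralClosure O L) M) L').codRestrict
      (integralClosure O L') hRMint
  let _ : Algebra (integralClosure (integralClosure O L) M) (integralClosure O L') := ψ.toAlgebra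
  have hT3 : IsScalarTower (integralClosure (integralClosure O L) M) (integralClosure O L') L' :=
    IsScalarTower.of_algebraMap_eq (fun x => rfl)
  have hIC : IsIntegralClosure (integralClosure O L') (integralClosure (integralClosure O L) M)
      L' := by
    refine ⟨Subtype.val_injective, fun {x} => ⟨fun hx => ?_, ?_⟩⟩
    · have h1 : IsIntegral (integralClosure O L) x := isIntegral_trans _ hx
      have h2 : IsIntegral O x := isIntegral_trans _ h1
      exact ⟨⟨x, h2⟩, rfl⟩
    · rintro ⟨y, rfl⟩
      have h1 : IsIntegral O (y : L') := y.2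
      have h2 : IsIntegral (integralClosure O L) (y : L') := h1.tower_top
      exact h2.tower_top
  -- the ideal of `R` below `Q`
  have hPeq : (Q.comap (algebraMap (integralClosure (integralClosure O L) M)
      (integralClosure O L'))).comap
        (algebraMap (integralClosure O L) (integralClosure (integralClosure O L) M)) =
      Q.comap φ := by
    ext r
    rfl
  -- units
  have hunit : ∀ m : ℕ, m ≠ 0 → ((m : ℕ) : integralClosure O L') ∉ Q := by
    intro m hm hmem
    have h1 : IsUnit (algebraMap O (integralClosure O L') (m : O)) := (hchar m hm).map _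
    rw [map_natCast] at h1
    exact hQ.ne_top (Ideal.eq_top_of_isUnit_mem _ hmem h1)
  -- the element `ρ = s ^ c` of `RM`
  have hρM : IsIntegral (integralClosure O L) (AdjoinSimple.gen L ((s : L') ^ c)) := by
    refine ⟨X ^ n - C (algebraMap O (integralClosure O L) g), monic_X_pow_sub_C _ hn0, ?_⟩
    simp only [eval₂_sub, eval₂_pow, eval₂_X, eval₂_C]
    rw [sub_eq_zero]
    apply Subtype.val_injective
    change ((s : L') ^ c) ^ n = algebraMap L L' (algebraMap O L g)
    rw [← pow_mul, mul_comm c n, hs, ← IsScalarTower.algebraMap_apply O L L']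
  let ρ : integralClosure (integralClosure O L) M := ⟨AdjoinSimple.gen L ((s : L') ^ c), hρM⟩
  have hsc : s ^ c = algebraMap (integralClosure (integralClosure O L) M)
      (integralClosure O L') ρ := by
    apply Subtype.val_injective
    rfl
  have hρn : ρ ^ n = algebraMap (integralClosure O L) (integralClosure (integralClosure O L) M)
      (algebraMap O (integralClosure O L) g) := by
    apply Subtype.val_injective
    apply Subtype.val_injective
    change ((s : L') ^ c) ^ n = algebraMap L L' (algebraMap O L g)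
    rw [← pow_mul, mul_comm c n, hs, ← IsScalarTower.algebraMap_apply O L L']
  have hgenM : Algebra.adjoin L {algebraMap (integralClosure (integralClosure O L) M) M ρ} = ⊤ :=
    (IntermediateField.adjoin.powerBasis hsint).adjoin_gen_eq_top
  have hgenL' : Algebra.adjoin M {algebraMap (integralClosure O L') L' s} = ⊤ :=
    adjoin_singleton_eq_top_of_tower L (M := M) (s : L') htop
  rw [← hPeq] at hgn hgn'
  exact not_mem_sq_of_tame (L := L) (M := M) (L' := L') Q n c (hunit n hn0) (hunit c hc0)
    (algebraMap O (integralClosure O L) g) hgn hgn' s ρ hsc hρn hgenM hgenL'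

variable [Algebra K L'] [IsScalarTower K L L'] [IsScalarTower O K L']
  {K' : Type*} [Field K'] [Algebra K K'] [Algebra K' L'] [IsScalarTower K K' L']
  [Algebra O K'] [IsScalarTower O K K']

include K in
/-- **T2a (tame step of Abhyankar's lemma), trace-dual form.** `O` a Dedekind domain whose
nonzero natural numbers are units (residue characteristic zero), `K = Frac O`, `L / K` finite,
`g : O` with exact order dividing `e` at every maximal ideal of the integral closure of `O` in
`L`, `L' = L(s)` with `s ^ e = g`, and `K'` any field between `K` and `L'` containing `s`.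
Then the integral closure of `O` in `L'` is its own trace dual over `K'`: an `x : L'` whose
`K'`-trace pairing with all `O`-integral elements is `O`-integral is itself `O`-integral. -/
theorem tame_traceDual
    (hchar : ∀ m : ℕ, m ≠ 0 → IsUnit (m : O))
    (g : O) (e : ℕ) (he : e ≠ 0) (s : K') (hs : s ^ e = algebraMap O K' g)
    (htop : Algebra.adjoin L {algebraMap K' L' s} = ⊤)
    (htame : ∀ P : Ideal (integralClosure O L), P.IsMaximal → ∃ n : ℕ, n ∣ e ∧
      algebraMap O (integralClosure O L) g ∈ P ^ n ∧
      algebraMap O (integralClosure O L) g ∉ P ^ (n + 1))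
    (x : L')
    (hx : ∀ y : L', IsIntegral O y → IsIntegral O (Algebra.trace K' L' (x * y))) :
    IsIntegral O x := by
  classical
  have hcharK : CharZero K := by
    refine charZero_of_inj_zero fun m hm => ?_
    by_contra hm0
    have h1 : algebraMap O K (m : O) = 0 := by rw [map_natCast]; exact hm
    rw [map_eq_zero_iff _ (IsFractionRing.injective O K)] at h1
    exact (hchar m hm0).ne_zero h1
  have hcharK' : CharZero K' := charZero_of_injective_algebraMap (algebraMap K K').injective
  have hfinKL' : FiniteDimensional K L' := FiniteDimensional.trans K L L'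
  have hfin1 : FiniteDimensional K K' := FiniteDimensional.left K K' L'
  have hfin2 : FiniteDimensional K' L' := FiniteDimensional.right K K' L'
  have hT : IsScalarTower O K' L' := IsScalarTower.of_algebraMap_eq (fun a => by
    rw [IsScalarTower.algebraMap_apply O K L', IsScalarTower.algebraMap_apply O K K',
      ← IsScalarTower.algebraMap_apply K K' L'])
  have hAded : IsDedekindDomain (integralClosure O K') := integralClosure.isDedekindDomain O K K'
  have hAfr : IsFractionRing (integralClosure O K') K' :=
    integralClosure.isFractionRing_of_finite_extension K K'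
  -- the algebra structure `A' → B'`
  have hA'int : ∀ r : integralClosure O K', IsIntegral O (algebraMap (integralClosure O K') L' r) :=
    fun r => by
      have h1 : IsIntegral O (r : K') := r.2
      exact h1.algebraMap
  let ψ : integralClosure O K' →+* integralClosure O L' :=
    (algebraMap (integralClosure O K') L').codRestrict (integralClosure O L') hA'int
  let _ : Algebra (integralClosure O K') (integralClosure O L') := ψ.toAlgebra
  have hT2 : IsScalarTower (integralClosure O K') (integralClosure O L') L' :=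
    IsScalarTower.of_algebraMap_eq (fun x => rfl)
  have hT3 : IsScalarTower O (integralClosure O K') L' :=
    IsScalarTower.of_algebraMap_eq (fun a => by
      rw [IsScalarTower.algebraMap_apply O K' L']; rfl)
  have hIC : IsIntegralClosure (integralClosure O L') (integralClosure O K') L' :=
    IsIntegralClosure.tower_top (R := O)
  have hchar' : ∀ m : ℕ, m ≠ 0 → IsUnit ((m : ℕ) : integralClosure O K') := by
    intro m hm
    have h1 : IsUnit (algebraMap O (integralClosure O K') (m : O)) := (hchar m hm).map _
    rwa [map_natCast] at h1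
  -- `s` as an element of `A'` and of `B'`
  have hsint : IsIntegral O s := by
    refine ⟨X ^ e - C g, monic_X_pow_sub_C g he, ?_⟩
    simp [hs]
  have hsint' : IsIntegral O (algebraMap K' L' s) := hsint.algebraMap
  have hs' : (algebraMap K' L' s) ^ e = algebraMap O L' g := by
    rw [← map_pow, hs, ← IsScalarTower.algebraMap_apply O K' L']
  have hunr : ∀ Q : Ideal (integralClosure O L'), Q.IsMaximal → Q ≠ ⊥ →
      ∃ π : integralClosure O K', algebraMap (integralClosure O K') (integralClosure O L') π ∈ Q ∧
        algebraMap (integralClosure O K') (integralClosure O L') π ∉ Q ^ 2 := by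
    intro Q hQ _
    exact ⟨⟨s, hsint⟩, tame_uniformizer (K := K) hchar g e he ⟨algebraMap K' L' s, hsint'⟩ hs'
      htop htame Q⟩
  have hmem := mem_range_of_forall_trace_mem (A := integralClosure O K') (K := K') (E := L')
    (B := integralClosure O L') hchar' hunr x (fun y => by
      have h1 := hx (y : L') y.2
      exact ⟨⟨_, h1⟩, rfl⟩)
  obtain ⟨b, rfl⟩ := hmem
  exact b.2

end Final

end Fermat.Agent.S18.helper3577
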