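import Mathlib
import Fermat.Agent.S18.helper2636_AbhyankarCore
import Fermat.Agent.S18.helper3577_TameDVR

/-!
# S18, track B, leaf T2 (Abhyankar, local form), part 3: the final statement (helper2636)

`abhyankar_oneComponent` / `abhyankar_eq_of_sup_ne_top`: the core of
`helper2636_AbhyankarCore` with the Kummer extension `L' = L(s)`, `s ^ e = g`, constructed
(`AdjoinRoot` of an irreducible factor of `X ^ e - g`, `K' = K(s)`), and the tame step discharged
by `helper3577.tame_traceDual` over the discrete valuation ring `O = B_(g)`.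
-/

set_option autoImplicit false



namespace Fermat.Agent.S18.helper2636

open Polynomial IntermediateField

section TameAdapter

/-- From the DVR-level trace-dual statement over the localisation `O = B_p` to `UnrAt B K' L' p`. -/
theorem unrAt_of_traceDual_atPrime {B O K' L' : Type*} [CommRing B] [CommRing O] [Algebra B O]
    (p : Ideal B) [p.IsPrime] [IsLocalization.AtPrime O p] [Field K'] [Field L'] [Algebra B K']
    [Algebra O K'] [IsScalarTower B O K'] [Algebra K' L'] [Algebra B L'] [Algebra O L']
    [IsScalarTower B O L'] [IsScalarTower B K' L']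
    (h : ∀ x : L', (∀ y : L', IsIntegral O y → IsIntegral O (Algebra.trace K' L' (x * y))) →
      IsIntegral O x) : UnrAt B K' L' p := by
  have hloc : IsLocalRing O := IsLocalization.AtPrime.isLocalRing O p
  have h1 : UnrAt O K' L' (IsLocalRing.maximalIdeal O) := fun x hx =>
    ⟨1, (IsLocalRing.maximalIdeal.isMaximal O).isPrime.one_notMem, by
      rw [map_one, one_mul]; exact h x hx⟩
  have h2 := unrAt_of_isLocalization (B := B) (O := O) p.primeCompl (IsLocalRing.maximalIdeal O) h1
  have h3 : (IsLocalRing.maximalIdeal O).comap (algebraMap B O) = p :=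
    IsLocalization.AtPrime.under_maximalIdeal O p
  rwa [h3] at h2

/-- The localisation of a domain at a prime is a domain. -/
theorem isDomain_atPrime {B O : Type*} [CommRing B] [IsDomain B] [CommRing O] [Algebra B O]
    (p : Ideal B) [p.IsPrime] [IsLocalization.AtPrime O p] : IsDomain O := by
  have hM : p.primeCompl ≤ nonZeroDivisors B := by
    intro x hx
    refine mem_nonZeroDivisors_of_ne_zero ?_
    rintro rfl
    exact hx (Ideal.zero_mem _)
  exact IsLocalization.isDomain_of_le_nonZeroDivisors O hM

/-- The localisation of a noetherian domain at a principal prime `(g)` is a discrete valuation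
ring with uniformiser `g`. -/
theorem isDiscreteValuationRing_atPrime_span {B O : Type*} [CommRing B] [IsDomain B]
    [IsNoetherianRing B] [CommRing O] [IsDomain O] [Algebra B O] {g : B} (hg : Prime g)
    [hp : (Ideal.span {g}).IsPrime] [IsLocalization.AtPrime O (Ideal.span {g})] :
    IsDiscreteValuationRing O ∧ Irreducible (algebraMap B O g) := by
  have hM : (Ideal.span {g}).primeCompl ≤ nonZeroDivisors B := by
    intro x hx
    refine mem_nonZeroDivisors_of_ne_zero ?_
    rintro rfl
    exact hx (Ideal.zero_mem _)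
  have hloc : IsLocalRing O := IsLocalization.AtPrime.isLocalRing O (Ideal.span {g})
  have hnoeth : IsNoetherianRing O :=
    IsLocalization.isNoetherianRing (Ideal.span {g}).primeCompl O inferInstance
  have hinj : Function.Injective (algebraMap B O) := IsLocalization.injective O hM
  have hmax : IsLocalRing.maximalIdeal O = Ideal.span {algebraMap B O g} := by
    rw [← IsLocalization.AtPrime.map_eq_maximalIdeal (Ideal.span {g}) O, Ideal.map_span,
      Set.image_singleton]
  have hg0 : algebraMap B O g ≠ 0 := fun h => hg.ne_zero (hinj (h.trans (map_zero _).symm))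
  have hnf : ¬ IsField O := by
    rw [IsLocalRing.isField_iff_maximalIdeal_eq, hmax, Ideal.span_singleton_eq_bot]
    exact hg0
  have hprinc : (IsLocalRing.maximalIdeal O).IsPrincipal := ⟨⟨algebraMap B O g, hmax⟩⟩
  have hdvr : IsDiscreteValuationRing O := ((IsDiscreteValuationRing.TFAE O hnf).out 0 4).mpr hprinc
  exact ⟨hdvr, (IsDiscreteValuationRing.irreducible_iff_uniformizer _).mpr hmax⟩

end TameAdapter

section Final

open IsLocalRing

variable (B K L R : Type*) [CommRing B] [Field K] [Algebra B K] [IsFractionRing B K]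
  [Field L] [CommRing R] [Algebra K L] [Algebra B L] [IsScalarTower B K L]
  [Algebra R L] [IsIntegralClosure R B L] [Algebra B R] [IsScalarTower B R L]
  [IsDomain B] [IsIntegrallyClosed B] [IsNoetherianRing B] [IsLocalRing B]
  [FiniteDimensional K L] [CharZero K]

/-- **Abhyankar's lemma, local form (T2).**  `B` a noetherian integrally closed local domain
with maximal ideal `(lam, g)`, `lam` and `g` prime, `K = Frac B` of characteristic zero, `R` the
integral closure of `B` in a finite extension `L` of `K`.  Assume
* `hU`: `L/K` is unramified (trace-dual form `UnrAt`) at every prime of `B` not containing `g`;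
* `htame`: over the discrete valuation ring `O = B_(g)`, the exact order of `g` at every maximal
  ideal of the integral closure of `O` in `L` divides `e`, where `e` is a unit of `B`;
* `hchar`: no nonzero natural number lies in `(g)` (residue characteristic zero along `g`).
Then `R` has the one-component property for `lam`: two minimal primes of `R` over `lam`
contained in a common proper ideal are equal. -/
theorem abhyankar_oneComponent (lam g : B) (hlam : Prime lam) (hg : Prime g) (hlg : ¬ lam ∣ g)
    (hm : maximalIdeal B = Ideal.span {lam, g})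
    (e : ℕ) (he : IsUnit (e : B))
    (hchar : ∀ m : ℕ, m ≠ 0 → (m : B) ∉ Ideal.span {g})
    (hU : ∀ p : Ideal B, p.IsPrime → g ∉ p → UnrAt B K L p)
    (O : Type*) [CommRing O] [Algebra B O] [hgp : (Ideal.span {g}).IsPrime]
    [IsLocalization.AtPrime O (Ideal.span {g})] [Algebra O K] [IsScalarTower B O K]
    [Algebra O L] [IsScalarTower B O L] [IsScalarTower O K L]
    (htame : ∀ P : Ideal (integralClosure O L), P.IsMaximal → ∃ n, n ∣ e ∧
      algebraMap O (integralClosure O L) (algebraMap B O g) ∈ P ^ n ∧
      algebraMap O (integralClosure O L) (algebraMap B O g) ∉ P ^ (n + 1)) :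
    Fermat.Agent.S18.helper403.OneComponent R (algebraMap B R lam) := by
  classical
  have he0 : e ≠ 0 := by
    rintro rfl
    simp at he
  -- an irreducible factor of `X ^ e - g` over `L`
  have hdeg : 0 < (X ^ e - C (algebraMap B L g) : L[X]).degree := by
    rw [degree_X_pow_sub_C (Nat.pos_of_ne_zero he0)]
    exact_mod_cast Nat.pos_of_ne_zero he0
  obtain ⟨q, hq, hqdvd⟩ := exists_irreducible_of_degree_pos hdeg
  have : Fact (Irreducible q) := ⟨hq⟩
  have hfinL' : FiniteDimensional L (AdjoinRoot q) := (AdjoinRoot.powerBasis hq.ne_zero).finite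
  have hcharL : CharZero L := charZero_of_injective_algebraMap (algebraMap K L).injective
  have hsepL' : Algebra.IsSeparable L (AdjoinRoot q) := inferInstance
  obtain ⟨s, hs_def⟩ : ∃ s : AdjoinRoot q, s = AdjoinRoot.root q := ⟨_, rfl⟩
  have hsL : s ^ e = algebraMap B (AdjoinRoot q) g := by
    have h1 : aeval s (X ^ e - C (algebraMap B L g) : L[X]) = 0 := by
      rw [hs_def, AdjoinRoot.aeval_eq, AdjoinRoot.mk_eq_zero]; exact hqdvd
    rw [map_sub, map_pow, aeval_X, aeval_C, sub_eq_zero] at h1
    rw [h1, ← IsScalarTower.algebraMap_apply]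
  have htopL : Algebra.adjoin L {s} = ⊤ := by rw [hs_def]; exact AdjoinRoot.adjoinRoot_eq_top
  -- `K' := K(s)`
  have hs'v : algebraMap K⟮s⟯ (AdjoinRoot q) (AdjoinSimple.gen K s) = s :=
    AdjoinSimple.algebraMap_gen K s
  have t1 : IsScalarTower B K⟮s⟯ (AdjoinRoot q) := IsScalarTower.of_algebraMap_eq (fun b => rfl)
  have hs' : (AdjoinSimple.gen K s) ^ e = algebraMap B K⟮s⟯ g := by
    apply (algebraMap K⟮s⟯ (AdjoinRoot q)).injective
    rw [map_pow, hs'v, hsL, ← IsScalarTower.algebraMap_apply B K⟮s⟯ (AdjoinRoot q)]
  have hfinKL' : FiniteDimensional K (AdjoinRoot q) := FiniteDimensional.trans K L (AdjoinRoot q)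
  have hsalg : IsAlgebraic K s := Algebra.IsAlgebraic.isAlgebraic s
  have hK' : Algebra.adjoin K {AdjoinSimple.gen K s} = ⊤ := by
    rw [eq_top_iff]
    rintro x -
    have hx : (x : AdjoinRoot q) ∈ Algebra.adjoin K {s} := by
      rw [← adjoin_simple_toSubalgebra_of_isAlgebraic hsalg]; exact x.2
    have hmap : Algebra.adjoin K {s} =
        (Algebra.adjoin K {AdjoinSimple.gen K s}).map (K⟮s⟯.val) := by
      rw [AlgHom.map_adjoin, Set.image_singleton]; rfl
    rw [hmap] at hx
    obtain ⟨y, hy, hyx⟩ := hx
    have : y = x := Subtype.ext hyx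
    exact this ▸ hy
  have htop : Algebra.adjoin L {algebraMap K⟮s⟯ (AdjoinRoot q) (AdjoinSimple.gen K s)} = ⊤ := by
    rw [hs'v]; exact htopL
  -- the tame step over `O = B_(g)`
  have hdomO : IsDomain O := isDomain_atPrime (B := B) (Ideal.span {g})
  obtain ⟨hdvr, hirr⟩ := isDiscreteValuationRing_atPrime_span (O := O) hg
  have hM : (Ideal.span {g}).primeCompl ≤ nonZeroDivisors B := by
    intro x hx
    refine mem_nonZeroDivisors_of_ne_zero ?_
    rintro rfl
    exact hx (Ideal.zero_mem _)
  have hfracO : IsFractionRing O K :=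
    IsFractionRing.isFractionRing_of_isLocalization (Ideal.span {g}).primeCompl O K hM
  have hcharO : ∀ m : ℕ, m ≠ 0 → IsUnit (m : O) := by
    intro m hm0
    have := IsLocalization.map_units O (⟨(m : B), hchar m hm0⟩ : (Ideal.span {g}).primeCompl)
    simpa using this
  have t2 : IsScalarTower B O K⟮s⟯ := IsScalarTower.of_algebraMap_eq (fun b => Subtype.ext
    (IsScalarTower.algebraMap_apply B O (AdjoinRoot q) b))
  have hsO : (AdjoinSimple.gen K s) ^ e = algebraMap O K⟮s⟯ (algebraMap B O g) := by
    rw [hs', IsScalarTower.algebraMap_apply B O K⟮s⟯]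
  have hTD : ∀ x : AdjoinRoot q, (∀ y : AdjoinRoot q, IsIntegral O y →
      IsIntegral O (Algebra.trace K⟮s⟯ (AdjoinRoot q) (x * y))) → IsIntegral O x :=
    fun x hx => Fermat.Agent.S18.helper3577.tame_traceDual (O := O) (K := K) (L := L)
      (K' := K⟮s⟯) (L' := AdjoinRoot q) hcharO (algebraMap B O g) e he0 (AdjoinSimple.gen K s)
      hsO htop htame x hx
  have hT : UnrAt B K⟮s⟯ (AdjoinRoot q) (Ideal.span {g}) :=
    unrAt_of_traceDual_atPrime (O := O) (Ideal.span {g}) hTD
  exact abhyankar_oneComponent_core B K L R K⟮s⟯ (AdjoinRoot q) lam g hlam hg hlg hm e he he0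
    (AdjoinSimple.gen K s) hs' hK' htop hU hT

/-- **Abhyankar's lemma, local form (T2), "lying over" consumer shape** (same conclusion as the
purity leaf `helper3881.eq_of_sup_ne_top`). -/
theorem abhyankar_eq_of_sup_ne_top (lam g : B) (hlam : Prime lam) (hg : Prime g)
    (hlg : ¬ lam ∣ g) (hm : maximalIdeal B = Ideal.span {lam, g})
    (e : ℕ) (he : IsUnit (e : B))
    (hchar : ∀ m : ℕ, m ≠ 0 → (m : B) ∉ Ideal.span {g})
    (hU : ∀ p : Ideal B, p.IsPrime → g ∉ p → UnrAt B K L p)
    (O : Type*) [CommRing O] [Algebra B O] [hgp : (Ideal.span {g}).IsPrime]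
    [IsLocalization.AtPrime O (Ideal.span {g})] [Algebra O K] [IsScalarTower B O K]
    [Algebra O L] [IsScalarTower B O L] [IsScalarTower O K L]
    (htame : ∀ P : Ideal (integralClosure O L), P.IsMaximal → ∃ n, n ∣ e ∧
      algebraMap O (integralClosure O L) (algebraMap B O g) ∈ P ^ n ∧
      algebraMap O (integralClosure O L) (algebraMap B O g) ∉ P ^ (n + 1))
    (Q Q' : Ideal R) [Q.IsPrime] [Q'.IsPrime]
    (hQ : Q.comap (algebraMap B R) = Ideal.span {lam})
    (hQ' : Q'.comap (algebraMap B R) = Ideal.span {lam}) (hsup : Q ⊔ Q' ≠ ⊤) : Q = Q' := by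
  have hintBR : Algebra.IsIntegral B R := IsIntegralClosure.isIntegral_algebra B L
  exact Fermat.Agent.S18.helper403.eq_of_liesOver_of_oneComponent
    (abhyankar_oneComponent B K L R lam g hlam hg hlg hm e he hchar hU O htame) hQ hQ' hsup

end Final

end Fermat.Agent.S18.helper2636
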