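import Fermat.Agent.S18.helper2684_VertRes

/-!
# S18, track B: the `j`-line residue package in `ResDatum` shape (helper2684)

Elementwise forms of `helper2684_VertRes`, in the exact shapes of the fields of
`helper648.ResDatum` (`red_base`, `red_coord`, `finrank_le`, `sep`) for the Gauss valuation ring
`helper897.gaussO N ℓ hℓN A hA` with `κ = k(j̄)`, `Fκ = modularFunctionFieldFullC k N`,
`red = helper508.gaussResidue`:

* `gaussResidue_algebraMap`, `gaussResidue_algebraMap_mem` : `red (a) = ā ∈ k ⊆ k(j̄)`, `a ∈ A`,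
  for ANY proof of Gauss-integrality;
* `gaussResidue_jF`, `gaussResidue_jF_mem` : `red (j) = j̄ ∈ k(j̄)`;
* `finrank_adjoin_jF_le` : `[F̄_N : L(j)] ≤ [F_k : k(j̄)]`;
* `isSeparable_kappa` : `F_k / k(j̄)` separable for perfect `k`.
-/

set_option autoImplicit false

noncomputable section

open IntermediateField Polynomial ModularCurve

namespace Fermat.Agent.S18.helper2684

open Fermat.Agent.S18.helper508 Fermat.Agent.S18.helper897

section Datum

variable (N : ℕ) [NeZero N] (ℓ : ℕ) [Fact ℓ.Prime] (hℓN : ¬ ℓ ∣ N)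
variable {L : Type*} [Field L] [Algebra ℚ L] (A : ValuationSubring L)
  (hA : (ℓ : L) ∈ A.nonunits)

include hℓN hA in
/-- **(R3)**, `finrank_le` shape: `[F̄_N : L(j)] ≤ [F_k : k(j̄)]` (both are `ψ(N)`). -/
theorem finrank_adjoin_jF_le :
    Module.finrank ↥L⟮jF N L⟯ (FL N L) ≤
      Module.finrank
        ↥(IsLocalRing.ResidueField A)⟮helper9392.jbarC (IsLocalRing.ResidueField A) N⟯
        ↥(modularFunctionFieldFullC (IsLocalRing.ResidueField A) N) := by
  rw [finrank_bar N ℓ hℓN A hA, finrank_fullC N ℓ hℓN A hA]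

include hℓN hA in
/-- **(R2)**, `sep` shape. -/
theorem isSeparable_kappa [PerfectField (IsLocalRing.ResidueField A)] :
    Algebra.IsSeparable
      ↥(IsLocalRing.ResidueField A)⟮helper9392.jbarC (IsLocalRing.ResidueField A) N⟯
      ↥(modularFunctionFieldFullC (IsLocalRing.ResidueField A) N) :=
  isSeparable_fullC N ℓ hℓN A hA

include hℓN hA in
/-- Finiteness of the special fibre over `k(j̄)`, `FiniteDimensional` form. -/
theorem finiteDimensional_kappa :
    FiniteDimensional
      ↥(IsLocalRing.ResidueField A)⟮helper9392.jbarC (IsLocalRing.ResidueField A) N⟯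
      ↥(modularFunctionFieldFullC (IsLocalRing.ResidueField A) N) :=
  finite_fullC N ℓ hℓN A hA

attribute [local instance] algAF

/-- `red (p(j)) = p̄(j̄)`, for any proof of Gauss-integrality of `p(j)`. -/
theorem gaussResidue_aeval' (p : A[X]) (h : aeval (jF N L) p ∈ gaussO N ℓ hℓN A hA) :
    gaussResidue N ℓ hℓN A hA ⟨aeval (jF N L) p, h⟩ =
      aeval (helper9392.jbarC (IsLocalRing.ResidueField A) N)
        (p.map (IsLocalRing.residue A)) :=
  gaussResidue_aeval N ℓ hℓN A hA p

/-- The Gauss residue map restricts to the residue map of `A` on constants. -/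
theorem gaussResidue_algebraMap (a : A)
    (h : algebraMap A (FL N L) a ∈ gaussO N ℓ hℓN A hA) :
    gaussResidue N ℓ hℓN A hA ⟨algebraMap A (FL N L) a, h⟩ =
      algebraMap (IsLocalRing.ResidueField A)
        ↥(modularFunctionFieldFullC (IsLocalRing.ResidueField A) N)
        (IsLocalRing.residue A a) := by
  have h' : aeval (jF N L) (C a : A[X]) ∈ gaussO N ℓ hℓN A hA := by
    rw [aeval_C]
    exact h
  have e : (⟨algebraMap A (FL N L) a, h⟩ : ↥(gaussO N ℓ hℓN A hA)) =
      ⟨aeval (jF N L) (C a : A[X]), h'⟩ := Subtype.ext (aeval_C _ a).symm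
  rw [e, gaussResidue_aeval' N ℓ hℓN A hA (C a) h', Polynomial.map_C, aeval_C]

/-- The Gauss residue of `j` is `j̄`. -/
theorem gaussResidue_jF (h : jF N L ∈ gaussO N ℓ hℓN A hA) :
    gaussResidue N ℓ hℓN A hA ⟨jF N L, h⟩ =
      helper9392.jbarC (IsLocalRing.ResidueField A) N := by
  have h' : aeval (jF N L) (X : A[X]) ∈ gaussO N ℓ hℓN A hA := by
    rw [aeval_X]
    exact h
  have e : (⟨jF N L, h⟩ : ↥(gaussO N ℓ hℓN A hA)) =
      ⟨aeval (jF N L) (X : A[X]), h'⟩ := Subtype.ext (aeval_X _).symm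
  rw [e, gaussResidue_aeval' N ℓ hℓN A hA X h', Polynomial.map_X, aeval_X]

/-- **(R1), constants**, `red_base` shape: `red (A) ⊆ k(j̄)`. -/
theorem gaussResidue_algebraMap_mem (a : A)
    (h : algebraMap A (FL N L) a ∈ gaussO N ℓ hℓN A hA) :
    gaussResidue N ℓ hℓN A hA ⟨algebraMap A (FL N L) a, h⟩ ∈
      Set.range (algebraMap
        ↥(IsLocalRing.ResidueField A)⟮helper9392.jbarC (IsLocalRing.ResidueField A) N⟯
        ↥(modularFunctionFieldFullC (IsLocalRing.ResidueField A) N)) := by
  rw [gaussResidue_algebraMap N ℓ hℓN A hA a h]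
  exact ⟨algebraMap _ _ (IsLocalRing.residue A a), rfl⟩

/-- **(R1), coordinate**, `red_coord` shape: `red (j) ∈ k(j̄)`. -/
theorem gaussResidue_jF_mem (h : jF N L ∈ gaussO N ℓ hℓN A hA) :
    gaussResidue N ℓ hℓN A hA ⟨jF N L, h⟩ ∈
      Set.range (algebraMap
        ↥(IsLocalRing.ResidueField A)⟮helper9392.jbarC (IsLocalRing.ResidueField A) N⟯
        ↥(modularFunctionFieldFullC (IsLocalRing.ResidueField A) N)) := by
  rw [gaussResidue_jF N ℓ hℓN A hA h]
  exact ⟨⟨_, IntermediateField.mem_adjoin_simple_self _ _⟩, rfl⟩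

end Datum

end Fermat.Agent.S18.helper2684
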