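import Fermat.Agent.S18.helper648_ModelWire
import Fermat.Agent.S18.helper2684_VertResDatum

/-!
# S18, track B: the residue datum `(X-res)` of the Gauss place (VERT-INST)

`helper648.ResDatum D` is the residue input of the vertical discriminant theorem (VERT) for a
model `D : helper3578.KData`.  This file produces it for every model whose Gauss side
(`A0`, `K0`, `F0`, `t`, `O`) is the concrete one of `helper508` / `helper897` at a surface
`(L, A)`:

* `F0 ≃+* helper897.FL N L` (the function field `L · F_N`),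
* `O` corresponds to `helper508.gaussValuationSubring`,
* `t` corresponds to `j`,
* the constants of `A0` go to constants of `A`, and every constant of `L` comes from `K0`.

The datum is `κ = k(j̄) ⊆ Fκ = modularFunctionFieldFullC k N` (`k` the residue field of `A`),
`red = helper508.gaussResidue` transported along the isomorphism.

For a model built literally on the surface (e.g. the MODELBASE model) the isomorphism is
`RingEquiv.refl` and all four compatibility hypotheses are `rfl`.
-/

set_option autoImplicit false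
set_option synthInstance.maxHeartbeats 400000
set_option linter.unusedSectionVars false

noncomputable section

namespace Fermat.Agent.S18.helper2675

open Polynomial ModularCurve IntermediateField
open Fermat.Agent.S18.helper3578

section Transfer

variable (N : ℕ) [NeZero N] (ℓ : ℕ) [Fact ℓ.Prime] (hℓN : ¬ ℓ ∣ N)
variable {L : Type} [Field L] [Algebra ℚ L] (A : ValuationSubring L)
  (hA : (ℓ : L) ∈ A.nonunits)

/-- The residue field of the special fibre line: `k(j̄)` inside `F_k`. -/
abbrev kappaJ : Type :=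
  ↥(IsLocalRing.ResidueField ↥A)⟮helper9392.jbarC (IsLocalRing.ResidueField ↥A) N⟯

/-- The function field of the special fibre. -/
abbrev FkJ : Type := ↥(modularFunctionFieldFullC (IsLocalRing.ResidueField ↥A) N)

variable (D : KData) (e : D.F0 ≃+* helper897.FL N L)
  (hO : ∀ x : D.F0, x ∈ D.O ↔ e x ∈ helper897.gaussO N ℓ hℓN A hA)

/-- The isomorphism `e` restricted to the valuation rings. -/
def equivO : ↥D.O →+* ↥(helper897.gaussO N ℓ hℓN A hA) :=
  RingHom.codRestrict ((e : D.F0 →+* helper897.FL N L).comp D.O.subtype)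
    (helper897.gaussO N ℓ hℓN A hA) (fun x => (hO x.1).mp x.2)

theorem equivO_coe (x : ↥D.O) :
    ((equivO N ℓ hℓN A hA D e hO x : ↥(helper897.gaussO N ℓ hℓN A hA)) : helper897.FL N L) =
      e (x : D.F0) := rfl

theorem equivO_surjective : Function.Surjective (equivO N ℓ hℓN A hA D e hO) := by
  intro y
  refine ⟨⟨e.symm (y : helper897.FL N L), (hO _).mpr ?_⟩, Subtype.ext ?_⟩
  · rw [RingEquiv.apply_symm_apply]
    exact y.2
  · rw [equivO_coe]
    exact RingEquiv.apply_symm_apply e _

/-- The transported residue map `O →+* F_k`. -/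
def redO : ↥D.O →+* FkJ N A :=
  (helper508.gaussResidue N ℓ hℓN A hA).comp (equivO N ℓ hℓN A hA D e hO)

theorem redO_surjective : Function.Surjective (redO N ℓ hℓN A hA D e hO) :=
  (helper508.gaussResidue_surjective N ℓ hℓN A hA).comp (equivO_surjective N ℓ hℓN A hA D e hO)

theorem redO_base
    (hA0 : ∀ a : D.A0, ∃ a' : ↥A,
      e (algebraMap D.A0 D.F0 a) = algebraMap L (helper897.FL N L) (a' : L))
    (a : D.A0) (h : algebraMap D.A0 D.F0 a ∈ D.O) :
    redO N ℓ hℓN A hA D e hO ⟨algebraMap D.A0 D.F0 a, h⟩ ∈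
      Set.range (algebraMap (kappaJ N A) (FkJ N A)) := by
  obtain ⟨a', ha'⟩ := hA0 a
  have hmem : algebraMap L (helper897.FL N L) (a' : L) ∈ helper897.gaussO N ℓ hℓN A hA := by
    rw [← ha']
    exact (hO _).mp h
  have e1 : equivO N ℓ hℓN A hA D e hO ⟨algebraMap D.A0 D.F0 a, h⟩ =
      ⟨algebraMap L (helper897.FL N L) (a' : L), hmem⟩ := Subtype.ext ha'
  show helper508.gaussResidue N ℓ hℓN A hA (equivO N ℓ hℓN A hA D e hO ⟨_, h⟩) ∈ _
  rw [e1]
  exact helper2684.gaussResidue_algebraMap_mem N ℓ hℓN A hA a' hmem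

theorem redO_coord (ht : e D.t = helper897.jF N L) (h : D.t ∈ D.O) :
    redO N ℓ hℓN A hA D e hO ⟨D.t, h⟩ ∈
      Set.range (algebraMap (kappaJ N A) (FkJ N A)) := by
  have hmem : helper897.jF N L ∈ helper897.gaussO N ℓ hℓN A hA := by
    rw [← ht]
    exact (hO _).mp h
  have e1 : equivO N ℓ hℓN A hA D e hO ⟨D.t, h⟩ = ⟨helper897.jF N L, hmem⟩ := Subtype.ext ht
  show helper508.gaussResidue N ℓ hℓN A hA (equivO N ℓ hℓN A hA D e hO ⟨_, h⟩) ∈ _
  rw [e1]
  exact helper2684.gaussResidue_jF_mem N ℓ hℓN A hA hmem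

include hℓN hA in
theorem finrank_adjoin_le (ht : e D.t = helper897.jF N L)
    (hK0 : ∀ c : L, ∃ c' : D.K0,
      e (algebraMap D.K0 D.F0 c') = algebraMap L (helper897.FL N L) c) :
    Module.finrank ↥(IntermediateField.adjoin D.K0 ({D.t} : Set D.F0)) D.F0 ≤
      Module.finrank (kappaJ N A) (FkJ N A) := by
  -- the field `K0(t)` acts on `FL N L` through `e`
  let alg : Algebra ↥(IntermediateField.adjoin D.K0 ({D.t} : Set D.F0)) (helper897.FL N L) :=
    ((e : D.F0 →+* helper897.FL N L).comp
      (algebraMap ↥(IntermediateField.adjoin D.K0 ({D.t} : Set D.F0)) D.F0)).toAlgebra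
  have hL : ∀ c : L, algebraMap L (helper897.FL N L) c ∈
      (algebraMap ↥(IntermediateField.adjoin D.K0 ({D.t} : Set D.F0))
        (helper897.FL N L)).range := by
    intro c
    obtain ⟨c', hc'⟩ := hK0 c
    exact RingHom.mem_range.mpr
      ⟨algebraMap D.K0 ↥(IntermediateField.adjoin D.K0 ({D.t} : Set D.F0)) c', hc'⟩
  have hj : helper897.jF N L ∈
      (algebraMap ↥(IntermediateField.adjoin D.K0 ({D.t} : Set D.F0))
        (helper897.FL N L)).range :=
    RingHom.mem_range.mpr ⟨⟨D.t, IntermediateField.mem_adjoin_simple_self D.K0 D.t⟩, ht⟩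
  have h1 := helper2684.finrank_bar_le_finrank_fullC N ℓ hℓN A hA
    ↥(IntermediateField.adjoin D.K0 ({D.t} : Set D.F0)) hL hj
  -- `e` is linear over `K0(t)`
  let el : D.F0 ≃ₗ[↥(IntermediateField.adjoin D.K0 ({D.t} : Set D.F0))] helper897.FL N L :=
    { e.toAddEquiv with
      map_smul' := fun c x => by
        show e (c • x) = (e (algebraMap _ D.F0 c)) * e x
        rw [Algebra.smul_def, map_mul] }
  rw [el.finrank_eq]
  exact h1

/-- **(X-res) for a model on the Gauss surface `(L, A)`**: the residue datum of the Gauss place,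
`κ = k(j̄)`, `Fκ = modularFunctionFieldFullC k N`, `red = helper508.gaussResidue` (transported
along `e`).  For a model built on the surface take `e := RingEquiv.refl _`; then `hO`, `ht`,
`hA0`, `hK0` hold by `Iff.rfl`, `rfl`, `⟨a, rfl⟩`, `⟨c, rfl⟩`. -/
def resDatumGauss [PerfectField (IsLocalRing.ResidueField ↥A)]
    (ht : e D.t = helper897.jF N L)
    (hA0 : ∀ a : D.A0, ∃ a' : ↥A,
      e (algebraMap D.A0 D.F0 a) = algebraMap L (helper897.FL N L) (a' : L))
    (hK0 : ∀ c : L, ∃ c' : D.K0,
      e (algebraMap D.K0 D.F0 c') = algebraMap L (helper897.FL N L) c) :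
    helper648.ResDatum D where
  κ := kappaJ N A
  Fκ := FkJ N A
  sep := helper2684.isSeparable_kappa N ℓ hℓN A hA
  red := redO N ℓ hℓN A hA D e hO
  red_surj := redO_surjective N ℓ hℓN A hA D e hO
  red_base := redO_base N ℓ hℓN A hA D e hO hA0
  red_coord := redO_coord N ℓ hℓN A hA D e hO ht
  finrank_le := finrank_adjoin_le N ℓ hℓN A hA D e ht hK0

end Transfer

end Fermat.Agent.S18.helper2675
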