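import Fermat.Agent.S18.helper3537_InputsPlaces
import Fermat.Agent.S18.helper3054_Kummer
import Fermat.Agent.S24.helper1944_Degree
import Fermat.Agent.S24.helper1200_StmtLocalInf

/-!
# S18: the Kummer field form alone gives the core (no characteristic-`ℓ` constants lemma)

`helper3054.core_of_kf` needs `helper3054.Stmt_ConstL N ℓ` (a function of the special fibre
without zeros and poles is constant).  Inside `helper3054.Stmt_Core` the hypothesis
`h : ReductionInputsModL A N` is available, and `helper3537.constant_of_reductionInputs` proves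
the constants lemma from `h` and the landed characteristic-zero theory (S24: `j` transcendental,
`F_N` finite over `ℚ̄(j)`).  Hence:

* `core_of_kf_of_finite`: `Stmt_KF N ℓ → Stmt_Core N ℓ` given one transcendental `x` of the
  generic fibre over which it is finite;
* `core_of_kf_noConst : Stmt_KF N ℓ → Stmt_Core N ℓ` (unconditional);
* `result_of_kf_noConst`: the frozen S18 conclusion from `Stmt_KF N ℓ` alone.
-/

set_option autoImplicit false
set_option synthInstance.maxHeartbeats 400000

noncomputable section

namespace Fermat.Agent.S18.helper3537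

open ModularCurve AlgebraicCurve HahnSeries IntermediateField
open Fermat.Agent.S18.helper3054

/-- The Kummer field form gives the core, the constants lemma of the special fibre being read
off from `ReductionInputsModL`. -/
theorem core_of_kf_of_finite (N : ℕ) [NeZero N] (ℓ : ℕ) (hK : Stmt_KF N ℓ)
    (x : modularFunctionFieldBar N) (hx : Transcendental (AlgebraicClosure ℚ) x)
    [FiniteDimensional (AlgebraicClosure ℚ)⟮x⟯ (modularFunctionFieldBar N)] :
    Stmt_Core N ℓ := by
  intro A hA h m hm a b D _hdeg hD w hw0 _hw hred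
  have hmne : m ≠ 0 := by
    rintro rfl
    exact hm (dvd_zero ℓ)
  have hm0 : (m : ℤ) ≠ 0 := by exact_mod_cast hmne
  set f : modularFunctionFieldFullC (IsLocalRing.ResidueField A) N :=
    a.red * (b.red * w ^ m)⁻¹ with hf
  have hbw : b.red * w ^ m ≠ 0 := mul_ne_zero b.red_ne_zero (pow_ne_zero m hw0)
  have hf0 : f ≠ 0 := mul_ne_zero a.red_ne_zero (inv_ne_zero hbw)
  have hford : ∀ Q : Place (IsLocalRing.ResidueField A)
      (modularFunctionFieldFullC (IsLocalRing.ResidueField A) N), Q.ord f = 0 := by
    intro Q
    rw [hf, Q.ord_mul a.red_ne_zero (inv_ne_zero hbw), Q.ord_inv,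
      Q.ord_mul b.red_ne_zero (pow_ne_zero m hw0), ord_pow]
    have := hred Q
    linarith
  obtain ⟨c, hc⟩ := constant_of_reductionInputs h x hx f (fun Q => (hford Q).ge)
  have hc0 : c ≠ 0 := by
    rintro rfl
    rw [map_zero] at hc
    exact hf0 hc
  have hared : a.red = algebraMap (IsLocalRing.ResidueField A)
      (modularFunctionFieldFullC (IsLocalRing.ResidueField A) N) c * w ^ m * b.red := by
    have hb0 := b.red_ne_zero
    have hwm : w ^ m ≠ 0 := pow_ne_zero m hw0
    rw [← hc, hf]
    field_simp
  obtain ⟨V, c', hgen⟩ := hK A hA m hm a b (fun P => ⟨D P, (hD P).symm⟩) w c hw0 hc0 hared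
  have hprod : algebraMap (AlgebraicClosure ℚ) (modularFunctionFieldBar N) c' * V ^ m ≠ 0 := by
    intro h0
    rw [h0, zero_mul] at hgen
    exact a.gen_ne_zero hgen
  have hc'0 : c' ≠ 0 := by
    rintro rfl
    rw [map_zero, zero_mul] at hprod
    exact hprod rfl
  have hV0 : V ≠ 0 := by
    rintro rfl
    rw [zero_pow hmne, mul_zero] at hprod
    exact hprod rfl
  refine ⟨V, hV0, fun P => ?_⟩
  have h1 := hD P
  rw [hgen, P.ord_mul hprod b.gen_ne_zero,
    P.ord_mul (by simpa using hc'0) (pow_ne_zero m hV0),
    Fermat.Agent.S18.helper3054.ord_algebraMap_eq_zero P hc'0, ord_pow] at h1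
  have h2 : (m : ℤ) * D P = (m : ℤ) * P.ord V := by linarith
  exact mul_left_cancel₀ hm0 h2

/-- The landed S24 degree statement. -/
theorem stmt_JFinrank : Fermat.Agent.S24.helper24.Stmt_JFinrank :=
  Fermat.Agent.S24.helper1944.stmt_JFinrank_of_localInf Fermat.Agent.S24.helper1200.stmt_LocalInf

/-- **The Kummer field form alone gives the core.** -/
theorem core_of_kf_noConst (N : ℕ) [NeZero N] (ℓ : ℕ) (hK : Stmt_KF N ℓ) : Stmt_Core N ℓ := by
  have := (stmt_JFinrank N).1
  exact core_of_kf_of_finite N ℓ hK (Fermat.Agent.S24.helper24.jBar N)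
    (Fermat.Agent.S24.helper3176.transcendental_jBar N)

/-- **The frozen statement S18 from the Kummer field form alone.** -/
theorem result_of_kf_noConst (N : ℕ) [NeZero N] {ℓ : ℕ} (hK : Stmt_KF N ℓ)
    (A : ValuationSubring (AlgebraicClosure ℚ)) (hA : A.LiesOverPrime ℓ)
    (h : ModularCurve.ReductionInputsModL A N) (m : ℕ) (hm : ¬ ℓ ∣ m) (z : ModularCurve.JZero N)
    (hmz : m • z = 0) (hz : ModularCurve.reductionModL A N z = 0) :
    z = 0 :=
  result_of_core N (core_of_kf_noConst N ℓ hK) A hA h m hm z hmz hz

end Fermat.Agent.S18.helper3537
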