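import Mathlib
import Fermat.Agent.S18.helper702_Descent
import Fermat.Agent.S18.helper2557_LevelDegree
import Fermat.Agent.S18.helper3537_CoreOfKF
import Fermat.Agent.Lib.helper3858_ResidueQbar

/-!
# S18, top-chain wiring (ruling (R2)): `Stmt_KF N ℓ` from the two Hauptmodul-line shapes

Tracks A and C prove the Kummer form only on the two Hauptmodul lines `t₂`, `t₃`, i.e. in the
two uniform shapes

  `Stmt_KFLine r : ∀ N' ℓ, ℓ prime → r ∣ N' → ¬ ℓ ∣ N' → ℓ ≠ r → Stmt_KF0 N' ℓ`   (`r = 2, 3`).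

This file derives `helper3054.Stmt_KF N ℓ` for every level `N` and every prime `ℓ ∤ N`, and then
the frozen conclusion of S18:

* `ℓ = 3`: `KF₂` at level `lcm(N, 2)`; `[F_{lcm(N,2)} : F_N] ∣ 3`;
* `ℓ = 2`: `KF₃` at level `lcm(N, 3)`; `[F_{lcm(N,3)} : F_N] ∣ 4`;
* `ℓ ≥ 5`: both, the two degrees divide the coprime numbers `3` and `4`.

Inputs (all landed): `helper702` (descent by the norm), `helper2557` (degrees),
`helper3054.kf_of_kf0`, `Lib.helper3858` (residue field algebraically closed),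
`helper3537.result_of_kf_noConst`.
-/

set_option autoImplicit false

namespace Fermat.Agent.S18.helper2675

open ModularCurve AlgebraicCurve
open Fermat.Agent.S18.helper3054

/-- The obligation of a track on the Hauptmodul line `t_r`: the Kummer form `Stmt_KF0` at every
level `N'` divisible by `r`, for every prime `ℓ ≠ r` not dividing `N'`. -/
def Stmt_KFLine (r : ℕ) : Prop :=
  ∀ (N' : ℕ) [NeZero N'] (ℓ : ℕ), ℓ.Prime → r ∣ N' → ¬ ℓ ∣ N' → ℓ ≠ r → Stmt_KF0 N' ℓ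

theorem not_dvd_lcm_of_prime {N ℓ r : ℕ} (hℓ : ℓ.Prime) (hr : r.Prime) (hℓr : ℓ ≠ r)
    (h : ¬ ℓ ∣ N) : ¬ ℓ ∣ N.lcm r := by
  intro hd
  rcases (Nat.Prime.dvd_mul hℓ).mp (hd.trans (Nat.lcm_dvd_mul N r)) with h' | h'
  · exact h h'
  · exact hℓr ((Nat.prime_dvd_prime_iff_eq hℓ hr).mp h')

theorem relfinrank_lcm_two_dvd (N : ℕ) [NeZero N] :
    (modularFunctionFieldBar N).relfinrank (modularFunctionFieldBar (N.lcm 2)) ∣ 3 := by
  rw [Fermat.Agent.S18.helper2557.relfinrank_bar_lcm_prime N Nat.prime_two]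
  split_ifs
  · exact one_dvd 3
  · exact dvd_rfl

theorem relfinrank_lcm_three_dvd (N : ℕ) [NeZero N] :
    (modularFunctionFieldBar N).relfinrank (modularFunctionFieldBar (N.lcm 3)) ∣ 4 := by
  rw [Fermat.Agent.S18.helper2557.relfinrank_bar_lcm_prime N Nat.prime_three]
  split_ifs
  · exact one_dvd 4
  · exact dvd_rfl

/-- The Kummer form `Stmt_KF` at the auxiliary level `lcm(N, r)` from the line shape. -/
theorem kf_lcm_of_line {r : ℕ} (hr : r.Prime) (h : Stmt_KFLine r) (N : ℕ)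
    [NeZero (N.lcm r)] (ℓ : ℕ) (hℓ : ℓ.Prime) (hℓN : ¬ ℓ ∣ N) (hℓr : ℓ ≠ r) :
    Stmt_KF (N.lcm r) ℓ :=
  kf_of_kf0 (N.lcm r) ℓ
    (fun A _ => Fermat.Agent.Lib.helper3858.isAlgClosed_residueField A)
    (h (N.lcm r) ℓ hℓ (Nat.dvd_lcm_right N r) (not_dvd_lcm_of_prime hℓ hr hℓr hℓN) hℓr)

/-- **Top-chain wiring.** The two Hauptmodul-line shapes give the Kummer form at every level `N`
and every prime `ℓ ∤ N`. -/
theorem kf_of_kf2_kf3 (N : ℕ) [NeZero N] (ℓ : ℕ) (hℓ : ℓ.Prime) (hℓN : ¬ ℓ ∣ N)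
    (h2 : Stmt_KFLine 2) (h3 : Stmt_KFLine 3) : Stmt_KF N ℓ := by
  have : NeZero (N.lcm 2) := ⟨Nat.lcm_ne_zero (NeZero.ne N) two_ne_zero⟩
  have : NeZero (N.lcm 3) := ⟨Nat.lcm_ne_zero (NeZero.ne N) three_ne_zero⟩
  by_cases hl2 : ℓ = 2
  · subst hl2
    exact Fermat.Agent.S18.helper702.kf_descent_of_dvd (Nat.dvd_lcm_left N 3) Nat.prime_two 2
      (relfinrank_lcm_three_dvd N)
      (kf_lcm_of_line Nat.prime_three h3 N 2 Nat.prime_two hℓN (by norm_num))
  by_cases hl3 : ℓ = 3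
  · subst hl3
    exact Fermat.Agent.S18.helper702.kf_descent_of_dvd (Nat.dvd_lcm_left N 2) Nat.prime_three 1
      (by rw [pow_one]; exact relfinrank_lcm_two_dvd N)
      (kf_lcm_of_line Nat.prime_two h2 N 3 Nat.prime_three hℓN (by norm_num))
  · exact Fermat.Agent.S18.helper702.kf_descent_two_of_dvd (Nat.dvd_lcm_left N 2)
      (Nat.dvd_lcm_left N 3) ℓ (e₂ := 3) (e₃ := 4) (by norm_num)
      (relfinrank_lcm_two_dvd N) (relfinrank_lcm_three_dvd N)
      (kf_lcm_of_line Nat.prime_two h2 N ℓ hℓ hℓN hl2)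
      (kf_lcm_of_line Nat.prime_three h3 N ℓ hℓ hℓN hl3)

/-- **The frozen statement S18 from the two Hauptmodul-line shapes.** -/
theorem result_of_kf2_kf3 (h2 : Stmt_KFLine 2) (h3 : Stmt_KFLine 3)
    (N : ℕ) [NeZero N] {ℓ : ℕ} [Fact ℓ.Prime] (hℓN : ¬ ℓ ∣ N)
    (A : ValuationSubring (AlgebraicClosure ℚ)) (hA : A.LiesOverPrime ℓ)
    (h : ModularCurve.ReductionInputsModL A N) (m : ℕ) (hm : ¬ ℓ ∣ m) (z : ModularCurve.JZero N)
    (hmz : m • z = 0) (hz : ModularCurve.reductionModL A N z = 0) :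
    z = 0 :=
  Fermat.Agent.S18.helper3537.result_of_kf_noConst N
    (kf_of_kf2_kf3 N ℓ Fact.out hℓN h2 h3) A hA h m hm z hmz hz

end Fermat.Agent.S18.helper2675
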