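/-
S18 / shared (helper4849): ALGEBRAIC route to input (R) of the S18 plan (#2494, tracks A and C):
the Riemann inequality on `F_N` with `g = genusFormula N = dim S₂(Γ₀(N))`, WITHOUT modular forms of
higher weight, WITHOUT the analytic dictionary and WITHOUT descent `ℂ → ℚ̄`.

Idea ("Riemann–Hurwitz for the Riemann genus", two `ℙ¹`-lattices + trace duality):
for `x` transcendental, `n = [F : K(x)]`, `B` = integral closure of `K[x]`, `B'` = integral closure
of `K[1/x]`, `C`, `C'` their trace duals, `V_m = B ∩ x^m O_∞`, `V*_m = C ∩ x^m C'_∞`: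
  (COUNT)  dim V_m + dim V*_m ≥ 2 n (m+1)          [polynomial matrices, `det (adj Q) = det Q ^ (n-1)`]
  (TAME)   f ∈ C  ⇒  ord_P (f·(x-c)) ≥ 1 at every place over `c`   [char 0: different exponent ≤ e-1]
  (STEP)   dim V*_m ≤ dim (V*_m ∩ L(D_m)) + ∑_P (e_P - 1)
hence `dim L(m·(x)_∞) ≥ n m + 1 - g` with `2g - 2 = ∑_P (e_P - 1) - 2n`, which for `F_N`, `x = j`
is `genusFormula N` by the landed S24 place counts.

This file: the three leaf statements as `Prop`s (exact Lean statements for the leaf owners).
-/
import Mathlib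
import Fermat.Prelude.Def_AlgebraicCurve_Repartitions

set_option autoImplicit false

open Polynomial Matrix AlgebraicCurve

namespace Fermat.Agent.S18.helper4849

/-- Polynomial vectors `p` such that every coordinate of `Q *ᵥ p` has degree `< d`. -/
def polySpace {K : Type*} [Field K] {n : ℕ} (Q : Matrix (Fin n) (Fin n) K[X]) (d : ℕ) :
    Submodule K (Fin n → K[X]) where
  carrier := {p | ∀ j, (Q *ᵥ p) j ∈ Polynomial.degreeLT K d}
  zero_mem' := fun j => by
    simp only [Matrix.mulVec_zero, Pi.zero_apply]
    exact Submodule.zero_mem _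
  add_mem' := fun {p q} hp hq j => by
    rw [Matrix.mulVec_add, Pi.add_apply]
    exact Submodule.add_mem _ (hp j) (hq j)
  smul_mem' := fun c p hp j => by
    rw [Matrix.mulVec_smul, Pi.smul_apply]
    exact Submodule.smul_mem _ c (hp j)

/-- LEAF (COUNT), Mathlib-only. For a polynomial matrix with nonzero determinant the space
`polySpace Q d` is finite-dimensional of dimension at least `n * d - deg (det Q)`.
(Proof: `p ↦ Q *ᵥ p` identifies it with `Λ ∩ (degreeLT K d)ⁿ`, `Λ = range Q`, and
`K[X]ⁿ ⧸ Λ` has `K`-dimension `natDegree (det Q)` (Smith normal form,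
cf. `finrank_quotient_span_eq_natDegree_norm`).) -/
def Stmt_Count : Prop :=
  ∀ (K : Type) [Field K] (n : ℕ) (Q : Matrix (Fin n) (Fin n) K[X]), Q.det ≠ 0 → ∀ d : ℕ,
    Module.Finite K (polySpace Q d) ∧
      n * d ≤ Module.finrank K (polySpace Q d) + Q.det.natDegree

/-- LEAF (STEP), Mathlib + Prelude `Place`. If all residue fields are `K`, imposing the stronger
bounds `-D ≤ ord` instead of `-(D+E) ≤ ord` (`E ≥ 0`) on a finite-dimensional space costs at most
`∑ E v` dimensions. -/
def Stmt_Step : Prop :=
  ∀ (K F : Type) [Field K] [Field F] [Algebra K F],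
    (∀ v : Place K F, Function.Surjective (algebraMap K v.ResidueField)) →
    ∀ (D E : Divisor K F), (∀ v, 0 ≤ E v) →
    ∀ (W : Submodule K F), Module.Finite K W → W ≤ riemannRochSpace (D + E) →
      (Module.finrank K W : ℤ) ≤
        Module.finrank K ↥(W ⊓ riemannRochSpace D) + E.sum fun _ a => a

/-- LEAF (TAME), Mathlib-only. Tame bound for the codifferent in residue characteristic zero:
in the AKLB setting, if `f` lies in the trace dual of `B` and `π ∈ p`, then `f * π` vanishes at
every prime `P` of `B` above `p` (i.e. `ord_P f ≥ -(e_P - 1)`).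
(Proof: write `p B = P^e * Q`, take `x₀ ∈ Q` with `1 - x₀ ∈ P^e`; its image in `B ⧸ pB` is a nonzero
idempotent, so its trace is a positive integer, nonzero in `A ⧸ p`; then
`not_dvd_differentIdeal_of_intTrace_not_mem` gives `¬ P^e ∣ differentIdeal A B`, and
`coeSubmodule_differentIdeal` turns this into the valuation bound.) -/
def Stmt_Tame : Prop :=
  ∀ (A B K L : Type) [CommRing A] [IsDedekindDomain A] [CommRing B] [IsDedekindDomain B]
    [Field K] [Field L] [Algebra A B] [Algebra A K] [Algebra B L] [Algebra K L] [Algebra A L]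
    [IsScalarTower A K L] [IsScalarTower A B L] [IsFractionRing A K] [IsFractionRing B L]
    [Module.Finite A B] [Module.IsTorsionFree A B] [FiniteDimensional K L]
    [Algebra.IsSeparable K L]
    (p : Ideal A) [p.IsMaximal] [CharZero (A ⧸ p)]
    (P : IsDedekindDomain.HeightOneSpectrum B), p.map (algebraMap A B) ≤ P.asIdeal →
    ∀ f : L, f ∈ Submodule.traceDual A K (1 : Submodule B L) →
    ∀ π : A, π ∈ p → P.valuation L (f * algebraMap A L π) < 1

end Fermat.Agent.S18.helper4849
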