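/-
S18 / shared (helper2683): leaf (STEP) of `helper4849_RHSpec` (algebraic route to the Riemann
inequality, board row S18-RHURW-STEP).

If all residue fields are `K`, then passing from the bounds `-(D+E) ≤ ord` to the stronger bounds
`-D ≤ ord` (`E ≥ 0`) on a finite-dimensional space `W ≤ L(D+E)` costs at most `∑ E v` dimensions.

Proof: one place and one unit at a time.  If `W ≤ L(D + v)` and `W` is not inside `L(D)`, pick
`f₀ ∈ W` with `ord_v f₀ = -(D v) - 1`; for `f ∈ W` the quotient `f / f₀` is `v`-integral, its
residue is the residue of a constant `a`, and `f - a • f₀ ∈ W ⊓ L(D)`.  Hence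
`W ≤ (W ⊓ L(D)) ⊔ K f₀`.
-/
import Mathlib
import Fermat.Prelude.Def_AlgebraicCurve_Repartitions
import Fermat.Agent.S18.helper4849_RHSpec

set_option autoImplicit false

open AlgebraicCurve

namespace Fermat.Agent.S18.helper2683

variable {K F : Type*} [Field K] [Field F] [Algebra K F]

/-- An element of nonnegative order lies in the valuation ring of the place. -/
theorem mem_toValuationSubring_of_ord_nonneg (v : Place K F) {f : F} (hf : f ≠ 0)
    (h : 0 ≤ v.ord f) : f ∈ v.toValuationSubring := by
  obtain ⟨π, hπ⟩ := IsDiscreteValuationRing.exists_irreducible v.toValuationSubring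
  obtain ⟨u, hu⟩ := v.exists_unit_mul_zpow hf hπ
  rw [hu, show v.ord f = (((v.ord f).toNat : ℕ) : ℤ) from (Int.toNat_of_nonneg h).symm,
    zpow_natCast]
  exact mul_mem (u : v.toValuationSubring).2 (pow_mem (π : v.toValuationSubring).2 _)

/-- A nonzero element of the maximal ideal has order at least one. -/
theorem one_le_ord_of_mem_maximalIdeal (v : Place K F) {y : v.toValuationSubring}
    (hy : y ∈ IsLocalRing.maximalIdeal v.toValuationSubring) (hy0 : y ≠ 0) :
    1 ≤ v.ord (y : F) := by
  obtain ⟨π, hπ⟩ := IsDiscreteValuationRing.exists_irreducible v.toValuationSubring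
  obtain ⟨n, u, hu⟩ := IsDiscreteValuationRing.eq_unit_mul_pow_irreducible hy0 hπ
  have hn : n ≠ 0 := by
    rintro rfl
    rw [pow_zero, mul_one] at hu
    rw [IsLocalRing.mem_maximalIdeal, mem_nonunits_iff] at hy
    exact hy (hu ▸ u.isUnit)
  have hcoe : (y : F) = ((u : v.toValuationSubring) : F) * ((π : F) ^ (n : ℤ)) := by
    have h := congrArg Subtype.val hu
    push_cast at h
    rw [zpow_natCast]
    exact h
  rw [hcoe, v.ord_unit_smul_zpow u hπ (n : ℤ)]
  omega

/-- ONE STEP: removing one unit at one place with residue field `K` costs at most one dimension. -/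
theorem finrank_le_finrank_inf_add_one (v : Place K F)
    (hv : Function.Surjective (algebraMap K v.ResidueField))
    (D : Divisor K F) (W : Submodule K F) [Module.Finite K W]
    (hW : W ≤ riemannRochSpace (D + Finsupp.single v 1)) :
    Module.finrank K W ≤ Module.finrank K ↥(W ⊓ riemannRochSpace D) + 1 := by
  classical
  by_cases hsub : W ≤ riemannRochSpace D
  · rw [inf_eq_left.mpr hsub]
    exact Nat.le_succ _
  · obtain ⟨f₀, hf₀W, hf₀D⟩ := SetLike.not_le_iff_exists.mp hsub
    have hf₀0 : f₀ ≠ 0 := by
      rintro rfl
      exact hf₀D (Submodule.zero_mem _)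
    -- the order of `f₀` at `v` is exactly `-(D v) - 1`
    have hf₀DE := mem_riemannRochSpace_iff.mp (hW hf₀W)
    have hother : ∀ w : Place K F, w ≠ v → (D + Finsupp.single v 1 : Divisor K F) w = D w := by
      intro w hw
      rw [Finsupp.add_apply, Finsupp.single_apply, if_neg (Ne.symm hw), add_zero]
    have hatv : (D + Finsupp.single v 1 : Divisor K F) v = D v + 1 := by
      rw [Finsupp.add_apply, Finsupp.single_apply, if_pos rfl]
    have hord₀ : v.ord f₀ = -(D v) - 1 := by
      have h1 : -(D v) - 1 ≤ v.ord f₀ := by
        have := (hf₀DE v).resolve_left hf₀0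
        rw [hatv] at this
        omega
      have h2 : v.ord f₀ < -(D v) := by
        by_contra hcon
        apply hf₀D
        rw [mem_riemannRochSpace_iff]
        intro w
        right
        by_cases hw : w = v
        · subst hw
          omega
        · have := (hf₀DE w).resolve_left hf₀0
          rwa [hother w hw] at this
      omega
    -- every element of `W` is congruent to a constant multiple of `f₀` modulo `W ⊓ L(D)`
    have hle : W ≤ (W ⊓ riemannRochSpace D) ⊔ Submodule.span K {f₀} := by
      intro f hfW
      by_cases hf0 : f = 0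
      · rw [hf0]
        exact Submodule.zero_mem _
      have hfDE := mem_riemannRochSpace_iff.mp (hW hfW)
      have hx0 : f / f₀ ≠ 0 := div_ne_zero hf0 hf₀0
      have hxord : 0 ≤ v.ord (f / f₀) := by
        rw [div_eq_mul_inv, v.ord_mul hf0 (inv_ne_zero hf₀0), v.ord_inv, hord₀]
        have := (hfDE v).resolve_left hf0
        rw [hatv] at this
        omega
      have hx : f / f₀ ∈ v.toValuationSubring :=
        mem_toValuationSubring_of_ord_nonneg v hx0 hxord
      obtain ⟨a, ha⟩ := hv (IsLocalRing.residue v.toValuationSubring ⟨f / f₀, hx⟩)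
      set y : v.toValuationSubring := ⟨f / f₀, hx⟩ - algebraMap K v.toValuationSubring a with hy
      have hymem : y ∈ IsLocalRing.maximalIdeal v.toValuationSubring := by
        rw [← IsLocalRing.residue_eq_zero_iff, hy, map_sub, ← ha]
        exact sub_self _
      have hycoe : (y : F) = f / f₀ - algebraMap K F a := by
        rw [hy]
        rfl
      have hg : f - a • f₀ = f₀ * (y : F) := by
        rw [hycoe, Algebra.smul_def]
        field_simp
      have hgW : f - a • f₀ ∈ W := W.sub_mem hfW (W.smul_mem a hf₀W)
      have hgD : f - a • f₀ ∈ riemannRochSpace D := by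
        rw [mem_riemannRochSpace_iff]
        intro w
        by_cases hg0 : f - a • f₀ = 0
        · exact Or.inl hg0
        right
        by_cases hw : w = v
        · subst hw
          have hy0 : y ≠ 0 := by
            rintro h0
            apply hg0
            rw [hg, h0]
            simp
          have hyF : (y : F) ≠ 0 := by
            simpa [ne_eq, ZeroMemClass.coe_eq_zero] using hy0
          rw [hg, w.ord_mul hf₀0 hyF, hord₀]
          have := one_le_ord_of_mem_maximalIdeal w hymem hy0
          omega
        · have := (mem_riemannRochSpace_iff.mp (hW hgW) w).resolve_left hg0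
          rwa [hother w hw] at this
      have hsplit : f = (f - a • f₀) + a • f₀ := by ring
      rw [hsplit]
      exact Submodule.add_mem_sup ⟨hgW, hgD⟩
        (Submodule.smul_mem _ a (Submodule.mem_span_singleton_self f₀))
    have : Module.Finite K ↥(W ⊓ riemannRochSpace D) :=
      Submodule.finiteDimensional_of_le inf_le_left
    calc Module.finrank K W
        ≤ Module.finrank K ↥((W ⊓ riemannRochSpace D) ⊔ Submodule.span K {f₀}) :=
          Submodule.finrank_mono hle
      _ ≤ Module.finrank K ↥(W ⊓ riemannRochSpace D)
            + Module.finrank K ↥(Submodule.span K {f₀}) :=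
          Submodule.finrank_add_le_finrank_add_finrank _ _
      _ = Module.finrank K ↥(W ⊓ riemannRochSpace D) + 1 := by
          rw [finrank_span_singleton hf₀0]

/-- The coefficient sum of `E + v`. -/
theorem sum_add_single_one (E : Divisor K F) (v : Place K F) :
    (E + Finsupp.single v 1).sum (fun _ a => a) = E.sum (fun _ a => a) + 1 := by
  rw [Finsupp.sum_add_index' (fun _ => rfl) (fun _ _ _ => rfl), Finsupp.sum_single_index rfl]

/-- (STEP), universe-polymorphic, by induction on the coefficient sum of `E`. -/
theorem finrank_le_finrank_inf_add_sum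
    (hres : ∀ v : Place K F, Function.Surjective (algebraMap K v.ResidueField)) :
    ∀ (n : ℕ) (D E : Divisor K F), (∀ v, 0 ≤ E v) → E.sum (fun _ a => a) = (n : ℤ) →
    ∀ (W : Submodule K F), Module.Finite K W → W ≤ riemannRochSpace (D + E) →
      (Module.finrank K W : ℤ) ≤ Module.finrank K ↥(W ⊓ riemannRochSpace D) + (n : ℤ) := by
  classical
  intro n
  induction n with
  | zero =>
    intro D E hE hsum W hfin hW
    have hE0 : E = 0 := by
      ext v
      by_contra hv
      have hsum' : ∑ w ∈ E.support, E w = 0 := by simpa [Finsupp.sum] using hsum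
      exact hv ((Finset.sum_eq_zero_iff_of_nonneg (fun w _ => hE w)).mp hsum' v
        (Finsupp.mem_support_iff.mpr hv))
    subst hE0
    rw [add_zero] at hW
    rw [inf_eq_left.mpr hW]
    simp
  | succ n ih =>
    intro D E hE hsum W hfin hW
    obtain ⟨v, hv⟩ : ∃ v, 0 < E v := by
      by_contra hcon
      have hE0 : E = 0 := by
        ext v
        exact le_antisymm (not_lt.mp fun h => hcon ⟨v, h⟩) (hE v)
      rw [hE0, Finsupp.sum_zero_index] at hsum
      push_cast at hsum
      omega
    set E' : Divisor K F := E - Finsupp.single v 1 with hE'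
    have hEE' : E = E' + Finsupp.single v 1 := by
      rw [hE', sub_add_cancel]
    have hE'nn : ∀ w, 0 ≤ E' w := by
      intro w
      rw [hE', Finsupp.sub_apply, Finsupp.single_apply]
      split_ifs with h
      · subst h
        omega
      · simpa using hE w
    have hsum' : E'.sum (fun _ a => a) = (n : ℤ) := by
      have h := sum_add_single_one E' v
      rw [← hEE', hsum] at h
      push_cast at h
      omega
    have hW1 : W ≤ riemannRochSpace ((D + E') + Finsupp.single v 1) := by
      rw [add_assoc, ← hEE']
      exact hW
    have h1 := finrank_le_finrank_inf_add_one v (hres v) (D + E') W hW1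
    have hfin' : Module.Finite K ↥(W ⊓ riemannRochSpace (D + E')) :=
      Submodule.finiteDimensional_of_le inf_le_left
    have h2 := ih D E' hE'nn hsum' (W ⊓ riemannRochSpace (D + E')) hfin' inf_le_right
    have h3 : Module.finrank K ↥(W ⊓ riemannRochSpace (D + E') ⊓ riemannRochSpace D)
        ≤ Module.finrank K ↥(W ⊓ riemannRochSpace D) := by
      have : Module.Finite K ↥(W ⊓ riemannRochSpace D) :=
        Submodule.finiteDimensional_of_le inf_le_left
      exact Submodule.finrank_mono (inf_le_inf_right _ inf_le_left)
    push_cast
    omega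

/-- LEAF (STEP) of `helper4849_RHSpec`, verbatim. -/
theorem stmt_Step : Fermat.Agent.S18.helper4849.Stmt_Step := by
  intro K F _ _ _ hres D E hE W hfin hW
  have hn : 0 ≤ E.sum (fun _ a => a) := Finset.sum_nonneg (fun v _ => hE v)
  obtain ⟨n, hn'⟩ := Int.eq_ofNat_of_zero_le hn
  have h := finrank_le_finrank_inf_add_sum hres n D E hE hn' W hfin hW
  rw [hn']
  exact h

end Fermat.Agent.S18.helper2683
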