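import Fermat.Agent.S18.helper897_GaussData
import Fermat.Agent.S18.helper9392_Separable

/-!
# S18, track B: the residue package of the concrete Gauss valuation (helper2684)

Instance of the RESIDUE hypotheses of the vertical (discriminant-form) unramifiedness leaf for the
landed Gauss valuation `helper508.gaussValuationSubring` on the `j`-line.

Vocabulary of `helper897_GaussData` (`FL N L`, `jF N L`, `algAF N A`, `gaussO`).  For a field
`L ⊇ ℚ`, a valuation subring `A` of `L` over a prime `ℓ ∤ N`, `k` the residue field of `A`,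
`F̄ = FL N L = laurentBaseChange L (modularFunctionFieldFull N)`,
`F_k = modularFunctionFieldFullC k N`, `κ = k(j̄) ⊆ F_k` (`j̄ = helper9392.jbarC k N`):

* `gaussResidue_aeval` : the Gauss residue of `p(j)`, `p ∈ A[X]`, is `p̄(j̄)`; in particular it
  lies in `κ` (`gaussResidue_aeval_mem_range`, `gaussResidue_mem_range_of_mem_adjoin`);
* `finite_fullC`, `finrank_fullC` : `F_k` is finite over `κ` of degree `ψ(N)` (`Module.finrank`
  form of the Igusa degree);
* `isSeparable_fullC` : `F_k / κ` is separable when `k` is perfect;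
* `finite_bar`, `finrank_bar` : `F̄` is finite of degree `ψ(N)` over its subfield `L(j)`;
* `finite_finrank_bar_le` : for every field `K'` whose image in `F̄` contains `L` and `j`, `F̄`
  is finite over `K'` of degree `≤ ψ(N) = [F_k : κ]` (`finrank_bar_le_finrank_fullC`).
-/

set_option autoImplicit false
set_option linter.style.haveILetI false

noncomputable section

open IntermediateField Polynomial ModularCurve

namespace Fermat.Agent.S18.helper2684

section Generic

variable {K E : Type*} [Field K] [Field E] [Algebra K E]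

/-- Membership in a simple adjunction inside an intermediate field is tested in the ambient
field. -/
theorem mem_adjoin_simple_coe_iff (F : IntermediateField K E) (t x : F) :
    x ∈ K⟮t⟯ ↔ (x : E) ∈ K⟮(t : E)⟯ := by
  rw [← IntermediateField.lift_adjoin_simple, IntermediateField.mem_lift]

/-- Lifting a coefficient of `K(t) ⊆ E` to the copy of `K(t)` inside `F`. -/
theorem exists_coe_eq_of_mem_adjoin (F : IntermediateField K E) (t : F) (c : ↥K⟮(t : E)⟯) :
    ∃ c' : ↥K⟮t⟯, ((c' : F) : E) = (c : E) := by
  have hle : K⟮(t : E)⟯ ≤ F := by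
    rw [IntermediateField.adjoin_le_iff]
    rintro _ rfl
    exact t.2
  have h : (⟨(c : E), hle c.2⟩ : F) ∈ K⟮t⟯ := (mem_adjoin_simple_coe_iff F t _).mpr c.2
  exact ⟨⟨_, h⟩, rfl⟩

/-- **Degree of a subfield of `E` given by a `K(t)`-span**: if the intermediate field `F ∋ t` is
exactly the `K(t)`-span (inside `E`) of an independent family `B : Fin n → E`, then `F` is finite
over its own subfield `K(t)`, of degree `n`. -/
theorem finrank_adjoin_of_span (F : IntermediateField K E) (t : F) {n : ℕ} (B : Fin n → E)
    (hmem : ∀ z : E, z ∈ F ↔ z ∈ Submodule.span ↥K⟮(t : E)⟯ (Set.range B))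
    (hli : LinearIndependent ↥K⟮(t : E)⟯ B) :
    Module.Finite ↥K⟮t⟯ ↥F ∧ Module.finrank ↥K⟮t⟯ ↥F = n := by
  have hB : ∀ i, B i ∈ F := fun i => (hmem _).mpr (Submodule.subset_span ⟨i, rfl⟩)
  let B' : Fin n → F := fun i => ⟨B i, hB i⟩
  have hli' : LinearIndependent ↥K⟮t⟯ B' := by
    rw [Fintype.linearIndependent_iff]
    intro c hc i
    have hc' : ∑ i, (⟨((c i : F) : E), (mem_adjoin_simple_coe_iff F t _).mp (c i).2⟩ :
        ↥K⟮(t : E)⟯) • B i = 0 := by
      have := congrArg (fun z : F => (z : E)) hc
      simp only [ZeroMemClass.coe_zero] at this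
      rw [← this]
      push_cast
      refine Finset.sum_congr rfl fun i _ => ?_
      rw [Algebra.smul_def, Algebra.smul_def]
      rfl
    have h0 := (Fintype.linearIndependent_iff.mp hli) _ hc' i
    have h1 : ((c i : F) : E) = 0 := congrArg Subtype.val h0
    exact Subtype.ext (Subtype.ext h1)
  have hspan : Submodule.span ↥K⟮t⟯ (Set.range B') = ⊤ := by
    rw [eq_top_iff]
    rintro ⟨z, hz⟩ -
    obtain ⟨c, hc⟩ := (Submodule.mem_span_range_iff_exists_fun _).mp ((hmem z).mp hz)
    choose c' hc' using fun i => exists_coe_eq_of_mem_adjoin F t (c i)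
    rw [Submodule.mem_span_range_iff_exists_fun]
    refine ⟨c', Subtype.ext ?_⟩
    show ((∑ i, c' i • B' i : F) : E) = z
    rw [← hc]
    push_cast
    refine Finset.sum_congr rfl fun i _ => ?_
    rw [Algebra.smul_def, Algebra.smul_def]
    show ((c' i : F) : E) * B i = (c i : E) * B i
    rw [hc' i]
  let bas : Module.Basis (Fin n) ↥K⟮t⟯ ↥F := Module.Basis.mk hli' hspan.ge
  exact ⟨Module.Finite.of_basis bas, by rw [Module.finrank_eq_card_basis bas, Fintype.card_fin]⟩

/-- **Upper bound for the degree over any larger base field**: if `F` is the `K(t)`-span of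
`n` elements, then over every field `K'` mapping onto a subfield of `F` which contains the
constants `K` and `t`, `F` is finite of degree at most `n`. -/
theorem finrank_le_of_span (F : IntermediateField K E) (t : F) {n : ℕ} (B : Fin n → E)
    (hmem : ∀ z : E, z ∈ F → z ∈ Submodule.span ↥K⟮(t : E)⟯ (Set.range B))
    (hB : ∀ i, B i ∈ F)
    (K' : Type*) [Field K'] [Algebra K' ↥F]
    (hK : ∀ c : K, algebraMap K ↥F c ∈ (algebraMap K' ↥F).range)
    (ht : t ∈ (algebraMap K' ↥F).range) :
    Module.Finite K' ↥F ∧ Module.finrank K' ↥F ≤ n := by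
  let B' : Fin n → F := fun i => ⟨B i, hB i⟩
  -- the range of `K'` contains `K(t)`
  have hle : (K⟮t⟯ : IntermediateField K F).toSubfield ≤ (algebraMap K' ↥F).fieldRange := by
    apply IntermediateField.adjoin_le_subfield
    · rintro _ ⟨c, rfl⟩
      exact hK c
    · rintro _ rfl
      exact ht
  have hspan : Submodule.span K' (Set.range B') = ⊤ := by
    rw [eq_top_iff]
    rintro ⟨z, hz⟩ -
    obtain ⟨c, hc⟩ := (Submodule.mem_span_range_iff_exists_fun _).mp (hmem z hz)
    choose c' hc' using fun i => exists_coe_eq_of_mem_adjoin F t (c i)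
    have hd : ∀ i, ∃ d : K', algebraMap K' ↥F d = (c' i : F) := fun i => hle (c' i).2
    choose d hd using hd
    rw [Submodule.mem_span_range_iff_exists_fun]
    refine ⟨d, Subtype.ext ?_⟩
    show ((∑ i, d i • B' i : F) : E) = z
    rw [← hc]
    push_cast
    refine Finset.sum_congr rfl fun i _ => ?_
    rw [Algebra.smul_def, Algebra.smul_def, hd i]
    show ((c' i : F) : E) * B i = (c i : E) * B i
    rw [hc' i]
  have hfin : Module.Finite K' ↥F :=
    ⟨hspan ▸ Submodule.fg_span (Set.finite_range B')⟩
  refine ⟨hfin, ?_⟩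
  have h1 : Module.finrank K' ↥F = Module.finrank K' ↥(Submodule.span K' (Set.range B')) := by
    rw [hspan, finrank_top]
  rw [h1]
  exact (finrank_range_le_card B').trans (by simp)

end Generic


section Generic2

/-- **Monotonicity of the degree in the base field**: if `F` is finite over `K₁` and the image of
`K₁` in `F` is contained in the image of `K'`, then `F` is finite over `K'` of smaller or equal
degree. -/
theorem finite_finrank_le_of_range_le {K₁ K' F : Type*} [Field K₁] [Field K'] [Field F]
    [Algebra K₁ F] [Algebra K' F] [Module.Finite K₁ F]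
    (h : ∀ c : K₁, algebraMap K₁ F c ∈ (algebraMap K' F).range) :
    Module.Finite K' F ∧ Module.finrank K' F ≤ Module.finrank K₁ F := by
  let b := Module.finBasis K₁ F
  choose d hd using h
  have hspan : Submodule.span K' (Set.range b) = ⊤ := by
    rw [eq_top_iff]
    intro z _
    rw [Submodule.mem_span_range_iff_exists_fun]
    refine ⟨fun i => d (b.repr z i), ?_⟩
    conv_rhs => rw [← b.sum_repr z]
    refine Finset.sum_congr rfl fun i _ => ?_
    rw [Algebra.smul_def, Algebra.smul_def, hd]
  have hfin : Module.Finite K' F := ⟨hspan ▸ Submodule.fg_span (Set.finite_range b)⟩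
  refine ⟨hfin, ?_⟩
  have h1 : Module.finrank K' F = Module.finrank K' ↥(Submodule.span K' (Set.range b)) := by
    rw [hspan, finrank_top]
  rw [h1]
  exact (finrank_range_le_card (R := K') b).trans (by simp)

/-- The image of a field `K'` in `F` contains the simple subfield `K(t)` as soon as it contains
the constants `K` and `t`. -/
theorem adjoin_simple_le_range {K F : Type*} [Field K] [Field F] [Algebra K F] (t : F)
    (K' : Type*) [Field K'] [Algebra K' F]
    (hK : ∀ c : K, algebraMap K F c ∈ (algebraMap K' F).range)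
    (ht : t ∈ (algebraMap K' F).range) (c : ↥K⟮t⟯) :
    algebraMap ↥K⟮t⟯ F c ∈ (algebraMap K' F).range := by
  have hle : (K⟮t⟯ : IntermediateField K F).toSubfield ≤ (algebraMap K' F).fieldRange := by
    apply IntermediateField.adjoin_le_subfield
    · rintro _ ⟨c, rfl⟩
      exact hK c
    · rintro _ rfl
      exact ht
  exact hle c.2

end Generic2


/-! ### The modular instance -/

section Modular

open Fermat.Agent.S18.helper508 Fermat.Agent.S18.helper897

variable (N : ℕ) [NeZero N] (ℓ : ℕ) [Fact ℓ.Prime] (hℓN : ¬ ℓ ∣ N)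
variable {L : Type*} [Field L] [Algebra ℚ L] (A : ValuationSubring L)
  (hA : (ℓ : L) ∈ A.nonunits)

@[simp] theorem coe_jbarC (k : Type*) [Field k] (N : ℕ) :
    ((helper9392.jbarC k N : ↥(modularFunctionFieldFullC k N)) : LaurentSeries k) = jqModC k :=
  rfl

/-! #### Special fibre -/

include hℓN hA in
/-- **(DEG), special fibre, `Module.finrank` form**: `F_k` is finite over `k(j̄)` of degree
`ψ(N)`. -/
theorem finite_finrank_fullC :
    Module.Finite ↥(IsLocalRing.ResidueField A)⟮helper9392.jbarC (IsLocalRing.ResidueField A) N⟯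
        ↥(modularFunctionFieldFullC (IsLocalRing.ResidueField A) N) ∧
      Module.finrank
        ↥(IsLocalRing.ResidueField A)⟮helper9392.jbarC (IsLocalRing.ResidueField A) N⟯
        ↥(modularFunctionFieldFullC (IsLocalRing.ResidueField A) N) = dedekindPsi N :=
  finrank_adjoin_of_span (modularFunctionFieldFullC (IsLocalRing.ResidueField A) N)
    (helper9392.jbarC (IsLocalRing.ResidueField A) N)
    (fun i => zTo (IsLocalRing.ResidueField A) (gaussBasis N ℓ hℓN i))
    (mem_fullC_iff (L := L) (gaussBasis_isBasisZ N ℓ hℓN) (gaussBasis_indepRes N ℓ hℓN A hA))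
    (linearIndependent_k (gaussBasis_indepRes N ℓ hℓN A hA))

include hℓN hA in
theorem finite_fullC :
    Module.Finite ↥(IsLocalRing.ResidueField A)⟮helper9392.jbarC (IsLocalRing.ResidueField A) N⟯
        ↥(modularFunctionFieldFullC (IsLocalRing.ResidueField A) N) :=
  (finite_finrank_fullC N ℓ hℓN A hA).1

include hℓN hA in
theorem finrank_fullC :
    Module.finrank
        ↥(IsLocalRing.ResidueField A)⟮helper9392.jbarC (IsLocalRing.ResidueField A) N⟯
        ↥(modularFunctionFieldFullC (IsLocalRing.ResidueField A) N) = dedekindPsi N :=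
  (finite_finrank_fullC N ℓ hℓN A hA).2

include hℓN hA in
/-- **(R2)**: for a perfect residue field `k` (e.g. a finite field), the function field of the
special fibre is separable over `k(j̄)`. -/
theorem isSeparable_fullC [PerfectField (IsLocalRing.ResidueField A)] :
    Algebra.IsSeparable
      ↥(IsLocalRing.ResidueField A)⟮helper9392.jbarC (IsLocalRing.ResidueField A) N⟯
      ↥(modularFunctionFieldFullC (IsLocalRing.ResidueField A) N) := by
  haveI := charP_residueField ℓ A hA
  haveI := finite_fullC N ℓ hℓN A hA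
  haveI : Algebra.IsAlgebraic
      ↥(IsLocalRing.ResidueField A)⟮helper9392.jbarC (IsLocalRing.ResidueField A) N⟯
      ↥(modularFunctionFieldFullC (IsLocalRing.ResidueField A) N) :=
    Algebra.IsAlgebraic.of_finite _ _
  exact helper9392.isSeparable_modularFunctionFieldFullC (IsLocalRing.ResidueField A) ℓ N

/-! #### Generic fibre -/

include hℓN hA in
/-- **(DEG), generic fibre, `Module.finrank` form**: `F̄_N` is finite over `L(j)` of degree
`ψ(N)`. -/
theorem finite_finrank_bar :
    Module.Finite ↥L⟮jF N L⟯ (FL N L) ∧ Module.finrank ↥L⟮jF N L⟯ (FL N L) = dedekindPsi N :=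
  finrank_adjoin_of_span (laurentBaseChange L (modularFunctionFieldFull N)) (jF N L)
    (fun i => zTo L (gaussBasis N ℓ hℓN i))
    (mem_bar_iff (gaussBasis_isBasisZ N ℓ hℓN) (gaussBasis_indepRes N ℓ hℓN A hA))
    (linearIndependent_L (gaussBasis_indepRes N ℓ hℓN A hA))

include hℓN hA in
theorem finite_bar : Module.Finite ↥L⟮jF N L⟯ (FL N L) :=
  (finite_finrank_bar N ℓ hℓN A hA).1

include hℓN hA in
theorem finrank_bar : Module.finrank ↥L⟮jF N L⟯ (FL N L) = dedekindPsi N :=
  (finite_finrank_bar N ℓ hℓN A hA).2

include hℓN hA in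
/-- **(R3), robust form**: over EVERY field `K'` whose image in `F̄_N` contains the constants `L`
and `j` (e.g. any model of the fraction field of `A₀[j]`), `F̄_N` is finite of degree at most
`ψ(N)`. -/
theorem finite_finrank_bar_le (K' : Type*) [Field K'] [Algebra K' (FL N L)]
    (hK : ∀ c : L, algebraMap L (FL N L) c ∈ (algebraMap K' (FL N L)).range)
    (hj : jF N L ∈ (algebraMap K' (FL N L)).range) :
    Module.Finite K' (FL N L) ∧ Module.finrank K' (FL N L) ≤ dedekindPsi N := by
  haveI := finite_bar N ℓ hℓN A hA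
  have := finite_finrank_le_of_range_le (K₁ := ↥L⟮jF N L⟯) (K' := K') (F := FL N L)
    (adjoin_simple_le_range (jF N L) K' hK hj)
  exact ⟨this.1, this.2.trans (finrank_bar N ℓ hℓN A hA).le⟩

include hℓN hA in
/-- **(R3)**: `[F̄_N : K'] ≤ [F_k : k(j̄)]` for every field `K'` between `L(j)` and `F̄_N`. -/
theorem finrank_bar_le_finrank_fullC (K' : Type*) [Field K'] [Algebra K' (FL N L)]
    (hK : ∀ c : L, algebraMap L (FL N L) c ∈ (algebraMap K' (FL N L)).range)
    (hj : jF N L ∈ (algebraMap K' (FL N L)).range) :
    Module.finrank K' (FL N L) ≤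
      Module.finrank
        ↥(IsLocalRing.ResidueField A)⟮helper9392.jbarC (IsLocalRing.ResidueField A) N⟯
        ↥(modularFunctionFieldFullC (IsLocalRing.ResidueField A) N) := by
  rw [finrank_fullC N ℓ hℓN A hA]
  exact (finite_finrank_bar_le N ℓ hℓN A hA K' hK hj).2

/-! #### The residue map on `A[j]` -/

attribute [local instance] algAF

/-- **(R1), exact form**: the Gauss residue of `p(j)`, `p ∈ A[X]`, is `p̄(j̄)` (as elements of
the function field of the special fibre). -/
theorem gaussResidue_aeval (p : A[X]) :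
    gaussResidue N ℓ hℓN A hA ⟨aeval (jF N L) p, aeval_jF_mem N ℓ hℓN A hA p⟩ =
      aeval (helper9392.jbarC (IsLocalRing.ResidueField A) N)
        (p.map (IsLocalRing.residue A)) := by
  apply Subtype.ext
  rw [gaussResidue_aeval_jF]
  exact Polynomial.aeval_algHom_apply
    (modularFunctionFieldFullC (IsLocalRing.ResidueField A) N).val
    (helper9392.jbarC (IsLocalRing.ResidueField A) N) (p.map (IsLocalRing.residue A))

/-- **(R1)**: the Gauss residue maps `A[j]` into `k(j̄)`. -/
theorem gaussResidue_aeval_mem_range (p : A[X]) :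
    gaussResidue N ℓ hℓN A hA ⟨aeval (jF N L) p, aeval_jF_mem N ℓ hℓN A hA p⟩ ∈
      Set.range (algebraMap
        ↥(IsLocalRing.ResidueField A)⟮helper9392.jbarC (IsLocalRing.ResidueField A) N⟯
        ↥(modularFunctionFieldFullC (IsLocalRing.ResidueField A) N)) := by
  rw [gaussResidue_aeval]
  exact ⟨⟨_, aeval_mem_of_mem _ (IntermediateField.mem_adjoin_simple_self _ _) _⟩, rfl⟩

/-- **(R1), subalgebra form**: every element of `A[j] = Algebra.adjoin A {j} ⊆ F̄_N` lies in the
Gauss valuation ring and its residue lies in `k(j̄)`. -/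
theorem gaussResidue_mem_range_of_mem_adjoin (x : FL N L)
    (hx : x ∈ Algebra.adjoin ↥A {jF N L}) :
    ∃ hxO : x ∈ gaussO N ℓ hℓN A hA,
      gaussResidue N ℓ hℓN A hA ⟨x, hxO⟩ ∈
        Set.range (algebraMap
          ↥(IsLocalRing.ResidueField A)⟮helper9392.jbarC (IsLocalRing.ResidueField A) N⟯
          ↥(modularFunctionFieldFullC (IsLocalRing.ResidueField A) N)) := by
  rw [Algebra.adjoin_singleton_eq_range_aeval] at hx
  obtain ⟨p, rfl⟩ := hx
  exact ⟨aeval_jF_mem N ℓ hℓN A hA p, gaussResidue_aeval_mem_range N ℓ hℓN A hA p⟩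

end Modular

end Fermat.Agent.S18.helper2684
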