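import Fermat.Agent.S18.helper2684_VertRes
import Fermat.Agent.S18.helper6381_HLine

/-!
# S18, track B: the residue package of the Gauss valuation on the Hauptmodul lines (helper2684)

Same package as `helper2684_VertRes`, with the coordinate `j` replaced by a Hauptmodul `t_r`
(`r = 2, 3`) at a level `N` divisible by `r`, for a prime `ℓ ∤ N`.  The Hauptmodul enters as an
integer `q`-series `tZ` satisfying the two classical identities (hypotheses of
`helper6381.hline2_level` / `hline3_level`; the landed series are `helper1257.t2Z`, `t3Z`).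

For `F̄ = laurentBaseChange L (modularFunctionFieldFull N)`, `F_k = modularFunctionFieldFullC k N`,
`t = tZ` over `L`, `t̄ = tZ` over `k`:

* `LineData.finite_fullC`, `LineData.mul_finrank_fullC` : `F_k` finite over `k(t̄)`,
  `n * [F_k : k(t̄)] = ψ(N)` (`n = r + 1`);
* `LineData.isSeparable_fullC` : `F_k / k(t̄)` separable for perfect `k`;
* `LineData.finrank_bar_le_finrank_fullC` : `[F̄ : K'] ≤ [F_k : k(t̄)]` for every field `K'`
  between `L(t)` and `F̄`;
* `LineData.gaussResidue_aeval` : the Gauss residue of `p(t)`, `p ∈ A[X]`, is `p̄(t̄)`.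
-/

set_option autoImplicit false
set_option linter.style.haveILetI false

noncomputable section

open IntermediateField Polynomial ModularCurve

namespace Fermat.Agent.S18.helper2684

open Fermat.Agent.S18.helper508

/-- Coefficientwise maps commute with polynomial evaluation at a Laurent series. -/
theorem coeffMap_aeval_series {R S : Type*} [CommRing R] [CommRing S] (f : R →+* S)
    (x : LaurentSeries R) (p : R[X]) :
    coeffMap f (aeval x p) = aeval (coeffMap f x) (p.map f) := by
  induction p using Polynomial.induction_on with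
  | C a =>
    rw [Polynomial.aeval_C, Polynomial.map_C, Polynomial.aeval_C,
      Fermat.Agent.S28.helper3292.coeffMap_algebraMap']
  | add p q hp hq => rw [map_add, map_add, hp, hq, Polynomial.map_add, map_add]
  | monomial n a ih =>
    rw [map_mul, map_mul, Polynomial.map_mul, map_mul, Polynomial.aeval_C, Polynomial.map_C,
      Polynomial.aeval_C, Polynomial.map_pow, Polynomial.map_X, map_pow, map_pow, map_pow,
      Polynomial.aeval_X, Polynomial.aeval_X,
      Fermat.Agent.S28.helper3292.coeffMap_algebraMap']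

section Line

variable (N : ℕ) [NeZero N] (ℓ : ℕ) [Fact ℓ.Prime] (hℓN : ¬ ℓ ∣ N)
variable {L : Type} [Field L] [Algebra ℚ L] (A : ValuationSubring L)
  (hA : (ℓ : L) ∈ A.nonunits)

/-- The data of a Hauptmodul line of relative degree `n` over the `j`-line at level `N`, on both
fibres: an integer `q`-series `tZ` whose images generate subfields of degree `ψ(N)/n` below the
two function fields, and such that `j̄ ∈ k(t̄)`. -/
structure LineData (n : ℕ) (tZ : LaurentSeries ℤ) : Prop where
  memL : zTo L tZ ∈ laurentBaseChange L (modularFunctionFieldFull N)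
  trL : Transcendental L (zTo L tZ)
  degL : n * (L⟮zTo L tZ⟯).relfinrank (laurentBaseChange L (modularFunctionFieldFull N)) =
    dedekindPsi N
  memk : zTo (IsLocalRing.ResidueField A) tZ ∈
    modularFunctionFieldFullC (IsLocalRing.ResidueField A) N
  trk : Transcendental (IsLocalRing.ResidueField A) (zTo (IsLocalRing.ResidueField A) tZ)
  degk : n * ((IsLocalRing.ResidueField A)⟮zTo (IsLocalRing.ResidueField A) tZ⟯).relfinrank
    (modularFunctionFieldFullC (IsLocalRing.ResidueField A) N) = dedekindPsi N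
  jmem : jqModC (IsLocalRing.ResidueField A) ∈
    (IsLocalRing.ResidueField A)⟮zTo (IsLocalRing.ResidueField A) tZ⟯

namespace LineData

variable {N A} {n : ℕ} {tZ : LaurentSeries ℤ} (h : LineData N A n tZ)

/-- The Hauptmodul as an element of `F̄_N`. -/
def tBarL (h : LineData N A n tZ) : ↥(laurentBaseChange L (modularFunctionFieldFull N)) :=
  ⟨zTo L tZ, h.memL⟩

/-- The reduced Hauptmodul as an element of `F_k`. -/
def tbarC (h : LineData N A n tZ) :
    ↥(modularFunctionFieldFullC (IsLocalRing.ResidueField A) N) :=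
  ⟨zTo (IsLocalRing.ResidueField A) tZ, h.memk⟩

omit [NeZero N] in
@[simp] theorem coe_tBarL : ((h.tBarL : ↥(laurentBaseChange L (modularFunctionFieldFull N))) :
    LaurentSeries L) = zTo L tZ := rfl

omit [NeZero N] in
@[simp] theorem coe_tbarC :
    ((h.tbarC : ↥(modularFunctionFieldFullC (IsLocalRing.ResidueField A) N)) :
      LaurentSeries (IsLocalRing.ResidueField A)) = zTo (IsLocalRing.ResidueField A) tZ := rfl

theorem psi_pos : 0 < dedekindPsi N :=
  Fermat.Agent.S28.helper1595.dedekindPsi_pos (NeZero.pos N)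

include h in
theorem n_pos : 0 < n := by
  rcases Nat.eq_zero_or_pos n with h0 | h0
  · have := h.degL
    rw [h0, zero_mul] at this
    exact absurd this.symm (psi_pos (N := N)).ne'
  · exact h0

/-! #### Special fibre -/

theorem transcendental_tbarC : Transcendental (IsLocalRing.ResidueField A) h.tbarC :=
  (helper6381.subtype_of_relfinrank _ h.tbarC n _ psi_pos h.trk h.degk).1

theorem finite_fullC :
    Module.Finite ↥(IsLocalRing.ResidueField A)⟮h.tbarC⟯
      ↥(modularFunctionFieldFullC (IsLocalRing.ResidueField A) N) :=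
  (helper6381.subtype_of_relfinrank _ h.tbarC n _ psi_pos h.trk h.degk).2.1

theorem mul_finrank_fullC :
    n * Module.finrank ↥(IsLocalRing.ResidueField A)⟮h.tbarC⟯
      ↥(modularFunctionFieldFullC (IsLocalRing.ResidueField A) N) = dedekindPsi N :=
  (helper6381.subtype_of_relfinrank _ h.tbarC n _ psi_pos h.trk h.degk).2.2

omit [NeZero N] in
/-- `j̄` lies in `k(t̄)`, inside the function field. -/
theorem jbarC_mem : helper9392.jbarC (IsLocalRing.ResidueField A) N ∈
    (IsLocalRing.ResidueField A)⟮h.tbarC⟯ :=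
  (mem_adjoin_simple_coe_iff _ h.tbarC _).mpr h.jmem

include hℓN hA in
/-- **(R2) on the Hauptmodul line**: for a perfect residue field, `F_k` is separable over
`k(t̄)` (it is separable over the smaller field `k(j̄)`). -/
theorem isSeparable_fullC [PerfectField (IsLocalRing.ResidueField A)] :
    Algebra.IsSeparable ↥(IsLocalRing.ResidueField A)⟮h.tbarC⟯
      ↥(modularFunctionFieldFullC (IsLocalRing.ResidueField A) N) := by
  have hle : (IsLocalRing.ResidueField A)⟮helper9392.jbarC (IsLocalRing.ResidueField A) N⟯ ≤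
      (IsLocalRing.ResidueField A)⟮h.tbarC⟯ := by
    rw [IntermediateField.adjoin_le_iff]
    rintro _ rfl
    exact h.jbarC_mem
  haveI := Fermat.Agent.S18.helper2684.isSeparable_fullC N ℓ hℓN A hA
  letI : Algebra ↥(IsLocalRing.ResidueField A)⟮helper9392.jbarC (IsLocalRing.ResidueField A) N⟯
      ↥(IsLocalRing.ResidueField A)⟮h.tbarC⟯ :=
    (IntermediateField.inclusion hle).toRingHom.toAlgebra
  haveI : IsScalarTower
      ↥(IsLocalRing.ResidueField A)⟮helper9392.jbarC (IsLocalRing.ResidueField A) N⟯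
      ↥(IsLocalRing.ResidueField A)⟮h.tbarC⟯
      ↥(modularFunctionFieldFullC (IsLocalRing.ResidueField A) N) :=
    IsScalarTower.of_algebraMap_eq (fun _ => rfl)
  exact Algebra.isSeparable_tower_top_of_isSeparable
    ↥(IsLocalRing.ResidueField A)⟮helper9392.jbarC (IsLocalRing.ResidueField A) N⟯
    ↥(IsLocalRing.ResidueField A)⟮h.tbarC⟯
    ↥(modularFunctionFieldFullC (IsLocalRing.ResidueField A) N)

/-! #### Generic fibre -/

theorem transcendental_tBarL : Transcendental L h.tBarL :=
  (helper6381.subtype_of_relfinrank _ h.tBarL n _ psi_pos h.trL h.degL).1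

theorem finite_bar :
    Module.Finite ↥L⟮h.tBarL⟯ ↥(laurentBaseChange L (modularFunctionFieldFull N)) :=
  (helper6381.subtype_of_relfinrank _ h.tBarL n _ psi_pos h.trL h.degL).2.1

theorem mul_finrank_bar :
    n * Module.finrank ↥L⟮h.tBarL⟯ ↥(laurentBaseChange L (modularFunctionFieldFull N)) =
      dedekindPsi N :=
  (helper6381.subtype_of_relfinrank _ h.tBarL n _ psi_pos h.trL h.degL).2.2

/-- The two fibres have the same degree over the Hauptmodul line. -/
theorem finrank_bar_eq_finrank_fullC :
    Module.finrank ↥L⟮h.tBarL⟯ ↥(laurentBaseChange L (modularFunctionFieldFull N)) =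
      Module.finrank ↥(IsLocalRing.ResidueField A)⟮h.tbarC⟯
        ↥(modularFunctionFieldFullC (IsLocalRing.ResidueField A) N) :=
  Nat.eq_of_mul_eq_mul_left h.n_pos (h.mul_finrank_bar.trans h.mul_finrank_fullC.symm)

/-- **(R3) on the Hauptmodul line, robust form**: over EVERY field `K'` whose image in `F̄_N`
contains the constants `L` and `t`, `F̄_N` is finite, of degree at most `[F_k : k(t̄)]`. -/
theorem finite_finrank_bar_le (K' : Type*) [Field K']
    [Algebra K' ↥(laurentBaseChange L (modularFunctionFieldFull N))]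
    (hK : ∀ c : L, algebraMap L ↥(laurentBaseChange L (modularFunctionFieldFull N)) c ∈
      (algebraMap K' ↥(laurentBaseChange L (modularFunctionFieldFull N))).range)
    (ht : h.tBarL ∈ (algebraMap K' ↥(laurentBaseChange L (modularFunctionFieldFull N))).range) :
    Module.Finite K' ↥(laurentBaseChange L (modularFunctionFieldFull N)) ∧
      Module.finrank K' ↥(laurentBaseChange L (modularFunctionFieldFull N)) ≤
        Module.finrank ↥(IsLocalRing.ResidueField A)⟮h.tbarC⟯
          ↥(modularFunctionFieldFullC (IsLocalRing.ResidueField A) N) := by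
  haveI := h.finite_bar
  have := finite_finrank_le_of_range_le (K₁ := ↥L⟮h.tBarL⟯) (K' := K')
    (F := ↥(laurentBaseChange L (modularFunctionFieldFull N)))
    (adjoin_simple_le_range h.tBarL K' hK ht)
  exact ⟨this.1, this.2.trans h.finrank_bar_eq_finrank_fullC.le⟩

/-! #### The residue map on `A[t]` -/

attribute [local instance] helper897.algAF

omit [NeZero N] in
/-- `p(x)`, `p ∈ A[X]`, `x ∈ F̄_N`, computed in `L((q))`. -/
theorem coe_aeval_FL (x : helper897.FL N L) (p : A[X]) :
    ((aeval x p : helper897.FL N L) : LaurentSeries L) =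
      aeval (x : LaurentSeries L) (p.map A.subtype) := by
  rw [Polynomial.aeval_def, Polynomial.eval₂_eq_sum_range, Polynomial.aeval_def,
    Polynomial.eval₂_eq_sum_range, Polynomial.natDegree_map_eq_of_injective
      (Subtype.val_injective : Function.Injective A.subtype)]
  rw [AddSubmonoidClass.coe_finsetSum]
  refine Finset.sum_congr rfl fun i _ => ?_
  rw [Polynomial.coeff_map]
  rfl

omit [NeZero N] in
/-- `p(t)`, `p ∈ A[X]`, as an element of `F̄_N`, is the `A`-integral series `p(t)`. -/
theorem coe_aeval_tBarL (p : A[X]) :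
    ((aeval h.tBarL p : helper897.FL N L) : LaurentSeries L) =
      coeffMap A.subtype (aeval (zTo A tZ) p) := by
  rw [coe_aeval_FL, coeffMap_aeval_series, coeffMap_zTo]
  rfl

include hℓN hA in
/-- `p(t)` lies in the Gauss valuation ring for `p ∈ A[X]`. -/
theorem aeval_tBarL_mem (p : A[X]) :
    (aeval h.tBarL p : helper897.FL N L) ∈ gaussValuationSubring N ℓ hℓN A hA := by
  have hm : coeffMap A.subtype (aeval (zTo A tZ) p) ∈
      laurentBaseChange L (modularFunctionFieldFull N) := by
    rw [← h.coe_aeval_tBarL]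
    exact SetLike.coe_mem _
  have := coeffMap_mem_gaussValuationSubring N ℓ hℓN A hA (aeval (zTo A tZ) p) hm
  have e : (aeval h.tBarL p : helper897.FL N L) =
      (⟨coeffMap A.subtype (aeval (zTo A tZ) p), hm⟩ : helper897.FL N L) :=
    Subtype.ext (h.coe_aeval_tBarL p)
  rw [e]
  exact this

/-- **(R1) on the Hauptmodul line, exact form**: the Gauss residue of `p(t)`, `p ∈ A[X]`, is
`p̄(t̄)`. -/
theorem gaussResidue_aeval (p : A[X]) :
    gaussResidue N ℓ hℓN A hA ⟨aeval h.tBarL p, h.aeval_tBarL_mem ℓ hℓN hA p⟩ =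
      aeval h.tbarC (p.map (IsLocalRing.residue A)) := by
  have hm : coeffMap A.subtype (aeval (zTo A tZ) p) ∈
      laurentBaseChange L (modularFunctionFieldFull N) := by
    rw [← h.coe_aeval_tBarL]
    exact SetLike.coe_mem _
  have e : (⟨aeval h.tBarL p, h.aeval_tBarL_mem ℓ hℓN hA p⟩ :
      ↥(gaussValuationSubring N ℓ hℓN A hA)) =
      ⟨⟨coeffMap A.subtype (aeval (zTo A tZ) p), hm⟩,
        coeffMap_mem_gaussValuationSubring N ℓ hℓN A hA _ hm⟩ :=
    Subtype.ext (Subtype.ext (h.coe_aeval_tBarL p))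
  apply Subtype.ext
  rw [e, gaussResidue_coeffMap, coeffMap_aeval_series, coeffMap_zTo]
  exact Polynomial.aeval_algHom_apply
    (modularFunctionFieldFullC (IsLocalRing.ResidueField A) N).val h.tbarC
    (p.map (IsLocalRing.residue A))

/-- **(R1) on the Hauptmodul line**: the Gauss residue maps `A[t]` into `k(t̄)`. -/
theorem gaussResidue_aeval_mem_range (p : A[X]) :
    gaussResidue N ℓ hℓN A hA ⟨aeval h.tBarL p, h.aeval_tBarL_mem ℓ hℓN hA p⟩ ∈
      Set.range (algebraMap ↥(IsLocalRing.ResidueField A)⟮h.tbarC⟯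
        ↥(modularFunctionFieldFullC (IsLocalRing.ResidueField A) N)) := by
  rw [h.gaussResidue_aeval ℓ hℓN hA p]
  exact ⟨⟨_, aeval_mem_of_mem _ (IntermediateField.mem_adjoin_simple_self _ _) _⟩, rfl⟩

/-- **(R1) on the Hauptmodul line, subalgebra form**: every element of
`A[t] = Algebra.adjoin A {t} ⊆ F̄_N` lies in the Gauss valuation ring and its residue lies in
`k(t̄)`. -/
theorem gaussResidue_mem_range_of_mem_adjoin (x : helper897.FL N L)
    (hx : x ∈ Algebra.adjoin ↥A {h.tBarL}) :
    ∃ hxO : x ∈ gaussValuationSubring N ℓ hℓN A hA,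
      gaussResidue N ℓ hℓN A hA ⟨x, hxO⟩ ∈
        Set.range (algebraMap ↥(IsLocalRing.ResidueField A)⟮h.tbarC⟯
          ↥(modularFunctionFieldFullC (IsLocalRing.ResidueField A) N)) := by
  rw [Algebra.adjoin_singleton_eq_range_aeval] at hx
  obtain ⟨p, rfl⟩ := hx
  exact ⟨h.aeval_tBarL_mem ℓ hℓN hA p, h.gaussResidue_aeval_mem_range ℓ hℓN hA p⟩

end LineData

/-! ### The two Hauptmodul lines -/

omit [NeZero N] [Algebra ℚ L] in
include hℓN hA in
/-- The primes dividing `N` are invertible in the residue field (`ℓ ∤ N`). -/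
theorem natCast_ne_zero_residueField (p : ℕ) (hp : p.Prime) (hpN : p ∣ N) :
    (p : IsLocalRing.ResidueField A) ≠ 0 := by
  haveI := charP_residueField ℓ A hA
  intro h0
  have hdvd : ℓ ∣ p := (CharP.cast_eq_zero_iff (IsLocalRing.ResidueField A) ℓ p).mp h0
  have hℓ : ℓ.Prime := Fact.out
  have : ℓ = p := (Nat.prime_dvd_prime_iff_eq hℓ hp).mp hdvd
  exact hℓN (this ▸ hpN)

omit [NeZero N] in
theorem natCast_ne_zero_charZero (p : ℕ) (hp : p.Prime) (_hpN : p ∣ N) : (p : L) ≠ 0 := by
  haveI : CharZero L := algebraRat.charZero L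
  exact Nat.cast_ne_zero.mpr hp.ne_zero

include hℓN hA in
/-- **The line `t₂`** at a level `N` divisible by `2`, for `ℓ ∤ N`. -/
theorem lineData_two (h2N : 2 ∣ N) (tZ : LaurentSeries ℤ)
    (hJ : jqModC ℤ * tZ ^ 2 = (tZ + 256) ^ 3)
    (hJ2 : qExpand ℤ 2 (jqModC ℤ) * tZ = (tZ + 16) ^ 3) : LineData N A 3 tZ := by
  obtain ⟨hJL, hJ2L⟩ := helper6381.identities2_map L (Int.castRingHom L) tZ hJ hJ2
  obtain ⟨hJk, hJ2k⟩ := helper6381.identities2_map (IsLocalRing.ResidueField A)
    (Int.castRingHom (IsLocalRing.ResidueField A)) tZ hJ hJ2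
  obtain ⟨hmL, htL, hdL⟩ := helper6381.hline2_level L (zTo L tZ) hJL hJ2L N h2N
    (natCast_ne_zero_charZero N)
  obtain ⟨hmk, htk, hdk⟩ := helper6381.hline2_level (IsLocalRing.ResidueField A)
    (zTo (IsLocalRing.ResidueField A) tZ) hJk hJ2k N h2N
    (natCast_ne_zero_residueField N ℓ hℓN A hA)
  have h2k : (2 : IsLocalRing.ResidueField A) ≠ 0 := by
    exact_mod_cast natCast_ne_zero_residueField N ℓ hℓN A hA 2 Nat.prime_two h2N
  obtain ⟨hF, -, -⟩ := helper6381.hline2 (IsLocalRing.ResidueField A) h2k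
    (zTo (IsLocalRing.ResidueField A) tZ) hJk hJ2k
  refine ⟨?_, htL, ?_, hmk, htk, hdk, ?_⟩
  · rw [helper6381.laurentBaseChange_full_eq]; exact hmL
  · rw [helper6381.laurentBaseChange_full_eq]; exact hdL
  · rw [← hF]
    exact helper6381.adjoin_jqModC_le_full (IsLocalRing.ResidueField A) 2
      (IntermediateField.mem_adjoin_simple_self _ _)

include hℓN hA in
/-- **The line `t₃`** at a level `N` divisible by `3`, for `ℓ ∤ N`. -/
theorem lineData_three (h3N : 3 ∣ N) (tZ : LaurentSeries ℤ)
    (hJ : jqModC ℤ * tZ ^ 3 = (tZ + 27) * (tZ + 243) ^ 3)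
    (hJ3 : qExpand ℤ 3 (jqModC ℤ) * tZ = (tZ + 27) * (tZ + 3) ^ 3) : LineData N A 4 tZ := by
  obtain ⟨hJL, hJ3L⟩ := helper6381.identities3_map L (Int.castRingHom L) tZ hJ hJ3
  obtain ⟨hJk, hJ3k⟩ := helper6381.identities3_map (IsLocalRing.ResidueField A)
    (Int.castRingHom (IsLocalRing.ResidueField A)) tZ hJ hJ3
  obtain ⟨hmL, htL, hdL⟩ := helper6381.hline3_level L (zTo L tZ) hJL hJ3L N h3N
    (natCast_ne_zero_charZero N)
  obtain ⟨hmk, htk, hdk⟩ := helper6381.hline3_level (IsLocalRing.ResidueField A)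
    (zTo (IsLocalRing.ResidueField A) tZ) hJk hJ3k N h3N
    (natCast_ne_zero_residueField N ℓ hℓN A hA)
  have h3k : (3 : IsLocalRing.ResidueField A) ≠ 0 := by
    exact_mod_cast natCast_ne_zero_residueField N ℓ hℓN A hA 3 Nat.prime_three h3N
  obtain ⟨hF, -, -⟩ := helper6381.hline3 (IsLocalRing.ResidueField A) h3k
    (zTo (IsLocalRing.ResidueField A) tZ) hJk hJ3k
  refine ⟨?_, htL, ?_, hmk, htk, hdk, ?_⟩
  · rw [helper6381.laurentBaseChange_full_eq]; exact hmL
  · rw [helper6381.laurentBaseChange_full_eq]; exact hdL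
  · rw [← hF]
    exact helper6381.adjoin_jqModC_le_full (IsLocalRing.ResidueField A) 3
      (IntermediateField.mem_adjoin_simple_self _ _)

end Line

end Fermat.Agent.S18.helper2684
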