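/-
S18-KLV part 3 (helper2707): the CONSTANTS lemma.  An element of `F` that is integral over `k[t]`,
regular at every conjugate embedding over `t = ∞` other than the given one, and has no pole in its
own expansion, is a constant of `k`.
-/
import Fermat.Agent.S18.helper2707_Cofactor

set_option autoImplicit false

noncomputable section

namespace Fermat.Agent.S18.helper2707

open Polynomial IntermediateField
open scoped IntermediateField.algebraAdjoinAdjoin

variable {k : Type*} [Field k] {F : Type*} [Field F] [Algebra k F]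
variable {t : F} {ι : F →ₐ[k] LaurentSeries k}

/-! ## Polynomials in a series with a simple pole -/

/-- The expansion of `p(τ)`, `τ` with a simple pole, has a nonzero coefficient at `-deg p`. -/
theorem coeff_aeval_neg_natDegree {τ : LaurentSeries k} (hτ : τ.order = -1) {p : k[X]}
    (hp : p ≠ 0) : (aeval τ p).coeff (-(p.natDegree : ℤ)) ≠ 0 := by
  have hτ0 : τ ≠ 0 := by
    intro h
    rw [h, HahnSeries.order_zero] at hτ
    omega
  have hsm : ∀ (c : k) (x : LaurentSeries k) (n : ℤ),
      (algebraMap k (LaurentSeries k) c * x).coeff n = c * x.coeff n := by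
    intro c x n
    rw [Fermat.Agent.S18.helper4801.algebraMap_eq_C, HahnSeries.C_mul_eq_smul,
      HahnSeries.coeff_smul, smul_eq_mul]
  rw [aeval_eq_sum_range, HahnSeries.coeff_sum,
    Finset.sum_eq_single_of_mem p.natDegree (Finset.self_mem_range_succ _)]
  · rw [Algebra.smul_def, hsm]
    have h1 : (τ ^ p.natDegree).order = -(p.natDegree : ℤ) := by
      rw [HahnSeries.order_pow, hτ]
      simp
    rw [← h1]
    exact mul_ne_zero (leadingCoeff_ne_zero.mpr hp)
      (fun h0 => pow_ne_zero _ hτ0 (HahnSeries.coeff_order_eq_zero.mp h0))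
  · intro i hi hne
    rw [Algebra.smul_def, hsm]
    have h2 : (τ ^ i).coeff (-(p.natDegree : ℤ)) = 0 := by
      apply HahnSeries.coeff_eq_zero_of_lt_order
      rw [HahnSeries.order_pow, hτ]
      have hi' : i < p.natDegree := lt_of_le_of_ne (Finset.mem_range_succ_iff.mp hi) hne
      simp only [nsmul_eq_mul]
      omega
    rw [h2, mul_zero]

theorem natDegree_eq_zero_of_vb {τ : LaurentSeries k} (hτ : τ.order = -1) {p : k[X]}
    (h : VB 0 (aeval τ p)) : p.natDegree = 0 := by
  by_contra hne
  have hp : p ≠ 0 := by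
    rintro rfl
    simp at hne
  exact coeff_aeval_neg_natDegree hτ hp (h _ (by omega))

theorem transcendental_of_order (ht : (ι t).order = -1) : Transcendental k t := by
  rintro ⟨p, hp, h0⟩
  have h1 : aeval (ι t) p = 0 := by
    rw [aeval_algHom_apply, h0, map_zero]
  exact coeff_aeval_neg_natDegree ht hp (by rw [h1]; simp)

/-! ## `k[t]` is integrally closed in `k(t)` -/

theorem isIntegrallyClosed_adjoin_of_transcendental (h : Transcendental k t) :
    IsIntegrallyClosed (Algebra.adjoin k {t}) :=
  IsIntegrallyClosed.of_equiv (Polynomial.algEquivOfTranscendental k t h).toRingEquiv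

/-- An element of `k(t)` integral over `k[t]` is a polynomial in `t`. -/
theorem exists_aeval_of_isIntegral_adjoin (h : Transcendental k t) {c : k⟮t⟯}
    (hc : IsIntegral (Algebra.adjoin k {t}) c) : ∃ p : k[X], (c : F) = aeval t p := by
  have := isIntegrallyClosed_adjoin_of_transcendental h
  obtain ⟨a, ha⟩ := IsIntegrallyClosed.isIntegral_iff.mp hc
  obtain ⟨p, hp⟩ := Algebra.adjoin_mem_exists_aeval _ _ a.2
  refine ⟨p, ?_⟩
  rw [← ha]
  exact hp.symm

/-! ## Coefficients of a product of linear factors with integral roots -/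

theorem isIntegral_coeff_prod_X_sub_C {R A : Type*} [CommRing R] [CommRing A] [Algebra R A]
    {ι' : Type*} (s : Finset ι') (r : ι' → A) (hr : ∀ j, IsIntegral R (r j)) (i : ℕ) :
    IsIntegral R ((∏ j ∈ s, (X - C (r j))).coeff i) := by
  have hlift : (∏ j ∈ s, (X - C (r j)))
      = (∏ j ∈ s, (X - C (⟨r j, hr j⟩ : integralClosure R A))).map
          (algebraMap (integralClosure R A) A) := by
    rw [Polynomial.map_prod]
    refine Finset.prod_congr rfl fun j _ => ?_
    rw [Polynomial.map_sub, map_X, map_C]
    rfl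
  rw [hlift, coeff_map]
  exact ((∏ j ∈ s, (X - C (⟨r j, hr j⟩ : integralClosure R A))).coeff i).2

/-! ## Power series algebraic over the constants -/

theorem eq_C_of_isIntegral_powerSeries {x : PowerSeries k} (hx : IsIntegral k x) :
    x = PowerSeries.C (PowerSeries.constantCoeff x) := by
  set a := PowerSeries.constantCoeff x with ha
  have hCa : (PowerSeries.C a : PowerSeries k) = algebraMap k (PowerSeries k) a := rfl
  have hz : IsIntegral k (x - PowerSeries.C a) := by
    rw [hCa]
    exact hx.sub isIntegral_algebraMap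
  have hz0 : PowerSeries.constantCoeff (x - PowerSeries.C a) = 0 := by
    rw [map_sub, PowerSeries.constantCoeff_C, ← ha, sub_self]
  have h1 := congrArg (PowerSeries.constantCoeff (R := k)) (minpoly.aeval k (x - PowerSeries.C a))
  rw [aeval_def, Polynomial.hom_eval₂, hz0, map_zero] at h1
  have hcomp : (PowerSeries.constantCoeff (R := k)).comp (algebraMap k (PowerSeries k))
      = RingHom.id k := by
    ext c
    show PowerSeries.constantCoeff (PowerSeries.C c) = c
    exact PowerSeries.constantCoeff_C c
  rw [hcomp, eval₂_id, ← Polynomial.coeff_zero_eq_eval_zero] at h1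
  exact sub_eq_zero.mp ((minpoly.coeff_zero_eq_zero hz).mp h1)

/-! ## The constants lemma -/

/-- The characteristic polynomial over `k(t)` of an element that is integral over `k[t]` and
regular at all conjugate embeddings (including the given one) has constant coefficients. -/
theorem charpoly_coeff_const [FiniteDimensional k⟮t⟯ F] [Algebra.IsSeparable k⟮t⟯ F]
    (ht : (ι t).order = -1) {y : F} (hy : RegAway ι t y) (hint : IsIntOver k t y)
    (hpol : VB 0 (ι y)) (i : ℕ) :
    ∃ a : k, (LinearMap.charpoly (Algebra.lmul k⟮t⟯ F y)).coeff i = algebraMap k k⟮t⟯ a := by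
  classical
  let _ := algOm t ι
  have := infinite_adjoin ht
  have htr := transcendental_of_order ht
  have hpf := charpoly_map_eq_prod_embeddings (K := k⟮t⟯) (L := F) (E := Om k) y
  -- all conjugates are integral over `k[[q]]`
  have hσint : ∀ σ : F →ₐ[k⟮t⟯] Om k, IsIntegral (PowerSeries k) (σ y) := by
    intro σ
    by_cases hσ : (σ : F →+* Om k) = inc ι
    · have h1 : σ y = inc ι y := congrArg (fun f : F →+* Om k => f y) hσ
      rw [h1]
      exact isIntegral_inc_of_vb hpol
    · exact hy (σ : F →+* Om k) (fun c => σ.commutes c) hσ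
  -- hence so are the coefficients of the characteristic polynomial
  have hcoef1 : IsIntegral (PowerSeries k)
      (algebraMap k⟮t⟯ (Om k) ((LinearMap.charpoly (Algebra.lmul k⟮t⟯ F y)).coeff i)) := by
    rw [← coeff_map, hpf]
    exact isIntegral_coeff_prod_X_sub_C _ _ hσint i
  have hvb : VB 0 (ι (((LinearMap.charpoly (Algebra.lmul k⟮t⟯ F y)).coeff i : k⟮t⟯) : F)) :=
    vb_zero_of_isIntegral hcoef1
  -- all conjugates are integral over `k[t]`
  let _ : Algebra (Algebra.adjoin k {t}) (Om k) :=
    ((algebraMap k⟮t⟯ (Om k)).comp (algebraMap (Algebra.adjoin k {t}) k⟮t⟯)).toAlgebra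
  have : IsScalarTower (Algebra.adjoin k {t}) k⟮t⟯ (Om k) :=
    IsScalarTower.of_algebraMap_eq fun _ => rfl
  have hy' : IsIntegral (Algebra.adjoin k {t}) y := isIntOver_iff_isIntegral_adjoin.mp hint
  have hσint2 : ∀ σ : F →ₐ[k⟮t⟯] Om k, IsIntegral (Algebra.adjoin k {t}) (σ y) := by
    intro σ
    refine IsIntegral.map_of_comp_eq (RingHom.id _) (σ : F →+* Om k) ?_ hy'
    ext a
    exact (σ.commutes (algebraMap (Algebra.adjoin k {t}) k⟮t⟯ a)).symm
  have hcoef2 : IsIntegral (Algebra.adjoin k {t})
      ((LinearMap.charpoly (Algebra.lmul k⟮t⟯ F y)).coeff i) := by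
    rw [← isIntegral_algebraMap_iff (algebraMap k⟮t⟯ (Om k)).injective, ← coeff_map, hpf]
    exact isIntegral_coeff_prod_X_sub_C _ _ hσint2 i
  obtain ⟨p, hp⟩ := exists_aeval_of_isIntegral_adjoin htr hcoef2
  rw [hp, ← aeval_algHom_apply] at hvb
  have hdeg := natDegree_eq_zero_of_vb ht hvb
  rw [eq_C_of_natDegree_eq_zero hdeg, aeval_C] at hp
  exact ⟨p.coeff 0, Subtype.ext hp⟩

/-- **(CONST) Constants lemma.**  If `y` is integral over `k[t]`, regular at every conjugate
embedding other than the given one, and its own expansion has no pole, then `y ∈ k`. -/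
theorem const_of_regAway [FiniteDimensional k⟮t⟯ F] [Algebra.IsSeparable k⟮t⟯ F]
    (ht : (ι t).order = -1) {y : F} (hy : RegAway ι t y) (hint : IsIntOver k t y)
    (hpol : VB 0 (ι y)) : ∃ c : k, y = algebraMap k F c := by
  classical
  -- the characteristic polynomial descends to `k[X]`
  have hlift : LinearMap.charpoly (Algebra.lmul k⟮t⟯ F y) ∈ lifts (algebraMap k k⟮t⟯) := by
    rw [lifts_iff_coeff_lifts]
    intro i
    obtain ⟨a, ha⟩ := charpoly_coeff_const ht hy hint hpol i
    exact ⟨a, ha.symm⟩
  obtain ⟨χ0, hχ0, -, hmonic⟩ := lifts_and_degree_eq_and_monic hlift (LinearMap.charpoly_monic _)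
  -- Cayley–Hamilton
  have hCH : aeval y (LinearMap.charpoly (Algebra.lmul k⟮t⟯ F y)) = 0 := by
    have h1 := LinearMap.aeval_self_charpoly (Algebra.lmul k⟮t⟯ F y)
    rw [aeval_algHom_apply] at h1
    have h2 := congrArg (fun f : Module.End k⟮t⟯ F => f 1) h1
    simpa using h2
  have hy0 : aeval y χ0 = 0 := by
    rw [← hχ0, aeval_map_algebraMap] at hCH
    exact hCH
  -- a power series algebraic over `k` is constant
  obtain ⟨x0, hx0⟩ := exists_coe_of_vb_zero hpol
  have hx0int : IsIntegral k x0 := by
    refine ⟨χ0, hmonic, ?_⟩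
    have h3 : aeval (ι y) χ0 = 0 := by
      rw [aeval_algHom_apply, hy0, map_zero]
    rw [← hx0] at h3
    have hcomp : (algebraMap (PowerSeries k) (LaurentSeries k)).comp
        (algebraMap k (PowerSeries k)) = algebraMap k (LaurentSeries k) :=
      RingHom.ext algebraMap_ps_ls_const
    apply IsFractionRing.injective (PowerSeries k) (LaurentSeries k)
    rw [map_zero, Polynomial.hom_eval₂, hcomp]
    exact h3
  have h4 := eq_C_of_isIntegral_powerSeries hx0int
  refine ⟨PowerSeries.constantCoeff x0, (ι : F →+* LaurentSeries k).injective ?_⟩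
  show ι y = ι (algebraMap k F (PowerSeries.constantCoeff x0))
  rw [AlgHom.commutes, ← hx0, ← algebraMap_ps_ls_const]
  exact congrArg _ h4

end Fermat.Agent.S18.helper2707
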