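/-
S18 track C, link (C4) (helper2707): the algebra `B ⊆ κ((q))` of `helper99.Stmt_Bbar` and the
packaging theorem.

For a field `κ`, the function field `Fκ = modularFunctionFieldFullC κ N ⊆ κ((q))` and an element
`tb : Fκ` (the reduced Hauptmodul, a simple pole at `q = 0`),

  `Bsub κ N tb = { y ∈ Fκ | y integral over κ[tb]  ∧  y regular at every conjugate embedding
                            over `tb = ∞` other than the given one }`.

* `Bsub_root`  : root closed in `Fκ`                                   (no hypothesis);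
* `Bsub_const` : an element without polar part is a constant           (KLV `const_of_regAway`);
* `Bsub_kl`    : `[q⁰](y · f̄) = 0` from the two chart certificates of `η` and the theta relation
                 `tb · f̄ = ± η · θ(tb)`                                (`HasCert`, via helper705);
* `stmt_Bbar_of` : `helper99.Stmt_Bbar N A` from the line data, the certificates and `ct`.
-/
import Fermat.Agent.S18.helper99_SpecC
import Fermat.Agent.S18.helper2707_Constants
import Fermat.Agent.S18.helper705_KLTwist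

set_option autoImplicit false

noncomputable section

namespace Fermat.Agent.S18.helper2707

open Polynomial IntermediateField ModularCurve

section Def

variable (κ : Type*) [Field κ] (N : ℕ)

/-- The inclusion of the characteristic-`ℓ` function field into `κ((q))`. -/
abbrev incF : ↥(modularFunctionFieldFullC κ N) →ₐ[κ] LaurentSeries κ :=
  (modularFunctionFieldFullC κ N).val

/-- The algebra `B` of track C: elements of the function field that are integral over `κ[tb]`
and regular at every conjugate embedding other than the given one. -/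
def Bsub (tb : ↥(modularFunctionFieldFullC κ N)) : Subalgebra κ (LaurentSeries κ) where
  carrier := {y | ∃ hy : y ∈ modularFunctionFieldFullC κ N,
    IsIntOver κ tb ⟨y, hy⟩ ∧ RegAway (incF κ N) tb ⟨y, hy⟩}
  mul_mem' := by
    rintro y z ⟨hy, h1, h2⟩ ⟨hz, h3, h4⟩
    have e : (⟨y * z, mul_mem hy hz⟩ : ↥(modularFunctionFieldFullC κ N)) = ⟨y, hy⟩ * ⟨z, hz⟩ :=
      rfl
    refine ⟨mul_mem hy hz, ?_, ?_⟩
    · rw [e]
      exact h1.mul h3
    · rw [e]
      exact h2.mul h4
  add_mem' := by
    rintro y z ⟨hy, h1, h2⟩ ⟨hz, h3, h4⟩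
    have e : (⟨y + z, add_mem hy hz⟩ : ↥(modularFunctionFieldFullC κ N)) = ⟨y, hy⟩ + ⟨z, hz⟩ :=
      rfl
    refine ⟨add_mem hy hz, ?_, ?_⟩
    · rw [e]
      exact h1.add h3
    · rw [e]
      exact h2.add h4
  algebraMap_mem' := by
    intro c
    have e : (⟨algebraMap κ (LaurentSeries κ) c, IntermediateField.algebraMap_mem _ c⟩ :
        ↥(modularFunctionFieldFullC κ N)) = algebraMap κ ↥(modularFunctionFieldFullC κ N) c := rfl
    refine ⟨IntermediateField.algebraMap_mem _ c, ?_, ?_⟩
    · rw [e]
      exact isIntOver_algebraMap tb c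
    · rw [e]
      exact regAway_algebraMap c

variable {κ N}

theorem mem_Bsub_iff {tb : ↥(modularFunctionFieldFullC κ N)} {y : LaurentSeries κ} :
    y ∈ Bsub κ N tb ↔ ∃ hy : y ∈ modularFunctionFieldFullC κ N,
      IsIntOver κ tb ⟨y, hy⟩ ∧ RegAway (incF κ N) tb ⟨y, hy⟩ := Iff.rfl

theorem mem_Bsub {tb : ↥(modularFunctionFieldFullC κ N)} {Y : ↥(modularFunctionFieldFullC κ N)}
    (h1 : IsIntOver κ tb Y) (h2 : RegAway (incF κ N) tb Y) :
    (Y : LaurentSeries κ) ∈ Bsub κ N tb := ⟨Y.2, h1, h2⟩

/-- `IsIntOver` passes to roots. -/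
theorem IsIntOver.of_pow {k : Type*} [Field k] {F : Type*} [Field F] [Algebra k F] {s z : F}
    {n : ℕ} (hn : 0 < n) (h : IsIntOver k s (z ^ n)) : IsIntOver k s z :=
  isIntOver_iff_isIntegral_adjoin.mpr
    (IsIntegral.of_pow hn (isIntOver_iff_isIntegral_adjoin.mp h))

/-- `root`: `B` is root closed in the function field. -/
theorem Bsub_root (tb : ↥(modularFunctionFieldFullC κ N)) :
    ∀ y ∈ modularFunctionFieldFullC κ N, ∀ k : ℕ, 0 < k → y ^ k ∈ Bsub κ N tb →
      y ∈ Bsub κ N tb := by
  rintro y hy k hk ⟨hyk, h1, h2⟩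
  have e : (⟨y ^ k, hyk⟩ : ↥(modularFunctionFieldFullC κ N)) = ⟨y, hy⟩ ^ k := rfl
  rw [e] at h1 h2
  exact ⟨hy, h1.of_pow hk, h2.of_pow hk.ne'⟩

/-- `const`: an element of `B` without polar part is a constant. -/
theorem Bsub_const (tb : ↥(modularFunctionFieldFullC κ N))
    (ht : (tb : LaurentSeries κ).order = -1)
    [FiniteDimensional κ⟮tb⟯ ↥(modularFunctionFieldFullC κ N)]
    [Algebra.IsSeparable κ⟮tb⟯ ↥(modularFunctionFieldFullC κ N)] :
    ∀ y ∈ Bsub κ N tb, (∀ i : ℤ, i < 0 → y.coeff i = 0) → ∃ c : κ, y = HahnSeries.C c := by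
  rintro y ⟨hy, h1, h2⟩ hpol
  obtain ⟨c, hc⟩ := const_of_regAway (ι := incF κ N) (t := tb) ht h2 h1 hpol
  refine ⟨c, ?_⟩
  have h3 := congrArg (fun Y : ↥(modularFunctionFieldFullC κ N) => (Y : LaurentSeries κ)) hc
  rw [← Fermat.Agent.S18.helper4801.algebraMap_eq_C]
  exact h3

/-- The certificate package for one cusp form series `fbar` (reduction of `f`): an element
`η = (f / ε_r)‾` of the function field with the finite-chart certificate, the certificate at
infinity, and the theta relation `tb · fbar = ± η · θ(tb)`. -/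
def HasCert (tb : ↥(modularFunctionFieldFullC κ N)) (fbar : LaurentSeries κ) : Prop :=
  ∃ (c : κ) (a E : ℕ) (η w w' : ↥(modularFunctionFieldFullC κ N)),
    c ≠ 0 ∧ 0 < a ∧ 0 < E ∧
    IsIntegral (Algebra.adjoin κ {tb}) w ∧
    (η ^ a * (tb + algebraMap κ ↥(modularFunctionFieldFullC κ N) c) ^ (a - 1)) ^ E = tb * w ∧
    IsIntegral (Algebra.adjoin κ {tb⁻¹}) w' ∧
    (η ^ a * (algebraMap κ ↥(modularFunctionFieldFullC κ N) c * tb⁻¹ + 1) ^ (a - 1)) ^ E
      = tb⁻¹ * w' ∧
    ((tb : LaurentSeries κ) * fbar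
        = (η : LaurentSeries κ) * Fermat.Agent.S18.helper4801.theta (tb : LaurentSeries κ) ∨
      (tb : LaurentSeries κ) * fbar
        = -((η : LaurentSeries κ) * Fermat.Agent.S18.helper4801.theta (tb : LaurentSeries κ)))

/-- `kl`: the residue lemma for one cusp form with certificates. -/
theorem Bsub_kl (tb : ↥(modularFunctionFieldFullC κ N))
    (ht : (tb : LaurentSeries κ).order = -1)
    [FiniteDimensional κ⟮tb⟯ ↥(modularFunctionFieldFullC κ N)]
    [Algebra.IsSeparable κ⟮tb⟯ ↥(modularFunctionFieldFullC κ N)]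
    {fbar : LaurentSeries κ} (hcert : HasCert tb fbar) :
    ∀ y ∈ Bsub κ N tb, (y * fbar).coeff 0 = 0 := by
  rintro y ⟨hy, h1, h2⟩
  obtain ⟨c, a, E, η, w, w', hc, ha, hE, hw, hcw, hw', hcw', hθ⟩ := hcert
  exact Fermat.Agent.S18.helper705.coeff_zero_mul_of_certificates (ι := incF κ N) (t := tb) ht
    (transcendental_of_order (ι := incF κ N) ht) hc ha hE w hw hcw w' hw' hcw' h2
    (isIntOver_iff_isIntegral_adjoin.mp h1) fbar hθ

end Def

section Packaging

open AlgebraicCurve

set_option synthInstance.maxHeartbeats 400000 in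
/-- **(C4) packaging.**  `helper99.Stmt_Bbar N A` from: the reduced Hauptmodul `tb` (simple pole,
the function field finite separable over `κ(tb)`), the certificates for every integral basis
cusp form, and the field `ct` for `Bsub`. -/
theorem stmt_Bbar_of (N : ℕ) [NeZero N] (A : ValuationSubring (AlgebraicClosure ℚ))
    (tb : ↥(modularFunctionFieldFullC (IsLocalRing.ResidueField A) N))
    (ht : (tb : LaurentSeries (IsLocalRing.ResidueField A)).order = -1)
    [FiniteDimensional (IsLocalRing.ResidueField A)⟮tb⟯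
      ↥(modularFunctionFieldFullC (IsLocalRing.ResidueField A) N)]
    [Algebra.IsSeparable (IsLocalRing.ResidueField A)⟮tb⟯
      ↥(modularFunctionFieldFullC (IsLocalRing.ResidueField A) N)]
    (hcert : ∀ (D : Fermat.Agent.S18.helper5819.IntBasis N 2) (i : Fin D.r),
      HasCert tb (D.laurent (IsLocalRing.ResidueField A) i))
    (hct : ∀ (x : LaurentSeries A) (hx : coeffMap A.subtype x ∈ modularFunctionFieldBar N),
      Fermat.Agent.S18.helper99.RegAwayInf N ⟨coeffMap A.subtype x, hx⟩ →
        coeffMap (IsLocalRing.residue A) x ∈ Bsub (IsLocalRing.ResidueField A) N tb) :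
    Fermat.Agent.S18.helper99.Stmt_Bbar N A :=
  ⟨Bsub (IsLocalRing.ResidueField A) N tb, Bsub_root tb, Bsub_const tb ht,
    fun D i => Bsub_kl tb ht (hcert D i), hct⟩

end Packaging

end Fermat.Agent.S18.helper2707
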