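import Mathlib
import Fermat.Prelude.Def_ModularCurve_LaurentCoeff
import Fermat.Agent.S18.helper9428_RankOne

/-!
# Integral coefficients of Laurent / Hahn series: the "bounded powers" criterion
(helper3784, S18 — shared layer of tracks A and C: "integral cusp expansions")

Let `A` be a subring of a domain `L` which is *completely integrally closed in `L`* in the
elementary form

  `harch : ∀ c z, c ≠ 0 → (∀ n, c * z ^ n ∈ A) → z ∈ A`

(true for every rank-one valuation subring, e.g. a valuation subring of `ℚ̄` over a prime `ℓ`,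
or a discrete valuation ring of a number field).  Write `coeffSubring A` for the subring of
Hahn series (`Γ = ℤ`: Laurent series) all of whose coefficients lie in `A`.

WARNING (the reason for this file).  `coeffSubring A` is **not** integrally closed, and not even
root closed, in the field of all Laurent series over `L`: for `A = ℤ_(ℓ)` the polynomial
`X² - ℓ X - q` has the root `ℓ + q/ℓ - q²/ℓ³ + ⋯`, and `√(ℓ² + 2q) = ℓ + q/ℓ - ⋯` has an integral
square.  So "integral over `A[t, t⁻¹]`" (or "Gauss norm `≤ 1`") does not by itself give an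
`A`-integral cusp expansion.  What is true, and enough for every element of a function field
(which is a *fraction* of integral expansions), is:

* `mem_coeffSubring_of_forall_mul_pow_mem`: if `δ ≠ 0` and `δ * y ^ n` has coefficients in `A`
  for all `n`, then `y` has coefficients in `A`;
* `mem_coeffSubring_of_monic_relation`: if `y ^ d = ∑ k < d, c k * y ^ k` with the `c k` integral
  and `Q * y` integral for one integral `Q ≠ 0`, then `y` is integral;
* `mem_coeffSubring_of_isIntegral`: the same with `IsIntegral (coeffSubring A) y`;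
* `mem_coeffSubring_of_pow_mem`: root form (`y ^ e` and `Q * y` integral, `0 < e`);
* `harch_of_valuationSubring`, `harch_Qbar`: the hypothesis `harch` for rank-one valuation
  subrings, in particular for `A : ValuationSubring ℚ̄` lying over a prime (from
  `helper9428.exists_pow_le_Qbar`).
-/

set_option autoImplicit false

namespace Fermat.Agent.S18.helper3784

open HahnSeries

section core

variable {Γ : Type*} [AddCommMonoid Γ] [LinearOrder Γ] [IsOrderedCancelAddMonoid Γ]
variable {L : Type*} [CommRing L]

/-- Hahn series (Laurent series for `Γ = ℤ`) all of whose coefficients lie in the subring `A`. -/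
def coeffSubring (A : Subring L) : Subring (HahnSeries Γ L) where
  carrier := {x | ∀ i, x.coeff i ∈ A}
  zero_mem' := fun i => by simp
  one_mem' := fun i => by
    rw [HahnSeries.coeff_one]
    split_ifs
    · exact A.one_mem
    · exact A.zero_mem
  add_mem' := fun {x y} hx hy i => by
    rw [HahnSeries.coeff_add]
    exact A.add_mem (hx i) (hy i)
  neg_mem' := fun {x} hx i => by
    rw [HahnSeries.coeff_neg]
    exact A.neg_mem (hx i)
  mul_mem' := fun {x y} hx hy i => by
    rw [HahnSeries.coeff_mul]
    exact Subring.sum_mem _ fun ij _ => A.mul_mem (hx _) (hy _)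

theorem mem_coeffSubring_iff {A : Subring L} {x : HahnSeries Γ L} :
    x ∈ coeffSubring (Γ := Γ) A ↔ ∀ i, x.coeff i ∈ A := Iff.rfl

variable [IsDomain L]

theorem leadingCoeff_mul_pow (δ z : HahnSeries Γ L) (n : ℕ) :
    (δ * z ^ n).leadingCoeff = δ.leadingCoeff * z.leadingCoeff ^ n := by
  induction n with
  | zero => simp
  | succ n ih =>
    rw [pow_succ, ← mul_assoc, HahnSeries.leadingCoeff_mul, ih, pow_succ, mul_assoc]

omit [IsDomain L] in
theorem leadingCoeff_mem_of_mem {A : Subring L} {x : HahnSeries Γ L}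
    (hx : x ∈ coeffSubring (Γ := Γ) A) : x.leadingCoeff ∈ A := by
  rw [HahnSeries.leadingCoeff_eq]
  exact hx _

/-- **Bounded powers criterion.**  If `A` is completely integrally closed in `L` (hypothesis
`harch`), `δ ≠ 0` and all `δ * y ^ n` have coefficients in `A`, then `y` has coefficients
in `A`. -/
theorem mem_coeffSubring_of_forall_mul_pow_mem (A : Subring L)
    (harch : ∀ c z : L, c ≠ 0 → (∀ n : ℕ, c * z ^ n ∈ A) → z ∈ A)
    {y δ : HahnSeries Γ L} (hδ : δ ≠ 0)
    (h : ∀ n : ℕ, δ * y ^ n ∈ coeffSubring (Γ := Γ) A) :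
    y ∈ coeffSubring (Γ := Γ) A := by
  classical
  by_contra hy
  -- the set of bad indices is nonempty and well-founded: take its minimum `i₁`
  have hne : {i | y.coeff i ∉ A}.Nonempty := by
    by_contra hne
    rw [Set.not_nonempty_iff_eq_empty] at hne
    apply hy
    intro i
    by_contra hi
    have hmem : i ∈ {i | y.coeff i ∉ A} := hi
    rw [hne] at hmem
    exact hmem
  have hsub : {i | y.coeff i ∉ A} ⊆ y.support := by
    intro i hi
    rw [HahnSeries.mem_support]
    intro h0
    exact hi (by rw [h0]; exact A.zero_mem)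
  have hwf : {i | y.coeff i ∉ A}.IsWF := y.isWF_support.mono hsub
  set i₁ := hwf.min hne with hi₁def
  have hi₁ : y.coeff i₁ ∉ A := hwf.min_mem hne
  have hlt : ∀ i, i < i₁ → y.coeff i ∈ A := by
    intro i hi
    by_contra hbad
    exact (hwf.not_lt_min hne hbad) hi
  -- the integral head `y'` and the tail `z = y - y'`
  let y' : HahnSeries Γ L :=
    ⟨fun i => if i < i₁ then y.coeff i else 0, y.isPWO_support.mono (by
      intro i hi
      rw [Function.mem_support] at hi
      rw [HahnSeries.mem_support]
      intro h0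
      apply hi
      simp [h0])⟩
  have hy'coeff : ∀ i, y'.coeff i = if i < i₁ then y.coeff i else 0 := fun i => rfl
  have hy' : y' ∈ coeffSubring (Γ := Γ) A := by
    intro i
    rw [hy'coeff]
    split_ifs with hi
    · exact hlt i hi
    · exact A.zero_mem
  set z : HahnSeries Γ L := y - y' with hz
  have hzcoeff : ∀ i, z.coeff i = if i < i₁ then 0 else y.coeff i := by
    intro i
    rw [hz, HahnSeries.coeff_sub, hy'coeff]
    split_ifs <;> simp
  have hzi₁ : z.coeff i₁ = y.coeff i₁ := by rw [hzcoeff, if_neg (lt_irrefl _)]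
  have hz0 : z ≠ 0 := by
    intro h0
    apply hi₁
    rw [← hzi₁, h0]
    simp
  have hzord : z.order = i₁ := by
    apply le_antisymm
    · apply HahnSeries.order_le_of_coeff_ne_zero
      rw [hzi₁]
      intro h0
      exact hi₁ (by rw [h0]; exact A.zero_mem)
    · by_contra hlt'
      rw [not_le] at hlt'
      have := (HahnSeries.coeff_order_eq_zero (x := z)).not.mpr hz0
      apply this
      rw [hzcoeff, if_pos hlt']
  have hzlead : z.leadingCoeff = y.coeff i₁ := by
    rw [HahnSeries.leadingCoeff_eq, hzord, hzi₁]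
  -- all `δ * z ^ n` are integral
  have hzpow : ∀ n : ℕ, δ * z ^ n ∈ coeffSubring (Γ := Γ) A := by
    intro n
    rw [hz, sub_eq_add_neg, add_pow, Finset.mul_sum]
    refine Subring.sum_mem _ fun m _ => ?_
    have e : δ * (y ^ m * (-y') ^ (n - m) * ((n.choose m : ℕ) : HahnSeries Γ L)) =
        (δ * y ^ m) * ((-y') ^ (n - m) * ((n.choose m : ℕ) : HahnSeries Γ L)) := by ring
    rw [e]
    exact Subring.mul_mem _ (h m)
      (Subring.mul_mem _ (Subring.pow_mem _ (Subring.neg_mem _ hy') _) (natCast_mem _ _))
  -- leading coefficients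
  have hlead : ∀ n : ℕ, δ.leadingCoeff * (y.coeff i₁) ^ n ∈ A := by
    intro n
    rw [← hzlead, ← leadingCoeff_mul_pow]
    exact leadingCoeff_mem_of_mem (hzpow n)
  exact hi₁ (harch _ _ (HahnSeries.leadingCoeff_ne_zero.mpr hδ) hlead)


/-- **Monic relation form.**  If `y ^ d = ∑ k < d, c k * y ^ k` with integral `c k`, and
`Q * y` is integral for one integral `Q ≠ 0` (i.e. `y` is a fraction of integral series),
then `y` is integral. -/
theorem mem_coeffSubring_of_monic_relation (A : Subring L)
    (harch : ∀ c z : L, c ≠ 0 → (∀ n : ℕ, c * z ^ n ∈ A) → z ∈ A)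
    {y Q : HahnSeries Γ L} (hQ : Q ∈ coeffSubring (Γ := Γ) A) (hQ0 : Q ≠ 0)
    (hQy : Q * y ∈ coeffSubring (Γ := Γ) A)
    (d : ℕ) (c : ℕ → HahnSeries Γ L) (hc : ∀ k, k < d → c k ∈ coeffSubring (Γ := Γ) A)
    (hrel : y ^ d = ∑ k ∈ Finset.range d, c k * y ^ k) :
    y ∈ coeffSubring (Γ := Γ) A := by
  refine mem_coeffSubring_of_forall_mul_pow_mem A harch (δ := Q ^ d) (pow_ne_zero d hQ0) ?_
  intro n
  induction n using Nat.strong_induction_on with
  | _ n ih =>
    rcases lt_or_ge n d with hnd | hnd
    · have e : Q ^ d * y ^ n = Q ^ (d - n) * (Q * y) ^ n := by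
        rw [mul_pow, ← mul_assoc, ← _root_.pow_add, Nat.sub_add_cancel hnd.le]
      rw [e]
      exact Subring.mul_mem _ (Subring.pow_mem _ hQ _) (Subring.pow_mem _ hQy _)
    · have e : Q ^ d * y ^ n = ∑ k ∈ Finset.range d, c k * (Q ^ d * y ^ (k + (n - d))) := by
        have hn : y ^ n = y ^ d * y ^ (n - d) := by
          rw [← _root_.pow_add, Nat.add_sub_cancel' hnd]
        rw [hn, hrel, Finset.sum_mul, Finset.mul_sum]
        refine Finset.sum_congr rfl fun k _ => ?_
        rw [_root_.pow_add]
        ring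
      rw [e]
      refine Subring.sum_mem _ fun k hk => ?_
      rw [Finset.mem_range] at hk
      exact Subring.mul_mem _ (hc k hk) (ih _ (by omega))

/-- **Root form.**  If `y ^ e` (`0 < e`) is integral and `Q * y` is integral for one integral
`Q ≠ 0`, then `y` is integral. -/
theorem mem_coeffSubring_of_pow_mem (A : Subring L)
    (harch : ∀ c z : L, c ≠ 0 → (∀ n : ℕ, c * z ^ n ∈ A) → z ∈ A)
    {y Q : HahnSeries Γ L} (hQ : Q ∈ coeffSubring (Γ := Γ) A) (hQ0 : Q ≠ 0)
    (hQy : Q * y ∈ coeffSubring (Γ := Γ) A)
    {e : ℕ} (he : 0 < e) (hye : y ^ e ∈ coeffSubring (Γ := Γ) A) :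
    y ∈ coeffSubring (Γ := Γ) A := by
  refine mem_coeffSubring_of_monic_relation A harch hQ hQ0 hQy e
    (fun k => if k = 0 then y ^ e else 0) ?_ ?_
  · intro k _
    split_ifs
    · exact hye
    · exact Subring.zero_mem _
  · rw [Finset.sum_eq_single 0]
    · simp
    · intro k _ hk
      simp [hk]
    · intro h0
      exact absurd (Finset.mem_range.mpr he) h0

/-- **Integral form.**  If `y` is integral over the ring of integral series and `Q * y` is
integral for one integral `Q ≠ 0`, then `y` is integral. -/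
theorem mem_coeffSubring_of_isIntegral (A : Subring L)
    (harch : ∀ c z : L, c ≠ 0 → (∀ n : ℕ, c * z ^ n ∈ A) → z ∈ A)
    {y Q : HahnSeries Γ L} (hQ : Q ∈ coeffSubring (Γ := Γ) A) (hQ0 : Q ≠ 0)
    (hQy : Q * y ∈ coeffSubring (Γ := Γ) A)
    (hint : IsIntegral (coeffSubring (Γ := Γ) A) y) :
    y ∈ coeffSubring (Γ := Γ) A := by
  obtain ⟨p, hp, hpy⟩ := hint
  refine mem_coeffSubring_of_monic_relation A harch hQ hQ0 hQy p.natDegree
    (fun k => -((p.coeff k : coeffSubring (Γ := Γ) A) : HahnSeries Γ L)) ?_ ?_
  · intro k _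
    exact Subring.neg_mem _ (p.coeff k).2
  · have h1 : Polynomial.eval₂ (algebraMap (coeffSubring (Γ := Γ) A) (HahnSeries Γ L)) y p =
        y ^ p.natDegree + ∑ k ∈ Finset.range p.natDegree,
          ((p.coeff k : coeffSubring (Γ := Γ) A) : HahnSeries Γ L) * y ^ k := by
      rw [Polynomial.eval₂_eq_sum_range, Finset.sum_range_succ, hp.coeff_natDegree, map_one,
        one_mul, add_comm]
      rfl
    rw [h1] at hpy
    rw [eq_neg_of_add_eq_zero_left hpy, ← Finset.sum_neg_distrib]
    refine Finset.sum_congr rfl fun k _ => ?_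
    ring

end core

section valuation

variable {K : Type*} [Field K]

/-- A rank-one valuation subring is completely integrally closed (hypothesis `harch`).  The
rank-one hypothesis is in the shape of `helper9428.exists_pow_le`. -/
theorem harch_of_valuationSubring (A : ValuationSubring K)
    (hrk : ∀ t : K, t ∈ A.nonunits → ∀ c : K, c ≠ 0 →
      ∃ n : ℕ, A.valuation t ^ n ≤ A.valuation c) :
    ∀ c z : K, c ≠ 0 → (∀ n : ℕ, c * z ^ n ∈ A.toSubring) → z ∈ A.toSubring := by
  intro c z hc h
  by_contra hz
  have hz' : z ∉ A := hz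
  have hz0 : z ≠ 0 := fun h0 => hz' (h0 ▸ A.zero_mem)
  have hvz : 1 < A.valuation z := by
    rw [← not_le, A.valuation_le_one_iff]
    exact hz'
  have hinv : z⁻¹ ∈ A.nonunits := by
    rw [ValuationSubring.mem_nonunits_iff, map_inv₀]
    exact inv_lt_one_of_one_lt₀ hvz
  obtain ⟨n, hn⟩ := hrk z⁻¹ hinv (c * z⁻¹) (mul_ne_zero hc (inv_ne_zero hz0))
  have hvz0 : A.valuation z ≠ 0 := (Valuation.ne_zero_iff _).mpr hz0
  have hbad : ¬ (c * z ^ n ∈ A) := by
    rw [← A.valuation_le_one_iff, not_le, map_mul, map_pow]
    have h2 : A.valuation z ≤ A.valuation c * A.valuation z ^ n := by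
      rw [map_mul, map_inv₀, inv_pow] at hn
      have h3 := mul_le_mul' hn (le_refl (A.valuation z ^ n * A.valuation z))
      rw [inv_mul_cancel_left₀ (pow_ne_zero n hvz0)] at h3
      calc A.valuation z ≤ A.valuation c * (A.valuation z)⁻¹ *
            (A.valuation z ^ n * A.valuation z) := h3
        _ = A.valuation c * A.valuation z ^ n := by
            rw [mul_assoc, mul_comm (A.valuation z ^ n), ← mul_assoc (A.valuation z)⁻¹,
              inv_mul_cancel₀ hvz0, one_mul]
    exact lt_of_lt_of_le hvz h2
  exact hbad (h n)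

/-- `harch` for a valuation subring of `ℚ̄` lying over a prime. -/
theorem harch_Qbar {ℓ : ℕ} [Fact ℓ.Prime] {A : ValuationSubring (AlgebraicClosure ℚ)}
    (hA : A.LiesOverPrime ℓ) :
    ∀ c z : AlgebraicClosure ℚ, c ≠ 0 → (∀ n : ℕ, c * z ^ n ∈ A.toSubring) → z ∈ A.toSubring :=
  harch_of_valuationSubring A fun _ ht _ hc =>
    Fermat.Agent.S18.helper9428.exists_pow_le_Qbar hA ht hc

end valuation

section prelude

open ModularCurve

variable {K : Type*} [Field K]

/-- Prelude vocabulary: a Laurent series over `K` has all coefficients in the valuation subring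
`A` iff it is `coeffMap A.subtype Y` for a Laurent series `Y` over `A`. -/
theorem mem_coeffSubring_iff_exists_coeffMap (A : ValuationSubring K) (y : LaurentSeries K) :
    y ∈ coeffSubring (Γ := ℤ) A.toSubring ↔ ∃ Y : LaurentSeries A, coeffMap A.subtype Y = y := by
  constructor
  · intro h
    refine ⟨⟨fun i => ⟨y.coeff i, h i⟩, y.isPWO_support.mono ?_⟩, ?_⟩
    · intro i hi
      rw [Function.mem_support] at hi
      rw [HahnSeries.mem_support]
      intro h0
      exact hi (Subtype.ext h0)
    · ext i
      rfl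
  · rintro ⟨Y, rfl⟩ i
    rw [coeffMap_coeff]
    exact (Y.coeff i).2

/-- **Consumer form over `ℚ̄`** (integral cusp expansions).  Let `A` be a valuation subring of
`ℚ̄` over a prime.  If a Laurent series `y` over `ℚ̄` satisfies `Q * y = X` with `Q ≠ 0`, `X`
integral (`y` is the expansion of an element of a function field generated by integral
expansions) and `y ^ d = ∑ k < d, c k * y ^ k` with integral `c k` (the image of a monic
equation over `A[t, t⁻¹]`), then `y` is integral. -/
theorem exists_coeffMap_of_monic_relation_Qbar {ℓ : ℕ} [Fact ℓ.Prime]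
    {A : ValuationSubring (AlgebraicClosure ℚ)} (hA : A.LiesOverPrime ℓ)
    (y : LaurentSeries (AlgebraicClosure ℚ)) (Q X : LaurentSeries A)
    (hQ0 : Q ≠ 0) (hQy : coeffMap A.subtype Q * y = coeffMap A.subtype X)
    (d : ℕ) (c : ℕ → LaurentSeries A)
    (hrel : y ^ d = ∑ k ∈ Finset.range d, coeffMap A.subtype (c k) * y ^ k) :
    ∃ Y : LaurentSeries A, coeffMap A.subtype Y = y := by
  rw [← mem_coeffSubring_iff_exists_coeffMap]
  refine mem_coeffSubring_of_monic_relation A.toSubring (harch_Qbar hA)
    (Q := coeffMap A.subtype Q) ((mem_coeffSubring_iff_exists_coeffMap A _).mpr ⟨Q, rfl⟩) ?_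
    (by rw [hQy]; exact (mem_coeffSubring_iff_exists_coeffMap A _).mpr ⟨X, rfl⟩) d
    (fun k => coeffMap A.subtype (c k))
    (fun k _ => (mem_coeffSubring_iff_exists_coeffMap A _).mpr ⟨c k, rfl⟩) hrel
  intro h0
  apply hQ0
  ext i
  have := congrArg (fun s : LaurentSeries (AlgebraicClosure ℚ) => s.coeff i) h0
  simpa using this

end prelude

end Fermat.Agent.S18.helper3784
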