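import Mathlib
import Fermat.Agent.S18.helper99_SpecC
import Fermat.Agent.S18.helper3784_LaurentCIC
import Fermat.Agent.S18.helper8991_GaussInst
import Fermat.Agent.S18.helper4226_KummerKF
import Fermat.Agent.S24.helper204_Places
import Fermat.Agent.S18.helper9392_Separable

/-!
# S18, track C, Prop (C3): bounded denominators (helper4387)

`stmt_BD : helper99.Stmt_BD N A` for every valuation subring `A` of `ℚ̄` over a prime:
a function of `F_N` which is regular away from the cusp `∞` has, up to a nonzero constant,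
an `A`-integral `q`-expansion.

* `isIntegral_of_forall_ord_nonneg` (generic): if `0 ≤ v.ord f` at every place `v` with
  `0 ≤ v.ord x`, then `f` is integral over `K[x]`.
* `isIntegral_of_regAwayInf`: a function regular away from `∞` is integral over `ℚ̄[j]`.
* `scaled`: the `ℚ̄`-subalgebra of Laurent series which become `A`-integral after multiplication
  by a nonzero constant of `A`.
* `stmt_BD`.
-/

set_option autoImplicit false
set_option synthInstance.maxHeartbeats 400000

noncomputable section

namespace Fermat.Agent.S18.helper4387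

open ModularCurve AlgebraicCurve HahnSeries IntermediateField IsDedekindDomain
open Fermat.Agent.S24.helper24

section Generic

variable {K F : Type*} [Field K] [Field F] [Algebra K F]

open scoped IntermediateField.algebraAdjoinAdjoin in
/-- If `f` has no pole at any place where `x` has no pole, then `f` is integral over `K[x]`. -/
theorem isIntegral_of_forall_ord_nonneg [CharZero K] (x : F) [FiniteDimensional K⟮x⟯ F] (f : F)
    (h : ∀ v : Place K F, 0 ≤ v.ord x → 0 ≤ v.ord f) :
    IsIntegral (Algebra.adjoin K {x}) f := by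
  have hmem : f ∈ (algebraMap (integralClosure (Algebra.adjoin K {x}) F) F).range := by
    refine HeightOneSpectrum.mem_integers_of_valuation_le_one F f (fun w => ?_)
    have hxB : x ∈ integralClosure (Algebra.adjoin K {x}) F :=
      (integralClosure (Algebra.adjoin K {x}) F).algebraMap_mem
        ⟨x, Algebra.self_mem_adjoin_singleton K x⟩
    have hx : 0 ≤ (Place.ofHeightOneSpectrum (K := K) (F := F) w).ord x := by
      apply Fermat.Agent.S24.helper204.ord_nonneg_of_mem
      rw [Place.ofHeightOneSpectrum_toValuationSubring, Valuation.mem_valuationSubring_iff]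
      exact w.valuation_le_one (K := F) ⟨x, hxB⟩
    have hf := h _ hx
    rw [Fermat.Agent.S24.helper204.ord_ofHeightOneSpectrum] at hf
    rcases eq_or_ne f 0 with rfl | hf0
    · simp
    have hne : w.valuation F f ≠ 0 := (Valuation.ne_zero_iff _).mpr hf0
    have h1 : WithZero.log (w.valuation F f) ≤ 0 := by omega
    rwa [WithZero.log_le_iff_le_exp hne, WithZero.exp_zero] at h1
  obtain ⟨b, rfl⟩ := hmem
  exact b.2

end Generic

section Modular

/-- The `q`-order of `j` is `-1`. -/
theorem order_jBar (N : ℕ) : ((jBar N : FN N) : LaurentSeries Kbar).order = -1 := by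
  rw [coe_jBar, coeffEmb, ← jqModC_rat, coeffMap_jqModC]
  exact Fermat.Agent.S18.helper9392.order_jqModC Kbar

theorem jBar_ne_zero (N : ℕ) : jBar N ≠ 0 := by
  intro h0
  have h1 := order_jBar N
  rw [h0] at h1
  simp at h1

/-- The cusp `∞` is a pole of `j`. -/
theorem ord_jBar_neg_of_isCuspInf (N : ℕ) {P : Place Kbar (FN N)} (hP : helper99.IsCuspInf N P) :
    P.ord (jBar N) = -1 := by
  rw [hP (jBar N) (jBar_ne_zero N), order_jBar]

/-- **(i)** A function regular away from the cusp `∞` is integral over `ℚ̄[j]`. -/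
theorem isIntegral_of_regAwayInf (N : ℕ) [NeZero N] (f : FN N) (hf : helper99.RegAwayInf N f) :
    IsIntegral (Algebra.adjoin Kbar {jBar N}) f := by
  have := Fermat.Agent.S18.helper4226.finiteDimensional_jBar_FN N
  refine isIntegral_of_forall_ord_nonneg (jBar N) f (fun v hv => hf v (fun hcusp => ?_))
  have h1 := ord_jBar_neg_of_isCuspInf N hcusp
  omega

end Modular

section Scaled

variable {L : Type*} [Field L] (A : ValuationSubring L)

theorem C_mem_coeffSubring {c : L} (hc : c ∈ A) :
    (HahnSeries.C c : LaurentSeries L) ∈ helper3784.coeffSubring (Γ := ℤ) A.toSubring := by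
  intro i
  rw [HahnSeries.C_apply, HahnSeries.coeff_single]
  split_ifs
  · exact hc
  · exact A.zero_mem

/-- The Laurent series which become `A`-integral after multiplication by a nonzero constant
of `A`: an `L`-subalgebra of `L((q))`. -/
def scaled : Subalgebra L (LaurentSeries L) where
  carrier := {a | ∃ c : L, c ∈ A ∧ c ≠ 0 ∧
    HahnSeries.C c * a ∈ helper3784.coeffSubring (Γ := ℤ) A.toSubring}
  mul_mem' := by
    rintro a b ⟨c, hcA, hc0, hca⟩ ⟨d, hdA, hd0, hdb⟩
    refine ⟨c * d, A.mul_mem _ _ hcA hdA, mul_ne_zero hc0 hd0, ?_⟩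
    have h : (HahnSeries.C (c * d) : LaurentSeries L) * (a * b)
        = (HahnSeries.C c * a) * (HahnSeries.C d * b) := by
      rw [map_mul]; ring
    rw [h]
    exact Subring.mul_mem _ hca hdb
  add_mem' := by
    rintro a b ⟨c, hcA, hc0, hca⟩ ⟨d, hdA, hd0, hdb⟩
    refine ⟨c * d, A.mul_mem _ _ hcA hdA, mul_ne_zero hc0 hd0, ?_⟩
    have h : (HahnSeries.C (c * d) : LaurentSeries L) * (a + b)
        = HahnSeries.C d * (HahnSeries.C c * a) + HahnSeries.C c * (HahnSeries.C d * b) := by
      rw [map_mul]; ring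
    rw [h]
    exact Subring.add_mem _ (Subring.mul_mem _ (C_mem_coeffSubring A hdA) hca)
      (Subring.mul_mem _ (C_mem_coeffSubring A hcA) hdb)
  algebraMap_mem' := by
    intro z
    show ∃ c : L, c ∈ A ∧ c ≠ 0 ∧
      HahnSeries.C c * algebraMap L (LaurentSeries L) z ∈
        helper3784.coeffSubring (Γ := ℤ) A.toSubring
    rw [← helper8991.C_eq_algebraMap]
    rcases A.mem_or_inv_mem z with hz | hz
    · refine ⟨1, A.one_mem, one_ne_zero, ?_⟩
      rw [map_one, one_mul]
      exact C_mem_coeffSubring A hz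
    · rcases eq_or_ne z 0 with rfl | hz0
      · refine ⟨1, A.one_mem, one_ne_zero, ?_⟩
        rw [map_zero, mul_zero]
        exact Subring.zero_mem _
      · refine ⟨z⁻¹, hz, inv_ne_zero hz0, ?_⟩
        rw [← map_mul, inv_mul_cancel₀ hz0, map_one]
        exact Subring.one_mem _

theorem mem_scaled_iff {a : LaurentSeries L} :
    a ∈ scaled A ↔ ∃ c : L, c ∈ A ∧ c ≠ 0 ∧
      HahnSeries.C c * a ∈ helper3784.coeffSubring (Γ := ℤ) A.toSubring := Iff.rfl

theorem mem_scaled_of_mem_coeffSubring {a : LaurentSeries L}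
    (ha : a ∈ helper3784.coeffSubring (Γ := ℤ) A.toSubring) : a ∈ scaled A :=
  ⟨1, A.one_mem, one_ne_zero, by rw [map_one, one_mul]; exact ha⟩

end Scaled

section Main

variable {A : ValuationSubring Kbar}

/-- `j` has integral coefficients. -/
theorem coe_jBar_mem_coeffSubring (N : ℕ) (A : ValuationSubring Kbar) :
    ((jBar N : FN N) : LaurentSeries Kbar) ∈ helper3784.coeffSubring (Γ := ℤ) A.toSubring := by
  rw [coe_jBar, coeffEmb, ← jqModC_rat, coeffMap_jqModC,
    ← coeffMap_jqModC (A.subtype : A →+* Kbar)]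
  exact (helper3784.mem_coeffSubring_iff_exists_coeffMap A _).mpr ⟨jqModC A, rfl⟩

/-- The expansions of `ℚ̄[j]` have bounded denominators. -/
theorem coe_mem_scaled_of_mem_adjoin (N : ℕ) (A : ValuationSubring Kbar) (r : FN N)
    (hr : r ∈ Algebra.adjoin Kbar {jBar N}) : (r : LaurentSeries Kbar) ∈ scaled A := by
  have h1 : (Algebra.adjoin Kbar {jBar N}).map (modularFunctionFieldBar N).val ≤ scaled A := by
    rw [AlgHom.map_adjoin, Algebra.adjoin_le_iff]
    rintro _ ⟨x, hx, rfl⟩
    rw [Set.mem_singleton_iff] at hx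
    subst hx
    exact mem_scaled_of_mem_coeffSubring A (coe_jBar_mem_coeffSubring N A)
  exact h1 ⟨r, hr, rfl⟩

/-- **(ii)** An element of `F_N` integral over `ℚ̄[j]` has, up to a nonzero constant, an
`A`-integral `q`-expansion. -/
theorem exists_coeffMap_of_isIntegral {ℓ : ℕ} [Fact ℓ.Prime] (N : ℕ) [NeZero N]
    (hA : A.LiesOverPrime ℓ) (f : FN N) (hint : IsIntegral (Algebra.adjoin Kbar {jBar N}) f) :
    ∃ c : Kbar, c ≠ 0 ∧ ∃ y : LaurentSeries A,
      coeffMap A.subtype y = HahnSeries.C c * (f : LaurentSeries Kbar) := by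
  classical
  rcases eq_or_ne f 0 with rfl | hf0
  · exact ⟨1, one_ne_zero, 0, by simp⟩
  -- integrality over the subalgebra of series with bounded denominators
  let φ : ↥(Algebra.adjoin Kbar {jBar N}) →+* ↥(scaled A) :=
    { toFun := fun r => ⟨((r : FN N) : LaurentSeries Kbar),
        coe_mem_scaled_of_mem_adjoin N A r r.2⟩
      map_one' := rfl
      map_mul' := fun _ _ => rfl
      map_zero' := rfl
      map_add' := fun _ _ => rfl }
  have hint' : IsIntegral ↥(scaled A) (f : LaurentSeries Kbar) :=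
    IsIntegral.map_of_comp_eq φ (modularFunctionFieldBar N).val.toRingHom (RingHom.ext fun _ => rfl)
      hint
  obtain ⟨p, hp, hpf⟩ := hint'
  set n := p.natDegree with hn
  set fS : LaurentSeries Kbar := (f : LaurentSeries Kbar) with hfS
  -- the monic relation
  have hrel0 : fS ^ n + ∑ k ∈ Finset.range n, ((p.coeff k : ↥(scaled A)) : LaurentSeries Kbar) * fS ^ k
      = 0 := by
    rw [← hpf, Polynomial.eval₂_eq_sum_range, Finset.sum_range_succ, hp.coeff_natDegree, map_one,
      one_mul, add_comm]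
    rfl
  -- a common denominator
  have hsc : ∀ k : ℕ, ∃ c : Kbar, c ∈ A ∧ c ≠ 0 ∧
      HahnSeries.C c * ((p.coeff k : ↥(scaled A)) : LaurentSeries Kbar) ∈
        helper3784.coeffSubring (Γ := ℤ) A.toSubring := fun k => (p.coeff k).2
  choose c hcA hc0 hcmem using hsc
  set c₀ : Kbar := ∏ k ∈ Finset.range n, c k with hc₀
  have hc₀A : c₀ ∈ A := by
    rw [hc₀]
    exact Subring.prod_mem A.toSubring fun k _ => hcA k
  have hc₀0 : c₀ ≠ 0 := by
    rw [hc₀]
    exact Finset.prod_ne_zero_iff.mpr fun k _ => hc0 k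
  have hc₀mem : ∀ k, k < n → HahnSeries.C c₀ * ((p.coeff k : ↥(scaled A)) : LaurentSeries Kbar) ∈
      helper3784.coeffSubring (Γ := ℤ) A.toSubring := by
    intro k hk
    have h1 : c₀ = (∏ j ∈ (Finset.range n).erase k, c j) * c k := by
      rw [hc₀, mul_comm, Finset.mul_prod_erase _ _ (Finset.mem_range.mpr hk)]
    rw [h1, map_mul, mul_assoc]
    exact Subring.mul_mem _
      (C_mem_coeffSubring A (Subring.prod_mem A.toSubring fun j _ => hcA j)) (hcmem k)
  -- the scaled element
  set y : LaurentSeries Kbar := HahnSeries.C c₀ * fS with hy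
  have hfS0 : fS ≠ 0 := fun h0 => hf0 (Subtype.ext h0)
  have hC0 : (HahnSeries.C c₀ : LaurentSeries Kbar) ≠ 0 := by
    intro h0
    have h1 := congrArg (fun s : LaurentSeries Kbar => s.coeff 0) h0
    simp only [HahnSeries.C_apply, HahnSeries.coeff_single_same, HahnSeries.coeff_zero] at h1
    exact hc₀0 h1
  have hy0 : y ≠ 0 := mul_ne_zero hC0 hfS0
  have hymem : y ∈ modularFunctionFieldBar N := by
    rw [hy, helper8991.C_eq_algebraMap]
    exact mul_mem (IntermediateField.algebraMap_mem _ _) f.2
  -- the fraction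
  obtain ⟨c', X, Y, hc', -, hY, -, -, hXY⟩ :=
    helper8991.exists_normal_form A (IsLocalRing.residue A) N hymem hy0
  have hincY0 : helper8991.inc A Y ≠ 0 := helper8991.inc_ne_zero A (IsLocalRing.residue A) hY
  have hincmem : ∀ Z : LaurentSeries A,
      helper8991.inc A Z ∈ helper3784.coeffSubring (Γ := ℤ) A.toSubring :=
    fun Z => (helper3784.mem_coeffSubring_iff_exists_coeffMap A _).mpr ⟨Z, rfl⟩
  obtain ⟨Q, hQ, hQ0, hQy⟩ : ∃ Q : LaurentSeries Kbar,
      Q ∈ helper3784.coeffSubring (Γ := ℤ) A.toSubring ∧ Q ≠ 0 ∧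
        Q * y ∈ helper3784.coeffSubring (Γ := ℤ) A.toSubring := by
    rcases A.mem_or_inv_mem c' with hcA' | hcA'
    · refine ⟨helper8991.inc A Y, hincmem Y, hincY0, ?_⟩
      rw [mul_comm, hXY]
      exact Subring.mul_mem _ (C_mem_coeffSubring A hcA') (hincmem X)
    · refine ⟨HahnSeries.C c'⁻¹ * helper8991.inc A Y,
        Subring.mul_mem _ (C_mem_coeffSubring A hcA') (hincmem Y), ?_, ?_⟩
      · refine mul_ne_zero ?_ hincY0
        intro h0
        have h1 := congrArg (fun s : LaurentSeries Kbar => s.coeff 0) h0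
        simp only [HahnSeries.C_apply, HahnSeries.coeff_single_same, HahnSeries.coeff_zero] at h1
        exact inv_ne_zero hc' h1
      · have h1 : HahnSeries.C c'⁻¹ * helper8991.inc A Y * y = helper8991.inc A X := by
          rw [mul_assoc, mul_comm (helper8991.inc A Y) y, hXY, helper8991.C_inv_mul_C_mul hc']
        rw [h1]
        exact hincmem X
  -- the monic relation for `y`
  have hrel : y ^ n = ∑ k ∈ Finset.range n,
      (-(HahnSeries.C (c₀ ^ (n - k)) * ((p.coeff k : ↥(scaled A)) : LaurentSeries Kbar))) * y ^ k := by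
    have h1 : ∀ k ∈ Finset.range n,
        (-(HahnSeries.C (c₀ ^ (n - k)) * ((p.coeff k : ↥(scaled A)) : LaurentSeries Kbar))) * y ^ k
          = -(HahnSeries.C (c₀ ^ n) *
              (((p.coeff k : ↥(scaled A)) : LaurentSeries Kbar) * fS ^ k)) := by
      intro k hk
      rw [Finset.mem_range] at hk
      have h2 : c₀ ^ n = c₀ ^ (n - k) * c₀ ^ k := by
        rw [← _root_.pow_add, Nat.sub_add_cancel hk.le]
      rw [hy, mul_pow, h2, map_mul, map_pow, map_pow]
      ring
    rw [Finset.sum_congr rfl h1, Finset.sum_neg_distrib, ← Finset.mul_sum,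
      eq_neg_of_add_eq_zero_right hrel0, hy, mul_pow, map_pow]
    ring
  have hcoef : ∀ k, k < n →
      (-(HahnSeries.C (c₀ ^ (n - k)) * ((p.coeff k : ↥(scaled A)) : LaurentSeries Kbar))) ∈
        helper3784.coeffSubring (Γ := ℤ) A.toSubring := by
    intro k hk
    have h2 : c₀ ^ (n - k) = c₀ ^ (n - k - 1) * c₀ := by
      rw [← pow_succ]
      congr 1
      omega
    rw [h2, map_mul, mul_assoc]
    exact Subring.neg_mem _ (Subring.mul_mem _
      (C_mem_coeffSubring A (Subring.pow_mem A.toSubring hc₀A _)) (hc₀mem k hk))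
  have hmem : y ∈ helper3784.coeffSubring (Γ := ℤ) A.toSubring :=
    helper3784.mem_coeffSubring_of_monic_relation A.toSubring (helper3784.harch_Qbar hA) hQ hQ0 hQy
      n _ hcoef hrel
  obtain ⟨Y', hY'⟩ := (helper3784.mem_coeffSubring_iff_exists_coeffMap A y).mp hmem
  exact ⟨c₀, hc₀0, Y', hY'⟩

/-- **(C3) bounded denominators**, `helper99.Stmt_BD N A`, for every place `A` of `ℚ̄` over a
prime. -/
theorem stmt_BD_fact (N : ℕ) [NeZero N] (ℓ : ℕ) [Fact ℓ.Prime]
    (A : ValuationSubring (AlgebraicClosure ℚ)) (hA : A.LiesOverPrime ℓ) :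
    helper99.Stmt_BD N A := fun x hx =>
  exists_coeffMap_of_isIntegral N hA x (isIntegral_of_regAwayInf N x hx)

/-- **(C3) bounded denominators**, `helper99.Stmt_BD N A` (explicit primality hypothesis). -/
theorem stmt_BD (N : ℕ) [NeZero N] (ℓ : ℕ) (hℓ : ℓ.Prime)
    (A : ValuationSubring (AlgebraicClosure ℚ)) (hA : A.LiesOverPrime ℓ) :
    helper99.Stmt_BD N A :=
  haveI : Fact ℓ.Prime := ⟨hℓ⟩
  stmt_BD_fact N ℓ A hA

end Main

end Fermat.Agent.S18.helper4387
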