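/-
S18 track C, link (C4)(L3)(b) (helper2707): the integrality half of the field `ct`.

If `x ∈ A((q))` is a function of `F̄_N` regular away from the cusp `∞`, then its reduction lies in
the characteristic-`ℓ` function field and is integral over `κ[t̄_r]`:
`RegAwayInf ⟹ integral over ℚ̄[t_r]` (helper4387, place theory) and the landed integrality
transfer on the Hauptmodul line (helper4665).
-/
import Fermat.Agent.S18.helper2707_BbarLine
import Fermat.Agent.S18.helper4387_BoundedDen
import Fermat.Agent.S18.helper4665_TLineInst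

set_option autoImplicit false
set_option synthInstance.maxHeartbeats 400000

noncomputable section

namespace Fermat.Agent.S18.helper2707

open Polynomial IntermediateField ModularCurve AlgebraicCurve

local notation "Qb" => AlgebraicClosure ℚ

section Aux

variable (N : ℕ) [NeZero N] (ℓ : ℕ) [Fact ℓ.Prime] (hℓN : ¬ ℓ ∣ N)
  (A : ValuationSubring Qb) (hA : (ℓ : Qb) ∈ A.nonunits)

/-- Integrality half of `ct` on an abstract line `t` with integrality transfer. -/
theorem ct_int_aux (t : ↥(modularFunctionFieldBar N))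
    (htO : t ∈ Fermat.Agent.S18.helper508.gaussValuationSubring N ℓ hℓN A hA)
    [FiniteDimensional Qb⟮t⟯ ↥(modularFunctionFieldBar N)]
    (hord : (t : LaurentSeries Qb).order = -1)
    (hIT : Fermat.Agent.S18.helper6292.IntegralityTransfer Qb (IsLocalRing.ResidueField A)
      (Fermat.Agent.S18.helper508.gaussValuationSubring N ℓ hℓN A hA)
      (Fermat.Agent.S18.helper508.gaussResidue N ℓ hℓN A hA) t
      (Fermat.Agent.S18.helper508.gaussResidue N ℓ hℓN A hA ⟨t, htO⟩))
    (x : LaurentSeries A) (hx : coeffMap A.subtype x ∈ modularFunctionFieldBar N)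
    (hreg : Fermat.Agent.S18.helper99.RegAwayInf N ⟨coeffMap A.subtype x, hx⟩) :
    ∃ hxb : coeffMap (IsLocalRing.residue A) x ∈
        modularFunctionFieldFullC (IsLocalRing.ResidueField A) N,
      IsIntegral (Algebra.adjoin (IsLocalRing.ResidueField A)
          {Fermat.Agent.S18.helper508.gaussResidue N ℓ hℓN A hA ⟨t, htO⟩})
        (⟨coeffMap (IsLocalRing.residue A) x, hxb⟩ :
          ↥(modularFunctionFieldFullC (IsLocalRing.ResidueField A) N)) := by
  have ht0 : t ≠ 0 := by
    rintro rfl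
    have h0 : ((0 : ↥(modularFunctionFieldBar N)) : LaurentSeries Qb) = 0 := rfl
    rw [h0, HahnSeries.order_zero] at hord
    omega
  -- integrality over `ℚ̄[t]`
  have hint : IsIntegral (Algebra.adjoin Qb {t})
      (⟨coeffMap A.subtype x, hx⟩ : ↥(modularFunctionFieldBar N)) := by
    refine Fermat.Agent.S18.helper4387.isIntegral_of_forall_ord_nonneg t _
      (fun v hv => hreg v (fun hcusp => ?_))
    have h1 := hcusp t ht0
    rw [hord] at h1
    omega
  -- the Gauss ring and the residue
  have hxO : (⟨coeffMap A.subtype x, hx⟩ : ↥(modularFunctionFieldBar N)) ∈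
      Fermat.Agent.S18.helper508.gaussValuationSubring N ℓ hℓN A hA :=
    Fermat.Agent.S18.helper1733.mem_gaussValuationSubring_of_eq N ℓ hℓN A hA _ x rfl
  have hres := Fermat.Agent.S18.helper1733.gaussResidue_of_eq N ℓ hℓN A hA
    ⟨⟨coeffMap A.subtype x, hx⟩, hxO⟩ x rfl
  have hxb : coeffMap (IsLocalRing.residue A) x ∈
      modularFunctionFieldFullC (IsLocalRing.ResidueField A) N := by
    rw [← hres]
    exact Subtype.coe_prop _
  refine ⟨hxb, ?_⟩
  have h2 := hIT _ hxO hint
  have e : (⟨coeffMap (IsLocalRing.residue A) x, hxb⟩ :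
      ↥(modularFunctionFieldFullC (IsLocalRing.ResidueField A) N))
      = Fermat.Agent.S18.helper508.gaussResidue N ℓ hℓN A hA ⟨⟨coeffMap A.subtype x, hx⟩, hxO⟩ :=
    Subtype.ext hres.symm
  rw [e]
  exact h2

end Aux

section Main

variable (N : ℕ) [NeZero N] {ℓ : ℕ} (hℓ : ℓ.Prime) (hℓN : ¬ ℓ ∣ N)
  (A : ValuationSubring Qb) (hA : A.LiesOverPrime ℓ)

theorem zSeries_t2_eq_tR (R : Type*) [CommRing R] :
    Fermat.Agent.S18.helper4665.zSeries Fermat.Agent.S18.helper1257.t2Z R = tR R 2 := by
  rw [tR, tZ, if_pos rfl]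
  rfl

theorem zSeries_t3_eq_tR (R : Type*) [CommRing R] :
    Fermat.Agent.S18.helper4665.zSeries Fermat.Agent.S18.helper1257.t3Z R = tR R 3 := by
  rw [tR, tZ, if_neg (by norm_num)]
  rfl

/-- **Integrality half of `ct`.**  The reduction of an `A`-integral function of `F̄_N` which is
regular away from the cusp `∞` lies in the characteristic-`ℓ` function field and is integral
over `κ[t̄_r]`. -/
theorem ct_int {r : ℕ} (hr : r = 2 ∨ r = 3) (hrN : r ∣ N)
    (x : LaurentSeries A) (hx : coeffMap A.subtype x ∈ modularFunctionFieldBar N)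
    (hreg : Fermat.Agent.S18.helper99.RegAwayInf N ⟨coeffMap A.subtype x, hx⟩) :
    ∃ hxb : coeffMap (IsLocalRing.residue A) x ∈
        modularFunctionFieldFullC (IsLocalRing.ResidueField A) N,
      IsIntOver (IsLocalRing.ResidueField A) (tbarA N hℓ hℓN A hA hr hrN)
        (⟨coeffMap (IsLocalRing.residue A) x, hxb⟩ :
          ↥(modularFunctionFieldFullC (IsLocalRing.ResidueField A) N)) := by
  have : Fact ℓ.Prime := ⟨hℓ⟩
  have hA' : (ℓ : Qb) ∈ A.nonunits := hA
  rcases hr with rfl | rfl
  · have hfin := (Fermat.Agent.S18.helper4665.gaussT2_degree (L := Qb) N hrN).2.1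
    have hord : ((Fermat.Agent.S18.helper4665.gaussT2 Qb N hrN :
        ↥(modularFunctionFieldBar N)) : LaurentSeries Qb).order = -1 := by
      rw [Fermat.Agent.S18.helper4665.coe_gaussT2, zSeries_t2_eq_tR]
      exact order_tR Qb 2
    obtain ⟨hxb, h⟩ := ct_int_aux N ℓ hℓN A hA' (Fermat.Agent.S18.helper4665.gaussT2 Qb N hrN)
      (Fermat.Agent.S18.helper4665.gaussT2_mem N ℓ hℓN A hA' hrN) hord
      (Fermat.Agent.S18.helper4665.gauss_integralityTransfer_t2 N ℓ hℓN A hA' hrN).1 x hx hreg
    refine ⟨hxb, isIntOver_iff_isIntegral_adjoin.mpr ?_⟩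
    have e : Fermat.Agent.S18.helper508.gaussResidue N ℓ hℓN A hA'
        ⟨Fermat.Agent.S18.helper4665.gaussT2 Qb N hrN,
          Fermat.Agent.S18.helper4665.gaussT2_mem N ℓ hℓN A hA' hrN⟩
        = tbarA N hℓ hℓN A hA (Or.inl rfl) hrN := by
      apply Subtype.ext
      exact (Fermat.Agent.S18.helper4665.gaussResidue_gaussT2 N ℓ hℓN A hA' hrN).trans
        (zSeries_t2_eq_tR _)
    rw [e] at h
    exact h
  · have hfin := (Fermat.Agent.S18.helper4665.gaussT3_degree (L := Qb) N hrN).2.1
    have hord : ((Fermat.Agent.S18.helper4665.gaussT3 Qb N hrN :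
        ↥(modularFunctionFieldBar N)) : LaurentSeries Qb).order = -1 := by
      rw [Fermat.Agent.S18.helper4665.coe_gaussT3, zSeries_t3_eq_tR]
      exact order_tR Qb 3
    obtain ⟨hxb, h⟩ := ct_int_aux N ℓ hℓN A hA' (Fermat.Agent.S18.helper4665.gaussT3 Qb N hrN)
      (Fermat.Agent.S18.helper4665.gaussT3_mem N ℓ hℓN A hA' hrN) hord
      (Fermat.Agent.S18.helper4665.gauss_integralityTransfer_t3 N ℓ hℓN A hA' hrN).1 x hx hreg
    refine ⟨hxb, isIntOver_iff_isIntegral_adjoin.mpr ?_⟩
    have e : Fermat.Agent.S18.helper508.gaussResidue N ℓ hℓN A hA'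
        ⟨Fermat.Agent.S18.helper4665.gaussT3 Qb N hrN,
          Fermat.Agent.S18.helper4665.gaussT3_mem N ℓ hℓN A hA' hrN⟩
        = tbarA N hℓ hℓN A hA (Or.inr rfl) hrN := by
      apply Subtype.ext
      exact (Fermat.Agent.S18.helper4665.gaussResidue_gaussT3 N ℓ hℓN A hA' hrN).trans
        (zSeries_t3_eq_tR _)
    rw [e] at h
    exact h

end Main

end Fermat.Agent.S18.helper2707
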