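import Fermat.Agent.S18.helper99_SpecCMain
import Fermat.Agent.S18.helper2118_Spec
import Fermat.Agent.S18.helper1040_PlaceFacts
import Fermat.Agent.S18.helper20_StmtR
import Fermat.Agent.S18.helper508_TrackCGauss
import Fermat.Agent.S18.helper4387_BoundedDen
import Fermat.Agent.S23

/-!
# S18, TRACK C: final wiring

All Props of track C except `(C4) Stmt_Bbar` and `(C5) Stmt_Norm` are on main
(`helper1040.placeFacts`, `helper20.stmt_R`, `helper508.stmt_Gauss`, `helper4387.stmt_BD`,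
`Fermat.Agent.S23.result`).  This file reduces the captain's obligations `helper2118.Stmt_KFr r`
(Hauptmodul line `t_r`, `r = 2, 3`) and the frozen statement S18 to those two families.
-/

set_option autoImplicit false
set_option synthInstance.maxHeartbeats 400000

noncomputable section

namespace Fermat.Agent.S18.helper99

open ModularCurve AlgebraicCurve

/-- **(C4) on the line `t_r`**: `Stmt_Bbar N' A` for every level `N'` divisible by `r`, every
prime `ℓ ∤ N'`, `ℓ ≠ r`, and every place `A` of `ℚ̄` over `ℓ`. -/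
def Stmt_BbarLine (r : ℕ) : Prop :=
  ∀ (N' : ℕ) [NeZero N'] (ℓ : ℕ), ℓ.Prime → r ∣ N' → ¬ ℓ ∣ N' → ℓ ≠ r →
    ∀ A : ValuationSubring (AlgebraicClosure ℚ), A.LiesOverPrime ℓ → Stmt_Bbar N' A

/-- **(C5) on the line `t_r`**: `Stmt_Norm N' ℓ A` for every level `N'` divisible by `r`, every
prime `ℓ ∤ N'`, `ℓ ≠ r`, and every place `A` of `ℚ̄` over `ℓ`. -/
def Stmt_NormLine (r : ℕ) : Prop :=
  ∀ (N' : ℕ) [NeZero N'] (ℓ : ℕ), ℓ.Prime → r ∣ N' → ¬ ℓ ∣ N' → ℓ ≠ r →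
    ∀ A : ValuationSubring (AlgebraicClosure ℚ), A.LiesOverPrime ℓ → Stmt_Norm N' ℓ A

/-- Track C at one level and one prime `ℓ ∤ N`: `(C4)` and `(C5)` give `Stmt_KF0 N ℓ`. -/
theorem kf0_of_bbar_norm (N : ℕ) [NeZero N] (ℓ : ℕ) (hℓ : ℓ.Prime) (hℓN : ¬ ℓ ∣ N)
    (hBb : ∀ A : ValuationSubring (AlgebraicClosure ℚ), A.LiesOverPrime ℓ → Stmt_Bbar N A)
    (hNm : ∀ A : ValuationSubring (AlgebraicClosure ℚ), A.LiesOverPrime ℓ → Stmt_Norm N ℓ A) :
    helper3054.Stmt_KF0 N ℓ :=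
  kf0_of_trackC N ℓ hℓ (Fermat.Agent.S23.result N) (helper1040.placeFacts N) (helper20.stmt_R N)
    (fun A hA => helper508.stmt_Gauss N ℓ hℓ hℓN A hA)
    (fun A hA => helper4387.stmt_BD N ℓ hℓ A hA) hBb hNm

/-- The captain's obligation on the line `t_r` from `(C4)` and `(C5)`. -/
theorem stmt_KFr_of_trackC (r : ℕ) (hB : Stmt_BbarLine r) (hNm : Stmt_NormLine r) :
    helper2118.Stmt_KFr r :=
  fun N' _ ℓ hℓ hr hℓN hne =>
    kf0_of_bbar_norm N' ℓ hℓ hℓN (fun A hA => hB N' ℓ hℓ hr hℓN hne A hA)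
      (fun A hA => hNm N' ℓ hℓ hr hℓN hne A hA)

/-- **The frozen statement S18 from `(C4)` and `(C5)` on the two Hauptmodul lines.** -/
theorem result_of_trackC (hB2 : Stmt_BbarLine 2) (hN2 : Stmt_NormLine 2)
    (hB3 : Stmt_BbarLine 3) (hN3 : Stmt_NormLine 3) (N : ℕ) [NeZero N] {ℓ : ℕ}
    [Fact ℓ.Prime] (hℓN : ¬ ℓ ∣ N) (A : ValuationSubring (AlgebraicClosure ℚ))
    (hA : A.LiesOverPrime ℓ) (h : ModularCurve.ReductionInputsModL A N) (m : ℕ) (hm : ¬ ℓ ∣ m)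
    (z : ModularCurve.JZero N) (hmz : m • z = 0) (hz : ModularCurve.reductionModL A N z = 0) :
    z = 0 :=
  helper2118.result_of_kfr (stmt_KFr_of_trackC 2 hB2 hN2) (stmt_KFr_of_trackC 3 hB3 hN3)
    N hℓN A hA h m hm z hmz hz

end Fermat.Agent.S18.helper99
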