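/-
S18 track C, link (C4) (helper2707): final assembly of `helper99.Stmt_BbarLine r`.

`Stmt_BbarLine r` (`helper99_TrackCWire`) is reduced to exactly two families of facts on the
Hauptmodul line `t_r`:

* `Stmt_CertLine r hr` (L2): the certificate package `HasCert` for every integral basis cusp
  form (leaf `hasCert`);
* `Stmt_CPRLine r`  (L3): the reduction of the characteristic polynomial on the line
  (`helper7261.LineCharpolyRed`, leaf LineBasis / LineCharpoly).
-/
import Fermat.Agent.S18.helper2707_BbarLine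
import Fermat.Agent.S18.helper7261_BbarCTMod
import Fermat.Agent.S18.helper99_TrackCWire

set_option autoImplicit false
set_option synthInstance.maxHeartbeats 400000

noncomputable section

namespace Fermat.Agent.S18.helper2707

open ModularCurve

/-- **(L2) on the line `t_r`**: the certificate package for every integral basis cusp form, at
every level `N` divisible by `r`, every prime `ℓ ∤ N` and every place `A` over `ℓ`. -/
def Stmt_CertLine (r : ℕ) (hr : r = 2 ∨ r = 3) : Prop :=
  ∀ (N : ℕ) [NeZero N] (ℓ : ℕ) (hℓ : ℓ.Prime) (hrN : r ∣ N) (hℓN : ¬ ℓ ∣ N)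
    (A : ValuationSubring (AlgebraicClosure ℚ)) (hA : A.LiesOverPrime ℓ)
    (D : Fermat.Agent.S18.helper5819.IntBasis N 2) (i : Fin D.r),
    HasCert (tbarA N hℓ hℓN A hA hr hrN) (D.laurent (IsLocalRing.ResidueField A) i)

/-- **(L3) on the line `t_r`**: reduction of the characteristic polynomial (`helper7261`). -/
def Stmt_CPRLine (r : ℕ) : Prop :=
  ∀ (N : ℕ) [NeZero N] (ℓ : ℕ), ℓ.Prime → r ∣ N → ¬ ℓ ∣ N →
    ∀ A : ValuationSubring (AlgebraicClosure ℚ), A.LiesOverPrime ℓ →
      Fermat.Agent.S18.helper7261.LineCharpolyRed N A (tR A r)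

/-- **(C4) on the line `t_r`** from the certificates (L2) and the charpoly reduction (L3). -/
theorem stmt_BbarLine_of (r : ℕ) (hr : r = 2 ∨ r = 3) (hC : Stmt_CertLine r hr)
    (hP : Stmt_CPRLine r) : Fermat.Agent.S18.helper99.Stmt_BbarLine r :=
  fun N _ ℓ hℓ hrN hℓN _ A hA =>
    stmt_Bbar_of_certs hℓ hℓN A hA hr hrN (hC N ℓ hℓ hrN hℓN A hA)
      (Fermat.Agent.S18.helper7261.ct_of_lineCharpolyRed N hℓ hℓN A hA hr hrN
        (hP N ℓ hℓ hrN hℓN A hA))

end Fermat.Agent.S18.helper2707
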