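/-
S18, track B (DN route): the `OneComp` supply (W1) of `helper648_ModelWire`.

* `chart_oneComponent_of_dn` : ONE chart `s` (abstract: `A0` a DVR, `K0 = Frac A0` of
  characteristic zero, `L0` finite over `K0(s)`, `s` transcendental): the vertical input (c)
  [a `K0(s)`-basis of `L0` integral over `A0[s]` with discriminant prime to `ϖ`] and the
  horizontal input (hs) [the integral closure of `K0[s]` in `L0` is unramified over `K0[s]`
  outside `g(s)`, `g` squarefree modulo `ϖ`] give the one-component property of the chart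
  `integralClosure A0[s] L0` at `ϖ` (DN-A `helper1148.dualBound` + DN
  `helper98.oneComponent_of_dualNormal` + CHARTBASE `helper403`).
-/
import Mathlib
import Fermat.Agent.S18.helper648_ModelWire
import Fermat.Agent.S18.helper403_ChartBase
import Fermat.Agent.S18.helper98_DualNormal
import Fermat.Agent.S18.helper1148_DualBound
import Fermat.Agent.S18.helper2128_RamDedekind
import Fermat.Agent.S18.helper1581_VerticalApp
import Fermat.Agent.S18.helper4364_GaussInv
import Fermat.Agent.S18.helper1581_VertChart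

set_option autoImplicit false
set_option synthInstance.maxHeartbeats 400000
set_option linter.style.haveILetI false

noncomputable section

namespace Fermat.Agent.S18.helper2720

open Polynomial IntermediateField

section Incl

variable {A0 K0 L0 : Type*} [CommRing A0] [Field K0] [Algebra A0 K0] [Field L0] [Algebra K0 L0]
  [Algebra A0 L0] [IsScalarTower A0 K0 L0]

theorem adjoin_base_le (s : L0) {x : L0} (hx : x ∈ Algebra.adjoin A0 {s}) :
    x ∈ Algebra.adjoin K0 {s} := by
  induction hx using Algebra.adjoin_induction with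
  | mem y hy => exact Algebra.subset_adjoin hy
  | algebraMap a =>
    rw [IsScalarTower.algebraMap_apply A0 K0 L0]
    exact Subalgebra.algebraMap_mem _ _
  | add x y _ _ hx hy => exact add_mem hx hy
  | mul x y _ _ hx hy => exact mul_mem hx hy

/-- The inclusion `A0[s] → K0[s]`. -/
def adjoinIncl (s : L0) : Algebra.adjoin A0 {s} →+* Algebra.adjoin K0 {s} :=
  RingHom.codRestrict (Algebra.adjoin A0 {s}).val.toRingHom (Algebra.adjoin K0 {s})
    (fun x => adjoin_base_le (K0 := K0) s x.2)

theorem adjoinIncl_coe (s : L0) (x : Algebra.adjoin A0 {s}) :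
    ((adjoinIncl (K0 := K0) s x : Algebra.adjoin K0 {s}) : L0) = (x : L0) :=
  RingHom.codRestrict_apply _ _ _ x

/-- Clearing denominators: `K0[s] = A0[s][1/ϖ]` for a discrete valuation ring `A0`. -/
theorem exists_pow_mul_mem [IsDomain A0] [IsDiscreteValuationRing A0] [IsFractionRing A0 K0]
    (ϖ : A0) (hϖ : Irreducible ϖ) (s : L0) {x : L0} (hx : x ∈ Algebra.adjoin K0 {s}) :
    ∃ k : ℕ, algebraMap A0 L0 ϖ ^ k * x ∈ Algebra.adjoin A0 {s} := by
  induction hx using Algebra.adjoin_induction with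
  | mem y hy => exact ⟨0, by simpa using Algebra.subset_adjoin hy⟩
  | algebraMap c =>
    obtain ⟨a, b, hb, rfl⟩ := IsFractionRing.div_surjective (A := A0) c
    have hb0 : b ≠ 0 := nonZeroDivisors.ne_zero hb
    obtain ⟨n, u, hu⟩ := IsDiscreteValuationRing.eq_unit_mul_pow_irreducible hb0 hϖ
    refine ⟨n, ?_⟩
    have hbK : algebraMap A0 K0 b ≠ 0 := by
      rw [Ne, map_eq_zero_iff _ (IsFractionRing.injective A0 K0)]
      exact hb0
    have hkey : algebraMap A0 L0 ϖ ^ n * algebraMap K0 L0 (algebraMap A0 K0 a / algebraMap A0 K0 b)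
        = algebraMap A0 L0 (↑u⁻¹ * a) := by
      rw [IsScalarTower.algebraMap_apply A0 K0 L0, IsScalarTower.algebraMap_apply A0 K0 L0,
        ← map_pow, ← map_mul]
      congr 1
      have h1 : algebraMap A0 K0 (↑u⁻¹ : A0) * algebraMap A0 K0 (↑u : A0) = 1 := by
        rw [← map_mul, Units.inv_mul, map_one]
      have hu0 : algebraMap A0 K0 (↑u : A0) ≠ 0 := right_ne_zero_of_mul_eq_one h1
      have hϖ0 : algebraMap A0 K0 ϖ ≠ 0 := by
        rw [Ne, map_eq_zero_iff _ (IsFractionRing.injective A0 K0)]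
        exact hϖ.ne_zero
      rw [hu, map_mul (algebraMap A0 K0) (↑u⁻¹ : A0) a, map_mul, map_pow, eq_comm,
        ← mul_div_assoc, eq_div_iff (mul_ne_zero hu0 (pow_ne_zero n hϖ0))]
      linear_combination (algebraMap A0 K0 ϖ ^ n * algebraMap A0 K0 a) * h1
    rw [hkey]
    exact Subalgebra.algebraMap_mem _ _
  | add x y _ _ hx hy =>
    obtain ⟨k1, h1⟩ := hx
    obtain ⟨k2, h2⟩ := hy
    refine ⟨k1 + k2, ?_⟩
    have e : algebraMap A0 L0 ϖ ^ (k1 + k2) * (x + y) =
        algebraMap A0 L0 ϖ ^ k2 * (algebraMap A0 L0 ϖ ^ k1 * x) +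
          algebraMap A0 L0 ϖ ^ k1 * (algebraMap A0 L0 ϖ ^ k2 * y) := by ring
    rw [e]
    exact add_mem (mul_mem (pow_mem (Subalgebra.algebraMap_mem _ _) _) h1)
      (mul_mem (pow_mem (Subalgebra.algebraMap_mem _ _) _) h2)
  | mul x y _ _ hx hy =>
    obtain ⟨k1, h1⟩ := hx
    obtain ⟨k2, h2⟩ := hy
    refine ⟨k1 + k2, ?_⟩
    have e : algebraMap A0 L0 ϖ ^ (k1 + k2) * (x * y) =
        (algebraMap A0 L0 ϖ ^ k1 * x) * (algebraMap A0 L0 ϖ ^ k2 * y) := by ring
    rw [e]
    exact mul_mem h1 h2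

end Incl

/-- Squarefreeness is transported by ring isomorphisms. -/
theorem squarefree_ringEquiv {R S : Type*} [CommRing R] [CommRing S] (e : R ≃+* S) {x : R}
    (hx : Squarefree x) : Squarefree (e x) := by
  intro y hy
  have h1 : e.symm y * e.symm y ∣ x := by
    have := map_dvd e.symm hy
    simpa using this
  have h2 := hx _ h1
  have := h2.map e
  simpa using this

section Chart

variable {A0 K0 L0 : Type*} [CommRing A0] [IsDomain A0] [IsDiscreteValuationRing A0]
  [Field K0] [CharZero K0] [Algebra A0 K0] [IsFractionRing A0 K0] [Field L0] [Algebra K0 L0]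
  [Algebra A0 L0] [IsScalarTower A0 K0 L0]

set_option maxHeartbeats 1600000 in
/-- **One chart, DN route.**  `A0` a discrete valuation ring with uniformiser `ϖ`, `K0 = Frac A0`
of characteristic zero, `s ∈ L0` transcendental over `K0` with `L0` finite over `K0(s)`.
Given (c) a `K0(s)`-basis of `L0`, integral over `A0[s]`, with discriminant prime to `ϖ`, and
(hs) a polynomial `g ∈ A0[X]`, squarefree modulo `ϖ`, such that the integral closure of `K0[s]`
in `L0` is unramified over `K0[s]` at every prime not containing `g(s)`, the chart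
`integralClosure A0[s] L0` has one component through every closed point of its fibre over `ϖ`. -/
theorem chart_oneComponent_of_dn (s : L0) (hs : Transcendental K0 s)
    [FiniteDimensional K0⟮s⟯ L0] (ϖ : A0) (hϖ : Irreducible ϖ)
    (hc : letI := helper403.algebraAdjoinSimple (A := A0) (K := K0) s
      ∃ (ι : Type) (_ : Fintype ι) (_ : DecidableEq ι) (c : Module.Basis ι K0⟮s⟯ L0)
        (d : Algebra.adjoin A0 {s}), (∀ i, IsIntegral (Algebra.adjoin A0 {s}) (c i)) ∧
        Algebra.discr K0⟮s⟯ c = algebraMap (Algebra.adjoin A0 {s}) K0⟮s⟯ d ∧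
        ¬ algebraMap A0 (Algebra.adjoin A0 {s}) ϖ ∣ d)
    (g : A0[X]) (hg : Squarefree (g.map (Ideal.Quotient.mk (Ideal.span {ϖ}))))
    (hhor : ∀ Q : Ideal (integralClosure (Algebra.adjoin K0 {s}) L0), Q.IsPrime → Q ≠ ⊥ →
      ∀ GB : integralClosure (Algebra.adjoin K0 {s}) L0, (GB : L0) = aeval s g → GB ∉ Q →
      ¬ Q ^ 2 ∣ (Q.under (Algebra.adjoin K0 {s})).map
        (algebraMap (Algebra.adjoin K0 {s}) (integralClosure (Algebra.adjoin K0 {s}) L0))) :
    helper403.OneComponent ↥(integralClosure (Algebra.adjoin A0 {s}) L0)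
      (algebraMap (Algebra.adjoin A0 {s}) ↥(integralClosure (Algebra.adjoin A0 {s}) L0)
        (algebraMap A0 (Algebra.adjoin A0 {s}) ϖ)) := by
  classical
  have hsA : Transcendental A0 s := hs.restrictScalars (IsFractionRing.injective A0 K0)
  -- the chart base ring `P = A0[s]`
  haveI : IsIntegrallyClosed (Algebra.adjoin A0 {s}) := helper403.isIntegrallyClosed_adjoin s hsA
  haveI : IsNoetherianRing (Algebra.adjoin A0 {s}) := helper403.isNoetherianRing_adjoin s hsA
  have hlam : Prime (algebraMap A0 (Algebra.adjoin A0 {s}) ϖ) :=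
    helper403.prime_algebraMap_adjoin hϖ.prime s hsA
  have hmax : (Ideal.span {ϖ}).IsMaximal := PrincipalIdealRing.isMaximal_of_irreducible hϖ
  haveI : IsPrincipalIdealRing
      (Algebra.adjoin A0 {s} ⧸ Ideal.span {algebraMap A0 (Algebra.adjoin A0 {s}) ϖ}) :=
    helper403.isPrincipalIdealRing_adjoin_quotient ϖ hmax s hsA
  -- its fraction field `K = K0(s)`
  letI := helper403.algebraAdjoinSimple (A := A0) (K := K0) s
  haveI := helper403.isFractionRing_adjoinSimple (A := A0) (K := K0) s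
  haveI := helper403.isScalarTower_adjoinSimple (A := A0) (K := K0) s
  haveI : Algebra.IsSeparable K0⟮s⟯ L0 := inferInstance
  -- the generic fibre ring `A' = K0[s]`
  letI algPA : Algebra (Algebra.adjoin A0 {s}) (Algebra.adjoin K0 {s}) :=
    (adjoinIncl (K0 := K0) s).toAlgebra
  haveI fracK0 : IsFractionRing K0 K0 := IsFractionRing.of_field K0 K0 (fun z => ⟨z, 1, by simp⟩)
  letI algAK : Algebra (Algebra.adjoin K0 {s}) K0⟮s⟯ :=
    helper403.algebraAdjoinSimple (A := K0) (K := K0) s
  haveI fracAK : IsFractionRing (Algebra.adjoin K0 {s}) K0⟮s⟯ :=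
    helper403.isFractionRing_adjoinSimple (A := K0) (K := K0) s
  haveI towerAKL : IsScalarTower (Algebra.adjoin K0 {s}) K0⟮s⟯ L0 :=
    helper403.isScalarTower_adjoinSimple (A := K0) (K := K0) s
  haveI towerPAK : IsScalarTower (Algebra.adjoin A0 {s}) (Algebra.adjoin K0 {s}) K0⟮s⟯ :=
    IsScalarTower.of_algebraMap_eq (fun x => Subtype.ext (by
      rw [helper403.algebraAdjoinSimple_coe, helper403.algebraAdjoinSimple_coe]
      exact (adjoinIncl_coe (K0 := K0) s x).symm))
  haveI : IsPrincipalIdealRing (Algebra.adjoin K0 {s}) :=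
    IsPrincipalIdealRing.of_surjective
      ((helper403.polyEquivAdjoin (A := K0) s hs : K0[X] ≃ₐ[K0] Algebra.adjoin K0 {s}) :
        K0[X] →+* Algebra.adjoin K0 {s})
      (helper403.polyEquivAdjoin (A := K0) s hs).surjective
  haveI : IsDedekindDomain (Algebra.adjoin K0 {s}) := inferInstance
  letI : Algebra ℚ (Algebra.adjoin K0 {s}) :=
    ((algebraMap K0 (Algebra.adjoin K0 {s})).comp (algebraMap ℚ K0)).toAlgebra
  -- the branch polynomial
  set G : Algebra.adjoin A0 {s} := helper403.polyEquivAdjoin s hsA g with hGdef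
  have hGcoe : (G : L0) = aeval s g := helper403.polyEquivAdjoin_coe s hsA g
  have hG : Squarefree (Ideal.Quotient.mk
      (Ideal.span {algebraMap A0 (Algebra.adjoin A0 {s}) ϖ}) G) := by
    rw [hGdef, ← helper403.adjoinQuotientEquiv_mk ϖ s hsA g]
    exact squarefree_ringEquiv _ hg
  -- `ϖ` is a unit of `A'`
  have hϖK : algebraMap A0 K0 ϖ ≠ 0 := by
    rw [Ne, map_eq_zero_iff _ (IsFractionRing.injective A0 K0)]
    exact hϖ.ne_zero
  have hunit : IsUnit (algebraMap (Algebra.adjoin A0 {s}) (Algebra.adjoin K0 {s})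
      (algebraMap A0 (Algebra.adjoin A0 {s}) ϖ)) := by
    have e : algebraMap (Algebra.adjoin A0 {s}) (Algebra.adjoin K0 {s})
        (algebraMap A0 (Algebra.adjoin A0 {s}) ϖ) =
        algebraMap K0 (Algebra.adjoin K0 {s}) (algebraMap A0 K0 ϖ) := by
      apply Subtype.ext
      rw [show ((algebraMap (Algebra.adjoin A0 {s}) (Algebra.adjoin K0 {s})
        (algebraMap A0 (Algebra.adjoin A0 {s}) ϖ) : Algebra.adjoin K0 {s}) : L0) =
          ((algebraMap A0 (Algebra.adjoin A0 {s}) ϖ : Algebra.adjoin A0 {s}) : L0) from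
        adjoinIncl_coe (K0 := K0) s _]
      exact IsScalarTower.algebraMap_apply A0 K0 L0 ϖ
    rw [e]
    exact (IsUnit.mk0 _ hϖK).map _
  have hloc : ∀ a : Algebra.adjoin K0 {s}, ∃ (k : ℕ) (p : Algebra.adjoin A0 {s}),
      algebraMap (Algebra.adjoin A0 {s}) (Algebra.adjoin K0 {s})
        (algebraMap A0 (Algebra.adjoin A0 {s}) ϖ ^ k) * a =
        algebraMap (Algebra.adjoin A0 {s}) (Algebra.adjoin K0 {s}) p := by
    intro a
    obtain ⟨k, hk⟩ := exists_pow_mul_mem (K0 := K0) ϖ hϖ s a.2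
    refine ⟨k, ⟨_, hk⟩, Subtype.ext ?_⟩
    rw [Subalgebra.coe_mul]
    rw [show ((algebraMap (Algebra.adjoin A0 {s}) (Algebra.adjoin K0 {s})
        (algebraMap A0 (Algebra.adjoin A0 {s}) ϖ ^ k) : Algebra.adjoin K0 {s}) : L0) =
          ((algebraMap A0 (Algebra.adjoin A0 {s}) ϖ ^ k : Algebra.adjoin A0 {s}) : L0) from
        adjoinIncl_coe (K0 := K0) s _]
    rw [show ((algebraMap (Algebra.adjoin A0 {s}) (Algebra.adjoin K0 {s})
        (⟨_, hk⟩ : Algebra.adjoin A0 {s}) : Algebra.adjoin K0 {s}) : L0) =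
          algebraMap A0 L0 ϖ ^ k * (a : L0) from adjoinIncl_coe (K0 := K0) s _]
    rw [Subalgebra.coe_pow]
    rfl
  -- horizontal input in the shape of `dualBound`
  have hs' : ∀ Q : Ideal ↥(integralClosure (Algebra.adjoin K0 {s}) L0), Q.IsPrime → Q ≠ ⊥ →
      algebraMap (Algebra.adjoin K0 {s}) ↥(integralClosure (Algebra.adjoin K0 {s}) L0)
        (algebraMap (Algebra.adjoin A0 {s}) (Algebra.adjoin K0 {s}) G) ∉ Q →
      ¬ Q ^ 2 ∣ (Q.under (Algebra.adjoin K0 {s})).map
        (algebraMap (Algebra.adjoin K0 {s}) ↥(integralClosure (Algebra.adjoin K0 {s}) L0)) := by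
    intro Q hQ hQ0 hGQ
    refine hhor Q hQ hQ0 _ ?_ hGQ
    rw [← hGcoe]
    exact adjoinIncl_coe (K0 := K0) s G
  have ha := helper1148.dualBound (P := Algebra.adjoin A0 {s}) (K := K0⟮s⟯) (L := L0)
    (A' := Algebra.adjoin K0 {s}) (algebraMap A0 (Algebra.adjoin A0 {s}) ϖ) hlam hunit hloc hc G hs'
  obtain ⟨ι, _, _, c, d, hcint, hcd, hd⟩ := hc
  have h := helper98.oneComponent_of_dualNormal (K := K0⟮s⟯) (L := L0)
    (algebraMap A0 (Algebra.adjoin A0 {s}) ϖ) hlam c d hcint hcd hd G hG
    (Module.finrank K0⟮s⟯ L0) Module.finrank_pos ha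
  intro Q Q' hQ hQ' hne
  exact h Q hQ Q' hQ' hne

end Chart

section Squarefree

variable {k : Type*} [Field k]

theorem squarefree_X_mul_X_add_C (a : k) (ha : a ≠ 0) : Squarefree (X * (X + C a) : k[X]) := by
  apply Polynomial.Separable.squarefree
  refine Polynomial.separable_X.mul (Polynomial.separable_X_add_C a) ⟨-C a⁻¹, C a⁻¹, ?_⟩
  have h : C a⁻¹ * C a = (1 : k[X]) := by rw [← C_mul, inv_mul_cancel₀ ha, C_1]
  linear_combination h

theorem squarefree_X_mul_C_mul_X_add_one (a : k) : Squarefree (X * (C a * X + 1) : k[X]) := by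
  apply Polynomial.Separable.squarefree
  have hsep : (C a * X + 1 : k[X]).Separable := by
    rw [Polynomial.separable_def]
    by_cases ha : a = 0
    · subst ha
      simp only [map_zero, zero_mul, zero_add]
      exact isCoprime_one_left
    · have hd : derivative (C a * X + 1 : k[X]) = C a := by simp
      rw [hd]
      exact ⟨0, C a⁻¹, by rw [zero_mul, zero_add, ← C_mul, inv_mul_cancel₀ ha, C_1]⟩
  exact Polynomial.separable_X.mul hsep ⟨-C a, 1, by ring⟩

end Squarefree

section KData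

open Fermat.Agent.S18.helper3578

variable (D : helper3578.KData)

/-- Squarefreeness modulo `ϖ` of the branch polynomial `X (X + c0)` of the chart `t`. -/
theorem squarefree_branch (hirr : Irreducible D.ϖ) (c0 : D.A0) (hc0 : ¬ D.ϖ ∣ c0) :
    Squarefree ((X * (X + C c0) : D.A0[X]).map (Ideal.Quotient.mk (Ideal.span {D.ϖ}))) := by
  haveI hmax : (Ideal.span {D.ϖ}).IsMaximal := PrincipalIdealRing.isMaximal_of_irreducible hirr
  letI : Field (D.A0 ⧸ Ideal.span {D.ϖ}) := Ideal.Quotient.field _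
  have hne : Ideal.Quotient.mk (Ideal.span {D.ϖ}) c0 ≠ 0 := by
    rw [Ne, Ideal.Quotient.eq_zero_iff_mem, Ideal.mem_span_singleton]
    exact hc0
  have h := squarefree_X_mul_X_add_C (Ideal.Quotient.mk (Ideal.span {D.ϖ}) c0) hne
  simpa using h

/-- Squarefreeness modulo `ϖ` of the branch polynomial `X (c0 X + 1)` of the chart `1/t`. -/
theorem squarefree_branch_inv (hirr : Irreducible D.ϖ) (c0 : D.A0) :
    Squarefree ((X * (C c0 * X + 1) : D.A0[X]).map (Ideal.Quotient.mk (Ideal.span {D.ϖ}))) := by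
  haveI hmax : (Ideal.span {D.ϖ}).IsMaximal := PrincipalIdealRing.isMaximal_of_irreducible hirr
  letI : Field (D.A0 ⧸ Ideal.span {D.ϖ}) := Ideal.Quotient.field _
  have h := squarefree_X_mul_C_mul_X_add_one (Ideal.Quotient.mk (Ideal.span {D.ϖ}) c0)
  simpa using h

/-- **Horizontal input, chart `t`**: from the branch data `BarDatum`, the integral closure of
`K0[t]` in `L0` is unramified over `K0[t]` outside `t (t + c0)`. -/
theorem kdata_horiz (c0 : D.A0) (B : helper648.BarDatum D c0)
    (Q : Ideal (integralClosure (Algebra.adjoin D.K0 {D.tL}) D.L0)) (hQ : Q.IsPrime) (hQ0 : Q ≠ ⊥)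
    (GB : integralClosure (Algebra.adjoin D.K0 {D.tL}) D.L0)
    (hGB : (GB : D.L0) = aeval D.tL (X * (X + C c0) : D.A0[X])) (hG : GB ∉ Q) :
    ¬ Q ^ 2 ∣ (Q.under (Algebra.adjoin D.K0 {D.tL})).map
      (algebraMap (Algebra.adjoin D.K0 {D.tL})
        (integralClosure (Algebra.adjoin D.K0 {D.tL}) D.L0)) := by
  letI : Algebra D.L0 B.Eb := B.i.toRingHom.toAlgebra
  haveI : IsScalarTower D.K0 D.L0 B.Eb :=
    IsScalarTower.of_algebraMap_eq (fun x => (B.i.commutes x).symm)
  haveI : FiniteDimensional B.Kb⟮algebraMap D.L0 B.Eb D.tL⟯ B.Eb := B.finite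
  refine helper2128.line_not_sq_dvd (K := B.Kb) (F := B.Eb) (-(algebraMap D.A0 D.K0 c0)) D.tL
    B.transc ?_ Q hQ hQ0 GB ?_ hG
  · intro c hc hc' v hv
    exact B.simple c hc (by rwa [map_neg] at hc') v hv
  · rw [hGB, map_neg, sub_neg_eq_add, ← IsScalarTower.algebraMap_apply D.A0 D.K0 D.L0]
    simp [Algebra.algebraMap_eq_smul_one]

/-- **Horizontal input, chart `1/t`**: the integral closure of `K0[1/t]` in `L0` is unramified
over `K0[1/t]` outside `s (c0 s + 1)`, `s = 1/t`. -/
theorem kdata_horiz_inv (c0 : D.A0) (B : helper648.BarDatum D c0)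
    (Q : Ideal (integralClosure (Algebra.adjoin D.K0 {D.tL⁻¹}) D.L0)) (hQ : Q.IsPrime)
    (hQ0 : Q ≠ ⊥) (GB : integralClosure (Algebra.adjoin D.K0 {D.tL⁻¹}) D.L0)
    (hGB : (GB : D.L0) = aeval D.tL⁻¹ (X * (C c0 * X + 1) : D.A0[X])) (hG : GB ∉ Q) :
    ¬ Q ^ 2 ∣ (Q.under (Algebra.adjoin D.K0 {D.tL⁻¹})).map
      (algebraMap (Algebra.adjoin D.K0 {D.tL⁻¹})
        (integralClosure (Algebra.adjoin D.K0 {D.tL⁻¹}) D.L0)) := by
  letI : Algebra D.L0 B.Eb := B.i.toRingHom.toAlgebra
  haveI : IsScalarTower D.K0 D.L0 B.Eb :=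
    IsScalarTower.of_algebraMap_eq (fun x => (B.i.commutes x).symm)
  haveI : FiniteDimensional B.Kb⟮algebraMap D.L0 B.Eb D.tL⟯ B.Eb := B.finite
  refine helper2128.line_inv_not_sq_dvd (K := B.Kb) (F := B.Eb) (-(algebraMap D.A0 D.K0 c0)) D.tL
    B.transc ?_ Q hQ hQ0 (-GB) ?_ ?_
  · intro c hc hc' v hv
    exact B.simple c hc (by rwa [map_neg] at hc') v hv
  · rw [NegMemClass.coe_neg, hGB, map_neg, ← IsScalarTower.algebraMap_apply D.A0 D.K0 D.L0]
    simp [Algebra.algebraMap_eq_smul_one]
    ring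
  · intro h
    exact hG (by simpa using Q.neg_mem h)

/-- **(W1) The `OneComp` supply** of `helper648_ModelWire`: a good model with the extra facts
(generation, residue data of the Gauss place, branch data over the algebraic closure) has one
component through every closed point of the special fibre of both charts. -/
theorem oneCompSupply : helper648.OneCompSupply := by
  intro D m c0 hg hc0 F
  refine helper403.kdata_oneComp_of_charts D hg ?_
  intro s hs htr hfin
  haveI := hfin
  rcases hs with rfl | rfl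
  · exact chart_oneComponent_of_dn D.tL htr D.ϖ hg.irr
      (helper1581.kdata_exists_basis_discr_of_facts D hg c0 F D.tL (Or.inl rfl))
      (X * (X + C c0)) (squarefree_branch D hg.irr c0 hc0)
      (fun Q hQ hQ0 GB hGB hG => kdata_horiz D c0 F.bar Q hQ hQ0 GB hGB hG)
  · exact chart_oneComponent_of_dn D.tL⁻¹ htr D.ϖ hg.irr
      (helper1581.kdata_exists_basis_discr_of_facts D hg c0 F D.tL⁻¹ (Or.inr rfl))
      (X * (C c0 * X + 1)) (squarefree_branch_inv D hg.irr c0)
      (fun Q hQ hQ0 GB hGB hG => kdata_horiz_inv D c0 F.bar Q hQ hQ0 GB hGB hG)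

end KData

end Fermat.Agent.S18.helper2720
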