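import Mathlib
import Fermat.Prelude.Def_AlgebraicCurve_DivisorClassGroup
import Fermat.Agent.S24.helper1370_PlaceBasics

/-!
# S18-BRANCH (board row 1256, seat helper2866)

Branch locus of a function field over the Hauptmodul lines of level 2 and 3, in Prelude
`Place.ord` vocabulary.  Everything is generic and hypothesis-passing: `K`, `F` are arbitrary
fields (`K` of characteristic zero), `j t : F` satisfy the algebraic Hauptmodul identity

* level 2: `j * t ^ 2 = (t + 256) ^ 3`,
* level 3: `j * t ^ 3 = (t + 27) * (t + 243) ^ 3`,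

and the ramification data of `F` over the `j`-line are the three hypotheses

* `R1`: a zero of `j - c` with `c ≠ 0, 1728` is simple,
* `R2`: the order of a zero of `j` divides `3`,
* `R3`: the order of a zero of `j - 1728` divides `2`.

Conclusions (level 2; level 3 is analogous with `-27` instead of `-64`):

* `level2_ord_sub_eq_one`: a zero of `t - c` with `c ≠ 0, -64` is simple,
* `level2_ord_sub_neg64_dvd`: the order of a zero of `t - (-64)` divides `2`,
* `level2_ord_j_of_ord_pos`, `level2_ord_j_of_ord_neg`: zeros and poles of `t` are poles of `j`,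
  with `ord j = -2 * ord t` resp. `ord j = ord t`.

So the finite branch values of `F` over `K(t)` lie in `{0, -64}` (resp. `{0, -27}`).
-/

set_option autoImplicit false

open AlgebraicCurve

namespace Fermat.Agent.S18.helper2866

open Fermat.Agent.S24.helper1370

variable {K F : Type*} [Field K] [Field F] [Algebra K F]

/-! ## Two small place lemmas -/

/-- If `g = a + w * z` with `a` a nonzero constant, `w` vanishing at `v` and `z` regular at `v`,
then `g` is a unit at `v`. -/
theorem ord_eq_zero_of_eq_add (v : Place K F) {g w z : F} {a : K} (ha : a ≠ 0)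
    (hg : g = algebraMap K F a + w * z) (hw : 0 < v.ord w) (hz : z ∈ v.toValuationSubring) :
    v.ord g = 0 := by
  have ha' : algebraMap K F a ≠ 0 := (map_ne_zero _).mpr ha
  rcases eq_or_ne z 0 with rfl | hz0
  · rw [hg, mul_zero, add_zero, ord_algebraMap]
  have hw0 : w ≠ 0 := by
    rintro rfl
    simp at hw
  have h1 : v.ord (algebraMap K F a) < v.ord (w * z) := by
    rw [ord_algebraMap, v.ord_mul hw0 hz0]
    have := ord_nonneg_of_mem v hz
    omega
  rw [hg, ord_add_eq_of_lt v ha' h1, ord_algebraMap]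

/-- If `t - c` vanishes at `v` then `t` is regular at `v`. -/
theorem mem_of_ord_sub_pos (v : Place K F) {t : F} {c : K}
    (h : 0 < v.ord (t - algebraMap K F c)) : t ∈ v.toValuationSubring :=
  mem_of_ord_nonneg v (ord_nonneg_of_ord_sub_algebraMap_pos v h)

/-- If `t - c` vanishes at `v` and `c ≠ 0` then `t` is a unit at `v`. -/
theorem ord_eq_zero_of_ord_sub_pos (v : Place K F) {t : F} {c : K} (hc : c ≠ 0)
    (h : 0 < v.ord (t - algebraMap K F c)) : v.ord t = 0 :=
  ord_eq_zero_of_eq_add v hc (w := t - algebraMap K F c) (z := 1) (by ring) h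
    v.toValuationSubring.one_mem

theorem ne_zero_of_ord_pos (v : Place K F) {f : F} (h : 0 < v.ord f) : f ≠ 0 := by
  rintro rfl
  simp at h

theorem ne_zero_of_ord_neg (v : Place K F) {f : F} (h : v.ord f < 0) : f ≠ 0 := by
  rintro rfl
  simp at h

theorem ne_zero_of_ord_sub_pos (v : Place K F) {t : F} {c : K}
    (h : 0 < v.ord (t - algebraMap K F c)) : t ≠ 0 := by
  rintro rfl
  rw [zero_sub, ord_neg, ord_algebraMap] at h
  exact lt_irrefl _ h

/-- `t + a` (numeral-free form `t - (-a)`) shifted: if `t - c` vanishes at `v` and `c ≠ b`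
then `t - b` is a unit at `v` (restated from `helper1370`). -/
theorem ord_sub_eq_zero_of_ord_sub_pos (v : Place K F) {t : F} {c b : K} (hcb : c ≠ b)
    (h : 0 < v.ord (t - algebraMap K F c)) : v.ord (t - algebraMap K F b) = 0 :=
  ord_sub_algebraMap_eq_zero v h hcb

/-! ## Level 2: `j * t ^ 2 = (t + 256) ^ 3` -/

section Level2

/-- The key identity: `(t + 256)^3 - 1728 t^2 = (t - 512)^2 (t + 64)`. -/
theorem level2_sub_1728 {j t : F} (hid : j * t ^ 2 = (t + 256) ^ 3) :
    (j - algebraMap K F 1728) * t ^ 2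
      = (t - algebraMap K F 512) ^ 2 * (t - algebraMap K F (-64)) := by
  simp only [map_neg, map_ofNat]
  linear_combination hid

/-- Over a value `c ∉ {0, -256, 512}` of `t`, the orders of `j - j(c)` and `t - c` agree. -/
theorem level2_ord_j_sub (v : Place K F) {j t : F} (hid : j * t ^ 2 = (t + 256) ^ 3) {c : K}
    (hc0 : c ≠ 0) (hc1 : c ≠ -256) (hc2 : c ≠ 512) (h : 0 < v.ord (t - algebraMap K F c)) :
    v.ord (j - algebraMap K F ((c + 256) ^ 3 / c ^ 2)) = v.ord (t - algebraMap K F c) := by
  have ht0 : t ≠ 0 := ne_zero_of_ord_sub_pos v h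
  have hordt : v.ord t = 0 := ord_eq_zero_of_ord_sub_pos v hc0 h
  have htc : t - algebraMap K F c ≠ 0 := ne_zero_of_ord_pos v h
  have htmem : t ∈ v.toValuationSubring := mem_of_ord_sub_pos v h
  have hC : ∀ a : K, algebraMap K F a ∈ v.toValuationSubring := v.algebraMap_mem'
  -- the cofactor
  set G : F := algebraMap K F (c ^ 2) * t ^ 2 - algebraMap K F (65536 * (3 * c + 256)) * t
    - algebraMap K F (16777216 * c) with hG
  have hGc : c * (c + 256) ^ 2 * (c - 512) ≠ 0 := by
    refine mul_ne_zero (mul_ne_zero hc0 (pow_ne_zero _ ?_)) (sub_ne_zero.mpr hc2)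
    intro h0
    exact hc1 (eq_neg_of_add_eq_zero_left h0)
  have hGord : v.ord G = 0 := by
    refine ord_eq_zero_of_eq_add v hGc (w := t - algebraMap K F c)
      (z := algebraMap K F (c ^ 2) * (t + algebraMap K F c)
        - algebraMap K F (65536 * (3 * c + 256))) ?_ h ?_
    · rw [hG]
      simp only [map_mul, map_add, map_sub, map_pow, map_ofNat]
      ring
    · exact sub_mem (mul_mem (hC _) (add_mem htmem (hC _))) (hC _)
  have hG0 : G ≠ 0 := by
    rintro h0
    have hG0' : G = algebraMap K F (c * (c + 256) ^ 2 * (c - 512))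
        + (t - algebraMap K F c) * (algebraMap K F (c ^ 2) * (t + algebraMap K F c)
          - algebraMap K F (65536 * (3 * c + 256))) := by
      rw [hG]
      simp only [map_mul, map_add, map_sub, map_pow, map_ofNat]
      ring
    -- `G = 0` would force `ord (const) > 0`
    have h1 : algebraMap K F (c * (c + 256) ^ 2 * (c - 512))
        = -((t - algebraMap K F c) * (algebraMap K F (c ^ 2) * (t + algebraMap K F c)
          - algebraMap K F (65536 * (3 * c + 256)))) := by
      rw [h0] at hG0'
      linear_combination -hG0'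
    have h2 := ord_algebraMap v (c * (c + 256) ^ 2 * (c - 512))
    rw [h1, ord_neg] at h2
    rcases eq_or_ne (algebraMap K F (c ^ 2) * (t + algebraMap K F c)
          - algebraMap K F (65536 * (3 * c + 256))) 0 with hz | hz
    · rw [hz, mul_zero, neg_zero] at h1
      exact hGc ((map_eq_zero _).mp h1)
    · rw [v.ord_mul htc hz] at h2
      have := ord_nonneg_of_mem v
        (sub_mem (mul_mem (hC (c ^ 2)) (add_mem htmem (hC c))) (hC (65536 * (3 * c + 256))))
      omega
  have hkey : (j - algebraMap K F ((c + 256) ^ 3 / c ^ 2)) * (t ^ 2 * algebraMap K F (c ^ 2))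
      = (t - algebraMap K F c) * G := by
    have hj0 : algebraMap K F ((c + 256) ^ 3 / c ^ 2) * algebraMap K F (c ^ 2)
        = algebraMap K F ((c + 256) ^ 3) := by
      rw [← map_mul, div_mul_cancel₀ _ (pow_ne_zero 2 hc0)]
    rw [hG]
    simp only [map_mul, map_add, map_pow, map_ofNat] at hj0 ⊢
    linear_combination (algebraMap K F c) ^ 2 * hid - t ^ 2 * hj0
  have hc2F : algebraMap K F (c ^ 2) ≠ 0 := (map_ne_zero _).mpr (pow_ne_zero 2 hc0)
  have hjj : j - algebraMap K F ((c + 256) ^ 3 / c ^ 2) ≠ 0 := by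
    intro h0
    rw [h0, zero_mul] at hkey
    exact mul_ne_zero htc hG0 hkey.symm
  have h3 := congrArg v.ord hkey
  rw [v.ord_mul hjj (mul_ne_zero (pow_ne_zero 2 ht0) hc2F),
    v.ord_mul (pow_ne_zero 2 ht0) hc2F, ord_pow, hordt, ord_algebraMap,
    v.ord_mul htc hG0, hGord] at h3
  simpa using h3

/-- **Level 2, unramified values.** A zero of `t - c` with `c ≠ 0, -64` is simple. -/
theorem level2_ord_sub_eq_one [CharZero K] {j t : F} (hid : j * t ^ 2 = (t + 256) ^ 3)
    (R1 : ∀ (v : Place K F) (c : K), c ≠ 0 → c ≠ 1728 →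
      0 < v.ord (j - algebraMap K F c) → v.ord (j - algebraMap K F c) = 1)
    (R2 : ∀ v : Place K F, 0 < v.ord j → v.ord j ∣ 3)
    (R3 : ∀ v : Place K F, 0 < v.ord (j - algebraMap K F 1728) →
      v.ord (j - algebraMap K F 1728) ∣ 2)
    (v : Place K F) (c : K) (hc0 : c ≠ 0) (hc64 : c ≠ -64)
    (h : 0 < v.ord (t - algebraMap K F c)) : v.ord (t - algebraMap K F c) = 1 := by
  have ht0 : t ≠ 0 := ne_zero_of_ord_sub_pos v h
  have hordt : v.ord t = 0 := ord_eq_zero_of_ord_sub_pos v hc0 h
  have htc : t - algebraMap K F c ≠ 0 := ne_zero_of_ord_pos v h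
  by_cases hc1 : c = -256
  · -- over `j = 0`
    subst hc1
    have ht256 : t + 256 = t - algebraMap K F (-256) := by
      simp only [map_neg, map_ofNat]; ring
    rw [ht256] at hid
    have hj0 : j ≠ 0 := by
      rintro rfl
      rw [zero_mul] at hid
      exact pow_ne_zero 3 htc hid.symm
    have h3 := congrArg v.ord hid
    rw [v.ord_mul hj0 (pow_ne_zero 2 ht0), ord_pow, ord_pow, hordt] at h3
    have hjpos : 0 < v.ord j := by simp only [Nat.cast_ofNat] at h3; omega
    have hdvd := R2 v hjpos
    have h4 : v.ord j = 3 * v.ord (t - algebraMap K F (-256)) := by simp only [Nat.cast_ofNat] at h3; omega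
    rw [h4] at hdvd
    have h5 : v.ord (t - algebraMap K F (-256)) ∣ 1 :=
      (mul_dvd_mul_iff_left (by norm_num : (3 : ℤ) ≠ 0)).mp (by simpa using hdvd)
    have h6 := Int.le_of_dvd one_pos h5
    omega
  by_cases hc2 : c = 512
  · -- over `j = 1728`
    subst hc2
    have hkey := level2_sub_1728 (K := K) hid
    have h64 : v.ord (t - algebraMap K F (-64)) = 0 :=
      ord_sub_eq_zero_of_ord_sub_pos v (by norm_num) h
    have h64ne : t - algebraMap K F (-64) ≠ 0 := by
      intro h0
      have h7 : t - algebraMap K F 512 = algebraMap K F (-576) := by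
        have : t = algebraMap K F (-64) := sub_eq_zero.mp h0
        rw [this, ← map_sub]
        norm_num
      rw [h7, ord_algebraMap] at h
      exact lt_irrefl _ h
    have hj0 : j - algebraMap K F 1728 ≠ 0 := by
      intro h0
      rw [h0, zero_mul] at hkey
      exact mul_ne_zero (pow_ne_zero 2 htc) h64ne hkey.symm
    have h3 := congrArg v.ord hkey
    rw [v.ord_mul hj0 (pow_ne_zero 2 ht0), ord_pow, hordt,
      v.ord_mul (pow_ne_zero 2 htc) h64ne, ord_pow, h64] at h3
    have h4 : v.ord (j - algebraMap K F 1728) = 2 * v.ord (t - algebraMap K F 512) := by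
      simp only [Nat.cast_ofNat] at h3; omega
    have hdvd := R3 v (by omega)
    rw [h4] at hdvd
    have h5 : v.ord (t - algebraMap K F 512) ∣ 1 :=
      (mul_dvd_mul_iff_left (by norm_num : (2 : ℤ) ≠ 0)).mp (by simpa using hdvd)
    have h6 := Int.le_of_dvd one_pos h5
    omega
  · -- generic value
    have hord := level2_ord_j_sub v hid hc0 hc1 hc2 h
    have hj0ne : (c + 256) ^ 3 / c ^ 2 ≠ 0 := by
      refine div_ne_zero (pow_ne_zero 3 ?_) (pow_ne_zero 2 hc0)
      intro h0
      exact hc1 (eq_neg_of_add_eq_zero_left h0)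
    have hj1728 : (c + 256) ^ 3 / c ^ 2 ≠ 1728 := by
      intro h0
      rw [div_eq_iff (pow_ne_zero 2 hc0)] at h0
      have h1 : (c - 512) ^ 2 * (c + 64) = 0 := by linear_combination h0
      rcases mul_eq_zero.mp h1 with h2 | h2
      · exact hc2 (sub_eq_zero.mp (pow_eq_zero_iff (by norm_num) |>.mp h2))
      · exact hc64 (eq_neg_of_add_eq_zero_left h2)
    have h1 := R1 v _ hj0ne hj1728 (by rw [hord]; exact h)
    rw [hord] at h1
    exact h1

/-- **Level 2, the elliptic value.** The order of a zero of `t - (-64)` divides `2`. -/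
theorem level2_ord_sub_neg64_dvd [CharZero K] {j t : F} (hid : j * t ^ 2 = (t + 256) ^ 3)
    (R3 : ∀ v : Place K F, 0 < v.ord (j - algebraMap K F 1728) →
      v.ord (j - algebraMap K F 1728) ∣ 2)
    (v : Place K F) (h : 0 < v.ord (t - algebraMap K F (-64))) :
    v.ord (t - algebraMap K F (-64)) ∣ 2 := by
  have hc0 : (-64 : K) ≠ 0 := by norm_num
  have ht0 : t ≠ 0 := ne_zero_of_ord_sub_pos v h
  have hordt : v.ord t = 0 := ord_eq_zero_of_ord_sub_pos v hc0 h
  have htc : t - algebraMap K F (-64) ≠ 0 := ne_zero_of_ord_pos v h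
  have hkey := level2_sub_1728 (K := K) hid
  have h512 : v.ord (t - algebraMap K F 512) = 0 :=
    ord_sub_eq_zero_of_ord_sub_pos v (by norm_num) h
  have h512ne : t - algebraMap K F 512 ≠ 0 := by
    intro h0
    have h7 : t - algebraMap K F (-64) = algebraMap K F 576 := by
      have : t = algebraMap K F 512 := sub_eq_zero.mp h0
      rw [this, ← map_sub]
      norm_num
    rw [h7, ord_algebraMap] at h
    exact lt_irrefl _ h
  have hj0 : j - algebraMap K F 1728 ≠ 0 := by
    intro h0
    rw [h0, zero_mul] at hkey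
    exact mul_ne_zero (pow_ne_zero 2 h512ne) htc hkey.symm
  have h3 := congrArg v.ord hkey
  rw [v.ord_mul hj0 (pow_ne_zero 2 ht0), ord_pow, hordt,
    v.ord_mul (pow_ne_zero 2 h512ne) htc, ord_pow, h512] at h3
  have h4 : v.ord (j - algebraMap K F 1728) = v.ord (t - algebraMap K F (-64)) := by
    simp only [Nat.cast_ofNat] at h3; omega
  have hdvd := R3 v (by omega)
  rwa [h4] at hdvd

/-- **Level 2, zeros of `t` are cusps.** -/
theorem level2_ord_j_of_ord_pos [CharZero K] {j t : F} (hid : j * t ^ 2 = (t + 256) ^ 3)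
    (v : Place K F) (h : 0 < v.ord t) : v.ord j = -2 * v.ord t := by
  have ht0 : t ≠ 0 := ne_zero_of_ord_pos v h
  have h256 : v.ord (t + 256) = 0 :=
    ord_eq_zero_of_eq_add v (a := (256 : K)) (by norm_num) (w := t) (z := 1)
      (by simp only [map_ofNat]; ring) h v.toValuationSubring.one_mem
  have h256ne : t + 256 ≠ 0 := by
    intro h0
    have : t = algebraMap K F (-256) := by
      simp only [map_neg, map_ofNat]; linear_combination h0
    rw [this, ord_algebraMap] at h
    exact lt_irrefl _ h
  have hj0 : j ≠ 0 := by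
    rintro rfl
    rw [zero_mul] at hid
    exact pow_ne_zero 3 h256ne hid.symm
  have h3 := congrArg v.ord hid
  rw [v.ord_mul hj0 (pow_ne_zero 2 ht0), ord_pow, ord_pow, h256] at h3
  simp only [Nat.cast_ofNat] at h3
  omega

/-- **Level 2, poles of `t` are cusps.** -/
theorem level2_ord_j_of_ord_neg {j t : F} (hid : j * t ^ 2 = (t + 256) ^ 3)
    (v : Place K F) (h : v.ord t < 0) : v.ord j = v.ord t := by
  have ht0 : t ≠ 0 := ne_zero_of_ord_neg v h
  have h256 : v.ord (t + 256) = v.ord t := by
    have : (256 : F) = algebraMap K F 256 := (map_ofNat (algebraMap K F) 256).symm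
    rw [this]
    exact ord_add_eq_of_lt v ht0 (by rw [ord_algebraMap]; exact h)
  have h256ne : t + 256 ≠ 0 := by
    intro h0
    rw [h0, Place.ord_zero] at h256
    omega
  have hj0 : j ≠ 0 := by
    rintro rfl
    rw [zero_mul] at hid
    exact pow_ne_zero 3 h256ne hid.symm
  have h3 := congrArg v.ord hid
  rw [v.ord_mul hj0 (pow_ne_zero 2 ht0), ord_pow, ord_pow, h256] at h3
  simp only [Nat.cast_ofNat] at h3
  omega

end Level2

/-! ## Level 3: `j * t ^ 3 = (t + 27) * (t + 243) ^ 3` -/

section Level3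

/-- The key identity: `(t + 27)(t + 243)^3 - 1728 t^3 = (t^2 - 486 t - 19683)^2`. -/
theorem level3_sub_1728 {j t : F} (hid : j * t ^ 3 = (t + 27) * (t + 243) ^ 3) :
    (j - algebraMap K F 1728) * t ^ 3 = (t ^ 2 - 486 * t - 19683) ^ 2 := by
  simp only [map_ofNat]
  linear_combination hid

/-- Over a value `c` of `t` with `c ≠ 0, -243` and `c^2 - 486 c - 19683 ≠ 0`, the orders of
`j - j(c)` and `t - c` agree. -/
theorem level3_ord_j_sub (v : Place K F) {j t : F}
    (hid : j * t ^ 3 = (t + 27) * (t + 243) ^ 3) {c : K}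
    (hc0 : c ≠ 0) (hc1 : c ≠ -243) (hc2 : c ^ 2 - 486 * c - 19683 ≠ 0)
    (h : 0 < v.ord (t - algebraMap K F c)) :
    v.ord (j - algebraMap K F ((c + 27) * (c + 243) ^ 3 / c ^ 3))
      = v.ord (t - algebraMap K F c) := by
  have ht0 : t ≠ 0 := ne_zero_of_ord_sub_pos v h
  have hordt : v.ord t = 0 := ord_eq_zero_of_ord_sub_pos v hc0 h
  have htc : t - algebraMap K F c ≠ 0 := ne_zero_of_ord_pos v h
  have htmem : t ∈ v.toValuationSubring := mem_of_ord_sub_pos v h
  have hC : ∀ a : K, algebraMap K F a ∈ v.toValuationSubring := v.algebraMap_mem'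
  -- the cofactor `G(t)` and the quotient `Q(t) = (G(t) - G(c)) / (t - c)`
  set G : F := algebraMap K F (c ^ 3) * t ^ 3 - algebraMap K F (196830 * c ^ 2) * t ^ 2
    - algebraMap K F (19131876 * c) * (t * (t + algebraMap K F c))
    - algebraMap K F 387420489 * (t ^ 2 + t * algebraMap K F c + algebraMap K F (c ^ 2))
    with hG
  set Q : F := algebraMap K F (c ^ 3) * (t ^ 2 + t * algebraMap K F c + algebraMap K F (c ^ 2))
    - algebraMap K F (196830 * c ^ 2) * (t + algebraMap K F c)
    - algebraMap K F (19131876 * c) * (t + algebraMap K F (2 * c))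
    - algebraMap K F 387420489 * (t + algebraMap K F (2 * c)) with hQ
  have hQmem : Q ∈ v.toValuationSubring := by
    rw [hQ]
    have h2 : t ^ 2 ∈ v.toValuationSubring := pow_mem htmem 2
    exact sub_mem (sub_mem (sub_mem
      (mul_mem (hC _) (add_mem (add_mem h2 (mul_mem htmem (hC _))) (hC _)))
      (mul_mem (hC _) (add_mem htmem (hC _))))
      (mul_mem (hC _) (add_mem htmem (hC _))))
      (mul_mem (hC _) (add_mem htmem (hC _)))
  have hGc : c ^ 2 * (c + 243) ^ 2 * (c ^ 2 - 486 * c - 19683) ≠ 0 := by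
    refine mul_ne_zero (mul_ne_zero (pow_ne_zero 2 hc0) (pow_ne_zero _ ?_)) hc2
    intro h0
    exact hc1 (eq_neg_of_add_eq_zero_left h0)
  have hGeq : G = algebraMap K F (c ^ 2 * (c + 243) ^ 2 * (c ^ 2 - 486 * c - 19683))
      + (t - algebraMap K F c) * Q := by
    rw [hG, hQ]
    simp only [map_mul, map_add, map_sub, map_pow, map_ofNat]
    ring
  have hGord : v.ord G = 0 := ord_eq_zero_of_eq_add v hGc hGeq h hQmem
  have hG0 : G ≠ 0 := by
    rintro h0
    have h1 : algebraMap K F (c ^ 2 * (c + 243) ^ 2 * (c ^ 2 - 486 * c - 19683))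
        = -((t - algebraMap K F c) * Q) := by
      rw [h0] at hGeq
      linear_combination -hGeq
    have h2 := ord_algebraMap v (c ^ 2 * (c + 243) ^ 2 * (c ^ 2 - 486 * c - 19683))
    rw [h1, ord_neg] at h2
    rcases eq_or_ne Q 0 with hz | hz
    · rw [hz, mul_zero, neg_zero] at h1
      exact hGc ((map_eq_zero _).mp h1)
    · rw [v.ord_mul htc hz] at h2
      have := ord_nonneg_of_mem v hQmem
      omega
  have hkey : (j - algebraMap K F ((c + 27) * (c + 243) ^ 3 / c ^ 3))
      * (t ^ 3 * algebraMap K F (c ^ 3)) = (t - algebraMap K F c) * G := by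
    have hj0 : algebraMap K F ((c + 27) * (c + 243) ^ 3 / c ^ 3) * algebraMap K F (c ^ 3)
        = algebraMap K F ((c + 27) * (c + 243) ^ 3) := by
      rw [← map_mul, div_mul_cancel₀ _ (pow_ne_zero 3 hc0)]
    rw [hG]
    simp only [map_mul, map_add, map_pow, map_ofNat] at hj0 ⊢
    linear_combination (algebraMap K F c) ^ 3 * hid - t ^ 3 * hj0
  have hc3F : algebraMap K F (c ^ 3) ≠ 0 := (map_ne_zero _).mpr (pow_ne_zero 3 hc0)
  have hjj : j - algebraMap K F ((c + 27) * (c + 243) ^ 3 / c ^ 3) ≠ 0 := by
    intro h0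
    rw [h0, zero_mul] at hkey
    exact mul_ne_zero htc hG0 hkey.symm
  have h3 := congrArg v.ord hkey
  rw [v.ord_mul hjj (mul_ne_zero (pow_ne_zero 3 ht0) hc3F),
    v.ord_mul (pow_ne_zero 3 ht0) hc3F, ord_pow, hordt, ord_algebraMap,
    v.ord_mul htc hG0, hGord] at h3
  simpa using h3

/-- **Level 3, unramified values.** A zero of `t - c` with `c ≠ 0, -27` is simple. -/
theorem level3_ord_sub_eq_one [CharZero K] {j t : F}
    (hid : j * t ^ 3 = (t + 27) * (t + 243) ^ 3)
    (R1 : ∀ (v : Place K F) (c : K), c ≠ 0 → c ≠ 1728 →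
      0 < v.ord (j - algebraMap K F c) → v.ord (j - algebraMap K F c) = 1)
    (R2 : ∀ v : Place K F, 0 < v.ord j → v.ord j ∣ 3)
    (R3 : ∀ v : Place K F, 0 < v.ord (j - algebraMap K F 1728) →
      v.ord (j - algebraMap K F 1728) ∣ 2)
    (v : Place K F) (c : K) (hc0 : c ≠ 0) (hc27 : c ≠ -27)
    (h : 0 < v.ord (t - algebraMap K F c)) : v.ord (t - algebraMap K F c) = 1 := by
  have ht0 : t ≠ 0 := ne_zero_of_ord_sub_pos v h
  have hordt : v.ord t = 0 := ord_eq_zero_of_ord_sub_pos v hc0 h
  have htc : t - algebraMap K F c ≠ 0 := ne_zero_of_ord_pos v h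
  by_cases hc1 : c = -243
  · -- over `j = 0`
    subst hc1
    have h27 : v.ord (t - algebraMap K F (-27)) = 0 :=
      ord_sub_eq_zero_of_ord_sub_pos v (by norm_num) h
    have h27ne : t - algebraMap K F (-27) ≠ 0 := by
      intro h0
      have h7 : t - algebraMap K F (-243) = algebraMap K F 216 := by
        have : t = algebraMap K F (-27) := sub_eq_zero.mp h0
        rw [this, ← map_sub]
        norm_num
      rw [h7, ord_algebraMap] at h
      exact lt_irrefl _ h
    have hid' : j * t ^ 3 = (t - algebraMap K F (-27)) * (t - algebraMap K F (-243)) ^ 3 := by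
      simp only [map_neg, map_ofNat]
      linear_combination hid
    have hj0 : j ≠ 0 := by
      rintro rfl
      rw [zero_mul] at hid'
      exact mul_ne_zero h27ne (pow_ne_zero 3 htc) hid'.symm
    have h3 := congrArg v.ord hid'
    rw [v.ord_mul hj0 (pow_ne_zero 3 ht0), ord_pow, hordt,
      v.ord_mul h27ne (pow_ne_zero 3 htc), ord_pow, h27] at h3
    have h4 : v.ord j = 3 * v.ord (t - algebraMap K F (-243)) := by
      simp only [Nat.cast_ofNat] at h3; omega
    have hdvd := R2 v (by omega)
    rw [h4] at hdvd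
    have h5 : v.ord (t - algebraMap K F (-243)) ∣ 1 :=
      (mul_dvd_mul_iff_left (by norm_num : (3 : ℤ) ≠ 0)).mp (by simpa using hdvd)
    have h6 := Int.le_of_dvd one_pos h5
    omega
  by_cases hc2 : c ^ 2 - 486 * c - 19683 = 0
  · -- over `j = 1728`
    have hkey := level3_sub_1728 (K := K) hid
    have hfac : t ^ 2 - 486 * t - 19683
        = (t - algebraMap K F c) * (t - algebraMap K F (486 - c)) := by
      have hc2F := congrArg (algebraMap K F) hc2
      simp only [map_sub, map_mul, map_pow, map_ofNat, map_zero] at hc2F ⊢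
      linear_combination hc2F
    have hcne : c ≠ 486 - c := by
      intro h0
      have h1 : c = 243 := by linear_combination h0 / 2
      rw [h1] at hc2
      norm_num at hc2
    have hother : v.ord (t - algebraMap K F (486 - c)) = 0 :=
      ord_sub_eq_zero_of_ord_sub_pos v hcne h
    have hotherne : t - algebraMap K F (486 - c) ≠ 0 := by
      intro h0
      have h7 : t - algebraMap K F c = algebraMap K F (486 - c - c) := by
        have : t = algebraMap K F (486 - c) := sub_eq_zero.mp h0
        rw [this, ← map_sub]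
      rw [h7, ord_algebraMap] at h
      exact lt_irrefl _ h
    rw [hfac] at hkey
    have hj0 : j - algebraMap K F 1728 ≠ 0 := by
      intro h0
      rw [h0, zero_mul] at hkey
      exact pow_ne_zero 2 (mul_ne_zero htc hotherne) hkey.symm
    have h3 := congrArg v.ord hkey
    rw [v.ord_mul hj0 (pow_ne_zero 3 ht0), ord_pow, hordt, ord_pow,
      v.ord_mul htc hotherne, hother] at h3
    have h4 : v.ord (j - algebraMap K F 1728) = 2 * v.ord (t - algebraMap K F c) := by
      simp only [Nat.cast_ofNat] at h3; omega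
    have hdvd := R3 v (by omega)
    rw [h4] at hdvd
    have h5 : v.ord (t - algebraMap K F c) ∣ 1 :=
      (mul_dvd_mul_iff_left (by norm_num : (2 : ℤ) ≠ 0)).mp (by simpa using hdvd)
    have h6 := Int.le_of_dvd one_pos h5
    omega
  · -- generic value
    have hord := level3_ord_j_sub v hid hc0 hc1 hc2 h
    have hj0ne : (c + 27) * (c + 243) ^ 3 / c ^ 3 ≠ 0 := by
      refine div_ne_zero (mul_ne_zero ?_ (pow_ne_zero 3 ?_)) (pow_ne_zero 3 hc0)
      · intro h0
        exact hc27 (eq_neg_of_add_eq_zero_left h0)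
      · intro h0
        exact hc1 (eq_neg_of_add_eq_zero_left h0)
    have hj1728 : (c + 27) * (c + 243) ^ 3 / c ^ 3 ≠ 1728 := by
      intro h0
      rw [div_eq_iff (pow_ne_zero 3 hc0)] at h0
      have h1 : (c ^ 2 - 486 * c - 19683) ^ 2 = 0 := by linear_combination h0
      exact hc2 (pow_eq_zero_iff (by norm_num) |>.mp h1)
    have h1 := R1 v _ hj0ne hj1728 (by rw [hord]; exact h)
    rw [hord] at h1
    exact h1

/-- **Level 3, the elliptic value.** The order of a zero of `t - (-27)` divides `3`. -/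
theorem level3_ord_sub_neg27_dvd [CharZero K] {j t : F}
    (hid : j * t ^ 3 = (t + 27) * (t + 243) ^ 3)
    (R2 : ∀ v : Place K F, 0 < v.ord j → v.ord j ∣ 3)
    (v : Place K F) (h : 0 < v.ord (t - algebraMap K F (-27))) :
    v.ord (t - algebraMap K F (-27)) ∣ 3 := by
  have hc0 : (-27 : K) ≠ 0 := by norm_num
  have ht0 : t ≠ 0 := ne_zero_of_ord_sub_pos v h
  have hordt : v.ord t = 0 := ord_eq_zero_of_ord_sub_pos v hc0 h
  have htc : t - algebraMap K F (-27) ≠ 0 := ne_zero_of_ord_pos v h
  have h243 : v.ord (t - algebraMap K F (-243)) = 0 :=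
    ord_sub_eq_zero_of_ord_sub_pos v (by norm_num) h
  have h243ne : t - algebraMap K F (-243) ≠ 0 := by
    intro h0
    have h7 : t - algebraMap K F (-27) = algebraMap K F (-216) := by
      have : t = algebraMap K F (-243) := sub_eq_zero.mp h0
      rw [this, ← map_sub]
      norm_num
    rw [h7, ord_algebraMap] at h
    exact lt_irrefl _ h
  have hid' : j * t ^ 3 = (t - algebraMap K F (-27)) * (t - algebraMap K F (-243)) ^ 3 := by
    simp only [map_neg, map_ofNat]
    linear_combination hid
  have hj0 : j ≠ 0 := by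
    rintro rfl
    rw [zero_mul] at hid'
    exact mul_ne_zero htc (pow_ne_zero 3 h243ne) hid'.symm
  have h3 := congrArg v.ord hid'
  rw [v.ord_mul hj0 (pow_ne_zero 3 ht0), ord_pow, hordt,
    v.ord_mul htc (pow_ne_zero 3 h243ne), ord_pow, h243] at h3
  have h4 : v.ord j = v.ord (t - algebraMap K F (-27)) := by
    simp only [Nat.cast_ofNat] at h3; omega
  have hdvd := R2 v (by omega)
  rwa [h4] at hdvd

/-- **Level 3, zeros of `t` are cusps.** -/
theorem level3_ord_j_of_ord_pos [CharZero K] {j t : F}
    (hid : j * t ^ 3 = (t + 27) * (t + 243) ^ 3)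
    (v : Place K F) (h : 0 < v.ord t) : v.ord j = -3 * v.ord t := by
  have ht0 : t ≠ 0 := ne_zero_of_ord_pos v h
  have h27 : v.ord (t + 27) = 0 :=
    ord_eq_zero_of_eq_add v (a := (27 : K)) (by norm_num) (w := t) (z := 1)
      (by simp only [map_ofNat]; ring) h v.toValuationSubring.one_mem
  have h243 : v.ord (t + 243) = 0 :=
    ord_eq_zero_of_eq_add v (a := (243 : K)) (by norm_num) (w := t) (z := 1)
      (by simp only [map_ofNat]; ring) h v.toValuationSubring.one_mem
  have h27ne : t + 27 ≠ 0 := by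
    intro h0
    have : t = algebraMap K F (-27) := by
      simp only [map_neg, map_ofNat]; linear_combination h0
    rw [this, ord_algebraMap] at h
    exact lt_irrefl _ h
  have h243ne : t + 243 ≠ 0 := by
    intro h0
    have : t = algebraMap K F (-243) := by
      simp only [map_neg, map_ofNat]; linear_combination h0
    rw [this, ord_algebraMap] at h
    exact lt_irrefl _ h
  have hj0 : j ≠ 0 := by
    rintro rfl
    rw [zero_mul] at hid
    exact mul_ne_zero h27ne (pow_ne_zero 3 h243ne) hid.symm
  have h3 := congrArg v.ord hid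
  rw [v.ord_mul hj0 (pow_ne_zero 3 ht0), ord_pow,
    v.ord_mul h27ne (pow_ne_zero 3 h243ne), ord_pow, h27, h243] at h3
  simp only [Nat.cast_ofNat] at h3
  omega

/-- **Level 3, poles of `t` are cusps.** -/
theorem level3_ord_j_of_ord_neg {j t : F}
    (hid : j * t ^ 3 = (t + 27) * (t + 243) ^ 3)
    (v : Place K F) (h : v.ord t < 0) : v.ord j = v.ord t := by
  have ht0 : t ≠ 0 := ne_zero_of_ord_neg v h
  have h27 : v.ord (t + 27) = v.ord t := by
    have : (27 : F) = algebraMap K F 27 := (map_ofNat (algebraMap K F) 27).symm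
    rw [this]
    exact ord_add_eq_of_lt v ht0 (by rw [ord_algebraMap]; exact h)
  have h243 : v.ord (t + 243) = v.ord t := by
    have : (243 : F) = algebraMap K F 243 := (map_ofNat (algebraMap K F) 243).symm
    rw [this]
    exact ord_add_eq_of_lt v ht0 (by rw [ord_algebraMap]; exact h)
  have h27ne : t + 27 ≠ 0 := by
    intro h0
    rw [h0, Place.ord_zero] at h27
    omega
  have h243ne : t + 243 ≠ 0 := by
    intro h0
    rw [h0, Place.ord_zero] at h243
    omega
  have hj0 : j ≠ 0 := by
    rintro rfl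
    rw [zero_mul] at hid
    exact mul_ne_zero h27ne (pow_ne_zero 3 h243ne) hid.symm
  have h3 := congrArg v.ord hid
  rw [v.ord_mul hj0 (pow_ne_zero 3 ht0), ord_pow,
    v.ord_mul h27ne (pow_ne_zero 3 h243ne), ord_pow, h27, h243] at h3
  simp only [Nat.cast_ofNat] at h3
  omega

end Level3

end Fermat.Agent.S18.helper2866
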