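/-
S18 / RHURW leaf (2) (helper2901): `helper4849.Stmt_Tame` VERBATIM.

Tame bound for the codifferent in residue characteristic zero: in the AKLB setting, if `f` lies in
the trace dual of `B` and `π ∈ p`, then `f * π` vanishes at every prime `P` of `B` above `p`.

Proof: write `p B = P^e * Q` with `P^e`, `Q` coprime, take the CRT idempotent `x ∈ Q`, `x ≡ 1 mod P^e`;
its trace in `A ⧸ p` is `dim (B ⧸ P^e) ≠ 0` (characteristic zero), hence `¬ P^e ∣ differentIdeal A B`
(Mathlib `not_dvd_differentIdeal_of_intTrace_not_mem`), so there is `d` in the different with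
`d ∉ P^e`; since `d * f ∈ B` and `π ∈ P^e`, the valuation of `f * π` is `< 1`.
-/
import Mathlib
import Fermat.Agent.S18.helper4849_RHSpec

set_option autoImplicit false

open IsDedekindDomain

namespace Fermat.Agent.S18.helper2901

attribute [local instance] FractionRing.liftAlgebra FractionRing.isScalarTower_liftAlgebra
  Ideal.Quotient.field

/-- The CRT idempotent of a coprime factorisation `P * Q = p B` has trace outside `p` when the
residue field `A ⧸ p` has characteristic zero. -/
theorem exists_mem_intTrace_notMem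
    {A B : Type*} [CommRing A] [IsDedekindDomain A] [CommRing B] [IsDedekindDomain B]
    [Algebra A B] [Module.Finite A B] [Module.IsTorsionFree A B]
    (p : Ideal A) [p.IsMaximal] [CharZero (A ⧸ p)]
    (P Q : Ideal B) (hPne : P ≠ ⊤) (hcop : IsCoprime P Q)
    (hPQ : P * Q = p.map (algebraMap A B)) :
    ∃ x ∈ Q, Algebra.intTrace A B x ∉ p := by
  let _ : Algebra (A ⧸ p) (B ⧸ P) := Ideal.Quotient.algebraQuotientOfLEComap (by
      rw [← Ideal.map_le_iff_le_comap, ← hPQ]
      exact Ideal.mul_le_left)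
  let _ : Algebra (A ⧸ p) (B ⧸ Q) := Ideal.Quotient.algebraQuotientOfLEComap (by
      rw [← Ideal.map_le_iff_le_comap, ← hPQ]
      exact Ideal.mul_le_right)
  have : IsScalarTower A (A ⧸ p) (B ⧸ P) := .of_algebraMap_eq' rfl
  have : IsScalarTower A (A ⧸ p) (B ⧸ Q) := .of_algebraMap_eq' rfl
  have : Module.Finite (A ⧸ p) (B ⧸ P) :=
    Module.Finite.of_restrictScalars_finite A (A ⧸ p) (B ⧸ P)
  have : Module.Finite (A ⧸ p) (B ⧸ Q) :=
    Module.Finite.of_restrictScalars_finite A (A ⧸ p) (B ⧸ Q)
  have : Nontrivial (B ⧸ P) := Ideal.Quotient.nontrivial_iff.mpr hPne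
  let e : (B ⧸ p.map (algebraMap A B)) ≃ₐ[A ⧸ p] ((B ⧸ P) × B ⧸ Q) :=
    { __ := (Ideal.quotEquivOfEq hPQ.symm).trans (Ideal.quotientMulEquivQuotientProd P Q hcop),
      commutes' := Quotient.ind fun _ ↦ rfl }
  obtain ⟨y, hy⟩ := Ideal.Quotient.mk_surjective (e.symm (1, 0))
  refine ⟨y, ?_, ?_⟩
  · have := congr((e $hy).2)
    simp at this
    simpa [e, Ideal.Quotient.eq_zero_iff_mem] using this
  · rw [← Ideal.Quotient.eq_zero_iff_mem, ← Algebra.trace_quotient_eq_of_isDedekindDomain,
      hy, Algebra.trace_eq_of_algEquiv, Algebra.trace_prod_apply]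
    have h1 : Algebra.trace (A ⧸ p) (B ⧸ P) 1 = (Module.finrank (A ⧸ p) (B ⧸ P) : A ⧸ p) := by
      have := Algebra.trace_algebraMap (R := A ⧸ p) (S := B ⧸ P) 1
      rwa [map_one, nsmul_one] at this
    have hpos : 0 < Module.finrank (A ⧸ p) (B ⧸ P) := Module.finrank_pos
    simp only [map_zero, add_zero, h1]
    exact Nat.cast_ne_zero.mpr hpos.ne'

/-- Tame bound for the codifferent in residue characteristic zero (general universes). -/
theorem tame_valuation_lt_one
    {A B K L : Type*} [CommRing A] [IsDedekindDomain A] [CommRing B] [IsDedekindDomain B]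
    [Field K] [Field L] [Algebra A B] [Algebra A K] [Algebra B L] [Algebra K L] [Algebra A L]
    [IsScalarTower A K L] [IsScalarTower A B L] [IsFractionRing A K] [IsFractionRing B L]
    [Module.Finite A B] [Module.IsTorsionFree A B] [FiniteDimensional K L]
    [Algebra.IsSeparable K L]
    (p : Ideal A) [p.IsMaximal] [CharZero (A ⧸ p)]
    (P : HeightOneSpectrum B) (hpP : p.map (algebraMap A B) ≤ P.asIdeal)
    (f : L) (hf : f ∈ Submodule.traceDual A K (1 : Submodule B L))
    (π : A) (hπ : π ∈ p) : P.valuation L (f * algebraMap A L π) < 1 := by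
  by_cases hp : p = ⊥
  · subst hp
    obtain rfl : π = 0 := by simpa using hπ
    simp
  by_cases hf0 : f = 0
  · subst hf0
    simp
  have hp' : p.map (algebraMap A B) ≠ ⊥ := (Ideal.map_eq_bot_iff_of_injective
    (FaithfulSMul.algebraMap_injective A B)).not.mpr hp
  have hPmax : P.asIdeal.IsMaximal := P.isMaximal
  obtain ⟨Q, h₁, h₂⟩ := Ideal.eq_prime_pow_mul_coprime hp' P.asIdeal
  set e := Multiset.count P.asIdeal
    (UniqueFactorizationMonoid.normalizedFactors (p.map (algebraMap A B))) with he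
  have he0 : e ≠ 0 := by
    intro h0
    rw [h0, pow_zero, one_mul] at h₂
    have hQP : Q ≤ P.asIdeal := h₂ ▸ hpP
    have : P.asIdeal = ⊤ := by
      rw [← h₁]
      exact (sup_eq_left.mpr hQP).symm
    exact hPmax.ne_top this
  have hcop : IsCoprime (P.asIdeal ^ e) Q :=
    (Ideal.isCoprime_iff_sup_eq.mpr h₁).pow_left
  have hPe : P.asIdeal ^ e ≠ ⊤ := by
    intro h
    have : P.asIdeal ^ e ≤ P.asIdeal := Ideal.pow_le_self he0
    rw [h] at this
    exact hPmax.ne_top (top_le_iff.mp this)
  obtain ⟨x, hxQ, hx⟩ := exists_mem_intTrace_notMem p (P.asIdeal ^ e) Q hPe hcop h₂.symm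
  have hint : Algebra.IsIntegral A B := inferInstance
  have hIC : IsIntegralClosure B A L := IsIntegralClosure.of_isIntegrallyClosed B A L
  have H : RingHom.comp (algebraMap (FractionRing A) (FractionRing B))
      ↑(FractionRing.algEquiv A K).symm.toRingEquiv =
        RingHom.comp ↑(FractionRing.algEquiv B L).symm.toRingEquiv (algebraMap K L) := by
    apply IsLocalization.ringHom_ext (nonZeroDivisors A)
    ext
    simp only [RingHom.coe_comp, RingHom.coe_coe,
      AlgEquiv.coe_ringEquiv, Function.comp_apply, AlgEquiv.commutes,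
      ← IsScalarTower.algebraMap_apply]
    rw [IsScalarTower.algebraMap_apply A B L, AlgEquiv.commutes, ← IsScalarTower.algebraMap_apply]
  have hsep : Algebra.IsSeparable (FractionRing A) (FractionRing B) :=
    Algebra.IsSeparable.of_equiv_equiv _ _ H
  have hnd : ¬ P.asIdeal ^ e ∣ differentIdeal A B :=
    not_dvd_differentIdeal_of_intTrace_not_mem A _ Q h₂.symm x hxQ hx
  rw [Ideal.dvd_iff_le] at hnd
  obtain ⟨d, hd, hdP⟩ := SetLike.not_le_iff_exists.mp hnd
  -- `d * f ∈ B`
  have hmem : algebraMap B L d ∈ IsLocalization.coeSubmodule L (differentIdeal A B) :=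
    (IsLocalization.mem_coeSubmodule _ _).mpr ⟨d, hd, rfl⟩
  rw [coeSubmodule_differentIdeal A K B, Submodule.mem_div_iff_forall_mul_mem] at hmem
  obtain ⟨b, hb⟩ := Submodule.mem_one.mp (hmem f hf)
  -- valuations
  have hvb : P.valuation L (algebraMap B L d * f) ≤ 1 := by
    rw [← hb]
    exact P.valuation_le_one b
  have hvd : WithZero.exp (-(e : ℤ)) < P.valuation L (algebraMap B L d) := by
    rw [HeightOneSpectrum.valuation_of_algebraMap]
    exact not_le.mp fun h => hdP ((P.intValuation_le_pow_iff_mem d e).mp h)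
  have hvπ : P.valuation L (algebraMap A L π) ≤ WithZero.exp (-(e : ℤ)) := by
    rw [IsScalarTower.algebraMap_apply A B L, HeightOneSpectrum.valuation_of_algebraMap,
      P.intValuation_le_pow_iff_mem]
    have : algebraMap A B π ∈ p.map (algebraMap A B) := Ideal.mem_map_of_mem _ hπ
    rw [h₂] at this
    exact Ideal.mul_le_left this
  have hvf : 0 < P.valuation L f := by
    rw [pos_iff_ne_zero]
    exact (Valuation.ne_zero_iff _).mpr hf0
  have key : ∀ a b c d : WithZero (Multiplicative ℤ), b ≤ c → c < d → 0 < a → d * a ≤ 1 →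
      a * b < 1 := by
    intro a b c d h1 h2 ha h3
    have s1 : a * b ≤ a * c := by gcongr
    have s2 : a * c < a * d := by gcongr
    rw [mul_comm] at h3
    exact lt_of_le_of_lt s1 (lt_of_lt_of_le s2 h3)
  rw [map_mul]
  rw [map_mul] at hvb
  exact key _ _ _ _ hvπ hvd hvf hvb

/-- LEAF (TAME) of `helper4849_RHSpec`, verbatim. -/
theorem stmt_Tame : Fermat.Agent.S18.helper4849.Stmt_Tame := by
  intro A B K L _ _ _ _ _ _ _ _ _ _ _ _ _ _ _ _ _ _ _ p _ _ P hpP f hf π hπ
  exact tame_valuation_lt_one p P hpP f hf π hπ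

end Fermat.Agent.S18.helper2901
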