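/-
S18 / RHURW (helper2936): leaf (COUNT) of `helper4849_RHSpec`, Mathlib-only.

For a square polynomial matrix `Q` over a field `K` with `det Q ≠ 0`:

* `finrank_quotient_range_mulVecLin` : `dim_K (K[X]ⁿ ⧸ Q K[X]ⁿ) = natDegree (det Q)`
  (Smith normal form of the full-rank submodule `Q K[X]ⁿ`, product of the Smith coefficients is
  associated to `det Q`);
* `stmt_Count` : `helper4849.Stmt_Count` verbatim: the space of polynomial vectors `p` with
  `Q *ᵥ p` of degree `< d` in every coordinate is finite-dimensional of dimension at least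
  `n * d - natDegree (det Q)` (rank-nullity for `(degreeLT K d)ⁿ → K[X]ⁿ ⧸ Q K[X]ⁿ`).
-/
import Mathlib
import Fermat.Agent.S18.helper4849_RHSpec

set_option autoImplicit false

open Polynomial Matrix Module

noncomputable section

namespace Fermat.Agent.S18.helper2936

section Coker

variable {K : Type*} [Field K] {n : ℕ}

/-- A square polynomial matrix with nonzero determinant acts injectively on `K[X]ⁿ`. -/
theorem mulVecLin_injective (Q : Matrix (Fin n) (Fin n) K[X]) (hQ : Q.det ≠ 0) :
    Function.Injective Q.mulVecLin := by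
  rw [← LinearMap.ker_eq_bot, LinearMap.ker_eq_bot']
  intro v hv
  exact Matrix.eq_zero_of_mulVec_eq_zero hQ hv

/-- The lattice `Q K[X]ⁿ` has full rank. -/
theorem finrank_range_mulVecLin (Q : Matrix (Fin n) (Fin n) K[X]) (hQ : Q.det ≠ 0) :
    Module.finrank K[X] (LinearMap.range Q.mulVecLin) = Module.finrank K[X] (Fin n → K[X]) :=
  (LinearEquiv.ofInjective Q.mulVecLin (mulVecLin_injective Q hQ)).finrank_eq.symm

/-- `det Q` is associated to the product of the Smith coefficients of the lattice `Q K[X]ⁿ`. -/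
theorem associated_det_prod_smith (Q : Matrix (Fin n) (Fin n) K[X]) (hQ : Q.det ≠ 0) :
    Associated Q.det
      (∏ i, Submodule.smithNormalFormCoeffs (Pi.basisFun K[X] (Fin n))
        (finrank_range_mulVecLin Q hQ) i) := by
  classical
  have h := finrank_range_mulVecLin Q hQ
  let b := Pi.basisFun K[X] (Fin n)
  let b' := Submodule.smithNormalFormTopBasis b h
  let ab := Submodule.smithNormalFormBotBasis b h
  let a := Submodule.smithNormalFormCoeffs b h
  have hab : ∀ i, (ab i : Fin n → K[X]) = a i • b' i := Submodule.smithNormalFormBotBasis_def b h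
  have hdet : LinearMap.det Q.mulVecLin = Q.det := by
    rw [← Matrix.toLin'_apply', LinearMap.det_toLin']
  show Associated Q.det (∏ i, a i)
  rw [← hdet, ← Matrix.det_diagonal, ← LinearMap.det_toLin b']
  let e : (Fin n → K[X]) ≃ₗ[K[X]] (Fin n → K[X]) :=
    (LinearEquiv.ofInjective Q.mulVecLin (mulVecLin_injective Q hQ)).trans
      (ab.equiv b' (Equiv.refl _))
  have key : Q.mulVecLin ∘ₗ e.symm.toLinearMap = Matrix.toLin b' b' (Matrix.diagonal a) := by
    refine b'.ext fun i => ?_
    have h1 : e.symm (b' i) =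
        (LinearEquiv.ofInjective Q.mulVecLin (mulVecLin_injective Q hQ)).symm (ab i) := by
      rw [LinearEquiv.symm_apply_eq]
      simp [e]
    have h2 : Q.mulVecLin ((LinearEquiv.ofInjective Q.mulVecLin
        (mulVecLin_injective Q hQ)).symm (ab i)) = (ab i : Fin n → K[X]) := by
      rw [← LinearEquiv.ofInjective_apply (h := mulVecLin_injective Q hQ),
        LinearEquiv.apply_symm_apply]
    rw [LinearMap.comp_apply, LinearEquiv.coe_coe, h1, h2, hab, Matrix.toLin_self]
    simp [Matrix.diagonal_apply]
  refine LinearMap.associated_det_of_eq_comp e _ _ fun x => ?_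
  have := LinearMap.congr_fun key (e x)
  simpa using this

/-- The quotient `K[X]ⁿ ⧸ Q K[X]ⁿ` is finite-dimensional over `K`. -/
theorem finite_quotient_range_mulVecLin (Q : Matrix (Fin n) (Fin n) K[X]) (hQ : Q.det ≠ 0) :
    Module.Finite K ((Fin n → K[X]) ⧸ LinearMap.range Q.mulVecLin) := by
  classical
  have h := finrank_range_mulVecLin Q hQ
  let b := Pi.basisFun K[X] (Fin n)
  have hne : ∀ i, Submodule.smithNormalFormCoeffs b h i ≠ 0 :=
    Submodule.smithNormalFormCoeffs_ne_zero b h
  have hfi : ∀ i, Module.Finite K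
      (K[X] ⧸ Ideal.span ({Submodule.smithNormalFormCoeffs b h i} : Set K[X])) :=
    fun i => PowerBasis.finite (AdjoinRoot.powerBasis (hne i))
  exact Module.Finite.equiv
    (((LinearMap.range Q.mulVecLin).quotientEquivPiSpan b h).restrictScalars K).symm

/-- **Cokernel of a polynomial matrix**: `dim_K (K[X]ⁿ ⧸ Q K[X]ⁿ) = natDegree (det Q)`. -/
theorem finrank_quotient_range_mulVecLin (Q : Matrix (Fin n) (Fin n) K[X]) (hQ : Q.det ≠ 0) :
    Module.finrank K ((Fin n → K[X]) ⧸ LinearMap.range Q.mulVecLin) = Q.det.natDegree := by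
  classical
  have h := finrank_range_mulVecLin Q hQ
  let b := Pi.basisFun K[X] (Fin n)
  have hne : ∀ i, Submodule.smithNormalFormCoeffs b h i ≠ 0 :=
    Submodule.smithNormalFormCoeffs_ne_zero b h
  have hfi : ∀ i, Module.Finite K
      (K[X] ⧸ Ideal.span ({Submodule.smithNormalFormCoeffs b h i} : Set K[X])) :=
    fun i => PowerBasis.finite (AdjoinRoot.powerBasis (hne i))
  rw [natDegree_eq_of_degree_eq (degree_eq_degree_of_associated (associated_det_prod_smith Q hQ)),
    natDegree_prod _ _ fun i _ => hne i, Submodule.finrank_quotient_eq_sum K b h]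
  congr with i
  exact (AdjoinRoot.powerBasis (hne i)).finrank

end Coker

section Count

variable {K : Type} [Field K] {n : ℕ}

/-- `p ↦ Q *ᵥ p` from `polySpace Q d` to `(degreeLT K d)ⁿ`. -/
def polyPhi (Q : Matrix (Fin n) (Fin n) K[X]) (d : ℕ) :
    helper4849.polySpace Q d →ₗ[K] (Fin n → Polynomial.degreeLT K d) where
  toFun p := fun j => ⟨(Q *ᵥ (p : Fin n → K[X])) j, p.2 j⟩
  map_add' p q := by
    funext j
    apply Subtype.ext
    simp [Matrix.mulVec_add]
  map_smul' c p := by
    funext j
    apply Subtype.ext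
    simp [Matrix.mulVec_smul]

/-- The class of a vector of polynomials of degree `< d` in `K[X]ⁿ ⧸ Q K[X]ⁿ`. -/
def polyPsi (Q : Matrix (Fin n) (Fin n) K[X]) (d : ℕ) :
    (Fin n → Polynomial.degreeLT K d) →ₗ[K] ((Fin n → K[X]) ⧸ LinearMap.range Q.mulVecLin) where
  toFun w := Submodule.Quotient.mk (fun j => (w j : K[X]))
  map_add' w w' := by
    rw [← Submodule.Quotient.mk_add]
    rfl
  map_smul' c w := by
    rw [RingHom.id_apply, ← Submodule.Quotient.mk_smul]
    rfl

theorem polyPhi_injective (Q : Matrix (Fin n) (Fin n) K[X]) (hQ : Q.det ≠ 0) (d : ℕ) :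
    Function.Injective (polyPhi Q d) := by
  intro p q hpq
  apply Subtype.ext
  apply mulVecLin_injective Q hQ
  funext j
  have := congrArg (fun w : Fin n → Polynomial.degreeLT K d => (w j : K[X])) hpq
  exact this

theorem ker_polyPsi_le (Q : Matrix (Fin n) (Fin n) K[X]) (d : ℕ) :
    LinearMap.ker (polyPsi Q d) ≤ LinearMap.range (polyPhi Q d) := by
  intro w hw
  rw [LinearMap.mem_ker] at hw
  have hw' : (fun j => (w j : K[X])) ∈ LinearMap.range Q.mulVecLin :=
    (Submodule.Quotient.mk_eq_zero _).1 hw
  obtain ⟨p, hp⟩ := hw'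
  have hp' : ∀ j, (Q *ᵥ p) j = (w j : K[X]) := fun j => congrFun hp j
  refine ⟨⟨p, fun j => ?_⟩, ?_⟩
  · rw [hp' j]
    exact (w j).2
  · funext j
    apply Subtype.ext
    exact hp' j

/-- **Leaf (COUNT)** of `helper4849_RHSpec`, verbatim. -/
theorem stmt_Count : helper4849.Stmt_Count := by
  intro K _ n Q hQ d
  classical
  have hfd : ∀ j : Fin n, Module.Finite K (Polynomial.degreeLT K d) := fun _ =>
    Module.Finite.equiv (Polynomial.degreeLTEquiv K d).symm
  have hW0 : Module.Finite K (Fin n → Polynomial.degreeLT K d) := Module.Finite.pi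
  have hq : Module.Finite K ((Fin n → K[X]) ⧸ LinearMap.range Q.mulVecLin) :=
    finite_quotient_range_mulVecLin Q hQ
  have hfin : Module.Finite K (helper4849.polySpace Q d) :=
    Module.Finite.of_injective (polyPhi Q d) (polyPhi_injective Q hQ d)
  refine ⟨hfin, ?_⟩
  have hW : Module.finrank K (Fin n → Polynomial.degreeLT K d) = n * d := by
    have hd : Module.finrank K (Polynomial.degreeLT K d) = d := by
      rw [(Polynomial.degreeLTEquiv K d).finrank_eq, Module.finrank_fin_fun]
    rw [Module.finrank_pi_fintype]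
    simp [hd]
  have h1 := LinearMap.finrank_range_add_finrank_ker (polyPsi Q d)
  have h2 : Module.finrank K (LinearMap.range (polyPsi Q d)) ≤ Q.det.natDegree := by
    rw [← finrank_quotient_range_mulVecLin Q hQ]
    exact Submodule.finrank_le _
  have h3 : Module.finrank K (LinearMap.ker (polyPsi Q d)) ≤
      Module.finrank K (helper4849.polySpace Q d) := by
    rw [← LinearMap.finrank_range_of_inj (polyPhi_injective Q hQ d)]
    exact Submodule.finrank_mono (ker_polyPsi_le Q d)
  omega

end Count

end Fermat.Agent.S18.helper2936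

end
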