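import Mathlib

/-!
# Legendre and Hesse covers of the `j`-line (track B of S18, leaf LH)

Explicit, Mathlib-only algebra about the two auxiliary covers

* Legendre: `j = 256 (x^2 - x + 1)^3 / (x^2 (x - 1)^2)`   (usable when `2` is invertible),
* Hesse:    `j = 27 m^3 (m^3 + 8)^3 / (m^3 - 1)^3`        (usable when `3` is invertible).

Everything is stated for elements of an arbitrary commutative algebra satisfying the
polynomial form of the defining relation

* `LegendreRel x j : 256 * (x^2 - x + 1)^3 = j * (x^2 * (x - 1)^2)`,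
* `HesseRel m j    : 27 * m^3 * (m^3 + 8)^3 = j * (m^3 - 1)^3`,

so that it specialises to `A₀`, `K₀`, `k₀`, `RatFunc` alike.

Contents.
* (LH1) integrality: `x`, `1/x`, `1/(x-1)` (resp. `m`, `1/(m^3-1)`) are integral over `R[j]`;
  hence `R[x, 1/x, 1/(x-1)]` (resp. `R[m, 1/(m^3-1)]`) is integral over `R[j]`.
* (LH2) the relation is stable under the generators of the covering group.
* (LH3) exact ramification in "unit times power" form:
  `j = unit * (x^2-x+1)^3`, `j - 1728 = unit * ((x+1)(x-2)(2x-1))^2`,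
  `j = unit * (m (m^3+8))^3`, `j - 1728 = unit * (m^6 - 20 m^3 - 8)^2`,
  together with separability (squarefreeness) of the four polynomials in characteristic
  prime to `6`: every point over `j = 0` has `e = 3`, every point over `j = 1728` has `e = 2`.
-/

set_option autoImplicit false

namespace Fermat.Agent.S18.helper3041

open Polynomial

/-! ## Ring identities -/

section Identities

variable {R : Type*} [CommRing R]

/-- Legendre: `J - 1728` (numerators). -/
theorem legendre_num_sub (x : R) :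
    256 * (x ^ 2 - x + 1) ^ 3 - 1728 * (x ^ 2 * (x - 1) ^ 2) =
      64 * ((x + 1) * (x - 2) * (2 * x - 1)) ^ 2 := by
  ring

/-- Hesse: `J - 1728` (numerators). -/
theorem hesse_num_sub (m : R) :
    27 * m ^ 3 * (m ^ 3 + 8) ^ 3 - 1728 * (m ^ 3 - 1) ^ 3 =
      27 * (m ^ 6 - 20 * m ^ 3 - 8) ^ 2 := by
  ring

end Identities

/-! ## The Legendre cover -/

section Legendre

variable {R E : Type*} [CommRing R] [CommRing E] [Algebra R E]

/-- The Legendre relation `j = 256 (x^2-x+1)^3 / (x^2 (x-1)^2)` in polynomial form. -/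
def LegendreRel (x j : E) : Prop :=
  256 * (x ^ 2 - x + 1) ^ 3 = j * (x ^ 2 * (x - 1) ^ 2)

theorem legendreRel_iff (x j : E) :
    LegendreRel x j ↔ 256 * (x ^ 2 - x + 1) ^ 3 = j * (x ^ 2 * (x - 1) ^ 2) := Iff.rfl

/-- The relation is stable under `x ↦ 1 - x`. -/
theorem LegendreRel.one_sub {x j : E} (h : LegendreRel x j) : LegendreRel (1 - x) j := by
  unfold LegendreRel at h ⊢
  linear_combination h

/-- The relation is stable under `x ↦ -(x - 1)`-type substitutions: `x ↦ 1 - x` written as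
negation of `x - 1`. -/
theorem LegendreRel.neg_sub_one {x j : E} (h : LegendreRel x j) : LegendreRel (-(x - 1)) j := by
  have := h.one_sub
  rwa [show -(x - 1) = 1 - x by ring]

/-- The relation is stable under `x ↦ 1/x`. -/
theorem LegendreRel.inv {x y j : E} (h : LegendreRel x j) (hxy : x * y = 1) :
    LegendreRel y j := by
  unfold LegendreRel at h ⊢
  have h1 : (x ^ 2 - x + 1) * y ^ 2 = y ^ 2 - y + 1 := by
    linear_combination (x * y + 1 - y) * hxy
  have h2a : (x - 1) * y = 1 - y := by linear_combination hxy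
  have h2 : x ^ 2 * (x - 1) ^ 2 * y ^ 6 = y ^ 2 * (y - 1) ^ 2 := by
    calc x ^ 2 * (x - 1) ^ 2 * y ^ 6 = (x * y) ^ 2 * ((x - 1) * y) ^ 2 * y ^ 2 := by ring
      _ = 1 ^ 2 * (1 - y) ^ 2 * y ^ 2 := by rw [hxy, h2a]
      _ = y ^ 2 * (y - 1) ^ 2 := by ring
  calc 256 * (y ^ 2 - y + 1) ^ 3 = 256 * ((x ^ 2 - x + 1) * y ^ 2) ^ 3 := by rw [h1]
    _ = (256 * (x ^ 2 - x + 1) ^ 3) * y ^ 6 := by ring
    _ = j * (x ^ 2 * (x - 1) ^ 2 * y ^ 6) := by rw [h]; ring
    _ = j * (y ^ 2 * (y - 1) ^ 2) := by rw [h2]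

/-- `z = 1/(x-1)`: then `-z` satisfies the Legendre relation (`-z = 1/(1-x)`). -/
theorem LegendreRel.neg_inv_sub_one {x z j : E} (h : LegendreRel x j) (hxz : (x - 1) * z = 1) :
    LegendreRel (-z) j :=
  h.one_sub.inv (show (1 - x) * (-z) = 1 by linear_combination hxz)

/-- (LH1) `x` is integral over `R[j]` as soon as `2` is invertible in `R`
(`t * 2 = 1`): it is a root of the monic sextic
`(T^2 - T + 1)^3 - (t^8 j) T^2 (T - 1)^2`. -/
theorem LegendreRel.isIntegral (t : R) (ht : t * 2 = 1) {x j : E} (h : LegendreRel x j) :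
    IsIntegral (Algebra.adjoin R {j}) x := by
  let jS : Algebra.adjoin R {j} := ⟨j, Algebra.self_mem_adjoin_singleton R j⟩
  have hc : t ^ 8 * 256 = 1 := by
    have : t ^ 8 * 256 = (t * 2) ^ 8 := by ring
    rw [this, ht, one_pow]
  have hc' : algebraMap R E (t ^ 8) * 256 = 1 := by
    have := congrArg (algebraMap R E) hc
    rwa [map_mul, map_ofNat, map_one] at this
  refine ⟨(X ^ 2 - X + 1) ^ 3 - C (algebraMap R (Algebra.adjoin R {j}) (t ^ 8) * jS) *
    (X ^ 2 * (X - 1) ^ 2), ?_, ?_⟩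
  · monicity!
  · have hj : algebraMap (Algebra.adjoin R {j}) E jS = j := rfl
    have hcS : algebraMap (Algebra.adjoin R {j}) E (algebraMap R (Algebra.adjoin R {j}) (t ^ 8)) =
        algebraMap R E (t ^ 8) :=
      (IsScalarTower.algebraMap_apply R (Algebra.adjoin R {j}) E (t ^ 8)).symm
    simp only [eval₂_sub, eval₂_mul, eval₂_pow, eval₂_add, eval₂_one, eval₂_X, eval₂_C, map_mul,
      hj, hcS]
    unfold LegendreRel at h
    linear_combination (-(x ^ 2 - x + 1) ^ 3) * hc' + (algebraMap R E (t ^ 8)) * h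

/-- (LH1) `1/x` is integral over `R[j]`. -/
theorem LegendreRel.isIntegral_inv (t : R) (ht : t * 2 = 1) {x y j : E} (h : LegendreRel x j)
    (hxy : x * y = 1) : IsIntegral (Algebra.adjoin R {j}) y :=
  (h.inv hxy).isIntegral t ht

/-- (LH1) `1/(x-1)` is integral over `R[j]`. -/
theorem LegendreRel.isIntegral_inv_sub_one (t : R) (ht : t * 2 = 1) {x z j : E}
    (h : LegendreRel x j) (hxz : (x - 1) * z = 1) : IsIntegral (Algebra.adjoin R {j}) z := by
  have := ((h.neg_inv_sub_one hxz).isIntegral t ht).neg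
  rwa [neg_neg] at this

/-- (LH1) The Legendre chart `R[x, 1/x, 1/(x-1)]` is integral over `R[j]`. -/
theorem LegendreRel.adjoin_le_integralClosure (t : R) (ht : t * 2 = 1) {x y z j : E}
    (h : LegendreRel x j) (hxy : x * y = 1) (hxz : (x - 1) * z = 1) :
    Algebra.adjoin R {x, y, z} ≤
      (integralClosure (Algebra.adjoin R {j}) E).restrictScalars R := by
  refine Algebra.adjoin_le ?_
  rintro w (rfl | rfl | rfl)
  · exact h.isIntegral t ht
  · exact h.isIntegral_inv t ht hxy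
  · exact h.isIntegral_inv_sub_one t ht hxz

/-- (LH3) `j = 256 (x^2-x+1)^3 * (1/(x(x-1)))^2`: on the Legendre chart `j` is a unit multiple
of the cube of `x^2 - x + 1`. -/
theorem LegendreRel.j_eq {x y z j : E} (h : LegendreRel x j) (hxy : x * y = 1)
    (hxz : (x - 1) * z = 1) : j = 256 * (x ^ 2 - x + 1) ^ 3 * (y * z) ^ 2 := by
  unfold LegendreRel at h
  have h1 : x ^ 2 * (x - 1) ^ 2 * (y * z) ^ 2 = 1 := by
    calc x ^ 2 * (x - 1) ^ 2 * (y * z) ^ 2 = (x * y) ^ 2 * ((x - 1) * z) ^ 2 := by ring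
      _ = 1 := by rw [hxy, hxz]; ring
  calc j = j * (x ^ 2 * (x - 1) ^ 2 * (y * z) ^ 2) := by rw [h1, mul_one]
    _ = (j * (x ^ 2 * (x - 1) ^ 2)) * (y * z) ^ 2 := by ring
    _ = 256 * (x ^ 2 - x + 1) ^ 3 * (y * z) ^ 2 := by rw [← h]

/-- (LH3) `j - 1728 = 64 ((x+1)(x-2)(2x-1))^2 * (1/(x(x-1)))^2`. -/
theorem LegendreRel.j_sub_eq {x y z j : E} (h : LegendreRel x j) (hxy : x * y = 1)
    (hxz : (x - 1) * z = 1) :
    j - 1728 = 64 * ((x + 1) * (x - 2) * (2 * x - 1)) ^ 2 * (y * z) ^ 2 := by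
  have h1 : x ^ 2 * (x - 1) ^ 2 * (y * z) ^ 2 = 1 := by
    calc x ^ 2 * (x - 1) ^ 2 * (y * z) ^ 2 = (x * y) ^ 2 * ((x - 1) * z) ^ 2 := by ring
      _ = 1 := by rw [hxy, hxz]; ring
  have h2 := h.j_eq hxy hxz
  have h3 := legendre_num_sub x
  calc j - 1728 = 256 * (x ^ 2 - x + 1) ^ 3 * (y * z) ^ 2 -
        1728 * (x ^ 2 * (x - 1) ^ 2 * (y * z) ^ 2) := by rw [h1, mul_one, ← h2]
    _ = (256 * (x ^ 2 - x + 1) ^ 3 - 1728 * (x ^ 2 * (x - 1) ^ 2)) * (y * z) ^ 2 := by ring
    _ = 64 * ((x + 1) * (x - 2) * (2 * x - 1)) ^ 2 * (y * z) ^ 2 := by rw [h3]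

end Legendre

/-! ## The Hesse cover -/

section Hesse

variable {R E : Type*} [CommRing R] [CommRing E] [Algebra R E]

/-- The Hesse relation `j = 27 m^3 (m^3+8)^3 / (m^3-1)^3` in polynomial form. -/
def HesseRel (m j : E) : Prop :=
  27 * m ^ 3 * (m ^ 3 + 8) ^ 3 = j * (m ^ 3 - 1) ^ 3

theorem hesseRel_iff (m j : E) :
    HesseRel m j ↔ 27 * m ^ 3 * (m ^ 3 + 8) ^ 3 = j * (m ^ 3 - 1) ^ 3 := Iff.rfl

/-- The relation is stable under `m ↦ ζ m`, `ζ^3 = 1`. -/
theorem HesseRel.mul_root {m j ζ : E} (h : HesseRel m j) (hζ : ζ ^ 3 = 1) :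
    HesseRel (ζ * m) j := by
  unfold HesseRel at h ⊢
  have : (ζ * m) ^ 3 = m ^ 3 := by rw [mul_pow, hζ, one_mul]
  rw [this]
  exact h

/-- The relation is stable under `m ↦ (m + 2)/(m - 1)` (given an inverse `r` of `m - 1`). -/
theorem HesseRel.moebius {m r j : E} (h : HesseRel m j) (hr : (m - 1) * r = 1) :
    HesseRel ((m + 2) * r) j := by
  unfold HesseRel at h ⊢
  have h3 : ((m - 1) * r) ^ 3 = 1 := by rw [hr, one_pow]
  have e1 : ((m + 2) * r) ^ 3 - 1 = 9 * (m ^ 2 + m + 1) * r ^ 3 := by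
    linear_combination h3
  have e2 : ((m + 2) * r) ^ 3 + 8 = 9 * m * (m ^ 2 - 2 * m + 4) * r ^ 3 := by
    linear_combination (-8 : E) * h3
  rw [e1, e2]
  have key : 27 * ((m + 2) * r) ^ 3 * (9 * m * (m ^ 2 - 2 * m + 4) * r ^ 3) ^ 3 =
      729 * r ^ 12 * (27 * m ^ 3 * (m ^ 3 + 8) ^ 3) := by ring
  rw [key, h]
  linear_combination (729 * j * (m ^ 2 + m + 1) ^ 3 * r ^ 9) * h3

/-- (LH1) `m` is integral over `R[j]` as soon as `3` is invertible in `R` (`t * 3 = 1`):
it is a root of the monic polynomial `T^3 (T^3 + 8)^3 - (t^3 j) (T^3 - 1)^3` of degree `12`. -/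
theorem HesseRel.isIntegral (t : R) (ht : t * 3 = 1) {m j : E} (h : HesseRel m j) :
    IsIntegral (Algebra.adjoin R {j}) m := by
  let jS : Algebra.adjoin R {j} := ⟨j, Algebra.self_mem_adjoin_singleton R j⟩
  have hc : t ^ 3 * 27 = 1 := by
    have : t ^ 3 * 27 = (t * 3) ^ 3 := by ring
    rw [this, ht, one_pow]
  have hc' : algebraMap R E (t ^ 3) * 27 = 1 := by
    have := congrArg (algebraMap R E) hc
    rwa [map_mul, map_ofNat, map_one] at this
  refine ⟨X ^ 3 * (X ^ 3 + 8) ^ 3 - C (algebraMap R (Algebra.adjoin R {j}) (t ^ 3) * jS) *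
    (X ^ 3 - 1) ^ 3, ?_, ?_⟩
  · monicity!
  · have hj : algebraMap (Algebra.adjoin R {j}) E jS = j := rfl
    have hcS : algebraMap (Algebra.adjoin R {j}) E (algebraMap R (Algebra.adjoin R {j}) (t ^ 3)) =
        algebraMap R E (t ^ 3) :=
      (IsScalarTower.algebraMap_apply R (Algebra.adjoin R {j}) E (t ^ 3)).symm
    simp only [eval₂_sub, eval₂_mul, eval₂_pow, eval₂_add, eval₂_one, eval₂_X, eval₂_C, map_mul,
      eval₂_ofNat, hj, hcS]
    unfold HesseRel at h
    linear_combination (-(m ^ 3 * (m ^ 3 + 8) ^ 3)) * hc' + (algebraMap R E (t ^ 3)) * h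

/-- With `s = 1/(m^3 - 1)`: `27 (s + 1) (9 s + 1)^3 = j s`. -/
theorem HesseRel.inv_rel {m s j : E} (h : HesseRel m j) (hms : (m ^ 3 - 1) * s = 1) :
    27 * (s + 1) * (9 * s + 1) ^ 3 = j * s := by
  unfold HesseRel at h
  have hs1 : m ^ 3 * s = s + 1 := by linear_combination hms
  have hs2 : (m ^ 3 + 8) * s = 9 * s + 1 := by linear_combination hms
  calc 27 * (s + 1) * (9 * s + 1) ^ 3 = 27 * (m ^ 3 * s) * ((m ^ 3 + 8) * s) ^ 3 := by
        rw [hs1, hs2]
    _ = (27 * m ^ 3 * (m ^ 3 + 8) ^ 3) * s ^ 4 := by ring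
    _ = j * s * ((m ^ 3 - 1) * s) ^ 3 := by rw [h]; ring
    _ = j * s := by rw [hms]; ring

/-- (LH1) `s = 1/(m^3 - 1)` is integral over `R[j]` when `3` is invertible: it is a root of the
monic quartic `(T + 1) (T + t^2)^3 - (t^9 j) T`. -/
theorem HesseRel.isIntegral_inv (t : R) (ht : t * 3 = 1) {m s j : E} (h : HesseRel m j)
    (hms : (m ^ 3 - 1) * s = 1) : IsIntegral (Algebra.adjoin R {j}) s := by
  let jS : Algebra.adjoin R {j} := ⟨j, Algebra.self_mem_adjoin_singleton R j⟩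
  have ht' : algebraMap R E t * 3 = 1 := by
    have := congrArg (algebraMap R E) ht
    rwa [map_mul, map_ofNat, map_one] at this
  have rel := h.inv_rel hms
  refine ⟨(X + 1) * (X + C (algebraMap R (Algebra.adjoin R {j}) (t ^ 2))) ^ 3 -
    C (algebraMap R (Algebra.adjoin R {j}) (t ^ 9) * jS) * X, ?_, ?_⟩
  · monicity!
  · have hj : algebraMap (Algebra.adjoin R {j}) E jS = j := rfl
    have hcS : ∀ r : R, algebraMap (Algebra.adjoin R {j}) E (algebraMap R (Algebra.adjoin R {j}) r) =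
        algebraMap R E r := fun r =>
      (IsScalarTower.algebraMap_apply R (Algebra.adjoin R {j}) E r).symm
    simp only [eval₂_sub, eval₂_mul, eval₂_pow, eval₂_add, eval₂_one, eval₂_X, eval₂_C, map_mul,
      hj, hcS, map_pow]
    set τ := algebraMap R E t with hτ
    have h9 : τ ^ 2 * 9 = 1 := by linear_combination (τ * 3 + 1) * ht'
    have h27 : τ ^ 3 * 27 = 1 := by linear_combination (τ ^ 2 * 9 + τ * 3 + 1) * ht'
    have e : s + τ ^ 2 = τ ^ 2 * (9 * s + 1) := by linear_combination (-s) * h9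
    rw [e]
    linear_combination (-(τ ^ 6 * (s + 1) * (9 * s + 1) ^ 3)) * h27 + τ ^ 9 * rel

/-- (LH1) The Hesse chart `R[m, 1/(m^3-1)]` is integral over `R[j]`. -/
theorem HesseRel.adjoin_le_integralClosure (t : R) (ht : t * 3 = 1) {m s j : E}
    (h : HesseRel m j) (hms : (m ^ 3 - 1) * s = 1) :
    Algebra.adjoin R {m, s} ≤
      (integralClosure (Algebra.adjoin R {j}) E).restrictScalars R := by
  refine Algebra.adjoin_le ?_
  rintro w (rfl | rfl)
  · exact h.isIntegral t ht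
  · exact h.isIntegral_inv t ht hms

/-- (LH3) `j = 27 (m (m^3+8))^3 * (1/(m^3-1))^3`: on the Hesse chart `j` is a unit multiple of
the cube of `m (m^3 + 8)`. -/
theorem HesseRel.j_eq {m s j : E} (h : HesseRel m j) (hms : (m ^ 3 - 1) * s = 1) :
    j = 27 * (m * (m ^ 3 + 8)) ^ 3 * s ^ 3 := by
  unfold HesseRel at h
  calc j = j * ((m ^ 3 - 1) * s) ^ 3 := by rw [hms, one_pow, mul_one]
    _ = (j * (m ^ 3 - 1) ^ 3) * s ^ 3 := by ring
    _ = 27 * (m * (m ^ 3 + 8)) ^ 3 * s ^ 3 := by rw [← h]; ring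

/-- (LH3) `j - 1728 = 27 (m^6 - 20 m^3 - 8)^2 * (1/(m^3-1))^3`. -/
theorem HesseRel.j_sub_eq {m s j : E} (h : HesseRel m j) (hms : (m ^ 3 - 1) * s = 1) :
    j - 1728 = 27 * (m ^ 6 - 20 * m ^ 3 - 8) ^ 2 * s ^ 3 := by
  have h2 := h.j_eq hms
  have h3 := hesse_num_sub m
  calc j - 1728 = 27 * (m * (m ^ 3 + 8)) ^ 3 * s ^ 3 - 1728 * ((m ^ 3 - 1) * s) ^ 3 := by
        rw [hms, one_pow, mul_one, ← h2]
    _ = (27 * m ^ 3 * (m ^ 3 + 8) ^ 3 - 1728 * (m ^ 3 - 1) ^ 3) * s ^ 3 := by ring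
    _ = 27 * (m ^ 6 - 20 * m ^ 3 - 8) ^ 2 * s ^ 3 := by rw [h3]

end Hesse

/-! ## Separability of the ramification polynomials -/

section Separable

set_option linter.unusedSimpArgs false

variable {K : Type*} [Field K]

private theorem C_inv_mul (n : K) (hn : n ≠ 0) : (C n⁻¹ : K[X]) * C n = 1 := by
  rw [← C_mul, inv_mul_cancel₀ hn, C_1]

/-- `x^2 - x + 1` is separable when `3 ≠ 0`: the two points over `j = 0` of the Legendre cover
are simple zeros of `x^2 - x + 1`, so `e = 3` exactly there. -/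
theorem legendre_separable_zero (h3 : (3 : K) ≠ 0) : (X ^ 2 - X + 1 : K[X]).Separable := by
  rw [separable_def]
  have hd : derivative (X ^ 2 - X + 1 : K[X]) = 2 * X - 1 := by
    simp only [derivative_sub, derivative_add, derivative_X_pow, derivative_X, derivative_one,
      derivative_mul, derivative_ofNat]
    simp only [Nat.cast_ofNat, map_ofNat]
    ring
  rw [hd]
  have hc : (C (3 : K)⁻¹ : K[X]) * 3 = 1 := by
    have := C_inv_mul (3 : K) h3
    rwa [map_ofNat] at this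
  refine ⟨4 * C (3 : K)⁻¹, -(C (3 : K)⁻¹ * (2 * X - 1)), ?_⟩
  linear_combination hc

/-- `(x + 1) (x - 2) (2 x - 1)` is separable when `3 ≠ 0`: the three points over `j = 1728` of
the Legendre cover are simple zeros, so `e = 2` exactly there. -/
theorem legendre_separable_1728 (h3 : (3 : K) ≠ 0) :
    ((X + 1) * (X - 2) * (2 * X - 1) : K[X]).Separable := by
  rw [separable_def]
  have hq : ((X + 1) * (X - 2) * (2 * X - 1) : K[X]) = 2 * X ^ 3 - 3 * X ^ 2 - 3 * X + 2 := by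
    ring
  have hd : derivative (2 * X ^ 3 - 3 * X ^ 2 - 3 * X + 2 : K[X]) = 6 * X ^ 2 - 6 * X - 3 := by
    simp only [derivative_sub, derivative_add, derivative_X_pow, derivative_X, derivative_one,
      derivative_mul, derivative_ofNat]
    simp only [Nat.cast_ofNat, map_ofNat]
    ring
  rw [hq, hd]
  have h27 : (27 : K) ≠ 0 := by
    have : (27 : K) = 3 ^ 3 := by norm_num
    rw [this]; exact pow_ne_zero 3 h3
  have hc : (C (27 : K)⁻¹ : K[X]) * 27 = 1 := by
    have := C_inv_mul (27 : K) h27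
    rwa [map_ofNat] at this
  refine ⟨-(6 * C (27 : K)⁻¹ * (2 * X - 1)), C (27 : K)⁻¹ * (4 * (X ^ 2 - X) - 5), ?_⟩
  linear_combination hc

/-- `m (m^3 + 8)` is separable when `2, 3 ≠ 0`: the four points over `j = 0` of the Hesse cover
are simple zeros, so `e = 3` exactly there. -/
theorem hesse_separable_zero (h2 : (2 : K) ≠ 0) (h3 : (3 : K) ≠ 0) :
    (X * (X ^ 3 + 8) : K[X]).Separable := by
  rw [separable_def]
  have hq : (X * (X ^ 3 + 8) : K[X]) = X ^ 4 + 8 * X := by ring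
  have hd : derivative (X ^ 4 + 8 * X : K[X]) = 4 * X ^ 3 + 8 := by
    simp only [derivative_sub, derivative_add, derivative_X_pow, derivative_X, derivative_one,
      derivative_mul, derivative_ofNat]
    simp only [Nat.cast_ofNat, map_ofNat]
    ring
  rw [hq, hd]
  have h48 : (48 : K) ≠ 0 := by
    have : (48 : K) = 2 ^ 4 * 3 := by norm_num
    rw [this]; exact mul_ne_zero (pow_ne_zero 4 h2) h3
  have hc : (C (48 : K)⁻¹ : K[X]) * 48 = 1 := by
    have := C_inv_mul (48 : K) h48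
    rwa [map_ofNat] at this
  refine ⟨-(4 * C (48 : K)⁻¹ * X ^ 2), C (48 : K)⁻¹ * (6 + X ^ 3), ?_⟩
  linear_combination hc

/-- `m^6 - 20 m^3 - 8` is separable when `2, 3 ≠ 0`: the six points over `j = 1728` of the Hesse
cover are simple zeros, so `e = 2` exactly there. -/
theorem hesse_separable_1728 (h2 : (2 : K) ≠ 0) (h3 : (3 : K) ≠ 0) :
    (X ^ 6 - 20 * X ^ 3 - 8 : K[X]).Separable := by
  rw [separable_def]
  have hd : derivative (X ^ 6 - 20 * X ^ 3 - 8 : K[X]) = 6 * X ^ 5 - 60 * X ^ 2 := by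
    simp only [derivative_sub, derivative_add, derivative_X_pow, derivative_X, derivative_one,
      derivative_mul, derivative_ofNat]
    simp only [Nat.cast_ofNat, map_ofNat]
    ring
  rw [hd]
  have h2592 : (2592 : K) ≠ 0 := by
    have : (2592 : K) = 2 ^ 5 * 3 ^ 4 := by norm_num
    rw [this]; exact mul_ne_zero (pow_ne_zero 5 h2) (pow_ne_zero 4 h3)
  have hc : (C (2592 : K)⁻¹ : K[X]) * 2592 = 1 := by
    have := C_inv_mul (2592 : K) h2592
    rwa [map_ofNat] at this
  refine ⟨6 * C (2592 : K)⁻¹ * (5 * X ^ 3 - 54), -(C (2592 : K)⁻¹ * X * (5 * X ^ 3 - 104)), ?_⟩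
  linear_combination hc

end Separable

end Fermat.Agent.S18.helper3041
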