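import Mathlib
import Fermat.Agent.S18.helper5198_TameCert
import Fermat.Agent.S16.helper903_DeuringCore

/-!
# S18, track B (B-DN): char-0 supply of hypothesis `(a')` of the trace-duality normality lemma

Setting: `P` an integrally closed domain (the two-dimensional chart base, e.g. `A0[t]`),
`lam : P` a prime element, `K = Frac P`, `L / K` finite separable.  `A` is a Dedekind
`ℚ`-algebra with `P ⊆ A ⊆ P[1/lam]` inside `L` and `Frac A = K` (the generic fibre `K0[t]`),
`B` its integral closure in `L`.

* `exists_pow_mul_isIntegral`: an element integral over `A` becomes integral over `P` after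
  multiplication by a power of `lam`.
* `isIntegral_discr_mul_of_trace_mem`: if a `K`-basis of `L` made of `P`-integral elements has
  discriminant `d`, then `d * x` is `P`-integral for every `x` in the trace dual of the
  integral closure of `P`.
* `dualBound`: **`(a')`**.  If a `K`-basis of `P`-integral elements has discriminant prime to
  `lam` and every nonzero prime of `B` not containing `G` is unramified over `A` (ramification
  exponents bounded by `M`), then every `x` in the trace dual of the integral closure of `P`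
  satisfies: `x ^ M * G ^ (M - 1)` is integral over `P`.
-/

set_option autoImplicit false

noncomputable section

namespace Fermat.Agent.S18.helper315

open Polynomial Module

section Transfer

variable {P A L : Type*} [CommRing P] [CommRing A] [Field L] [Algebra P L] [Algebra A L]

/-- If `A ⊆ P[1/lam]` inside `L` and `lam ∈ A`, an element integral over `A` becomes integral
over `P` after multiplication by a power of `lam`. -/
theorem exists_pow_mul_isIntegral (lam : P)
    (hlamA : ∃ a : A, algebraMap A L a = algebraMap P L lam)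
    (hA : ∀ a : A, ∃ (n : ℕ) (p : P),
      algebraMap P L lam ^ n * algebraMap A L a = algebraMap P L p)
    {y : L} (hy : IsIntegral A y) : ∃ n : ℕ, IsIntegral P (algebraMap P L lam ^ n * y) := by
  obtain ⟨f, hf, hfy⟩ := hy
  obtain ⟨s, hs⟩ := hlamA
  choose e q heq using hA
  set n : ℕ := f.support.sup (fun i => e (f.coeff i)) with hn
  have hle : ∀ i ∈ f.support, e (f.coeff i) ≤ n := fun i hi =>
    Finset.le_sup (f := fun i => e (f.coeff i)) hi
  refine ⟨n, ?_⟩
  set g : L[X] := (scaleRoots f (s ^ n)).map (algebraMap A L) with hg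
  have hgm : g.Monic := ((monic_scaleRoots_iff (s ^ n)).mpr hf).map _
  have hlift : g ∈ lifts (algebraMap P L) := by
    rw [lifts_iff_coeff_lifts]
    intro i
    rw [hg, coeff_map, coeff_scaleRoots, map_mul, map_pow, map_pow, hs]
    by_cases hi : f.coeff i = 0
    · exact ⟨0, by rw [hi]; simp⟩
    have hisupp : i ∈ f.support := mem_support_iff.mpr hi
    have hile : i ≤ f.natDegree := le_natDegree_of_ne_zero hi
    rcases hile.eq_or_lt with rfl | hlt
    · refine ⟨1, ?_⟩
      rw [Nat.sub_self, pow_zero, mul_one, map_one]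
      have : f.coeff f.natDegree = 1 := hf
      rw [this, map_one]
    · have h1 : e (f.coeff i) ≤ n * (f.natDegree - i) := by
        have h2 : 1 ≤ f.natDegree - i := by omega
        calc e (f.coeff i) ≤ n := hle i hisupp
          _ = n * 1 := (mul_one n).symm
          _ ≤ n * (f.natDegree - i) := Nat.mul_le_mul_left n h2
      refine ⟨lam ^ (n * (f.natDegree - i) - e (f.coeff i)) * q (f.coeff i), ?_⟩
      rw [map_mul, map_pow, ← heq (f.coeff i), ← mul_assoc, ← pow_add,
        Nat.sub_add_cancel h1, ← pow_mul, mul_comm]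
  obtain ⟨r, hr, -, hrm⟩ := lifts_and_natDegree_eq_and_monic hlift hgm
  refine ⟨r, hrm, ?_⟩
  rw [eval₂_eq_eval_map, hr, hg, eval_map]
  have := scaleRoots_eval₂_eq_zero (algebraMap A L) (s := s ^ n) hfy
  rwa [map_pow, hs] at this

end Transfer

section Discr

variable {P K L : Type*} [CommRing P] [IsDomain P] [IsIntegrallyClosed P] [Field K] [Field L]
  [Algebra P K] [IsFractionRing P K] [Algebra K L] [Algebra P L] [IsScalarTower P K L]
  [FiniteDimensional K L]

omit [IsDomain P] in
/-- If a `K`-basis `c` of `L` consists of `P`-integral elements and has discriminant `d`, then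
`d * x` is `P`-integral for every `x` in the trace dual of the integral closure of `P`. -/
theorem isIntegral_discr_mul_of_trace_mem {ι : Type*} [Fintype ι] [DecidableEq ι]
    (c : Basis ι K L) (hc : ∀ i, IsIntegral P (c i)) (d : P)
    (hd : Algebra.discr K c = algebraMap P K d) (x : L)
    (hx : ∀ r : L, IsIntegral P r → Algebra.trace K L (x * r) ∈ (algebraMap P K).range) :
    IsIntegral P (algebraMap P L d * x) := by
  classical
  -- the Gram matrix has entries in `P`
  have hT : ∀ i j, ∃ t : P, algebraMap P K t = Algebra.trace K L (c i * c j) := fun i j =>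
    IsIntegrallyClosed.isIntegral_iff.mp (Algebra.isIntegral_trace ((hc i).mul (hc j)))
  choose T₀ hT₀ using hT
  have hv : ∀ i, ∃ t : P, algebraMap P K t = Algebra.trace K L (x * c i) := fun i =>
    hx (c i) (hc i)
  choose v₀ hv₀ using hv
  set T : Matrix ι ι K := Algebra.traceMatrix K c with hTdef
  have hTmap : T = (Matrix.of T₀).map (algebraMap P K) := by
    ext i j
    rw [hTdef, Algebra.traceMatrix_apply, Algebra.traceForm_apply, Matrix.map_apply,
      Matrix.of_apply, hT₀]
  have hmul : T.mulVec (c.equivFun x) = fun i => algebraMap P K (v₀ i) := by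
    rw [hTdef, Algebra.traceMatrix_of_basis_mulVec]
    funext i
    rw [hv₀]
  -- Cramer
  have hcr : ∀ i, algebraMap P K d * c.equivFun x i =
      algebraMap P K (((Matrix.of T₀).adjugate.mulVec v₀) i) := by
    intro i
    have h1 : T.adjugate.mulVec (T.mulVec (c.equivFun x)) = T.det • c.equivFun x := by
      rw [Matrix.mulVec_mulVec, Matrix.adjugate_mul, Matrix.smul_mulVec, Matrix.one_mulVec]
    have h2 : T.det = algebraMap P K d := by rw [← hd, Algebra.discr_def]
    have h3 := congrFun h1 i
    rw [hmul, h2, Pi.smul_apply, smul_eq_mul] at h3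
    rw [← h3, RingHom.map_mulVec, hTmap, ← RingHom.mapMatrix_apply, ← RingHom.map_adjugate,
      RingHom.mapMatrix_apply]
    rfl
  have hsum : algebraMap P L d * x =
      ∑ i, algebraMap P L (((Matrix.of T₀).adjugate.mulVec v₀) i) * c i := by
    conv_lhs => rw [← c.sum_equivFun x, Finset.mul_sum]
    refine Finset.sum_congr rfl fun i _ => ?_
    rw [IsScalarTower.algebraMap_apply P K L, IsScalarTower.algebraMap_apply P K L, ← hcr i,
      Algebra.smul_def, map_mul, mul_assoc]
  rw [hsum]
  exact IsIntegral.sum _ fun i _ => (isIntegral_algebraMap).mul (hc i)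

end Discr

section Main

variable {P A K L B : Type*} [CommRing P] [IsDomain P] [IsIntegrallyClosed P]
  [CommRing A] [IsDedekindDomain A] [Algebra ℚ A]
  [Field K] [Field L]
  [Algebra P K] [IsFractionRing P K] [Algebra A K] [IsFractionRing A K]
  [Algebra K L] [Algebra P L] [Algebra A L] [IsScalarTower P K L] [IsScalarTower A K L]
  [FiniteDimensional K L] [Algebra.IsSeparable K L]
  [CommRing B] [IsDedekindDomain B] [Algebra A B] [Algebra B L] [IsScalarTower A B L]
  [IsIntegralClosure B A L] [IsFractionRing B L]

open UniqueFactorizationMonoid in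
/-- **Hypothesis `(a')` of the trace-duality normality lemma (DN), from the generic fibre.**

`P` integrally closed domain, `lam : P` prime, `K = Frac P`, `L / K` finite separable; `A` a
Dedekind `ℚ`-algebra with `P ⊆ A ⊆ P[1/lam]` (inside `L`), `1/lam ∈ A`, `Frac A = K`; `B` the
integral closure of `A` in `L`.  Assume

* `(c)`: a `K`-basis of `L` of `P`-integral elements has discriminant prime to `lam`;
* every nonzero prime of `B` not containing `G` is unramified over `A`, and `M` bounds all
  ramification exponents.

Then every `x` in the trace dual of the integral closure of `P` in `L` satisfies: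
`x ^ M * G ^ (M - 1)` is integral over `P`. -/
theorem dualBound (lam : P) (hlam : Prime lam)
    (hPA : ∀ p : P, ∃ a : A, algebraMap A L a = algebraMap P L p)
    (hlamA : ∃ a : A, algebraMap A L a * algebraMap P L lam = 1)
    (hA : ∀ a : A, ∃ (n : ℕ) (p : P),
      algebraMap P L lam ^ n * algebraMap A L a = algebraMap P L p)
    (hc : ∃ (ι : Type) (_ : Fintype ι) (_ : DecidableEq ι) (c : Module.Basis ι K L) (d : P),
      (∀ i, IsIntegral P (c i)) ∧ Algebra.discr K c = algebraMap P K d ∧ ¬ lam ∣ d)
    (G : P) (g : A) (hg : algebraMap A L g = algebraMap P L G) (M : ℕ)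
    (hM : ∀ Q : Ideal B, Q.IsPrime → Q ≠ ⊥ →
      Multiset.count Q (normalizedFactors ((Q.under A).map (algebraMap A B))) ≤ M)
    (hs : ∀ Q : Ideal B, Q.IsPrime → Q ≠ ⊥ → algebraMap A B g ∉ Q →
      ¬ Q ^ 2 ∣ (Q.under A).map (algebraMap A B))
    (x : L)
    (hx : ∀ r : L, IsIntegral P r → Algebra.trace K L (x * r) ∈ (algebraMap P K).range) :
    IsIntegral P (x ^ M * algebraMap P L G ^ (M - 1)) := by
  have hinjPL : Function.Injective (algebraMap P L) := by
    rw [IsScalarTower.algebraMap_eq P K L]
    exact (algebraMap K L).injective.comp (IsFractionRing.injective P K)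
  have : FaithfulSMul P L := (faithfulSMul_iff_algebraMap_injective P L).mpr hinjPL
  have hlamL : algebraMap P L lam ≠ 0 := fun h0 =>
    hlam.ne_zero (hinjPL (h0.trans (map_zero _).symm))
  obtain ⟨u, hu⟩ := hlamA
  have hlamA' : ∃ a : A, algebraMap A L a = algebraMap P L lam := hPA lam
  -- Step 1: `x` lies in the trace dual of `B` over `A`
  have hy : ∀ b : B, Algebra.trace K L (x * algebraMap B L b) ∈ (algebraMap A K).range := by
    intro b
    have hbint : IsIntegral A (algebraMap B L b) :=
      (IsIntegralClosure.isIntegral A L b).algebraMap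
    obtain ⟨n, hn⟩ := exists_pow_mul_isIntegral lam hlamA' hA hbint
    obtain ⟨p, hp⟩ := hx _ hn
    obtain ⟨ap, hap⟩ := hPA p
    refine ⟨u ^ n * ap, ?_⟩
    apply (algebraMap K L).injective
    have h1 : x * (algebraMap P L lam ^ n * algebraMap B L b) =
        (algebraMap P K lam ^ n) • (x * algebraMap B L b) := by
      rw [Algebra.smul_def, map_pow, ← IsScalarTower.algebraMap_apply P K L]
      ring
    rw [h1, map_smul, smul_eq_mul] at hp
    rw [← IsScalarTower.algebraMap_apply A K L, map_mul, map_pow, hap,
      IsScalarTower.algebraMap_apply P K L p, hp, map_mul, map_pow,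
      ← IsScalarTower.algebraMap_apply P K L, ← mul_assoc, ← mul_pow, hu, one_pow, one_mul]
  -- Step 2: the Dedekind core on the generic fibre
  obtain ⟨w, hw⟩ := Fermat.Agent.S18.helper5198.exists_eq_pow_mul_pow_of_trace_mem (K := K)
    g M hM hs x hy
  have hYint : IsIntegral A (x ^ M * algebraMap P L G ^ (M - 1)) := by
    rw [mul_comm, ← hg, hw]
    exact (IsIntegralClosure.isIntegral A L w).algebraMap
  obtain ⟨n, hn⟩ := exists_pow_mul_isIntegral lam hlamA' hA hYint
  -- Step 3: the discriminant bounds the `lam`-free denominator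
  obtain ⟨ι, _, _, c, d, hcint, hdisc, hd⟩ := hc
  have hdx := isIntegral_discr_mul_of_trace_mem c hcint d hdisc x hx
  have hz : IsIntegral P (algebraMap P L (d ^ M) * (x ^ M * algebraMap P L G ^ (M - 1))) := by
    have h2 : algebraMap P L (d ^ M) * (x ^ M * algebraMap P L G ^ (M - 1)) =
        (algebraMap P L d * x) ^ M * algebraMap P L G ^ (M - 1) := by
      rw [map_pow]; ring
    rw [h2]
    exact (hdx.pow M).mul ((isIntegral_algebraMap).pow _)
  -- Step 4: saturation
  have hab : ¬ lam ∣ d ^ M := fun h => hd (hlam.dvd_of_dvd_pow h)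
  obtain ⟨w', hw'int, hw'⟩ := Fermat.Agent.S16.helper903.isIntegral_div_prime_pow hlam hab n
    hn hz (by ring)
  rwa [mul_left_cancel₀ (pow_ne_zero n hlamL) hw']

open UniqueFactorizationMonoid in
/-- `dualBound` with `M := [L : K]` (which bounds every ramification exponent). -/
theorem dualBound_finrank (lam : P) (hlam : Prime lam)
    (hPA : ∀ p : P, ∃ a : A, algebraMap A L a = algebraMap P L p)
    (hlamA : ∃ a : A, algebraMap A L a * algebraMap P L lam = 1)
    (hA : ∀ a : A, ∃ (n : ℕ) (p : P),
      algebraMap P L lam ^ n * algebraMap A L a = algebraMap P L p)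
    (hc : ∃ (ι : Type) (_ : Fintype ι) (_ : DecidableEq ι) (c : Module.Basis ι K L) (d : P),
      (∀ i, IsIntegral P (c i)) ∧ Algebra.discr K c = algebraMap P K d ∧ ¬ lam ∣ d)
    (G : P) (g : A) (hg : algebraMap A L g = algebraMap P L G)
    (hs : ∀ Q : Ideal B, Q.IsPrime → Q ≠ ⊥ → algebraMap A B g ∉ Q →
      ¬ Q ^ 2 ∣ (Q.under A).map (algebraMap A B))
    (x : L)
    (hx : ∀ r : L, IsIntegral P r → Algebra.trace K L (x * r) ∈ (algebraMap P K).range) :
    IsIntegral P (x ^ Module.finrank K L * algebraMap P L G ^ (Module.finrank K L - 1)) :=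
  dualBound (A := A) (B := B) lam hlam hPA hlamA hA hc G g hg (Module.finrank K L)
    (fun Q hQ hQ0 =>
      Fermat.Agent.S18.helper5198.count_normalizedFactors_le_finrank (K := K) (L := L) Q hQ hQ0)
    hs x hx

end Main

section Tower

variable {P A K L : Type*} [CommRing P] [IsDomain P] [IsIntegrallyClosed P]
  [CommRing A] [IsDedekindDomain A] [Algebra ℚ A]
  [Field K] [Field L]
  [Algebra P K] [IsFractionRing P K] [Algebra A K] [IsFractionRing A K]
  [Algebra P A] [IsScalarTower P A K]
  [Algebra K L] [Algebra P L] [Algebra A L] [IsScalarTower P K L] [IsScalarTower A K L]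
  [FiniteDimensional K L] [Algebra.IsSeparable K L]

omit [IsDomain P] [IsIntegrallyClosed P] [IsDedekindDomain A] [Algebra ℚ A] [IsFractionRing P K]
  [IsFractionRing A K] [FiniteDimensional K L] [Algebra.IsSeparable K L] in
include K in
/-- Compatibility of the three towers `P → A → K → L`. -/
theorem algebraMap_tower_apply (p : P) : algebraMap A L (algebraMap P A p) = algebraMap P L p := by
  rw [IsScalarTower.algebraMap_apply A K L, ← IsScalarTower.algebraMap_apply P A K,
    ← IsScalarTower.algebraMap_apply P K L]

/-- **`(a')` in tower form** (`P → A → K → L`, `A = P[1/lam]` given by `hunit` and `hloc`),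
with the integral closure of `A` in `L` as the generic-fibre Dedekind ring and
`M := [L : K]`.  The conclusion is hypothesis `ha` of the DN lemma verbatim. -/
theorem dualBound_tower (lam : P) (hlam : Prime lam)
    (hunit : IsUnit (algebraMap P A lam))
    (hloc : ∀ a : A, ∃ (k : ℕ) (p : P), algebraMap P A (lam ^ k) * a = algebraMap P A p)
    (hc : ∃ (ι : Type) (_ : Fintype ι) (_ : DecidableEq ι) (c : Module.Basis ι K L) (d : P),
      (∀ i, IsIntegral P (c i)) ∧ Algebra.discr K c = algebraMap P K d ∧ ¬ lam ∣ d)
    (G : P)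
    (hs : ∀ Q : Ideal ↥(integralClosure A L), Q.IsPrime → Q ≠ ⊥ →
      algebraMap A ↥(integralClosure A L) (algebraMap P A G) ∉ Q →
      ¬ Q ^ 2 ∣ (Q.under A).map (algebraMap A ↥(integralClosure A L))) :
    ∀ x : L, (∀ r : L, IsIntegral P r → Algebra.trace K L (x * r) ∈ (algebraMap P K).range) →
      IsIntegral P (x ^ Module.finrank K L * algebraMap P L G ^ (Module.finrank K L - 1)) := by
  intro x hx
  have : IsDedekindDomain ↥(integralClosure A L) := integralClosure.isDedekindDomain A K L
  have : IsFractionRing ↥(integralClosure A L) L :=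
    integralClosure.isFractionRing_of_finite_extension K L
  obtain ⟨u, hu⟩ := hunit
  refine dualBound_finrank (A := A) (B := ↥(integralClosure A L)) lam hlam
    (fun p => ⟨algebraMap P A p, algebraMap_tower_apply (K := K) p⟩)
    ⟨((u⁻¹ : Aˣ) : A), ?_⟩ ?_ hc G (algebraMap P A G) (algebraMap_tower_apply (K := K) G) hs x hx
  · rw [← algebraMap_tower_apply (A := A) (K := K) lam, ← hu, ← map_mul, Units.inv_mul, map_one]
  · intro a
    obtain ⟨k, p, hkp⟩ := hloc a
    refine ⟨k, p, ?_⟩
    rw [← algebraMap_tower_apply (A := A) (K := K) lam, ← algebraMap_tower_apply (A := A) (K := K) p,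
      ← hkp, map_mul, map_pow, map_pow]

/-- **`(a')` when `A` is the localisation of `P` away from `lam`.** -/
theorem dualBound_away (lam : P) (hlam : Prime lam) [IsLocalization.Away lam A]
    (hc : ∃ (ι : Type) (_ : Fintype ι) (_ : DecidableEq ι) (c : Module.Basis ι K L) (d : P),
      (∀ i, IsIntegral P (c i)) ∧ Algebra.discr K c = algebraMap P K d ∧ ¬ lam ∣ d)
    (G : P)
    (hs : ∀ Q : Ideal ↥(integralClosure A L), Q.IsPrime → Q ≠ ⊥ →
      algebraMap A ↥(integralClosure A L) (algebraMap P A G) ∉ Q →
      ¬ Q ^ 2 ∣ (Q.under A).map (algebraMap A ↥(integralClosure A L))) :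
    ∀ x : L, (∀ r : L, IsIntegral P r → Algebra.trace K L (x * r) ∈ (algebraMap P K).range) →
      IsIntegral P (x ^ Module.finrank K L * algebraMap P L G ^ (Module.finrank K L - 1)) := by
  refine dualBound_tower (A := A) lam hlam (IsLocalization.Away.algebraMap_isUnit lam) ?_ hc G hs
  intro a
  obtain ⟨⟨p, ⟨_, k, rfl⟩⟩, hp⟩ := IsLocalization.surj (Submonoid.powers lam) a
  exact ⟨k, p, by rw [mul_comm]; exact hp⟩

end Tower

end Fermat.Agent.S18.helper315
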