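import Mathlib

/-!
# S18, track B: base change / compositum of discriminant-form unramifiedness (helper322)

Elementary proof via embeddings into an algebraic closure and a rank argument modulo a prime
of the integral closure lying over the given prime.  No `FormallyUnramified`, no localisation,
no discrete valuation ring hypothesis.

* `exists_submatrix_det_ne_zero` : a matrix over a field with linearly independent rows has a
  nonvanishing maximal minor.
* `exists_subfamily_discr_notMem` : **base change / compositum**.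
-/

set_option autoImplicit false

namespace Fermat.Agent.S18.helper322

open Matrix

section LinearAlgebra

variable {κ : Type*} [Field κ] {m n : Type*} [Fintype m] [DecidableEq m] [Fintype n]

/-- A matrix over a field with linearly independent rows has a nonvanishing maximal minor. -/
theorem exists_submatrix_det_ne_zero (W : Matrix m n κ) (hW : LinearIndependent κ W.row) :
    ∃ g : m → n, (W.submatrix id g).det ≠ 0 := by
  classical
  have hrank : W.rank = Fintype.card m := hW.rank_matrix
  have hspan : Submodule.span κ (Set.range W.col) = ⊤ := by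
    rw [← Matrix.range_mulVecLin]
    apply Submodule.eq_top_of_finrank_eq
    rw [Module.finrank_fintype_fun_eq_card]
    exact hrank
  obtain ⟨s, hs, hsspan, hsli⟩ := exists_linearIndependent κ (Set.range W.col)
  rw [hspan] at hsspan
  let bs : Module.Basis s κ (m → κ) := Module.Basis.mk hsli (by
    rw [Subtype.range_coe_subtype, Set.ofPred_mem_eq, hsspan])
  let h : m ≃ s := (Pi.basisFun κ m).indexEquiv bs
  have hch : ∀ x : s, ∃ i : n, W.col i = (x : m → κ) := fun x => hs x.2
  choose i hi using hch
  refine ⟨fun k => i (h k), ?_⟩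
  have hcol : (W.submatrix id (fun k => i (h k))).col = fun k => ((h k : s) : m → κ) := by
    funext k
    rw [← hi (h k)]
    rfl
  have hli : LinearIndependent κ (W.submatrix id (fun k => i (h k))).col := by
    rw [hcol]
    exact hsli.comp _ h.injective
  have hunit := Matrix.linearIndependent_cols_iff_isUnit.mp hli
  exact ((Matrix.isUnit_iff_isUnit_det _).mp hunit).ne_zero

end LinearAlgebra

section BaseChange

variable {B B1 K K1 L M : Type*} [CommRing B] [CommRing B1]
  [Field K] [Field K1] [Field L] [Field M]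
  [Algebra B K] [Algebra B B1] [Algebra B1 K1] [IsFractionRing B1 K1] [IsIntegrallyClosed B1]
  [Algebra K K1]
  [Algebra K L] [FiniteDimensional K L] [Algebra.IsSeparable K L]
  [Algebra B L] [IsScalarTower B K L]
  [Algebra K1 M] [FiniteDimensional K1 M] [Algebra.IsSeparable K1 M]
  [Algebra K M] [IsScalarTower K K1 M]

/-- **Base change / compositum of discriminant-form unramifiedness.**

`B → B1` is a ring homomorphism compatible with the field extension `K → K1` (`hsq`), `B1` is an
integrally closed domain with fraction field `K1`, `p1` is a prime of `B1`.  `L / K` and `M / K1`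
are finite separable, `ι : L →ₐ[K] M` and `M` is spanned over `K1` by the image of `L`
(a compositum).  If `b` is a family of `[L : K]` elements of `L`, integral over `B`, whose
discriminant is the image of some `d : B` that does not map into `p1`, then a subfamily of
`ι ∘ b` with `[M : K1]` elements has discriminant (over `K1`) equal to the image of some
`d' : B1` outside `p1`. -/
theorem exists_subfamily_discr_notMem
    (hsq : (algebraMap B1 K1).comp (algebraMap B B1) = (algebraMap K K1).comp (algebraMap B K))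
    (ι : L →ₐ[K] M) (hgen : Submodule.span K1 (Set.range ι) = ⊤)
    (p1 : Ideal B1) [p1.IsPrime]
    {ι₀ : Type*} [Fintype ι₀] [DecidableEq ι₀] (hcard : Fintype.card ι₀ = Module.finrank K L)
    (b : ι₀ → L) (hb : ∀ i, IsIntegral B (b i))
    (d : B) (hd : algebraMap B B1 d ∉ p1) (hdisc : Algebra.discr K b = algebraMap B K d) :
    ∃ (g : Fin (Module.finrank K1 M) → ι₀) (d' : B1), d' ∉ p1 ∧
      Algebra.discr K1 (fun k => ι (b (g k))) = algebraMap B1 K1 d' := by
  classical
  -- the algebraic closure and the `B1`-algebra structure on it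
  let Ω := AlgebraicClosure M
  let f1 : B1 →+* Ω := (algebraMap K1 Ω).comp (algebraMap B1 K1)
  let algB1Ω : Algebra B1 Ω := f1.toAlgebra
  have hf1 : ∀ x : B1, algebraMap B1 Ω x = algebraMap K1 Ω (algebraMap B1 K1 x) := fun x => rfl
  have hf1inj : Function.Injective (algebraMap B1 Ω) :=
    (algebraMap K1 Ω).injective.comp (IsFractionRing.injective B1 K1)
  -- a prime of the integral closure lying over `p1`
  let O' : Subalgebra B1 Ω := integralClosure B1 Ω
  have hO'inj : Function.Injective (algebraMap B1 O') := by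
    intro x y hxy
    apply hf1inj
    exact congrArg Subtype.val hxy
  obtain ⟨𝔓, -, h𝔓, h𝔓over⟩ := Ideal.exists_ideal_over_prime_of_isIntegral p1 (⊥ : Ideal O')
    (by
      intro x hx
      have hx0 : algebraMap B1 O' x = 0 := hx
      have : x = 0 := hO'inj (by rw [hx0, map_zero])
      rw [this]; exact p1.zero_mem)
  have := h𝔓
  let D := O' ⧸ 𝔓
  let κ := FractionRing D
  let φ : O' →+* κ := (algebraMap D κ).comp (Ideal.Quotient.mk 𝔓)
  have hφ : ∀ x : O', φ x = 0 ↔ x ∈ 𝔓 := by
    intro x
    show algebraMap D κ (Ideal.Quotient.mk 𝔓 x) = 0 ↔ _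
    rw [map_eq_zero_iff _ (IsFractionRing.injective D κ), Ideal.Quotient.eq_zero_iff_mem]
  -- embeddings of `L`
  let eL : ι₀ ≃ (L →ₐ[K] Ω) := Fintype.equivOfCardEq (hcard.trans (AlgHom.card K L Ω).symm)
  have hsqΩ : (algebraMap B1 Ω).comp (algebraMap B B1) =
      (algebraMap K Ω).comp (algebraMap B K) := by
    ext x
    simp only [RingHom.comp_apply, hf1]
    have h1 := congrArg (fun f => f x) hsq
    simp only [RingHom.comp_apply] at h1
    rw [h1, ← IsScalarTower.algebraMap_apply K K1 Ω]
  have hint : ∀ (σ : L →ₐ[K] Ω) (i : ι₀), IsIntegral B1 (σ (b i)) := by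
    intro σ i
    refine IsIntegral.map_of_comp_eq (algebraMap B B1) (σ : L →+* Ω) ?_ (hb i)
    rw [hsqΩ]
    ext x
    simp only [RingHom.comp_apply, AlgHom.coe_toRingHom]
    rw [IsScalarTower.algebraMap_apply B K L, AlgHom.commutes]
  let S : Matrix ι₀ ι₀ O' := fun i j => ⟨eL j (b i), hint (eL j) i⟩
  have hS : S.map (algebraMap O' Ω) = Algebra.embeddingsMatrixReindex K Ω b eL := by
    ext i j
    rfl
  -- `det S` is a unit modulo `𝔓`
  have hdetS : algebraMap O' Ω (S.det ^ 2) = algebraMap K Ω (algebraMap B K d) := by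
    rw [map_pow, RingHom.map_det, RingHom.mapMatrix_apply, hS,
      ← Algebra.discr_eq_det_embeddingsMatrixReindex_pow_two K Ω b eL, hdisc]
  have hdetS' : S.det ^ 2 = algebraMap B1 O' (algebraMap B B1 d) := by
    apply Subtype.ext
    have h1 := congrArg (fun f => f d) hsqΩ
    simp only [RingHom.comp_apply] at h1
    exact hdetS.trans h1.symm
  have hdetS𝔓 : S.det ∉ 𝔓 := by
    intro h
    have h2 : S.det ^ 2 ∈ 𝔓 := Ideal.pow_mem_of_mem 𝔓 h 2 (by norm_num)
    rw [hdetS'] at h2
    have h3 : algebraMap B B1 d ∈ 𝔓.comap (algebraMap B1 O') := h2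
    rw [h𝔓over] at h3
    exact hd h3
  have hdetφ : (S.map φ).det ≠ 0 := by
    rw [← RingHom.mapMatrix_apply, ← RingHom.map_det]
    intro h
    exact hdetS𝔓 ((hφ _).mp h)
  have hcols : LinearIndependent κ (S.map φ).col :=
    Matrix.linearIndependent_cols_of_det_ne_zero hdetφ
  -- embeddings of `M` restrict injectively to embeddings of `L`
  let res : (M →ₐ[K1] Ω) → (L →ₐ[K] Ω) := fun τ => (τ.restrictScalars K).comp ι
  have hres : ∀ (τ : M →ₐ[K1] Ω) (x : L), res τ x = τ (ι x) := fun τ x => rfl
  have hresinj : Function.Injective res := by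
    intro τ τ' h
    apply AlgHom.toLinearMap_injective
    apply LinearMap.ext_on hgen
    rintro _ ⟨x, rfl⟩
    have h1 := congrArg (fun σ : L →ₐ[K] Ω => σ x) h
    simp only [hres] at h1
    exact h1
  let eM : Fin (Module.finrank K1 M) ≃ (M →ₐ[K1] Ω) :=
    Fintype.equivOfCardEq ((Fintype.card_fin _).trans (AlgHom.card K1 M Ω).symm)
  let r : Fin (Module.finrank K1 M) → ι₀ := fun k => eL.symm (res (eM k))
  have hrinj : Function.Injective r := fun k k' h =>
    eM.injective (hresinj (eL.symm.injective h))
  have hr : ∀ k, eL (r k) = res (eM k) := fun k => eL.apply_symm_apply _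
  let W : Matrix (Fin (Module.finrank K1 M)) ι₀ κ := fun k i => φ (S i (r k))
  have hWrow : LinearIndependent κ W.row := hcols.comp r hrinj
  obtain ⟨g, hg⟩ := exists_submatrix_det_ne_zero W hWrow
  -- the subfamily
  let algB1M : Algebra B1 M := ((algebraMap K1 M).comp (algebraMap B1 K1)).toAlgebra
  have : IsScalarTower B1 K1 M := IsScalarTower.of_algebraMap_eq (fun x => rfl)
  have hcint : ∀ l, IsIntegral B1 (ι (b (g l))) := by
    intro l
    refine IsIntegral.map_of_comp_eq (algebraMap B B1) (ι : L →+* M) ?_ (hb (g l))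
    ext x
    simp only [RingHom.comp_apply, AlgHom.coe_toRingHom]
    have h1 := congrArg (fun f => f x) hsq
    simp only [RingHom.comp_apply] at h1
    rw [IsScalarTower.algebraMap_apply B K L, AlgHom.commutes,
      IsScalarTower.algebraMap_apply B1 K1 M, h1, ← IsScalarTower.algebraMap_apply K K1 M]
  have hdint : IsIntegral B1 (Algebra.discr K1 (fun k => ι (b (g k)))) :=
    Algebra.discr_isIntegral K1 hcint
  obtain ⟨d', hd'⟩ := IsIntegrallyClosed.isIntegral_iff.mp hdint
  refine ⟨g, d', ?_, hd'.symm⟩
  intro hd'p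
  -- the matrix of conjugates of the subfamily
  let W' : Matrix (Fin (Module.finrank K1 M)) (Fin (Module.finrank K1 M)) O' :=
    fun k l => ⟨eM k (ι (b (g l))), hint (res (eM k)) (g l)⟩
  have hW' : W'.map (algebraMap O' Ω) =
      (Algebra.embeddingsMatrixReindex K1 Ω (fun k => ι (b (g k))) eM)ᵀ := by
    ext k l
    rfl
  have hdetW' : algebraMap O' Ω (W'.det ^ 2) = algebraMap O' Ω (algebraMap B1 O' d') := by
    rw [map_pow, RingHom.map_det, RingHom.mapMatrix_apply, hW', Matrix.det_transpose,
      ← Algebra.discr_eq_det_embeddingsMatrixReindex_pow_two K1 Ω _ eM, ← hd']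
    rfl
  have hdetW'' : W'.det ^ 2 = algebraMap B1 O' d' := Subtype.ext hdetW'
  have h1 : algebraMap B1 O' d' ∈ 𝔓 := by
    have : d' ∈ 𝔓.comap (algebraMap B1 O') := by rw [h𝔓over]; exact hd'p
    exact this
  rw [← hdetW''] at h1
  have h2 : W'.det ∈ 𝔓 := h𝔓.mem_of_pow_mem 2 h1
  have h3 : (W'.map φ).det = 0 := by
    rw [← RingHom.mapMatrix_apply, ← RingHom.map_det]
    exact (hφ _).mpr h2
  apply hg
  rw [← h3]
  congr 1
  ext k l
  show φ (S (g l) (r k)) = φ (W' k l)
  congr 1
  apply Subtype.ext
  show eL (r k) (b (g l)) = eM k (ι (b (g l)))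
  rw [hr k, hres]

/-- Consumer form of `exists_subfamily_discr_notMem`: with a `B1`-algebra structure on `M`
compatible with `K1`, the new family is integral over `B1`. -/
theorem exists_integral_family_discr_notMem [Algebra B1 M] [IsScalarTower B1 K1 M]
    (hsq : (algebraMap B1 K1).comp (algebraMap B B1) = (algebraMap K K1).comp (algebraMap B K))
    (ι : L →ₐ[K] M) (hgen : Submodule.span K1 (Set.range ι) = ⊤)
    (p1 : Ideal B1) [p1.IsPrime]
    {ι₀ : Type*} [Fintype ι₀] [DecidableEq ι₀] (hcard : Fintype.card ι₀ = Module.finrank K L)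
    (b : ι₀ → L) (hb : ∀ i, IsIntegral B (b i))
    (d : B) (hd : algebraMap B B1 d ∉ p1) (hdisc : Algebra.discr K b = algebraMap B K d) :
    ∃ c : Fin (Module.finrank K1 M) → M, (∀ k, IsIntegral B1 (c k)) ∧
      ∃ d' : B1, d' ∉ p1 ∧ Algebra.discr K1 c = algebraMap B1 K1 d' := by
  obtain ⟨g, d', hd', hdisc'⟩ :=
    exists_subfamily_discr_notMem hsq ι hgen p1 hcard b hb d hd hdisc
  refine ⟨fun k => ι (b (g k)), ?_, d', hd', hdisc'⟩
  intro k
  refine IsIntegral.map_of_comp_eq (algebraMap B B1) (ι : L →+* M) ?_ (hb (g k))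
  ext x
  simp only [RingHom.comp_apply, AlgHom.coe_toRingHom]
  have h1 := congrArg (fun f => f x) hsq
  simp only [RingHom.comp_apply] at h1
  rw [IsScalarTower.algebraMap_apply B K L, AlgHom.commutes,
    IsScalarTower.algebraMap_apply B1 K1 M, h1, ← IsScalarTower.algebraMap_apply K K1 M]

/-- Basis form of `exists_subfamily_discr_notMem`. -/
theorem exists_basis_discr_notMem [Algebra B1 M] [IsScalarTower B1 K1 M]
    (hsq : (algebraMap B1 K1).comp (algebraMap B B1) = (algebraMap K K1).comp (algebraMap B K))
    (ι : L →ₐ[K] M) (hgen : Submodule.span K1 (Set.range ι) = ⊤)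
    (p1 : Ideal B1) [p1.IsPrime]
    {ι₀ : Type*} [Fintype ι₀] [DecidableEq ι₀] (hcard : Fintype.card ι₀ = Module.finrank K L)
    (b : ι₀ → L) (hb : ∀ i, IsIntegral B (b i))
    (d : B) (hd : algebraMap B B1 d ∉ p1) (hdisc : Algebra.discr K b = algebraMap B K d) :
    ∃ c : Module.Basis (Fin (Module.finrank K1 M)) K1 M, (∀ k, IsIntegral B1 (c k)) ∧
      ∃ d' : B1, d' ∉ p1 ∧ Algebra.discr K1 c = algebraMap B1 K1 d' := by
  obtain ⟨c, hc, d', hd', hdisc'⟩ :=
    exists_integral_family_discr_notMem hsq ι hgen p1 hcard b hb d hd hdisc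
  have hd'0 : d' ≠ 0 := fun h => hd' (h ▸ p1.zero_mem)
  have hne : Algebra.discr K1 c ≠ 0 := by
    rw [hdisc']
    exact fun h => hd'0 (IsFractionRing.injective B1 K1 (by rw [h, map_zero]))
  have hli : LinearIndependent K1 c := by
    by_contra hli
    exact hne (Algebra.discr_zero_of_not_linearIndependent K1 hli)
  have hne' : Nonempty (Fin (Module.finrank K1 M)) :=
    Fin.pos_iff_nonempty.mp (Module.finrank_pos (R := K1) (M := M))
  refine ⟨basisOfLinearIndependentOfCardEqFinrank hli (Fintype.card_fin _), ?_, d', hd', ?_⟩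
  · intro k
    rw [coe_basisOfLinearIndependentOfCardEqFinrank]
    exact hc k
  · rw [coe_basisOfLinearIndependentOfCardEqFinrank]
    exact hdisc'

end BaseChange

end Fermat.Agent.S18.helper322
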