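/-
S18, track C, leaf D5b: NORMALIZATION (helper3574).

The induction of track C (steps 3-4 of findings #2248, leaf D6) is written for a Kummer
generator whose `q`-expansion is a unit power series congruent to `1` modulo the maximal
ideal.  The canonical Kummer form (`Stmt_KF0`) only gives a Gauss unit `u` with `ū = w ^ m`.
This file contains the reduction from the general case to the unit-power-series case
(the fix (G1) of audit #2644), in a hypothesis-passing, coefficientwise form:

* `eq_single_mul_tailPS`, `coeff_pow_of_coeff_eq_zero` : Laurent series without coefficients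
  below `M` are `q ^ M * (power series)`; lowest coefficient of a power.
* `exists_powerSeries_map_eq_one` : two Laurent series over `O` without coefficients below `M`,
  with the same reduction, the reduction having a nonzero coefficient at `M`, differ by a
  power series which reduces to `1`.
* `eq_of_le_of_add_le`, `exists_coeff_ne_zero` : the dimension squeeze
  `TW n = Bb n = ONE n` and existence of an element of exact pole order.
* `normalization` : the packaged statement.
-/
import Mathlib
import Fermat.Prelude.Def_ModularCurve_LaurentCoeff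

set_option autoImplicit false

noncomputable section

namespace Fermat.Agent.S18.helper3574

open HahnSeries ModularCurve

section Factor

variable {R : Type*} [CommRing R]

/-- Coefficients of `ofPowerSeries` at negative indices vanish. -/
theorem ofPS_coeff_of_neg (p : PowerSeries R) {k : ℤ} (hk : k < 0) :
    (HahnSeries.ofPowerSeries ℤ R p).coeff k = 0 := by
  rw [HahnSeries.ofPowerSeries_apply]
  refine HahnSeries.embDomain_of_notMem_range ?_
  rintro ⟨m, rfl⟩
  exact absurd hk (not_lt.mpr (Int.natCast_nonneg m))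

/-- Coefficients of `ofPowerSeries` at natural indices. -/
theorem ofPS_coeff_natCast (p : PowerSeries R) (n : ℕ) :
    (HahnSeries.ofPowerSeries ℤ R p).coeff (n : ℤ) = PowerSeries.coeff n p :=
  HahnSeries.ofPowerSeries_apply_coeff p n

/-- The power series of the coefficients of `z` from the index `M` on. -/
def tailPS (M : ℤ) (z : LaurentSeries R) : PowerSeries R :=
  PowerSeries.mk fun n => z.coeff (M + n)

@[simp]
theorem coeff_tailPS (M : ℤ) (z : LaurentSeries R) (n : ℕ) :
    PowerSeries.coeff n (tailPS M z) = z.coeff (M + n) := by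
  rw [tailPS, PowerSeries.coeff_mk]

@[simp]
theorem constantCoeff_tailPS (M : ℤ) (z : LaurentSeries R) :
    PowerSeries.constantCoeff (tailPS M z) = z.coeff M := by
  rw [← PowerSeries.coeff_zero_eq_constantCoeff_apply, coeff_tailPS, Nat.cast_zero, add_zero]

/-- A Laurent series without coefficients below `M` is `q ^ M` times a power series. -/
theorem eq_single_mul_tailPS (M : ℤ) (z : LaurentSeries R) (h : ∀ j < M, z.coeff j = 0) :
    z = HahnSeries.single M (1 : R) * HahnSeries.ofPowerSeries ℤ R (tailPS M z) := by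
  ext k
  rw [HahnSeries.coeff_single_mul, one_mul]
  rcases lt_or_ge k M with hk | hk
  · rw [h k hk, ofPS_coeff_of_neg _ (by omega)]
  · obtain ⟨n, hn⟩ := Int.eq_ofNat_of_zero_le (sub_nonneg.mpr hk)
    rw [hn, ofPS_coeff_natCast, coeff_tailPS, ← hn]
    congr 1
    ring

/-- `q ^ M * (power series)` has no coefficients below `M`. -/
theorem coeff_single_mul_ofPS_of_lt (M : ℤ) (p : PowerSeries R) {j : ℤ} (hj : j < M) :
    (HahnSeries.single M (1 : R) * HahnSeries.ofPowerSeries ℤ R p).coeff j = 0 := by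
  rw [HahnSeries.coeff_single_mul, one_mul, ofPS_coeff_of_neg _ (by omega)]

/-- The coefficient of `q ^ M * (power series)` at `M` is the constant coefficient. -/
theorem coeff_single_mul_ofPS_self (M : ℤ) (p : PowerSeries R) :
    (HahnSeries.single M (1 : R) * HahnSeries.ofPowerSeries ℤ R p).coeff M =
      PowerSeries.constantCoeff p := by
  rw [HahnSeries.coeff_single_mul, one_mul, sub_self]
  have h := ofPS_coeff_natCast p 0
  rw [Nat.cast_zero] at h
  rw [h, PowerSeries.coeff_zero_eq_constantCoeff_apply]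

/-- Powers: if `x` has no coefficients below `N`, then `x ^ m` has none below `m * N`, and its
coefficient at `m * N` is the `m`-th power of the coefficient of `x` at `N`. -/
theorem coeff_pow_of_coeff_eq_zero (N : ℤ) (x : LaurentSeries R) (hx : ∀ j < N, x.coeff j = 0)
    (m : ℕ) :
    (∀ j < (m : ℤ) * N, (x ^ m).coeff j = 0) ∧ (x ^ m).coeff ((m : ℤ) * N) = x.coeff N ^ m := by
  have hpow : x ^ m = HahnSeries.single ((m : ℤ) * N) (1 : R) *
      HahnSeries.ofPowerSeries ℤ R (tailPS N x ^ m) := by
    conv_lhs => rw [eq_single_mul_tailPS N x hx]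
    rw [mul_pow, HahnSeries.single_pow, one_pow, map_pow, nsmul_eq_mul]
  constructor
  · intro j hj
    rw [hpow]
    exact coeff_single_mul_ofPS_of_lt _ _ hj
  · rw [hpow, coeff_single_mul_ofPS_self, map_pow, constantCoeff_tailPS]

end Factor

section RingLevel

variable {O κ : Type*} [CommRing O] [Field κ]

/-- **Ring-level normalization.**  Let `res : O → κ` be a local homomorphism to a field.  If two
Laurent series `z₁ z₂` over `O` have no coefficients below `M`, have the same coefficientwise
reduction, and the reduction has a nonzero coefficient at `M`, then `z₁ = z₂ * p` for a power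
series `p` over `O` which reduces to `1`. -/
theorem exists_powerSeries_map_eq_one (res : O →+* κ) [IsLocalHom res] (M : ℤ)
    (z₁ z₂ : LaurentSeries O) (h₁ : ∀ j < M, z₁.coeff j = 0) (h₂ : ∀ j < M, z₂.coeff j = 0)
    (hred : coeffMap res z₁ = coeffMap res z₂) (hlead : res (z₂.coeff M) ≠ 0) :
    ∃ p : PowerSeries O, p.map res = 1 ∧ z₁ = z₂ * HahnSeries.ofPowerSeries ℤ O p := by
  have hu : IsUnit (tailPS M z₂) := by
    rw [PowerSeries.isUnit_iff_constantCoeff, constantCoeff_tailPS]
    exact isUnit_of_map_unit res _ (IsUnit.mk0 _ hlead)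
  obtain ⟨v, hv⟩ := hu
  have hmap : (tailPS M z₁).map res = (tailPS M z₂).map res := by
    ext n
    rw [PowerSeries.coeff_map, PowerSeries.coeff_map, coeff_tailPS, coeff_tailPS]
    have h := congrArg (fun s : LaurentSeries κ => s.coeff (M + n)) hred
    simpa using h
  refine ⟨tailPS M z₁ * ((v⁻¹ : (PowerSeries O)ˣ) : PowerSeries O), ?_, ?_⟩
  · rw [map_mul, hmap, ← hv, ← map_mul, Units.mul_inv, map_one]
  · conv_lhs => rw [eq_single_mul_tailPS M z₁ h₁]
    conv_rhs => rw [eq_single_mul_tailPS M z₂ h₂]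
    rw [mul_assoc, ← map_mul, ← hv, mul_comm (tailPS M z₁), ← mul_assoc, Units.mul_inv, one_mul]

/-- **Ring-level normalization, `ε`-form** (no residue field; any commutative ring `O`, e.g. a
non-discrete valuation ring).  If `z₁ = z₂ + ε • z₃`, the series `z₁ z₂` have no coefficients
below `M` and the coefficient of `z₂` at `M` is a unit, then `z₁ = z₂ * (1 + ε • v)` for a power
series `v` over `O`. -/
theorem exists_powerSeries_one_add_smul (ε : O) (M : ℤ) (z₁ z₂ z₃ : LaurentSeries O)
    (h₁ : ∀ j < M, z₁.coeff j = 0) (h₂ : ∀ j < M, z₂.coeff j = 0)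
    (hdiff : z₁ = z₂ + ε • z₃) (hlead : IsUnit (z₂.coeff M)) :
    ∃ v : PowerSeries O, z₁ = z₂ * HahnSeries.ofPowerSeries ℤ O (1 + ε • v) := by
  have hu : IsUnit (tailPS M z₂) := by
    rw [PowerSeries.isUnit_iff_constantCoeff, constantCoeff_tailPS]
    exact hlead
  obtain ⟨w, hw⟩ := hu
  have htail : tailPS M z₁ = tailPS M z₂ + ε • tailPS M z₃ := by
    ext n
    rw [map_add, coeff_tailPS, coeff_tailPS, PowerSeries.coeff_smul, coeff_tailPS, hdiff,
      HahnSeries.coeff_add, HahnSeries.coeff_smul]
  refine ⟨tailPS M z₃ * ((w⁻¹ : (PowerSeries O)ˣ) : PowerSeries O), ?_⟩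
  conv_lhs => rw [eq_single_mul_tailPS M z₁ h₁]
  conv_rhs => rw [eq_single_mul_tailPS M z₂ h₂]
  rw [mul_assoc, ← map_mul, htail, ← hw]
  congr 2
  rw [mul_add, mul_one, mul_smul_comm, ← mul_assoc, mul_comm (w : PowerSeries O) (tailPS M z₃),
    mul_assoc, Units.mul_inv, mul_one]

/-- If the kernel of `res` is generated by `π`, a power series reducing to `1` is
`1 + π • v`. -/
theorem exists_eq_one_add_smul_of_map_eq_one (res : O →+* κ) (π : O)
    (hker : ∀ a : O, res a = 0 → π ∣ a) (p : PowerSeries O) (hp : p.map res = 1) :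
    ∃ v : PowerSeries O, p = 1 + π • v := by
  have h : ∀ n : ℕ, ∃ c : O, PowerSeries.coeff n (p - 1) = π * c := by
    intro n
    apply hker
    have h1 := congrArg (PowerSeries.coeff n) hp
    rw [PowerSeries.coeff_map, PowerSeries.coeff_one] at h1
    rw [map_sub (PowerSeries.coeff n), map_sub res, h1, PowerSeries.coeff_one]
    split_ifs <;> simp
  choose c hc using h
  refine ⟨PowerSeries.mk c, ?_⟩
  rw [← sub_eq_iff_eq_add']
  ext n
  rw [hc n, PowerSeries.coeff_smul, PowerSeries.coeff_mk, smul_eq_mul]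

/-- A ring homomorphism from a local ring to a field which kills the maximal ideal is a local
homomorphism (supplier of the instance argument `[IsLocalHom res]` below). -/
theorem isLocalHom_of_maximalIdeal_le_ker [IsLocalRing O] (res : O →+* κ)
    (h : ∀ a ∈ IsLocalRing.maximalIdeal O, res a = 0) : IsLocalHom res := by
  constructor
  intro a ha
  by_contra hna
  have h0 : res a = 0 := h a ((IsLocalRing.mem_maximalIdeal a).mpr hna)
  rw [h0] at ha
  exact not_isUnit_zero ha

/-- A power series reducing to `1` is a unit (for a local homomorphism to a field). -/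
theorem isUnit_of_map_eq_one (res : O →+* κ) [IsLocalHom res] (p : PowerSeries O)
    (hp : p.map res = 1) : IsUnit p := by
  rw [PowerSeries.isUnit_iff_constantCoeff]
  refine isUnit_of_map_unit res _ ?_
  have h := congrArg (PowerSeries.coeff 0) hp
  rw [PowerSeries.coeff_map, PowerSeries.coeff_zero_eq_constantCoeff_apply,
    PowerSeries.coeff_zero_eq_constantCoeff_apply, map_one] at h
  rw [h]
  exact isUnit_one

/-- Coefficient form of `p.map res = 1`. -/
theorem map_eq_one_iff (res : O →+* κ) (p : PowerSeries O) :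
    p.map res = 1 ↔ res (PowerSeries.constantCoeff p) = 1 ∧
      ∀ n : ℕ, n ≠ 0 → res (PowerSeries.coeff n p) = 0 := by
  constructor
  · intro hp
    refine ⟨?_, fun n hn => ?_⟩
    · have h := congrArg (PowerSeries.coeff 0) hp
      rwa [PowerSeries.coeff_map, PowerSeries.coeff_zero_eq_constantCoeff_apply,
        PowerSeries.coeff_zero_eq_constantCoeff_apply, map_one] at h
    · have h := congrArg (PowerSeries.coeff n) hp
      rwa [PowerSeries.coeff_map, PowerSeries.coeff_one, if_neg hn] at h
  · rintro ⟨h0, hn⟩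
    ext n
    rw [PowerSeries.coeff_map, PowerSeries.coeff_one]
    by_cases hn0 : n = 0
    · subst hn0
      rw [if_pos rfl, PowerSeries.coeff_zero_eq_constantCoeff_apply, h0]
    · rw [if_neg hn0, hn n hn0]

end RingLevel

section Squeeze

variable {κ : Type*} [Field κ]

/-- Dimension squeeze: a subspace `S ≤ T` with `d ≤ dim S + g` and `dim T + g ≤ d` is all
of `T`, and `dim T + g = d`. -/
theorem eq_of_le_of_add_le {V : Type*} [AddCommGroup V] [Module κ V] {S T : Submodule κ V}
    [Module.Finite κ T] (hST : S ≤ T) {d g : ℕ} (hS : d ≤ Module.finrank κ S + g)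
    (hT : Module.finrank κ T + g ≤ d) : S = T ∧ Module.finrank κ T + g = d := by
  have hmono : Module.finrank κ S ≤ Module.finrank κ T := Submodule.finrank_mono hST
  have hle : Module.finrank κ T ≤ Module.finrank κ S := by omega
  have heq : S = T := Submodule.eq_of_le_of_finrank_le hST hle
  refine ⟨heq, ?_⟩
  subst heq
  omega

/-- If the filtration jumps in dimension between `n` and `n + 1`, some element of `Bb (n + 1)`
has a nonzero coefficient at `-(n + 1)`. -/
theorem exists_coeff_ne_zero (Bb : ℕ → Submodule κ (LaurentSeries κ)) (n : ℕ)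
    [Module.Finite κ (Bb n)]
    (hfilt : ∀ x ∈ Bb (n + 1), x.coeff (-((n : ℤ) + 1)) = 0 → x ∈ Bb n)
    (hlt : Module.finrank κ (Bb n) < Module.finrank κ (Bb (n + 1))) :
    ∃ y ∈ Bb (n + 1), y.coeff (-((n : ℤ) + 1)) ≠ 0 := by
  by_contra hcon
  push Not at hcon
  have hle : Bb (n + 1) ≤ Bb n := fun x hx => hfilt x hx (hcon x hx)
  have := Submodule.finrank_mono hle
  omega

end Squeeze

section Normalization

variable {O κ K F : Type*} [CommRing O] [Field κ] [Field K] [Field F]

/-- **Normalization (track C, leaf D5b).**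

Data: `res : O → κ` a local homomorphism to a field, `i : O → K` injective, a field `F` with a ring
homomorphism `ev : F → K((q))` (`q`-expansion), an element `u : F` and an exponent `m > 0`.

`Bb n` is the space of reduced functions regular off `∞` with pole order `≤ n` at `∞`
(`Bbar_{≤ n}` of #2248); `TW n` is the space of reductions `red f * w` of the unit ball of
`L(n ∞ + D₀)` (`m D₀ = div u`, `ū = w ^ m`), `ONE n` the space of reductions of the unit ball
of `L(n ∞)`.  The hypotheses are:

* `hBfin`, `hBdim` : `dim Bb n + g ≤ n + 1` for `n ≥ n₀` (step 2: (KL) + independent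
  reductions of cusp forms);
* `hBfilt`, `hBord` : `Bb` is the pole-order filtration;
* `hTW`, `hONE` : containments (integrality transfer + root closure);
* `hTWdim`, `hONEdim` : `n + 1 ≤ dim + g` (cartesian unit balls + Riemann's inequality);
* `hTWlift`, `hONElift` : every element `ȳ` of `TW n` (resp. `ONE n`) comes from an `f : F`
  (resp. `y : F`) such that `u * f ^ m` (resp. `y ^ m`) has an integral expansion `z` without
  coefficients below `-(m n)` and with reduction `ȳ ^ m`.

Conclusion: there are `f y : F`, `y ≠ 0`, such that `u * (f / y) ^ m` has a `q`-expansion which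
is a power series over `O` reducing to `1`. -/
theorem normalization (res : O →+* κ) [IsLocalHom res] (i : O →+* K)
    (hi : Function.Injective i) (ev : F →+* LaurentSeries K) (m : ℕ) (hm : 0 < m) (u : F) (g n₀ : ℕ)
    (Bb TW ONE : ℕ → Submodule κ (LaurentSeries κ))
    (hBfin : ∀ n, n₀ ≤ n → Module.Finite κ (Bb n))
    (hBdim : ∀ n, n₀ ≤ n → Module.finrank κ (Bb n) + g ≤ n + 1)
    (hBfilt : ∀ n, ∀ x ∈ Bb (n + 1), x.coeff (-((n : ℤ) + 1)) = 0 → x ∈ Bb n)
    (hBord : ∀ n, ∀ x ∈ Bb n, ∀ j : ℤ, j < -(n : ℤ) → x.coeff j = 0)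
    (hTW : ∀ n, TW n ≤ Bb n) (hONE : ∀ n, ONE n ≤ Bb n)
    (hTWdim : ∀ n, n₀ ≤ n → n + 1 ≤ Module.finrank κ (TW n) + g)
    (hONEdim : ∀ n, n₀ ≤ n → n + 1 ≤ Module.finrank κ (ONE n) + g)
    (hTWlift : ∀ n, ∀ ybar ∈ TW n, ∃ (f : F) (z : LaurentSeries O),
      coeffMap i z = ev (u * f ^ m) ∧ (∀ j : ℤ, j < (m : ℤ) * -(n : ℤ) → z.coeff j = 0) ∧
        coeffMap res z = ybar ^ m)
    (hONElift : ∀ n, ∀ ybar ∈ ONE n, ∃ (y : F) (z : LaurentSeries O),
      coeffMap i z = ev (y ^ m) ∧ (∀ j : ℤ, j < (m : ℤ) * -(n : ℤ) → z.coeff j = 0) ∧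
        coeffMap res z = ybar ^ m) :
    ∃ (f y : F) (p : PowerSeries O), y ≠ 0 ∧ p.map res = 1 ∧
      ev (u * (f / y) ^ m) = coeffMap i (HahnSeries.ofPowerSeries ℤ O p) := by
  -- the squeeze at the levels `n₀` and `n₀ + 1`
  have := hBfin n₀ le_rfl
  have := hBfin (n₀ + 1) (Nat.le_succ n₀)
  have hd0 : Module.finrank κ (Bb n₀) + g ≤ n₀ + 1 := hBdim n₀ le_rfl
  obtain ⟨hTWeq, hdim1⟩ := eq_of_le_of_add_le (hTW (n₀ + 1)) (hTWdim (n₀ + 1) (Nat.le_succ n₀))
    (hBdim (n₀ + 1) (Nat.le_succ n₀))
  obtain ⟨hONEeq, -⟩ := eq_of_le_of_add_le (hONE (n₀ + 1)) (hONEdim (n₀ + 1) (Nat.le_succ n₀))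
    (hBdim (n₀ + 1) (Nat.le_succ n₀))
  -- an element of exact pole order `n₀ + 1`
  obtain ⟨ybar, hybar, hlead⟩ := exists_coeff_ne_zero Bb n₀ (hBfilt n₀) (by omega)
  have hord : ∀ j : ℤ, j < -((n₀ : ℤ) + 1) → ybar.coeff j = 0 := by
    intro j hj
    refine hBord (n₀ + 1) ybar hybar j ?_
    push_cast
    exact hj
  -- lifts
  obtain ⟨f, z₁, hz₁, hz₁ord, hz₁red⟩ := hTWlift (n₀ + 1) ybar (hTWeq ▸ hybar)
  obtain ⟨y, z₂, hz₂, hz₂ord, hz₂red⟩ := hONElift (n₀ + 1) ybar (hONEeq ▸ hybar)
  -- the common reduction has exact order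
  obtain ⟨-, hpowlead⟩ := coeff_pow_of_coeff_eq_zero (-((n₀ : ℤ) + 1)) ybar hord m
  have hM : (m : ℤ) * -(((n₀ + 1 : ℕ) : ℤ)) = (m : ℤ) * (-((n₀ : ℤ) + 1)) := by push_cast; ring
  rw [hM] at hz₁ord hz₂ord
  have hlead₂ : res (z₂.coeff ((m : ℤ) * (-((n₀ : ℤ) + 1)))) ≠ 0 := by
    have h := congrArg (fun s : LaurentSeries κ => s.coeff ((m : ℤ) * (-((n₀ : ℤ) + 1)))) hz₂red
    simp only [coeffMap_coeff] at h
    rw [h, hpowlead]
    exact pow_ne_zero m hlead
  obtain ⟨p, hp, hzz⟩ := exists_powerSeries_map_eq_one res _ z₁ z₂ hz₁ord hz₂ord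
    (hz₁red.trans hz₂red.symm) hlead₂
  have hz₂0 : z₂ ≠ 0 := by
    intro h0
    apply hlead₂
    rw [h0, HahnSeries.coeff_zero, map_zero]
  have hy : y ≠ 0 := by
    intro hy0
    have h1 : coeffMap i z₂ = 0 := by
      rw [hz₂, hy0, zero_pow (Nat.pos_iff_ne_zero.mp hm), map_zero]
    apply hz₂0
    ext k
    have h2 := congrArg (fun s : LaurentSeries K => s.coeff k) h1
    simp only [coeffMap_coeff, HahnSeries.coeff_zero] at h2
    rw [HahnSeries.coeff_zero]
    exact hi (by rw [h2, map_zero])
  refine ⟨f, y, p, hy, hp, ?_⟩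
  have hevy : ev (y ^ m) ≠ 0 := by
    rw [Ne, map_eq_zero]
    exact pow_ne_zero m hy
  have hkey : ev (u * (f / y) ^ m) * ev (y ^ m) =
      coeffMap i (HahnSeries.ofPowerSeries ℤ O p) * ev (y ^ m) := by
    rw [← map_mul]
    have hF : u * (f / y) ^ m * y ^ m = u * f ^ m := by
      rw [div_pow, mul_assoc, div_mul_cancel₀ _ (pow_ne_zero m hy)]
    rw [hF, ← hz₁, hzz, map_mul, hz₂, mul_comm]
  exact mul_right_cancel₀ hevy hkey

end Normalization

end Fermat.Agent.S18.helper3574
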