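/-
S18, track C, leaf D5b (part 2): NORMALIZATION, fixed-level forms and glue to the canonical
Kummer interface `helper3054.Stmt_KF0` (helper3574).

* `normalization_of_lifts` : the fixed-level core of `normalization`: ONE reduced function `ȳ`
  of exact pole order and two integral lifts (of `u * f ^ m` and of `y ^ m`) with reduction
  `ȳ ^ m` give `u * (f / y) ^ m = (power series reducing to 1)`.
* `normalization_of_lifts_eps` : the same in `ε`-form (no residue field, any valuation ring).
* `Stmt_KF0_unit`, `Stmt_Norm`, `kf0_of_norm_of_unit` : in the canonical vocabulary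
  (`IntegralFn`, `Place.ord`): the Kummer form for unit power series together with the
  normalization statement gives `Stmt_KF0`.
-/
import Fermat.Agent.S18.helper3054_Kummer
import Fermat.Agent.S18.helper3574_Normalization

set_option autoImplicit false
set_option synthInstance.maxHeartbeats 400000

noncomputable section

namespace Fermat.Agent.S18.helper3574

open HahnSeries ModularCurve AlgebraicCurve

section FixedLevel

variable {O κ K F : Type*} [CommRing O] [Field κ] [Field K] [Field F]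

/-- From an equation `z₁ = z₂ * c` between integral expansions of `u * f ^ m` and `y ^ m`
to the expansion of `u * (f / y) ^ m`. -/
theorem ev_normalized_eq (i : O →+* K) (ev : F →+* LaurentSeries K) (m : ℕ) (u f y : F)
    (hy : y ≠ 0) (z₁ z₂ c : LaurentSeries O) (hz₁ : coeffMap i z₁ = ev (u * f ^ m))
    (hz₂ : coeffMap i z₂ = ev (y ^ m)) (hzz : z₁ = z₂ * c) :
    ev (u * (f / y) ^ m) = coeffMap i c := by
  have hevy : ev (y ^ m) ≠ 0 := by
    rw [Ne, map_eq_zero]
    exact pow_ne_zero m hy
  have hkey : ev (u * (f / y) ^ m) * ev (y ^ m) = coeffMap i c * ev (y ^ m) := by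
    rw [← map_mul]
    have hF : u * (f / y) ^ m * y ^ m = u * f ^ m := by
      rw [div_pow, mul_assoc, div_mul_cancel₀ _ (pow_ne_zero m hy)]
    rw [hF, ← hz₁, hzz, map_mul, hz₂, mul_comm]
  exact mul_right_cancel₀ hevy hkey

/-- **Normalization, fixed level.**  `ȳ` a reduced function of exact pole order `N`
(no coefficients below `-N`, nonzero coefficient at `-N`); `z₁`, `z₂` integral expansions of
`u * f ^ m` and `y ^ m` without coefficients below `m * -N` and with reduction `ȳ ^ m`.  Then
`y ≠ 0` and `u * (f / y) ^ m` has an expansion which is a power series over `O` reducing to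
`1`. -/
theorem normalization_of_lifts (res : O →+* κ) [IsLocalHom res] (i : O →+* K)
    (hi : Function.Injective i) (ev : F →+* LaurentSeries K) (m : ℕ) (hm : 0 < m) (u f y : F)
    (N : ℤ) (ybar : LaurentSeries κ) (hord : ∀ j : ℤ, j < -N → ybar.coeff j = 0)
    (hlead : ybar.coeff (-N) ≠ 0) (z₁ z₂ : LaurentSeries O)
    (hz₁ : coeffMap i z₁ = ev (u * f ^ m)) (hz₁ord : ∀ j : ℤ, j < (m : ℤ) * -N → z₁.coeff j = 0)
    (hz₁red : coeffMap res z₁ = ybar ^ m)
    (hz₂ : coeffMap i z₂ = ev (y ^ m)) (hz₂ord : ∀ j : ℤ, j < (m : ℤ) * -N → z₂.coeff j = 0)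
    (hz₂red : coeffMap res z₂ = ybar ^ m) :
    y ≠ 0 ∧ ∃ p : PowerSeries O, p.map res = 1 ∧
      ev (u * (f / y) ^ m) = coeffMap i (HahnSeries.ofPowerSeries ℤ O p) := by
  obtain ⟨-, hpowlead⟩ := coeff_pow_of_coeff_eq_zero (-N) ybar hord m
  have hlead₂ : res (z₂.coeff ((m : ℤ) * -N)) ≠ 0 := by
    have h := congrArg (fun s : LaurentSeries κ => s.coeff ((m : ℤ) * -N)) hz₂red
    simp only [coeffMap_coeff] at h
    rw [h, hpowlead]
    exact pow_ne_zero m hlead
  obtain ⟨p, hp, hzz⟩ := exists_powerSeries_map_eq_one res _ z₁ z₂ hz₁ord hz₂ord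
    (hz₁red.trans hz₂red.symm) hlead₂
  have hz₂0 : z₂ ≠ 0 := by
    intro h0
    apply hlead₂
    rw [h0, HahnSeries.coeff_zero, map_zero]
  have hy : y ≠ 0 := by
    intro hy0
    have h1 : coeffMap i z₂ = 0 := by
      rw [hz₂, hy0, zero_pow (Nat.pos_iff_ne_zero.mp hm), map_zero]
    apply hz₂0
    ext k
    have h2 := congrArg (fun s : LaurentSeries K => s.coeff k) h1
    simp only [coeffMap_coeff, HahnSeries.coeff_zero] at h2
    rw [HahnSeries.coeff_zero]
    exact hi (by rw [h2, map_zero])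
  exact ⟨hy, p, hp, ev_normalized_eq i ev m u f y hy z₁ z₂ _ hz₁ hz₂ hzz⟩

/-- **Normalization, fixed level, `ε`-form** (any commutative ring `O`; no residue field).
`z₁`, `z₂` integral expansions of `u * f ^ m` and `y ^ m` without coefficients below `M`,
`z₁ = z₂ + ε • z₃`, and the coefficient of `z₂` at `M` a unit.  Then
`u * (f / y) ^ m = 1 + ε • v` for a power series `v` over `O`. -/
theorem normalization_of_lifts_eps (i : O →+* K) (ev : F →+* LaurentSeries K) (m : ℕ)
    (u f y : F) (hy : y ≠ 0) (ε : O) (M : ℤ) (z₁ z₂ z₃ : LaurentSeries O)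
    (hz₁ : coeffMap i z₁ = ev (u * f ^ m)) (hz₁ord : ∀ j : ℤ, j < M → z₁.coeff j = 0)
    (hz₂ : coeffMap i z₂ = ev (y ^ m)) (hz₂ord : ∀ j : ℤ, j < M → z₂.coeff j = 0)
    (hdiff : z₁ = z₂ + ε • z₃) (hlead : IsUnit (z₂.coeff M)) :
    ∃ v : PowerSeries O,
      ev (u * (f / y) ^ m) = coeffMap i (HahnSeries.ofPowerSeries ℤ O (1 + ε • v)) := by
  obtain ⟨v, hzz⟩ := exists_powerSeries_one_add_smul ε M z₁ z₂ z₃ hz₁ord hz₂ord hdiff hlead
  exact ⟨v, ev_normalized_eq i ev m u f y hy z₁ z₂ _ hz₁ hz₂ hzz⟩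

end FixedLevel

section Canonical

open Fermat.Agent.S18.helper3054

/-- **Kummer form for unit power series**: the statement `Stmt_KF0` restricted to a function
`U` of the characteristic-zero function field whose `q`-expansion is a power series with
coefficients in `A` reducing to `1`.  This is what steps 3-4 of track C (leaf D6) prove. -/
def Stmt_KF0_unit (N : ℕ) [NeZero N] (ℓ : ℕ) : Prop :=
  ∀ (A : ValuationSubring (AlgebraicClosure ℚ)), A.LiesOverPrime ℓ →
  ∀ (m : ℕ), ¬ ℓ ∣ m →
  ∀ (p : PowerSeries A), p.map (IsLocalRing.residue A) = 1 →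
  ∀ (U : modularFunctionFieldBar N),
    (U : LaurentSeries (AlgebraicClosure ℚ)) =
      coeffMap A.subtype (HahnSeries.ofPowerSeries ℤ A p) →
    (∀ P : Place (AlgebraicClosure ℚ) (modularFunctionFieldBar N), (m : ℤ) ∣ P.ord U) →
    ∃ (V : modularFunctionFieldBar N) (c' : AlgebraicClosure ℚ),
      U = algebraMap (AlgebraicClosure ℚ) (modularFunctionFieldBar N) c' * V ^ m

/-- **Normalization statement** in the canonical vocabulary: for every Kummer datum
`(a, b, w)` of `Stmt_KF0` there are functions `f`, `y ≠ 0` such that `(a / b) * (f / y) ^ m`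
has a `q`-expansion which is a power series over `A` reducing to `1`. -/
def Stmt_Norm (N : ℕ) [NeZero N] (ℓ : ℕ) : Prop :=
  ∀ (A : ValuationSubring (AlgebraicClosure ℚ)), A.LiesOverPrime ℓ →
  ∀ (m : ℕ), ¬ ℓ ∣ m →
  ∀ (a b : IntegralFn A N),
    (∀ P : Place (AlgebraicClosure ℚ) (modularFunctionFieldBar N),
      (m : ℤ) ∣ P.ord a.gen - P.ord b.gen) →
    ∀ (w : modularFunctionFieldFullC (IsLocalRing.ResidueField A) N), w ≠ 0 →
      a.red = w ^ m * b.red →
      ∃ (f y : modularFunctionFieldBar N) (p : PowerSeries A), y ≠ 0 ∧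
        p.map (IsLocalRing.residue A) = 1 ∧
        ((a.gen / b.gen * (f / y) ^ m : modularFunctionFieldBar N) :
            LaurentSeries (AlgebraicClosure ℚ)) =
          coeffMap A.subtype (HahnSeries.ofPowerSeries ℤ A p)

/-- The expansion of a power series reducing to `1` is nonzero. -/
theorem coeffMap_ofPowerSeries_ne_zero {A : ValuationSubring (AlgebraicClosure ℚ)}
    (p : PowerSeries A) (hp : p.map (IsLocalRing.residue A) = 1) :
    coeffMap A.subtype (HahnSeries.ofPowerSeries ℤ A p) ≠ 0 := by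
  intro h0
  have h1 := congrArg (fun s : LaurentSeries (AlgebraicClosure ℚ) => s.coeff ((0 : ℕ) : ℤ)) h0
  simp only [coeffMap_coeff, HahnSeries.coeff_zero] at h1
  rw [ofPS_coeff_natCast] at h1
  have h2 : PowerSeries.coeff 0 p = 0 := Subtype.ext h1
  have h3 := congrArg (PowerSeries.coeff 0) hp
  rw [PowerSeries.coeff_map, h2, map_zero, PowerSeries.coeff_one, if_pos rfl] at h3
  exact zero_ne_one h3

/-- **Glue**: normalization + the Kummer form for unit power series give `Stmt_KF0`. -/
theorem kf0_of_norm_of_unit (N : ℕ) [NeZero N] (ℓ : ℕ) (hN : Stmt_Norm N ℓ)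
    (hU : Stmt_KF0_unit N ℓ) : Stmt_KF0 N ℓ := by
  intro A hA m hm a b hdvd w hw hred
  obtain ⟨f, y, p, hy, hp, hexp⟩ := hN A hA m hm a b hdvd w hw hred
  set U : modularFunctionFieldBar N := a.gen / b.gen * (f / y) ^ m with hUdef
  have hU0 : U ≠ 0 := by
    intro h0
    apply coeffMap_ofPowerSeries_ne_zero p hp
    rw [← hexp, h0]
    rfl
  have ha0 := a.gen_ne_zero
  have hb0 := b.gen_ne_zero
  have hmne : m ≠ 0 := by
    rintro rfl
    exact hm (dvd_zero ℓ)
  have hf : f ≠ 0 := by
    rintro rfl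
    apply hU0
    rw [hUdef, zero_div, zero_pow hmne, mul_zero]
  have hUord : ∀ P : Place (AlgebraicClosure ℚ) (modularFunctionFieldBar N),
      (m : ℤ) ∣ P.ord U := by
    intro P
    have h1 : P.ord U = (P.ord a.gen - P.ord b.gen) + (m : ℤ) * (P.ord f - P.ord y) := by
      rw [hUdef, P.ord_mul (div_ne_zero ha0 hb0) (pow_ne_zero m (div_ne_zero hf hy)),
        div_eq_mul_inv, P.ord_mul ha0 (inv_ne_zero hb0), P.ord_inv, ord_pow,
        div_eq_mul_inv, P.ord_mul hf (inv_ne_zero hy), P.ord_inv]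
      ring
    rw [h1]
    exact dvd_add (hdvd P) (dvd_mul_right _ _)
  obtain ⟨V, c', hV⟩ := hU A hA m hm p hp U hexp hUord
  refine ⟨V * (y / f), c', ?_⟩
  have h2 : a.gen = U * (y / f) ^ m * b.gen := by
    rw [hUdef, div_pow, div_pow]
    field_simp
  rw [h2, hV, mul_pow]
  ring

end Canonical

end Fermat.Agent.S18.helper3574
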