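/-
S18, track C, leaf (C5) = S18-C-NORM (helper3574): the NORMALIZATION Prop of the track-C
interface `helper99_SpecC`, derived from (C0)-(C4):

  `norm_of_trackC : PlaceFacts N → Stmt_R N → Stmt_Gauss N A → Stmt_BD N A → Stmt_Bbar N A →
      A.LiesOverPrime ℓ → helper99.Stmt_Norm N ℓ A`

Situation: `a b` integral functions at `A`, `m ∣ div (a / b)`, `ā = w ^ m * b̄`.  Output: `g ≠ 0`
and a power series `p` over `A` reducing to `1` with `p * b = a * g ^ m`.

Proof (the `V'`-trick of the plan, no cartesian basis, no number-field descent):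
* `u = a / b`, `m D0 = div u`, `V_n = L(D0 + n ∞)`, `W_n = L(n ∞)`; both have dimension
  `≥ n + 1 - s` by (C1) and `helper981.riemann_bound` (`s = dim S₂(Γ₀(N))`).
* `gauss_lemma_rankOne` + `rankOne_Qbar` + the normal form of `helper8991` give the ATTAINED
  NORM for bounded functions: a function regular away from `∞` is a constant times a primitive
  integral series (`exists_primitive_of_regAway`, from (C3)).
* `lattice_count` (max-pivot echelon over the valuation ring): a finite-dimensional space of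
  such series contains `dim` integral series with independent reductions.  Applied to
  `u f0 ^ (m-1) V_n ⊆ L(m n ∞)` and to `W_n`.
* `tw_lift`: for `f` in the Gauss unit ball of `V_n`, `u f ^ m` is integral, its reduction is
  `(w ρ(f)) ^ m`, lies in `B` by (C4).ct, so `w ρ(f) ∈ B` by (C4).root ((C2) puts `ρ(f)` in the
  characteristic-`ℓ` function field).
* `dim B_{≤ n} + s ≤ n + 1` for large `n` by (C4).const/.kl, the integral basis of `S₂`
  (S23 + `helper5819`) and `helper4801.exists_gap_bound`.
* The squeeze and the ring-level step are `helper3574.normalization` (landed).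
-/
import Mathlib
import Fermat.Agent.S18.helper99_SpecC
import Fermat.Agent.S18.helper8991_GaussInst
import Fermat.Agent.S18.helper981_Riemann
import Fermat.Agent.S18.helper4801_GapAlg
import Fermat.Agent.S18.helper9428_RankOne
import Fermat.Agent.S18.helper3574_NormGlue
import Fermat.Agent.S23.helper23_Final

set_option autoImplicit false
set_option synthInstance.maxHeartbeats 400000

noncomputable section

namespace Fermat.Agent.S18.helper3574

open HahnSeries ModularCurve

section GaussLemma

variable {R : Type*} [CommRing R]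

/-- Coefficients of the "tail" `q ^ M * (z_M + z_{M+1} q + ...)` at indices `≥ M`. -/
theorem coeff_single_mul_ofPS_tailPS_of_le (M : ℤ) (z : LaurentSeries R) {j : ℤ} (hj : M ≤ j) :
    (HahnSeries.single M (1 : R) * HahnSeries.ofPowerSeries ℤ R (tailPS M z)).coeff j =
      z.coeff j := by
  rw [HahnSeries.coeff_single_mul, one_mul]
  obtain ⟨n, hn⟩ := Int.eq_ofNat_of_zero_le (sub_nonneg.mpr hj)
  rw [hn, ofPS_coeff_natCast, coeff_tailPS, ← hn]
  congr 1
  ring

/-- The tail of a Laurent series at an index with unit coefficient is a unit. -/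
theorem isUnit_single_mul_ofPS_tailPS (M : ℤ) (z : LaurentSeries R) (hu : IsUnit (z.coeff M)) :
    IsUnit (HahnSeries.single M (1 : R) * HahnSeries.ofPowerSeries ℤ R (tailPS M z)) := by
  refine IsUnit.mul ?_ ?_
  · refine IsUnit.of_mul_eq_one (HahnSeries.single (-M) (1 : R)) ?_
    rw [HahnSeries.single_mul_single, add_neg_cancel, one_mul]
    rfl
  · refine IsUnit.map _ ?_
    rw [PowerSeries.isUnit_iff_constantCoeff, constantCoeff_tailPS]
    exact hu

/-- Coefficientwise divisibility by a constant gives divisibility of the series. -/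
theorem exists_C_mul_of_forall_dvd [IsDomain R] (δ : R) (z : LaurentSeries R)
    (h : ∀ j, δ ∣ z.coeff j) : ∃ z' : LaurentSeries R, z = HahnSeries.C δ * z' := by
  classical
  by_cases hδ : δ = 0
  · refine ⟨0, ?_⟩
    ext j
    obtain ⟨c, hc⟩ := h j
    rw [hc, hδ]
    simp
  · choose f hf using h
    refine ⟨⟨f, z.isPWO_support.mono ?_⟩, ?_⟩
    · intro j hj
      rw [Function.mem_support] at hj
      rw [HahnSeries.mem_support, hf j]
      exact mul_ne_zero hδ hj
    · ext j
      rw [HahnSeries.C_mul_eq_smul, HahnSeries.coeff_smul, hf j]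
      rfl

end GaussLemma

section Valuation

variable {L : Type*} [Field L] (A : ValuationSubring L)

/-- Finitely many non-units of a valuation ring have a common non-unit divisor. -/
theorem exists_nonunit_dvd_finset (g : ℤ → A) (s : Finset ℤ) (hs : ∀ j ∈ s, ¬ IsUnit (g j)) :
    ∃ δ : A, ¬ IsUnit δ ∧ ∀ j ∈ s, δ ∣ g j := by
  classical
  induction s using Finset.induction_on with
  | empty => exact ⟨0, not_isUnit_zero, fun j hj => absurd hj (Finset.notMem_empty j)⟩
  | insert a s _ ih =>
    obtain ⟨δ, hδ, hdvd⟩ := ih fun j hj => hs j (Finset.mem_insert_of_mem hj)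
    rcases ValuationRing.dvd_total δ (g a) with h | h
    · refine ⟨δ, hδ, fun j hj => ?_⟩
      rcases Finset.mem_insert.mp hj with rfl | hj
      · exact h
      · exact hdvd j hj
    · refine ⟨g a, hs a (Finset.mem_insert_self a s), fun j hj => ?_⟩
      rcases Finset.mem_insert.mp hj with rfl | hj
      · exact dvd_rfl
      · exact h.trans (hdvd j hj)

/-- **Gauss lemma for a rank-one valuation ring** (no discreteness): if `y * Y = c * X` with
`Y` primitive, then `c` divides `y`. -/
theorem gauss_lemma_rankOne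
    (hr : ∀ t : A, ¬ IsUnit t → ∀ c : A, c ≠ 0 → ∃ n : ℕ, c ∣ t ^ n)
    (y Y X : LaurentSeries A) (c : A) (hc : c ≠ 0)
    (hY : coeffMap (IsLocalRing.residue A) Y ≠ 0) (h : y * Y = HahnSeries.C c * X) :
    ∃ y' : LaurentSeries A, y = HahnSeries.C c * y' := by
  set j0 : ℤ := (coeffMap (IsLocalRing.residue A) Y).order with hj0
  have hu : IsUnit (Y.coeff j0) := by
    rw [← IsLocalRing.residue_ne_zero_iff_isUnit, ← coeffMap_coeff]
    exact HahnSeries.coeff_order_eq_zero.not.mpr hY
  have hlow : ∀ j : ℤ, j < j0 → ¬ IsUnit (Y.coeff j) := by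
    intro j hj
    rw [← IsLocalRing.residue_ne_zero_iff_isUnit, not_not, ← coeffMap_coeff]
    exact HahnSeries.coeff_eq_zero_of_lt_order hj
  obtain ⟨δ, hδ, hδdvd⟩ := exists_nonunit_dvd_finset A (fun j => Y.coeff j)
    (Finset.Ico Y.order j0) (fun j hj => hlow j (Finset.mem_Ico.mp hj).2)
  set Yh : LaurentSeries A :=
    HahnSeries.single j0 (1 : A) * HahnSeries.ofPowerSeries ℤ A (tailPS j0 Y) with hYh
  obtain ⟨W, hW⟩ := (isUnit_single_mul_ofPS_tailPS j0 Y hu).exists_right_inv
  obtain ⟨Y', hY'⟩ := exists_C_mul_of_forall_dvd δ (Y - Yh) (by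
    intro j
    rw [HahnSeries.coeff_sub]
    rcases lt_or_ge j j0 with hj | hj
    · rw [hYh, coeff_single_mul_ofPS_of_lt _ _ hj, sub_zero]
      rcases lt_or_ge j Y.order with hjo | hjo
      · rw [HahnSeries.coeff_eq_zero_of_lt_order hjo]
        exact dvd_zero δ
      · exact hδdvd j (Finset.mem_Ico.mpr ⟨hjo, hj⟩)
    · rw [hYh, coeff_single_mul_ofPS_tailPS_of_le _ _ hj, sub_self]
      exact dvd_zero δ)
  obtain ⟨n, b, hb⟩ := hr δ hδ c hc
  set Z : LaurentSeries A := Y' * W with hZ
  set T : LaurentSeries A := -(HahnSeries.C δ * Z) with hT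
  have hYd : Y = HahnSeries.C δ * Y' + Yh := by rw [← hY']; ring
  have h' : y * (HahnSeries.C δ * Y' + Yh) = HahnSeries.C c * X := by rw [← hYd]; exact h
  have h1 : y * (1 - T) = HahnSeries.C c * (X * W) := by
    rw [hT, hZ]
    linear_combination W * h' - y * hW
  have h2 := mul_neg_geom_sum T n
  have h3 : T ^ n = HahnSeries.C c * ((-1) ^ n * HahnSeries.C b * Z ^ n) := by
    have e1 : T ^ n = (-1) ^ n * HahnSeries.C (δ ^ n) * Z ^ n := by
      rw [hT, map_pow]
      ring
    rw [e1, hb, map_mul]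
    ring
  refine ⟨X * W * (∑ i ∈ Finset.range n, T ^ i) + y * ((-1) ^ n * HahnSeries.C b * Z ^ n), ?_⟩
  calc y = y * ((1 - T) * ∑ i ∈ Finset.range n, T ^ i) + y * T ^ n := by rw [h2]; ring
    _ = y * (1 - T) * (∑ i ∈ Finset.range n, T ^ i) + y * T ^ n := by ring
    _ = HahnSeries.C c * (X * W * (∑ i ∈ Finset.range n, T ^ i) +
          y * ((-1) ^ n * HahnSeries.C b * Z ^ n)) := by rw [h1, h3]; ring

/-- **Attained norm** from a normal form: an integral series `y` with
`ι y * ι Y = c * ι X`, `X`, `Y` primitive, is a constant times a primitive integral series. -/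
theorem exists_primitive_of_normal_form
    (hr : ∀ t : A, ¬ IsUnit t → ∀ c : A, c ≠ 0 → ∃ n : ℕ, c ∣ t ^ n)
    (y : LaurentSeries A) (c : L) (X Y : LaurentSeries A) (hc : c ≠ 0)
    (hX : coeffMap (IsLocalRing.residue A) X ≠ 0) (hY : coeffMap (IsLocalRing.residue A) Y ≠ 0)
    (h : coeffMap A.subtype y * coeffMap A.subtype Y = HahnSeries.C c * coeffMap A.subtype X) :
    ∃ (t : A) (y' : LaurentSeries A), t ≠ 0 ∧ coeffMap (IsLocalRing.residue A) y' ≠ 0 ∧
      y = HahnSeries.C t * y' := by
  by_cases hcA : c ∈ A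
  · set c' : A := ⟨c, hcA⟩ with hc'def
    have hc' : c' ≠ 0 := fun h0 => hc (congrArg Subtype.val h0)
    have e : y * Y = HahnSeries.C c' * X := by
      apply helper8991.inc_injective A
      rw [map_mul, map_mul, helper8991.inc_C]
      exact h
    obtain ⟨y', hy'⟩ := gauss_lemma_rankOne A hr y Y X c' hc' hY e
    refine ⟨c', y', hc', ?_, hy'⟩
    have hC : (HahnSeries.C c' : LaurentSeries A) ≠ 0 := by
      intro h0
      apply hc'
      have := congrArg (fun s : LaurentSeries A => s.coeff 0) h0
      simpa using this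
    have e2 : y' * Y = X := by
      apply mul_left_cancel₀ hC
      rw [← e, hy']
      ring
    intro h0
    apply hX
    rw [← e2, map_mul, h0, zero_mul]
  · have hinv : c⁻¹ ∈ A := (A.mem_or_inv_mem c).resolve_left hcA
    set e : A := ⟨c⁻¹, hinv⟩ with hedef
    have he : ¬ IsUnit e := by
      intro hu
      obtain ⟨b, hb⟩ := hu.exists_right_inv
      have h1 : c⁻¹ * (b : L) = 1 := congrArg Subtype.val hb
      have h2 : (b : L) = c := by
        field_simp at h1
        exact h1
      exact hcA (h2 ▸ b.2)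
    have hres : IsLocalRing.residue A e = 0 := by
      rw [IsLocalRing.residue_eq_zero_iff, IsLocalRing.mem_maximalIdeal, mem_nonunits_iff]
      exact he
    have e1 : HahnSeries.C e * (y * Y) = X := by
      apply helper8991.inc_injective A
      rw [map_mul, map_mul, helper8991.inc_C, h]
      exact helper8991.C_inv_mul_C_mul hc _
    exfalso
    apply hX
    rw [← e1, map_mul, helper8991.red_C, hres, map_zero, zero_mul]

end Valuation

section RankOne

local notation "Qb" => AlgebraicClosure ℚ

/-- Every valuation subring of `ℚ̄` has the rank-one property (trivially if it is `ℚ̄`). -/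
theorem rankOne_Qbar (A : ValuationSubring Qb) :
    ∀ t : A, ¬ IsUnit t → ∀ c : A, c ≠ 0 → ∃ n : ℕ, c ∣ t ^ n := by
  intro t ht c hc
  by_cases hp : ∃ p : ℕ, p.Prime ∧ ((p : ℕ) : Qb) ∈ A.nonunits
  · obtain ⟨p, hpp, hpA⟩ := hp
    have htn : (t : Qb) ∈ A.nonunits :=
      ValuationSubring.coe_mem_nonunits_iff.mpr (by
        rw [IsLocalRing.mem_maximalIdeal, mem_nonunits_iff]; exact ht)
    have hc0 : (c : Qb) ≠ 0 := fun h => hc (Subtype.ext h)
    obtain ⟨n, b, hb, hn⟩ := helper9428.exists_pow_eq_mul hpp hpA htn hc0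
    exact ⟨n, ⟨b, hb⟩, Subtype.ext (by simpa using hn)⟩
  · push Not at hp
    refine ⟨1, ?_⟩
    suffices h0 : t = 0 by rw [h0]; simp
    by_contra ht0
    apply ht
    have ht0' : (t : Qb) ≠ 0 := fun h => ht0 (Subtype.ext h)
    have hnat : ∀ n : ℕ, ((n : Qb))⁻¹ ∈ A := by
      intro n
      induction n using Nat.recOnMul with
      | zero => simp
      | one => simp
      | prime p hp' =>
        have h1 : A.valuation (p : Qb) = 1 := by
          have hle : A.valuation (p : Qb) ≤ 1 := (A.valuation_le_one_iff _).2 (natCast_mem A p)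
          have hnot := hp p hp'
          rw [A.mem_nonunits_iff] at hnot
          exact le_antisymm hle (not_lt.mp hnot)
        rw [← A.valuation_le_one_iff, map_inv₀, h1, inv_one]
      | mul a b ha hb =>
        push_cast
        rw [mul_inv]
        exact A.mul_mem _ _ ha hb
    have hint : ∀ z : ℤ, ((z : Qb))⁻¹ ∈ A := by
      intro z
      obtain ⟨n, rfl | rfl⟩ := Int.eq_nat_or_neg z
      · rw [Int.cast_natCast]
        exact hnat n
      · rw [Int.cast_neg, Int.cast_natCast, inv_neg]
        exact A.neg_mem _ (hnat n)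
    have halg : @IsAlgebraic ℤ Qb _ _ (Ring.toIntAlgebra Qb) ((t : Qb)⁻¹) :=
      (helper9428.isAlgebraic_int_Qbar).isAlgebraic _
    obtain ⟨z, hz0, hz⟩ := halg.exists_integral_multiple
    have hmem := helper9428.mem_of_isIntegral_int A hz
    rw [zsmul_eq_mul] at hmem
    have hz0' : (z : Qb) ≠ 0 := by exact_mod_cast hz0
    have e : (t : Qb)⁻¹ = (z : Qb)⁻¹ * ((z : Qb) * (t : Qb)⁻¹) := by
      field_simp
    have htinv : (t : Qb)⁻¹ ∈ A := by
      rw [e]
      exact A.mul_mem _ _ (hint z) hmem
    exact IsUnit.of_mul_eq_one ⟨_, htinv⟩ (Subtype.ext (by simp [ht0']))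

end RankOne

section Lattice

variable {L : Type*} [Field L] (A : ValuationSubring L)

/-- The coefficient functional. -/
def coeffLin (k : Type*) [Field k] (j : ℤ) : LaurentSeries k →ₗ[k] k where
  toFun x := x.coeff j
  map_add' x y := by simp
  map_smul' a x := by simp

@[simp]
theorem coeffLin_apply (k : Type*) [Field k] (j : ℤ) (x : LaurentSeries k) :
    coeffLin k j x = x.coeff j := rfl

/-- **Lattice count** (max-pivot echelon over a valuation ring): if every nonzero element of the
image of a finite-dimensional space `E` of Laurent series is, up to a constant, a primitive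
integral series, then the image contains `dim E` integral series with linearly independent
reductions. -/
theorem lattice_count : ∀ (d : ℕ) (E : Type) [AddCommGroup E] [Module L E] [FiniteDimensional L E]
    (Φ : E →ₗ[L] LaurentSeries L),
    (∀ e : E, e ≠ 0 → ∃ (c : L) (y : LaurentSeries A),
      coeffMap (IsLocalRing.residue A) y ≠ 0 ∧ coeffMap A.subtype y = Φ (c • e)) →
    d ≤ Module.finrank L E →
    ∃ y : Fin d → LaurentSeries A, (∀ i, ∃ e : E, coeffMap A.subtype (y i) = Φ e) ∧
      LinearIndependent (IsLocalRing.ResidueField A)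
        (fun i => coeffMap (IsLocalRing.residue A) (y i)) := by
  intro d
  induction d with
  | zero =>
    intro E _ _ _ Φ _ _
    exact ⟨Fin.elim0, fun i => i.elim0, linearIndependent_empty_type⟩
  | succ d ih =>
    intro E _ _ _ Φ hP hd
    have hpos : 0 < Module.finrank L E := by omega
    obtain ⟨e, he⟩ := Module.finrank_pos_iff_exists_ne_zero.mp hpos
    obtain ⟨c, y₀, hy₀, hy₀e⟩ := hP e he
    set j : ℤ := (coeffMap (IsLocalRing.residue A) y₀).order with hj
    have hj0 : (coeffMap (IsLocalRing.residue A) y₀).coeff j ≠ 0 :=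
      HahnSeries.coeff_order_eq_zero.not.mpr hy₀
    set ψ : E →ₗ[L] L := (coeffLin L j).comp Φ with hψ
    have hker : d ≤ Module.finrank L (LinearMap.ker ψ) := by
      have h1 := LinearMap.finrank_range_add_finrank_ker ψ
      have h2 : Module.finrank L (LinearMap.range ψ) ≤ 1 := by
        have := Submodule.finrank_le (LinearMap.range ψ)
        rwa [Module.finrank_self] at this
      omega
    obtain ⟨y, hy, hyind⟩ := ih (LinearMap.ker ψ) (Φ.comp (LinearMap.ker ψ).subtype)
      (fun e₁ he₁ => by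
        obtain ⟨c₁, y₁, hy₁, hy₁e⟩ := hP (e₁ : E) (fun h => he₁ (Subtype.ext h))
        exact ⟨c₁, y₁, hy₁, by rw [hy₁e]; rfl⟩) hker
    have hyj : ∀ i, (coeffMap (IsLocalRing.residue A) (y i)).coeff j = 0 := by
      intro i
      obtain ⟨e₁, he₁⟩ := hy i
      have h1 : ψ (e₁ : E) = 0 := e₁.2
      have h2 : (coeffMap A.subtype (y i)).coeff j = 0 := by
        rw [he₁]
        exact h1
      rw [coeffMap_coeff] at h2 ⊢
      have h3 : (y i).coeff j = 0 := Subtype.ext h2
      rw [h3, map_zero]
    refine ⟨Fin.cons y₀ y, ?_, ?_⟩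
    · intro i
      refine Fin.cases ?_ (fun i => ?_) i
      · exact ⟨c • e, by rw [Fin.cons_zero]; exact hy₀e⟩
      · obtain ⟨e₁, he₁⟩ := hy i
        exact ⟨(e₁ : E), by rw [Fin.cons_succ]; exact he₁⟩
    · have hfun : (fun i => coeffMap (IsLocalRing.residue A) ((Fin.cons y₀ y : Fin (d + 1) → _) i))
          = Fin.cons (coeffMap (IsLocalRing.residue A) y₀)
              (fun i => coeffMap (IsLocalRing.residue A) (y i)) := by
        funext i
        refine Fin.cases ?_ (fun i => ?_) i
        · simp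
        · simp
      rw [hfun, linearIndependent_finCons]
      refine ⟨hyind, fun hmem => hj0 ?_⟩
      have hle : Submodule.span (IsLocalRing.ResidueField A)
          (Set.range fun i => coeffMap (IsLocalRing.residue A) (y i)) ≤
          LinearMap.ker (coeffLin (IsLocalRing.ResidueField A) j) := by
        rw [Submodule.span_le]
        rintro _ ⟨i, rfl⟩
        exact hyj i
      exact hle hmem

end Lattice

section TwSpace

variable {L : Type*} [Field L] (A : ValuationSubring L)

/-- If an integral series is `c` times a primitive integral series, then `c` is integral. -/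
theorem mem_of_C_mul_eq (c : L) (P Q : LaurentSeries A)
    (hP : coeffMap (IsLocalRing.residue A) P ≠ 0)
    (h : coeffMap A.subtype Q = HahnSeries.C c * coeffMap A.subtype P) : c ∈ A := by
  by_contra hcA
  have hc : c ≠ 0 := fun h0 => hcA (h0 ▸ A.zero_mem)
  have hinv : c⁻¹ ∈ A := (A.mem_or_inv_mem c).resolve_left hcA
  set e : A := ⟨c⁻¹, hinv⟩ with hedef
  have he : ¬ IsUnit e := by
    intro hu
    obtain ⟨b, hb⟩ := hu.exists_right_inv
    have h1 : c⁻¹ * (b : L) = 1 := congrArg Subtype.val hb
    have h2 : (b : L) = c := by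
      field_simp at h1
      exact h1
    exact hcA (h2 ▸ b.2)
  have hres : IsLocalRing.residue A e = 0 := by
    rw [IsLocalRing.residue_eq_zero_iff, IsLocalRing.mem_maximalIdeal, mem_nonunits_iff]
    exact he
  have e1 : HahnSeries.C e * Q = P := by
    apply helper8991.inc_injective A
    rw [map_mul, helper8991.inc_C, h]
    exact helper8991.C_inv_mul_C_mul hc _
  apply hP
  rw [← e1, map_mul, helper8991.red_C, hres, map_zero, zero_mul]

/-- If `x ^ m` has no coefficients below `m * n`, then `x` has none below `n`. -/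
theorem coeff_eq_zero_of_pow {k : Type*} [Field k] (x : LaurentSeries k) (m : ℕ) (hm : 0 < m)
    (n : ℤ) (h : ∀ j : ℤ, j < (m : ℤ) * n → (x ^ m).coeff j = 0) :
    ∀ j : ℤ, j < n → x.coeff j = 0 := by
  intro j hj
  by_cases hx : x = 0
  · rw [hx, HahnSeries.coeff_zero]
  · have hlead : x.coeff x.order ≠ 0 := HahnSeries.coeff_order_eq_zero.not.mpr hx
    obtain ⟨-, hpow⟩ := coeff_pow_of_coeff_eq_zero x.order x
      (fun i hi => HahnSeries.coeff_eq_zero_of_lt_order hi) m
    have hne : (x ^ m).coeff ((m : ℤ) * x.order) ≠ 0 := by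
      rw [hpow]
      exact pow_ne_zero m hlead
    have hle : (m : ℤ) * n ≤ (m : ℤ) * x.order := by
      by_contra hlt
      exact hne (h _ (not_le.mp hlt))
    have hm' : (0 : ℤ) < m := by exact_mod_cast hm
    have hno : n ≤ x.order := le_of_mul_le_mul_left hle hm'
    exact HahnSeries.coeff_eq_zero_of_lt_order (lt_of_lt_of_le hj hno)

/-- `coeffMap` of a power series. -/
theorem coeffMap_ofPowerSeries {R S : Type*} [CommRing R] [CommRing S] (f : R →+* S)
    (p : PowerSeries R) :
    coeffMap f (HahnSeries.ofPowerSeries ℤ R p) = HahnSeries.ofPowerSeries ℤ S (p.map f) := by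
  ext j
  rw [coeffMap_coeff]
  rcases lt_or_ge j 0 with hj | hj
  · rw [ofPS_coeff_of_neg _ hj, ofPS_coeff_of_neg _ hj, map_zero]
  · lift j to ℕ using hj
    rw [ofPS_coeff_natCast, ofPS_coeff_natCast, PowerSeries.coeff_map]

/-- The space of reductions `w * ρ(f)`, `f` in the Gauss ring and in `V`. -/
def twSpace (V : Submodule L (LaurentSeries L)) (w : LaurentSeries (IsLocalRing.ResidueField A)) :
    Submodule (IsLocalRing.ResidueField A) (LaurentSeries (IsLocalRing.ResidueField A)) where
  carrier := {ybar | ∃ f : ↥(helper8991.gaussRing A (IsLocalRing.residue A)),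
    (f : LaurentSeries L) ∈ V ∧ w * helper8991.gaussRho A (IsLocalRing.residue A) f = ybar}
  add_mem' := by
    rintro _ _ ⟨f, hf, rfl⟩ ⟨g, hg, rfl⟩
    exact ⟨f + g, V.add_mem hf hg, by rw [map_add, mul_add]⟩
  zero_mem' := ⟨0, V.zero_mem, by rw [map_zero, mul_zero]⟩
  smul_mem' := by
    rintro cbar _ ⟨f, hf, rfl⟩
    obtain ⟨c, rfl⟩ := IsLocalRing.residue_surjective cbar
    refine ⟨⟨helper8991.inc A (HahnSeries.C c), helper8991.inc_mem_gaussRing A _ _⟩ * f, ?_, ?_⟩
    · show helper8991.inc A (HahnSeries.C c) * (f : LaurentSeries L) ∈ V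
      rw [helper8991.inc_C, HahnSeries.C_mul_eq_smul]
      exact V.smul_mem _ hf
    · rw [map_mul, helper8991.gaussRho_inc, helper8991.red_C, ← HahnSeries.C_mul_eq_smul]
      ring

theorem mem_twSpace (V : Submodule L (LaurentSeries L))
    (w : LaurentSeries (IsLocalRing.ResidueField A))
    (ybar : LaurentSeries (IsLocalRing.ResidueField A)) :
    ybar ∈ twSpace A V w ↔ ∃ f : ↥(helper8991.gaussRing A (IsLocalRing.residue A)),
      (f : LaurentSeries L) ∈ V ∧ w * helper8991.gaussRho A (IsLocalRing.residue A) f = ybar :=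
  Iff.rfl

/-- Multiplication by a fixed series, linear for the coefficientwise module structure. -/
def mulLin (k : Type*) [Field k] (E : LaurentSeries k) : LaurentSeries k →ₗ[k] LaurentSeries k where
  toFun x := E * x
  map_add' x y := mul_add E x y
  map_smul' c x := by
    simp only [RingHom.id_apply]
    rw [← HahnSeries.C_mul_eq_smul, ← HahnSeries.C_mul_eq_smul]
    ring

@[simp]
theorem mulLin_apply (k : Type*) [Field k] (E x : LaurentSeries k) : mulLin k E x = E * x := rfl

/-- The elements of a subalgebra `B` of Laurent series without coefficients below `-n`, as a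
subspace for the coefficientwise module structure. -/
def poleSub (k : Type*) [Field k] (B : Subalgebra k (LaurentSeries k)) (n : ℕ) :
    Submodule k (LaurentSeries k) where
  carrier := {x | x ∈ B ∧ ∀ j : ℤ, j < -(n : ℤ) → x.coeff j = 0}
  add_mem' := fun {x y} hx hy => ⟨B.add_mem hx.1 hy.1, fun j hj => by
    rw [HahnSeries.coeff_add, hx.2 j hj, hy.2 j hj, add_zero]⟩
  zero_mem' := ⟨B.zero_mem, fun j _ => HahnSeries.coeff_zero⟩
  smul_mem' := fun c x hx => ⟨by
    rw [← HahnSeries.C_mul_eq_smul, helper8991.C_eq_algebraMap]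
    exact B.mul_mem (B.algebraMap_mem c) hx.1, fun j hj => by
    rw [HahnSeries.coeff_smul, hx.2 j hj, smul_zero]⟩

theorem mem_poleSub (k : Type*) [Field k] (B : Subalgebra k (LaurentSeries k)) (n : ℕ)
    (x : LaurentSeries k) :
    x ∈ poleSub k B n ↔ x ∈ B ∧ ∀ j : ℤ, j < -(n : ℤ) → x.coeff j = 0 := Iff.rfl

end TwSpace

section Places

open AlgebraicCurve

variable {K F : Type*} [Field K] [Field F] [Algebra K F]

/-- Orders of `u * g ^ k * f` for `f g ∈ L(D0 + n ∞)`, where `div u = (k + 1) D0`. -/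
theorem ord_twist (Pinf : Place K F) (D0 : Divisor K F) (k n : ℕ) (u : F) (hu : u ≠ 0)
    (hD0 : ∀ P : Place K F, P.ord u = ((k + 1 : ℕ) : ℤ) * D0 P)
    {f g : F} (hf : f ∈ riemannRochSpace (D0 + n • Finsupp.single Pinf (1 : ℤ))) (hf0 : f ≠ 0)
    (hg : g ∈ riemannRochSpace (D0 + n • Finsupp.single Pinf (1 : ℤ))) (hg0 : g ≠ 0) :
    (∀ P : Place K F, P ≠ Pinf → 0 ≤ P.ord (u * g ^ k * f)) ∧
      -(((k + 1 : ℕ) : ℤ) * n) ≤ Pinf.ord (u * g ^ k * f) := by
  have hord : ∀ P : Place K F,
      P.ord (u * g ^ k * f) = ((k + 1 : ℕ) : ℤ) * D0 P + k * P.ord g + P.ord f := by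
    intro P
    rw [P.ord_mul (mul_ne_zero hu (pow_ne_zero k hg0)) hf0, P.ord_mul hu (pow_ne_zero k hg0),
      helper3054.ord_pow, hD0 P]
  have hfP : ∀ P : Place K F,
      -(D0 P + n * (Finsupp.single Pinf (1 : ℤ)) P) ≤ P.ord f := by
    intro P
    rcases mem_riemannRochSpace_iff.mp hf P with h | h
    · exact absurd h hf0
    · rw [Finsupp.add_apply, Finsupp.smul_apply, nsmul_eq_mul] at h
      exact h
  have hgP : ∀ P : Place K F,
      -(D0 P + n * (Finsupp.single Pinf (1 : ℤ)) P) ≤ P.ord g := by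
    intro P
    rcases mem_riemannRochSpace_iff.mp hg P with h | h
    · exact absurd h hg0
    · rw [Finsupp.add_apply, Finsupp.smul_apply, nsmul_eq_mul] at h
      exact h
  constructor
  · intro P hP
    have h1 := hfP P
    have h2 := hgP P
    rw [Finsupp.single_eq_of_ne hP, mul_zero, add_zero] at h1 h2
    rw [hord P]
    have h3 := mul_le_mul_of_nonneg_left h2 (Nat.cast_nonneg k : (0 : ℤ) ≤ k)
    push_cast
    nlinarith
  · have h1 := hfP Pinf
    have h2 := hgP Pinf
    rw [Finsupp.single_eq_same, mul_one] at h1 h2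
    rw [hord Pinf]
    have h3 := mul_le_mul_of_nonneg_left h2 (Nat.cast_nonneg k : (0 : ℤ) ≤ k)
    push_cast
    nlinarith

end Places

section Concrete

open AlgebraicCurve Fermat.Agent.S18.helper3054

local notation "Qb" => AlgebraicClosure ℚ

variable {N : ℕ} {A : ValuationSubring Qb}

/-- Bounded denominators with attained norm: a nonzero function regular away from `∞` is a
constant times a primitive integral series. -/
theorem exists_primitive_of_regAway (hBD : helper99.Stmt_BD N A)
    (x : modularFunctionFieldBar N) (hx0 : x ≠ 0) (hx : helper99.RegAwayInf N x) :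
    ∃ (c : Qb) (y : LaurentSeries A), c ≠ 0 ∧ coeffMap (IsLocalRing.residue A) y ≠ 0 ∧
      coeffMap A.subtype y = HahnSeries.C c * (x : LaurentSeries Qb) := by
  obtain ⟨c₀, hc₀, y₀, hy₀⟩ := hBD x hx
  have hx0' : (x : LaurentSeries Qb) ≠ 0 := fun h => hx0 (Subtype.ext h)
  have hC0 : (HahnSeries.C c₀ : LaurentSeries Qb) ≠ 0 := by
    intro h0
    apply hc₀
    have := congrArg (fun s : LaurentSeries Qb => s.coeff 0) h0
    simpa using this
  have hmem : coeffMap A.subtype y₀ ∈ modularFunctionFieldBar N := by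
    rw [hy₀, helper8991.C_eq_algebraMap]
    exact mul_mem (IntermediateField.algebraMap_mem _ _) x.2
  have hne : coeffMap A.subtype y₀ ≠ 0 := by
    rw [hy₀]
    exact mul_ne_zero hC0 hx0'
  obtain ⟨c, X, Y, hc, hX, hY, -, -, hnf⟩ :=
    helper8991.exists_normal_form A (IsLocalRing.residue A) N hmem hne
  obtain ⟨t, y', ht, hy', hyy'⟩ :=
    exists_primitive_of_normal_form A (rankOne_Qbar A) y₀ c X Y hc hX hY hnf
  have ht' : (t : Qb) ≠ 0 := fun h => ht (Subtype.ext h)
  refine ⟨(t : Qb)⁻¹ * c₀, y', mul_ne_zero (inv_ne_zero ht') hc₀, hy', ?_⟩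
  have h1 : coeffMap A.subtype y₀ = HahnSeries.C (t : Qb) * coeffMap A.subtype y' := by
    rw [hyy', map_mul, helper8991.inc_C]
  rw [map_mul, mul_assoc, ← hy₀, h1, helper8991.C_inv_mul_C_mul ht']

/-- **Lift of one element of the twisted space** (integrality transfer + root closure). -/
theorem tw_lift [NeZero N] (hG : helper99.Stmt_Gauss N A) (hBD : helper99.Stmt_BD N A)
    (B : Subalgebra (IsLocalRing.ResidueField A) (LaurentSeries (IsLocalRing.ResidueField A)))
    (hroot : ∀ y ∈ modularFunctionFieldFullC (IsLocalRing.ResidueField A) N, ∀ k : ℕ, 0 < k →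
      y ^ k ∈ B → y ∈ B)
    (hct : ∀ (x : LaurentSeries A) (hx : coeffMap A.subtype x ∈ modularFunctionFieldBar N),
      helper99.RegAwayInf N ⟨coeffMap A.subtype x, hx⟩ → coeffMap (IsLocalRing.residue A) x ∈ B)
    (Pinf : Place Qb (modularFunctionFieldBar N)) (hcusp : helper99.IsCuspInf N Pinf)
    (k : ℕ) (a b : IntegralFn A N)
    (w : modularFunctionFieldFullC (IsLocalRing.ResidueField A) N)
    (hred : a.red = w ^ (k + 1) * b.red)
    (D0 : Divisor Qb (modularFunctionFieldBar N))
    (hD0 : ∀ P : Place Qb (modularFunctionFieldBar N),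
      P.ord (a.gen / b.gen) = ((k + 1 : ℕ) : ℤ) * D0 P)
    (n : ℕ) (f₀ : modularFunctionFieldBar N)
    (hfV : f₀ ∈ riemannRochSpace (D0 + n • Finsupp.single Pinf (1 : ℤ)))
    (hfG : (f₀ : LaurentSeries Qb) ∈ helper8991.gaussRing A (IsLocalRing.residue A)) :
    ((w : LaurentSeries (IsLocalRing.ResidueField A)) *
        helper8991.gaussRho A (IsLocalRing.residue A) ⟨f₀, hfG⟩ ∈ B) ∧
    (∀ j : ℤ, j < -(n : ℤ) → ((w : LaurentSeries (IsLocalRing.ResidueField A)) *
        helper8991.gaussRho A (IsLocalRing.residue A) ⟨f₀, hfG⟩).coeff j = 0) ∧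
    ∃ z : LaurentSeries A,
      coeffMap A.subtype z =
        ((a.gen / b.gen * f₀ ^ (k + 1) : modularFunctionFieldBar N) : LaurentSeries Qb) ∧
      (∀ j : ℤ, j < ((k + 1 : ℕ) : ℤ) * -(n : ℤ) → z.coeff j = 0) ∧
      coeffMap (IsLocalRing.residue A) z =
        ((w : LaurentSeries (IsLocalRing.ResidueField A)) *
          helper8991.gaussRho A (IsLocalRing.residue A) ⟨f₀, hfG⟩) ^ (k + 1) := by
  set ρ := helper8991.gaussRho A (IsLocalRing.residue A) ⟨f₀, hfG⟩ with hρ
  set ybar : LaurentSeries (IsLocalRing.ResidueField A) :=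
    (w : LaurentSeries (IsLocalRing.ResidueField A)) * ρ with hybar
  have main : ∃ z : LaurentSeries A,
      coeffMap A.subtype z =
        ((a.gen / b.gen * f₀ ^ (k + 1) : modularFunctionFieldBar N) : LaurentSeries Qb) ∧
      (∀ j : ℤ, j < ((k + 1 : ℕ) : ℤ) * -(n : ℤ) → z.coeff j = 0) ∧
      coeffMap (IsLocalRing.residue A) z = ybar ^ (k + 1) ∧ ybar ∈ B := by
    by_cases hf0 : f₀ = 0
    · have hρ0 : ρ = 0 := by
        rw [hρ]
        have h0 : (⟨(f₀ : LaurentSeries Qb), hfG⟩ :
            ↥(helper8991.gaussRing A (IsLocalRing.residue A))) = 0 :=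
          Subtype.ext (by
            show (f₀ : LaurentSeries Qb) = 0
            rw [hf0]
            rfl)
        rw [h0, map_zero]
      refine ⟨0, ?_, fun j _ => HahnSeries.coeff_zero, ?_, ?_⟩
      · rw [map_zero, hf0, zero_pow (Nat.succ_ne_zero k), mul_zero]
        rfl
      · rw [map_zero, hybar, hρ0, mul_zero, zero_pow (Nat.succ_ne_zero k)]
      · rw [hybar, hρ0, mul_zero]
        exact B.zero_mem
    · have hf0' : (f₀ : LaurentSeries Qb) ≠ 0 := fun h => hf0 (Subtype.ext h)
      obtain ⟨c₁, X, Y, hc₁, hX, hY, hXF, hYF, hnf⟩ :=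
        helper8991.exists_normal_form A (IsLocalRing.residue A) N f₀.2 hf0'
      have hfG' := hfG
      obtain ⟨X', Y', hY', h'⟩ := hfG'
      have hc₁A : c₁ ∈ A := by
        refine mem_of_C_mul_eq A c₁ (X * Y') (X' * Y) ?_ ?_
        · rw [map_mul]
          exact mul_ne_zero hX hY'
        · rw [map_mul, map_mul, ← h']
          linear_combination (coeffMap A.subtype Y') * hnf
      obtain ⟨Xf, hXf⟩ : ∃ Xf : LaurentSeries A, Xf = HahnSeries.C (⟨c₁, hc₁A⟩ : A) * X :=
        ⟨_, rfl⟩
      have hXfinc : coeffMap A.subtype Xf = HahnSeries.C c₁ * coeffMap A.subtype X := by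
        rw [hXf, map_mul, helper8991.inc_C]
      have hrep : (f₀ : LaurentSeries Qb) * coeffMap A.subtype Y = coeffMap A.subtype Xf := by
        rw [hXfinc]
        exact hnf
      have hXfF : coeffMap A.subtype Xf ∈ modularFunctionFieldBar N := by
        rw [hXfinc, helper8991.C_eq_algebraMap]
        exact mul_mem (IntermediateField.algebraMap_mem _ _) hXF
      have hρeq : ρ = coeffMap (IsLocalRing.residue A) Xf / coeffMap (IsLocalRing.residue A) Y :=
        helper8991.gaussRho_eq A _ ⟨f₀, hfG⟩ hY hrep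
      have hρF : ρ ∈ modularFunctionFieldFullC (IsLocalRing.ResidueField A) N := by
        rw [hρeq]
        exact div_mem (hG Xf hXfF) (hG Y hYF)
      have hyF : ybar ∈ modularFunctionFieldFullC (IsLocalRing.ResidueField A) N :=
        mul_mem w.2 hρF
      have hb0 := b.gen_ne_zero
      have ha0 := a.gen_ne_zero
      set u : modularFunctionFieldBar N := a.gen / b.gen with hu
      have hu0 : u ≠ 0 := div_ne_zero ha0 hb0
      set x : modularFunctionFieldBar N := u * f₀ ^ (k + 1) with hx
      have hx0 : x ≠ 0 := mul_ne_zero hu0 (pow_ne_zero _ hf0)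
      have hxe : u * f₀ ^ k * f₀ = x := by rw [hx, pow_succ, mul_assoc]
      obtain ⟨hreg, hinf⟩ := ord_twist Pinf D0 k n u hu0 hD0 hfV hf0 hfV hf0
      rw [hxe] at hreg hinf
      have hxreg : helper99.RegAwayInf N x := fun P hP => hreg P (fun h => hP (h ▸ hcusp))
      obtain ⟨c, y, hc, hy, hyx⟩ := exists_primitive_of_regAway hBD x hx0 hxreg
      have hbne : coeffMap A.subtype b.y ≠ 0 := fun h => hb0 (Subtype.ext h)
      have hux : (u : LaurentSeries Qb) * coeffMap A.subtype b.y = coeffMap A.subtype a.y := by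
        rw [hu, IntermediateField.coe_div, IntegralFn.coe_gen, IntegralFn.coe_gen,
          div_mul_cancel₀ _ hbne]
      obtain ⟨Q, hQ⟩ : ∃ Q : LaurentSeries A, Q = b.y * Y ^ (k + 1) := ⟨_, rfl⟩
      obtain ⟨Pn, hPn⟩ : ∃ Pn : LaurentSeries A, Pn = a.y * Xf ^ (k + 1) := ⟨_, rfl⟩
      have hkey : (x : LaurentSeries Qb) * coeffMap A.subtype Q = coeffMap A.subtype Pn := by
        rw [hx, hQ, hPn, map_mul, map_mul, map_pow, map_pow, ← hrep, ← hux]
        push_cast
        ring
      have hcinv : c⁻¹ ∈ A := by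
        refine mem_of_C_mul_eq A c⁻¹ (y * Q) Pn ?_ ?_
        · rw [map_mul, hQ, map_mul, map_pow]
          exact mul_ne_zero hy (mul_ne_zero b.ne (pow_ne_zero _ hY))
        · rw [← hkey, map_mul, hyx, mul_assoc, helper8991.C_inv_mul_C_mul hc]
      obtain ⟨z, hz⟩ : ∃ z : LaurentSeries A, z = HahnSeries.C (⟨c⁻¹, hcinv⟩ : A) * y :=
        ⟨_, rfl⟩
      have hzinc : coeffMap A.subtype z = (x : LaurentSeries Qb) := by
        rw [hz, map_mul, helper8991.inc_C, hyx]
        exact helper8991.C_inv_mul_C_mul hc _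
      have hzQ : z * Q = Pn := by
        apply helper8991.inc_injective A
        rw [map_mul, hzinc, hkey]
      have hredz : coeffMap (IsLocalRing.residue A) z *
          (coeffMap (IsLocalRing.residue A) b.y * coeffMap (IsLocalRing.residue A) Y ^ (k + 1)) =
          coeffMap (IsLocalRing.residue A) a.y * coeffMap (IsLocalRing.residue A) Xf ^ (k + 1) := by
        have h1 := congrArg (coeffMap (IsLocalRing.residue A)) hzQ
        rw [hQ, hPn, map_mul, map_mul, map_mul, map_pow, map_pow] at h1
        exact h1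
      have hred' : coeffMap (IsLocalRing.residue A) a.y =
          (w : LaurentSeries (IsLocalRing.ResidueField A)) ^ (k + 1) *
            coeffMap (IsLocalRing.residue A) b.y := by
        have h1 : ((a.red : modularFunctionFieldFullC (IsLocalRing.ResidueField A) N) :
              LaurentSeries (IsLocalRing.ResidueField A)) =
            ((w ^ (k + 1) * b.red : modularFunctionFieldFullC (IsLocalRing.ResidueField A) N) :
              LaurentSeries (IsLocalRing.ResidueField A)) := congrArg Subtype.val hred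
        rw [IntermediateField.coe_mul, IntermediateField.coe_pow] at h1
        exact h1
      have hzred : coeffMap (IsLocalRing.residue A) z = ybar ^ (k + 1) := by
        have hb' : coeffMap (IsLocalRing.residue A) b.y ≠ 0 := b.ne
        have hY' : coeffMap (IsLocalRing.residue A) Y ^ (k + 1) ≠ 0 := pow_ne_zero _ hY
        have e : ybar ^ (k + 1) * (coeffMap (IsLocalRing.residue A) b.y *
            coeffMap (IsLocalRing.residue A) Y ^ (k + 1)) =
            coeffMap (IsLocalRing.residue A) a.y * coeffMap (IsLocalRing.residue A) Xf ^ (k + 1) := by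
          rw [hybar, hρeq, hred', mul_pow, div_pow]
          calc (w : LaurentSeries (IsLocalRing.ResidueField A)) ^ (k + 1) *
                (coeffMap (IsLocalRing.residue A) Xf ^ (k + 1) /
                  coeffMap (IsLocalRing.residue A) Y ^ (k + 1)) *
                (coeffMap (IsLocalRing.residue A) b.y * coeffMap (IsLocalRing.residue A) Y ^ (k + 1))
              = (w : LaurentSeries (IsLocalRing.ResidueField A)) ^ (k + 1) *
                coeffMap (IsLocalRing.residue A) b.y *
                (coeffMap (IsLocalRing.residue A) Xf ^ (k + 1) /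
                  coeffMap (IsLocalRing.residue A) Y ^ (k + 1) *
                  coeffMap (IsLocalRing.residue A) Y ^ (k + 1)) := by ring
            _ = _ := by rw [div_mul_cancel₀ _ hY']
        exact mul_right_cancel₀ (mul_ne_zero hb' hY') (hredz.trans e.symm)
      have hzord : ∀ j : ℤ, j < ((k + 1 : ℕ) : ℤ) * -(n : ℤ) → z.coeff j = 0 := by
        intro j hj
        have hord := hcusp x hx0
        have hlt : j < (x : LaurentSeries Qb).order := by
          rw [← hord]
          linarith
        have h0 : (coeffMap A.subtype z).coeff j = 0 := by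
          rw [hzinc]
          exact HahnSeries.coeff_eq_zero_of_lt_order hlt
        rw [coeffMap_coeff] at h0
        exact Subtype.ext h0
      have hzB : coeffMap (IsLocalRing.residue A) z ∈ B := by
        have hmem : coeffMap A.subtype z ∈ modularFunctionFieldBar N := by
          rw [hzinc]
          exact x.2
        refine hct z hmem ?_
        have hxz : (⟨coeffMap A.subtype z, hmem⟩ : modularFunctionFieldBar N) = x :=
          Subtype.ext hzinc
        rw [hxz]
        exact hxreg
      exact ⟨z, hzinc, hzord, hzred, hroot ybar hyF (k + 1) (Nat.succ_pos k) (hzred ▸ hzB)⟩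
  obtain ⟨z, hz, hzord, hzred, hyB⟩ := main
  refine ⟨hyB, ?_, z, hz, hzord, hzred⟩
  refine coeff_eq_zero_of_pow ybar (k + 1) (Nat.succ_pos k) (-(n : ℤ)) ?_
  intro j hj
  rw [← hzred, coeffMap_coeff, hzord j hj, map_zero]

/-- Scalar multiplication in the function field, on `q`-expansions. -/
theorem coe_smul_eq_C_mul (c : Qb) (f : modularFunctionFieldBar N) :
    ((c • f : modularFunctionFieldBar N) : LaurentSeries Qb) =
      HahnSeries.C c * (f : LaurentSeries Qb) := by
  rw [Algebra.smul_def, IntermediateField.coe_mul, helper8991.C_eq_algebraMap]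
  rfl

theorem coe_algebraMap_mul (c : Qb) (f : modularFunctionFieldBar N) :
    ((algebraMap Qb (modularFunctionFieldBar N) c * f : modularFunctionFieldBar N) :
      LaurentSeries Qb) = HahnSeries.C c * (f : LaurentSeries Qb) := by
  rw [IntermediateField.coe_mul, helper8991.C_eq_algebraMap]
  rfl

/-- A Riemann–Roch space as a space of Laurent series. -/
def rrSpace (N : ℕ) (D : Divisor Qb (modularFunctionFieldBar N)) :
    Submodule Qb (LaurentSeries Qb) where
  carrier := {x | ∃ f : modularFunctionFieldBar N,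
    f ∈ riemannRochSpace D ∧ (f : LaurentSeries Qb) = x}
  add_mem' := by
    rintro _ _ ⟨f, hf, rfl⟩ ⟨g, hg, rfl⟩
    exact ⟨f + g, Submodule.add_mem _ hf hg, rfl⟩
  zero_mem' := ⟨0, Submodule.zero_mem _, rfl⟩
  smul_mem' := by
    rintro c _ ⟨f, hf, rfl⟩
    exact ⟨c • f, Submodule.smul_mem _ c hf, by
      rw [coe_smul_eq_C_mul, HahnSeries.C_mul_eq_smul]⟩

theorem mem_rrSpace (D : Divisor Qb (modularFunctionFieldBar N)) (x : LaurentSeries Qb) :
    x ∈ rrSpace N D ↔ ∃ f : modularFunctionFieldBar N,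
      f ∈ riemannRochSpace D ∧ (f : LaurentSeries Qb) = x := Iff.rfl

/-- **Dimension of the twisted space of reductions** (Riemann + lattice count). -/
theorem tw_dim [NeZero N] (hPF : helper99.PlaceFacts N) (hR : helper99.Stmt_R N)
    (hBD : helper99.Stmt_BD N A)
    (Pinf : Place Qb (modularFunctionFieldBar N)) (hcusp : helper99.IsCuspInf N Pinf)
    (k : ℕ) (a b : IntegralFn A N)
    (w : LaurentSeries (IsLocalRing.ResidueField A)) (hw : w ≠ 0)
    (D0 : Divisor Qb (modularFunctionFieldBar N))
    (hD0 : ∀ P : Place Qb (modularFunctionFieldBar N),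
      P.ord (a.gen / b.gen) = ((k + 1 : ℕ) : ℤ) * D0 P)
    (hdeg0 : Divisor.degree D0 = 0) (n : ℕ)
    [Module.Finite (IsLocalRing.ResidueField A)
      (twSpace A (rrSpace N (D0 + n • Finsupp.single Pinf (1 : ℤ))) w)] :
    n + 1 ≤ Module.finrank (IsLocalRing.ResidueField A)
      (twSpace A (rrSpace N (D0 + n • Finsupp.single Pinf (1 : ℤ))) w) +
      Module.finrank ℂ (CuspForm (CongruenceSubgroup.Gamma0 N) 2) := by
  classical
  have := hPF.principal
  have hdeg := hPF.deg_one
  set s : ℕ := Module.finrank ℂ (CuspForm (CongruenceSubgroup.Gamma0 N) 2) with hs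
  set Dn : Divisor Qb (modularFunctionFieldBar N) := D0 + n • Finsupp.single Pinf (1 : ℤ)
    with hDn
  set V : Submodule Qb (modularFunctionFieldBar N) := riemannRochSpace Dn with hV
  -- Riemann's inequality for the twisted divisor
  have hRie : (n : ℤ) + 1 ≤ (Module.finrank Qb V : ℤ) + s := by
    have hC : (0 : Divisor Qb (modularFunctionFieldBar N)) ≤ s • Finsupp.single Pinf (1 : ℤ) := by
      rw [Finsupp.le_def]
      intro v
      rw [Finsupp.smul_apply, Finsupp.zero_apply, nsmul_eq_mul]
      by_cases hv : v = Pinf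
      · rw [hv, Finsupp.single_eq_same]
        positivity
      · rw [Finsupp.single_eq_of_ne hv, mul_zero]
    have hX : ∀ k' : ℕ, 1 * (k' + 1) ≤ Module.finrank Qb
        (riemannRochSpace (k' • Finsupp.single Pinf (1 : ℤ) + s • Finsupp.single Pinf (1 : ℤ))) := by
      intro k'
      rw [← add_smul]
      have h1 := hR Pinf hcusp (k' + s)
      rw [← hs] at h1
      push_cast at h1
      have h2 : ((k' + 1 : ℕ) : ℤ) ≤ (Module.finrank Qb
          (riemannRochSpace ((k' + s) • Finsupp.single Pinf (1 : ℤ))) : ℤ) := by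
        push_cast
        linarith
      rw [one_mul]
      exact_mod_cast h2
    have hRB := helper981.riemann_bound hdeg (Finsupp.single Pinf (1 : ℤ))
      (s • Finsupp.single Pinf (1 : ℤ)) hC 1 one_pos
      (by rw [helper981.degree_single_one hdeg]; simp) hX Dn
    rw [hDn, map_add, map_nsmul, map_nsmul, helper981.degree_single_one hdeg, hdeg0, ← hDn, ← hV]
      at hRB
    simp only [nsmul_eq_mul, mul_one, zero_add, Nat.cast_one] at hRB
    linarith
  have : Module.Finite Qb V := helper981.finite_riemannRochSpace hdeg Pinf Dn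
  rcases Nat.eq_zero_or_pos (Module.finrank Qb V) with h0 | hpos
  · rw [h0] at hRie
    have : n + 1 ≤ s := by exact_mod_cast (by simpa using hRie : (n : ℤ) + 1 ≤ s)
    omega
  · obtain ⟨⟨f0, hf0V⟩, hf0ne⟩ := Module.finrank_pos_iff_exists_ne_zero.mp hpos
    have hf0 : f0 ≠ 0 := fun h => hf0ne (Subtype.ext h)
    have hf0' : (f0 : LaurentSeries Qb) ≠ 0 := fun h => hf0 (Subtype.ext h)
    obtain ⟨c, X, Y, hc, hX, hY, -, -, hnf⟩ :=
      helper8991.exists_normal_form A (IsLocalRing.residue A) N f0.2 hf0'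
    obtain ⟨g, hg⟩ : ∃ g : modularFunctionFieldBar N,
        g = algebraMap Qb (modularFunctionFieldBar N) c⁻¹ * f0 := ⟨_, rfl⟩
    have hgV : g ∈ V := by
      rw [hg, ← Algebra.smul_def]
      exact V.smul_mem _ hf0V
    have hg0 : g ≠ 0 := by
      rw [hg]
      exact mul_ne_zero ((map_ne_zero _).mpr (inv_ne_zero hc)) hf0
    have hgrep : (g : LaurentSeries Qb) * coeffMap A.subtype Y = coeffMap A.subtype X := by
      rw [hg, coe_algebraMap_mul, mul_assoc, hnf, helper8991.C_inv_mul_C_mul hc]
    have hb0 := b.gen_ne_zero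
    have ha0 := a.gen_ne_zero
    obtain ⟨u, hu⟩ : ∃ u : modularFunctionFieldBar N, u = a.gen / b.gen := ⟨_, rfl⟩
    rw [← hu] at hD0
    have hu0 : u ≠ 0 := by
      rw [hu]
      exact div_ne_zero ha0 hb0
    have hbne : coeffMap A.subtype b.y ≠ 0 := fun h => hb0 (Subtype.ext h)
    have hux : (u : LaurentSeries Qb) * coeffMap A.subtype b.y = coeffMap A.subtype a.y := by
      rw [hu, IntermediateField.coe_div, IntegralFn.coe_gen, IntegralFn.coe_gen,
        div_mul_cancel₀ _ hbne]
    obtain ⟨U0, hU0def⟩ : ∃ U0 : modularFunctionFieldBar N, U0 = u * g ^ k := ⟨_, rfl⟩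
    have hU0 : U0 ≠ 0 := by
      rw [hU0def]
      exact mul_ne_zero hu0 (pow_ne_zero k hg0)
    obtain ⟨X₀, hX₀def⟩ : ∃ X₀ : LaurentSeries A, X₀ = a.y * X ^ k := ⟨_, rfl⟩
    obtain ⟨Y₀, hY₀def⟩ : ∃ Y₀ : LaurentSeries A, Y₀ = b.y * Y ^ k := ⟨_, rfl⟩
    have hX₀ : coeffMap (IsLocalRing.residue A) X₀ ≠ 0 := by
      rw [hX₀def, map_mul, map_pow]
      exact mul_ne_zero a.ne (pow_ne_zero k hX)
    have hY₀ : coeffMap (IsLocalRing.residue A) Y₀ ≠ 0 := by
      rw [hY₀def, map_mul, map_pow]
      exact mul_ne_zero b.ne (pow_ne_zero k hY)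
    have hU0rep : (U0 : LaurentSeries Qb) * coeffMap A.subtype Y₀ = coeffMap A.subtype X₀ := by
      rw [hU0def, hX₀def, hY₀def, map_mul, map_mul, map_pow, map_pow, ← hgrep, ← hux]
      push_cast
      ring
    -- the linear map `e ↦ U0 * e` on `V`
    obtain ⟨Φ, hΦ⟩ : ∃ Φ : ↥V →ₗ[Qb] LaurentSeries Qb,
        ∀ e : ↥V, Φ e = (U0 : LaurentSeries Qb) * ((e : modularFunctionFieldBar N) :
          LaurentSeries Qb) := by
      refine ⟨{ toFun := fun e => (U0 : LaurentSeries Qb) *
                  ((e : modularFunctionFieldBar N) : LaurentSeries Qb)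
                map_add' := fun e₁ e₂ => ?_
                map_smul' := fun c e => ?_ }, fun e => rfl⟩
      · show (U0 : LaurentSeries Qb) * (((e₁ + e₂ : ↥V) : modularFunctionFieldBar N) :
          LaurentSeries Qb) = _
        rw [Submodule.coe_add, IntermediateField.coe_add, mul_add]
      · show (U0 : LaurentSeries Qb) * (((c • e : ↥V) : modularFunctionFieldBar N) :
          LaurentSeries Qb) = c • ((U0 : LaurentSeries Qb) *
            ((e : modularFunctionFieldBar N) : LaurentSeries Qb))
        rw [Submodule.coe_smul, coe_smul_eq_C_mul, ← HahnSeries.C_mul_eq_smul]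
        ring
    have hP : ∀ e : ↥V, e ≠ 0 → ∃ (c : Qb) (y : LaurentSeries A),
        coeffMap (IsLocalRing.residue A) y ≠ 0 ∧ coeffMap A.subtype y = Φ (c • e) := by
      intro e he
      have he0 : (e : modularFunctionFieldBar N) ≠ 0 := fun h => he (Subtype.ext h)
      obtain ⟨hreg, -⟩ := ord_twist Pinf D0 k n u hu0 hD0 e.2 he0 hgV hg0
      have hxreg : helper99.RegAwayInf N (u * g ^ k * (e : modularFunctionFieldBar N)) :=
        fun P hP => hreg P (fun h => hP (h ▸ hcusp))
      obtain ⟨c', y, -, hy, hyx⟩ := exists_primitive_of_regAway hBD _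
        (mul_ne_zero (mul_ne_zero hu0 (pow_ne_zero k hg0)) he0) hxreg
      refine ⟨c', y, hy, ?_⟩
      rw [hyx, hΦ, Submodule.coe_smul, coe_smul_eq_C_mul, hU0def]
      push_cast
      ring
    obtain ⟨y, hy, hyind⟩ := lattice_count A (Module.finrank Qb V) ↥V Φ hP le_rfl
    choose e he using hy
    obtain ⟨E, hE⟩ : ∃ E : LaurentSeries (IsLocalRing.ResidueField A),
        E = w * (coeffMap (IsLocalRing.residue A) Y₀ / coeffMap (IsLocalRing.residue A) X₀) :=
      ⟨_, rfl⟩
    have hE0 : E ≠ 0 := by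
      rw [hE]
      exact mul_ne_zero hw (div_ne_zero hY₀ hX₀)
    have hmemTW : ∀ i, E * coeffMap (IsLocalRing.residue A) (y i) ∈
        twSpace A (rrSpace N Dn) w := by
      intro i
      have hrep : (((e i : ↥V) : modularFunctionFieldBar N) : LaurentSeries Qb) *
          coeffMap A.subtype X₀ = coeffMap A.subtype (y i * Y₀) := by
        rw [map_mul, he i, hΦ, ← hU0rep]
        ring
      have hG' : (((e i : ↥V) : modularFunctionFieldBar N) : LaurentSeries Qb) ∈
          helper8991.gaussRing A (IsLocalRing.residue A) := ⟨y i * Y₀, X₀, hX₀, hrep⟩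
      refine ⟨⟨_, hG'⟩, ⟨((e i : ↥V) : modularFunctionFieldBar N), (e i).2, rfl⟩, ?_⟩
      rw [helper8991.gaussRho_eq A _ ⟨_, hG'⟩ hX₀ hrep, hE, map_mul]
      ring
    have hind : LinearIndependent (IsLocalRing.ResidueField A)
        (fun i => E * coeffMap (IsLocalRing.residue A) (y i)) :=
      hyind.map' (mulLin (IsLocalRing.ResidueField A) E)
        (LinearMap.ker_eq_bot.mpr (fun x y h => mul_left_cancel₀ hE0 h))
    have hcard : Module.finrank Qb V ≤ Module.finrank (IsLocalRing.ResidueField A)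
        (twSpace A (rrSpace N Dn) w) := by
      have hind' : LinearIndependent (IsLocalRing.ResidueField A)
          (fun i => (⟨E * coeffMap (IsLocalRing.residue A) (y i), hmemTW i⟩ :
            ↥(twSpace A (rrSpace N Dn) w))) := by
        apply LinearIndependent.of_comp (twSpace A (rrSpace N Dn) w).subtype
        exact hind
      simpa using hind'.fintype_card_le_finrank
    have h3 : (n : ℤ) + 1 ≤ (Module.finrank (IsLocalRing.ResidueField A)
        (twSpace A (rrSpace N Dn) w) : ℤ) + s := by
      have h4 : (Module.finrank Qb V : ℤ) ≤ (Module.finrank (IsLocalRing.ResidueField A)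
          (twSpace A (rrSpace N Dn) w) : ℤ) := by
        exact_mod_cast hcard
      linarith
    exact_mod_cast h3

/-- **The twisted space package**: for Kummer data `(a, b, w)` with `ā = w ^ (k+1) b̄` and
`(k+1) ∣ div (a / b)`, the spaces `TW n` of reductions `w * ρ(f)`, `f` in the Gauss unit ball of
`L(D0 + n ∞)`, lie in `B` with pole order `≤ n`, have dimension `≥ n + 1 - s`, and every element
comes with an integral expansion of `a / b * f ^ (k+1)` reducing to its `(k+1)`-st power. -/
theorem exists_twSpace [NeZero N] (hPF : helper99.PlaceFacts N) (hR : helper99.Stmt_R N)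
    (hG : helper99.Stmt_Gauss N A) (hBD : helper99.Stmt_BD N A)
    (B : Subalgebra (IsLocalRing.ResidueField A) (LaurentSeries (IsLocalRing.ResidueField A)))
    (hroot : ∀ y ∈ modularFunctionFieldFullC (IsLocalRing.ResidueField A) N, ∀ k : ℕ, 0 < k →
      y ^ k ∈ B → y ∈ B)
    (hct : ∀ (x : LaurentSeries A) (hx : coeffMap A.subtype x ∈ modularFunctionFieldBar N),
      helper99.RegAwayInf N ⟨coeffMap A.subtype x, hx⟩ → coeffMap (IsLocalRing.residue A) x ∈ B)
    (k : ℕ) (a b : IntegralFn A N)
    (hdvd : ∀ P : Place Qb (modularFunctionFieldBar N),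
      ((k + 1 : ℕ) : ℤ) ∣ P.ord a.gen - P.ord b.gen)
    (w : modularFunctionFieldFullC (IsLocalRing.ResidueField A) N) (hw : w ≠ 0)
    (hred : a.red = w ^ (k + 1) * b.red) :
    ∃ TW : ℕ → Submodule (IsLocalRing.ResidueField A)
        (LaurentSeries (IsLocalRing.ResidueField A)),
      (∀ n, ∀ ybar ∈ TW n, ybar ∈ B ∧ ∀ j : ℤ, j < -(n : ℤ) → ybar.coeff j = 0) ∧
      (∀ n, Module.Finite (IsLocalRing.ResidueField A) (TW n) →
        n + 1 ≤ Module.finrank (IsLocalRing.ResidueField A) (TW n) +
          Module.finrank ℂ (CuspForm (CongruenceSubgroup.Gamma0 N) 2)) ∧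
      (∀ n, ∀ ybar ∈ TW n, ∃ (f : modularFunctionFieldBar N) (z : LaurentSeries A),
        coeffMap A.subtype z =
          ((a.gen / b.gen * f ^ (k + 1) : modularFunctionFieldBar N) : LaurentSeries Qb) ∧
        (∀ j : ℤ, j < ((k + 1 : ℕ) : ℤ) * -(n : ℤ) → z.coeff j = 0) ∧
        coeffMap (IsLocalRing.residue A) z = ybar ^ (k + 1)) := by
  obtain ⟨Pinf, hcusp⟩ := hPF.cusp
  have := hPF.principal
  have hu0 : a.gen / b.gen ≠ 0 := div_ne_zero a.gen_ne_zero b.gen_ne_zero
  obtain ⟨Du, hDu, hdegDu⟩ := HasPrincipalDivisors.exists_divisor (K := Qb) (a.gen / b.gen) hu0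
  have hordu : ∀ P : Place Qb (modularFunctionFieldBar N),
      P.ord (a.gen / b.gen) = P.ord a.gen - P.ord b.gen := by
    intro P
    rw [div_eq_mul_inv, P.ord_mul a.gen_ne_zero (inv_ne_zero b.gen_ne_zero), P.ord_inv]
    ring
  obtain ⟨D0, hD0def⟩ : ∃ D0 : Divisor Qb (modularFunctionFieldBar N),
      D0 = Du.mapRange (fun z => z / ((k + 1 : ℕ) : ℤ)) (by simp) := ⟨_, rfl⟩
  have hD0 : ∀ P : Place Qb (modularFunctionFieldBar N),
      P.ord (a.gen / b.gen) = ((k + 1 : ℕ) : ℤ) * D0 P := by
    intro P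
    rw [hD0def, Finsupp.mapRange_apply, hDu P, Int.mul_ediv_cancel']
    rw [hordu]
    exact hdvd P
  have hdeg0 : Divisor.degree D0 = 0 := by
    have h1 : (k + 1) • D0 = Du := by
      ext P
      rw [Finsupp.smul_apply, nsmul_eq_mul, ← hD0 P, hDu P]
    have h2 := congrArg Divisor.degree h1
    rw [map_nsmul, hdegDu, nsmul_eq_mul] at h2
    rcases mul_eq_zero.mp h2 with h | h
    · exact absurd h (by exact_mod_cast Nat.succ_ne_zero k)
    · exact h
  have hlift : ∀ n : ℕ, ∀ ybar ∈ twSpace A (rrSpace N (D0 + n • Finsupp.single Pinf (1 : ℤ)))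
      (w : LaurentSeries (IsLocalRing.ResidueField A)),
      (ybar ∈ B ∧ ∀ j : ℤ, j < -(n : ℤ) → ybar.coeff j = 0) ∧
      ∃ (f : modularFunctionFieldBar N) (z : LaurentSeries A),
        coeffMap A.subtype z =
          ((a.gen / b.gen * f ^ (k + 1) : modularFunctionFieldBar N) : LaurentSeries Qb) ∧
        (∀ j : ℤ, j < ((k + 1 : ℕ) : ℤ) * -(n : ℤ) → z.coeff j = 0) ∧
        coeffMap (IsLocalRing.residue A) z = ybar ^ (k + 1) := by
    rintro n ybar ⟨f, ⟨f₀, hf₀V, hf₀⟩, rfl⟩
    have hfG : (f₀ : LaurentSeries Qb) ∈ helper8991.gaussRing A (IsLocalRing.residue A) := by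
      rw [hf₀]
      exact f.2
    have hfeq : f = ⟨(f₀ : LaurentSeries Qb), hfG⟩ := Subtype.ext hf₀.symm
    obtain ⟨h1, h2, z, hz1, hz2, hz3⟩ :=
      tw_lift hG hBD B hroot hct Pinf hcusp k a b w hred D0 hD0 n f₀ hf₀V hfG
    rw [hfeq]
    exact ⟨⟨h1, h2⟩, f₀, z, hz1, hz2, hz3⟩
  refine ⟨fun n => twSpace A (rrSpace N (D0 + n • Finsupp.single Pinf (1 : ℤ)))
    (w : LaurentSeries (IsLocalRing.ResidueField A)), fun n ybar h => (hlift n ybar h).1, ?_,
    fun n ybar h => (hlift n ybar h).2⟩
  intro n hfin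
  have hw' : (w : LaurentSeries (IsLocalRing.ResidueField A)) ≠ 0 := fun h => hw (Subtype.ext h)
  exact tw_dim hPF hR hBD Pinf hcusp k a b _ hw' D0 hD0 hdeg0 n

/-- **(C5) normalization of track C**, with an integral basis of `S₂(Γ₀(N))` as a hypothesis. -/
theorem norm_of_trackC_of_intBasis (N : ℕ) [NeZero N] (ℓ : ℕ) (A : ValuationSubring Qb)
    (hIB : Nonempty (helper5819.IntBasis N 2))
    (hPF : helper99.PlaceFacts N) (hR : helper99.Stmt_R N) (hG : helper99.Stmt_Gauss N A)
    (hBD : helper99.Stmt_BD N A) (hBb : helper99.Stmt_Bbar N A) : helper99.Stmt_Norm N ℓ A := by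
  intro m hm a b hdvd w hw hred
  have hm0 : m ≠ 0 := fun h => hm (h ▸ dvd_zero ℓ)
  obtain ⟨k, rfl⟩ := Nat.exists_eq_succ_of_ne_zero hm0
  obtain ⟨B, hroot, hconst, hkl, hct⟩ := hBb
  obtain ⟨D⟩ := hIB
  -- the cusp forms: independent reductions, gap bound
  have hlin : LinearIndependent (IsLocalRing.ResidueField A)
      (D.laurent (IsLocalRing.ResidueField A)) := by
    obtain ⟨p, hp⟩ := CharP.exists (IsLocalRing.ResidueField A)
    rcases CharP.char_is_prime_or_zero (IsLocalRing.ResidueField A) p with hpp | rfl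
    · have : Fact p.Prime := ⟨hpp⟩
      exact D.laurent_linearIndependent_charP p (IsLocalRing.ResidueField A)
    · have : CharZero (IsLocalRing.ResidueField A) :=
        CharP.charP_to_charZero (IsLocalRing.ResidueField A)
      exact D.laurent_linearIndependent_charZero (IsLocalRing.ResidueField A)
  obtain ⟨n₁, hn₁⟩ := helper4801.exists_gap_bound (D.laurent (IsLocalRing.ResidueField A))
    (fun r i hi => D.laurent_coeff_of_nonpos (IsLocalRing.ResidueField A) r hi) hlin
  -- the filtration of `B` by pole order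
  obtain ⟨Bb, hBbdef⟩ : ∃ Bb : ℕ → Submodule (IsLocalRing.ResidueField A)
      (LaurentSeries (IsLocalRing.ResidueField A)),
      Bb = fun n => poleSub (IsLocalRing.ResidueField A) B n := ⟨_, rfl⟩
  have hBbmem : ∀ n x, x ∈ Bb n ↔ x ∈ B ∧ ∀ j : ℤ, j < -(n : ℤ) → x.coeff j = 0 := by
    intro n x
    rw [hBbdef]
    exact Iff.rfl
  have hgap : ∀ n, n₁ ≤ n → Module.Finite (IsLocalRing.ResidueField A) (Bb n) ∧
      Module.finrank (IsLocalRing.ResidueField A) (Bb n) + D.r ≤ n + 1 := by
    intro n hn
    exact hn₁ n hn (Bb n) (fun x hx => ((hBbmem n x).mp hx).2)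
      (fun x hx hx0 => hconst x ((hBbmem n x).mp hx).1 hx0)
      (fun x hx r => hkl D r x ((hBbmem n x).mp hx).1)
  have hr : D.r = Module.finrank ℂ (CuspForm (CongruenceSubgroup.Gamma0 N) 2) := D.r_eq
  -- the two twisted packages
  obtain ⟨TW, hTW1, hTW2, hTW3⟩ := exists_twSpace hPF hR hG hBD B hroot hct k a b hdvd w hw hred
  obtain ⟨ONE, hONE1, hONE2, hONE3⟩ := exists_twSpace hPF hR hG hBD B hroot hct k
    (IntegralFn.one : IntegralFn A N) IntegralFn.one
    (fun P => by rw [sub_self]; exact dvd_zero _)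
    (1 : modularFunctionFieldFullC (IsLocalRing.ResidueField A) N) one_ne_zero
    (by rw [one_pow, one_mul])
  have hTWle : ∀ n, TW n ≤ Bb n := fun n x hx => (hBbmem n x).mpr (hTW1 n x hx)
  have hONEle : ∀ n, ONE n ≤ Bb n := fun n x hx => (hBbmem n x).mpr (hONE1 n x hx)
  obtain ⟨f, y, p, hy, hp, hexp⟩ := normalization (IsLocalRing.residue A) A.subtype
    Subtype.val_injective
    ((modularFunctionFieldBar N).val : modularFunctionFieldBar N →+* LaurentSeries Qb)
    (k + 1) (Nat.succ_pos k) (a.gen / b.gen) D.r n₁ Bb TW ONE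
    (fun n hn => (hgap n hn).1) (fun n hn => (hgap n hn).2)
    (fun n x hx h0 => by
      rw [hBbmem] at hx ⊢
      refine ⟨hx.1, fun j hj => ?_⟩
      rcases lt_or_eq_of_le (show j ≤ -((n : ℤ) + 1) by omega) with h | h
      · exact hx.2 j (by push_cast; exact h)
      · rw [h]
        exact h0)
    (fun n x hx => ((hBbmem n x).mp hx).2) hTWle hONEle
    (fun n hn => by
      have hfin := (hgap n hn).1
      have := hTW2 n (Submodule.finiteDimensional_of_le (hTWle n))
      omega)
    (fun n hn => by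
      have hfin := (hgap n hn).1
      have := hONE2 n (Submodule.finiteDimensional_of_le (hONEle n))
      omega)
    hTW3
    (fun n ybar hyb => by
      obtain ⟨f, z, hz1, hz2, hz3⟩ := hONE3 n ybar hyb
      refine ⟨f, z, ?_, hz2, hz3⟩
      rw [hz1, IntegralFn.gen_one, div_one, one_mul]
      rfl)
  have hne := coeffMap_ofPowerSeries_ne_zero p hp
  have hexp' : ((a.gen / b.gen * (f / y) ^ (k + 1) : modularFunctionFieldBar N) :
      LaurentSeries Qb) = coeffMap A.subtype (HahnSeries.ofPowerSeries ℤ A p) := hexp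
  have hb0 := b.gen_ne_zero
  have hbne : (b.gen : LaurentSeries Qb) ≠ 0 := fun h => hb0 (Subtype.ext h)
  refine ⟨f / y, HahnSeries.ofPowerSeries ℤ A p, ?_, fun i hi => ofPS_coeff_of_neg p hi, ?_, ?_⟩
  · intro h0
    apply hne
    rw [← hexp', h0, zero_pow (Nat.succ_ne_zero k), mul_zero]
    rfl
  · rw [coeffMap_ofPowerSeries, hp, map_one]
  · rw [← hexp']
    push_cast
    field_simp

/-- **(C5) = S18-C-NORM**: the normalization Prop of track C from (C0)–(C4). -/
theorem norm_of_trackC (N : ℕ) [NeZero N] (ℓ : ℕ) (A : ValuationSubring (AlgebraicClosure ℚ)) :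
    helper99.PlaceFacts N → helper99.Stmt_R N → helper99.Stmt_Gauss N A →
      helper99.Stmt_BD N A → helper99.Stmt_Bbar N A → A.LiesOverPrime ℓ →
      helper99.Stmt_Norm N ℓ A :=
  fun hPF hR hG hBD hBb _ => norm_of_trackC_of_intBasis N ℓ A
    (helper5819.nonempty_intBasis N 2 (Fermat.Agent.S23.helper23.hasIntegralStructure N 2))
    hPF hR hG hBD hBb

end Concrete

end Fermat.Agent.S18.helper3574
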