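/-
S18 / T2a adapters (helper3577), on top of `helper3577_TameDVR`:

* `exact_order_of_valuationSubring`, `htame_of_valuationSubring`: the tameness hypothesis `htame`
  of `tame_traceDual` from its valuation-subring form (`g = unit * π ^ n`, `n ∣ e`, at every
  valuation subring of `L` over `O` in which `g` is a non-unit);
* `tame_traceDual_adjoin`: `tame_traceDual` for `K' = K(s)` as an `IntermediateField`.
-/
import Fermat.Agent.S18.helper3577_TameDVR

set_option autoImplicit false

open Polynomial IsDedekindDomain nonZeroDivisors IntermediateField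

namespace Fermat.Agent.S18.helper3577

/-- **Valuation-subring form of the exact order.** Let `P` be a maximal ideal of a Dedekind
domain `R` with fraction field `L` and `g ∈ P` nonzero. If at every valuation subring `W ⊇ R`
of `L` in which `g` is a non-unit one has `g = unit * π ^ n` with `π` a generator of the maximal
ideal of `W` and `n ∣ e`, then the exact order of `g` at `P` divides `e`. -/
theorem exact_order_of_valuationSubring {R L : Type*} [CommRing R] [IsDedekindDomain R]
    [Field L] [Algebra R L] [IsFractionRing R L]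
    (P : Ideal R) [hP : P.IsMaximal] (g : R) (hg0 : g ≠ 0) (hgP : g ∈ P) (e : ℕ)
    (hval : ∀ W : ValuationSubring L, (∀ a : R, algebraMap R L a ∈ W) →
      (algebraMap R L g)⁻¹ ∉ W →
      ∃ (π : L) (n : ℕ), n ∣ e ∧ π ∈ W ∧ π⁻¹ ∉ W ∧ (∀ f ∈ W, f⁻¹ ∉ W → f / π ∈ W) ∧
        algebraMap R L g / π ^ n ∈ W ∧ π ^ n / algebraMap R L g ∈ W) :
    ∃ n : ℕ, n ∣ e ∧ g ∈ P ^ n ∧ g ∉ P ^ (n + 1) := by
  have hP0 : P ≠ ⊥ := by
    rintro rfl
    exact hg0 (by simpa using hgP)
  let v : HeightOneSpectrum R := ⟨P, hP.isPrime, hP0⟩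
  have hgL : algebraMap R L g ≠ 0 := by
    rwa [Ne, map_eq_zero_iff _ (IsFractionRing.injective R L)]
  have hvg0 : v.valuation L (algebraMap R L g) ≠ 0 := (Valuation.ne_zero_iff _).mpr hgL
  have hvg1 : v.valuation L (algebraMap R L g) < 1 := (v.valuation_lt_one_iff_mem g).mpr hgP
  obtain ⟨π, n, hne, hπW, hπW', hmax, h1, h2⟩ := hval (v.valuation L).valuationSubring
    (fun a => (Valuation.mem_valuationSubring_iff _ _).mpr (v.valuation_le_one a))
    (fun h => by
      rw [Valuation.mem_valuationSubring_iff, map_inv₀] at h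
      exact absurd h (not_le.mpr ((one_lt_inv₀ (zero_lt_iff.mpr hvg0)).mpr hvg1)))
  rw [Valuation.mem_valuationSubring_iff] at hπW h1 h2
  have hπ0 : π ≠ 0 := by
    rintro rfl
    exact hπW' (by simp)
  have hvπ0 : v.valuation L π ≠ 0 := (Valuation.ne_zero_iff _).mpr hπ0
  have hvπ1 : v.valuation L π < 1 := by
    rw [Valuation.mem_valuationSubring_iff, map_inv₀, not_le] at hπW'
    exact (one_lt_inv₀ (zero_lt_iff.mpr hvπ0)).mp hπW'
  -- `π` has valuation `exp (-1)`
  obtain ⟨ϖ, hϖ⟩ := v.valuation_exists_uniformizer L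
  have hϖ0 : ϖ ≠ 0 := by
    rintro rfl
    rw [map_zero] at hϖ
    exact WithZero.exp_ne_zero hϖ.symm
  have hϖπ : v.valuation L ϖ ≤ v.valuation L π := by
    have h3 := hmax ϖ
      ((Valuation.mem_valuationSubring_iff _ _).mpr (by
        rw [hϖ, ← WithZero.exp_zero, WithZero.exp_le_exp]; norm_num))
      (fun h => by
        rw [Valuation.mem_valuationSubring_iff, map_inv₀, hϖ, ← WithZero.exp_neg,
          ← WithZero.exp_zero, WithZero.exp_le_exp] at h
        norm_num at h)
    rw [Valuation.mem_valuationSubring_iff, map_div₀] at h3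
    exact (div_le_one₀ (zero_lt_iff.mpr hvπ0)).mp h3
  have hvπ : v.valuation L π = WithZero.exp (-1 : ℤ) := by
    rw [← WithZero.exp_log hvπ0] at hvπ1 hϖπ ⊢
    rw [hϖ, WithZero.exp_le_exp] at hϖπ
    rw [← WithZero.exp_zero, WithZero.exp_lt_exp] at hvπ1
    congr 1
    omega
  have hvg : v.valuation L (algebraMap R L g) = WithZero.exp (-(n : ℤ)) := by
    have hpow : v.valuation L (π ^ n) = WithZero.exp (-(n : ℤ)) := by
      rw [map_pow, hvπ, ← WithZero.exp_nsmul]
      simp
    have hpow0 : v.valuation L (π ^ n) ≠ 0 := by rw [hpow]; exact WithZero.exp_ne_zero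
    rw [map_div₀] at h1 h2
    have h1' := (div_le_one₀ (zero_lt_iff.mpr hpow0)).mp h1
    have h2' := (div_le_one₀ (zero_lt_iff.mpr hvg0)).mp h2
    rw [← hpow]
    exact le_antisymm h1' h2'
  rw [v.valuation_of_algebraMap] at hvg
  refine ⟨n, hne, ?_, ?_⟩
  · exact (v.intValuation_le_pow_iff_mem g n).mp hvg.le
  · intro h
    have := (v.intValuation_le_pow_iff_mem g (n + 1)).mpr h
    rw [hvg, WithZero.exp_le_exp] at this
    push_cast at this
    omega

section Adapters

variable {O K L : Type*}
    [CommRing O] [IsDedekindDomain O]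
    [Field K] [Algebra O K] [IsFractionRing O K]
    [Field L] [Algebra K L] [Algebra O L] [IsScalarTower O K L] [FiniteDimensional K L]

include K in
/-- **Tameness from valuation subrings.** `g ≠ 0` in the Jacobson radical of the Dedekind domain
`O`; if at every valuation subring `W ⊇ O` of `L` in which `g` is a non-unit one has
`g = unit * π ^ n`, `π` a generator of the maximal ideal of `W`, `n ∣ e`, then the exact order
of `g` at every maximal ideal of the integral closure of `O` in `L` divides `e`
(the hypothesis `htame` of `tame_traceDual`). -/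
theorem htame_of_valuationSubring [Algebra.IsSeparable K L]
    (g : O) (hg0 : g ≠ 0) (hgJ : ∀ p : Ideal O, p.IsMaximal → g ∈ p) (e : ℕ)
    (hval : ∀ W : ValuationSubring L, (∀ a : O, algebraMap O L a ∈ W) →
      (algebraMap O L g)⁻¹ ∉ W →
      ∃ (π : L) (n : ℕ), n ∣ e ∧ π ∈ W ∧ π⁻¹ ∉ W ∧ (∀ f ∈ W, f⁻¹ ∉ W → f / π ∈ W) ∧
        algebraMap O L g / π ^ n ∈ W ∧ π ^ n / algebraMap O L g ∈ W) :
    ∀ P : Ideal (integralClosure O L), P.IsMaximal → ∃ n : ℕ, n ∣ e ∧
      algebraMap O (integralClosure O L) g ∈ P ^ n ∧
      algebraMap O (integralClosure O L) g ∉ P ^ (n + 1) := by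
  intro P hP
  have hRded : IsDedekindDomain (integralClosure O L) := integralClosure.isDedekindDomain O K L
  have hRfr : IsFractionRing (integralClosure O L) L :=
    integralClosure.isFractionRing_of_finite_extension K L
  have hinj : Function.Injective (algebraMap O (integralClosure O L)) := by
    have h1 : Function.Injective (algebraMap O L) := by
      rw [IsScalarTower.algebraMap_eq O K L]
      exact (algebraMap K L).injective.comp (IsFractionRing.injective O K)
    intro a b hab
    apply h1
    rw [IsScalarTower.algebraMap_apply O (integralClosure O L) L, hab,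
      ← IsScalarTower.algebraMap_apply O (integralClosure O L) L]
  have hpmax : (P.comap (algebraMap O (integralClosure O L))).IsMaximal :=
    Ideal.isMaximal_comap_of_isIntegral_of_isMaximal P
  refine exact_order_of_valuationSubring (L := L) P (algebraMap O (integralClosure O L) g)
    (by rwa [Ne, map_eq_zero_iff _ hinj]) (hgJ _ hpmax) e (fun W hW hgW => ?_)
  rw [← IsScalarTower.algebraMap_apply O (integralClosure O L) L] at hgW ⊢
  exact hval W (fun a => by
    rw [IsScalarTower.algebraMap_apply O (integralClosure O L) L]; exact hW _) hgW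

variable {L' : Type*} [Field L'] [Algebra L L'] [Algebra O L'] [IsScalarTower O L L']
  [FiniteDimensional L L'] [Algebra K L'] [IsScalarTower K L L'] [IsScalarTower O K L']

include K in
/-- `tame_traceDual` for the intermediate field `K' = K(s)` inside `L'`. -/
theorem tame_traceDual_adjoin
    (hchar : ∀ m : ℕ, m ≠ 0 → IsUnit (m : O))
    (g : O) (e : ℕ) (he : e ≠ 0) (s : L') (hs : s ^ e = algebraMap O L' g)
    (htop : Algebra.adjoin L {s} = ⊤)
    (htame : ∀ P : Ideal (integralClosure O L), P.IsMaximal → ∃ n : ℕ, n ∣ e ∧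
      algebraMap O (integralClosure O L) g ∈ P ^ n ∧
      algebraMap O (integralClosure O L) g ∉ P ^ (n + 1))
    (x : L')
    (hx : ∀ y : L', IsIntegral O y →
      IsIntegral O (Algebra.trace (IntermediateField.adjoin K {s}) L' (x * y))) :
    IsIntegral O x := by
  have hT : IsScalarTower O K (IntermediateField.adjoin K {s}) :=
    IsScalarTower.of_algebraMap_eq (fun a =>
      Subtype.ext (IsScalarTower.algebraMap_apply O K L' a))
  exact tame_traceDual (K := K) (K' := IntermediateField.adjoin K {s}) hchar g e he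
    (AdjoinSimple.gen K s) (Subtype.ext hs) htop htame x hx

end Adapters

end Fermat.Agent.S18.helper3577
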