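/-
S18-KCORE-ABS (helper3619): abstract endgame of the Kummer core of route #1924(1).

Pure valued-field algebra over Mathlib.  `F` is a field with a valuation `v`, `L` a subfield
(given as `Algebra L F`) such that `v` has the same value group on `L` and on `F`, and the value
group is archimedean in the weak sense `harch`.  `M1 n`, `M2 n ≤ M12 n` are `L`-subspaces of `F`
(two charts and their overlap) cut out by filtrations `B1`, `B2`:
`f ∈ Mi n ↔ f ^ m * u ∈ Bi (m * n)`.

Main result `exists_ne_zero_mem_inf`: if the unit balls of the `M12 n` are finitely generated over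
the valuation ring of `L`, the reductions glue (`hred`), and there are initial approximate
`m`-th roots `a0 ∈ M1 n0`, `b0 ∈ M2 n0` of `u⁻¹` with the same reduction, then some
`M1 n ⊓ M2 n` is nonzero.

No Smith normal form, no Riemann-Roch: only Newton iteration, Nakayama, and stabilisation of the
ranks of the cokernels `M12 n / (M1 n + M2 n)`.
-/
import Mathlib

set_option autoImplicit false

namespace Fermat.Agent.S18.helper3619

open Module

/-! ### Binomial expansion to second order -/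

/-- `(1 + t) ^ m = 1 + m t + t ^ 2 r` in any commutative ring. -/
theorem exists_one_add_pow_eq {R : Type*} [CommRing R] (t : R) (m : ℕ) :
    ∃ r : R, (1 + t) ^ m = 1 + m * t + t ^ 2 * r := by
  induction m with
  | zero => exact ⟨0, by simp⟩
  | succ m ih =>
    obtain ⟨r, hr⟩ := ih
    refine ⟨r * (1 + t) + m, ?_⟩
    rw [pow_succ, hr]
    push_cast
    ring

section Val

variable {F : Type*} [Field F] {Γ₀ : Type*} [LinearOrderedCommGroupWithZero Γ₀]
variable (v : Valuation F Γ₀)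

/-- Second order binomial expansion with integral remainder. -/
theorem exists_one_add_pow_eq_of_le {t : F} (ht : v t ≤ 1) (m : ℕ) :
    ∃ r : F, v r ≤ 1 ∧ (1 + t) ^ m = 1 + m * t + t ^ 2 * r := by
  obtain ⟨r, hr⟩ := exists_one_add_pow_eq (⟨t, ht⟩ : v.integer) m
  refine ⟨r, r.2, ?_⟩
  have h := congrArg (Subtype.val) hr
  simpa using h

/-- One Newton step for the equation `a ^ m * u = 1`. -/
theorem newton_step {m : ℕ} (hm : v (m : F) = 1) {a u : F} {γ : Γ₀} (hγ : γ < 1)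
    (ha : v a = 1) (hε : v (a ^ m * u - 1) ≤ γ) :
    v (a * (1 - (m : F)⁻¹ * (a ^ m * u - 1))) = 1 ∧
      v (a * (1 - (m : F)⁻¹ * (a ^ m * u - 1)) - a) ≤ γ ∧
      v ((a * (1 - (m : F)⁻¹ * (a ^ m * u - 1))) ^ m * u - 1) ≤ γ ^ 2 := by
  have hm0 : (m : F) ≠ 0 := by
    intro h
    rw [h, map_zero] at hm
    exact zero_ne_one hm
  set ε := a ^ m * u - 1 with hεdef
  set t := -((m : F)⁻¹ * ε) with htdef
  have hvt : v t = v ε := by
    rw [htdef, Valuation.map_neg, map_mul, map_inv₀, hm, inv_one, one_mul]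
  have hvε1 : v ε < 1 := lt_of_le_of_lt hε hγ
  have hvt1 : v t < 1 := hvt ▸ hvε1
  have h1t : (1 - (m : F)⁻¹ * ε) = 1 + t := by rw [htdef]; ring
  rw [h1t]
  have hv1t : v (1 + t) = 1 := v.map_one_add_of_lt hvt1
  refine ⟨by rw [map_mul, ha, hv1t, one_mul], ?_, ?_⟩
  · have : a * (1 + t) - a = a * t := by ring
    rw [this, map_mul, ha, one_mul, hvt]
    exact hε
  · obtain ⟨r, hr, hexp⟩ := exists_one_add_pow_eq_of_le v hvt1.le m
    have hmt : (m : F) * t = -ε := by
      rw [htdef]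
      field_simp
    have key : (a * (1 + t)) ^ m * u - 1 = -(ε ^ 2) + (1 + ε) * (t ^ 2 * r) := by
      have h1 : a ^ m * u = 1 + ε := by rw [hεdef]; ring
      rw [mul_pow, hexp, hmt]
      calc a ^ m * (1 + -ε + t ^ 2 * r) * u - 1
          = (a ^ m * u) * (1 + -ε + t ^ 2 * r) - 1 := by ring
        _ = (1 + ε) * (1 + -ε + t ^ 2 * r) - 1 := by rw [h1]
        _ = -(ε ^ 2) + (1 + ε) * (t ^ 2 * r) := by ring
    rw [key]
    have hε2 : v (ε ^ 2) ≤ γ ^ 2 := by
      rw [map_pow]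
      exact pow_le_pow_left₀ zero_le hε 2
    refine v.map_add_le ?_ ?_
    · rw [Valuation.map_neg]
      exact hε2
    · rw [map_mul, map_mul, v.map_one_add_of_lt hvε1, one_mul, map_pow, hvt]
      calc v ε ^ 2 * v r ≤ v ε ^ 2 * 1 := by gcongr
        _ = v ε ^ 2 := mul_one _
        _ ≤ γ ^ 2 := by rw [← map_pow]; exact hε2

end Val

/-! ### Filtrations and Newton iteration inside a chart -/

section Filtration

variable {L F : Type*} [Field L] [Field F] [Algebra L F]

/-- A multiplicative filtration of a subalgebra of `F` by `L`-subspaces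
(e.g. `B N = L(N • D)` for an effective divisor `D`). -/
structure IsFiltration (B : ℕ → Submodule L F) : Prop where
  one_mem : (1 : F) ∈ B 0
  mono : Monotone B
  mul_mem : ∀ {p q : ℕ} {x y : F}, x ∈ B p → y ∈ B q → x * y ∈ B (p + q)

theorem IsFiltration.one_mem' {B : ℕ → Submodule L F} (hB : IsFiltration B) (p : ℕ) :
    (1 : F) ∈ B p :=
  hB.mono (Nat.zero_le p) hB.one_mem

theorem IsFiltration.pow_mem {B : ℕ → Submodule L F} (hB : IsFiltration B) {p : ℕ} {x : F}
    (hx : x ∈ B p) (k : ℕ) : x ^ k ∈ B (k * p) := by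
  induction k with
  | zero => simpa using hB.one_mem
  | succ k ih =>
    have h := hB.mul_mem ih hx
    rw [pow_succ]
    convert h using 2
    ring

variable {Γ₀ : Type*} [LinearOrderedCommGroupWithZero Γ₀] (v : Valuation F Γ₀)

/-- Newton iteration inside one chart: an approximate solution of `a ^ m * u = 1` in `M n0` can be
improved to any precision `γ ^ (j + 1)` at the cost of raising the level to `n0 * (m + 1) ^ j`. -/
theorem newton_iter {B M : ℕ → Submodule L F} (hB : IsFiltration B) {m : ℕ} {u : F}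
    (hM : ∀ n f, f ∈ M n ↔ f ^ m * u ∈ B (m * n)) (hm : v (m : F) = 1)
    {γ : Γ₀} (hγ : γ < 1) {n0 : ℕ} {a0 : F} (ha0 : a0 ∈ M n0) (hva0 : v a0 = 1)
    (hε0 : v (a0 ^ m * u - 1) ≤ γ) (j : ℕ) :
    ∃ a : F, a ∈ M (n0 * (m + 1) ^ j) ∧ v a = 1 ∧ v (a - a0) < 1 ∧
      v (a ^ m * u - 1) ≤ γ ^ (j + 1) := by
  induction j with
  | zero => exact ⟨a0, by simpa using ha0, hva0, by simp, by simpa using hε0⟩
  | succ j ih =>
    obtain ⟨a, haM, hva, haa0, hε⟩ := ih
    have hγj : γ ^ (j + 1) < 1 := pow_lt_one₀ zero_le hγ (Nat.succ_ne_zero j)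
    obtain ⟨h1, h2, h3⟩ := newton_step v hm hγj hva hε
    set n := n0 * (m + 1) ^ j with hn
    refine ⟨a * (1 - (m : F)⁻¹ * (a ^ m * u - 1)), ?_, h1, ?_, ?_⟩
    · -- membership
      rw [hM]
      have hau : a ^ m * u ∈ B (m * n) := (hM n a).1 haM
      have hε' : a ^ m * u - 1 ∈ B (m * n) := (B (m * n)).sub_mem hau (hB.one_mem' _)
      have hfac : (1 - (m : F)⁻¹ * (a ^ m * u - 1)) ∈ B (m * n) := by
        refine (B (m * n)).sub_mem (hB.one_mem' _) ?_
        have : (m : F)⁻¹ * (a ^ m * u - 1) = ((m : L)⁻¹) • (a ^ m * u - 1) := by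
          rw [Algebra.smul_def, map_inv₀, map_natCast]
        rw [this]
        exact (B (m * n)).smul_mem _ hε'
      have hpow := hB.pow_mem hfac m
      have hprod := hB.mul_mem hau hpow
      have e1 : (a * (1 - (m : F)⁻¹ * (a ^ m * u - 1))) ^ m * u
          = a ^ m * u * (1 - (m : F)⁻¹ * (a ^ m * u - 1)) ^ m := by rw [mul_pow]; ring
      have e2 : m * (n0 * (m + 1) ^ (j + 1)) = m * n + m * (m * n) := by
        rw [hn]; ring
      rw [e1, e2]
      exact hprod
    · have : a * (1 - (m : F)⁻¹ * (a ^ m * u - 1)) - a0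
          = (a * (1 - (m : F)⁻¹ * (a ^ m * u - 1)) - a) + (a - a0) := by ring
      rw [this]
      exact v.map_add_lt (lt_of_le_of_lt h2 hγj) haa0
    · refine h3.trans ?_
      rw [← pow_mul]
      exact pow_le_pow_right_of_le_one' hγ.le (by omega)

/-- Two approximate `m`-th roots of `u⁻¹` which are congruent modulo the maximal ideal are as close
to each other as their defects. -/
theorem sub_le_of_pow_mul {m : ℕ} (hm : v (m : F) = 1) {a b u : F} {g : Γ₀}
    (hb : v b = 1) (hu : v u = 1) (hab : v (a - b) < 1)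
    (hεa : v (a ^ m * u - 1) ≤ g) (hεb : v (b ^ m * u - 1) ≤ g) : v (a - b) ≤ g := by
  have hb0 : b ≠ 0 := by
    intro h; rw [h, map_zero] at hb; exact zero_ne_one hb
  set θ := (a - b) / b with hθ
  have hvθ : v θ = v (a - b) := by rw [hθ, map_div₀, hb, div_one]
  have hvθ1 : v θ < 1 := hvθ ▸ hab
  obtain ⟨r, hr, hexp⟩ := exists_one_add_pow_eq_of_le v hvθ1.le m
  have hab' : a = b * (1 + θ) := by rw [hθ]; field_simp; ring
  -- `a^m u - b^m u = b^m u * θ * (m + θ r)`
  have key : (a ^ m * u - 1) - (b ^ m * u - 1) = b ^ m * u * (θ * ((m : F) + θ * r)) := by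
    rw [hab', mul_pow, hexp]; ring
  have hunit : v ((m : F) + θ * r) = 1 := by
    have : v (θ * r) < v (m : F) := by
      rw [hm, map_mul]
      calc v θ * v r ≤ v θ * 1 := by gcongr
        _ = v θ := mul_one _
        _ < 1 := hvθ1
    rw [v.map_add_eq_of_lt_left this, hm]
  have hval : v ((a ^ m * u - 1) - (b ^ m * u - 1)) = v θ := by
    rw [key, map_mul, map_mul, map_mul, map_pow, hb, hu, hunit]
    simp
  rw [← hvθ, ← hval]
  exact v.map_sub_le hεa hεb

end Filtration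

/-! ### Lattices over the valuation ring of the base field -/

section Core

variable (L : Type*) {F : Type*} [Field L] [Field F] [Algebra L F]
variable {Γ₀ : Type*} [LinearOrderedCommGroupWithZero Γ₀] (v : Valuation F Γ₀)

/-- The valuation ring of `L` for the restriction of `v`. -/
abbrev baseRing : Subring L := (v.comap (algebraMap L F)).integer

variable {L}

theorem mem_baseRing {c : L} : c ∈ baseRing L v ↔ v (algebraMap L F c) ≤ 1 := Iff.rfl

/-- The unit ball of an `L`-subspace of `F`, as a module over the valuation ring of `L`. -/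
def lattice (M : Submodule L F) : Submodule (baseRing L v) F where
  carrier := {f | f ∈ M ∧ v f ≤ 1}
  zero_mem' := ⟨M.zero_mem, by simp⟩
  add_mem' := fun {x y} hx hy => ⟨M.add_mem hx.1 hy.1, v.map_add_le hx.2 hy.2⟩
  smul_mem' := fun c x hx => by
    refine ⟨?_, ?_⟩
    · have : c • x = (c : L) • x := rfl
      rw [this]
      exact M.smul_mem _ hx.1
    · have : c • x = algebraMap L F (c : L) * x := by
        rw [Subring.smul_def, Algebra.smul_def]
      rw [this, map_mul]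
      exact mul_le_one' c.2 hx.2

theorem mem_lattice {M : Submodule L F} {f : F} : f ∈ lattice v M ↔ f ∈ M ∧ v f ≤ 1 := Iff.rfl

theorem lattice_mono {M N : Submodule L F} (h : M ≤ N) : lattice v M ≤ lattice v N :=
  fun _ hf => ⟨h hf.1, hf.2⟩

theorem map_smul_eq (c : L) (x : F) : v (c • x) = v (algebraMap L F c) * v x := by
  rw [Algebra.smul_def, map_mul]

/-- Integral scalars of `L` act on submodules over the base valuation ring. -/
theorem smul_mem_of_le {S : Submodule (baseRing L v) F} {c : L} (hc : v (algebraMap L F c) ≤ 1)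
    {x : F} (hx : x ∈ S) : c • x ∈ S :=
  S.smul_mem (⟨c, hc⟩ : baseRing L v) hx

variable (L) in
/-- The maximal ideal of the base valuation ring. -/
def maxIdeal : Ideal (baseRing L v) where
  carrier := {c | v (algebraMap L F (c : L)) < 1}
  zero_mem' := by simp
  add_mem' := fun {x y} hx hy => by
    show v (algebraMap L F ((x + y : baseRing L v) : L)) < 1
    rw [Subring.coe_add, map_add]
    exact v.map_add_lt hx hy
  smul_mem' := fun c x hx => by
    show v (algebraMap L F ((c • x : baseRing L v) : L)) < 1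
    rw [smul_eq_mul, Subring.coe_mul, map_mul, map_mul]
    exact lt_of_le_of_lt (mul_le_of_le_one_left' c.2) hx

theorem maxIdeal_le_jacobson : maxIdeal L v ≤ Ideal.jacobson ⊥ := by
  intro x hx
  rw [Ideal.mem_jacobson_bot]
  intro y
  have hxy : v (algebraMap L F ((x * y : baseRing L v) : L)) < 1 := by
    rw [Subring.coe_mul, map_mul, map_mul, mul_comm]
    exact lt_of_le_of_lt (mul_le_of_le_one_left' y.2) hx
  have hz : v (algebraMap L F ((x * y + 1 : baseRing L v) : L)) = 1 := by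
    rw [Subring.coe_add, Subring.coe_one, map_add, map_one, add_comm]
    exact v.map_one_add_of_lt hxy
  have hz0 : ((x * y + 1 : baseRing L v) : L) ≠ 0 := by
    intro h
    rw [h, map_zero, map_zero] at hz
    exact zero_ne_one hz
  refine isUnit_iff_exists_inv.mpr ⟨⟨((x * y + 1 : baseRing L v) : L)⁻¹, ?_⟩, ?_⟩
  · show v (algebraMap L F _) ≤ 1
    rw [map_inv₀, map_inv₀, hz, inv_one]
  · apply Subtype.ext
    show ((x * y + 1 : baseRing L v) : L) * ((x * y + 1 : baseRing L v) : L)⁻¹ = 1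
    exact mul_inv_cancel₀ hz0

theorem exists_scalar (hval : ∀ f : F, ∃ c : L, v f = v (algebraMap L F c)) {f : F}
    (hf : f ≠ 0) : ∃ c : L, c ≠ 0 ∧ v (algebraMap L F c) = v f := by
  obtain ⟨c, hc⟩ := hval f
  refine ⟨c, ?_, hc.symm⟩
  rintro rfl
  rw [map_zero, map_zero] at hc
  exact hf (v.zero_iff.mp hc)

theorem exists_scalar_le (hval : ∀ f : F, ∃ c : L, v f = v (algebraMap L F c)) (x : F) :
    ∃ δ : L, δ ≠ 0 ∧ v (algebraMap L F δ) ≤ 1 ∧ v (δ • x) ≤ 1 := by
  by_cases hx : v x ≤ 1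
  · exact ⟨1, one_ne_zero, by simp, by simpa using hx⟩
  · have hx0 : x ≠ 0 := by
      rintro rfl
      simp at hx
    obtain ⟨c, hc0, hc⟩ := exists_scalar v hval hx0
    have hvx0 : v x ≠ 0 := fun h => hx0 (v.zero_iff.mp h)
    refine ⟨c⁻¹, inv_ne_zero hc0, ?_, ?_⟩
    · rw [map_inv₀, map_inv₀, hc]
      exact inv_le_one_of_one_le₀ (le_of_lt (not_le.mp hx))
    · rw [map_smul_eq, map_inv₀, map_inv₀, hc, inv_mul_cancel₀ hvx0]

/-- Nakayama: a finitely generated unit ball is generated by any submodule with the same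
reduction. -/
theorem lattice_le_of_approx (hval : ∀ f : F, ∃ c : L, v f = v (algebraMap L F c))
    {N : Submodule L F} (hfg : (lattice v N).FG) {S : Submodule (baseRing L v) F}
    (hS : S ≤ lattice v N) (h : ∀ f ∈ lattice v N, ∃ s ∈ S, v (f - s) < 1) :
    lattice v N ≤ S := by
  refine Submodule.le_of_le_smul_of_le_jacobson_bot hfg (maxIdeal_le_jacobson v) ?_
  intro f hf
  obtain ⟨s, hs, hfs⟩ := h f hf
  have hg : f - s ∈ N := N.sub_mem hf.1 (hS hs).1
  rw [Submodule.mem_sup]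
  refine ⟨s, hs, f - s, ?_, by ring⟩
  by_cases h0 : f - s = 0
  · rw [h0]
    exact Submodule.zero_mem _
  · obtain ⟨c, hc0, hc⟩ := exists_scalar v hval h0
    have hc1 : v (algebraMap L F c) ≤ 1 := hc ▸ hfs.le
    have hcm : (⟨c, hc1⟩ : baseRing L v) ∈ maxIdeal L v := by
      show v (algebraMap L F c) < 1
      rw [hc]
      exact hfs
    have hvne : v (f - s) ≠ 0 := fun h => h0 (v.zero_iff.mp h)
    have e : f - s = (⟨c, hc1⟩ : baseRing L v) • (c⁻¹ • (f - s)) := by
      show f - s = c • (c⁻¹ • (f - s))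
      rw [smul_smul, mul_inv_cancel₀ hc0, one_smul]
    rw [e]
    refine Submodule.smul_mem_smul hcm ⟨N.smul_mem _ hg, ?_⟩
    rw [map_smul_eq, map_inv₀, map_inv₀, hc, inv_mul_cancel₀ hvne]

/-- Adapter for the finite generation hypothesis: a finite integral family whose integral
combinations exhaust the unit ball of `M` (e.g. an orthonormal basis of `M`). -/
theorem lattice_fg_of_span {ι : Type*} [Fintype ι] {M : Submodule L F} (e : ι → F)
    (he : ∀ i, e i ∈ M) (hve : ∀ i, v (e i) ≤ 1)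
    (hspan : ∀ f ∈ M, v f ≤ 1 →
      ∃ c : ι → L, (∀ i, v (algebraMap L F (c i)) ≤ 1) ∧ f = ∑ i, c i • e i) :
    (lattice v M).FG := by
  have heq : lattice v M = Submodule.span (baseRing L v) (Set.range e) := by
    apply le_antisymm
    · intro f hf
      obtain ⟨c, hc, rfl⟩ := hspan f hf.1 hf.2
      refine Submodule.sum_mem _ fun i _ => ?_
      exact smul_mem_of_le v (hc i) (Submodule.subset_span ⟨i, rfl⟩)
    · rw [Submodule.span_le]
      rintro _ ⟨i, rfl⟩
      exact ⟨he i, hve i⟩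
  rw [heq]
  exact Submodule.fg_span (Set.finite_range e)

/-! ### The uniform torsion bound -/

/-- Standing hypotheses for the torsion bound: two charts `M1`, `M2` inside the overlap `M12`,
finitely generated unit balls, surjective transition maps on the cokernels of the unit balls
(`glue`), and trivial intersection of the charts. -/
structure Setup (M1 M2 M12 : ℕ → Submodule L F) (n0 : ℕ) : Prop where
  hval : ∀ f : F, ∃ c : L, v f = v (algebraMap L F c)
  mono1 : Monotone M1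
  mono2 : Monotone M2
  mono12 : Monotone M12
  le1 : ∀ n, M1 n ≤ M12 n
  le2 : ∀ n, M2 n ≤ M12 n
  fin : ∀ n, FiniteDimensional L (M12 n)
  fg : ∀ n, (lattice v (M12 n)).FG
  glue : ∀ n, n0 ≤ n → lattice v (M12 (n + 1)) ≤
    lattice v (M12 n) ⊔ (lattice v (M1 (n + 1)) ⊔ lattice v (M2 (n + 1)))
  disj : ∀ n, M1 n ⊓ M2 n = ⊥

/-- The defect `dim M12 n - dim (M1 n + M2 n)`. -/
noncomputable def defect (M1 M2 M12 : ℕ → Submodule L F) (n : ℕ) : ℕ :=
  finrank L (M12 n) - finrank L ↥(M1 n ⊔ M2 n)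

section SetupLemmas

variable {v} {M1 M2 M12 : ℕ → Submodule L F} {n0 : ℕ}

theorem lattice_sup_le (M N : Submodule L F) {x : F} (hx : x ∈ lattice v M ⊔ lattice v N) :
    x ∈ M ⊔ N := by
  obtain ⟨a, ha, b, hb, rfl⟩ := Submodule.mem_sup.mp hx
  exact Submodule.add_mem_sup ha.1 hb.1

theorem Setup.eq_sup (h : Setup v M1 M2 M12 n0) (n : ℕ) (hn : n0 ≤ n) :
    M12 (n + 1) = M12 n ⊔ (M1 (n + 1) ⊔ M2 (n + 1)) := by
  apply le_antisymm
  · intro f hf
    by_cases hf0 : f = 0
    · rw [hf0]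
      exact Submodule.zero_mem _
    obtain ⟨c, hc0, hc⟩ := exists_scalar v h.hval hf0
    have hvf : v f ≠ 0 := fun h' => hf0 (v.zero_iff.mp h')
    have hmem : c⁻¹ • f ∈ lattice v (M12 (n + 1)) := by
      refine ⟨(M12 (n + 1)).smul_mem _ hf, ?_⟩
      rw [map_smul_eq, map_inv₀, map_inv₀, hc, inv_mul_cancel₀ hvf]
    obtain ⟨x, hx, y, hy, hxy⟩ := Submodule.mem_sup.mp (h.glue n hn hmem)
    have hy' : y ∈ M1 (n + 1) ⊔ M2 (n + 1) := lattice_sup_le _ _ hy
    have e : f = c • x + c • y := by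
      rw [← smul_add, hxy, smul_smul, mul_inv_cancel₀ hc0, one_smul]
    rw [e]
    exact Submodule.add_mem_sup ((M12 n).smul_mem _ hx.1) (Submodule.smul_mem _ _ hy')
  · exact sup_le (h.mono12 (Nat.le_succ n)) (sup_le (h.le1 _) (h.le2 _))

theorem Setup.defect_succ (h : Setup v M1 M2 M12 n0) (n : ℕ) (hn : n0 ≤ n) :
    defect M1 M2 M12 (n + 1) ≤ defect M1 M2 M12 n ∧
      (defect M1 M2 M12 (n + 1) = defect M1 M2 M12 n →
        M12 n ⊓ (M1 (n + 1) ⊔ M2 (n + 1)) = M1 n ⊔ M2 n) := by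
  have := h.fin n
  have := h.fin (n + 1)
  have hS : M1 n ⊔ M2 n ≤ M12 n := sup_le (h.le1 n) (h.le2 n)
  have hS' : M1 (n + 1) ⊔ M2 (n + 1) ≤ M12 (n + 1) := sup_le (h.le1 _) (h.le2 _)
  have hSS' : M1 n ⊔ M2 n ≤ M1 (n + 1) ⊔ M2 (n + 1) :=
    sup_le_sup (h.mono1 (Nat.le_succ n)) (h.mono2 (Nat.le_succ n))
  have hle : M1 n ⊔ M2 n ≤ M12 n ⊓ (M1 (n + 1) ⊔ M2 (n + 1)) := le_inf hS hSS'
  have : FiniteDimensional L ↥(M1 (n + 1) ⊔ M2 (n + 1)) :=
    Submodule.finiteDimensional_of_le hS'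
  have : FiniteDimensional L ↥(M12 n ⊓ (M1 (n + 1) ⊔ M2 (n + 1))) :=
    Submodule.finiteDimensional_of_le inf_le_left
  have e := Submodule.finrank_sup_add_finrank_inf_eq (M12 n) (M1 (n + 1) ⊔ M2 (n + 1))
  rw [← h.eq_sup n hn] at e
  have i1 : finrank L ↥(M1 n ⊔ M2 n) ≤ finrank L ↥(M12 n ⊓ (M1 (n + 1) ⊔ M2 (n + 1))) :=
    Submodule.finrank_mono hle
  have i2 : finrank L ↥(M12 n ⊓ (M1 (n + 1) ⊔ M2 (n + 1))) ≤ finrank L (M12 n) :=
    Submodule.finrank_mono inf_le_left
  have i3 : finrank L ↥(M1 (n + 1) ⊔ M2 (n + 1)) ≤ finrank L (M12 (n + 1)) :=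
    Submodule.finrank_mono hS'
  refine ⟨by unfold defect; omega, fun heq => ?_⟩
  have hfr : finrank L ↥(M1 n ⊔ M2 n) = finrank L ↥(M12 n ⊓ (M1 (n + 1) ⊔ M2 (n + 1))) := by
    unfold defect at heq
    omega
  exact (Submodule.eq_of_le_of_finrank_eq hle hfr).symm

/-- The defects are eventually constant, hence the transition maps on the generic cokernels are
eventually injective. -/
theorem Setup.exists_stable (h : Setup v M1 M2 M12 n0) :
    ∃ n1, n0 ≤ n1 ∧ ∀ n, n1 ≤ n → M12 n ⊓ (M1 (n + 1) ⊔ M2 (n + 1)) = M1 n ⊔ M2 n := by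
  classical
  have hex : ∃ k, ∃ n, n0 ≤ n ∧ defect M1 M2 M12 n = k := ⟨_, n0, le_rfl, rfl⟩
  obtain ⟨n1, hn1, hk⟩ := Nat.find_spec hex
  refine ⟨n1, hn1, fun n hn => ?_⟩
  have hanti : ∀ n, n1 ≤ n → defect M1 M2 M12 n ≤ defect M1 M2 M12 n1 := by
    intro n hn
    induction n, hn using Nat.le_induction with
    | base => exact le_rfl
    | succ n hn ih => exact ((h.defect_succ n (hn1.trans hn)).1).trans ih
  have hmin : ∀ n, n0 ≤ n → defect M1 M2 M12 n1 ≤ defect M1 M2 M12 n := fun n hn => by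
    rw [hk]
    exact Nat.find_min' hex ⟨n, hn, rfl⟩
  refine (h.defect_succ n (hn1.trans hn)).2 ?_
  have a1 := hanti (n + 1) (by omega)
  have a2 := hanti n hn
  have b1 := hmin (n + 1) (by omega)
  have b2 := hmin n (by omega)
  omega

theorem Setup.exists_scalar_mem (h : Setup v M1 M2 M12 n0) (n : ℕ) {x : F}
    (hx : x ∈ M1 n ⊔ M2 n) :
    ∃ δ : L, δ ≠ 0 ∧ v (algebraMap L F δ) ≤ 1 ∧
      δ • x ∈ lattice v (M1 n) ⊔ lattice v (M2 n) := by
  obtain ⟨a, ha, b, hb, rfl⟩ := Submodule.mem_sup.mp hx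
  obtain ⟨δa, hδa0, hδa1, hδa⟩ := exists_scalar_le v h.hval a
  obtain ⟨δb, hδb0, hδb1, hδb⟩ := exists_scalar_le v h.hval b
  refine ⟨δa * δb, mul_ne_zero hδa0 hδb0, ?_, ?_⟩
  · rw [map_mul, map_mul]
    exact mul_le_one' hδa1 hδb1
  · rw [smul_add]
    refine Submodule.add_mem_sup ⟨(M1 n).smul_mem _ ha, ?_⟩ ⟨(M2 n).smul_mem _ hb, ?_⟩
    · rw [mul_comm, mul_smul, map_smul_eq]
      exact mul_le_one' hδb1 hδa
    · rw [mul_smul, map_smul_eq]
      exact mul_le_one' hδa1 hδb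

/-- Base case of the torsion bound: at a fixed level, one scalar kills the torsion of the
cokernel of the unit balls. -/
theorem Setup.base_bound (h : Setup v M1 M2 M12 n0) (n : ℕ) :
    ∃ δ : L, δ ≠ 0 ∧ v (algebraMap L F δ) ≤ 1 ∧
      ∀ c ∈ lattice v (M12 n), c ∈ M1 n ⊔ M2 n →
        δ • c ∈ lattice v (M1 n) ⊔ lattice v (M2 n) := by
  classical
  obtain ⟨s, hs⟩ := h.fg n
  obtain ⟨π, hπ⟩ := LinearMap.exists_leftInverse_of_injective (M1 n ⊔ M2 n).subtype
    (Submodule.ker_subtype _)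
  have key : ∀ t : Finset F, ∃ δ : L, δ ≠ 0 ∧ v (algebraMap L F δ) ≤ 1 ∧
      ∀ e ∈ t, δ • ((π e : ↥(M1 n ⊔ M2 n)) : F) ∈ lattice v (M1 n) ⊔ lattice v (M2 n) := by
    intro t
    induction t using Finset.induction_on with
    | empty => exact ⟨1, one_ne_zero, by simp, by simp⟩
    | insert e t _ ih =>
      obtain ⟨δ, hδ0, hδ1, hδ⟩ := ih
      obtain ⟨δ', hδ'0, hδ'1, hδ'⟩ := h.exists_scalar_mem n (π e).2
      refine ⟨δ * δ', mul_ne_zero hδ0 hδ'0, ?_, ?_⟩
      · rw [map_mul, map_mul]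
        exact mul_le_one' hδ1 hδ'1
      · intro x hx
        rcases Finset.mem_insert.mp hx with rfl | hx
        · rw [mul_smul]
          exact smul_mem_of_le v hδ1 hδ'
        · rw [mul_comm, mul_smul]
          exact smul_mem_of_le v hδ'1 (hδ x hx)
  obtain ⟨δ, hδ0, hδ1, hδ⟩ := key s
  refine ⟨δ, hδ0, hδ1, fun c hc hcS => ?_⟩
  have hspan : c ∈ Submodule.span (baseRing L v) (s : Set F) := by
    rw [hs]
    exact hc
  have hall : ∀ x ∈ Submodule.span (baseRing L v) (s : Set F),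
      δ • ((π x : ↥(M1 n ⊔ M2 n)) : F) ∈ lattice v (M1 n) ⊔ lattice v (M2 n) := by
    intro x hx
    induction hx using Submodule.span_induction with
    | mem x hx => exact hδ x hx
    | zero => simp
    | add x y _ _ hx hy =>
      rw [map_add, Submodule.coe_add, smul_add]
      exact Submodule.add_mem _ hx hy
    | smul a x _ hx =>
      have e : δ • ((π (a • x) : ↥(M1 n ⊔ M2 n)) : F) = a • (δ • ((π x : ↥(M1 n ⊔ M2 n)) : F)) := by
        show δ • ((π ((a : L) • x) : ↥(M1 n ⊔ M2 n)) : F)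
          = (a : L) • (δ • ((π x : ↥(M1 n ⊔ M2 n)) : F))
        rw [map_smul, Submodule.coe_smul, smul_comm]
      rw [e]
      exact Submodule.smul_mem _ a hx
  have hc' := hall c hspan
  have hπc : ((π c : ↥(M1 n ⊔ M2 n)) : F) = c := by
    have h2 := LinearMap.congr_fun hπ ⟨c, hcS⟩
    simpa using congrArg Subtype.val h2
  rwa [hπc] at hc'

/-- **Uniform torsion bound.**  One scalar kills the torsion of all cokernels
`lattice (M12 n) / (lattice (M1 n) + lattice (M2 n))`, `n ≥ n1`. -/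
theorem Setup.uniform_torsion (h : Setup v M1 M2 M12 n0) :
    ∃ n1, n0 ≤ n1 ∧ ∃ δ : L, δ ≠ 0 ∧ v (algebraMap L F δ) ≤ 1 ∧ ∀ n, n1 ≤ n →
      ∀ c ∈ lattice v (M12 n), c ∈ M1 n ⊔ M2 n →
        δ • c ∈ lattice v (M1 n) ⊔ lattice v (M2 n) := by
  obtain ⟨n1, hn1, hstab⟩ := h.exists_stable
  obtain ⟨δ, hδ0, hδ1, hδ⟩ := h.base_bound n1
  refine ⟨n1, hn1, δ, hδ0, hδ1, fun n hn => ?_⟩
  induction n, hn using Nat.le_induction with
  | base => exact hδ
  | succ n hn ih =>
    intro c hc hcS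
    obtain ⟨c0, hc0, t, ht, rfl⟩ := Submodule.mem_sup.mp (h.glue n (hn1.trans hn) hc)
    have htS : t ∈ M1 (n + 1) ⊔ M2 (n + 1) := lattice_sup_le _ _ ht
    have hc0S : c0 ∈ M1 n ⊔ M2 n := by
      rw [← hstab n hn]
      refine ⟨hc0.1, ?_⟩
      have : c0 = (c0 + t) - t := by ring
      rw [this]
      exact Submodule.sub_mem _ hcS htS
    have hmono : lattice v (M1 n) ⊔ lattice v (M2 n) ≤
        lattice v (M1 (n + 1)) ⊔ lattice v (M2 (n + 1)) :=
      sup_le_sup (lattice_mono v (h.mono1 (Nat.le_succ n)))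
        (lattice_mono v (h.mono2 (Nat.le_succ n)))
    rw [smul_add]
    exact Submodule.add_mem _ (hmono (ih c0 hc0 hc0S)) (smul_mem_of_le v hδ1 ht)

/-- **Uniform bound.**  If the charts never meet, an element of the first chart cannot be
approximated by elements of the second chart beyond a fixed precision. -/
theorem Setup.uniform_bound (h : Setup v M1 M2 M12 n0) :
    ∃ δ : L, δ ≠ 0 ∧ ∀ n, ∀ a ∈ M1 n, ∀ b ∈ M2 n,
      v (algebraMap L F δ) * v a ≤ v (a - b) := by
  obtain ⟨n1, -, δ, hδ0, -, hδ⟩ := h.uniform_torsion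
  refine ⟨δ, hδ0, fun n a ha b hb => ?_⟩
  set n' := max n n1 with hn'
  have ha' : a ∈ M1 n' := h.mono1 (le_max_left n n1) ha
  have hb' : b ∈ M2 n' := h.mono2 (le_max_left n n1) hb
  have hbot : ∀ x, x ∈ M1 n' → x ∈ M2 n' → x = 0 := fun x hx1 hx2 => by
    have : x ∈ M1 n' ⊓ M2 n' := ⟨hx1, hx2⟩
    rw [h.disj n'] at this
    simpa using this
  by_cases hab : a - b = 0
  · have hab' : a = b := sub_eq_zero.mp hab
    have ha0 : a = 0 := hbot a ha' (hab' ▸ hb')
    simp [ha0]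
  obtain ⟨δ', hδ'0, hδ'⟩ := exists_scalar v h.hval hab
  have hvab : v (a - b) ≠ 0 := fun h' => hab (v.zero_iff.mp h')
  have hc : δ'⁻¹ • (a - b) ∈ lattice v (M12 n') := by
    refine ⟨(M12 n').smul_mem _ ((M12 n').sub_mem (h.le1 n' ha') (h.le2 n' hb')), ?_⟩
    rw [map_smul_eq, map_inv₀, map_inv₀, hδ', inv_mul_cancel₀ hvab]
  have hcS : δ'⁻¹ • (a - b) ∈ M1 n' ⊔ M2 n' := by
    refine Submodule.smul_mem _ _ ?_
    rw [sub_eq_add_neg]
    exact Submodule.add_mem_sup ha' ((M2 n').neg_mem hb')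
  obtain ⟨a', ha'', b', hb'', hsum⟩ :=
    Submodule.mem_sup.mp (hδ n' (le_max_right n n1) _ hc hcS)
  -- `κ • a - a' = κ • b + b'` lies in both charts
  set κ := δ * δ'⁻¹ with hκ
  have hsum' : κ • a - κ • b = a' + b' := by
    rw [hsum, ← smul_sub, hκ, mul_smul]
  have hx1 : κ • a - a' ∈ M1 n' := (M1 n').sub_mem ((M1 n').smul_mem _ ha') ha''.1
  have hx2 : κ • a - a' ∈ M2 n' := by
    have : κ • a - a' = κ • b + b' := by
      have := hsum'
      linear_combination this
    rw [this]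
    exact (M2 n').add_mem ((M2 n').smul_mem _ hb') hb''.1
  have hκa : κ • a = a' := sub_eq_zero.mp (hbot _ hx1 hx2)
  have hle : v (κ • a) ≤ 1 := hκa ▸ ha''.2
  rw [map_smul_eq, hκ, map_mul, map_mul, map_inv₀, map_inv₀, hδ'] at hle
  have hpos : 0 < v (a - b) := zero_lt_iff.mpr hvab
  calc v (algebraMap L F δ) * v a
      = (v (algebraMap L F δ) * (v (a - b))⁻¹ * v a) * v (a - b) := by
        rw [mul_assoc, mul_assoc, mul_comm (v a), ← mul_assoc (v (a - b))⁻¹,
          inv_mul_cancel₀ hvab, one_mul]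
    _ ≤ 1 * v (a - b) := by gcongr
    _ = v (a - b) := one_mul _

end SetupLemmas

/-! ### The abstract Kummer core -/

/-- Monotonicity of a chart cut out by a filtration. -/
theorem monotone_of_filtration {B M : ℕ → Submodule L F} (hB : IsFiltration B) {m : ℕ} {u : F}
    (hM : ∀ n f, f ∈ M n ↔ f ^ m * u ∈ B (m * n)) : Monotone M := by
  intro n n' hn f hf
  rw [hM] at hf ⊢
  exact hB.mono (Nat.mul_le_mul_left m hn) hf

/-- Gluing of unit balls from gluing of their reductions (Nakayama). -/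
theorem glue_of_reduction (hval : ∀ f : F, ∃ c : L, v f = v (algebraMap L F c))
    {M1 M2 M12 : ℕ → Submodule L F} (h1 : ∀ n, M1 n ≤ M12 n) (h2 : ∀ n, M2 n ≤ M12 n)
    (hmono : Monotone M12) (hfg : ∀ n, (lattice v (M12 n)).FG) {n : ℕ}
    (hred : ∀ f ∈ M12 (n + 1), v f ≤ 1 →
      ∃ c ∈ M12 n, ∃ a ∈ M1 (n + 1), ∃ b ∈ M2 (n + 1),
        v c ≤ 1 ∧ v a ≤ 1 ∧ v b ≤ 1 ∧ v (f - (c + a + b)) < 1) :
    lattice v (M12 (n + 1)) ≤
      lattice v (M12 n) ⊔ (lattice v (M1 (n + 1)) ⊔ lattice v (M2 (n + 1))) := by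
  refine lattice_le_of_approx v hval (hfg (n + 1)) ?_ ?_
  · exact sup_le (lattice_mono v (hmono (Nat.le_succ n)))
      (sup_le (lattice_mono v (h1 _)) (lattice_mono v (h2 _)))
  · intro f hf
    obtain ⟨c, hc, a, ha, b, hb, hvc, hva, hvb, hlt⟩ := hred f hf.1 hf.2
    refine ⟨c + (a + b), ?_, by rwa [← add_assoc]⟩
    exact Submodule.add_mem_sup ⟨hc, hvc⟩ (Submodule.add_mem_sup ⟨ha, hva⟩ ⟨hb, hvb⟩)

/-- **Abstract Kummer core.**

`v` is a valuation on `F` whose value group is already attained on the subfield `L` (`hval`) and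
is archimedean (`harch`); `m` is a `v`-unit integer and `u` a `v`-unit of `F`.
The charts `M1 n`, `M2 n ≤ M12 n` are cut out by filtrations:
`f ∈ Mi n ↔ f ^ m * u ∈ Bi (m * n)`.
If the unit balls of the `M12 n` are finitely generated, the reduction of the unit ball of
`M12 (n + 1)` is the sum of the reductions of the unit balls of `M12 n`, `M1 (n + 1)`,
`M2 (n + 1)` for `n ≥ n0` (`hred`), and there are integral `a0 ∈ M1 n0`, `b0 ∈ M2 n0` with the
same reduction and `a0 ^ m * u ≡ 1`, then the two charts meet: there is `f ≠ 0` in some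
`M1 n ⊓ M2 n`.

Intended instance (#1924): `Bi N = L(N • Xi)` for the polar divisors `X1`, `X2` of `x`, `1 / x`,
`M1 n = L(D0 + n X1)`, `M2 n = L(D0 + n X2)`, `M12 n = L(D0 + n X1 + n X2)` where
`div u = m • D0`; the conclusion gives `L(D0) ≠ 0`. -/
theorem exists_ne_zero_mem_inf
    (hval : ∀ f : F, ∃ c : L, v f = v (algebraMap L F c))
    (harch : ∀ ε δ : L, v (algebraMap L F ε) < 1 → δ ≠ 0 →
      ∃ j : ℕ, v (algebraMap L F ε) ^ j ≤ v (algebraMap L F δ))
    {m : ℕ} (hm : v (m : F) = 1) {u : F} (hu : v u = 1)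
    {B1 B2 : ℕ → Submodule L F} (hB1 : IsFiltration B1) (hB2 : IsFiltration B2)
    {M1 M2 M12 : ℕ → Submodule L F}
    (hM1 : ∀ n f, f ∈ M1 n ↔ f ^ m * u ∈ B1 (m * n))
    (hM2 : ∀ n f, f ∈ M2 n ↔ f ^ m * u ∈ B2 (m * n))
    (h1 : ∀ n, M1 n ≤ M12 n) (h2 : ∀ n, M2 n ≤ M12 n) (hmono : Monotone M12)
    (hfin : ∀ n, FiniteDimensional L (M12 n))
    (hfg : ∀ n, (lattice v (M12 n)).FG)
    {n0 : ℕ}
    (hred : ∀ n, n0 ≤ n → ∀ f ∈ M12 (n + 1), v f ≤ 1 →
      ∃ c ∈ M12 n, ∃ a ∈ M1 (n + 1), ∃ b ∈ M2 (n + 1),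
        v c ≤ 1 ∧ v a ≤ 1 ∧ v b ≤ 1 ∧ v (f - (c + a + b)) < 1)
    {a0 b0 : F} (ha0 : a0 ∈ M1 n0) (hb0 : b0 ∈ M2 n0) (hva0 : v a0 ≤ 1)
    (hau : v (a0 ^ m * u - 1) < 1) (hab : v (a0 - b0) < 1) :
    ∃ n f, f ≠ 0 ∧ f ∈ M1 n ∧ f ∈ M2 n := by
  by_contra hne
  push Not at hne
  have hm0 : m ≠ 0 := by
    rintro rfl
    simp at hm
  -- valuations of the initial data
  have hva0' : v a0 = 1 := by
    have h1' : v (a0 ^ m * u) = 1 := by
      have : a0 ^ m * u = 1 + (a0 ^ m * u - 1) := by ring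
      rw [this]
      exact v.map_one_add_of_lt hau
    rw [map_mul, map_pow, hu, mul_one] at h1'
    rcases lt_or_eq_of_le hva0 with hlt | heq
    · exact absurd h1' (ne_of_lt (pow_lt_one₀ zero_le hlt hm0))
    · exact heq
  have hvb0' : v b0 = 1 := by
    have : b0 = a0 - (a0 - b0) := by ring
    rw [this, v.map_sub_eq_of_lt_left (by rw [hva0']; exact hab), hva0']
  have hbu : v (b0 ^ m * u - 1) < 1 := by
    have hgeom : v (a0 ^ m - b0 ^ m) < 1 := by
      rw [← geom_sum₂_mul a0 b0 m, map_mul]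
      refine lt_of_le_of_lt (mul_le_of_le_one_left' ?_) hab
      refine v.map_sum_le fun i _ => ?_
      rw [map_mul, map_pow, map_pow, hva0', hvb0']
      simp
    have : b0 ^ m * u - 1 = (a0 ^ m * u - 1) - (a0 ^ m - b0 ^ m) * u := by ring
    rw [this]
    refine v.map_sub_lt hau ?_
    rw [map_mul, hu, mul_one]
    exact hgeom
  -- the setup
  have hmono1 : Monotone M1 := monotone_of_filtration hB1 hM1
  have hmono2 : Monotone M2 := monotone_of_filtration hB2 hM2
  have hS : Setup v M1 M2 M12 n0 :=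
    { hval := hval
      mono1 := hmono1
      mono2 := hmono2
      mono12 := hmono
      le1 := h1
      le2 := h2
      fin := hfin
      fg := hfg
      glue := fun n hn => glue_of_reduction v hval h1 h2 hmono hfg (hred n hn)
      disj := fun n => by
        rw [Submodule.eq_bot_iff]
        intro x hx
        by_contra hx0
        exact hne n x hx0 hx.1 hx.2 }
  obtain ⟨δ, hδ0, hδ⟩ := hS.uniform_bound
  have hvδ : 0 < v (algebraMap L F δ) :=
    zero_lt_iff.mpr fun h => hδ0 (by simpa using v.zero_iff.mp h)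
  -- the common precision of the initial data
  set γ := max (v (a0 ^ m * u - 1)) (v (b0 ^ m * u - 1)) with hγdef
  have hγ : γ < 1 := max_lt hau hbu
  have hγL : ∃ ε : L, v (algebraMap L F ε) = γ := by
    rcases max_choice (v (a0 ^ m * u - 1)) (v (b0 ^ m * u - 1)) with h | h
    · obtain ⟨c, hc⟩ := hval (a0 ^ m * u - 1)
      exact ⟨c, by rw [hγdef, h, hc]⟩
    · obtain ⟨c, hc⟩ := hval (b0 ^ m * u - 1)
      exact ⟨c, by rw [hγdef, h, hc]⟩
  obtain ⟨ε, hε⟩ := hγL
  obtain ⟨j, hj⟩ := harch ε δ (hε ▸ hγ) hδ0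
  rw [hε] at hj
  obtain ⟨a, haM, hva, haa0, hεa⟩ :=
    newton_iter v hB1 hM1 hm hγ ha0 hva0' (le_max_left _ _) j
  obtain ⟨b, hbM, hvb, hbb0, hεb⟩ :=
    newton_iter v hB2 hM2 hm hγ hb0 hvb0' (le_max_right _ _) j
  have hab' : v (a - b) < 1 := by
    have : a - b = (a - a0) + (a0 - b0) - (b - b0) := by ring
    rw [this]
    exact v.map_sub_lt (v.map_add_lt haa0 hab) hbb0
  have hclose : v (a - b) ≤ γ ^ (j + 1) := sub_le_of_pow_mul v hm hvb hu hab' hεa hεb
  have hbound := hδ _ a haM b hbM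
  rw [hva, mul_one] at hbound
  have : v (algebraMap L F δ) < v (algebraMap L F δ) :=
    calc v (algebraMap L F δ) ≤ v (a - b) := hbound
      _ ≤ γ ^ (j + 1) := hclose
      _ = γ ^ j * γ := pow_succ _ _
      _ ≤ v (algebraMap L F δ) * γ := by gcongr
      _ < v (algebraMap L F δ) := mul_lt_of_lt_one_right hvδ hγ
  exact lt_irrefl _ this

end Core

end Fermat.Agent.S18.helper3619
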