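import Mathlib

/-!
# S18, track B: base change of discriminant-form unramifiedness (helper3684)

* `formallyUnramified_iff_isUnit_discr` : a finite free algebra with a basis is formally
  unramified iff the discriminant of the basis is a unit.
-/

set_option autoImplicit false

open scoped TensorProduct

namespace Fermat.Agent.S18.helper3684

section FreeAlgebra

variable {O R : Type*} [CommRing O] [CommRing R] [Algebra O R]
variable {ι : Type*} [Fintype ι] [DecidableEq ι]

/-- Every element of `R ⊗ R` is of the form `∑ b i ⊗ c i` for a basis `b`. -/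
theorem exists_sum_basis_tmul (b : Module.Basis ι O R) (t : R ⊗[O] R) :
    ∃ c : ι → R, t = ∑ i, b i ⊗ₜ[O] c i := by
  induction t using TensorProduct.induction_on with
  | zero => exact ⟨0, by simp⟩
  | tmul x y =>
    refine ⟨fun i => b.repr x i • y, ?_⟩
    conv_lhs => rw [← b.sum_repr x]
    rw [TensorProduct.sum_tmul]
    refine Finset.sum_congr rfl fun i _ => ?_
    rw [TensorProduct.smul_tmul]
  | add x y hx hy =>
    obtain ⟨c, rfl⟩ := hx
    obtain ⟨c', rfl⟩ := hy
    refine ⟨c + c', ?_⟩
    rw [← Finset.sum_add_distrib]
    refine Finset.sum_congr rfl fun i _ => ?_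
    rw [Pi.add_apply, TensorProduct.tmul_add]

/-- `x ⊗ y ↦ φ x • y`. -/
noncomputable def evalLeft (φ : R →ₗ[O] O) : R ⊗[O] R →ₗ[O] R :=
  TensorProduct.lift ((LinearMap.lsmul O R).comp φ)

@[simp]
theorem evalLeft_tmul (φ : R →ₗ[O] O) (x y : R) : evalLeft φ (x ⊗ₜ[O] y) = φ x • y := by
  simp [evalLeft]

theorem trace_eq_sum_repr (b : Module.Basis ι O R) (y : R) :
    Algebra.trace O R y = ∑ i, b.repr (y * b i) i := by
  rw [Algebra.trace_eq_matrix_trace b, Matrix.trace]
  refine Finset.sum_congr rfl fun i _ => ?_
  rw [Matrix.diag_apply, Algebra.leftMulMatrix_eq_repr_mul]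

/-- **Unit discriminant ⇒ unramified** for a finite free algebra. -/
theorem formallyUnramified_of_isUnit_discr (b : Module.Basis ι O R)
    (h : IsUnit (Algebra.discr O b)) : Algebra.FormallyUnramified O R := by
  classical
  have : Module.Finite O R := Module.Finite.of_basis b
  rw [Algebra.FormallyUnramified.iff_exists_tensorProduct]
  set G := Algebra.traceMatrix O b with hG
  have hdet : IsUnit G.det := h
  set C := G⁻¹ with hC
  have hGC : G * C = 1 := Matrix.mul_nonsing_inv G hdet
  have hCG : C * G = 1 := Matrix.nonsing_inv_mul G hdet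
  set c : ι → R := fun i => ∑ k, C i k • b k with hc_def
  have hG_apply : ∀ i j, G i j = Algebra.trace O R (b i * b j) := fun i j => by
    rw [hG, Algebra.traceMatrix_apply, Algebra.traceForm_apply]
  have ha : ∀ i j, Algebra.trace O R (b j * c i) = if i = j then 1 else 0 := by
    intro i j
    have h1 : Algebra.trace O R (b j * c i) = (C * G) i j := by
      rw [Matrix.mul_apply, hc_def, Finset.mul_sum, map_sum]
      refine Finset.sum_congr rfl fun k _ => ?_
      rw [mul_smul_comm, map_smul, smul_eq_mul, hG_apply, mul_comm (b j) (b k)]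
    rw [h1, hCG, Matrix.one_apply]
  have hb : ∀ y i, Algebra.trace O R (y * c i) = b.repr y i := by
    intro y i
    conv_lhs => rw [← b.sum_repr y]
    rw [Finset.sum_mul, map_sum]
    simp only [smul_mul_assoc, map_smul, smul_eq_mul, ha]
    rw [Finset.sum_eq_single i]
    · simp
    · intro j _ hji
      rw [if_neg (Ne.symm hji), mul_zero]
    · intro hi
      exact absurd (Finset.mem_univ i) hi
  have hc : ∀ y, ∑ i, Algebra.trace O R (y * b i) • c i = y := by
    have key : (∑ i, ((Algebra.trace O R).comp (LinearMap.mulRight O (b i))).smulRight (c i))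
        = (LinearMap.id : R →ₗ[O] R) := by
      refine b.ext fun j => ?_
      simp only [LinearMap.sum_apply, LinearMap.smulRight_apply, LinearMap.comp_apply,
        LinearMap.mulRight_apply, LinearMap.id_apply]
      have h2 : ∀ i, Algebra.trace O R (b j * b i) • c i = ∑ k, (G j i * C i k) • b k := by
        intro i
        rw [hc_def, Finset.smul_sum]
        refine Finset.sum_congr rfl fun k _ => ?_
        rw [smul_smul, hG_apply]
      simp only [h2]
      rw [Finset.sum_comm]
      have h3 : ∀ k, ∑ i, (G j i * C i k) • b k = ((G * C) j k) • b k := by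
        intro k
        rw [Matrix.mul_apply, Finset.sum_smul]
      simp only [h3, hGC, Matrix.one_apply]
      rw [Finset.sum_eq_single j]
      · simp
      · intro k _ hkj
        rw [if_neg (Ne.symm hkj), zero_smul]
      · intro hj
        exact absurd (Finset.mem_univ j) hj
    intro y
    have := LinearMap.congr_fun key y
    simpa only [LinearMap.sum_apply, LinearMap.smulRight_apply, LinearMap.comp_apply,
      LinearMap.mulRight_apply, LinearMap.id_apply] using this
  refine ⟨∑ i, b i ⊗ₜ[O] c i, fun s => ?_, ?_⟩
  · rw [sub_mul, sub_eq_zero, Finset.mul_sum, Finset.mul_sum]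
    simp only [Algebra.TensorProduct.tmul_mul_tmul, one_mul]
    have hL : ∀ i, b i ⊗ₜ[O] (s * c i) =
        ∑ j, Algebra.trace O R (s * c i * b j) • (b i ⊗ₜ[O] c j) := by
      intro i
      conv_lhs => rw [← hc (s * c i)]
      rw [TensorProduct.tmul_sum]
      refine Finset.sum_congr rfl fun j _ => ?_
      rw [TensorProduct.tmul_smul]
    have hR : ∀ i, (s * b i) ⊗ₜ[O] c i =
        ∑ j, Algebra.trace O R (s * b i * c j) • (b j ⊗ₜ[O] c i) := by
      intro i
      conv_lhs => rw [← b.sum_repr (s * b i)]
      rw [TensorProduct.sum_tmul]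
      refine Finset.sum_congr rfl fun j _ => ?_
      rw [TensorProduct.smul_tmul', hb]
    simp only [hL, hR]
    rw [Finset.sum_comm]
    refine Finset.sum_congr rfl fun j _ => Finset.sum_congr rfl fun i _ => ?_
    congr 2
    ring
  · rw [map_sum]
    simp only [Algebra.TensorProduct.lmul'_apply_tmul]
    have htr : ∀ y, Algebra.trace O R (y * ∑ i, b i * c i) = Algebra.trace O R y := by
      intro y
      rw [Finset.mul_sum, map_sum, trace_eq_sum_repr b y]
      refine Finset.sum_congr rfl fun i _ => ?_
      rw [← mul_assoc, hb]
    have h0 := hc ((∑ i, b i * c i) - 1)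
    have hz : ∀ i, Algebra.trace O R (((∑ i, b i * c i) - 1) * b i) = 0 := by
      intro i
      rw [sub_mul, one_mul, map_sub, mul_comm, htr, sub_self]
    simp only [hz, zero_smul, Finset.sum_const_zero] at h0
    exact (sub_eq_zero.mp h0.symm)

/-- **Unramified ⇒ unit discriminant** for a finite free algebra. -/
theorem isUnit_discr_of_formallyUnramified (b : Module.Basis ι O R)
    [Algebra.FormallyUnramified O R] : IsUnit (Algebra.discr O b) := by
  classical
  have : Module.Finite O R := Module.Finite.of_basis b
  obtain ⟨t, h1, h2⟩ :=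
    (Algebra.FormallyUnramified.iff_exists_tensorProduct (R := O) (S := R)).mp inferInstance
  obtain ⟨c, rfl⟩ := exists_sum_basis_tmul b t
  have hstar : ∀ (s : R) (j : ι), s * c j = ∑ i, b.repr (s * b i) j • c i := by
    intro s j
    have h := h1 s
    rw [sub_mul, sub_eq_zero, Finset.mul_sum, Finset.mul_sum] at h
    have h' := congrArg (evalLeft (b.coord j)) h
    simp only [Algebra.TensorProduct.tmul_mul_tmul, one_mul, map_sum, evalLeft_tmul,
      Module.Basis.coord_apply, Module.Basis.repr_self] at h'
    rw [Finset.sum_eq_single j] at h'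
    · rw [Finsupp.single_eq_same, one_smul] at h'
      exact h'
    · intro i _ hij
      rw [Finsupp.single_eq_of_ne (Ne.symm hij) , zero_smul]
    · intro hj
      exact absurd (Finset.mem_univ j) hj
  have hone : ∑ i, b i * c i = 1 := by
    rw [map_sum] at h2
    simpa only [Algebra.TensorProduct.lmul'_apply_tmul] using h2
  have hexp : ∀ x : R, ∑ i, Algebra.trace O R (x * b i) • c i = x := by
    intro x
    have e1 : ∀ i, Algebra.trace O R (x * b i) • c i =
        ∑ j, b.repr (x * b j * b i) j • c i := by
      intro i
      rw [trace_eq_sum_repr b, Finset.sum_smul]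
      refine Finset.sum_congr rfl fun j _ => ?_
      congr 3
      ring
    simp only [e1]
    rw [Finset.sum_comm]
    have e2 : ∀ j, ∑ i, b.repr (x * b j * b i) j • c i = x * b j * c j := fun j =>
      (hstar (x * b j) j).symm
    simp only [e2]
    simp only [mul_assoc]
    rw [← Finset.mul_sum, hone, mul_one]
  set G := Algebra.traceMatrix O b with hG
  let Cm : Matrix ι ι O := Matrix.of fun i k => b.repr (c i) k
  have hGC : G * Cm = 1 := by
    ext j k
    rw [Matrix.mul_apply, Matrix.one_apply]
    have h3 : ∑ i, G j i * Cm i k = b.repr (∑ i, Algebra.trace O R (b j * b i) • c i) k := by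
      rw [map_sum, Finset.sum_apply']
      refine Finset.sum_congr rfl fun i _ => ?_
      rw [map_smul, Finsupp.smul_apply, smul_eq_mul, hG, Algebra.traceMatrix_apply,
        Algebra.traceForm_apply]
      rfl
    rw [h3, hexp, Module.Basis.repr_self, Finsupp.single_apply]
  exact Matrix.isUnit_det_of_right_inverse hGC

/-- A finite free algebra is formally unramified iff the discriminant of a basis is a unit. -/
theorem formallyUnramified_iff_isUnit_discr (b : Module.Basis ι O R) :
    Algebra.FormallyUnramified O R ↔ IsUnit (Algebra.discr O b) :=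
  ⟨fun _ => isUnit_discr_of_formallyUnramified b, formallyUnramified_of_isUnit_discr b⟩

end FreeAlgebra

section Cramer

variable {O K L : Type*} [CommRing O] [IsDomain O] [IsIntegrallyClosed O] [Field K] [Field L]
  [Algebra O K] [IsFractionRing O K] [Algebra K L] [Algebra O L] [IsScalarTower O K L]
  [FiniteDimensional K L]

/-- A tuple of the right size with nonzero discriminant is a basis. -/
theorem linearIndependent_of_discr_ne_zero {ι : Type*} [Fintype ι] [DecidableEq ι]
    (b : ι → L) (h : Algebra.discr K b ≠ 0) : LinearIndependent K b := by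
  by_contra hli
  exact h (Algebra.discr_zero_of_not_linearIndependent K hli)

omit [IsDomain O] in
theorem exists_algebraMap_eq_trace {y : L} (hy : IsIntegral O y) :
    ∃ w : O, algebraMap O K w = Algebra.trace K L y :=
  IsIntegrallyClosed.isIntegral_iff.mp (Algebra.isIntegral_trace hy)

/-- **Cramer**: if `b` is a tuple of integral elements of the right size whose discriminant is
(the image of) `d`, then `d • x` is an `O`-combination of the `b i` for every integral `x`. -/
theorem exists_smul_eq_sum_of_isIntegral {ι : Type*} [Fintype ι] [DecidableEq ι]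
    (b : ι → L) (hcard : Fintype.card ι = Module.finrank K L)
    (hb : ∀ i, IsIntegral O (b i)) (d : O)
    (hd : Algebra.discr K b = algebraMap O K d) {x : L} (hx : IsIntegral O x) :
    ∃ a : ι → O, d • x = ∑ i, a i • b i := by
  classical
  by_cases hd0 : d = 0
  · exact ⟨0, by simp [hd0]⟩
  have hdisc : Algebra.discr K b ≠ 0 := by
    rw [hd]; exact (map_ne_zero_iff _ (IsFractionRing.injective O K)).mpr hd0
  have hli : LinearIndependent K b := linearIndependent_of_discr_ne_zero b hdisc
  have hne : Nonempty ι := by
    rw [← Fintype.card_pos_iff, hcard]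
    exact Module.finrank_pos
  let bK : Module.Basis ι K L := basisOfLinearIndependentOfCardEqFinrank hli hcard
  have hbK : ∀ i, bK i = b i := fun i => by simp [bK]
  choose g hg using fun (ij : ι × ι) =>
    exists_algebraMap_eq_trace (O := O) (K := K) ((hb ij.1).mul (hb ij.2))
  choose w hw using fun j => exists_algebraMap_eq_trace (O := O) (K := K) (hx.mul (hb j))
  let GO : Matrix ι ι O := Matrix.of fun i j => g (i, j)
  set G := Algebra.traceMatrix K b with hG
  have hGO : G = (algebraMap O K).mapMatrix GO := by
    ext i j
    simp [hG, GO, Algebra.traceMatrix_apply, Algebra.traceForm_apply, hg]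
  set r := bK.repr x with hr
  have hGr : G.mulVec (fun i => r i) = fun j => algebraMap O K (w j) := by
    funext j
    rw [hw, Matrix.mulVec, dotProduct]
    conv_rhs => rw [← bK.sum_repr x]
    rw [Finset.sum_mul, map_sum]
    refine Finset.sum_congr rfl fun i _ => ?_
    rw [hG, Algebra.traceMatrix_apply, Algebra.traceForm_apply, hbK, smul_mul_assoc, map_smul,
      smul_eq_mul, mul_comm (b i) (b j), mul_comm]
  have hdet : G.det = algebraMap O K d := by rw [← hd, Algebra.discr_def]
  have hkey : ∀ i, algebraMap O K d * r i = algebraMap O K ((GO.adjugate.mulVec w) i) := by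
    intro i
    have h1 : (G.adjugate * G).mulVec (fun i => r i) = G.adjugate.mulVec (fun j => algebraMap O K (w j)) := by
      rw [← Matrix.mulVec_mulVec, hGr]
    rw [Matrix.adjugate_mul, Matrix.smul_mulVec, Matrix.one_mulVec, hdet] at h1
    have h2 := congrFun h1 i
    rw [Pi.smul_apply, smul_eq_mul] at h2
    rw [h2, hGO, ← RingHom.map_adjugate, Matrix.mulVec, dotProduct, Matrix.mulVec, dotProduct, map_sum]
    refine Finset.sum_congr rfl fun j _ => ?_
    rw [RingHom.mapMatrix_apply, Matrix.map_apply, map_mul]
  refine ⟨GO.adjugate.mulVec w, ?_⟩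
  rw [← algebraMap_smul K d x]
  conv_lhs => rw [← bK.sum_repr x]
  rw [Finset.smul_sum]
  refine Finset.sum_congr rfl fun i _ => ?_
  rw [smul_smul, hkey, hbK, algebraMap_smul]

end Cramer

/-- **Discriminant-form unramifiedness** of `L/K` at the prime `p` of `B` (`K = Frac B`):
a tuple of `[L : K]` elements of `L`, integral over `B`, whose discriminant lies in `B ∖ p`. -/
def DiscUnr (B : Type*) [CommRing B] (p : Ideal B) (K L : Type*) [Field K] [Field L]
    [Algebra B K] [Algebra K L] [Algebra B L] : Prop :=
  ∃ b : Fin (Module.finrank K L) → L, (∀ i, IsIntegral B (b i)) ∧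
    ∃ d : B, d ∉ p ∧ Algebra.discr K b = algebraMap B K d

section Bridge

open scoped nonZeroDivisors

variable {O K L : Type*} [CommRing O] [IsDomain O] [IsIntegrallyClosed O] [Field K] [Field L]
  [Algebra O K] [IsFractionRing O K] [Algebra K L] [Algebra O L] [IsScalarTower O K L]
  [FiniteDimensional K L]

/-- A tuple of integral elements with unit discriminant is an `O`-basis of the integral
closure. -/
theorem exists_basis_integralClosure {ι : Type*} [Fintype ι] [DecidableEq ι]
    (b : ι → L) (hcard : Fintype.card ι = Module.finrank K L)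
    (hb : ∀ i, IsIntegral O (b i)) (d : O) (hdu : IsUnit d)
    (hd : Algebra.discr K b = algebraMap O K d) :
    ∃ bR : Module.Basis ι O (integralClosure O L), ∀ i, ((bR i : integralClosure O L) : L) = b i := by
  classical
  have hd0 : d ≠ 0 := hdu.ne_zero
  have hdisc : Algebra.discr K b ≠ 0 := by
    rw [hd]; exact (map_ne_zero_iff _ (IsFractionRing.injective O K)).mpr hd0
  have hliK : LinearIndependent K b := linearIndependent_of_discr_ne_zero b hdisc
  have hliO : LinearIndependent O b := hliK.restrict_scalars' (R := O)
  let v : ι → integralClosure O L := fun i => ⟨b i, hb i⟩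
  have hli : LinearIndependent O v :=
    LinearIndependent.of_comp (integralClosure O L).val.toLinearMap hliO
  have hsp : ⊤ ≤ Submodule.span O (Set.range v) := by
    rintro x -
    obtain ⟨a, ha⟩ := exists_smul_eq_sum_of_isIntegral b hcard hb d hd x.2
    have h1 : d • x = ∑ i, a i • v i := by
      apply Subtype.ext
      rw [Subalgebra.coe_smul, ha, AddSubmonoidClass.coe_finsetSum]
      rfl
    obtain ⟨u, rfl⟩ := hdu
    have h2 : x = (↑u⁻¹ : O) • ∑ i, a i • v i := by
      rw [← h1, smul_smul, Units.inv_mul, one_smul]
    rw [h2]
    exact Submodule.smul_mem _ _ (Submodule.sum_mem _ fun i _ =>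
      Submodule.smul_mem _ _ (Submodule.subset_span ⟨i, rfl⟩))
  refine ⟨Module.Basis.mk hli hsp, fun i => ?_⟩
  rw [Module.Basis.mk_apply]

/-- The discriminant of an `O`-basis of the integral closure, computed in `L/K`. -/
theorem discr_coe_basis_integralClosure {ι : Type*} [Fintype ι] [DecidableEq ι]
    (bR : Module.Basis ι O (integralClosure O L)) :
    Algebra.discr K (fun i => ((bR i : integralClosure O L) : L)) =
      algebraMap O K (Algebra.discr O bR) := by
  have hloc : IsLocalization (Algebra.algebraMapSubmonoid (integralClosure O L) O⁰) L :=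
    IsIntegralClosure.isLocalization O K L (integralClosure O L)
  rw [← Algebra.discr_localizationLocalization O O⁰ L bR]
  congr 1
  funext i
  rw [Module.Basis.localizationLocalization_apply]
  rfl

/-- **Bridge, ⇒**: discriminant-form unramifiedness over a local integrally closed domain implies
that the integral closure is formally unramified. -/
theorem DiscUnr.formallyUnramified [IsLocalRing O]
    (h : DiscUnr O (IsLocalRing.maximalIdeal O) K L) :
    Algebra.FormallyUnramified O (integralClosure O L) := by
  classical
  obtain ⟨b, hb, d, hd, hdisc⟩ := h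
  have hdu : IsUnit d := by
    by_contra hnu
    exact hd ((IsLocalRing.mem_maximalIdeal d).mpr hnu)
  obtain ⟨bR, hbR⟩ := exists_basis_integralClosure b (by simp) hb d hdu hdisc
  refine formallyUnramified_of_isUnit_discr bR ?_
  have h1 := discr_coe_basis_integralClosure (K := K) bR
  have h2 : (fun i => ((bR i : integralClosure O L) : L)) = b := funext hbR
  rw [h2, hdisc] at h1
  rw [← IsFractionRing.injective O K h1]
  exact hdu

/-- Under discriminant-form unramifiedness the integral closure is a finite module. -/
theorem DiscUnr.finite_integralClosure [IsLocalRing O]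
    (h : DiscUnr O (IsLocalRing.maximalIdeal O) K L) :
    Module.Finite O (integralClosure O L) := by
  classical
  obtain ⟨b, hb, d, hd, hdisc⟩ := h
  have hdu : IsUnit d := by
    by_contra hnu
    exact hd ((IsLocalRing.mem_maximalIdeal d).mpr hnu)
  obtain ⟨bR, -⟩ := exists_basis_integralClosure b (by simp) hb d hdu hdisc
  exact Module.Finite.of_basis bR

/-- **Bridge, ⇐**: over a local principal ideal domain (a DVR or a field), if the integral
closure is formally unramified then `L/K` is unramified in discriminant form. -/
theorem DiscUnr.of_formallyUnramified [IsLocalRing O] [IsPrincipalIdealRing O]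
    [Algebra.IsSeparable K L]
    [Algebra.FormallyUnramified O (integralClosure O L)] :
    DiscUnr O (IsLocalRing.maximalIdeal O) K L := by
  classical
  have : Module.IsTorsionFree O L := .trans_faithfulSMul O K L
  have hfin : Module.Finite O (integralClosure O L) :=
    IsIntegralClosure.finite O K L (integralClosure O L)
  have hfree : Module.Free O (integralClosure O L) :=
    IsIntegralClosure.module_free O K L (integralClosure O L)
  have hrank : Module.finrank O (integralClosure O L) = Module.finrank K L :=
    IsIntegralClosure.rank O K L (integralClosure O L)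
  let bR : Module.Basis (Fin (Module.finrank K L)) O (integralClosure O L) :=
    (Module.finBasis O (integralClosure O L)).reindex (finCongr hrank)
  have hu : IsUnit (Algebra.discr O bR) := isUnit_discr_of_formallyUnramified bR
  refine ⟨fun i => ((bR i : integralClosure O L) : L), fun i => (bR i).2,
    Algebra.discr O bR, ?_, discr_coe_basis_integralClosure bR⟩
  intro hmem
  exact ((IsLocalRing.mem_maximalIdeal _).mp hmem) hu

/-- **Bridge**: over a local PID, discriminant-form unramifiedness is formal unramifiedness of
the integral closure. -/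
theorem discUnr_iff_formallyUnramified [IsLocalRing O] [IsPrincipalIdealRing O]
    [Algebra.IsSeparable K L] :
    DiscUnr O (IsLocalRing.maximalIdeal O) K L ↔
      Algebra.FormallyUnramified O (integralClosure O L) :=
  ⟨fun h => h.formallyUnramified, fun _ => DiscUnr.of_formallyUnramified⟩

end Bridge

section BaseChangeLocal

open scoped nonZeroDivisors

variable {O K L O1 K1 M : Type*}
  [CommRing O] [IsDomain O] [IsIntegrallyClosed O] [IsLocalRing O]
  [Field K] [Algebra O K] [IsFractionRing O K]
  [Field L] [Algebra K L] [Algebra O L] [IsScalarTower O K L] [FiniteDimensional K L]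
  [CommRing O1] [IsDomain O1] [IsPrincipalIdealRing O1] [IsLocalRing O1]
  [Field K1] [Algebra O1 K1] [IsFractionRing O1 K1]
  [Field M] [Algebra K1 M] [Algebra O1 M] [IsScalarTower O1 K1 M]
  [Algebra O O1] [Algebra O M] [IsScalarTower O O1 M] [Algebra L M] [IsScalarTower O L M]

omit [IsIntegrallyClosed O] [IsLocalRing O] [FiniteDimensional K L] [IsPrincipalIdealRing O1]
  [IsLocalRing O1] in
/-- If `M` is generated over `K1` by the image of `L`, every element of `M` has a nonzero
`O1`-multiple in any `O1`-subalgebra `S` containing the image of the integral closure of `O`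
in `L`. -/
theorem exists_smul_mem_of_adjoin_eq_top [Algebra.IsAlgebraic K L] (S : Subalgebra O1 M)
    (hS : ∀ y : L, IsIntegral O y → algebraMap L M y ∈ S)
    (hgen : Algebra.adjoin K1 (Set.range (algebraMap L M)) = ⊤) (z : M) :
    ∃ a : O1, a ≠ 0 ∧ a • z ∈ S := by
  have hinjOM : Function.Injective (algebraMap O M) := by
    rw [IsScalarTower.algebraMap_eq O L M, IsScalarTower.algebraMap_eq O K L]
    exact (algebraMap L M).injective.comp
      ((algebraMap K L).injective.comp (IsFractionRing.injective O K))
  let W : Subalgebra K1 M :=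
    { carrier := {z : M | ∃ a : O1, a ≠ 0 ∧ a • z ∈ S}
      mul_mem' := by
        rintro z1 z2 ⟨a1, ha1, h1⟩ ⟨a2, ha2, h2⟩
        refine ⟨a1 * a2, mul_ne_zero ha1 ha2, ?_⟩
        have : (a1 * a2) • (z1 * z2) = (a1 • z1) * (a2 • z2) := by
          rw [smul_mul_smul_comm]
        rw [this]
        exact S.mul_mem h1 h2
      add_mem' := by
        rintro z1 z2 ⟨a1, ha1, h1⟩ ⟨a2, ha2, h2⟩
        refine ⟨a1 * a2, mul_ne_zero ha1 ha2, ?_⟩
        have : (a1 * a2) • (z1 + z2) = a2 • (a1 • z1) + a1 • (a2 • z2) := by
          rw [smul_add, smul_smul, smul_smul, mul_comm a2 a1]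
        rw [this]
        exact S.add_mem (S.smul_mem h1 a2) (S.smul_mem h2 a1)
      algebraMap_mem' := by
        intro k
        obtain ⟨⟨n, a⟩, hk⟩ := IsLocalization.surj O1⁰ k
        refine ⟨a, nonZeroDivisors.coe_ne_zero a, ?_⟩
        have : (a : O1) • algebraMap K1 M k = algebraMap O1 M n := by
          rw [Algebra.smul_def, IsScalarTower.algebraMap_apply O1 K1 M, ← map_mul, mul_comm, hk,
            ← IsScalarTower.algebraMap_apply]
        rw [this]
        exact S.algebraMap_mem n }
  have hW : Set.range (algebraMap L M) ⊆ W := by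
    rintro _ ⟨y, rfl⟩
    obtain ⟨m, hm⟩ := IsIntegral.exists_multiple_integral_of_isLocalization O⁰ y
      (Algebra.IsIntegral.isIntegral (R := K) y)
    refine ⟨algebraMap O O1 m, ?_, ?_⟩
    · intro h0
      have h1 : algebraMap O M m = 0 := by
        rw [IsScalarTower.algebraMap_apply O O1 M, h0, map_zero]
      exact nonZeroDivisors.coe_ne_zero m (hinjOM (h1.trans (map_zero _).symm))
    · have h2 := hS _ hm
      rwa [Submonoid.smul_def, Algebra.smul_def, map_mul, ← IsScalarTower.algebraMap_apply O L M,
        IsScalarTower.algebraMap_apply O O1 M, ← Algebra.smul_def] at h2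
  have htop : W = ⊤ := top_le_iff.mp (hgen ▸ Algebra.adjoin_le hW)
  have hz : z ∈ W := htop ▸ Algebra.mem_top
  exact hz

/-- **Base change / compositum, local form.**  `O ⊆ K`, `O1 ⊆ K1` local rings (`O` integrally
closed, `O1` a PID), `O → O1` any ring map, `L/K` finite, `M` a field containing `K1` and the
image of `L` (compatibly on `O`), generated over `K1` by the image of `L`.  If `L/K` is
unramified over `O` in discriminant form, then `M/K1` is unramified over `O1` in discriminant
form.  (No assumption that `O → O1` is local, nor on `K1/K`.) -/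
theorem DiscUnr.baseChange_local
    (hgen : Algebra.adjoin K1 (Set.range (algebraMap L M)) = ⊤)
    (h : DiscUnr O (IsLocalRing.maximalIdeal O) K L) :
    DiscUnr O1 (IsLocalRing.maximalIdeal O1) K1 M := by
  classical
  have hunr : Algebra.FormallyUnramified O (integralClosure O L) := h.formallyUnramified
  have hfinR : Module.Finite O (integralClosure O L) := h.finite_integralClosure
  have htf : Module.IsTorsionFree O1 M := .trans_faithfulSMul O1 K1 M
  -- the `O1`-subalgebra generated by the integral closure
  let g : integralClosure O L →ₐ[O] M :=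
    (IsScalarTower.toAlgHom O L M).comp (integralClosure O L).val
  let f : O1 ⊗[O] integralClosure O L →ₐ[O1] M :=
    Algebra.TensorProduct.lift (Algebra.ofId O1 M) g (fun _ _ => Commute.all _ _)
  let S : Subalgebra O1 M := f.range
  have hsurj : Function.Surjective f.rangeRestrict := f.rangeRestrict_surjective
  have hunrS : Algebra.FormallyUnramified O1 S :=
    Algebra.FormallyUnramified.of_surjective f.rangeRestrict hsurj
  have hfinS : Module.Finite O1 S :=
    Module.Finite.of_surjective f.rangeRestrict.toLinearMap hsurj
  have hS : ∀ y : L, IsIntegral O y → algebraMap L M y ∈ S := by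
    intro y hy
    refine ⟨1 ⊗ₜ[O] ⟨y, hy⟩, ?_⟩
    simp [f, g]
  have hmul : ∀ z : M, ∃ a : O1, a ≠ 0 ∧ a • z ∈ S :=
    exists_smul_mem_of_adjoin_eq_top (K := K) S hS hgen
  have hinj1 : Function.Injective (algebraMap O1 M) := by
    rw [IsScalarTower.algebraMap_eq O1 K1 M]
    exact (algebraMap K1 M).injective.comp (IsFractionRing.injective O1 K1)
  have hloc : IsLocalization (Algebra.algebraMapSubmonoid S O1⁰) M := by
    refine ⟨?_, fun z => ?_, fun {x y} hxy => ⟨1, ?_⟩⟩
    · rintro ⟨_, a, ha, rfl⟩
      rw [isUnit_iff_ne_zero]
      show algebraMap S M (algebraMap O1 S a) ≠ 0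
      rw [← IsScalarTower.algebraMap_apply O1 S M]
      exact fun h0 => (mem_nonZeroDivisors_iff_ne_zero.mp ha) (hinj1 (h0.trans (map_zero _).symm))
    · obtain ⟨a, ha, haz⟩ := hmul z
      refine ⟨⟨⟨a • z, haz⟩, ⟨algebraMap O1 S a, a, mem_nonZeroDivisors_iff_ne_zero.mpr ha, rfl⟩⟩, ?_⟩
      show z * algebraMap S M (algebraMap O1 S a) = a • z
      rw [← IsScalarTower.algebraMap_apply O1 S M, Algebra.smul_def, mul_comm]
    · have : x = y := Subtype.ext hxy
      rw [this]
  let s0 := Module.finBasis O1 S
  have e : Module.finrank O1 S = Module.finrank K1 M := by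
    rw [Module.finrank_eq_card_basis (s0.localizationLocalization K1 O1⁰ M), Fintype.card_fin]
  let s : Module.Basis (Fin (Module.finrank K1 M)) O1 S := s0.reindex (finCongr e)
  have hu : IsUnit (Algebra.discr O1 s) := isUnit_discr_of_formallyUnramified s
  refine ⟨fun i => algebraMap S M (s i), fun i => ?_, Algebra.discr O1 s, ?_, ?_⟩
  · exact (IsIntegral.of_finite O1 (s i)).algebraMap
  · intro hmem
    exact ((IsLocalRing.mem_maximalIdeal _).mp hmem) hu
  · rw [← Algebra.discr_localizationLocalization O1 O1⁰ M s]
    congr 1
    funext i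
    rw [Module.Basis.localizationLocalization_apply]

end BaseChangeLocal

section Localisation

variable {B O K L : Type*} [CommRing B] [Field K] [Field L]
  [Algebra B K] [Algebra K L] [Algebra B L] [IsScalarTower B K L]
  (p : Ideal B) [p.IsPrime]
  [CommRing O] [Algebra B O] [IsLocalization.AtPrime O p] [IsLocalRing O]
  [Algebra O K] [IsScalarTower B O K] [Algebra O L] [IsScalarTower B O L]

omit [IsScalarTower B K L] in
/-- **Localisation, ⇒**: discriminant-form unramifiedness at a prime `p` of `B` passes to the
local ring `O = B_p` (same tuple). -/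
theorem DiscUnr.localization (h : DiscUnr B p K L) :
    DiscUnr O (IsLocalRing.maximalIdeal O) K L := by
  obtain ⟨b, hb, d, hd, hdisc⟩ := h
  refine ⟨b, fun i => (hb i).tower_top, algebraMap B O d, ?_, ?_⟩
  · rw [IsLocalization.AtPrime.to_map_mem_maximal_iff O p d]
    exact hd
  · rw [hdisc, IsScalarTower.algebraMap_apply B O K]

variable [IsDomain B] [IsIntegrallyClosed B] [IsFractionRing B K] [FiniteDimensional K L]
  [FaithfulSMul O K]

/-- **Localisation, ⇐**: over an integrally closed domain `B`, discriminant-form
unramifiedness over the local ring `O = B_p` descends to `B` at `p` (clear denominators). -/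
theorem DiscUnr.of_localization (h : DiscUnr O (IsLocalRing.maximalIdeal O) K L) :
    DiscUnr B p K L := by
  classical
  obtain ⟨b, hb, d, hd, hdisc⟩ := h
  have hdu : IsUnit d := by
    by_contra hnu
    exact hd ((IsLocalRing.mem_maximalIdeal d).mpr hnu)
  -- clear the denominators of each `b i`
  have hm : ∀ i, ∃ m : p.primeCompl, IsIntegral B (m • b i) := fun i =>
    IsIntegral.exists_multiple_integral_of_isLocalization p.primeCompl (b i) (hb i)
  choose m hmi using hm
  let s : B := ∏ i, (m i : B)
  have hs : s ∈ p.primeCompl := Submonoid.prod_mem _ fun i _ => (m i).2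
  have hint : ∀ i, IsIntegral B (s • b i) := by
    intro i
    have h0 : (m i : B) * ∏ j ∈ Finset.univ.erase i, (m j : B) = s :=
      Finset.mul_prod_erase Finset.univ (fun j => (m j : B)) (Finset.mem_univ i)
    have h1 : s • b i = (∏ j ∈ Finset.univ.erase i, (m j : B)) • ((m i : B) • b i) := by
      rw [smul_smul, mul_comm, h0]
    rw [h1]
    exact IsIntegral.smul _ (hmi i)
  -- the discriminant of the rescaled tuple
  have hdisc' : Algebra.discr K (fun i => s • b i) =
      (algebraMap B K s ^ Module.finrank K L) ^ 2 * algebraMap O K d := by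
    have h2 := Algebra.discr_of_matrix_vecMul b
      (Matrix.diagonal (fun _ : Fin (Module.finrank K L) => algebraMap B K s))
    have h3 : Matrix.vecMul b ((Matrix.diagonal (fun _ : Fin (Module.finrank K L) => algebraMap B K s)).map
        (algebraMap K L)) = fun i => s • b i := by
      funext i
      rw [Matrix.vecMul, dotProduct]
      rw [Finset.sum_eq_single i]
      · rw [Matrix.map_apply, Matrix.diagonal_apply_eq, ← IsScalarTower.algebraMap_apply,
          Algebra.smul_def, mul_comm]
      · intro j _ hji
        rw [Matrix.map_apply, Matrix.diagonal_apply_ne _ hji, map_zero, mul_zero]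
      · intro hi
        exact absurd (Finset.mem_univ i) hi
    rw [h3, Matrix.det_diagonal, Finset.prod_const, Finset.card_univ, Fintype.card_fin,
      hdisc] at h2
    exact h2
  have hintd : IsIntegral B (Algebra.discr K (fun i => s • b i)) :=
    Algebra.discr_isIntegral K hint
  obtain ⟨d', hd'⟩ := IsIntegrallyClosed.isIntegral_iff.mp hintd
  refine ⟨fun i => s • b i, hint, d', ?_, hd'.symm⟩
  intro hd'p
  have hmem : algebraMap B O d' ∈ IsLocalRing.maximalIdeal O :=
    (IsLocalization.AtPrime.to_map_mem_maximal_iff O p d').mpr hd'p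
  have hsu : IsUnit (algebraMap B O s) :=
    (IsLocalization.AtPrime.isUnit_to_map_iff O p s).mpr hs
  have heq : algebraMap B O d' = (algebraMap B O s ^ Module.finrank K L) ^ 2 * d := by
    apply FaithfulSMul.algebraMap_injective O K
    rw [← IsScalarTower.algebraMap_apply, hd', hdisc', map_mul, map_pow, map_pow,
      ← IsScalarTower.algebraMap_apply]
  rw [heq] at hmem
  exact ((IsLocalRing.mem_maximalIdeal _).mp hmem) (((hsu.pow _).pow 2).mul hdu)

/-- **Localisation**: over an integrally closed domain, discriminant-form unramifiedness at `p`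
can be tested over the local ring `O = B_p`. -/
theorem discUnr_iff_localization :
    DiscUnr B p K L ↔ DiscUnr O (IsLocalRing.maximalIdeal O) K L :=
  ⟨fun h => h.localization p, fun h => h.of_localization p⟩

end Localisation

end Fermat.Agent.S18.helper3684
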