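import Fermat.Agent.S18.helper375_RedSupply
import Fermat.Agent.S18.helper508_GaussBridge
import Fermat.Agent.S18.helper1733_GaussOrtho
import Fermat.Agent.S18.helper380_TLineOrtho

/-!
# S18 (helper375): the modular reduction datum, with (CART) and (IT) discharged

For `ℓ ∤ N` and a valuation subring `A` of `AlgebraicClosure ℚ` over `ℓ`:

* `modRedDatum N ℓ hℓN A hA : RedDatum ℚ̄ F̄_N k F_{k,N}` is the reduction datum of the Gauss
  valuation subring (`F̄_N = modularFunctionFieldBar N`, `k` the residue field of `A`,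
  `F_{k,N} = modularFunctionFieldFullC k N`); the range hypothesis of `barRedDatum` is discharged
  by `helper508.gaussFRed_residue_mem_fullC`.
* `modRedDatum_isCart` : EVERY finite-dimensional `ℚ̄`-subspace of `F̄_N` is cartesian (no
  hypothesis; from `helper1733.gauss_exists_isOrtho_basis`).
* `modRedDatum_isIntegral_resO_j(_inv)` : integrality transfer on the two charts of the `j`-line.
* `modRedDatum_isIntegral_resO_series(_inv)` : integrality transfer on the two charts of the line
  of any integral series `t` of `F̄_N` with transcendental reduction and `j ∈ ℚ̄(t)` (Hauptmodul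
  lines).
* `gen_mem_modRedDatum`, `modRedDatum_resO_gen` : the bridge with `helper3054.IntegralFn`.
-/

set_option autoImplicit false
set_option synthInstance.maxHeartbeats 400000

noncomputable section

namespace Fermat.Agent.S18.helper375

open ModularCurve HahnSeries IntermediateField

section Mod

variable (N : ℕ) [NeZero N] (ℓ : ℕ) [Fact ℓ.Prime] (hℓN : ¬ ℓ ∣ N)
  (A : ValuationSubring (AlgebraicClosure ℚ)) (hA : A.LiesOverPrime ℓ)

/-- The reduction datum of the modular function field `F̄_N` at a valuation subring `A` over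
`ℓ ∤ N`, with residue function field `modularFunctionFieldFullC (residue field of A) N`. -/
def modRedDatum :
    RedDatum (AlgebraicClosure ℚ) ↥(modularFunctionFieldBar N) (IsLocalRing.ResidueField A)
      ↥(modularFunctionFieldFullC (IsLocalRing.ResidueField A) N) :=
  barRedDatum A N (helper508.gaussFRed_residue_mem_fullC N ℓ hℓN A hA)

@[simp] theorem modRedDatum_A : (modRedDatum N ℓ hℓN A hA).A = A := rfl

/-- The ring of the datum is the Gauss valuation subring of `helper8991`. -/
theorem mem_modRedDatum_O (f : ↥(modularFunctionFieldBar N)) :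
    f ∈ (modRedDatum N ℓ hℓN A hA).O ↔ f ∈ helper8991.gaussF A (IsLocalRing.residue A) N :=
  Iff.rfl

/-- The ring of the datum is the Gauss valuation subring of `helper508`. -/
theorem mem_modRedDatum_O' (f : ↥(modularFunctionFieldBar N)) :
    f ∈ (modRedDatum N ℓ hℓN A hA).O ↔ f ∈ helper508.gaussValuationSubring N ℓ hℓN A hA := by
  rw [← helper508.gaussF_eq_gaussValuationSubring N ℓ hℓN A hA (IsLocalRing.residue A)
    IsLocalRing.residue_surjective]
  exact Iff.rfl

/-- The reduction map of the datum, as a Laurent series. -/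
theorem coe_modRedDatum_resO (x : (modRedDatum N ℓ hℓN A hA).O) :
    (((modRedDatum N ℓ hℓN A hA).resO x :
        ↥(modularFunctionFieldFullC (IsLocalRing.ResidueField A) N)) :
      LaurentSeries (IsLocalRing.ResidueField A))
      = helper8991.gaussFRed A (IsLocalRing.residue A) N ⟨x.1, x.2⟩ := rfl

theorem modRedDatum_isBall :
    (modRedDatum N ℓ hℓN A hA).IsBall (helper8991.gaussF A (IsLocalRing.residue A) N).valuation :=
  barRedDatum_isBall A N _

theorem modRedDatum_isBall' :
    (modRedDatum N ℓ hℓN A hA).IsBall (helper508.gaussValuationSubring N ℓ hℓN A hA).valuation :=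
  (modRedDatum N ℓ hℓN A hA).isBall_of_valuationSubring _ (mem_modRedDatum_O' N ℓ hℓN A hA)

/-- The ring of the datum is a valuation ring. -/
theorem modRedDatum_mem_or_inv_mem (f : ↥(modularFunctionFieldBar N)) :
    f ∈ (modRedDatum N ℓ hℓN A hA).O ∨ f⁻¹ ∈ (modRedDatum N ℓ hℓN A hA).O :=
  (helper8991.gaussF A (IsLocalRing.residue A) N).mem_or_inv_mem f

/-- An element of the datum with nonzero reduction is a unit of the datum. -/
theorem modRedDatum_inv_mem (x : (modRedDatum N ℓ hℓN A hA).O)
    (hx : (modRedDatum N ℓ hℓN A hA).resO x ≠ 0) :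
    (x : ↥(modularFunctionFieldBar N))⁻¹ ∈ (modRedDatum N ℓ hℓN A hA).O :=
  gaussRedDatum_inv_mem A (IsLocalRing.residue A) IsLocalRing.residue_surjective N _ x hx

/-- Every nonzero function is a constant times an element of the datum with nonzero reduction. -/
theorem modRedDatum_exists_const_mul (f : ↥(modularFunctionFieldBar N)) (hf : f ≠ 0) :
    ∃ (c : AlgebraicClosure ℚ) (u : (modRedDatum N ℓ hℓN A hA).O), c ≠ 0 ∧
      (modRedDatum N ℓ hℓN A hA).resO u ≠ 0 ∧
      f = algebraMap (AlgebraicClosure ℚ) ↥(modularFunctionFieldBar N) c *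
        (u : ↥(modularFunctionFieldBar N)) :=
  gaussRedDatum_exists_const_mul A (IsLocalRing.residue A) IsLocalRing.residue_surjective N _ f hf

/-- **(CART), no hypothesis.** Every finite-dimensional subspace of `F̄_N` is cartesian. -/
theorem modRedDatum_isCart (W : Submodule (AlgebraicClosure ℚ) ↥(modularFunctionFieldBar N))
    [FiniteDimensional (AlgebraicClosure ℚ) W] : (modRedDatum N ℓ hℓN A hA).IsCart W := by
  obtain ⟨e, -, he, hspan⟩ := helper1733.gauss_exists_isOrtho_basis N ℓ hℓN A hA W
  exact (modRedDatum_isBall' N ℓ hℓN A hA).isCart_of_isOrtho e he W hspan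

/-- The generic function of an integral function lies in the ring of the datum. -/
theorem gen_mem_modRedDatum (a : helper3054.IntegralFn A N) :
    a.gen ∈ (modRedDatum N ℓ hℓN A hA).O :=
  gen_mem_barRedDatum A N _ a

/-- The reduction of the generic function of an integral function is its reduced function. -/
theorem modRedDatum_resO_gen (a : helper3054.IntegralFn A N) :
    (modRedDatum N ℓ hℓN A hA).resO ⟨a.gen, gen_mem_modRedDatum N ℓ hℓN A hA a⟩ = a.red :=
  barRedDatum_resO_gen A N _ a

/-- An integral series lying in `F̄_N`, as an element of `F̄_N`. -/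
def seriesFn (y : LaurentSeries A) (hy : coeffMap A.subtype y ∈ modularFunctionFieldBar N) :
    ↥(modularFunctionFieldBar N) := ⟨coeffMap A.subtype y, hy⟩

theorem seriesFn_mem_modRedDatum (y : LaurentSeries A)
    (hy : coeffMap A.subtype y ∈ modularFunctionFieldBar N) :
    seriesFn N A y hy ∈ (modRedDatum N ℓ hℓN A hA).O :=
  gaussRedDatum_inc_mem A (IsLocalRing.residue A) IsLocalRing.residue_surjective N _ hy

/-- The reduction of an integral series is its coefficientwise reduction. -/
theorem coe_modRedDatum_resO_seriesFn (y : LaurentSeries A)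
    (hy : coeffMap A.subtype y ∈ modularFunctionFieldBar N) :
    (((modRedDatum N ℓ hℓN A hA).resO
        ⟨seriesFn N A y hy, seriesFn_mem_modRedDatum N ℓ hℓN A hA y hy⟩ :
        ↥(modularFunctionFieldFullC (IsLocalRing.ResidueField A) N)) :
      LaurentSeries (IsLocalRing.ResidueField A)) = coeffMap (IsLocalRing.residue A) y :=
  coe_gaussRedDatum_resO_inc A (IsLocalRing.residue A) IsLocalRing.residue_surjective N _ hy

/-! ### The `j`-line -/

theorem gaussJ_mem_modRedDatum :
    helper1733.gaussJ (AlgebraicClosure ℚ) N ∈ (modRedDatum N ℓ hℓN A hA).O :=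
  (mem_modRedDatum_O' N ℓ hℓN A hA _).mpr (helper1733.gaussJ_mem N ℓ hℓN A hA)

/-- The reduction of `j` is `j`. -/
theorem coe_modRedDatum_resO_gaussJ :
    (((modRedDatum N ℓ hℓN A hA).resO
        ⟨helper1733.gaussJ (AlgebraicClosure ℚ) N, gaussJ_mem_modRedDatum N ℓ hℓN A hA⟩ :
        ↥(modularFunctionFieldFullC (IsLocalRing.ResidueField A) N)) :
      LaurentSeries (IsLocalRing.ResidueField A)) = jqModC (IsLocalRing.ResidueField A) := by
  have hy : coeffMap A.subtype (jqModC A) ∈ modularFunctionFieldBar N := by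
    rw [coeffMap_jqModC]
    exact helper508.jqModC_mem_bar (AlgebraicClosure ℚ) N
  have hJ : helper1733.gaussJ (AlgebraicClosure ℚ) N = seriesFn N A (jqModC A) hy := by
    apply Subtype.ext
    show jqModC (AlgebraicClosure ℚ) = coeffMap A.subtype (jqModC A)
    rw [coeffMap_jqModC]
  have hcongr : ∀ (x x' : ↥(modularFunctionFieldBar N)) (hx : x ∈ (modRedDatum N ℓ hℓN A hA).O)
      (hx' : x' ∈ (modRedDatum N ℓ hℓN A hA).O), x = x' →
      (modRedDatum N ℓ hℓN A hA).resO ⟨x, hx⟩ = (modRedDatum N ℓ hℓN A hA).resO ⟨x', hx'⟩ := by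
    rintro x x' hx hx' rfl
    rfl
  rw [hcongr _ _ (gaussJ_mem_modRedDatum N ℓ hℓN A hA)
    (seriesFn_mem_modRedDatum N ℓ hℓN A hA (jqModC A) hy) hJ,
    coe_modRedDatum_resO_seriesFn N ℓ hℓN A hA (jqModC A) hy, coeffMap_jqModC]

/-- **(IT), `j`-line, chart `j`.** -/
theorem modRedDatum_isIntegral_resO_j (g : ↥(modularFunctionFieldBar N))
    (hg : g ∈ (modRedDatum N ℓ hℓN A hA).O)
    (hgi : IsIntegral (Algebra.adjoin (AlgebraicClosure ℚ)
      {helper1733.gaussJ (AlgebraicClosure ℚ) N}) g) :
    IsIntegral (Algebra.adjoin (IsLocalRing.ResidueField A)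
      {(modRedDatum N ℓ hℓN A hA).resO
        ⟨helper1733.gaussJ (AlgebraicClosure ℚ) N, gaussJ_mem_modRedDatum N ℓ hℓN A hA⟩})
      ((modRedDatum N ℓ hℓN A hA).resO ⟨g, hg⟩) :=
  (modRedDatum N ℓ hℓN A hA).isIntegral_resO_of_isOrtho
    (helper508.gaussValuationSubring N ℓ hℓN A hA) (mem_modRedDatum_O' N ℓ hℓN A hA)
    (gaussJ_mem_modRedDatum N ℓ hℓN A hA) (helper1733.gauss_resTranscendental N ℓ hℓN A hA)
    (helper1733.gauss_isOrtho N ℓ hℓN A hA) (helper1733.gauss_span_eq_top N ℓ hℓN A hA) g hg hgi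

/-- **(IT), `j`-line, chart `j⁻¹`.** -/
theorem modRedDatum_isIntegral_resO_j_inv (g : ↥(modularFunctionFieldBar N))
    (hg : g ∈ (modRedDatum N ℓ hℓN A hA).O)
    (hgi : IsIntegral (Algebra.adjoin (AlgebraicClosure ℚ)
      {(helper1733.gaussJ (AlgebraicClosure ℚ) N)⁻¹}) g) :
    IsIntegral (Algebra.adjoin (IsLocalRing.ResidueField A)
      {((modRedDatum N ℓ hℓN A hA).resO
        ⟨helper1733.gaussJ (AlgebraicClosure ℚ) N, gaussJ_mem_modRedDatum N ℓ hℓN A hA⟩)⁻¹})
      ((modRedDatum N ℓ hℓN A hA).resO ⟨g, hg⟩) :=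
  (modRedDatum N ℓ hℓN A hA).isIntegral_resO_inv_of_isOrtho
    (helper508.gaussValuationSubring N ℓ hℓN A hA) (mem_modRedDatum_O' N ℓ hℓN A hA)
    (gaussJ_mem_modRedDatum N ℓ hℓN A hA) (helper1733.gauss_resTranscendental N ℓ hℓN A hA)
    (helper1733.gauss_isOrtho N ℓ hℓN A hA) (helper1733.gauss_span_eq_top N ℓ hℓN A hA) g hg hgi

/-! ### The line of an integral series (Hauptmodul lines) -/

/-- An integral series of `F̄_N` with transcendental reduction is residually transcendental for
the Gauss valuation. -/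
theorem resTranscendental_seriesFn (y : LaurentSeries A)
    (hy : coeffMap A.subtype y ∈ modularFunctionFieldBar N)
    (htr : Transcendental (IsLocalRing.ResidueField A) (coeffMap (IsLocalRing.residue A) y)) :
    helper1733.ResTranscendental (helper508.gaussValuationSubring N ℓ hℓN A hA).valuation
      (AlgebraicClosure ℚ) (seriesFn N A y hy) := by
  have h1 : helper1733.ResTranscendental
      (helper8991.gaussF A (IsLocalRing.residue A) N).valuation (AlgebraicClosure ℚ)
      (seriesFn N A y hy) :=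
    helper380.resTranscendental_gaussSubring_of_transcendental A (IsLocalRing.residue A) _ _
      (fun a ha => (IsLocalRing.residue_eq_zero_iff a).mpr ha) hy htr
  rw [helper508.gaussF_eq_gaussValuationSubring N ℓ hℓN A hA (IsLocalRing.residue A)
    IsLocalRing.residue_surjective] at h1
  exact h1

/-- **(IT), line of `t`, chart `t`.** `t` an integral series of `F̄_N` with transcendental
reduction and `j ∈ ℚ̄(t)`. -/
theorem modRedDatum_isIntegral_resO_series (y : LaurentSeries A)
    (hy : coeffMap A.subtype y ∈ modularFunctionFieldBar N)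
    (htr : Transcendental (IsLocalRing.ResidueField A) (coeffMap (IsLocalRing.residue A) y))
    (hj : helper1733.gaussJ (AlgebraicClosure ℚ) N ∈ (AlgebraicClosure ℚ)⟮seriesFn N A y hy⟯)
    (g : ↥(modularFunctionFieldBar N)) (hg : g ∈ (modRedDatum N ℓ hℓN A hA).O)
    (hgi : IsIntegral (Algebra.adjoin (AlgebraicClosure ℚ) {seriesFn N A y hy}) g) :
    IsIntegral (Algebra.adjoin (IsLocalRing.ResidueField A)
      {(modRedDatum N ℓ hℓN A hA).resO
        ⟨seriesFn N A y hy, seriesFn_mem_modRedDatum N ℓ hℓN A hA y hy⟩})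
      ((modRedDatum N ℓ hℓN A hA).resO ⟨g, hg⟩) := by
  obtain ⟨S, hS, hSspan⟩ := helper1801.exists_finset_isOrtho_adjoin hj
    (helper1733.gauss_isOrtho N ℓ hℓN A hA) (helper1733.gauss_span_eq_top N ℓ hℓN A hA)
  exact (modRedDatum N ℓ hℓN A hA).isIntegral_resO_of_isOrtho
    (helper508.gaussValuationSubring N ℓ hℓN A hA) (mem_modRedDatum_O' N ℓ hℓN A hA)
    (seriesFn_mem_modRedDatum N ℓ hℓN A hA y hy)
    (resTranscendental_seriesFn N ℓ hℓN A hA y hy htr) hS hSspan g hg hgi

/-- **(IT), line of `t`, chart `t⁻¹`.** -/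
theorem modRedDatum_isIntegral_resO_series_inv (y : LaurentSeries A)
    (hy : coeffMap A.subtype y ∈ modularFunctionFieldBar N)
    (htr : Transcendental (IsLocalRing.ResidueField A) (coeffMap (IsLocalRing.residue A) y))
    (hj : helper1733.gaussJ (AlgebraicClosure ℚ) N ∈ (AlgebraicClosure ℚ)⟮seriesFn N A y hy⟯)
    (g : ↥(modularFunctionFieldBar N)) (hg : g ∈ (modRedDatum N ℓ hℓN A hA).O)
    (hgi : IsIntegral (Algebra.adjoin (AlgebraicClosure ℚ) {(seriesFn N A y hy)⁻¹}) g) :
    IsIntegral (Algebra.adjoin (IsLocalRing.ResidueField A)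
      {((modRedDatum N ℓ hℓN A hA).resO
        ⟨seriesFn N A y hy, seriesFn_mem_modRedDatum N ℓ hℓN A hA y hy⟩)⁻¹})
      ((modRedDatum N ℓ hℓN A hA).resO ⟨g, hg⟩) := by
  obtain ⟨S, hS, hSspan⟩ := helper1801.exists_finset_isOrtho_adjoin hj
    (helper1733.gauss_isOrtho N ℓ hℓN A hA) (helper1733.gauss_span_eq_top N ℓ hℓN A hA)
  exact (modRedDatum N ℓ hℓN A hA).isIntegral_resO_inv_of_isOrtho
    (helper508.gaussValuationSubring N ℓ hℓN A hA) (mem_modRedDatum_O' N ℓ hℓN A hA)
    (seriesFn_mem_modRedDatum N ℓ hℓN A hA y hy)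
    (resTranscendental_seriesFn N ℓ hℓN A hA y hy htr) hS hSspan g hg hgi

end Mod

end Fermat.Agent.S18.helper375
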