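import Mathlib
import Fermat.Agent.S18.helper410_TraceLattice
import Fermat.Agent.S18.helper3791_DualNormal

/-!
# S18, track B: the DN lemma (trace-duality normality), lifting half (helper3791)

`exists_smul_eq_of_fraction_isIntegral` : the special-fibre statement for a finite free algebra
`O` over a PID `D` with an explicit basis (no fraction field in the statement).

`intLift_of_dualNormal` : `(c) + (a') ⟹ IntLift`.

`oneComponent_of_dualNormal` : the DN lemma in consumer form.
-/

set_option autoImplicit false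

namespace Fermat.Agent.S18.helper3791

open scoped nonZeroDivisors
open Polynomial

section Fibre

variable {D O : Type*} [CommRing D] [IsDomain D] [IsPrincipalIdealRing D] [CommRing O]
  [Algebra D O] {ι : Type*} [Fintype ι] [DecidableEq ι]

/-- **Special fibre step of DN**, fraction-field-free statement.  `O` is a finite free algebra
over the PID `D` with basis `β`, nonzero discriminant `δ`, and the (scaled) dual basis
`αⱼ = ∑ᵢ adj(T)ⱼᵢ βᵢ` (so `αⱼ / δ` is the trace-dual basis) has tame denominators:
`δ ^ M • yⱼ = G ^ (M - 1) • αⱼ ^ M` with `(G)` radical.  Then every fraction `a / d` which is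
integral over `D` lies in `O`. -/
theorem exists_smul_eq_of_fraction_isIntegral (β : Module.Basis ι D O)
    (hδ : (Algebra.traceMatrix D β).det ≠ 0)
    (G : D) (hG0 : G ≠ 0) (hG : (Ideal.span {G}).IsRadical) (M : ℕ) (hM : 0 < M)
    (hy : ∀ j, ∃ y : O, (Algebra.traceMatrix D β).det ^ M • y =
        G ^ (M - 1) • (∑ i, (Algebra.traceMatrix D β).adjugate j i • β i) ^ M)
    (a : O) (d : D) (hd : d ≠ 0) (n : ℕ) (c : Fin n → D)
    (hint : a ^ n + ∑ i : Fin n, (c i * d ^ (n - (i : ℕ))) • a ^ (i : ℕ) = 0) :
    ∃ r : O, d • r = a := by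
  classical
  have hfree : Module.Free D O := Module.Free.of_basis β
  have hfin : Module.Finite D O := Module.Finite.of_basis β
  set T := Algebra.traceMatrix D β with hT
  set δ := T.det with hδdef
  -- the localisation model
  let K := FractionRing D
  let S : Submonoid O := Algebra.algebraMapSubmonoid O D⁰
  let E := Localization S
  let b' : Module.Basis ι K E := β.localizationLocalization K D⁰ E
  have hb' : ∀ i, b' i = algebraMap O E (β i) :=
    fun i => β.localizationLocalization_apply K D⁰ E i
  have hSle : S ≤ O⁰ := by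
    rintro _ ⟨x, hx, rfl⟩
    rw [mem_nonZeroDivisors_iff_right]
    intro y hy
    have hx0 : x ≠ 0 := nonZeroDivisors.ne_zero hx
    have h1 : x • y = 0 := by rw [Algebra.smul_def, mul_comm]; exact hy
    apply β.repr.injective
    ext i
    have := congrArg (fun v => β.repr v i) h1
    simp only [map_smul, Finsupp.smul_apply, smul_eq_mul, map_zero, Finsupp.zero_apply,
      mul_eq_zero] at this
    simpa using this.resolve_left hx0
  have hinj : Function.Injective (algebraMap O E) := IsLocalization.injective E hSle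
  have hDE : ∀ x : D, algebraMap D E x = algebraMap O E (algebraMap D O x) :=
    fun x => IsScalarTower.algebraMap_apply D O E x
  have hDKE : ∀ x : D, algebraMap D E x = algebraMap K E (algebraMap D K x) :=
    fun x => IsScalarTower.algebraMap_apply D K E x
  have hDK : Function.Injective (algebraMap D K) := IsFractionRing.injective D K
  let O' : Subalgebra D E := (IsScalarTower.toAlgHom D O E).range
  have hO : O'.toSubmodule = Submodule.span D (Set.range b') := by
    rw [β.localizationLocalization_span K D⁰ E]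
    ext e
    simp [O']
  have hE : ∀ e : E, ∃ c : ι → K, e = ∑ i, c i • b' i :=
    fun e => ⟨fun i => b'.repr e i, (b'.sum_repr e).symm⟩
  let α : ι → O := fun j => ∑ i, T.adjugate j i • β i
  have hδK : algebraMap D K δ ≠ 0 := fun h => hδ (hDK (by rw [h, map_zero]))
  let kinv : E := algebraMap K E (algebraMap D K δ)⁻¹
  have hkinv : kinv * algebraMap D E δ = 1 := by
    rw [hDKE, ← map_mul, inv_mul_cancel₀ hδK, map_one]
  let z : ι → E := fun j => kinv * algebraMap O E (α j)
  have htr : ∀ i j, Algebra.trace D O (β i * α j) = if i = j then δ else 0 := by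
    intro i j
    have h1 : Algebra.trace D O (β i * α j) = ∑ k, T.adjugate j k * T k i := by
      simp only [α, Finset.mul_sum, map_sum, mul_smul_comm, map_smul, smul_eq_mul]
      refine Finset.sum_congr rfl (fun k _ => ?_)
      rw [hT, Algebra.traceMatrix_apply, Algebra.traceForm_apply, mul_comm (β k)]
    rw [h1]
    have h2 := congrFun (congrFun (Matrix.adjugate_mul T) j) i
    rw [Matrix.mul_apply] at h2
    rw [h2, Matrix.smul_apply, Matrix.one_apply]
    by_cases hij : i = j
    · subst hij; simp [hδdef]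
    · have : ¬ j = i := fun h => hij h.symm
      simp [hij, this]
  have hdual : ∀ i j, Algebra.trace K E (b' i * z j) = if i = j then 1 else 0 := by
    intro i j
    have h1 : b' i * z j = (algebraMap D K δ)⁻¹ • algebraMap O E (β i * α j) := by
      rw [hb', Algebra.smul_def, map_mul]
      simp only [z, kinv]
      ring
    rw [h1, map_smul, Algebra.trace_localization D D⁰ (β i * α j), htr, smul_eq_mul]
    by_cases hij : i = j
    · rw [if_pos hij, if_pos hij]
      exact inv_mul_cancel₀ hδK
    · simp [hij]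
  have hz : ∀ i, algebraMap D E G ^ (M - 1) * z i ^ M ∈ O' := by
    intro j
    obtain ⟨y, hyj⟩ := hy j
    have h1 : algebraMap D E δ ^ M * algebraMap O E y =
        algebraMap D E G ^ (M - 1) * algebraMap O E (α j) ^ M := by
      have := congrArg (algebraMap O E) hyj
      rw [Algebra.smul_def, Algebra.smul_def, map_mul, map_mul, map_pow, map_pow, ← hDE, ← hDE,
        map_pow, map_pow] at this
      exact this
    have h2 : algebraMap D E G ^ (M - 1) * z j ^ M = algebraMap O E y := by
      have hpow : (kinv * algebraMap D E δ) ^ M = 1 := by rw [hkinv, one_pow]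
      simp only [z]
      linear_combination (exp := 1) (-(kinv ^ M)) * h1 + algebraMap O E y * hpow
    rw [h2]
    exact ⟨y, rfl⟩
  -- the fraction `a / d`
  have hdK : algebraMap D K d ≠ 0 := fun h => hd (hDK (by rw [h, map_zero]))
  let kd : E := algebraMap K E (algebraMap D K d)⁻¹
  have hkd : kd * algebraMap D E d = 1 := by
    rw [hDKE, ← map_mul, inv_mul_cancel₀ hdK, map_one]
  let s : E := kd * algebraMap O E a
  have hs : IsIntegral D s := by
    refine ⟨X ^ n + ∑ i : Fin n, C (c i) * X ^ (i : ℕ),
      monic_X_pow_add (degree_sum_fin_lt c), ?_⟩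
    rw [← aeval_def]
    simp only [map_add, map_pow, aeval_X, map_sum, map_mul, aeval_C]
    have h1 := congrArg (algebraMap O E) hint
    simp only [map_add, map_pow, map_sum, Algebra.smul_def, map_mul, map_zero, ← hDE] at h1
    have h2 : s ^ n + ∑ i : Fin n, algebraMap D E (c i) * s ^ (i : ℕ) =
        kd ^ n * (algebraMap O E a ^ n + ∑ i : Fin n,
          algebraMap D E (c i) * algebraMap D E d ^ (n - (i : ℕ)) * algebraMap O E a ^ (i : ℕ)) := by
      rw [mul_add, Finset.mul_sum]
      congr 1
      · simp only [s]; ring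
      · refine Finset.sum_congr rfl (fun i _ => ?_)
        have hi : n = (i : ℕ) + (n - (i : ℕ)) := by have := i.2; omega
        have hpow : (kd * algebraMap D E d) ^ (n - (i : ℕ)) = 1 := by rw [hkd, one_pow]
        have hkn : kd ^ n = kd ^ (i : ℕ) * kd ^ (n - (i : ℕ)) := by
          rw [← pow_add, ← hi]
        rw [hkn]
        simp only [s]
        linear_combination (exp := 1)
          (-(algebraMap D E (c i) * kd ^ (i : ℕ) * algebraMap O E a ^ (i : ℕ))) * hpow
    rw [h2, h1, mul_zero]
  have hmem : s ∈ O' :=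
    helper410.mem_order_of_isIntegral_of_dual_basis (K := K) O' b' hO hE z hdual G hG0 hG M hM
      hz s hs
  obtain ⟨r, hr⟩ := hmem
  refine ⟨r, hinj ?_⟩
  have hr' : algebraMap O E r = s := hr
  rw [Algebra.smul_def, map_mul, ← hDE, hr']
  simp only [s]
  linear_combination algebraMap O E a * hkd

end Fibre

section LiftBasis

/-- **Nakayama lifting.**  A basis `β` of `R / lam R` over `P / lam` lifts to a family `b` in `R`
which is `P`-linearly independent and generates `R` up to a denominator `s0 ≡ 1 (mod lam)`. -/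
theorem exists_lift_basis_aux {P R : Type*} [CommRing P] [IsDomain P] [IsNoetherianRing P]
    [CommRing R] [IsDomain R] [Algebra P R] [FaithfulSMul P R] [Module.Finite P R]
    (𝔭 : Ideal P) (lam : P) (h𝔭 : 𝔭 = Ideal.span {lam}) (hlam : Prime lam)
    {ι : Type*} [Fintype ι]
    (β : Module.Basis ι (P ⧸ 𝔭) (R ⧸ 𝔭.map (algebraMap P R))) :
    ∃ (b : ι → R) (s0 : P),
      (∀ i, Ideal.Quotient.mk (𝔭.map (algebraMap P R)) (b i) = β i) ∧
      lam ∣ s0 - 1 ∧
      (∀ m : R, ∃ q : ι → P, s0 • m = ∑ i, q i • b i) ∧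
      (∀ q : ι → P, ∑ i, q i • b i = 0 → q = 0) := by
  classical
  have hinjPR : Function.Injective (algebraMap P R) := FaithfulSMul.algebraMap_injective P R
  have hlamR : algebraMap P R lam ≠ 0 := fun h => hlam.ne_zero (hinjPR (by rw [h, map_zero]))
  have hPspan : (Ideal.map (algebraMap P R) 𝔭) = Ideal.span {algebraMap P R lam} := by
    rw [h𝔭, Ideal.map_span, Set.image_singleton]
  have hlam𝔭 : lam ∈ 𝔭 := by rw [h𝔭]; exact Ideal.subset_span rfl
  have hb : ∀ i, ∃ x : R, Ideal.Quotient.mk (Ideal.map (algebraMap P R) 𝔭) x = β i := fun i => Ideal.Quotient.mk_surjective (β i)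
  choose b hb using hb
  -- division with remainder modulo `lam`
  have hdiv : ∀ x : R, ∃ (q : ι → P) (x' : R), x = ∑ i, q i • b i + lam • x' := by
    intro x
    have hq : ∀ i, ∃ q : P, Ideal.Quotient.mk 𝔭 q = β.repr (Ideal.Quotient.mk (Ideal.map (algebraMap P R) 𝔭) x) i :=
      fun i => Ideal.Quotient.mk_surjective _
    choose q hq using hq
    have h0 : Ideal.Quotient.mk (Ideal.map (algebraMap P R) 𝔭) (x - ∑ i, q i • b i) = 0 := by
      rw [map_sub, map_sum]
      have h1 : ∀ i, Ideal.Quotient.mk (Ideal.map (algebraMap P R) 𝔭) (q i • b i) =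
          β.repr (Ideal.Quotient.mk (Ideal.map (algebraMap P R) 𝔭) x) i • β i := by
        intro i
        rw [← hq i, ← hb i, Algebra.smul_def, Ideal.Quotient.mk_smul_mk_quotient_map_quotient]
      rw [Finset.sum_congr rfl (fun i _ => h1 i), β.sum_repr, sub_self]
    rw [Ideal.Quotient.eq_zero_iff_mem, hPspan, Ideal.mem_span_singleton'] at h0
    obtain ⟨x', hx'⟩ := h0
    refine ⟨q, x', ?_⟩
    rw [Algebra.smul_def lam x', mul_comm, hx']
    ring
  -- Nakayama for `R / span b`
  set N : Submodule P R := Submodule.span P (Set.range b) with hN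
  have hfgtop : (⊤ : Submodule P (R ⧸ N)).FG := Module.finite_def.mp inferInstance
  have hle : (⊤ : Submodule P (R ⧸ N)) ≤ 𝔭 • (⊤ : Submodule P (R ⧸ N)) := by
    rintro y -
    obtain ⟨x, rfl⟩ := Submodule.Quotient.mk_surjective N y
    obtain ⟨q, x', hx⟩ := hdiv x
    have h1 : (Submodule.Quotient.mk x : R ⧸ N) = lam • Submodule.Quotient.mk x' := by
      rw [← Submodule.Quotient.mk_smul, eq_comm, ← sub_eq_zero, ← Submodule.Quotient.mk_sub,
        Submodule.Quotient.mk_eq_zero, hx]
      have : lam • x' - (∑ i, q i • b i + lam • x') = -(∑ i, q i • b i) := by ring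
      rw [this]
      exact N.neg_mem (N.sum_mem (fun i _ => N.smul_mem _ (Submodule.subset_span ⟨i, rfl⟩)))
    rw [h1]
    exact Submodule.smul_mem_smul hlam𝔭 Submodule.mem_top
  obtain ⟨s0, hs0, hs0N⟩ :=
    Submodule.exists_sub_one_mem_and_smul_eq_zero_of_fg_of_le_smul 𝔭 ⊤ hfgtop hle
  have hs0dvd : lam ∣ s0 - 1 := Ideal.mem_span_singleton.mp (h𝔭 ▸ hs0)
  have hgen : ∀ m : R, ∃ q : ι → P, s0 • m = ∑ i, q i • b i := by
    intro m
    have h1 := hs0N (Submodule.Quotient.mk m) Submodule.mem_top
    rw [← Submodule.Quotient.mk_smul, Submodule.Quotient.mk_eq_zero, hN,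
      Submodule.mem_span_range_iff_exists_fun] at h1
    obtain ⟨q, hq⟩ := h1
    exact ⟨q, hq.symm⟩
  -- independence
  have hind : ∀ q : ι → P, ∑ i, q i • b i = 0 → q = 0 := by
    let Φ : (ι → P) →ₗ[P] R := Fintype.linearCombination P b
    have hΦ : ∀ q : ι → P, Φ q = ∑ i, q i • b i := fun q => Fintype.linearCombination_apply P b q
    set J : Submodule P (ι → P) := LinearMap.ker Φ with hJ
    have hJfg : J.FG := IsNoetherian.noetherian J
    have hJle : J ≤ 𝔭 • J := by
      intro q hqJ
      rw [hJ, LinearMap.mem_ker, hΦ] at hqJ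
      have h1 : ∑ i, Ideal.Quotient.mk 𝔭 (q i) • β i = 0 := by
        have := congrArg (Ideal.Quotient.mk (Ideal.map (algebraMap P R) 𝔭)) hqJ
        rw [map_sum, map_zero] at this
        rw [← this]
        refine Finset.sum_congr rfl (fun i _ => ?_)
        rw [← hb i, Algebra.smul_def (q i) (b i),
          Ideal.Quotient.mk_smul_mk_quotient_map_quotient]
      have h2 := Fintype.linearIndependent_iff.mp β.linearIndependent _ h1
      have h3 : ∀ i, ∃ q' : P, q i = lam * q' := by
        intro i
        have := h2 i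
        rw [Ideal.Quotient.eq_zero_iff_mem, h𝔭, Ideal.mem_span_singleton] at this
        exact this
      choose q' hq' using h3
      have h4 : q = lam • q' := by
        ext i
        rw [Pi.smul_apply, smul_eq_mul, hq' i]
      have h5 : q' ∈ J := by
        rw [hJ, LinearMap.mem_ker, hΦ]
        have h6 : algebraMap P R lam * ∑ i, q' i • b i = 0 := by
          rw [← hqJ, Finset.mul_sum]
          refine Finset.sum_congr rfl (fun i _ => ?_)
          rw [hq' i, Algebra.smul_def, Algebra.smul_def, map_mul, mul_assoc]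
        exact (mul_eq_zero.mp h6).resolve_left hlamR
      rw [h4]
      exact Submodule.smul_mem_smul hlam𝔭 h5
    obtain ⟨r, hr, hrJ⟩ :=
      Submodule.exists_sub_one_mem_and_smul_eq_zero_of_fg_of_le_smul 𝔭 J hJfg hJle
    have hr0 : r ≠ 0 := by
      rintro rfl
      have h1 : lam ∣ (0 - 1 : P) := Ideal.mem_span_singleton.mp (h𝔭 ▸ hr)
      exact hlam.not_isUnit (isUnit_of_dvd_one (by simpa using h1))
    intro q hq
    have hqJ : q ∈ J := by rw [hJ, LinearMap.mem_ker, hΦ]; exact hq
    have h1 := hrJ q hqJ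
    ext i
    have h2 := congrFun h1 i
    simp only [Pi.smul_apply, smul_eq_mul, Pi.zero_apply, mul_eq_zero] at h2
    simpa using h2.resolve_left hr0
  exact ⟨b, s0, hb, hs0dvd, hgen, hind⟩

/-- **Nakayama lifting**, for `𝔭 = (lam)`. -/
theorem exists_lift_basis {P R : Type*} [CommRing P] [IsDomain P] [IsNoetherianRing P]
    [CommRing R] [IsDomain R] [Algebra P R] [FaithfulSMul P R] [Module.Finite P R]
    (lam : P) (hlam : Prime lam) {ι : Type*} [Fintype ι]
    (β : Module.Basis ι (P ⧸ Ideal.span {lam}) (R ⧸ (Ideal.span {lam}).map (algebraMap P R))) :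
    ∃ (b : ι → R) (s0 : P),
      (∀ i, Ideal.Quotient.mk ((Ideal.span {lam}).map (algebraMap P R)) (b i) = β i) ∧
      lam ∣ s0 - 1 ∧
      (∀ m : R, ∃ q : ι → P, s0 • m = ∑ i, q i • b i) ∧
      (∀ q : ι → P, ∑ i, q i • b i = 0 → q = 0) :=
  exists_lift_basis_aux (Ideal.span {lam}) lam rfl hlam β

end LiftBasis

section TraceCompat

variable {P K L R : Type*} [CommRing P] [Field K] [Field L] [Algebra P K] [IsFractionRing P K]
  [Algebra K L] [Algebra P L] [IsScalarTower P K L] [FiniteDimensional K L]
  [CommRing R] [Algebra P R] [Algebra R L] [IsScalarTower P R L]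

omit [IsFractionRing P K] [FiniteDimensional K L] in
theorem algebraMap_smul_eq (p : P) (r : R) :
    algebraMap R L (p • r) = algebraMap P K p • algebraMap R L r := by
  rw [Algebra.smul_def, map_mul, ← IsScalarTower.algebraMap_apply P R L,
    IsScalarTower.algebraMap_apply P K L, Algebra.smul_def]

omit [FiniteDimensional K L] in
/-- **Trace compatibility**: the trace of the special fibre is the reduction of the generic
trace, when `R` is generated up to `s0 ≡ 1` by lifts of a basis of `R / 𝔭 R`. -/
theorem trace_quotient_eq_of_lift (𝔭 : Ideal P) {ι : Type*} [Fintype ι] [DecidableEq ι]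
    (β : Module.Basis ι (P ⧸ 𝔭) (R ⧸ 𝔭.map (algebraMap P R)))
    (b : ι → R) (hb : ∀ i, Ideal.Quotient.mk (𝔭.map (algebraMap P R)) (b i) = β i)
    (s0 : P) (hs0 : s0 - 1 ∈ 𝔭) (hs0ne : s0 ≠ 0)
    (hgen : ∀ m : R, ∃ q : ι → P, s0 • m = ∑ i, q i • b i)
    (B : Module.Basis ι K L) (hB : ∀ i, B i = algebraMap R L (b i))
    (m : R) (τ : P) (hτ : algebraMap P K τ = Algebra.trace K L (algebraMap R L m)) :
    Algebra.trace (P ⧸ 𝔭) (R ⧸ 𝔭.map (algebraMap P R))
        (Ideal.Quotient.mk (𝔭.map (algebraMap P R)) m) = Ideal.Quotient.mk 𝔭 τ := by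
  have hinj : Function.Injective (algebraMap P K) := IsFractionRing.injective P K
  have hs0K : algebraMap P K s0 ≠ 0 := fun h => hs0ne (hinj (by rw [h, map_zero]))
  have hmk1 : Ideal.Quotient.mk 𝔭 s0 = 1 := by
    rw [← sub_eq_zero, ← map_one (Ideal.Quotient.mk 𝔭), ← map_sub]
    exact Ideal.Quotient.eq_zero_iff_mem.mpr hs0
  have hq : ∀ i, ∃ q : ι → P, s0 • (m * b i) = ∑ j, q j • b j := fun i => hgen (m * b i)
  choose q hq using hq
  -- generic side
  have h1 : ∀ i, algebraMap R L m * B i =
      ∑ j, ((algebraMap P K s0)⁻¹ * algebraMap P K (q i j)) • B j := by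
    intro i
    have h := congrArg (algebraMap R L) (hq i)
    rw [algebraMap_smul_eq (K := K), map_sum] at h
    have h' : algebraMap P K s0 • (algebraMap R L m * B i) =
        ∑ j, algebraMap P K (q i j) • B j := by
      rw [hB i, ← map_mul, h]
      refine Finset.sum_congr rfl (fun j _ => ?_)
      rw [algebraMap_smul_eq (K := K), hB j]
    calc algebraMap R L m * B i
        = (algebraMap P K s0)⁻¹ • (algebraMap P K s0 • (algebraMap R L m * B i)) := by
          rw [smul_smul, inv_mul_cancel₀ hs0K, one_smul]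
      _ = _ := by
          rw [h', Finset.smul_sum]
          refine Finset.sum_congr rfl (fun j _ => ?_)
          rw [smul_smul]
  have htrK : Algebra.trace K L (algebraMap R L m) =
      ∑ i, (algebraMap P K s0)⁻¹ * algebraMap P K (q i i) := by
    rw [Algebra.trace_eq_matrix_trace B, Matrix.trace]
    refine Finset.sum_congr rfl (fun i _ => ?_)
    rw [Matrix.diag_apply, Algebra.leftMulMatrix_eq_repr_mul, h1 i, B.repr_sum_self]
  -- special fibre side
  have h2 : ∀ i, Ideal.Quotient.mk (𝔭.map (algebraMap P R)) m * β i =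
      ∑ j, Ideal.Quotient.mk 𝔭 (q i j) • β j := by
    intro i
    have h3 : Ideal.Quotient.mk (𝔭.map (algebraMap P R)) (m * b i) =
        Ideal.Quotient.mk (𝔭.map (algebraMap P R)) (s0 • (m * b i)) := by
      rw [Algebra.smul_def, ← Ideal.Quotient.mk_smul_mk_quotient_map_quotient, hmk1, one_smul]
    rw [← hb i, ← map_mul, h3, hq i, map_sum]
    refine Finset.sum_congr rfl (fun j _ => ?_)
    rw [Algebra.smul_def, ← Ideal.Quotient.mk_smul_mk_quotient_map_quotient, hb j]
  have htrD : Algebra.trace (P ⧸ 𝔭) (R ⧸ 𝔭.map (algebraMap P R))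
      (Ideal.Quotient.mk (𝔭.map (algebraMap P R)) m) = ∑ i, Ideal.Quotient.mk 𝔭 (q i i) := by
    rw [Algebra.trace_eq_matrix_trace β, Matrix.trace]
    refine Finset.sum_congr rfl (fun i _ => ?_)
    rw [Matrix.diag_apply, Algebra.leftMulMatrix_eq_repr_mul, h2 i, β.repr_sum_self]
  have h4 : s0 * τ = ∑ i, q i i := by
    apply hinj
    rw [map_mul, hτ, htrK, Finset.mul_sum, map_sum]
    refine Finset.sum_congr rfl (fun i _ => ?_)
    rw [← mul_assoc, mul_inv_cancel₀ hs0K, one_mul]
  rw [htrD, ← map_sum, ← h4, map_mul, hmk1, one_mul]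

end TraceCompat

section Main

/-- Every fraction `a / d` of the special fibre of the integral closure of `P` in `L`
(`a` integral, `d ∈ P` prime to `lam`) which is integral over `P / lam` comes from an
integral element: `d r ≡ a` modulo `lam`. -/
def IntLift (P L : Type*) [CommRing P] [Field L] [Algebra P L] (lam : P) : Prop :=
  ∀ a : L, IsIntegral P a → ∀ d : P, ¬ lam ∣ d →
    (∃ (n : ℕ) (c : Fin n → P) (y : L), IsIntegral P y ∧
      a ^ n + ∑ i : Fin n, algebraMap P L (c i * d ^ (n - (i : ℕ))) * a ^ (i : ℕ) =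
        algebraMap P L lam * y) →
    ∃ r y : L, IsIntegral P r ∧ IsIntegral P y ∧
      algebraMap P L d * r - a = algebraMap P L lam * y

theorem IntLift.idemLift {P L : Type*} [CommRing P] [Field L] [Algebra P L] {lam : P}
    (h : IntLift P L lam) : IdemLift P L lam := by
  rintro a ha d hd ⟨y, hy, hay⟩
  refine h a ha d hd ⟨2, ![0, -1], y, hy, ?_⟩
  rw [← hay, Fin.sum_univ_two]
  simp
  ring

variable {P K L : Type*} [CommRing P] [IsDomain P] [IsNoetherianRing P] [IsIntegrallyClosed P]
  [Field K] [Field L] [Algebra P K] [IsFractionRing P K] [Algebra K L] [Algebra P L]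
  [IsScalarTower P K L] [FiniteDimensional K L] [Algebra.IsSeparable K L]

/-- **DN, lifting half** (abstract integral closure `R`): `(c) + (a') ⟹ IntLift`. -/
theorem intLift_of_dualNormal_aux (R : Type*) [CommRing R] [IsDomain R] [Algebra P R]
    [Algebra R L] [IsScalarTower P R L] [IsIntegralClosure R P L]
    (lam : P) (hlam : Prime lam) [IsPrincipalIdealRing (P ⧸ Ideal.span {lam})]
    {ι' : Type*} [Fintype ι'] {instDec : DecidableEq ι'} (c : Module.Basis ι' K L) (d0 : P)
    (hcint : ∀ i, IsIntegral P (c i)) (hdisc : Algebra.discr K c = algebraMap P K d0)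
    (hd0 : ¬ lam ∣ d0)
    (G : P) (hG : Squarefree (Ideal.Quotient.mk (Ideal.span {lam}) G)) (M : ℕ) (hM : 0 < M)
    (ha : ∀ x : L, (∀ r : L, IsIntegral P r →
        Algebra.trace K L (x * r) ∈ (algebraMap P K).range) →
      IsIntegral P (x ^ M * algebraMap P L G ^ (M - 1))) :
    IntLift P L lam := by
  classical
  -- basic facts
  have hinjPK : Function.Injective (algebraMap P K) := IsFractionRing.injective P K
  have hinjRL : Function.Injective (algebraMap R L) :=
    IsIntegralClosure.algebraMap_injective R P L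
  have hinjPL : Function.Injective (algebraMap P L) := by
    rw [IsScalarTower.algebraMap_eq P K L]
    exact (algebraMap K L).injective.comp hinjPK
  have hinjPR : Function.Injective (algebraMap P R) := by
    have h : Function.Injective ((algebraMap R L) ∘ (algebraMap P R)) := by
      have : (algebraMap R L) ∘ (algebraMap P R) = algebraMap P L := by
        ext x; exact (IsScalarTower.algebraMap_apply P R L x).symm
      rw [this]; exact hinjPL
    exact Function.Injective.of_comp h
  have hintR : ∀ x : R, IsIntegral P (algebraMap R L x) :=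
    fun x => (IsIntegralClosure.isIntegral_iff (A := R)).mpr ⟨x, rfl⟩
  have hliftR : ∀ x : L, IsIntegral P x → ∃ y : R, algebraMap R L y = x :=
    fun x hx => (IsIntegralClosure.isIntegral_iff (A := R)).mp hx
  have hPRL : ∀ x : P, algebraMap R L (algebraMap P R x) = algebraMap P L x :=
    fun x => (IsScalarTower.algebraMap_apply P R L x).symm
  have hPKL : ∀ x : P, algebraMap K L (algebraMap P K x) = algebraMap P L x :=
    fun x => (IsScalarTower.algebraMap_apply P K L x).symm
  have hFPR : FaithfulSMul P R := (faithfulSMul_iff_algebraMap_injective P R).mpr hinjPR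
  have hFPL : FaithfulSMul P L := (faithfulSMul_iff_algebraMap_injective P L).mpr hinjPL
  have hfinPR : Module.Finite P R := IsIntegralClosure.finite P K L R
  have h𝔭prime : (Ideal.span {lam}).IsPrime :=
    (Ideal.span_singleton_prime hlam.ne_zero).mpr hlam
  have hlam1 : ¬ lam ∣ 1 := fun h => hlam.not_isUnit (isUnit_of_dvd_one h)
  have hmk0 : ∀ x : P, Ideal.Quotient.mk (Ideal.span {lam}) x = 0 ↔ lam ∣ x := fun x => by
    rw [Ideal.Quotient.eq_zero_iff_mem, Ideal.mem_span_singleton]
  have hPspan : (Ideal.span {lam}).map (algebraMap P R) = Ideal.span {algebraMap P R lam} := by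
    rw [Ideal.map_span, Set.image_singleton]
  have hmkR0 : ∀ x : R, Ideal.Quotient.mk ((Ideal.span {lam}).map (algebraMap P R)) x = 0 ↔ ∃ y : R, x = algebraMap P R lam * y := fun x => by
    rw [Ideal.Quotient.eq_zero_iff_mem, hPspan, Ideal.mem_span_singleton']
    constructor
    · rintro ⟨y, hy⟩; exact ⟨y, by rw [← hy, mul_comm]⟩
    · rintro ⟨y, hy⟩; exact ⟨y, by rw [hy, mul_comm]⟩
  have hmksmul : ∀ (x : P) (y : R), Ideal.Quotient.mk ((Ideal.span {lam}).map (algebraMap P R)) (x • y) = Ideal.Quotient.mk (Ideal.span {lam}) x • Ideal.Quotient.mk ((Ideal.span {lam}).map (algebraMap P R)) y := fun x y => by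
    rw [Algebra.smul_def, Ideal.Quotient.mk_smul_mk_quotient_map_quotient]
  -- the special fibre is finite, torsion-free, hence free over the PID
  have hfinPO : Module.Finite P (R ⧸ (Ideal.span {lam}).map (algebraMap P R)) :=
    Module.Finite.of_surjective (Ideal.Quotient.mkₐ P ((Ideal.span {lam}).map (algebraMap P R))).toLinearMap
      (Ideal.Quotient.mkₐ_surjective P _)
  have hfinDO : Module.Finite (P ⧸ Ideal.span {lam}) (R ⧸ (Ideal.span {lam}).map (algebraMap P R)) := Module.Finite.of_restrictScalars_finite P _ _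
  have htfDO : Module.IsTorsionFree (P ⧸ Ideal.span {lam}) (R ⧸ (Ideal.span {lam}).map (algebraMap P R)) := by
    rw [Module.isTorsionFree_iff_smul_eq_zero]
    intro r m hrm
    obtain ⟨d, rfl⟩ := Ideal.Quotient.mk_surjective r
    obtain ⟨y, rfl⟩ := Ideal.Quotient.mk_surjective m
    by_cases hd : lam ∣ d
    · left; exact (hmk0 d).mpr hd
    · right
      rw [Ideal.Quotient.mk_smul_mk_quotient_map_quotient, hmkR0] at hrm
      obtain ⟨z, hz⟩ := hrm
      obtain ⟨w, hw, hyw⟩ := exists_eq_mul_of_mul_eq_mul (L := L) lam hlam d hd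
        (hintR y) (hintR z) (by rw [← hPRL, ← hPRL, ← map_mul, ← map_mul, hz])
      obtain ⟨w', rfl⟩ := hliftR w hw
      rw [hmkR0]
      exact ⟨w', hinjRL (by rw [hyw, map_mul, hPRL])⟩
  have hfreeDO : Module.Free (P ⧸ Ideal.span {lam}) (R ⧸ (Ideal.span {lam}).map (algebraMap P R)) := Module.free_of_finite_type_torsion_free'
  let β := Module.Free.chooseBasis (P ⧸ Ideal.span {lam}) (R ⧸ (Ideal.span {lam}).map (algebraMap P R))
  obtain ⟨b, s0, hb, hs0dvd, hgen, hind⟩ := exists_lift_basis lam hlam β
  have hs0ne : s0 ≠ 0 := by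
    rintro rfl
    exact hlam1 ((dvd_neg).mp (by simpa using hs0dvd))
  have hs0mem : s0 - 1 ∈ Ideal.span {lam} := Ideal.mem_span_singleton.mpr hs0dvd
  have hmks0 : Ideal.Quotient.mk (Ideal.span {lam}) s0 = 1 := by
    rw [← sub_eq_zero, ← map_one (Ideal.Quotient.mk (Ideal.span {lam})), ← map_sub]
    exact (hmk0 _).mpr hs0dvd
  have hs0K : algebraMap P K s0 ≠ 0 := fun h => hs0ne (hinjPK (by rw [h, map_zero]))
  -- the `K`-basis of `L`
  have hli : LinearIndependent K (fun i => algebraMap R L (b i)) := by
    rw [Fintype.linearIndependent_iff]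
    intro g hg i
    obtain ⟨t, ht⟩ := IsLocalization.exist_integer_multiples (nonZeroDivisors P) Finset.univ g
    have hq : ∀ i, ∃ q : P, algebraMap P K q = (t : P) • g i :=
      fun i => ht i (Finset.mem_univ i)
    choose q hq using hq
    have h0 : ∑ i, q i • b i = 0 := by
      apply hinjRL
      rw [map_sum, map_zero]
      have h1 : ∀ i, algebraMap R L (q i • b i) = (t : P) • (g i • algebraMap R L (b i)) := by
        intro i
        rw [algebraMap_smul_eq (K := K), hq i, smul_assoc]
      rw [Finset.sum_congr rfl (fun i _ => h1 i), ← Finset.smul_sum, hg, smul_zero]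
    have h2 := congrFun (hind q h0) i
    have h3 : (t : P) • g i = 0 := by rw [← hq i, h2]; simp
    have ht0 : algebraMap P K (t : P) ≠ 0 := fun h =>
      nonZeroDivisors.ne_zero t.2 (hinjPK (by rw [h, map_zero]))
    rw [Algebra.smul_def] at h3
    exact (mul_eq_zero.mp h3).resolve_left ht0
  have hsp : ⊤ ≤ Submodule.span K (Set.range (fun i => algebraMap R L (b i))) := by
    intro x _
    obtain ⟨y, hy0, hy⟩ := exists_integral_multiples P K ({x} : Finset L)
    obtain ⟨r, hr⟩ := hliftR (y • x) (hy x (Finset.mem_singleton_self x))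
    obtain ⟨q, hq⟩ := hgen r
    have hyK : algebraMap P K y ≠ 0 := fun h => hy0 (hinjPK (by rw [h, map_zero]))
    have h1 : (algebraMap P K s0 * algebraMap P K y) • x =
        ∑ i, algebraMap P K (q i) • algebraMap R L (b i) := by
      have := congrArg (algebraMap R L) hq
      rw [algebraMap_smul_eq (K := K), map_sum, hr] at this
      rw [mul_smul, algebraMap_smul K y x, this]
      exact Finset.sum_congr rfl (fun i _ => algebraMap_smul_eq (K := K) _ _)
    have h2 : x = (algebraMap P K s0 * algebraMap P K y)⁻¹ •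
        ∑ i, algebraMap P K (q i) • algebraMap R L (b i) := by
      rw [← h1, smul_smul, inv_mul_cancel₀ (mul_ne_zero hs0K hyK), one_smul]
    rw [h2]
    exact Submodule.smul_mem _ _ (Submodule.sum_mem _ (fun i _ =>
      Submodule.smul_mem _ _ (Submodule.subset_span ⟨i, rfl⟩)))
  let B : Module.Basis _ K L := Module.Basis.mk hli hsp
  have hB : ∀ i, B i = algebraMap R L (b i) := fun i => Module.Basis.mk_apply hli hsp i
  -- traces are integral
  have htrint : ∀ m : R, ∃ τ : P, algebraMap P K τ = Algebra.trace K L (algebraMap R L m) :=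
    fun m => IsIntegrallyClosed.isIntegral_iff.mp (Algebra.isIntegral_trace (hintR m))
  have htrq : ∀ (m : R) (τ : P), algebraMap P K τ = Algebra.trace K L (algebraMap R L m) →
      Algebra.trace (P ⧸ Ideal.span {lam}) (R ⧸ (Ideal.span {lam}).map (algebraMap P R)) (Ideal.Quotient.mk ((Ideal.span {lam}).map (algebraMap P R)) m) = Ideal.Quotient.mk (Ideal.span {lam}) τ :=
    fun m τ hτ => trace_quotient_eq_of_lift (Ideal.span {lam}) β b hb s0 hs0mem hs0ne hgen B hB
      m τ hτ
  -- the trace matrix
  have hTPex : ∀ i j, ∃ τ : P, algebraMap P K τ = Algebra.trace K L (B i * B j) := by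
    intro i j
    obtain ⟨τ, hτ⟩ := htrint (b i * b j)
    exact ⟨τ, by rw [hτ, hB, hB, map_mul (algebraMap R L)]⟩
  choose TP hTP using hTPex
  have hTK : Algebra.traceMatrix K B = (Matrix.of TP).map (algebraMap P K) := by
    ext i j
    rw [Algebra.traceMatrix_apply, Algebra.traceForm_apply, Matrix.map_apply, Matrix.of_apply,
      hTP]
  have hTD : Algebra.traceMatrix (P ⧸ Ideal.span {lam}) β = (Ideal.Quotient.mk (Ideal.span {lam})).mapMatrix (Matrix.of TP) := by
    ext i j
    rw [Algebra.traceMatrix_apply, Algebra.traceForm_apply, RingHom.mapMatrix_apply,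
      Matrix.map_apply, Matrix.of_apply, ← hb i, ← hb j, ← map_mul]
    exact htrq (b i * b j) (TP i j) (by rw [hTP, hB, hB, map_mul (algebraMap R L)])
  have hΔD : (Algebra.traceMatrix (P ⧸ Ideal.span {lam}) β).det = Ideal.Quotient.mk (Ideal.span {lam}) (Matrix.of TP).det := by
    rw [hTD, ← RingHom.map_det]
  have hadjD : (Algebra.traceMatrix (P ⧸ Ideal.span {lam}) β).adjugate =
      (Ideal.Quotient.mk (Ideal.span {lam})).mapMatrix (Matrix.of TP).adjugate := by
    rw [hTD, RingHom.map_adjugate]
  have hdiscB : Algebra.discr K B = algebraMap P K (Matrix.of TP).det := by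
    rw [Algebra.discr_def, hTK, ← RingHom.mapMatrix_apply, ← RingHom.map_det]
  -- the discriminant is prime to `lam`
  have hΔ : ¬ lam ∣ (Matrix.of TP).det := by
    let e := c.indexEquiv B
    have hcR : ∀ i, ∃ y : R, algebraMap R L y = c (e.symm i) := fun i => hliftR _ (hcint _)
    choose cR hcR using hcR
    have hQ : ∀ i, ∃ q : _ → P, s0 • cR i = ∑ j, q j • b j := fun i => hgen (cR i)
    choose Q hQ using hQ
    have hfam : Matrix.mulVec (((algebraMap P K s0)⁻¹ • (Matrix.of Q).map (algebraMap P K)).map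
        (algebraMap K L)) (⇑B) = c ∘ ⇑e.symm := by
      funext i
      have h1 := congrArg (algebraMap R L) (hQ i)
      rw [algebraMap_smul_eq (K := K), map_sum, hcR] at h1
      have h2 : c (e.symm i) = (algebraMap P K s0)⁻¹ • (algebraMap P K s0 • c (e.symm i)) := by
        rw [smul_smul, inv_mul_cancel₀ hs0K, one_smul]
      rw [Function.comp_apply, h2, h1, Finset.smul_sum, Matrix.mulVec, dotProduct]
      refine Finset.sum_congr rfl (fun j _ => ?_)
      rw [algebraMap_smul_eq (K := K), hB, smul_smul, Matrix.map_apply, Matrix.smul_apply,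
        Matrix.map_apply, Matrix.of_apply, smul_eq_mul, Algebra.smul_def]
    have h3 : Algebra.discr K (c ∘ ⇑e.symm) = algebraMap P K d0 := by
      rw [Algebra.discr_reindex, hdisc]
    rw [← hfam, Algebra.discr_of_matrix_mulVec, Matrix.det_smul, hdiscB] at h3
    have h4 : (Matrix.of Q).det ^ 2 * (Matrix.of TP).det =
        d0 * (s0 ^ Fintype.card (Module.Free.ChooseBasisIndex (P ⧸ Ideal.span {lam})
          (R ⧸ (Ideal.span {lam}).map (algebraMap P R)))) ^ 2 := by
      apply hinjPK
      have e1 : ((algebraMap P K s0)⁻¹ ^ Fintype.card (Module.Free.ChooseBasisIndex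
          (P ⧸ Ideal.span {lam}) (R ⧸ (Ideal.span {lam}).map (algebraMap P R)))) ^ 2 *
          (algebraMap P K s0 ^ Fintype.card (Module.Free.ChooseBasisIndex
          (P ⧸ Ideal.span {lam}) (R ⧸ (Ideal.span {lam}).map (algebraMap P R)))) ^ 2 = 1 := by
        rw [← mul_pow, ← mul_pow, inv_mul_cancel₀ hs0K, one_pow, one_pow]
      rw [map_mul, map_mul, map_pow, map_pow, map_pow, ← h3, RingHom.map_det,
        RingHom.mapMatrix_apply]
      linear_combination (exp := 1)
        (-(((Matrix.of Q).map (algebraMap P K)).det ^ 2 *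
          algebraMap P K (Matrix.of TP).det)) * e1
    intro hdvd
    have h5 : lam ∣ d0 * (s0 ^ Fintype.card (Module.Free.ChooseBasisIndex (P ⧸ Ideal.span {lam})
        (R ⧸ (Ideal.span {lam}).map (algebraMap P R)))) ^ 2 := h4 ▸ Dvd.dvd.mul_left hdvd _
    rcases hlam.dvd_or_dvd h5 with h6 | h6
    · exact hd0 h6
    · have h7 : lam ∣ s0 := hlam.dvd_of_dvd_pow (hlam.dvd_of_dvd_pow h6)
      exact hlam1 ((dvd_sub_right h7).mp hs0dvd)
  have hΔK : algebraMap P K (Matrix.of TP).det ≠ 0 := fun h =>
    hΔ (by rw [hinjPK (h.trans (map_zero _).symm)]; exact dvd_zero lam)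
  have hδ : (Algebra.traceMatrix (P ⧸ Ideal.span {lam}) β).det ≠ 0 := by
    rw [hΔD, Ne, hmk0]; exact hΔ
  -- the scaled dual basis
  let A : _ → R := fun j => ∑ i, (Matrix.of TP).adjugate j i • b i
  have hAtr : ∀ j i, Algebra.trace K L (algebraMap R L (A j) * B i) =
      algebraMap P K (if j = i then (Matrix.of TP).det else 0) := by
    intro j i
    have h1 : algebraMap R L (A j) * B i =
        ∑ k, algebraMap P K ((Matrix.of TP).adjugate j k) • (B k * B i) := by
      simp only [A, map_sum, Finset.sum_mul]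
      refine Finset.sum_congr rfl (fun k _ => ?_)
      rw [algebraMap_smul_eq (K := K), hB k, smul_mul_assoc]
    rw [h1, map_sum]
    have h2 := congrFun (congrFun (Matrix.adjugate_mul (Matrix.of TP)) j) i
    rw [Matrix.mul_apply, Matrix.smul_apply, Matrix.one_apply, smul_eq_mul] at h2
    have h3 : (if j = i then (Matrix.of TP).det else 0) =
        ∑ k, (Matrix.of TP).adjugate j k * (Matrix.of TP) k i := by
      rw [h2]; split_ifs <;> simp
    rw [h3, map_sum]
    refine Finset.sum_congr rfl (fun k _ => ?_)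
    rw [map_smul, smul_eq_mul, map_mul (algebraMap P K), Matrix.of_apply, hTP]
  let x : _ → L := fun j =>
    (algebraMap P K s0 * (algebraMap P K (Matrix.of TP).det)⁻¹) • algebraMap R L (A j)
  have hx : ∀ j (r : L), IsIntegral P r →
      Algebra.trace K L (x j * r) ∈ (algebraMap P K).range := by
    intro j r hr
    obtain ⟨r', rfl⟩ := hliftR r hr
    obtain ⟨q, hq⟩ := hgen r'
    refine ⟨q j, ?_⟩
    have h1 : x j * algebraMap R L r' = (algebraMap P K (Matrix.of TP).det)⁻¹ •
        ∑ i, algebraMap P K (q i) • (algebraMap R L (A j) * B i) := by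
      have h2 := congrArg (algebraMap R L) hq
      rw [algebraMap_smul_eq (K := K), map_sum] at h2
      have h3 : ∑ i, algebraMap P K (q i) • (algebraMap R L (A j) * B i) =
          algebraMap R L (A j) * (algebraMap P K s0 • algebraMap R L r') := by
        rw [h2, Finset.mul_sum]
        refine Finset.sum_congr rfl (fun i _ => ?_)
        rw [algebraMap_smul_eq (K := K), hB, mul_smul_comm]
      rw [h3]
      simp only [x]
      rw [mul_smul_comm, smul_mul_assoc, smul_smul]
      congr 1
      ring
    rw [h1, map_smul, map_sum]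
    simp only [map_smul, hAtr, smul_eq_mul]
    rw [Finset.sum_eq_single j]
    · rw [if_pos rfl]
      field_simp
    · intro i _ hij
      rw [if_neg (Ne.symm hij), map_zero, mul_zero]
    · intro h; exact absurd (Finset.mem_univ j) h
  have hYex : ∀ j, ∃ Y : R, algebraMap R L Y = x j ^ M * algebraMap P L G ^ (M - 1) :=
    fun j => hliftR _ (ha (x j) (hx j))
  choose Y hY using hYex
  have hYrel : ∀ j, (Matrix.of TP).det ^ M • Y j = (s0 ^ M * G ^ (M - 1)) • A j ^ M := by
    intro j
    apply hinjRL
    rw [algebraMap_smul_eq (K := K), algebraMap_smul_eq (K := K), hY, map_pow, map_mul, map_pow,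
      map_pow, map_pow]
    simp only [x]
    rw [Algebra.smul_def, Algebra.smul_def, Algebra.smul_def, ← hPKL G]
    simp only [map_mul, map_pow, map_inv₀]
    have hne : algebraMap K L (algebraMap P K (Matrix.of TP).det) ≠ 0 := by
      rw [Ne, map_eq_zero]; exact hΔK
    have hne' := pow_ne_zero M hne
    field_simp
    rw [div_pow, mul_pow]
    field_simp
  -- hypotheses of the special fibre step
  have hG0 : Ideal.Quotient.mk (Ideal.span {lam}) G ≠ 0 := hG.ne_zero
  have hGrad : (Ideal.span {Ideal.Quotient.mk (Ideal.span {lam}) G}).IsRadical :=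
    isRadical_iff_span_singleton.mp hG.isRadical
  have hy : ∀ j, ∃ y : (R ⧸ (Ideal.span {lam}).map (algebraMap P R)), (Algebra.traceMatrix (P ⧸ Ideal.span {lam}) β).det ^ M • y =
      Ideal.Quotient.mk (Ideal.span {lam}) G ^ (M - 1) • (∑ i, (Algebra.traceMatrix (P ⧸ Ideal.span {lam}) β).adjugate j i • β i) ^ M := by
    intro j
    refine ⟨Ideal.Quotient.mk ((Ideal.span {lam}).map (algebraMap P R)) (Y j), ?_⟩
    have h1 := congrArg (Ideal.Quotient.mk ((Ideal.span {lam}).map (algebraMap P R))) (hYrel j)
    rw [hmksmul, hmksmul, map_pow, map_mul, map_pow, map_pow, hmks0, one_pow, one_mul,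
      map_pow] at h1
    rw [hΔD, h1, hadjD]
    congr 2
    simp only [A, map_sum, hmksmul, hb, RingHom.mapMatrix_apply, Matrix.map_apply]
  -- the final step
  rintro a haint d hd ⟨n, cc, yy, hyy, hrel⟩
  obtain ⟨a', rfl⟩ := hliftR a haint
  obtain ⟨yy', rfl⟩ := hliftR yy hyy
  have hrelR : a' ^ n + ∑ i : Fin n, (cc i * d ^ (n - (i : ℕ))) • a' ^ (i : ℕ) =
      algebraMap P R lam * yy' := by
    apply hinjRL
    rw [map_add, map_pow, map_sum, map_mul, hPRL, ← hrel]
    congr 1
    refine Finset.sum_congr rfl (fun i _ => ?_)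
    rw [Algebra.smul_def, map_mul, hPRL, map_pow]
  have hrelO : Ideal.Quotient.mk ((Ideal.span {lam}).map (algebraMap P R)) a' ^ n + ∑ i : Fin n, (Ideal.Quotient.mk (Ideal.span {lam}) (cc i) * Ideal.Quotient.mk (Ideal.span {lam}) d ^ (n - (i : ℕ))) • Ideal.Quotient.mk ((Ideal.span {lam}).map (algebraMap P R)) a' ^ (i : ℕ) = 0 := by
    have h1 := congrArg (Ideal.Quotient.mk ((Ideal.span {lam}).map (algebraMap P R))) hrelR
    rw [(hmkR0 (algebraMap P R lam * yy')).mpr ⟨yy', rfl⟩, map_add, map_pow, map_sum] at h1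
    rw [← h1]
    congr 1
  have hdD : Ideal.Quotient.mk (Ideal.span {lam}) d ≠ 0 := fun h => hd ((hmk0 d).mp h)
  obtain ⟨rbar, hrbar⟩ := exists_smul_eq_of_fraction_isIntegral β hδ (Ideal.Quotient.mk (Ideal.span {lam}) G) hG0 hGrad M hM hy
    (Ideal.Quotient.mk ((Ideal.span {lam}).map (algebraMap P R)) a') (Ideal.Quotient.mk (Ideal.span {lam}) d) hdD n (fun i => Ideal.Quotient.mk (Ideal.span {lam}) (cc i)) hrelO
  obtain ⟨r, rfl⟩ := Ideal.Quotient.mk_surjective rbar
  have h0 : Ideal.Quotient.mk ((Ideal.span {lam}).map (algebraMap P R)) (d • r - a') = 0 := by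
    rw [map_sub, hmksmul, hrbar, sub_self]
  obtain ⟨y2, hy2⟩ := (hmkR0 _).mp h0
  refine ⟨algebraMap R L r, algebraMap R L y2, hintR r, hintR y2, ?_⟩
  have h1 := congrArg (algebraMap R L) hy2
  rw [map_sub, map_mul, hPRL, Algebra.smul_def, map_mul, hPRL] at h1
  exact h1

/-- **DN, lifting half**: `(c) + (a') ⟹ IntLift`.  `P` a noetherian integrally closed domain,
`lam` a prime element with `P / lam` a PID, `L / Frac P` finite separable;
`(c)` a `K`-basis of `L` of integral elements with discriminant prime to `lam`;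
`(a')` `x ^ M * G ^ (M - 1)` is integral for every `x` in the trace dual of the integral closure,
with `G` squarefree modulo `lam`. -/
theorem intLift_of_dualNormal (lam : P) (hlam : Prime lam)
    [IsPrincipalIdealRing (P ⧸ Ideal.span {lam})]
    {ι' : Type*} [Fintype ι'] {instDec : DecidableEq ι'} (c : Module.Basis ι' K L) (d0 : P)
    (hcint : ∀ i, IsIntegral P (c i)) (hdisc : Algebra.discr K c = algebraMap P K d0)
    (hd0 : ¬ lam ∣ d0)
    (G : P) (hG : Squarefree (Ideal.Quotient.mk (Ideal.span {lam}) G)) (M : ℕ) (hM : 0 < M)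
    (ha : ∀ x : L, (∀ r : L, IsIntegral P r →
        Algebra.trace K L (x * r) ∈ (algebraMap P K).range) →
      IsIntegral P (x ^ M * algebraMap P L G ^ (M - 1))) :
    IntLift P L lam :=
  intLift_of_dualNormal_aux ↥(integralClosure P L) lam hlam c d0 hcint hdisc hd0 G hG M hM ha

/-- **The DN lemma (trace-duality normality), consumer form**: under `(c)` and `(a')`, two
minimal primes over `lam` of the integral closure of `P` in `L` which are not comaximal
coincide (`helper3578.OneComponent ↥(integralClosure P L) (algebraMap P _ lam)`, unfolded). -/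
theorem oneComponent_of_dualNormal (lam : P) (hlam : Prime lam)
    [IsPrincipalIdealRing (P ⧸ Ideal.span {lam})]
    {ι' : Type*} [Fintype ι'] {instDec : DecidableEq ι'} (c : Module.Basis ι' K L) (d0 : P)
    (hcint : ∀ i, IsIntegral P (c i)) (hdisc : Algebra.discr K c = algebraMap P K d0)
    (hd0 : ¬ lam ∣ d0)
    (G : P) (hG : Squarefree (Ideal.Quotient.mk (Ideal.span {lam}) G)) (M : ℕ) (hM : 0 < M)
    (ha : ∀ x : L, (∀ r : L, IsIntegral P r →
        Algebra.trace K L (x * r) ∈ (algebraMap P K).range) →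
      IsIntegral P (x ^ M * algebraMap P L G ^ (M - 1))) :
    ∀ Q ∈ (Ideal.span {algebraMap P ↥(integralClosure P L) lam}).minimalPrimes,
    ∀ Q' ∈ (Ideal.span {algebraMap P ↥(integralClosure P L) lam}).minimalPrimes,
      Q ⊔ Q' ≠ ⊤ → Q = Q' :=
  oneComponent_of_idemLift (K := K) lam hlam
    (intLift_of_dualNormal (K := K) lam hlam c d0 hcint hdisc hd0 G hG M hM ha).idemLift

/-- The DN lemma with hypothesis `(c)` packaged as an existential statement
(the shape of the conclusion of the vertical discriminant leaf). -/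
theorem oneComponent_of_dualNormal' (lam : P) (hlam : Prime lam)
    [IsPrincipalIdealRing (P ⧸ Ideal.span {lam})]
    (hc : ∃ (ι : Type) (_ : Fintype ι) (_ : DecidableEq ι) (c : Module.Basis ι K L) (d : P),
      (∀ i, IsIntegral P (c i)) ∧ Algebra.discr K c = algebraMap P K d ∧ ¬ lam ∣ d)
    (G : P) (hG : Squarefree (Ideal.Quotient.mk (Ideal.span {lam}) G)) (M : ℕ) (hM : 0 < M)
    (ha : ∀ x : L, (∀ r : L, IsIntegral P r →
        Algebra.trace K L (x * r) ∈ (algebraMap P K).range) →
      IsIntegral P (x ^ M * algebraMap P L G ^ (M - 1))) :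
    ∀ Q ∈ (Ideal.span {algebraMap P ↥(integralClosure P L) lam}).minimalPrimes,
    ∀ Q' ∈ (Ideal.span {algebraMap P ↥(integralClosure P L) lam}).minimalPrimes,
      Q ⊔ Q' ≠ ⊤ → Q = Q' := by
  obtain ⟨ι, _, _, c, d, hcint, hdisc, hd⟩ := hc
  exact oneComponent_of_dualNormal (K := K) lam hlam c d hcint hdisc hd G hG M hM ha

end Main

end Fermat.Agent.S18.helper3791
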