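/-
helper3797 — S18 leaf LSNORMAL (the normality input (C1) of audit #2644, track C; also usable by
GAUSSMOD / IGUSA-KL consumers).

For a principal ideal domain `O` (e.g. the DVR `A ∩ K₀` of a number field) the rings `O⟦X⟧` and
`O⸨X⸩` are integrally closed (no completeness needed).  Consumer forms through the Prelude
`ModularCurve.coeffMap`:

* `exists_coeffMap_eq_of_isIntegralElem` : a Laurent series over a field `K ⊇ O` which is a quotient
  of two series with coefficients in `O` and is integral over the series with coefficients in `O`
  has itself coefficients in `O`.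
* `exists_coeffMap_eq_of_pow` : the same for an `n`-th root.
* `exists_fraction_of_mem_closure` : every element of the subfield of `K⸨X⸩` generated by the
  constants and by the series with coefficients in `O` is such a quotient (`K = Frac O`).

Mathlib + Prelude `Def_ModularCurve_LaurentCoeff` only.
-/
import Mathlib
import Fermat.Prelude.Def_ModularCurve_LaurentCoeff

set_option autoImplicit false

namespace Fermat.Agent.S18.helper3797

open ModularCurve

section Normal

variable (O : Type*) [CommRing O] [IsDomain O] [IsPrincipalIdealRing O]

/-- Power series over a principal ideal domain form an integrally closed domain. -/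
theorem isIntegrallyClosed_powerSeries : IsIntegrallyClosed (PowerSeries O) :=
  UniqueFactorizationMonoid.instIsIntegrallyClosed

/-- Laurent series over a principal ideal domain form an integrally closed domain. -/
theorem isIntegrallyClosed_laurentSeries : IsIntegrallyClosed (LaurentSeries O) := by
  have := isIntegrallyClosed_powerSeries O
  exact isIntegrallyClosed_of_isLocalization (LaurentSeries O)
    (Submonoid.powers (PowerSeries.X : PowerSeries O))
    (powers_le_nonZeroDivisors_of_noZeroDivisors PowerSeries.X_ne_zero)

end Normal

section CoeffMap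

variable {R S : Type*} [CommRing R] [CommRing S]

theorem coeffMap_injective (φ : R →+* S) (hφ : Function.Injective φ) :
    Function.Injective (coeffMap φ) := by
  intro x y h
  ext k
  apply hφ
  have := congrArg (fun z : LaurentSeries S => z.coeff k) h
  simpa using this

theorem coeffMap_ne_zero (φ : R →+* S) (hφ : Function.Injective φ) {x : LaurentSeries R}
    (hx : x ≠ 0) : coeffMap φ x ≠ 0 := fun h =>
  hx (coeffMap_injective φ hφ (by rw [h, map_zero]))

end CoeffMap

section Consumer

variable {O K : Type*} [CommRing O] [IsDomain O] [IsPrincipalIdealRing O] [Field K]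

/-- **Normality, consumer form.**  Let `φ : O → K` be an injective ring hom from a principal ideal
domain to a field.  If `x : K⸨X⸩` is a quotient of two series with coefficients in `O` and is
integral over the series with coefficients in `O`, then `x` has coefficients in `O`. -/
theorem exists_coeffMap_eq_of_isIntegralElem (φ : O →+* K) (hφ : Function.Injective φ)
    {x : LaurentSeries K}
    (hfrac : ∃ a b : LaurentSeries O, b ≠ 0 ∧ x * coeffMap φ b = coeffMap φ a)
    (hint : (coeffMap φ).IsIntegralElem x) :
    ∃ y : LaurentSeries O, coeffMap φ y = x := by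
  classical
  have hinj := coeffMap_injective φ hφ
  have := isIntegrallyClosed_laurentSeries O
  obtain ⟨a, b, hb, hab⟩ := hfrac
  obtain ⟨p, hp, hpx⟩ := hint
  have hb' : coeffMap φ b ≠ 0 := coeffMap_ne_zero φ hφ hb
  let Fr := FractionRing (LaurentSeries O)
  let ψ : Fr →+* LaurentSeries K := IsFractionRing.lift (K := Fr) hinj
  have hψ : ∀ r : LaurentSeries O, ψ (algebraMap (LaurentSeries O) Fr r) = coeffMap φ r :=
    fun r => IsFractionRing.lift_algebraMap hinj r
  have hbFr : algebraMap (LaurentSeries O) Fr b ≠ 0 := by
    intro h
    exact hb (IsFractionRing.injective (LaurentSeries O) Fr (by rw [h, map_zero]))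
  set z : Fr := algebraMap (LaurentSeries O) Fr a / algebraMap (LaurentSeries O) Fr b with hz
  have hψz : ψ z = x := by
    rw [hz, map_div₀, hψ, hψ, ← hab, mul_div_assoc, div_self hb', mul_one]
  have hzint : IsIntegral (LaurentSeries O) z := by
    refine ⟨p, hp, ?_⟩
    apply ψ.injective
    rw [map_zero, Polynomial.hom_eval₂, hψz]
    have hcomp : ψ.comp (algebraMap (LaurentSeries O) Fr) = coeffMap φ := RingHom.ext hψ
    rw [hcomp]
    exact hpx
  obtain ⟨y, hy⟩ := IsIntegrallyClosed.isIntegral_iff.mp hzint
  exact ⟨y, by rw [← hψ, hy, hψz]⟩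

/-- Root form: if `x` is a quotient of two series with coefficients in `O` and `x ^ n`
(`0 < n`) has coefficients in `O`, then so has `x`. -/
theorem exists_coeffMap_eq_of_pow (φ : O →+* K) (hφ : Function.Injective φ)
    {x : LaurentSeries K}
    (hfrac : ∃ a b : LaurentSeries O, b ≠ 0 ∧ x * coeffMap φ b = coeffMap φ a)
    {n : ℕ} (hn : 0 < n) {c : LaurentSeries O} (hc : x ^ n = coeffMap φ c) :
    ∃ y : LaurentSeries O, coeffMap φ y = x := by
  refine exists_coeffMap_eq_of_isIntegralElem φ hφ hfrac
    ⟨Polynomial.X ^ n - Polynomial.C c, Polynomial.monic_X_pow_sub_C c hn.ne', ?_⟩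
  simp [Polynomial.eval₂_sub, hc]

/-- Integral-dependence form: if `x` is a quotient of two series with coefficients in `O` and is a
root of a monic polynomial whose coefficients are images of series with coefficients in `O`
(given as a polynomial over `O⸨X⸩`), then `x` has coefficients in `O`.  This is
`exists_coeffMap_eq_of_isIntegralElem` with the relation spelled out. -/
theorem exists_coeffMap_eq_of_monic_root (φ : O →+* K) (hφ : Function.Injective φ)
    {x : LaurentSeries K}
    (hfrac : ∃ a b : LaurentSeries O, b ≠ 0 ∧ x * coeffMap φ b = coeffMap φ a)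
    (p : Polynomial (LaurentSeries O)) (hp : p.Monic)
    (hroot : Polynomial.eval x (p.map (coeffMap φ)) = 0) :
    ∃ y : LaurentSeries O, coeffMap φ y = x :=
  exists_coeffMap_eq_of_isIntegralElem φ hφ hfrac
    ⟨p, hp, by rwa [Polynomial.eval_map] at hroot⟩

end Consumer

section Fraction

variable {O K : Type*} [CommRing O] [IsDomain O] [Field K] [Algebra O K] [IsFractionRing O K]

/-- The property "quotient of two series with coefficients in `O`". -/
def IsFrac (x : LaurentSeries K) : Prop :=
  ∃ a b : LaurentSeries O, b ≠ 0 ∧
    x * coeffMap (algebraMap O K) b = coeffMap (algebraMap O K) a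

omit [IsFractionRing O K] in
theorem isFrac_coeffMap (y : LaurentSeries O) :
    IsFrac (O := O) (coeffMap (algebraMap O K) y) :=
  ⟨y, 1, one_ne_zero, by rw [map_one, mul_one]⟩

theorem isFrac_algebraMap (c : K) : IsFrac (O := O) (algebraMap K (LaurentSeries K) c) := by
  obtain ⟨⟨n, d⟩, h⟩ := IsLocalization.surj (nonZeroDivisors O) c
  refine ⟨HahnSeries.single 0 n, HahnSeries.single 0 (d : O), ?_, ?_⟩
  · intro h0
    have := congrArg (fun z : LaurentSeries O => z.coeff 0) h0
    simp at this
  · rw [algebraMap_laurentSeries_eq_single, coeffMap_single, coeffMap_single,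
      HahnSeries.single_mul_single, add_zero]
    exact congrArg _ h

omit [IsFractionRing O K] in
theorem IsFrac.mul {x y : LaurentSeries K} (hx : IsFrac (O := O) x) (hy : IsFrac (O := O) y) :
    IsFrac (O := O) (x * y) := by
  obtain ⟨a, b, hb, hab⟩ := hx
  obtain ⟨a', b', hb', hab'⟩ := hy
  refine ⟨a * a', b * b', mul_ne_zero hb hb', ?_⟩
  rw [map_mul, map_mul, ← hab, ← hab']
  ring

omit [IsFractionRing O K] in
theorem IsFrac.add {x y : LaurentSeries K} (hx : IsFrac (O := O) x) (hy : IsFrac (O := O) y) :
    IsFrac (O := O) (x + y) := by
  obtain ⟨a, b, hb, hab⟩ := hx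
  obtain ⟨a', b', hb', hab'⟩ := hy
  refine ⟨a * b' + a' * b, b * b', mul_ne_zero hb hb', ?_⟩
  rw [map_add, map_mul, map_mul, map_mul, ← hab, ← hab']
  ring

omit [IsDomain O] [IsFractionRing O K] in
theorem IsFrac.neg {x : LaurentSeries K} (hx : IsFrac (O := O) x) : IsFrac (O := O) (-x) := by
  obtain ⟨a, b, hb, hab⟩ := hx
  exact ⟨-a, b, hb, by rw [map_neg, ← hab]; ring⟩

theorem IsFrac.inv {x : LaurentSeries K} (hx : IsFrac (O := O) x) : IsFrac (O := O) x⁻¹ := by
  obtain ⟨a, b, hb, hab⟩ := hx
  have hinj : Function.Injective (algebraMap O K) := IsFractionRing.injective O K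
  rcases eq_or_ne x 0 with rfl | hx0
  · exact ⟨0, 1, one_ne_zero, by simp⟩
  · have ha : a ≠ 0 := by
      rintro rfl
      rw [map_zero] at hab
      exact (mul_ne_zero hx0 (coeffMap_ne_zero _ hinj hb)) hab
    refine ⟨b, a, ha, ?_⟩
    rw [← hab, ← mul_assoc, inv_mul_cancel₀ hx0, one_mul]

/-- Every element of the subfield of `K⸨X⸩` generated by the constants and by the series with
coefficients in `O` is a quotient of two series with coefficients in `O` (`K = Frac O`). -/
theorem exists_fraction_of_mem_closure {x : LaurentSeries K}
    (hx : x ∈ Subfield.closure (Set.range (algebraMap K (LaurentSeries K)) ∪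
      Set.range (coeffMap (algebraMap O K)))) : IsFrac (O := O) x := by
  induction hx using Subfield.closure_induction with
  | mem y hy =>
    rcases hy with ⟨c, rfl⟩ | ⟨z, rfl⟩
    · exact isFrac_algebraMap c
    · exact isFrac_coeffMap z
  | one => simpa using isFrac_coeffMap (O := O) (K := K) 1
  | add x y _ _ hx hy => exact hx.add hy
  | neg x _ hx => exact hx.neg
  | inv x _ hx => exact hx.inv
  | mul x y _ _ hx hy => exact hx.mul hy

/-- **Normality in the generated subfield.**  `O` a principal ideal domain with fraction field `K`.
An element of the subfield of `K⸨X⸩` generated by the constants and the series with coefficients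
in `O` which is integral over the series with coefficients in `O` has coefficients in `O`. -/
theorem exists_coeffMap_eq_of_mem_closure [IsPrincipalIdealRing O] {x : LaurentSeries K}
    (hx : x ∈ Subfield.closure (Set.range (algebraMap K (LaurentSeries K)) ∪
      Set.range (coeffMap (algebraMap O K))))
    (hint : (coeffMap (algebraMap O K)).IsIntegralElem x) :
    ∃ y : LaurentSeries O, coeffMap (algebraMap O K) y = x :=
  exists_coeffMap_eq_of_isIntegralElem (algebraMap O K) (IsFractionRing.injective O K)
    (exists_fraction_of_mem_closure hx) hint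

end Fraction

end Fermat.Agent.S18.helper3797
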