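import Mathlib

/-!
# S18: coefficient-field descent at a place (helper3989)

`K ⊆ C` fields (think `K = ℚ̄`, `C = ℂ`), `F` a field over `K` (the function field),
`E` a field over `C` (germs of meromorphic functions at a point, or Laurent series at a cusp),
`ev : F →ₐ[K] E` the expansion map, `OE` a valuation subring of `E` containing the constants
`C` (regular germs / power series) and `O` its pull-back to `F` (a place of `F`), with residue
field `K`.

If `c_1, …, c_n ∈ C` are `K`-linearly independent and `∑ c_i • ev (y_i)` is regular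
(lies in `OE`), then every `y_i` is regular at the place `O`.

This is the place-by-place step of "a `ℂ`-combination of `ℚ̄`-rational functions with
prescribed poles is a combination of `ℚ̄`-rational functions with the same prescribed poles":
no Galois theory, no uniformiser, no completeness.
-/

set_option autoImplicit false

namespace Fermat.Agent.S18.helper3989

open scoped BigOperators

section Descent

variable {K C F E : Type*} [Field K] [Field C] [Field F] [Field E]
  [Algebra K C] [Algebra K F] [Algebra K E] [Algebra C E] [IsScalarTower K C E]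

/-- Nonunits of a pulled-back valuation subring. -/
theorem ev_mem_nonunits_of_mem_nonunits (ev : F →ₐ[K] E) (OE : ValuationSubring E)
    (O : ValuationSubring F) (hO : ∀ x : F, x ∈ O ↔ ev x ∈ OE) {x : F} (hx : x ∈ O.nonunits) :
    ev x ∈ OE.nonunits := by
  rw [ValuationSubring.mem_nonunits_iff] at hx ⊢
  by_contra hcon
  rw [not_lt] at hcon
  by_cases hx0 : x = 0
  · rw [hx0, map_zero, map_zero] at hcon
    exact absurd hcon (not_le.mpr zero_lt_one)
  · have hev0 : ev x ≠ 0 := (map_ne_zero ev).mpr hx0
    have h1 : OE.valuation (ev x)⁻¹ ≤ 1 := by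
      rw [map_inv₀]
      exact inv_le_one_of_one_le₀ hcon
    have h2 : (ev x)⁻¹ ∈ OE := (ValuationSubring.valuation_le_one_iff OE _).mp h1
    have h3 : x⁻¹ ∈ O := by
      rw [hO, map_inv₀]
      exact h2
    have h4 : O.valuation x⁻¹ ≤ 1 := (ValuationSubring.valuation_le_one_iff O _).mpr h3
    rw [map_inv₀] at h4
    have h5 : O.valuation x ≠ 0 := (Valuation.ne_zero_iff _).mpr hx0
    have h6 : 1 ≤ O.valuation x := by
      have := (inv_le_one₀ (zero_lt_iff.mpr h5)).mp h4
      exact this
    exact absurd hx (not_lt.mpr h6)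

/-- **Descent at a place.** See the module docstring. -/
theorem mem_of_sum_smul_ev_mem (ev : F →ₐ[K] E) (OE : ValuationSubring E)
    (hC : ∀ c : C, algebraMap C E c ∈ OE)
    (O : ValuationSubring F) (hO : ∀ x : F, x ∈ O ↔ ev x ∈ OE)
    (hres : ∀ x ∈ O, ∃ a : K, x - algebraMap K F a ∈ O.nonunits)
    {ι : Type*} [Fintype ι] (c : ι → C) (hc : LinearIndependent K c) (y : ι → F)
    (hmem : ∑ i, c i • ev (y i) ∈ OE) : ∀ i, y i ∈ O := by
  classical
  by_contra hcon
  rw [not_forall] at hcon
  obtain ⟨i₁, hi₁⟩ := hcon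
  -- choose an index of largest valuation
  obtain ⟨i₀, -, hmax⟩ := Finset.exists_max_image (Finset.univ : Finset ι)
    (fun i => O.valuation (y i)) ⟨i₁, Finset.mem_univ _⟩
  have hi₀ : y i₀ ∉ O := by
    intro h
    have h1 : O.valuation (y i₀) ≤ 1 := (ValuationSubring.valuation_le_one_iff O _).mpr h
    have h2 : O.valuation (y i₁) ≤ 1 := le_trans (hmax i₁ (Finset.mem_univ _)) h1
    exact hi₁ ((ValuationSubring.valuation_le_one_iff O _).mp h2)
  have hy0 : y i₀ ≠ 0 := fun h => hi₀ (h ▸ O.zero_mem)
  have hv0 : O.valuation (y i₀) ≠ 0 := (Valuation.ne_zero_iff _).mpr hy0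
  -- the quotients `z i = y i / y i₀` are regular
  have hz : ∀ i, y i / y i₀ ∈ O := by
    intro i
    rw [← ValuationSubring.valuation_le_one_iff, map_div₀]
    exact div_le_one_of_le₀ (hmax i (Finset.mem_univ _)) zero_le
  choose α hα using fun i => hres _ (hz i)
  -- the residue at `i₀` is nonzero
  have hα0 : α i₀ ≠ 0 := by
    intro h
    have h1 := hα i₀
    rw [h, map_zero, sub_zero, div_self hy0, ValuationSubring.mem_nonunits_iff, map_one] at h1
    exact lt_irrefl _ h1
  -- the constant `γ = ∑ α i • c i` is nonzero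
  set γ : C := ∑ i, α i • c i with hγ
  have hγ0 : γ ≠ 0 := by
    intro h
    exact hα0 (Fintype.linearIndependent_iff.mp hc α h i₀)
  have hγval : OE.valuation (algebraMap C E γ) = 1 := by
    have h1 : OE.valuation (algebraMap C E γ) ≤ 1 :=
      (ValuationSubring.valuation_le_one_iff OE _).mpr (hC γ)
    have h2 : OE.valuation (algebraMap C E γ⁻¹) ≤ 1 :=
      (ValuationSubring.valuation_le_one_iff OE _).mpr (hC γ⁻¹)
    rw [map_inv₀, map_inv₀] at h2
    have h3 : OE.valuation (algebraMap C E γ) ≠ 0 :=
      (Valuation.ne_zero_iff _).mpr ((map_ne_zero (algebraMap C E)).mpr hγ0)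
    exact le_antisymm h1 ((inv_le_one₀ (zero_lt_iff.mpr h3)).mp h2)
  -- the remainder is a nonunit
  set m : E := ∑ i, c i • ev (y i / y i₀ - algebraMap K F (α i)) with hm
  have hmval : OE.valuation m < 1 := by
    rw [hm]
    refine Valuation.map_sum_lt _ one_ne_zero fun i _ => ?_
    have h1 := ev_mem_nonunits_of_mem_nonunits ev OE O hO (hα i)
    rw [ValuationSubring.mem_nonunits_iff] at h1
    rw [Algebra.smul_def, map_mul]
    have h2 : OE.valuation (algebraMap C E (c i)) ≤ 1 :=
      (ValuationSubring.valuation_le_one_iff OE _).mpr (hC (c i))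
    calc OE.valuation (algebraMap C E (c i)) * OE.valuation (ev (y i / y i₀ - algebraMap K F (α i)))
        ≤ 1 * OE.valuation (ev (y i / y i₀ - algebraMap K F (α i))) :=
          mul_le_mul' h2 le_rfl
      _ < 1 := by rw [one_mul]; exact h1
  -- factor the sum
  have hfac : ∑ i, c i • ev (y i) = ev (y i₀) * (algebraMap C E γ + m) := by
    rw [hγ, hm, map_sum, ← Finset.sum_add_distrib, Finset.mul_sum]
    refine Finset.sum_congr rfl fun i _ => ?_
    have h1 : algebraMap C E (α i • c i) = c i • ev (algebraMap K F (α i)) := by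
      rw [AlgHom.commutes, Algebra.smul_def, Algebra.smul_def, map_mul,
        IsScalarTower.algebraMap_apply K C E, mul_comm]
    rw [h1, ← smul_add, ← map_add, add_sub_cancel, mul_smul_comm, ← map_mul,
      mul_div_cancel₀ _ hy0]
  have hu : OE.valuation (algebraMap C E γ + m) = 1 := by
    rw [Valuation.map_add_eq_of_lt_left _ (by rw [hγval]; exact hmval), hγval]
  have h1 : OE.valuation (ev (y i₀)) ≤ 1 := by
    have h2 : OE.valuation (∑ i, c i • ev (y i)) ≤ 1 :=
      (ValuationSubring.valuation_le_one_iff OE _).mpr hmem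
    rw [hfac, map_mul, hu, mul_one] at h2
    exact h2
  exact hi₀ ((hO _).mpr ((ValuationSubring.valuation_le_one_iff OE _).mp h1))

/-- Twisted form: regularity of `∑ c_i • ev (y_i * t)` gives `y_i * t ∈ O` for all `i`
(pole order of the `y_i` bounded by the zero order of `t`). -/
theorem mul_mem_of_sum_smul_ev_mul_mem (ev : F →ₐ[K] E) (OE : ValuationSubring E)
    (hC : ∀ c : C, algebraMap C E c ∈ OE)
    (O : ValuationSubring F) (hO : ∀ x : F, x ∈ O ↔ ev x ∈ OE)
    (hres : ∀ x ∈ O, ∃ a : K, x - algebraMap K F a ∈ O.nonunits)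
    {ι : Type*} [Fintype ι] (c : ι → C) (hc : LinearIndependent K c) (y : ι → F) (t : F)
    (hmem : (∑ i, c i • ev (y i)) * ev t ∈ OE) : ∀ i, y i * t ∈ O := by
  refine mem_of_sum_smul_ev_mem ev OE hC O hO hres c hc (fun i => y i * t) ?_
  have : ∑ i, c i • ev (y i * t) = (∑ i, c i • ev (y i)) * ev t := by
    rw [Finset.sum_mul]
    refine Finset.sum_congr rfl fun i _ => ?_
    rw [map_mul, smul_mul_assoc]
  rw [this]
  exact hmem

end Descent

end Fermat.Agent.S18.helper3989
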