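import Mathlib
import Fermat.Prelude.Def_AlgebraicCurve_Repartitions
import Fermat.Agent.S18.helper981_Riemann
import Fermat.Agent.S18.helper6292_RedContain
import Fermat.Agent.S18.helper8566_GenusBridge
import Fermat.Agent.S18.helper4464_ChartRiemann

/-!
# S18-GAP2: two-chart gap inequality by global trace functionals

`K` a field over `k` with an element `h` and a `k`-linear functional `c0 : K → k`
(for `K = RatFunc k`: `h = X`, `c0` = coefficient of `X^0` of the Laurent expansion at `0`),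
`F / K` finite separable.  For `y : F` consider `φ ↦ c0 (trace (φ * y))`.

* `gap_inequality`: if these functionals (`y ∈ Y`) vanish on two `k`-subspaces `P1`, `P2`
  (the two charts), and `U` is a `k`-subspace stable under `h^i` that spans `F` over `K`,
  then there is a finite-dimensional `V0 ≤ U` such that for every finite-dimensional
  `V ≥ V0` and `W1 ≤ P1 ⊓ V`, `W2 ≤ P2 ⊓ V`:
  `finrank (W1 ⊔ W2) + finrank Y ≤ finrank V`.
-/

set_option autoImplicit false

namespace Fermat.Agent.S18.helper4005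

open Module

section Abstract

variable {k K F : Type*} [Field k] [Field K] [Field F] [Algebra k K] [Algebra K F] [Algebra k F]
  [IsScalarTower k K F]

/-- The pairing `(f, y) ↦ c0 (trace_{F/K} (f * y))`, as a `k`-bilinear map. -/
noncomputable def tracePairing (c0 : K →ₗ[k] k) : F →ₗ[k] F →ₗ[k] k :=
  (LinearMap.mul k F).compr₂ (c0 ∘ₗ (Algebra.trace K F).restrictScalars k)

@[simp]
theorem tracePairing_apply (c0 : K →ₗ[k] k) (f y : F) :
    tracePairing c0 f y = c0 (Algebra.trace K F (f * y)) := rfl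

variable [FiniteDimensional K F] [Algebra.IsSeparable K F]

omit [IsScalarTower k K F] in
/-- Separation: if `c0 (trace (φ * y)) = 0` for all `φ` in a `k`-subspace `U` stable under
multiplication by `h ^ i` (`i : ℤ`) and spanning `F` over `K`, then `y = 0`. -/
theorem eq_zero_of_tracePairing_eq_zero (h : K) (c0 : K →ₗ[k] k)
    (hsep : ∀ r : K, (∀ i : ℤ, c0 (h ^ i * r) = 0) → r = 0)
    (U : Submodule k F)
    (hU : ∀ φ ∈ U, ∀ i : ℤ, algebraMap K F (h ^ i) * φ ∈ U)
    (hspan : ∀ f : F, ∃ r : K, r ≠ 0 ∧ algebraMap K F r * f ∈ U)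
    (y : F) (hy : ∀ φ ∈ U, c0 (Algebra.trace K F (φ * y)) = 0) : y = 0 := by
  have h1 : ∀ φ ∈ U, Algebra.trace K F (φ * y) = 0 := by
    intro φ hφ
    apply hsep
    intro i
    have := hy _ (hU φ hφ i)
    rwa [mul_assoc, ← Algebra.smul_def, map_smul, smul_eq_mul] at this
  have h2 : ∀ f : F, Algebra.trace K F (f * y) = 0 := by
    intro f
    obtain ⟨r, hr, hrf⟩ := hspan f
    have := h1 _ hrf
    rw [mul_assoc, ← Algebra.smul_def, map_smul, smul_eq_mul] at this
    exact (mul_eq_zero.mp this).resolve_left hr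
  exact (traceForm_nondegenerate K F).2 y fun f => by
    rw [Algebra.traceForm_apply]; exact h2 f

/-- **Two-chart gap inequality.**  -/
theorem gap_inequality (h : K) (c0 : K →ₗ[k] k)
    (hsep : ∀ r : K, (∀ i : ℤ, c0 (h ^ i * r) = 0) → r = 0)
    (Y U P1 P2 : Submodule k F) [FiniteDimensional k Y]
    (hU : ∀ φ ∈ U, ∀ i : ℤ, algebraMap K F (h ^ i) * φ ∈ U)
    (hspan : ∀ f : F, ∃ r : K, r ≠ 0 ∧ algebraMap K F r * f ∈ U)
    (h1 : ∀ y ∈ Y, ∀ φ ∈ P1, c0 (Algebra.trace K F (φ * y)) = 0)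
    (h2 : ∀ y ∈ Y, ∀ φ ∈ P2, c0 (Algebra.trace K F (φ * y)) = 0) :
    ∃ V0 : Submodule k F, V0 ≤ U ∧ V0.FG ∧
      ∀ V : Submodule k F, V0 ≤ V → FiniteDimensional k V →
        ∀ W1 W2 : Submodule k F, W1 ≤ P1 → W1 ≤ V → W2 ≤ P2 → W2 ≤ V →
          finrank k ↥(W1 ⊔ W2) + finrank k Y ≤ finrank k V := by
  classical
  -- the pairing restricted to `Y` in the second variable
  let Ψ : F →ₗ[k] Dual k Y := (tracePairing (K := K) c0).compl₂ Y.subtype
  have hΨ : ∀ (f : F) (y : Y), Ψ f y = c0 (Algebra.trace K F (f * (y : F))) := fun f y => rfl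
  -- `Ψ` restricted to `U` is onto the dual of `Y`
  have hUtop : Submodule.map Ψ U = ⊤ := by
    have hco : (Submodule.map Ψ U).dualCoannihilator = ⊥ := by
      rw [eq_bot_iff]
      intro y hy
      rw [Submodule.mem_dualCoannihilator] at hy
      have : (y : F) = 0 := by
        refine eq_zero_of_tracePairing_eq_zero h c0 hsep U hU hspan (y : F) fun φ hφ => ?_
        have := hy (Ψ φ) (Submodule.mem_map_of_mem hφ)
        rwa [hΨ] at this
      exact (Submodule.mem_bot k).mpr (Subtype.ext this)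
    have := Subspace.dualCoannihilator_dualAnnihilator_eq (W := Submodule.map Ψ U)
    rw [hco, Submodule.dualAnnihilator_bot] at this
    exact this.symm
  -- choose finitely many elements of `U` whose images span the dual
  obtain ⟨S, hS⟩ := (Module.Finite.fg_top : (⊤ : Submodule k (Dual k Y)).FG)
  have hex : ∀ d : Dual k Y, ∃ u : F, u ∈ U ∧ Ψ u = d := by
    intro d
    have : d ∈ Submodule.map Ψ U := by rw [hUtop]; trivial
    obtain ⟨u, hu, hud⟩ := this
    exact ⟨u, hu, hud⟩
  choose pre hpreU hpre using hex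
  refine ⟨Submodule.span k (pre '' (S : Set (Dual k Y))), ?_, ?_, ?_⟩
  · rw [Submodule.span_le]
    rintro _ ⟨d, -, rfl⟩
    exact hpreU d
  · exact Submodule.fg_span ((S.finite_toSet).image pre)
  · intro V hV0 hVfd W1 W2 hW1P hW1V hW2P hW2V
    -- `Ψ` restricted to `V` is surjective
    let ΨV : V →ₗ[k] Dual k Y := Ψ ∘ₗ V.subtype
    have hsurj : LinearMap.range ΨV = ⊤ := by
      rw [eq_top_iff, ← hS, Submodule.span_le]
      intro d hd
      have hmem : pre d ∈ V := hV0 (Submodule.subset_span ⟨d, hd, rfl⟩)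
      exact ⟨⟨pre d, hmem⟩, hpre d⟩
    -- `W1 ⊔ W2` sits in the kernel
    have hWV : W1 ⊔ W2 ≤ V := sup_le hW1V hW2V
    have hker : Submodule.comap V.subtype (W1 ⊔ W2) ≤ LinearMap.ker ΨV := by
      intro v hv
      rw [LinearMap.mem_ker]
      have hv' : (v : F) ∈ W1 ⊔ W2 := hv
      obtain ⟨w1, hw1, w2, hw2, hsum⟩ := Submodule.mem_sup.mp hv'
      ext y
      show Ψ (v : F) y = 0
      rw [← hsum, map_add, LinearMap.add_apply, hΨ, hΨ, h1 y y.2 w1 (hW1P hw1),
        h2 y y.2 w2 (hW2P hw2), add_zero]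
    have hrn := LinearMap.finrank_range_add_finrank_ker ΨV
    rw [hsurj, finrank_top, Subspace.dual_finrank_eq] at hrn
    have hle := Submodule.finrank_mono hker
    have heq : finrank k ↥(Submodule.comap V.subtype (W1 ⊔ W2)) = finrank k ↥(W1 ⊔ W2) :=
      (Submodule.comapSubtypeEquivOfLe hWV).finrank_eq
    omega

end Abstract

section RadicalTrace

variable {R K F : Type*} [CommRing R] [Field K] [Field F] [Algebra K F]
  [FiniteDimensional K F] [Algebra.IsSeparable K F]

/-- **Radical-trace lemma** (ring-hom form, no instances on `R`).  `g : R →+* K` injective with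
integrally closed image, `F/K` finite separable, `(t)` a radical ideal of `R`.
If `b ^ a = g t * c` with `c` integral over `R` (and `0 < a`), then `trace_{F/K} b ∈ t R`. -/
theorem trace_mem_of_pow_eq (g : R →+* K) (hg : Function.Injective g)
    (hIC : ∀ x : K, g.IsIntegralElem x → x ∈ g.range)
    (t : R) (ht : (Ideal.span {t}).IsRadical) (b c : F)
    (hc : ((algebraMap K F).comp g).IsIntegralElem c) (a : ℕ) (ha : 0 < a)
    (hb : b ^ a = algebraMap K F (g t) * c) :
    ∃ r : R, Algebra.trace K F b = g (t * r) := by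
  classical
  let _ : Algebra R K := g.toAlgebra
  let _ : Algebra R F := ((algebraMap K F).comp g).toAlgebra
  have : IsScalarTower R K F := IsScalarTower.of_algebraMap_eq fun _ => rfl
  have hc' : IsIntegral R c := hc
  have hb' : b ^ a = algebraMap R F t * c := hb
  have hb_int : IsIntegral R b := IsIntegral.of_pow ha (hb' ▸ isIntegral_algebraMap.mul hc')
  have hx_int : IsIntegral R (Algebra.trace K F b) := Algebra.isIntegral_trace hb_int
  obtain ⟨r0, hr0⟩ := hIC _ hx_int
  by_cases ht0 : t = 0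
  · subst ht0
    have hb0 : b = 0 := by
      rw [map_zero, map_zero, zero_mul] at hb
      exact pow_eq_zero_iff (Nat.pos_iff_ne_zero.mp ha) |>.mp hb
    exact ⟨0, by simp [hb0]⟩
  set Ω := AlgebraicClosure F with hΩ
  have hsum := trace_eq_sum_embeddings (K := K) (L := F) Ω (x := b)
  -- each conjugate lies in the radical of `t B'`, `B'` the integral closure of `R` in `Ω`
  let B' := integralClosure R Ω
  have hσR : ∀ (σ : F →ₐ[K] Ω) (z : F), IsIntegral R z → IsIntegral R (σ z) := by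
    intro σ z hz
    exact hz.map (σ.restrictScalars R)
  have hσt : ∀ σ : F →ₐ[K] Ω, σ (algebraMap R F t) = algebraMap R Ω t := by
    intro σ
    rw [IsScalarTower.algebraMap_apply R K F, AlgHom.commutes,
      ← IsScalarTower.algebraMap_apply R K Ω]
  have hrad : ∀ σ : F →ₐ[K] Ω, (⟨σ b, hσR σ b hb_int⟩ : B') ∈
      (Ideal.span {algebraMap R B' t}).radical := by
    intro σ
    refine ⟨a, Ideal.mem_span_singleton'.mpr ⟨⟨σ c, hσR σ c hc'⟩, ?_⟩⟩
    apply Subtype.ext
    show σ c * algebraMap R Ω t = (σ b) ^ a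
    rw [← map_pow, hb', map_mul, hσt, mul_comm]
  have hsumrad : (∑ σ : F →ₐ[K] Ω, (⟨σ b, hσR σ b hb_int⟩ : B')) ∈
      (Ideal.span {algebraMap R B' t}).radical :=
    Ideal.sum_mem _ fun σ _ => hrad σ
  obtain ⟨M, hM⟩ := hsumrad
  obtain ⟨γ, hγ⟩ := Ideal.mem_span_singleton'.mp hM
  have hval : (algebraMap K Ω (Algebra.trace K F b)) ^ M = (γ : Ω) * algebraMap R Ω t := by
    have := congrArg (Subtype.val : B' → Ω) hγ
    rw [hsum]
    simpa using this.symm
  have htK : g t ≠ 0 := fun h0 => ht0 (hg (by rw [h0, map_zero]))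
  have hq : algebraMap K Ω ((Algebra.trace K F b) ^ M / g t) = (γ : Ω) := by
    rw [map_div₀, map_pow, hval]
    have h1 : algebraMap R Ω t = algebraMap K Ω (g t) := by
      rw [IsScalarTower.algebraMap_apply R K Ω]; rfl
    have : algebraMap K Ω (g t) ≠ 0 := (map_ne_zero _).mpr htK
    rw [h1]
    exact mul_div_cancel_right₀ _ this
  have hq_int : IsIntegral R ((Algebra.trace K F b) ^ M / g t) := by
    have : IsIntegral R (algebraMap K Ω ((Algebra.trace K F b) ^ M / g t)) := by
      rw [hq]; exact γ.2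
    exact (isIntegral_algebraMap_iff (algebraMap K Ω).injective).mp this
  obtain ⟨r1, hr1⟩ := hIC _ hq_int
  have hpow : r0 ^ M = t * r1 := by
    apply hg
    rw [map_pow, hr0, map_mul, hr1, mul_div_cancel₀ _ htK]
  have hmem : r0 ∈ Ideal.span {t} :=
    ht ⟨M, Ideal.mem_span_singleton'.mpr ⟨r1, by rw [hpow, mul_comm]⟩⟩
  obtain ⟨r, hr⟩ := Ideal.mem_span_singleton'.mp hmem
  exact ⟨r, by rw [← hr0, ← hr, mul_comm]⟩

omit [Field K] [Field F] [Algebra K F] [FiniteDimensional K F] [Algebra.IsSeparable K F] in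
theorem isIntegralElem_pow {S : Type*} [CommRing S] (f : R →+* S) {x : S}
    (hx : f.IsIntegralElem x) (n : ℕ) : f.IsIntegralElem (x ^ n) := by
  induction n with
  | zero => rw [pow_zero]; exact f.isIntegralElem_one
  | succ n ih => rw [pow_succ]; exact RingHom.IsIntegralElem.mul f ih hx

/-- **Certificates ⇒ trace condition** (one chart).  `x`, `t` two non-associated primes of `R`.
If `z = y ^ a * t ^ (a - 1)` is integral over `R` and `z ^ E = x * w` with `w` integral, then for
every `φ` integral over `R`: `trace (φ * y) ∈ x R`. -/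
theorem trace_mul_mem_of_cert (g : R →+* K) (hg : Function.Injective g)
    (hIC : ∀ x : K, g.IsIntegralElem x → x ∈ g.range)
    (x t : R) (hx : Prime x) (ht : Prime t) (hxt : ¬ x ∣ t) (a E : ℕ) (ha : 0 < a) (hE : 0 < E)
    (y z w : F) (hz : ((algebraMap K F).comp g).IsIntegralElem z)
    (hzy : y ^ a * (algebraMap K F (g t)) ^ (a - 1) = z)
    (hw : ((algebraMap K F).comp g).IsIntegralElem w)
    (hzw : z ^ E = algebraMap K F (g x) * w)
    (φ : F) (hφ : ((algebraMap K F).comp g).IsIntegralElem φ) :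
    ∃ p : R, Algebra.trace K F (φ * y) = g (x * p) := by
  set T : F := algebraMap K F (g t) with hT
  have hTint : ((algebraMap K F).comp g).IsIntegralElem T :=
    ((algebraMap K F).comp g).isIntegralElem_map (x := t)
  have hradt : (Ideal.span {t}).IsRadical :=
    ((Ideal.span_singleton_prime ht.ne_zero).mpr ht).isRadical
  have hradx : (Ideal.span {x}).IsRadical :=
    ((Ideal.span_singleton_prime hx.ne_zero).mpr hx).isRadical
  have hTa : T ^ a = T * T ^ (a - 1) := by
    rw [← pow_succ', Nat.sub_add_cancel ha]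
  -- `b := φ * y * T`
  have hb1 : (φ * y * T) ^ a = T * (φ ^ a * z) := by
    rw [← hzy, mul_pow, mul_pow, hTa]; ring
  obtain ⟨r1, hr1⟩ := trace_mem_of_pow_eq g hg hIC t hradt (φ * y * T) (φ ^ a * z)
    (RingHom.IsIntegralElem.mul _ (isIntegralElem_pow _ hφ a) hz) a ha hb1
  have hb2 : (φ * y * T) ^ (a * E) = algebraMap K F (g x) * (T ^ E * φ ^ (a * E) * w) := by
    rw [pow_mul, hb1, mul_pow, mul_pow, hzw, ← pow_mul]; ring
  obtain ⟨r2, hr2⟩ := trace_mem_of_pow_eq g hg hIC x hradx (φ * y * T) (T ^ E * φ ^ (a * E) * w)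
    (RingHom.IsIntegralElem.mul _ (RingHom.IsIntegralElem.mul _
      (isIntegralElem_pow _ hTint E) (isIntegralElem_pow _ hφ (a * E))) hw)
    (a * E) (Nat.mul_pos ha hE) hb2
  have heq : t * r1 = x * r2 := hg (by rw [← hr1, ← hr2])
  have hdvd : x ∣ r1 := (hx.dvd_or_dvd ⟨r2, heq⟩).resolve_left hxt
  obtain ⟨p, rfl⟩ := hdvd
  refine ⟨p, ?_⟩
  have htK : g t ≠ 0 := fun h0 => ht.ne_zero (hg (by rw [h0, map_zero]))
  have htr : Algebra.trace K F (φ * y * T) = g t * Algebra.trace K F (φ * y) := by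
    rw [hT, mul_comm (φ * y), ← Algebra.smul_def, map_smul, smul_eq_mul]
  rw [htr, g.map_mul] at hr1
  exact mul_left_cancel₀ htK hr1

end RadicalTrace

section RatFuncInst

open Polynomial

variable (k : Type*) [Field k]

open scoped RatFunc in
/-- coefficient of `X^0` in the Laurent expansion at `X = 0` -/
noncomputable def coeffZero : RatFunc k →ₗ[k] k where
  toFun r := (algebraMap (RatFunc k) (LaurentSeries k) r).coeff 0
  map_add' r s := by simp
  map_smul' c r := by
    have h1 : algebraMap (RatFunc k) (LaurentSeries k) (algebraMap k (RatFunc k) c) = HahnSeries.C c := by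
      have := RatFunc.coe_coe (F := k) (Polynomial.C c)
      rw [Polynomial.coe_C, PowerSeries.coe_C] at this
      rw [this]
      simp
    simp only [Algebra.smul_def, map_mul, RingHom.id_apply, h1, HahnSeries.C_mul_eq_smul,
      HahnSeries.coeff_smul]

open scoped RatFunc in
theorem coeffZero_apply (r : RatFunc k) :
    coeffZero k r = (algebraMap (RatFunc k) (LaurentSeries k) r).coeff 0 := rfl

open scoped RatFunc in
theorem coeffZero_sep (r : RatFunc k)
    (h : ∀ i : ℤ, coeffZero k ((RatFunc.X : RatFunc k) ^ i * r) = 0) : r = 0 := by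
  have hinj : Function.Injective (algebraMap (RatFunc k) (LaurentSeries k)) :=
    (algebraMap (RatFunc k) (LaurentSeries k)).injective
  apply hinj
  rw [map_zero]
  ext n
  have := h (-n)
  rw [coeffZero_apply, map_mul, map_zpow₀, RatFunc.coe_X, ← RatFunc.single_zpow] at this
  have h2 := HahnSeries.coeff_single_mul_add (r := (1 : k))
    (x := algebraMap (RatFunc k) (LaurentSeries k) r) (a := n) (b := -n)
  rw [add_neg_cancel, one_mul] at h2
  rw [← h2, this]
  rfl

open scoped RatFunc in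
theorem coeffZero_X_mul (p : k[X]) :
    coeffZero k (algebraMap k[X] (RatFunc k) (X * p)) = 0 := by
  rw [coeffZero_apply]
  have := RatFunc.coe_coe (F := k) (X * p)
  have h2 : algebraMap (RatFunc k) (LaurentSeries k) (algebraMap k[X] (RatFunc k) (X * p)) =
      ((X * p : k[X]) : PowerSeries k) := this.symm
  rw [h2, PowerSeries.coeff_coe]
  simp

open scoped RatFunc in
theorem coeffZero_aeval_inv_X_mul (p : k[X]) :
    coeffZero k (aeval (RatFunc.X : RatFunc k)⁻¹ (X * p)) = 0 := by
  induction p using Polynomial.induction_on' with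
  | add p q hp hq => rw [mul_add, map_add, map_add, hp, hq, add_zero]
  | monomial n c =>
    rw [coeffZero_apply]
    have : aeval (RatFunc.X : RatFunc k)⁻¹ (X * monomial n c) =
        algebraMap k (RatFunc k) c * (RatFunc.X : RatFunc k) ^ (-(n + 1 : ℤ)) := by
      rw [X_mul_monomial, aeval_monomial, zpow_neg, inv_pow, ← zpow_natCast]
      push_cast
      rfl
    rw [this, ← Algebra.smul_def, ← coeffZero_apply, map_smul, coeffZero_apply, map_zpow₀,
      RatFunc.coe_X, ← RatFunc.single_zpow, HahnSeries.coeff_single_of_ne, smul_zero]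
    omega

/-- `X ↦ X⁻¹` as a ring hom `k[X] →+* RatFunc k` (the coordinate of the chart at infinity). -/
noncomputable def invHom : k[X] →+* RatFunc k :=
  (aeval (RatFunc.X : RatFunc k)⁻¹ : k[X] →ₐ[k] RatFunc k).toRingHom

theorem invHom_apply (p : k[X]) : invHom k p = aeval (RatFunc.X : RatFunc k)⁻¹ p := rfl

theorem invHom_injective : Function.Injective (invHom k) := by
  have : Transcendental k (RatFunc.X : RatFunc k)⁻¹ := fun h =>
    RatFunc.transcendental_X (K := k) (by simpa using h.inv)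
  exact transcendental_iff_injective.mp this

/-- The involution `X ↦ X⁻¹` of `RatFunc k`. -/
noncomputable def invX : RatFunc k →+* RatFunc k :=
  RatFunc.liftRingHom (invHom k) (by
    intro p hp
    rw [Submonoid.mem_comap, mem_nonZeroDivisors_iff_ne_zero]
    exact (map_ne_zero_iff _ (invHom_injective k)).mpr (nonZeroDivisors.ne_zero hp))

theorem invX_algebraMap (p : k[X]) : invX k (algebraMap k[X] (RatFunc k) p) = invHom k p :=
  RatFunc.liftRingHom_algebraMap _ _ _

theorem invX_invX (r : RatFunc k) : invX k (invX k r) = r := by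
  have h : (invX k).comp (invX k) = RingHom.id _ := by
    apply IsLocalization.ringHom_ext (nonZeroDivisors k[X])
    apply Polynomial.ringHom_ext
    · intro c
      show invX k (invX k (algebraMap k[X] (RatFunc k) (C c))) = algebraMap k[X] (RatFunc k) (C c)
      have hC : algebraMap k (RatFunc k) c = algebraMap k[X] (RatFunc k) (C c) := by
        rw [IsScalarTower.algebraMap_apply k k[X] (RatFunc k)]; rfl
      rw [invX_algebraMap, invHom_apply, aeval_C, hC, invX_algebraMap, invHom_apply, aeval_C, hC]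
    · show invX k (invX k (algebraMap k[X] (RatFunc k) X)) = algebraMap k[X] (RatFunc k) X
      rw [invX_algebraMap, invHom_apply, aeval_X, map_inv₀, ← RatFunc.algebraMap_X,
        invX_algebraMap, invHom_apply, aeval_X, inv_inv, RatFunc.algebraMap_X]
  exact RingHom.congr_fun h r

theorem mem_range_of_isIntegralElem_algebraMap (x : RatFunc k)
    (hx : (algebraMap k[X] (RatFunc k)).IsIntegralElem x) :
    x ∈ (algebraMap k[X] (RatFunc k)).range :=
  IsIntegrallyClosed.isIntegral_iff.mp hx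

theorem mem_range_of_isIntegralElem_invHom (x : RatFunc k)
    (hx : (invHom k).IsIntegralElem x) : x ∈ (invHom k).range := by
  obtain ⟨p, hp, hpx⟩ := hx
  have hcomp : (invX k).comp (invHom k) = algebraMap k[X] (RatFunc k) := by
    ext q
    · simp only [RingHom.coe_comp, Function.comp_apply]
      rw [← invX_algebraMap, invX_invX]
    · simp only [RingHom.coe_comp, Function.comp_apply]
      rw [← invX_algebraMap, invX_invX]
  have h2 : (algebraMap k[X] (RatFunc k)).IsIntegralElem (invX k x) := by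
    refine ⟨p, hp, ?_⟩
    rw [← hcomp, ← Polynomial.hom_eval₂, hpx, map_zero]
  obtain ⟨q, hq⟩ := mem_range_of_isIntegralElem_algebraMap k _ h2
  exact ⟨q, by rw [← invX_algebraMap, hq, invX_invX]⟩

section Charts

variable (F : Type*) [Field F] [Algebra (RatFunc k) F]

/-- Chart at `X = 0`/finite values: `k[X] → RatFunc k → F`. -/
noncomputable def chartHom₁ : k[X] →+* F :=
  (algebraMap (RatFunc k) F).comp (algebraMap k[X] (RatFunc k))

/-- Chart at infinity: `k[X] → RatFunc k → F`, `X ↦ X⁻¹`. -/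
noncomputable def chartHom₂ : k[X] →+* F :=
  (algebraMap (RatFunc k) F).comp (invHom k)

theorem prime_X_add_C (c : k) : Prime (X + C c : k[X]) := by
  have := prime_X_sub_C (-c)
  rwa [map_neg, sub_neg_eq_add] at this

theorem not_X_dvd_X_add_C {c : k} (hc : c ≠ 0) : ¬ (X : k[X]) ∣ X + C c := by
  rw [X_dvd_iff]
  simpa using hc

theorem prime_C_mul_X_add_one {c : k} (hc : c ≠ 0) : Prime (C c * X + 1 : k[X]) := by
  have hdeg : (C c * X + 1 : k[X]).degree = 1 := by
    have : (C c * X + 1 : k[X]) = C c * X + C 1 := by simp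
    rw [this]
    exact degree_linear hc
  exact (irreducible_of_degree_eq_one hdeg).prime

theorem not_X_dvd_C_mul_X_add_one (c : k) : ¬ (X : k[X]) ∣ C c * X + 1 := by
  rw [X_dvd_iff]
  simp

variable {F} [FiniteDimensional (RatFunc k) F] [Algebra.IsSeparable (RatFunc k) F]

/-- Chart 1: certificates at `t = X + c` and at `X = 0` kill the functional on the integral
closure of `k[X]`. -/
theorem coeffZero_trace_eq_zero₁ {c : k} (hc : c ≠ 0) {a E : ℕ} (ha : 0 < a) (hE : 0 < E)
    {y z w : F} (hz : (chartHom₁ k F).IsIntegralElem z)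
    (hzy : y ^ a * chartHom₁ k F (X + C c) ^ (a - 1) = z)
    (hw : (chartHom₁ k F).IsIntegralElem w) (hzw : z ^ E = chartHom₁ k F X * w)
    {φ : F} (hφ : (chartHom₁ k F).IsIntegralElem φ) :
    coeffZero k (Algebra.trace (RatFunc k) F (φ * y)) = 0 := by
  obtain ⟨p, hp⟩ := trace_mul_mem_of_cert (algebraMap k[X] (RatFunc k))
    (IsFractionRing.injective k[X] (RatFunc k)) (mem_range_of_isIntegralElem_algebraMap k)
    X (X + C c) prime_X (prime_X_add_C k c) (not_X_dvd_X_add_C k hc) a E ha hE y z w hz hzy hw hzw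
    φ hφ
  rw [hp, coeffZero_X_mul]

/-- Chart 2: certificates at `t' = 1 + c X⁻¹` and at `X = ∞` kill the functional on the integral
closure of `k[X⁻¹]`. -/
theorem coeffZero_trace_eq_zero₂ {c : k} (hc : c ≠ 0) {a E : ℕ} (ha : 0 < a) (hE : 0 < E)
    {y z w : F} (hz : (chartHom₂ k F).IsIntegralElem z)
    (hzy : y ^ a * chartHom₂ k F (C c * X + 1) ^ (a - 1) = z)
    (hw : (chartHom₂ k F).IsIntegralElem w) (hzw : z ^ E = chartHom₂ k F X * w)
    {φ : F} (hφ : (chartHom₂ k F).IsIntegralElem φ) :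
    coeffZero k (Algebra.trace (RatFunc k) F (φ * y)) = 0 := by
  obtain ⟨p, hp⟩ := trace_mul_mem_of_cert (invHom k)
    (invHom_injective k) (mem_range_of_isIntegralElem_invHom k)
    X (C c * X + 1) prime_X (prime_C_mul_X_add_one k hc) (not_X_dvd_C_mul_X_add_one k c)
    a E ha hE y z w hz hzy hw hzw φ hφ
  rw [hp, invHom_apply, coeffZero_aeval_inv_X_mul]

variable [Algebra k F] [IsScalarTower k (RatFunc k) F]

omit [FiniteDimensional (RatFunc k) F] [Algebra.IsSeparable (RatFunc k) F] in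
theorem chartHom₁_C (c : k) : chartHom₁ k F (C c) = algebraMap k F c := by
  show algebraMap (RatFunc k) F (algebraMap k[X] (RatFunc k) (C c)) = _
  rw [IsScalarTower.algebraMap_apply k (RatFunc k) F, IsScalarTower.algebraMap_apply k k[X] (RatFunc k)]
  rfl

omit [FiniteDimensional (RatFunc k) F] [Algebra.IsSeparable (RatFunc k) F] in
theorem chartHom₂_C (c : k) : chartHom₂ k F (C c) = algebraMap k F c := by
  show algebraMap (RatFunc k) F (invHom k (C c)) = _
  rw [invHom_apply, aeval_C, ← IsScalarTower.algebraMap_apply k (RatFunc k) F]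

/-- The `k`-submodule of elements of `F` integral over a chart `f : k[X] →+* F`. -/
noncomputable def chartSubmodule (f : k[X] →+* F) (hf : ∀ c : k, f (C c) = algebraMap k F c) :
    Submodule k F where
  carrier := {φ | f.IsIntegralElem φ}
  add_mem' := fun ha hb => RingHom.IsIntegralElem.add f ha hb
  zero_mem' := f.isIntegralElem_zero
  smul_mem' := fun c φ hφ => by
    show f.IsIntegralElem (c • φ)
    rw [Algebra.smul_def, ← hf]
    exact RingHom.IsIntegralElem.mul f f.isIntegralElem_map hφ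

/-- **Two-chart gap inequality from integrality certificates** (`K = RatFunc k`, `X` = the
Hauptmodul, `c ≠ 0` the elliptic value `t = X + c`).  If every `y` in a spanning set `S` of the
`k`-space `Y` carries the four certificates, then there is a finite-dimensional `V0` inside the
integral closure of `k[X, X⁻¹]` such that for every finite-dimensional `V ≥ V0` and `W1 ≤ V`
integral over `k[X]`, `W2 ≤ V` integral over `k[X⁻¹]`:
`finrank (W1 ⊔ W2) + finrank Y ≤ finrank V`. -/
theorem gap_of_certificates {c : k} (hc : c ≠ 0) {a E : ℕ} (ha : 0 < a) (hE : 0 < E)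
    (S : Set F) (Y : Submodule k F) [FiniteDimensional k Y] (hYS : Y ≤ Submodule.span k S)
    (hS1 : ∀ y ∈ S, ∃ z w : F, (chartHom₁ k F).IsIntegralElem z ∧
      y ^ a * chartHom₁ k F (X + C c) ^ (a - 1) = z ∧
      (chartHom₁ k F).IsIntegralElem w ∧ z ^ E = chartHom₁ k F X * w)
    (hS2 : ∀ y ∈ S, ∃ z w : F, (chartHom₂ k F).IsIntegralElem z ∧
      y ^ a * chartHom₂ k F (C c * X + 1) ^ (a - 1) = z ∧
      (chartHom₂ k F).IsIntegralElem w ∧ z ^ E = chartHom₂ k F X * w) :
    ∃ V0 : Submodule k F, V0.FG ∧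
      (∀ v ∈ V0, ∃ n : ℕ, (chartHom₁ k F).IsIntegralElem (chartHom₁ k F (X ^ n) * v)) ∧
      ∀ V : Submodule k F, V0 ≤ V → FiniteDimensional k V →
        ∀ W1 W2 : Submodule k F, (∀ φ ∈ W1, (chartHom₁ k F).IsIntegralElem φ) → W1 ≤ V →
          (∀ φ ∈ W2, (chartHom₂ k F).IsIntegralElem φ) → W2 ≤ V →
          finrank k ↥(W1 ⊔ W2) + finrank k Y ≤ finrank k V := by
  classical
  set f1 := chartHom₁ k F with hf1
  set f2 := chartHom₂ k F with hf2
  let P1 : Submodule k F := chartSubmodule k f1 (chartHom₁_C k)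
  let P2 : Submodule k F := chartSubmodule k f2 (chartHom₂_C k)
  -- the integral closure of `k[X, X⁻¹]`, as `⋃ₙ X⁻ⁿ • P1`
  let U : Submodule k F :=
    { carrier := {φ | ∃ n : ℕ, f1.IsIntegralElem (f1 (X ^ n) * φ)}
      add_mem' := by
        rintro φ ψ ⟨n, hn⟩ ⟨m, hm⟩
        refine ⟨n + m, ?_⟩
        have : f1 (X ^ (n + m)) * (φ + ψ) = f1 (X ^ m) * (f1 (X ^ n) * φ) +
            f1 (X ^ n) * (f1 (X ^ m) * ψ) := by
          rw [pow_add, map_mul]; ring
        rw [this]
        exact RingHom.IsIntegralElem.add f1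
          (RingHom.IsIntegralElem.mul f1 f1.isIntegralElem_map hn)
          (RingHom.IsIntegralElem.mul f1 f1.isIntegralElem_map hm)
      zero_mem' := ⟨0, by rw [mul_zero]; exact f1.isIntegralElem_zero⟩
      smul_mem' := by
        rintro c' φ ⟨n, hn⟩
        refine ⟨n, ?_⟩
        have : f1 (X ^ n) * c' • φ = f1 (C c') * (f1 (X ^ n) * φ) := by
          rw [hf1, chartHom₁_C, Algebra.smul_def]; ring
        rw [this]
        exact RingHom.IsIntegralElem.mul f1 f1.isIntegralElem_map hn }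
  have hf1X : ∀ n : ℕ, f1 (X ^ n) = algebraMap (RatFunc k) F ((RatFunc.X : RatFunc k) ^ n) := by
    intro n
    show algebraMap (RatFunc k) F (algebraMap k[X] (RatFunc k) (X ^ n)) = _
    rw [map_pow, RatFunc.algebraMap_X]
  have hU : ∀ φ ∈ U, ∀ i : ℤ, algebraMap (RatFunc k) F ((RatFunc.X : RatFunc k) ^ i) * φ ∈ U := by
    rintro φ ⟨n, hn⟩ i
    have hX0 : (RatFunc.X : RatFunc k) ≠ 0 := RatFunc.X_ne_zero
    rcases Int.eq_ofNat_of_zero_le (abs_nonneg i) with ⟨m, hm⟩
    rcases le_or_gt 0 i with hi | hi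
    · lift i to ℕ using hi
      refine ⟨n, ?_⟩
      have : f1 (X ^ n) * (algebraMap (RatFunc k) F ((RatFunc.X : RatFunc k) ^ (i : ℤ)) * φ) =
          f1 (X ^ i) * (f1 (X ^ n) * φ) := by
        rw [hf1X i, zpow_natCast]; ring
      rw [this]
      exact RingHom.IsIntegralElem.mul f1 f1.isIntegralElem_map hn
    · obtain ⟨j, hj⟩ : ∃ j : ℕ, i = -(j : ℤ) := ⟨i.natAbs, by omega⟩
      refine ⟨n + j, ?_⟩
      have : f1 (X ^ (n + j)) * (algebraMap (RatFunc k) F ((RatFunc.X : RatFunc k) ^ i) * φ) =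
          f1 (X ^ n) * φ := by
        rw [hf1X (n + j), hf1X n, ← mul_assoc, ← map_mul, hj, pow_add, zpow_neg, zpow_natCast,
          mul_assoc ((RatFunc.X : RatFunc k) ^ n), mul_inv_cancel₀ (pow_ne_zero j hX0), mul_one]
      rw [this]
      exact hn
  have hspan : ∀ f : F, ∃ r : RatFunc k, r ≠ 0 ∧ algebraMap (RatFunc k) F r * f ∈ U := by
    intro f
    let _ : Algebra k[X] F := f1.toAlgebra
    have : IsScalarTower k[X] (RatFunc k) F := IsScalarTower.of_algebraMap_eq fun _ => rfl
    have halg : IsAlgebraic k[X] f :=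
      (IsFractionRing.isAlgebraic_iff k[X] (RatFunc k) F).mpr
        (Algebra.IsAlgebraic.isAlgebraic (R := RatFunc k) f)
    obtain ⟨q, hq0, hqint⟩ := halg.exists_integral_multiple
    refine ⟨algebraMap k[X] (RatFunc k) q, ?_, 0, ?_⟩
    · exact (map_ne_zero_iff _ (IsFractionRing.injective k[X] (RatFunc k))).mpr hq0
    · rw [pow_zero, map_one, one_mul]
      have : algebraMap (RatFunc k) F (algebraMap k[X] (RatFunc k) q) * f = q • f := by
        rw [Algebra.smul_def]; rfl
      rw [this]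
      exact hqint
  -- vanishing on the two charts
  have hker : ∀ (P : Submodule k F), (∀ y ∈ S, ∀ φ ∈ P,
      coeffZero k (Algebra.trace (RatFunc k) F (φ * y)) = 0) →
      ∀ y ∈ Y, ∀ φ ∈ P, coeffZero k (Algebra.trace (RatFunc k) F (φ * y)) = 0 := by
    intro P hP y hy φ hφ
    have hle : Submodule.span k S ≤
        LinearMap.ker (tracePairing (K := RatFunc k) (coeffZero k) φ) :=
      Submodule.span_le.mpr fun s hs => hP s hs φ hφ
    exact hle (hYS hy)
  have h1 : ∀ y ∈ Y, ∀ φ ∈ P1, coeffZero k (Algebra.trace (RatFunc k) F (φ * y)) = 0 := by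
    apply hker
    intro y hy φ hφ
    obtain ⟨z, w, hz, hzy, hw, hzw⟩ := hS1 y hy
    exact coeffZero_trace_eq_zero₁ k hc ha hE hz hzy hw hzw hφ
  have h2 : ∀ y ∈ Y, ∀ φ ∈ P2, coeffZero k (Algebra.trace (RatFunc k) F (φ * y)) = 0 := by
    apply hker
    intro y hy φ hφ
    obtain ⟨z, w, hz, hzy, hw, hzw⟩ := hS2 y hy
    exact coeffZero_trace_eq_zero₂ k hc ha hE hz hzy hw hzw hφ
  obtain ⟨V0, hV0U, hV0fg, hV0⟩ := gap_inequality (K := RatFunc k) (RatFunc.X : RatFunc k)
    (coeffZero k) (coeffZero_sep k) Y U P1 P2 hU hspan h1 h2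
  exact ⟨V0, hV0fg, fun v hv => hV0U hv, fun V hV hfd W1 W2 hW1 hW1V hW2 hW2V =>
    hV0 V hV hfd W1 W2 (fun φ hφ => hW1 φ hφ) hW1V (fun φ hφ => hW2 φ hφ) hW2V⟩

end Charts

end RatFuncInst

/-!
# S18-GAP2-RIEM: consumer forms of the gap inequality

Part 1 (pure algebra, no `RatFunc` in the statements): `gap_of_certificates_adjoin`, the gap
inequality in the common chart vocabulary: `x : F` transcendental over `k`, `F` finite separable
over `k⟮x⟯`, integrality over `Algebra.adjoin k {x}` and `Algebra.adjoin k {x⁻¹}`.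

Part 2 (Prelude places, `helper981` Riemann, `helper8566` chart dictionary): the gap inequality
forces `finrank Y ≤ riemannGenus k F` (`le_riemannGenus_of_gap`), hence the reverse Riemann
inequality `l(D) ≤ deg D + 1 - finrank Y` for all divisors of large degree on the special fibre
(`riem_special_of_gap`, `riem_special_of_certificates`, `..._of_perfect`).
-/

open Module Polynomial IntermediateField

section Adjoin

variable {k F : Type*} [Field k] [Field F] [Algebra k F]

/-- Integrality with respect to a ring hom only depends on the hom through a surjection. -/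
theorem isIntegralElem_comp_iff_of_surjective {R A S : Type*} [CommRing R] [CommRing A]
    [CommRing S] (g : A →+* S) (h : R →+* A) (hh : Function.Surjective h) (z : S) :
    (g.comp h).IsIntegralElem z ↔ g.IsIntegralElem z := by
  constructor
  · rintro ⟨p, hp, hpz⟩
    exact ⟨p.map h, hp.map h, by rw [Polynomial.eval₂_map]; exact hpz⟩
  · rintro ⟨p, hp, hpz⟩
    have hl : p ∈ Polynomial.lifts h := by
      rw [Polynomial.mem_lifts]
      exact Polynomial.map_surjective h hh p
    obtain ⟨q, hq, -, hqm⟩ := Polynomial.lifts_and_natDegree_eq_and_monic hl hp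
    exact ⟨q, hqm, by rw [← Polynomial.eval₂_map, hq]; exact hpz⟩

/-- Integrality over the chart `aeval x : k[X] → F` is integrality over `k[x]`. -/
theorem isIntegralElem_aeval_iff (x z : F) :
    ((aeval x : k[X] →ₐ[k] F) : k[X] →+* F).IsIntegralElem z ↔
      IsIntegral (Algebra.adjoin k {x}) z := by
  let x' : Algebra.adjoin k {x} := ⟨x, Algebra.self_mem_adjoin_singleton k x⟩
  let h : k[X] →+* Algebra.adjoin k {x} := ((aeval x' : k[X] →ₐ[k] _) : k[X] →+* _)
  have hh : Function.Surjective h := by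
    rintro ⟨y, hy⟩
    rw [Algebra.adjoin_singleton_eq_range_aeval] at hy
    obtain ⟨p, rfl⟩ := hy
    refine ⟨p, Subtype.ext ?_⟩
    show ((aeval x' p : Algebra.adjoin k {x}) : F) = aeval x p
    rw [← Subalgebra.aeval_coe]
  have hcomp : (algebraMap (Algebra.adjoin k {x}) F).comp h =
      ((aeval x : k[X] →ₐ[k] F) : k[X] →+* F) := by
    ext p
    · simp [h]
    · simp [h, x']
  rw [← hcomp]
  exact isIntegralElem_comp_iff_of_surjective _ h hh z

/-- The `k`-algebra hom `RatFunc k → F`, `X ↦ x`, for a transcendental `x`. -/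
noncomputable def ratFuncHom (x : F) (hx : Transcendental k x) : RatFunc k →ₐ[k] F :=
  RatFunc.liftAlgHom (aeval x : k[X] →ₐ[k] F)
    (nonZeroDivisors_le_comap_nonZeroDivisors_of_injective _
      (transcendental_iff_injective.mp hx))

theorem ratFuncHom_algebraMap (x : F) (hx : Transcendental k x) (p : k[X]) :
    ratFuncHom x hx (algebraMap k[X] (RatFunc k) p) = aeval x p := by
  have h := RatFunc.liftAlgHom_apply_div (aeval x : k[X] →ₐ[k] F)
    (nonZeroDivisors_le_comap_nonZeroDivisors_of_injective _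
      (transcendental_iff_injective.mp hx)) p 1
  rw [map_one, div_one, map_one, div_one] at h
  exact h

theorem ratFuncHom_X (x : F) (hx : Transcendental k x) :
    ratFuncHom x hx (RatFunc.X : RatFunc k) = x := by
  rw [← RatFunc.algebraMap_X, ratFuncHom_algebraMap, aeval_X]

theorem ratFuncHom_mem_adjoin (x : F) (hx : Transcendental k x) (r : RatFunc k) :
    ratFuncHom x hx r ∈ k⟮x⟯ := by
  obtain ⟨p, q, hq, rfl⟩ : ∃ p q : k[X], q ≠ 0 ∧
      algebraMap k[X] (RatFunc k) p / algebraMap k[X] (RatFunc k) q = r := by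
    induction r using RatFunc.induction_on with
    | f p q hq => exact ⟨p, q, hq, rfl⟩
  rw [map_div₀, ratFuncHom_algebraMap, ratFuncHom_algebraMap]
  have hxm : x ∈ k⟮x⟯ := mem_adjoin_simple_self k x
  have h1 : ∀ p : k[X], aeval x p ∈ k⟮x⟯ := fun p => by
    have : aeval x p = ((aeval (⟨x, hxm⟩ : k⟮x⟯) p : k⟮x⟯) : F) := by
      rw [← IntermediateField.coe_val, ← aeval_algHom_apply]; rfl
    rw [this]
    exact SetLike.coe_mem _
  exact div_mem (h1 p) (h1 q)

theorem exists_ratFuncHom_eq (x : F) (hx : Transcendental k x) (y : k⟮x⟯) :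
    ∃ r : RatFunc k, ratFuncHom x hx r = y := by
  have hle : k⟮x⟯ ≤ (ratFuncHom x hx).fieldRange := by
    rw [adjoin_simple_le_iff]
    exact ⟨RatFunc.X, ratFuncHom_X x hx⟩
  exact hle y.2

/-- `RatFunc k ≃+* k⟮x⟯` for transcendental `x`. -/
noncomputable def ratFuncEquivAdjoin (x : F) (hx : Transcendental k x) : RatFunc k ≃+* k⟮x⟯ :=
  RingEquiv.ofBijective
    ((ratFuncHom x hx : RatFunc k →+* F).codRestrict k⟮x⟯.toSubfield.toSubring
      (fun r => ratFuncHom_mem_adjoin x hx r))
    ⟨fun a b hab => (ratFuncHom x hx).injective (congrArg Subtype.val hab),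
     fun y => by
      obtain ⟨r, hr⟩ := exists_ratFuncHom_eq x hx y
      exact ⟨r, Subtype.ext hr⟩⟩

theorem coe_ratFuncEquivAdjoin (x : F) (hx : Transcendental k x) (r : RatFunc k) :
    ((ratFuncEquivAdjoin x hx r : k⟮x⟯) : F) = ratFuncHom x hx r := rfl

/-- **Two-chart gap inequality from integrality certificates, chart vocabulary.**
`x` transcendental over `k`, `F` finite separable over `k⟮x⟯`, `c ≠ 0` (the elliptic value is
`x = -c`).  If every `y` in a spanning set `S` of the finite-dimensional `k`-space `Y` carries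
the four certificates
* `z = y ^ a * (x + c) ^ (a - 1)` integral over `k[x]` and `z ^ E = x * w`, `w` integral over
  `k[x]`;
* `z' = y ^ a * (c * x⁻¹ + 1) ^ (a - 1)` integral over `k[x⁻¹]` and `z' ^ E = x⁻¹ * w'`, `w'`
  integral over `k[x⁻¹]`,
then there is a finitely generated `V0` inside the integral closure of `k[x, x⁻¹]` such that for
every finite-dimensional `V ≥ V0`, every `W1 ≤ V` integral over `k[x]` and every `W2 ≤ V`
integral over `k[x⁻¹]`: `finrank (W1 ⊔ W2) + finrank Y ≤ finrank V`. -/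
theorem gap_of_certificates_adjoin (x : F) (hx : Transcendental k x)
    [FiniteDimensional k⟮x⟯ F] [Algebra.IsSeparable k⟮x⟯ F]
    {c : k} (hc : c ≠ 0) {a E : ℕ} (ha : 0 < a) (hE : 0 < E)
    (S : Set F) (Y : Submodule k F) [FiniteDimensional k Y] (hYS : Y ≤ Submodule.span k S)
    (hS1 : ∀ y ∈ S, ∃ z w : F, IsIntegral (Algebra.adjoin k {x}) z ∧
      y ^ a * (x + algebraMap k F c) ^ (a - 1) = z ∧
      IsIntegral (Algebra.adjoin k {x}) w ∧ z ^ E = x * w)
    (hS2 : ∀ y ∈ S, ∃ z w : F, IsIntegral (Algebra.adjoin k {x⁻¹}) z ∧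
      y ^ a * (algebraMap k F c * x⁻¹ + 1) ^ (a - 1) = z ∧
      IsIntegral (Algebra.adjoin k {x⁻¹}) w ∧ z ^ E = x⁻¹ * w) :
    ∃ V0 : Submodule k F, V0.FG ∧
      (∀ v ∈ V0, ∃ n : ℕ, IsIntegral (Algebra.adjoin k {x}) (x ^ n * v)) ∧
      ∀ V : Submodule k F, V0 ≤ V → FiniteDimensional k V →
        ∀ W1 W2 : Submodule k F, (∀ φ ∈ W1, IsIntegral (Algebra.adjoin k {x}) φ) → W1 ≤ V →
          (∀ φ ∈ W2, IsIntegral (Algebra.adjoin k {x⁻¹}) φ) → W2 ≤ V →
          finrank k ↥(W1 ⊔ W2) + finrank k Y ≤ finrank k V := by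
  let alg : Algebra (RatFunc k) F := (ratFuncHom x hx : RatFunc k →+* F).toAlgebra
  have halg : ∀ r : RatFunc k, algebraMap (RatFunc k) F r = ratFuncHom x hx r := fun _ => rfl
  have : IsScalarTower k (RatFunc k) F :=
    IsScalarTower.of_algebraMap_eq fun c => ((ratFuncHom x hx).commutes c).symm
  have he : (algebraMap (RatFunc k) F).comp
      ((ratFuncEquivAdjoin x hx).symm : k⟮x⟯ →+* RatFunc k) =
      ((RingEquiv.refl F : F ≃+* F) : F →+* F).comp (algebraMap k⟮x⟯ F) := by
    ext y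
    obtain ⟨r, rfl⟩ := (ratFuncEquivAdjoin x hx).surjective y
    simp only [RingHom.coe_comp, RingHom.coe_coe, Function.comp_apply,
      RingEquiv.symm_apply_apply, RingEquiv.refl_apply]
    rw [halg]
    rfl
  have : FiniteDimensional (RatFunc k) F :=
    Module.Finite.of_equiv_equiv (ratFuncEquivAdjoin x hx).symm (RingEquiv.refl F) he
  have : Algebra.IsSeparable (RatFunc k) F :=
    Algebra.IsSeparable.of_equiv_equiv (ratFuncEquivAdjoin x hx).symm (RingEquiv.refl F) he
  have h1 : chartHom₁ k F = ((aeval x : k[X] →ₐ[k] F) : k[X] →+* F) := by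
    ext p
    · show algebraMap (RatFunc k) F (algebraMap k[X] (RatFunc k) (C p)) = _
      rw [halg, ratFuncHom_algebraMap]; rfl
    · show algebraMap (RatFunc k) F (algebraMap k[X] (RatFunc k) X) = _
      rw [halg, ratFuncHom_algebraMap]; rfl
  have h2 : chartHom₂ k F = ((aeval x⁻¹ : k[X] →ₐ[k] F) : k[X] →+* F) := by
    ext p
    · show algebraMap (RatFunc k) F (invHom k (C p)) = _
      rw [halg, invHom_apply, aeval_C, AlgHom.commutes]
      simp
    · show algebraMap (RatFunc k) F (invHom k X) = _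
      rw [halg, invHom_apply, aeval_X, map_inv₀, ratFuncHom_X]
      simp
  have hi1 : ∀ z : F, (chartHom₁ k F).IsIntegralElem z ↔ IsIntegral (Algebra.adjoin k {x}) z :=
    fun z => by rw [h1]; exact isIntegralElem_aeval_iff x z
  have hi2 : ∀ z : F, (chartHom₂ k F).IsIntegralElem z ↔
      IsIntegral (Algebra.adjoin k {x⁻¹}) z :=
    fun z => by rw [h2]; exact isIntegralElem_aeval_iff x⁻¹ z
  have e1 : chartHom₁ k F (X + C c) = x + algebraMap k F c := by
    rw [h1]; simp
  have e1X : chartHom₁ k F X = x := by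
    rw [h1]; simp
  have e2 : chartHom₂ k F (C c * X + 1) = algebraMap k F c * x⁻¹ + 1 := by
    rw [h2]; simp
  have e2X : chartHom₂ k F X = x⁻¹ := by
    rw [h2]; simp
  have e1n : ∀ n : ℕ, chartHom₁ k F (X ^ n) = x ^ n := by
    intro n; rw [h1]; simp
  obtain ⟨V0, hfg, hV0, hgap⟩ := gap_of_certificates k hc ha hE S Y hYS
    (fun y hy => by
      obtain ⟨z, w, hz, hzy, hw, hzw⟩ := hS1 y hy
      exact ⟨z, w, (hi1 z).mpr hz, by rw [e1]; exact hzy, (hi1 w).mpr hw, by rw [e1X]; exact hzw⟩)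
    (fun y hy => by
      obtain ⟨z, w, hz, hzy, hw, hzw⟩ := hS2 y hy
      exact ⟨z, w, (hi2 z).mpr hz, by rw [e2]; exact hzy, (hi2 w).mpr hw, by rw [e2X]; exact hzw⟩)
  refine ⟨V0, hfg, fun v hv => ?_, fun V hV hfd W1 W2 hW1 hW1V hW2 hW2V => ?_⟩
  · obtain ⟨n, hn⟩ := hV0 v hv
    exact ⟨n, by rw [e1n] at hn; exact (hi1 _).mp hn⟩
  · exact hgap V hV hfd W1 W2 (fun φ hφ => (hi1 φ).mpr (hW1 φ hφ)) hW1V
      (fun φ hφ => (hi2 φ).mpr (hW2 φ hφ)) hW2V

end Adjoin

section Genus

open AlgebraicCurve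
open Fermat.Agent.S18.helper981 Fermat.Agent.S18.helper6292 Fermat.Agent.S18.helper8566

variable {K F : Type*} [Field K] [Field F] [Algebra K F]

/-- An element integral over `K[x]` lies in `L(m • Xinf)` for some `m`. -/
theorem exists_mem_riemannRochSpace_of_isIntegral {x b : F} {Xinf : Divisor K F}
    (hXinf : IsPoleDivisor x Xinf) (hb : IsIntegral (Algebra.adjoin K {x}) b) :
    ∃ m : ℕ, b ∈ riemannRochSpace (m • Xinf) := by
  by_cases hb0 : b = 0
  · exact ⟨0, by rw [hb0]; exact zero_mem _⟩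
  refine ⟨∑ v ∈ Xinf.support, (-(v.ord b)).toNat, ?_⟩
  rw [mem_riemannRochSpace_iff]
  intro v
  right
  rw [Finsupp.smul_apply, nsmul_eq_mul]
  by_cases hv : Xinf v = 0
  · have hx : 0 ≤ v.ord x := by
      have h := hXinf v
      rw [hv] at h
      have := le_max_right 0 (-(v.ord x))
      omega
    have := ord_nonneg_of_isIntegral_adjoin v hx hb
    rw [hv, mul_zero, neg_zero]
    exact this
  · have hmem : v ∈ Xinf.support := Finsupp.mem_support_iff.mpr hv
    have h1 : 1 ≤ Xinf v := by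
      have := hXinf.nonneg v
      omega
    have h2 : (-(v.ord b)).toNat ≤ ∑ w ∈ Xinf.support, (-(w.ord b)).toNat :=
      Finset.single_le_sum (f := fun w : Place K F => (-(w.ord b)).toNat)
        (fun _ _ => Nat.zero_le _) hmem
    have h3 : -(v.ord b) ≤ ((-(v.ord b)).toNat : ℤ) := Int.self_le_toNat _
    have h4 : ((-(v.ord b)).toNat : ℤ) ≤
        ((∑ w ∈ Xinf.support, (-(w.ord b)).toNat : ℕ) : ℤ) := by exact_mod_cast h2
    have h5 : (0 : ℤ) ≤ ((∑ w ∈ Xinf.support, (-(w.ord b)).toNat : ℕ) : ℤ) :=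
      Int.natCast_nonneg _
    nlinarith

theorem nsmul_add_nsmul_le {Xinf X0 : Divisor K F} (hXinf : 0 ≤ Xinf) (hX0 : 0 ≤ X0)
    {a b N : ℕ} (ha : a ≤ N) (hb : b ≤ N) : a • Xinf + b • X0 ≤ N • Xinf + N • X0 := by
  rw [Finsupp.le_def]
  intro v
  simp only [Finsupp.add_apply, Finsupp.smul_apply, nsmul_eq_mul]
  have h1 : (0 : ℤ) ≤ Xinf v := Finsupp.le_def.mp hXinf v
  have h2 : (0 : ℤ) ≤ X0 v := Finsupp.le_def.mp hX0 v
  have h3 : (a : ℤ) ≤ N := by exact_mod_cast ha
  have h4 : (b : ℤ) ≤ N := by exact_mod_cast hb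
  nlinarith

/-- An element of the integral closure of `K[x, x⁻¹]` lies in `L(N • Xinf + N • X0)` for all
large `N`. -/
theorem exists_mem_riemannRochSpace_of_pow_mul_isIntegral {x : F} (hx0 : x ≠ 0)
    {Xinf X0 : Divisor K F} (hXinf : IsPoleDivisor x Xinf) (hX0 : IsZeroDivisor x X0)
    {v : F} {n : ℕ} (hv : IsIntegral (Algebra.adjoin K {x}) (x ^ n * v)) :
    ∃ N0 : ℕ, ∀ N : ℕ, N0 ≤ N → v ∈ riemannRochSpace (N • Xinf + N • X0) := by
  have hXinf0 : (0 : Divisor K F) ≤ Xinf := Finsupp.le_def.mpr fun w => hXinf.nonneg w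
  have hX00 : (0 : Divisor K F) ≤ X0 := Finsupp.le_def.mpr fun w => hX0.nonneg w
  obtain ⟨m, hm⟩ := exists_mem_riemannRochSpace_of_isIntegral hXinf hv
  refine ⟨max m n, fun N hN => ?_⟩
  have h1 : x ^ n * v ∈ riemannRochSpace ((m + n) • Xinf) := by
    refine riemannRochSpace_mono ?_ hm
    rw [Finsupp.le_def]
    intro w
    simp only [Finsupp.smul_apply, nsmul_eq_mul]
    have := hXinf.nonneg w
    push_cast
    nlinarith [Int.natCast_nonneg n]
  have h2 : v ∈ riemannRochSpace (m • Xinf + n • X0) :=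
    (pow_mul_mem_riemannRochSpace_iff hx0 hXinf hX0 m n v).mp h1
  exact riemannRochSpace_mono (nsmul_add_nsmul_le hXinf0 hX00
    ((le_max_left m n).trans hN) ((le_max_right m n).trans hN)) h2

/-- A finitely generated subspace of the integral closure of `K[x, x⁻¹]` lies in
`L(N • Xinf + N • X0)` for all large `N`. -/
theorem exists_le_riemannRochSpace_of_fg {x : F} (hx0 : x ≠ 0)
    {Xinf X0 : Divisor K F} (hXinf : IsPoleDivisor x Xinf) (hX0 : IsZeroDivisor x X0)
    {V0 : Submodule K F} (hfg : V0.FG)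
    (hV0 : ∀ v ∈ V0, ∃ n : ℕ, IsIntegral (Algebra.adjoin K {x}) (x ^ n * v)) :
    ∃ N0 : ℕ, ∀ N : ℕ, N0 ≤ N → V0 ≤ riemannRochSpace (N • Xinf + N • X0) := by
  classical
  obtain ⟨T, hT⟩ := hfg
  have h : ∀ t : F, ∃ N0 : ℕ, t ∈ V0 → ∀ N : ℕ, N0 ≤ N →
      t ∈ riemannRochSpace (N • Xinf + N • X0) := by
    intro t
    by_cases ht : t ∈ V0
    · obtain ⟨n, hn⟩ := hV0 t ht
      obtain ⟨N0, hN0⟩ := exists_mem_riemannRochSpace_of_pow_mul_isIntegral hx0 hXinf hX0 hn
      exact ⟨N0, fun _ => hN0⟩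
    · exact ⟨0, fun h => absurd h ht⟩
  choose n hn using h
  refine ⟨T.sup n, fun N hN => ?_⟩
  rw [← hT, Submodule.span_le]
  intro t ht
  have htV : t ∈ V0 := by
    rw [← hT]
    exact Submodule.subset_span ht
  exact hn t htV N ((Finset.le_sup (f := n) ht).trans hN)

/-- **The gap inequality bounds the Riemann genus from below.**  Setting of `helper981`
(principal divisors, all places of degree one, Riemann bound), `x ≠ 0` with pole divisor `Xinf`
of positive degree and zero divisor `X0`, chart dictionary on both charts.  If the two-chart gap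
inequality holds with defect `s`, then `s ≤ riemannGenus K F`. -/
theorem le_riemannGenus_of_gap [HasPrincipalDivisors K F] (hdeg : ∀ v : Place K F, v.deg = 1)
    (P₀ : Place K F) (hRB : HasRiemannBound K F) {x : F} (hx0 : x ≠ 0)
    {Xinf X0 : Divisor K F} (hXinf : IsPoleDivisor x Xinf) (hX0 : IsZeroDivisor x X0)
    (hC : ChartIntegral K x) (hC' : ChartIntegral K x⁻¹)
    (hdpos : 0 < Divisor.degree Xinf) (s : ℕ)
    (hgap : ∃ V0 : Submodule K F, V0.FG ∧
      (∀ v ∈ V0, ∃ n : ℕ, IsIntegral (Algebra.adjoin K {x}) (x ^ n * v)) ∧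
      ∀ V : Submodule K F, V0 ≤ V → FiniteDimensional K V →
        ∀ W1 W2 : Submodule K F, (∀ φ ∈ W1, IsIntegral (Algebra.adjoin K {x}) φ) → W1 ≤ V →
          (∀ φ ∈ W2, IsIntegral (Algebra.adjoin K {x⁻¹}) φ) → W2 ≤ V →
          finrank K ↥(W1 ⊔ W2) + s ≤ finrank K V) :
    s ≤ riemannGenus K F := by
  obtain ⟨V0, hfg, hV0, hgap⟩ := hgap
  obtain ⟨c0, hc0⟩ := exists_forall_finrank_eq hdeg P₀ hRB
  obtain ⟨N0, hN0⟩ := exists_le_riemannRochSpace_of_fg hx0 hXinf hX0 hfg hV0
  have hXinf0 : (0 : Divisor K F) ≤ Xinf := Finsupp.le_def.mpr fun w => hXinf.nonneg w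
  have hX00 : (0 : Divisor K F) ≤ X0 := Finsupp.le_def.mpr fun w => hX0.nonneg w
  have hd0 : Divisor.degree X0 = Divisor.degree Xinf :=
    degree_zero_eq_degree_pole hx0 hXinf hX0
  set d : ℤ := Divisor.degree Xinf with hd
  set N : ℕ := max N0 c0.toNat with hN
  have hNd : c0 ≤ (N : ℤ) * d := by
    have h1 : c0 ≤ (c0.toNat : ℤ) := Int.self_le_toNat c0
    have h2 : (c0.toNat : ℤ) ≤ (N : ℤ) := by exact_mod_cast le_max_right N0 c0.toNat
    have h3 : (0 : ℤ) ≤ (N : ℤ) := Int.natCast_nonneg N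
    nlinarith
  have hfdV : FiniteDimensional K (riemannRochSpace (N • Xinf + N • X0)) :=
    finite_riemannRochSpace hdeg P₀ _
  have hfd1 : FiniteDimensional K (riemannRochSpace (N • Xinf)) :=
    finite_riemannRochSpace hdeg P₀ _
  have hfd2 : FiniteDimensional K (riemannRochSpace (N • X0)) :=
    finite_riemannRochSpace hdeg P₀ _
  have hfd0 : FiniteDimensional K (riemannRochSpace (0 : Divisor K F)) :=
    finite_riemannRochSpace hdeg P₀ _
  have hW1V : riemannRochSpace (N • Xinf) ≤ riemannRochSpace (N • Xinf + N • X0) :=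
    riemannRochSpace_mono (le_add_of_nonneg_right (nsmul_nonneg hX00 N))
  have hW2V : riemannRochSpace (N • X0) ≤ riemannRochSpace (N • Xinf + N • X0) :=
    riemannRochSpace_mono (le_add_of_nonneg_left (nsmul_nonneg hXinf0 N))
  have hW1 : ∀ φ ∈ riemannRochSpace (N • Xinf), IsIntegral (Algebra.adjoin K {x}) φ :=
    fun φ hφ => isIntegral_of_mem_riemannRochSpace hXinf hC N hφ
  have hW2 : ∀ φ ∈ riemannRochSpace (N • X0), IsIntegral (Algebra.adjoin K {x⁻¹}) φ :=
    fun φ hφ => isIntegral_of_mem_riemannRochSpace hX0.isPoleDivisor_inv hC' N hφ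
  have key := hgap _ (hN0 N (le_max_left _ _)) hfdV _ _ hW1 hW1V hW2 hW2V
  have hinf : riemannRochSpace (N • Xinf) ⊓ riemannRochSpace (N • X0) ≤
      riemannRochSpace (0 : Divisor K F) := by
    rintro f ⟨hf1, hf2⟩
    have hf1 := mem_riemannRochSpace_iff.mp hf1
    have hf2 := mem_riemannRochSpace_iff.mp hf2
    rw [mem_riemannRochSpace_iff]
    intro v
    rcases hf1 v with h | h1
    · exact Or.inl h
    rcases hf2 v with h | h2
    · exact Or.inl h
    right
    rw [Finsupp.smul_apply, nsmul_eq_mul, hXinf v] at h1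
    rw [Finsupp.smul_apply, nsmul_eq_mul, hX0 v] at h2
    rw [Finsupp.zero_apply, neg_zero]
    rcases le_total 0 (v.ord x) with hx | hx
    · rw [max_eq_left (by omega), mul_zero, neg_zero] at h1
      exact h1
    · rw [max_eq_left hx, mul_zero, neg_zero] at h2
      exact h2
  have h1 : finrank K ↥(riemannRochSpace (N • Xinf) ⊓ riemannRochSpace (N • X0)) ≤ 1 := by
    have := Submodule.finrank_mono hinf
    rwa [finrank_zero hdeg P₀] at this
  have h2 := Submodule.finrank_sup_add_finrank_inf_eq (riemannRochSpace (N • Xinf))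
    (riemannRochSpace (N • X0))
  have e1 := hc0 (N • Xinf) (by rw [map_nsmul, nsmul_eq_mul]; exact hNd)
  have e2 := hc0 (N • X0) (by rw [map_nsmul, nsmul_eq_mul, hd0]; exact hNd)
  have e3 := hc0 (N • Xinf + N • X0) (by
    rw [map_add, map_nsmul, map_nsmul, nsmul_eq_mul, nsmul_eq_mul, hd0]
    have h3 : (0 : ℤ) ≤ (N : ℤ) := Int.natCast_nonneg N
    nlinarith)
  rw [map_nsmul, nsmul_eq_mul] at e1
  rw [map_nsmul, nsmul_eq_mul, hd0] at e2
  rw [map_add, map_nsmul, map_nsmul, nsmul_eq_mul, nsmul_eq_mul, hd0] at e3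
  have key' : ((finrank K ↥(riemannRochSpace (N • Xinf) ⊔ riemannRochSpace (N • X0)) : ℕ) : ℤ)
      + s ≤ (finrank K ↥(riemannRochSpace (N • Xinf + N • X0)) : ℤ) := by exact_mod_cast key
  have h1' : ((finrank K ↥(riemannRochSpace (N • Xinf) ⊓ riemannRochSpace (N • X0)) : ℕ) : ℤ)
      ≤ 1 := by exact_mod_cast h1
  have h2' : ((finrank K ↥(riemannRochSpace (N • Xinf) ⊔ riemannRochSpace (N • X0)) : ℕ) : ℤ) +
      (finrank K ↥(riemannRochSpace (N • Xinf) ⊓ riemannRochSpace (N • X0)) : ℤ) =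
      (finrank K ↥(riemannRochSpace (N • Xinf)) : ℤ) +
        (finrank K ↥(riemannRochSpace (N • X0)) : ℤ) := by exact_mod_cast h2
  have hfin : (s : ℤ) ≤ (riemannGenus K F : ℤ) := by linarith
  exact_mod_cast hfin

/-- The reverse Riemann inequality on the special fibre from the gap inequality:
`l(E) ≤ deg E + 1 - s` for all divisors of large degree. -/
theorem riem_special_of_gap [HasPrincipalDivisors K F] (hdeg : ∀ v : Place K F, v.deg = 1)
    (P₀ : Place K F) (hRB : HasRiemannBound K F) {x : F} (hx0 : x ≠ 0)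
    {Xinf X0 : Divisor K F} (hXinf : IsPoleDivisor x Xinf) (hX0 : IsZeroDivisor x X0)
    (hC : ChartIntegral K x) (hC' : ChartIntegral K x⁻¹)
    (hdpos : 0 < Divisor.degree Xinf) (s : ℕ)
    (hgap : ∃ V0 : Submodule K F, V0.FG ∧
      (∀ v ∈ V0, ∃ n : ℕ, IsIntegral (Algebra.adjoin K {x}) (x ^ n * v)) ∧
      ∀ V : Submodule K F, V0 ≤ V → FiniteDimensional K V →
        ∀ W1 W2 : Submodule K F, (∀ φ ∈ W1, IsIntegral (Algebra.adjoin K {x}) φ) → W1 ≤ V →
          (∀ φ ∈ W2, IsIntegral (Algebra.adjoin K {x⁻¹}) φ) → W2 ≤ V →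
          finrank K ↥(W1 ⊔ W2) + s ≤ finrank K V) :
    ∃ cK : ℤ, ∀ E : Divisor K F, cK ≤ Divisor.degree E →
      (finrank K (riemannRochSpace E) : ℤ) ≤ Divisor.degree E + 1 - (s : ℤ) := by
  have hs := le_riemannGenus_of_gap hdeg P₀ hRB hx0 hXinf hX0 hC hC' hdpos s hgap
  obtain ⟨c0, hc0⟩ := exists_forall_finrank_eq hdeg P₀ hRB
  refine ⟨c0, fun E hE => ?_⟩
  rw [hc0 E hE]
  have : (s : ℤ) ≤ (riemannGenus K F : ℤ) := by exact_mod_cast hs
  linarith

/-- The pole divisor of a transcendental element has positive degree. -/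
theorem degree_pole_pos_of_transcendental [HasPrincipalDivisors K F]
    (hdeg : ∀ v : Place K F, v.deg = 1) (P₀ : Place K F) {x : F} (hx : Transcendental K x)
    {Xinf : Divisor K F} (hXinf : IsPoleDivisor x Xinf) : 0 < Divisor.degree Xinf := by
  have hXinf0 : (0 : Divisor K F) ≤ Xinf := Finsupp.le_def.mpr fun w => hXinf.nonneg w
  by_contra hnot
  have h0 : Divisor.degree Xinf = 0 := le_antisymm (not_lt.mp hnot) (degree_nonneg hdeg hXinf0)
  have hX : Xinf = 0 := eq_zero_of_degree_eq_zero hdeg hXinf0 h0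
  have hxmem : x ∈ riemannRochSpace (0 : Divisor K F) := by
    rw [mem_riemannRochSpace_iff]
    intro v
    right
    have h := hXinf v
    rw [hX, Finsupp.zero_apply] at h
    have := le_max_right 0 (-(v.ord x))
    rw [Finsupp.zero_apply]
    omega
  have hfin : FiniteDimensional K (riemannRochSpace (0 : Divisor K F)) :=
    finite_riemannRochSpace hdeg P₀ _
  have h1 : finrank K (riemannRochSpace (0 : Divisor K F)) = 1 := finrank_zero hdeg P₀
  have hne : (⟨1, one_mem_riemannRochSpace_zero⟩ : riemannRochSpace (0 : Divisor K F)) ≠ 0 :=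
    fun h => one_ne_zero (congrArg Subtype.val h)
  obtain ⟨c, hc⟩ := (finrank_eq_one_iff_of_nonzero' _ hne).mp h1 ⟨x, hxmem⟩
  have hcx : algebraMap K F c = x := by
    have := congrArg Subtype.val hc
    simpa [Algebra.smul_def] using this
  exact hx (hcx ▸ isAlgebraic_algebraMap c)

/-- **(Riem_k) from integrality certificates.**  `k` the constant field of the special fibre
`Fk`, in the setting of `helper981` (principal divisors, all places of degree one), `x`
transcendental with `Fk` finite separable over `k⟮x⟯`, pole divisor `Yinf` of degree at most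
`[Fk : k⟮x⟯]`, zero divisor `Y0`, chart dictionary on both charts.  If every element of a
spanning set `S` of the finite-dimensional `k`-space `Y` carries the four certificates of
`gap_of_certificates_adjoin`, then `finrank Y` is at most the Riemann genus and
`l(D) ≤ deg D + 1 - finrank Y` for all divisors of large degree. -/
theorem finrank_le_riemannGenus_of_certificates [HasPrincipalDivisors K F]
    (hdeg : ∀ v : Place K F, v.deg = 1) (P₀ : Place K F) (x : F) (hx : Transcendental K x)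
    [FiniteDimensional K⟮x⟯ F] [Algebra.IsSeparable K⟮x⟯ F]
    {Yinf Y0 : Divisor K F} (hYinf : IsPoleDivisor x Yinf) (hY0 : IsZeroDivisor x Y0)
    (hYdeg : Divisor.degree Yinf ≤ (finrank K⟮x⟯ F : ℤ))
    (hC : ChartIntegral K x) (hC' : ChartIntegral K x⁻¹)
    {c : K} (hc : c ≠ 0) {a E : ℕ} (ha : 0 < a) (hE : 0 < E)
    (S : Set F) (Y : Submodule K F) [FiniteDimensional K Y] (hYS : Y ≤ Submodule.span K S)
    (hS1 : ∀ y ∈ S, ∃ z w : F, IsIntegral (Algebra.adjoin K {x}) z ∧
      y ^ a * (x + algebraMap K F c) ^ (a - 1) = z ∧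
      IsIntegral (Algebra.adjoin K {x}) w ∧ z ^ E = x * w)
    (hS2 : ∀ y ∈ S, ∃ z w : F, IsIntegral (Algebra.adjoin K {x⁻¹}) z ∧
      y ^ a * (algebraMap K F c * x⁻¹ + 1) ^ (a - 1) = z ∧
      IsIntegral (Algebra.adjoin K {x⁻¹}) w ∧ z ^ E = x⁻¹ * w) :
    HasRiemannBound K F ∧ finrank K Y ≤ riemannGenus K F ∧
    ∃ cK : ℤ, ∀ D : Divisor K F, cK ≤ Divisor.degree D →
      (finrank K (riemannRochSpace D) : ℤ) ≤ Divisor.degree D + 1 - (finrank K Y : ℤ) := by
  have hx0 : x ≠ 0 := fun h => hx (h ▸ isAlgebraic_zero)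
  have hRB : HasRiemannBound K F :=
    hasRiemannBound_of_transcendental x hx P₀ hdeg Yinf hYinf hYdeg
  have hdpos := degree_pole_pos_of_transcendental hdeg P₀ hx hYinf
  have hgap := gap_of_certificates_adjoin x hx hc ha hE S Y hYS hS1 hS2
  exact ⟨hRB, le_riemannGenus_of_gap hdeg P₀ hRB hx0 hYinf hY0 hC hC' hdpos _ hgap,
    riem_special_of_gap hdeg P₀ hRB hx0 hYinf hY0 hC hC' hdpos _ hgap⟩

/-- `(Riem_k)` in the shape consumed by the function-field Kummer core
(`helper2030.kummer_ff`, hypothesis `hRiemk`), for any `γ ≤ finrank Y`. -/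
theorem riem_special_of_certificates [HasPrincipalDivisors K F]
    (hdeg : ∀ v : Place K F, v.deg = 1) (P₀ : Place K F) (x : F) (hx : Transcendental K x)
    [FiniteDimensional K⟮x⟯ F] [Algebra.IsSeparable K⟮x⟯ F]
    {Yinf Y0 : Divisor K F} (hYinf : IsPoleDivisor x Yinf) (hY0 : IsZeroDivisor x Y0)
    (hYdeg : Divisor.degree Yinf ≤ (finrank K⟮x⟯ F : ℤ))
    (hC : ChartIntegral K x) (hC' : ChartIntegral K x⁻¹)
    {c : K} (hc : c ≠ 0) {a E : ℕ} (ha : 0 < a) (hE : 0 < E)
    (S : Set F) (Y : Submodule K F) [FiniteDimensional K Y] (hYS : Y ≤ Submodule.span K S)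
    (hS1 : ∀ y ∈ S, ∃ z w : F, IsIntegral (Algebra.adjoin K {x}) z ∧
      y ^ a * (x + algebraMap K F c) ^ (a - 1) = z ∧
      IsIntegral (Algebra.adjoin K {x}) w ∧ z ^ E = x * w)
    (hS2 : ∀ y ∈ S, ∃ z w : F, IsIntegral (Algebra.adjoin K {x⁻¹}) z ∧
      y ^ a * (algebraMap K F c * x⁻¹ + 1) ^ (a - 1) = z ∧
      IsIntegral (Algebra.adjoin K {x⁻¹}) w ∧ z ^ E = x⁻¹ * w)
    (γ : ℤ) (hγ : γ ≤ (finrank K Y : ℤ)) :
    ∃ cK : ℤ, ∀ D : Divisor K F, cK ≤ Divisor.degree D →
      (finrank K (riemannRochSpace D) : ℤ) ≤ Divisor.degree D + 1 - γ := by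
  obtain ⟨-, -, cK, hcK⟩ := finrank_le_riemannGenus_of_certificates hdeg P₀ x hx hYinf hY0 hYdeg
    hC hC' hc ha hE S Y hYS hS1 hS2
  exact ⟨cK, fun D hD => (hcK D hD).trans (by linarith)⟩

/-- `(Riem_k)` for a perfect constant field: the chart dictionary is automatic
(`helper8566.chartIntegral_of_perfect`). -/
theorem riem_special_of_certificates_of_perfect [PerfectField K] [HasPrincipalDivisors K F]
    (hdeg : ∀ v : Place K F, v.deg = 1) (P₀ : Place K F) (x : F) (hx : Transcendental K x)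
    [FiniteDimensional K⟮x⟯ F] [Algebra.IsSeparable K⟮x⟯ F]
    {Yinf Y0 : Divisor K F} (hYinf : IsPoleDivisor x Yinf) (hY0 : IsZeroDivisor x Y0)
    (hYdeg : Divisor.degree Yinf ≤ (finrank K⟮x⟯ F : ℤ))
    {c : K} (hc : c ≠ 0) {a E : ℕ} (ha : 0 < a) (hE : 0 < E)
    (S : Set F) (Y : Submodule K F) [FiniteDimensional K Y] (hYS : Y ≤ Submodule.span K S)
    (hS1 : ∀ y ∈ S, ∃ z w : F, IsIntegral (Algebra.adjoin K {x}) z ∧
      y ^ a * (x + algebraMap K F c) ^ (a - 1) = z ∧
      IsIntegral (Algebra.adjoin K {x}) w ∧ z ^ E = x * w)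
    (hS2 : ∀ y ∈ S, ∃ z w : F, IsIntegral (Algebra.adjoin K {x⁻¹}) z ∧
      y ^ a * (algebraMap K F c * x⁻¹ + 1) ^ (a - 1) = z ∧
      IsIntegral (Algebra.adjoin K {x⁻¹}) w ∧ z ^ E = x⁻¹ * w)
    (γ : ℤ) (hγ : γ ≤ (finrank K Y : ℤ)) :
    ∃ cK : ℤ, ∀ D : Divisor K F, cK ≤ Divisor.degree D →
      (finrank K (riemannRochSpace D) : ℤ) ≤ Divisor.degree D + 1 - γ :=
  riem_special_of_certificates hdeg P₀ x hx hYinf hY0 hYdeg (chartIntegral_of_perfect x)
    (chartIntegral_inv_of_perfect x) hc ha hE S Y hYS hS1 hS2 γ hγ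

end Genus

/-!
# Part 3 (S18-A4-CUSP-CHART): the special-fibre chart bound without places

`chart_bound_of_certificates`: in the setting of `gap_of_certificates_adjoin`, if moreover the
only functions integral over both `k[x]` and `k[x⁻¹]` are constants, then all chart spaces
`helper8566.chartSpace k x a b` are finite-dimensional and
`dim chartSpace k x a b ≤ (a + b) * d + 1 - γ` for `a + b` large, for every `d ≥ [F : k(x)]`
and every `γ ≤ dim Y`.  No places of `F / k` are used: this is the shape of the clauses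
`hfink` / `hgap` of `helper2030.cart_and_lineData_of_ortho`.
-/

section ChartOnly

open Fermat.Agent.S18.helper4464 Fermat.Agent.S18.helper8566

variable {k F : Type*} [Field k] [Field F] [Algebra k F]

/-- `aeval x q * x⁻¹ ^ n` is a polynomial in `x⁻¹` when `n ≥ natDegree q`. -/
theorem aeval_mul_inv_pow_mem_adjoin {x : F} (hx0 : x ≠ 0) (q : k[X]) {n : ℕ}
    (hn : q.natDegree ≤ n) : aeval x q * x⁻¹ ^ n ∈ Algebra.adjoin k {x⁻¹} := by
  rw [aeval_eq_sum_range, Finset.sum_mul]
  refine Subalgebra.sum_mem _ fun i hi => ?_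
  have hi' : i ≤ n := (Nat.lt_succ_iff.mp (Finset.mem_range.mp hi)).trans hn
  have h1 : q.coeff i • x ^ i * x⁻¹ ^ n = q.coeff i • x⁻¹ ^ (n - i) := by
    have h2 : x⁻¹ ^ n = x⁻¹ ^ i * x⁻¹ ^ (n - i) := by
      rw [← pow_add, Nat.add_sub_cancel' hi']
    rw [h2, smul_mul_assoc, ← mul_assoc, ← mul_pow, mul_inv_cancel₀ hx0, one_pow, one_mul]
  rw [h1]
  exact Subalgebra.smul_mem _ (Subalgebra.pow_mem _ (Algebra.self_mem_adjoin_singleton k x⁻¹) _) _

/-- A monic relation with coefficients in a subalgebra gives integrality. -/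
theorem isIntegral_of_monic_relation {R : Subalgebra k F} {D : ℕ} (y : F) (c : Fin D → F)
    (hc : ∀ i, c i ∈ R) (h : y ^ D + ∑ i : Fin D, c i * y ^ (i : ℕ) = 0) : IsIntegral R y := by
  let c' : Fin D → R := fun i => ⟨c i, hc i⟩
  have hdeg : (∑ i : Fin D, C (c' i) * X ^ (i : ℕ) : R[X]).degree < D :=
    Polynomial.degree_sum_fin_lt c'
  have hdeg' : (-(∑ i : Fin D, C (c' i) * X ^ (i : ℕ)) : R[X]).degree < D := by
    rwa [degree_neg]
  refine ⟨X ^ D - (-(∑ i : Fin D, C (c' i) * X ^ (i : ℕ))), monic_X_pow_sub hdeg', ?_⟩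
  rw [sub_neg_eq_add, eval₂_add, eval₂_pow, eval₂_X, eval₂_finsetSum]
  rw [← h]
  congr 1
  refine Finset.sum_congr rfl fun i _ => ?_
  rw [eval₂_mul, eval₂_C, eval₂_pow, eval₂_X]
  rfl

/-- An element integral over `k[x]` becomes integral over `k[x⁻¹]` after multiplication by a
large power of `x⁻¹`. -/
theorem exists_inv_pow_mul_isIntegral {x : F} (hx0 : x ≠ 0) {b : F}
    (hb : IsIntegral (Algebra.adjoin k {x}) b) :
    ∃ M : ℕ, ∀ m : ℕ, M ≤ m → IsIntegral (Algebra.adjoin k {x⁻¹}) (x⁻¹ ^ m * b) := by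
  classical
  obtain ⟨P, hP, hPb⟩ := hb
  set D := P.natDegree with hD
  have hq : ∀ i : Fin D, ∃ q : k[X], aeval x q = ((P.coeff i : Algebra.adjoin k {x}) : F) := by
    intro i
    have h := (P.coeff i).2
    have h' : ((P.coeff i : Algebra.adjoin k {x}) : F) ∈ (Polynomial.aeval x : k[X] →ₐ[k] F).range := by
      rw [← Algebra.adjoin_singleton_eq_range_aeval]; exact h
    exact h'
  choose q hq using hq
  have hrel : b ^ D + ∑ i : Fin D, aeval x (q i) * b ^ (i : ℕ) = 0 := by
    rw [eval₂_eq_sum_range, Finset.sum_range_succ, ← hD] at hPb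
    have hlead : P.coeff D = 1 := hP
    rw [hlead, map_one, one_mul, Finset.sum_range] at hPb
    rw [add_comm]
    convert hPb using 2
    refine Finset.sum_congr rfl fun i _ => ?_
    rw [hq i]
    rfl
  refine ⟨Finset.univ.sup fun i : Fin D => (q i).natDegree, fun m hm => ?_⟩
  refine isIntegral_of_monic_relation (D := D) (x⁻¹ ^ m * b)
    (fun i => aeval x (q i) * x⁻¹ ^ (m * (D - (i : ℕ)))) (fun i => ?_) ?_
  · refine aeval_mul_inv_pow_mem_adjoin hx0 (q i) ?_
    have h1 : (q i).natDegree ≤ m :=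
      (Finset.le_sup (f := fun i : Fin D => (q i).natDegree) (Finset.mem_univ i)).trans hm
    have h2 : 1 ≤ D - (i : ℕ) := by have := i.2; omega
    calc (q i).natDegree ≤ m := h1
      _ = m * 1 := (mul_one m).symm
      _ ≤ m * (D - (i : ℕ)) := Nat.mul_le_mul_left m h2
  · have h3 : ∀ i : Fin D, aeval x (q i) * x⁻¹ ^ (m * (D - (i : ℕ))) * (x⁻¹ ^ m * b) ^ (i : ℕ) =
        x⁻¹ ^ (m * D) * (aeval x (q i) * b ^ (i : ℕ)) := by
      intro i
      have h4 : m * D = m * (D - (i : ℕ)) + m * (i : ℕ) := by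
        rw [← Nat.mul_add, Nat.sub_add_cancel (le_of_lt i.2)]
      rw [h4, pow_add, mul_pow, ← pow_mul]
      ring
    rw [Finset.sum_congr rfl fun i _ => h3 i, ← Finset.mul_sum, mul_pow, ← pow_mul, ← mul_add,
      hrel, mul_zero]


/-- `twist k y n`: the `f` with `y ^ n * f` integral over `k[y]`. -/
def twist (k : Type*) {F : Type*} [Field k] [Field F] [Algebra k F] (y : F) (n : ℕ) :
    Submodule k F where
  carrier := {f | IsIntegral (Algebra.adjoin k {y}) (y ^ n * f)}
  zero_mem' := by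
    show IsIntegral _ _
    rw [mul_zero]; exact isIntegral_zero
  add_mem' := by
    intro f g hf hg
    show IsIntegral _ _
    rw [mul_add]; exact IsIntegral.add hf hg
  smul_mem' := by
    intro c f hf
    show IsIntegral _ _
    rw [mul_smul_comm]; exact IsIntegral.smul c hf

theorem mem_twist {y : F} {n : ℕ} {f : F} :
    f ∈ twist k y n ↔ IsIntegral (Algebra.adjoin k {y}) (y ^ n * f) := Iff.rfl

theorem isIntegral_adjoin_of_mem {y z : F} (hz : z ∈ Algebra.adjoin k {y}) :
    IsIntegral (Algebra.adjoin k {y}) z :=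
  isIntegral_algebraMap (R := Algebra.adjoin k {y}) (x := ⟨z, hz⟩)

theorem isIntegral_adjoin_pow_self (y : F) (n : ℕ) :
    IsIntegral (Algebra.adjoin k {y}) (y ^ n) :=
  isIntegral_adjoin_of_mem (Subalgebra.pow_mem _ (Algebra.self_mem_adjoin_singleton k y) n)

theorem twist_le_twist (y : F) {n m : ℕ} (h : n ≤ m) : twist k y n ≤ twist k y m := by
  intro f hf
  rw [mem_twist] at hf ⊢
  have h1 : y ^ m * f = y ^ (m - n) * (y ^ n * f) := by
    rw [← mul_assoc, ← pow_add, Nat.sub_add_cancel h]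
  rw [h1]
  exact (isIntegral_adjoin_pow_self y (m - n)).mul hf

theorem chartSpace_eq_inf (x : F) (a b : ℕ) :
    chartSpace k x a b = twist k x b ⊓ twist k x⁻¹ a := by
  ext f
  rw [Submodule.mem_inf]
  exact Iff.rfl

theorem chartSpace_le_chartSpace (x : F) {a a' b b' : ℕ} (ha : a ≤ a') (hb : b ≤ b') :
    chartSpace k x a b ≤ chartSpace k x a' b' := by
  rw [chartSpace_eq_inf, chartSpace_eq_inf]
  exact inf_le_inf (twist_le_twist x hb) (twist_le_twist x⁻¹ ha)

/-- Polynomial core of Lemma R. -/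
theorem aeval_eq_zero_of_sum_eq_zero {ι : Type*} [Fintype ι] {y : F} (hy0 : y ≠ 0) (b : ι → F)
    (hb : ∀ i, IsIntegral (Algebra.adjoin k {y}) (b i))
    (hind : ∀ c : ι → k, IsIntegral (Algebra.adjoin k {y}) (y⁻¹ * ∑ i, c i • b i) → c = 0) :
    ∀ (N : ℕ) (p : ι → k[X]), (∀ i, (p i).degree < N) → ∑ i, aeval y (p i) * b i = 0 →
      ∀ i, aeval y (p i) = 0 := by
  intro N
  induction N with
  | zero =>
    intro p hp _ i
    have h0 : p i = 0 := by
      have h := hp i
      rw [Nat.cast_zero, Nat.WithBot.lt_zero_iff] at h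
      exact degree_eq_bot.mp h
    rw [h0, map_zero]
  | succ N ih =>
    intro p hp hsum i
    have hdec : ∀ i, aeval y (p i) =
        algebraMap k F ((p i).coeff 0) + y * aeval y (p i).divX := by
      intro i
      conv_lhs => rw [← divX_mul_X_add (p i)]
      rw [map_add, map_mul, aeval_X, aeval_C]
      ring
    have hq : ∀ i, ((p i).divX).degree < N := by
      intro i
      by_cases h0 : p i = 0
      · rw [h0, divX_zero, degree_zero]; exact WithBot.bot_lt_coe _
      · have h1 := degree_divX_lt h0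
        have h2 := hp i
        rw [degree_eq_natDegree h0] at h1 h2
        have h3 : (p i).natDegree < N + 1 := by exact_mod_cast h2
        exact lt_of_lt_of_le h1 (by exact_mod_cast Nat.lt_succ_iff.mp h3)
    have hint : IsIntegral (Algebra.adjoin k {y}) (∑ i, aeval y (p i).divX * b i) := by
      refine IsIntegral.sum _ fun i _ => ?_
      exact (isIntegral_adjoin_of_mem (aeval_mem_adjoin_singleton k y)).mul (hb i)
    have hzero : ∑ i, (p i).coeff 0 • b i + y * ∑ i, aeval y (p i).divX * b i = 0 := by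
      rw [← hsum, Finset.mul_sum, ← Finset.sum_add_distrib]
      refine Finset.sum_congr rfl fun i _ => ?_
      rw [hdec i, Algebra.smul_def]; ring
    have hkey : y⁻¹ * ∑ i, (p i).coeff 0 • b i = -∑ i, aeval y (p i).divX * b i := by
      rw [eq_neg_of_add_eq_zero_left hzero, mul_neg, ← mul_assoc, inv_mul_cancel₀ hy0, one_mul]
    have hc : (fun i => (p i).coeff 0) = 0 := hind _ (by rw [hkey]; exact hint.neg)
    have hc' : ∀ i, (p i).coeff 0 = 0 := fun i => congrFun hc i
    have hsum' : ∑ i, aeval y (p i).divX * b i = 0 := by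
      have h := hkey
      simp only [hc', zero_smul, Finset.sum_const_zero, mul_zero] at h
      exact neg_eq_zero.mp h.symm
    rw [hdec i, ih _ hq hsum' i, hc' i, map_zero, mul_zero, add_zero]

open scoped IntermediateField.algebraAdjoinAdjoin in
/-- **Lemma R.** Elements `b i` integral over `k[y]` whose classes modulo `y` are
`k`-linearly independent are linearly independent over `k(y)`. -/
theorem linearIndependent_adjoin_of_forall {ι : Type*} [Fintype ι] {y : F} (hy0 : y ≠ 0)
    (b : ι → F) (hb : ∀ i, IsIntegral (Algebra.adjoin k {y}) (b i))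
    (hind : ∀ c : ι → k, IsIntegral (Algebra.adjoin k {y}) (y⁻¹ * ∑ i, c i • b i) → c = 0) :
    LinearIndependent k⟮y⟯ b := by
  classical
  rw [← LinearIndependent.iff_fractionRing (Algebra.adjoin k {y}) k⟮y⟯]
  rw [Fintype.linearIndependent_iff]
  intro g hg i
  have hp : ∀ i, ∃ p : k[X], aeval y p = ((g i : Algebra.adjoin k {y}) : F) := by
    intro i
    have h := (g i).2
    have h' : ((g i : Algebra.adjoin k {y}) : F) ∈ (Polynomial.aeval y : k[X] →ₐ[k] F).range := by
      rw [← Algebra.adjoin_singleton_eq_range_aeval]; exact h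
    exact h'
  choose p hp using hp
  have hsum : ∑ i, aeval y (p i) * b i = 0 := by
    rw [← hg]
    refine Finset.sum_congr rfl fun i _ => ?_
    rw [hp i]; rfl
  have hdeg : ∀ i, (p i).degree < ((Finset.univ.sup fun i => (p i).natDegree) + 1 : ℕ) := by
    intro i
    refine lt_of_le_of_lt degree_le_natDegree ?_
    exact_mod_cast Nat.lt_succ_of_le
      (Finset.le_sup (f := fun i => (p i).natDegree) (Finset.mem_univ i))
  have h := aeval_eq_zero_of_sum_eq_zero hy0 b hb hind _ p hdeg hsum i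
  rw [hp i] at h
  exact Subtype.ext h

/-- One step of the `y`-twist filtration has relative dimension at most `[F : k(y)]`. -/
theorem relRank_twist_le {y : F} (hy0 : y ≠ 0) [FiniteDimensional k⟮y⟯ F] (n : ℕ) :
    relRank (twist k y n) (twist k y (n + 1)) ≤ (finrank k⟮y⟯ F : Cardinal) := by
  classical
  unfold relRank
  refine rank_le fun s hs => ?_
  have hlift : ∀ i : s, ∃ w : F, w ∈ twist k y (n + 1) ∧
      (twist k y n).mkQ w = ((i : ↥((twist k y (n + 1)).map (twist k y n).mkQ)) : F ⧸ twist k y n) := by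
    intro i
    obtain ⟨w, hw, hwi⟩ := (i : ↥((twist k y (n + 1)).map (twist k y n).mkQ)).2
    exact ⟨w, hw, hwi⟩
  choose w hw hwi using hlift
  have hli : LinearIndependent k⟮y⟯ (fun i : s => y ^ (n + 1) * w i) := by
    refine linearIndependent_adjoin_of_forall hy0 _ (fun i => hw i) fun c hc => ?_
    have h1 : y⁻¹ * ∑ i, c i • (y ^ (n + 1) * w i) = y ^ n * ∑ i, c i • w i := by
      have h0 : ∀ i : s, y⁻¹ * (y ^ (n + 1) * w i) = y ^ n * w i := by
        intro i
        rw [pow_succ, ← mul_assoc, mul_comm y⁻¹, mul_assoc (y ^ n), mul_inv_cancel₀ hy0, mul_one]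
      rw [Finset.mul_sum, Finset.mul_sum]
      refine Finset.sum_congr rfl fun i _ => ?_
      rw [mul_smul_comm, mul_smul_comm, h0 i]
    rw [h1] at hc
    have h2 : ∑ i, c i • w i ∈ twist k y n := hc
    have h3 : ∑ i : s, c i • (i : ↥((twist k y (n + 1)).map (twist k y n).mkQ)) = 0 := by
      apply Subtype.ext
      rw [Submodule.coe_sum]
      simp only [Submodule.coe_smul, ← hwi, ← map_smul, ← map_sum]
      exact (Submodule.Quotient.mk_eq_zero _).mpr h2
    exact funext fun i => Fintype.linearIndependent_iff.mp hs c h3 i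
  have h := hli.fintype_card_le_finrank
  rw [Fintype.card_coe] at h
  exact_mod_cast h

theorem adjoin_inv_eq (x : F) : k⟮x⁻¹⟯ = k⟮x⟯ := by
  apply le_antisymm
  · rw [IntermediateField.adjoin_simple_le_iff]
    exact inv_mem (IntermediateField.mem_adjoin_simple_self k x)
  · rw [IntermediateField.adjoin_simple_le_iff]
    have := inv_mem (IntermediateField.mem_adjoin_simple_self k x⁻¹)
    rwa [inv_inv] at this

/-- One step in the pole direction costs at most `[F : k(x)]`. -/
theorem rank_chartSpace_succ_le {x : F} (hx0 : x ≠ 0) [FiniteDimensional k⟮x⟯ F] (a b : ℕ) :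
    Module.rank k (chartSpace k x (a + 1) b) ≤
      (finrank k⟮x⟯ F : Cardinal) + Module.rank k (chartSpace k x a b) := by
  have heq : k⟮x⁻¹⟯ = k⟮x⟯ := adjoin_inv_eq x
  have : FiniteDimensional k⟮x⁻¹⟯ F := by rw [heq]; infer_instance
  have hfr : finrank k⟮x⁻¹⟯ F = finrank k⟮x⟯ F := by rw [heq]
  have hstep := relRank_step_right (twist k x b)
    (twist_le_twist (k := k) x⁻¹ (Nat.le_succ a))
  have h1 : relRank (twist k x b ⊓ twist k x⁻¹ a) (twist k x b ⊓ twist k x⁻¹ (a + 1)) ≤
      (finrank k⟮x⟯ F : Cardinal) := by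
    rw [← hfr]
    calc relRank (twist k x b ⊓ twist k x⁻¹ a) (twist k x b ⊓ twist k x⁻¹ (a + 1))
        ≤ relRank (twist k x⁻¹ a) (twist k x⁻¹ (a + 1)) := by
          rw [← hstep]; exact self_le_add_right _ _
      _ ≤ _ := relRank_twist_le (inv_ne_zero hx0) a
  rw [rank_eq_relRank_add (chartSpace_le_chartSpace (k := k) x (Nat.le_succ a) (le_refl b)),
    chartSpace_eq_inf, chartSpace_eq_inf]
  exact add_le_add h1 le_rfl

theorem chartSpace_zero_zero_le {x : F}
    (hconst : ∀ z : F, IsIntegral (Algebra.adjoin k {x}) z →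
      IsIntegral (Algebra.adjoin k {x⁻¹}) z → ∃ c : k, algebraMap k F c = z) :
    chartSpace k x 0 0 ≤ Submodule.span k {(1 : F)} := by
  intro f hf
  rw [mem_chartSpace, pow_zero, one_mul, pow_zero, one_mul] at hf
  obtain ⟨c, rfl⟩ := hconst f hf.1 hf.2
  rw [Algebra.algebraMap_eq_smul_one]
  exact Submodule.smul_mem _ _ (Submodule.subset_span rfl)

theorem rank_chartSpace_zero_le {x : F} (hx0 : x ≠ 0) [FiniteDimensional k⟮x⟯ F]
    (hconst : ∀ z : F, IsIntegral (Algebra.adjoin k {x}) z →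
      IsIntegral (Algebra.adjoin k {x⁻¹}) z → ∃ c : k, algebraMap k F c = z) (a : ℕ) :
    Module.rank k (chartSpace k x a 0) ≤ ((a * finrank k⟮x⟯ F + 1 : ℕ) : Cardinal) := by
  induction a with
  | zero =>
    refine (Submodule.rank_mono (chartSpace_zero_zero_le hconst)).trans ?_
    refine (rank_span_le _).trans ?_
    simp
  | succ a ih =>
    refine (rank_chartSpace_succ_le hx0 a 0).trans ?_
    calc (finrank k⟮x⟯ F : Cardinal) + Module.rank k (chartSpace k x a 0)
        ≤ (finrank k⟮x⟯ F : Cardinal) + ((a * finrank k⟮x⟯ F + 1 : ℕ) : Cardinal) :=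
          add_le_add le_rfl ih
      _ = (((a + 1) * finrank k⟮x⟯ F + 1 : ℕ) : Cardinal) := by
          push_cast; ring

theorem map_mulLeft_chartSpace {x : F} (hx0 : x ≠ 0) (a b : ℕ) :
    (chartSpace k x a b).map (LinearMap.mulLeft k (x ^ b)) = chartSpace k x (a + b) 0 := by
  ext g
  constructor
  · rintro ⟨f, hf, rfl⟩
    have hf' : f ∈ chartSpace k x a b := hf
    rw [mem_chartSpace] at hf'
    rw [mem_chartSpace, LinearMap.mulLeft_apply, pow_zero, one_mul]
    refine ⟨hf'.1, ?_⟩
    have h : x⁻¹ ^ (a + b) * (x ^ b * f) = x⁻¹ ^ a * f := by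
      rw [pow_add, mul_assoc, ← mul_assoc (x⁻¹ ^ b), ← mul_pow, inv_mul_cancel₀ hx0, one_pow,
        one_mul]
    rw [h]; exact hf'.2
  · intro hg
    rw [mem_chartSpace, pow_zero, one_mul] at hg
    refine ⟨x⁻¹ ^ b * g, ?_, ?_⟩
    · show x⁻¹ ^ b * g ∈ chartSpace k x a b
      rw [mem_chartSpace]
      have h1 : x ^ b * (x⁻¹ ^ b * g) = g := by
        rw [← mul_assoc, ← mul_pow, mul_inv_cancel₀ hx0, one_pow, one_mul]
      have h2 : x⁻¹ ^ a * (x⁻¹ ^ b * g) = x⁻¹ ^ (a + b) * g := by
        rw [← mul_assoc, ← pow_add]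
      rw [h1, h2]; exact hg
    · rw [LinearMap.mulLeft_apply, ← mul_assoc, ← mul_pow, mul_inv_cancel₀ hx0, one_pow, one_mul]

/-- Multiplication by `x ^ b` identifies `chartSpace k x a b` with `chartSpace k x (a + b) 0`. -/
noncomputable def chartSpaceShift {x : F} (hx0 : x ≠ 0) (a b : ℕ) :
    chartSpace k x a b ≃ₗ[k] chartSpace k x (a + b) 0 :=
  ((chartSpace k x a b).equivMapOfInjective (LinearMap.mulLeft k (x ^ b))
    (fun _ _ h => mul_left_cancel₀ (pow_ne_zero b hx0) h)).trans
    (LinearEquiv.ofEq _ _ (map_mulLeft_chartSpace hx0 a b))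

theorem finrank_chartSpace_shift {x : F} (hx0 : x ≠ 0) (a b : ℕ) :
    finrank k (chartSpace k x a b) = finrank k (chartSpace k x (a + b) 0) :=
  (chartSpaceShift hx0 a b).finrank_eq

/-- **Finiteness of all chart spaces** from the finiteness of `F / k(x)` and the constants. -/
theorem finite_chartSpace {x : F} (hx0 : x ≠ 0) [FiniteDimensional k⟮x⟯ F]
    (hconst : ∀ z : F, IsIntegral (Algebra.adjoin k {x}) z →
      IsIntegral (Algebra.adjoin k {x⁻¹}) z → ∃ c : k, algebraMap k F c = z) (a b : ℕ) :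
    Module.Finite k (chartSpace k x a b) := by
  have h0 : Module.Finite k (chartSpace k x (a + b) 0) :=
    Module.rank_lt_aleph0_iff.mp
      (lt_of_le_of_lt (rank_chartSpace_zero_le hx0 hconst (a + b)) Cardinal.natCast_lt_aleph0)
  exact Module.Finite.equiv (chartSpaceShift hx0 a b).symm

theorem finrank_chartSpace_succ_le {x : F} (hx0 : x ≠ 0) [FiniteDimensional k⟮x⟯ F]
    (hconst : ∀ z : F, IsIntegral (Algebra.adjoin k {x}) z →
      IsIntegral (Algebra.adjoin k {x⁻¹}) z → ∃ c : k, algebraMap k F c = z) (a b : ℕ) :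
    finrank k (chartSpace k x (a + 1) b) ≤ finrank k⟮x⟯ F + finrank k (chartSpace k x a b) := by
  have h := rank_chartSpace_succ_le (k := k) hx0 a b
  have := finite_chartSpace hx0 hconst (a + 1) b
  have := finite_chartSpace hx0 hconst a b
  rw [← finrank_eq_rank, ← finrank_eq_rank] at h
  exact_mod_cast h

theorem finrank_chartSpace_add_le {x : F} (hx0 : x ≠ 0) [FiniteDimensional k⟮x⟯ F]
    (hconst : ∀ z : F, IsIntegral (Algebra.adjoin k {x}) z →
      IsIntegral (Algebra.adjoin k {x⁻¹}) z → ∃ c : k, algebraMap k F c = z) (n m : ℕ) :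
    finrank k (chartSpace k x (n + m) 0) ≤
      m * finrank k⟮x⟯ F + finrank k (chartSpace k x n 0) := by
  induction m with
  | zero => simp
  | succ m ih =>
    have h := finrank_chartSpace_succ_le hx0 hconst (n + m) 0
    rw [← add_assoc, Nat.succ_mul]
    omega

theorem exists_forall_mem_chartSpace {x : F} (hx0 : x ≠ 0) {v : F}
    (hv : ∃ n : ℕ, IsIntegral (Algebra.adjoin k {x}) (x ^ n * v)) :
    ∃ n0 : ℕ, ∀ N : ℕ, n0 ≤ N → v ∈ chartSpace k x N N := by
  obtain ⟨n, hn⟩ := hv
  obtain ⟨M, hM⟩ := exists_inv_pow_mul_isIntegral hx0 hn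
  refine ⟨max n M, fun N hN => ?_⟩
  rw [mem_chartSpace]
  constructor
  · exact twist_le_twist (k := k) x ((le_max_left n M).trans hN) hn
  · have h1 : x⁻¹ ^ N * v = x⁻¹ ^ (N + n) * (x ^ n * v) := by
      rw [pow_add, mul_assoc, ← mul_assoc (x⁻¹ ^ n), ← mul_pow, inv_mul_cancel₀ hx0, one_pow,
        one_mul]
    rw [h1]
    exact hM _ (((le_max_right n M).trans hN).trans (Nat.le_add_right N n))

theorem exists_forall_le_chartSpace {x : F} (hx0 : x ≠ 0) {V0 : Submodule k F} (hfg : V0.FG)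
    (hV0 : ∀ v ∈ V0, ∃ n : ℕ, IsIntegral (Algebra.adjoin k {x}) (x ^ n * v)) :
    ∃ n0 : ℕ, ∀ N : ℕ, n0 ≤ N → V0 ≤ chartSpace k x N N := by
  classical
  obtain ⟨s, rfl⟩ := hfg
  have h : ∀ v : F, v ∈ s → ∃ n0 : ℕ, ∀ N : ℕ, n0 ≤ N → v ∈ chartSpace k x N N :=
    fun v hv => exists_forall_mem_chartSpace hx0 (hV0 v (Submodule.subset_span hv))
  choose! n0 hn0 using h
  refine ⟨s.sup n0, fun N hN => Submodule.span_le.mpr fun v hv => ?_⟩
  exact hn0 v hv N ((Finset.le_sup (f := n0) hv).trans hN)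

/-- **A4-CUSP-CHART: chart form of the special-fibre bound.**  In the setting of
`gap_of_certificates_adjoin`, assume moreover that the only functions integral over both `k[x]`
and `k[x⁻¹]` are the constants.  Then every chart space `chartSpace k x a b` is
finite-dimensional and, for `a + b` large,
`dim chartSpace k x a b ≤ (a + b) * d + 1 - γ` for every `d ≥ [F : k(x)]` and `γ ≤ dim Y`. -/
theorem chart_bound_of_certificates (x : F) (hx : Transcendental k x)
    [FiniteDimensional k⟮x⟯ F] [Algebra.IsSeparable k⟮x⟯ F]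
    (hconst : ∀ z : F, IsIntegral (Algebra.adjoin k {x}) z →
      IsIntegral (Algebra.adjoin k {x⁻¹}) z → ∃ c : k, algebraMap k F c = z)
    {c : k} (hc : c ≠ 0) {a E : ℕ} (ha : 0 < a) (hE : 0 < E)
    (S : Set F) (Y : Submodule k F) [FiniteDimensional k Y] (hYS : Y ≤ Submodule.span k S)
    (hS1 : ∀ y ∈ S, ∃ z w : F, IsIntegral (Algebra.adjoin k {x}) z ∧
      y ^ a * (x + algebraMap k F c) ^ (a - 1) = z ∧
      IsIntegral (Algebra.adjoin k {x}) w ∧ z ^ E = x * w)
    (hS2 : ∀ y ∈ S, ∃ z w : F, IsIntegral (Algebra.adjoin k {x⁻¹}) z ∧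
      y ^ a * (algebraMap k F c * x⁻¹ + 1) ^ (a - 1) = z ∧
      IsIntegral (Algebra.adjoin k {x⁻¹}) w ∧ z ^ E = x⁻¹ * w)
    (d : ℕ) (hd : finrank k⟮x⟯ F ≤ d) (γ : ℤ) (hγ : γ ≤ (finrank k Y : ℤ)) :
    (∀ a b : ℕ, Module.Finite k (chartSpace k x a b)) ∧
    ∃ cK : ℤ, ∀ a b : ℕ, cK ≤ ((a : ℤ) + b) * d →
      (finrank k (chartSpace k x a b) : ℤ) ≤ ((a : ℤ) + b) * d + 1 - γ := by
  have hx0 : x ≠ 0 := fun h => hx (h ▸ isAlgebraic_zero)
  have hfin : ∀ a b : ℕ, Module.Finite k (chartSpace k x a b) := finite_chartSpace hx0 hconst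
  refine ⟨hfin, ?_⟩
  obtain ⟨V0, hV0fg, hV0, hgap⟩ := gap_of_certificates_adjoin x hx hc ha hE S Y hYS hS1 hS2
  obtain ⟨n0, hn0⟩ := exists_forall_le_chartSpace hx0 hV0fg hV0
  have hd0pos : 0 < finrank k⟮x⟯ F := Module.finrank_pos
  have key : ∀ N : ℕ, n0 ≤ N →
      finrank k (chartSpace k x N 0) + finrank k Y ≤ N * finrank k⟮x⟯ F + 1 := by
    intro N hN
    have := hfin N 0
    have := hfin 0 N
    have hg := hgap (chartSpace k x N N) (hn0 N hN) (hfin N N) (chartSpace k x N 0)
      (chartSpace k x 0 N)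
      (fun φ hφ => by have := hφ.1; rwa [pow_zero, one_mul] at this)
      (chartSpace_le_chartSpace x le_rfl (Nat.zero_le N))
      (fun φ hφ => by have := hφ.2; rwa [pow_zero, one_mul] at this)
      (chartSpace_le_chartSpace x (Nat.zero_le N) le_rfl)
    have h1 := Submodule.finrank_sup_add_finrank_inf_eq (chartSpace k x N 0) (chartSpace k x 0 N)
    have h2 : finrank k ↥(chartSpace k x N 0 ⊓ chartSpace k x 0 N) ≤ 1 := by
      have hle : chartSpace k x N 0 ⊓ chartSpace k x 0 N ≤ Submodule.span k {(1 : F)} := by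
        refine le_trans ?_ (chartSpace_zero_zero_le hconst)
        intro f hf
        exact ⟨hf.1.1, hf.2.2⟩
      calc finrank k ↥(chartSpace k x N 0 ⊓ chartSpace k x 0 N)
          ≤ finrank k (Submodule.span k {(1 : F)}) := Submodule.finrank_mono hle
        _ = 1 := finrank_span_singleton one_ne_zero
    have h3 : finrank k (chartSpace k x 0 N) = finrank k (chartSpace k x N 0) := by
      rw [finrank_chartSpace_shift hx0 0 N, zero_add]
    have h4 : finrank k (chartSpace k x N N) ≤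
        N * finrank k⟮x⟯ F + finrank k (chartSpace k x N 0) := by
      rw [finrank_chartSpace_shift hx0 N N]; exact finrank_chartSpace_add_le hx0 hconst N N
    omega
  refine ⟨(n0 : ℤ) * d, fun a b hab => ?_⟩
  have hdpos : 0 < d := lt_of_lt_of_le hd0pos hd
  have hN : n0 ≤ a + b := by
    by_contra hlt
    rw [not_le] at hlt
    have h1 : ((a : ℤ) + b) < n0 := by exact_mod_cast hlt
    have h2 : ((a : ℤ) + b) * d < (n0 : ℤ) * d :=
      mul_lt_mul_of_pos_right h1 (by exact_mod_cast hdpos)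
    linarith
  have hk := key (a + b) hN
  rw [finrank_chartSpace_shift hx0 a b]
  have h5 : (a + b) * finrank k⟮x⟯ F ≤ (a + b) * d := Nat.mul_le_mul_left _ hd
  have h6 : (finrank k (chartSpace k x (a + b) 0) : ℤ) + finrank k Y ≤
      ((a : ℤ) + b) * (finrank k⟮x⟯ F : ℕ) + 1 := by exact_mod_cast hk
  have h7 : ((a : ℤ) + b) * (finrank k⟮x⟯ F : ℕ) ≤ ((a : ℤ) + b) * d := by exact_mod_cast h5
  linarith

end ChartOnly

end Fermat.Agent.S18.helper4005
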