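import Mathlib
import Fermat.Agent.S18.helper403_TGlobal
import Fermat.Agent.S18.helper3881_Purity

/-!
# S18, track B (Theorem T): the global wrapper, part 2 (helper403)

Purity (T1, `helper3881`) applied at the localisations of `A[X]` at the closed points of the
special fibre.
-/

set_option autoImplicit false

namespace Fermat.Agent.S18.helper403

open Polynomial Ideal

section Unramified

variable {P : Type*} [CommRing P]
variable (K : Type*) [Field K] [Algebra P K]
variable (L : Type*) [Field L] [Algebra K L] [Algebra P L]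
variable (M : Type*) [CommRing M] [Algebra P M] [Algebra M L]

/-- Discriminant-form unramifiedness of `L / K` at a prime `p` of the base ring `P`
(`K = Frac P`, `M` = integral closure of `P` in `L`): some `[L:K]`-tuple of integral elements has
discriminant outside `p`. -/
def UnramifiedAt (p : Ideal P) : Prop :=
  ∃ (b : Fin (Module.finrank K L) → M) (d : P),
    algebraMap P K d = Algebra.discr K (fun i => algebraMap M L (b i)) ∧ d ∉ p

end Unramified

section PurityPoint

variable {A : Type*} [CommRing A]

/-- If a polynomial `g` with nonzero reduction mod `lam` satisfies `g * s = C lam * h`, then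
`C lam ∣ s`. -/
theorem C_dvd_of_mul_eq (lam : A) (hmax : (Ideal.span {lam}).IsMaximal) {g s h : A[X]}
    (hg : g.map (Ideal.Quotient.mk (Ideal.span {lam})) ≠ 0) (hgs : g * s = C lam * h) :
    C lam ∣ s := by
  let _ : Field (A ⧸ Ideal.span {lam}) := Ideal.Quotient.field _
  have h1 := congrArg (Polynomial.map (Ideal.Quotient.mk (Ideal.span {lam}))) hgs
  rw [Polynomial.map_mul, Polynomial.map_mul, Polynomial.map_C,
    Ideal.Quotient.eq_zero_iff_mem.mpr (Ideal.mem_span_singleton_self lam), map_zero, zero_mul]
    at h1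
  have h2 : s.map (Ideal.Quotient.mk (Ideal.span {lam})) = 0 :=
    (mul_eq_zero.mp h1).resolve_left hg
  rw [Polynomial.C_dvd_iff_dvd_coeff]
  intro i
  have h3 := congrArg (fun q => Polynomial.coeff q i) h2
  simp only [Polynomial.coeff_map, Polynomial.coeff_zero] at h3
  exact Ideal.mem_span_singleton.mp (Ideal.Quotient.eq_zero_iff_mem.mp h3)

set_option maxHeartbeats 800000 in
/-- **(W6a), abstract form.** Purity at a closed point `𝔪 ∋ lam` of the arithmetic affine line
over `A`: if `L / Frac A[X]` is unramified (discriminant form) at every prime of `A[X]` which is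
minimal over a nonzero principal ideal and contained in `𝔪`, then the localisation `R` of the
integral closure `M` at `𝔪` has the one-component property for `lam`. -/
theorem oneComponent_of_unramified_abstract [IsDomain A] [IsIntegrallyClosed A]
    [IsNoetherianRing A] (lam : A) (hlam : Prime lam) (hmax : (Ideal.span {lam}).IsMaximal)
    (K : Type*) [Field K] [Algebra A[X] K] [IsFractionRing A[X] K]
    (L : Type*) [Field L] [Algebra K L] [Algebra A[X] L] [IsScalarTower A[X] K L]
    [FiniteDimensional K L] [Algebra.IsSeparable K L]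
    (M : Type*) [CommRing M] [Algebra A[X] M] [Algebra M L] [IsScalarTower A[X] M L]
    [IsIntegralClosure M A[X] L]
    (𝔪 : Ideal A[X]) [h𝔪 : 𝔪.IsMaximal] (hmem : C lam ∈ 𝔪)
    (B : Type*) [CommRing B] [Algebra A[X] B] [IsLocalization.AtPrime B 𝔪]
    [Algebra B K] [IsScalarTower A[X] B K] [Algebra B L] [IsScalarTower B K L]
    (R : Type*) [CommRing R] [Algebra M R]
    [IsLocalization (Algebra.algebraMapSubmonoid M 𝔪.primeCompl) R]
    [Algebra R L] [IsScalarTower M R L] [Algebra B R] [IsScalarTower B R L]
    [Algebra A[X] R] [IsScalarTower A[X] M R] [IsScalarTower A[X] B R]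
    (hunr : ∀ (a : A[X]) (p : Ideal A[X]), a ≠ 0 → p ∈ (Ideal.span {a}).minimalPrimes → p ≤ 𝔪 →
      UnramifiedAt K L M p) :
    OneComponent R (algebraMap M R (algebraMap A[X] M (C lam))) := by
  have hPK : Function.Injective (algebraMap A[X] K) := IsFractionRing.injective A[X] K
  have hPL : Function.Injective (algebraMap A[X] L) := by
    rw [IsScalarTower.algebraMap_eq A[X] K L]
    exact (algebraMap K L).injective.comp hPK
  have hPB : Function.Injective (algebraMap A[X] B) :=
    IsLocalization.injective B (Ideal.primeCompl_le_nonZeroDivisors 𝔪)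
  have : IsScalarTower A[X] B L := IsScalarTower.of_algebraMap_eq (fun x => by
    rw [IsScalarTower.algebraMap_apply A[X] K L, IsScalarTower.algebraMap_apply A[X] B K,
      ← IsScalarTower.algebraMap_apply B K L])
  have : IsDomain B :=
    IsLocalization.isDomain_of_le_nonZeroDivisors B (Ideal.primeCompl_le_nonZeroDivisors 𝔪)
  have : IsFractionRing B K :=
    IsFractionRing.isFractionRing_of_isDomain_of_isLocalization 𝔪.primeCompl B K
  have : IsLocalRing B := IsLocalization.AtPrime.isLocalRing B 𝔪
  have : IsIntegrallyClosed B := isIntegrallyClosed_localization 𝔪 B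
  have : IsNoetherianRing B := isNoetherianRing_localization 𝔪 B
  have hS : ∀ s ∈ 𝔪.primeCompl, algebraMap A[X] L s ≠ 0 := by
    intro s hs
    rw [Ne, map_eq_zero_iff _ hPL]
    rintro rfl
    exact hs 𝔪.zero_mem
  have : IsIntegralClosure R B L := isIntegralClosure_localization (P := A[X]) (M := M)
    𝔪.primeCompl hS
  have hRL : Function.Injective (algebraMap R L) := IsIntegralClosure.algebraMap_injective R B L
  have : IsDomain R := hRL.isDomain (algebraMap R L)
  have : Algebra.IsIntegral B R := IsIntegralClosure.isIntegral_algebra B L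
  have hBL : Function.Injective (algebraMap B L) := by
    rw [IsScalarTower.algebraMap_eq B K L]
    exact (algebraMap K L).injective.comp (IsFractionRing.injective B K)
  have : FaithfulSMul B R := by
    rw [faithfulSMul_iff_algebraMap_injective]
    intro x y hxy
    apply hBL
    rw [IsScalarTower.algebraMap_apply B R L, hxy, ← IsScalarTower.algebraMap_apply B R L]
  obtain ⟨g, hgm, hgirr, h𝔪eq⟩ := exists_monic_span_pair lam hmax 𝔪 h𝔪 hmem
  have hm := maximalIdeal_localization_eq_span lam g 𝔪 h𝔪eq B
  have hlamB := prime_algebraMap_C lam hlam 𝔪 hmem B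
  have hlg : ¬ algebraMap A[X] B (C lam) ∣ algebraMap A[X] B g := by
    rintro ⟨z, hz⟩
    obtain ⟨h, s, rfl⟩ := IsLocalization.exists_mk'_eq 𝔪.primeCompl z
    have h1 : algebraMap A[X] B (g * s) = algebraMap A[X] B (C lam * h) := by
      rw [map_mul, map_mul, hz, mul_assoc, IsLocalization.mk'_spec]
    obtain ⟨c, hc⟩ := C_dvd_of_mul_eq lam hmax hgirr.ne_zero (hPB h1)
    exact s.2 (hc ▸ 𝔪.mul_mem_right c hmem)
  have hunrB : Fermat.Agent.S18.helper3881.UnramifiedCodimOne B K L R := by
    intro a' 𝔭 ha' h𝔭
    have h𝔭p : 𝔭.IsPrime := h𝔭.1.1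
    obtain ⟨a, s, rfl⟩ := IsLocalization.exists_mk'_eq 𝔪.primeCompl a'
    have ha : a ≠ 0 := by
      rintro rfl
      exact ha' (IsLocalization.mk'_zero s)
    have hspan : Ideal.span {IsLocalization.mk' B a s} =
        (Ideal.span {a}).map (algebraMap A[X] B) := by
      rw [Ideal.map_span, Set.image_singleton]
      refine Ideal.span_singleton_eq_span_singleton.mpr ?_
      refine ⟨(IsLocalization.map_units B s).unit, ?_⟩
      rw [IsUnit.unit_spec, IsLocalization.mk'_spec]
    rw [hspan, IsLocalization.minimalPrimes_map 𝔪.primeCompl B, Set.mem_preimage] at h𝔭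
    have hle : 𝔭.under A[X] ≤ 𝔪 := by
      have hd := ((IsLocalization.isPrime_iff_isPrime_disjoint 𝔪.primeCompl B 𝔭).mp h𝔭p).2
      intro x hx
      by_contra hxm
      exact Set.disjoint_left.mp hd hxm hx
    obtain ⟨b, d, hd, hdp⟩ := hunr a _ ha h𝔭 hle
    refine ⟨fun i => algebraMap M R (b i), algebraMap A[X] B d, ?_, hdp⟩
    rw [← IsScalarTower.algebraMap_apply A[X] B K, hd]
    simp only [← IsScalarTower.algebraMap_apply M R L]
  have key : OneComponent R (algebraMap B R (algebraMap A[X] B (C lam))) :=
    oneComponent_of_liesOver hlamB (fun Q Q' hQ hQ' h1 h2 hne =>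
      Fermat.Agent.S18.helper3881.eq_of_sup_ne_top B K L R _ _ hlamB hlg hm hunrB Q Q' h1 h2 hne)
  rwa [← IsScalarTower.algebraMap_apply A[X] B R, IsScalarTower.algebraMap_apply A[X] M R] at key

end PurityPoint

section Concrete

variable {A : Type*} [CommRing A] [IsDomain A] [IsIntegrallyClosed A] [IsNoetherianRing A]

set_option maxHeartbeats 800000 in
/-- **(W6a), concrete form** for the standard localisations `Localization.AtPrime 𝔪` and
`Localization (algebraMapSubmonoid M 𝔪.primeCompl)`. -/
theorem oneComponent_localization_of_unramified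
    (lam : A) (hlam : Prime lam) (hmax : (Ideal.span {lam}).IsMaximal)
    (K : Type*) [Field K] [Algebra A[X] K] [IsFractionRing A[X] K]
    (L : Type*) [Field L] [Algebra K L] [Algebra A[X] L] [IsScalarTower A[X] K L]
    [FiniteDimensional K L] [Algebra.IsSeparable K L]
    (M : Type*) [CommRing M] [Algebra A[X] M] [Algebra M L] [IsScalarTower A[X] M L]
    [IsIntegralClosure M A[X] L]
    (𝔪 : Ideal A[X]) [h𝔪 : 𝔪.IsMaximal] (hmem : C lam ∈ 𝔪)
    (hunr : ∀ (a : A[X]) (p : Ideal A[X]), a ≠ 0 → p ∈ (Ideal.span {a}).minimalPrimes → p ≤ 𝔪 →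
      UnramifiedAt K L M p) :
    OneComponent (Localization (Algebra.algebraMapSubmonoid M 𝔪.primeCompl))
      (algebraMap M _ (algebraMap A[X] M (C lam))) := by
  have hPK : Function.Injective (algebraMap A[X] K) := IsFractionRing.injective A[X] K
  have hPL : Function.Injective (algebraMap A[X] L) := by
    rw [IsScalarTower.algebraMap_eq A[X] K L]
    exact (algebraMap K L).injective.comp hPK
  have hML : Function.Injective (algebraMap M L) := IsIntegralClosure.algebraMap_injective M A[X] L
  -- `B → K`
  have hunitK : ∀ y : 𝔪.primeCompl, IsUnit (algebraMap A[X] K y) := fun y =>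
    IsUnit.mk0 _ (by
      rw [Ne, map_eq_zero_iff _ hPK]
      intro h
      exact y.2 (h ▸ 𝔪.zero_mem))
  let algBK : Algebra (Localization.AtPrime 𝔪) K :=
    (IsLocalization.lift (M := 𝔪.primeCompl) (S := Localization.AtPrime 𝔪) hunitK).toAlgebra
  have towerPBK : IsScalarTower A[X] (Localization.AtPrime 𝔪) K :=
    IsScalarTower.of_algebraMap_eq (fun x => (IsLocalization.lift_eq hunitK x).symm)
  let algBL : Algebra (Localization.AtPrime 𝔪) L :=
    ((algebraMap K L).comp (algebraMap (Localization.AtPrime 𝔪) K)).toAlgebra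
  have towerBKL : IsScalarTower (Localization.AtPrime 𝔪) K L :=
    IsScalarTower.of_algebraMap_eq (fun _ => rfl)
  -- `R → L`
  have hunitL : ∀ y : Algebra.algebraMapSubmonoid M 𝔪.primeCompl, IsUnit (algebraMap M L y) := by
    rintro ⟨_, s, hs, rfl⟩
    refine IsUnit.mk0 _ ?_
    rw [← IsScalarTower.algebraMap_apply A[X] M L, Ne, map_eq_zero_iff _ hPL]
    rintro rfl
    exact hs 𝔪.zero_mem
  let algRL : Algebra (Localization (Algebra.algebraMapSubmonoid M 𝔪.primeCompl)) L :=
    (IsLocalization.lift (M := Algebra.algebraMapSubmonoid M 𝔪.primeCompl)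
      (S := Localization (Algebra.algebraMapSubmonoid M 𝔪.primeCompl)) hunitL).toAlgebra
  have towerMRL : IsScalarTower M (Localization (Algebra.algebraMapSubmonoid M 𝔪.primeCompl)) L :=
    IsScalarTower.of_algebraMap_eq (fun x => (IsLocalization.lift_eq hunitL x).symm)
  have towerBRL : IsScalarTower (Localization.AtPrime 𝔪)
      (Localization (Algebra.algebraMapSubmonoid M 𝔪.primeCompl)) L := by
    refine IsScalarTower.of_algebraMap_eq' ?_
    refine IsLocalization.ringHom_ext 𝔪.primeCompl (RingHom.ext fun x => ?_)
    have e1 : algebraMap (Localization.AtPrime 𝔪) L (algebraMap A[X] (Localization.AtPrime 𝔪) x) =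
        algebraMap A[X] L x := by
      rw [IsScalarTower.algebraMap_apply (Localization.AtPrime 𝔪) K L,
        ← IsScalarTower.algebraMap_apply A[X] (Localization.AtPrime 𝔪) K,
        ← IsScalarTower.algebraMap_apply A[X] K L]
    have e2 : algebraMap (Localization (Algebra.algebraMapSubmonoid M 𝔪.primeCompl)) L
        (algebraMap (Localization.AtPrime 𝔪)
          (Localization (Algebra.algebraMapSubmonoid M 𝔪.primeCompl))
          (algebraMap A[X] (Localization.AtPrime 𝔪) x)) = algebraMap A[X] L x := by
      rw [← IsScalarTower.algebraMap_apply A[X] (Localization.AtPrime 𝔪)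
          (Localization (Algebra.algebraMapSubmonoid M 𝔪.primeCompl)),
        IsScalarTower.algebraMap_apply A[X] M
          (Localization (Algebra.algebraMapSubmonoid M 𝔪.primeCompl)),
        ← IsScalarTower.algebraMap_apply M _ L, ← IsScalarTower.algebraMap_apply A[X] M L]
    simp only [RingHom.comp_apply]
    rw [e1, e2]
  exact oneComponent_of_unramified_abstract lam hlam hmax K L M 𝔪 hmem
    (Localization.AtPrime 𝔪) (Localization (Algebra.algebraMapSubmonoid M 𝔪.primeCompl)) hunr

end Concrete

section Global

/-- Over a UFD it suffices to check `UnramifiedAt` at the prime elements contained in `𝔪`. -/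
theorem unramifiedAt_of_prime_elements {P : Type*} [CommRing P] [IsDomain P]
    [UniqueFactorizationMonoid P]
    (K : Type*) [Field K] [Algebra P K] (L : Type*) [Field L] [Algebra K L] [Algebra P L]
    (M : Type*) [CommRing M] [Algebra P M] [Algebra M L] (𝔪 : Ideal P)
    (h : ∀ π : P, Prime π → π ∈ 𝔪 → UnramifiedAt K L M (Ideal.span {π})) :
    ∀ (a : P) (p : Ideal P), a ≠ 0 → p ∈ (Ideal.span {a}).minimalPrimes → p ≤ 𝔪 →
      UnramifiedAt K L M p := by
  intro a p ha hp hpm
  have hpp : p.IsPrime := hp.1.1
  have hap : a ∈ p := hp.1.2 (Ideal.mem_span_singleton_self a)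
  obtain ⟨f, hf, u, hfu⟩ := UniqueFactorizationMonoid.exists_prime_factors a ha
  have hprod : f.prod ∈ p := by
    have : f.prod * (u : P) ∈ p := hfu ▸ hap
    exact (Ideal.mul_unit_mem_iff_mem _ u.isUnit).1 this
  obtain ⟨π, hπf, hπp⟩ := (Ideal.IsPrime.multiset_prod_mem_iff_exists_mem hpp f).1 hprod
  have hπ : Prime π := hf π hπf
  have hdvd : π ∣ a := by
    rw [← hfu]
    exact Dvd.dvd.mul_right (Multiset.dvd_prod hπf) _
  have hspan : (Ideal.span {π} : Ideal P).IsPrime :=
    (Ideal.span_singleton_prime hπ.ne_zero).2 hπ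
  have hle : p ≤ Ideal.span {π} :=
    hp.2 ⟨hspan, (Ideal.span_singleton_le_span_singleton).2 hdvd⟩
      ((Ideal.span_singleton_le_iff_mem _).2 hπp)
  obtain ⟨b, d, hd, hπd⟩ := h π hπ (hpm hπp)
  exact ⟨b, d, hd, fun hdp => hπd (hle hdp)⟩

variable {A : Type*} [CommRing A] [IsDomain A] [IsIntegrallyClosed A] [IsNoetherianRing A]

/-- **(W6), global form.** Let `M` be the integral closure of `A[X]` in a finite separable
extension `L` of `K = Frac A[X]` and `lam` a prime element of `A` with `A/(lam)` a field. Suppose
that at every closed point `𝔪 ∋ lam` of the special fibre EITHER `L/K` is unramified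
(discriminant form) at all primes of `A[X]` through `𝔪` that are minimal over a nonzero principal
ideal [purity, T1], OR the localisation of `M` at `𝔪` is already known to have the one-component
property [branch points: Abhyankar T2 / Galois descent]. Then any two minimal primes of `M` over
`lam` which are not comaximal are equal. -/
theorem oneComponent_of_unramified_or_local
    (lam : A) (hlam : Prime lam) (hmax : (Ideal.span {lam}).IsMaximal)
    (K : Type*) [Field K] [Algebra A[X] K] [IsFractionRing A[X] K]
    (L : Type*) [Field L] [Algebra K L] [Algebra A[X] L] [IsScalarTower A[X] K L]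
    [FiniteDimensional K L] [Algebra.IsSeparable K L]
    (M : Type*) [CommRing M] [Algebra A[X] M] [Algebra M L] [IsScalarTower A[X] M L]
    [IsIntegralClosure M A[X] L]
    (h : ∀ (𝔪 : Ideal A[X]) [𝔪.IsMaximal], C lam ∈ 𝔪 →
      (∀ (a : A[X]) (p : Ideal A[X]), a ≠ 0 → p ∈ (Ideal.span {a}).minimalPrimes → p ≤ 𝔪 →
        UnramifiedAt K L M p) ∨
      OneComponent (Localization (Algebra.algebraMapSubmonoid M 𝔪.primeCompl))
        (algebraMap M _ (algebraMap A[X] M (C lam)))) :
    OneComponent M (algebraMap A[X] M (C lam)) := by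
  have : Algebra.IsIntegral A[X] M := IsIntegralClosure.isIntegral_algebra A[X] L
  refine oneComponent_of_forall_maximal (C lam) ?_
  intro 𝔪 _ hmem
  rcases h 𝔪 hmem with hunr | hloc
  · exact oneComponent_localization_of_unramified lam hlam hmax K L M 𝔪 hmem hunr
  · exact hloc

end Global

end Fermat.Agent.S18.helper403
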