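import Fermat.Agent.S18.helper410_TraceCrit

/-!
# S18-TRACECRIT, chart adapters

The chart at infinity of the nilpotent-trace criterion (TC6), with the trace taken over the SAME
field `k⟮x⟯` as on the finite chart, and the two-chart "regular differential" packaging.
-/

set_option autoImplicit false

namespace Fermat.Agent.S18.helper410

open Polynomial IntermediateField

variable {k F : Type*} [Field k] [Field F] [Algebra k F]

/-- `k⟮x⁻¹⟯ = k⟮x⟯`. -/
theorem adjoin_simple_inv_eq (x : F) : k⟮x⁻¹⟯ = k⟮x⟯ := by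
  apply le_antisymm
  · rw [adjoin_simple_le_iff]
    exact inv_mem (mem_adjoin_simple_self k x)
  · rw [adjoin_simple_le_iff]
    have := inv_mem (mem_adjoin_simple_self k x⁻¹)
    rwa [inv_inv] at this

/-- The trace only depends on the intermediate field as a set. -/
theorem trace_congr_of_eq {E₁ E₂ : IntermediateField k F} (h : E₁ = E₂) (z : F) :
    (Algebra.trace E₁ F z : F) = (Algebra.trace E₂ F z : F) := by
  subst h
  rfl

theorem finite_separable_of_eq {E₁ E₂ : IntermediateField k F} (h : E₁ = E₂)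
    [FiniteDimensional E₂ F] [Algebra.IsSeparable E₂ F] :
    FiniteDimensional E₁ F ∧ Algebra.IsSeparable E₁ F := by
  subst h
  exact ⟨inferInstance, inferInstance⟩

theorem transcendental_inv_of_transcendental (x : F) (hx : Transcendental k x) :
    Transcendental k x⁻¹ := fun h => hx (by simpa using h.inv)

/-- (TC6-inf) chart at infinity: same as `trace_mul_eq_aeval_of_chart` for the chart ring
`k[x⁻¹]`, with the trace over `k⟮x⟯`. -/
theorem trace_mul_eq_aeval_inv_of_chart (x : F) (hx : Transcendental k x)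
    [FiniteDimensional k⟮x⟯ F] [Algebra.IsSeparable k⟮x⟯ F]
    (P T : k[X]) (hsq : Squarefree (P * T))
    (y : F) (M : ℕ) (hM : 0 < M) (c : F) (hc : IsIntegral (Algebra.adjoin k {x⁻¹}) c)
    (hy : (aeval x⁻¹ P * y) ^ M = aeval x⁻¹ (P * T) * c)
    (φ : F) (hφ : IsIntegral (Algebra.adjoin k {x⁻¹}) φ) :
    ∃ u : k[X], (Algebra.trace k⟮x⟯ F (φ * y) : F) = aeval x⁻¹ (T * u) := by
  have h := adjoin_simple_inv_eq (k := k) x
  obtain ⟨h1, h2⟩ := finite_separable_of_eq h
  obtain ⟨u, hu⟩ := trace_mul_eq_aeval_of_chart x⁻¹ (transcendental_inv_of_transcendental x hx)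
    P T hsq y M hM c hc hy φ hφ
  exact ⟨u, (trace_congr_of_eq h _).symm.trans hu⟩

/-- (TC7) two-chart packaging = "the reduction of a regular differential is regular"
(`ybar ∈ Ω(F, x)` in the normalisation `Tr(y B₁) ⊆ x k[x]`, `Tr(y B₂) ⊆ x⁻¹ k[x⁻¹]`).
Certificates: `(P(x) y) ^ M ∈ x P(x) B₁` with `X * P` squarefree and
`(P'(x⁻¹) y) ^ M' ∈ x⁻¹ P'(x⁻¹) B₂` with `X * P'` squarefree. -/
theorem trace_mem_of_two_chart_certificates (x : F) (hx : Transcendental k x)
    [FiniteDimensional k⟮x⟯ F] [Algebra.IsSeparable k⟮x⟯ F]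
    (P P' : k[X]) (hsq : Squarefree (P * X)) (hsq' : Squarefree (P' * X))
    (y : F) (M M' : ℕ) (hM : 0 < M) (hM' : 0 < M')
    (c : F) (hc : IsIntegral (Algebra.adjoin k {x}) c)
    (hy : (aeval x P * y) ^ M = x * aeval x P * c)
    (c' : F) (hc' : IsIntegral (Algebra.adjoin k {x⁻¹}) c')
    (hy' : (aeval x⁻¹ P' * y) ^ M' = x⁻¹ * aeval x⁻¹ P' * c') :
    (∀ φ : F, IsIntegral (Algebra.adjoin k {x}) φ →
        ∃ u : k[X], (Algebra.trace k⟮x⟯ F (φ * y) : F) = x * aeval x u) ∧
    (∀ φ : F, IsIntegral (Algebra.adjoin k {x⁻¹}) φ →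
        ∃ u : k[X], (Algebra.trace k⟮x⟯ F (φ * y) : F) = x⁻¹ * aeval x⁻¹ u) := by
  constructor
  · intro φ hφ
    obtain ⟨u, hu⟩ := trace_mul_eq_aeval_of_chart x hx P X hsq y M hM c hc
      (by rw [hy]; simp [mul_comm]) φ hφ
    exact ⟨u, by rw [hu]; simp⟩
  · intro φ hφ
    obtain ⟨u, hu⟩ := trace_mul_eq_aeval_inv_of_chart x hx P' X hsq' y M' hM' c' hc'
      (by rw [hy']; simp [mul_comm]) φ hφ
    exact ⟨u, by rw [hu]; simp⟩

end Fermat.Agent.S18.helper410
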