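import Mathlib

/-!
# S18-TRACECRIT: the nilpotent-trace criterion (different-free)

Mathlib-only brick for the gap count `γ(F'_k) ≥ s` of the S18 route (#1924(2), #2172 NEW FACT 1,
#2230(2)).  If `B` is a finite free `R`-algebra and `w : B` is nilpotent modulo `P • B` with
`R ⧸ (P)` reduced, then `Algebra.trace R B w ∈ (P)`.  Consequently an element `y` of the fraction
field with `P * y ∈ B` nilpotent modulo `P` has trace in `R` (no different, no residue theorem).
-/

set_option autoImplicit false

open scoped nonZeroDivisors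

namespace Fermat.Agent.S18.helper410

section TC1

variable {R B : Type*} [CommRing R] [CommRing B] [Algebra R B]
  [Module.Free R B] [Module.Finite R B]

/-- (TC1) If `w ^ r = P • c` in a finite free `R`-algebra `B` and `(P)` is a radical ideal of `R`,
then the trace of `w` lies in `(P)`. -/
theorem trace_mem_span_of_pow_eq_smul (P : R) (hP : (Ideal.span {P}).IsRadical)
    (w c : B) (r : ℕ) (h : w ^ r = P • c) :
    Algebra.trace R B w ∈ Ideal.span {P} := by
  classical
  let ι := Module.Free.ChooseBasisIndex R B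
  let b : Module.Basis ι R B := Module.Free.chooseBasis R B
  rw [Algebra.trace_eq_matrix_trace b]
  set M := Algebra.leftMulMatrix b w with hMdef
  have hM : M ^ r = P • Algebra.leftMulMatrix b c := by
    rw [hMdef, ← map_pow, h, map_smul]
  let φ : R →+* R ⧸ Ideal.span {P} := Ideal.Quotient.mk (Ideal.span {P})
  have hφP : φ P = 0 := Ideal.Quotient.eq_zero_iff_mem.mpr (Ideal.mem_span_singleton_self P)
  have hnil : IsNilpotent (φ.mapMatrix M) := by
    refine ⟨r, ?_⟩
    rw [← map_pow, hM]
    ext i j
    simp [RingHom.mapMatrix_apply, Matrix.map_apply, Matrix.smul_apply, hφP]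
  have htr : IsNilpotent (φ.mapMatrix M).trace := Matrix.isNilpotent_trace_of_isNilpotent hnil
  have hred : IsReduced (R ⧸ Ideal.span {P}) := (Ideal.isRadical_iff_quotient_reduced _).mp hP
  have h0 : (φ.mapMatrix M).trace = 0 := htr.eq_zero
  rw [← Ideal.Quotient.eq_zero_iff_mem]
  have : φ M.trace = (φ.mapMatrix M).trace := by
    simp [Matrix.trace, RingHom.mapMatrix_apply, Matrix.map_apply, map_sum]
  exact this.trans h0

/-- (TC1') membership form: `w ^ r ∈ P • ⊤`. -/
theorem trace_mem_span_of_pow_mem (P : R) (hP : (Ideal.span {P}).IsRadical)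
    (w : B) (r : ℕ) (h : ∃ c : B, w ^ r = algebraMap R B P * c) :
    Algebra.trace R B w ∈ Ideal.span {P} := by
  obtain ⟨c, hc⟩ := h
  exact trace_mem_span_of_pow_eq_smul P hP w c r (by rw [hc, Algebra.smul_def])

end TC1

section TC2

variable {R K L B : Type*} [CommRing R] [IsDomain R] [Field K] [Field L] [CommRing B]
  [Algebra R K] [IsFractionRing R K] [Algebra K L] [Algebra R L] [IsScalarTower R K L]
  [Algebra R B] [Algebra B L] [IsScalarTower R B L] [Module.Free R B] [Module.Finite R B]

omit [IsDomain R] in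
/-- (TC2) fraction form.  `L` is the localization of the finite free `R`-algebra `B` at `R⁰`,
`K = Frac R`.  If `P * y = w ∈ B` and `w ^ r ∈ P • B` with `(P)` radical, `P ≠ 0`, then the trace
of `y` over `K` lies in `R`. -/
theorem trace_mem_range_of_mul_pow
    [IsLocalization (Algebra.algebraMapSubmonoid B R⁰) L]
    (P : R) (hP0 : P ≠ 0) (hP : (Ideal.span {P}).IsRadical)
    (y : L) (w c : B) (r : ℕ) (hw : algebraMap B L w = algebraMap R L P * y)
    (hpow : w ^ r = P • c) :
    ∃ t : R, Algebra.trace K L y = algebraMap R K t := by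
  have h1 : Algebra.trace K L (algebraMap B L w) = algebraMap R K (Algebra.trace R B w) :=
    Algebra.trace_localization R R⁰ w
  obtain ⟨t, ht⟩ := Ideal.mem_span_singleton'.mp (trace_mem_span_of_pow_eq_smul P hP w c r hpow)
  refine ⟨t, ?_⟩
  have h2 : Algebra.trace K L (algebraMap B L w) = algebraMap R K P * Algebra.trace K L y := by
    rw [hw, IsScalarTower.algebraMap_apply R K L, ← Algebra.smul_def, map_smul, smul_eq_mul]
  have hPK : algebraMap R K P ≠ 0 := by
    simpa using (map_ne_zero_iff (algebraMap R K) (IsFractionRing.injective R K)).mpr hP0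
  apply mul_left_cancel₀ hPK
  rw [← h2, h1, ← ht, map_mul, mul_comm]

omit [IsDomain R] in
/-- (TC2-st) two-factor fraction form: if `s * y = w ∈ B` and `w ^ r ∈ (s * t) • B` with `(s * t)`
radical and `s ≠ 0`, then the trace of `y` lies in `t • R`.
[`t = 1` gives (TC2); chart form: `s = P`, `t = x` gives `Tr y ∈ x • k[x]`.] -/
theorem trace_mem_mul_range_of_mul_pow
    [IsLocalization (Algebra.algebraMapSubmonoid B R⁰) L]
    (s t : R) (hs0 : s ≠ 0) (hrad : (Ideal.span {s * t}).IsRadical)
    (y : L) (w c : B) (r : ℕ) (hw : algebraMap B L w = algebraMap R L s * y)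
    (hpow : w ^ r = (s * t) • c) :
    ∃ u : R, Algebra.trace K L y = algebraMap R K (t * u) := by
  have h1 : Algebra.trace K L (algebraMap B L w) = algebraMap R K (Algebra.trace R B w) :=
    Algebra.trace_localization R R⁰ w
  obtain ⟨u, hu⟩ :=
    Ideal.mem_span_singleton'.mp (trace_mem_span_of_pow_eq_smul (s * t) hrad w c r hpow)
  refine ⟨u, ?_⟩
  have h2 : Algebra.trace K L (algebraMap B L w) = algebraMap R K s * Algebra.trace K L y := by
    rw [hw, IsScalarTower.algebraMap_apply R K L, ← Algebra.smul_def, map_smul, smul_eq_mul]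
  have hsK : algebraMap R K s ≠ 0 := by
    simpa using (map_ne_zero_iff (algebraMap R K) (IsFractionRing.injective R K)).mpr hs0
  apply mul_left_cancel₀ hsK
  rw [← h2, h1, ← hu, ← map_mul]
  congr 1
  ring

/-- (TC2') the same with `B` an integral closure of `R` in the algebraic extension `L / K`. -/
theorem trace_mem_range_of_mul_pow' [Algebra.IsAlgebraic K L] [IsIntegralClosure B R L]
    (P : R) (hP0 : P ≠ 0) (hP : (Ideal.span {P}).IsRadical)
    (y : L) (w c : B) (r : ℕ) (hw : algebraMap B L w = algebraMap R L P * y)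
    (hpow : w ^ r = P • c) :
    ∃ t : R, Algebra.trace K L y = algebraMap R K t := by
  have : IsLocalization (Algebra.algebraMapSubmonoid B R⁰) L :=
    IsIntegralClosure.isLocalization R K L B
  exact trace_mem_range_of_mul_pow P hP0 hP y w c r hw hpow

/-- (TC3) consumer form with two branch values `a`, `b` (use `b = 1`, `e₂ = 0` for one).
If `y ^ r * a ^ e₁ * b ^ e₂` is integral over `R` with `e₁, e₂ < r` and `(a * b)` is a nonzero
radical ideal, then for every `x` in the integral closure `B` the trace of `x * y` lies in `R`.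
[`j`-line, `ℓ ≥ 5`: `a = j`, `b = j - 1728`, `r = 6`, `e₁ = 4`, `e₂ = 3`.] -/
theorem trace_mul_mem_range_of_isIntegral_pow_mul [Algebra.IsAlgebraic K L]
    [IsIntegralClosure B R L]
    (a b : R) (hab : a * b ≠ 0) (hrad : (Ideal.span {a * b}).IsRadical)
    (r e₁ e₂ : ℕ) (h₁ : e₁ < r) (h₂ : e₂ < r) (y : L)
    (hy : IsIntegral R (y ^ r * algebraMap R L (a ^ e₁ * b ^ e₂))) (x : B) :
    ∃ t : R, Algebra.trace K L (algebraMap B L x * y) = algebraMap R K t := by
  obtain ⟨d₁, hd₁⟩ := Nat.exists_eq_add_of_lt h₁
  obtain ⟨d₂, hd₂⟩ := Nat.exists_eq_add_of_lt h₂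
  have hr : 0 < r := by omega
  obtain ⟨z, hz⟩ := (IsIntegralClosure.isIntegral_iff (A := B)).mp hy
  set v : L := algebraMap R L (a * b) * (algebraMap B L x * y) with hv
  have hmap : ∀ t : R, algebraMap B L (algebraMap R B t) = algebraMap R L t :=
    fun t => (IsScalarTower.algebraMap_apply R B L t).symm
  have hvr : v ^ r = algebraMap B L
      (algebraMap R B (a * b) * (algebraMap R B (a ^ d₁ * b ^ d₂) * x ^ r * z)) := by
    have eA : (algebraMap R L a) ^ r
        = (algebraMap R L a) ^ e₁ * (algebraMap R L a) ^ d₁ * algebraMap R L a := by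
      rw [← pow_add, ← pow_succ, ← hd₁]
    have eB : (algebraMap R L b) ^ r
        = (algebraMap R L b) ^ e₂ * (algebraMap R L b) ^ d₂ * algebraMap R L b := by
      rw [← pow_add, ← pow_succ, ← hd₂]
    rw [hv]
    simp only [map_mul, map_pow, hmap, hz]
    rw [mul_pow, mul_pow, mul_pow, eA, eB]
    ring
  have hvint : IsIntegral R v := by
    refine IsIntegral.of_pow hr ?_
    rw [hvr]
    exact (IsIntegralClosure.isIntegral_iff (A := B)).mpr ⟨_, rfl⟩
  obtain ⟨w, hw⟩ := (IsIntegralClosure.isIntegral_iff (A := B)).mp hvint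
  have hwr : w ^ r = (a * b) • (algebraMap R B (a ^ d₁ * b ^ d₂) * x ^ r * z) := by
    apply IsIntegralClosure.algebraMap_injective B R L
    rw [map_pow, hw, hvr, Algebra.smul_def]
  exact trace_mem_range_of_mul_pow' (a * b) hab hrad _ w _ r hw hwr

end TC2

section TC5

variable {R K L : Type*} [CommRing R] [IsDomain R] [IsPrincipalIdealRing R] [Field K] [Field L]
  [Algebra R K] [IsFractionRing R K] [Algebra K L] [Algebra R L] [IsScalarTower R K L]
  [FiniteDimensional K L] [Algebra.IsSeparable K L]

/-- (TC5) chart form, no integral closure in the statement.  `R` a PID (`k[x]`, `k[1/x]`),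
`K = Frac R`, `L / K` finite separable.  If `(s * y) ^ M = (s * t) * c` with `c` integral over `R`
and `(s * t)` a radical ideal, `s ≠ 0`, then for every `x` integral over `R` the trace of `x * y`
lies in `t • R`.
[finite chart: `s = P`, `t = x`; infinite chart: `s = P'`, `t = 1/x`; `t = 1` for plain
integrality of the trace.] -/
theorem trace_mul_mem_mul_range_of_isIntegral
    (s t : R) (hs0 : s ≠ 0) (hrad : (Ideal.span {s * t}).IsRadical)
    (y : L) (M : ℕ) (hM : 0 < M) (c : L) (hc : IsIntegral R c)
    (hy : (algebraMap R L s * y) ^ M = algebraMap R L (s * t) * c)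
    (x : L) (hx : IsIntegral R x) :
    ∃ u : R, Algebra.trace K L (x * y) = algebraMap R K (t * u) := by
  have hTF : Module.IsTorsionFree R L := .trans_faithfulSMul R K L
  have hfree : Module.Free R (integralClosure R L) :=
    IsIntegralClosure.module_free R K L (integralClosure R L)
  have hfin : Module.Finite R (integralClosure R L) :=
    IsIntegralClosure.finite R K L (integralClosure R L)
  have hloc : IsLocalization (Algebra.algebraMapSubmonoid (integralClosure R L) R⁰) L :=
    IsIntegralClosure.isLocalization R K L (integralClosure R L)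
  have hv : (algebraMap R L s * (x * y)) ^ M = algebraMap R L (s * t) * (x ^ M * c) := by
    rw [show algebraMap R L s * (x * y) = x * (algebraMap R L s * y) by ring, mul_pow, hy]
    ring
  have hcint : IsIntegral R (x ^ M * c) := (hx.pow M).mul hc
  have hvint : IsIntegral R (algebraMap R L s * (x * y)) := by
    refine IsIntegral.of_pow hM ?_
    rw [hv]
    exact isIntegral_algebraMap.mul hcint
  refine trace_mem_mul_range_of_mul_pow (B := integralClosure R L) s t hs0 hrad (x * y)
    ⟨_, hvint⟩ ⟨_, hcint⟩ M rfl ?_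
  apply Subtype.ext
  rw [Algebra.smul_def]
  simpa using hv

/-- (TC5') membership form of (TC5) with `t = 1`: the trace of `x * y` is in `R`. -/
theorem trace_mul_mem_range_of_isIntegral
    (s : R) (hs0 : s ≠ 0) (hrad : (Ideal.span {s}).IsRadical)
    (y : L) (M : ℕ) (hM : 0 < M) (c : L) (hc : IsIntegral R c)
    (hy : (algebraMap R L s * y) ^ M = algebraMap R L s * c)
    (x : L) (hx : IsIntegral R x) :
    ∃ u : R, Algebra.trace K L (x * y) = algebraMap R K u := by
  obtain ⟨u, hu⟩ := trace_mul_mem_mul_range_of_isIntegral (K := K) s 1 hs0 (by simpa using hrad)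
    y M hM c hc (by simpa using hy) x hx
  exact ⟨u, by simpa using hu⟩

end TC5

section TC4

open Polynomial

variable {k : Type*} [Field k]

/-- (TC4a) `(X - c)` is a radical ideal of `k[X]`. -/
theorem isRadical_span_X_sub_C (c : k) : (Ideal.span {(X - C c : k[X])}).IsRadical :=
  isRadical_iff_span_singleton.mp (separable_X_sub_C (x := c)).squarefree.isRadical

/-- (TC4b) `(X - c) * (X - d)` generates a radical ideal of `k[X]` when `c ≠ d`
[`c = 0`, `d = 1728`, `char k ∤ 6`]. -/
theorem isRadical_span_X_sub_C_mul_X_sub_C {c d : k} (hcd : c ≠ d) :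
    (Ideal.span {((X - C c) * (X - C d) : k[X])}).IsRadical := by
  have hsep : ((X - C c) * (X - C d) : k[X]).Separable := by
    refine (separable_X_sub_C).mul (separable_X_sub_C) ?_
    exact isCoprime_X_sub_C_of_isUnit_sub (sub_ne_zero.mpr hcd).isUnit
  exact isRadical_iff_span_singleton.mp hsep.squarefree.isRadical

end TC4

section TC6

open Polynomial IntermediateField
open scoped IntermediateField.algebraAdjoinAdjoin

variable {k F : Type*} [Field k] [Field F] [Algebra k F]

/-- Polynomial evaluation at `x`, as a map onto the chart ring `Algebra.adjoin k {x}`. -/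
noncomputable def aevalAdjoin (x : F) : k[X] →ₐ[k] Algebra.adjoin k {x} :=
  (aeval x).codRestrict _ (fun p => by
    rw [Algebra.adjoin_singleton_eq_range_aeval]
    exact ⟨p, rfl⟩)

theorem aevalAdjoin_coe (x : F) (p : k[X]) : (aevalAdjoin x p : F) = aeval x p := rfl

theorem aevalAdjoin_surjective (x : F) : Function.Surjective (aevalAdjoin (k := k) x) := by
  rintro ⟨y, hy⟩
  rw [Algebra.adjoin_singleton_eq_range_aeval] at hy
  obtain ⟨p, rfl⟩ := hy
  exact ⟨p, rfl⟩

theorem aevalAdjoin_injective (x : F) (hx : Transcendental k x) :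
    Function.Injective (aevalAdjoin (k := k) x) := by
  intro p q h
  exact transcendental_iff_injective.mp hx (congrArg Subtype.val h)

/-- The chart ring `k[x] ⊆ F` is a PID (any `x`). -/
theorem isPrincipalIdealRing_adjoin_singleton (x : F) :
    IsPrincipalIdealRing (Algebra.adjoin k {x}) :=
  IsPrincipalIdealRing.of_surjective (aevalAdjoin x).toRingHom (aevalAdjoin_surjective x)

/-- For transcendental `x` and squarefree `P`, the ideal `(P(x))` of `k[x] ⊆ F` is radical. -/
theorem isRadical_span_aevalAdjoin (x : F) (hx : Transcendental k x) (P : k[X])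
    (hP : Squarefree P) : (Ideal.span {aevalAdjoin x P}).IsRadical := by
  rw [← isRadical_iff_span_singleton]
  intro n a h
  obtain ⟨a, rfl⟩ := aevalAdjoin_surjective x a
  rw [← map_pow] at h
  have hdvd : ∀ b : k[X], aevalAdjoin x P ∣ aevalAdjoin x b → P ∣ b := by
    rintro b ⟨c, hc⟩
    obtain ⟨c, rfl⟩ := aevalAdjoin_surjective x c
    rw [← map_mul] at hc
    exact ⟨c, aevalAdjoin_injective x hx hc⟩
  exact map_dvd _ (hP.isRadical n a (hdvd _ h))

/-- (TC6) chart form on the surface `k ⊆ k[x] ⊆ k⟮x⟯ ⊆ F` (`x` transcendental, `F / k⟮x⟯` finite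
separable).  If `(P(x) * y) ^ M = P(x) * T(x) * c` with `c` integral over `k[x]` and `P * T`
squarefree, then for every `φ` integral over `k[x]` the trace of `φ * y` is `T(x) * u(x)` for a
polynomial `u`.  [`T = X`: `Tr(y * B₁) ⊆ x • k[x]`; `T = 1`: `Tr(y * B₁) ⊆ k[x]`; apply it to
`x⁻¹` for the chart at infinity.] -/
theorem trace_mul_eq_aeval_of_chart (x : F) (hx : Transcendental k x)
    [FiniteDimensional k⟮x⟯ F] [Algebra.IsSeparable k⟮x⟯ F]
    (P T : k[X]) (hsq : Squarefree (P * T))
    (y : F) (M : ℕ) (hM : 0 < M) (c : F) (hc : IsIntegral (Algebra.adjoin k {x}) c)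
    (hy : (aeval x P * y) ^ M = aeval x (P * T) * c)
    (φ : F) (hφ : IsIntegral (Algebra.adjoin k {x}) φ) :
    ∃ u : k[X], (Algebra.trace k⟮x⟯ F (φ * y) : F) = aeval x (T * u) := by
  have hPID : IsPrincipalIdealRing (Algebra.adjoin k {x}) := isPrincipalIdealRing_adjoin_singleton x
  have hP0 : P ≠ 0 := fun h => by
    rw [h, zero_mul] at hsq
    exact not_squarefree_zero hsq
  have hs0 : aevalAdjoin x P ≠ 0 := fun h =>
    hP0 (aevalAdjoin_injective x hx (h.trans (map_zero _).symm))
  have hrad : (Ideal.span {aevalAdjoin x P * aevalAdjoin x T}).IsRadical := by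
    rw [← map_mul]
    exact isRadical_span_aevalAdjoin x hx _ hsq
  obtain ⟨u, hu⟩ := trace_mul_mem_mul_range_of_isIntegral (K := k⟮x⟯) (L := F)
    (aevalAdjoin x P) (aevalAdjoin x T) hs0 hrad y M hM c hc
    (by
      rw [← map_mul]
      exact hy) φ hφ
  obtain ⟨u, rfl⟩ := aevalAdjoin_surjective x u
  refine ⟨u, ?_⟩
  rw [hu, ← map_mul]
  rfl

end TC6

end Fermat.Agent.S18.helper410
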