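import Fermat.Agent.S28.helper1448_Char0
import Fermat.Agent.Lib.helper1219_Bridge
import Fermat.Agent.S28.helper1595_CoreInput
import Fermat.Agent.S28.helper559_TowerFromPrime
import Fermat.Agent.S28.helper448_PrimeNonrat
import Fermat.Agent.S28.helper28_PrimeIrr
import Fermat.Agent.S28.helper508_FormalPrime
import Fermat.Agent.Lib.helper1356_Gamma0Index
import Fermat.Prelude.Def_ModularCurve_ArithmeticGalois

/-!
# S18-FFDICT (helper4181, backup copy): modular forms → function field dictionary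

A ratio of two modular forms of the same weight on `Γ₀(N)` with rational `q`-expansions is an
element of the Prelude function field `modularFunctionFieldFull N = ℚ(j(q^d) : d ∣ N)`.

Everything is assembled from landed S28 modules:

* `helper1448.ratFieldQ N` (rational Laurent series that are ratios of `q`-expansions of forms of
  equal weight on `Γ₀(N)`), every element of which has degree `≤ [SL₂(ℤ) : Γ₀(N)]` over `ℚ(j)`;
* the counting theorem `helper1595.relrank_full_eq_dedekindPsi` at `k = ℚ`, which gives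
  `[ℚ(j(q^d) : d ∣ N) : ℚ(j)] = ψ(N) = [SL₂(ℤ) : Γ₀(N)]`.

Main results:

* `bridgeJ`               : the Prelude formal `j` is `E₄³/Δ` (`helper1448.BridgeJ`);
* `relrank_full`          : `[F_N : ℚ(j)] = [SL₂(ℤ) : Γ₀(N)]` over `ℚ`;
* `ratFieldQ_eq_full`     : `helper1448.ratFieldQ N = modularFunctionFieldFull N`;
* `ratio_mem_full`        : the dictionary for `ModularForm (Γ₀(N)) k` with rational expansions;
* `ratio_mem_bar`         : the same in `modularFunctionFieldBar N` (coefficients in `ℚ̄`);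
* `isMF_ratio_mem_full`   : function-level variant (`helper1448.IsMF`).
-/

set_option autoImplicit false

open UpperHalfPlane ModularForm CongruenceSubgroup ModularCurve IntermediateField
open scoped MatrixGroups ModularForm

namespace Fermat.Agent.S18.helper4181

noncomputable section

open Fermat.Agent.S28 Fermat.Agent.S28.helper1448

local notation "Δ" => ModularForm.discriminant

/-- The Prelude's formal `j` over `ℂ` is the quotient of the `q`-expansions of `E₄³` and `Δ`. -/
theorem bridgeJ : BridgeJ := by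
  unfold BridgeJ
  rw [mul_comm]
  exact Fermat.Agent.Lib.helper1219.jqModC_mul_disc

/-- `[ℚ(j(q^d) : d ∣ N) : ℚ(j)] = [SL₂(ℤ) : Γ₀(N)]`, in `relrank` form. -/
theorem relrank_full (N : ℕ) [NeZero N] :
    (ℚ⟮jq⟯).relrank (modularFunctionFieldFull N) = ((Gamma0 N).index : Cardinal) := by
  have hFP : ∀ (p : ℕ) [Fact p.Prime], p ∣ N → helper328.Stmt_FormalPrime p :=
    fun p _ _ => helper508.stmt_FormalPrime p
  have h := helper1595.relrank_full_eq_dedekindPsi ℚ N (NeZero.pos N)
    (helper559.hub_of_formalPrime ℚ N (NeZero.pos N) hFP) (fun p _ hp hpN => by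
      have : Fact p.Prime := ⟨hp⟩
      refine helper1595.primeData_of_relZ ℚ p hp (helper28.primeRel_int p (hFP p hpN)) ?_
      exact helper448.qExpand_jq_not_mem_adjoin p (hFP p hpN) ℚ
        (by exact_mod_cast hp.ne_zero))
  rw [Fermat.Agent.Lib.helper1356.index_Gamma0 N (NeZero.ne N)]
  exact h

/-- A family of `[SL₂(ℤ) : Γ₀(N)]` elements of `F_N`, linearly independent over `ℚ(j)`. -/
theorem exists_independent_family (N : ℕ) [NeZero N] :
    ∃ y : Fin (Gamma0 N).index → LaurentSeries ℚ, (∀ i, y i ∈ modularFunctionFieldFull N) ∧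
      ∀ c : Fin (Gamma0 N).index → LaurentSeries ℚ, (∀ i, c i ∈ ℚ⟮jq⟯) →
        ∑ i, c i * y i = 0 → ∀ i, c i = 0 := by
  have hle : ℚ⟮jq⟯ ≤ modularFunctionFieldFull N := by
    rw [adjoin_simple_le_iff]
    have h := jqd_mem_full N (one_dvd N)
    rwa [qExpand_one_apply] at h
  have hrank : Module.rank ↥(ℚ⟮jq⟯) ↥(extendScalars hle) = ((Gamma0 N).index : Cardinal) := by
    rw [← relrank_eq_rank_of_le hle]
    exact relrank_full N
  have : Module.Finite ↥(ℚ⟮jq⟯) ↥(extendScalars hle) := Module.finite_of_rank_eq_nat hrank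
  have hfr : Module.finrank ↥(ℚ⟮jq⟯) ↥(extendScalars hle) = (Gamma0 N).index :=
    Module.finrank_eq_of_rank_eq hrank
  let b := Module.finBasisOfFinrankEq ↥(ℚ⟮jq⟯) ↥(extendScalars hle) hfr
  refine ⟨fun i => ((b i : ↥(extendScalars hle)) : LaurentSeries ℚ), fun i => ?_, ?_⟩
  · exact (mem_extendScalars hle).mp (b i).2
  · intro c hc hsum i
    have hli := b.linearIndependent
    rw [Fintype.linearIndependent_iff] at hli
    have h0 : ∑ i, (⟨c i, hc i⟩ : ↥(ℚ⟮jq⟯)) • b i = 0 := by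
      apply Subtype.ext
      have h1 : ((∑ i, (⟨c i, hc i⟩ : ↥(ℚ⟮jq⟯)) • b i : ↥(extendScalars hle)) : LaurentSeries ℚ)
          = ∑ i, c i * ((b i : ↥(extendScalars hle)) : LaurentSeries ℚ) := by
        rw [AddSubmonoidClass.coe_finsetSum]
        rfl
      rw [h1]
      exact hsum
    have := hli (fun i => (⟨c i, hc i⟩ : ↥(ℚ⟮jq⟯))) h0 i
    exact congrArg Subtype.val this

/-- **The ratio field is the function field.** A rational Laurent series which is a ratio of
`q`-expansions of two modular forms of equal weight on `Γ₀(N)` lies in `ℚ(j(q^d) : d ∣ N)`, and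
conversely. -/
theorem ratFieldQ_eq_full (N : ℕ) [NeZero N] : ratFieldQ N = modularFunctionFieldFull N := by
  refine le_antisymm ?_ (full_le_ratFieldQ bridgeJ N)
  intro x hx
  obtain ⟨y, hy, hind⟩ := exists_independent_family N
  have hfull := full_le_ratFieldQ bridgeJ N
  obtain ⟨c, hc, rfl⟩ := span_of_le_ratFieldQ bridgeJ (ratFieldQ N) le_rfl
    (jq_mem_ratFieldQ bridgeJ N) y (fun i => hfull (hy i)) hind x hx
  have hle : ℚ⟮jq⟯ ≤ modularFunctionFieldFull N := by
    rw [adjoin_simple_le_iff]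
    have h := jqd_mem_full N (one_dvd N)
    rwa [qExpand_one_apply] at h
  exact sum_mem fun i _ => mul_mem (hle (hc i)) (hy i)

/-! ## The dictionary -/

/-- Rational power series as rational Laurent series. -/
abbrev ιQ : PowerSeries ℚ →+* LaurentSeries ℚ := HahnSeries.ofPowerSeries ℤ ℚ

lemma toC_ιQ (G : PowerSeries ℚ) : toC (ιQ G) = ιC (G.map (algebraMap ℚ ℂ)) :=
  coeffMap_ofPowerSeries (algebraMap ℚ ℂ) G

/-- **Dictionary, function level.** If `F, H` are (the functions of) modular forms of the same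
weight on `Γ₀(N)` whose `q`-expansions are the rational power series `G₁, G₂ ≠ 0`, then
`G₁ / G₂ ∈ ℚ(j(q^d) : d ∣ N)`. -/
theorem isMF_ratio_mem_full (N : ℕ) [NeZero N] {k : ℤ} {F H : ℍ → ℂ} (hF : IsMF N k F)
    (hH : IsMF N k H) (G₁ G₂ : PowerSeries ℚ)
    (h₁ : qExpansion 1 F = G₁.map (algebraMap ℚ ℂ))
    (h₂ : qExpansion 1 H = G₂.map (algebraMap ℚ ℂ)) (hG₂ : G₂ ≠ 0) :
    ιQ G₁ / ιQ G₂ ∈ modularFunctionFieldFull N := by
  rw [← ratFieldQ_eq_full, mem_ratFieldQ]
  have hH0 : H ≠ 0 := by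
    rintro rfl
    rw [UpperHalfPlane.qExpansion_zero] at h₂
    apply hG₂
    ext n
    have := congrArg (PowerSeries.coeff n) h₂
    rw [PowerSeries.coeff_map, map_zero] at this
    rw [map_zero]
    exact (algebraMap ℚ ℂ).injective (by rw [← this, map_zero])
  refine ⟨k, F, H, hF, hH, hH0, ?_⟩
  have hne : ιC (qExpansion 1 H) ≠ 0 := hH.ιC_qExpansion_ne_zero hH0
  rw [map_div₀, toC_ιQ, toC_ιQ, ← h₁, ← h₂, mul_div_cancel₀ _ hne]

/-- **Dictionary (S18-FFDICT).** A ratio of two modular forms of the same weight on `Γ₀(N)` with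
rational `q`-expansions `G₁`, `G₂ ≠ 0` lies in `modularFunctionFieldFull N`. -/
theorem ratio_mem_full (N : ℕ) [NeZero N] (k : ℤ) (g₁ g₂ : ModularForm (Gamma0 N) k)
    (G₁ G₂ : PowerSeries ℚ) (h₁ : qExpansion 1 g₁ = G₁.map (algebraMap ℚ ℂ))
    (h₂ : qExpansion 1 g₂ = G₂.map (algebraMap ℚ ℂ)) (hG₂ : G₂ ≠ 0) :
    HahnSeries.ofPowerSeries ℤ ℚ G₁ / HahnSeries.ofPowerSeries ℤ ℚ G₂ ∈
      modularFunctionFieldFull N :=
  isMF_ratio_mem_full N ⟨g₁, rfl⟩ ⟨g₂, rfl⟩ G₁ G₂ h₁ h₂ hG₂

/-- **Dictionary, `ℚ̄` form.** The same ratio, with coefficients embedded in `ℚ̄`, lies in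
`modularFunctionFieldBar N`. -/
theorem ratio_mem_bar (N : ℕ) [NeZero N] (k : ℤ) (g₁ g₂ : ModularForm (Gamma0 N) k)
    (G₁ G₂ : PowerSeries ℚ) (h₁ : qExpansion 1 g₁ = G₁.map (algebraMap ℚ ℂ))
    (h₂ : qExpansion 1 g₂ = G₂.map (algebraMap ℚ ℂ)) (hG₂ : G₂ ≠ 0) :
    coeffEmb (AlgebraicClosure ℚ)
        (HahnSeries.ofPowerSeries ℤ ℚ G₁ / HahnSeries.ofPowerSeries ℤ ℚ G₂) ∈
      modularFunctionFieldBar N :=
  coeffEmb_mem_laurentBaseChange _ (ratio_mem_full N k g₁ g₂ G₁ G₂ h₁ h₂ hG₂)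

end

end Fermat.Agent.S18.helper4181
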