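import Mathlib
import Fermat.Prelude.Def_ModularCurve_LaurentCoeff
import Fermat.Agent.S23.helper85_EsymmAdapters
import Fermat.Agent.Lib.helper941_LevelOneQExp
import Fermat.Agent.Lib.helper1219_NiceRing
import Fermat.Agent.S28.helper4768_DegSturm
import Fermat.Agent.S20.helper34_Index

/-!
# S18-CERTJ: monic norm relations with degree bounds, on both charts of the `j`-line

Let `𝒢` have finite index `n` in `𝒮ℒ`, and let `G` be a modular form of weight `12 M` on `𝒢`.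
The landed S23 relation `G ^ n + ∑_{i<n} ρ_i G ^ (n-1-i) = 0` (`ρ_i` level one forms of weight
`12 M (i+1)`, cusp forms if `G` is one) and the level one structure theorem give, for the
`q`-expansions:

* `x = G / Δ ^ M` is a root of a MONIC polynomial `X ^ n + ∑ P_i(j) X ^ (n-1-i)` with
  `deg P_i ≤ M (i+1)` (`< M (i+1)` for cusp forms): `x` is integral over `k[j]`;
* `z = G / E₄ ^ (3 M) = x / j ^ M` is a root of a MONIC polynomial with coefficients in `k[1/j]`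
  (in `(1/j) k[1/j]` for cusp forms): `z` is integral over `k[1/j]`, and `z ^ n ∈ (1/j) * (integral)`
  for cusp forms.

Both over `ℂ` (`LaurentSeries ℂ`, any `𝒢`) and over `ℚ` (`LaurentSeries ℚ`, `Γ₀(N)`, rational
`q`-expansions, `n = ψ(N)`), the latter by a `ℚ`-linear retraction `ℂ → ℚ`.
-/

set_option autoImplicit false

open UpperHalfPlane ModularForm SlashInvariantForm Polynomial EisensteinSeries ModularCurve
open scoped MatrixGroups Manifold

namespace Fermat.Agent.S18.helper4256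

open Fermat.Agent.Lib.helper1219 (IsNice niceSub qexpHom isNice_of_modularForm)
open Fermat.Agent.Lib.helper941 (E4s Δs)

local notation "Δ" => ModularForm.discriminant

/-! ### The relation for `q`-expansions -/

/-- A pointwise monic relation between nice functions passes to `q`-expansions. -/
theorem qExpansion_relation_of_fun (n : ℕ) (G : ℍ → ℂ) (ρ : ℕ → ℍ → ℂ) (hG : IsNice G)
    (hρ : ∀ i, IsNice (ρ i))
    (h : ∀ τ, G τ ^ n + ∑ i ∈ Finset.range n, ρ i τ * G τ ^ (n - 1 - i) = 0) :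
    qExpansion 1 G ^ n + ∑ i ∈ Finset.range n, qExpansion 1 (ρ i) * qExpansion 1 G ^ (n - 1 - i)
      = 0 := by
  let g : niceSub := ⟨G, hG⟩
  let r : ℕ → niceSub := fun i => ⟨ρ i, hρ i⟩
  have key : g ^ n + ∑ i ∈ Finset.range n, r i * g ^ (n - 1 - i) = 0 := by
    apply Subtype.ext
    funext τ
    have hval : ((g ^ n + ∑ i ∈ Finset.range n, r i * g ^ (n - 1 - i) : niceSub) : ℍ → ℂ) τ
        = G τ ^ n + ∑ i ∈ Finset.range n, ρ i τ * G τ ^ (n - 1 - i) := by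
      simp only [AddMemClass.coe_add, AddSubmonoidClass.coe_finsetSum, MulMemClass.coe_mul,
        SubmonoidClass.coe_pow, Finset.sum_apply, Pi.add_apply, Pi.mul_apply, Pi.pow_apply]
      rfl
    rw [hval, h τ]
    rfl
  have key2 := congrArg qexpHom key
  simp only [map_add, map_sum, map_mul, map_pow, map_zero] at key2
  exact key2

section Analytic

variable {𝒢 : Subgroup (GL (Fin 2) ℝ)} [𝒢.IsFiniteRelIndex 𝒮ℒ] {k : ℤ}

/-- The S23 monic relation for the `q`-expansion of a modular form. -/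
theorem qExpansion_monic_relation (h1 : (1 : ℝ) ∈ 𝒢.strictPeriods) (G : ModularForm 𝒢 k) :
    qExpansion 1 ⇑G ^ Nat.card (↥𝒮ℒ ⧸ 𝒢.subgroupOf 𝒮ℒ)
      + ∑ i ∈ Finset.range (Nat.card (↥𝒮ℒ ⧸ 𝒢.subgroupOf 𝒮ℒ)),
          qExpansion 1 ⇑(Fermat.Agent.S23.helper85.monicCoeffMF 𝒮ℒ G i)
            * qExpansion 1 ⇑G ^ (Nat.card (↥𝒮ℒ ⧸ 𝒢.subgroupOf 𝒮ℒ) - 1 - i) = 0 :=
  qExpansion_relation_of_fun _ ⇑G (fun i => ⇑(Fermat.Agent.S23.helper85.monicCoeffMF 𝒮ℒ G i))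
    (isNice_of_modularForm h1 G) (fun _ => isNice_of_modularForm one_mem_strictPeriods_SL _)
    (fun τ => Fermat.Agent.S23.helper85.monic_relation_range_MF 𝒮ℒ G τ)

/-- The S23 monic relation for the `q`-expansion of a cusp form. -/
theorem qExpansion_monic_relation_cusp (h1 : (1 : ℝ) ∈ 𝒢.strictPeriods) (G : CuspForm 𝒢 k) :
    qExpansion 1 ⇑G ^ Nat.card (↥𝒮ℒ ⧸ 𝒢.subgroupOf 𝒮ℒ)
      + ∑ i ∈ Finset.range (Nat.card (↥𝒮ℒ ⧸ 𝒢.subgroupOf 𝒮ℒ)),
          qExpansion 1 ⇑(Fermat.Agent.S23.helper85.monicCoeff 𝒮ℒ G i)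
            * qExpansion 1 ⇑G ^ (Nat.card (↥𝒮ℒ ⧸ 𝒢.subgroupOf 𝒮ℒ) - 1 - i) = 0 :=
  qExpansion_relation_of_fun _ ⇑G (fun i => ⇑(Fermat.Agent.S23.helper85.monicCoeff 𝒮ℒ G i))
    (isNice_of_modularForm h1 G) (fun _ => isNice_of_modularForm one_mem_strictPeriods_SL _)
    (fun τ => Fermat.Agent.S23.helper85.monic_relation_range 𝒮ℒ G τ)

end Analytic

/-! ### Level one forms -/

/-- Basis expansion of a level one form of weight `12 M`. -/
theorem levelOne_expansion (M : ℕ) {k : ℤ} (hk : k = 12 * (M : ℤ)) (g : ModularForm 𝒮ℒ k) :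
    ∃ c : ℕ → ℂ, qExpansion 1 ⇑g
      = ∑ b ∈ Finset.range (M + 1), PowerSeries.C (c b) * (E4s ^ (3 * (M - b)) * Δs ^ b) := by
  obtain ⟨c, -, h⟩ := Fermat.Agent.Lib.helper941.exists_basis_expansion ⊤ M hk g
    (fun _ => Subring.mem_top _)
  exact ⟨c, h⟩

/-- Basis expansion of a level one cusp form of weight `12 M`, `M > 0`: no `E₄ ^ (3 M)` term. -/
theorem levelOne_cusp_expansion (M : ℕ) (hM : 0 < M) {k : ℤ} (hk : k = 12 * (M : ℤ))
    (g : CuspForm 𝒮ℒ k) :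
    ∃ c : ℕ → ℂ, c 0 = 0 ∧ qExpansion 1 ⇑g
      = ∑ b ∈ Finset.range (M + 1), PowerSeries.C (c b) * (E4s ^ (3 * (M - b)) * Δs ^ b) := by
  obtain ⟨m, rfl⟩ : ∃ m, M = m + 1 := ⟨M - 1, by omega⟩
  have hk' : k - 12 = 12 * (m : ℤ) := by rw [hk]; push_cast; ring
  obtain ⟨c, hc⟩ := levelOne_expansion m hk' (CuspForm.discriminantEquiv g)
  have hfac : qExpansion 1 ⇑g = Δs * qExpansion 1 ⇑(CuspForm.discriminantEquiv g) := by
    rw [← Fermat.Agent.Lib.helper941.qExpansion_discriminant,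
      show (g : ℍ → ℂ) = Δ * ⇑(CuspForm.discriminantEquiv g) from
        (ModularForm.discriminant_mul_discriminantEquiv g).symm, ← CuspForm.coe_discriminant]
    exact ModularForm.qExpansion_mul_coe one_pos one_mem_strictPeriods_SL _ _
  refine ⟨fun b => if b = 0 then 0 else c (b - 1), by simp, ?_⟩
  rw [hfac, hc, Finset.mul_sum, Finset.sum_range_succ' _ (m + 1)]
  simp only [if_true, map_zero, zero_mul, add_zero, Nat.add_eq_zero_iff, one_ne_zero, and_false,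
    if_false, Nat.succ_sub_succ, Nat.sub_zero]
  refine Finset.sum_congr rfl fun b _ => ?_
  rw [pow_succ]
  ring

section Expansion

variable {𝒢 : Subgroup (GL (Fin 2) ℝ)} [𝒢.IsFiniteRelIndex 𝒮ℒ] {k : ℤ}

/-- **Expansion relation** (homogeneous form in `PowerSeries ℂ`) for a modular form of weight
`12 M`: `g ^ n + ∑_{i<n} (∑_{b ≤ M(i+1)} c_{i,b} E₄ ^ (3 (M(i+1) - b)) Δ ^ b) g ^ (n-1-i) = 0`. -/
theorem exists_expansion_relation (h1 : (1 : ℝ) ∈ 𝒢.strictPeriods) (M : ℕ)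
    (hk : k = 12 * (M : ℤ)) (G : ModularForm 𝒢 k) :
    ∃ c : ℕ → ℕ → ℂ,
      qExpansion 1 ⇑G ^ Nat.card (↥𝒮ℒ ⧸ 𝒢.subgroupOf 𝒮ℒ)
        + ∑ i ∈ Finset.range (Nat.card (↥𝒮ℒ ⧸ 𝒢.subgroupOf 𝒮ℒ)),
          (∑ b ∈ Finset.range (M * (i + 1) + 1),
              PowerSeries.C (c i b) * (E4s ^ (3 * (M * (i + 1) - b)) * Δs ^ b))
            * qExpansion 1 ⇑G ^ (Nat.card (↥𝒮ℒ ⧸ 𝒢.subgroupOf 𝒮ℒ) - 1 - i) = 0 := by
  have hki : ∀ i : ℕ, k * ((i : ℤ) + 1) = 12 * ((M * (i + 1) : ℕ) : ℤ) := fun i => by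
    rw [hk]; push_cast; ring
  choose c hc using fun i : ℕ => levelOne_expansion (M * (i + 1)) (hki i)
    (Fermat.Agent.S23.helper85.monicCoeffMF 𝒮ℒ G i)
  refine ⟨c, ?_⟩
  have h := qExpansion_monic_relation h1 G
  simp only [hc] at h
  exact h

/-- **Expansion relation for cusp forms** of weight `12 M`, `M > 0`: moreover `c_{i,0} = 0`. -/
theorem exists_expansion_relation_cusp (h1 : (1 : ℝ) ∈ 𝒢.strictPeriods) (M : ℕ) (hM : 0 < M)
    (hk : k = 12 * (M : ℤ)) (G : CuspForm 𝒢 k) :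
    ∃ c : ℕ → ℕ → ℂ, (∀ i, c i 0 = 0) ∧
      qExpansion 1 ⇑G ^ Nat.card (↥𝒮ℒ ⧸ 𝒢.subgroupOf 𝒮ℒ)
        + ∑ i ∈ Finset.range (Nat.card (↥𝒮ℒ ⧸ 𝒢.subgroupOf 𝒮ℒ)),
          (∑ b ∈ Finset.range (M * (i + 1) + 1),
              PowerSeries.C (c i b) * (E4s ^ (3 * (M * (i + 1) - b)) * Δs ^ b))
            * qExpansion 1 ⇑G ^ (Nat.card (↥𝒮ℒ ⧸ 𝒢.subgroupOf 𝒮ℒ) - 1 - i) = 0 := by
  have hki : ∀ i : ℕ, k * ((i : ℤ) + 1) = 12 * ((M * (i + 1) : ℕ) : ℤ) := fun i => by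
    rw [hk]; push_cast; ring
  choose c hc0 hc using fun i : ℕ => levelOne_cusp_expansion (M * (i + 1))
    (Nat.mul_pos hM (Nat.succ_pos i)) (hki i) (Fermat.Agent.S23.helper85.monicCoeff 𝒮ℒ G i)
  refine ⟨c, hc0, ?_⟩
  have h := qExpansion_monic_relation_cusp h1 G
  simp only [hc] at h
  exact h

end Expansion

/-! ### Generic algebra: from the expansion relation to the two charts -/

section GenericAlgebra

variable {K A : Type*} [Field K] [Field A] [Algebra K A]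

/-- `∑_{b ≤ m} c_b X ^ (m - b)`. -/
noncomputable def revPoly (m : ℕ) (c : ℕ → K) : K[X] :=
  ∑ b ∈ Finset.range (m + 1), C (c b) * X ^ (m - b)

/-- `∑_{b ≤ m} c_b X ^ b`. -/
noncomputable def strPoly (m : ℕ) (c : ℕ → K) : K[X] :=
  ∑ b ∈ Finset.range (m + 1), C (c b) * X ^ b

lemma natDegree_revPoly_le (m : ℕ) (c : ℕ → K) : (revPoly m c).natDegree ≤ m := by
  refine natDegree_sum_le_of_forall_le _ _ fun b _ => ?_
  exact (natDegree_C_mul_X_pow_le _ _).trans (Nat.sub_le _ _)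

lemma natDegree_revPoly_lt (m : ℕ) (hm : 0 < m) (c : ℕ → K) (h0 : c 0 = 0) :
    (revPoly m c).natDegree < m := by
  have h : (revPoly m c).natDegree ≤ m - 1 := by
    refine natDegree_sum_le_of_forall_le _ _ fun b _ => ?_
    rcases Nat.eq_zero_or_pos b with rfl | hb
    · rw [h0, map_zero, zero_mul, natDegree_zero]
      exact Nat.zero_le _
    · exact (natDegree_C_mul_X_pow_le _ _).trans (by omega)
  omega

lemma natDegree_strPoly_le (m : ℕ) (c : ℕ → K) : (strPoly m c).natDegree ≤ m := by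
  refine natDegree_sum_le_of_forall_le _ _ fun b hb => ?_
  exact (natDegree_C_mul_X_pow_le _ _).trans (Nat.lt_succ_iff.mp (Finset.mem_range.mp hb))

lemma coeff_zero_strPoly (m : ℕ) (c : ℕ → K) : (strPoly m c).coeff 0 = c 0 := by
  rw [strPoly, finsetSum_coeff, Finset.sum_eq_single 0]
  · simp
  · intro b _ hb
    rw [coeff_C_mul, coeff_X_pow, if_neg (Ne.symm hb), mul_zero]
  · intro h
    exact absurd (Finset.mem_range.mpr (Nat.succ_pos m)) h

lemma aeval_revPoly (t : A) (m : ℕ) (c : ℕ → K) :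
    aeval t (revPoly m c) = ∑ b ∈ Finset.range (m + 1), algebraMap K A (c b) * t ^ (m - b) := by
  simp [revPoly, map_sum]

lemma aeval_strPoly (t : A) (m : ℕ) (c : ℕ → K) :
    aeval t (strPoly m c) = ∑ b ∈ Finset.range (m + 1), algebraMap K A (c b) * t ^ b := by
  simp [strPoly, map_sum]

/-- **Finite chart.**  From the homogeneous expansion relation to the monic relation of
`g / d ^ M` over `K[jj]` (`jj * d = e ^ 3`). -/
theorem monic_relation_of_expansion (g e d jj : A) (hd : d ≠ 0) (hj : jj * d = e ^ 3)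
    (n M : ℕ) (c : ℕ → ℕ → K)
    (h : g ^ n + ∑ i ∈ Finset.range n,
        (∑ b ∈ Finset.range (M * (i + 1) + 1),
            algebraMap K A (c i b) * (e ^ (3 * (M * (i + 1) - b)) * d ^ b)) * g ^ (n - 1 - i) = 0) :
    (g / d ^ M) ^ n + ∑ i ∈ Finset.range n,
      aeval jj (revPoly (M * (i + 1)) (c i)) * (g / d ^ M) ^ (n - 1 - i) = 0 := by
  have hinner : ∀ i, ∑ b ∈ Finset.range (M * (i + 1) + 1),
      algebraMap K A (c i b) * (e ^ (3 * (M * (i + 1) - b)) * d ^ b)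
        = d ^ (M * (i + 1)) * aeval jj (revPoly (M * (i + 1)) (c i)) := by
    intro i
    rw [aeval_revPoly, Finset.mul_sum]
    refine Finset.sum_congr rfl fun b hb => ?_
    have hb' : b ≤ M * (i + 1) := Nat.lt_succ_iff.mp (Finset.mem_range.mp hb)
    have hpow : d ^ (M * (i + 1)) = d ^ (M * (i + 1) - b) * d ^ b := by
      rw [← pow_add, Nat.sub_add_cancel hb']
    rw [pow_mul, ← hj, mul_pow, hpow]
    ring
  have hmain : d ^ (M * n) * ((g / d ^ M) ^ n + ∑ i ∈ Finset.range n,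
      aeval jj (revPoly (M * (i + 1)) (c i)) * (g / d ^ M) ^ (n - 1 - i)) = 0 := by
    rw [← h, mul_add, Finset.mul_sum]
    congr 1
    · rw [div_pow, ← pow_mul]
      field_simp
    · refine Finset.sum_congr rfl fun i hi => ?_
      have hi' : i < n := Finset.mem_range.mp hi
      rw [hinner i]
      have hpow : d ^ (M * n) = d ^ (M * (i + 1)) * (d ^ M) ^ (n - 1 - i) := by
        rw [← pow_mul, ← pow_add, ← Nat.mul_add]
        congr 2
        omega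
      rw [hpow, div_pow]
      have hne : (d ^ M) ^ (n - 1 - i) ≠ 0 := pow_ne_zero _ (pow_ne_zero _ hd)
      field_simp
  exact (mul_eq_zero.mp hmain).resolve_left (pow_ne_zero _ hd)

/-- **Chart at infinity.**  From the homogeneous expansion relation to the monic relation of
`g / e ^ (3 M)` over `K[jj⁻¹]` (`jj * d = e ^ 3`). -/
theorem monic_relation_inv_of_expansion (g e d jj : A) (hd : d ≠ 0) (he : e ≠ 0)
    (hj : jj * d = e ^ 3) (n M : ℕ) (c : ℕ → ℕ → K)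
    (h : g ^ n + ∑ i ∈ Finset.range n,
        (∑ b ∈ Finset.range (M * (i + 1) + 1),
            algebraMap K A (c i b) * (e ^ (3 * (M * (i + 1) - b)) * d ^ b)) * g ^ (n - 1 - i) = 0) :
    (g / e ^ (3 * M)) ^ n + ∑ i ∈ Finset.range n,
      aeval jj⁻¹ (strPoly (M * (i + 1)) (c i)) * (g / e ^ (3 * M)) ^ (n - 1 - i) = 0 := by
  have he3 : e ^ 3 ≠ 0 := pow_ne_zero _ he
  have hjinv : jj⁻¹ = d / e ^ 3 := by
    have hjj : jj = e ^ 3 / d := by rw [← hj, mul_div_cancel_right₀ _ hd]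
    rw [hjj, inv_div]
  have hinner : ∀ i, ∑ b ∈ Finset.range (M * (i + 1) + 1),
      algebraMap K A (c i b) * (e ^ (3 * (M * (i + 1) - b)) * d ^ b)
        = (e ^ (3 * M)) ^ (i + 1) * aeval jj⁻¹ (strPoly (M * (i + 1)) (c i)) := by
    intro i
    rw [aeval_strPoly, Finset.mul_sum]
    refine Finset.sum_congr rfl fun b hb => ?_
    have hb' : b ≤ M * (i + 1) := Nat.lt_succ_iff.mp (Finset.mem_range.mp hb)
    have hpow : (e ^ (3 * M)) ^ (i + 1) = e ^ (3 * (M * (i + 1) - b)) * (e ^ 3) ^ b := by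
      rw [← pow_mul, ← pow_mul, ← pow_add]
      congr 1
      rw [Nat.mul_sub, Nat.mul_assoc]
      have : 3 * b ≤ 3 * (M * (i + 1)) := Nat.mul_le_mul_left 3 hb'
      omega
    rw [hpow, hjinv, div_pow]
    have hne : (e ^ 3) ^ b ≠ 0 := pow_ne_zero _ he3
    field_simp
  have hE : (e ^ (3 * M)) ≠ 0 := pow_ne_zero _ he
  have hmain : (e ^ (3 * M)) ^ n * ((g / e ^ (3 * M)) ^ n + ∑ i ∈ Finset.range n,
      aeval jj⁻¹ (strPoly (M * (i + 1)) (c i)) * (g / e ^ (3 * M)) ^ (n - 1 - i)) = 0 := by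
    rw [← h, mul_add, Finset.mul_sum]
    congr 1
    · rw [div_pow]
      have hne : (e ^ (3 * M)) ^ n ≠ 0 := pow_ne_zero _ hE
      field_simp
    · refine Finset.sum_congr rfl fun i hi => ?_
      have hi' : i < n := Finset.mem_range.mp hi
      rw [hinner i]
      have hpow : (e ^ (3 * M)) ^ n = (e ^ (3 * M)) ^ (i + 1) * (e ^ (3 * M)) ^ (n - 1 - i) := by
        rw [← pow_add]
        congr 1
        omega
      rw [hpow, div_pow]
      have hne : (e ^ (3 * M)) ^ (n - 1 - i) ≠ 0 := pow_ne_zero _ hE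
      field_simp
  exact (mul_eq_zero.mp hmain).resolve_left (pow_ne_zero _ hE)

end GenericAlgebra

section Integrality

variable {K A : Type*} [CommRing K] [CommRing A] [Algebra K A]

/-- A monic relation with coefficients polynomials in `t` gives integrality over `K[t]`. -/
theorem isIntegral_adjoin_of_relation (t x : A) (n : ℕ) (P : ℕ → K[X])
    (h : x ^ n + ∑ i ∈ Finset.range n, aeval t (P i) * x ^ (n - 1 - i) = 0) :
    IsIntegral (Algebra.adjoin K {t}) x := by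
  classical
  let a : ℕ → Algebra.adjoin K {t} := fun i =>
    ⟨aeval t (P i), aeval_mem_adjoin_singleton K t⟩
  have hdeg : (∑ i ∈ Finset.range n, C (a i) * X ^ (n - 1 - i) :
      (Algebra.adjoin K {t})[X]).degree < n := by
    refine (degree_sum_le _ _).trans_lt ?_
    refine (Finset.sup_lt_iff (WithBot.bot_lt_coe n)).mpr fun i hi => ?_
    have hi' : i < n := Finset.mem_range.mp hi
    refine (degree_C_mul_X_pow_le _ _).trans_lt ?_
    exact Nat.cast_lt.mpr (by omega)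
  refine ⟨X ^ n + ∑ i ∈ Finset.range n, C (a i) * X ^ (n - 1 - i), monic_X_pow_add hdeg, ?_⟩
  simp only [eval₂_add, eval₂_pow, eval₂_X, eval₂_finsetSum, eval₂_mul, eval₂_C]
  exact h

/-- If moreover all coefficient polynomials vanish at `0`, then `x ^ n = t * w` with `w` integral
over `K[t]`. -/
theorem exists_isIntegral_pow_eq_mul (t x : A) (n : ℕ) (P : ℕ → K[X])
    (hP : ∀ i, (P i).coeff 0 = 0)
    (h : x ^ n + ∑ i ∈ Finset.range n, aeval t (P i) * x ^ (n - 1 - i) = 0) :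
    ∃ w : A, IsIntegral (Algebra.adjoin K {t}) w ∧ x ^ n = t * w := by
  have hx : IsIntegral (Algebra.adjoin K {t}) x := isIntegral_adjoin_of_relation t x n P h
  have hdiv : ∀ i, aeval t (P i) = t * aeval t (divX (P i)) := by
    intro i
    have h1 := divX_mul_X_add (P i)
    rw [hP i, map_zero, add_zero] at h1
    conv_lhs => rw [← h1]
    rw [map_mul, aeval_X, mul_comm]
  refine ⟨-∑ i ∈ Finset.range n, aeval t (divX (P i)) * x ^ (n - 1 - i), ?_, ?_⟩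
  · refine IsIntegral.neg (IsIntegral.sum _ fun i _ => IsIntegral.mul ?_ (hx.pow _))
    exact isIntegral_algebraMap (R := Algebra.adjoin K {t})
      (x := (⟨aeval t (divX (P i)), aeval_mem_adjoin_singleton K t⟩ : Algebra.adjoin K {t}))
  · rw [mul_neg, Finset.mul_sum, eq_neg_iff_add_eq_zero, ← h]
    congr 1
    refine Finset.sum_congr rfl fun i _ => ?_
    rw [hdiv i]
    ring

end Integrality

/-! ### Laurent series bookkeeping -/

lemma ofPowerSeries_C_eq_algebraMap (K : Type*) [Field K] (c : K) :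
    HahnSeries.ofPowerSeries ℤ K (PowerSeries.C c) = algebraMap K (LaurentSeries K) c := by
  rw [HahnSeries.algebraMap_apply']
  simp

/-- Transport of an expansion relation from power series to Laurent series. -/
lemma laurent_expansion_relation (K : Type*) [Field K] (n M : ℕ) (g e d : PowerSeries K)
    (c : ℕ → ℕ → K)
    (h : g ^ n + ∑ i ∈ Finset.range n,
        (∑ b ∈ Finset.range (M * (i + 1) + 1),
            PowerSeries.C (c i b) * (e ^ (3 * (M * (i + 1) - b)) * d ^ b)) * g ^ (n - 1 - i) = 0) :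
    HahnSeries.ofPowerSeries ℤ K g ^ n + ∑ i ∈ Finset.range n,
        (∑ b ∈ Finset.range (M * (i + 1) + 1),
            algebraMap K (LaurentSeries K) (c i b) *
              (HahnSeries.ofPowerSeries ℤ K e ^ (3 * (M * (i + 1) - b)) *
                HahnSeries.ofPowerSeries ℤ K d ^ b)) *
          HahnSeries.ofPowerSeries ℤ K g ^ (n - 1 - i) = 0 := by
  have h2 := congrArg (HahnSeries.ofPowerSeries ℤ K) h
  simpa only [map_add, map_sum, map_mul, map_pow, map_zero, ofPowerSeries_C_eq_algebraMap]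
    using h2

/-! ### Complex forms -/

section ComplexForms

variable {𝒢 : Subgroup (GL (Fin 2) ℝ)} [𝒢.IsFiniteRelIndex 𝒮ℒ] {k : ℤ}

local notation "ι" => HahnSeries.ofPowerSeries ℤ ℂ

lemma iota_E4s_ne_zero : ι E4s ≠ 0 := by
  intro h
  have h2 : E4s = 0 := HahnSeries.ofPowerSeries_injective (by rw [h, map_zero])
  have h3 := Fermat.Agent.Lib.helper941.constantCoeff_E4s
  rw [h2, map_zero] at h3
  exact zero_ne_one h3

lemma iota_Δs_ne_zero : ι Δs ≠ 0 := by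
  intro h
  have h2 : Δs = 0 := HahnSeries.ofPowerSeries_injective (by rw [h, map_zero])
  have h3 : (PowerSeries.X : PowerSeries ℂ) = 0 := by
    have h4 := Fermat.Agent.Lib.helper941.Δs_eq
    rw [h2] at h4
    calc (PowerSeries.X : PowerSeries ℂ)
        = PowerSeries.X * Fermat.Agent.Lib.helper941.Us * Fermat.Agent.Lib.helper941.Uinvs := by
          rw [mul_assoc, Fermat.Agent.Lib.helper941.Us_mul_Uinvs, mul_one]
      _ = 0 := by rw [← h4, zero_mul]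
  exact PowerSeries.X_ne_zero h3

lemma jqModC_mul_iota_Δs : jqModC ℂ * ι Δs = ι E4s ^ 3 := by
  rw [Fermat.Agent.Lib.helper941.jqModC_mul_Δs, map_pow]

/-- **(T1) over `ℂ`.**  `G / Δ ^ M` is a root of a monic polynomial of degree `n = [𝒮ℒ : 𝒢]` over
`ℂ[j]`, with `deg P_i ≤ M (i + 1)`. -/
theorem exists_monic_relation_complex (h1 : (1 : ℝ) ∈ 𝒢.strictPeriods) (M : ℕ)
    (hk : k = 12 * (M : ℤ)) (G : ModularForm 𝒢 k) :
    ∃ P : ℕ → ℂ[X], (∀ i, (P i).natDegree ≤ M * (i + 1)) ∧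
      (ι (qExpansion 1 ⇑G) / ι (qExpansion 1 Δ) ^ M) ^ Nat.card (↥𝒮ℒ ⧸ 𝒢.subgroupOf 𝒮ℒ)
        + ∑ i ∈ Finset.range (Nat.card (↥𝒮ℒ ⧸ 𝒢.subgroupOf 𝒮ℒ)),
          aeval (jqModC ℂ) (P i) * (ι (qExpansion 1 ⇑G) / ι (qExpansion 1 Δ) ^ M)
            ^ (Nat.card (↥𝒮ℒ ⧸ 𝒢.subgroupOf 𝒮ℒ) - 1 - i) = 0 := by
  obtain ⟨c, hc⟩ := exists_expansion_relation h1 M hk G
  refine ⟨fun i => revPoly (M * (i + 1)) (c i), fun i => natDegree_revPoly_le _ _, ?_⟩
  rw [Fermat.Agent.Lib.helper941.qExpansion_discriminant]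
  exact monic_relation_of_expansion _ (ι E4s) (ι Δs) (jqModC ℂ) iota_Δs_ne_zero
    jqModC_mul_iota_Δs _ M c (laurent_expansion_relation ℂ _ M _ _ _ c hc)

/-- **(T1) over `ℂ`, cusp forms**: `deg P_i < M (i + 1)`. -/
theorem exists_monic_relation_complex_cusp (h1 : (1 : ℝ) ∈ 𝒢.strictPeriods) (M : ℕ) (hM : 0 < M)
    (hk : k = 12 * (M : ℤ)) (G : CuspForm 𝒢 k) :
    ∃ P : ℕ → ℂ[X], (∀ i, (P i).natDegree < M * (i + 1)) ∧
      (ι (qExpansion 1 ⇑G) / ι (qExpansion 1 Δ) ^ M) ^ Nat.card (↥𝒮ℒ ⧸ 𝒢.subgroupOf 𝒮ℒ)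
        + ∑ i ∈ Finset.range (Nat.card (↥𝒮ℒ ⧸ 𝒢.subgroupOf 𝒮ℒ)),
          aeval (jqModC ℂ) (P i) * (ι (qExpansion 1 ⇑G) / ι (qExpansion 1 Δ) ^ M)
            ^ (Nat.card (↥𝒮ℒ ⧸ 𝒢.subgroupOf 𝒮ℒ) - 1 - i) = 0 := by
  obtain ⟨c, hc0, hc⟩ := exists_expansion_relation_cusp h1 M hM hk G
  refine ⟨fun i => revPoly (M * (i + 1)) (c i),
    fun i => natDegree_revPoly_lt _ (Nat.mul_pos hM (Nat.succ_pos i)) _ (hc0 i), ?_⟩
  rw [Fermat.Agent.Lib.helper941.qExpansion_discriminant]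
  exact monic_relation_of_expansion _ (ι E4s) (ι Δs) (jqModC ℂ) iota_Δs_ne_zero
    jqModC_mul_iota_Δs _ M c (laurent_expansion_relation ℂ _ M _ _ _ c hc)

/-- **(T2) over `ℂ`.**  `G / E₄ ^ (3 M)` is a root of a monic polynomial of degree `n` over
`ℂ[1/j]`. -/
theorem exists_monic_relation_complex_inv (h1 : (1 : ℝ) ∈ 𝒢.strictPeriods) (M : ℕ)
    (hk : k = 12 * (M : ℤ)) (G : ModularForm 𝒢 k) :
    ∃ Q : ℕ → ℂ[X], (∀ i, (Q i).natDegree ≤ M * (i + 1)) ∧
      (ι (qExpansion 1 ⇑G) / ι (qExpansion 1 ⇑E₄) ^ (3 * M)) ^ Nat.card (↥𝒮ℒ ⧸ 𝒢.subgroupOf 𝒮ℒ)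
        + ∑ i ∈ Finset.range (Nat.card (↥𝒮ℒ ⧸ 𝒢.subgroupOf 𝒮ℒ)),
          aeval (jqModC ℂ)⁻¹ (Q i) * (ι (qExpansion 1 ⇑G) / ι (qExpansion 1 ⇑E₄) ^ (3 * M))
            ^ (Nat.card (↥𝒮ℒ ⧸ 𝒢.subgroupOf 𝒮ℒ) - 1 - i) = 0 := by
  obtain ⟨c, hc⟩ := exists_expansion_relation h1 M hk G
  refine ⟨fun i => strPoly (M * (i + 1)) (c i), fun i => natDegree_strPoly_le _ _, ?_⟩
  rw [Fermat.Agent.Lib.helper941.qExpansion_E₄]
  exact monic_relation_inv_of_expansion _ (ι E4s) (ι Δs) (jqModC ℂ) iota_Δs_ne_zero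
    iota_E4s_ne_zero jqModC_mul_iota_Δs _ M c (laurent_expansion_relation ℂ _ M _ _ _ c hc)

/-- **(T2) over `ℂ`, cusp forms**: the coefficients lie in `(1/j) ℂ[1/j]`. -/
theorem exists_monic_relation_complex_inv_cusp (h1 : (1 : ℝ) ∈ 𝒢.strictPeriods) (M : ℕ)
    (hM : 0 < M) (hk : k = 12 * (M : ℤ)) (G : CuspForm 𝒢 k) :
    ∃ Q : ℕ → ℂ[X], (∀ i, (Q i).natDegree ≤ M * (i + 1)) ∧ (∀ i, (Q i).coeff 0 = 0) ∧
      (ι (qExpansion 1 ⇑G) / ι (qExpansion 1 ⇑E₄) ^ (3 * M)) ^ Nat.card (↥𝒮ℒ ⧸ 𝒢.subgroupOf 𝒮ℒ)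
        + ∑ i ∈ Finset.range (Nat.card (↥𝒮ℒ ⧸ 𝒢.subgroupOf 𝒮ℒ)),
          aeval (jqModC ℂ)⁻¹ (Q i) * (ι (qExpansion 1 ⇑G) / ι (qExpansion 1 ⇑E₄) ^ (3 * M))
            ^ (Nat.card (↥𝒮ℒ ⧸ 𝒢.subgroupOf 𝒮ℒ) - 1 - i) = 0 := by
  obtain ⟨c, hc0, hc⟩ := exists_expansion_relation_cusp h1 M hM hk G
  refine ⟨fun i => strPoly (M * (i + 1)) (c i), fun i => natDegree_strPoly_le _ _,
    fun i => by rw [coeff_zero_strPoly, hc0 i], ?_⟩
  rw [Fermat.Agent.Lib.helper941.qExpansion_E₄]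
  exact monic_relation_inv_of_expansion _ (ι E4s) (ι Δs) (jqModC ℂ) iota_Δs_ne_zero
    iota_E4s_ne_zero jqModC_mul_iota_Δs _ M c (laurent_expansion_relation ℂ _ M _ _ _ c hc)

/-- `G / Δ ^ M` is integral over `ℂ[j]`. -/
theorem isIntegral_complex_div_disc (h1 : (1 : ℝ) ∈ 𝒢.strictPeriods) (M : ℕ)
    (hk : k = 12 * (M : ℤ)) (G : ModularForm 𝒢 k) :
    IsIntegral (Algebra.adjoin ℂ {jqModC ℂ}) (ι (qExpansion 1 ⇑G) / ι (qExpansion 1 Δ) ^ M) := by
  obtain ⟨P, -, hP⟩ := exists_monic_relation_complex h1 M hk G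
  exact isIntegral_adjoin_of_relation _ _ _ P hP

/-- `G / E₄ ^ (3 M)` is integral over `ℂ[1/j]`. -/
theorem isIntegral_complex_div_E4 (h1 : (1 : ℝ) ∈ 𝒢.strictPeriods) (M : ℕ)
    (hk : k = 12 * (M : ℤ)) (G : ModularForm 𝒢 k) :
    IsIntegral (Algebra.adjoin ℂ {(jqModC ℂ)⁻¹})
      (ι (qExpansion 1 ⇑G) / ι (qExpansion 1 ⇑E₄) ^ (3 * M)) := by
  obtain ⟨Q, -, hQ⟩ := exists_monic_relation_complex_inv h1 M hk G
  exact isIntegral_adjoin_of_relation _ _ _ Q hQ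

/-- Cusp forms: `(G / E₄ ^ (3 M)) ^ n = (1/j) * w` with `w` integral over `ℂ[1/j]`. -/
theorem exists_isIntegral_complex_cusp (h1 : (1 : ℝ) ∈ 𝒢.strictPeriods) (M : ℕ) (hM : 0 < M)
    (hk : k = 12 * (M : ℤ)) (G : CuspForm 𝒢 k) :
    ∃ w : LaurentSeries ℂ, IsIntegral (Algebra.adjoin ℂ {(jqModC ℂ)⁻¹}) w ∧
      (ι (qExpansion 1 ⇑G) / ι (qExpansion 1 ⇑E₄) ^ (3 * M)) ^ Nat.card (↥𝒮ℒ ⧸ 𝒢.subgroupOf 𝒮ℒ)
        = (jqModC ℂ)⁻¹ * w := by
  obtain ⟨Q, -, hQ0, hQ⟩ := exists_monic_relation_complex_inv_cusp h1 M hM hk G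
  exact exists_isIntegral_pow_eq_mul _ _ _ Q hQ0 hQ

end ComplexForms

/-! ### Rational forms on `Γ₀(N)` -/

section RationalForms

open Fermat.Agent.S28.helper4768 (G0 toC IsQExp E4Q DeltaQ DeltaL ofPS)

/-- A `ℚ`-linear retraction of `ℚ → ℂ`. -/
lemma exists_retraction : ∃ φ : ℂ →ₗ[ℚ] ℚ, ∀ r : ℚ, φ (algebraMap ℚ ℂ r) = r := by
  obtain ⟨φ, hφ⟩ := Module.Projective.exists_dual_ne_zero ℚ (one_ne_zero : (1 : ℂ) ≠ 0)
  refine ⟨(φ 1)⁻¹ • φ, fun r => ?_⟩
  rw [Algebra.algebraMap_eq_smul_one, LinearMap.smul_apply, map_smul, smul_eq_mul, smul_eq_mul]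
  field_simp

lemma toC_E4Q_eq : toC E4Q = E4s := Fermat.Agent.S28.helper4768.toC_E4Q

lemma toC_DeltaQ_eq : toC DeltaQ = Δs := by
  rw [Fermat.Agent.S28.helper4768.toC_DeltaQ, Δs, map_mul, PowerSeries.map_X]

/-- Coefficientwise descent of a linear relation with a distinguished rational term. -/
lemma descent_aux (A : PowerSeries ℚ) (t : Finset ℕ) (u : ℕ → Finset ℕ)
    (B : ℕ → ℕ → PowerSeries ℚ) (c : ℕ → ℕ → ℂ)
    (h : toC A + ∑ i ∈ t, ∑ b ∈ u i, PowerSeries.C (c i b) * toC (B i b) = 0)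
    (φ : ℂ →ₗ[ℚ] ℚ) (hφ : ∀ r : ℚ, φ (algebraMap ℚ ℂ r) = r) :
    A + ∑ i ∈ t, ∑ b ∈ u i, PowerSeries.C (φ (c i b)) * B i b = 0 := by
  have hmul : ∀ (z : ℂ) (r : ℚ), φ (z * algebraMap ℚ ℂ r) = φ z * r := fun z r => by
    have h1 : z * algebraMap ℚ ℂ r = r • z := by rw [Algebra.smul_def, mul_comm]
    rw [h1, map_smul, smul_eq_mul, mul_comm]
  ext m
  have hm := congrArg (PowerSeries.coeff m) h
  simp only [map_add, map_sum, PowerSeries.coeff_C_mul, PowerSeries.coeff_map, map_zero] at hm ⊢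
  have hm' := congrArg φ hm
  simp only [map_add, map_sum, map_zero, hmul, hφ] at hm'
  exact hm'

/-- **Descent** of the expansion relation from `ℂ⟦q⟧` to `ℚ⟦q⟧`. -/
theorem descent_expansion_relation (n M : ℕ) (s : PowerSeries ℚ) (c : ℕ → ℕ → ℂ)
    (h : toC s ^ n + ∑ i ∈ Finset.range n,
        (∑ b ∈ Finset.range (M * (i + 1) + 1),
            PowerSeries.C (c i b) * (E4s ^ (3 * (M * (i + 1) - b)) * Δs ^ b))
          * toC s ^ (n - 1 - i) = 0) :
    ∃ c' : ℕ → ℕ → ℚ, (∀ i b, c i b = 0 → c' i b = 0) ∧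
      s ^ n + ∑ i ∈ Finset.range n,
        (∑ b ∈ Finset.range (M * (i + 1) + 1),
            PowerSeries.C (c' i b) * (E4Q ^ (3 * (M * (i + 1) - b)) * DeltaQ ^ b))
          * s ^ (n - 1 - i) = 0 := by
  obtain ⟨φ, hφ⟩ := exists_retraction
  refine ⟨fun i b => φ (c i b), fun i b h0 => by simp only [h0, map_zero], ?_⟩
  have h' : toC (s ^ n) + ∑ i ∈ Finset.range n, ∑ b ∈ Finset.range (M * (i + 1) + 1),
      PowerSeries.C (c i b) *
        toC (E4Q ^ (3 * (M * (i + 1) - b)) * DeltaQ ^ b * s ^ (n - 1 - i)) = 0 := by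
    rw [← h, map_pow]
    congr 1
    refine Finset.sum_congr rfl fun i _ => ?_
    rw [Finset.sum_mul]
    refine Finset.sum_congr rfl fun b _ => ?_
    rw [map_mul, map_mul, map_pow, map_pow, map_pow, toC_E4Q_eq, toC_DeltaQ_eq]
    ring
  have h2 := descent_aux (s ^ n) (Finset.range n) (fun i => Finset.range (M * (i + 1) + 1))
    (fun i b => E4Q ^ (3 * (M * (i + 1) - b)) * DeltaQ ^ b * s ^ (n - 1 - i)) c h' φ hφ
  rw [← h2]
  congr 1
  refine Finset.sum_congr rfl fun i _ => ?_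
  rw [Finset.sum_mul]
  refine Finset.sum_congr rfl fun b _ => ?_
  ring

variable (N : ℕ) [NeZero N]

/-- **Rational expansion relation** for a modular form of weight `12 M` on `Γ₀(N)` with rational
`q`-expansion `s`; `ψ = ψ(N) = [SL₂(ℤ) : Γ₀(N)]`. -/
theorem exists_rat_expansion_relation (M : ℕ) {s : PowerSeries ℚ}
    (hs : IsQExp N (12 * (M : ℤ)) s) :
    ∃ c : ℕ → ℕ → ℚ,
      s ^ dedekindPsi N + ∑ i ∈ Finset.range (dedekindPsi N),
        (∑ b ∈ Finset.range (M * (i + 1) + 1),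
            PowerSeries.C (c i b) * (E4Q ^ (3 * (M * (i + 1) - b)) * DeltaQ ^ b))
          * s ^ (dedekindPsi N - 1 - i) = 0 := by
  obtain ⟨G, hG⟩ := hs
  obtain ⟨c, hc⟩ := exists_expansion_relation (𝒢 := G0 N)
    (Fermat.Agent.S28.helper4768.one_mem_strictPeriods_G0 N) M rfl G
  rw [Fermat.Agent.S20.helper34.card_quotient_Gamma0 N, hG] at hc
  obtain ⟨c', -, hc'⟩ := descent_expansion_relation _ M s c hc
  exact ⟨c', hc'⟩

/-- **Rational expansion relation for cusp forms**: moreover `c_{i,0} = 0`. -/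
theorem exists_rat_expansion_relation_cusp (M : ℕ) (hM : 0 < M) {s : PowerSeries ℚ}
    (f : CuspForm (G0 N) (12 * (M : ℤ))) (hf : qExpansion 1 ⇑f = toC s) :
    ∃ c : ℕ → ℕ → ℚ, (∀ i, c i 0 = 0) ∧
      s ^ dedekindPsi N + ∑ i ∈ Finset.range (dedekindPsi N),
        (∑ b ∈ Finset.range (M * (i + 1) + 1),
            PowerSeries.C (c i b) * (E4Q ^ (3 * (M * (i + 1) - b)) * DeltaQ ^ b))
          * s ^ (dedekindPsi N - 1 - i) = 0 := by
  obtain ⟨c, hc0, hc⟩ := exists_expansion_relation_cusp (𝒢 := G0 N)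
    (Fermat.Agent.S28.helper4768.one_mem_strictPeriods_G0 N) M hM rfl f
  rw [Fermat.Agent.S20.helper34.card_quotient_Gamma0 N, hf] at hc
  obtain ⟨c', hc'0, hc'⟩ := descent_expansion_relation _ M s c hc
  exact ⟨c', fun i => hc'0 i 0 (hc0 i), hc'⟩

end RationalForms

/-! ### Rational Laurent forms: the two charts of the `j`-line over `ℚ` -/

section RationalLaurent

open Fermat.Agent.S28.helper4768 (G0 toC IsQExp E4Q DeltaQ DeltaL ofPS)

lemma ofPS_E4Q_ne_zero : ofPS E4Q ≠ 0 := by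
  refine Fermat.Agent.S28.helper4768.ofPS_ne_zero fun h => ?_
  have h1 : PowerSeries.constantCoeff E4Q = 1 := by
    rw [E4Q, ← PowerSeries.coeff_zero_eq_constantCoeff_apply, PowerSeries.coeff_map,
      PowerSeries.coeff_zero_eq_constantCoeff_apply, constantCoeff_eisenstein4, map_one]
  rw [h, map_zero] at h1
  exact zero_ne_one h1

lemma jq_mul_ofPS_DeltaQ_pow : jq * ofPS DeltaQ = ofPS E4Q ^ 3 := by
  rw [Fermat.Agent.S28.helper4768.jq_mul_ofPS_DeltaQ, map_pow]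

variable (N : ℕ) [NeZero N]

/-- **(T1) over `ℚ`.**  For a modular form of weight `12 M` on `Γ₀(N)` with rational `q`-expansion
`s`, `x = s / Δ ^ M` is a root of a monic polynomial of degree `ψ(N)` over `ℚ[j]` with
`deg P_i ≤ M (i + 1)`. -/
theorem exists_monic_relation_jq (M : ℕ) {s : PowerSeries ℚ} (hs : IsQExp N (12 * (M : ℤ)) s) :
    ∃ P : ℕ → ℚ[X], (∀ i, (P i).natDegree ≤ M * (i + 1)) ∧
      (ofPS s / DeltaL ^ M) ^ dedekindPsi N + ∑ i ∈ Finset.range (dedekindPsi N),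
        aeval jq (P i) * (ofPS s / DeltaL ^ M) ^ (dedekindPsi N - 1 - i) = 0 := by
  obtain ⟨c, hc⟩ := exists_rat_expansion_relation N M hs
  refine ⟨fun i => revPoly (M * (i + 1)) (c i), fun i => natDegree_revPoly_le _ _, ?_⟩
  exact monic_relation_of_expansion (ofPS s) (ofPS E4Q) (ofPS DeltaQ) jq
    Fermat.Agent.S28.helper4768.DeltaL_ne_zero jq_mul_ofPS_DeltaQ_pow _ M c
    (laurent_expansion_relation ℚ _ M _ _ _ c hc)

/-- **(T1) over `ℚ`, cusp forms**: `deg P_i < M (i + 1)`. -/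
theorem exists_monic_relation_jq_cusp (M : ℕ) (hM : 0 < M) {s : PowerSeries ℚ}
    (f : CuspForm (G0 N) (12 * (M : ℤ))) (hf : qExpansion 1 ⇑f = toC s) :
    ∃ P : ℕ → ℚ[X], (∀ i, (P i).natDegree < M * (i + 1)) ∧
      (ofPS s / DeltaL ^ M) ^ dedekindPsi N + ∑ i ∈ Finset.range (dedekindPsi N),
        aeval jq (P i) * (ofPS s / DeltaL ^ M) ^ (dedekindPsi N - 1 - i) = 0 := by
  obtain ⟨c, hc0, hc⟩ := exists_rat_expansion_relation_cusp N M hM f hf
  refine ⟨fun i => revPoly (M * (i + 1)) (c i),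
    fun i => natDegree_revPoly_lt _ (Nat.mul_pos hM (Nat.succ_pos i)) _ (hc0 i), ?_⟩
  exact monic_relation_of_expansion (ofPS s) (ofPS E4Q) (ofPS DeltaQ) jq
    Fermat.Agent.S28.helper4768.DeltaL_ne_zero jq_mul_ofPS_DeltaQ_pow _ M c
    (laurent_expansion_relation ℚ _ M _ _ _ c hc)

/-- **(T2) over `ℚ`.**  `z = s / E₄ ^ (3 M)` is a root of a monic polynomial of degree `ψ(N)` over
`ℚ[1/j]`. -/
theorem exists_monic_relation_jq_inv (M : ℕ) {s : PowerSeries ℚ}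
    (hs : IsQExp N (12 * (M : ℤ)) s) :
    ∃ Q : ℕ → ℚ[X], (∀ i, (Q i).natDegree ≤ M * (i + 1)) ∧
      (ofPS s / ofPS E4Q ^ (3 * M)) ^ dedekindPsi N + ∑ i ∈ Finset.range (dedekindPsi N),
        aeval jq⁻¹ (Q i) * (ofPS s / ofPS E4Q ^ (3 * M)) ^ (dedekindPsi N - 1 - i) = 0 := by
  obtain ⟨c, hc⟩ := exists_rat_expansion_relation N M hs
  refine ⟨fun i => strPoly (M * (i + 1)) (c i), fun i => natDegree_strPoly_le _ _, ?_⟩
  exact monic_relation_inv_of_expansion (ofPS s) (ofPS E4Q) (ofPS DeltaQ) jq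
    Fermat.Agent.S28.helper4768.DeltaL_ne_zero ofPS_E4Q_ne_zero jq_mul_ofPS_DeltaQ_pow _ M c
    (laurent_expansion_relation ℚ _ M _ _ _ c hc)

/-- **(T2) over `ℚ`, cusp forms**: the coefficients lie in `(1/j) ℚ[1/j]`. -/
theorem exists_monic_relation_jq_inv_cusp (M : ℕ) (hM : 0 < M) {s : PowerSeries ℚ}
    (f : CuspForm (G0 N) (12 * (M : ℤ))) (hf : qExpansion 1 ⇑f = toC s) :
    ∃ Q : ℕ → ℚ[X], (∀ i, (Q i).natDegree ≤ M * (i + 1)) ∧ (∀ i, (Q i).coeff 0 = 0) ∧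
      (ofPS s / ofPS E4Q ^ (3 * M)) ^ dedekindPsi N + ∑ i ∈ Finset.range (dedekindPsi N),
        aeval jq⁻¹ (Q i) * (ofPS s / ofPS E4Q ^ (3 * M)) ^ (dedekindPsi N - 1 - i) = 0 := by
  obtain ⟨c, hc0, hc⟩ := exists_rat_expansion_relation_cusp N M hM f hf
  refine ⟨fun i => strPoly (M * (i + 1)) (c i), fun i => natDegree_strPoly_le _ _,
    fun i => by rw [coeff_zero_strPoly, hc0 i], ?_⟩
  exact monic_relation_inv_of_expansion (ofPS s) (ofPS E4Q) (ofPS DeltaQ) jq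
    Fermat.Agent.S28.helper4768.DeltaL_ne_zero ofPS_E4Q_ne_zero jq_mul_ofPS_DeltaQ_pow _ M c
    (laurent_expansion_relation ℚ _ M _ _ _ c hc)

/-- `s / Δ ^ M` is integral over `ℚ[j]`. -/
theorem isIntegral_div_DeltaL_pow (M : ℕ) {s : PowerSeries ℚ} (hs : IsQExp N (12 * (M : ℤ)) s) :
    IsIntegral (Algebra.adjoin ℚ {jq}) (ofPS s / DeltaL ^ M) := by
  obtain ⟨P, -, hP⟩ := exists_monic_relation_jq N M hs
  exact isIntegral_adjoin_of_relation _ _ _ P hP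

/-- `s / E₄ ^ (3 M)` is integral over `ℚ[1/j]`. -/
theorem isIntegral_div_E4Q_pow (M : ℕ) {s : PowerSeries ℚ} (hs : IsQExp N (12 * (M : ℤ)) s) :
    IsIntegral (Algebra.adjoin ℚ {jq⁻¹}) (ofPS s / ofPS E4Q ^ (3 * M)) := by
  obtain ⟨Q, -, hQ⟩ := exists_monic_relation_jq_inv N M hs
  exact isIntegral_adjoin_of_relation _ _ _ Q hQ

/-- Cusp forms: `(s / E₄ ^ (3 M)) ^ ψ(N) = (1/j) * w` with `w` integral over `ℚ[1/j]`. -/
theorem exists_isIntegral_cusp (M : ℕ) (hM : 0 < M) {s : PowerSeries ℚ}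
    (f : CuspForm (G0 N) (12 * (M : ℤ))) (hf : qExpansion 1 ⇑f = toC s) :
    ∃ w : LaurentSeries ℚ, IsIntegral (Algebra.adjoin ℚ {jq⁻¹}) w ∧
      (ofPS s / ofPS E4Q ^ (3 * M)) ^ dedekindPsi N = jq⁻¹ * w := by
  obtain ⟨Q, -, hQ0, hQ⟩ := exists_monic_relation_jq_inv_cusp N M hM f hf
  exact exists_isIntegral_pow_eq_mul _ _ _ Q hQ0 hQ

/-- The two elements are related by `x = z * j ^ M`. -/
theorem div_DeltaL_eq_div_E4Q_mul (M : ℕ) (s : PowerSeries ℚ) :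
    ofPS s / DeltaL ^ M = ofPS s / ofPS E4Q ^ (3 * M) * jq ^ M := by
  have hd : DeltaL ≠ 0 := Fermat.Agent.S28.helper4768.DeltaL_ne_zero
  have he : ofPS E4Q ≠ 0 := ofPS_E4Q_ne_zero
  have hj : jq = ofPS E4Q ^ 3 / DeltaL := by
    rw [← jq_mul_ofPS_DeltaQ_pow]
    exact (mul_div_cancel_right₀ _ hd).symm
  rw [hj, div_pow, ← pow_mul]
  field_simp

end RationalLaurent

/-! ### Base change to any field of characteristic zero -/

section BaseChange

variable (L : Type*) [Field L] [Algebra ℚ L]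

lemma coeffEmb_aeval (t : LaurentSeries ℚ) (P : ℚ[X]) :
    coeffEmb L (aeval t P) = aeval (coeffEmb L t) (P.map (algebraMap ℚ L)) := by
  rw [aeval_def, aeval_def, hom_eval₂, eval₂_map]
  congr 1
  exact RingHom.ext_rat _ _

/-- Base change of a monic relation along `coeffEmb L`. -/
theorem coeffEmb_monic_relation (t x : LaurentSeries ℚ) (n : ℕ) (P : ℕ → ℚ[X])
    (h : x ^ n + ∑ i ∈ Finset.range n, aeval t (P i) * x ^ (n - 1 - i) = 0) :
    coeffEmb L x ^ n + ∑ i ∈ Finset.range n,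
      aeval (coeffEmb L t) ((P i).map (algebraMap ℚ L)) * coeffEmb L x ^ (n - 1 - i) = 0 := by
  have h2 := congrArg (coeffEmb L) h
  simpa only [map_add, map_sum, map_mul, map_pow, map_zero, coeffEmb_aeval] using h2

/-- `Fin`-indexed form of a monic relation. -/
theorem monic_relation_fin {K A : Type*} [CommRing K] [CommRing A] [Algebra K A] (t x : A)
    (n : ℕ) (P : ℕ → K[X])
    (h : x ^ n + ∑ i ∈ Finset.range n, aeval t (P i) * x ^ (n - 1 - i) = 0) :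
    x ^ n + ∑ i : Fin n, aeval t (P i) * x ^ (n - 1 - (i : ℕ)) = 0 := by
  rw [Fin.sum_univ_eq_sum_range (fun i => aeval t (P i) * x ^ (n - 1 - i))]
  exact h

end BaseChange

/-! ### The certificates over any field `L ⊇ ℚ` (e.g. `L = AlgebraicClosure ℚ`) -/

section BaseChangeForms

open Fermat.Agent.S28.helper4768 (G0 toC IsQExp E4Q DeltaQ DeltaL ofPS)

variable (L : Type*) [Field L] [Algebra ℚ L] (N : ℕ) [NeZero N]

/-- (T1) over `L`, `Fin`-indexed: modular forms. -/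
theorem exists_monic_relation_coeffEmb (M : ℕ) {s : PowerSeries ℚ}
    (hs : IsQExp N (12 * (M : ℤ)) s) :
    ∃ P : Fin (dedekindPsi N) → L[X], (∀ i, (P i).natDegree ≤ M * ((i : ℕ) + 1)) ∧
      coeffEmb L (ofPS s / DeltaL ^ M) ^ dedekindPsi N + ∑ i : Fin (dedekindPsi N),
        aeval (coeffEmb L jq) (P i) *
          coeffEmb L (ofPS s / DeltaL ^ M) ^ (dedekindPsi N - 1 - (i : ℕ)) = 0 := by
  obtain ⟨P, hPdeg, hP⟩ := exists_monic_relation_jq N M hs
  refine ⟨fun i => (P i).map (algebraMap ℚ L), fun i => natDegree_map_le.trans (hPdeg i), ?_⟩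
  exact monic_relation_fin _ _ _ (fun i => (P i).map (algebraMap ℚ L))
    (coeffEmb_monic_relation L _ _ _ P hP)

/-- (T1) over `L`, `Fin`-indexed: cusp forms, `deg P_i < M (i + 1)`. -/
theorem exists_monic_relation_coeffEmb_cusp (M : ℕ) (hM : 0 < M) {s : PowerSeries ℚ}
    (f : CuspForm (G0 N) (12 * (M : ℤ))) (hf : qExpansion 1 ⇑f = toC s) :
    ∃ P : Fin (dedekindPsi N) → L[X], (∀ i, (P i).natDegree < M * ((i : ℕ) + 1)) ∧
      coeffEmb L (ofPS s / DeltaL ^ M) ^ dedekindPsi N + ∑ i : Fin (dedekindPsi N),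
        aeval (coeffEmb L jq) (P i) *
          coeffEmb L (ofPS s / DeltaL ^ M) ^ (dedekindPsi N - 1 - (i : ℕ)) = 0 := by
  obtain ⟨P, hPdeg, hP⟩ := exists_monic_relation_jq_cusp N M hM f hf
  refine ⟨fun i => (P i).map (algebraMap ℚ L),
    fun i => lt_of_le_of_lt natDegree_map_le (hPdeg i), ?_⟩
  exact monic_relation_fin _ _ _ (fun i => (P i).map (algebraMap ℚ L))
    (coeffEmb_monic_relation L _ _ _ P hP)

/-- `s / Δ ^ M` is integral over `L[j]`. -/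
theorem isIntegral_coeffEmb_div_DeltaL_pow (M : ℕ) {s : PowerSeries ℚ}
    (hs : IsQExp N (12 * (M : ℤ)) s) :
    IsIntegral (Algebra.adjoin L {coeffEmb L jq}) (coeffEmb L (ofPS s / DeltaL ^ M)) := by
  obtain ⟨P, -, hP⟩ := exists_monic_relation_jq N M hs
  exact isIntegral_adjoin_of_relation _ _ _ _ (coeffEmb_monic_relation L _ _ _ P hP)

/-- `s / E₄ ^ (3 M)` is integral over `L[1/j]`. -/
theorem isIntegral_coeffEmb_div_E4Q_pow (M : ℕ) {s : PowerSeries ℚ}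
    (hs : IsQExp N (12 * (M : ℤ)) s) :
    IsIntegral (Algebra.adjoin L {(coeffEmb L jq)⁻¹})
      (coeffEmb L (ofPS s / ofPS E4Q ^ (3 * M))) := by
  obtain ⟨Q, -, hQ⟩ := exists_monic_relation_jq_inv N M hs
  have h := coeffEmb_monic_relation L _ _ _ Q hQ
  rw [map_inv₀] at h
  exact isIntegral_adjoin_of_relation _ _ _ _ h

/-- Cusp forms over `L`: `(s / E₄ ^ (3 M)) ^ ψ(N) = (1/j) * w` with `w` integral over `L[1/j]`. -/
theorem exists_isIntegral_coeffEmb_cusp (M : ℕ) (hM : 0 < M) {s : PowerSeries ℚ}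
    (f : CuspForm (G0 N) (12 * (M : ℤ))) (hf : qExpansion 1 ⇑f = toC s) :
    ∃ w : LaurentSeries L, IsIntegral (Algebra.adjoin L {(coeffEmb L jq)⁻¹}) w ∧
      coeffEmb L (ofPS s / ofPS E4Q ^ (3 * M)) ^ dedekindPsi N = (coeffEmb L jq)⁻¹ * w := by
  obtain ⟨Q, -, hQ0, hQ⟩ := exists_monic_relation_jq_inv_cusp N M hM f hf
  have h := coeffEmb_monic_relation L _ _ _ Q hQ
  rw [map_inv₀] at h
  exact exists_isIntegral_pow_eq_mul _ _ _ (fun i => (Q i).map (algebraMap ℚ L))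
    (fun i => by rw [coeff_map, hQ0 i, map_zero]) h

end BaseChangeForms

end Fermat.Agent.S18.helper4256
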