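import Mathlib

/-!
# S18, track B: the Legendre and Hesse covers of the `j`-line (field-generic part)

Mathlib-only.  Everything is stated for an arbitrary field `E` and an element `x : E`
(resp. `m : E`), so that it can be instantiated in `RatFunc K₀`, in a Puiseux/Laurent field, or in
any compositum.

* `legendreJ x = 256 (x² - x + 1)³ / (x² (x - 1)²)`
* `hesseJ m = 27 m³ (m³ + 8)³ / (m³ - 1)³`
-/

set_option autoImplicit false

namespace Fermat.Agent.S18.helper4288

open Polynomial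

section Legendre

variable {E : Type*} [Field E]

/-- Legendre's `j`-invariant as a rational function of `λ = x`. -/
noncomputable def legendreJ (x : E) : E :=
  256 * (x ^ 2 - x + 1) ^ 3 / (x ^ 2 * (x - 1) ^ 2)

theorem legendreJ_mul (x : E) (hx : x ≠ 0) (hx1 : x ≠ 1) :
    legendreJ x * (x ^ 2 * (x - 1) ^ 2) = 256 * (x ^ 2 - x + 1) ^ 3 := by
  have h1 : x - 1 ≠ 0 := sub_ne_zero.mpr hx1
  unfold legendreJ
  field_simp

theorem legendreJ_sub_1728 (x : E) (hx : x ≠ 0) (hx1 : x ≠ 1) :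
    legendreJ x - 1728 =
      64 * (x + 1) ^ 2 * (x - 2) ^ 2 * (2 * x - 1) ^ 2 / (x ^ 2 * (x - 1) ^ 2) := by
  have h1 : x - 1 ≠ 0 := sub_ne_zero.mpr hx1
  unfold legendreJ
  field_simp
  ring

theorem legendreJ_one_sub (x : E) : legendreJ (1 - x) = legendreJ x := by
  unfold legendreJ
  congr 1
  · ring
  · ring

theorem legendreJ_inv (x : E) (hx : x ≠ 0) : legendreJ x⁻¹ = legendreJ x := by
  by_cases hx1 : x = 1
  · subst hx1; simp
  have h1 : x - 1 ≠ 0 := sub_ne_zero.mpr hx1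
  have h2 : x⁻¹ - 1 ≠ 0 := by
    intro h
    apply hx1
    have : x⁻¹ = 1 := sub_eq_zero.mp h
    simpa using congrArg Inv.inv this
  unfold legendreJ
  field_simp
  ring

/-- The monic (after scaling by the unit `256`) equation of `x` over `A[J]`. -/
theorem isIntegral_legendre_x {A : Type*} [CommRing A] [Algebra A E] (h2 : IsUnit (2 : A))
    (x : E) (hx : x ≠ 0) (hx1 : x ≠ 1) :
    IsIntegral (Algebra.adjoin A {legendreJ x}) x := by
  set S := Algebra.adjoin A {legendreJ x} with hS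
  obtain ⟨u, hu⟩ : ∃ u : A, u * 256 = 1 := by
    obtain ⟨v, hv⟩ := h2.exists_left_inv
    exact ⟨v ^ 8, by
      have : v ^ 8 * 256 = (v * 2) ^ 8 := by ring
      rw [this, hv, one_pow]⟩
  let Js : S := ⟨legendreJ x, Algebra.subset_adjoin (Set.mem_singleton _)⟩
  let Q : S[X] := (X ^ 2 - X + 1) ^ 3 - C (algebraMap A S u * Js) * (X ^ 2 * (X - 1) ^ 2)
  have hmon : Q.Monic := by
    have h1 : ((X ^ 2 - X + 1 : S[X]) ^ 3).Monic := by
      apply Monic.pow
      monicity!
    refine h1.sub_of_left ?_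
    have hd : ((X ^ 2 - X + 1 : S[X]) ^ 3).degree = 6 := by
      rw [degree_eq_natDegree h1.ne_zero]
      have : ((X ^ 2 - X + 1 : S[X]) ^ 3).natDegree = 6 := by compute_degree!
      rw [this]; rfl
    rw [hd]
    refine lt_of_le_of_lt (degree_le_of_natDegree_le (n := 4) ?_) (by norm_num)
    compute_degree
  refine ⟨Q, hmon, ?_⟩
  have hJ := legendreJ_mul x hx hx1
  have hu' : (algebraMap A E u) * 256 = 1 := by
    have := congrArg (algebraMap A E) hu
    rw [map_mul, map_one, map_ofNat] at this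
    exact this
  show eval₂ (algebraMap S E) x Q = 0
  simp only [Q, eval₂_sub, eval₂_pow, eval₂_add, eval₂_X, eval₂_one, eval₂_mul, eval₂_C, map_mul]
  have h3 : algebraMap S E (algebraMap A S u) = algebraMap A E u := rfl
  have h4 : algebraMap S E Js = legendreJ x := rfl
  rw [h3, h4]
  have : algebraMap A E u * legendreJ x * (x ^ 2 * (x - 1) ^ 2)
      = algebraMap A E u * 256 * (x ^ 2 - x + 1) ^ 3 := by
    rw [mul_assoc, hJ]; ring
  rw [this, hu', one_mul, sub_self]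

/-- `1 / (x (x - 1))` is integral over `A[J]` (equation `256 (1 + Y)³ = J Y`). -/
theorem isIntegral_legendre_inv {A : Type*} [CommRing A] [Algebra A E] (h2 : IsUnit (2 : A))
    (x : E) (hx : x ≠ 0) (hx1 : x ≠ 1) :
    IsIntegral (Algebra.adjoin A {legendreJ x}) (x * (x - 1))⁻¹ := by
  set S := Algebra.adjoin A {legendreJ x} with hS
  obtain ⟨u, hu⟩ : ∃ u : A, u * 256 = 1 := by
    obtain ⟨v, hv⟩ := h2.exists_left_inv
    exact ⟨v ^ 8, by
      have : v ^ 8 * 256 = (v * 2) ^ 8 := by ring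
      rw [this, hv, one_pow]⟩
  let Js : S := ⟨legendreJ x, Algebra.subset_adjoin (Set.mem_singleton _)⟩
  let Q : S[X] := (X + 1) ^ 3 - C (algebraMap A S u * Js) * X
  have hmon : Q.Monic := by
    have h1 : ((X + 1 : S[X]) ^ 3).Monic := by
      apply Monic.pow
      monicity!
    refine h1.sub_of_left ?_
    have hd : ((X + 1 : S[X]) ^ 3).degree = 3 := by
      rw [degree_eq_natDegree h1.ne_zero]
      have : ((X + 1 : S[X]) ^ 3).natDegree = 3 := by compute_degree!
      rw [this]; rfl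
    rw [hd]
    refine lt_of_le_of_lt (degree_le_of_natDegree_le (n := 1) ?_) (by norm_num)
    compute_degree
  refine ⟨Q, hmon, ?_⟩
  have h1 : x - 1 ≠ 0 := sub_ne_zero.mpr hx1
  have hJ := legendreJ_mul x hx hx1
  have hu' : (algebraMap A E u) * 256 = 1 := by
    have := congrArg (algebraMap A E) hu
    rw [map_mul, map_one, map_ofNat] at this
    exact this
  show eval₂ (algebraMap S E) (x * (x - 1))⁻¹ Q = 0
  simp only [Q, eval₂_sub, eval₂_pow, eval₂_add, eval₂_X, eval₂_one, eval₂_mul, eval₂_C, map_mul]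
  have h3 : algebraMap S E (algebraMap A S u) = algebraMap A E u := rfl
  have h4 : algebraMap S E Js = legendreJ x := rfl
  rw [h3, h4]
  have key : legendreJ x * (x * (x - 1))⁻¹ = 256 * ((x * (x - 1))⁻¹ + 1) ^ 3 := by
    unfold legendreJ
    field_simp
    ring
  rw [mul_assoc, key, ← mul_assoc, hu', one_mul, sub_self]

theorem legendreJ_sub_1728_mul (x : E) (hx : x ≠ 0) (hx1 : x ≠ 1) :
    (legendreJ x - 1728) * (x ^ 2 * (x - 1) ^ 2) = 64 * ((x + 1) * (x - 2) * (2 * x - 1)) ^ 2 := by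
  have h1 : x - 1 ≠ 0 := sub_ne_zero.mpr hx1
  rw [legendreJ_sub_1728 x hx hx1]
  field_simp

/-! ### Valuation form: `ord j = 3 ord (x² - x + 1)`, `ord (j - 1728) = 2 ord ((x+1)(x-2)(2x-1))` -/

section Val

variable {Γ₀ : Type*} [LinearOrderedCommGroupWithZero Γ₀] (v : Valuation E Γ₀)

/-- If `v 2 = 1` and `J(x)` is `v`-integral, then `x` is a `v`-unit. -/
theorem legendre_v_x (h2 : v 2 = 1) (x : E) (hx : x ≠ 0) (hx1 : x ≠ 1)
    (hj : v (legendreJ x) ≤ 1) : v x = 1 := by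
  have hJ := congrArg v (legendreJ_mul x hx hx1)
  have h256 : v (256 : E) = 1 := by
    have : (256 : E) = 2 ^ 8 := by norm_num
    rw [this, map_pow, h2, one_pow]
  rw [map_mul, map_mul, map_pow, map_pow, map_mul, map_pow, h256, one_mul] at hJ
  rcases lt_trichotomy (v x) 1 with hlt | heq | hgt
  · exfalso
    -- `v x < 1`: `v (x - 1) = 1`, `v (x² - x + 1) = 1`, so `v J * v x ^ 2 = 1`
    have hx1' : v (x - 1) = 1 := by
      rw [Valuation.map_sub_swap]; exact Valuation.map_one_sub_of_lt v hlt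
    have hq : v (x ^ 2 - x + 1) = 1 := by
      have hlt' : v (x ^ 2 - x) < 1 := by
        have : x ^ 2 - x = x * (x - 1) := by ring
        rw [this, map_mul, hx1', mul_one]; exact hlt
      rw [add_comm]; exact Valuation.map_one_add_of_lt v hlt'
    rw [hx1', hq, one_pow, one_pow, mul_one] at hJ
    have hxpos : 0 < v x := (Valuation.pos_iff v).mpr hx
    have hx2 : v x ^ 2 < 1 := pow_lt_one₀ (le_of_lt hxpos) hlt (by norm_num)
    have : v (legendreJ x) * v x ^ 2 < 1 := by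
      calc v (legendreJ x) * v x ^ 2 ≤ 1 * v x ^ 2 := mul_le_mul_left hj _
        _ = v x ^ 2 := one_mul _
        _ < 1 := hx2
    exact absurd hJ (ne_of_lt this)
  · exact heq
  · exfalso
    -- `1 < v x`: `v (x - 1) = v x`, `v (x² - x + 1) = v x ^ 2`, so `v J = v x ^ 2 > 1`
    have hx1' : v (x - 1) = v x := by
      apply Valuation.map_sub_eq_of_lt_left
      rw [map_one]; exact hgt
    have hxpos : 0 < v x := (Valuation.pos_iff v).mpr hx
    have hxx : v x < v (x ^ 2) := by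
      rw [map_pow, pow_two]
      calc v x = v x * 1 := (mul_one _).symm
        _ < v x * v x := (mul_lt_mul_iff_right₀ hxpos).mpr hgt
    have h1x : (1 : Γ₀) < v (x ^ 2) := lt_trans hgt hxx
    have hq1 : v (x ^ 2 - x) = v (x ^ 2) := Valuation.map_sub_eq_of_lt_left v hxx
    have hq : v (x ^ 2 - x + 1) = v x ^ 2 := by
      rw [Valuation.map_add_eq_of_lt_left v (by rw [map_one, hq1]; exact h1x), hq1, map_pow]
    rw [hx1', hq] at hJ
    have hx4 : v x ^ 2 * v x ^ 2 ≠ 0 :=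
      mul_ne_zero (pow_ne_zero _ hxpos.ne') (pow_ne_zero _ hxpos.ne')
    have hJ' : v (legendreJ x) = v x ^ 2 := by
      have : v (legendreJ x) * (v x ^ 2 * v x ^ 2) = v x ^ 2 * (v x ^ 2 * v x ^ 2) := by
        rw [hJ, pow_succ, pow_two (v x ^ 2), mul_comm]
      exact mul_right_cancel₀ hx4 this
    have : (1 : Γ₀) < v x ^ 2 := one_lt_pow₀ hgt (by norm_num)
    rw [hJ'] at hj
    exact absurd hj (not_le.mpr this)

/-- If `v 2 = 1` and `J(x)` is `v`-integral, then `x - 1` is a `v`-unit. -/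
theorem legendre_v_x_sub_one (h2 : v 2 = 1) (x : E) (hx : x ≠ 0) (hx1 : x ≠ 1)
    (hj : v (legendreJ x) ≤ 1) : v (x - 1) = 1 := by
  have h := legendre_v_x v h2 (1 - x) (sub_ne_zero.mpr (Ne.symm hx1))
    (by intro h; apply hx; linear_combination -h) (by rw [legendreJ_one_sub]; exact hj)
  rw [Valuation.map_sub_swap]; exact h

/-- `ord j = 3 · ord (x² - x + 1)` at every place with `v 2 = 1` where `j` is integral. -/
theorem legendre_v_J (h2 : v 2 = 1) (x : E) (hx : x ≠ 0) (hx1 : x ≠ 1)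
    (hj : v (legendreJ x) ≤ 1) : v (legendreJ x) = v (x ^ 2 - x + 1) ^ 3 := by
  have hJ := congrArg v (legendreJ_mul x hx hx1)
  have h256 : v (256 : E) = 1 := by
    have : (256 : E) = 2 ^ 8 := by norm_num
    rw [this, map_pow, h2, one_pow]
  rw [map_mul, map_mul, map_pow, map_pow, map_mul, map_pow, h256, one_mul,
    legendre_v_x v h2 x hx hx1 hj, legendre_v_x_sub_one v h2 x hx hx1 hj, one_pow,
    mul_one, mul_one] at hJ
  exact hJ

/-- `ord (j - 1728) = 2 · ord ((x+1)(x-2)(2x-1))` at every place with `v 2 = 1` where `j` is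
integral. -/
theorem legendre_v_J_sub_1728 (h2 : v 2 = 1) (x : E) (hx : x ≠ 0) (hx1 : x ≠ 1)
    (hj : v (legendreJ x) ≤ 1) :
    v (legendreJ x - 1728) = v ((x + 1) * (x - 2) * (2 * x - 1)) ^ 2 := by
  have hJ := congrArg v (legendreJ_sub_1728_mul x hx hx1)
  have h64 : v (64 : E) = 1 := by
    have : (64 : E) = 2 ^ 6 := by norm_num
    rw [this, map_pow, h2, one_pow]
  rw [map_mul, map_mul, map_pow, map_pow, map_mul (f := v) (64 : E), map_pow, h64, one_mul,
    legendre_v_x v h2 x hx hx1 hj, legendre_v_x_sub_one v h2 x hx hx1 hj, one_pow,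
    mul_one, mul_one] at hJ
  exact hJ

end Val

/-- The six conjugates of `x` over `J`: splitting of the degree-6 equation. -/
theorem legendre_splitting (x : E) (hx : x ≠ 0) (hx1 : x ≠ 1) :
    (C 256 * (X ^ 2 - X + 1) ^ 3 - C (legendreJ x) * (X ^ 2 * (X - 1) ^ 2) : E[X]) =
      C 256 * ((X - C x) * (X - C (1 - x)) * (X - C x⁻¹) * (X - C (1 - x)⁻¹) *
        (X - C ((x - 1) / x)) * (X - C (x / (x - 1)))) := by
  have h1 : x - 1 ≠ 0 := sub_ne_zero.mpr hx1
  have h1' : 1 - x ≠ 0 := sub_ne_zero.mpr (Ne.symm hx1)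
  have hc : (C (x ^ 2 * (x - 1) ^ 2) : E[X]) ≠ 0 := by
    rw [Ne, C_eq_zero]
    exact mul_ne_zero (pow_ne_zero _ hx) (pow_ne_zero _ h1)
  apply mul_left_cancel₀ hc
  have e1 : (C (x ^ 2 * (x - 1) ^ 2) : E[X]) * (C (legendreJ x) * (X ^ 2 * (X - 1) ^ 2))
      = C 256 * (C x ^ 2 - C x + 1) ^ 3 * (X ^ 2 * (X - 1) ^ 2) := by
    rw [← mul_assoc, ← C_mul, mul_comm (x ^ 2 * (x - 1) ^ 2), legendreJ_mul x hx hx1]
    simp only [C_mul, C_pow, C_sub, C_add, C_1]
  have e2 : (C (x ^ 2 * (x - 1) ^ 2) : E[X]) = C x ^ 2 * (C x - 1) ^ 2 := by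
    simp only [C_mul, C_pow, C_sub, C_1]
  have i1 : (C x : E[X]) * C x⁻¹ = 1 := by rw [← C_mul, mul_inv_cancel₀ hx, C_1]
  have i2 : (C x - 1 : E[X]) * C (1 - x)⁻¹ = -1 := by
    have : (C x - 1 : E[X]) = C (x - 1) := by simp
    rw [this, ← C_mul]
    have : (x - 1) * (1 - x)⁻¹ = -1 := by field_simp; ring
    rw [this]; simp
  have i3 : (C x : E[X]) * C ((x - 1) / x) = C x - 1 := by
    rw [← C_mul]
    have : x * ((x - 1) / x) = x - 1 := by field_simp
    rw [this]; simp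
  have i4 : (C x - 1 : E[X]) * C (x / (x - 1)) = C x := by
    have : (C x - 1 : E[X]) = C (x - 1) := by simp
    rw [this, ← C_mul]
    have : (x - 1) * (x / (x - 1)) = x := by field_simp
    rw [this]
  have e3 : (C x ^ 2 * (C x - 1) ^ 2 : E[X]) * (C 256 * ((X - C x) * (X - C (1 - x)) * (X - C x⁻¹) *
      (X - C (1 - x)⁻¹) * (X - C ((x - 1) / x)) * (X - C (x / (x - 1))))) =
      C 256 * ((X - C x) * (X - (1 - C x)) * (C x * X - C x * C x⁻¹) *
        ((C x - 1) * X - (C x - 1) * C (1 - x)⁻¹) * (C x * X - C x * C ((x - 1) / x)) *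
        ((C x - 1) * X - (C x - 1) * C (x / (x - 1)))) := by
    simp only [C_sub, C_1]
    ring
  rw [mul_sub, e1, e2, e3, i1, i2, i3, i4]
  ring

/-! ### The unique bad point in characteristic 3 -/

section BadPoint

variable {S : Type*} [CommRing S]

/-- In any commutative ring with `256 (x² - x + 1)³ = J x² (x - 1)²`, a prime ideal containing
`3` and `J` contains `x + 1`: the only point of the Legendre cover over `j̄ = 0` in
characteristic 3 is `x̄ = -1`. -/
theorem legendre_add_one_mem (x J : S)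
    (h : 256 * (x ^ 2 - x + 1) ^ 3 = J * (x ^ 2 * (x - 1) ^ 2))
    (n : Ideal S) [hn : n.IsPrime] (h3 : (3 : S) ∈ n) (hJ : J ∈ n) : x + 1 ∈ n := by
  have h2 : (2 : S) ∉ n := by
    intro h2
    apply hn.ne_top
    rw [Ideal.eq_top_iff_one]
    have : (1 : S) = 3 - 2 := by norm_num
    rw [this]; exact n.sub_mem h3 h2
  have h256 : (256 : S) ∉ n := by
    have : (256 : S) = 2 ^ 8 := by norm_num
    rw [this]; exact fun h => h2 (hn.mem_of_pow_mem _ h)
  have hmem : 256 * (x ^ 2 - x + 1) ^ 3 ∈ n := by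
    rw [h]; exact n.mul_mem_right _ hJ
  have hq : x ^ 2 - x + 1 ∈ n :=
    hn.mem_of_pow_mem _ ((hn.mem_or_mem hmem).resolve_left h256)
  have : (x + 1) ^ 2 = (x ^ 2 - x + 1) + 3 * x := by ring
  exact hn.mem_of_pow_mem 2 (by rw [this]; exact n.add_mem hq (n.mul_mem_right _ h3))

theorem legendre_x_not_mem (x J : S)
    (h : 256 * (x ^ 2 - x + 1) ^ 3 = J * (x ^ 2 * (x - 1) ^ 2))
    (n : Ideal S) [hn : n.IsPrime] (h3 : (3 : S) ∈ n) (hJ : J ∈ n) : x ∉ n := by
  intro hx
  apply hn.ne_top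
  rw [Ideal.eq_top_iff_one]
  have : (1 : S) = (x + 1) - x := by ring
  rw [this]; exact n.sub_mem (legendre_add_one_mem x J h n h3 hJ) hx

theorem legendre_x_sub_one_not_mem (x J : S)
    (h : 256 * (x ^ 2 - x + 1) ^ 3 = J * (x ^ 2 * (x - 1) ^ 2))
    (n : Ideal S) [hn : n.IsPrime] (h3 : (3 : S) ∈ n) (hJ : J ∈ n) : x - 1 ∉ n := by
  intro hx
  apply hn.ne_top
  rw [Ideal.eq_top_iff_one]
  have : (1 : S) = 3 - ((x + 1) - (x - 1)) := by ring
  rw [this]
  exact n.sub_mem h3 (n.sub_mem (legendre_add_one_mem x J h n h3 hJ) hx)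

/-- Bezout certificate: `x² - x + 1` is squarefree when `3` is invertible. -/
theorem legendre_bezout_zero (x : S) : 4 * (x ^ 2 - x + 1) - (2 * x - 1) * (2 * x - 1) = 3 := by
  ring

/-- Bezout certificates: the three factors of `(x+1)(x-2)(2x-1)` are pairwise coprime when `3`
is invertible. -/
theorem legendre_bezout_1728 (x : S) :
    (x + 1) - (x - 2) = 3 ∧ 2 * (x + 1) - (2 * x - 1) = 3 ∧ (2 * x - 1) - 2 * (x - 2) = 3 := by
  refine ⟨by ring, by ring, by ring⟩

end BadPoint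

end Legendre

section Hesse

variable {E : Type*} [Field E]

/-- The `j`-invariant of the Hesse pencil `X³ + Y³ + Z³ = 3 m X Y Z` (up to the normalisation
`m ↦ -m/…` used in track B): `27 m³ (m³ + 8)³ / (m³ - 1)³`. -/
noncomputable def hesseJ (m : E) : E :=
  27 * m ^ 3 * (m ^ 3 + 8) ^ 3 / (m ^ 3 - 1) ^ 3

theorem hesseJ_mul (m : E) (hm : m ^ 3 ≠ 1) :
    hesseJ m * (m ^ 3 - 1) ^ 3 = 27 * m ^ 3 * (m ^ 3 + 8) ^ 3 := by
  have h1 : m ^ 3 - 1 ≠ 0 := sub_ne_zero.mpr hm
  unfold hesseJ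
  field_simp

theorem hesseJ_sub_1728 (m : E) (hm : m ^ 3 ≠ 1) :
    hesseJ m - 1728 = 27 * (m ^ 6 - 20 * m ^ 3 - 8) ^ 2 / (m ^ 3 - 1) ^ 3 := by
  have h1 : m ^ 3 - 1 ≠ 0 := sub_ne_zero.mpr hm
  unfold hesseJ
  field_simp
  ring

/-- Invariance under `m ↦ ζ m`, `ζ³ = 1`. -/
theorem hesseJ_mul_cubeRoot (ζ m : E) (hζ : ζ ^ 3 = 1) : hesseJ (ζ * m) = hesseJ m := by
  unfold hesseJ
  rw [mul_pow, hζ, one_mul]

end Hesse

end Fermat.Agent.S18.helper4288
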