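/-
helper4364 — S18-VERT (backup): discriminant-form unramifiedness at the Gauss prime, matrix form.
Mathlib only.

(VD1) `exists_discr_eq_of_structure_constants`: reduction of the discriminant through a ring hom
on a subring containing the structure constants.
-/
import Mathlib

set_option autoImplicit false

namespace Fermat.Agent.S18.helper4364

open Module Matrix

section StructureConstants

variable {R S : Type*} [CommRing R] [CommRing S] [Algebra R S] {ι : Type*}

/-- The structure constants of an algebra with respect to a basis. -/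
noncomputable def sc (b : Basis ι R S) (i j l : ι) : R := b.repr (b i * b j) l

theorem mul_eq_sum_sc [Fintype ι] (b : Basis ι R S) (i j : ι) :
    b i * b j = ∑ l, sc b i j l • b l := by
  simp only [sc]
  exact (b.sum_repr (b i * b j)).symm

end StructureConstants

section TraceFormula

variable {R S : Type*} [CommRing R] [CommRing S] [Algebra R S]
variable {ι : Type*} [Fintype ι] [DecidableEq ι]

/-- The trace of a product of two basis vectors, in terms of structure constants. -/
theorem trace_mul_basis (b : Basis ι R S) (i j : ι) :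
    Algebra.trace R S (b i * b j) = ∑ l, ∑ m, sc b j l m * sc b i m l := by
  rw [Algebra.trace_eq_matrix_trace b, Matrix.trace]
  refine Finset.sum_congr rfl fun l _ => ?_
  rw [Matrix.diag_apply, Algebra.leftMulMatrix_eq_repr_mul, mul_assoc, mul_eq_sum_sc b j l,
    Finset.mul_sum, map_sum, Finsupp.coe_finsetSum, Finset.sum_apply]
  refine Finset.sum_congr rfl fun m _ => ?_
  rw [mul_smul_comm, map_smul, Finsupp.smul_apply, smul_eq_mul]
  rfl

end TraceFormula

section VD1

variable {K κ L E : Type*} [CommRing K] [CommRing κ] [CommRing L] [Algebra K L]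
  [CommRing E] [Algebra κ E]
variable {ι : Type*} [Fintype ι] [DecidableEq ι]

/-- **(VD1)** Reduction of the discriminant. If the structure constants of `b` lie in a subring
`O` of `K` and are mapped by `ρ : O →+* κ` to the structure constants of `b'`, then the
discriminant of `b` lies in `O` and is mapped by `ρ` to the discriminant of `b'`. -/
theorem exists_discr_eq_of_structure_constants
    (b : Basis ι K L) (b' : Basis ι κ E) (O : Subring K) (ρ : O →+* κ)
    (hO : ∀ i j l, sc b i j l ∈ O)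
    (hρ : ∀ i j l, ρ ⟨sc b i j l, hO i j l⟩ = sc b' i j l) :
    ∃ δ : O, (δ : K) = Algebra.discr K b ∧ ρ δ = Algebra.discr κ b' := by
  classical
  let T : Matrix ι ι O := fun i j => ∑ l, ∑ m, ⟨sc b j l m, hO j l m⟩ * ⟨sc b i m l, hO i m l⟩
  refine ⟨T.det, ?_, ?_⟩
  · have h1 : T.map O.subtype = Algebra.traceMatrix K b := by
      ext i j
      rw [Matrix.map_apply, Algebra.traceMatrix_apply, Algebra.traceForm_apply, trace_mul_basis]
      simp only [T, map_sum, map_mul, Subring.coe_subtype]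
    rw [Algebra.discr_def, ← h1, ← RingHom.mapMatrix_apply, ← RingHom.map_det]
    rfl
  · have h2 : T.map ρ = Algebra.traceMatrix κ b' := by
      ext i j
      rw [Matrix.map_apply, Algebra.traceMatrix_apply, Algebra.traceForm_apply, trace_mul_basis]
      simp only [T, map_sum, map_mul, hρ]
    rw [Algebra.discr_def, ← h2, ← RingHom.mapMatrix_apply, ← RingHom.map_det]

end VD1

section Kummer

variable {S S1 : Type*} [CommRing S] [CommRing S1] [Algebra S S1]
variable {d : ℕ}

/-- Kummer-type basis data: the basis `c` of `S1` over `S` consists of the powers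
`1, y, …, y ^ (d - 1)` and `y ^ d = U` lies in `S`. -/
structure IsKummerBasis (c : Basis (Fin d) S S1) (y : S1) (U : S) : Prop where
  basis_eq : ∀ e : Fin d, c e = y ^ (e : ℕ)
  pow_eq : y ^ d = algebraMap S S1 U

namespace IsKummerBasis

variable {c : Basis (Fin d) S S1} {y : S1} {U : S}

theorem repr_pow (h : IsKummerBasis c y U) (t : ℕ) (ht : t < 2 * d) (g : Fin d) :
    c.repr (y ^ t) g =
      if t < d then (if (g : ℕ) = t then 1 else 0) else (if (g : ℕ) + d = t then U else 0) := by
  classical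
  by_cases h1 : t < d
  · rw [if_pos h1]
    have hy : y ^ t = c ⟨t, h1⟩ := (h.basis_eq ⟨t, h1⟩).symm
    rw [hy, Basis.repr_self, Finsupp.single_apply]
    by_cases h2 : (g : ℕ) = t
    · rw [if_pos h2, if_pos (Fin.ext h2.symm)]
    · rw [if_neg h2, if_neg]
      intro hh
      exact h2 (by rw [← hh])
  · rw [if_neg h1]
    have ht' : t - d < d := by omega
    have hy : y ^ t = U • c ⟨t - d, ht'⟩ := by
      rw [h.basis_eq, Algebra.smul_def, ← h.pow_eq, ← pow_add]
      congr 1
      simp only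
      omega
    rw [hy, map_smul, Basis.repr_self, Finsupp.smul_apply, Finsupp.single_apply, smul_eq_mul]
    by_cases h2 : (g : ℕ) + d = t
    · rw [if_pos h2, if_pos (Fin.ext (by simp only; omega)), mul_one]
    · rw [if_neg h2, if_neg, mul_zero]
      intro hh
      apply h2
      rw [← hh]
      simp only
      omega

theorem trace_pow_lt (h : IsKummerBasis c y U) (s : ℕ) (hs : s < d) :
    Algebra.trace S S1 (y ^ s) = if s = 0 then (d : S) else 0 := by
  classical
  rw [Algebra.trace_eq_matrix_trace c, Matrix.trace]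
  have key : ∀ f : Fin d, Matrix.diag (Algebra.leftMulMatrix c (y ^ s)) f =
      if s = 0 then 1 else 0 := by
    intro f
    rw [Matrix.diag_apply, Algebra.leftMulMatrix_eq_repr_mul, h.basis_eq, ← pow_add,
      h.repr_pow _ (by omega)]
    by_cases h0 : s = 0
    · subst h0
      rw [if_pos (by omega), if_pos (by omega), if_pos rfl]
    · rw [if_neg h0]
      by_cases h1 : s + (f : ℕ) < d
      · rw [if_pos h1, if_neg (by omega)]
      · rw [if_neg h1, if_neg (by omega)]
  rw [Finset.sum_congr rfl fun f _ => key f]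
  by_cases h0 : s = 0
  · simp [h0]
  · simp [h0]

theorem trace_pow (h : IsKummerBasis c y U) (t : ℕ) (ht : t < 2 * d) :
    Algebra.trace S S1 (y ^ t) =
      if t = 0 then (d : S) else if t = d then (d : S) * U else 0 := by
  by_cases h1 : t < d
  · rw [h.trace_pow_lt t h1]
    by_cases h0 : t = 0
    · rw [if_pos h0, if_pos h0]
    · rw [if_neg h0, if_neg h0, if_neg (by omega)]
  · have hy : y ^ t = U • y ^ (t - d) := by
      rw [Algebra.smul_def, ← h.pow_eq, ← pow_add]
      congr 1
      omega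
    rw [hy, map_smul, h.trace_pow_lt (t - d) (by omega), smul_eq_mul,
      if_neg (show ¬ t = 0 by omega)]
    by_cases h2 : t = d
    · rw [if_pos h2, if_pos (show t - d = 0 by omega), mul_comm]
    · rw [if_neg h2, if_neg (show ¬ t - d = 0 by omega), mul_zero]

end IsKummerBasis

end Kummer

section Tower

variable {R S S1 : Type*} [CommRing R] [CommRing S] [CommRing S1] [Algebra R S] [Algebra S S1]
  [Algebra R S1] [IsScalarTower R S S1]
variable {ι : Type*} [Fintype ι] {d : ℕ}

theorem repr_mul_mul (b : Basis ι R S) (U : S) (i j m : ι) :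
    b.repr (b i * b j * U) m = ∑ l, sc b i j l * b.repr (U * b l) m := by
  rw [mul_eq_sum_sc b i j, Finset.sum_mul, map_sum, Finsupp.coe_finsetSum, Finset.sum_apply]
  refine Finset.sum_congr rfl fun l _ => ?_
  rw [smul_mul_assoc, map_smul, Finsupp.smul_apply, smul_eq_mul, mul_comm (b l) U]

/-- Structure constants of the tower basis `b i • y ^ e` of a Kummer-type extension. -/
theorem sc_smulTower (b : Basis ι R S) (c : Basis (Fin d) S S1) {y : S1} {U : S}
    (h : IsKummerBasis c y U) (i j m : ι) (e f g : Fin d) :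
    sc (b.smulTower c) (i, e) (j, f) (m, g) =
      if (e : ℕ) + f < d then (if (g : ℕ) = e + f then sc b i j m else 0)
      else (if (g : ℕ) + d = e + f then ∑ l, sc b i j l * b.repr (U * b l) m else 0) := by
  have h1 : (b.smulTower c (i, e)) * (b.smulTower c (j, f)) = (b i * b j) • y ^ ((e : ℕ) + f) := by
    rw [Basis.smulTower_apply, Basis.smulTower_apply, h.basis_eq, h.basis_eq, smul_mul_smul_comm,
      pow_add]
  have h2 : sc (b.smulTower c) (i, e) (j, f) (m, g) =
      b.repr ((b i * b j) * c.repr (y ^ ((e : ℕ) + f)) g) m := by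
    unfold sc
    rw [h1, Basis.smulTower_repr_mk, map_smul, Finsupp.smul_apply, smul_eq_mul]
  rw [h2, h.repr_pow _ (by omega)]
  by_cases hlt : (e : ℕ) + f < d
  · rw [if_pos hlt, if_pos hlt]
    by_cases hg : (g : ℕ) = e + f
    · rw [if_pos hg, if_pos hg, mul_one]
      rfl
    · rw [if_neg hg, if_neg hg, mul_zero, map_zero, Finsupp.zero_apply]
  · rw [if_neg hlt, if_neg hlt]
    by_cases hg : (g : ℕ) + d = e + f
    · rw [if_pos hg, if_pos hg, repr_mul_mul]
    · rw [if_neg hg, if_neg hg, mul_zero, map_zero, Finsupp.zero_apply]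

end Tower

section Residue

variable {κ E E1 : Type*} [Field κ] [CommRing E] [CommRing E1] [Algebra κ E] [Algebra E E1]
  [Algebra κ E1] [IsScalarTower κ E E1]
variable {ι : Type*} [Fintype ι] [DecidableEq ι] {d : ℕ}

/-- Nonzero discriminant ⟹ the trace form is separating. -/
theorem eq_zero_of_trace_mul_eq_zero (b : Basis ι κ E) (hb : Algebra.discr κ b ≠ 0) (t : E)
    (h : ∀ a : E, Algebra.trace κ E (a * t) = 0) : t = 0 := by
  have h1 : Algebra.traceMatrix κ b *ᵥ b.equivFun t = 0 := by
    rw [Algebra.traceMatrix_of_basis_mulVec]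
    funext i
    rw [mul_comm]
    exact h (b i)
  have h2 := Matrix.eq_zero_of_mulVec_eq_zero hb h1
  exact (LinearEquiv.map_eq_zero_iff b.equivFun).mp h2

/-- The trace form is separating ⟹ nonzero discriminant. -/
theorem discr_ne_zero_of_forall (B : Basis ι κ E)
    (h : ∀ z : E, (∀ w : E, Algebra.trace κ E (w * z) = 0) → z = 0) :
    Algebra.discr κ B ≠ 0 := by
  intro h0
  rw [Algebra.discr_def] at h0
  obtain ⟨v, hv, hv0⟩ := Matrix.exists_mulVec_eq_zero_iff.mpr h0
  apply hv
  have hz : B.equivFun.symm v = 0 := by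
    apply h
    intro w
    have h3 : ∀ i, Algebra.trace κ E (B.equivFun.symm v * B i) = 0 := by
      intro i
      have := congrFun (Algebra.traceMatrix_of_basis_mulVec B (B.equivFun.symm v)) i
      rw [LinearEquiv.apply_symm_apply, hv0] at this
      exact this.symm
    rw [← B.sum_repr w, Finset.sum_mul, map_sum]
    refine Finset.sum_eq_zero fun i _ => ?_
    rw [smul_mul_assoc, map_smul, mul_comm, h3, smul_zero]
  have := congrArg B.equivFun hz
  rwa [LinearEquiv.apply_symm_apply, map_zero] at this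

/-- **(VD2)** Residue side of the Kummer layer: the trace form of a Kummer-type extension
`E1 = E[y]`, `y ^ d = U` a unit, `d` invertible, over `κ` is separating as soon as the
discriminant of `E` over `κ` is nonzero. `E1` need not be a field. -/
theorem IsKummerBasis.separating (b : Basis ι κ E) (hb : Algebra.discr κ b ≠ 0)
    (c : Basis (Fin d) E E1) {y : E1} {U : E} (h : IsKummerBasis c y U) (hU : IsUnit U)
    (hd : (d : κ) ≠ 0) (z : E1) (hz : ∀ w : E1, Algebra.trace κ E1 (w * z) = 0) : z = 0 := by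
  have hdE : IsUnit (d : E) := by
    have : (d : E) = algebraMap κ E (d : κ) := by simp
    rw [this]
    exact (IsUnit.mk0 _ hd).map _
  have key : ∀ e' : ℕ, Algebra.trace E E1 (y ^ e' * z) = 0 := by
    intro e'
    apply eq_zero_of_trace_mul_eq_zero b hb
    intro a
    have := hz (a • y ^ e')
    rw [← Algebra.trace_trace_of_basis b c, smul_mul_assoc, map_smul, smul_eq_mul] at this
    exact this
  have expand : ∀ e' : ℕ, Algebra.trace E E1 (y ^ e' * z) =
      ∑ f : Fin d, c.repr z f * Algebra.trace E E1 (y ^ (e' + (f : ℕ))) := by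
    intro e'
    conv_lhs => rw [← c.sum_repr z]
    rw [Finset.mul_sum, map_sum]
    refine Finset.sum_congr rfl fun f _ => ?_
    rw [mul_smul_comm, map_smul, smul_eq_mul, h.basis_eq, ← pow_add]
  apply (LinearEquiv.map_eq_zero_iff c.repr).mp
  ext g
  rw [Finsupp.zero_apply]
  have hgd : (g : ℕ) < d := g.2
  by_cases hg : (g : ℕ) = 0
  · have h1 := key 0
    rw [expand 0, Finset.sum_eq_single g] at h1
    · rw [h.trace_pow _ (by omega), if_pos (by omega)] at h1
      exact (hdE.mul_left_eq_zero).mp h1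
    · intro f _ hfg
      have hf : (f : ℕ) ≠ 0 := fun hf => hfg (Fin.ext (by omega))
      have hfd : (f : ℕ) < d := f.2
      rw [h.trace_pow _ (by omega), if_neg (by omega), if_neg (by omega), mul_zero]
    · intro hg'
      exact absurd (Finset.mem_univ g) hg'
  · have h1 := key (d - g)
    rw [expand (d - g), Finset.sum_eq_single g] at h1
    · rw [h.trace_pow _ (by omega), if_neg (by omega), if_pos (by omega)] at h1
      exact ((hdE.mul hU).mul_left_eq_zero).mp h1
    · intro f _ hfg
      have hf : (f : ℕ) ≠ g := fun hf => hfg (Fin.ext hf)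
      have hfd : (f : ℕ) < d := f.2
      rw [h.trace_pow _ (by omega), if_neg (by omega), if_neg (by omega), mul_zero]
    · intro hg'
      exact absurd (Finset.mem_univ g) hg'

/-- **(VD2)**, discriminant form. -/
theorem IsKummerBasis.discr_smulTower_ne_zero (b : Basis ι κ E) (hb : Algebra.discr κ b ≠ 0)
    (c : Basis (Fin d) E E1) {y : E1} {U : E} (h : IsKummerBasis c y U) (hU : IsUnit U)
    (hd : (d : κ) ≠ 0) : Algebra.discr κ (b.smulTower c) ≠ 0 :=
  discr_ne_zero_of_forall _ fun z hz => h.separating b hb c hU hd z hz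

end Residue

section AdjoinRootBasis

open Polynomial

/-- The Kummer-type basis `1, root, …, root ^ (d - 1)` of `E[X] / (X ^ d - U)`. -/
theorem exists_isKummerBasis_adjoinRoot {E : Type*} [CommRing E] [Nontrivial E] (U : E) {d : ℕ}
    (hd : d ≠ 0) :
    ∃ c : Basis (Fin d) E (AdjoinRoot (X ^ d - C U : E[X])),
      IsKummerBasis c (AdjoinRoot.root (X ^ d - C U : E[X])) U := by
  have hg : (X ^ d - C U : E[X]).Monic := monic_X_pow_sub_C U hd
  have hdeg : (X ^ d - C U : E[X]).natDegree = d := natDegree_X_pow_sub_C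
  refine ⟨(AdjoinRoot.powerBasis' hg).basis.reindex (finCongr hdeg), ?_, ?_⟩
  · intro e
    rw [Basis.reindex_apply, PowerBasis.basis_eq_pow]
    rfl
  · have h0 : AdjoinRoot.mk (X ^ d - C U : E[X]) (X ^ d - C U) = 0 := AdjoinRoot.mk_self
    rw [map_sub, map_pow, AdjoinRoot.mk_X, AdjoinRoot.mk_C, sub_eq_zero] at h0
    rw [h0]
    rfl

end AdjoinRootBasis

section VD3

variable {K κ L L1 E : Type*} [CommRing K] [Field κ] [CommRing L] [CommRing L1]
  [Algebra K L] [Algebra L L1] [Algebra K L1] [IsScalarTower K L L1]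
  [CommRing E] [Algebra κ E]
variable {ι : Type*} [Fintype ι] [DecidableEq ι] {d : ℕ}

/-- **(VD3)** Matching of structure constants passes to Kummer-type towers: if the structure
constants of `b`, and the matrix of multiplication by `U`, lie in `O` and reduce under `ρ` to
those of `b'` and `U'`, then the discriminant of the tower basis `b i • y ^ e` lies in `O` and
reduces to the discriminant of the tower basis `b' i • y' ^ e`. -/
theorem exists_discr_eq_smulTower {E1 : Type*} [CommRing E1] [Algebra E E1] [Algebra κ E1]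
    [IsScalarTower κ E E1]
    (b : Basis ι K L) (b' : Basis ι κ E) (O : Subring K) (ρ : O →+* κ)
    (hO : ∀ i j l, sc b i j l ∈ O)
    (hρ : ∀ i j l, ρ ⟨sc b i j l, hO i j l⟩ = sc b' i j l)
    (c : Basis (Fin d) L L1) {y : L1} {U : L} (h : IsKummerBasis c y U)
    (c' : Basis (Fin d) E E1) {y' : E1} {U' : E} (h' : IsKummerBasis c' y' U')
    (hUO : ∀ l m, b.repr (U * b l) m ∈ O)
    (hUρ : ∀ l m, ρ ⟨b.repr (U * b l) m, hUO l m⟩ = b'.repr (U' * b' l) m) :
    ∃ δ : O, (δ : K) = Algebra.discr K (b.smulTower c) ∧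
      ρ δ = Algebra.discr κ (b'.smulTower c') := by
  classical
  have hO' : ∀ p q r : ι × Fin d, sc (b.smulTower c) p q r ∈ O := by
    rintro ⟨i, e⟩ ⟨j, f⟩ ⟨m, g⟩
    rw [sc_smulTower b c h]
    split_ifs
    · exact hO i j m
    · exact O.zero_mem
    · exact O.sum_mem fun l _ => O.mul_mem (hO i j l) (hUO l m)
    · exact O.zero_mem
  refine exists_discr_eq_of_structure_constants (b.smulTower c) (b'.smulTower c') O ρ hO' ?_
  rintro ⟨i, e⟩ ⟨j, f⟩ ⟨m, g⟩
  have e1 : (⟨sc (b.smulTower c) (i, e) (j, f) (m, g), hO' (i, e) (j, f) (m, g)⟩ : O) =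
      if (e : ℕ) + f < d then (if (g : ℕ) = e + f then ⟨sc b i j m, hO i j m⟩ else 0)
      else (if (g : ℕ) + d = e + f then
        ∑ l, (⟨sc b i j l, hO i j l⟩ : O) * ⟨b.repr (U * b l) m, hUO l m⟩ else 0) := by
    apply Subtype.ext
    show sc (b.smulTower c) (i, e) (j, f) (m, g) = _
    rw [sc_smulTower b c h]
    split_ifs <;> simp
  rw [e1, sc_smulTower b' c' h']
  split_ifs
  · exact hρ i j m
  · exact map_zero ρ
  · rw [map_sum]
    refine Finset.sum_congr rfl fun l _ => ?_
    rw [map_mul, hρ, hUρ]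
  · exact map_zero ρ

/-- **S18-VERT, Kummer layer (packaged).** Generic side: `L` a `K`-algebra with basis `b`,
`L1 = L[y]`, `y ^ d = U ∈ L`, with basis `b i • y ^ e`. Residue side: `E` a `κ`-algebra with
basis `b'` of nonzero discriminant, `U'` a unit of `E`, `d ≠ 0` in `κ`. If the structure
constants of `b` and the matrix of multiplication by `U` lie in the subring `O` of `K` and are
mapped by `ρ : O →+* κ` to those of `b'` and `U'`, then the discriminant of the tuple
`b i • y ^ e` lies in `O` and is **not** in the kernel of `ρ`. -/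
theorem exists_discr_kummer_not_mem_ker [Nontrivial E]
    (b : Basis ι K L) (b' : Basis ι κ E) (O : Subring K) (ρ : O →+* κ)
    (hO : ∀ i j l, sc b i j l ∈ O)
    (hρ : ∀ i j l, ρ ⟨sc b i j l, hO i j l⟩ = sc b' i j l)
    (hb' : Algebra.discr κ b' ≠ 0)
    (c : Basis (Fin d) L L1) {y : L1} {U : L} (h : IsKummerBasis c y U)
    {U' : E} (hU' : IsUnit U') (hd : (d : κ) ≠ 0)
    (hUO : ∀ l m, b.repr (U * b l) m ∈ O)
    (hUρ : ∀ l m, ρ ⟨b.repr (U * b l) m, hUO l m⟩ = b'.repr (U' * b' l) m) :
    ∃ δ : O, (δ : K) = Algebra.discr K (b.smulTower c) ∧ ρ δ ≠ 0 := by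
  have hd0 : d ≠ 0 := by
    rintro rfl
    exact hd (by simp)
  obtain ⟨c', h'⟩ := exists_isKummerBasis_adjoinRoot U' hd0
  obtain ⟨δ, hδ, hρδ⟩ := exists_discr_eq_smulTower b b' O ρ hO hρ c h c' h' hUO hUρ
  refine ⟨δ, hδ, ?_⟩
  rw [hρδ]
  exact h'.discr_smulTower_ne_zero b' hb' c' hU' hd

/-- **S18-VERT, base layer (packaged).** `ρ (discr K b) = discr κ b' ≠ 0`. -/
theorem exists_discr_not_mem_ker
    (b : Basis ι K L) (b' : Basis ι κ E) (O : Subring K) (ρ : O →+* κ)
    (hO : ∀ i j l, sc b i j l ∈ O)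
    (hρ : ∀ i j l, ρ ⟨sc b i j l, hO i j l⟩ = sc b' i j l)
    (hb' : Algebra.discr κ b' ≠ 0) :
    ∃ δ : O, (δ : K) = Algebra.discr K b ∧ ρ δ ≠ 0 := by
  obtain ⟨δ, hδ, hρδ⟩ := exists_discr_eq_of_structure_constants b b' O ρ hO hρ
  exact ⟨δ, hδ, by rw [hρδ]; exact hb'⟩

end VD3

section KummerDegree

open Polynomial

variable {F L : Type*} [Field F] [Field L] [Algebra F L]

private lemma prod_eq_algebraMap_mul_pow (θ : L) (s : Multiset L)
    (hs : ∀ r ∈ s, ∃ c : F, c ≠ 0 ∧ r = algebraMap F L c * θ) :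
    ∃ c : F, c ≠ 0 ∧ s.prod = algebraMap F L c * θ ^ Multiset.card s := by
  induction s using Multiset.induction_on with
  | empty => exact ⟨1, one_ne_zero, by simp⟩
  | cons a s ih =>
    obtain ⟨c1, hc1, hc1'⟩ := hs a (Multiset.mem_cons_self a s)
    obtain ⟨c2, hc2, hc2'⟩ := ih (fun r hr => hs r (Multiset.mem_cons_of_mem hr))
    refine ⟨c1 * c2, mul_ne_zero hc1 hc2, ?_⟩
    rw [Multiset.prod_cons, Multiset.card_cons, hc1', hc2', map_mul, pow_succ]
    ring

/-- **(A1), first half.** If `F` contains a primitive `m`-th root of unity and `θ ^ m = U ∈ F`,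
`U ≠ 0`, then `θ ^ d ∈ F` for `d` the degree of the minimal polynomial of `θ` over `F`. -/
theorem exists_pow_natDegree_minpoly_eq {m : ℕ} (hm : 0 < m) {ζ : F} (hζ : IsPrimitiveRoot ζ m)
    {θ : L} {U : F} (hU : U ≠ 0) (hθ : θ ^ m = algebraMap F L U) :
    ∃ u : F, θ ^ (minpoly F θ).natDegree = algebraMap F L u := by
  have hθ0 : θ ≠ 0 := by
    rintro rfl
    rw [zero_pow hm.ne'] at hθ
    exact hU ((map_eq_zero (algebraMap F L)).mp hθ.symm)
  have hint : IsIntegral F θ :=
    ⟨X ^ m - C U, monic_X_pow_sub_C U hm.ne', by simp [hθ]⟩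
  have hgm : (minpoly F θ).Monic := minpoly.monic hint
  have hdvd : minpoly F θ ∣ X ^ m - C U := minpoly.dvd F θ (by simp [hθ])
  have hζL : IsPrimitiveRoot (algebraMap F L ζ) m :=
    hζ.map_of_injective (algebraMap F L).injective
  have hsplitsXm : (X ^ m - C (algebraMap F L U) : L[X]).Splits :=
    X_pow_sub_C_splits_of_isPrimitiveRoot hζL hθ
  have hdvdL : (minpoly F θ).map (algebraMap F L) ∣ X ^ m - C (algebraMap F L U) := by
    have := Polynomial.map_dvd (algebraMap F L) hdvd
    simpa using this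
  have hne : (X ^ m - C (algebraMap F L U) : L[X]) ≠ 0 := (monic_X_pow_sub_C _ hm.ne').ne_zero
  have hsplits : ((minpoly F θ).map (algebraMap F L)).Splits := hsplitsXm.of_dvd hne hdvdL
  have hmonicL : ((minpoly F θ).map (algebraMap F L)).Monic := hgm.map _
  have hcoeff := hsplits.coeff_zero_eq_prod_roots_of_monic hmonicL
  have hcard := hsplits.natDegree_eq_card_roots
  have hroots : ∀ r ∈ ((minpoly F θ).map (algebraMap F L)).roots,
      ∃ c : F, c ≠ 0 ∧ r = algebraMap F L c * θ := by
    intro r hr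
    have hr0 : (X ^ m - C (algebraMap F L U) : L[X]).IsRoot r :=
      (Polynomial.mem_roots hne).mp
        (Multiset.subset_of_le (Polynomial.roots.le_of_dvd hne hdvdL) hr)
    have hrm : r ^ m = θ ^ m := by
      have : r ^ m - algebraMap F L U = 0 := by simpa using hr0
      rw [hθ]
      exact sub_eq_zero.mp this
    have h1 : (r / θ) ^ m = 1 := by
      rw [div_pow, hrm, div_self (pow_ne_zero _ hθ0)]
    have : NeZero m := ⟨hm.ne'⟩
    obtain ⟨i, -, hi⟩ := hζL.eq_pow_of_pow_eq_one h1
    refine ⟨ζ ^ i, pow_ne_zero _ (hζ.ne_zero hm.ne'), ?_⟩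
    rw [map_pow, hi, div_mul_cancel₀ _ hθ0]
  obtain ⟨c, hc0, hc⟩ := prod_eq_algebraMap_mul_pow θ _ hroots
  rw [hc, ← hcard, natDegree_map, coeff_map] at hcoeff
  refine ⟨(-1) ^ (minpoly F θ).natDegree * (minpoly F θ).coeff 0 * c⁻¹, ?_⟩
  have hcL : algebraMap F L c ≠ 0 := (map_ne_zero (algebraMap F L)).mpr hc0
  rw [map_mul, map_mul, map_pow, map_neg, map_one, map_inv₀, hcoeff]
  have h2 : ((-1 : L) ^ (minpoly F θ).natDegree) * ((-1) ^ (minpoly F θ).natDegree) = 1 := by
    rw [← mul_pow]
    simp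
  have h3 : algebraMap F L c * (algebraMap F L c)⁻¹ = 1 := mul_inv_cancel₀ hcL
  calc θ ^ (minpoly F θ).natDegree
      = ((-1 : L) ^ (minpoly F θ).natDegree * (-1) ^ (minpoly F θ).natDegree) *
          θ ^ (minpoly F θ).natDegree * (algebraMap F L c * (algebraMap F L c)⁻¹) := by
        rw [h2, h3, one_mul, mul_one]
    _ = (-1) ^ (minpoly F θ).natDegree *
          ((-1) ^ (minpoly F θ).natDegree * (algebraMap F L c * θ ^ (minpoly F θ).natDegree)) *
          (algebraMap F L c)⁻¹ := by ring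

/-- **(A1) Kummer degree.** If `F` contains a primitive `m`-th root of unity, `θ ^ m = U ∈ F`,
`U ≠ 0` and `L = F[θ]`, then with `d = [L : F]`: `d ∣ m`, `θ ^ d = u ∈ F`, `u ^ (m / d) = U`,
and `1, θ, …, θ ^ (d - 1)` is an `F`-basis of `L`. -/
theorem exists_kummer_powerBasis {m : ℕ} (hm : 0 < m) {ζ : F} (hζ : IsPrimitiveRoot ζ m)
    {θ : L} {U : F} (hU : U ≠ 0) (hθ : θ ^ m = algebraMap F L U)
    (htop : Algebra.adjoin F {θ} = ⊤) :
    ∃ (d : ℕ) (pb : Basis (Fin d) F L) (u : F), 0 < d ∧ d ∣ m ∧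
      (∀ e : Fin d, pb e = θ ^ (e : ℕ)) ∧ θ ^ d = algebraMap F L u ∧ u ^ (m / d) = U := by
  classical
  have hθ0 : θ ≠ 0 := by
    rintro rfl
    rw [zero_pow hm.ne'] at hθ
    exact hU ((map_eq_zero (algebraMap F L)).mp hθ.symm)
  have hint : IsIntegral F θ :=
    ⟨X ^ m - C U, monic_X_pow_sub_C U hm.ne', by simp [hθ]⟩
  obtain ⟨u, hu⟩ := exists_pow_natDegree_minpoly_eq hm hζ hU hθ
  have hd0 : 0 < (minpoly F θ).natDegree := minpoly.natDegree_pos hint
  -- the least positive exponent `e₀` with `θ ^ e₀ ∈ F`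
  have hex : ∃ n : ℕ, 0 < n ∧ ∃ c : F, θ ^ n = algebraMap F L c :=
    ⟨(minpoly F θ).natDegree, hd0, u, hu⟩
  obtain ⟨he0, c0, hc0⟩ := Nat.find_spec hex
  have hmin : ∀ n : ℕ, 0 < n → (∃ c : F, θ ^ n = algebraMap F L c) → Nat.find hex ≤ n :=
    fun n hn h => Nat.find_min' hex ⟨hn, h⟩
  have hc0ne : c0 ≠ 0 := by
    rintro rfl
    rw [map_zero] at hc0
    exact hθ0 (pow_eq_zero_iff he0.ne' |>.mp hc0)
  have hdiv : ∀ n : ℕ, (∃ c : F, θ ^ n = algebraMap F L c) → Nat.find hex ∣ n := by
    rintro n ⟨c, hc⟩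
    by_contra hnd
    have hr : 0 < n % Nat.find hex := Nat.pos_of_ne_zero fun h => hnd (Nat.dvd_of_mod_eq_zero h)
    have hlt : n % Nat.find hex < Nat.find hex := Nat.mod_lt _ he0
    have hdecomp : θ ^ n = (θ ^ Nat.find hex) ^ (n / Nat.find hex) * θ ^ (n % Nat.find hex) := by
      rw [← pow_mul, ← pow_add, Nat.div_add_mod]
    have hpow : θ ^ (n % Nat.find hex) = algebraMap F L (c * (c0 ^ (n / Nat.find hex))⁻¹) := by
      rw [hc, hc0] at hdecomp
      rw [map_mul, map_inv₀, map_pow, hdecomp]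
      have : (algebraMap F L c0) ^ (n / Nat.find hex) ≠ 0 :=
        pow_ne_zero _ ((map_ne_zero (algebraMap F L)).mpr hc0ne)
      field_simp
    exact absurd (hmin _ hr ⟨_, hpow⟩) (not_le.mpr hlt)
  have hle : (minpoly F θ).natDegree ≤ Nat.find hex := by
    have hp : (X ^ Nat.find hex - C c0 : F[X]) ≠ 0 := (monic_X_pow_sub_C c0 he0.ne').ne_zero
    have hroot : aeval θ (X ^ Nat.find hex - C c0 : F[X]) = 0 := by simp [hc0]
    have := natDegree_le_natDegree (minpoly.degree_le_of_ne_zero F θ hp hroot)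
    rwa [natDegree_X_pow_sub_C] at this
  have heq : Nat.find hex = (minpoly F θ).natDegree :=
    le_antisymm (Nat.le_of_dvd hd0 (hdiv _ ⟨u, hu⟩)) hle
  have hdvd : (minpoly F θ).natDegree ∣ m := heq ▸ hdiv m ⟨U, hθ⟩
  refine ⟨(minpoly F θ).natDegree, (PowerBasis.ofAdjoinEqTop hint htop).basis, u, hd0, hdvd, ?_,
    hu, ?_⟩
  · intro e
    exact (PowerBasis.ofAdjoinEqTop hint htop).basis_eq_pow e
  · apply (algebraMap F L).injective
    rw [map_pow, ← hu, ← pow_mul, Nat.mul_div_cancel' hdvd, hθ]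

/-- (A1) in `IsKummerBasis` form. -/
theorem exists_isKummerBasis {m : ℕ} (hm : 0 < m) {ζ : F} (hζ : IsPrimitiveRoot ζ m)
    {θ : L} {U : F} (hU : U ≠ 0) (hθ : θ ^ m = algebraMap F L U)
    (htop : Algebra.adjoin F {θ} = ⊤) :
    ∃ (d : ℕ) (pb : Basis (Fin d) F L) (u : F), 0 < d ∧ d ∣ m ∧ IsKummerBasis pb θ u ∧
      u ^ (m / d) = U := by
  obtain ⟨d, pb, u, hd, hdm, hpb, hu, huU⟩ := exists_kummer_powerBasis hm hζ hU hθ htop
  exact ⟨d, pb, u, hd, hdm, ⟨hpb, hu⟩, huU⟩

end KummerDegree

end Fermat.Agent.S18.helper4364
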