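import Fermat.Agent.S18.helper4464_ChartRiemann
import Fermat.Agent.S18.helper4445_GenusRed
import Fermat.Agent.S18.helper5122_CechInst

/-!
# S18 (DU1): perfect chart duality

`K` a field, `F / K(x)` finite separable, `x` transcendental over `K`; `B₁`, `B₂`, `B₁₂` the
integral closures of `K[x]`, `K[x⁻¹]`, `K[x, x⁻¹]` in `F`.  The space
`Ω(F, x) = {y | Tr(y B₁) ⊆ x K[x], Tr(y B₂) ⊆ x⁻¹ K[x⁻¹]}` of regular chart differentials
(`helper4445.omega`) is finite-dimensional of dimension `γ(F, x) = dim B₁₂ / (B₁ + B₂)`.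
-/

set_option autoImplicit false

namespace Fermat.Agent.S18.helper4464

open Polynomial IntermediateField Module

section Laurent

variable {K F : Type*} [Field K] [Field F] [Algebra K F]

/-- The integer powers of a transcendental element are linearly independent. -/
theorem linearIndependent_zpow {x : F} (hx : Transcendental K x) :
    LinearIndependent K (fun m : ℤ => x ^ m) := by
  classical
  have hx0 : x ≠ 0 := by
    rintro rfl
    exact hx ⟨X, X_ne_zero, by simp⟩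
  rw [linearIndependent_iff']
  intro s c hc m₀ hm₀
  -- shift all exponents to be nonnegative
  obtain ⟨N, hN⟩ : ∃ N : ℕ, ∀ m ∈ s, 0 ≤ m + N := by
    refine ⟨s.sup (fun m => (-m).toNat), fun m hm => ?_⟩
    have h1 : (-m).toNat ≤ s.sup (fun m => (-m).toNat) :=
      Finset.le_sup (f := fun m => (-m).toNat) hm
    have h2 : -m ≤ ((-m).toNat : ℤ) := Int.self_le_toNat _
    omega
  set p : K[X] := ∑ m ∈ s, C (c m) * X ^ (m + N).toNat with hp
  have hpx : aeval x p = 0 := by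
    have h1 : aeval x p = x ^ (N : ℤ) * ∑ m ∈ s, c m • x ^ m := by
      rw [hp, map_sum, Finset.mul_sum]
      refine Finset.sum_congr rfl (fun m hm => ?_)
      rw [map_mul, aeval_C, map_pow, aeval_X, Algebra.smul_def, ← zpow_natCast x (m + N).toNat,
        Int.toNat_of_nonneg (hN m hm), zpow_add₀ hx0]
      ring
    rw [h1, hc, mul_zero]
  have hp0 : p = 0 := by
    by_contra hne
    exact hx ⟨p, hne, hpx⟩
  have hcoef : p.coeff (m₀ + N).toNat = c m₀ := by
    rw [hp, finsetSum_coeff]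
    rw [Finset.sum_eq_single m₀]
    · simp
    · intro m hm hne
      rw [coeff_C_mul, coeff_X_pow, if_neg, mul_zero]
      intro h
      apply hne
      have h1 := Int.toNat_of_nonneg (hN m hm)
      have h2 := Int.toNat_of_nonneg (hN m₀ hm₀)
      omega
    · intro h; exact absurd hm₀ h
  rw [hp0, coeff_zero] at hcoef
  exact hcoef.symm

/-- The `K`-span of the integer powers of `x`: "Laurent polynomials in `x`". -/
def laurentSpan (K : Type*) {F : Type*} [Field K] [Field F] [Algebra K F] (x : F) :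
    Submodule K F :=
  Submodule.span K (Set.range fun m : ℤ => x ^ m)

theorem zpow_mem_laurentSpan (x : F) (m : ℤ) : x ^ m ∈ laurentSpan K x :=
  Submodule.subset_span ⟨m, rfl⟩

theorem zpow_mul_mem_laurentSpan {x : F} (hx0 : x ≠ 0) (n : ℤ) {t : F}
    (ht : t ∈ laurentSpan K x) : x ^ n * t ∈ laurentSpan K x := by
  induction ht using Submodule.span_induction with
  | mem t ht =>
    obtain ⟨m, rfl⟩ := ht
    rw [← zpow_add₀ hx0]
    exact zpow_mem_laurentSpan x _
  | zero => rw [mul_zero]; exact Submodule.zero_mem _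
  | add a b _ _ ha hb => rw [mul_add]; exact Submodule.add_mem _ ha hb
  | smul c a _ ha => rw [mul_smul_comm]; exact Submodule.smul_mem _ c ha

theorem aeval_mem_laurentSpan (x : F) (p : K[X]) : aeval x p ∈ laurentSpan K x := by
  rw [aeval_eq_sum_range]
  refine Submodule.sum_mem _ (fun i _ => Submodule.smul_mem _ _ ?_)
  rw [← zpow_natCast]
  exact zpow_mem_laurentSpan x _

theorem aeval_inv_mem_laurentSpan (x : F) (p : K[X]) : aeval x⁻¹ p ∈ laurentSpan K x := by
  rw [aeval_eq_sum_range]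
  refine Submodule.sum_mem _ (fun i _ => Submodule.smul_mem _ _ ?_)
  rw [inv_pow, ← zpow_natCast, ← zpow_neg]
  exact zpow_mem_laurentSpan x _

/-- Coefficient extraction for Laurent polynomials in a transcendental `x`, extended
(non-canonically) to a `K`-linear map on all of `F`. -/
theorem exists_laurentCoeff {x : F} (hx : Transcendental K x) :
    ∃ c : F →ₗ[K] (ℤ →₀ K), ∀ l : ℤ →₀ K,
      c (Finsupp.linearCombination K (fun m : ℤ => x ^ m) l) = l := by
  have hli := linearIndependent_zpow hx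
  obtain ⟨g, hg⟩ := LinearMap.exists_leftInverse_of_injective
    (Finsupp.linearCombination K (fun m : ℤ => x ^ m))
    (LinearMap.ker_eq_bot.mpr hli.finsuppLinearCombination_injective)
  exact ⟨g, fun l => by simpa using congrArg (fun f => f l) hg⟩

/-- The coefficient of `x ^ 0`. -/
noncomputable def coeffZero (c : F →ₗ[K] (ℤ →₀ K)) : F →ₗ[K] K := Finsupp.lapply 0 ∘ₗ c

theorem laurentCoeff_sum {x : F} {c : F →ₗ[K] (ℤ →₀ K)}
    (hc : ∀ l : ℤ →₀ K, c (Finsupp.linearCombination K (fun m : ℤ => x ^ m) l) = l)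
    {ι : Type*} (s : Finset ι) (a : ι → K) (e : ι → ℤ) :
    c (∑ j ∈ s, a j • x ^ e j) = ∑ j ∈ s, Finsupp.single (e j) (a j) := by
  have h := hc (∑ j ∈ s, Finsupp.single (e j) (a j))
  rw [map_sum] at h
  simp only [Finsupp.linearCombination_single] at h
  exact h

theorem coeffZero_sum {x : F} {c : F →ₗ[K] (ℤ →₀ K)}
    (hc : ∀ l : ℤ →₀ K, c (Finsupp.linearCombination K (fun m : ℤ => x ^ m) l) = l)
    {ι : Type*} (s : Finset ι) (a : ι → K) (e : ι → ℤ) :
    coeffZero c (∑ j ∈ s, a j • x ^ e j) = ∑ j ∈ s, if e j = 0 then a j else 0 := by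
  classical
  unfold coeffZero
  rw [LinearMap.comp_apply, laurentCoeff_sum hc, map_sum]
  refine Finset.sum_congr rfl (fun j _ => ?_)
  rw [Finsupp.lapply_apply, Finsupp.single_apply]

theorem coeffZero_X_mul_aeval {x : F} {c : F →ₗ[K] (ℤ →₀ K)}
    (hc : ∀ l : ℤ →₀ K, c (Finsupp.linearCombination K (fun m : ℤ => x ^ m) l) = l)
    (p : K[X]) : coeffZero c (x * aeval x p) = 0 := by
  have h1 : x * aeval x p = ∑ i ∈ Finset.range (p.natDegree + 1), p.coeff i • x ^ ((i : ℤ) + 1) := by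
    rw [aeval_eq_sum_range, Finset.mul_sum]
    refine Finset.sum_congr rfl (fun i _ => ?_)
    rw [mul_smul_comm]
    congr 1
    by_cases hx0 : x = 0
    · subst hx0
      rw [zero_mul, zero_zpow _ (by omega)]
    · rw [zpow_add₀ hx0, zpow_one, zpow_natCast, mul_comm]
  rw [h1, coeffZero_sum hc]
  refine Finset.sum_eq_zero (fun i _ => ?_)
  rw [if_neg (by omega)]

theorem coeffZero_inv_mul_aeval_inv {x : F} {c : F →ₗ[K] (ℤ →₀ K)}
    (hc : ∀ l : ℤ →₀ K, c (Finsupp.linearCombination K (fun m : ℤ => x ^ m) l) = l)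
    (p : K[X]) : coeffZero c (x⁻¹ * aeval x⁻¹ p) = 0 := by
  have h1 : x⁻¹ * aeval x⁻¹ p
      = ∑ i ∈ Finset.range (p.natDegree + 1), p.coeff i • x ^ (-((i : ℤ) + 1)) := by
    rw [aeval_eq_sum_range, Finset.mul_sum]
    refine Finset.sum_congr rfl (fun i _ => ?_)
    rw [mul_smul_comm]
    congr 1
    have h2 : (-((i : ℤ) + 1)) = -(((i + 1 : ℕ)) : ℤ) := by push_cast; ring
    rw [h2, zpow_neg, zpow_natCast, ← inv_pow, pow_succ, mul_comm]
  rw [h1, coeffZero_sum hc]
  refine Finset.sum_eq_zero (fun i _ => ?_)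
  rw [if_neg (by omega)]

/-- A Laurent polynomial `t` in `x` all of whose shifted constant coefficients vanish is zero. -/
theorem eq_zero_of_coeffZero_zpow_mul {x : F} (hx0 : x ≠ 0) {c : F →ₗ[K] (ℤ →₀ K)}
    (hc : ∀ l : ℤ →₀ K, c (Finsupp.linearCombination K (fun m : ℤ => x ^ m) l) = l)
    {t : F} (ht : t ∈ laurentSpan K x) (h : ∀ i : ℤ, coeffZero c (x ^ i * t) = 0) : t = 0 := by
  obtain ⟨l, rfl⟩ := Finsupp.mem_span_range_iff_exists_finsupp.mp ht
  have hl : l = 0 := by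
    ext m
    have h1 := h (-m)
    have h2 : x ^ (-m) * (l.sum fun i a => a • x ^ i)
        = Finsupp.linearCombination K (fun k : ℤ => x ^ k) (Finsupp.mapDomain (fun k => k + -m) l) := by
      rw [Finsupp.linearCombination_mapDomain, ← Finsupp.linearCombination_apply]
      have h3 := LinearMap.map_finsupp_linearCombination (LinearMap.mulLeft K (x ^ (-m)))
        (g := fun k : ℤ => x ^ k) l
      rw [LinearMap.mulLeft_apply] at h3
      rw [h3]
      congr 2
      funext k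
      simp only [Function.comp_apply, LinearMap.mulLeft_apply]
      rw [← zpow_add₀ hx0, add_comm]
    rw [h2] at h1
    unfold coeffZero at h1
    rw [LinearMap.comp_apply, hc, Finsupp.lapply_apply] at h1
    have h4 := Finsupp.mapDomain_apply (f := fun k : ℤ => k + -m) (add_left_injective (-m)) l m
    simp only [add_neg_cancel] at h4
    rw [h4] at h1
    simpa using h1
  rw [hl]
  simp

end Laurent

section Trace

variable {K F : Type*} [Field K] [Field F] [Algebra K F]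

/-- `Tr_{F/K(x)}`, as a `K`-linear endomorphism of `F`. -/
noncomputable def trK (K : Type*) {F : Type*} [Field K] [Field F] [Algebra K F] (x : F) :
    F →ₗ[K] F :=
  K⟮x⟯.val.toLinearMap ∘ₗ (Algebra.trace K⟮x⟯ F).restrictScalars K

theorem trK_apply (x f : F) : trK K x f = ((Algebra.trace K⟮x⟯ F f : K⟮x⟯) : F) := rfl

theorem trK_mem (x f : F) : trK K x f ∈ K⟮x⟯ := (Algebra.trace K⟮x⟯ F f).2

theorem trK_mul_of_mem (x : F) {z : F} (hz : z ∈ K⟮x⟯) (f : F) :
    trK K x (z * f) = z * trK K x f := by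
  have h : z * f = (⟨z, hz⟩ : K⟮x⟯) • f := rfl
  rw [trK_apply, h, map_smul, smul_eq_mul, MulMemClass.coe_mul]
  rfl

theorem trK_nondegenerate (x : F) [FiniteDimensional K⟮x⟯ F] [Algebra.IsSeparable K⟮x⟯ F]
    {y : F} (h : ∀ f, trK K x (y * f) = 0) : y = 0 := by
  have hnd := traceForm_nondegenerate K⟮x⟯ F
  apply hnd.1 y
  intro f
  rw [Algebra.traceForm_apply]
  have h1 := h f
  rw [trK_apply] at h1
  exact_mod_cast h1

theorem adjoin_le_adjoinField (x : F) {r : F} (hr : r ∈ Algebra.adjoin K {x}) : r ∈ K⟮x⟯ :=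
  IntermediateField.algebra_adjoin_le_adjoin K {x} hr

/-- Clearing denominators: every element of `F` has a nonzero multiple by an element of `K[x]`
which is integral over `K[x]`. -/
theorem exists_mul_isIntegral (x : F) [FiniteDimensional K⟮x⟯ F] (f : F) :
    ∃ r : F, r ∈ Algebra.adjoin K {x} ∧ r ≠ 0 ∧ IsIntegral (Algebra.adjoin K {x}) (r * f) := by
  let _ : Algebra (Algebra.adjoin K {x}) K⟮x⟯ :=
    IntermediateField.algebraAdjoinAdjoin.instAlgebraSubtypeMemSubalgebraAdjoinAdjoin K {x}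
  have : IsFractionRing (Algebra.adjoin K {x}) K⟮x⟯ :=
    IntermediateField.algebraAdjoinAdjoin.instIsFractionRingSubtypeMemSubalgebraAdjoinAdjoin K {x}
  have : IsScalarTower (Algebra.adjoin K {x}) K⟮x⟯ F := IsScalarTower.of_algebraMap_eq fun _ => rfl
  have halg : IsAlgebraic K⟮x⟯ f := Algebra.IsAlgebraic.isAlgebraic f
  have halg' : IsAlgebraic (Algebra.adjoin K {x}) f :=
    (IsFractionRing.isAlgebraic_iff (Algebra.adjoin K {x}) K⟮x⟯ F).mpr halg
  obtain ⟨y, hy, hint⟩ := halg'.exists_integral_multiple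
  exact ⟨y, y.2, fun h => hy (Subtype.ext h), hint⟩

/-- A `K(x)`-basis of `F` consisting of elements integral over `K[x]`. -/
theorem exists_basis_isIntegral (x : F) [FiniteDimensional K⟮x⟯ F] :
    ∃ β : Basis (Fin (finrank K⟮x⟯ F)) K⟮x⟯ F, ∀ i, IsIntegral (Algebra.adjoin K {x}) (β i) := by
  set b := Module.finBasis K⟮x⟯ F with hb
  choose r hr hr0 hint using fun i => exists_mul_isIntegral (K := K) x (b i)
  have hw : ∀ i, IsUnit (⟨r i, adjoin_le_adjoinField x (hr i)⟩ : K⟮x⟯) := fun i =>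
    IsUnit.mk0 _ (fun h => hr0 i (congrArg Subtype.val h))
  refine ⟨b.isUnitSMul hw, fun i => ?_⟩
  rw [Basis.isUnitSMul_apply]
  exact hint i

/-- Common denominator: for a `K(x)`-basis `β` of `F`, every `φ : F` has a nonzero multiple by
an element of `K[x]` which is a `K[x]`-combination of the `β i`. -/
theorem exists_common_denominator (x : F) {ι : Type*} [Fintype ι] (β : Basis ι K⟮x⟯ F) (φ : F) :
    ∃ (b : F) (ρ : ι → F), b ∈ Algebra.adjoin K {x} ∧ b ≠ 0 ∧
      (∀ i, ρ i ∈ Algebra.adjoin K {x}) ∧ b * φ = ∑ i, ρ i * β i := by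
  let _ : Algebra (Algebra.adjoin K {x}) K⟮x⟯ :=
    IntermediateField.algebraAdjoinAdjoin.instAlgebraSubtypeMemSubalgebraAdjoinAdjoin K {x}
  have : IsFractionRing (Algebra.adjoin K {x}) K⟮x⟯ :=
    IntermediateField.algebraAdjoinAdjoin.instIsFractionRingSubtypeMemSubalgebraAdjoinAdjoin K {x}
  obtain ⟨b, hb⟩ := IsLocalization.exist_integer_multiples
    (nonZeroDivisors (Algebra.adjoin K {x})) (Finset.univ : Finset ι) (fun i => β.repr φ i)
  choose ρ hρ using fun i => hb i (Finset.mem_univ i)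
  refine ⟨(b : Algebra.adjoin K {x}), fun i => (ρ i : F), (b : Algebra.adjoin K {x}).2, ?_,
    fun i => (ρ i).2, ?_⟩
  · intro h
    exact nonZeroDivisors.coe_ne_zero b (Subtype.ext h)
  · conv_lhs => rw [← β.sum_repr φ]
    rw [Finset.mul_sum]
    refine Finset.sum_congr rfl (fun i _ => ?_)
    have h1 := congrArg (fun e : K⟮x⟯ => (e : F)) (hρ i)
    have h2 : ((ρ i : Algebra.adjoin K {x}) : F)
        = ((b : Algebra.adjoin K {x}) : F) * ((β.repr φ i : K⟮x⟯) : F) := h1
    beta_reduce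
    rw [h2, mul_assoc]
    rfl

end Trace

/-! ## The map `Λ_λ(φ) = ∑ₙ λ(xⁿ φ) x⁻ⁿ` -/

section Lam

variable {K F : Type*} [Field K] [Field F] [Algebra K F]

/-- `Λ_λ(φ) = ∑ₙ λ(xⁿ φ) x⁻ⁿ` (a finite sum when `φ` lies in `B₁₂` and `λ` kills `B₁`, `B₂`). -/
noncomputable def Lam (x : F) (lam : F →ₗ[K] K) (φ : F) : F :=
  ∑ᶠ n : ℤ, algebraMap K F (lam (x ^ n * φ)) * x ^ (-n)

/-- The window condition: `λ(xⁿ φ)` vanishes outside a finite window. -/
def LamWin (x : F) (lam : F →ₗ[K] K) (φ : F) (N₂ N₁ : ℕ) : Prop :=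
  (∀ n : ℤ, (N₁ : ℤ) ≤ n → lam (x ^ n * φ) = 0) ∧ (∀ n : ℤ, n ≤ -(N₂ : ℤ) → lam (x ^ n * φ) = 0)

theorem LamWin.support_subset {x : F} {lam : F →ₗ[K] K} {φ : F} {N₂ N₁ : ℕ}
    (h : LamWin x lam φ N₂ N₁) :
    Function.support (fun n : ℤ => algebraMap K F (lam (x ^ n * φ)) * x ^ (-n))
      ⊆ ↑(Finset.Icc (-(N₂ : ℤ)) (N₁ : ℤ)) := by
  intro n hn
  rw [Function.mem_support] at hn
  rw [Finset.coe_Icc, Set.mem_Icc]
  by_contra hcon
  apply hn
  have : lam (x ^ n * φ) = 0 := by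
    by_cases h1 : (N₁ : ℤ) ≤ n
    · exact h.1 n h1
    · exact h.2 n (by omega)
  rw [this, map_zero, zero_mul]

theorem LamWin.finite {x : F} {lam : F →ₗ[K] K} {φ : F} {N₂ N₁ : ℕ}
    (h : LamWin x lam φ N₂ N₁) :
    (Function.support (fun n : ℤ => algebraMap K F (lam (x ^ n * φ)) * x ^ (-n))).Finite :=
  (Finset.finite_toSet _).subset h.support_subset

theorem Lam_eq_sum {x : F} {lam : F →ₗ[K] K} {φ : F} {s : Finset ℤ}
    (h : Function.support (fun n : ℤ => algebraMap K F (lam (x ^ n * φ)) * x ^ (-n)) ⊆ ↑s) :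
    Lam x lam φ = ∑ n ∈ s, lam (x ^ n * φ) • x ^ (-n) := by
  unfold Lam
  rw [finsum_eq_sum_of_support_subset _ h]
  exact Finset.sum_congr rfl (fun n _ => (Algebra.smul_def _ _).symm)

theorem Lam_add {x : F} {lam : F →ₗ[K] K} {φ ψ : F}
    (h1 : (Function.support (fun n : ℤ => algebraMap K F (lam (x ^ n * φ)) * x ^ (-n))).Finite)
    (h2 : (Function.support (fun n : ℤ => algebraMap K F (lam (x ^ n * ψ)) * x ^ (-n))).Finite) :
    Lam x lam (φ + ψ) = Lam x lam φ + Lam x lam ψ := by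
  unfold Lam
  rw [← finsum_add_distrib h1 h2]
  congr 1
  funext n
  rw [mul_add, map_add, map_add, add_mul]

theorem Lam_smul (x : F) (lam : F →ₗ[K] K) (c : K) (φ : F) :
    Lam x lam (c • φ) = c • Lam x lam φ := by
  unfold Lam
  rw [smul_finsum]
  congr 1
  funext n
  rw [mul_smul_comm, map_smul, smul_eq_mul, map_mul, Algebra.smul_def, mul_assoc]

theorem Lam_mul_x {x : F} (hx0 : x ≠ 0) (lam : F →ₗ[K] K) (φ : F) :
    Lam x lam (x * φ) = x * Lam x lam φ := by
  unfold Lam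
  rw [mul_finsum]
  rw [← finsum_comp_equiv (Equiv.addRight (1 : ℤ))
    (f := fun n : ℤ => x * (algebraMap K F (lam (x ^ n * φ)) * x ^ (-n)))]
  congr 1
  funext n
  simp only [Equiv.coe_addRight]
  have e1 : x ^ n * (x * φ) = x ^ (n + 1) * φ := by
    rw [zpow_add₀ hx0, zpow_one, mul_assoc]
  have e2 : x * x ^ (-(n + 1)) = x ^ (-n) := by
    rw [neg_add, zpow_add₀ hx0, zpow_neg_one, ← mul_assoc, mul_comm x, mul_assoc,
      mul_inv_cancel₀ hx0, mul_one]
  rw [e1, mul_left_comm, e2]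

theorem Lam_mem (x : F) (lam : F →ₗ[K] K) (φ : F) : Lam x lam φ ∈ K⟮x⟯ := by
  unfold Lam
  by_cases hfin : (Function.support
      (fun n : ℤ => algebraMap K F (lam (x ^ n * φ)) * x ^ (-n))).Finite
  · rw [finsum_eq_sum_of_support_subset _ (s := hfin.toFinset) (by simp)]
    refine sum_mem (fun n _ => mul_mem (IntermediateField.algebraMap_mem _ _) (zpow_mem ?_ _))
    exact mem_adjoin_simple_self K x
  · rw [finsum_of_infinite_support hfin]
    exact zero_mem _

end Lam

/-! ## The three charts -/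

section Charts

open Fermat.Agent.S18.helper5122

variable {K F : Type*} [Field K] [Field F] [Algebra K F]

theorem isIntegral_of_mem_adjoin {S : Set F} {a : F} (ha : a ∈ Algebra.adjoin K S) :
    IsIntegral (Algebra.adjoin K S) a :=
  isIntegral_algebraMap (R := Algebra.adjoin K S) (A := F) (x := ⟨a, ha⟩)

theorem isIntegral_pair_of_left (x : F) {b : F} (hb : IsIntegral (Algebra.adjoin K {x}) b) :
    IsIntegral (Algebra.adjoin K {x, x⁻¹}) b :=
  isIntegral_mono (Algebra.adjoin_mono (by intro y hy; exact Or.inl hy)) hb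

theorem isIntegral_pair_of_right (x : F) {b : F} (hb : IsIntegral (Algebra.adjoin K {x⁻¹}) b) :
    IsIntegral (Algebra.adjoin K {x, x⁻¹}) b :=
  isIntegral_mono (Algebra.adjoin_mono (by intro y hy; exact Or.inr hy)) hb

theorem zpow_mem_adjoin_pair (x : F) (n : ℤ) : x ^ n ∈ Algebra.adjoin K {x, x⁻¹} := by
  rcases Int.eq_nat_or_neg n with ⟨k, rfl | rfl⟩
  · rw [zpow_natCast]
    have h : x ∈ Algebra.adjoin K ({x, x⁻¹} : Set F) :=
      Algebra.subset_adjoin (Set.mem_insert x _)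
    exact Subalgebra.pow_mem _ h k
  · rw [zpow_neg, zpow_natCast, ← inv_pow]
    have h : x⁻¹ ∈ Algebra.adjoin K ({x, x⁻¹} : Set F) :=
      Algebra.subset_adjoin (Set.mem_insert_of_mem x rfl)
    exact Subalgebra.pow_mem _ h k

theorem isIntegral_pair_zpow_mul (x : F) (n : ℤ) {φ : F}
    (hφ : IsIntegral (Algebra.adjoin K {x, x⁻¹}) φ) :
    IsIntegral (Algebra.adjoin K {x, x⁻¹}) (x ^ n * φ) :=
  (isIntegral_of_mem_adjoin (zpow_mem_adjoin_pair x n)).mul hφ

theorem isIntegral_pair_adjoin_mul (x : F) {r : F} (hr : r ∈ Algebra.adjoin K {x}) {φ : F}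
    (hφ : IsIntegral (Algebra.adjoin K {x, x⁻¹}) φ) :
    IsIntegral (Algebra.adjoin K {x, x⁻¹}) (r * φ) :=
  (isIntegral_pair_of_left x (isIntegral_of_mem_adjoin hr)).mul hφ

variable {x : F} {lam : F →ₗ[K] K}

theorem lam_zpow_mul_eq_zero_left
    (hlam1 : ∀ b : F, IsIntegral (Algebra.adjoin K {x}) b → lam b = 0) {ψ : F}
    (hψ : IsIntegral (Algebra.adjoin K {x}) ψ) {n : ℤ} (hn : 0 ≤ n) : lam (x ^ n * ψ) = 0 := by
  obtain ⟨k, rfl⟩ := Int.eq_ofNat_of_zero_le hn
  rw [zpow_natCast]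
  exact hlam1 _ (((isIntegral_of_mem_adjoin (Algebra.self_mem_adjoin_singleton K x)).pow k).mul hψ)

theorem lam_zpow_mul_eq_zero_right
    (hlam2 : ∀ b : F, IsIntegral (Algebra.adjoin K {x⁻¹}) b → lam b = 0) {ψ : F}
    (hψ : IsIntegral (Algebra.adjoin K {x⁻¹}) ψ) {n : ℤ} (hn : n ≤ 0) : lam (x ^ n * ψ) = 0 := by
  obtain ⟨k, hk⟩ := Int.eq_ofNat_of_zero_le (neg_nonneg.mpr hn)
  have e : x ^ n = x⁻¹ ^ k := by
    rw [inv_pow, ← zpow_natCast, ← hk, ← zpow_neg, neg_neg]
  rw [e]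
  exact hlam2 _
    (((isIntegral_of_mem_adjoin (Algebra.self_mem_adjoin_singleton K x⁻¹)).pow k).mul hψ)

/-- The window of `φ ∈ B₁₂`. -/
theorem exists_lamWin (hx0 : x ≠ 0)
    (hlam1 : ∀ b : F, IsIntegral (Algebra.adjoin K {x}) b → lam b = 0)
    (hlam2 : ∀ b : F, IsIntegral (Algebra.adjoin K {x⁻¹}) b → lam b = 0) {φ : F}
    (hφ : IsIntegral (Algebra.adjoin K {x, x⁻¹}) φ) : ∃ N₂ N₁ : ℕ, LamWin x lam φ N₂ N₁ := by
  obtain ⟨N₁, h1⟩ := icl_pair_scale (A := K) x hx0 φ hφ
  obtain ⟨N₂, h2⟩ := icl_pair_scale' (A := K) x hx0 φ hφ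
  refine ⟨N₂, N₁, fun n hn => ?_, fun n hn => ?_⟩
  · have e : x ^ n * φ = x ^ (n - N₁) * (x ^ N₁ * φ) := by
      rw [← mul_assoc, ← zpow_natCast x N₁, ← zpow_add₀ hx0, sub_add_cancel]
    rw [e]
    exact lam_zpow_mul_eq_zero_left hlam1 (mem_icl.mp h1) (by omega)
  · have e : x ^ n * φ = x ^ (n + N₂) * (x⁻¹ ^ N₂ * φ) := by
      rw [← mul_assoc, inv_pow, ← zpow_natCast x N₂, ← zpow_neg, ← zpow_add₀ hx0,
        add_neg_cancel_right]
    rw [e]
    exact lam_zpow_mul_eq_zero_right hlam2 (mem_icl.mp h2) (by omega)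

theorem LamWin.of_left (hlam1 : ∀ b : F, IsIntegral (Algebra.adjoin K {x}) b → lam b = 0)
    {φ : F} (hφ : IsIntegral (Algebra.adjoin K {x}) φ) {N₂ N₁ : ℕ} (h : LamWin x lam φ N₂ N₁) :
    LamWin x lam φ N₂ 0 :=
  ⟨fun _ hn => lam_zpow_mul_eq_zero_left hlam1 hφ (by exact_mod_cast hn), h.2⟩

theorem LamWin.of_right (hlam2 : ∀ b : F, IsIntegral (Algebra.adjoin K {x⁻¹}) b → lam b = 0)
    {φ : F} (hφ : IsIntegral (Algebra.adjoin K {x⁻¹}) φ) {N₂ N₁ : ℕ} (h : LamWin x lam φ N₂ N₁) :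
    LamWin x lam φ 0 N₁ :=
  ⟨h.1, fun _ hn => lam_zpow_mul_eq_zero_right hlam2 hφ (by simpa using hn)⟩

/-- `Λ_λ` is `K[x]`-linear on `B₁₂`. -/
theorem Lam_adjoin_mul (hx0 : x ≠ 0)
    (hlam1 : ∀ b : F, IsIntegral (Algebra.adjoin K {x}) b → lam b = 0)
    (hlam2 : ∀ b : F, IsIntegral (Algebra.adjoin K {x⁻¹}) b → lam b = 0) {r : F}
    (hr : r ∈ Algebra.adjoin K {x}) :
    ∀ φ : F, IsIntegral (Algebra.adjoin K {x, x⁻¹}) φ → Lam x lam (r * φ) = r * Lam x lam φ := by
  induction hr using Algebra.adjoin_induction with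
  | mem r hr =>
    intro φ _
    rw [Set.mem_singleton_iff.mp hr]
    exact Lam_mul_x hx0 lam φ
  | algebraMap c =>
    intro φ _
    rw [← Algebra.smul_def, Lam_smul, Algebra.smul_def]
  | add r s hr hs ihr ihs =>
    intro φ hφ
    obtain ⟨_, _, w1⟩ := exists_lamWin hx0 hlam1 hlam2 (isIntegral_pair_adjoin_mul x hr hφ)
    obtain ⟨_, _, w2⟩ := exists_lamWin hx0 hlam1 hlam2 (isIntegral_pair_adjoin_mul x hs hφ)
    rw [add_mul, Lam_add w1.finite w2.finite, ihr φ hφ, ihs φ hφ, add_mul]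
  | mul r s hr hs ihr ihs =>
    intro φ hφ
    rw [mul_assoc, ihr _ (isIntegral_pair_adjoin_mul x hs hφ), ihs φ hφ, mul_assoc]

/-- On `B₁`, `Λ_λ` takes values in `x K[x]`. -/
theorem Lam_of_left (hx0 : x ≠ 0)
    (hlam1 : ∀ b : F, IsIntegral (Algebra.adjoin K {x}) b → lam b = 0)
    (hlam2 : ∀ b : F, IsIntegral (Algebra.adjoin K {x⁻¹}) b → lam b = 0) {φ : F}
    (hφ : IsIntegral (Algebra.adjoin K {x}) φ) : ∃ p : K[X], Lam x lam φ = x * aeval x p := by
  obtain ⟨N₂, N₁, w⟩ := exists_lamWin hx0 hlam1 hlam2 (isIntegral_pair_of_left x hφ)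
  have w' := w.of_left hlam1 hφ
  let ε : ℕ ↪ ℤ := ⟨fun j : ℕ => -((j : ℤ) + 1), fun a b h => by simpa using h⟩
  have hsub : Function.support (fun n : ℤ => algebraMap K F (lam (x ^ n * φ)) * x ^ (-n))
      ⊆ ↑((Finset.range N₂).map ε) := by
    intro n hn
    rw [Function.mem_support] at hn
    have h1 : ¬ (0 ≤ n) := fun h => hn (by rw [w'.1 n (by simpa using h), map_zero, zero_mul])
    have h2 : ¬ (n ≤ -(N₂ : ℤ)) := fun h => hn (by rw [w'.2 n h, map_zero, zero_mul])
    rw [Finset.coe_map, Set.mem_image]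
    refine ⟨(-n - 1).toNat, ?_, ?_⟩
    · rw [Finset.mem_coe, Finset.mem_range]
      omega
    · show -(((-n - 1).toNat : ℤ) + 1) = n
      omega
  refine ⟨∑ j ∈ Finset.range N₂, C (lam (x ^ (-((j : ℤ) + 1)) * φ)) * X ^ j, ?_⟩
  rw [Lam_eq_sum hsub, Finset.sum_map, map_sum, Finset.mul_sum]
  refine Finset.sum_congr rfl (fun j _ => ?_)
  show lam (x ^ (-((j : ℤ) + 1)) * φ) • x ^ (-(-((j : ℤ) + 1))) = _
  generalize lam (x ^ (-((j : ℤ) + 1)) * φ) = a
  rw [map_mul, aeval_C, map_pow, aeval_X, neg_neg, Algebra.smul_def, zpow_add₀ hx0, zpow_one,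
    zpow_natCast]
  ring

/-- On `B₂`, `Λ_λ` takes values in `x⁻¹ K[x⁻¹]`. -/
theorem Lam_of_right (hx0 : x ≠ 0)
    (hlam1 : ∀ b : F, IsIntegral (Algebra.adjoin K {x}) b → lam b = 0)
    (hlam2 : ∀ b : F, IsIntegral (Algebra.adjoin K {x⁻¹}) b → lam b = 0) {φ : F}
    (hφ : IsIntegral (Algebra.adjoin K {x⁻¹}) φ) :
    ∃ p : K[X], Lam x lam φ = x⁻¹ * aeval x⁻¹ p := by
  obtain ⟨N₂, N₁, w⟩ := exists_lamWin hx0 hlam1 hlam2 (isIntegral_pair_of_right x hφ)
  have w' := w.of_right hlam2 hφ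
  let ε : ℕ ↪ ℤ := ⟨fun j : ℕ => (j : ℤ) + 1, fun a b h => by simpa using h⟩
  have hsub : Function.support (fun n : ℤ => algebraMap K F (lam (x ^ n * φ)) * x ^ (-n))
      ⊆ ↑((Finset.range N₁).map ε) := by
    intro n hn
    rw [Function.mem_support] at hn
    have h1 : ¬ ((N₁ : ℤ) ≤ n) := fun h => hn (by rw [w'.1 n h, map_zero, zero_mul])
    have h2 : ¬ (n ≤ 0) := fun h => hn (by rw [w'.2 n (by simpa using h), map_zero, zero_mul])
    rw [Finset.coe_map, Set.mem_image]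
    refine ⟨(n - 1).toNat, ?_, ?_⟩
    · rw [Finset.mem_coe, Finset.mem_range]
      omega
    · show (((n - 1).toNat : ℤ) + 1) = n
      omega
  refine ⟨∑ j ∈ Finset.range N₁, C (lam (x ^ ((j : ℤ) + 1) * φ)) * X ^ j, ?_⟩
  rw [Lam_eq_sum hsub, Finset.sum_map, map_sum, Finset.mul_sum]
  refine Finset.sum_congr rfl (fun j _ => ?_)
  show lam (x ^ ((j : ℤ) + 1) * φ) • x ^ (-((j : ℤ) + 1)) = _
  generalize lam (x ^ ((j : ℤ) + 1) * φ) = a
  rw [map_mul, aeval_C, map_pow, aeval_X, Algebra.smul_def, neg_add, zpow_add₀ hx0, zpow_neg_one,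
    zpow_neg, zpow_natCast, inv_pow]
  ring

/-- The constant coefficient of `Λ_λ(φ)` is `λ(φ)`. -/
theorem coeffZero_Lam (hx0 : x ≠ 0) {c : F →ₗ[K] (ℤ →₀ K)}
    (hc : ∀ l : ℤ →₀ K, c (Finsupp.linearCombination K (fun m : ℤ => x ^ m) l) = l)
    (hlam1 : ∀ b : F, IsIntegral (Algebra.adjoin K {x}) b → lam b = 0)
    (hlam2 : ∀ b : F, IsIntegral (Algebra.adjoin K {x⁻¹}) b → lam b = 0) {φ : F}
    (hφ : IsIntegral (Algebra.adjoin K {x, x⁻¹}) φ) : coeffZero c (Lam x lam φ) = lam φ := by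
  obtain ⟨N₂, N₁, w⟩ := exists_lamWin hx0 hlam1 hlam2 hφ
  rw [Lam_eq_sum w.support_subset, coeffZero_sum hc, Finset.sum_eq_single 0]
  · simp
  · intro n _ hn
    rw [if_neg (by omega)]
  · intro h
    exact absurd (Finset.mem_Icc.mpr ⟨by omega, by omega⟩) h

theorem Lam_zero (x : F) (lam : F →ₗ[K] K) : Lam x lam 0 = 0 := by
  have h := Lam_smul x lam (0 : K) (0 : F)
  rwa [zero_smul, zero_smul] at h

/-- `Λ_λ` is additive on finite sums of elements of `B₁₂`. -/
theorem Lam_sum (hx0 : x ≠ 0)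
    (hlam1 : ∀ b : F, IsIntegral (Algebra.adjoin K {x}) b → lam b = 0)
    (hlam2 : ∀ b : F, IsIntegral (Algebra.adjoin K {x⁻¹}) b → lam b = 0)
    {ι : Type*} (s : Finset ι) (g : ι → F)
    (hg : ∀ i ∈ s, IsIntegral (Algebra.adjoin K {x, x⁻¹}) (g i)) :
    Lam x lam (∑ i ∈ s, g i) = ∑ i ∈ s, Lam x lam (g i) := by
  classical
  induction s using Finset.induction_on with
  | empty => simp [Lam_zero]
  | insert a s ha ih =>
    rw [Finset.sum_insert ha, Finset.sum_insert ha]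
    have h1 : IsIntegral (Algebra.adjoin K {x, x⁻¹}) (g a) := hg a (Finset.mem_insert_self a s)
    have h2 : IsIntegral (Algebra.adjoin K {x, x⁻¹}) (∑ i ∈ s, g i) :=
      IsIntegral.sum g (fun i hi => hg i (Finset.mem_insert_of_mem hi))
    obtain ⟨_, _, w1⟩ := exists_lamWin hx0 hlam1 hlam2 h1
    obtain ⟨_, _, w2⟩ := exists_lamWin hx0 hlam1 hlam2 h2
    rw [Lam_add w1.finite w2.finite, ih (fun i hi => hg i (Finset.mem_insert_of_mem hi))]

end Charts

/-! ## The two halves of the duality -/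

section Duality

open Fermat.Agent.S18.helper4445

variable {K F : Type*} [Field K] [Field F] [Algebra K F]

theorem ne_zero_of_transcendental' {x : F} (hx : Transcendental K x) : x ≠ 0 := by
  rintro rfl
  exact hx ⟨X, X_ne_zero, by simp⟩

/-- **Left nondegeneracy of the residue pairing** `(y, φ) ↦ c₀ (Tr (y φ))` on `Ω × B₁₂`. -/
theorem eq_zero_of_isOmega_of_coeffZero {x : F} (hx : Transcendental K x)
    [FiniteDimensional K⟮x⟯ F] [Algebra.IsSeparable K⟮x⟯ F] {c : F →ₗ[K] (ℤ →₀ K)}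
    (hc : ∀ l : ℤ →₀ K, c (Finsupp.linearCombination K (fun m : ℤ => x ^ m) l) = l)
    {y : F} (hy : IsOmega K x y)
    (h : ∀ φ : F, IsIntegral (Algebra.adjoin K {x, x⁻¹}) φ →
      coeffZero c (trK K x (y * φ)) = 0) : y = 0 := by
  have hx0 := ne_zero_of_transcendental' hx
  have hxE : x ∈ K⟮x⟯ := mem_adjoin_simple_self K x
  -- the trace vanishes on `y B₁`
  have key : ∀ φ : F, IsIntegral (Algebra.adjoin K {x}) φ → trK K x (y * φ) = 0 := by
    intro φ hφ
    obtain ⟨p, hp⟩ := hy.1 φ hφ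
    have ht : trK K x (y * φ) ∈ laurentSpan K x := by
      rw [trK_apply, hp]
      have := zpow_mul_mem_laurentSpan (K := K) hx0 1 (aeval_mem_laurentSpan x p)
      rwa [zpow_one] at this
    refine eq_zero_of_coeffZero_zpow_mul hx0 hc ht (fun i => ?_)
    have e : x ^ i * trK K x (y * φ) = trK K x (y * (x ^ i * φ)) := by
      rw [← trK_mul_of_mem x (zpow_mem hxE i)]
      congr 1
      ring
    rw [e]
    exact h _ (isIntegral_pair_zpow_mul x i (isIntegral_pair_of_left x hφ))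
  apply trK_nondegenerate (K := K) x
  intro f
  obtain ⟨r, hr, hr0, hint⟩ := exists_mul_isIntegral (K := K) x f
  have h1 := key (r * f) hint
  have e : y * (r * f) = r * (y * f) := by ring
  rw [e, trK_mul_of_mem x (adjoin_le_adjoinField x hr)] at h1
  exact (mul_eq_zero.mp h1).resolve_left hr0

/-- **Every functional on `B₁₂ / (B₁ + B₂)` is a residue pairing** with a regular chart
differential: the `Λ`-construction. -/
theorem exists_isOmega_of_functional {x : F} (hx : Transcendental K x)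
    [FiniteDimensional K⟮x⟯ F] [Algebra.IsSeparable K⟮x⟯ F] {c : F →ₗ[K] (ℤ →₀ K)}
    (hc : ∀ l : ℤ →₀ K, c (Finsupp.linearCombination K (fun m : ℤ => x ^ m) l) = l)
    (lam : F →ₗ[K] K)
    (hlam1 : ∀ b : F, IsIntegral (Algebra.adjoin K {x}) b → lam b = 0)
    (hlam2 : ∀ b : F, IsIntegral (Algebra.adjoin K {x⁻¹}) b → lam b = 0) :
    ∃ y : F, IsOmega K x y ∧
      ∀ φ : F, IsIntegral (Algebra.adjoin K {x, x⁻¹}) φ →
        coeffZero c (trK K x (y * φ)) = lam φ := by
  classical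
  have hx0 := ne_zero_of_transcendental' hx
  obtain ⟨β, hβ⟩ := exists_basis_isIntegral (K := K) x
  have hnd := traceForm_nondegenerate K⟮x⟯ F
  set βd := (Algebra.traceForm K⟮x⟯ F).dualBasis hnd β with hβd
  set y : F := ∑ i, Lam x lam (β i) * βd i with hy
  -- Claim A
  have hA : ∀ j, trK K x (y * β j) = Lam x lam (β j) := by
    intro j
    rw [hy, Finset.sum_mul, map_sum]
    have h1 : ∀ i, trK K x (Lam x lam (β i) * βd i * β j)
        = Lam x lam (β i) * (if j = i then 1 else 0) := by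
      intro i
      rw [mul_assoc, trK_mul_of_mem x (Lam_mem x lam (β i)), trK_apply,
        ← Algebra.traceForm_apply, hβd, LinearMap.BilinForm.apply_dualBasis_left]
      split_ifs <;> simp
    rw [Finset.sum_congr rfl (fun i _ => h1 i)]
    simp
  -- Claim B
  have hB : ∀ φ : F, IsIntegral (Algebra.adjoin K {x, x⁻¹}) φ →
      trK K x (y * φ) = Lam x lam φ := by
    intro φ hφ
    obtain ⟨b, ρ, hb, hb0, hρ, hbφ⟩ := exists_common_denominator (K := K) x β φ
    have hβ12 : ∀ i, IsIntegral (Algebra.adjoin K {x, x⁻¹}) (β i) :=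
      fun i => isIntegral_pair_of_left x (hβ i)
    have e1 : b * trK K x (y * φ) = ∑ i, ρ i * Lam x lam (β i) := by
      rw [← trK_mul_of_mem x (adjoin_le_adjoinField x hb)]
      have e : b * (y * φ) = ∑ i, ρ i * (y * β i) := by
        rw [mul_left_comm, hbφ, Finset.mul_sum]
        exact Finset.sum_congr rfl (fun i _ => by ring)
      rw [e, map_sum]
      refine Finset.sum_congr rfl (fun i _ => ?_)
      rw [trK_mul_of_mem x (adjoin_le_adjoinField x (hρ i)), hA]
    have e2 : b * Lam x lam φ = ∑ i, ρ i * Lam x lam (β i) := by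
      rw [← Lam_adjoin_mul hx0 hlam1 hlam2 hb φ hφ, hbφ,
        Lam_sum hx0 hlam1 hlam2 Finset.univ (fun i => ρ i * β i)
          (fun i _ => isIntegral_pair_adjoin_mul x (hρ i) (hβ12 i))]
      exact Finset.sum_congr rfl
        (fun i _ => Lam_adjoin_mul hx0 hlam1 hlam2 (hρ i) (β i) (hβ12 i))
    exact mul_left_cancel₀ hb0 (e1.trans e2.symm)
  refine ⟨y, ⟨fun b hb => ?_, fun b hb => ?_⟩, fun φ hφ => ?_⟩
  · obtain ⟨p, hp⟩ := Lam_of_left hx0 hlam1 hlam2 hb
    exact ⟨p, by rw [← trK_apply, hB b (isIntegral_pair_of_left x hb), hp]⟩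
  · obtain ⟨p, hp⟩ := Lam_of_right hx0 hlam1 hlam2 hb
    exact ⟨p, by rw [← trK_apply, hB b (isIntegral_pair_of_right x hb), hp]⟩
  · rw [hB φ hφ, coeffZero_Lam hx0 hc hlam1 hlam2 hφ]

end Duality

/-! ## Main theorem -/

section Main

open Fermat.Agent.S18.helper4445

variable {K F : Type*} [Field K] [Field F] [Algebra K F]

/-- The residue pairing `y ↦ (φ ↦ c₀ (Tr_{F/K(x)} (y φ)))`. -/
noncomputable def resPairing (x : F) (c : F →ₗ[K] (ℤ →₀ K)) : F →ₗ[K] Module.Dual K F :=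
  LinearMap.compr₂ (LinearMap.mul K F) (coeffZero c ∘ₗ trK K x)

theorem resPairing_apply (x : F) (c : F →ₗ[K] (ℤ →₀ K)) (y φ : F) :
    resPairing x c y φ = coeffZero c (trK K x (y * φ)) := rfl

/-- **Perfect chart duality (DU1).**  `x` transcendental over `K`, `F / K(x)` finite separable,
`B₁`, `B₂`, `B₁₂` the integral closures of `K[x]`, `K[x⁻¹]`, `K[x, x⁻¹]` in `F` (in any
presentation as `K`-submodules of `F`), `B₁₂ / (B₁ + B₂)` finite-dimensional.  Then the space
`Ω(F, x)` of regular chart differentials is finite-dimensional, of dimension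
`γ(F, x) = dim B₁₂ / (B₁ + B₂)`. -/
theorem finrank_omega_eq (x : F) (hx : Transcendental K x)
    [FiniteDimensional K⟮x⟯ F] [Algebra.IsSeparable K⟮x⟯ F]
    (B1 B2 B12 : Submodule K F)
    (h1 : ∀ b, b ∈ B1 ↔ IsIntegral (Algebra.adjoin K {x}) b)
    (h2 : ∀ b, b ∈ B2 ↔ IsIntegral (Algebra.adjoin K {x⁻¹}) b)
    (h12 : ∀ b, b ∈ B12 ↔ IsIntegral (Algebra.adjoin K {x, x⁻¹}) b)
    [Module.Finite K (B12.map (B1 ⊔ B2).mkQ)] :
    Module.Finite K (omega K x) ∧ finrank K (omega K x) = relDim (B1 ⊔ B2) B12 := by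
  classical
  obtain ⟨c, hc⟩ := exists_laurentCoeff hx
  set W : Submodule K F := B1 ⊔ B2 with hW
  set H : Submodule K (F ⧸ W) := B12.map W.mkQ with hH
  -- the pairing kills `B₁ + B₂` on `Ω`
  have hΨ : ∀ y : F, IsOmega K x y → resPairing x c y ∈ W.dualAnnihilator := by
    intro y hy
    rw [Submodule.mem_dualAnnihilator]
    intro w hw
    obtain ⟨b1, hb1, b2, hb2, rfl⟩ := Submodule.mem_sup.mp hw
    obtain ⟨p, hp⟩ := hy.1 b1 ((h1 b1).mp hb1)
    obtain ⟨q, hq⟩ := hy.2 b2 ((h2 b2).mp hb2)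
    rw [map_add, resPairing_apply, resPairing_apply, trK_apply, trK_apply, hp, hq,
      coeffZero_X_mul_aeval hc, coeffZero_inv_mul_aeval_inv hc, add_zero]
  -- the map `Ω → (B₁₂ / (B₁ + B₂))^*`
  let Ψ' : omega K x →ₗ[K] W.dualAnnihilator :=
    LinearMap.codRestrict W.dualAnnihilator (resPairing x c ∘ₗ (omega K x).subtype)
      (fun y => hΨ y y.2)
  let Θ : omega K x →ₗ[K] Module.Dual K H :=
    H.dualRestrict ∘ₗ (W.dualQuotEquivDualAnnihilator.symm : W.dualAnnihilator →ₗ[K] _) ∘ₗ Ψ'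
  have hΘ : ∀ (y : omega K x) (φ : F) (hφ : φ ∈ B12),
      Θ y ⟨W.mkQ φ, Submodule.mem_map_of_mem hφ⟩ = resPairing x c y φ := by
    intro y φ hφ
    show (W.dualQuotEquivDualAnnihilator.symm (Ψ' y)) (Submodule.Quotient.mk φ) = _
    rw [Submodule.dualQuotEquivDualAnnihilator_symm_apply_mk]
    rfl
  have hinj : Function.Injective Θ := by
    rw [← LinearMap.ker_eq_bot, Submodule.eq_bot_iff]
    intro y hy
    rw [LinearMap.mem_ker] at hy
    apply Subtype.ext
    refine eq_zero_of_isOmega_of_coeffZero hx hc y.2 (fun φ hφ => ?_)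
    have h3 := hΘ y φ ((h12 φ).mpr hφ)
    rw [hy] at h3
    exact h3.symm
  have hfin : Module.Finite K (omega K x) := Module.Finite.of_injective Θ hinj
  refine ⟨hfin, le_antisymm ?_ ?_⟩
  · calc finrank K (omega K x) ≤ finrank K (Module.Dual K H) :=
        LinearMap.finrank_le_finrank_of_injective hinj
      _ = finrank K H := Subspace.dual_finrank_eq
      _ = relDim (B1 ⊔ B2) B12 := rfl
  · -- a basis of the dual of `H` gives linearly independent elements of `Ω`
    set n := finrank K (Module.Dual K H) with hn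
    let μ : Basis (Fin n) K (Module.Dual K H) := Module.finBasis K (Module.Dual K H)
    obtain ⟨r, hr⟩ := LinearMap.exists_leftInverse_of_injective H.subtype (Submodule.ker_subtype H)
    let lam : Fin n → (F →ₗ[K] K) := fun j => (μ j ∘ₗ r) ∘ₗ W.mkQ
    have hlamW : ∀ j, ∀ w ∈ W, lam j w = 0 := by
      intro j w hw
      show μ j (r (W.mkQ w)) = 0
      rw [(Submodule.Quotient.mk_eq_zero W).mpr hw |> fun h => (by simpa using h : W.mkQ w = 0),
        map_zero, map_zero]
    have hlam1 : ∀ j, ∀ b : F, IsIntegral (Algebra.adjoin K {x}) b → lam j b = 0 :=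
      fun j b hb => hlamW j b (Submodule.mem_sup_left ((h1 b).mpr hb))
    have hlam2 : ∀ j, ∀ b : F, IsIntegral (Algebra.adjoin K {x⁻¹}) b → lam j b = 0 :=
      fun j b hb => hlamW j b (Submodule.mem_sup_right ((h2 b).mpr hb))
    choose yj hyΩ hyφ using fun j =>
      exists_isOmega_of_functional hx hc (lam j) (hlam1 j) (hlam2 j)
    let v : Fin n → omega K x := fun j => ⟨yj j, hyΩ j⟩
    have hli : LinearIndependent K v := by
      rw [Fintype.linearIndependent_iff]
      intro g hg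
      have hg' : ∑ i, g i • yj i = 0 := by
        have := congrArg (fun z : omega K x => (z : F)) hg
        simpa [v] using this
      have hμ : ∑ i, g i • μ i = 0 := by
        apply LinearMap.ext
        rintro ⟨_, φ, hφ, rfl⟩
        have h3 : resPairing x c (∑ i, g i • yj i) φ = 0 := by rw [hg']; simp
        rw [map_sum, LinearMap.sum_apply] at h3
        have h4 : ∀ i, (resPairing x c (g i • yj i)) φ = g i * lam i φ := by
          intro i
          rw [map_smul, LinearMap.smul_apply, resPairing_apply, hyφ i φ ((h12 φ).mp hφ),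
            smul_eq_mul]
        rw [Finset.sum_congr rfl (fun i _ => h4 i)] at h3
        have h5 : ∀ i, lam i φ = μ i ⟨W.mkQ φ, Submodule.mem_map_of_mem hφ⟩ := by
          intro i
          show μ i (r (W.mkQ φ)) = _
          have h6 : r (W.mkQ φ) = ⟨W.mkQ φ, Submodule.mem_map_of_mem hφ⟩ := by
            have := congrArg (fun f => f (⟨W.mkQ φ, Submodule.mem_map_of_mem hφ⟩ : H)) hr
            simpa using this
          rw [h6]
        rw [LinearMap.sum_apply, LinearMap.zero_apply]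
        rw [← h3]
        refine Finset.sum_congr rfl (fun i _ => ?_)
        rw [LinearMap.smul_apply, smul_eq_mul, h5 i]
      exact fun i => (Fintype.linearIndependent_iff.mp μ.linearIndependent g hμ) i
    calc relDim (B1 ⊔ B2) B12 = finrank K H := rfl
      _ = finrank K (Module.Dual K H) := Subspace.dual_finrank_eq.symm
      _ = Fintype.card (Fin n) := by rw [Fintype.card_fin]
      _ ≤ finrank K (omega K x) := hli.fintype_card_le_finrank

end Main

end Fermat.Agent.S18.helper4464
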