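import Mathlib

/-!
# S18: abstract valued-field engine of the Kummer core (helper4938)

`F` is a field with a valuation `v`, `L` a field with `Algebra L F`.  Three chains of
`L`-subspaces `E1 n, E2 n ≤ G n` of `F` are given (think `L(D₀ + n X∞)`, `L(D₀ + n X₀)`,
`L(D₀ + n X∞ + n X₀)`).

* `squeeze`: a lower bound `κ ≤ v (a - b)` for pairs `(a, b)` of sup-norm one at the level
  `n0` propagates to every level `n ≥ n0`, provided the unit ball of `G (n+1)` is the sum of
  the unit balls of `G n`, `E1 (n+1)`, `E2 (n+1)`.  No Smith normal form, no discreteness.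
* `exists_bound`: the bound at one level, from an orthonormal family.
* `newton_step`, `newton_iterate`: Newton iteration for `a ^ m * u = c` in a valued field.
* `approx_root_close`: two approximate roots with the same reduction are close.
* `engine`: the contradiction.
-/

set_option autoImplicit false

namespace Fermat.Agent.S18.helper4938

variable {F : Type*} [Field F] {Γ₀ : Type*} [LinearOrderedCommGroupWithZero Γ₀]
  (v : Valuation F Γ₀) {L : Type*} [Field L] [Algebra L F]

/-- (SQ) Propagation of a lower bound for the Čech difference along the chain. -/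
theorem squeeze (E1 E2 G : ℕ → Submodule L F) (n0 : ℕ)
    (hE1G : ∀ n, E1 n ≤ G n) (hE2G : ∀ n, E2 n ≤ G n)
    (hmono1 : ∀ n, E1 n ≤ E1 (n + 1)) (hmono2 : ∀ n, E2 n ≤ E2 (n + 1))
    (hinj : ∀ n, E1 n ⊓ E2 n = ⊥)
    (hrank : ∀ n, n0 ≤ n → G n ⊓ (E1 (n + 1) ⊔ E2 (n + 1)) ≤ E1 n ⊔ E2 n)
    (hsurj : ∀ n, n0 ≤ n → ∀ g ∈ G (n + 1), v g ≤ 1 →
      ∃ g0 ∈ G n, ∃ a ∈ E1 (n + 1), ∃ b ∈ E2 (n + 1),
        v g0 ≤ 1 ∧ v a ≤ 1 ∧ v b ≤ 1 ∧ g = g0 + a - b)
    (hval : ∀ n, ∀ g ∈ G n, ∃ c : L, v g = v (algebraMap L F c))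
    (κ : Γ₀) (hκ1 : κ ≤ 1)
    (hpos : ∀ a ∈ E1 n0, ∀ b ∈ E2 n0, v a ≤ 1 → v b ≤ 1 → (v a = 1 ∨ v b = 1) →
      κ ≤ v (a - b)) :
    ∀ n, n0 ≤ n → ∀ a ∈ E1 n, ∀ b ∈ E2 n, v a ≤ 1 → v b ≤ 1 → (v a = 1 ∨ v b = 1) →
      κ ≤ v (a - b) := by
  intro n hn
  induction n, hn using Nat.le_induction with
  | base => exact hpos
  | succ n hn ih =>
    intro a' ha' b' hb' hva hvb hone
    by_contra hlt
    rw [not_le] at hlt
    have hδG : a' - b' ∈ G (n + 1) := (G (n + 1)).sub_mem (hE1G _ ha') (hE2G _ hb')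
    have hδ0 : a' - b' ≠ 0 := by
      intro h0
      have hab : a' = b' := sub_eq_zero.mp h0
      have hmem : a' ∈ E1 (n + 1) ⊓ E2 (n + 1) := ⟨ha', hab ▸ hb'⟩
      rw [hinj] at hmem
      have ha0 : a' = 0 := (Submodule.mem_bot L).mp hmem
      have hb0 : b' = 0 := hab ▸ ha0
      rcases hone with h | h
      · rw [ha0, map_zero] at h; exact zero_ne_one h
      · rw [hb0, map_zero] at h; exact zero_ne_one h
    obtain ⟨c, hc⟩ := hval (n + 1) _ hδG
    have hc0 : c ≠ 0 := by
      rintro rfl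
      rw [map_zero, map_zero] at hc
      exact hδ0 ((map_eq_zero v).mp hc)
    have hcF : algebraMap L F c ≠ 0 := by simpa using hc0
    have hvc0 : v (algebraMap L F c) ≠ 0 := (Valuation.ne_zero_iff v).mpr hcF
    have hvc : v (algebraMap L F c) < 1 := by rw [← hc]; exact lt_of_lt_of_le hlt hκ1
    have hg'G : c⁻¹ • (a' - b') ∈ G (n + 1) := (G (n + 1)).smul_mem _ hδG
    have hg'eq : c⁻¹ • (a' - b') = (algebraMap L F c)⁻¹ * (a' - b') := by
      rw [Algebra.smul_def, map_inv₀]
    have hvg' : v (c⁻¹ • (a' - b')) ≤ 1 := by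
      rw [hg'eq, map_mul, map_inv₀, hc, inv_mul_cancel₀ hvc0]
    obtain ⟨g0, hg0, a1, ha1, b1, hb1, hvg0, hva1, hvb1, hdec⟩ := hsurj n hn _ hg'G hvg'
    -- the corrected pair
    have hdec' : a' - b' = algebraMap L F c * g0 + algebraMap L F c * a1
        - algebraMap L F c * b1 := by
      have : algebraMap L F c * (c⁻¹ • (a' - b')) = a' - b' := by
        rw [hg'eq, mul_inv_cancel_left₀ hcF]
      rw [← this, hdec]; ring
    have ha2 : a' - c • a1 ∈ E1 (n + 1) := (E1 (n + 1)).sub_mem ha' ((E1 (n + 1)).smul_mem _ ha1)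
    have hb2 : b' - c • b1 ∈ E2 (n + 1) := (E2 (n + 1)).sub_mem hb' ((E2 (n + 1)).smul_mem _ hb1)
    have hdiff : (a' - c • a1) - (b' - c • b1) = c • g0 := by
      rw [Algebra.smul_def, Algebra.smul_def, Algebra.smul_def]
      linear_combination hdec'
    have hvca1 : v (c • a1) < 1 := by
      rw [Algebra.smul_def, map_mul]
      calc v (algebraMap L F c) * v a1 ≤ v (algebraMap L F c) * 1 := by gcongr
        _ = v (algebraMap L F c) := mul_one _
        _ < 1 := hvc
    have hvcb1 : v (c • b1) < 1 := by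
      rw [Algebra.smul_def, map_mul]
      calc v (algebraMap L F c) * v b1 ≤ v (algebraMap L F c) * 1 := by gcongr
        _ = v (algebraMap L F c) := mul_one _
        _ < 1 := hvc
    have hva2 : v (a' - c • a1) ≤ 1 := v.map_sub_le hva hvca1.le
    have hvb2 : v (b' - c • b1) ≤ 1 := v.map_sub_le hvb hvcb1.le
    have hone2 : v (a' - c • a1) = 1 ∨ v (b' - c • b1) = 1 := by
      rcases hone with h | h
      · left
        rw [v.map_sub_eq_of_lt_left (by rw [h]; exact hvca1), h]
      · right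
        rw [v.map_sub_eq_of_lt_left (by rw [h]; exact hvcb1), h]
    -- descend to level n
    have hcg0 : c • g0 ∈ G n ⊓ (E1 (n + 1) ⊔ E2 (n + 1)) := by
      refine ⟨(G n).smul_mem _ hg0, ?_⟩
      rw [← hdiff]
      exact Submodule.sub_mem _ (Submodule.mem_sup_left ha2) (Submodule.mem_sup_right hb2)
    obtain ⟨a0, ha0, b0, hb0, hab0⟩ := Submodule.mem_sup.mp (hrank n hn hcg0)
    have hkey : (a' - c • a1) - a0 = (b' - c • b1) + b0 := by
      linear_combination hdiff - hab0
    have hmem : (a' - c • a1) - a0 ∈ E1 (n + 1) ⊓ E2 (n + 1) := by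
      refine ⟨(E1 (n + 1)).sub_mem ha2 (hmono1 n ha0), ?_⟩
      rw [hkey]
      exact (E2 (n + 1)).add_mem hb2 (hmono2 n hb0)
    rw [hinj] at hmem
    have e1 : a' - c • a1 = a0 := sub_eq_zero.mp ((Submodule.mem_bot L).mp hmem)
    have e2 : b' - c • b1 = -b0 := by
      have h0 : (a' - c • a1) - a0 = 0 := (Submodule.mem_bot L).mp hmem
      rw [hkey] at h0
      exact eq_neg_of_add_eq_zero_left h0
    have ha2n : a' - c • a1 ∈ E1 n := e1 ▸ ha0
    have hb2n : b' - c • b1 ∈ E2 n := e2 ▸ (E2 n).neg_mem hb0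
    have hbound := ih _ ha2n _ hb2n hva2 hvb2 hone2
    rw [hdiff, Algebra.smul_def, map_mul] at hbound
    have : v (algebraMap L F c) * v g0 ≤ v (algebraMap L F c) := by
      calc v (algebraMap L F c) * v g0 ≤ v (algebraMap L F c) * 1 := by gcongr
        _ = _ := mul_one _
    exact absurd (hbound.trans this) (not_le.mpr (hc ▸ hlt))

/-- Natural numbers have valuation at most one. -/
theorem map_natCast_le_one (n : ℕ) : v (n : F) ≤ 1 := by
  induction n with
  | zero => simp
  | succ n ih =>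
    rw [Nat.cast_succ]
    exact v.map_add_le ih (le_of_eq v.map_one)

/-- A finite family of values has an upper bound which is at least one. -/
theorem exists_one_le_bound {ι : Type*} [Finite ι] (f : ι → Γ₀) :
    ∃ C : Γ₀, 1 ≤ C ∧ ∀ i, f i ≤ C := by
  classical
  have := Fintype.ofFinite ι
  obtain ⟨M, hM⟩ := (insert 1 (Finset.univ.image f)).exists_le
  exact ⟨M, hM 1 (Finset.mem_insert_self _ _),
    fun i => hM _ (Finset.mem_insert_of_mem (Finset.mem_image_of_mem f (Finset.mem_univ i)))⟩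

/-- (POS) The bound at one level: if `E1` and `E2` are disjoint and contained in the span of
a finite family `w` whose coordinates are contracting (an orthonormal family), then the Čech
difference is bounded below on pairs of sup-norm one. -/
theorem exists_bound {ι : Type*} [Fintype ι] (w : ι → F)
    (hw : ∀ (c : ι → L) (i : ι), v (algebraMap L F (c i)) ≤ v (∑ j, c j • w j))
    (E1 E2 : Submodule L F) (h1 : E1 ≤ Submodule.span L (Set.range w))
    (h2 : E2 ≤ Submodule.span L (Set.range w)) (hinj : E1 ⊓ E2 = ⊥) :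
    ∃ κ : Γ₀, κ ≠ 0 ∧ κ ≤ 1 ∧ ∀ a ∈ E1, ∀ b ∈ E2, (v a = 1 ∨ v b = 1) → κ ≤ v (a - b) := by
  classical
  let f : (E1 × E2) →ₗ[L] F := E1.subtype.coprod E2.subtype
  have hf : LinearMap.ker f = ⊥ := by
    rw [LinearMap.ker_eq_bot']
    rintro ⟨a, b⟩ hab
    have hab' : (a : F) + (b : F) = 0 := by simpa [f] using hab
    have ha : (a : F) ∈ E1 ⊓ E2 := by
      refine ⟨a.2, ?_⟩
      have : (a : F) = -(b : F) := eq_neg_of_add_eq_zero_left hab'
      rw [this]
      exact E2.neg_mem b.2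
    rw [hinj, Submodule.mem_bot] at ha
    have hb : (b : F) = 0 := by rw [ha, zero_add] at hab'; exact hab'
    ext
    · simpa using ha
    · simpa using hb
  obtain ⟨g, hg⟩ := f.exists_leftInverse_of_injective hf
  obtain ⟨C, hC1, hC⟩ := exists_one_le_bound
    (fun i : ι => max (v ((g (w i)).1 : F)) (v ((g (w i)).2 : F)))
  have hC0 : C ≠ 0 := ne_of_gt (lt_of_lt_of_le zero_lt_one hC1)
  -- boundedness of `g` on the span
  have hbd : ∀ x ∈ Submodule.span L (Set.range w),
      v ((g x).1 : F) ≤ C * v x ∧ v ((g x).2 : F) ≤ C * v x := by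
    intro x hx
    obtain ⟨c, rfl⟩ := (Submodule.mem_span_range_iff_exists_fun L).mp hx
    have e1 : ((g (∑ j, c j • w j)).1 : F) = ∑ j, c j • ((g (w j)).1 : F) := by
      rw [map_sum]
      simp [Prod.fst_sum]
    have e2 : ((g (∑ j, c j • w j)).2 : F) = ∑ j, c j • ((g (w j)).2 : F) := by
      rw [map_sum]
      simp [Prod.snd_sum]
    constructor
    · rw [e1]
      refine v.map_sum_le fun j _ => ?_
      rw [Algebra.smul_def, map_mul, mul_comm]
      exact mul_le_mul' ((le_max_left _ _).trans (hC j)) (hw c j)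
    · rw [e2]
      refine v.map_sum_le fun j _ => ?_
      rw [Algebra.smul_def, map_mul, mul_comm]
      exact mul_le_mul' ((le_max_right _ _).trans (hC j)) (hw c j)
  refine ⟨C⁻¹, inv_ne_zero hC0, inv_le_one_of_one_le₀ hC1, ?_⟩
  intro a ha b hb hone
  have hx : a - b ∈ Submodule.span L (Set.range w) :=
    Submodule.sub_mem _ (h1 ha) (h2 hb)
  have hfab : f (⟨a, ha⟩, -⟨b, hb⟩) = a - b := by
    simp [f, sub_eq_add_neg]
  have hgx : g (a - b) = (⟨a, ha⟩, -⟨b, hb⟩) := by
    rw [← hfab]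
    exact LinearMap.congr_fun hg _
  obtain ⟨hb1, hb2⟩ := hbd _ hx
  rw [hgx] at hb1 hb2
  have hb1' : v a ≤ C * v (a - b) := by simpa using hb1
  have hb2' : v b ≤ C * v (a - b) := by simpa using hb2
  have hle : 1 ≤ C * v (a - b) := by
    rcases hone with h | h
    · rw [← h]; exact hb1'
    · rw [← h]; exact hb2'
  calc C⁻¹ = C⁻¹ * 1 := (mul_one _).symm
    _ ≤ C⁻¹ * (C * v (a - b)) := mul_le_mul' le_rfl hle
    _ = v (a - b) := inv_mul_cancel_left₀ hC0 _

/-- Second-order binomial estimate in a valued field. -/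
theorem map_one_add_pow_sub (t : F) (ht : v t ≤ 1) (m : ℕ) :
    v ((1 + t) ^ m - 1 - m * t) ≤ v t ^ 2 := by
  induction m with
  | zero => simp
  | succ m ih =>
    have e : (1 + t) ^ (m + 1) - 1 - ((m + 1 : ℕ) : F) * t
        = (1 + t) * ((1 + t) ^ m - 1 - m * t) + m * t ^ 2 := by push_cast; ring
    rw [e]
    refine v.map_add_le ?_ ?_
    · rw [map_mul]
      calc v (1 + t) * v ((1 + t) ^ m - 1 - m * t) ≤ 1 * v t ^ 2 :=
            mul_le_mul' (v.map_add_le (le_of_eq v.map_one) ht) ih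
        _ = v t ^ 2 := one_mul _
    · rw [map_mul, map_pow]
      calc v (m : F) * v t ^ 2 ≤ 1 * v t ^ 2 := mul_le_mul' (map_natCast_le_one v m) le_rfl
        _ = v t ^ 2 := one_mul _

/-- (NW) One Newton step for the equation `a ^ m * u = c` squares the error and moves `a`
by at most the error. -/
theorem newton_step (u c a : F) (m : ℕ) (hm : v (m : F) = 1) (hc : v c = 1)
    (he : v (a ^ m * u - c) < 1) :
    v ((a * (1 - (a ^ m * u - c) / (c * m))) ^ m * u - c) ≤ v (a ^ m * u - c) ^ 2 ∧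
    v (a * (1 - (a ^ m * u - c) / (c * m)) - a) ≤ v a * v (a ^ m * u - c) := by
  have hm0 : (m : F) ≠ 0 := by
    intro h; rw [h, map_zero] at hm; exact zero_ne_one hm
  have hc0 : c ≠ 0 := by
    intro h; rw [h, map_zero] at hc; exact zero_ne_one hc
  have hau : a ^ m * u = c + (a ^ m * u - c) := by ring
  generalize a ^ m * u - c = e at he hau ⊢
  have hvt : v (-e / (c * m)) = v e := by
    rw [map_div₀, Valuation.map_neg, map_mul, hc, hm, mul_one, div_one]
  have hr := map_one_add_pow_sub v (-e / (c * m)) (by rw [hvt]; exact he.le) m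
  rw [hvt] at hr
  have hpow : (1 + -e / (c * m)) ^ m
      = 1 - e / c + ((1 + -e / (c * m)) ^ m - 1 - m * (-e / (c * m))) := by
    field_simp; ring
  generalize (1 + -e / (c * m)) ^ m - 1 - m * (-e / (c * m)) = r at hr hpow
  constructor
  · have key : (a * (1 - e / (c * m))) ^ m * u - c = c * r - e ^ 2 / c + e * r := by
      have h1 : (1 - e / (c * m)) = 1 + -e / (c * m) := by ring
      rw [h1, mul_pow, mul_right_comm, hau, hpow]
      field_simp
      ring
    rw [key]
    refine v.map_add_le (v.map_sub_le ?_ ?_) ?_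
    · rw [map_mul, hc, one_mul]; exact hr
    · rw [map_div₀, hc, div_one, map_pow]
    · rw [map_mul]
      calc v e * v r ≤ 1 * v e ^ 2 := mul_le_mul' he.le hr
        _ = v e ^ 2 := one_mul _
  · have h2 : a * (1 - e / (c * m)) - a = a * (-e / (c * m)) := by ring
    rw [h2, map_mul, hvt]

/-- An approximate root of `a ^ m * u = c` (with `v u = v c = 1`) has valuation one. -/
theorem map_eq_one_of_approx_root (u c a : F) (m : ℕ) (hm : m ≠ 0) (hu : v u = 1)
    (hc : v c = 1) (he : v (a ^ m * u - c) < 1) : v a = 1 := by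
  have h1 : v (a ^ m * u) = v c := v.map_eq_of_sub_lt (by rw [hc]; exact he)
  rw [map_mul, hu, mul_one, map_pow, hc] at h1
  exact (pow_eq_one_iff.mp h1).resolve_right hm

theorem map_pow_sub_pow_lt (a b : F) (ha : v a ≤ 1) (hb : v b ≤ 1) (hab : v (a - b) < 1)
    (i : ℕ) : v (a ^ i - b ^ i) < 1 := by
  induction i with
  | zero => simp
  | succ i ih =>
    have e : a ^ (i + 1) - b ^ (i + 1) = a * (a ^ i - b ^ i) + (a - b) * b ^ i := by ring
    rw [e]
    refine v.map_add_lt ?_ ?_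
    · rw [map_mul]
      calc v a * v (a ^ i - b ^ i) ≤ 1 * v (a ^ i - b ^ i) := mul_le_mul' ha le_rfl
        _ = v (a ^ i - b ^ i) := one_mul _
        _ < 1 := ih
    · rw [map_mul, map_pow]
      calc v (a - b) * v b ^ i ≤ v (a - b) * 1 := mul_le_mul' le_rfl (pow_le_one' hb i)
        _ = v (a - b) := mul_one _
        _ < 1 := hab

/-- (CMP) Two approximate roots of `X ^ m * u = c` with the same reduction are as close as
the error (`m` a unit of the valuation ring). -/
theorem approx_root_close (u c a b : F) (m : ℕ) (hm : v (m : F) = 1) (hu : v u = 1)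
    (ha : v a = 1) (hb : v b = 1) (hab : v (a - b) < 1) (ε : Γ₀)
    (hae : v (a ^ m * u - c) ≤ ε) (hbe : v (b ^ m * u - c) ≤ ε) : v (a - b) ≤ ε := by
  have hgeom : (∑ i ∈ Finset.range m, a ^ i * b ^ (m - 1 - i)) * (a - b) = a ^ m - b ^ m :=
    (Commute.all a b).geom_sum₂_mul m
  have hsum : (∑ i ∈ Finset.range m, a ^ i * b ^ (m - 1 - i)) - m * b ^ (m - 1)
      = ∑ i ∈ Finset.range m, (a ^ i - b ^ i) * b ^ (m - 1 - i) := by
    have : (m : F) * b ^ (m - 1) = ∑ i ∈ Finset.range m, b ^ i * b ^ (m - 1 - i) := by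
      rw [Finset.sum_congr rfl (fun i hi => by
        rw [← pow_add, show i + (m - 1 - i) = m - 1 from by
          have := Finset.mem_range.mp hi; omega])]
      simp
    rw [this, ← Finset.sum_sub_distrib]
    exact Finset.sum_congr rfl fun i _ => by ring
  have hlt : v ((∑ i ∈ Finset.range m, a ^ i * b ^ (m - 1 - i)) - m * b ^ (m - 1)) < 1 := by
    rw [hsum]
    refine v.map_sum_lt one_ne_zero fun i _ => ?_
    rw [map_mul, map_pow, hb, one_pow, mul_one]
    exact map_pow_sub_pow_lt v a b ha.le hb.le hab i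
  have hS : v (∑ i ∈ Finset.range m, a ^ i * b ^ (m - 1 - i)) = 1 := by
    have h1 : v ((m : F) * b ^ (m - 1)) = 1 := by rw [map_mul, map_pow, hm, hb, one_pow, one_mul]
    rw [← h1]
    exact v.map_eq_of_sub_lt (by rw [h1]; exact hlt)
  have hpow : v (a ^ m - b ^ m) = v (a - b) := by
    rw [← hgeom, map_mul, hS, one_mul]
  have hdiff : (a ^ m - b ^ m) * u = (a ^ m * u - c) - (b ^ m * u - c) := by ring
  have : v ((a ^ m - b ^ m) * u) ≤ ε := by
    rw [hdiff]; exact v.map_sub_le hae hbe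
  rwa [map_mul, hu, mul_one, hpow] at this

/-- Newton iteration: `J` steps starting from an approximate root `a0` with error `< 1`.
`P n a` is any predicate (think `a ∈ L(D₀ + n X∞)`) stable under
`a ↦ a * (s + t * (a ^ m * u))` at the price of multiplying the level by `m + 1`. -/
theorem newton_iterate (P : ℕ → F → Prop) (m : ℕ) (hm : v (m : F) = 1) (u : F) (hu : v u = 1)
    (c : L) (hc : v (algebraMap L F c) = 1)
    (hP : ∀ n a, P n a → ∀ s t : L,
      P ((m + 1) * n) (a * (algebraMap L F s + algebraMap L F t * (a ^ m * u))))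
    (a0 : F) (n1 : ℕ) (h0 : P n1 a0) (he : v (a0 ^ m * u - algebraMap L F c) < 1) (J : ℕ) :
    ∃ n a, P n a ∧
      v (a ^ m * u - algebraMap L F c) ≤ v (a0 ^ m * u - algebraMap L F c) ^ (2 ^ J) ∧
      v (a ^ m * u - algebraMap L F c) < 1 ∧ v (a - a0) < 1 := by
  have hm0 : (m : F) ≠ 0 := by
    intro h; rw [h, map_zero] at hm; exact zero_ne_one hm
  have hmN : m ≠ 0 := by rintro rfl; simp at hm0
  have hc0 : algebraMap L F c ≠ 0 := by
    intro h; rw [h, map_zero] at hc; exact zero_ne_one hc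
  induction J with
  | zero => exact ⟨n1, a0, h0, by simp, he, by simp⟩
  | succ J ih =>
    obtain ⟨n, a, hPa, hle, hlt, hclose⟩ := ih
    have hva : v a = 1 := map_eq_one_of_approx_root v u _ a m hmN hu hc hlt
    obtain ⟨hs1, hs2⟩ := newton_step v u (algebraMap L F c) a m hm hc hlt
    have hshape : a * (1 - (a ^ m * u - algebraMap L F c) / (algebraMap L F c * m))
        = a * (algebraMap L F (1 + (m : L)⁻¹)
            + algebraMap L F (-(c * (m : L))⁻¹) * (a ^ m * u)) := by
      simp only [map_add, map_one, map_inv₀, map_natCast, map_neg, map_mul]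
      field_simp
      ring
    refine ⟨(m + 1) * n, _, hshape ▸ hP n a hPa (1 + (m : L)⁻¹) (-(c * (m : L))⁻¹), ?_, ?_, ?_⟩
    · calc _ ≤ v (a ^ m * u - algebraMap L F c) ^ 2 := hs1
        _ ≤ (v (a0 ^ m * u - algebraMap L F c) ^ (2 ^ J)) ^ 2 := pow_le_pow_left' hle 2
        _ = _ := by rw [← pow_mul, ← pow_succ]
    · exact lt_of_le_of_lt hs1 (pow_lt_one' hlt two_ne_zero)
    · have : a * (1 - (a ^ m * u - algebraMap L F c) / (algebraMap L F c * m)) - a0
          = (a * (1 - (a ^ m * u - algebraMap L F c) / (algebraMap L F c * m)) - a)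
            + (a - a0) := by ring
      rw [this]
      refine v.map_add_lt (lt_of_le_of_lt hs2 ?_) hclose
      rw [hva, one_mul]; exact hlt

/-- (ENGINE) The contradiction of the Kummer core: a chain of Čech data with trivial `H⁰`
(`hinj`), generic separation (`hrank`), integral stability (`hsurj`), values in `v(L)`
(`hval`), one cartesian level (`w`, `hw`), rank one (`hArch`), stable under the Newton
operation (`hN1`, `hN2`), cannot contain approximate `m`-th roots `a0`, `b0` of `c / u` in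
the two charts with the same reduction. -/
theorem engine (E1 E2 G : ℕ → Submodule L F) (n0 : ℕ)
    (hE1G : ∀ n, E1 n ≤ G n) (hE2G : ∀ n, E2 n ≤ G n)
    (hmono1 : ∀ n, E1 n ≤ E1 (n + 1)) (hmono2 : ∀ n, E2 n ≤ E2 (n + 1))
    (hinj : ∀ n, E1 n ⊓ E2 n = ⊥)
    (hrank : ∀ n, n0 ≤ n → G n ⊓ (E1 (n + 1) ⊔ E2 (n + 1)) ≤ E1 n ⊔ E2 n)
    (hsurj : ∀ n, n0 ≤ n → ∀ g ∈ G (n + 1), v g ≤ 1 →
      ∃ g0 ∈ G n, ∃ a ∈ E1 (n + 1), ∃ b ∈ E2 (n + 1),
        v g0 ≤ 1 ∧ v a ≤ 1 ∧ v b ≤ 1 ∧ g = g0 + a - b)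
    (hval : ∀ n, ∀ g ∈ G n, ∃ c : L, v g = v (algebraMap L F c))
    {ι : Type*} [Fintype ι] (w : ι → F)
    (hw : ∀ (c : ι → L) (i : ι), v (algebraMap L F (c i)) ≤ v (∑ j, c j • w j))
    (hspan1 : E1 n0 ≤ Submodule.span L (Set.range w))
    (hspan2 : E2 n0 ≤ Submodule.span L (Set.range w))
    (hArch : ∀ t : Γ₀, t < 1 → ∀ κ : Γ₀, κ ≠ 0 → ∃ k : ℕ, t ^ k < κ)
    (m : ℕ) (hm : v (m : F) = 1) (u : F) (hu : v u = 1)
    (c : L) (hc : v (algebraMap L F c) = 1)
    (hN1 : ∀ n, ∀ a ∈ E1 n, ∀ s t : L,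
      a * (algebraMap L F s + algebraMap L F t * (a ^ m * u)) ∈ E1 ((m + 1) * n))
    (hN2 : ∀ n, ∀ a ∈ E2 n, ∀ s t : L,
      a * (algebraMap L F s + algebraMap L F t * (a ^ m * u)) ∈ E2 ((m + 1) * n))
    (a0 b0 : F) (n1 : ℕ) (ha0 : a0 ∈ E1 n1) (hb0 : b0 ∈ E2 n1)
    (hea : v (a0 ^ m * u - algebraMap L F c) < 1)
    (heb : v (b0 ^ m * u - algebraMap L F c) < 1)
    (hab : v (a0 - b0) < 1) : False := by
  have hmN : m ≠ 0 := by
    rintro rfl
    simp at hm
  obtain ⟨κ, hκ0, hκ1, hκ⟩ := exists_bound v w hw (E1 n0) (E2 n0) hspan1 hspan2 (hinj n0)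
  have hsq := squeeze v E1 E2 G n0 hE1G hE2G hmono1 hmono2 hinj hrank hsurj hval κ hκ1
    (fun a ha b hb _ _ hone => hκ a ha b hb hone)
  obtain ⟨k, hk⟩ := hArch _ (max_lt hea heb) κ hκ0
  obtain ⟨nA, a, haA, hale, halt, haclose⟩ := newton_iterate v (fun n a => a ∈ E1 n) m hm u hu
    c hc (fun n a ha s t => hN1 n a ha s t) a0 n1 ha0 hea k
  obtain ⟨nB, b, hbB, hble, hblt, hbclose⟩ := newton_iterate v (fun n a => a ∈ E2 n) m hm u hu
    c hc (fun n a ha s t => hN2 n a ha s t) b0 n1 hb0 heb k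
  have hM1 : Monotone E1 := monotone_nat_of_le_succ hmono1
  have hM2 : Monotone E2 := monotone_nat_of_le_succ hmono2
  have hva : v a = 1 := map_eq_one_of_approx_root v u _ a m hmN hu hc halt
  have hvb : v b = 1 := map_eq_one_of_approx_root v u _ b m hmN hu hc hblt
  have hab' : v (a - b) < 1 := by
    have : a - b = (a - a0) + (a0 - b0) - (b - b0) := by ring
    rw [this]
    exact v.map_sub_lt (v.map_add_lt haclose hab) hbclose
  have hpow : ∀ t : Γ₀, t ≤ max (v (a0 ^ m * u - algebraMap L F c))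
      (v (b0 ^ m * u - algebraMap L F c)) → t ^ (2 ^ k) ≤
      (max (v (a0 ^ m * u - algebraMap L F c)) (v (b0 ^ m * u - algebraMap L F c))) ^ k := by
    intro t ht
    calc t ^ (2 ^ k) ≤ (max (v (a0 ^ m * u - algebraMap L F c))
          (v (b0 ^ m * u - algebraMap L F c))) ^ (2 ^ k) := pow_le_pow_left' ht _
      _ ≤ _ := pow_le_pow_right_of_le_one' (max_lt hea heb).le (Nat.lt_two_pow_self).le
  have hclose := approx_root_close v u (algebraMap L F c) a b m hm hu hva hvb hab'
    ((max (v (a0 ^ m * u - algebraMap L F c)) (v (b0 ^ m * u - algebraMap L F c))) ^ k)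
    (hale.trans (hpow _ (le_max_left _ _))) (hble.trans (hpow _ (le_max_right _ _)))
  have hbound := hsq (max (max nA nB) n0) (le_max_right _ _) a
    (hM1 ((le_max_left nA nB).trans (le_max_left _ _)) haA) b
    (hM2 ((le_max_right nA nB).trans (le_max_left _ _)) hbB) hva.le hvb.le (Or.inl hva)
  exact absurd (hbound.trans hclose) (not_le.mpr hk)

end Fermat.Agent.S18.helper4938
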