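import Mathlib
import Fermat.Agent.S18.helper99_SpecC
import Fermat.Agent.S18.helper3784_LaurentCIC
import Fermat.Agent.S18.helper8991_GaussInst
import Fermat.Agent.S24.helper204_Places
import Fermat.Agent.S37.helper5162_HeckeInputsModular

/-!
# S18, track C, Prop (C3): bounded denominators (helper5070)

`stmt_BD (N) [NeZero N] (A) : helper99.Stmt_BD N A` for EVERY valuation subring `A` of `ℚ̄`:
a function `x` of `F = modularFunctionFieldBar N` which is regular away from the cusp `∞` has,
up to a nonzero constant, an `A`-integral `q`-expansion.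

Steps.
* Part 0 (`harch_of_isAlgebraic_int`): every valuation subring of a field algebraic over `ℚ` is
  completely integrally closed (rank `≤ 1`); the case of a subring over a prime is the landed
  `helper9428.exists_pow_le`, otherwise the subring is everything.
* Part 1 (`bdd`, `mem_bdd_of_monic_relation`): the `L`-algebra `bdd A` of series with bounded
  denominators (`C c * z` integral for some nonzero `c ∈ A`) is integrally closed in its
  fractions, by the landed bounded-powers criterion `helper3784`.
* Part 2 (`coe_mem_bdd_of_isIntegral`): an element of `F` integral over `ℚ̄[j]` has bounded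
  denominators (`j` has integer coefficients; fractions by `helper8991.exists_normal_form`).
* Part 3 (`isIntegral_of_regAwayInf`): regular away from `∞` implies integral over `ℚ̄[j]`:
  the integral closure `B` of `ℚ̄[j]` is Dedekind with fraction field `F` (S24), the place of a
  height one prime of `B` is not the cusp (`j ∈ B` has a pole at the cusp), and an element of
  valuation `≤ 1` at all height one primes lies in `B`.
-/

set_option autoImplicit false

noncomputable section

namespace Fermat.Agent.S18.helper5070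

open ModularCurve AlgebraicCurve HahnSeries IntermediateField IsDedekindDomain

/-! ## Part 0: complete integral closedness of valuation subrings of algebraic extensions of `ℚ` -/

section Harch

variable {K : Type*} [Field K] [CharZero K] [Algebra.IsAlgebraic ℤ K]

omit [CharZero K] [Algebra.IsAlgebraic ℤ K] in
/-- If no prime number is a non-unit of `A`, every nonzero natural number has valuation one. -/
theorem valuation_natCast_eq_one (A : ValuationSubring K)
    (h : ∀ ℓ : ℕ, ℓ.Prime → (ℓ : K) ∉ A.nonunits) (n : ℕ) (hn : n ≠ 0) :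
    A.valuation (n : K) = 1 := by
  induction n using Nat.recOnMul with
  | zero => exact absurd rfl hn
  | one => simp
  | prime p hp =>
    have h1 : A.valuation (p : K) ≤ 1 := (A.valuation_le_one_iff _).2 (natCast_mem A p)
    have h2 : ¬ A.valuation (p : K) < 1 := fun hlt =>
      h p hp ((ValuationSubring.mem_nonunits_iff A).2 hlt)
    exact le_antisymm h1 (not_lt.mp h2)
  | mul a b ha hb =>
    have ha0 : a ≠ 0 := fun h0 => hn (by rw [h0, zero_mul])
    have hb0 : b ≠ 0 := fun h0 => hn (by rw [h0, mul_zero])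
    rw [Nat.cast_mul, map_mul, ha ha0, hb hb0, one_mul]

/-- **Every valuation subring of a field algebraic over `ℚ` is completely integrally closed**
(hypothesis `harch` of `helper3784`), with no assumption on the subring. -/
theorem harch_of_isAlgebraic_int (A : ValuationSubring K) :
    ∀ c z : K, c ≠ 0 → (∀ n : ℕ, c * z ^ n ∈ A.toSubring) → z ∈ A.toSubring := by
  by_cases h : ∃ ℓ : ℕ, ℓ.Prime ∧ (ℓ : K) ∈ A.nonunits
  · obtain ⟨ℓ, hℓ, hA⟩ := h
    exact Fermat.Agent.S18.helper3784.harch_of_valuationSubring A fun _ ht _ hc =>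
      Fermat.Agent.S18.helper9428.exists_pow_le hℓ hA ht hc
  · simp only [not_exists, not_and] at h
    intro c z _ _
    show z ∈ A
    have halg : IsAlgebraic ℤ z := Algebra.IsAlgebraic.isAlgebraic z
    obtain ⟨D, hD0, hD⟩ := halg.exists_integral_multiple
    have hmem : D • z ∈ A := Fermat.Agent.S18.helper9428.mem_of_isIntegral_int A hD
    rw [zsmul_eq_mul] at hmem
    have hD1 : A.valuation (D : K) = 1 := by
      have hn : D.natAbs ≠ 0 := Int.natAbs_ne_zero.mpr hD0
      have h1 := valuation_natCast_eq_one A h D.natAbs hn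
      rcases Int.natAbs_eq D with hD' | hD'
      · have e : (D : K) = (D.natAbs : K) := by
          conv_lhs => rw [hD']
          simp
        rw [e, h1]
      · have e : (D : K) = -(D.natAbs : K) := by
          conv_lhs => rw [hD']
          simp
        rw [e, Valuation.map_neg, h1]
    rw [← A.valuation_le_one_iff] at hmem ⊢
    rwa [map_mul, hD1, one_mul] at hmem

end Harch

/-! ## Part 1: series with bounded denominators -/

section Bdd

variable {L : Type*} [Field L] (A : ValuationSubring L)

/-- The subring of `A`-integral Laurent series (landed `helper3784.coeffSubring`). -/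
abbrev intSeries : Subring (LaurentSeries L) :=
  Fermat.Agent.S18.helper3784.coeffSubring (Γ := ℤ) A.toSubring

theorem C_mem_intSeries {c : L} (hc : c ∈ A) :
    (HahnSeries.C c : LaurentSeries L) ∈ intSeries A := by
  intro i
  rw [HahnSeries.C_apply, HahnSeries.coeff_single]
  split_ifs
  · exact hc
  · exact A.zero_mem

/-- Series with **bounded denominators**: `C c * z` is `A`-integral for a nonzero `c ∈ A`. -/
def bdd : Subalgebra L (LaurentSeries L) where
  carrier := {z | ∃ c : L, c ∈ A ∧ c ≠ 0 ∧ HahnSeries.C c * z ∈ intSeries A}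
  mul_mem' := by
    rintro z w ⟨c, hcA, hc0, hz⟩ ⟨d, hdA, hd0, hw⟩
    refine ⟨c * d, A.mul_mem _ _ hcA hdA, mul_ne_zero hc0 hd0, ?_⟩
    have e : HahnSeries.C (c * d) * (z * w) = (HahnSeries.C c * z) * (HahnSeries.C d * w) := by
      rw [map_mul]; ring
    rw [e]
    exact Subring.mul_mem _ hz hw
  add_mem' := by
    rintro z w ⟨c, hcA, hc0, hz⟩ ⟨d, hdA, hd0, hw⟩
    refine ⟨c * d, A.mul_mem _ _ hcA hdA, mul_ne_zero hc0 hd0, ?_⟩
    have e : HahnSeries.C (c * d) * (z + w) =
        HahnSeries.C d * (HahnSeries.C c * z) + HahnSeries.C c * (HahnSeries.C d * w) := by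
      rw [map_mul]; ring
    rw [e]
    exact Subring.add_mem _ (Subring.mul_mem _ (C_mem_intSeries A hdA) hz)
      (Subring.mul_mem _ (C_mem_intSeries A hcA) hw)
  algebraMap_mem' := by
    intro a
    rw [← Fermat.Agent.S18.helper8991.C_eq_algebraMap]
    rcases A.mem_or_inv_mem a with ha | ha
    · exact ⟨1, A.one_mem, one_ne_zero, by rw [map_one, one_mul]; exact C_mem_intSeries A ha⟩
    · by_cases ha0 : a = 0
      · subst ha0
        exact ⟨1, A.one_mem, one_ne_zero, by
          rw [map_one, one_mul]; exact C_mem_intSeries A A.zero_mem⟩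
      · refine ⟨a⁻¹, ha, inv_ne_zero ha0, ?_⟩
        rw [← map_mul, inv_mul_cancel₀ ha0, map_one]
        exact Subring.one_mem _

theorem mem_bdd_iff {z : LaurentSeries L} :
    z ∈ bdd A ↔ ∃ c : L, c ∈ A ∧ c ≠ 0 ∧ HahnSeries.C c * z ∈ intSeries A := Iff.rfl

theorem mem_bdd_of_mem_intSeries {z : LaurentSeries L} (hz : z ∈ intSeries A) : z ∈ bdd A :=
  ⟨1, A.one_mem, one_ne_zero, by rw [map_one, one_mul]; exact hz⟩

theorem inc_mem_bdd (X : LaurentSeries A) : coeffMap A.subtype X ∈ bdd A :=
  mem_bdd_of_mem_intSeries A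
    ((Fermat.Agent.S18.helper3784.mem_coeffSubring_iff_exists_coeffMap A _).mpr ⟨X, rfl⟩)

/-- Finitely many bounded series have a common denominator. -/
theorem exists_common_const (d : ℕ) (a : ℕ → LaurentSeries L) (ha : ∀ k, k < d → a k ∈ bdd A) :
    ∃ c : L, c ∈ A ∧ c ≠ 0 ∧ ∀ k, k < d → HahnSeries.C c * a k ∈ intSeries A := by
  induction d with
  | zero => exact ⟨1, A.one_mem, one_ne_zero, fun k hk => absurd hk (Nat.not_lt_zero k)⟩
  | succ d ih =>
    obtain ⟨c, hcA, hc0, hc⟩ := ih fun k hk => ha k (Nat.lt_succ_of_lt hk)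
    obtain ⟨e, heA, he0, he⟩ := ha d (Nat.lt_succ_self d)
    refine ⟨c * e, A.mul_mem _ _ hcA heA, mul_ne_zero hc0 he0, fun k hk => ?_⟩
    rcases Nat.lt_succ_iff_lt_or_eq.mp hk with hk' | hk'
    · have e1 : HahnSeries.C (c * e) * a k = HahnSeries.C e * (HahnSeries.C c * a k) := by
        rw [map_mul]; ring
      rw [e1]
      exact Subring.mul_mem _ (C_mem_intSeries A heA) (hc k hk')
    · have e1 : HahnSeries.C (c * e) * a k = HahnSeries.C c * (HahnSeries.C e * a k) := by
        rw [map_mul]; ring
      rw [e1, hk']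
      exact Subring.mul_mem _ (C_mem_intSeries A hcA) he

/-- **`bdd A` is integrally closed in its fractions.**  If `A` is completely integrally closed
(`harch`), `y ^ d = ∑ k < d, a k * y ^ k` with bounded `a k`, and `Q * y` is bounded for one
bounded `Q ≠ 0`, then `y` is bounded. -/
theorem mem_bdd_of_monic_relation
    (harch : ∀ c z : L, c ≠ 0 → (∀ n : ℕ, c * z ^ n ∈ A.toSubring) → z ∈ A.toSubring)
    {y Q : LaurentSeries L} (hQ : Q ∈ bdd A) (hQ0 : Q ≠ 0) (hQy : Q * y ∈ bdd A)
    (d : ℕ) (a : ℕ → LaurentSeries L) (ha : ∀ k, k < d → a k ∈ bdd A)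
    (hrel : y ^ d = ∑ k ∈ Finset.range d, a k * y ^ k) : y ∈ bdd A := by
  obtain ⟨c, hcA, hc0, hc⟩ := exists_common_const A d a ha
  obtain ⟨e, heA, he0, he⟩ := hQ
  obtain ⟨e', he'A, he'0, he'⟩ := hQy
  refine ⟨c, hcA, hc0, ?_⟩
  refine Fermat.Agent.S18.helper3784.mem_coeffSubring_of_monic_relation A.toSubring harch
    (Q := HahnSeries.C (e * e') * Q) ?_ ?_ ?_ d
    (fun k => HahnSeries.C (c ^ (d - k)) * a k) ?_ ?_
  · have e1 : HahnSeries.C (e * e') * Q = HahnSeries.C e' * (HahnSeries.C e * Q) := by
      rw [map_mul]; ring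
    rw [e1]
    exact Subring.mul_mem _ (C_mem_intSeries A he'A) he
  · exact mul_ne_zero (HahnSeries.C_ne_zero (mul_ne_zero he0 he'0)) hQ0
  · have e1 : HahnSeries.C (e * e') * Q * (HahnSeries.C c * y) =
        HahnSeries.C e * HahnSeries.C c * (HahnSeries.C e' * (Q * y)) := by
      rw [map_mul]; ring
    rw [e1]
    exact Subring.mul_mem _
      (Subring.mul_mem _ (C_mem_intSeries A heA) (C_mem_intSeries A hcA)) he'
  · intro k hk
    have e1 : HahnSeries.C (c ^ (d - k)) * a k =
        HahnSeries.C (c ^ (d - k - 1)) * (HahnSeries.C c * a k) := by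
      rw [← mul_assoc, ← map_mul, ← pow_succ, Nat.sub_add_cancel (by omega)]
    rw [e1]
    exact Subring.mul_mem _ (C_mem_intSeries A (A.pow_mem hcA _)) (hc k hk)
  · rw [mul_pow, hrel, Finset.mul_sum]
    refine Finset.sum_congr rfl fun k hk => ?_
    rw [Finset.mem_range] at hk
    have e2 : (HahnSeries.C c : LaurentSeries L) ^ d =
        HahnSeries.C c ^ (d - k) * HahnSeries.C c ^ k := by
      rw [← _root_.pow_add, Nat.sub_add_cancel hk.le]
    rw [e2, map_pow, mul_pow]
    ring

end Bdd

/-! ## Part 2: elements of `F` integral over `ℚ̄[j]` have bounded denominators -/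

section Modular

open Fermat.Agent.S24.helper24

variable (N : ℕ) (A : ValuationSubring (AlgebraicClosure ℚ))

/-- The `q`-expansion of `j` is `A`-integral. -/
theorem coe_jBar_eq_inc :
    ((jBar N : FN N) : LaurentSeries Kbar) = coeffMap A.subtype (jqModC A) := by
  rw [coe_jBar]
  show coeffMap (algebraMap ℚ Kbar) (jqModC ℚ) = _
  rw [coeffMap_jqModC, coeffMap_jqModC]

theorem coe_jBar_mem_bdd : ((jBar N : FN N) : LaurentSeries Kbar) ∈ bdd A := by
  rw [coe_jBar_eq_inc N A]
  exact inc_mem_bdd A _

/-- `ℚ̄[j]` consists of series with bounded denominators. -/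
theorem coe_mem_bdd_of_mem_adjoin {r : FN N} (hr : r ∈ Algebra.adjoin Kbar {jBar N}) :
    ((r : FN N) : LaurentSeries Kbar) ∈ bdd A := by
  have hle : Algebra.adjoin Kbar {jBar N} ≤ (bdd A).comap (modularFunctionFieldBar N).val :=
    Algebra.adjoin_le (Set.singleton_subset_iff.mpr (coe_jBar_mem_bdd N A))
  exact hle hr

/-- **Integral over `ℚ̄[j]` implies bounded denominators.** -/
theorem coe_mem_bdd_of_isIntegral
    (harch : ∀ c z : Kbar, c ≠ 0 → (∀ n : ℕ, c * z ^ n ∈ A.toSubring) → z ∈ A.toSubring)
    (x : FN N) (hx : IsIntegral (Algebra.adjoin Kbar {jBar N}) x) :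
    ((x : FN N) : LaurentSeries Kbar) ∈ bdd A := by
  rcases eq_or_ne x 0 with rfl | hx0
  · exact (bdd A).zero_mem
  have hx0' : ((x : FN N) : LaurentSeries Kbar) ≠ 0 := fun h => hx0 (Subtype.ext h)
  obtain ⟨c₀, X, Y, hc₀, -, hY, -, -, hXY⟩ :=
    Fermat.Agent.S18.helper8991.exists_normal_form A (IsLocalRing.residue A) N x.2 hx0'
  obtain ⟨p, hp, hpx⟩ := hx
  have hQ : coeffMap A.subtype Y ∈ bdd A := inc_mem_bdd A Y
  have hQ0 : coeffMap A.subtype Y ≠ 0 :=
    Fermat.Agent.S18.helper8991.inc_ne_zero A (IsLocalRing.residue A) hY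
  have hQy : coeffMap A.subtype Y * (x : LaurentSeries Kbar) ∈ bdd A := by
    rw [mul_comm, hXY, Fermat.Agent.S18.helper8991.C_eq_algebraMap]
    exact (bdd A).mul_mem ((bdd A).algebraMap_mem c₀) (inc_mem_bdd A X)
  refine mem_bdd_of_monic_relation A harch hQ hQ0 hQy p.natDegree
    (fun k => -(((p.coeff k : Algebra.adjoin Kbar {jBar N}) : FN N) : LaurentSeries Kbar)) ?_ ?_
  · intro k _
    exact (bdd A).neg_mem (coe_mem_bdd_of_mem_adjoin N A (p.coeff k).2)
  · have h1 : x ^ p.natDegree + ∑ k ∈ Finset.range p.natDegree,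
        ((p.coeff k : Algebra.adjoin Kbar {jBar N}) : FN N) * x ^ k = 0 := by
      rw [← hpx, Polynomial.eval₂_eq_sum_range, Finset.sum_range_succ, hp.coeff_natDegree,
        map_one, one_mul, add_comm]
      rfl
    have h2 := congrArg (fun t : FN N => (t : LaurentSeries Kbar)) h1
    push_cast at h2
    rw [eq_neg_of_add_eq_zero_left h2, ← Finset.sum_neg_distrib]
    refine Finset.sum_congr rfl fun k _ => ?_
    ring

/-! ## Part 3: regular away from the cusp `∞` implies integral over `ℚ̄[j]` -/

theorem order_coe_jBar_neg : ((jBar N : FN N) : LaurentSeries Kbar).order < 0 := by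
  rw [coe_jBar]
  have hc : (coeffEmb Kbar jq).coeff (-1) ≠ 0 := by
    rw [coeffEmb_coeff, coeff_jq_neg_one, map_one]
    exact one_ne_zero
  have := HahnSeries.order_le_of_coeff_ne_zero hc
  omega

theorem jBar_ne_zero' : jBar N ≠ 0 := by
  intro h0
  have h1 : ((jBar N : FN N) : LaurentSeries Kbar) = 0 := by rw [h0]; rfl
  have h2 := order_coe_jBar_neg N
  rw [h1, HahnSeries.order_zero] at h2
  exact lt_irrefl _ h2

open scoped IntermediateField.algebraAdjoinAdjoin in
/-- **Regular away from the cusp `∞` implies integral over `ℚ̄[j]`.** -/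
theorem isIntegral_of_regAwayInf [NeZero N] (x : FN N)
    (hx : Fermat.Agent.S18.helper99.RegAwayInf N x) :
    IsIntegral (Algebra.adjoin Kbar {jBar N}) x := by
  have hj : IsIntegral (Algebra.adjoin Kbar {jBar N}) (jBar N) :=
    isIntegral_algebraMap (x := Fermat.Agent.S24.helper204.gen Kbar (jBar N))
  have hmem : ∀ w : HeightOneSpectrum (integralClosure (Algebra.adjoin Kbar {jBar N}) (FN N)),
      w.valuation (FN N) x ≤ 1 := by
    intro w
    have hP : ¬ Fermat.Agent.S18.helper99.IsCuspInf N
        (Place.ofHeightOneSpectrum (K := Kbar) (F := FN N) w) := by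
      intro hc
      have h1 := hc (jBar N) (jBar_ne_zero' N)
      have h2 : 0 ≤ (Place.ofHeightOneSpectrum (K := Kbar) (F := FN N) w).ord (jBar N) := by
        apply Fermat.Agent.S24.helper204.ord_nonneg_of_mem
        rw [Place.ofHeightOneSpectrum_toValuationSubring, Valuation.mem_valuationSubring_iff]
        exact w.valuation_le_one
          (⟨jBar N, hj⟩ : integralClosure (Algebra.adjoin Kbar {jBar N}) (FN N))
      have h3 := order_coe_jBar_neg N
      omega
    have h0 := hx _ hP
    rw [Fermat.Agent.S24.helper204.ord_nonneg_iff, Place.ofHeightOneSpectrum_toValuationSubring,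
      Valuation.mem_valuationSubring_iff] at h0
    exact h0
  obtain ⟨b, hb⟩ := HeightOneSpectrum.mem_integers_of_valuation_le_one (FN N) x hmem
  rw [← hb]
  exact b.2

end Modular

/-! ## The statement (C3) -/

/-- **(C3) bounded denominators**, for every level `N` and EVERY valuation subring `A` of `ℚ̄`
(no hypothesis on `A`): a function regular away from the cusp `∞` has, up to a nonzero constant,
an `A`-integral `q`-expansion. -/
theorem stmt_BD (N : ℕ) [NeZero N] (A : ValuationSubring (AlgebraicClosure ℚ)) :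
    Fermat.Agent.S18.helper99.Stmt_BD N A := by
  intro x hx
  have hint := isIntegral_of_regAwayInf N x hx
  obtain ⟨c, -, hc0, hc⟩ :=
    coe_mem_bdd_of_isIntegral N A (harch_of_isAlgebraic_int A) x hint
  obtain ⟨y, hy⟩ := (Fermat.Agent.S18.helper3784.mem_coeffSubring_iff_exists_coeffMap A _).mp hc
  exact ⟨c, hc0, y, hy⟩

/-- The intermediate statement, for consumers: a function regular away from the cusp `∞` is
integral over `ℚ̄[j]`, hence its expansion has bounded denominators with a constant in `A`. -/
theorem exists_const_mem_of_regAwayInf (N : ℕ) [NeZero N]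
    (A : ValuationSubring (AlgebraicClosure ℚ)) (x : modularFunctionFieldBar N)
    (hx : Fermat.Agent.S18.helper99.RegAwayInf N x) :
    ∃ c : AlgebraicClosure ℚ, c ∈ A ∧ c ≠ 0 ∧ ∃ y : LaurentSeries A,
      coeffMap A.subtype y = HahnSeries.C c * (x : LaurentSeries (AlgebraicClosure ℚ)) := by
  have hint := isIntegral_of_regAwayInf N x hx
  obtain ⟨c, hcA, hc0, hc⟩ :=
    coe_mem_bdd_of_isIntegral N A (harch_of_isAlgebraic_int A) x hint
  obtain ⟨y, hy⟩ := (Fermat.Agent.S18.helper3784.mem_coeffSubring_iff_exists_coeffMap A _).mp hc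
  exact ⟨c, hcA, hc0, y, hy⟩

end Fermat.Agent.S18.helper5070
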