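/-
S18-CECH (board #739), helper5122: the two hypotheses of `icl_two_chart_idempotent`.
 (H0)  `const_of_isIntegral_two_charts` : integral over `A[t]` and over `A[1/t]` ⇒ constant;
 (FIN) finiteness of the integral closure of `A[t]`.
-/
import Fermat.Agent.S18.helper5122_CechInst

namespace Fermat.Agent.S18.helper5122

open Polynomial

section Degree

variable {A F : Type*} [CommRing A] [IsDomain A] [Field F]

/-- Degree count: a polynomial `r(T)` satisfying a monic equation with coefficients that are
polynomials in `1/T` is constant. -/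
lemma const_of_isIntegral_inv (φ : A[X] →+* F) (hφ : Function.Injective φ) (r : A[X])
    (n : ℕ) (hn : n ≠ 0) (b : ℕ → A[X])
    (h : (φ r) ^ n + ∑ i ∈ Finset.range n, eval₂ (φ.comp C) (φ X)⁻¹ (b i) * (φ r) ^ i = 0) :
    ∃ a : A, r = C a := by
  classical
  set T : F := φ X with hT
  have hT0 : T ≠ 0 := by
    rw [hT]
    intro h0
    exact X_ne_zero (hφ (by rw [h0, map_zero]))
  set M : ℕ := (Finset.range n).sup (fun i => (b i).natDegree) with hM
  let rb : ℕ → A[X] := fun i => ∑ k ∈ Finset.range (M + 1), C ((b i).coeff k) * X ^ (M - k)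
  have hrb : ∀ i ∈ Finset.range n, eval₂ (φ.comp C) T⁻¹ (b i) * T ^ M = φ (rb i) := by
    intro i hi
    have hdeg : (b i).natDegree < M + 1 :=
      Nat.lt_succ_of_le (Finset.le_sup (f := fun i => (b i).natDegree) hi)
    rw [eval₂_eq_sum_range' (φ.comp C) hdeg, Finset.sum_mul, map_sum]
    refine Finset.sum_congr rfl (fun k hk => ?_)
    have hk' : k ≤ M := Nat.lt_succ_iff.mp (Finset.mem_range.mp hk)
    rw [map_mul, map_pow, ← hT, RingHom.comp_apply, mul_assoc]
    congr 1
    obtain ⟨j, hj⟩ := Nat.exists_eq_add_of_le hk'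
    rw [hj, Nat.add_sub_cancel_left, pow_add, inv_pow, ← mul_assoc,
      inv_mul_cancel₀ (pow_ne_zero k hT0), one_mul]
  have hrbdeg : ∀ i, (rb i).natDegree ≤ M := by
    intro i
    refine natDegree_sum_le_of_forall_le _ _ (fun k _ => ?_)
    exact (natDegree_C_mul_X_pow_le _ _).trans (Nat.sub_le M k)
  -- the polynomial identity
  have hE : X ^ M * r ^ n + ∑ i ∈ Finset.range n, rb i * r ^ i = 0 := by
    apply hφ
    rw [map_zero, map_add, map_mul, map_pow, map_pow, map_sum]
    have h' := congrArg (fun z => T ^ M * z) h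
    simp only [mul_zero, mul_add, Finset.mul_sum] at h'
    rw [← h']
    congr 1
    refine Finset.sum_congr rfl (fun i hi => ?_)
    rw [map_mul, map_pow, ← hrb i hi]
    ring
  by_cases hr0 : r = 0
  · exact ⟨0, by rw [hr0, map_zero]⟩
  by_contra hcon
  have he : r.natDegree ≠ 0 := fun h0 => hcon ⟨r.coeff 0, eq_C_of_natDegree_eq_zero h0⟩
  have hlhs : (X ^ M * r ^ n).natDegree = M + n * r.natDegree := by
    rw [natDegree_mul (pow_ne_zero _ X_ne_zero) (pow_ne_zero _ hr0), natDegree_X_pow,
      natDegree_pow]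
  have hrhs : (∑ i ∈ Finset.range n, rb i * r ^ i).natDegree ≤ M + (n - 1) * r.natDegree := by
    refine natDegree_sum_le_of_forall_le _ _ (fun i hi => ?_)
    have hi' : i ≤ n - 1 := by
      have := Finset.mem_range.mp hi
      omega
    calc (rb i * r ^ i).natDegree ≤ (rb i).natDegree + (r ^ i).natDegree := natDegree_mul_le
      _ ≤ M + i * r.natDegree := add_le_add (hrbdeg i) natDegree_pow_le
      _ ≤ M + (n - 1) * r.natDegree := by
        exact Nat.add_le_add_left (Nat.mul_le_mul_right _ hi') _
  have hEq : X ^ M * r ^ n = -∑ i ∈ Finset.range n, rb i * r ^ i := eq_neg_of_add_eq_zero_left hE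
  rw [hEq, natDegree_neg] at hlhs
  have h1 : M + n * r.natDegree ≤ M + (n - 1) * r.natDegree := hlhs ▸ hrhs
  have h2 : n * r.natDegree ≤ (n - 1) * r.natDegree := Nat.le_of_add_le_add_left h1
  have h3 : n = (n - 1) + 1 := by omega
  have h4 : n * r.natDegree = (n - 1) * r.natDegree + r.natDegree := by
    conv_lhs => rw [h3]
    ring
  omega

/-- A polynomial in `T` which is integral over the ring of polynomials in `1/T` is constant. -/
lemma const_of_isIntegral_range (φ : A[X] →+* F) (hφ : Function.Injective φ) (r : A[X])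
    (h : IsIntegral (eval₂RingHom (φ.comp C) (φ X)⁻¹).range (φ r)) : ∃ a : A, r = C a := by
  classical
  obtain ⟨Q, hQ, hQx⟩ := h
  have hb : ∀ i, ∃ b : A[X], eval₂ (φ.comp C) (φ X)⁻¹ b = (Q.coeff i : F) := by
    intro i
    obtain ⟨b, hb⟩ := (Q.coeff i).2
    exact ⟨b, by rw [← hb]; rfl⟩
  choose b hb using hb
  have hn : Q.natDegree ≠ 0 := by
    intro h0
    have h1 : Q = 1 := by
      have := eq_C_of_natDegree_eq_zero h0
      rw [this, ← h0, hQ.coeff_natDegree, map_one]
    rw [h1, eval₂_one] at hQx
    exact one_ne_zero hQx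
  refine const_of_isIntegral_inv φ hφ r Q.natDegree hn b ?_
  rw [eval₂_eq_sum_range, Finset.sum_range_succ, hQ.coeff_natDegree, map_one, one_mul] at hQx
  rw [add_comm]
  rw [← hQx]
  congr 1
  refine Finset.sum_congr rfl (fun i _ => ?_)
  rw [hb i]
  rfl

end Degree

section Const

variable {A L : Type*} [CommRing A] [Field L] [Algebra A L]

/-- Integrality over `A[s]` gives a monic polynomial over `A[X]` evaluated through `X ↦ s`. -/
lemma exists_monic_of_isIntegral_adjoin (s x : L) (h : IsIntegral (Algebra.adjoin A {s}) x) :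
    ∃ P : A[X][X], P.Monic ∧ eval₂ (aeval s : A[X] →ₐ[A] L).toRingHom x P = 0 := by
  obtain ⟨p, hp, hpx⟩ := h
  let f : A[X] →+* (Algebra.adjoin A {s}) :=
    ((aeval s : A[X] →ₐ[A] L).codRestrict (Algebra.adjoin A {s}) (fun q => by
      rw [Algebra.adjoin_singleton_eq_range_aeval]; exact ⟨q, rfl⟩)).toRingHom
  have hf : Function.Surjective f := by
    rintro ⟨y, hy⟩
    have hy' : y ∈ (aeval s : A[X] →ₐ[A] L).range := by
      rw [← Algebra.adjoin_singleton_eq_range_aeval]; exact hy
    obtain ⟨q, hq⟩ := hy'
    exact ⟨q, Subtype.ext hq⟩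
  have hl : p ∈ Polynomial.lifts f := by
    rw [Polynomial.lifts_iff_coeff_lifts]
    intro n
    exact hf _
  obtain ⟨q, hq, -, hqm⟩ := Polynomial.lifts_and_natDegree_eq_and_monic hl hp
  refine ⟨q, hqm, ?_⟩
  rw [← hq, Polynomial.eval₂_map] at hpx
  exact hpx

/-- **`H⁰ = A`.**  Let `A` be an integrally closed domain inside the field `L`, such that every
element of `L` integral over `A` lies in `A`, and let `t ∈ L` be transcendental over `A`.  Then
an element of `L` integral over both `A[t]` and `A[1/t]` lies in `A`. -/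
theorem const_of_isIntegral_two_charts [IsDomain A] [IsIntegrallyClosed A] (t : L)
    (ht : Transcendental A t)
    (hcl : ∀ x : L, IsIntegral A x → ∃ α : A, algebraMap A L α = x)
    (x : L) (h0 : IsIntegral (Algebra.adjoin A {t}) x)
    (h1 : IsIntegral (Algebra.adjoin A {t⁻¹}) x) : ∃ α : A, algebraMap A L α = x := by
  classical
  obtain ⟨P0, hP0, hP0x⟩ := exists_monic_of_isIntegral_adjoin t x h0
  obtain ⟨P1, hP1, hP1x⟩ := exists_monic_of_isIntegral_adjoin t⁻¹ x h1
  have hinj : Function.Injective (aeval t : A[X] →ₐ[A] L).toRingHom :=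
    transcendental_iff_injective.mp ht
  let F := FractionRing A[X]
  let ψ : F →+* L := IsFractionRing.lift hinj
  let _iFL : Algebra F L := ψ.toAlgebra
  let _iAL : Algebra A[X] L := (aeval t : A[X] →ₐ[A] L).toRingHom.toAlgebra
  have _iT : IsScalarTower A[X] F L :=
    IsScalarTower.of_algebraMap_eq (fun q => (IsFractionRing.lift_algebraMap hinj q).symm)
  have hxi : IsIntegral A[X] x := ⟨P0, hP0, hP0x⟩
  have hxF : IsIntegral F x := hxi.tower_top
  have hm : minpoly F x = (minpoly A[X] x).map (algebraMap A[X] F) :=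
    minpoly.isIntegrallyClosed_eq_field_fractions' F hxi
  -- the second chart
  let φ : A[X] →+* F := algebraMap A[X] F
  have hφ : Function.Injective φ := IsFractionRing.injective A[X] F
  let g1 : A[X] →+* F := eval₂RingHom (φ.comp C) (φ X)⁻¹
  have hψg1 : ψ.comp g1 = (aeval t⁻¹ : A[X] →ₐ[A] L).toRingHom := by
    apply Polynomial.ringHom_ext
    · intro a
      have e1 : ψ (φ (C a)) = (aeval t : A[X] →ₐ[A] L) (C a) := IsFractionRing.lift_algebraMap hinj _
      simp [g1, e1]
    · have e1 : ψ (φ X) = (aeval t : A[X] →ₐ[A] L) X := IsFractionRing.lift_algebraMap hinj _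
      simp [g1, map_inv₀, e1]
  have hdvd : minpoly F x ∣ P1.map g1 := by
    apply minpoly.dvd F x
    rw [aeval_def, eval₂_map]
    have : (algebraMap F L).comp g1 = (aeval t⁻¹ : A[X] →ₐ[A] L).toRingHom := hψg1
    rw [this]
    exact hP1x
  have hcoef : ∀ i, IsIntegral g1.range ((minpoly F x).coeff i) := by
    intro i
    refine Polynomial.isIntegral_coeff_of_dvd (P1.map g1.rangeRestrict) (minpoly F x)
      (hP1.map _) (minpoly.monic hxF) ?_ i
    rw [Polynomial.map_map]
    exact hdvd
  -- all coefficients of the minimal polynomial over `A[X]` are constants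
  have hconst : ∀ i, ∃ a : A, (minpoly A[X] x).coeff i = C a := by
    intro i
    refine const_of_isIntegral_range φ hφ _ ?_
    have := hcoef i
    rw [hm, coeff_map] at this
    exact this
  set μ := minpoly A[X] x with hμ
  have hμm : μ.Monic := minpoly.monic hxi
  have hμx : eval₂ (aeval t : A[X] →ₐ[A] L).toRingHom x μ = 0 := minpoly.aeval A[X] x
  let μ0 : A[X] := μ.map (evalRingHom (0 : A))
  have hμ0 : μ0.map C = μ := by
    ext i : 1
    rw [coeff_map, coeff_map]
    obtain ⟨a, ha⟩ := hconst i
    rw [ha]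
    simp
  refine hcl x ⟨μ0, hμm.map _, ?_⟩
  rw [← hμ0, eval₂_map] at hμx
  have : (aeval t : A[X] →ₐ[A] L).toRingHom.comp C = algebraMap A L := by
    ext a
    simp
  rw [this] at hμx
  exact hμx

end Const

section Fin

variable {A L : Type*} [CommRing A] [Field L] [Algebra A L]

/-- `X ↦ s`, with codomain `A[s]`. -/
noncomputable def aevalAdjoin (s : L) : A[X] →ₐ[A] (Algebra.adjoin A {s}) :=
  (aeval s : A[X] →ₐ[A] L).codRestrict (Algebra.adjoin A {s}) (fun q => by
    rw [Algebra.adjoin_singleton_eq_range_aeval]; exact ⟨q, rfl⟩)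

lemma aevalAdjoin_surjective (s : L) : Function.Surjective (aevalAdjoin (A := A) s) := by
  rintro ⟨y, hy⟩
  have hy' : y ∈ (aeval s : A[X] →ₐ[A] L).range := by
    rw [← Algebra.adjoin_singleton_eq_range_aeval]; exact hy
  obtain ⟨q, hq⟩ := hy'
  exact ⟨q, Subtype.ext hq⟩

lemma aevalAdjoin_injective (s : L) (hs : Transcendental A s) :
    Function.Injective (aevalAdjoin (A := A) s) := by
  intro p q h
  exact transcendental_iff_injective.mp hs (congrArg Subtype.val h)

lemma adjoin_isNoetherianRing [IsNoetherianRing A] (s : L) :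
    IsNoetherianRing (Algebra.adjoin A {s}) :=
  isNoetherianRing_of_surjective A[X] _ (aevalAdjoin (A := A) s).toRingHom
    (aevalAdjoin_surjective s)

lemma adjoin_isIntegrallyClosed [IsDomain A] [IsIntegrallyClosed A] (s : L)
    (hs : Transcendental A s) : IsIntegrallyClosed (Algebra.adjoin A {s}) :=
  IsIntegrallyClosed.of_equiv (RingEquiv.ofBijective (aevalAdjoin (A := A) s).toRingHom
    ⟨aevalAdjoin_injective s hs, aevalAdjoin_surjective s⟩)

/-- **(FIN)** The integral closure of `A[t]` in a finite separable extension `L` of its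
fraction field `K` is a finite `A[t]`-module (`A` noetherian integrally closed, `t`
transcendental). -/
theorem finite_icl_adjoin [IsDomain A] [IsIntegrallyClosed A] [IsNoetherianRing A] (t : L)
    (ht : Transcendental A t) (K : Type*) [Field K] [Algebra (Algebra.adjoin A {t}) K]
    [IsFractionRing (Algebra.adjoin A {t}) K] [Algebra K L]
    [IsScalarTower (Algebra.adjoin A {t}) K L] [FiniteDimensional K L]
    [Algebra.IsSeparable K L] :
    Module.Finite (Algebra.adjoin A {t}) (integralClosure (Algebra.adjoin A {t}) L) := by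
  have h1 := adjoin_isNoetherianRing (A := A) t
  have h2 := adjoin_isIntegrallyClosed t ht
  exact IsIntegralClosure.finite (Algebra.adjoin A {t}) K L
    (integralClosure (Algebra.adjoin A {t}) L)

/-- **(FIN)** in characteristic zero: separability is automatic. -/
theorem finite_icl_adjoin_charZero [IsDomain A] [IsIntegrallyClosed A] [IsNoetherianRing A]
    [CharZero L] (t : L) (ht : Transcendental A t) (K : Type*) [Field K]
    [Algebra (Algebra.adjoin A {t}) K] [IsFractionRing (Algebra.adjoin A {t}) K] [Algebra K L]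
    [IsScalarTower (Algebra.adjoin A {t}) K L] [FiniteDimensional K L] :
    Module.Finite (Algebra.adjoin A {t}) (integralClosure (Algebra.adjoin A {t}) L) := by
  have h0 : CharZero K := (algebraMap K L).charZero
  exact finite_icl_adjoin t ht K

end Fin

section Final

variable {A L : Type*} [CommRing A] [Field L] [Algebra A L]

lemma algebraMap_injective_of_transcendental {t : L} (ht : Transcendental A t) :
    Function.Injective (algebraMap A L) := by
  rw [injective_iff_map_eq_zero]
  intro a ha
  have h1 : aeval t (C a) = 0 := by rw [aeval_C, ha]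
  have h2 : C a = 0 := by
    by_contra hne
    exact ht ⟨C a, hne, h1⟩
  exact C_eq_zero.mp h2

lemma ne_zero_of_transcendental {t : L} (ht : Transcendental A t) : t ≠ 0 := by
  intro h
  have hnt : Nontrivial A := (algebraMap A L).domain_nontrivial
  exact ht ⟨X, X_ne_zero, by rw [aeval_X, h]⟩

/-- **Two-chart connectedness, final form.**  `A` a noetherian integrally closed domain,
integrally closed in the field `L`; `p` a prime element of `A`; `t ∈ L` transcendental over
`A`; the integral closure `B0` of `A[t]` in `L` finite over `A[t]`.  With `B1`, `B01` the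
integral closures of `A[1/t]`, `A[t, 1/t]`: every pair `(a, b) ∈ B0 × B1` which is idempotent
modulo `p` and glues modulo `p B01` is `0` or `1` modulo `p`. -/
theorem icl_two_chart_idempotent_prime [IsDomain A] [IsIntegrallyClosed A] [IsNoetherianRing A]
    (hcl : ∀ x : L, IsIntegral A x → ∃ α : A, algebraMap A L α = x)
    (p : A) (hp : Prime p) (t : L) (ht : Transcendental A t)
    (hfin : Module.Finite (Algebra.adjoin A {t}) (integralClosure (Algebra.adjoin A {t}) L))
    {a b : L} (ha : IsIntegral (Algebra.adjoin A {t}) a)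
    (hb : IsIntegral (Algebra.adjoin A {t⁻¹}) b)
    (haa : ∃ x, IsIntegral (Algebra.adjoin A {t}) x ∧ a * a - a = algebraMap A L p * x)
    (hbb : ∃ y, IsIntegral (Algebra.adjoin A {t⁻¹}) y ∧ b * b - b = algebraMap A L p * y)
    (hab : ∃ h, IsIntegral (Algebra.adjoin A {t, t⁻¹}) h ∧ a - b = algebraMap A L p * h) :
    ((∃ x, IsIntegral (Algebra.adjoin A {t}) x ∧ a = algebraMap A L p * x) ∧
      (∃ y, IsIntegral (Algebra.adjoin A {t⁻¹}) y ∧ b = algebraMap A L p * y)) ∨
    ((∃ x, IsIntegral (Algebra.adjoin A {t}) x ∧ a - 1 = algebraMap A L p * x) ∧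
      (∃ y, IsIntegral (Algebra.adjoin A {t⁻¹}) y ∧ b - 1 = algebraMap A L p * y)) := by
  refine icl_two_chart_idempotent (algebraMap_injective_of_transcendental ht) p hp.ne_zero ?_ t
    (ne_zero_of_transcendental ht) hfin
    (fun x h0 h1 => const_of_isIntegral_two_charts t ht hcl x h0 h1) ha hb haa hbb hab
  intro α hα
  have : α * α - α = α * (α - 1) := by ring
  rw [this] at hα
  exact hp.dvd_or_dvd hα

end Final

end Fermat.Agent.S18.helper5122
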