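import Fermat.Agent.S18.helper8185_RamData
import Fermat.Agent.S24.helper1370_PlaceBasics

/-!
# S18-RAMT (helper5317): ramification of `F_N` over the Hauptmodul lines `t₂`, `t₃`

The landed `helper8185_RamData` gives the ramification data of `F_N / ℚ̄(j)` in Prelude `Place`
vocabulary: unramified off `j = 0, 1728, ∞`, indices dividing `3`, `2`, `N` there.  The routes to
S18 that avoid the wild primes `ℓ = 2, 3` work over a Hauptmodul line instead of the `j`-line:

* level 2: `t` with `j * t ^ 2 = (t + 256) ^ 3` (then `(j - 1728) * t ^ 2 = (t - 512) ^ 2 * (t + 64)`);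
* level 3: `t` with `j * t ^ 3 = (t + 27) * (t + 243) ^ 3`
  (then `(j - 1728) * t ^ 3 = (t ^ 2 - 486 * t - 19683) ^ 2`).

This file transports the ramification data to these lines, hypothesis-passing on the algebraic
identity (so it does not depend on how `t` is constructed):

* over the `t₂`-line the only finite nonzero branch value is `-64` (index dividing `2`);
* over the `t₃`-line the only finite nonzero branch value is `-27` (index dividing `3`);
* zeros and poles of `t` are poles of `j` (cusps), with indices controlled by the level.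

Generic statements (`Generic` section): any fields `K ⊆ F`, the three `j`-line facts as hypotheses.
Instances (`Modular` section): `F = modularFunctionFieldBar N`, no hypotheses left except the
identity satisfied by `t`.
-/

set_option autoImplicit false

open AlgebraicCurve Polynomial

namespace Fermat.Agent.S18.helper5317

open Fermat.Agent.S24.helper1370

/-! ## Generic part -/

section Generic

variable {K F : Type*} [Field K] [Field F] [Algebra K F]

/-- If `t - c` vanishes at the place `v` and `p(c) ≠ 0`, then `p(t)` is a unit at `v`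
(and in particular nonzero). -/
theorem aeval_ne_zero_and_ord_eq_zero (v : Place K F) {t : F} {c : K}
    (h : 0 < v.ord (t - algebraMap K F c)) (p : K[X]) (hp : p.eval c ≠ 0) :
    aeval t p ≠ 0 ∧ v.ord (aeval t p) = 0 := by
  have ht : t ∈ v.toValuationSubring :=
    mem_of_ord_nonneg v (ord_nonneg_of_ord_sub_algebraMap_pos v h)
  have hmem : ∀ q : K[X], aeval t q ∈ v.toValuationSubring := by
    intro q
    induction q using Polynomial.induction_on' with
    | add p₁ p₂ h₁ h₂ =>
      rw [map_add]
      exact v.toValuationSubring.add_mem _ _ h₁ h₂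
    | monomial n a =>
      rw [Polynomial.aeval_monomial]
      exact v.toValuationSubring.mul_mem _ _ (v.algebraMap_mem' a) (pow_mem ht n)
  obtain ⟨q, hq⟩ : ∃ q : K[X], p = C (p.eval c) + (X - C c) * q := by
    refine ⟨p /ₘ (X - C c), ?_⟩
    have h1 := Polynomial.modByMonic_add_div p (X - C c)
    rw [Polynomial.modByMonic_X_sub_C_eq_C_eval] at h1
    exact h1.symm
  have hqmem : aeval t q ∈ v.toValuationSubring := hmem q
  have hval : aeval t p = algebraMap K F (p.eval c) + (t - algebraMap K F c) * aeval t q := by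
    conv_lhs => rw [hq]
    simp only [map_add, map_mul, map_sub, aeval_C, aeval_X]
  have hu : algebraMap K F (p.eval c) ≠ 0 := (_root_.map_ne_zero _).mpr hp
  have htc : t - algebraMap K F c ≠ 0 := by
    intro h0
    rw [h0] at h
    simp at h
  rcases eq_or_ne (aeval t q) 0 with hq0 | hq0
  · rw [hval, hq0, mul_zero, add_zero]
    exact ⟨hu, ord_algebraMap v _⟩
  · have hw : 0 < v.ord ((t - algebraMap K F c) * aeval t q) := by
      rw [v.ord_mul htc hq0]
      have := ord_nonneg_of_mem v hqmem
      omega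
    have hlt : v.ord (algebraMap K F (p.eval c)) < v.ord ((t - algebraMap K F c) * aeval t q) := by
      rw [ord_algebraMap]
      exact hw
    have hord := ord_add_eq_of_lt v hu hlt
    rw [ord_algebraMap] at hord
    refine ⟨?_, by rw [hval]; exact hord⟩
    rw [hval]
    intro h0
    have h1 : (t - algebraMap K F c) * aeval t q = -algebraMap K F (p.eval c) :=
      eq_neg_of_add_eq_zero_right h0
    rw [h1, ord_neg, ord_algebraMap] at hw
    exact lt_irrefl _ hw

/-- An element with positive order is nonzero. -/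
theorem ne_zero_of_ord_pos (v : Place K F) {f : F} (h : 0 < v.ord f) : f ≠ 0 := by
  rintro rfl
  simp at h

/-- An element with negative order is nonzero. -/
theorem ne_zero_of_ord_neg (v : Place K F) {f : F} (h : v.ord f < 0) : f ≠ 0 := by
  rintro rfl
  simp at h

/-- If `t - c` vanishes at `v`, then `t - b ≠ 0` for every constant `b`. -/
theorem sub_algebraMap_ne_zero (v : Place K F) {t : F} {c : K}
    (h : 0 < v.ord (t - algebraMap K F c)) (b : K) : t - algebraMap K F b ≠ 0 := by
  intro h0
  have h1 : t - algebraMap K F c = algebraMap K F (b - c) := by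
    rw [map_sub]
    linear_combination h0
  rw [h1, ord_algebraMap] at h
  exact lt_irrefl _ h

/-- If `t - c` vanishes at `v` and `c ≠ 0`, then `t` is a unit at `v`. -/
theorem ord_eq_zero_of_ord_sub_pos (v : Place K F) {t : F} {c : K}
    (h : 0 < v.ord (t - algebraMap K F c)) (hc : c ≠ 0) : t ≠ 0 ∧ v.ord t = 0 := by
  have h1 := sub_algebraMap_ne_zero v h 0
  have h2 := ord_sub_algebraMap_eq_zero v h hc
  rw [map_zero, sub_zero] at h1 h2
  exact ⟨h1, h2⟩

private theorem eq_one_of_mul_dvd {e : ℤ} (he : 0 < e) {k : ℤ} (hk : k ≠ 0) (h : k * e ∣ k) :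
    e = 1 := by
  have h1 : k * e ∣ k * 1 := by rwa [mul_one]
  exact Int.eq_one_of_dvd_one he.le ((mul_dvd_mul_iff_left hk).mp h1)

variable [CharZero K]

/-! ### Level 2: `j * t ^ 2 = (t + 256) ^ 3` -/

section LevelTwo

variable (j t : F) (hjt : j * t ^ 2 = (t + 256) ^ 3)
include hjt

/-- Over `t = -256` (the point above `j = 0`): unramified. -/
theorem level_two_ord_eq_one_at_neg256
    (hR2 : ∀ v : Place K F, 0 < v.ord j → v.ord j ∣ 3)
    (v : Place K F) (hv : 0 < v.ord (t + 256)) : v.ord (t + 256) = 1 := by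
  have h256 : t + 256 = t - algebraMap K F (-256) := by
    rw [map_neg, map_ofNat]; ring
  have hv' : 0 < v.ord (t - algebraMap K F (-256)) := by rwa [← h256]
  obtain ⟨ht0, hordt⟩ := ord_eq_zero_of_ord_sub_pos v hv' (by norm_num : (-256 : K) ≠ 0)
  have hne : t + 256 ≠ 0 := ne_zero_of_ord_pos v hv
  have hj0 : j ≠ 0 := by
    rintro rfl
    rw [zero_mul] at hjt
    exact pow_ne_zero 3 hne hjt.symm
  have hord := congrArg v.ord hjt
  rw [v.ord_mul hj0 (pow_ne_zero 2 ht0), ord_pow, ord_pow, hordt] at hord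
  have hj3 : v.ord j = 3 * v.ord (t + 256) := by push_cast at hord; linarith
  have hdvd := hR2 v (by rw [hj3]; positivity)
  rw [hj3] at hdvd
  exact eq_one_of_mul_dvd hv (by norm_num) hdvd

/-- The companion identity for `j - 1728`. -/
theorem level_two_sub_1728 : (j - 1728) * t ^ 2 = (t - 512) ^ 2 * (t + 64) := by
  linear_combination hjt

/-- Over `t = 512` (the point above `j = 1728` which is not elliptic on `X₀(2)`): unramified. -/
theorem level_two_ord_eq_one_at_512
    (hR3 : ∀ v : Place K F, 0 < v.ord (j - algebraMap K F 1728) →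
      v.ord (j - algebraMap K F 1728) ∣ 2)
    (v : Place K F) (hv : 0 < v.ord (t - 512)) : v.ord (t - 512) = 1 := by
  have h512 : t - 512 = t - algebraMap K F 512 := by rw [map_ofNat]
  have h64 : t + 64 = t - algebraMap K F (-64) := by
    rw [map_neg, map_ofNat]; ring
  have h1728 : j - 1728 = j - algebraMap K F 1728 := by rw [map_ofNat]
  have hv' : 0 < v.ord (t - algebraMap K F 512) := by rwa [← h512]
  obtain ⟨ht0, hordt⟩ := ord_eq_zero_of_ord_sub_pos v hv' (by norm_num : (512 : K) ≠ 0)
  have hne : t - 512 ≠ 0 := ne_zero_of_ord_pos v hv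
  have h64ne : t + 64 ≠ 0 := by
    rw [h64]; exact sub_algebraMap_ne_zero v hv' _
  have h64ord : v.ord (t + 64) = 0 := by
    rw [h64]; exact ord_sub_algebraMap_eq_zero v hv' (by norm_num)
  have key := level_two_sub_1728 j t hjt
  have hj0 : j - 1728 ≠ 0 := by
    intro h0
    rw [h0, zero_mul] at key
    exact mul_ne_zero (pow_ne_zero 2 hne) h64ne key.symm
  have hord := congrArg v.ord key
  rw [v.ord_mul hj0 (pow_ne_zero 2 ht0), v.ord_mul (pow_ne_zero 2 hne) h64ne, ord_pow, ord_pow,
    hordt, h64ord] at hord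
  have hj2 : v.ord (j - algebraMap K F 1728) = 2 * v.ord (t - 512) := by
    rw [← h1728]; push_cast at hord; linarith
  have hdvd := hR3 v (by rw [hj2]; positivity)
  rw [hj2] at hdvd
  exact eq_one_of_mul_dvd hv (by norm_num) hdvd

/-- Over `t = -64` (the elliptic point of order 2 of `X₀(2)`): index dividing `2`. -/
theorem level_two_ord_dvd_two_at_neg64
    (hR3 : ∀ v : Place K F, 0 < v.ord (j - algebraMap K F 1728) →
      v.ord (j - algebraMap K F 1728) ∣ 2)
    (v : Place K F) (hv : 0 < v.ord (t + 64)) : v.ord (t + 64) ∣ 2 := by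
  have h512 : t - 512 = t - algebraMap K F 512 := by rw [map_ofNat]
  have h64 : t + 64 = t - algebraMap K F (-64) := by
    rw [map_neg, map_ofNat]; ring
  have h1728 : j - 1728 = j - algebraMap K F 1728 := by rw [map_ofNat]
  have hv' : 0 < v.ord (t - algebraMap K F (-64)) := by rwa [← h64]
  obtain ⟨ht0, hordt⟩ := ord_eq_zero_of_ord_sub_pos v hv' (by norm_num : (-64 : K) ≠ 0)
  have hne : t + 64 ≠ 0 := ne_zero_of_ord_pos v hv
  have h512ne : t - 512 ≠ 0 := by
    rw [h512]; exact sub_algebraMap_ne_zero v hv' _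
  have h512ord : v.ord (t - 512) = 0 := by
    rw [h512]; exact ord_sub_algebraMap_eq_zero v hv' (by norm_num)
  have key := level_two_sub_1728 j t hjt
  have hj0 : j - 1728 ≠ 0 := by
    intro h0
    rw [h0, zero_mul] at key
    exact mul_ne_zero (pow_ne_zero 2 h512ne) hne key.symm
  have hord := congrArg v.ord key
  rw [v.ord_mul hj0 (pow_ne_zero 2 ht0), v.ord_mul (pow_ne_zero 2 h512ne) hne, ord_pow, ord_pow,
    hordt, h512ord] at hord
  have hj2 : v.ord (j - algebraMap K F 1728) = v.ord (t + 64) := by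
    rw [← h1728]; push_cast at hord; linarith
  have hdvd := hR3 v (by rw [hj2]; exact hv)
  rwa [hj2] at hdvd

/-- **Level 2, generic branch statement.** `F / K(t)` is unramified over every `c ≠ 0, -64`. -/
theorem level_two_ord_eq_one
    (hR1 : ∀ c : K, c ≠ 0 → c ≠ 1728 → ∀ v : Place K F,
      0 < v.ord (j - algebraMap K F c) → v.ord (j - algebraMap K F c) = 1)
    (hR2 : ∀ v : Place K F, 0 < v.ord j → v.ord j ∣ 3)
    (hR3 : ∀ v : Place K F, 0 < v.ord (j - algebraMap K F 1728) →
      v.ord (j - algebraMap K F 1728) ∣ 2)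
    (c : K) (hc0 : c ≠ 0) (hc : c ≠ -64) (v : Place K F)
    (hv : 0 < v.ord (t - algebraMap K F c)) : v.ord (t - algebraMap K F c) = 1 := by
  by_cases h256 : c = -256
  · subst h256
    have h : t - algebraMap K F (-256) = t + 256 := by rw [map_neg, map_ofNat]; ring
    rw [h] at hv ⊢
    exact level_two_ord_eq_one_at_neg256 j t hjt hR2 v hv
  by_cases h512 : c = 512
  · subst h512
    have h : t - algebraMap K F 512 = t - 512 := by rw [map_ofNat]
    rw [h] at hv ⊢
    exact level_two_ord_eq_one_at_512 j t hjt hR3 v hv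
  -- the generic case: `c` is not a critical point of `t ↦ (t + 256)^3 / t^2`
  obtain ⟨ht0, hordt⟩ := ord_eq_zero_of_ord_sub_pos v hv hc0
  have htc : t - algebraMap K F c ≠ 0 := ne_zero_of_ord_pos v hv
  have hc256 : c + 256 ≠ 0 := fun h => h256 (by linear_combination h)
  have hc512 : c - 512 ≠ 0 := sub_ne_zero.mpr h512
  have hc64 : c + 64 ≠ 0 := fun h => hc (by linear_combination h)
  set G : K[X] := C (c ^ 2) * ((X + 256) ^ 2 + (X + 256) * C (c + 256) + C ((c + 256) ^ 2))
    - C ((c + 256) ^ 3) * (X + C c) with hG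
  have hGc : G.eval c = c * (c + 256) ^ 2 * (c - 512) := by
    simp only [hG, eval_sub, eval_mul, eval_add, eval_pow, eval_C, eval_X, eval_ofNat]
    ring
  have hGne : G.eval c ≠ 0 := by
    rw [hGc]
    exact mul_ne_zero (mul_ne_zero hc0 (pow_ne_zero 2 hc256)) hc512
  obtain ⟨hGt, hGord⟩ := aeval_ne_zero_and_ord_eq_zero v hv G hGne
  set c' : K := (c + 256) ^ 3 / c ^ 2 with hc'
  have hc'0 : c' ≠ 0 := div_ne_zero (pow_ne_zero 3 hc256) (pow_ne_zero 2 hc0)
  have hc'1728 : c' ≠ 1728 := by
    intro h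
    rw [hc', div_eq_iff (pow_ne_zero 2 hc0)] at h
    have h2 : (c - 512) ^ 2 * (c + 64) = 0 := by linear_combination h
    rcases mul_eq_zero.mp h2 with h3 | h3
    · exact hc512 (pow_eq_zero_iff (by norm_num) |>.mp h3)
    · exact hc64 h3
  have hac : algebraMap K F c' * algebraMap K F c ^ 2 = (algebraMap K F c + 256) ^ 3 := by
    have h1 : c' * c ^ 2 = (c + 256) ^ 3 := by
      rw [hc', div_mul_cancel₀ _ (pow_ne_zero 2 hc0)]
    have h2 := congrArg (algebraMap K F) h1
    simpa only [map_mul, map_pow, map_add, map_ofNat] using h2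
  have hGt' : aeval t G = algebraMap K F c ^ 2 *
      ((t + 256) ^ 2 + (t + 256) * (algebraMap K F c + 256) + (algebraMap K F c + 256) ^ 2)
      - (algebraMap K F c + 256) ^ 3 * (t + algebraMap K F c) := by
    simp only [hG, map_sub, map_mul, map_add, map_pow, aeval_C, aeval_X, map_ofNat]
  have key : (j - algebraMap K F c') * (t ^ 2 * algebraMap K F c ^ 2)
      = (t - algebraMap K F c) * aeval t G := by
    rw [hGt']
    linear_combination (algebraMap K F c) ^ 2 * hjt - t ^ 2 * hac
  have hac0 : algebraMap K F c ≠ 0 := (_root_.map_ne_zero _).mpr hc0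
  have hj0 : j - algebraMap K F c' ≠ 0 := by
    intro h0
    rw [h0, zero_mul] at key
    exact mul_ne_zero htc hGt key.symm
  have hord := congrArg v.ord key
  rw [v.ord_mul hj0 (mul_ne_zero (pow_ne_zero 2 ht0) (pow_ne_zero 2 hac0)),
    v.ord_mul (pow_ne_zero 2 ht0) (pow_ne_zero 2 hac0), ord_pow, ord_pow, hordt,
    ord_algebraMap, v.ord_mul htc hGt, hGord] at hord
  have hje : v.ord (j - algebraMap K F c') = v.ord (t - algebraMap K F c) := by
    push_cast at hord; linarith
  rw [← hje]
  exact hR1 c' hc'0 hc'1728 v (by rw [hje]; exact hv)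

/-- A zero of `t` is a pole of `j` of twice the order. -/
theorem level_two_ord_j_of_zero (v : Place K F) (hv : 0 < v.ord t) :
    v.ord j = -(2 * v.ord t) := by
  have ht0 : t ≠ 0 := ne_zero_of_ord_pos v hv
  have hv' : 0 < v.ord (t - algebraMap K F 0) := by rwa [map_zero, sub_zero]
  have h256 : t + 256 = t - algebraMap K F (-256) := by
    rw [map_neg, map_ofNat]; ring
  have hne : t + 256 ≠ 0 := by
    rw [h256]; exact sub_algebraMap_ne_zero v hv' _
  have hord256 : v.ord (t + 256) = 0 := by
    rw [h256]; exact ord_sub_algebraMap_eq_zero v hv' (by norm_num)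
  have hj0 : j ≠ 0 := by
    rintro rfl
    rw [zero_mul] at hjt
    exact pow_ne_zero 3 hne hjt.symm
  have hord := congrArg v.ord hjt
  rw [v.ord_mul hj0 (pow_ne_zero 2 ht0), ord_pow, ord_pow, hord256] at hord
  push_cast at hord
  linarith

omit [CharZero K] in
/-- A pole of `t` is a pole of `j` of the same order. -/
theorem level_two_ord_j_of_pole (v : Place K F) (hv : v.ord t < 0) : v.ord j = v.ord t := by
  have ht0 : t ≠ 0 := ne_zero_of_ord_neg v hv
  have h256 : t + 256 = t - algebraMap K F (-256) := by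
    rw [map_neg, map_ofNat]; ring
  have hord256 : v.ord (t + 256) = v.ord t := by
    rw [h256]; exact ord_sub_algebraMap_of_ord_neg v hv _
  have hne : t + 256 ≠ 0 := by
    intro h0
    rw [h0, Place.ord_zero] at hord256
    omega
  have hj0 : j ≠ 0 := by
    rintro rfl
    rw [zero_mul] at hjt
    exact pow_ne_zero 3 hne hjt.symm
  have hord := congrArg v.ord hjt
  rw [v.ord_mul hj0 (pow_ne_zero 2 ht0), ord_pow, ord_pow, hord256] at hord
  push_cast at hord
  linarith

/-- A pole of `j` is a zero or a pole of `t`. -/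
theorem level_two_ord_t_ne_zero_of_pole_j (v : Place K F) (hv : v.ord j < 0) : v.ord t ≠ 0 := by
  intro h0
  have hj0 : j ≠ 0 := ne_zero_of_ord_neg v hv
  have ht0 : t ≠ 0 := by
    have : CharZero F := charZero_of_injective_algebraMap (algebraMap K F).injective
    rintro rfl
    norm_num at hjt
  have hne : t + 256 ≠ 0 := by
    intro h
    rw [h] at hjt
    have : j * t ^ 2 = 0 := by rw [hjt]; ring
    exact mul_ne_zero hj0 (pow_ne_zero 2 ht0) this
  have h256 : t + 256 = t - algebraMap K F (-256) := by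
    rw [map_neg, map_ofNat]; ring
  have hnn : 0 ≤ v.ord (t + 256) := by
    rw [h256]; exact ord_sub_algebraMap_nonneg v h0.ge _
  have hord := congrArg v.ord hjt
  rw [v.ord_mul hj0 (pow_ne_zero 2 ht0), ord_pow, ord_pow, h0] at hord
  push_cast at hord
  linarith

end LevelTwo

/-! ### Level 3: `j * t ^ 3 = (t + 27) * (t + 243) ^ 3` -/

section LevelThree

variable (j t : F) (hjt : j * t ^ 3 = (t + 27) * (t + 243) ^ 3)
include hjt

/-- Over `t = -243` (the point above `j = 0` which is not elliptic on `X₀(3)`): unramified. -/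
theorem level_three_ord_eq_one_at_neg243
    (hR2 : ∀ v : Place K F, 0 < v.ord j → v.ord j ∣ 3)
    (v : Place K F) (hv : 0 < v.ord (t + 243)) : v.ord (t + 243) = 1 := by
  have h243 : t + 243 = t - algebraMap K F (-243) := by
    rw [map_neg, map_ofNat]; ring
  have h27 : t + 27 = t - algebraMap K F (-27) := by
    rw [map_neg, map_ofNat]; ring
  have hv' : 0 < v.ord (t - algebraMap K F (-243)) := by rwa [← h243]
  obtain ⟨ht0, hordt⟩ := ord_eq_zero_of_ord_sub_pos v hv' (by norm_num : (-243 : K) ≠ 0)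
  have hne : t + 243 ≠ 0 := ne_zero_of_ord_pos v hv
  have h27ne : t + 27 ≠ 0 := by
    rw [h27]; exact sub_algebraMap_ne_zero v hv' _
  have h27ord : v.ord (t + 27) = 0 := by
    rw [h27]; exact ord_sub_algebraMap_eq_zero v hv' (by norm_num)
  have hj0 : j ≠ 0 := by
    rintro rfl
    rw [zero_mul] at hjt
    exact mul_ne_zero h27ne (pow_ne_zero 3 hne) hjt.symm
  have hord := congrArg v.ord hjt
  rw [v.ord_mul hj0 (pow_ne_zero 3 ht0), v.ord_mul h27ne (pow_ne_zero 3 hne), ord_pow, ord_pow,
    hordt, h27ord] at hord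
  have hj3 : v.ord j = 3 * v.ord (t + 243) := by push_cast at hord; linarith
  have hdvd := hR2 v (by rw [hj3]; positivity)
  rw [hj3] at hdvd
  exact eq_one_of_mul_dvd hv (by norm_num) hdvd

/-- Over `t = -27` (the elliptic point of order 3 of `X₀(3)`): index dividing `3`. -/
theorem level_three_ord_dvd_three_at_neg27
    (hR2 : ∀ v : Place K F, 0 < v.ord j → v.ord j ∣ 3)
    (v : Place K F) (hv : 0 < v.ord (t + 27)) : v.ord (t + 27) ∣ 3 := by
  have h243 : t + 243 = t - algebraMap K F (-243) := by
    rw [map_neg, map_ofNat]; ring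
  have h27 : t + 27 = t - algebraMap K F (-27) := by
    rw [map_neg, map_ofNat]; ring
  have hv' : 0 < v.ord (t - algebraMap K F (-27)) := by rwa [← h27]
  obtain ⟨ht0, hordt⟩ := ord_eq_zero_of_ord_sub_pos v hv' (by norm_num : (-27 : K) ≠ 0)
  have hne : t + 27 ≠ 0 := ne_zero_of_ord_pos v hv
  have h243ne : t + 243 ≠ 0 := by
    rw [h243]; exact sub_algebraMap_ne_zero v hv' _
  have h243ord : v.ord (t + 243) = 0 := by
    rw [h243]; exact ord_sub_algebraMap_eq_zero v hv' (by norm_num)
  have hj0 : j ≠ 0 := by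
    rintro rfl
    rw [zero_mul] at hjt
    exact mul_ne_zero hne (pow_ne_zero 3 h243ne) hjt.symm
  have hord := congrArg v.ord hjt
  rw [v.ord_mul hj0 (pow_ne_zero 3 ht0), v.ord_mul hne (pow_ne_zero 3 h243ne), ord_pow, ord_pow,
    hordt, h243ord] at hord
  have hj3 : v.ord j = v.ord (t + 27) := by push_cast at hord; linarith
  have hdvd := hR2 v (by rw [hj3]; exact hv)
  rwa [hj3] at hdvd

/-- The companion identity for `j - 1728`. -/
theorem level_three_sub_1728 : (j - 1728) * t ^ 3 = (t ^ 2 - 486 * t - 19683) ^ 2 := by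
  linear_combination hjt

/-- Over a root `c` of `t ^ 2 - 486 t - 19683` (the two points above `j = 1728`): unramified. -/
theorem level_three_ord_eq_one_at_root
    (hR3 : ∀ v : Place K F, 0 < v.ord (j - algebraMap K F 1728) →
      v.ord (j - algebraMap K F 1728) ∣ 2)
    (c : K) (hroot : c ^ 2 - 486 * c - 19683 = 0) (v : Place K F)
    (hv : 0 < v.ord (t - algebraMap K F c)) : v.ord (t - algebraMap K F c) = 1 := by
  have h1728 : j - 1728 = j - algebraMap K F 1728 := by rw [map_ofNat]
  have hc0 : c ≠ 0 := by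
    rintro rfl
    norm_num at hroot
  have hc243 : c ≠ 486 - c := by
    intro h
    have h2 : c = 243 := by linear_combination h / 2
    rw [h2] at hroot
    norm_num at hroot
  obtain ⟨ht0, hordt⟩ := ord_eq_zero_of_ord_sub_pos v hv hc0
  have htc : t - algebraMap K F c ≠ 0 := ne_zero_of_ord_pos v hv
  have htc2 : t - algebraMap K F (486 - c) ≠ 0 := sub_algebraMap_ne_zero v hv _
  have hord2 : v.ord (t - algebraMap K F (486 - c)) = 0 :=
    ord_sub_algebraMap_eq_zero v hv hc243
  have hroot' : algebraMap K F c ^ 2 - 486 * algebraMap K F c - 19683 = 0 := by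
    have h2 := congrArg (algebraMap K F) hroot
    simpa only [map_sub, map_mul, map_pow, map_ofNat, map_zero] using h2
  have key : (j - 1728) * t ^ 3
      = ((t - algebraMap K F c) * (t - algebraMap K F (486 - c))) ^ 2 := by
    rw [map_sub, map_ofNat]
    linear_combination hjt + (2 * (t ^ 2 - 486 * t - 19683)
      - (algebraMap K F c ^ 2 - 486 * algebraMap K F c - 19683)) * hroot'
  have hj0 : j - 1728 ≠ 0 := by
    intro h0
    rw [h0, zero_mul] at key
    exact pow_ne_zero 2 (mul_ne_zero htc htc2) key.symm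
  have hord := congrArg v.ord key
  rw [v.ord_mul hj0 (pow_ne_zero 3 ht0), ord_pow, ord_pow, v.ord_mul htc htc2, hordt, hord2]
    at hord
  have hj2 : v.ord (j - algebraMap K F 1728) = 2 * v.ord (t - algebraMap K F c) := by
    rw [← h1728]; push_cast at hord; linarith
  have hdvd := hR3 v (by rw [hj2]; positivity)
  rw [hj2] at hdvd
  exact eq_one_of_mul_dvd hv (by norm_num) hdvd

/-- **Level 3, generic branch statement.** `F / K(t)` is unramified over every `c ≠ 0, -27`. -/
theorem level_three_ord_eq_one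
    (hR1 : ∀ c : K, c ≠ 0 → c ≠ 1728 → ∀ v : Place K F,
      0 < v.ord (j - algebraMap K F c) → v.ord (j - algebraMap K F c) = 1)
    (hR2 : ∀ v : Place K F, 0 < v.ord j → v.ord j ∣ 3)
    (hR3 : ∀ v : Place K F, 0 < v.ord (j - algebraMap K F 1728) →
      v.ord (j - algebraMap K F 1728) ∣ 2)
    (c : K) (hc0 : c ≠ 0) (hc : c ≠ -27) (v : Place K F)
    (hv : 0 < v.ord (t - algebraMap K F c)) : v.ord (t - algebraMap K F c) = 1 := by
  by_cases h243 : c = -243
  · subst h243
    have h : t - algebraMap K F (-243) = t + 243 := by rw [map_neg, map_ofNat]; ring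
    rw [h] at hv ⊢
    exact level_three_ord_eq_one_at_neg243 j t hjt hR2 v hv
  by_cases hroot : c ^ 2 - 486 * c - 19683 = 0
  · exact level_three_ord_eq_one_at_root j t hjt hR3 c hroot v hv
  -- the generic case: `c` is not a critical point of `t ↦ (t + 27) (t + 243)^3 / t^3`
  obtain ⟨ht0, hordt⟩ := ord_eq_zero_of_ord_sub_pos v hv hc0
  have htc : t - algebraMap K F c ≠ 0 := ne_zero_of_ord_pos v hv
  have hc243 : c + 243 ≠ 0 := fun h => h243 (by linear_combination h)
  have hc27 : c + 27 ≠ 0 := fun h => hc (by linear_combination h)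
  set G : K[X] := C (c ^ 3) * ((X + 243) ^ 3 + C (c + 27) *
      ((X + 243) ^ 2 + (X + 243) * C (c + 243) + C ((c + 243) ^ 2)))
    - C ((c + 27) * (c + 243) ^ 3) * (X ^ 2 + X * C c + C (c ^ 2)) with hG
  have hGc : G.eval c = c ^ 2 * (c + 243) ^ 2 * (c ^ 2 - 486 * c - 19683) := by
    simp only [hG, eval_sub, eval_mul, eval_add, eval_pow, eval_C, eval_X, eval_ofNat]
    ring
  have hGne : G.eval c ≠ 0 := by
    rw [hGc]
    exact mul_ne_zero (mul_ne_zero (pow_ne_zero 2 hc0) (pow_ne_zero 2 hc243)) hroot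
  obtain ⟨hGt, hGord⟩ := aeval_ne_zero_and_ord_eq_zero v hv G hGne
  set c' : K := (c + 27) * (c + 243) ^ 3 / c ^ 3 with hc'
  have hc'0 : c' ≠ 0 :=
    div_ne_zero (mul_ne_zero hc27 (pow_ne_zero 3 hc243)) (pow_ne_zero 3 hc0)
  have hc'1728 : c' ≠ 1728 := by
    intro h
    rw [hc', div_eq_iff (pow_ne_zero 3 hc0)] at h
    have h2 : (c ^ 2 - 486 * c - 19683) ^ 2 = 0 := by linear_combination h
    exact hroot (pow_eq_zero_iff (by norm_num) |>.mp h2)
  have hac : algebraMap K F c' * algebraMap K F c ^ 3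
      = (algebraMap K F c + 27) * (algebraMap K F c + 243) ^ 3 := by
    have h1 : c' * c ^ 3 = (c + 27) * (c + 243) ^ 3 := by
      rw [hc', div_mul_cancel₀ _ (pow_ne_zero 3 hc0)]
    have h2 := congrArg (algebraMap K F) h1
    simpa only [map_mul, map_pow, map_add, map_ofNat] using h2
  have hGt' : aeval t G = algebraMap K F c ^ 3 * ((t + 243) ^ 3 + (algebraMap K F c + 27) *
        ((t + 243) ^ 2 + (t + 243) * (algebraMap K F c + 243) + (algebraMap K F c + 243) ^ 2))
      - (algebraMap K F c + 27) * (algebraMap K F c + 243) ^ 3 *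
        (t ^ 2 + t * algebraMap K F c + algebraMap K F c ^ 2) := by
    simp only [hG, map_sub, map_mul, map_add, map_pow, aeval_C, aeval_X, map_ofNat]
  have key : (j - algebraMap K F c') * (t ^ 3 * algebraMap K F c ^ 3)
      = (t - algebraMap K F c) * aeval t G := by
    rw [hGt']
    linear_combination (algebraMap K F c) ^ 3 * hjt - t ^ 3 * hac
  have hac0 : algebraMap K F c ≠ 0 := (_root_.map_ne_zero _).mpr hc0
  have hj0 : j - algebraMap K F c' ≠ 0 := by
    intro h0
    rw [h0, zero_mul] at key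
    exact mul_ne_zero htc hGt key.symm
  have hord := congrArg v.ord key
  rw [v.ord_mul hj0 (mul_ne_zero (pow_ne_zero 3 ht0) (pow_ne_zero 3 hac0)),
    v.ord_mul (pow_ne_zero 3 ht0) (pow_ne_zero 3 hac0), ord_pow, ord_pow, hordt,
    ord_algebraMap, v.ord_mul htc hGt, hGord] at hord
  have hje : v.ord (j - algebraMap K F c') = v.ord (t - algebraMap K F c) := by
    push_cast at hord; linarith
  rw [← hje]
  exact hR1 c' hc'0 hc'1728 v (by rw [hje]; exact hv)

/-- A zero of `t` is a pole of `j` of three times the order. -/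
theorem level_three_ord_j_of_zero (v : Place K F) (hv : 0 < v.ord t) :
    v.ord j = -(3 * v.ord t) := by
  have ht0 : t ≠ 0 := ne_zero_of_ord_pos v hv
  have hv' : 0 < v.ord (t - algebraMap K F 0) := by rwa [map_zero, sub_zero]
  have h243 : t + 243 = t - algebraMap K F (-243) := by
    rw [map_neg, map_ofNat]; ring
  have h27 : t + 27 = t - algebraMap K F (-27) := by
    rw [map_neg, map_ofNat]; ring
  have h243ne : t + 243 ≠ 0 := by
    rw [h243]; exact sub_algebraMap_ne_zero v hv' _
  have h243ord : v.ord (t + 243) = 0 := by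
    rw [h243]; exact ord_sub_algebraMap_eq_zero v hv' (by norm_num)
  have h27ne : t + 27 ≠ 0 := by
    rw [h27]; exact sub_algebraMap_ne_zero v hv' _
  have h27ord : v.ord (t + 27) = 0 := by
    rw [h27]; exact ord_sub_algebraMap_eq_zero v hv' (by norm_num)
  have hj0 : j ≠ 0 := by
    rintro rfl
    rw [zero_mul] at hjt
    exact mul_ne_zero h27ne (pow_ne_zero 3 h243ne) hjt.symm
  have hord := congrArg v.ord hjt
  rw [v.ord_mul hj0 (pow_ne_zero 3 ht0), v.ord_mul h27ne (pow_ne_zero 3 h243ne), ord_pow,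
    ord_pow, h243ord, h27ord] at hord
  push_cast at hord
  linarith

omit [CharZero K] in
/-- A pole of `t` is a pole of `j` of the same order. -/
theorem level_three_ord_j_of_pole (v : Place K F) (hv : v.ord t < 0) : v.ord j = v.ord t := by
  have ht0 : t ≠ 0 := ne_zero_of_ord_neg v hv
  have h243 : t + 243 = t - algebraMap K F (-243) := by
    rw [map_neg, map_ofNat]; ring
  have h27 : t + 27 = t - algebraMap K F (-27) := by
    rw [map_neg, map_ofNat]; ring
  have h243ord : v.ord (t + 243) = v.ord t := by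
    rw [h243]; exact ord_sub_algebraMap_of_ord_neg v hv _
  have h27ord : v.ord (t + 27) = v.ord t := by
    rw [h27]; exact ord_sub_algebraMap_of_ord_neg v hv _
  have h243ne : t + 243 ≠ 0 := by
    intro h0
    rw [h0, Place.ord_zero] at h243ord
    omega
  have h27ne : t + 27 ≠ 0 := by
    intro h0
    rw [h0, Place.ord_zero] at h27ord
    omega
  have hj0 : j ≠ 0 := by
    rintro rfl
    rw [zero_mul] at hjt
    exact mul_ne_zero h27ne (pow_ne_zero 3 h243ne) hjt.symm
  have hord := congrArg v.ord hjt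
  rw [v.ord_mul hj0 (pow_ne_zero 3 ht0), v.ord_mul h27ne (pow_ne_zero 3 h243ne), ord_pow,
    ord_pow, h243ord, h27ord] at hord
  push_cast at hord
  linarith

/-- A pole of `j` is a zero or a pole of `t`. -/
theorem level_three_ord_t_ne_zero_of_pole_j (v : Place K F) (hv : v.ord j < 0) :
    v.ord t ≠ 0 := by
  intro h0
  have hj0 : j ≠ 0 := ne_zero_of_ord_neg v hv
  have ht0 : t ≠ 0 := by
    have : CharZero F := charZero_of_injective_algebraMap (algebraMap K F).injective
    rintro rfl
    norm_num at hjt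
  have hne : (t + 27) * (t + 243) ^ 3 ≠ 0 := by
    rw [← hjt]
    exact mul_ne_zero hj0 (pow_ne_zero 3 ht0)
  have h27ne : t + 27 ≠ 0 := left_ne_zero_of_mul hne
  have h243ne : t + 243 ≠ 0 := fun h => hne (by rw [h]; ring)
  have h243 : t + 243 = t - algebraMap K F (-243) := by
    rw [map_neg, map_ofNat]; ring
  have h27 : t + 27 = t - algebraMap K F (-27) := by
    rw [map_neg, map_ofNat]; ring
  have hnn243 : 0 ≤ v.ord (t + 243) := by
    rw [h243]; exact ord_sub_algebraMap_nonneg v h0.ge _
  have hnn27 : 0 ≤ v.ord (t + 27) := by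
    rw [h27]; exact ord_sub_algebraMap_nonneg v h0.ge _
  have hord := congrArg v.ord hjt
  rw [v.ord_mul hj0 (pow_ne_zero 3 ht0), v.ord_mul h27ne (pow_ne_zero 3 h243ne), ord_pow,
    ord_pow, h0] at hord
  push_cast at hord
  linarith

end LevelThree

end Generic

/-! ## The modular function field `F_N = modularFunctionFieldBar N` -/

section Modular

open Fermat.Agent.S24 Fermat.Agent.S24.helper24 Fermat.Agent.S18.helper8185

variable (N : ℕ) [NeZero N]

/-! ### Level-2 Hauptmodul line -/

/-- (T2) If `t : F_N` satisfies `j * t ^ 2 = (t + 256) ^ 3` (the Hauptmodul of `X₀(2)`), then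
`F_N / ℚ̄(t)` is unramified over every `c ≠ 0, -64`. -/
theorem t2_ord_sub_eq_one (t : FN N) (ht : jBar N * t ^ 2 = (t + 256) ^ 3)
    (c : Kbar) (hc0 : c ≠ 0) (hc : c ≠ -64) (v : Place Kbar (FN N))
    (hv : 0 < v.ord (t - algebraMap Kbar (FN N) c)) :
    v.ord (t - algebraMap Kbar (FN N) c) = 1 :=
  level_two_ord_eq_one (jBar N) t ht (fun c h0 h1 v hv => ord_j_sub_eq_one N c h0 h1 v hv)
    (ord_j_dvd_three N) (ord_j_sub_1728_dvd_two N) c hc0 hc v hv

/-- (T2e) Over the elliptic value `t = -64` the ramification indices divide `2`. -/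
theorem t2_ord_add_64_dvd_two (t : FN N) (ht : jBar N * t ^ 2 = (t + 256) ^ 3)
    (v : Place Kbar (FN N)) (hv : 0 < v.ord (t + 64)) : v.ord (t + 64) ∣ 2 :=
  level_two_ord_dvd_two_at_neg64 (jBar N) t ht (ord_j_sub_1728_dvd_two N) v hv

/-- (T2∞) Poles of `t` are poles of `j` of the same order; the order divides `N`. -/
theorem t2_pole_ord_dvd_level (t : FN N) (ht : jBar N * t ^ 2 = (t + 256) ^ 3)
    (v : Place Kbar (FN N)) (hv : v.ord t < 0) : v.ord t ∣ (N : ℤ) := by
  have h := level_two_ord_j_of_pole (K := Kbar) (jBar N) t ht v hv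
  rw [← h]
  exact ord_j_dvd_level N v (by rw [h]; exact hv)

/-- (T2₀) Zeros of `t` are poles of `j` of twice the order; `2 * ord` divides `N`. -/
theorem t2_zero_two_mul_ord_dvd_level (t : FN N) (ht : jBar N * t ^ 2 = (t + 256) ^ 3)
    (v : Place Kbar (FN N)) (hv : 0 < v.ord t) : 2 * v.ord t ∣ (N : ℤ) := by
  have h := level_two_ord_j_of_zero (K := Kbar) (jBar N) t ht v hv
  have h2 := ord_j_dvd_level N v (by rw [h]; linarith)
  rw [h] at h2
  exact (neg_dvd).mp h2

omit [NeZero N] in
/-- (T2c) The places over `t = 0, ∞` are exactly the poles of `j` (the cusps). -/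
theorem t2_ord_ne_zero_iff (t : FN N) (ht : jBar N * t ^ 2 = (t + 256) ^ 3)
    (v : Place Kbar (FN N)) : v.ord t ≠ 0 ↔ v.ord (jBar N) < 0 := by
  constructor
  · intro h
    rcases lt_or_gt_of_ne h with h1 | h1
    · rw [level_two_ord_j_of_pole (K := Kbar) (jBar N) t ht v h1]; exact h1
    · rw [level_two_ord_j_of_zero (K := Kbar) (jBar N) t ht v h1]; linarith
  · exact level_two_ord_t_ne_zero_of_pole_j (K := Kbar) (jBar N) t ht v

/-! ### Level-3 Hauptmodul line -/

/-- (T3) If `t : F_N` satisfies `j * t ^ 3 = (t + 27) * (t + 243) ^ 3` (the Hauptmodul of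
`X₀(3)`), then `F_N / ℚ̄(t)` is unramified over every `c ≠ 0, -27`. -/
theorem t3_ord_sub_eq_one (t : FN N) (ht : jBar N * t ^ 3 = (t + 27) * (t + 243) ^ 3)
    (c : Kbar) (hc0 : c ≠ 0) (hc : c ≠ -27) (v : Place Kbar (FN N))
    (hv : 0 < v.ord (t - algebraMap Kbar (FN N) c)) :
    v.ord (t - algebraMap Kbar (FN N) c) = 1 :=
  level_three_ord_eq_one (jBar N) t ht (fun c h0 h1 v hv => ord_j_sub_eq_one N c h0 h1 v hv)
    (ord_j_dvd_three N) (ord_j_sub_1728_dvd_two N) c hc0 hc v hv

/-- (T3e) Over the elliptic value `t = -27` the ramification indices divide `3`. -/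
theorem t3_ord_add_27_dvd_three (t : FN N) (ht : jBar N * t ^ 3 = (t + 27) * (t + 243) ^ 3)
    (v : Place Kbar (FN N)) (hv : 0 < v.ord (t + 27)) : v.ord (t + 27) ∣ 3 :=
  level_three_ord_dvd_three_at_neg27 (jBar N) t ht (ord_j_dvd_three N) v hv

/-- (T3∞) Poles of `t` are poles of `j` of the same order; the order divides `N`. -/
theorem t3_pole_ord_dvd_level (t : FN N) (ht : jBar N * t ^ 3 = (t + 27) * (t + 243) ^ 3)
    (v : Place Kbar (FN N)) (hv : v.ord t < 0) : v.ord t ∣ (N : ℤ) := by
  have h := level_three_ord_j_of_pole (K := Kbar) (jBar N) t ht v hv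
  rw [← h]
  exact ord_j_dvd_level N v (by rw [h]; exact hv)

/-- (T3₀) Zeros of `t` are poles of `j` of three times the order; `3 * ord` divides `N`. -/
theorem t3_zero_three_mul_ord_dvd_level (t : FN N)
    (ht : jBar N * t ^ 3 = (t + 27) * (t + 243) ^ 3)
    (v : Place Kbar (FN N)) (hv : 0 < v.ord t) : 3 * v.ord t ∣ (N : ℤ) := by
  have h := level_three_ord_j_of_zero (K := Kbar) (jBar N) t ht v hv
  have h2 := ord_j_dvd_level N v (by rw [h]; linarith)
  rw [h] at h2
  exact (neg_dvd).mp h2

omit [NeZero N] in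
/-- (T3c) The places over `t = 0, ∞` are exactly the poles of `j` (the cusps). -/
theorem t3_ord_ne_zero_iff (t : FN N) (ht : jBar N * t ^ 3 = (t + 27) * (t + 243) ^ 3)
    (v : Place Kbar (FN N)) : v.ord t ≠ 0 ↔ v.ord (jBar N) < 0 := by
  constructor
  · intro h
    rcases lt_or_gt_of_ne h with h1 | h1
    · rw [level_three_ord_j_of_pole (K := Kbar) (jBar N) t ht v h1]; exact h1
    · rw [level_three_ord_j_of_zero (K := Kbar) (jBar N) t ht v h1]; linarith
  · exact level_three_ord_t_ne_zero_of_pole_j (K := Kbar) (jBar N) t ht v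

end Modular

end Fermat.Agent.S18.helper5317
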