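import Mathlib

/-!
# S18: one-shot two-chart Kummer core (helper5343)

Abstract valued-field engine for the Kummer core of S18: `F` a field over `L` with a valuation
ring `O` (the Gauss ring), `ρ : O → κ` the reduction, `k = ρ(O ∩ L)` the constants.

* `exists_ne_zero_mem_inf` : abstract form (subspaces `V₁ V₂ V₁₂ P Q` of `F`, sets
  `Pb' Qb' Rb' Pb Qb` of `κ`).
* `two_chart_kummer` : chart form (`B₀ B₁` subrings of `F`, `b₀ b₁` subrings of `κ`; here `x`
  and `xi` are meant to be inverse to each other, `xi = 1/x`).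

No Newton iteration, no rank-one hypothesis, no uniform torsion bound, one level `n` only.

Proof idea.  If `V₁ ⊓ V₂ = ⊥`, a dimension count on reductions (orthonormal basis of
`V₁ ⊔ V₂`, common nonzero reduction `w⁻¹`) gives an integral `c ∈ V₁ ⊔ V₂` with
`ρ c ∉ red V₁ + red V₂`.  Write `c = a' - b'`, rescale by a constant `d` of small norm:
`a - b = d c`, `ρ a = ρ b = λ w⁻¹`.  Then `a^m u - b^m u = d t` with `ρ t = θ w ρ c`, `θ` a unit
constant, and `t ∈ P + Q` reduces into `red P + red Q` (same dimension count), so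
`w ρ c ∈ (Pb - Qb) ∩ Rb' ⊆ Pb' - Qb' ⊆ w (red V₁ + red V₂)`: contradiction.
-/

set_option autoImplicit false

namespace Fermat.Agent.S18.helper5343

open Module

variable {L F : Type*} [Field L] [Field F] [Algebra L F]
variable (O : ValuationSubring F) {κ : Type*} [Field κ] (ρ : O →+* κ)

/-- An element of the valuation ring `O` which is a constant (lies in the image of `L`). -/
def IsConst (a : O) : Prop := (a : F) ∈ Set.range (algebraMap L F)

section basics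

variable {O} {ρ}

theorem isUnit_of_map_ne_zero (hρ : RingHom.ker ρ = IsLocalRing.maximalIdeal O) {a : O}
    (h : ρ a ≠ 0) : IsUnit a := by
  rw [← IsLocalRing.notMem_maximalIdeal, ← hρ, RingHom.mem_ker]
  exact h

theorem map_ne_zero_of_isUnit {a : O} (h : IsUnit a) : ρ a ≠ 0 :=
  (h.map ρ).ne_zero

theorem map_eq_zero_of_not_isUnit (hρ : RingHom.ker ρ = IsLocalRing.maximalIdeal O) {a : O}
    (h : ¬ IsUnit a) : ρ a = 0 := by
  rw [← RingHom.mem_ker, hρ, IsLocalRing.mem_maximalIdeal]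
  exact h

theorem inv_mem_of_isUnit {a : O} (h : IsUnit a) : ((a : F))⁻¹ ∈ O := by
  obtain ⟨b, hb⟩ := h.exists_right_inv
  have h1 : (a : F) * (b : F) = 1 := by exact_mod_cast congrArg (Subtype.val) hb
  rw [inv_eq_of_mul_eq_one_right h1]; exact b.2

theorem isUnit_of_inv_mem {x : F} (hx : x ∈ O) (hx0 : x ≠ 0) (hxi : x⁻¹ ∈ O) :
    IsUnit (⟨x, hx⟩ : O) := by
  refine IsUnit.of_mul_eq_one (⟨x⁻¹, hxi⟩ : O) ?_
  apply Subtype.ext
  show x * x⁻¹ = 1
  exact mul_inv_cancel₀ hx0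

end basics

section residue

variable (L)

/-- The constant subfield `k = ρ(O ∩ L)` of `κ`. -/
def constField (hρ : RingHom.ker ρ = IsLocalRing.maximalIdeal O) : Subfield κ where
  carrier := {y | ∃ a : O, IsConst (L := L) O a ∧ ρ a = y}
  mul_mem' := by
    rintro _ _ ⟨a, ⟨c, hc⟩, rfl⟩ ⟨b, ⟨d, hd⟩, rfl⟩
    exact ⟨a * b, ⟨c * d, by rw [map_mul, hc, hd]; rfl⟩, map_mul ρ a b⟩
  one_mem' := ⟨1, ⟨1, by rw [map_one]; rfl⟩, map_one ρ⟩
  add_mem' := by
    rintro _ _ ⟨a, ⟨c, hc⟩, rfl⟩ ⟨b, ⟨d, hd⟩, rfl⟩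
    exact ⟨a + b, ⟨c + d, by rw [map_add, hc, hd]; rfl⟩, map_add ρ a b⟩
  zero_mem' := ⟨0, ⟨0, by rw [map_zero]; rfl⟩, map_zero ρ⟩
  neg_mem' := by
    rintro _ ⟨a, ⟨c, hc⟩, rfl⟩
    exact ⟨-a, ⟨-c, by rw [map_neg, hc]; rfl⟩, map_neg ρ a⟩
  inv_mem' := by
    rintro _ ⟨a, ⟨c, hc⟩, rfl⟩
    by_cases h : ρ a = 0
    · rw [h, inv_zero]; exact ⟨0, ⟨0, by rw [map_zero]; rfl⟩, map_zero ρ⟩
    · have hu := isUnit_of_map_ne_zero hρ h
      have hi := inv_mem_of_isUnit hu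
      have ha0 : (a : F) ≠ 0 := by
        intro h0
        apply h
        have : a = 0 := Subtype.ext h0
        rw [this, map_zero]
      refine ⟨⟨(a : F)⁻¹, hi⟩, ⟨c⁻¹, by rw [map_inv₀, hc]⟩, ?_⟩
      have h1 : ρ ⟨(a : F)⁻¹, hi⟩ * ρ a = 1 := by
        rw [← map_mul]
        have : (⟨(a : F)⁻¹, hi⟩ : O) * a = 1 := Subtype.ext (inv_mul_cancel₀ ha0)
        rw [this, map_one]
      exact eq_inv_of_mul_eq_one_left h1

/-- The reduction of (the unit ball of) an `L`-subspace of `F`, a `k`-subspace of `κ`. -/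
def red (hρ : RingHom.ker ρ = IsLocalRing.maximalIdeal O) (V : Submodule L F) :
    Submodule (constField L O ρ hρ) κ where
  carrier := {y | ∃ a : O, (a : F) ∈ V ∧ ρ a = y}
  add_mem' := by
    rintro _ _ ⟨a, ha, rfl⟩ ⟨b, hb, rfl⟩
    exact ⟨a + b, V.add_mem ha hb, map_add ρ a b⟩
  zero_mem' := ⟨0, V.zero_mem, map_zero ρ⟩
  smul_mem' := by
    rintro ⟨_, a, ⟨c, hc⟩, rfl⟩ _ ⟨b, hb, rfl⟩
    refine ⟨a * b, ?_, ?_⟩
    · show (a : F) * (b : F) ∈ V
      rw [← hc, ← Algebra.smul_def]; exact V.smul_mem c hb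
    · rw [map_mul]; rfl

variable {L}

theorem mem_red {hρ : RingHom.ker ρ = IsLocalRing.maximalIdeal O} {V : Submodule L F} {y : κ} :
    y ∈ red L O ρ hρ V ↔ ∃ a : O, (a : F) ∈ V ∧ ρ a = y := Iff.rfl

theorem red_mono (hρ : RingHom.ker ρ = IsLocalRing.maximalIdeal O) {V W : Submodule L F}
    (h : V ≤ W) : red L O ρ hρ V ≤ red L O ρ hρ W := by
  rintro _ ⟨a, ha, rfl⟩
  exact ⟨a, h ha, rfl⟩

theorem exists_argmax {ι : Type*} [Fintype ι] (g : ι → L) (i₁ : ι) (h1 : g i₁ ≠ 0) :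
    ∃ i₀, g i₀ ≠ 0 ∧ ∀ i, algebraMap L F (g i / g i₀) ∈ O := by
  obtain ⟨i₀, -, hmax⟩ := Finset.exists_max_image Finset.univ
    (fun i => O.valuation (algebraMap L F (g i))) ⟨i₁, Finset.mem_univ _⟩
  have h0 : g i₀ ≠ 0 := by
    intro h
    have h3 := hmax i₁ (Finset.mem_univ _)
    simp only [h, map_zero] at h3
    have h2 : O.valuation (algebraMap L F (g i₁)) ≠ 0 := by
      rw [Valuation.ne_zero_iff]
      exact (map_ne_zero (algebraMap L F)).mpr h1
    exact h2 (le_antisymm h3 zero_le)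
  refine ⟨i₀, h0, fun i => ?_⟩
  rw [← ValuationSubring.valuation_le_one_iff, map_div₀, map_div₀]
  have hpos : 0 < O.valuation (algebraMap L F (g i₀)) := by
    rw [zero_lt_iff, Valuation.ne_zero_iff]
    exact (map_ne_zero (algebraMap L F)).mpr h0
  exact (div_le_one₀ hpos).mpr (hmax i (Finset.mem_univ _))

/-- Independent reductions lift to independent vectors: `dim_k red V ≤ dim_L V`. -/
theorem card_le_finrank_of_linearIndependent (hρ : RingHom.ker ρ = IsLocalRing.maximalIdeal O)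
    (V : Submodule L F) [FiniteDimensional L V] {ι : Type*} [Fintype ι] (y : ι → κ)
    (hy : ∀ i, y i ∈ red L O ρ hρ V) (hli : LinearIndependent (constField L O ρ hρ) y) :
    Fintype.card ι ≤ finrank L V := by
  classical
  choose a haV hay using hy
  have hLI : LinearIndependent L (fun i => (⟨(a i : F), haV i⟩ : V)) := by
    rw [Fintype.linearIndependent_iff]
    intro g hg
    by_contra hne
    push Not at hne
    obtain ⟨i₁, hi₁⟩ := hne
    obtain ⟨i₀, hi₀, hO⟩ := exists_argmax O g i₁ hi₁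
    have hF : ∑ i, algebraMap L F (g i) * (a i : F) = 0 := by
      have h := congrArg (Subtype.val) hg
      simpa [Algebra.smul_def] using h
    have hF' : ∑ i, algebraMap L F (g i / g i₀) * (a i : F) = 0 := by
      have h : ∑ i, algebraMap L F (g i / g i₀) * (a i : F) =
          algebraMap L F (g i₀)⁻¹ * ∑ i, algebraMap L F (g i) * (a i : F) := by
        rw [Finset.mul_sum]
        refine Finset.sum_congr rfl fun i _ => ?_
        rw [div_eq_mul_inv, map_mul]; ring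
      rw [h, hF, mul_zero]
    have hO' : ∑ i, (⟨algebraMap L F (g i / g i₀), hO i⟩ : O) * a i = 0 := by
      apply Subtype.ext
      rw [AddSubmonoidClass.coe_finsetSum]
      exact hF'
    have hκ : ∑ i, ρ ⟨algebraMap L F (g i / g i₀), hO i⟩ * y i = 0 := by
      have h := congrArg ρ hO'
      rw [map_sum, map_zero] at h
      rw [← h]
      refine Finset.sum_congr rfl fun i _ => ?_
      rw [map_mul, hay]
    have hk := Fintype.linearIndependent_iff.mp hli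
      (fun i => (⟨ρ ⟨algebraMap L F (g i / g i₀), hO i⟩, ⟨_, ⟨_, rfl⟩, rfl⟩⟩ :
        constField L O ρ hρ)) hκ i₀
    have h1 : ρ ⟨algebraMap L F (g i₀ / g i₀), hO i₀⟩ = 1 := by
      have h1' : (⟨algebraMap L F (g i₀ / g i₀), hO i₀⟩ : O) = 1 := by
        apply Subtype.ext
        show algebraMap L F (g i₀ / g i₀) = 1
        rw [div_self hi₀, map_one]
      rw [h1', map_one]
    have h0 := congrArg Subtype.val hk
    exact one_ne_zero (h1.symm.trans h0)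
  simpa using hLI.fintype_card_le_finrank

theorem finiteDimensional_red (hρ : RingHom.ker ρ = IsLocalRing.maximalIdeal O)
    (V : Submodule L F) [FiniteDimensional L V] :
    FiniteDimensional (constField L O ρ hρ) (red L O ρ hρ V) := by
  classical
  have hr : Module.rank (constField L O ρ hρ) (red L O ρ hρ V) ≤ (finrank L V : ℕ) := by
    apply rank_le
    intro s hs
    have h := card_le_finrank_of_linearIndependent O ρ hρ V
      (fun i : s => ((i : red L O ρ hρ V) : κ)) (fun i => (i : red L O ρ hρ V).2)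
      (hs.map' (red L O ρ hρ V).subtype (Submodule.ker_subtype _))
    simpa using h
  exact Module.rank_lt_aleph0_iff.mp (lt_of_le_of_lt hr Cardinal.natCast_lt_aleph0)

theorem finrank_red_le (hρ : RingHom.ker ρ = IsLocalRing.maximalIdeal O)
    (V : Submodule L F) [FiniteDimensional L V] :
    finrank (constField L O ρ hρ) (red L O ρ hρ V) ≤ finrank L V := by
  classical
  have := finiteDimensional_red O ρ hρ V
  let b := Module.finBasis (constField L O ρ hρ) (red L O ρ hρ V)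
  have h := card_le_finrank_of_linearIndependent O ρ hρ V
    (fun i => ((b i : red L O ρ hρ V) : κ)) (fun i => (b i).2)
    (b.linearIndependent.map' (red L O ρ hρ V).subtype (Submodule.ker_subtype _))
  simpa using h

/-- `b` is an orthonormal basis of the `L`-subspace `V` of `F` with respect to the valuation
ring `O`: a linear combination is integral iff all its coefficients are. -/
structure IsONBasis (V : Submodule L F) {n : ℕ} (b : Fin n → F) : Prop where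
  mem : ∀ i, b i ∈ V
  span_le : V ≤ Submodule.span L (Set.range b)
  li : LinearIndependent L b
  on : ∀ c : Fin n → L, (∑ i, c i • b i) ∈ O ↔ ∀ i, algebraMap L F (c i) ∈ O

/-- The value group of `F` is that of `L`: every nonzero element is a constant times a unit. -/
def HasConstValues : Prop :=
  ∀ f : F, f ≠ 0 → ∃ d : L, d ≠ 0 ∧ algebraMap L F d * f ∈ O ∧ (algebraMap L F d * f)⁻¹ ∈ O

variable {O} in
theorem IsONBasis.mem_O {V : Submodule L F} {n : ℕ} {b : Fin n → F} (hb : IsONBasis O V b)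
    (i : Fin n) : b i ∈ O := by
  classical
  have h := (hb.on (fun j => if j = i then 1 else 0)).mpr (fun j => by
    by_cases hj : j = i
    · simp [hj, O.one_mem]
    · simp [hj, O.zero_mem])
  simpa using h

/-- Orthonormal bases reduce to independent families: `dim_L V ≤ dim_k red V`. -/
theorem finrank_le_finrank_red (hρ : RingHom.ker ρ = IsLocalRing.maximalIdeal O)
    (hval : HasConstValues (L := L) O)
    (V : Submodule L F) [FiniteDimensional L V] {n : ℕ} (b : Fin n → F) (hb : IsONBasis O V b) :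
    finrank L V ≤ finrank (constField L O ρ hρ) (red L O ρ hρ V) := by
  classical
  have := finiteDimensional_red O ρ hρ V
  have h1 : finrank L V ≤ n := by
    have : FiniteDimensional L (Submodule.span L (Set.range b)) :=
      FiniteDimensional.span_of_finite L (Set.finite_range b)
    have h2 : finrank L V ≤ finrank L (Submodule.span L (Set.range b)) :=
      Submodule.finrank_mono hb.span_le
    have h3 : finrank L (Submodule.span L (Set.range b)) ≤ n := by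
      have h4 : Set.finrank L (Set.range b) ≤ Fintype.card (Fin n) := finrank_range_le_card b
      rw [Fintype.card_fin] at h4
      exact h4
    exact h2.trans h3
  refine h1.trans ?_
  -- the reductions of the `b i` are independent
  have hmem : ∀ i, ρ ⟨b i, hb.mem_O i⟩ ∈ red L O ρ hρ V := fun i => ⟨_, hb.mem i, rfl⟩
  have hLI : LinearIndependent (constField L O ρ hρ)
      (fun i => (⟨ρ ⟨b i, hb.mem_O i⟩, hmem i⟩ : red L O ρ hρ V)) := by
    rw [Fintype.linearIndependent_iff]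
    intro g hg i₀
    by_contra hne
    -- lift the coefficients
    have hg' : ∀ i, ∃ a : O, IsConst (L := L) O a ∧ ρ a = (g i : κ) := fun i => (g i).2
    choose α hα hαg using hg'
    choose c hc using hα
    have hκ : ∑ i, ρ (α i) * ρ ⟨b i, hb.mem_O i⟩ = 0 := by
      have h := congrArg Subtype.val hg
      rw [Submodule.coe_sum, Submodule.coe_zero] at h
      rw [← h]
      refine Finset.sum_congr rfl fun i _ => ?_
      rw [hαg]; rfl
    set y : O := ∑ i, α i * ⟨b i, hb.mem_O i⟩ with hy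
    have hy0 : ρ y = 0 := by
      rw [hy, map_sum, ← hκ]
      exact Finset.sum_congr rfl fun i _ => map_mul ρ _ _
    have hyF : (y : F) = ∑ i, c i • b i := by
      rw [hy, AddSubmonoidClass.coe_finsetSum]
      refine Finset.sum_congr rfl fun i _ => ?_
      show (α i : F) * b i = c i • b i
      rw [← hc i, Algebra.smul_def]
    have hα0 : ρ (α i₀) ≠ 0 := by
      rw [hαg]
      intro h
      exact hne (Subtype.ext h)
    have hu := isUnit_of_map_ne_zero hρ hα0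
    have hc0 : c i₀ ≠ 0 := by
      intro h
      apply hα0
      have : α i₀ = 0 := by
        apply Subtype.ext
        rw [← hc i₀, h, map_zero]; rfl
      rw [this, map_zero]
    have hyne : (y : F) ≠ 0 := by
      intro h
      rw [hyF] at h
      exact hc0 (Fintype.linearIndependent_iff.mp hb.li c h i₀)
    obtain ⟨d, hd0, hd, hdi⟩ := hval (y : F) hyne
    -- `d * c i₀ ∈ A`
    have h5 : (∑ i, (d * c i) • b i) ∈ O := by
      have : ∑ i, (d * c i) • b i = algebraMap L F d * (y : F) := by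
        rw [hyF, Finset.mul_sum]
        refine Finset.sum_congr rfl fun i _ => ?_
        rw [mul_smul, Algebra.smul_def (d : L)]
      rw [this]; exact hd
    have h6 := (hb.on (fun i => d * c i)).mp h5 i₀
    have h7 : algebraMap L F d ∈ O := by
      have hinv := inv_mem_of_isUnit hu
      have : algebraMap L F d = algebraMap L F (d * c i₀) * ((α i₀ : F))⁻¹ := by
        rw [← hc i₀, map_mul, mul_assoc, mul_inv_cancel₀ ((map_ne_zero _).mpr hc0), mul_one]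
      rw [this]; exact O.mul_mem _ _ h6 hinv
    -- then `d * y` is not a unit
    have h8 : ρ (⟨algebraMap L F d, h7⟩ * y) = 0 := by rw [map_mul, hy0, mul_zero]
    have h9 : IsUnit (⟨algebraMap L F d, h7⟩ * y : O) := by
      have h10 : (⟨algebraMap L F d, h7⟩ * y : O) = ⟨algebraMap L F d * (y : F), hd⟩ := rfl
      rw [h10]
      exact isUnit_of_inv_mem hd
        (mul_ne_zero ((map_ne_zero _).mpr hd0) hyne) hdi
    exact map_ne_zero_of_isUnit h9 h8
  simpa using hLI.fintype_card_le_finrank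

end residue

section consts

variable {O}

theorem IsConst.mul {a b : O} (ha : IsConst (L := L) O a) (hb : IsConst (L := L) O b) :
    IsConst (L := L) O (a * b) := by
  obtain ⟨c, hc⟩ := ha
  obtain ⟨d, hd⟩ := hb
  exact ⟨c * d, by rw [map_mul, hc, hd]; rfl⟩

theorem IsConst.pow {a : O} (ha : IsConst (L := L) O a) (n : ℕ) :
    IsConst (L := L) O (a ^ n) := by
  obtain ⟨c, hc⟩ := ha
  exact ⟨c ^ n, by rw [map_pow, hc]; rfl⟩

theorem isConst_natCast (n : ℕ) : IsConst (L := L) O (n : O) :=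
  ⟨(n : L), by rw [map_natCast]; rfl⟩

theorem IsConst.of_mul_eq_one {a b : O} (ha : IsConst (L := L) O a) (hab : b * a = 1) :
    IsConst (L := L) O b := by
  obtain ⟨c, hc⟩ := ha
  have h1 : (b : F) * (a : F) = 1 := congrArg Subtype.val hab
  refine ⟨c⁻¹, ?_⟩
  rw [map_inv₀, hc]
  exact (eq_inv_of_mul_eq_one_left h1).symm

theorem IsConst.smul_mem {a : O} (ha : IsConst (L := L) O a) {V : Submodule L F} {x : F}
    (hx : x ∈ V) : (a : F) * x ∈ V := by
  obtain ⟨c, hc⟩ := ha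
  rw [← hc, ← Algebra.smul_def]
  exact V.smul_mem c hx

end consts

section main

variable {O} {ρ}

/-- **One-shot two-chart Kummer core, abstract form.**  `V₁, V₂ ≤ V₁₂` and `P, Q` are
finite-dimensional `L`-subspaces of the valued field `F` (think `L(D₀ + nX_∞)`, `L(D₀ + nX₀)`,
`L(D₀ + nX_∞ + nX₀)`, `L(mnX_∞)`, `L(mnX₀)`), `Pb' Qb' Rb' Pb Qb` are sets in the residue
field (think `L_k(nX̄_∞)`, `L_k(nX̄₀)`, `L_k(nX̄_∞ + nX̄₀)`, `L_k(mnX̄_∞)`, `L_k(mnX̄₀)`), and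
`ρ u = ρ c₀ * w ^ m` with `c₀` a constant unit.  Then `V₁ ⊓ V₂ ≠ ⊥`. -/
theorem exists_ne_zero_mem_inf
    (hρ : RingHom.ker ρ = IsLocalRing.maximalIdeal O)
    (hval : HasConstValues (L := L) O)
    (m : ℕ) (hm : ρ (m : O) ≠ 0)
    (u : O) (w : κ) (hw : w ≠ 0) (c₀ : O) (hc₀ : IsConst (L := L) O c₀) (hc₀' : ρ c₀ ≠ 0)
    (hu : ρ u = ρ c₀ * w ^ m)
    (V₁ V₂ V₁₂ P Q : Submodule L F)
    [FiniteDimensional L V₁] [FiniteDimensional L V₂] [FiniteDimensional L P]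
    [FiniteDimensional L Q]
    (h1 : V₁ ≤ V₁₂) (h2 : V₂ ≤ V₁₂)
    (hP : ∀ a ∈ V₁, a ^ m * (u : F) ∈ P) (hQ : ∀ b ∈ V₂, b ^ m * (u : F) ∈ Q)
    (hP1 : (1 : F) ∈ P) (hQ1 : (1 : F) ∈ Q)
    (hcW : ∃ (n : ℕ) (b : Fin n → F), IsONBasis O (V₁ ⊔ V₂) b)
    (hcP : ∃ (n : ℕ) (b : Fin n → F), IsONBasis O P b)
    (hcQ : ∃ (n : ℕ) (b : Fin n → F), IsONBasis O Q b)
    (Pb' Qb' Rb' Pb Qb : Set κ)
    (hT1 : ∀ a : O, (a : F) ∈ V₁ → w * ρ a ∈ Pb')
    (hT2 : ∀ b : O, (b : F) ∈ V₂ → w * ρ b ∈ Qb')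
    (hT12 : ∀ c : O, (c : F) ∈ V₁₂ → w * ρ c ∈ Rb')
    (hTP : ∀ p : O, (p : F) ∈ P → ρ p ∈ Pb)
    (hTQ : ∀ q : O, (q : F) ∈ Q → ρ q ∈ Qb)
    (hS5' : ∀ y ∈ Pb', y ∈ Qb' → ∃ a : O, IsConst (L := L) O a ∧ ρ a = y)
    (hS5 : ∀ y ∈ Pb, y ∈ Qb → ∃ a : O, IsConst (L := L) O a ∧ ρ a = y)
    (hS4 : ∀ x ∈ Pb, ∀ y ∈ Qb, x - y ∈ Rb' → ∃ x' ∈ Pb', ∃ y' ∈ Qb', x - y = x' - y')
    (hL1 : ∀ y ∈ Pb', ∃ a : O, (a : F) ∈ V₁ ∧ w * ρ a = y)
    (hL2 : ∀ y ∈ Qb', ∃ b : O, (b : F) ∈ V₂ ∧ w * ρ b = y)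
    (h1P : (1 : κ) ∈ Pb') (h1Q : (1 : κ) ∈ Qb') :
    V₁ ⊓ V₂ ≠ ⊥ := by
  classical
  intro hbot
  have fd1 := finiteDimensional_red O ρ hρ V₁
  have fd2 := finiteDimensional_red O ρ hρ V₂
  have fdP := finiteDimensional_red O ρ hρ P
  have fdQ := finiteDimensional_red O ρ hρ Q
  -- Step 1: an integral element of `V₁ + V₂` whose reduction is not in `red V₁ + red V₂`.
  obtain ⟨c, hcW', hcnot⟩ : ∃ c : O, (c : F) ∈ V₁ ⊔ V₂ ∧
      ρ c ∉ red L O ρ hρ V₁ ⊔ red L O ρ hρ V₂ := by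
    by_contra hcon
    push Not at hcon
    have hle : red L O ρ hρ (V₁ ⊔ V₂) ≤ red L O ρ hρ V₁ ⊔ red L O ρ hρ V₂ := by
      rintro _ ⟨c, hc, rfl⟩
      exact hcon c hc
    obtain ⟨n, b, hb⟩ := hcW
    have hA := finrank_le_finrank_red O ρ hρ hval (V₁ ⊔ V₂) b hb
    have hB := Submodule.finrank_mono hle
    have hC := Submodule.finrank_sup_add_finrank_inf_eq (red L O ρ hρ V₁) (red L O ρ hρ V₂)
    have hD := Submodule.finrank_sup_add_finrank_inf_eq V₁ V₂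
    rw [hbot, finrank_bot, add_zero] at hD
    have hE1 := finrank_red_le O ρ hρ V₁
    have hE2 := finrank_red_le O ρ hρ V₂
    obtain ⟨a0, ha0, ha0w⟩ := hL1 1 h1P
    obtain ⟨b0, hb0, hb0w⟩ := hL2 1 h1Q
    have hinf : 0 < finrank (constField L O ρ hρ)
        ↥(red L O ρ hρ V₁ ⊓ red L O ρ hρ V₂) := by
      rw [Module.finrank_pos_iff_exists_ne_zero]
      refine ⟨⟨ρ a0, ⟨a0, ha0, rfl⟩, ⟨b0, hb0, ?_⟩⟩, ?_⟩
      · exact mul_left_cancel₀ hw (hb0w.trans ha0w.symm)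
      · intro h
        have h0 : ρ a0 = 0 := congrArg Subtype.val h
        rw [h0, mul_zero] at ha0w
        exact zero_ne_one ha0w
    omega
  -- Step 2: scale the decomposition of `c`.
  obtain ⟨a', ha', b'', hb'', hab⟩ := Submodule.mem_sup.mp hcW'
  have ha'O : a' ∉ O := by
    intro haO
    have hbO : b'' ∈ O := by
      have h3 : b'' = (c : F) - a' := by rw [← hab]; ring
      rw [h3]; exact sub_mem c.2 haO
    apply hcnot
    have h3 : ρ c = ρ ⟨a', haO⟩ + ρ ⟨b'', hbO⟩ := by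
      rw [← map_add]; congr 1; exact Subtype.ext hab.symm
    rw [h3]
    exact Submodule.add_mem_sup ⟨_, ha', rfl⟩ ⟨_, hb'', rfl⟩
  have ha'0 : a' ≠ 0 := fun h => ha'O (h ▸ O.zero_mem)
  obtain ⟨d, hd0, hdO, hdi⟩ := hval a' ha'0
  have hdF : algebraMap L F d ≠ 0 := (map_ne_zero _).mpr hd0
  have ha'inv : a'⁻¹ ∈ O := (O.mem_or_inv_mem a').resolve_left ha'O
  have hdmem : algebraMap L F d ∈ O := by
    have h3 : algebraMap L F d = (algebraMap L F d * a') * a'⁻¹ := by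
      rw [mul_assoc, mul_inv_cancel₀ ha'0, mul_one]
    rw [h3]; exact O.mul_mem _ _ hdO ha'inv
  have hdρ : ρ ⟨algebraMap L F d, hdmem⟩ = 0 := by
    apply map_eq_zero_of_not_isUnit hρ
    intro hunit
    have hinv := inv_mem_of_isUnit hunit
    apply ha'O
    have h3 : a' = (algebraMap L F d * a') * (algebraMap L F d)⁻¹ := by
      rw [mul_comm (algebraMap L F d) a', mul_assoc, mul_inv_cancel₀ hdF, mul_one]
    rw [h3]; exact O.mul_mem _ _ hdO hinv
  have haV : algebraMap L F d * a' ∈ V₁ := by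
    rw [← Algebra.smul_def]; exact V₁.smul_mem d ha'
  have hbmem : -(algebraMap L F d * b'') ∈ O := by
    have h3 : -(algebraMap L F d * b'') = algebraMap L F d * a' - algebraMap L F d * (c : F) := by
      rw [← hab]; ring
    rw [h3]; exact sub_mem hdO (O.mul_mem _ _ hdmem c.2)
  have hbV : -(algebraMap L F d * b'') ∈ V₂ := by
    rw [← Algebra.smul_def]; exact V₂.neg_mem (V₂.smul_mem d hb'')
  obtain ⟨a, haF⟩ : ∃ a : O, (a : F) = algebraMap L F d * a' := ⟨⟨_, hdO⟩, rfl⟩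
  obtain ⟨bn, hbnF⟩ : ∃ bn : O, (bn : F) = -(algebraMap L F d * b'') := ⟨⟨_, hbmem⟩, rfl⟩
  obtain ⟨dO, hdOF, hdOρ⟩ : ∃ dO : O, (dO : F) = algebraMap L F d ∧ ρ dO = 0 :=
    ⟨⟨_, hdmem⟩, rfl, hdρ⟩
  rw [← haF] at haV
  rw [← hbnF] at hbV
  have hsub : a - bn = dO * c := by
    apply Subtype.ext
    show (a : F) - (bn : F) = (dO : F) * (c : F)
    rw [haF, hbnF, hdOF, ← hab]; ring
  have hρab : ρ a = ρ bn := by
    have h3 : ρ (a - bn) = 0 := by rw [hsub, map_mul, hdOρ, zero_mul]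
    rw [map_sub, sub_eq_zero] at h3; exact h3
  have haunit : IsUnit a := by
    have h3 : a = ⟨algebraMap L F d * a', hdO⟩ := Subtype.ext haF
    rw [h3]
    exact isUnit_of_inv_mem hdO (mul_ne_zero hdF ha'0) hdi
  have hρa : ρ a ≠ 0 := map_ne_zero_of_isUnit haunit
  -- Step 3: the common reduction is a constant multiple of `w⁻¹`.
  obtain ⟨lam, hlam, hlamρ⟩ := hS5' (w * ρ a) (hT1 a haV) (by rw [hρab]; exact hT2 bn hbV)
  have hlam0 : ρ lam ≠ 0 := by rw [hlamρ]; exact mul_ne_zero hw hρa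
  have hρa' : ρ a = ρ lam * w⁻¹ := by rw [hlamρ]; field_simp
  -- Step 4: first-order expansion of `a ^ m * u - bn ^ m * u`.
  have hm1 : 1 ≤ m := by
    rcases Nat.eq_zero_or_pos m with h | h
    · exfalso; apply hm; rw [h]; simp
    · exact h
  obtain ⟨S, hS⟩ : ∃ S : O, S = ∑ i ∈ Finset.range m, a ^ i * bn ^ (m - 1 - i) := ⟨_, rfl⟩
  have hgeom : S * (a - bn) = a ^ m - bn ^ m := by rw [hS]; exact geom_sum₂_mul a bn m
  obtain ⟨t, ht⟩ : ∃ t : O, t = c * S * u := ⟨_, rfl⟩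
  have hpq : a ^ m * u - bn ^ m * u = dO * t := by
    rw [ht, ← sub_mul, ← hgeom, hsub]; ring
  have hρS : ρ S = (m : κ) * ρ a ^ (m - 1) := by
    rw [hS, map_sum]
    have h3 : ∀ i ∈ Finset.range m, ρ (a ^ i * bn ^ (m - 1 - i)) = ρ a ^ (m - 1) := by
      intro i hi
      rw [map_mul, map_pow, map_pow, ← hρab, ← pow_add]
      congr 1
      have := Finset.mem_range.mp hi
      omega
    rw [Finset.sum_congr rfl h3, Finset.sum_const, Finset.card_range, nsmul_eq_mul]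
  have hρm : ρ (m : O) = (m : κ) := map_natCast ρ m
  obtain ⟨θ, hθ⟩ : ∃ θ : O, θ = (m : O) * c₀ * lam ^ (m - 1) := ⟨_, rfl⟩
  have hθconst : IsConst (L := L) O θ := by
    rw [hθ]; exact ((isConst_natCast m).mul hc₀).mul (hlam.pow _)
  have hθ0 : ρ θ ≠ 0 := by
    rw [hθ, map_mul, map_mul, map_pow]
    exact mul_ne_zero (mul_ne_zero hm hc₀') (pow_ne_zero _ hlam0)
  have hρt : ρ t = ρ θ * (w * ρ c) := by
    have h3 : w ^ m = w ^ (m - 1) * w := by
      rw [← pow_succ]; congr 1; omega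
    rw [ht, hθ, map_mul, map_mul, map_mul, map_mul, map_pow, hρS, hu, hρm, hρa', mul_pow, h3,
      inv_pow]
    field_simp
  -- Step 5: `t ∈ P + Q`, and reductions of `P + Q` split.
  have htPQ : (t : F) ∈ P ⊔ Q := by
    have hp : (a : F) ^ m * (u : F) ∈ P := hP _ haV
    have hq : (bn : F) ^ m * (u : F) ∈ Q := hQ _ hbV
    have h4 : (a : F) ^ m * (u : F) - (bn : F) ^ m * (u : F) = algebraMap L F d * (t : F) := by
      have h5 := congrArg Subtype.val hpq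
      rw [← hdOF]; exact h5
    have h3 : (t : F) = d⁻¹ • ((a : F) ^ m * (u : F) - (bn : F) ^ m * (u : F)) := by
      rw [Algebra.smul_def, map_inv₀, h4, ← mul_assoc, inv_mul_cancel₀ hdF, one_mul]
    rw [h3]
    exact Submodule.smul_mem _ _ (Submodule.sub_mem_sup hp hq)
  have hPQ : red L O ρ hρ (P ⊔ Q) ≤ red L O ρ hρ P ⊔ red L O ρ hρ Q := by
    have hle : red L O ρ hρ P ⊔ red L O ρ hρ Q ≤ red L O ρ hρ (P ⊔ Q) :=
      sup_le (red_mono O ρ hρ le_sup_left) (red_mono O ρ hρ le_sup_right)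
    have fdPQ := finiteDimensional_red O ρ hρ (P ⊔ Q)
    have hfin : finrank (constField L O ρ hρ) ↥(red L O ρ hρ (P ⊔ Q)) ≤
        finrank (constField L O ρ hρ) ↥(red L O ρ hρ P ⊔ red L O ρ hρ Q) := by
      obtain ⟨n₁, b₁, hb₁⟩ := hcP
      obtain ⟨n₂, b₂, hb₂⟩ := hcQ
      have hA1 := finrank_le_finrank_red O ρ hρ hval P b₁ hb₁
      have hA2 := finrank_le_finrank_red O ρ hρ hval Q b₂ hb₂
      have hB := finrank_red_le O ρ hρ (P ⊔ Q)
      have hC := Submodule.finrank_sup_add_finrank_inf_eq (red L O ρ hρ P) (red L O ρ hρ Q)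
      have hD := Submodule.finrank_sup_add_finrank_inf_eq P Q
      have hE : 0 < finrank L ↥(P ⊓ Q) := by
        rw [Module.finrank_pos_iff_exists_ne_zero]
        exact ⟨⟨1, hP1, hQ1⟩, fun h => one_ne_zero (congrArg Subtype.val h)⟩
      have hF : finrank (constField L O ρ hρ) ↥(red L O ρ hρ P ⊓ red L O ρ hρ Q) ≤ 1 := by
        have hsp : red L O ρ hρ P ⊓ red L O ρ hρ Q ≤
            Submodule.span (constField L O ρ hρ) {(1 : κ)} := by
          rintro y ⟨⟨p, hp, rfl⟩, ⟨q, hq, hqp⟩⟩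
          obtain ⟨e, he, heρ⟩ := hS5 (ρ p) (hTP p hp) (by rw [← hqp]; exact hTQ q hq)
          rw [Submodule.mem_span_singleton]
          refine ⟨⟨ρ e, e, he, rfl⟩, ?_⟩
          rw [← heρ]
          show ρ e * 1 = ρ e
          rw [mul_one]
        have h6 := Submodule.finrank_mono hsp
        have h7 := finrank_span_singleton (K := constField L O ρ hρ) (one_ne_zero : (1 : κ) ≠ 0)
        omega
      omega
    exact (Submodule.eq_of_le_of_finrank_le hle hfin).ge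
  obtain ⟨y1, ⟨p', hp', rfl⟩, y2, ⟨q', hq', rfl⟩, hsum⟩ :=
    Submodule.mem_sup.mp (hPQ ⟨t, htPQ, rfl⟩)
  -- Step 6: divide by the constant `θ` and conclude.
  obtain ⟨θi, hθi⟩ := (isUnit_of_map_ne_zero hρ hθ0).exists_left_inv
  have hθiconst : IsConst (L := L) O θi := hθconst.of_mul_eq_one hθi
  have hx : ρ (θi * p') ∈ Pb := hTP _ (hθiconst.smul_mem hp')
  have hy : ρ (θi * (-q')) ∈ Qb := hTQ _ (hθiconst.smul_mem (Q.neg_mem hq'))
  have hxy : ρ (θi * p') - ρ (θi * (-q')) = w * ρ c := by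
    have h3 : ρ θi * ρ θ = 1 := by rw [← map_mul, hθi, map_one]
    rw [map_mul, map_mul, map_neg, mul_neg, sub_neg_eq_add, ← mul_add, hsum, hρt, ← mul_assoc, h3,
      one_mul]
  obtain ⟨x', hx', y', hy', hxy'⟩ := hS4 _ hx _ hy (by
    rw [hxy]; exact hT12 c (sup_le h1 h2 hcW'))
  obtain ⟨a2, ha2, ha2w⟩ := hL1 x' hx'
  obtain ⟨b2, hb2, hb2w⟩ := hL2 y' hy'
  apply hcnot
  have h3 : ρ c = ρ a2 + ρ (-b2) := by
    apply mul_left_cancel₀ hw
    rw [← hxy, hxy', ← ha2w, ← hb2w, map_neg]; ring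
  rw [h3]
  exact Submodule.add_mem_sup ⟨a2, ha2, rfl⟩ ⟨-b2, V₂.neg_mem hb2, rfl⟩

end main

section twoChart

/-- The chart space `{p ∈ B | p * y ^ N ∈ C}`.  With `B = B₀`, `C = B₁` the integral closures
of `L[x]`, `L[1/x]` and `y = 1/x` this is `L(N·X_inf)`; with `B = B₁`, `C = B₀`, `y = x` it is
`L(N·X₀)`. -/
def chart (B C : Subring F) (hB : ∀ c : L, algebraMap L F c ∈ B)
    (hC : ∀ c : L, algebraMap L F c ∈ C) (y : F) (N : ℕ) : Submodule L F where
  carrier := {p | p ∈ B ∧ p * y ^ N ∈ C}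
  add_mem' := by
    rintro p q ⟨hp, hp'⟩ ⟨hq, hq'⟩
    exact ⟨B.add_mem hp hq, by rw [add_mul]; exact C.add_mem hp' hq'⟩
  zero_mem' := ⟨B.zero_mem, by rw [zero_mul]; exact C.zero_mem⟩
  smul_mem' := by
    rintro c p ⟨hp, hp'⟩
    refine ⟨?_, ?_⟩
    · show c • p ∈ B
      rw [Algebra.smul_def]; exact B.mul_mem (hB c) hp
    · show c • p * y ^ N ∈ C
      rw [Algebra.smul_def, mul_assoc]; exact C.mul_mem (hC c) hp'

theorem mem_chart {B C : Subring F} {hB : ∀ c : L, algebraMap L F c ∈ B}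
    {hC : ∀ c : L, algebraMap L F c ∈ C} {y : F} {N : ℕ} {p : F} :
    p ∈ chart B C hB hC y N ↔ p ∈ B ∧ p * y ^ N ∈ C := Iff.rfl

variable {O} {ρ}

/-- **One-shot two-chart Kummer core, chart form.**  `B₀`, `B₁` are subrings of `F` containing
the constants (the integral closures of `L[x]`, `L[1/x]`), `b₀`, `b₁` subrings of the residue
field which are closed under `m`-th roots (the integral closures of `k[x̄]`, `k[1/x̄]`),
integral elements of `B₀`, `B₁` reduce into `b₀`, `b₁`, and `b₀ ∩ b₁` consists of constants.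
`V₁ = L(D₀ + nX_inf)`, `V₂ = L(D₀ + nX₀)`, `V₁₂ = L(D₀ + nX_inf + nX₀)` enter through the
memberships `hV₁ hV₂ hV₁₂` only, and the one deep input is the lifting property `hL1 hL2`. -/
theorem two_chart_kummer
    (hρ : RingHom.ker ρ = IsLocalRing.maximalIdeal O)
    (hval : HasConstValues (L := L) O)
    (hcart : ∀ V : Submodule L F, FiniteDimensional L V →
      ∃ (n : ℕ) (b : Fin n → F), IsONBasis O V b)
    (m : ℕ) (hm : ρ (m : O) ≠ 0)
    (u : O) (w : κ) (hw : w ≠ 0) (c₀ : O) (hc₀ : IsConst (L := L) O c₀) (hc₀' : ρ c₀ ≠ 0)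
    (hu : ρ u = ρ c₀ * w ^ m)
    (B₀ B₁ : Subring F) (hB₀ : ∀ c : L, algebraMap L F c ∈ B₀)
    (hB₁ : ∀ c : L, algebraMap L F c ∈ B₁)
    (x xi : O) (hx₀ : (x : F) ∈ B₀) (hx₁ : (xi : F) ∈ B₁)
    (b₀ b₁ : Subring κ)
    (hroot₀ : ∀ y : κ, y ^ m ∈ b₀ → y ∈ b₀) (hroot₁ : ∀ y : κ, y ^ m ∈ b₁ → y ∈ b₁)
    (htr₀ : ∀ a : O, (a : F) ∈ B₀ → ρ a ∈ b₀) (htr₁ : ∀ a : O, (a : F) ∈ B₁ → ρ a ∈ b₁)
    (hconst : ∀ y ∈ b₀, y ∈ b₁ → ∃ a : O, IsConst (L := L) O a ∧ ρ a = y)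
    (n : ℕ)
    (hfdP : FiniteDimensional L (chart B₀ B₁ hB₀ hB₁ (xi : F) (m * n)))
    (hfdQ : FiniteDimensional L (chart B₁ B₀ hB₁ hB₀ (x : F) (m * n)))
    (V₁ V₂ V₁₂ : Submodule L F) [FiniteDimensional L V₁] [FiniteDimensional L V₂]
    (h1 : V₁ ≤ V₁₂) (h2 : V₂ ≤ V₁₂)
    (hV₁ : ∀ a ∈ V₁, a ^ m * (u : F) ∈ B₀ ∧ (a * (xi : F) ^ n) ^ m * (u : F) ∈ B₁)
    (hV₂ : ∀ b ∈ V₂, b ^ m * (u : F) ∈ B₁ ∧ (b * (x : F) ^ n) ^ m * (u : F) ∈ B₀)
    (hV₁₂ : ∀ c ∈ V₁₂, (c * (xi : F) ^ n) ^ m * (u : F) ∈ B₁ ∧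
      (c * (x : F) ^ n) ^ m * (u : F) ∈ B₀)
    (hL1 : ∀ y : κ, y ∈ b₀ → y * ρ xi ^ n ∈ b₁ → ∃ a : O, (a : F) ∈ V₁ ∧ w * ρ a = y)
    (hL2 : ∀ y : κ, y ∈ b₁ → y * ρ x ^ n ∈ b₀ → ∃ b : O, (b : F) ∈ V₂ ∧ w * ρ b = y) :
    V₁ ⊓ V₂ ≠ ⊥ := by
  classical
  -- the inverse of the constant `c₀`
  obtain ⟨ci, hci⟩ := (isUnit_of_map_ne_zero hρ hc₀').exists_left_inv
  have hciconst : IsConst (L := L) O ci := hc₀.of_mul_eq_one hci
  have hρci : ρ ci * ρ c₀ = 1 := by rw [← map_mul, hci, map_one]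
  have hci₀ : ρ ci ∈ b₀ := htr₀ ci (by obtain ⟨c, hc⟩ := hciconst; rw [← hc]; exact hB₀ c)
  have hci₁ : ρ ci ∈ b₁ := htr₁ ci (by obtain ⟨c, hc⟩ := hciconst; rw [← hc]; exact hB₁ c)
  have hρx₀ : ρ x ∈ b₀ := htr₀ x hx₀
  have hρxi₁ : ρ xi ∈ b₁ := htr₁ xi hx₁
  -- key computation: `(w * ρ a * z) ^ m = ρ ci * ρ ((a * z') ^ m * u)`
  have key : ∀ (a z : O), (w * ρ a * ρ z) ^ m = ρ ci * ρ ((a * z) ^ m * u) := by
    intro a z
    rw [map_mul, map_pow, map_mul, hu, mul_pow, mul_pow, mul_pow]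
    calc w ^ m * ρ a ^ m * ρ z ^ m = (ρ ci * ρ c₀) * (w ^ m * ρ a ^ m * ρ z ^ m) := by
          rw [hρci, one_mul]
      _ = ρ ci * (ρ a ^ m * ρ z ^ m * (ρ c₀ * w ^ m)) := by ring
  have key1 : ∀ a : O, (w * ρ a) ^ m = ρ ci * ρ (a ^ m * u) := by
    intro a
    have h := key a 1
    rw [map_one, mul_one, mul_one] at h
    exact h
  have := hfdP
  have := hfdQ
  refine exists_ne_zero_mem_inf hρ hval m hm u w hw c₀ hc₀ hc₀' hu V₁ V₂ V₁₂
    (chart B₀ B₁ hB₀ hB₁ (xi : F) (m * n)) (chart B₁ B₀ hB₁ hB₀ (x : F) (m * n)) h1 h2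
    ?_ ?_ ?_ ?_ (hcart _ inferInstance) (hcart _ inferInstance) (hcart _ inferInstance)
    {y | y ∈ b₀ ∧ y * ρ xi ^ n ∈ b₁} {y | y ∈ b₁ ∧ y * ρ x ^ n ∈ b₀}
    {y | y * ρ xi ^ n ∈ b₁ ∧ y * ρ x ^ n ∈ b₀}
    {y | y ∈ b₀ ∧ y * ρ xi ^ (m * n) ∈ b₁} {y | y ∈ b₁ ∧ y * ρ x ^ (m * n) ∈ b₀}
    ?_ ?_ ?_ ?_ ?_ ?_ ?_ ?_ ?_ ?_ ?_ ?_
  · -- hP
    intro a ha
    obtain ⟨h3, h4⟩ := hV₁ a ha
    refine ⟨h3, ?_⟩
    have h5 : a ^ m * (u : F) * (xi : F) ^ (m * n) = (a * (xi : F) ^ n) ^ m * (u : F) := by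
      rw [mul_pow, ← pow_mul, mul_comm n m]; ring
    rw [h5]; exact h4
  · -- hQ
    intro b hb
    obtain ⟨h3, h4⟩ := hV₂ b hb
    refine ⟨h3, ?_⟩
    have h5 : b ^ m * (u : F) * (x : F) ^ (m * n) = (b * (x : F) ^ n) ^ m * (u : F) := by
      rw [mul_pow, ← pow_mul, mul_comm n m]; ring
    rw [h5]; exact h4
  · -- 1 ∈ P
    exact ⟨B₀.one_mem, by rw [one_mul]; exact B₁.pow_mem hx₁ _⟩
  · -- 1 ∈ Q
    exact ⟨B₁.one_mem, by rw [one_mul]; exact B₀.pow_mem hx₀ _⟩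
  · -- hT1
    intro a ha
    obtain ⟨h3, h4⟩ := hV₁ (a : F) ha
    refine ⟨hroot₀ _ ?_, hroot₁ _ ?_⟩
    · rw [key1]
      exact b₀.mul_mem hci₀ (htr₀ (a ^ m * u) h3)
    · have h5 := key a (xi ^ n)
      rw [map_pow] at h5
      rw [h5]
      exact b₁.mul_mem hci₁ (htr₁ ((a * xi ^ n) ^ m * u) h4)
  · -- hT2
    intro b hb
    obtain ⟨h3, h4⟩ := hV₂ (b : F) hb
    refine ⟨hroot₁ _ ?_, hroot₀ _ ?_⟩
    · rw [key1]
      exact b₁.mul_mem hci₁ (htr₁ (b ^ m * u) h3)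
    · have h5 := key b (x ^ n)
      rw [map_pow] at h5
      rw [h5]
      exact b₀.mul_mem hci₀ (htr₀ ((b * x ^ n) ^ m * u) h4)
  · -- hT12
    intro c hc
    obtain ⟨h3, h4⟩ := hV₁₂ (c : F) hc
    refine ⟨hroot₁ _ ?_, hroot₀ _ ?_⟩
    · have h5 := key c (xi ^ n)
      rw [map_pow] at h5
      rw [h5]
      exact b₁.mul_mem hci₁ (htr₁ ((c * xi ^ n) ^ m * u) h3)
    · have h5 := key c (x ^ n)
      rw [map_pow] at h5
      rw [h5]
      exact b₀.mul_mem hci₀ (htr₀ ((c * x ^ n) ^ m * u) h4)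
  · -- hTP
    rintro p ⟨h3, h4⟩
    refine ⟨htr₀ p h3, ?_⟩
    have h5 := htr₁ (p * xi ^ (m * n)) h4
    rw [map_mul, map_pow] at h5
    exact h5
  · -- hTQ
    rintro q ⟨h3, h4⟩
    refine ⟨htr₁ q h3, ?_⟩
    have h5 := htr₀ (q * x ^ (m * n)) h4
    rw [map_mul, map_pow] at h5
    exact h5
  · -- hS5'
    rintro y ⟨h3, -⟩ ⟨h4, -⟩
    exact hconst y h3 h4
  · -- hS5
    rintro y ⟨h3, -⟩ ⟨h4, -⟩
    exact hconst y h3 h4
  · -- hS4
    rintro x' ⟨h3, -⟩ y' ⟨h4, -⟩ ⟨h5, h6⟩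
    refine ⟨x', ⟨h3, ?_⟩, y', ⟨h4, ?_⟩, rfl⟩
    · have h7 : x' * ρ xi ^ n = (x' - y') * ρ xi ^ n + y' * ρ xi ^ n := by ring
      rw [h7]
      exact b₁.add_mem h5 (b₁.mul_mem h4 (b₁.pow_mem hρxi₁ _))
    · have h7 : y' * ρ x ^ n = x' * ρ x ^ n - (x' - y') * ρ x ^ n := by ring
      rw [h7]
      exact b₀.sub_mem (b₀.mul_mem h3 (b₀.pow_mem hρx₀ _)) h6
  · -- hL1
    rintro y ⟨h3, h4⟩
    exact hL1 y h3 h4
  · -- hL2
    rintro y ⟨h3, h4⟩
    exact hL2 y h3 h4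
  · exact ⟨b₀.one_mem, by rw [one_mul]; exact b₁.pow_mem hρxi₁ _⟩
  · exact ⟨b₁.one_mem, by rw [one_mul]; exact b₀.pow_mem hρx₀ _⟩

end twoChart

end Fermat.Agent.S18.helper5343
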