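/-
S18, track C endgame in NEWTON form (helper5367).

Setting (abstract, no discreteness, no number field): `L` a field, `A` a valuation subring
of `L`, `E` a commutative `L`-algebra (think `E = L((q))`), `Eint` a subring of `E` (think
`A((q))`, the series with coefficients in `A`), and `L`-linear functionals `c k : E → L`
(think: `c k` = coefficient of `q ^ (-k)`, `k = 0, 1, 2, ...`).

`W n` is an increasing chain of `L`-subspaces of `E` (think: the `q`-expansions of the
*twisted sections* `h * L(D₀ + n ∞)`, where `h ^ m = u` in `E`, `h ≡ 1`).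

Hypotheses:
* `hpole`   : elements of `W n` have pole order `≤ n`;
* `hsep`    : an element of `W (n + 1)` without the coefficient of `q ^ (-(n+1))` is in `W n`;
* `hnewton` : `G ∈ W n → G * (1 - m⁻¹ (G ^ m - 1)) ∈ W ((m + 1) * n)`
              (because `G ^ m = u f ^ m` is an honest function with poles only at `∞`);
* `hlead`   : for every `n ≥ n₀` there is an integral element of `W (n + 1)` whose coefficient
              of `q ^ (-(n+1))` is a unit of `A`;
* seed      : `G₀ ∈ W n₀` with `G₀ - 1 ∈ ε₀ • Eint`, `ε₀` a non-unit of `A`;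
* `hrank`   : powers of `ε₀` become divisible by every nonzero constant (rank one).

Conclusion: some `W n` contains a nonzero element without polar part.

Proof: Newton iteration `G ↦ G * (1 - m⁻¹ (G ^ m - 1))` squares the error `G - 1` exactly
(`newton_step`); the polar coefficients of order `> n₀` are killed by multiples of the leading
elements (`descent`); at the fixed level `n₀` the constant coefficient is a fixed `L`-linear
combination of the polar coefficients if no nonzero element is free of polar part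
(`exists_bound`).  No finite generation, no noetherian hypothesis, no saturation.
-/
import Mathlib

set_option autoImplicit false

namespace Fermat.Agent.S18.helper5367

section Newton

variable {E : Type*} [CommRing E]

/-- `(1 + z) ^ m = 1 + m z + z² g` with `g` in any subring containing `z`. -/
theorem exists_one_add_pow (S : Subring E) {z : E} (hz : z ∈ S) (m : ℕ) :
    ∃ g ∈ S, (1 + z) ^ m = 1 + (m : E) * z + z ^ 2 * g := by
  induction m with
  | zero => exact ⟨0, S.zero_mem, by simp⟩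
  | succ m ih =>
    obtain ⟨g, hg, hgm⟩ := ih
    refine ⟨(m : E) + g * (1 + z), ?_, ?_⟩
    · exact S.add_mem (natCast_mem S m) (S.mul_mem hg (S.add_mem S.one_mem hz))
    · rw [pow_succ, hgm]
      push_cast
      ring

/-- **Newton step.**  If `r * m = 1` and `G = 1 + e * s`, then
`G * (1 - r * (G ^ m - 1)) = 1 + e² * s'` with `s'` in any subring containing `e`, `r`, `s`. -/
theorem newton_step (S : Subring E) (m : ℕ) {r e s G : E} (hr : r ∈ S) (he : e ∈ S) (hs : s ∈ S)
    (hrm : r * (m : E) = 1) (hG : G - 1 = e * s) :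
    ∃ s' ∈ S, G * (1 - r * (G ^ m - 1)) - 1 = e ^ 2 * s' := by
  have hz : e * s ∈ S := S.mul_mem he hs
  obtain ⟨g, hg, hgm⟩ := exists_one_add_pow S hz m
  have hG' : G = 1 + e * s := by rw [← hG]; ring
  refine ⟨-(s ^ 2 * (1 + r * g * (1 + e * s))), ?_, ?_⟩
  · exact S.neg_mem (S.mul_mem (S.pow_mem hs 2)
      (S.add_mem S.one_mem (S.mul_mem (S.mul_mem hr hg) (S.add_mem S.one_mem hz))))
  · rw [hG', hgm]
    linear_combination (-(1 + e * s) * (e * s)) * hrm

end Newton

section Core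

variable {L E : Type*} [Field L] [CommRing E] [Algebra L E]

/-- **Descent to the level `n₀`.**  Using integral elements with unit leading polar coefficient
at every level above `n₀`, an element `G ∈ W (n₀ + d)` with `G - 1 ∈ ε • Eint` is corrected to an
element of `W n₀` with the same property. -/
theorem descent (A : ValuationSubring L) (Eint : Subring E) (c : ℕ → E →ₗ[L] L)
    (hA : ∀ a ∈ A, algebraMap L E a ∈ Eint)
    (hc : ∀ x ∈ Eint, ∀ k, c k x ∈ A)
    (hc1 : ∀ k, 0 < k → c k 1 = 0)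
    (W : ℕ → Submodule L E)
    (hsep : ∀ n, ∀ G ∈ W (n + 1), c (n + 1) G = 0 → G ∈ W n)
    (n₀ : ℕ)
    (hlead : ∀ n, n₀ ≤ n → ∃ G ∈ W (n + 1), G ∈ Eint ∧ (c (n + 1) G)⁻¹ ∈ A ∧ c (n + 1) G ≠ 0)
    (ε : L) (d : ℕ) :
    ∀ G ∈ W (n₀ + d), ∀ s ∈ Eint, G - 1 = algebraMap L E ε * s →
      ∃ G' ∈ W n₀, ∃ s' ∈ Eint, G' - 1 = algebraMap L E ε * s' := by
  induction d with
  | zero => exact fun G hG s hs hGs => ⟨G, hG, s, hs, hGs⟩
  | succ d ih =>
    intro G hG s hs hGs
    obtain ⟨B, hBW, hBint, hBinv, hB0⟩ := hlead (n₀ + d) (Nat.le_add_right _ _)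
    set a : L := c (n₀ + d + 1) s * (c (n₀ + d + 1) B)⁻¹ with ha
    have haA : a ∈ A := A.mul_mem _ _ (hc s hs _) hBinv
    -- the coefficient of `G` at the top polar order
    have hcG : c (n₀ + d + 1) G = ε * c (n₀ + d + 1) s := by
      have h1 : G = 1 + ε • s := by
        rw [Algebra.smul_def, ← hGs]; ring
      rw [h1, map_add, hc1 _ (Nat.succ_pos _), zero_add, map_smul, smul_eq_mul]
    have hG2W : G - (ε * a) • B ∈ W (n₀ + d + 1) :=
      (W _).sub_mem hG ((W _).smul_mem _ hBW)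
    have hG2c : c (n₀ + d + 1) (G - (ε * a) • B) = 0 := by
      rw [map_sub, map_smul, smul_eq_mul, hcG, ha]
      field_simp
      ring
    have hG2 : G - (ε * a) • B ∈ W (n₀ + d) := hsep _ _ hG2W hG2c
    refine ih _ hG2 (s - algebraMap L E a * B)
      (Eint.sub_mem hs (Eint.mul_mem (hA a haA) hBint)) ?_
    rw [Algebra.smul_def, map_mul]
    linear_combination hGs

/-- **The bound at the fixed level.**  If `V` contains no nonzero element all of whose polar
coefficients `c 1, …, c n` vanish, then on `V` the constant coefficient `c 0` is a fixed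
`L`-linear combination of the polar coefficients, with a common denominator `κ ∈ A`. -/
theorem exists_bound (A : ValuationSubring L) (c : ℕ → E →ₗ[L] L) (V : Submodule L E) (n : ℕ)
    (hinj : ∀ G ∈ V, (∀ k, 0 < k → k ≤ n → c k G = 0) → G = 0) :
    ∃ κ : L, κ ∈ A ∧ κ ≠ 0 ∧ ∃ μ : Fin n → L, (∀ i, μ i ∈ A) ∧
      ∀ G ∈ V, κ * c 0 G = ∑ i : Fin n, μ i * c (i.val + 1) G := by
  classical
  -- the polar part map on `V`
  let pp : V →ₗ[L] (Fin n → L) :=
    LinearMap.pi fun i => (c (i.val + 1)).comp V.subtype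
  have hker : LinearMap.ker pp = ⊥ := by
    rw [LinearMap.ker_eq_bot']
    intro G hG
    have h0 : (G : E) = 0 := by
      refine hinj G G.2 fun k hk hkn => ?_
      have := congrFun hG ⟨k - 1, by omega⟩
      simp only [pp, LinearMap.pi_apply, LinearMap.comp_apply, Submodule.subtype_apply,
        Pi.zero_apply] at this
      have hk1 : k - 1 + 1 = k := by omega
      rwa [hk1] at this
    exact Subtype.ext h0
  obtain ⟨g, hg⟩ := pp.exists_leftInverse_of_injective hker
  let φ : (Fin n → L) →ₗ[L] L := ((c 0).comp V.subtype).comp g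
  have hφ : ∀ G : V, c 0 (G : E) = φ (pp G) := by
    intro G
    have : g (pp G) = G := by
      have := congrArg (fun f => f G) hg
      simpa using this
    simp only [φ, LinearMap.comp_apply, this, Submodule.subtype_apply]
  -- coefficients of `φ` and a common denominator
  let lam : Fin n → L := fun i => φ fun j => if i = j then 1 else 0
  have hden : ∀ i : Fin n, ∃ b : L, b ∈ A ∧ b ≠ 0 ∧ b * lam i ∈ A := by
    intro i
    rcases A.mem_or_inv_mem (lam i) with h | h
    · exact ⟨1, A.one_mem, one_ne_zero, by rwa [one_mul]⟩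
    · by_cases h0 : lam i = 0
      · exact ⟨1, A.one_mem, one_ne_zero, by rw [h0, mul_zero]; exact A.zero_mem⟩
      · exact ⟨(lam i)⁻¹, h, inv_ne_zero h0, by rw [inv_mul_cancel₀ h0]; exact A.one_mem⟩
  choose b hbA hb0 hbl using hden
  refine ⟨∏ i, b i, A.prod_mem fun j _ => hbA j, Finset.prod_ne_zero_iff.mpr fun i _ => hb0 i,
    fun i => (∏ j ∈ Finset.univ.erase i, b j) * (b i * lam i), fun i => ?_, fun G hG => ?_⟩
  · exact A.mul_mem _ _ (A.prod_mem fun j _ => hbA j) (hbl i)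
  · have h1 := hφ ⟨G, hG⟩
    rw [LinearMap.pi_apply_eq_sum_univ φ] at h1
    have h2 : ∀ i : Fin n, pp ⟨G, hG⟩ i = c (i.val + 1) G := fun i => rfl
    simp only [h2, smul_eq_mul] at h1
    show (∏ i, b i) * c 0 G = _
    rw [h1, Finset.mul_sum]
    refine Finset.sum_congr rfl fun i _ => ?_
    have h3 : (∏ j, b j) = (∏ j ∈ Finset.univ.erase i, b j) * b i :=
      (Finset.prod_erase_mul _ _ (Finset.mem_univ i)).symm
    show (∏ j, b j) * (c (i.val + 1) G * lam i) = _
    rw [h3]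
    ring

/-- **Track C endgame, Newton form.**  See the header of this file. -/
theorem trackC_newton (A : ValuationSubring L) (Eint : Subring E) (c : ℕ → E →ₗ[L] L)
    (hA : ∀ a ∈ A, algebraMap L E a ∈ Eint)
    (hc : ∀ x ∈ Eint, ∀ k, c k x ∈ A)
    (hc0 : c 0 1 = 1) (hc1 : ∀ k, 0 < k → c k 1 = 0)
    (m : ℕ) (hm0 : (m : L) ≠ 0) (hm : (m : L)⁻¹ ∈ A)
    (W : ℕ → Submodule L E) (hW : Monotone W)
    (hpole : ∀ n, ∀ G ∈ W n, ∀ k, n < k → c k G = 0)
    (hsep : ∀ n, ∀ G ∈ W (n + 1), c (n + 1) G = 0 → G ∈ W n)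
    (hnewton : ∀ n, ∀ G ∈ W n,
      G * (1 - algebraMap L E (m : L)⁻¹ * (G ^ m - 1)) ∈ W ((m + 1) * n))
    (n₀ : ℕ)
    (hlead : ∀ n, n₀ ≤ n → ∃ G ∈ W (n + 1), G ∈ Eint ∧ (c (n + 1) G)⁻¹ ∈ A ∧ c (n + 1) G ≠ 0)
    (ε₀ : L) (hε₀ : ε₀ ∈ A) (hε₀' : ε₀⁻¹ ∉ A)
    (hrank : ∀ δ : L, δ ≠ 0 → ∃ k : ℕ, ε₀ ^ k * δ⁻¹ ∈ A)
    (G₀ : E) (hG₀ : G₀ ∈ W n₀) (s₀ : E) (hs₀ : s₀ ∈ Eint)
    (hG₀s : G₀ - 1 = algebraMap L E ε₀ * s₀) :
    ∃ n, ∃ G ∈ W n, G ≠ 0 ∧ ∀ k, 0 < k → c k G = 0 := by
  by_contra hcon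
  push Not at hcon
  -- no nonzero element of any `W n` is free of polar part
  have hinj : ∀ G ∈ W n₀, (∀ k, 0 < k → k ≤ n₀ → c k G = 0) → G = 0 := by
    intro G hG hk
    by_contra hG0
    obtain ⟨k, hk0, hkG⟩ := hcon n₀ G hG hG0
    by_cases hkn : k ≤ n₀
    · exact hkG (hk k hk0 hkn)
    · exact hkG (hpole n₀ G hG k (not_le.mp hkn))
  obtain ⟨κ, hκA, hκ0, μ, hμA, hκ⟩ := exists_bound A c (W n₀) n₀ hinj
  -- Newton sequence
  have hr : algebraMap L E (m : L)⁻¹ * (m : E) = 1 := by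
    rw [← map_natCast (algebraMap L E) m, ← map_mul, inv_mul_cancel₀ hm0, map_one]
  have hseq : ∀ j : ℕ, ∃ n, ∃ G ∈ W n, ∃ s ∈ Eint,
      G - 1 = algebraMap L E (ε₀ ^ 2 ^ j) * s := by
    intro j
    induction j with
    | zero => exact ⟨n₀, G₀, hG₀, s₀, hs₀, by rw [pow_zero, pow_one]; exact hG₀s⟩
    | succ j ih =>
      obtain ⟨n, G, hG, s, hs, hGs⟩ := ih
      obtain ⟨s', hs', hstep⟩ := newton_step Eint m (hA _ hm)
        (hA _ (A.pow_mem hε₀ (2 ^ j))) hs hr hGs
      refine ⟨(m + 1) * n, _, hnewton n G hG, s', hs', ?_⟩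
      rw [hstep, ← map_pow, ← pow_mul, ← pow_succ]
  -- choose `j` with `ε₀ ^ (2 ^ j)` much smaller than `κ`
  obtain ⟨k, hk⟩ := hrank κ hκ0
  obtain ⟨n, G, hG, s, hs, hGs⟩ := hseq k
  have hlt : k < 2 ^ k := Nat.lt_two_pow_self
  obtain ⟨ε, hεdef⟩ : ∃ ε : L, ε = ε₀ ^ 2 ^ k := ⟨_, rfl⟩
  rw [← hεdef] at hGs
  -- bring `G` down to level `n₀`
  have hG' : G ∈ W (n₀ + n) := hW (Nat.le_add_left n n₀) hG
  obtain ⟨G₁, hG₁, s₁, hs₁, hG₁s⟩ :=
    descent A Eint c hA hc hc1 W hsep n₀ hlead ε n G hG' s hs hGs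
  have hG₁' : G₁ = 1 + ε • s₁ := by
    rw [Algebra.smul_def, ← hG₁s]; ring
  have h0 : c 0 G₁ = 1 + ε * c 0 s₁ := by
    rw [hG₁', map_add, hc0, map_smul, smul_eq_mul]
  have hi : ∀ i : Fin n₀, c (i.val + 1) G₁ = ε * c (i.val + 1) s₁ := by
    intro i
    rw [hG₁', map_add, hc1 _ (Nat.succ_pos _), zero_add, map_smul, smul_eq_mul]
  have hκG := hκ G₁ hG₁
  rw [h0] at hκG
  simp only [hi] at hκG
  have hsum : ∑ x : Fin n₀, μ x * (ε * c (x.val + 1) s₁)
      = ε * ∑ i : Fin n₀, μ i * c (i.val + 1) s₁ := by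
    rw [Finset.mul_sum]
    exact Finset.sum_congr rfl fun i _ => by ring
  rw [hsum] at hκG
  -- hence `κ = ε * a` with `a ∈ A`
  obtain ⟨a, hadef⟩ : ∃ a : L, a = ∑ i : Fin n₀, μ i * c (i.val + 1) s₁ - κ * c 0 s₁ := ⟨_, rfl⟩
  have haA : a ∈ A := by
    rw [hadef]
    exact A.sub_mem (A.sum_mem fun i _ => A.mul_mem _ _ (hμA i) (hc s₁ hs₁ _))
      (A.mul_mem _ _ hκA (hc s₁ hs₁ _))
  have hκε : κ = ε * a := by
    rw [hadef]
    linear_combination hκG
  -- contradiction: `ε₀` would be a unit of `A`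
  have hsplit : ε = ε₀ * ε₀ ^ (2 ^ k - k - 1) * ε₀ ^ k := by
    rw [hεdef, ← pow_succ', ← pow_add]
    congr 1
    omega
  have hone : ε₀ * (ε₀ ^ (2 ^ k - k - 1) * (ε₀ ^ k * κ⁻¹) * a) = 1 := by
    have h1 : ε * a * κ⁻¹ = 1 := by
      rw [← hκε, mul_inv_cancel₀ hκ0]
    rw [hsplit] at h1
    linear_combination h1
  apply hε₀'
  rw [← eq_inv_of_mul_eq_one_right hone]
  exact A.mul_mem _ _ (A.mul_mem _ _ (A.pow_mem hε₀ _) hk) haA

end Core

section Laurent

variable {L : Type*} [Field L]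

/-- The Laurent series all of whose coefficients lie in the valuation subring `A`. -/
def intSeries (A : ValuationSubring L) : Subring (LaurentSeries L) where
  carrier := {x | ∀ i : ℤ, x.coeff i ∈ A}
  mul_mem' := by
    intro x y hx hy i
    rw [HahnSeries.coeff_mul]
    exact A.sum_mem fun ij _ => A.mul_mem _ _ (hx _) (hy _)
  one_mem' := by
    intro i
    rw [HahnSeries.coeff_one]
    split_ifs
    · exact A.one_mem
    · exact A.zero_mem
  add_mem' := by
    intro x y hx hy i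
    rw [HahnSeries.coeff_add]
    exact A.add_mem _ _ (hx i) (hy i)
  zero_mem' := by
    intro i
    rw [HahnSeries.coeff_zero]
    exact A.zero_mem
  neg_mem' := by
    intro x hx i
    rw [HahnSeries.coeff_neg]
    exact A.neg_mem _ (hx i)

theorem mem_intSeries {A : ValuationSubring L} {x : LaurentSeries L} :
    x ∈ intSeries A ↔ ∀ i : ℤ, x.coeff i ∈ A := Iff.rfl

/-- **Track C endgame, Newton form, coefficientwise on `LaurentSeries L`.**

`W n` = `q`-expansions of the twisted sections of pole order `≤ n` (an `L`-subspace),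
`A` any valuation subring of `L` for which powers of the non-unit `ε₀` become divisible by every
nonzero constant (rank one).  If there are integral twisted sections with unit leading polar
coefficient at every level above `n₀` (`hlead`) and a seed `G₀ ∈ W n₀` with
`G₀ ≡ 1 mod ε₀` coefficientwise, then some `W n` contains a nonzero element without polar part. -/
theorem trackC_newton_laurent (A : ValuationSubring L)
    (m : ℕ) (hm0 : (m : L) ≠ 0) (hm : (m : L)⁻¹ ∈ A)
    (W : ℕ → Submodule L (LaurentSeries L)) (hW : Monotone W)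
    (hpole : ∀ n, ∀ G ∈ W n, ∀ i : ℤ, i < -(n : ℤ) → G.coeff i = 0)
    (hsep : ∀ n, ∀ G ∈ W (n + 1), G.coeff (-((n : ℤ) + 1)) = 0 → G ∈ W n)
    (hnewton : ∀ n, ∀ G ∈ W n, G * (1 - (m : L)⁻¹ • (G ^ m - 1)) ∈ W ((m + 1) * n))
    (n₀ : ℕ)
    (hlead : ∀ n, n₀ ≤ n → ∃ G ∈ W (n + 1), (∀ i : ℤ, G.coeff i ∈ A) ∧
      (G.coeff (-((n : ℤ) + 1)))⁻¹ ∈ A ∧ G.coeff (-((n : ℤ) + 1)) ≠ 0)
    (ε₀ : L) (hε₀ : ε₀ ∈ A) (hε₀' : ε₀⁻¹ ∉ A)
    (hrank : ∀ δ : L, δ ≠ 0 → ∃ k : ℕ, ε₀ ^ k * δ⁻¹ ∈ A)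
    (G₀ : LaurentSeries L) (hG₀ : G₀ ∈ W n₀)
    (s₀ : LaurentSeries L) (hs₀ : ∀ i : ℤ, s₀.coeff i ∈ A) (hG₀s : G₀ - 1 = ε₀ • s₀) :
    ∃ n, ∃ G ∈ W n, G ≠ 0 ∧ ∀ i : ℤ, i < 0 → G.coeff i = 0 := by
  let c : ℕ → LaurentSeries L →ₗ[L] L := fun k => HahnSeries.coeff.linearMap (-(k : ℤ))
  have hcapp : ∀ (k : ℕ) (x : LaurentSeries L), c k x = x.coeff (-(k : ℤ)) := fun _ _ => rfl
  -- the coefficientwise algebra structure (NOT the one through `PowerSeries L`)
  have halg : ∀ a : L, @algebraMap L (LaurentSeries L) _ _ HahnSeries.instAlgebra a =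
      HahnSeries.C a := fun _ => rfl
  have hA : ∀ a ∈ A, @algebraMap L (LaurentSeries L) _ _ HahnSeries.instAlgebra a ∈
      intSeries A := by
    intro a ha i
    rw [halg, HahnSeries.C_apply, HahnSeries.coeff_single]
    split_ifs
    · exact ha
    · exact A.zero_mem
  obtain ⟨n, G, hG, hG0, hGc⟩ := @trackC_newton L (LaurentSeries L) _ _ HahnSeries.instAlgebra
    A (intSeries A) c hA
    (fun x hx k => hx _)
    (by rw [hcapp, HahnSeries.coeff_one]; simp)
    (fun k hk => by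
      rw [hcapp, HahnSeries.coeff_one]
      have : (-(k : ℤ)) ≠ 0 := by omega
      simp [this])
    m hm0 hm W hW
    (fun n G hG k hk => by
      rw [hcapp]
      exact hpole n G hG _ (by omega))
    (fun n G hG h => by
      refine hsep n G hG ?_
      rw [hcapp] at h
      have : (-((n + 1 : ℕ) : ℤ)) = -((n : ℤ) + 1) := by push_cast; ring
      rwa [this] at h)
    (fun n G hG => by
      have := hnewton n G hG
      rwa [halg, HahnSeries.C_mul_eq_smul])
    n₀
    (fun n hn => by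
      obtain ⟨G, hG, hGint, hGinv, hG0⟩ := hlead n hn
      have : (-((n + 1 : ℕ) : ℤ)) = -((n : ℤ) + 1) := by push_cast; ring
      refine ⟨G, hG, hGint, ?_, ?_⟩
      · rw [hcapp, this]; exact hGinv
      · rw [hcapp, this]; exact hG0)
    ε₀ hε₀ hε₀' hrank G₀ hG₀ s₀ hs₀ (by rw [hG₀s, halg, HahnSeries.C_mul_eq_smul])
  refine ⟨n, G, hG, hG0, fun i hi => ?_⟩
  have h := hGc i.natAbs (by omega)
  rw [hcapp] at h
  have : (-(i.natAbs : ℤ)) = i := by omega
  rwa [this] at h

end Laurent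

end Fermat.Agent.S18.helper5367
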