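/-
S18-CONJ0 (helper5675, board #1394), consumer forms for track C, field `ct` of `Stmt_Bbar`:

* `exists_cofactor_charpoly` : the CONVERSE of the landed `helper2707.regAway_of_cofactor`:
  if `y` is regular away from the given embedding, the characteristic polynomial of `y` over
  `k(t)`, read in `k((q))[X]`, is `(X - ι y) * Q` with `Q` MONIC in `k[[q]][X]`
  (`regAway_iff_exists_cofactor` is the resulting equivalence);
* the concrete instance on `F = modularFunctionFieldBar N` (vocabulary of `helper99_SpecC`):
  for `t : F` with a simple pole at the cusp `∞` and `x` with `helper99.RegAwayInf N x`: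
  `regAway_of_regAwayInf`, `isIntegral_adjoin_of_regAwayInf`, `isIntOver_of_regAwayInf`,
  `exists_cofactor_of_regAwayInf`.
-/
import Mathlib
import Fermat.Agent.S18.helper5675_ConjZeroInst
import Fermat.Agent.S18.helper2707_Cofactor
import Fermat.Agent.S18.helper288_PlaceFacts

set_option autoImplicit false

noncomputable section

namespace Fermat.Agent.S18.helper5675

open Polynomial IntermediateField AlgebraicCurve ModularCurve
open Fermat.Agent.S18

section Generic

variable {k : Type*} [Field k] {F : Type*} [Field F] [Algebra k F]

/-- **Converse of the cofactor transfer** (`helper2707.regAway_of_cofactor`): if `y` is regular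
away from the given embedding, then the characteristic polynomial of `y` over `k(t)`, read in
`k((q))[X]` through `ι`, is `(X - ι y) * Q` with `Q` monic with power series coefficients. -/
theorem exists_cofactor_charpoly {t : F} {ι : F →ₐ[k] LaurentSeries k}
    [FiniteDimensional k⟮t⟯ F] [Algebra.IsSeparable k⟮t⟯ F]
    (ht : (ι t).order = -1) {y : F} (hy : helper2707.RegAway ι t y) :
    ∃ Q : (PowerSeries k)[X], Q.Monic ∧
      (LinearMap.charpoly (Algebra.lmul k⟮t⟯ F y)).map
          ((ι : F →+* LaurentSeries k).comp (algebraMap k⟮t⟯ F))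
        = (X - C (ι y)) * Q.map (algebraMap (PowerSeries k) (LaurentSeries k)) := by
  classical
  let _ := helper2707.algOm t ι
  have := helper2707.infinite_adjoin ht
  have hpf := helper2707.charpoly_map_eq_prod_embeddings (K := k⟮t⟯) (L := F)
    (E := helper2707.Om k) y
  refine exists_cofactor_of_regAway ι hy
    (σ := fun s : F →ₐ[k⟮t⟯] helper2707.Om k => (s : F →+* helper2707.Om k))
    (fun s c => s.commutes c) ?_ (helper2707.inc0 t ι) rfl
    ((LinearMap.charpoly_monic _).map _) ?_
  · intro s s' h
    ext x
    exact congrArg (fun f : F →+* helper2707.Om k => f x) h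
  · rw [Polynomial.map_map]
    exact hpf

/-- `RegAway` is equivalent to the cofactor of `X - ι y` in the characteristic polynomial having
power series coefficients. -/
theorem regAway_iff_exists_cofactor {t : F} {ι : F →ₐ[k] LaurentSeries k}
    [FiniteDimensional k⟮t⟯ F] [Algebra.IsSeparable k⟮t⟯ F]
    (ht : (ι t).order = -1) (y : F) :
    helper2707.RegAway ι t y ↔
      ∃ Q : (PowerSeries k)[X],
        (LinearMap.charpoly (Algebra.lmul k⟮t⟯ F y)).map
            ((ι : F →+* LaurentSeries k).comp (algebraMap k⟮t⟯ F))
          = (X - C (ι y)) * Q.map (algebraMap (PowerSeries k) (LaurentSeries k)) :=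
  ⟨fun hy => let ⟨Q, _, hQ⟩ := exists_cofactor_charpoly ht hy; ⟨Q, hQ⟩,
   fun ⟨Q, hQ⟩ => helper2707.regAway_of_cofactor ht y Q hQ⟩

/-- A power series has nonnegative order. -/
theorem isPS_order_nonneg {ι : F →ₐ[k] LaurentSeries k} {y : F} (hy : IsPS ι y) (hy0 : y ≠ 0) :
    0 ≤ (ι y).order := by
  obtain ⟨p, hp⟩ := hy
  have hne : ι y ≠ 0 := fun h => hy0 ((map_eq_zero ι).mp h)
  by_contra hlt
  rw [not_le] at hlt
  have h1 : (ι y).coeff (ι y).order ≠ 0 := fun h => hne (HahnSeries.coeff_order_eq_zero.mp h)
  apply h1
  rw [← hp, LaurentSeries.coe_algebraMap] at hlt ⊢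
  have h := PowerSeries.coeff_coe (f := p) ((HahnSeries.ofPowerSeries ℤ k p).order)
  rw [if_pos hlt] at h
  exact h

end Generic

/-! ## The concrete instance `F = modularFunctionFieldBar N` -/

section FN

set_option synthInstance.maxHeartbeats 400000

local notation "Qb" => AlgebraicClosure ℚ

/-- Power series of `modularFunctionFieldBar N` lie in the valuation ring of the cusp `∞`. -/
theorem isPS_mem_cuspInf (N : ℕ) (y : modularFunctionFieldBar N)
    (hy : IsPS (modularFunctionFieldBar N).val y) :
    y ∈ (helper288.cuspInf N).toValuationSubring := by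
  by_cases hy0 : y = 0
  · rw [hy0]
    exact (helper288.cuspInf N).toValuationSubring.zero_mem
  · apply mem_of_adicValuation_le_one
    rw [Place.adicValuation_le_one_iff]
    right
    rw [helper288.cuspInf_ord N hy0]
    exact isPS_order_nonneg hy hy0

/-- A function regular away from the cusp `∞` lies in the valuation ring of every other place. -/
theorem forall_place_mem_of_regAwayInf (N : ℕ) {x : modularFunctionFieldBar N}
    (hx : helper99.RegAwayInf N x) :
    ∀ v : Place Qb (modularFunctionFieldBar N), v ≠ helper288.cuspInf N →
      x ∈ v.toValuationSubring := by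
  intro v hv
  apply mem_of_adicValuation_le_one
  rw [Place.adicValuation_le_one_iff]
  right
  exact (helper288.regAwayInf_iff N x).mp hx v hv

variable (N : ℕ) (t : modularFunctionFieldBar N)

/-- **`RegAwayInf ⟹ RegAway`** (characteristic zero side of the field `ct` of `Stmt_Bbar`): for
`t` with a simple pole at the cusp `∞`, a function regular away from `∞` is sent into the
integral closure of `ℚ̄[[q]]` by every conjugate embedding over `ℚ̄(t)` other than the
`q`-expansion. -/
theorem regAway_of_regAwayInf [FiniteDimensional Qb⟮t⟯ (modularFunctionFieldBar N)]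
    (ht : ((modularFunctionFieldBar N).val t).order = -1) {x : modularFunctionFieldBar N}
    (hx : helper99.RegAwayInf N x) :
    helper2707.RegAway (modularFunctionFieldBar N).val t x :=
  regAway_of_forall_place (modularFunctionFieldBar N).val ht (helper288.cuspInf N)
    (isPS_mem_cuspInf N) (forall_place_mem_of_regAwayInf N hx)

/-- A function regular away from the cusp `∞` is integral over `ℚ̄[t]`. -/
theorem isIntegral_adjoin_of_regAwayInf [FiniteDimensional Qb⟮t⟯ (modularFunctionFieldBar N)]
    (ht : ((modularFunctionFieldBar N).val t).order = -1) {x : modularFunctionFieldBar N}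
    (hx : helper99.RegAwayInf N x) :
    IsIntegral (Algebra.adjoin Qb {t}) x :=
  isIntegral_adjoin_of_forall_place (modularFunctionFieldBar N).val ht
    (isPrincipalIdealRing_of_ne_top t) (helper288.cuspInf N) (isPS_mem_cuspInf N)
    (forall_place_mem_of_regAwayInf N hx)

/-- The same in the explicit form `helper2707.IsIntOver`. -/
theorem isIntOver_of_regAwayInf [FiniteDimensional Qb⟮t⟯ (modularFunctionFieldBar N)]
    (ht : ((modularFunctionFieldBar N).val t).order = -1) {x : modularFunctionFieldBar N}
    (hx : helper99.RegAwayInf N x) :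
    helper2707.IsIntOver Qb t x :=
  isIntOver_of_isIntegral_adjoin (isIntegral_adjoin_of_regAwayInf N t ht hx)

/-- **Cofactor form**: for `x` regular away from the cusp `∞`, the characteristic polynomial of
`x` over `ℚ̄(t)`, read in `ℚ̄((q))[X]`, is `(X - x) * Q` with `Q` monic in `ℚ̄[[q]][X]`. -/
theorem exists_cofactor_of_regAwayInf [FiniteDimensional Qb⟮t⟯ (modularFunctionFieldBar N)]
    (ht : ((modularFunctionFieldBar N).val t).order = -1) {x : modularFunctionFieldBar N}
    (hx : helper99.RegAwayInf N x) :
    ∃ Q : (PowerSeries Qb)[X], Q.Monic ∧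
      (LinearMap.charpoly (Algebra.lmul Qb⟮t⟯ (modularFunctionFieldBar N) x)).map
          (((modularFunctionFieldBar N).val : modularFunctionFieldBar N →+* LaurentSeries Qb).comp
            (algebraMap Qb⟮t⟯ (modularFunctionFieldBar N)))
        = (X - C (x : LaurentSeries Qb)) *
            Q.map (algebraMap (PowerSeries Qb) (LaurentSeries Qb)) :=
  exists_cofactor_charpoly ht (regAway_of_regAwayInf N t ht hx)

end FN

end Fermat.Agent.S18.helper5675
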