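/-
S18 track C, link (C4)(L2) CERT-κ (helper5711): the certificate package `helper2707.HasCert`
for the reduced Hauptmodul `helper2707.tbarA` and every integral basis cusp form.

For `ℓ ∤ N`, `r ∈ {2, 3}`, `r ∣ N`, a valuation subring `A` of `ℚ̄` over `ℓ` with residue field
`κ`, an integral basis `D` of `S₂(Γ₀(N))` and `i`:

  `hasCert : HasCert (tbarA N hℓ hℓN A hA hr hrN) (D.laurent κ i)`

with `η = (f_i / ε_r)‾` (`helper1257.y2Red`, `y3Red`), `c = 64, a = 2` (`r = 2`) resp.
`c = 27, a = 3` (`r = 3`) and `E = N`.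

Route: the characteristic zero certificates of helper208 (`cert2Z`, `cert3Z`, `.gap`) over `ℚ̄`
give `w, w'` integral over `ℚ̄[t]`, `ℚ̄[t⁻¹]`; both are integer Laurent series (`t⁻¹ ∈ ℤ((q))`),
hence elements of the Gauss valuation ring of helper508, and the integrality transfer of
helper4665 (`gauss_integralityTransfer_t2/_t3`) moves the integrality to the special fibre.
The theta clause is helper1257's `t2Red_mul_laurent` / `t3Red_mul_laurent`.
-/
import Fermat.Agent.S18.helper2707_BbarLine
import Fermat.Agent.S18.helper1257_EpsFamily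
import Fermat.Agent.S18.helper208_CertL
import Fermat.Agent.S18.helper4665_TLineInst

set_option autoImplicit false

noncomputable section

namespace Fermat.Agent.S18.helper5711

open Polynomial ModularCurve IntermediateField
open Fermat.Agent.S18

/-! ### The integer inverse of the Hauptmodul series -/

/-- A series `q⁻¹ · u`, `u ∈ ℤ⟦q⟧` with constant term `1`, is a unit of `ℤ((q))`. -/
theorem exists_mul_eq_one_of_single_mul (t : LaurentSeries ℤ) (u : PowerSeries ℤ)
    (hu : PowerSeries.constantCoeff u = 1)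
    (ht : t = HahnSeries.single (-1 : ℤ) (1 : ℤ) * HahnSeries.ofPowerSeries ℤ ℤ u) :
    ∃ tinv : LaurentSeries ℤ, t * tinv = 1 := by
  refine ⟨HahnSeries.single (1 : ℤ) (1 : ℤ) * HahnSeries.ofPowerSeries ℤ ℤ (u.invOfUnit 1), ?_⟩
  have h1 : u * u.invOfUnit 1 = 1 := PowerSeries.mul_invOfUnit _ _ (by rw [hu]; rfl)
  have h2 : HahnSeries.single (-1 : ℤ) (1 : ℤ) * HahnSeries.single (1 : ℤ) (1 : ℤ) = 1 := by
    rw [HahnSeries.single_mul_single]
    simp
  calc t * (HahnSeries.single (1 : ℤ) (1 : ℤ) * HahnSeries.ofPowerSeries ℤ ℤ (u.invOfUnit 1))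
      = (HahnSeries.single (-1 : ℤ) (1 : ℤ) * HahnSeries.single (1 : ℤ) (1 : ℤ))
          * HahnSeries.ofPowerSeries ℤ ℤ (u * u.invOfUnit 1) := by
        rw [ht, map_mul]
        ring
    _ = 1 := by rw [h1, h2, map_one, one_mul]

theorem exists_t2Z_inv : ∃ tinv : LaurentSeries ℤ, helper1257.t2Z * tinv = 1 :=
  exists_mul_eq_one_of_single_mul _ _ helper1257.constantCoeff_u2Z helper1257.t2Z_eq_single_mul

theorem exists_t3Z_inv : ∃ tinv : LaurentSeries ℤ, helper1257.t3Z * tinv = 1 :=
  exists_mul_eq_one_of_single_mul _ _ helper1257.constantCoeff_u3Z helper1257.t3Z_eq_single_mul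

/-! ### The generic transfer of a pair of chart certificates -/

section Generic

set_option synthInstance.maxHeartbeats 400000

variable (N : ℕ) [NeZero N] (ℓ : ℕ) [Fact ℓ.Prime] (hℓN : ¬ ℓ ∣ N)
variable {L : Type} [Field L] [Algebra ℚ L] (A : ValuationSubring L)
  (hA : (ℓ : L) ∈ A.nonunits)

omit [NeZero N] [Fact ℓ.Prime] [Algebra ℚ L] in
theorem zSeries_mul_eq_one {tz tinv : LaurentSeries ℤ} (htinv : tz * tinv = 1)
    (R : Type*) [CommRing R] : helper4665.zSeries tz R * helper4665.zSeries tinv R = 1 := by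
  rw [helper4665.zSeries, helper4665.zSeries, ← map_mul, htinv, map_one]

/-- **Transfer of the chart certificates** from `L((q))` (characteristic zero) to the special
fibre, for integer series `tz` (a unit of `ℤ((q))`) and `yz` of the function field: if
`(y^a (t + c)^(a-1))^E = t · w` with `w` integral over `L[t]` and
`(y^a (c t⁻¹ + 1)^(a-1))^E = t⁻¹ · w'` with `w'` integral over `L[t⁻¹]`, and integrality
transfers on both charts of the line `t`, then the same holds for the reductions. -/
theorem cert_transfer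
    (tz yz tinv : LaurentSeries ℤ) (htinv : tz * tinv = 1)
    (ht : helper4665.zSeries tz L ∈ laurentBaseChange L (modularFunctionFieldFull N))
    (hy : helper4665.zSeries yz L ∈ laurentBaseChange L (modularFunctionFieldFull N))
    (htr : helper6292.IntegralityTransfer L (IsLocalRing.ResidueField A)
        (helper508.gaussValuationSubring N ℓ hℓN A hA) (helper508.gaussResidue N ℓ hℓN A hA)
        (helper4665.gaussZ N tz ht)
        (helper508.gaussResidue N ℓ hℓN A hA
          ⟨helper4665.gaussZ N tz ht, helper4665.gaussZ_mem N ℓ hℓN A hA tz ht⟩) ∧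
      helper6292.IntegralityTransfer L (IsLocalRing.ResidueField A)
        (helper508.gaussValuationSubring N ℓ hℓN A hA) (helper508.gaussResidue N ℓ hℓN A hA)
        (helper4665.gaussZ N tz ht)⁻¹
        (helper508.gaussResidue N ℓ hℓN A hA
          ⟨helper4665.gaussZ N tz ht, helper4665.gaussZ_mem N ℓ hℓN A hA tz ht⟩)⁻¹)
    (c a E : ℕ) (w w' : LaurentSeries L)
    (hw : IsIntegral (Algebra.adjoin L {helper4665.zSeries tz L}) w)
    (hwe : (helper4665.zSeries yz L ^ a * (helper4665.zSeries tz L + (c : LaurentSeries L)) ^ (a - 1)) ^ E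
        = helper4665.zSeries tz L * w)
    (hw' : IsIntegral (Algebra.adjoin L {(helper4665.zSeries tz L)⁻¹}) w')
    (hwe' : (helper4665.zSeries yz L ^ a
        * ((c : LaurentSeries L) * (helper4665.zSeries tz L)⁻¹ + 1) ^ (a - 1)) ^ E
        = (helper4665.zSeries tz L)⁻¹ * w')
    (tb η : ↥(modularFunctionFieldFullC (IsLocalRing.ResidueField A) N))
    (htb : (tb : LaurentSeries (IsLocalRing.ResidueField A))
      = helper4665.zSeries tz (IsLocalRing.ResidueField A))
    (hη : (η : LaurentSeries (IsLocalRing.ResidueField A))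
      = helper4665.zSeries yz (IsLocalRing.ResidueField A)) :
    ∃ W W' : ↥(modularFunctionFieldFullC (IsLocalRing.ResidueField A) N),
      IsIntegral (Algebra.adjoin (IsLocalRing.ResidueField A) {tb}) W ∧
      (η ^ a * (tb + algebraMap (IsLocalRing.ResidueField A)
          ↥(modularFunctionFieldFullC (IsLocalRing.ResidueField A) N)
            (c : IsLocalRing.ResidueField A)) ^ (a - 1)) ^ E = tb * W ∧
      IsIntegral (Algebra.adjoin (IsLocalRing.ResidueField A) {tb⁻¹}) W' ∧
      (η ^ a * (algebraMap (IsLocalRing.ResidueField A)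
          ↥(modularFunctionFieldFullC (IsLocalRing.ResidueField A) N)
            (c : IsLocalRing.ResidueField A) * tb⁻¹ + 1) ^ (a - 1)) ^ E = tb⁻¹ * W' := by
  -- inverses of the Hauptmodul series
  have hL1 := zSeries_mul_eq_one htinv L
  have hκ1 := zSeries_mul_eq_one htinv (IsLocalRing.ResidueField A)
  have hinvL : (helper4665.zSeries tz L)⁻¹ = helper4665.zSeries tinv L :=
    inv_eq_of_mul_eq_one_right hL1
  have hinvκ : (helper4665.zSeries tz (IsLocalRing.ResidueField A))⁻¹
      = helper4665.zSeries tinv (IsLocalRing.ResidueField A) :=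
    inv_eq_of_mul_eq_one_right hκ1
  have ht0 : helper4665.zSeries tz L ≠ 0 := left_ne_zero_of_mul_eq_one hL1
  have htκ0 : helper4665.zSeries tz (IsLocalRing.ResidueField A) ≠ 0 :=
    left_ne_zero_of_mul_eq_one hκ1
  -- the two integer series
  set wz : LaurentSeries ℤ := (yz ^ a * (tz + (c : LaurentSeries ℤ)) ^ (a - 1)) ^ E * tinv
    with hwz
  set wz' : LaurentSeries ℤ := (yz ^ a * ((c : LaurentSeries ℤ) * tinv + 1) ^ (a - 1)) ^ E * tz
    with hwz'
  have hwzR : ∀ (R : Type) [CommRing R], helper4665.zSeries wz R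
      = (helper4665.zSeries yz R ^ a
          * (helper4665.zSeries tz R + (c : LaurentSeries R)) ^ (a - 1)) ^ E
        * helper4665.zSeries tinv R := by
    intro R _
    simp only [hwz, helper4665.zSeries, map_mul, map_pow, map_add, map_natCast]
  have hwzR' : ∀ (R : Type) [CommRing R], helper4665.zSeries wz' R
      = (helper4665.zSeries yz R ^ a
          * ((c : LaurentSeries R) * helper4665.zSeries tinv R + 1) ^ (a - 1)) ^ E
        * helper4665.zSeries tz R := by
    intro R _
    simp only [hwz', helper4665.zSeries, map_mul, map_pow, map_add, map_natCast, map_one]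
  -- they are `w`, `w'` over `L`
  have hwL : helper4665.zSeries wz L = w := by
    rw [hwzR L, hwe, ← hinvL, mul_comm, ← mul_assoc, inv_mul_cancel₀ ht0, one_mul]
  have hwL' : helper4665.zSeries wz' L = w' := by
    rw [hwzR' L, ← hinvL, hwe', mul_comm, ← mul_assoc, mul_inv_cancel₀ ht0, one_mul]
  -- membership in the function field
  have htinvmem : helper4665.zSeries tinv L ∈ laurentBaseChange L (modularFunctionFieldFull N) := by
    rw [← hinvL]
    exact inv_mem ht
  have hmem : helper4665.zSeries wz L ∈ laurentBaseChange L (modularFunctionFieldFull N) := by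
    rw [hwzR L]
    exact mul_mem (pow_mem (mul_mem (pow_mem hy _)
      (pow_mem (add_mem ht (IntermediateField.natCast_mem _ _)) _)) _) htinvmem
  have hmem' : helper4665.zSeries wz' L ∈ laurentBaseChange L (modularFunctionFieldFull N) := by
    rw [hwzR' L]
    exact mul_mem (pow_mem (mul_mem (pow_mem hy _)
      (pow_mem (add_mem (mul_mem (IntermediateField.natCast_mem _ _) htinvmem) (one_mem _)) _)) _) ht
  -- integrality in the function field over `L`
  have hint : IsIntegral (Algebra.adjoin L {helper4665.gaussZ N tz ht})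
      (helper4665.gaussZ N wz hmem) := by
    refine helper208.isIntegral_adjoin_of_algHom
      (laurentBaseChange L (modularFunctionFieldFull N)).val Subtype.val_injective _ _ ?_
    show IsIntegral (Algebra.adjoin L {helper4665.zSeries tz L}) (helper4665.zSeries wz L)
    rw [hwL]
    exact hw
  have hint' : IsIntegral (Algebra.adjoin L {(helper4665.gaussZ N tz ht)⁻¹})
      (helper4665.gaussZ N wz' hmem') := by
    refine helper208.isIntegral_adjoin_of_algHom
      (laurentBaseChange L (modularFunctionFieldFull N)).val Subtype.val_injective _ _ ?_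
    rw [map_inv₀]
    show IsIntegral (Algebra.adjoin L {(helper4665.zSeries tz L)⁻¹}) (helper4665.zSeries wz' L)
    rw [hwL']
    exact hw'
  -- transfer
  have h1 := htr.1 _ (helper4665.gaussZ_mem N ℓ hℓN A hA wz hmem) hint
  have h2 := htr.2 _ (helper4665.gaussZ_mem N ℓ hℓN A hA wz' hmem') hint'
  have hredT : helper508.gaussResidue N ℓ hℓN A hA
      ⟨helper4665.gaussZ N tz ht, helper4665.gaussZ_mem N ℓ hℓN A hA tz ht⟩ = tb :=
    Subtype.ext (by rw [helper4665.gaussResidue_gaussZ, htb])
  rw [hredT] at h1 h2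
  refine ⟨_, _, h1, ?_, h2, ?_⟩
  · apply (modularFunctionFieldFullC (IsLocalRing.ResidueField A) N).val.injective
    simp only [map_pow, map_mul, map_add, map_natCast]
    simp only [AlgHom.toRingHom_eq_coe, RingHom.coe_coe, IntermediateField.coe_val]
    rw [helper4665.gaussResidue_gaussZ, htb, hη, hwzR (IsLocalRing.ResidueField A), ← hinvκ]
    rw [mul_comm (helper4665.zSeries tz (IsLocalRing.ResidueField A)), mul_assoc,
      inv_mul_cancel₀ htκ0, mul_one]
  · apply (modularFunctionFieldFullC (IsLocalRing.ResidueField A) N).val.injective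
    simp only [map_pow, map_mul, map_add, map_natCast, map_one, map_inv₀]
    simp only [AlgHom.toRingHom_eq_coe, RingHom.coe_coe, IntermediateField.coe_val]
    rw [helper4665.gaussResidue_gaussZ, htb, hη, hwzR' (IsLocalRing.ResidueField A), ← hinvκ]
    rw [mul_comm ((helper4665.zSeries tz (IsLocalRing.ResidueField A))⁻¹), mul_assoc,
      mul_inv_cancel₀ htκ0, mul_one]

end Generic

/-! ### The certificates on the special fibre -/

section Main

set_option synthInstance.maxHeartbeats 400000

variable (N : ℕ) [NeZero N] {ℓ : ℕ} (hℓ : ℓ.Prime) (hℓN : ¬ ℓ ∣ N)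
  (A : ValuationSubring (AlgebraicClosure ℚ)) (hA : A.LiesOverPrime ℓ)

omit [NeZero N] in
include hℓ hℓN hA in
/-- Powers of the primes of `N` are nonzero in the residue field. -/
theorem natCast_pow_ne_zero_residue {p : ℕ} (hp : p.Prime) (hpN : p ∣ N) (k : ℕ) :
    ((p ^ k : ℕ) : IsLocalRing.ResidueField A) ≠ 0 := by
  rw [Nat.cast_pow]
  exact pow_ne_zero _ (helper2707.residue_natCast_ne_zero N hℓ hℓN A hA p hp hpN)

/-- **CERT-κ, level 2.** -/
theorem hasCert_two (h2N : 2 ∣ N) (D : helper5819.IntBasis N 2) (i : Fin D.r) :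
    helper2707.HasCert (helper2707.tbarA N hℓ hℓN A hA (Or.inl rfl) h2N)
      (D.laurent (IsLocalRing.ResidueField A) i) := by
  have : Fact ℓ.Prime := ⟨hℓ⟩
  have hA' : ((ℓ : ℕ) : AlgebraicClosure ℚ) ∈ A.nonunits := hA
  obtain ⟨tinv, htinv⟩ := exists_t2Z_inv
  -- the characteristic zero certificates
  obtain ⟨-, ⟨w, hw, hwe⟩, -, ⟨w', hw', hwe'⟩⟩ :=
    (helper208.cert2Z (L := AlgebraicClosure ℚ) N h2N (D.b i) (D.B i) (D.qExpansion_eq i) N
      (by omega)).gap
  have ha0 : coeffMap (Int.castRingHom (AlgebraicClosure ℚ)) (helper1257.ofZ helper1257.a2Z)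
      ≠ 0 :=
    helper208.coeffMap_ofZ_ne_zero helper1257.a2Z 0 (by
      rw [helper1257.a2Z, PowerSeries.coeff_mk, if_pos rfl])
  have hy : coeffMap (Int.castRingHom (AlgebraicClosure ℚ)) (helper1257.ofZ (D.B i))
        / coeffMap (Int.castRingHom (AlgebraicClosure ℚ)) (helper1257.ofZ helper1257.a2Z)
      = helper4665.zSeries (helper1257.ofZ (helper1257.y2Z D i)) (AlgebraicClosure ℚ) := by
    rw [div_eq_iff ha0, helper4665.zSeries, helper1257.y2Z_mul_map,
      helper1257.laurent_eq_coeffMap]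
  rw [hy] at hwe hwe'
  have hwe2 : (helper4665.zSeries (helper1257.ofZ (helper1257.y2Z D i)) (AlgebraicClosure ℚ) ^ 2
      * (helper4665.zSeries helper1257.t2Z (AlgebraicClosure ℚ)
          + ((64 : ℕ) : LaurentSeries (AlgebraicClosure ℚ))) ^ (2 - 1)) ^ N
      = helper4665.zSeries helper1257.t2Z (AlgebraicClosure ℚ) * w := by
    rw [show (2 - 1 : ℕ) = 1 from rfl, pow_one, Nat.cast_ofNat]
    exact hwe
  have hwe2' : (helper4665.zSeries (helper1257.ofZ (helper1257.y2Z D i)) (AlgebraicClosure ℚ) ^ 2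
      * (((64 : ℕ) : LaurentSeries (AlgebraicClosure ℚ))
          * (helper4665.zSeries helper1257.t2Z (AlgebraicClosure ℚ))⁻¹ + 1) ^ (2 - 1)) ^ N
      = (helper4665.zSeries helper1257.t2Z (AlgebraicClosure ℚ))⁻¹ * w' := by
    rw [show (2 - 1 : ℕ) = 1 from rfl, pow_one, Nat.cast_ofNat]
    exact hwe'
  have htb : ((helper2707.tbarA N hℓ hℓN A hA (Or.inl rfl) h2N :
      ↥(modularFunctionFieldFullC (IsLocalRing.ResidueField A) N)) :
        LaurentSeries (IsLocalRing.ResidueField A))
      = helper4665.zSeries helper1257.t2Z (IsLocalRing.ResidueField A) := by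
    rw [helper2707.coe_tbarA, helper2707.tR, helper2707.tZ, if_pos rfl]
    rfl
  obtain ⟨W, W', h1, h2, h3, h4⟩ := cert_transfer N ℓ hℓN A hA' helper1257.t2Z
    (helper1257.ofZ (helper1257.y2Z D i)) tinv htinv (helper4665.zSeries_t2_mem N h2N)
    (helper1257.y2Z_mem_baseChange D _ h2N i)
    (helper4665.gauss_integralityTransfer_t2 N ℓ hℓN A hA' h2N) 64 2 N w w' hw hwe2 hw' hwe2'
    (helper2707.tbarA N hℓ hℓN A hA (Or.inl rfl) h2N) (helper1257.y2Red N ℓ hℓN A hA' D h2N i)
    htb rfl
  refine ⟨((64 : ℕ) : IsLocalRing.ResidueField A), 2, N,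
    helper1257.y2Red N ℓ hℓN A hA' D h2N i, W, W', ?_, two_pos, NeZero.pos N, h1, h2, h3, h4,
    Or.inr ?_⟩
  · exact natCast_pow_ne_zero_residue N hℓ hℓN A hA Nat.prime_two h2N 6
  · have e : ((helper2707.tbarA N hℓ hℓN A hA (Or.inl rfl) h2N :
        ↥(modularFunctionFieldFullC (IsLocalRing.ResidueField A) N)) :
          LaurentSeries (IsLocalRing.ResidueField A))
        = (helper1257.t2Red N ℓ hℓN A hA' h2N : LaurentSeries (IsLocalRing.ResidueField A)) :=
      htb
    rw [e]
    exact helper1257.t2Red_mul_laurent N ℓ hℓN A hA' D h2N i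

/-- **CERT-κ, level 3.** -/
theorem hasCert_three (h3N : 3 ∣ N) (D : helper5819.IntBasis N 2) (i : Fin D.r) :
    helper2707.HasCert (helper2707.tbarA N hℓ hℓN A hA (Or.inr rfl) h3N)
      (D.laurent (IsLocalRing.ResidueField A) i) := by
  have : Fact ℓ.Prime := ⟨hℓ⟩
  have hA' : ((ℓ : ℕ) : AlgebraicClosure ℚ) ∈ A.nonunits := hA
  obtain ⟨tinv, htinv⟩ := exists_t3Z_inv
  -- the characteristic zero certificates
  obtain ⟨-, ⟨w, hw, hwe⟩, -, ⟨w', hw', hwe'⟩⟩ :=
    (helper208.cert3Z (L := AlgebraicClosure ℚ) N h3N (D.b i) (D.B i) (D.qExpansion_eq i) N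
      (by omega)).gap
  have hb0 : coeffMap (Int.castRingHom (AlgebraicClosure ℚ)) (helper1257.ofZ helper1257.b3Z)
      ≠ 0 :=
    helper208.coeffMap_ofZ_ne_zero helper1257.b3Z 0 (by
      rw [PowerSeries.coeff_zero_eq_constantCoeff_apply, helper1257.constantCoeff_b3Z])
  have hy : coeffMap (Int.castRingHom (AlgebraicClosure ℚ)) (helper1257.ofZ (D.B i))
        / coeffMap (Int.castRingHom (AlgebraicClosure ℚ)) (helper1257.ofZ helper1257.b3Z)
      = helper4665.zSeries (helper1257.ofZ (helper1257.y3Z D i)) (AlgebraicClosure ℚ) := by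
    rw [div_eq_iff hb0, helper4665.zSeries, helper1257.y3Z_mul_map,
      helper1257.laurent_eq_coeffMap]
  rw [hy] at hwe hwe'
  have hwe3 : (helper4665.zSeries (helper1257.ofZ (helper1257.y3Z D i)) (AlgebraicClosure ℚ) ^ 3
      * (helper4665.zSeries helper1257.t3Z (AlgebraicClosure ℚ)
          + ((27 : ℕ) : LaurentSeries (AlgebraicClosure ℚ))) ^ (3 - 1)) ^ N
      = helper4665.zSeries helper1257.t3Z (AlgebraicClosure ℚ) * w := by
    rw [show (3 - 1 : ℕ) = 2 from rfl, Nat.cast_ofNat]
    exact hwe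
  have hwe3' : (helper4665.zSeries (helper1257.ofZ (helper1257.y3Z D i)) (AlgebraicClosure ℚ) ^ 3
      * (((27 : ℕ) : LaurentSeries (AlgebraicClosure ℚ))
          * (helper4665.zSeries helper1257.t3Z (AlgebraicClosure ℚ))⁻¹ + 1) ^ (3 - 1)) ^ N
      = (helper4665.zSeries helper1257.t3Z (AlgebraicClosure ℚ))⁻¹ * w' := by
    rw [show (3 - 1 : ℕ) = 2 from rfl, Nat.cast_ofNat]
    exact hwe'
  have htb : ((helper2707.tbarA N hℓ hℓN A hA (Or.inr rfl) h3N :
      ↥(modularFunctionFieldFullC (IsLocalRing.ResidueField A) N)) :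
        LaurentSeries (IsLocalRing.ResidueField A))
      = helper4665.zSeries helper1257.t3Z (IsLocalRing.ResidueField A) := by
    rw [helper2707.coe_tbarA, helper2707.tR, helper2707.tZ, if_neg (by norm_num)]
    rfl
  obtain ⟨W, W', h1, h2, h3, h4⟩ := cert_transfer N ℓ hℓN A hA' helper1257.t3Z
    (helper1257.ofZ (helper1257.y3Z D i)) tinv htinv (helper4665.zSeries_t3_mem N h3N)
    (helper1257.y3Z_mem_baseChange D _ h3N i)
    (helper4665.gauss_integralityTransfer_t3 N ℓ hℓN A hA' h3N) 27 3 N w w' hw hwe3 hw' hwe3'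
    (helper2707.tbarA N hℓ hℓN A hA (Or.inr rfl) h3N) (helper1257.y3Red N ℓ hℓN A hA' D h3N i)
    htb rfl
  refine ⟨((27 : ℕ) : IsLocalRing.ResidueField A), 3, N,
    helper1257.y3Red N ℓ hℓN A hA' D h3N i, W, W', ?_, three_pos, NeZero.pos N, h1, h2, h3, h4,
    Or.inr ?_⟩
  · exact natCast_pow_ne_zero_residue N hℓ hℓN A hA Nat.prime_three h3N 3
  · have e : ((helper2707.tbarA N hℓ hℓN A hA (Or.inr rfl) h3N :
        ↥(modularFunctionFieldFullC (IsLocalRing.ResidueField A) N)) :
          LaurentSeries (IsLocalRing.ResidueField A))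
        = (helper1257.t3Red N ℓ hℓN A hA' h3N : LaurentSeries (IsLocalRing.ResidueField A)) :=
      htb
    rw [e]
    exact helper1257.t3Red_mul_laurent N ℓ hℓN A hA' D h3N i

variable {N} {r : ℕ} (hr : r = 2 ∨ r = 3) (hrN : r ∣ N)

/-- **(C4)(L2) CERT-κ**: the certificate package of `helper2707.stmt_Bbar_of_certs` (its
hypothesis `hcert`, verbatim) for `ℓ ∤ N`, `r ∈ {2, 3}`, `r ∣ N`. -/
theorem hasCert :
    ∀ (D : Fermat.Agent.S18.helper5819.IntBasis N 2) (i : Fin D.r),
      helper2707.HasCert (helper2707.tbarA N hℓ hℓN A hA hr hrN)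
        (D.laurent (IsLocalRing.ResidueField A) i) := by
  intro D i
  rcases hr with rfl | rfl
  · exact hasCert_two N hℓ hℓN A hA hrN D i
  · exact hasCert_three N hℓ hℓN A hA hrN D i

/-- **(C4) with the line and the certificates discharged**: `helper99.Stmt_Bbar N A` from the
field `ct` (L3) alone. -/
theorem stmt_Bbar_of_ct
    (hct : ∀ (x : LaurentSeries A) (hx : coeffMap A.subtype x ∈ modularFunctionFieldBar N),
      Fermat.Agent.S18.helper99.RegAwayInf N ⟨coeffMap A.subtype x, hx⟩ →
        coeffMap (IsLocalRing.residue A) x ∈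
          helper2707.Bsub (IsLocalRing.ResidueField A) N
            (helper2707.tbarA N hℓ hℓN A hA hr hrN)) :
    Fermat.Agent.S18.helper99.Stmt_Bbar N A :=
  helper2707.stmt_Bbar_of_certs hℓ hℓN A hA hr hrN (hasCert hℓ hℓN A hA hr hrN) hct

end Main

end Fermat.Agent.S18.helper5711
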