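/-
S18, track C, leaf D2 (characteristic `ℓ` half): ALL CUSP EXPANSIONS of the function field
`F_k = modularFunctionFieldFullC k N` of `X₀(N)` over an algebraically closed field `k` in which
the primes dividing `N` are invertible.  Author: helper5711.

Main results (`Ω := LaurentSeries k`, read in the variable `u = q^(1/N)`;
`Jsub k ξ m = j̄(ξ u^m)` is the S28 notation):

* `map_mem_range` (CE): for every field `E`, every ring hom `ι : Ω →+* E` and every ring hom
  `τ : F_k →+* E` which agrees with `ι` on constants and has `τ j̄ = ι (Jsub k ξ m)` with `N ∣ m`,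
  the image of `τ` lies in the image of `ι`.  (Every conjugate of every element of `F_k` is a
  Laurent series in `u`.)
* `exists_Jsub_of_dvd`: the explicit form on generators, `τ (j̄(q^d)) = ι (Jsub k ξ' m')` with
  `(N / d) ∣ m'`.
* `splits_minpoly` (SPL): for any base field `K` with `j̄ ∈ K`, mapped to some `Jsub k ξ m`
  (`N ∣ m`) in `Ω`, every minimal polynomial of an element of `F_k` over `K` splits over `Ω`.
* `natCard_algHom` (CARD): if moreover `F_k / K` is finite separable, there are exactly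
  `[F_k : K]` `K`-embeddings of `F_k` into `Ω`.

The only modular input is the landed S28 root formula (`helper508.stmt_FormalPrime`).
-/
import Mathlib
import Fermat.Prelude.Def_ModularCurve_X0ModL
import Fermat.Agent.S28.helper328_PrimeSpec
import Fermat.Agent.S28.helper508_FormalPrime

set_option autoImplicit false
set_option linter.style.haveILetI false
set_option linter.unusedSectionVars false

namespace Fermat.Agent.S18.helper5711

open Polynomial ModularCurve
open Fermat.Agent.S28.helper328 (Jsub evalJ Stmt_FormalPrime)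

noncomputable section

section Ev2

variable {A B : Type*} [CommRing A] [CommRing B]

/-- Evaluation of `Φ ∈ ℤ[Y][X]` at `X = x`, `Y = y` in a commutative ring. -/
def ev2 (Φ : Polynomial (Polynomial ℤ)) (x y : A) : A :=
  (Φ.map (Polynomial.eval₂RingHom (Int.castRingHom A) y)).eval x

theorem eval₂RingHom_comp (f : A →+* B) (y : A) :
    Polynomial.eval₂RingHom (Int.castRingHom B) (f y)
      = f.comp (Polynomial.eval₂RingHom (Int.castRingHom A) y) := by
  apply Polynomial.ringHom_ext
  · intro n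
    simp
  · simp

theorem map_ev2 (f : A →+* B) (Φ : Polynomial (Polynomial ℤ)) (x y : A) :
    f (ev2 Φ x y) = ev2 Φ (f x) (f y) := by
  unfold ev2
  rw [eval₂RingHom_comp, Polynomial.eval_map, Polynomial.eval_map, Polynomial.hom_eval₂]

theorem eval_map_map_eq_ev2 (f : A →+* B) (Φ : Polynomial (Polynomial ℤ)) (y : A) (g : B) :
    ((Φ.map (Polynomial.eval₂RingHom (Int.castRingHom A) y)).map f).eval g = ev2 Φ g (f y) := by
  unfold ev2
  rw [Polynomial.map_map, eval₂RingHom_comp]

theorem ev2_eq_evalJ {R : Type*} [CommRing R] (Φ : Polynomial (Polynomial ℤ))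
    (x J : LaurentSeries R) : ev2 Φ x J = (Φ.map (evalJ J)).eval x := rfl

end Ev2

section Relation

/-- The modular equation `Φ_p(j(q^{dp}), j(q^d)) = 0` over any commutative ring. -/
theorem ev2_qExpand_eq_zero (k : Type*) [CommRing k] (p : ℕ) [NeZero p]
    (Φ : Polynomial (Polynomial ℤ)) (Ψ : Polynomial (LaurentSeries ℤ))
    (hfac : Φ.map (evalJ (jqModC ℤ)) = (X - C (qExpand ℤ p (jqModC ℤ))) * Ψ)
    (d : ℕ) [NeZero d] [NeZero (d * p)] :
    ev2 Φ (qExpand k (d * p) (jqModC k)) (qExpand k d (jqModC k)) = 0 := by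
  have h0 : ev2 Φ (qExpand ℤ p (jqModC ℤ)) (jqModC ℤ) = 0 := by
    rw [ev2_eq_evalJ, hfac, eval_mul, eval_sub, eval_X, eval_C, sub_self, zero_mul]
  have h1 := congrArg ((qExpand k d).comp (coeffMap (Int.castRingHom k))) h0
  rw [map_ev2, map_zero] at h1
  simp only [RingHom.comp_apply] at h1
  rw [coeffMap_qExpand, coeffMap_jqModC, qExpand_qExpand] at h1
  exact h1

end Relation

section RootStep

variable {k : Type} [Field k] {E : Type*} [Field E]

/-- One step of the tower: a root of `Φ_p(X, ι J(ξ^p, p m))` is one of the `p + 1` explicit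
series. -/
theorem eq_Jsub_of_ev2_eq_zero (ι : LaurentSeries k →+* E)
    (p : ℕ) [hp : Fact p.Prime] (Φ : Polynomial (Polynomial ℤ))
    (ω : kˣ) (ξ : kˣ) (m : ℕ+)
    (hroot : Φ.map (evalJ (Jsub k (ξ ^ p) (⟨p, hp.out.pos⟩ * m))) =
        (X - C (Jsub k (ξ ^ (p ^ 2)) (⟨p, hp.out.pos⟩ ^ 2 * m))) *
          ∏ b ∈ Finset.range p, (X - C (Jsub k (ω ^ b * ξ) m)))
    (g : E) (hg : ev2 Φ g (ι (Jsub k (ξ ^ p) (⟨p, hp.out.pos⟩ * m))) = 0) :
    g = ι (Jsub k (ξ ^ (p ^ 2)) (⟨p, hp.out.pos⟩ ^ 2 * m)) ∨
      ∃ b ∈ Finset.range p, g = ι (Jsub k (ω ^ b * ξ) m) := by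
  have h2 := congrArg (fun P => (P.map ι).eval g) hroot
  simp only [evalJ] at h2
  rw [eval_map_map_eq_ev2, hg] at h2
  simp only [Polynomial.map_mul, Polynomial.map_sub, Polynomial.map_X, Polynomial.map_C,
    Polynomial.map_prod, eval_mul, eval_sub, eval_X, eval_C, eval_prod] at h2
  rcases mul_eq_zero.mp h2.symm with h | h
  · exact Or.inl (sub_eq_zero.mp h)
  · obtain ⟨b, hb, hb0⟩ := Finset.prod_eq_zero_iff.mp h
    exact Or.inr ⟨b, hb, sub_eq_zero.mp hb0⟩

end RootStep

section Main

variable {k : Type} [Field k] [IsAlgClosed k] {N : ℕ} [NeZero N]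
  {E : Type*} [Field E]

/-- **Conjugates of the generators.**  If `τ j̄ = ι (j̄(ξ u^m))` with `N ∣ m`, then for every
`d ∣ N` the image `τ (j̄(q^d))` is again of the form `ι (j̄(ξ' u^{m'}))`, with `(N / d) ∣ m'`. -/
theorem exists_Jsub_of_dvd (hN : ∀ p : ℕ, p.Prime → p ∣ N → (p : k) ≠ 0)
    (ι : LaurentSeries k →+* E) (τ : ↥(modularFunctionFieldFullC k N) →+* E)
    (ξ : kˣ) (m : ℕ+) (hm : N ∣ (m : ℕ))
    (hτj : τ ⟨jqModC k, jqModC_mem_full k N⟩ = ι (Jsub k ξ m)) :
    ∀ (d : ℕ) [NeZero d] (hd : d ∣ N), ∃ (ξ' : kˣ) (m' : ℕ+), (N / d) ∣ (m' : ℕ) ∧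
      τ ⟨qExpand k d (jqModC k), jqModCd_mem_full k N hd⟩ = ι (Jsub k ξ' m') := by
  intro d
  induction d using Nat.strong_induction_on with
  | _ d ih =>
    intro hd0 hd
    by_cases hd1 : d = 1
    · subst hd1
      refine ⟨ξ, m, by simpa using hm, ?_⟩
      rw [← hτj]
      congr 1
      exact Subtype.ext (qExpand_one_apply _)
    · -- `d = d' * p` with `p` prime
      have hd0' : d ≠ 0 := NeZero.ne d
      have hp : (d.minFac).Prime := Nat.minFac_prime hd1
      set p := d.minFac with hpdef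
      have : Fact p.Prime := ⟨hp⟩
      have : NeZero p := ⟨hp.ne_zero⟩
      have hpd : p ∣ d := Nat.minFac_dvd d
      obtain ⟨d', hd'⟩ : ∃ d', d = d' * p := ⟨d / p, (Nat.div_mul_cancel hpd).symm⟩
      have hd'0 : d' ≠ 0 := by
        rintro rfl
        exact hd0' (by simpa using hd')
      have : NeZero d' := ⟨hd'0⟩
      have hd'lt : d' < d := by
        rw [hd']
        exact lt_mul_of_one_lt_right (Nat.pos_of_ne_zero hd'0) hp.one_lt
      have hd'N : d' ∣ N := (Dvd.intro _ hd'.symm).trans hd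
      obtain ⟨ξ', m', hm', hτ'⟩ := ih d' hd'lt hd'N
      -- `N = d' * p * e`
      obtain ⟨e, he⟩ := hd
      have hNd' : N / d' = p * e := by
        rw [he, hd', mul_assoc]
        exact Nat.mul_div_cancel_left _ (Nat.pos_of_ne_zero hd'0)
      have hNd : N / d = e := by
        rw [he]
        exact Nat.mul_div_cancel_left _ (Nat.pos_of_ne_zero hd0')
      -- `m' = p * c`
      have hpm' : p ∣ (m' : ℕ) := (Dvd.intro _ hNd'.symm).trans hm'
      obtain ⟨c, hc⟩ := hpm'
      have hc0 : 0 < c := by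
        rcases Nat.eq_zero_or_pos c with h | h
        · exact absurd (by rw [hc, h, mul_zero]) m'.pos.ne'
        · exact h
      have hm'eq : m' = (⟨p, hp.pos⟩ * ⟨c, hc0⟩ : ℕ+) :=
        PNat.eq (by rw [PNat.mul_coe]; exact hc)
      -- a `p`-th root of `ξ'`
      obtain ⟨z, hz⟩ := IsAlgClosed.exists_pow_nat_eq (ξ' : k) hp.pos
      have hz0 : z ≠ 0 := by
        rintro rfl
        rw [zero_pow hp.ne_zero] at hz
        exact ξ'.ne_zero hz.symm
      have hξ' : ξ' = (Units.mk0 z hz0) ^ p := Units.ext (by simpa using hz.symm)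
      -- a primitive `p`-th root of unity
      have hpk : (p : k) ≠ 0 := hN p hp (hpd.trans ⟨e, he⟩)
      have : NeZero (p : k) := ⟨hpk⟩
      obtain ⟨ζ, hζ⟩ := HasEnoughRootsOfUnity.exists_primitiveRoot k p
      have hζ' : IsPrimitiveRoot (hζ.isUnit hp.ne_zero).unit p :=
        IsPrimitiveRoot.coe_units_iff.mp (by simpa using hζ)
      -- the S28 root formula
      obtain ⟨Φ, G, T, Ψ, -, -, -, -, -, hfac, -, hroot⟩ :=
        Fermat.Agent.S28.helper508.stmt_FormalPrime p
      have : NeZero (d' * p) := ⟨by rw [← hd']; exact hd0'⟩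
      have hrel := ev2_qExpand_eq_zero k p Φ Ψ hfac d'
      -- transport the relation to `E`
      have hdN' : d' * p ∣ N := hd' ▸ (⟨e, he⟩ : d ∣ N)
      have hrelF : ev2 Φ
          (⟨qExpand k (d' * p) (jqModC k), jqModCd_mem_full k N hdN'⟩ :
            ↥(modularFunctionFieldFullC k N))
          ⟨qExpand k d' (jqModC k), jqModCd_mem_full k N hd'N⟩ = 0 := by
        apply Subtype.val_injective
        have := map_ev2 (modularFunctionFieldFullC k N).val.toRingHom Φ
          (⟨qExpand k (d' * p) (jqModC k), jqModCd_mem_full k N hdN'⟩ :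
            ↥(modularFunctionFieldFullC k N))
          ⟨qExpand k d' (jqModC k), jqModCd_mem_full k N hd'N⟩
        simpa [hrel] using this
      have hrelE := congrArg τ hrelF
      rw [map_ev2, map_zero, hτ', hm'eq, hξ'] at hrelE
      have hstep := eq_Jsub_of_ev2_eq_zero ι p Φ (hζ.isUnit hp.ne_zero).unit (Units.mk0 z hz0)
        ⟨c, hc0⟩ (hroot k _ hζ' _ _) _ hrelE
      have hgen : (⟨qExpand k d (jqModC k), jqModCd_mem_full k N ⟨e, he⟩⟩ :
          ↥(modularFunctionFieldFullC k N)) =
          ⟨qExpand k (d' * p) (jqModC k), jqModCd_mem_full k N hdN'⟩ := by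
        apply Subtype.ext
        show qExpand k d (jqModC k) = qExpand k (d' * p) (jqModC k)
        exact qExpand_congr hd' _
      rw [hgen, hNd]
      rcases hstep with h | ⟨b, -, h⟩
      · refine ⟨_, _, ?_, h⟩
        have h1 : e ∣ (m' : ℕ) := (Dvd.intro_left _ hNd'.symm).trans hm'
        simp only [PNat.mul_coe, PNat.pow_coe, PNat.mk_coe]
        have h2 : p ^ 2 * c = p * (m' : ℕ) := by
          rw [hc]
          ring
        rw [h2]
        exact h1.mul_left p
      · refine ⟨_, _, ?_, h⟩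
        show e ∣ c
        have h1 : p * e ∣ p * c := by
          rw [← hNd', ← hc]
          exact hm'
        exact Nat.dvd_of_mul_dvd_mul_left hp.pos h1

/-- **(CE) Every conjugate embedding is a cusp expansion.**  For every field `E`, every ring
hom `ι : k((u)) →+* E` and every ring hom `τ : F_k →+* E` which agrees with `ι` on the constants
and sends `j̄` to `ι (j̄(ξ u^m))` with `N ∣ m`, the image of `τ` is contained in the image of
`ι`. -/
theorem map_mem_range (hN : ∀ p : ℕ, p.Prime → p ∣ N → (p : k) ≠ 0)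
    (ι : LaurentSeries k →+* E) (τ : ↥(modularFunctionFieldFullC k N) →+* E)
    (hτk : ∀ c : k, τ (algebraMap k ↥(modularFunctionFieldFullC k N) c) =
      ι (algebraMap k (LaurentSeries k) c))
    (ξ : kˣ) (m : ℕ+) (hm : N ∣ (m : ℕ))
    (hτj : τ ⟨jqModC k, jqModC_mem_full k N⟩ = ι (Jsub k ξ m))
    (x : ↥(modularFunctionFieldFullC k N)) : τ x ∈ ι.range := by
  obtain ⟨x, hx⟩ := x
  induction hx using IntermediateField.adjoin_induction with
  | mem x hx =>
    obtain ⟨d, hd0, hd, rfl⟩ := hx
    obtain ⟨ξ', m', -, h⟩ := exists_Jsub_of_dvd hN ι τ ξ m hm hτj d hd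
    exact ⟨_, h.symm⟩
  | algebraMap c => exact ⟨_, (hτk c).symm⟩
  | add x y hx hy hx' hy' =>
    have : (⟨x + y, add_mem hx hy⟩ : ↥(modularFunctionFieldFullC k N)) = ⟨x, hx⟩ + ⟨y, hy⟩ := rfl
    rw [this, map_add]
    exact add_mem hx' hy'
  | inv x hx hx' =>
    have : (⟨x⁻¹, inv_mem hx⟩ : ↥(modularFunctionFieldFullC k N)) = (⟨x, hx⟩)⁻¹ := rfl
    rw [this, map_inv₀]
    obtain ⟨y, hy⟩ := hx'
    exact ⟨y⁻¹, by rw [map_inv₀, hy]⟩
  | mul x y hx hy hx' hy' =>
    have : (⟨x * y, mul_mem hx hy⟩ : ↥(modularFunctionFieldFullC k N)) = ⟨x, hx⟩ * ⟨y, hy⟩ := rfl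
    rw [this, map_mul]
    exact mul_mem hx' hy'

end Main

section Splits

variable {k : Type} [Field k] [IsAlgClosed k] {N : ℕ} [NeZero N]
  {K : Type*} [Field K]
  [Algebra K ↥(modularFunctionFieldFullC k N)] [Algebra K (LaurentSeries k)]

/-- **(SPL)** Let `K` be a base field of `F_k` containing the constants (via `ik`) and `j̄`
(as `j₀`), with an algebra structure on `k((u))` which is the identity on constants and sends
`j₀` to `j̄(ξ u^m)`, `N ∣ m`.  Then the minimal polynomial over `K` of every element of `F_k`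
splits over `k((u))`. -/
theorem splits_minpoly (hN : ∀ p : ℕ, p.Prime → p ∣ N → (p : k) ≠ 0)
    [Algebra.IsAlgebraic K ↥(modularFunctionFieldFullC k N)]
    (ik : k →+* K)
    (hkF : ∀ c : k, algebraMap K ↥(modularFunctionFieldFullC k N) (ik c) =
      algebraMap k ↥(modularFunctionFieldFullC k N) c)
    (hkΩ : ∀ c : k, algebraMap K (LaurentSeries k) (ik c) = algebraMap k (LaurentSeries k) c)
    (j₀ : K)
    (hj₀ : algebraMap K ↥(modularFunctionFieldFullC k N) j₀ = ⟨jqModC k, jqModC_mem_full k N⟩)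
    (ξ : kˣ) (m : ℕ+) (hm : N ∣ (m : ℕ))
    (hj₀' : algebraMap K (LaurentSeries k) j₀ = Jsub k ξ m)
    (x : ↥(modularFunctionFieldFullC k N)) :
    ((minpoly K x).map (algebraMap K (LaurentSeries k))).Splits := by
  letI : Algebra K (AlgebraicClosure (LaurentSeries k)) :=
    ((algebraMap (LaurentSeries k) (AlgebraicClosure (LaurentSeries k))).comp
      (algebraMap K (LaurentSeries k))).toAlgebra
  have htower : ∀ a : K, algebraMap K (AlgebraicClosure (LaurentSeries k)) a =
      algebraMap (LaurentSeries k) (AlgebraicClosure (LaurentSeries k))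
        (algebraMap K (LaurentSeries k) a) := fun _ => rfl
  have hmap : ((minpoly K x).map (algebraMap K (LaurentSeries k))).map
      (algebraMap (LaurentSeries k) (AlgebraicClosure (LaurentSeries k))) =
      (minpoly K x).map (algebraMap K (AlgebraicClosure (LaurentSeries k))) := by
    rw [Polynomial.map_map]
    rfl
  refine Polynomial.Splits.of_splits_map
    (algebraMap (LaurentSeries k) (AlgebraicClosure (LaurentSeries k))) ?_ ?_
  · rw [hmap]
    exact IsAlgClosed.splits _
  · intro a ha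
    rw [hmap] at ha
    have hroot : aeval a (minpoly K x) = 0 := by
      have h1 := (Polynomial.mem_roots'.mp ha).2
      rwa [Polynomial.IsRoot.def, Polynomial.eval_map_algebraMap] at h1
    obtain ⟨φ, hφ⟩ := IntermediateField.exists_algHom_of_splits_of_aeval
      (F := K) (E := ↥(modularFunctionFieldFullC k N))
      (K := AlgebraicClosure (LaurentSeries k))
      (fun s => ⟨Algebra.IsIntegral.isIntegral s, IsAlgClosed.splits _⟩) hroot
    rw [← hφ]
    refine map_mem_range hN (algebraMap (LaurentSeries k) (AlgebraicClosure (LaurentSeries k)))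
      φ.toRingHom ?_ ξ m hm ?_ x
    · intro c
      show φ (algebraMap k ↥(modularFunctionFieldFullC k N) c) = _
      rw [← hkF, φ.commutes, htower, hkΩ]
    · show φ ⟨jqModC k, jqModC_mem_full k N⟩ = _
      rw [← hj₀, φ.commutes, htower, hj₀']

/-- **(CARD)** In the situation of `splits_minpoly`, if `F_k / K` is finite and separable, there
are exactly `[F_k : K]` embeddings of `F_k` into `k((u))` over `K`: all conjugate embeddings are
cusp expansions. -/
theorem natCard_algHom (hN : ∀ p : ℕ, p.Prime → p ∣ N → (p : k) ≠ 0)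
    [FiniteDimensional K ↥(modularFunctionFieldFullC k N)]
    [Algebra.IsSeparable K ↥(modularFunctionFieldFullC k N)]
    (ik : k →+* K)
    (hkF : ∀ c : k, algebraMap K ↥(modularFunctionFieldFullC k N) (ik c) =
      algebraMap k ↥(modularFunctionFieldFullC k N) c)
    (hkΩ : ∀ c : k, algebraMap K (LaurentSeries k) (ik c) = algebraMap k (LaurentSeries k) c)
    (j₀ : K)
    (hj₀ : algebraMap K ↥(modularFunctionFieldFullC k N) j₀ = ⟨jqModC k, jqModC_mem_full k N⟩)
    (ξ : kˣ) (m : ℕ+) (hm : N ∣ (m : ℕ))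
    (hj₀' : algebraMap K (LaurentSeries k) j₀ = Jsub k ξ m) :
    Nat.card (↥(modularFunctionFieldFullC k N) →ₐ[K] LaurentSeries k) =
      Module.finrank K ↥(modularFunctionFieldFullC k N) :=
  AlgHom.natCard_of_splits K ↥(modularFunctionFieldFullC k N) (LaurentSeries k)
    (fun x => splits_minpoly hN ik hkF hkΩ j₀ hj₀ ξ m hm hj₀' x)

end Splits

end

end Fermat.Agent.S18.helper5711
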