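/-
S18-KC-SF (helper5859): SPECIAL-FIBRE SUPPLY for the abstract Kummer core
`Fermat.Agent.S18.helper1788.kummer_core`.

Setting: a valued field `(F, v)` over a field `L`, a "reduction" `red : F → Fk` (a ring
homomorphism on `{v ≤ 1}` with kernel `{v < 1}`, onto a `kk`-algebra `Fk`, `kk` = residue field
of `L`), families of `L`-subspaces `M1 k, M2 k, M12 k` of `F` and of `kk`-subspaces
`N1 k, N2 k, N12 k` of `Fk`.

* `squeeze` : a cartesian `L`-subspace `M` whose unit ball reduces INTO `N` with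
  `finrank N ≤ finrank M` reduces ONTO `N`.
* `exists_decomp` : the special-fibre sum formula `NB ≤ N0 ⊔ N1 ⊔ N2` + surjectivity of the three
  reductions + value group equality + Nakayama give the norm-controlled decomposition `hsurj`
  of `kummer_core`.
* `exists_seeds` : the seeds `a₀, b₀` of `kummer_core`.
* `kummer_core_special_fibre` : the Kummer core with all special-fibre inputs expressed on the
  special fibre.
-/
import Mathlib
import Fermat.Agent.S18.helper1788_KummerCore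

set_option autoImplicit false

namespace Fermat.Agent.S18.helper5859

open Submodule

section Abstract

variable {F : Type*} [Field F] {Γ₀ : Type*} [LinearOrderedCommGroupWithZero Γ₀]

/-- Reduction data: `red` is additive and multiplicative on the unit ball of `v`, its kernel on
the unit ball is the open unit ball, and every element of `kk` is the reduction of a constant
(an element of `L`) of norm `≤ 1`. -/
structure RedData (v : Valuation F Γ₀) (L : Type*) [Field L] [Algebra L F] (kk : Type*) [Field kk]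
    {Fk : Type*} [CommRing Fk] [Algebra kk Fk] (red : F → Fk) : Prop where
  map_add : ∀ a b : F, v a ≤ 1 → v b ≤ 1 → red (a + b) = red a + red b
  map_mul : ∀ a b : F, v a ≤ 1 → v b ≤ 1 → red (a * b) = red a * red b
  map_one : red 1 = 1
  eq_zero_iff : ∀ a : F, v a ≤ 1 → (red a = 0 ↔ v a < 1)
  exists_const : ∀ κ : kk, ∃ c : L, v (algebraMap L F c) ≤ 1 ∧
    red (algebraMap L F c) = algebraMap kk Fk κ

/-- An `L`-subspace of `F` is cartesian if it is spanned by a finite orthonormal family. -/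
def Cartesian (v : Valuation F Γ₀) {L : Type*} [Field L] [Algebra L F] (M : Submodule L F) : Prop :=
  ∃ (n : ℕ) (e : Fin n → F), (∀ i, e i ∈ M) ∧ (∀ i, v (e i) ≤ 1) ∧
    (∀ (c : Fin n → L) (i : Fin n), v (algebraMap L F (c i)) ≤ v (∑ j, c j • e j)) ∧
    Submodule.span L (Set.range e) = M

variable {v : Valuation F Γ₀} {L : Type*} [Field L] [Algebra L F] {kk : Type*} [Field kk]
  {Fk : Type*} [CommRing Fk] [Algebra kk Fk] {red : F → Fk}

namespace RedData

variable (h : RedData v L kk red)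
include h

theorem map_zero : red 0 = 0 :=
  (h.eq_zero_iff 0 (by simp)).mpr (by simp)

theorem map_neg (a : F) (ha : v a ≤ 1) : red (-a) = -red a := by
  have h1 := h.map_add a (-a) ha (by rwa [Valuation.map_neg])
  rw [add_neg_cancel, h.map_zero] at h1
  exact (neg_eq_of_add_eq_zero_right h1.symm).symm

theorem map_sub (a b : F) (ha : v a ≤ 1) (hb : v b ≤ 1) : red (a - b) = red a - red b := by
  rw [sub_eq_add_neg, h.map_add a (-b) ha (by rwa [Valuation.map_neg]), h.map_neg b hb,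
    sub_eq_add_neg]

theorem map_pow (a : F) (ha : v a ≤ 1) (n : ℕ) : red (a ^ n) = red a ^ n := by
  induction n with
  | zero => rw [pow_zero, pow_zero, h.map_one]
  | succ n ih =>
    rw [pow_succ, pow_succ, h.map_mul _ _ (by rw [_root_.map_pow]; exact pow_le_one' ha n) ha, ih]

theorem map_sum {ι : Type*} (s : Finset ι) (f : ι → F) (hf : ∀ i ∈ s, v (f i) ≤ 1) :
    red (∑ i ∈ s, f i) = ∑ i ∈ s, red (f i) := by
  classical
  induction s using Finset.induction_on with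
  | empty => rw [Finset.sum_empty, Finset.sum_empty, h.map_zero]
  | insert a s ha ih =>
    rw [Finset.sum_insert ha, Finset.sum_insert ha,
      h.map_add _ _ (hf a (Finset.mem_insert_self a s))
        (v.map_sum_le fun i hi => hf i (Finset.mem_insert_of_mem hi)),
      ih fun i hi => hf i (Finset.mem_insert_of_mem hi)]

theorem nontrivial : Nontrivial Fk := by
  refine ⟨⟨1, 0, fun h10 => ?_⟩⟩
  have h1 : red 1 = 0 := by rw [h.map_one, h10]
  have := (h.eq_zero_iff 1 (by simp)).mp h1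
  simp at this

theorem map_smul (c : L) (hc : v (algebraMap L F c) ≤ 1) (a : F) (ha : v a ≤ 1) :
    red (c • a) = red (algebraMap L F c) * red a := by
  rw [Algebra.smul_def, h.map_mul _ _ hc ha]

end RedData

/-- An orthonormal family is linearly independent. -/
theorem linearIndependent_of_ortho {n : ℕ} {e : Fin n → F}
    (horth : ∀ (c : Fin n → L) (i : Fin n), v (algebraMap L F (c i)) ≤ v (∑ j, c j • e j)) :
    LinearIndependent L e := by
  rw [Fintype.linearIndependent_iff]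
  intro g hg i
  have h1 := horth g i
  rw [hg, map_zero, le_zero_iff, map_eq_zero] at h1
  exact (map_eq_zero_iff _ (algebraMap L F).injective).mp h1

/-- **Squeeze.** If the unit ball of a cartesian `L`-subspace `M` of `F` reduces into a
`kk`-subspace `N` of `Fk` of dimension at most `dim_L M`, then it reduces ONTO `N`. -/
theorem squeeze (h : RedData v L kk red) {M : Submodule L F} (hM : Cartesian v M)
    (N : Submodule kk Fk) [Module.Finite kk N]
    (hcont : ∀ a ∈ M, v a ≤ 1 → red a ∈ N)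
    (hdim : Module.finrank kk N ≤ Module.finrank L M) :
    ∀ y ∈ N, ∃ a ∈ M, v a ≤ 1 ∧ red a = y := by
  classical
  obtain ⟨n, e, heM, he1, horth, hspan⟩ := hM
  have := h.nontrivial
  have hli : LinearIndependent L e := linearIndependent_of_ortho horth
  have hfr : Module.finrank L M = n := by
    rw [← hspan, finrank_span_eq_card hli, Fintype.card_fin]
  -- reduction of a combination with integral coefficients
  have hredsum : ∀ c : Fin n → L, (∀ i, v (algebraMap L F (c i)) ≤ 1) →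
      red (∑ i, c i • e i) = ∑ i, red (algebraMap L F (c i)) * red (e i) := by
    intro c hc
    rw [h.map_sum]
    · exact Finset.sum_congr rfl fun i _ => h.map_smul (c i) (hc i) (e i) (he1 i)
    · intro i _
      rw [Algebra.smul_def, map_mul]
      exact mul_le_one' (hc i) (he1 i)
  set eb : Fin n → N := fun i => ⟨red (e i), hcont (e i) (heM i) (he1 i)⟩ with heb
  have hlib : LinearIndependent kk eb := by
    rw [Fintype.linearIndependent_iff]
    intro g hg i
    choose c hc1 hc2 using fun i => h.exists_const (g i)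
    have h0 : red (∑ i, c i • e i) = 0 := by
      rw [hredsum c hc1]
      have h2 := congrArg (Subtype.val : N → Fk) hg
      rw [Submodule.coe_sum] at h2
      simp only [Submodule.coe_smul, heb, Submodule.coe_zero] at h2
      rw [← h2]
      exact Finset.sum_congr rfl fun i _ => by rw [hc2 i, Algebra.smul_def]
    have hle : v (∑ i, c i • e i) ≤ 1 := by
      refine v.map_sum_le fun i _ => ?_
      rw [Algebra.smul_def, map_mul]
      exact mul_le_one' (hc1 i) (he1 i)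
    have hlt := (h.eq_zero_iff _ hle).mp h0
    have hci : v (algebraMap L F (c i)) < 1 := lt_of_le_of_lt (horth c i) hlt
    have hri := (h.eq_zero_iff _ (hc1 i)).mpr hci
    rw [hc2 i] at hri
    exact (map_eq_zero_iff _ (algebraMap kk Fk).injective).mp hri
  have hcard : Fintype.card (Fin n) = Module.finrank kk N := by
    have h1 := hlib.fintype_card_le_finrank
    rw [Fintype.card_fin] at h1 ⊢
    omega
  have htop := hlib.span_eq_top_of_card_eq_finrank' hcard
  intro y hy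
  have hmem : (⟨y, hy⟩ : N) ∈ Submodule.span kk (Set.range eb) := by rw [htop]; trivial
  obtain ⟨g, hg⟩ := (Submodule.mem_span_range_iff_exists_fun kk).mp hmem
  choose c hc1 hc2 using fun i => h.exists_const (g i)
  refine ⟨∑ i, c i • e i, ?_, ?_, ?_⟩
  · exact Submodule.sum_mem _ fun i _ => Submodule.smul_mem _ _ (heM i)
  · refine v.map_sum_le fun i _ => ?_
    rw [Algebra.smul_def, map_mul]
    exact mul_le_one' (hc1 i) (he1 i)
  · rw [hredsum c hc1]
    have h2 := congrArg (Subtype.val : N → Fk) hg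
    rw [Submodule.coe_sum] at h2
    simp only [Submodule.coe_smul, heb] at h2
    rw [← h2]
    exact Finset.sum_congr rfl fun i _ => by rw [hc2 i, Algebra.smul_def]

section Decomp

variable (v L) in
/-- The valuation ring of `L` induced by `v`. -/
abbrev baseRing : ValuationSubring L := (v.comap (algebraMap L F)).valuationSubring

theorem mem_baseRing {c : L} : c ∈ baseRing v L ↔ v (algebraMap L F c) ≤ 1 :=
  Valuation.mem_valuationSubring_iff _ _

theorem baseRing_smul (a : baseRing v L) (x : F) : a • x = (a : L) • x :=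
  (algebraMap_smul L a x).symm

variable (v) in
/-- The unit ball of an `L`-subspace of `F`, as a module over the valuation ring of `L`. -/
def ball (M : Submodule L F) : Submodule (baseRing v L) F where
  carrier := {x | x ∈ M ∧ v x ≤ 1}
  zero_mem' := ⟨M.zero_mem, by simp⟩
  add_mem' := fun ha hb => ⟨M.add_mem ha.1 hb.1, v.map_add_le ha.2 hb.2⟩
  smul_mem' := fun a x hx => by
    refine ⟨?_, ?_⟩
    · rw [baseRing_smul]
      exact M.smul_mem _ hx.1
    · rw [baseRing_smul, Algebra.smul_def, map_mul]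
      exact mul_le_one' (mem_baseRing.mp a.2) hx.2

theorem mem_ball {M : Submodule L F} {x : F} : x ∈ ball v M ↔ x ∈ M ∧ v x ≤ 1 := Iff.rfl

theorem mem_maximalIdeal_baseRing {c : L} (hc : v (algebraMap L F c) < 1) :
    (⟨c, mem_baseRing.mpr hc.le⟩ : baseRing v L) ∈ IsLocalRing.maximalIdeal (baseRing v L) := by
  rw [IsLocalRing.mem_maximalIdeal, mem_nonunits_iff]
  rintro ⟨u, hu⟩
  have h1 : c * ((u⁻¹ : (baseRing v L)ˣ) : baseRing v L) = (1 : L) := by
    have h2 := congrArg (Subtype.val : baseRing v L → L) u.mul_inv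
    rw [hu] at h2
    exact h2
  have h3 := congrArg (fun z : L => v (algebraMap L F z)) h1
  simp only [map_mul, map_one] at h3
  have h4 : v (algebraMap L F (((u⁻¹ : (baseRing v L)ˣ) : baseRing v L) : L)) ≤ 1 :=
    mem_baseRing.mp (SetLike.coe_mem _)
  have h5 : v (algebraMap L F c) * v (algebraMap L F (((u⁻¹ : (baseRing v L)ˣ) : baseRing v L) : L))
      < 1 :=
    lt_of_le_of_lt (mul_le_of_le_one_right' h4) hc
  rw [h3] at h5
  exact lt_irrefl _ h5

/-- **Norm-controlled decomposition (`hsurj` of the Kummer core).** If the reduction of the unit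
ball of the cartesian space `B` lies in `NB ≤ N0 ⊔ N1 ⊔ N2` and the unit balls of `B0, M1, M2 ≤ B`
reduce onto `N0, N1, N2`, then every `c ∈ B` is `c₀ + a₁ - b₁` with `c₀ ∈ B0`, `a₁ ∈ M1`,
`b₁ ∈ M2` of norm at most `|c|` (value group of `F` = value group of `L`; Nakayama). -/
theorem exists_decomp (h : RedData v L kk red)
    (hVG : ∀ f : F, f ≠ 0 → ∃ c : L, v (algebraMap L F c) = v f)
    {B B0 M1 M2 : Submodule L F} (hB0 : B0 ≤ B) (hM1 : M1 ≤ B) (hM2 : M2 ≤ B)
    (hB : Cartesian v B)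
    {NB N0 N1 N2 : Submodule kk Fk}
    (hcont : ∀ a ∈ B, v a ≤ 1 → red a ∈ NB)
    (hsum : NB ≤ N0 ⊔ N1 ⊔ N2)
    (hs0 : ∀ y ∈ N0, ∃ a ∈ B0, v a ≤ 1 ∧ red a = y)
    (hs1 : ∀ y ∈ N1, ∃ a ∈ M1, v a ≤ 1 ∧ red a = y)
    (hs2 : ∀ y ∈ N2, ∃ a ∈ M2, v a ≤ 1 ∧ red a = y) :
    ∀ c ∈ B, ∃ c₀ ∈ B0, ∃ a₁ ∈ M1, ∃ b₁ ∈ M2,
      c = c₀ + a₁ - b₁ ∧ v a₁ ≤ v c ∧ v b₁ ≤ v c ∧ v c₀ ≤ v c := by
  classical
  obtain ⟨n, e, heB, he1, horth, hspan⟩ := hB
  -- coordinates in the orthonormal basis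
  have hcoord : ∀ x ∈ B, ∃ c : Fin n → L, x = ∑ i, c i • e i ∧
      ∀ i, v (algebraMap L F (c i)) ≤ v x := by
    intro x hx
    rw [← hspan] at hx
    obtain ⟨c, rfl⟩ := (Submodule.mem_span_range_iff_exists_fun L).mp hx
    exact ⟨c, rfl, fun i => horth c i⟩
  have hFG : (ball v B).FG := by
    have hT : ball v B = Submodule.span (baseRing v L) (Set.range e) := by
      apply le_antisymm
      · rintro x ⟨hx, hx1⟩
        obtain ⟨c, rfl, hc⟩ := hcoord x hx
        refine Submodule.sum_mem _ fun i _ => ?_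
        have hci : c i ∈ baseRing v L := mem_baseRing.mpr ((hc i).trans hx1)
        have h2 : c i • e i = (⟨c i, hci⟩ : baseRing v L) • e i :=
          (baseRing_smul (v := v) ⟨c i, hci⟩ (e i)).symm
        rw [h2]
        exact Submodule.smul_mem _ _ (Submodule.subset_span ⟨i, rfl⟩)
      · rw [Submodule.span_le]
        rintro _ ⟨i, rfl⟩
        exact ⟨heB i, he1 i⟩
    rw [hT]
    exact Submodule.fg_span (Set.finite_range e)
  have hjac : IsLocalRing.maximalIdeal (baseRing v L) ≤ (⊥ : Ideal (baseRing v L)).jacobson := by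
    rw [IsLocalRing.jacobson_eq_maximalIdeal ⊥ bot_ne_top]
  have hnak : ball v B ≤ (ball v B0 ⊔ ball v M1 ⊔ ball v M2) ⊔
      IsLocalRing.maximalIdeal (baseRing v L) • ball v B := by
    rintro x ⟨hx, hx1⟩
    have hrx := hsum (hcont x hx hx1)
    obtain ⟨y01, hy01, y2, hy2, hxy⟩ := Submodule.mem_sup.mp hrx
    obtain ⟨y0, hy0, y1, hy1, hy01'⟩ := Submodule.mem_sup.mp hy01
    obtain ⟨c0, hc0, hc01, rfl⟩ := hs0 y0 hy0
    obtain ⟨a1, ha1, ha11, rfl⟩ := hs1 y1 hy1
    obtain ⟨b1, hb1, hb11, rfl⟩ := hs2 y2 hy2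
    have hs1' : v (c0 + a1 + b1) ≤ 1 := v.map_add_le (v.map_add_le hc01 ha11) hb11
    have hrB : x - (c0 + a1 + b1) ∈ B :=
      B.sub_mem hx (B.add_mem (B.add_mem (hB0 hc0) (hM1 ha1)) (hM2 hb1))
    have hr1 : v (x - (c0 + a1 + b1)) ≤ 1 := v.map_sub_le hx1 hs1'
    have hred : red (x - (c0 + a1 + b1)) = 0 := by
      rw [h.map_sub _ _ hx1 hs1', h.map_add _ _ (v.map_add_le hc01 ha11) hb11,
        h.map_add _ _ hc01 ha11, ← hxy, ← hy01', sub_self]
    have hrlt := (h.eq_zero_iff _ hr1).mp hred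
    obtain ⟨μ, hμ, hμv⟩ := hcoord _ hrB
    have hxeq : x = (c0 + a1 + b1) + (x - (c0 + a1 + b1)) := by ring
    rw [hxeq]
    refine Submodule.add_mem_sup ?_ ?_
    · exact Submodule.add_mem _ (Submodule.add_mem _
        (Submodule.mem_sup_left (Submodule.mem_sup_left ⟨hc0, hc01⟩))
        (Submodule.mem_sup_left (Submodule.mem_sup_right ⟨ha1, ha11⟩)))
        (Submodule.mem_sup_right ⟨hb1, hb11⟩)
    · rw [hμ]
      refine Submodule.sum_mem _ fun i _ => ?_
      have hμi : v (algebraMap L F (μ i)) < 1 := lt_of_le_of_lt (hμv i) hrlt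
      have h2 : μ i • e i = (⟨μ i, mem_baseRing.mpr hμi.le⟩ : baseRing v L) • e i :=
        (baseRing_smul (v := v) ⟨μ i, mem_baseRing.mpr hμi.le⟩ (e i)).symm
      rw [h2]
      exact Submodule.smul_mem_smul (mem_maximalIdeal_baseRing hμi) ⟨heB i, he1 i⟩
  have hTS : ball v B ≤ ball v B0 ⊔ ball v M1 ⊔ ball v M2 :=
    Submodule.le_of_le_smul_of_le_jacobson_bot hFG hjac hnak
  intro c hc
  by_cases hc0 : c = 0
  · subst hc0
    exact ⟨0, B0.zero_mem, 0, M1.zero_mem, 0, M2.zero_mem, by simp, le_rfl, le_rfl, le_rfl⟩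
  obtain ⟨l, hl⟩ := hVG c hc0
  have hvc : v c ≠ 0 := (Valuation.ne_zero_iff v).mpr hc0
  have hl0 : l ≠ 0 := by
    rintro rfl
    rw [map_zero, map_zero] at hl
    exact hvc hl.symm
  have hc'B : l⁻¹ • c ∈ B := B.smul_mem _ hc
  have hc'1 : v (l⁻¹ • c) ≤ 1 := by
    rw [Algebra.smul_def, map_mul, map_inv₀, map_inv₀, hl, inv_mul_cancel₀ hvc]
  obtain ⟨s01, hs01, s2, hs2m, hsc⟩ := Submodule.mem_sup.mp (hTS ⟨hc'B, hc'1⟩)
  obtain ⟨s0, hs0m, s1, hs1m, hs01'⟩ := Submodule.mem_sup.mp hs01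
  refine ⟨l • s0, B0.smul_mem _ hs0m.1, l • s1, M1.smul_mem _ hs1m.1, -(l • s2),
    M2.neg_mem (M2.smul_mem _ hs2m.1), ?_, ?_, ?_, ?_⟩
  · have h3 : c = l • (l⁻¹ • c) := by rw [smul_smul, mul_inv_cancel₀ hl0, one_smul]
    rw [h3, ← hsc, ← hs01', smul_add, smul_add, sub_neg_eq_add]
  · rw [Algebra.smul_def, map_mul, hl]
    exact mul_le_of_le_one_right' hs1m.2
  · rw [Valuation.map_neg, Algebra.smul_def, map_mul, hl]
    exact mul_le_of_le_one_right' hs2m.2
  · rw [Algebra.smul_def, map_mul, hl]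
    exact mul_le_of_le_one_right' hs0m.2

end Decomp

section Core

/-- A cartesian subspace has an orthonormal basis in the shape consumed by
`helper1788.kummer_core`. -/
theorem Cartesian.exists_basis {M : Submodule L F} (hM : Cartesian v M) :
    ∃ (n : ℕ) (bas : Module.Basis (Fin n) L M), (∀ i, v (bas i : F) ≤ 1) ∧
      ∀ (x : M) (i : Fin n), v (algebraMap L F (bas.repr x i)) ≤ v (x : F) := by
  classical
  obtain ⟨n, e, heM, he1, horth, hspan⟩ := hM
  have hli : LinearIndependent L e := linearIndependent_of_ortho horth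
  have hli' : LinearIndependent L (fun i => (⟨e i, heM i⟩ : M)) :=
    LinearIndependent.of_comp M.subtype hli
  have hsp : ⊤ ≤ Submodule.span L (Set.range (fun i => (⟨e i, heM i⟩ : M))) := by
    rintro x -
    have hx : (x : F) ∈ Submodule.span L (Set.range e) := by rw [hspan]; exact x.2
    obtain ⟨c, hc⟩ := (Submodule.mem_span_range_iff_exists_fun L).mp hx
    have hxe : x = ∑ i, c i • (⟨e i, heM i⟩ : M) := by
      apply Subtype.ext
      rw [← hc, Submodule.coe_sum]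
      rfl
    rw [hxe]
    exact Submodule.sum_mem _ fun i _ =>
      Submodule.smul_mem _ _ (Submodule.subset_span ⟨i, rfl⟩)
  refine ⟨n, Module.Basis.mk hli' hsp, fun i => ?_, fun x i => ?_⟩
  · rw [Module.Basis.mk_apply]
    exact he1 i
  · have hx := (Module.Basis.mk hli' hsp).sum_repr x
    have hx' : (x : F) = ∑ j, (Module.Basis.mk hli' hsp).repr x j • e j := by
      conv_lhs => rw [← hx]
      rw [Submodule.coe_sum]
      refine Finset.sum_congr rfl fun j _ => ?_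
      rw [Module.Basis.mk_apply]
      rfl
    have h2 := horth (fun j => (Module.Basis.mk hli' hsp).repr x j) i
    rw [← hx'] at h2
    exact h2

/-- **Seeds of the Kummer core**: lifts `a₀ ∈ M1`, `b₀ ∈ M2` of an `m`-th root `θ` of the
reduction of `u⁻¹` lying in both `N1` and `N2`. -/
theorem exists_seeds (h : RedData v L kk red) {M1 M2 : Submodule L F} {N1 N2 : Submodule kk Fk}
    (hs1 : ∀ y ∈ N1, ∃ a ∈ M1, v a ≤ 1 ∧ red a = y)
    (hs2 : ∀ y ∈ N2, ∃ a ∈ M2, v a ≤ 1 ∧ red a = y)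
    {m : ℕ} (hm : m ≠ 0) {u : F} (hu : v u ≤ 1) {θ : Fk} (hθ1 : θ ∈ N1) (hθ2 : θ ∈ N2)
    (hθ : θ ^ m * red u = 1) :
    ∃ a₀ ∈ M1, ∃ b₀ ∈ M2, v a₀ = 1 ∧ v (a₀ - b₀) < 1 ∧ v (a₀ ^ m * u - 1) < 1 ∧
      v (b₀ ^ m * u - 1) < 1 := by
  have := h.nontrivial
  obtain ⟨a, ha, ha1, hra⟩ := hs1 θ hθ1
  obtain ⟨b, hb, hb1, hrb⟩ := hs2 θ hθ2
  have hθ0 : θ ≠ 0 := by
    rintro rfl
    rw [zero_pow hm, zero_mul] at hθ
    exact zero_ne_one hθ
  have key : ∀ c : F, v c ≤ 1 → red c = θ → v (c ^ m * u - 1) < 1 := by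
    intro c hc1 hrc
    have hcm : v (c ^ m) ≤ 1 := by rw [map_pow]; exact pow_le_one' hc1 m
    have h1 : v (c ^ m * u) ≤ 1 := by rw [map_mul]; exact mul_le_one' hcm hu
    have h11 : v (1 : F) ≤ 1 := le_of_eq v.map_one
    refine (h.eq_zero_iff _ (v.map_sub_le h1 h11)).mp ?_
    rw [h.map_sub _ _ h1 h11, h.map_mul _ _ hcm hu, h.map_pow _ hc1, hrc, hθ, h.map_one, sub_self]
  refine ⟨a, ha, b, hb, ?_, ?_, key a ha1 hra, key b hb1 hrb⟩
  · refine le_antisymm ha1 (not_lt.mp fun hlt => hθ0 ?_)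
    rw [← hra]
    exact (h.eq_zero_iff a ha1).mpr hlt
  · refine (h.eq_zero_iff _ (v.map_sub_le ha1 hb1)).mp ?_
    rw [h.map_sub _ _ ha1 hb1, hra, hrb, sub_self]

/-- **Kummer core with special-fibre inputs.** The generic-fibre hypotheses are those of
`helper1788.kummer_core` verbatim; the three remaining inputs (orthonormal basis at level `k₀`,
norm-controlled decomposition, seeds) are produced from: cartesian spaces `M12 k`, reduction
containment `red (M12 k)° ⊆ N12 k`, the special-fibre sum formula `N12 k ≤ N12 k₀ ⊔ N1 k ⊔ N2 k`,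
surjectivity of the reductions `(M12 k₀)° → N12 k₀`, `(M1 k)° → N1 k`, `(M2 k)° → N2 k`
(see `squeeze`), and an `m`-th root `θ` of `(red u)⁻¹` in `N1 k₀ ⊓ N2 k₀`. -/
theorem kummer_core_special_fibre
    (v : Valuation F Γ₀) (harch : ∀ ε κ : Γ₀, ε < 1 → κ ≠ 0 → ∃ n : ℕ, ε ^ n < κ)
    (m : ℕ) (hm : v (m : F) = 1) (u : F) (hu : v u ≤ 1)
    (M1 M2 M12 P Q : ℕ → Submodule L F)
    (hM1 : ∀ k, M1 k ≤ M12 k) (hM2 : ∀ k, M2 k ≤ M12 k)
    (hP1 : ∀ k, (1 : F) ∈ P k) (hQ1 : ∀ k, (1 : F) ∈ Q k)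
    (hP : ∀ k, ∀ a ∈ M1 k, a ^ m * u ∈ P (m * k))
    (hQ : ∀ k, ∀ b ∈ M2 k, b ^ m * u ∈ Q (m * k))
    (hPM : ∀ j k, ∀ s ∈ P j, ∀ a ∈ M1 k, s * a ∈ M1 (j + k))
    (hQM : ∀ j k, ∀ s ∈ Q j, ∀ b ∈ M2 k, s * b ∈ M2 (j + k))
    (k₀ : ℕ)
    (hsep : ∀ k, k₀ ≤ k → ∀ a ∈ M1 k, ∀ b ∈ M2 k, a - b ∈ M12 k₀ → a ∈ M1 k₀ ∧ b ∈ M2 k₀)
    (hmono : ∀ k, k₀ ≤ k → M12 k₀ ≤ M12 k)
    {red : F → Fk} (hred : RedData v L kk red)
    (hVG : ∀ f : F, f ≠ 0 → ∃ c : L, v (algebraMap L F c) = v f)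
    (hcart : ∀ k, k₀ ≤ k → Cartesian v (M12 k))
    (N1 N2 N12 : ℕ → Submodule kk Fk)
    (hcont : ∀ k, k₀ ≤ k → ∀ a ∈ M12 k, v a ≤ 1 → red a ∈ N12 k)
    (hsum : ∀ k, k₀ ≤ k → N12 k ≤ N12 k₀ ⊔ N1 k ⊔ N2 k)
    (hs12 : ∀ y ∈ N12 k₀, ∃ a ∈ M12 k₀, v a ≤ 1 ∧ red a = y)
    (hs1 : ∀ k, k₀ ≤ k → ∀ y ∈ N1 k, ∃ a ∈ M1 k, v a ≤ 1 ∧ red a = y)
    (hs2 : ∀ k, k₀ ≤ k → ∀ y ∈ N2 k, ∃ a ∈ M2 k, v a ≤ 1 ∧ red a = y)
    (θ : Fk) (hθ1 : θ ∈ N1 k₀) (hθ2 : θ ∈ N2 k₀) (hθ : θ ^ m * red u = 1) :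
    ∃ f : F, f ≠ 0 ∧ f ∈ M1 k₀ ∧ f ∈ M2 k₀ := by
  have hm0 : m ≠ 0 := by
    rintro rfl
    rw [Nat.cast_zero, map_zero] at hm
    exact zero_ne_one hm
  obtain ⟨a₀, ha₀, b₀, hb₀, hva₀, hab₀, hsa₀, hsb₀⟩ :=
    exists_seeds hred (hs1 k₀ le_rfl) (hs2 k₀ le_rfl) hm0 hu hθ1 hθ2 hθ
  obtain ⟨n, bas, -, horth⟩ := (hcart k₀ le_rfl).exists_basis
  have hsurj : ∀ k, k₀ ≤ k → ∀ c ∈ M12 k, ∃ c₀ ∈ M12 k₀, ∃ a₁ ∈ M1 k, ∃ b₁ ∈ M2 k,
      c = c₀ + a₁ - b₁ ∧ v a₁ ≤ v c ∧ v b₁ ≤ v c ∧ v c₀ ≤ v c := fun k hk =>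
    exists_decomp hred hVG (hmono k hk) (hM1 k) (hM2 k) (hcart k hk) (hcont k hk) (hsum k hk)
      hs12 (hs1 k hk) (hs2 k hk)
  exact Fermat.Agent.S18.helper1788.kummer_core v harch m hm u M1 M2 M12 P Q hM1 hM2 hP1 hQ1 hP hQ
    hPM hQM k₀ hsep hsurj bas horth a₀ b₀ ha₀ hb₀ hva₀ hab₀ hsa₀ hsb₀

end Core

end Abstract

end Fermat.Agent.S18.helper5859
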