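import Fermat.Agent.S18.helper99_SpecC
import Fermat.Agent.S18.helper4226_KummerKF
import Fermat.Agent.S24.helper1370_PlaceBasics

/-!
# S18, track C, leaf (C0): `helper99.PlaceFacts N`

The four place facts of the function field `F_N = modularFunctionFieldBar N` in characteristic
zero that track C consumes:

* `principal` : principal divisors exist (landed S24 closure, re-exported by `helper4226`);
* `deg_one`   : every place has degree one (same source);
* `const`     : a function without zeros and poles is a constant (`helper7885`);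
* `cusp`      : the cusp `∞`, i.e. a place whose order function is the `q`-order.

The cusp place is `helper1370.ofAddValuation` applied to the `q`-order valuation `qVal N`
(the restriction of `HahnSeries.addVal` to `F_N`); its value index is `1` because `j` has
`q`-order `-1`.  The construction of the cusp place works at every level `N` (including `0`);
the other three facts need `N ≠ 0`.
-/

set_option autoImplicit false
set_option synthInstance.maxHeartbeats 400000

noncomputable section

namespace Fermat.Agent.S18.helper5988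

open ModularCurve AlgebraicCurve HahnSeries IntermediateField
open Fermat.Agent.S24.helper24

/-- The `q`-order, as an additive valuation on the function field `F_N`. -/
def qVal (N : ℕ) : AddValuation (modularFunctionFieldBar N) (WithTop ℤ) :=
  (HahnSeries.addVal ℤ (AlgebraicClosure ℚ)).comap
    (algebraMap (modularFunctionFieldBar N) (LaurentSeries (AlgebraicClosure ℚ)))

theorem qVal_apply (N : ℕ) (f : modularFunctionFieldBar N) :
    qVal N f = (f : LaurentSeries (AlgebraicClosure ℚ)).orderTop :=
  rfl

theorem coe_ne_zero (N : ℕ) {f : modularFunctionFieldBar N} (hf : f ≠ 0) :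
    (f : LaurentSeries (AlgebraicClosure ℚ)) ≠ 0 := fun h => hf (Subtype.ext h)

theorem qVal_apply_of_ne (N : ℕ) {f : modularFunctionFieldBar N} (hf : f ≠ 0) :
    qVal N f = (((f : LaurentSeries (AlgebraicClosure ℚ)).order : ℤ) : WithTop ℤ) := by
  rw [qVal_apply, order_eq_orderTop_of_ne_zero (coe_ne_zero N hf)]

/-- Nonzero constants have `q`-order `0`. -/
theorem qVal_algebraMap (N : ℕ) (a : AlgebraicClosure ℚ) (ha : a ≠ 0) :
    qVal N (algebraMap (AlgebraicClosure ℚ) (modularFunctionFieldBar N) a) = 0 := by
  have h : ((algebraMap (AlgebraicClosure ℚ) (modularFunctionFieldBar N) a :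
      modularFunctionFieldBar N) : LaurentSeries (AlgebraicClosure ℚ)) = HahnSeries.single 0 a := by
    rw [← algebraMap_laurentSeries_eq_single]
    rfl
  rw [qVal_apply, h, orderTop_single ha]
  rfl

/-- The series `j` has `q`-order `-1`. -/
theorem orderTop_coeffEmb_jq :
    (coeffEmb (AlgebraicClosure ℚ) jq).orderTop = ((-1 : ℤ) : WithTop ℤ) := by
  refine orderTop_eq_of_le ?_ ?_
  · rw [mem_support, coeffEmb_coeff, coeff_jq_neg_one, map_one]
    exact one_ne_zero
  · intro g hg
    by_contra hlt
    push Not at hlt
    rw [mem_support, coeffEmb_coeff, coeff_jq_of_lt hlt, map_zero] at hg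
    exact hg rfl

theorem qVal_jBar (N : ℕ) : qVal N (jBar N) = ((-1 : ℤ) : WithTop ℤ) := by
  rw [qVal_apply, coe_jBar, orderTop_coeffEmb_jq]

theorem jBar_ne_zero (N : ℕ) : jBar N ≠ 0 := by
  intro h
  have h1 := qVal_jBar N
  rw [h, AddValuation.map_zero] at h1
  exact WithTop.top_ne_coe h1

/-- The `q`-order is a non-trivial valuation of `F_N`. -/
theorem qVal_nontrivial (N : ℕ) : ∃ f : modularFunctionFieldBar N, f ≠ 0 ∧ qVal N f ≠ 0 := by
  refine ⟨jBar N, jBar_ne_zero N, ?_⟩
  rw [qVal_jBar]
  exact WithTop.coe_ne_zero.mpr (by norm_num)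

/-- **The cusp `∞`** of `X₀(N)` as a place of the function field. -/
def cuspInf (N : ℕ) : Place (AlgebraicClosure ℚ) (modularFunctionFieldBar N) :=
  Fermat.Agent.S24.helper1370.ofAddValuation (qVal N) (qVal_algebraMap N) (qVal_nontrivial N)

/-- The `q`-order generates `ℤ` on `F_N`: the value index of the cusp valuation is `1`. -/
theorem valueIndex_qVal (N : ℕ) :
    Fermat.Agent.S24.helper1370.valueIndex (qVal N) (qVal_nontrivial N) = 1 := by
  have hk := Fermat.Agent.S24.helper1370.valueIndex_pos (qVal N) (qVal_nontrivial N)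
  have h := Fermat.Agent.S24.helper1370.ofAddValuation_apply (qVal N) (qVal_algebraMap N)
    (qVal_nontrivial N) (jBar_ne_zero N)
  rw [qVal_jBar] at h
  have h' : (-1 : ℤ) =
      (Fermat.Agent.S24.helper1370.valueIndex (qVal N) (qVal_nontrivial N) : ℤ) *
        (Fermat.Agent.S24.helper1370.ofAddValuation (qVal N) (qVal_algebraMap N)
          (qVal_nontrivial N)).ord (jBar N) := WithTop.coe_injective h
  have hdvd : (Fermat.Agent.S24.helper1370.valueIndex (qVal N) (qVal_nontrivial N) : ℤ) ∣ 1 :=
    (dvd_neg (b := (1 : ℤ))).mp ⟨_, h'⟩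
  have h1 := Int.eq_one_of_dvd_one (by exact_mod_cast hk.le) hdvd
  exact_mod_cast h1

/-- The order function of the cusp `∞` is the `q`-order. -/
theorem cuspInf_ord (N : ℕ) {f : modularFunctionFieldBar N} (hf : f ≠ 0) :
    (cuspInf N).ord f = (f : LaurentSeries (AlgebraicClosure ℚ)).order := by
  have h := Fermat.Agent.S24.helper1370.ofAddValuation_apply (qVal N) (qVal_algebraMap N)
    (qVal_nontrivial N) hf
  rw [valueIndex_qVal, qVal_apply_of_ne N hf] at h
  have h' := WithTop.coe_injective h
  rw [Nat.cast_one, one_mul] at h'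
  exact h'.symm

theorem isCuspInf_cuspInf (N : ℕ) : helper99.IsCuspInf N (cuspInf N) :=
  fun _ hf => cuspInf_ord N hf

/-- A function is regular at the cusp `∞` iff its `q`-expansion has no polar part. -/
theorem mem_cuspInf_iff (N : ℕ) {f : modularFunctionFieldBar N} :
    f ∈ (cuspInf N).toValuationSubring ↔
      0 ≤ (f : LaurentSeries (AlgebraicClosure ℚ)).orderTop :=
  Iff.rfl

/-- Any place satisfying `IsCuspInf` is the cusp `∞`. -/
theorem eq_cuspInf_of_isCuspInf (N : ℕ)
    {P : Place (AlgebraicClosure ℚ) (modularFunctionFieldBar N)} (hP : helper99.IsCuspInf N P) :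
    P = cuspInf N := by
  refine Fermat.Agent.S24.helper1370.ext_ord P (cuspInf N) fun f => ?_
  rcases eq_or_ne f 0 with rfl | hf
  · simp
  · rw [hP f hf, cuspInf_ord N hf]

/-- **(C0)** The place facts of track C. -/
theorem placeFacts (N : ℕ) [NeZero N] : helper99.PlaceFacts N where
  principal := Fermat.Agent.S18.helper4226.hasPrincipalDivisors_FN N
  deg_one := Fermat.Agent.S18.helper4226.place_deg_eq_one_FN N
  const := fun f hf0 hf => by
    have := Fermat.Agent.S18.helper4226.finiteDimensional_jBar_FN N
    exact Fermat.Agent.S18.helper7885.exists_const_of_forall_ord_eq_zero (K := Kbar)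
      (F := FN N) (jBar N) hf0 hf
  cusp := ⟨cuspInf N, isCuspInf_cuspInf N⟩

end Fermat.Agent.S18.helper5988
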