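import Mathlib
import Fermat.Agent.S18.helper2707_Cofactor

/-!
# S18 track C, (Z3) of CONJ0 (helper6002): the cofactor form, converse of (CT)

Setting of `helper2707_ResidueVal`: `ι : F →ₐ[k] k((q))`, `t : F` with a simple pole,
`F` finite separable over `k(t)`.

`exists_cofactor_of_regAway`: if `y` is `helper2707.RegAway` (every conjugate embedding other
than the given one sends `y` to an element integral over `k[[q]]`), then the characteristic
polynomial of `y` over `k(t)`, read in `k((q))[X]` through `ι`, is `(X - ι y) * Q` with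
`Q ∈ k[[q]][X]`.  This is the exact converse of `helper2707.regAway_of_cofactor`, with the
same binders.
-/

set_option autoImplicit false

noncomputable section

namespace Fermat.Agent.S18.helper6002

open Polynomial IntermediateField
open Fermat.Agent.S18.helper2707

variable {k : Type*} [Field k] {F : Type*} [Field F] [Algebra k F]
variable {t : F} {ι : F →ₐ[k] LaurentSeries k}

/-- **(Z3)**  Converse of `helper2707.regAway_of_cofactor`: if `y` is regular away from the given
embedding, the characteristic polynomial of `y` over `k(t)`, read in `k((q))[X]`, is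
`(X - ι y) * Q` with `Q` having power series coefficients. -/
theorem exists_cofactor_of_regAway [FiniteDimensional k⟮t⟯ F] [Algebra.IsSeparable k⟮t⟯ F]
    (ht : (ι t).order = -1) (y : F) (hy : RegAway ι t y) :
    ∃ Q : (PowerSeries k)[X],
      (LinearMap.charpoly (Algebra.lmul k⟮t⟯ F y)).map
          ((ι : F →+* LaurentSeries k).comp (algebraMap k⟮t⟯ F))
        = (X - C (ι y)) * Q.map (algebraMap (PowerSeries k) (LaurentSeries k)) := by
  classical
  let _ := algOm t ι
  have := infinite_adjoin ht
  set c := LinearMap.charpoly (Algebra.lmul k⟮t⟯ F y) with hc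
  set φ : k⟮t⟯ →+* LaurentSeries k :=
    (ι : F →+* LaurentSeries k).comp (algebraMap k⟮t⟯ F) with hφ
  have hroot : (c.map φ).IsRoot (ι y) := by
    have h1 : Polynomial.aeval y c = 0 := by
      have h2 := LinearMap.aeval_self_charpoly (Algebra.lmul k⟮t⟯ F y)
      have h3 : Polynomial.aeval (Algebra.lmul k⟮t⟯ F y) c
          = Algebra.lmul k⟮t⟯ F (Polynomial.aeval y c) :=
        Polynomial.aeval_algHom_apply (Algebra.lmul k⟮t⟯ F) y c
      rw [← hc, h3] at h2
      have h4 := congrArg (fun g : Module.End k⟮t⟯ F => g 1) h2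
      simpa using h4
    rw [Polynomial.IsRoot.def, Polynomial.eval_map, hφ]
    have h5 := Polynomial.hom_eval₂ c (algebraMap k⟮t⟯ F) (ι : F →+* LaurentSeries k) y
    rw [← Polynomial.aeval_def, h1, map_zero] at h5
    exact h5.symm
  obtain ⟨Q₁, hQ₁⟩ := Polynomial.dvd_iff_isRoot.mpr hroot
  have hpf := charpoly_map_eq_prod_embeddings (K := k⟮t⟯) (L := F) (E := Om k) y
  have h3 : c.map (algebraMap k⟮t⟯ (Om k))
      = (X - C (inc ι y)) * Q₁.map (algebraMap (LaurentSeries k) (Om k)) := by
    have h := congrArg (Polynomial.map (algebraMap (LaurentSeries k) (Om k))) hQ₁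
    rw [Polynomial.map_map, Polynomial.map_mul, Polynomial.map_sub, map_X, map_C] at h
    exact h
  rw [← hc] at hpf
  rw [hpf, ← Finset.mul_prod_erase Finset.univ _ (Finset.mem_univ (inc0 t ι))] at h3
  have h4 : ∏ τ ∈ Finset.univ.erase (inc0 t ι), (X - C (τ y))
      = Q₁.map (algebraMap (LaurentSeries k) (Om k)) :=
    mul_left_cancel₀ (X_sub_C_ne_zero _) h3
  have hl : ∏ τ ∈ Finset.univ.erase (inc0 t ι), (X - C (τ y))
      ∈ Polynomial.lifts (algebraMap (integralClosure (PowerSeries k) (Om k)) (Om k)) := by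
    refine Subsemiring.prod_mem _ (fun τ hτ => ?_)
    have hne : τ ≠ inc0 t ι := Finset.ne_of_mem_erase hτ
    have hne' : (τ : F →+* Om k) ≠ inc ι := by
      intro h
      apply hne
      ext x
      exact congrArg (fun f : F →+* Om k => f x) h
    have hint : IsIntegral (PowerSeries k) (τ y) := hy _ (fun c => τ.commutes c) hne'
    rw [Polynomial.mem_lifts]
    refine ⟨X - C ⟨τ y, hint⟩, ?_⟩
    rw [Polynomial.map_sub, map_X, map_C]
    rfl
  have hcoef : ∀ n, VB 0 (Q₁.coeff n) := by
    intro n
    apply vb_zero_of_isIntegral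
    obtain ⟨P', hP'⟩ := (Polynomial.mem_lifts _).mp hl
    have h5 : algebraMap (LaurentSeries k) (Om k) (Q₁.coeff n)
        = algebraMap (integralClosure (PowerSeries k) (Om k)) (Om k) (P'.coeff n) := by
      rw [← Polynomial.coeff_map, ← h4, ← hP', Polynomial.coeff_map]
    rw [h5]
    exact (P'.coeff n).2
  have hQl : Q₁ ∈ Polynomial.lifts (algebraMap (PowerSeries k) (LaurentSeries k)) := by
    rw [Polynomial.lifts_iff_coeff_lifts]
    intro n
    obtain ⟨p, hp⟩ := exists_coe_of_vb_zero (hcoef n)
    exact ⟨p, hp⟩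
  obtain ⟨Q, hQ⟩ := (Polynomial.mem_lifts _).mp hQl
  exact ⟨Q, by rw [hQ]; exact hQ₁⟩

/-- The cofactor of `exists_cofactor_of_regAway` is monic. -/
theorem exists_monic_cofactor_of_regAway [FiniteDimensional k⟮t⟯ F] [Algebra.IsSeparable k⟮t⟯ F]
    (ht : (ι t).order = -1) (y : F) (hy : RegAway ι t y) :
    ∃ Q : (PowerSeries k)[X], Q.Monic ∧
      (LinearMap.charpoly (Algebra.lmul k⟮t⟯ F y)).map
          ((ι : F →+* LaurentSeries k).comp (algebraMap k⟮t⟯ F))
        = (X - C (ι y)) * Q.map (algebraMap (PowerSeries k) (LaurentSeries k)) := by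
  obtain ⟨Q, h⟩ := exists_cofactor_of_regAway ht y hy
  refine ⟨Q, ?_, h⟩
  have h1 : ((X - C (ι y)) * Q.map (algebraMap (PowerSeries k) (LaurentSeries k))).Monic := by
    rw [← h]
    exact (LinearMap.charpoly_monic _).map _
  have h2 : (Q.map (algebraMap (PowerSeries k) (LaurentSeries k))).Monic :=
    (monic_X_sub_C _).of_mul_monic_left h1
  exact monic_of_injective (IsFractionRing.injective (PowerSeries k) (LaurentSeries k)) h2

end Fermat.Agent.S18.helper6002
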