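import Mathlib
import Fermat.Agent.S18.helper4849_RHSpec
import Fermat.Agent.S18.helper6082_TameDifferent

/-!
# S18-RHURW leaf (TAME): `helper4849.Stmt_Tame`, verbatim

A short adapter on top of the landed `helper6082_TameDifferent` (tame different bound
`¬ P ^ e ∣ 𝔇` in residue characteristic zero and its elementwise form
`valuation_le_of_mem_traceDual`).
-/

set_option autoImplicit false

namespace Fermat.Agent.S18.helper6082

open IsDedekindDomain

/-- Leaf (TAME) of `helper4849_RHSpec`, verbatim. -/
theorem stmt_Tame : Fermat.Agent.S18.helper4849.Stmt_Tame := by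
  intro A B K L _ _ _ _ _ _ _ _ _ _ _ _ _ _ _ _ _ _ _ p _ _ P hpP f hf π hπ
  classical
  by_cases hπ0 : π = 0
  · simp [hπ0]
  -- `pB ≠ ⊥`
  have hinj : Function.Injective (algebraMap A B) := FaithfulSMul.algebraMap_injective A B
  have hpB : p.map (algebraMap A B) ≠ ⊥ := by
    intro h
    have hmem : algebraMap A B π ∈ p.map (algebraMap A B) := Ideal.mem_map_of_mem _ hπ
    rw [h, Ideal.mem_bot] at hmem
    exact hπ0 (hinj (by rw [hmem, map_zero]))
  -- exact exponent `e`
  have hPunit : ¬ IsUnit P.asIdeal := by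
    rw [Ideal.isUnit_iff]
    exact P.isPrime.ne_top
  have hfin : FiniteMultiplicity P.asIdeal (p.map (algebraMap A B)) :=
    FiniteMultiplicity.of_not_isUnit hPunit hpB
  have hex : ∃ n : ℕ, ¬ P.asIdeal ^ (n + 1) ∣ p.map (algebraMap A B) := hfin
  let e : ℕ := Nat.find hex
  have hnd : ¬ P.asIdeal ^ (e + 1) ∣ p.map (algebraMap A B) := Nat.find_spec hex
  have he : e ≠ 0 := by
    intro h0
    apply hnd
    rw [h0, zero_add, pow_one]
    exact Ideal.dvd_iff_le.mpr hpP
  have hd : P.asIdeal ^ e ∣ p.map (algebraMap A B) := by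
    obtain ⟨m, hm⟩ := Nat.exists_eq_succ_of_ne_zero he
    have := Nat.find_min hex (m := m) (by omega)
    rw [not_not] at this
    rw [hm]
    exact this
  -- the two valuation bounds
  have h1 : P.valuation L f ≤ WithZero.exp ((e : ℤ) - 1) :=
    valuation_le_of_mem_traceDual A K (p := p) P e he hd hnd hf
  have h2 : P.valuation L (algebraMap A L π) ≤ WithZero.exp (-(e : ℤ)) := by
    rw [IsScalarTower.algebraMap_apply A B L, P.valuation_of_algebraMap,
      P.intValuation_le_pow_iff_mem]
    exact (Ideal.dvd_iff_le.mp hd) (Ideal.mem_map_of_mem _ hπ)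
  calc P.valuation L (f * algebraMap A L π)
      = P.valuation L f * P.valuation L (algebraMap A L π) := map_mul _ _ _
    _ ≤ WithZero.exp ((e : ℤ) - 1) * WithZero.exp (-(e : ℤ)) := mul_le_mul' h1 h2
    _ = WithZero.exp (-1 : ℤ) := by
        rw [← WithZero.exp_add]
        congr 1
        ring
    _ < 1 := by
        rw [← WithZero.exp_zero, WithZero.exp_lt_exp]
        norm_num

end Fermat.Agent.S18.helper6082
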