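import Mathlib

/-!
# S18-HURWITZ, part (W): window duality for Laurent-monomial lattices

Mathlib-only linear algebra.  `K ⊆ 𝕂` fields, `x : 𝕂` with `K`-linearly independent integer
powers (i.e. `x` transcendental), `V` a `𝕂`-vector space, `b`, `b'` two families with
`β (b i) (b' j) = δ_ij` for a `𝕂`-bilinear form `β`.  For a `K`-subspace `C` of `V` which
contains all `x^j • b i`, `j ≤ -1`, is stable under `x⁻¹` and lies in the span of the
`x^j • b i`, `j ≤ 2n+1`, the two spaces

* `U  = C ⊓ span {x^j • b i | 0 ≤ j}` and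
* `U' = {w' | ∀ m ∈ C, β m w' ∈ span {x^k | k ≤ 2n}} ⊓ span {x^l • b' i | 0 ≤ l}`

satisfy `dim U + dim U' ≥ 2 (n+1) #ι` (Riemann–Roch on the projective line for the pair
"lattice, dual lattice", without any reduction theory).
-/

set_option autoImplicit false

namespace Fermat.Agent.S18.helper6082

open Module

section Coeff

variable {K 𝕂 : Type*} [Field K] [Field 𝕂] [Algebra K 𝕂]

/-- Coefficient functionals for a `K`-linearly independent family of powers of `x`. -/
theorem exists_coeff_functionals (x : 𝕂) (hx : LinearIndependent K (fun j : ℤ => x ^ j)) :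
    ∃ c : ℤ → (𝕂 →ₗ[K] K), ∀ k j : ℤ, c k (x ^ j) = if j = k then 1 else 0 := by
  classical
  have hinj : LinearMap.ker (Finsupp.linearCombination K (fun j : ℤ => x ^ j)) = ⊥ :=
    LinearMap.ker_eq_bot.mpr hx
  obtain ⟨g, hg⟩ := (Finsupp.linearCombination K (fun j : ℤ => x ^ j)).exists_leftInverse_of_injective
    hinj
  refine ⟨fun k => (Finsupp.lapply k).comp g, fun k j => ?_⟩
  have h1 : x ^ j = Finsupp.linearCombination K (fun j : ℤ => x ^ j) (Finsupp.single j 1) := by
    simp
  have h2 : g (x ^ j) = Finsupp.single j 1 := by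
    rw [h1]
    exact LinearMap.congr_fun hg (Finsupp.single j 1)
  simp only [LinearMap.comp_apply, h2, Finsupp.lapply_apply, Finsupp.single_apply]

end Coeff

section Window

variable {K 𝕂 V : Type*} [Field K] [Field 𝕂] [Algebra K 𝕂] [AddCommGroup V] [Module K V]
  [Module 𝕂 V] [IsScalarTower K 𝕂 V]
variable {ι : Type*} [Fintype ι] [DecidableEq ι]

/-- **Window duality.** -/
theorem window_duality
    (x : 𝕂) (hx : LinearIndependent K (fun j : ℤ => x ^ j))
    (b b' : ι → V) (hb : LinearIndependent 𝕂 b)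
    (β : V →ₗ[𝕂] V →ₗ[𝕂] 𝕂) (hβ : ∀ i j, β (b i) (b' j) = if i = j then 1 else 0)
    (n : ℕ) (C : Submodule K V)
    (h1 : ∀ (j : ℤ) (i : ι), j ≤ -1 → x ^ j • b i ∈ C)
    (h2 : ∀ m ∈ C, x⁻¹ • m ∈ C)
    (h3 : C ≤ Submodule.span K {v | ∃ (j : ℤ) (i : ι), j ≤ 2 * (n : ℤ) + 1 ∧ v = x ^ j • b i}) :
    ∃ U0 : Submodule K V,
      (∀ w' ∈ U0,
        (∀ m ∈ C, β m w' ∈ Submodule.span K {y | ∃ k : ℤ, k ≤ 2 * (n : ℤ) ∧ y = x ^ k}) ∧
        w' ∈ Submodule.span K {v | ∃ (l : ℤ) (i : ι), 0 ≤ l ∧ v = x ^ l • b' i}) ∧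
      FiniteDimensional K U0 ∧
      FiniteDimensional K
        ↥(C ⊓ Submodule.span K {v | ∃ (j : ℤ) (i : ι), 0 ≤ j ∧ v = x ^ j • b i}) ∧
      2 * Fintype.card ι * (n + 1) ≤
        Module.finrank K
          ↥(C ⊓ Submodule.span K {v | ∃ (j : ℤ) (i : ι), 0 ≤ j ∧ v = x ^ j • b i})
          + Module.finrank K U0 := by
  classical
  have hx0 : x ≠ 0 := by
    rintro rfl
    have := hx.injective (a₁ := (1 : ℤ)) (a₂ := (2 : ℤ)) (by simp)
    omega
  obtain ⟨c, hc⟩ := exists_coeff_functionals x hx
  -- monomial families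
  set mb : ℤ × ι → V := fun p => x ^ p.1 • b p.2 with hmb
  have hli : LinearIndependent K mb := linearIndependent_smul hx hb
  have hb' : LinearIndependent 𝕂 b' := by
    rw [Fintype.linearIndependent_iff]
    intro g hg i
    have := congrArg (β (b i)) hg
    simpa [map_sum, map_smul, hβ, Finset.sum_ite_eq] using this
  set mb' : ℤ × ι → V := fun p => x ^ p.1 • b' p.2 with hmb'
  have hli' : LinearIndependent K mb' := linearIndependent_smul hx hb'
  -- index sets
  set Sneg : Set (ℤ × ι) := {p | p.1 ≤ -1} with hSneg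
  set Swin : Set (ℤ × ι) := {p | 0 ≤ p.1 ∧ p.1 ≤ 2 * (n : ℤ) + 1} with hSwin
  set Sle : Set (ℤ × ι) := {p | p.1 ≤ 2 * (n : ℤ) + 1} with hSle
  set Snn : Set (ℤ × ι) := {p | 0 ≤ p.1} with hSnn
  have eLe : {v | ∃ (j : ℤ) (i : ι), j ≤ 2 * (n : ℤ) + 1 ∧ v = x ^ j • b i} = mb '' Sle := by
    ext v
    constructor
    · rintro ⟨j, i, hj, rfl⟩
      exact ⟨(j, i), hj, rfl⟩
    · rintro ⟨⟨j, i⟩, hj, rfl⟩
      exact ⟨j, i, hj, rfl⟩
  have eNn : {v | ∃ (j : ℤ) (i : ι), 0 ≤ j ∧ v = x ^ j • b i} = mb '' Snn := by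
    ext v
    constructor
    · rintro ⟨j, i, hj, rfl⟩
      exact ⟨(j, i), hj, rfl⟩
    · rintro ⟨⟨j, i⟩, hj, rfl⟩
      exact ⟨j, i, hj, rfl⟩
  rw [eLe] at h3
  rw [eNn]
  set U : Submodule K V := C ⊓ Submodule.span K (mb '' Snn) with hU
  -- Claim A
  have hA : U ≤ Submodule.span K (mb '' Swin) := by
    rintro u ⟨huC, hunn⟩
    have hule := h3 huC
    rw [SetLike.mem_coe, Finsupp.mem_span_image_iff_linearCombination] at hunn
    rw [Finsupp.mem_span_image_iff_linearCombination] at hule
    obtain ⟨f1, hf1, h1e⟩ := hule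
    obtain ⟨f2, hf2, h2e⟩ := hunn
    have : f1 = f2 := hli (h1e.trans h2e.symm)
    subst this
    rw [Finsupp.mem_span_image_iff_linearCombination]
    refine ⟨f1, ?_, h1e⟩
    rw [Finsupp.mem_supported] at hf1 hf2 ⊢
    intro p hp
    exact ⟨hf2 hp, hf1 hp⟩
  -- Claim B
  have hnegC : Submodule.span K (mb '' Sneg) ≤ C := by
    rw [Submodule.span_le]
    rintro _ ⟨⟨j, i⟩, hj, rfl⟩
    exact h1 j i hj
  have hB : ∀ m ∈ C, ∃ m1 ∈ Submodule.span K (mb '' Sneg), ∃ m2 ∈ U, m = m1 + m2 := by
    intro m hm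
    have hmle := h3 hm
    rw [Finsupp.mem_span_image_iff_linearCombination] at hmle
    obtain ⟨f, hf, rfl⟩ := hmle
    rw [Finsupp.mem_supported] at hf
    have hm1 : Finsupp.linearCombination K mb (f.filter (· ∈ Sneg)) ∈
        Submodule.span K (mb '' Sneg) := by
      rw [Finsupp.mem_span_image_iff_linearCombination]
      refine ⟨_, ?_, rfl⟩
      rw [Finsupp.mem_supported]
      intro p hp
      rw [Finset.mem_coe, Finsupp.support_filter, Finset.mem_filter] at hp
      exact hp.2
    have hsum : Finsupp.linearCombination K mb f =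
        Finsupp.linearCombination K mb (f.filter (· ∈ Sneg)) +
          Finsupp.linearCombination K mb (f.filter (fun p => ¬ p ∈ Sneg)) := by
      rw [← map_add, Finsupp.filter_add_filter_not]
    refine ⟨_, hm1, Finsupp.linearCombination K mb (f.filter (fun p => ¬ p ∈ Sneg)), ⟨?_, ?_⟩, hsum⟩
    · have : Finsupp.linearCombination K mb (f.filter (fun p => ¬ p ∈ Sneg)) =
          Finsupp.linearCombination K mb f -
            Finsupp.linearCombination K mb (f.filter (· ∈ Sneg)) := by
        rw [hsum]; abel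
      rw [SetLike.mem_coe, this]
      exact C.sub_mem hm (hnegC hm1)
    · rw [SetLike.mem_coe, Finsupp.mem_span_image_iff_linearCombination]
      refine ⟨_, ?_, rfl⟩
      rw [Finsupp.mem_supported]
      intro p hp
      rw [Finset.mem_coe, Finsupp.support_filter, Finset.mem_filter] at hp
      have h := hp.2
      simp only [hSneg, Set.mem_ofPred_eq, not_le] at h
      show (0 : ℤ) ≤ p.1
      omega
  -- the pairing
  set cc : 𝕂 →ₗ[K] K := c (2 * (n : ℤ) + 1) with hcc
  let pair : V →ₗ[K] V →ₗ[K] K :=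
    LinearMap.mk₂ K (fun w' w => cc (β w w'))
      (by intro w1 w2 w; simp [map_add])
      (by
        intro k w' w
        rw [← algebraMap_smul 𝕂 k w', map_smul, smul_eq_mul, ← Algebra.smul_def, map_smul])
      (by intro w' w1 w2; simp [map_add])
      (by
        intro k w' w
        rw [← algebraMap_smul 𝕂 k w, map_smul, LinearMap.smul_apply, smul_eq_mul,
          ← Algebra.smul_def, map_smul])
  have hpair : ∀ w' w, pair w' w = cc (β w w') := fun _ _ => rfl
  -- the dual window
  let T := Fin (2 * n + 2) × ι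
  let fam' : T → V := fun t => x ^ ((t.1 : ℕ) : ℤ) • b' t.2
  have hfam' : LinearIndependent K fam' := by
    have hinj : Function.Injective (fun t : T => ((((t.1 : ℕ) : ℤ)), t.2)) := by
      rintro ⟨a, i⟩ ⟨a', i'⟩ h
      simp only [Prod.mk.injEq, Nat.cast_inj] at h
      exact Prod.ext (Fin.ext h.1) h.2
    exact hli'.comp _ hinj
  set Z' : Submodule K V := Submodule.span K (Set.range fam') with hZ'
  have hZ'fin : FiniteDimensional K Z' := FiniteDimensional.span_of_finite K (Set.finite_range fam')
  have hZ'rank : Module.finrank K Z' = Fintype.card T := finrank_span_eq_card hfam'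
  have hWinFin : (mb '' Swin).Finite := by
    apply Set.Finite.image
    have : Swin ⊆ (Set.Icc (0 : ℤ) (2 * n + 1)) ×ˢ (Set.univ : Set ι) := by
      rintro ⟨j, i⟩ ⟨h0, h1'⟩
      exact ⟨⟨h0, h1'⟩, trivial⟩
    exact ((Set.finite_Icc _ _).prod Set.finite_univ).subset this
  have hUfin : FiniteDimensional K U :=
    haveI := FiniteDimensional.span_of_finite K hWinFin
    Submodule.finiteDimensional_of_le hA
  let Θ : Z' →ₗ[K] (U →ₗ[K] K) := ((LinearMap.lcomp K K U.subtype).comp pair).comp Z'.subtype
  have hΘ : ∀ (z : Z') (u : U), Θ z u = cc (β (u : V) (z : V)) := fun _ _ => rfl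
  refine ⟨(LinearMap.ker Θ).map Z'.subtype, ?_, ?_, hUfin, ?_⟩
  · -- Claim C
    rintro _ ⟨z, hz, rfl⟩
    have hz0 : ∀ u : U, cc (β (u : V) (z : V)) = 0 := fun u => by
      rw [← hΘ, LinearMap.mem_ker.mp hz]; rfl
    have hzZ : (z : V) ∈ Z' := z.2
    -- the span of all integer powers of `x`
    set Lspan : Submodule K 𝕂 := Submodule.span K (Set.range fun k : ℤ => x ^ k) with hLspan
    -- Step 3: values of `β` on the monomial spans are Laurent polynomials
    have hβspan : ∀ m ∈ Submodule.span K (mb '' Sle), ∀ w ∈ Z', β m w ∈ Lspan := by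
      intro m hm w hw
      induction hm using Submodule.span_induction with
      | mem m hm =>
        obtain ⟨⟨j, i⟩, -, rfl⟩ := hm
        induction hw using Submodule.span_induction with
        | mem w hw =>
          obtain ⟨t, rfl⟩ := hw
          have : β (mb (j, i)) (fam' t) =
              (if i = t.2 then (1 : K) else 0) • x ^ (j + ((t.1 : ℕ) : ℤ)) := by
            simp only [hmb, fam', map_smul, LinearMap.smul_apply, smul_eq_mul, hβ]
            split_ifs
            · rw [one_smul, mul_one, zpow_add₀ hx0, mul_comm]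
            · simp
          rw [this]
          exact Submodule.smul_mem _ _ (Submodule.subset_span ⟨_, rfl⟩)
        | zero => simp
        | add w1 w2 _ _ ih1 ih2 => rw [map_add]; exact Submodule.add_mem _ ih1 ih2
        | smul k w _ ih =>
          rw [← algebraMap_smul 𝕂 k w, map_smul, smul_eq_mul, ← Algebra.smul_def]
          exact Submodule.smul_mem _ _ ih
      | zero => simp
      | add m1 m2 _ _ ih1 ih2 =>
        rw [map_add, LinearMap.add_apply]; exact Submodule.add_mem _ ih1 ih2
      | smul k m _ ih =>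
        rw [← algebraMap_smul 𝕂 k m, map_smul, LinearMap.smul_apply, smul_eq_mul,
          ← Algebra.smul_def]
        exact Submodule.smul_mem _ _ ih
    -- Step 1a: the negative part pairs trivially with the window
    have hneg0 : ∀ m ∈ Submodule.span K (mb '' Sneg), ∀ w ∈ Z', cc (β m w) = 0 := by
      intro m hm w hw
      induction hm using Submodule.span_induction with
      | mem m hm =>
        obtain ⟨⟨j, i⟩, hj, rfl⟩ := hm
        induction hw using Submodule.span_induction with
        | mem w hw =>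
          obtain ⟨t, rfl⟩ := hw
          have : β (mb (j, i)) (fam' t) =
              (if i = t.2 then (1 : K) else 0) • x ^ (j + ((t.1 : ℕ) : ℤ)) := by
            simp only [hmb, fam', map_smul, LinearMap.smul_apply, smul_eq_mul, hβ]
            split_ifs
            · rw [one_smul, mul_one, zpow_add₀ hx0, mul_comm]
            · simp
          rw [this, map_smul, hcc, hc]
          have hj' : j ≤ -1 := hj
          have ht : ((t.1 : ℕ) : ℤ) ≤ 2 * (n : ℤ) + 1 := by
            have := t.1.2
            omega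
          have hne : ¬ (j + ((t.1 : ℕ) : ℤ) = 2 * (n : ℤ) + 1) := by omega
          rw [if_neg hne, smul_zero]
        | zero => simp
        | add w1 w2 _ _ ih1 ih2 => rw [map_add, map_add, ih1, ih2, add_zero]
        | smul k w _ ih =>
          rw [← algebraMap_smul 𝕂 k w, map_smul, smul_eq_mul, ← Algebra.smul_def, map_smul, ih,
            smul_zero]
      | zero => simp
      | add m1 m2 _ _ ih1 ih2 =>
        rw [map_add, LinearMap.add_apply, map_add, ih1, ih2, add_zero]
      | smul k m _ ih =>
        rw [← algebraMap_smul 𝕂 k m, map_smul, LinearMap.smul_apply, smul_eq_mul,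
          ← Algebra.smul_def, map_smul, ih, smul_zero]
    -- Step 1: `cc (β m z) = 0` for all `m ∈ C`
    have hpair0 : ∀ m ∈ C, cc (β m (z : V)) = 0 := by
      intro m hm
      obtain ⟨m1, hm1, m2, hm2, rfl⟩ := hB m hm
      rw [map_add, LinearMap.add_apply, map_add, hneg0 m1 hm1 _ hzZ, zero_add]
      exact hz0 ⟨m2, hm2⟩
    -- Step 2: the shift identity for the coefficient functionals
    have hshift : ∀ y ∈ Lspan, ∀ (k : ℤ) (r : ℕ), c k (x⁻¹ ^ r * y) = c (k + r) y := by
      intro y hy k r
      induction hy using Submodule.span_induction with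
      | mem y hy =>
        obtain ⟨j, rfl⟩ := hy
        have : x⁻¹ ^ r * x ^ j = x ^ (j - (r : ℤ)) := by
          rw [zpow_sub₀ hx0, zpow_natCast, inv_pow, div_eq_inv_mul]
        rw [this, hc, hc]
        split_ifs <;> first | rfl | omega
      | zero => simp
      | add y1 y2 _ _ ih1 ih2 => rw [mul_add, map_add, map_add, ih1, ih2]
      | smul a y _ ih => rw [mul_smul_comm, map_smul, map_smul, ih]
    have hpow : ∀ (r : ℕ), ∀ m ∈ C, x⁻¹ ^ r • m ∈ C := by
      intro r
      induction r with
      | zero => intro m hm; simpa using hm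
      | succ r ih =>
        intro m hm
        rw [pow_succ', mul_smul]
        exact h2 _ (ih m hm)
    have key1 : ∀ m ∈ C, β m (z : V) ∈
        Submodule.span K {y | ∃ k : ℤ, k ≤ 2 * (n : ℤ) ∧ y = x ^ k} := by
      intro m hm
      -- Step 4
      have hy : β m (z : V) ∈ Lspan := hβspan m (h3 hm) _ hzZ
      have hhigh : ∀ k : ℤ, 2 * (n : ℤ) + 1 ≤ k → c k (β m (z : V)) = 0 := by
        intro k hk
        obtain ⟨r, hr⟩ : ∃ r : ℕ, k = 2 * (n : ℤ) + 1 + r :=
          ⟨(k - (2 * (n : ℤ) + 1)).toNat, by omega⟩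
        rw [hr, ← hshift _ hy]
        have : x⁻¹ ^ r * β m (z : V) = β (x⁻¹ ^ r • m) (z : V) := by
          rw [map_smul, LinearMap.smul_apply, smul_eq_mul]
        rw [this]
        exact hpair0 _ (hpow r m hm)
      rw [hLspan, Finsupp.mem_span_range_iff_exists_finsupp] at hy
      obtain ⟨a, ha⟩ := hy
      have hcoef : ∀ k : ℤ, c k (β m (z : V)) = a k := by
        intro k
        rw [← ha, Finsupp.sum, map_sum]
        simp only [map_smul, hc, smul_eq_mul, mul_ite, mul_one, mul_zero]
        rw [Finset.sum_ite_eq']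
        split_ifs with hk
        · rfl
        · exact (Finsupp.notMem_support_iff.mp hk).symm
      rw [← ha, Finsupp.sum]
      refine Submodule.sum_mem _ fun k hk => Submodule.smul_mem _ _ (Submodule.subset_span ?_)
      refine ⟨k, ?_, rfl⟩
      by_contra hlt
      have := hhigh k (by omega)
      rw [hcoef] at this
      exact (Finsupp.mem_support_iff.mp hk) this
    have key2 : (z : V) ∈
        Submodule.span K {v | ∃ (l : ℤ) (i : ι), 0 ≤ l ∧ v = x ^ l • b' i} := by
      have : Z' ≤ Submodule.span K {v | ∃ (l : ℤ) (i : ι), 0 ≤ l ∧ v = x ^ l • b' i} := by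
        rw [hZ', Submodule.span_le]
        rintro _ ⟨t, rfl⟩
        exact Submodule.subset_span ⟨((t.1 : ℕ) : ℤ), t.2, by omega, rfl⟩
      exact this hzZ
    exact ⟨key1, key2⟩
  · exact Module.Finite.map _ _
  · have e1 := LinearMap.finrank_range_add_finrank_ker Θ
    have e2 : Module.finrank K (LinearMap.range Θ) ≤ Module.finrank K (U →ₗ[K] K) :=
      Submodule.finrank_le _
    have e3 : Module.finrank K (U →ₗ[K] K) = Module.finrank K U := Subspace.dual_finrank_eq
    have e4 : Module.finrank K ((LinearMap.ker Θ).map Z'.subtype) =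
        Module.finrank K (LinearMap.ker Θ) :=
      (Submodule.equivMapOfInjective Z'.subtype Z'.injective_subtype _).finrank_eq.symm
    have e5 : Fintype.card T = 2 * Fintype.card ι * (n + 1) := by
      rw [Fintype.card_prod, Fintype.card_fin]; ring
    omega

end Window

end Fermat.Agent.S18.helper6082
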