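import Fermat.Agent.S18.helper99_SpecC
import Fermat.Agent.S18.helper7885_PlacesFF
import Fermat.Agent.S24.helper204_Places
import Fermat.Agent.S24.helper167_JFinrank
import Fermat.Agent.S24.helper6180_EvDatum
import Fermat.Agent.S24.helper1200_StmtLocalInf
import Fermat.Agent.S24.helper3176_FieldAlg
import Fermat.Agent.S24.helper1370_PlaceBasics

/-!
# S18, track C, leaf (C0): `helper99.PlaceFacts N`

The characteristic-zero place facts of the function field `F_N = modularFunctionFieldBar N`
over `ℚ̄` consumed by track C (`helper99_SpecC`):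

* `principal` : principal divisors exist and have degree zero (S24 `helper204`);
* `deg_one`   : every place has degree one (S24 `helper204`);
* `const`     : a function without zeros and poles is constant (`helper7885`);
* `cusp`      : the cusp `∞`, i.e. a place whose order function is the `q`-order
  (`cuspInf N`, built with S24 `helper1370.ofAlgHom` from the order valuation of `ℚ̄((q))`).

Main statements: `cuspInf`, `isCuspInf_cuspInf`, `cuspInf_ord`, `isCuspInf_iff`, `placeFacts`.
-/

set_option autoImplicit false

noncomputable section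

namespace Fermat.Agent.S18.helper6180

open ModularCurve AlgebraicCurve HahnSeries IntermediateField
open Fermat.Agent.S24 Fermat.Agent.S24.helper24

/-- `F_N` is finite over `ℚ̄(j)` (landed S24 leaves). -/
theorem finiteDimensional_jBar (N : ℕ) [NeZero N] : FiniteDimensional Kbar⟮jBar N⟯ (FN N) :=
  (helper167.stmt_JFinrank_of (fun N _ => Fermat.Agent.S24.helper6180.evDatum N)
    helper1200.stmt_LocalInf N).1

/-- The `q`-order valuation of `ℚ̄((q))`. -/
def qVal : AddValuation (LaurentSeries Kbar) (WithTop ℤ) := HahnSeries.addVal ℤ Kbar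

theorem qVal_apply_of_ne {x : LaurentSeries Kbar} (hx : x ≠ 0) : qVal x = (x.order : WithTop ℤ) :=
  HahnSeries.addVal_apply_of_ne hx

theorem algebraMap_eq_single_zero (c : Kbar) :
    algebraMap Kbar (LaurentSeries Kbar) c = HahnSeries.single 0 c := by
  have h1 : algebraMap Kbar (PowerSeries Kbar) c = PowerSeries.C c := by simp
  rw [HahnSeries.algebraMap_apply', h1, HahnSeries.ofPowerSeries_C]
  rfl

theorem qVal_algebraMap (a : Kbar) (ha : a ≠ 0) :
    qVal (algebraMap Kbar (LaurentSeries Kbar) a) = 0 := by
  have h0 : algebraMap Kbar (LaurentSeries Kbar) a ≠ 0 := by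
    simpa using ha
  rw [qVal_apply_of_ne h0, algebraMap_eq_single_zero, HahnSeries.order_single ha]
  rfl

/-- The formal `j` has `q`-order `-1`. -/
theorem order_coeffEmb_jq : (coeffEmb Kbar jq).order = -1 := by
  have h1 : (coeffEmb Kbar jq).coeff (-1) = 1 := by
    have := helper3176.coeff_coeffEmb_jq_pow_self Kbar 1
    rw [pow_one] at this
    exact this
  have hne : coeffEmb Kbar jq ≠ 0 := by
    intro h
    rw [h, HahnSeries.coeff_zero] at h1
    exact zero_ne_one h1
  apply le_antisymm
  · exact HahnSeries.order_le_of_coeff_ne_zero (by rw [h1]; exact one_ne_zero)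
  · by_contra hlt
    push Not at hlt
    have h2 : (coeffEmb Kbar jq).coeff (coeffEmb Kbar jq).order = 0 := by
      have := helper3176.coeff_coeffEmb_jq_pow_of_lt Kbar (n := 1)
        (m := (coeffEmb Kbar jq).order) (by simpa using hlt)
      simpa using this
    exact hne (HahnSeries.coeff_order_eq_zero.mp h2)

theorem jBar_ne_zero (N : ℕ) : jBar N ≠ 0 := by
  intro h
  have h1 : ((jBar N : FN N) : LaurentSeries Kbar) = 0 := by rw [h]; rfl
  rw [coe_jBar] at h1
  have h2 := order_coeffEmb_jq
  rw [h1, HahnSeries.order_zero] at h2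
  omega

theorem qVal_jBar (N : ℕ) :
    qVal ((modularFunctionFieldBar N).val (jBar N)) = ((-1 : ℤ) : WithTop ℤ) := by
  have hne : ((jBar N : FN N) : LaurentSeries Kbar) ≠ 0 := fun h =>
    jBar_ne_zero N (Subtype.ext h)
  show qVal ((jBar N : FN N) : LaurentSeries Kbar) = _
  rw [qVal_apply_of_ne hne, coe_jBar, order_coeffEmb_jq]

theorem qVal_nontrivial (N : ℕ) :
    ∃ f : FN N, f ≠ 0 ∧ qVal ((modularFunctionFieldBar N).val f) ≠ 0 := by
  refine ⟨jBar N, jBar_ne_zero N, ?_⟩
  rw [qVal_jBar]
  exact WithTop.coe_ne_zero.mpr (by norm_num)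

/-- **The cusp `∞` of `X₀(N)`**: the place of `F_N ⊆ ℚ̄((q))` cut out by the `q`-order. -/
def cuspInf (N : ℕ) : Place Kbar (FN N) :=
  helper1370.ofAlgHom qVal qVal_algebraMap (modularFunctionFieldBar N).val (qVal_nontrivial N)

theorem algHomIndex_cuspInf (N : ℕ) :
    helper1370.algHomIndex qVal (modularFunctionFieldBar N).val (qVal_nontrivial N) = 1 := by
  have hpos := helper1370.algHomIndex_pos qVal (modularFunctionFieldBar N).val (qVal_nontrivial N)
  have h := helper1370.algHomIndex_mul_ord qVal qVal_algebraMap (modularFunctionFieldBar N).val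
    (qVal_nontrivial N) (jBar_ne_zero N) (qVal_jBar N)
  set k := helper1370.algHomIndex qVal (modularFunctionFieldBar N).val (qVal_nontrivial N)
  have hk : (k : ℤ) ∣ 1 := ⟨-(helper1370.ofAlgHom qVal qVal_algebraMap
    (modularFunctionFieldBar N).val (qVal_nontrivial N)).ord (jBar N), by linarith⟩
  have hk1 : (k : ℤ) = 1 := Int.eq_one_of_dvd_one (by positivity) hk
  exact_mod_cast hk1

/-- The order at the cusp `∞` is the `q`-order. -/
theorem cuspInf_ord (N : ℕ) {f : FN N} (hf : f ≠ 0) :
    (cuspInf N).ord f = (f : LaurentSeries Kbar).order := by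
  have hne : (f : LaurentSeries Kbar) ≠ 0 := fun h => hf (Subtype.ext h)
  have h := helper1370.ofAlgHom_apply qVal qVal_algebraMap (modularFunctionFieldBar N).val
    (qVal_nontrivial N) hf
  rw [algHomIndex_cuspInf] at h
  have h2 : qVal ((modularFunctionFieldBar N).val f) = ((f : LaurentSeries Kbar).order : WithTop ℤ) :=
    qVal_apply_of_ne hne
  rw [h2] at h
  have h3 := WithTop.coe_injective h
  rw [h3]
  push_cast
  rw [one_mul]
  rfl

theorem isCuspInf_cuspInf (N : ℕ) : helper99.IsCuspInf N (cuspInf N) :=
  fun _ hf => cuspInf_ord N hf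

/-- The cusp `∞` is the only place whose order is the `q`-order. -/
theorem isCuspInf_iff (N : ℕ) (P : Place Kbar (FN N)) :
    helper99.IsCuspInf N P ↔ P = cuspInf N := by
  constructor
  · intro h
    apply helper1370.ext_ord
    intro f
    by_cases hf : f = 0
    · subst hf
      rw [Place.ord_zero, Place.ord_zero]
    · rw [h f hf, cuspInf_ord N hf]
  · rintro rfl
    exact isCuspInf_cuspInf N

/-- A function lies in the valuation ring of the cusp `∞` iff its `q`-expansion has no polar
part. -/
theorem mem_cuspInf_iff (N : ℕ) (f : FN N) :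
    f ∈ (cuspInf N).toValuationSubring ↔ 0 ≤ qVal ((modularFunctionFieldBar N).val f) :=
  Iff.rfl

/-- **Leaf (C0) of track C**: the place facts in characteristic zero. -/
theorem placeFacts (N : ℕ) [NeZero N] : helper99.PlaceFacts N := by
  have := finiteDimensional_jBar N
  refine ⟨?_, ?_, ?_, ⟨cuspInf N, isCuspInf_cuspInf N⟩⟩
  · exact helper204.hasPrincipalDivisors (jBar N) (helper3176.transcendental_jBar N)
  · exact fun v => helper204.place_deg_eq_one (jBar N) (helper3176.transcendental_jBar N) v
  · exact fun f hf h => helper7885.exists_const_of_forall_ord_eq_zero (jBar N) hf h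

end Fermat.Agent.S18.helper6180
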