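/-
S18, track B: `theorem oneCompSupply : helper648.OneCompSupply` (helper648).

For an arbitrary good model `D` with the extra facts of `helper648_ModelWire`
(`Facts D c0`, `¬ ϖ ∣ c0`), both charts `s = tL`, `s = tL⁻¹` have one component through
every closed point of the special fibre.  Pure composition of landed results:

* VERT  : `helper1581.kdata_exists_basis_discr_of_facts` (clause (c) on both charts),
* HORIZ : `helper2128.line_not_sq_dvd`, `helper2128.line_inv_not_sq_dvd` from `BarDatum`
          (the two compositions were first compiled by helper7025 in review),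
* DN    : `helper403.stmt_DNChart` (`helper98.oneComponent_of_dualNormal` and
          `helper1148.dualBound` on the chart base package).
-/
import Fermat.Agent.S18.helper648_ModelWire
import Fermat.Agent.S18.helper403_ChartBase
import Fermat.Agent.S18.helper1581_VertChart
import Fermat.Agent.S18.helper2128_RamDedekind

set_option autoImplicit false
set_option synthInstance.maxHeartbeats 400000
set_option linter.style.haveILetI false

noncomputable section

namespace Fermat.Agent.S18.helper648

open Polynomial AlgebraicCurve IntermediateField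
open Fermat.Agent.S18.helper3578

/-! ### VERT: clause (c) in the `KData.VertAt` shape -/

/-- Clause (c) on the chart `s ∈ {tL, tL⁻¹}` of a good model with `Facts`, in the shape
`KData.VertAt` of the track-B Spec. -/
theorem vertAt_of_facts (D : KData) {m : ℕ} (hg : D.Good m) (c0 : D.A0) (F : Facts D c0)
    (s : D.L0) (hs : s = D.tL ∨ s = D.tL⁻¹) : D.VertAt s := by
  have hsK : Transcendental D.K0 s := by
    rcases hs with rfl | rfl
    · exact helper403.kdata_transcendental_tL D hg
    · exact helper403.kdata_transcendental_tL_inv D hg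
  have htA : Transcendental D.A0 s := helper403.kdata_transcendental_base D hsK
  letI := helper403.algebraAdjoinSimple (A := D.A0) (K := D.K0) s
  obtain ⟨ι, hFin, hDec, c, d, hint, hcd, hnd⟩ :=
    helper1581.kdata_exists_basis_discr_of_facts D hg c0 F s hs
  have hd : helper403.polyEquivAdjoin s htA ((helper403.polyEquivAdjoin s htA).symm d) = d :=
    (helper403.polyEquivAdjoin s htA).apply_symm_apply d
  refine ⟨ι, hFin, hDec, c, (helper403.polyEquivAdjoin s htA).symm d, hint, ?_, ?_⟩
  · rw [← helper403.polyEquivAdjoin_coe s htA, hd, hcd]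
    exact helper403.algebraAdjoinSimple_coe (A := D.A0) (K := D.K0) s d
  · by_contra hall
    apply hnd
    have hall' : ∀ i, D.ϖ ∣ ((helper403.polyEquivAdjoin s htA).symm d).coeff i := by
      intro i
      by_contra hi
      exact hall ⟨i, hi⟩
    have h := (helper403.algebraMap_dvd_polyEquivAdjoin_iff s htA D.ϖ
      ((helper403.polyEquivAdjoin s htA).symm d)).mpr hall'
    rwa [hd] at h

/-! ### HORIZ: tameness of the generic fibre away from the branch points, from `BarDatum` -/

/-- Chart `t`, `G₀ = X (X + c0)`. -/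
theorem horizAt_of_bar (D : KData) (c0 : D.A0) (bar : BarDatum D c0) :
    D.HorizAt D.tL (X * (X + C c0)) := by
  intro Q hQ hQ0 hG
  letI : Algebra D.L0 bar.Eb := (bar.i : D.L0 →+* bar.Eb).toAlgebra
  haveI : IsScalarTower D.K0 D.L0 bar.Eb :=
    IsScalarTower.of_algebraMap_eq (fun x => (bar.i.commutes x).symm)
  have hx : Transcendental bar.Kb (algebraMap D.L0 bar.Eb D.tL) := bar.transc
  haveI : FiniteDimensional bar.Kb⟮algebraMap D.L0 bar.Eb D.tL⟯ bar.Eb := bar.finite
  have hint : IsIntegral (Algebra.adjoin D.K0 ({D.tL} : Set D.L0))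
      (D.tL * (D.tL - algebraMap D.K0 D.L0 (-algebraMap D.A0 D.K0 c0))) := by
    have hmem : D.tL * (D.tL - algebraMap D.K0 D.L0 (-algebraMap D.A0 D.K0 c0))
        ∈ Algebra.adjoin D.K0 ({D.tL} : Set D.L0) :=
      mul_mem (Algebra.self_mem_adjoin_singleton _ _)
        (sub_mem (Algebra.self_mem_adjoin_singleton _ _) (Subalgebra.algebraMap_mem _ _))
    exact isIntegral_algebraMap (x := (⟨_, hmem⟩ : Algebra.adjoin D.K0 ({D.tL} : Set D.L0)))
  refine helper2128.line_not_sq_dvd (K := bar.Kb) (F := bar.Eb)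
    (-algebraMap D.A0 D.K0 c0) D.tL hx ?_ Q hQ hQ0 ⟨_, hint⟩ rfl ?_
  · intro c hc1 hc2 v hv
    exact bar.simple c hc1 (by rwa [map_neg] at hc2) v hv
  · intro hmem
    refine hG _ hmem ?_
    show D.tL * (D.tL - algebraMap D.K0 D.L0 (-algebraMap D.A0 D.K0 c0)) = _
    simp [← IsScalarTower.algebraMap_apply]

/-- Chart `1/t`, `G₁ = X (c0 X + 1)`. -/
theorem horizAt_inv_of_bar (D : KData) (c0 : D.A0) (bar : BarDatum D c0) :
    D.HorizAt D.tL⁻¹ (X * (C c0 * X + 1)) := by
  intro Q hQ hQ0 hG
  letI : Algebra D.L0 bar.Eb := (bar.i : D.L0 →+* bar.Eb).toAlgebra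
  haveI : IsScalarTower D.K0 D.L0 bar.Eb :=
    IsScalarTower.of_algebraMap_eq (fun x => (bar.i.commutes x).symm)
  have hx : Transcendental bar.Kb (algebraMap D.L0 bar.Eb D.tL) := bar.transc
  haveI : FiniteDimensional bar.Kb⟮algebraMap D.L0 bar.Eb D.tL⟯ bar.Eb := bar.finite
  have hint : IsIntegral (Algebra.adjoin D.K0 ({D.tL⁻¹} : Set D.L0))
      (D.tL⁻¹ * (algebraMap D.K0 D.L0 (-algebraMap D.A0 D.K0 c0) * D.tL⁻¹ - 1)) := by
    have hmem : D.tL⁻¹ * (algebraMap D.K0 D.L0 (-algebraMap D.A0 D.K0 c0) * D.tL⁻¹ - 1)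
        ∈ Algebra.adjoin D.K0 ({D.tL⁻¹} : Set D.L0) :=
      mul_mem (Algebra.self_mem_adjoin_singleton _ _)
        (sub_mem (mul_mem (Subalgebra.algebraMap_mem _ _) (Algebra.self_mem_adjoin_singleton _ _))
          (one_mem _))
    exact isIntegral_algebraMap (x := (⟨_, hmem⟩ : Algebra.adjoin D.K0 ({D.tL⁻¹} : Set D.L0)))
  refine helper2128.line_inv_not_sq_dvd (K := bar.Kb) (F := bar.Eb)
    (-algebraMap D.A0 D.K0 c0) D.tL hx ?_ Q hQ hQ0 ⟨_, hint⟩ rfl ?_
  · intro c hc1 hc2 v hv
    exact bar.simple c hc1 (by rwa [map_neg] at hc2) v hv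
  · intro hmem
    have hneg := Q.neg_mem hmem
    refine hG _ hneg ?_
    show -(D.tL⁻¹ * (algebraMap D.K0 D.L0 (-algebraMap D.A0 D.K0 c0) * D.tL⁻¹ - 1)) = _
    simp [← IsScalarTower.algebraMap_apply]
    ring

/-! ### The branch polynomials are squarefree modulo `ϖ` -/

/-- `X (X + c)` is separable over a field when `c ≠ 0`. -/
theorem separable_X_mul_X_add_C {k : Type*} [Field k] {c : k} (hc : c ≠ 0) :
    ((X : k[X]) * (X + C c)).Separable := by
  have h1 : (X + C c : k[X]).Separable := by
    have := Polynomial.separable_X_sub_C (x := -c)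
    rwa [C_neg, sub_neg_eq_add] at this
  refine (Polynomial.separable_X).mul h1 ⟨-C c⁻¹, C c⁻¹, ?_⟩
  have : -C c⁻¹ * X + C c⁻¹ * (X + C c) = C (c⁻¹ * c) := by
    rw [C_mul]; ring
  rw [this, inv_mul_cancel₀ hc, C_1]

/-- `X (c X + 1)` is separable over a field. -/
theorem separable_X_mul_C_mul_X_add_one {k : Type*} [Field k] (c : k) :
    ((X : k[X]) * (C c * X + 1)).Separable := by
  have h1 : (C c * X + 1 : k[X]).Separable := by
    rw [Polynomial.separable_def]
    refine ⟨1, -X, ?_⟩
    simp only [derivative_add, derivative_mul, derivative_C, derivative_X, derivative_one,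
      zero_mul, mul_one, zero_add, add_zero]
    ring
  exact (Polynomial.separable_X).mul h1 ⟨-C c, 1, by ring⟩

theorem squarefree_branch₀ (D : KData) {m : ℕ} (hg : D.Good m) (c0 : D.A0)
    (hc0 : ¬ D.ϖ ∣ c0) :
    Squarefree ((X * (X + C c0) : D.A0[X]).map (Ideal.Quotient.mk (Ideal.span {D.ϖ}))) := by
  haveI := helper403.kdata_isMaximal D hg
  letI := Ideal.Quotient.field (Ideal.span {D.ϖ})
  have hne : Ideal.Quotient.mk (Ideal.span {D.ϖ}) c0 ≠ 0 := by
    rw [Ne, Ideal.Quotient.eq_zero_iff_mem, Ideal.mem_span_singleton]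
    exact hc0
  have h := (separable_X_mul_X_add_C hne).squarefree
  rw [Polynomial.map_mul, Polynomial.map_add, Polynomial.map_X, Polynomial.map_C]
  exact h

theorem squarefree_branch₁ (D : KData) {m : ℕ} (hg : D.Good m) (c0 : D.A0) :
    Squarefree ((X * (C c0 * X + 1) : D.A0[X]).map (Ideal.Quotient.mk (Ideal.span {D.ϖ}))) := by
  haveI := helper403.kdata_isMaximal D hg
  letI := Ideal.Quotient.field (Ideal.span {D.ϖ})
  have h := (separable_X_mul_C_mul_X_add_one
    (Ideal.Quotient.mk (Ideal.span {D.ϖ}) c0)).squarefree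
  rw [Polynomial.map_mul, Polynomial.map_add, Polynomial.map_mul, Polynomial.map_X,
    Polynomial.map_C, Polynomial.map_one]
  exact h

/-! ### (S) -/

/-- The chart statement: one component through every closed point of the chart
`s ∈ {tL, tL⁻¹}` with branch polynomial `G`, from `Facts`. -/
theorem oneCompAt_of_facts (D : KData) {m : ℕ} (hg : D.Good m) (c0 : D.A0) (F : Facts D c0)
    (s : D.L0) (hs : s = D.tL ∨ s = D.tL⁻¹) (G : D.A0[X])
    (hG : Squarefree (G.map (Ideal.Quotient.mk (Ideal.span {D.ϖ}))))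
    (hH : D.HorizAt s G) : D.OneCompAt s :=
  helper403.stmt_DNChart D m hg s hs G hG (vertAt_of_facts D hg c0 F s hs) hH

/-- **(S)** The abstract half of the concrete side of track B: a good model with `Facts`
has one component through every closed point of both charts. -/
theorem oneCompSupply : OneCompSupply := by
  intro D m c0 hg hc0 F
  exact ⟨oneCompAt_of_facts D hg c0 F D.tL (Or.inl rfl) _ (squarefree_branch₀ D hg c0 hc0)
      (horizAt_of_bar D c0 F.bar),
    oneCompAt_of_facts D hg c0 F D.tL⁻¹ (Or.inr rfl) _ (squarefree_branch₁ D hg c0)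
      (horizAt_inv_of_bar D c0 F.bar)⟩

end Fermat.Agent.S18.helper648
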