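/-
S18, track B, END WIRING (helper648).

* `kf0_of_specB` : the two halves of `helper3578_SpecB` (`Stmt_KummerGlobal`, `Stmt_Model N ℓ`)
  give the captain's obligation `helper3054.Stmt_KF0 N ℓ`;
* `stmt_KFj_of_specB`, `stmt_KFr_of_specB`, `result_of_specB` : the three obligations of
  `helper2118_Spec` and the frozen statement in track-B form;
* `stmt_Model_of_line`, `stmt_Model_of_line_two`, `stmt_Model_of_line_three` : `Stmt_Model` from
  a good model on the `j`-line and the `OneComponent` property on the charts of another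
  coordinate `τ` (Hauptmodul line), by `helper648_LineChange`.
-/
import Fermat.Agent.S18.helper2118_Spec
import Fermat.Agent.S18.helper3578_SpecB
import Fermat.Agent.S18.helper648_LineChange

set_option autoImplicit false
set_option synthInstance.maxHeartbeats 400000

noncomputable section

namespace Fermat.Agent.S18.helper648

open Polynomial ModularCurve AlgebraicCurve
open Fermat.Agent.S18.helper3578

/-- The two halves of track B give the Kummer field form `Stmt_KF0` at the level itself. -/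
theorem kf0_of_specB (N : ℕ) [NeZero N] (ℓ : ℕ) (hG : Stmt_KummerGlobal)
    (hM : Stmt_Model N ℓ) : helper3054.Stmt_KF0 N ℓ := by
  intro A hA m hm a b hdvd w hw hred
  obtain ⟨V, hV⟩ := kf_of_specB N ℓ hG hM A hA m hm a b hdvd
    ⟨w, hw, 1, one_ne_zero, by rw [map_one, one_mul]; exact hred⟩
  exact ⟨V, 1, by rw [map_one, one_mul]; exact hV⟩

/-- The `j`-line obligation of the captain's Spec, in track-B form. -/
theorem stmt_KFj_of_specB (hG : Stmt_KummerGlobal)
    (hM : ∀ (N : ℕ) [NeZero N] (ℓ : ℕ), ℓ.Prime → 5 ≤ ℓ → ¬ ℓ ∣ N → Stmt_Model N ℓ) :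
    helper2118.Stmt_KFj :=
  fun N _ ℓ hℓ h5 hℓN => kf0_of_specB N ℓ hG (hM N ℓ hℓ h5 hℓN)

/-- The Hauptmodul-line obligation of the captain's Spec, in track-B form. -/
theorem stmt_KFr_of_specB (r : ℕ) (hG : Stmt_KummerGlobal)
    (hM : ∀ (N' : ℕ) [NeZero N'] (ℓ : ℕ), ℓ.Prime → r ∣ N' → ¬ ℓ ∣ N' → ℓ ≠ r →
      Stmt_Model N' ℓ) :
    helper2118.Stmt_KFr r :=
  fun N' _ ℓ hℓ hr hℓN hne => kf0_of_specB N' ℓ hG (hM N' ℓ hℓ hr hℓN hne)

/-- **The frozen statement S18 from track B**: the abstract half, the concrete half on the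
`j`-line for `ℓ ≥ 5`, and the concrete half at `ℓ = 3` (levels divisible by `2`) and at `ℓ = 2`
(levels divisible by `3`). -/
theorem result_of_specB (hG : Stmt_KummerGlobal)
    (hMj : ∀ (N : ℕ) [NeZero N] (ℓ : ℕ), ℓ.Prime → 5 ≤ ℓ → ¬ ℓ ∣ N → Stmt_Model N ℓ)
    (hM23 : ∀ (N' : ℕ) [NeZero N'], 2 ∣ N' → ¬ 3 ∣ N' → Stmt_Model N' 3)
    (hM32 : ∀ (N' : ℕ) [NeZero N'], 3 ∣ N' → ¬ 2 ∣ N' → Stmt_Model N' 2)
    (N : ℕ) [NeZero N] {ℓ : ℕ} [Fact ℓ.Prime] (hℓN : ¬ ℓ ∣ N)
    (A : ValuationSubring (AlgebraicClosure ℚ)) (hA : A.LiesOverPrime ℓ)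
    (h : ModularCurve.ReductionInputsModL A N) (m : ℕ) (hm : ¬ ℓ ∣ m) (z : ModularCurve.JZero N)
    (hmz : m • z = 0) (hz : ModularCurve.reductionModL A N z = 0) : z = 0 :=
  helper2118.result_of_small (stmt_KFj_of_specB hG hMj)
    (fun N' _ h2 h3 => kf0_of_specB N' 3 hG (hM23 N' h2 h3))
    (fun N' _ h3 h2 => kf0_of_specB N' 2 hG (hM32 N' h3 h2))
    N hℓN A hA h m hm z hmz hz

/-- **`Stmt_Model` on another line.**  It suffices to produce, for every integral Kummer pair,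
a good model `D` (on any line, e.g. `t = j`), a second coordinate `τ` of `D.F0` related to
`D.t` by `t * τ ^ r = P(τ)` (`P` monic of degree `> r`, `P(0)` prime to `ϖ` or `r = 0`), and the
`OneComponent` property on the two charts of the `τ`-line. -/
theorem stmt_Model_of_line (N : ℕ) [NeZero N] (ℓ : ℕ)
    (H : ∀ (A : ValuationSubring (AlgebraicClosure ℚ)), A.LiesOverPrime ℓ → ∀ m : ℕ, ¬ ℓ ∣ m →
      ∀ a b : helper3054.IntegralFn A N,
      (∀ P : Place (AlgebraicClosure ℚ) (modularFunctionFieldBar N),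
        (m : ℤ) ∣ P.ord a.gen - P.ord b.gen) →
      (∃ w : modularFunctionFieldFullC (IsLocalRing.ResidueField A) N, w ≠ 0 ∧
        ∃ c : IsLocalRing.ResidueField A, c ≠ 0 ∧
          a.red = algebraMap _ (modularFunctionFieldFullC (IsLocalRing.ResidueField A) N) c *
            w ^ m * b.red) →
      ∃ D : KData, D.Good m ∧
        ∃ (τ : D.F0) (P : D.A0[X]) (r : ℕ), P.Monic ∧ r < P.natDegree ∧
          (r = 0 ∨ ¬ D.ϖ ∣ P.coeff 0) ∧ D.t * τ ^ r = aeval τ P ∧ (withLine D τ).OneComp ∧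
          ∃ ι : D.F0 →+* modularFunctionFieldBar N, ι D.U * b.gen = a.gen) :
    Stmt_Model N ℓ := by
  intro A hA m hm a b hdiv hred
  obtain ⟨D, hD, τ, P, r, hP, hr, hP0, hrel, hone, ι, hι⟩ := H A hA m hm a b hdiv hred
  exact ⟨withLine D τ, good_withLine D m hD τ P hP r hr hP0 hrel, hone, ι, hι⟩

/-- `Stmt_Model` on the Hauptmodul line of level two (`j * τ ^ 2 = (τ + 256) ^ 3`). -/
theorem stmt_Model_of_line_two (N : ℕ) [NeZero N] (ℓ : ℕ)
    (H : ∀ (A : ValuationSubring (AlgebraicClosure ℚ)), A.LiesOverPrime ℓ → ∀ m : ℕ, ¬ ℓ ∣ m →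
      ∀ a b : helper3054.IntegralFn A N,
      (∀ P : Place (AlgebraicClosure ℚ) (modularFunctionFieldBar N),
        (m : ℤ) ∣ P.ord a.gen - P.ord b.gen) →
      (∃ w : modularFunctionFieldFullC (IsLocalRing.ResidueField A) N, w ≠ 0 ∧
        ∃ c : IsLocalRing.ResidueField A, c ≠ 0 ∧
          a.red = algebraMap _ (modularFunctionFieldFullC (IsLocalRing.ResidueField A) N) c *
            w ^ m * b.red) →
      ∃ D : KData, D.Good m ∧ ¬ D.ϖ ∣ 2 ∧
        ∃ τ : D.F0, D.t * τ ^ 2 = (τ + 256) ^ 3 ∧ (withLine D τ).OneComp ∧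
          ∃ ι : D.F0 →+* modularFunctionFieldBar N, ι D.U * b.gen = a.gen) :
    Stmt_Model N ℓ := by
  intro A hA m hm a b hdiv hred
  obtain ⟨D, hD, h2, τ, hrel, hone, ι, hι⟩ := H A hA m hm a b hdiv hred
  exact ⟨withLine D τ, good_withLine_two D m hD τ h2 hrel, hone, ι, hι⟩

/-- `Stmt_Model` on the Hauptmodul line of level three
(`j * τ ^ 3 = (τ + 27) * (τ + 243) ^ 3`). -/
theorem stmt_Model_of_line_three (N : ℕ) [NeZero N] (ℓ : ℕ)
    (H : ∀ (A : ValuationSubring (AlgebraicClosure ℚ)), A.LiesOverPrime ℓ → ∀ m : ℕ, ¬ ℓ ∣ m →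
      ∀ a b : helper3054.IntegralFn A N,
      (∀ P : Place (AlgebraicClosure ℚ) (modularFunctionFieldBar N),
        (m : ℤ) ∣ P.ord a.gen - P.ord b.gen) →
      (∃ w : modularFunctionFieldFullC (IsLocalRing.ResidueField A) N, w ≠ 0 ∧
        ∃ c : IsLocalRing.ResidueField A, c ≠ 0 ∧
          a.red = algebraMap _ (modularFunctionFieldFullC (IsLocalRing.ResidueField A) N) c *
            w ^ m * b.red) →
      ∃ D : KData, D.Good m ∧ ¬ D.ϖ ∣ 3 ∧
        ∃ τ : D.F0, D.t * τ ^ 3 = (τ + 27) * (τ + 243) ^ 3 ∧ (withLine D τ).OneComp ∧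
          ∃ ι : D.F0 →+* modularFunctionFieldBar N, ι D.U * b.gen = a.gen) :
    Stmt_Model N ℓ := by
  intro A hA m hm a b hdiv hred
  obtain ⟨D, hD, h3, τ, hrel, hone, ι, hι⟩ := H A hA m hm a b hdiv hred
  exact ⟨withLine D τ, good_withLine_three D m hD τ h3 hrel, hone, ι, hι⟩

end Fermat.Agent.S18.helper648
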