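import Mathlib

set_option autoImplicit false

/-!
# S18: abstract endgame of the Kummer core (helper6542)

Pure algebra, Mathlib only.  No Smith normal form over valuation rings is needed.

* `exists_torsion_bound` (T1): over a domain, for a finite set `G` and ANY submodule `N` of ANY
  module, one nonzero `κ` sends the part of `span G` that is torsion modulo `N` into `N`.
* `torsion_bound_step` (T2), `torsion_bound_chain` (T3): the bound survives along a chain.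
* `finrank_inter_le` (T5): the dimension count giving hypothesis (b') of the chain.
-/

namespace Fermat.Agent.S18.helper6542

section TorsionBound

variable {A : Type*} [CommRing A] [IsDomain A]
variable {W : Type*} [AddCommGroup W] [Module A W]

/-- `TorsionBound κ Q N`: every element of `Q` having a nonzero multiple in `N`
is sent into `N` by `κ`. -/
def TorsionBound (κ : A) (Q N : Submodule A W) : Prop :=
  ∀ q ∈ Q, ∀ a : A, a ≠ 0 → a • q ∈ N → κ • q ∈ N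

/-- (T1), finset form. -/
theorem exists_torsion_bound_span (G : Finset W) (N : Submodule A W) :
    ∃ κ : A, κ ≠ 0 ∧ TorsionBound κ (Submodule.span A (G : Set W)) N := by
  classical
  induction G using Finset.induction_on with
  | empty =>
    refine ⟨1, one_ne_zero, ?_⟩
    intro q hq a _ _
    simp only [Finset.coe_empty, Submodule.span_empty, Submodule.mem_bot] at hq
    subst hq
    simp
  | insert g G _ ih =>
    obtain ⟨κ', hκ', hb⟩ := ih
    by_cases hex : ∃ b : A, b ≠ 0 ∧ ∃ n0 ∈ N, ∃ q0 ∈ Submodule.span A (G : Set W),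
        b • g = n0 + q0
    · obtain ⟨b, hb0, n0, hn0, q0, hq0, hbg⟩ := hex
      refine ⟨κ' * b, mul_ne_zero hκ' hb0, ?_⟩
      intro q hq a ha haq
      rw [Finset.coe_insert, Submodule.mem_span_insert] at hq
      obtain ⟨c, q', hq', rfl⟩ := hq
      have h1 : b • (c • g + q') - c • n0 ∈ Submodule.span A (G : Set W) := by
        have : b • (c • g + q') - c • n0 = c • q0 + b • q' := by
          rw [smul_add, smul_comm b c g, hbg, smul_add]
          abel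
        rw [this]
        exact Submodule.add_mem _ (Submodule.smul_mem _ _ hq0) (Submodule.smul_mem _ _ hq')
      have h2 : a • (b • (c • g + q') - c • n0) ∈ N := by
        have : a • (b • (c • g + q') - c • n0) = b • (a • (c • g + q')) - (a * c) • n0 := by
          rw [smul_sub, smul_comm a b, mul_smul]
        rw [this]
        exact Submodule.sub_mem _ (Submodule.smul_mem _ _ haq) (Submodule.smul_mem _ _ hn0)
      have h3 := hb _ h1 a ha h2
      have : (κ' * b) • (c • g + q') = κ' • (b • (c • g + q') - c • n0) + (κ' * c) • n0 := by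
        rw [smul_sub, mul_smul, mul_smul]
        abel
      rw [this]
      exact Submodule.add_mem _ h3 (Submodule.smul_mem _ _ hn0)
    · refine ⟨κ', hκ', ?_⟩
      intro q hq a ha haq
      rw [Finset.coe_insert, Submodule.mem_span_insert] at hq
      obtain ⟨c, q', hq', rfl⟩ := hq
      have hc : c = 0 := by
        by_contra hc
        apply hex
        refine ⟨a * c, mul_ne_zero ha hc, a • (c • g + q'), haq, -(a • q'),
          Submodule.neg_mem _ (Submodule.smul_mem _ _ hq'), ?_⟩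
        rw [smul_add, mul_smul]
        abel
      subst hc
      simp only [zero_smul, zero_add] at haq ⊢
      exact hb q' hq' a ha haq

/-- (T1): over a domain, for a finitely generated submodule `Q` and ANY submodule `N` of ANY
module there is `κ ≠ 0` with: `q ∈ Q`, `a ≠ 0`, `a • q ∈ N` imply `κ • q ∈ N`. -/
theorem exists_torsion_bound (Q N : Submodule A W) (hQ : Q.FG) :
    ∃ κ : A, κ ≠ 0 ∧ TorsionBound κ Q N := by
  obtain ⟨G, rfl⟩ := hQ
  exact exists_torsion_bound_span G N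

/-- (T1), variant: `Q` only needs to be contained in a finitely generated submodule. -/
theorem exists_torsion_bound_of_le (Q Q₀ N : Submodule A W) (hQ : Q ≤ Q₀) (hQ₀ : Q₀.FG) :
    ∃ κ : A, κ ≠ 0 ∧ TorsionBound κ Q N := by
  obtain ⟨κ, hκ, h⟩ := exists_torsion_bound Q₀ N hQ₀
  exact ⟨κ, hκ, fun q hq a ha haq => h q (hQ hq) a ha haq⟩

omit [IsDomain A] in
/-- (T2): one step of the chain keeps the same `κ`. -/
theorem torsion_bound_step {κ : A} {Q Q' N N' : Submodule A W} (hN : N ≤ N')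
    (ha : Q' ≤ Q ⊔ N')
    (hb : ∀ q ∈ Q, (∃ b : A, b ≠ 0 ∧ b • q ∈ N') → ∃ b : A, b ≠ 0 ∧ b • q ∈ N)
    (h : TorsionBound κ Q N) : TorsionBound κ Q' N' := by
  intro q' hq' a ha0 haq
  obtain ⟨q, hq, n', hn', rfl⟩ := Submodule.mem_sup.mp (ha hq')
  have h1 : a • q ∈ N' := by
    have : a • q = a • (q + n') - a • n' := by rw [smul_add]; abel
    rw [this]
    exact Submodule.sub_mem _ haq (Submodule.smul_mem _ _ hn')
  obtain ⟨b, hb0, hbq⟩ := hb q hq ⟨a, ha0, h1⟩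
  have h2 := h q hq b hb0 hbq
  rw [smul_add]
  exact Submodule.add_mem _ (hN h2) (Submodule.smul_mem _ _ hn')

/-- (T3): uniform torsion bound along a chain `Q n`, `N n` (`n ≥ n₀`). -/
theorem torsion_bound_chain (Q N : ℕ → Submodule A W) (n₀ : ℕ) (hfg : (Q n₀).FG)
    (hN : ∀ n, n₀ ≤ n → N n ≤ N (n + 1))
    (ha : ∀ n, n₀ ≤ n → Q (n + 1) ≤ Q n ⊔ N (n + 1))
    (hb : ∀ n, n₀ ≤ n → ∀ q ∈ Q n, (∃ b : A, b ≠ 0 ∧ b • q ∈ N (n + 1)) →
      ∃ b : A, b ≠ 0 ∧ b • q ∈ N n) :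
    ∃ κ : A, κ ≠ 0 ∧ ∀ n, n₀ ≤ n → TorsionBound κ (Q n) (N n) := by
  obtain ⟨κ, hκ, h0⟩ := exists_torsion_bound (Q n₀) (N n₀) hfg
  refine ⟨κ, hκ, ?_⟩
  intro n hn
  induction n, hn using Nat.le_induction with
  | base => exact h0
  | succ n hn ih => exact torsion_bound_step (hN n hn) (ha n hn) (hb n hn) ih

end TorsionBound

section Application

variable {A : Type*} [CommRing A] [IsDomain A]
variable {V W : Type*} [AddCommGroup V] [Module A V] [AddCommGroup W] [Module A W]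

omit [IsDomain A] in
/-- (T4): consumer form.  If `Φ` is injective on `P` and `κ` is a torsion bound for `Q` and
`Φ(P)`, then `Φ x ∈ ε • Q` forces `κ • x ∈ ε • P`. -/
theorem smul_mem_of_map_eq (Φ : V →ₗ[A] W) {κ : A} {P : Submodule A V} {Q : Submodule A W}
    (hinj : ∀ x ∈ P, Φ x = 0 → x = 0) (h : TorsionBound κ Q (P.map Φ))
    {x : V} (hx : x ∈ P) {ε : A} {q : W} (hq : q ∈ Q) (hxq : Φ x = ε • q) :
    ∃ p ∈ P, κ • x = ε • p := by
  by_cases hε : ε = 0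
  · subst hε
    rw [zero_smul] at hxq
    have hx0 := hinj x hx hxq
    exact ⟨0, Submodule.zero_mem _, by rw [hx0, smul_zero, smul_zero]⟩
  · have h1 : ε • q ∈ P.map Φ := by
      rw [← hxq]
      exact Submodule.mem_map_of_mem hx
    obtain ⟨p, hp, hpq⟩ := Submodule.mem_map.mp (h q hq ε hε h1)
    refine ⟨p, hp, ?_⟩
    have h2 : Φ (κ • x - ε • p) = 0 := by
      rw [map_sub, map_smul, map_smul, hxq, hpq, smul_comm κ ε q, sub_self]
    have h3 := hinj _ (Submodule.sub_mem _ (Submodule.smul_mem _ _ hx)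
      (Submodule.smul_mem _ _ hp)) h2
    exact sub_eq_zero.mp h3

end Application

section Dimension

variable {L : Type*} [Field L] {W : Type*} [AddCommGroup W] [Module L W]

/-- (T5): the dimension count behind hypothesis (b') of the chain.  If `Y'/U'` is a quotient of
`Y/U` (i.e. `Y' ≤ Y ⊔ U'`) and both have the same finite dimension, then `Y ⊓ U' ≤ U`. -/
theorem inf_le_of_finrank_eq {U U' Y Y' : Submodule L W} [Module.Finite L Y']
    (hUY : U ≤ Y) (hUU' : U ≤ U') (hYY' : Y ≤ Y') (hU'Y' : U' ≤ Y') (hsurj : Y' ≤ Y ⊔ U')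
    (hrank : Module.finrank L Y + Module.finrank L U' = Module.finrank L Y' + Module.finrank L U) :
    Y ⊓ U' ≤ U := by
  have hY : Module.Finite L Y := Submodule.finiteDimensional_of_le hYY'
  have hU' : Module.Finite L U' := Submodule.finiteDimensional_of_le hU'Y'
  have hsup : Y ⊔ U' = Y' := le_antisymm (sup_le hYY' hU'Y') hsurj
  have h1 := Submodule.finrank_sup_add_finrank_inf_eq Y U'
  rw [hsup] at h1
  have h2 : Module.finrank L (Y ⊓ U' : Submodule L W) = Module.finrank L U := by omega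
  have hle : U ≤ Y ⊓ U' := le_inf hUY hUU'
  have hfin : Module.Finite L (Y ⊓ U' : Submodule L W) :=
    Submodule.finiteDimensional_of_le (inf_le_left : Y ⊓ U' ≤ Y)
  exact (Submodule.eq_of_le_of_finrank_eq hle h2.symm).ge

end Dimension

section Newton

variable {R : Type*} [CommRing R]

/-- `(1 - x)^m = 1 - m x + x^2 h` with `h` in any subring containing `x`. -/
theorem one_sub_pow_expand (S : Subring R) (m : ℕ) {x : R} (hx : x ∈ S) :
    ∃ h ∈ S, (1 - x) ^ m = 1 - (m : R) * x + x ^ 2 * h := by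
  induction m with
  | zero => exact ⟨0, S.zero_mem, by simp⟩
  | succ m ih =>
    obtain ⟨h, hh, hm⟩ := ih
    refine ⟨h + (m : R) - x * h, S.sub_mem (S.add_mem hh (natCast_mem S m)) (S.mul_mem hx hh), ?_⟩
    rw [pow_succ, hm]
    push_cast
    ring

/-- Newton step for `T^m u = 1`: if `r m = 1` then
`(1 + e) (1 - r e)^m - 1 = e^2 g` with `g` in any subring containing `r` and `e`. -/
theorem newton_key (S : Subring R) (m : ℕ) {r e : R} (hr : r ∈ S) (he : e ∈ S)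
    (hrm : r * (m : R) = 1) :
    ∃ g ∈ S, (1 + e) * (1 - r * e) ^ m - 1 = e ^ 2 * g := by
  obtain ⟨h, hh, hm⟩ := one_sub_pow_expand S m (S.mul_mem hr he)
  refine ⟨r ^ 2 * h * (1 + e) - 1,
    S.sub_mem (S.mul_mem (S.mul_mem (S.pow_mem hr 2) hh) (S.add_mem S.one_mem he)) S.one_mem, ?_⟩
  rw [hm]
  have : (m : R) * (r * e) = e := by
    rw [← mul_assoc, mul_comm (m : R) r, hrm, one_mul]
  rw [this]
  ring

/-- auxiliary form of the Newton iteration with `ε₀` as a variable. -/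
theorem newton_iterate_aux (S : Subring R) (m : ℕ) {r : R} (hr : r ∈ S) (hrm : r * (m : R) = 1)
    (a₀ u ε₀ : R) (h0 : a₀ ^ m * u = 1 + ε₀) (hε : ε₀ ∈ S) (j : ℕ) :
    ∃ s ∈ S, ∃ t ∈ S, ∃ t' ∈ S, s = 1 + ε₀ * t' ∧
      (a₀ * s) ^ m * u = 1 + ε₀ ^ (2 ^ j) * t := by
  induction j with
  | zero =>
    exact ⟨1, S.one_mem, 1, S.one_mem, 0, S.zero_mem, by simp, by simpa using h0⟩
  | succ j ih =>
    obtain ⟨s, hs, t, ht, t', ht', hst, hj⟩ := ih
    have hεS : ε₀ ^ (2 ^ j) * t ∈ S := S.mul_mem (S.pow_mem hε _) ht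
    obtain ⟨g, hg, hkey⟩ := newton_key S m hr hεS hrm
    have hpos : 2 ^ j = (2 ^ j - 1) + 1 := by
      have : 0 < 2 ^ j := Nat.pos_of_ne_zero (by positivity)
      omega
    have hsplit : ε₀ ^ (2 ^ j) = ε₀ * ε₀ ^ (2 ^ j - 1) := by
      rw [← pow_succ', ← hpos]
    refine ⟨s * (1 - r * (ε₀ ^ (2 ^ j) * t)),
      S.mul_mem hs (S.sub_mem S.one_mem (S.mul_mem hr hεS)),
      t ^ 2 * g, S.mul_mem (S.pow_mem ht 2) hg,
      t' - r * ε₀ ^ (2 ^ j - 1) * t * s,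
      S.sub_mem ht' (S.mul_mem (S.mul_mem (S.mul_mem hr (S.pow_mem hε _)) ht) hs), ?_, ?_⟩
    · linear_combination hst - r * t * s * hsplit
    · have h2 : (a₀ * (s * (1 - r * (ε₀ ^ (2 ^ j) * t)))) ^ m * u =
          ((a₀ * s) ^ m * u) * (1 - r * (ε₀ ^ (2 ^ j) * t)) ^ m := by
        rw [← mul_assoc, mul_pow]
        ring
      rw [h2, hj]
      have hpow2 : ε₀ ^ (2 ^ (j + 1)) = (ε₀ ^ (2 ^ j)) ^ 2 := by
        rw [← pow_mul, pow_succ]
      rw [hpow2]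
      linear_combination hkey

/-- (N) Newton iteration inside a subring `S`.  If `r m = 1`, `r ∈ S` and
`ε₀ := a₀^m u - 1 ∈ S`, then for every `j` there is `s ∈ S`, `s ≡ 1 mod ε₀ S`, with
`(a₀ s)^m u - 1 ∈ ε₀^(2^j) S`. -/
theorem newton_iterate (S : Subring R) (m : ℕ) {r : R} (hr : r ∈ S) (hrm : r * (m : R) = 1)
    (a₀ u : R) (hε : a₀ ^ m * u - 1 ∈ S) (j : ℕ) :
    ∃ s ∈ S, ∃ t ∈ S, ∃ t' ∈ S, s = 1 + (a₀ ^ m * u - 1) * t' ∧
      (a₀ * s) ^ m * u - 1 = (a₀ ^ m * u - 1) ^ (2 ^ j) * t := by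
  obtain ⟨s, hs, t, ht, t', ht', hst, hj⟩ :=
    newton_iterate_aux S m hr hrm a₀ u (a₀ ^ m * u - 1) (by ring) hε j
  exact ⟨s, hs, t, ht, t', ht', hst, by rw [hj]; ring⟩

end Newton

section Roots

variable {F : Type*} [Field F] {Γ₀ : Type*} [LinearOrderedCommGroupWithZero Γ₀]

/-- (R) roots of unity are not needed: if `v m = 1` and `v (x - 1) < 1`
then `v (x^m - 1) = v (x - 1)`. -/
theorem valuation_pow_sub_one (v : Valuation F Γ₀) (m : ℕ) (hm : v (m : F) = 1) {x : F}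
    (hx : v (x - 1) < 1) : v (x ^ m - 1) = v (x - 1) := by
  have hx1 : v x = 1 := by
    have := v.map_one_add_of_lt hx
    rwa [add_sub_cancel] at this
  have hgeom : ∀ i : ℕ, v (∑ k ∈ Finset.range i, x ^ k) ≤ 1 := by
    intro i
    apply v.map_sum_le
    intro k _
    rw [map_pow, hx1, one_pow]
  have hpow : ∀ i : ℕ, v (x ^ i - 1) < 1 := by
    intro i
    rw [← geom_sum_mul, map_mul]
    calc v (∑ k ∈ Finset.range i, x ^ k) * v (x - 1) ≤ 1 * v (x - 1) :=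
          mul_le_mul_left (hgeom i) _
      _ = v (x - 1) := one_mul _
      _ < 1 := hx
  have hsum : v (∑ i ∈ Finset.range m, x ^ i) = 1 := by
    have h1 : ∑ i ∈ Finset.range m, x ^ i = (m : F) + ∑ i ∈ Finset.range m, (x ^ i - 1) := by
      rw [Finset.sum_sub_distrib]
      simp
    rw [h1]
    have h2 : v (∑ i ∈ Finset.range m, (x ^ i - 1)) < v (m : F) := by
      rw [hm]
      exact v.map_sum_lt one_ne_zero (fun i _ => hpow i)
    rw [v.map_add_eq_of_lt_left h2, hm]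
  rw [← geom_sum_mul, map_mul, hsum, one_mul]

/-- (R'), pair form: two approximate solutions of `T^m u = 1` with the same reduction
are close to each other. -/
theorem valuation_sub_le_of_pow (v : Valuation F Γ₀) (m : ℕ) (hm : v (m : F) = 1) {a b u : F}
    {e : Γ₀} (he : e < 1) (hb : v b = 1) (hab : v (a - b) < 1)
    (ha' : v (a ^ m * u - 1) ≤ e) (hb' : v (b ^ m * u - 1) ≤ e) : v (a - b) ≤ e := by
  have hb0 : b ≠ 0 := by
    intro h
    rw [h, map_zero] at hb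
    exact zero_ne_one hb
  have hbu : v (b ^ m * u) = 1 := by
    have := v.map_one_add_of_lt (lt_of_le_of_lt hb' he)
    rwa [add_sub_cancel] at this
  have hbu0 : b ^ m * u ≠ 0 := by
    intro h
    rw [h, map_zero] at hbu
    exact zero_ne_one hbu
  have hx : v (a / b - 1) < 1 := by
    have : a / b - 1 = (a - b) / b := by field_simp
    rw [this, map_div₀, hb, div_one]
    exact hab
  have h1 := valuation_pow_sub_one v m hm hx
  have h2 : (a / b) ^ m - 1 = ((a ^ m * u - 1) - (b ^ m * u - 1)) / (b ^ m * u) := by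
    have hbm : b ^ m ≠ 0 := pow_ne_zero m hb0
    rw [div_pow, eq_div_iff hbu0, sub_mul]
    have h4 : a ^ m / b ^ m * (b ^ m * u) = a ^ m * u := by
      rw [← mul_assoc, div_mul_cancel₀ _ hbm]
    rw [h4]
    ring
  have h3 : v (a / b - 1) = v (a - b) := by
    have : a / b - 1 = (a - b) / b := by field_simp
    rw [this, map_div₀, hb, div_one]
  rw [← h3, ← h1, h2, map_div₀, hbu, div_one]
  exact v.map_sub_le ha' hb'

end Roots

section ClosePair

variable {F : Type*} [Field F] {Γ₀ : Type*} [LinearOrderedCommGroupWithZero Γ₀]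

/-- (N)+(R): two Newton sequences in two "charts" (`S₁`, `S₂` subrings of the unit ball
containing `1/m`), started at `a₀`, `b₀` with `v (a₀ - b₀) < 1`, produce pairs that are
arbitrarily close: `v (a₀ s₁ - b₀ s₂) ≤ e^(2^j)`. -/
theorem exists_close_pair (v : Valuation F Γ₀) (m : ℕ) (hm : v (m : F) = 1)
    (S₁ S₂ : Subring F) (hS₁ : ∀ s ∈ S₁, v s ≤ 1) (hS₂ : ∀ s ∈ S₂, v s ≤ 1)
    (hm₁ : (m : F)⁻¹ ∈ S₁) (hm₂ : (m : F)⁻¹ ∈ S₂)
    (a₀ b₀ u : F) (ha₀ : v a₀ = 1) (hb₀ : v b₀ = 1) (hab : v (a₀ - b₀) < 1)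
    (hε₁ : a₀ ^ m * u - 1 ∈ S₁) (hε₂ : b₀ ^ m * u - 1 ∈ S₂)
    (e : Γ₀) (he : e < 1) (hε₁v : v (a₀ ^ m * u - 1) ≤ e) (hε₂v : v (b₀ ^ m * u - 1) ≤ e)
    (j : ℕ) :
    ∃ s₁ ∈ S₁, ∃ s₂ ∈ S₂, v s₁ = 1 ∧ v s₂ = 1 ∧ v (a₀ * s₁ - b₀ * s₂) ≤ e ^ (2 ^ j) := by
  have hm0 : (m : F) ≠ 0 := by
    intro h
    rw [h, map_zero] at hm
    exact zero_ne_one hm
  have hrm : (m : F)⁻¹ * (m : F) = 1 := inv_mul_cancel₀ hm0
  obtain ⟨s₁, hs₁, t₁, ht₁, t₁', ht₁', hst₁, hj₁⟩ := newton_iterate S₁ m hm₁ hrm a₀ u hε₁ j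
  obtain ⟨s₂, hs₂, t₂, ht₂, t₂', ht₂', hst₂, hj₂⟩ := newton_iterate S₂ m hm₂ hrm b₀ u hε₂ j
  have hpow : e ^ (2 ^ j) < 1 := pow_lt_one₀ zero_le he (by positivity)
  have hsmall₁ : v ((a₀ ^ m * u - 1) * t₁') < 1 := by
    rw [map_mul]
    calc v (a₀ ^ m * u - 1) * v t₁' ≤ e * 1 := mul_le_mul' hε₁v (hS₁ _ ht₁')
      _ = e := mul_one _
      _ < 1 := he
  have hsmall₂ : v ((b₀ ^ m * u - 1) * t₂') < 1 := by
    rw [map_mul]
    calc v (b₀ ^ m * u - 1) * v t₂' ≤ e * 1 := mul_le_mul' hε₂v (hS₂ _ ht₂')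
      _ = e := mul_one _
      _ < 1 := he
  have hvs₁ : v s₁ = 1 := by rw [hst₁]; exact v.map_one_add_of_lt hsmall₁
  have hvs₂ : v s₂ = 1 := by rw [hst₂]; exact v.map_one_add_of_lt hsmall₂
  refine ⟨s₁, hs₁, s₂, hs₂, hvs₁, hvs₂, ?_⟩
  have hb : v (b₀ * s₂) = 1 := by rw [map_mul, hb₀, hvs₂, one_mul]
  have hclose : v (a₀ * s₁ - b₀ * s₂) < 1 := by
    have : a₀ * s₁ - b₀ * s₂ = (a₀ - b₀) + (a₀ * ((a₀ ^ m * u - 1) * t₁')
        - b₀ * ((b₀ ^ m * u - 1) * t₂')) := by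
      rw [hst₁, hst₂]; ring
    rw [this]
    refine v.map_add_lt hab (v.map_sub_lt ?_ ?_)
    · rw [map_mul, ha₀, one_mul]; exact hsmall₁
    · rw [map_mul, hb₀, one_mul]; exact hsmall₂
  refine valuation_sub_le_of_pow (u := u) v m hm hpow hb hclose ?_ ?_
  · rw [hj₁, map_mul, map_pow]
    calc v (a₀ ^ m * u - 1) ^ (2 ^ j) * v t₁ ≤ e ^ (2 ^ j) * 1 :=
          mul_le_mul' (pow_le_pow_left' hε₁v _) (hS₁ _ ht₁)
      _ = e ^ (2 ^ j) := mul_one _
  · rw [hj₂, map_mul, map_pow]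
    calc v (b₀ ^ m * u - 1) ^ (2 ^ j) * v t₂ ≤ e ^ (2 ^ j) * 1 :=
          mul_le_mul' (pow_le_pow_left' hε₂v _) (hS₂ _ ht₂)
      _ = e ^ (2 ^ j) := mul_one _

end ClosePair

section Core

variable {A : Type*} [CommRing A] [IsDomain A] {F : Type*} [Field F] [Algebra A F]
variable {Γ₀ : Type*} [LinearOrderedCommGroupWithZero Γ₀]

/-- The unit ball of a valuation `v` on `F` as an `A`-submodule (`A` acting by elements of
valuation `≤ 1`). -/
def ball (v : Valuation F Γ₀) (hA : ∀ c : A, v (algebraMap A F c) ≤ 1) : Submodule A F where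
  carrier := {f | v f ≤ 1}
  add_mem' := fun ha hb => v.map_add_le ha hb
  zero_mem' := by simp
  smul_mem' := fun c f hf => by
    show v (c • f) ≤ 1
    rw [Algebra.smul_def, map_mul]
    exact mul_le_one' (hA c) hf

omit [IsDomain A] in
theorem mem_ball {v : Valuation F Γ₀} {hA : ∀ c : A, v (algebraMap A F c) ≤ 1} {f : F} :
    f ∈ ball v hA ↔ v f ≤ 1 := Iff.rfl

variable (A F) in
/-- the Cech difference map `(a, b) ↦ a - b`. -/
def diffMap : F × F →ₗ[A] F := LinearMap.fst A F F - LinearMap.snd A F F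

omit [IsDomain A] in
@[simp] theorem diffMap_apply (x : F × F) : diffMap A F x = x.1 - x.2 := rfl

omit [IsDomain A] in
theorem mem_map_diffMap {v : Valuation F Γ₀} {hA : ∀ c : A, v (algebraMap A F c) ≤ 1}
    {M₁ M₂ : Submodule A F} {y : F} :
    y ∈ ((M₁ ⊓ ball v hA).prod (M₂ ⊓ ball v hA)).map (diffMap A F) ↔
      ∃ a ∈ M₁, ∃ b ∈ M₂, v a ≤ 1 ∧ v b ≤ 1 ∧ y = a - b := by
  constructor
  · rintro ⟨⟨a, b⟩, ⟨⟨ha, hav⟩, ⟨hb, hbv⟩⟩, rfl⟩
    exact ⟨a, ha, b, hb, hav, hbv, rfl⟩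
  · rintro ⟨a, ha, b, hb, hav, hbv, rfl⟩
    exact ⟨⟨a, b⟩, ⟨⟨ha, hav⟩, ⟨hb, hbv⟩⟩, rfl⟩

/-- **Abstract Kummer core, endgame.**  `M₁ n`, `M₂ n`, `M₁₂ n` are the three chains of
Riemann–Roch spaces (`L(D₀ + n X_∞)`, `L(D₀ + n X_0)`, `L(D₀ + n X_∞ + n X_0)`) regarded as
`A`-submodules of the valued field `F`.  Hypotheses:
* `hinj`: `M₁ n ∩ M₂ n = 0` (i.e. `L(D₀) = 0`);
* `hfg`: the unit ball of `M₁₂ n₀` is a finitely generated `A`-module;
* `ha`: integral surjectivity `M₁₂(n+1)° = M₁₂(n)° + (M₁(n+1)° - M₂(n+1)°)`;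
* `hb`: no new torsion, `M₁₂(n) ∩ (M₁(n+1) + M₂(n+1)) ⊆ M₁(n) + M₂(n)` up to scalars;
* `hN`: arbitrarily close pairs (the output of the two Newton iterations).
Then `False`. -/
theorem kummer_core_false (v : Valuation F Γ₀) (hA : ∀ c : A, v (algebraMap A F c) ≤ 1)
    (hinjA : Function.Injective (algebraMap A F))
    (t₀ : A) (ht₀ : t₀ ≠ 0) (ht₀v : v (algebraMap A F t₀) < 1)
    (M₁ M₂ M₁₂ : ℕ → Submodule A F) (n₀ : ℕ)
    (hM₁ : ∀ n, n₀ ≤ n → M₁ n ≤ M₁ (n + 1)) (hM₂ : ∀ n, n₀ ≤ n → M₂ n ≤ M₂ (n + 1))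
    (hinj : ∀ n, n₀ ≤ n → ∀ f, f ∈ M₁ n → f ∈ M₂ n → f = 0)
    (hfg : (M₁₂ n₀ ⊓ ball v hA).FG)
    (ha : ∀ n, n₀ ≤ n → ∀ f ∈ M₁₂ (n + 1), v f ≤ 1 →
      ∃ f₀ ∈ M₁₂ n, ∃ a ∈ M₁ (n + 1), ∃ b ∈ M₂ (n + 1),
        v f₀ ≤ 1 ∧ v a ≤ 1 ∧ v b ≤ 1 ∧ f = f₀ + (a - b))
    (hb : ∀ n, n₀ ≤ n → ∀ q ∈ M₁₂ n, v q ≤ 1 →
      (∃ c : A, c ≠ 0 ∧ ∃ a ∈ M₁ (n + 1), ∃ b ∈ M₂ (n + 1),
        v a ≤ 1 ∧ v b ≤ 1 ∧ c • q = a - b) →
      ∃ c : A, c ≠ 0 ∧ ∃ a ∈ M₁ n, ∃ b ∈ M₂ n, v a ≤ 1 ∧ v b ≤ 1 ∧ c • q = a - b)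
    (hN : ∀ c : A, c ≠ 0 → ∃ n, n₀ ≤ n ∧ ∃ a ∈ M₁ n, ∃ b ∈ M₂ n, ∃ q ∈ M₁₂ n,
      v a = 1 ∧ v b ≤ 1 ∧ v q ≤ 1 ∧ a - b = c • q) : False := by
  set B := ball v hA with hB
  set P : ℕ → Submodule A (F × F) := fun n => (M₁ n ⊓ B).prod (M₂ n ⊓ B) with hP
  set Q : ℕ → Submodule A F := fun n => M₁₂ n ⊓ B with hQ
  set Nn : ℕ → Submodule A F := fun n => (P n).map (diffMap A F) with hNn
  have hchain := torsion_bound_chain Q Nn n₀ hfg
    (fun n hn => Submodule.map_mono (Submodule.prod_mono (inf_le_inf_right _ (hM₁ n hn))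
      (inf_le_inf_right _ (hM₂ n hn))))
    (by
      intro n hn f hf
      obtain ⟨f₀, hf₀, a, haM, b, hbM, hf₀v, hav, hbv, rfl⟩ := ha n hn f hf.1 hf.2
      exact Submodule.add_mem_sup ⟨hf₀, hf₀v⟩ (mem_map_diffMap.mpr ⟨a, haM, b, hbM, hav, hbv, rfl⟩))
    (by
      intro n hn q hq hex
      obtain ⟨c, hc, hcq⟩ := hex
      obtain ⟨a, haM, b, hbM, hav, hbv, hab⟩ := mem_map_diffMap.mp hcq
      obtain ⟨c', hc', a', ha', b', hb', hav', hbv', hab'⟩ :=
        hb n hn q hq.1 hq.2 ⟨c, hc, a, haM, b, hbM, hav, hbv, hab⟩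
      exact ⟨c', hc', mem_map_diffMap.mpr ⟨a', ha', b', hb', hav', hbv', hab'⟩⟩)
  obtain ⟨κ, hκ, hbound⟩ := hchain
  obtain ⟨n, hn, a, haM, b, hbM, q, hqM, hav, hbv, hqv, habq⟩ := hN (κ * t₀) (mul_ne_zero hκ ht₀)
  have hxP : ((a, b) : F × F) ∈ P n := ⟨⟨haM, hav.le⟩, ⟨hbM, hbv⟩⟩
  have hinjP : ∀ x ∈ P n, diffMap A F x = 0 → x = 0 := by
    rintro ⟨x₁, x₂⟩ ⟨⟨h1, _⟩, ⟨h2, _⟩⟩ h0
    have h12 : x₁ = x₂ := sub_eq_zero.mp h0
    subst h12
    have := hinj n hn x₁ h1 h2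
    subst this
    rfl
  obtain ⟨p, hp, hpx⟩ := smul_mem_of_map_eq (diffMap A F) hinjP (hbound n hn) hxP
    (show q ∈ Q n from ⟨hqM, hqv⟩) (show diffMap A F (a, b) = (κ * t₀) • q from habq)
  have h1 : κ • a = (κ * t₀) • p.1 := congrArg Prod.fst hpx
  have hκF : algebraMap A F κ ≠ 0 := fun h => hκ (hinjA (by rw [h, map_zero]))
  have h2 : a = algebraMap A F t₀ * p.1 := by
    rw [Algebra.smul_def, Algebra.smul_def, map_mul, mul_assoc] at h1
    exact mul_left_cancel₀ hκF h1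
  have h3 : v a < 1 := by
    rw [h2, map_mul]
    calc v (algebraMap A F t₀) * v p.1 ≤ v (algebraMap A F t₀) * 1 :=
          mul_le_mul' le_rfl hp.1.2
      _ = v (algebraMap A F t₀) := mul_one _
      _ < 1 := ht₀v
  exact absurd hav h3.ne

end Core

end Fermat.Agent.S18.helper6542
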