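/-
S18 (track B, clause (a)/(b) of Theorem T): a Kummer extension `E = F(V)`, `V ^ m = U`, of a
function field `F / K` is UNRAMIFIED at every place at which `m ∣ ord U` (Prelude `Place`
vocabulary: `Place.ramificationIndex = 1`, `ord_w (f) = ord_{w|F} (f)`).

Proof without discriminants, integral closures or completions: Newton iteration inside `F`
shows that the unit `V₁ = V / g ^ a` is a `w`-adic limit of elements of `F`; hence every
element of `E = F[V₁]` has the value of an element of `F`.
-/
import Mathlib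
import Fermat.Prelude.Def_AlgebraicCurve_DivisorPushPull

set_option autoImplicit false

open Polynomial

namespace Fermat.Agent.S18.helper6783

section ValuationCore

variable {F E : Type*} [Field F] [Field E] [Algebra F E]
variable {Γ₀ : Type*} [LinearOrderedCommGroupWithZero Γ₀] (v : Valuation E Γ₀)

/-- `v (x ^ j - y ^ j) ≤ v (x - y)` for integral `x`, `y`. -/
theorem val_pow_sub_pow_le {x y : E} (hx : v x ≤ 1) (hy : v y ≤ 1) (j : ℕ) :
    v (x ^ j - y ^ j) ≤ v (x - y) := by
  rw [← geom_sum₂_mul x y j, map_mul]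
  have h1 : v (∑ i ∈ Finset.range j, x ^ i * y ^ (j - 1 - i)) ≤ 1 := by
    refine v.map_sum_le fun i _ => ?_
    rw [map_mul, map_pow, map_pow]
    exact mul_le_one' (pow_le_one' hx _) (pow_le_one' hy _)
  calc v (∑ i ∈ Finset.range j, x ^ i * y ^ (j - 1 - i)) * v (x - y)
      ≤ 1 * v (x - y) := mul_le_mul' h1 le_rfl
    _ = v (x - y) := one_mul _

/-- If `v (V - f) ≤ 1` and `v V ≤ 1` then `v f ≤ 1`. -/
theorem val_le_one_of_sub {V f : E} (hV : v V ≤ 1) (hf : v (V - f) ≤ 1) : v f ≤ 1 := by
  have : f = V - (V - f) := by ring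
  rw [this]
  exact v.map_sub_le hV hf

/-- **Approximation lemma.** If `E = F[V]`, `V` is integral for `v`, and `V` is a `v`-adic limit
of elements of `F`, then every nonzero element of `E` has the value of an element of `F`. -/
theorem exists_val_eq_of_approx {V : E} (hV : v V ≤ 1)
    (hgen : ∀ z : E, ∃ p : F[X], z = aeval V p)
    (happ : ∀ γ : Γ₀, γ ≠ 0 → ∃ f : F, v (V - algebraMap F E f) < γ)
    {z : E} (hz : z ≠ 0) : ∃ g : F, v z = v (algebraMap F E g) := by
  obtain ⟨p, rfl⟩ := hgen z
  have hp : p ≠ 0 := by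
    rintro rfl
    exact hz (by simp)
  -- the maximal value of a coefficient
  obtain ⟨j0, hj0, hmax⟩ := Finset.exists_max_image p.support
    (fun j => v (algebraMap F E (p.coeff j))) (Polynomial.support_nonempty.mpr hp)
  set c : Γ₀ := v (algebraMap F E (p.coeff j0)) with hc
  have hc0 : c ≠ 0 := by
    rw [hc, Valuation.ne_zero_iff]
    have : p.coeff j0 ≠ 0 := Polynomial.mem_support_iff.mp hj0
    simpa using this
  have hcoeff : ∀ j, v (algebraMap F E (p.coeff j)) ≤ c := by
    intro j
    by_cases hj : j ∈ p.support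
    · exact hmax j hj
    · rw [Polynomial.notMem_support_iff.mp hj, map_zero, map_zero]
      exact zero_le
  have hvz : v (aeval V p) ≠ 0 := (Valuation.ne_zero_iff _).mpr hz
  -- choose a good approximation
  obtain ⟨f, hf⟩ := happ (min 1 (v (aeval V p) / c))
    (by
      intro h
      rcases min_eq_iff.mp h with ⟨h1, _⟩ | ⟨h1, _⟩
      · exact one_ne_zero h1
      · exact div_ne_zero hvz hc0 h1)
  have hf1 : v (V - algebraMap F E f) < 1 := lt_of_lt_of_le hf (min_le_left _ _)
  have hf2 : v (V - algebraMap F E f) < v (aeval V p) / c := lt_of_lt_of_le hf (min_le_right _ _)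
  have hfle : v (algebraMap F E f) ≤ 1 := val_le_one_of_sub v hV hf1.le
  refine ⟨p.eval f, (v.map_eq_of_sub_lt ?_).symm⟩
  -- `aeval V p - p(f)` is small
  have hdiff : algebraMap F E (p.eval f) - aeval V p =
      ∑ i ∈ Finset.range (p.natDegree + 1),
        algebraMap F E (p.coeff i) * ((algebraMap F E f) ^ i - V ^ i) := by
    have h1 : algebraMap F E (p.eval f) = aeval (algebraMap F E f) p := by
      rw [aeval_algebraMap_apply, Polynomial.coe_aeval_eq_eval]
    rw [h1, aeval_eq_sum_range, aeval_eq_sum_range, ← Finset.sum_sub_distrib]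
    refine Finset.sum_congr rfl fun i _ => ?_
    rw [Algebra.smul_def, Algebra.smul_def, mul_sub]
  have hle : v (algebraMap F E (p.eval f) - aeval V p) ≤ c * v (V - algebraMap F E f) := by
    rw [hdiff]
    refine v.map_sum_le fun i _ => ?_
    rw [map_mul]
    have h2 : v ((algebraMap F E f) ^ i - V ^ i) ≤ v (V - algebraMap F E f) := by
      have h3 := val_pow_sub_pow_le v hfle hV i
      rwa [Valuation.map_sub_swap v (algebraMap F E f) V] at h3
    exact mul_le_mul' (hcoeff i) h2
  calc v (algebraMap F E (p.eval f) - aeval V p)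
      ≤ c * v (V - algebraMap F E f) := hle
    _ < c * (v (aeval V p) / c) := by
        exact mul_lt_mul_of_pos_left hf2 (zero_lt_iff.mpr hc0)
    _ = v (aeval V p) := by
        rw [mul_div_cancel₀ _ hc0]

/-- **Newton step** for `X ^ m - U`: from `f ∈ F` with `v (V - f) < 1` to `f' ∈ F` with
`v (V - f') ≤ v (V - f) ^ 2`. -/
theorem newton_step {V : E} {U : F} {m : ℕ} (hm : v (m : E) = 1)
    (hVm : V ^ m = algebraMap F E U) (hV1 : v V = 1) {f : F}
    (hf : v (V - algebraMap F E f) < 1) :
    ∃ f' : F, v (V - algebraMap F E f') ≤ v (V - algebraMap F E f) ^ 2 := by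
  set fE : E := algebraMap F E f with hfE
  set δ : E := V - fE with hδ
  have hfv : v fE = 1 := by
    have h : fE = V - δ := by rw [hδ]; ring
    rw [h, v.map_sub_eq_of_lt_left (by rw [hV1]; exact hf), hV1]
  have hfE0 : fE ≠ 0 := by
    intro h
    rw [h, map_zero] at hfv
    exact zero_ne_one hfv
  have hf0 : f ≠ 0 := by
    rintro rfl
    exact hfE0 (by rw [hfE, map_zero])
  have hmE : (m : E) ≠ 0 := by
    intro h
    rw [h, map_zero] at hm
    exact zero_ne_one hm
  have hmF : (m : F) ≠ 0 := by
    intro h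
    apply hmE
    have := congrArg (algebraMap F E) h
    simpa using this
  -- the error term
  set T : E := ∑ i ∈ Finset.range m, (V ^ i - fE ^ i) * fE ^ (m - 1 - i) with hT
  have hTle : v T ≤ v δ := by
    refine v.map_sum_le fun i _ => ?_
    rw [map_mul, map_pow, hfv, one_pow, mul_one]
    exact val_pow_sub_pow_le v hV1.le hfv.le i
  have hkey : V ^ m - fE ^ m - (m : E) * fE ^ (m - 1) * δ = δ * T := by
    have h1 : (∑ i ∈ Finset.range m, V ^ i * fE ^ (m - 1 - i)) * (V - fE) = V ^ m - fE ^ m :=
      geom_sum₂_mul V fE m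
    have h2 : ∑ i ∈ Finset.range m, fE ^ i * fE ^ (m - 1 - i) = (m : E) * fE ^ (m - 1) := by
      rw [Finset.sum_congr rfl (fun i hi => by
        rw [← pow_add, show i + (m - 1 - i) = m - 1 by
          have := Finset.mem_range.mp hi; omega]), Finset.sum_const, Finset.card_range,
        nsmul_eq_mul]
    have h3 : T = (∑ i ∈ Finset.range m, V ^ i * fE ^ (m - 1 - i)) - (m : E) * fE ^ (m - 1) := by
      rw [hT, ← h2, ← Finset.sum_sub_distrib]
      exact Finset.sum_congr rfl fun i _ => by ring
    rw [h3, ← h1, hδ]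
    ring
  refine ⟨f - (f ^ m - U) / ((m : F) * f ^ (m - 1)), ?_⟩
  have hden : (m : E) * fE ^ (m - 1) ≠ 0 := mul_ne_zero hmE (pow_ne_zero _ hfE0)
  have hexpr : V - algebraMap F E (f - (f ^ m - U) / ((m : F) * f ^ (m - 1)))
      = -(δ * T) / ((m : E) * fE ^ (m - 1)) := by
    rw [map_sub, map_div₀, map_sub, map_mul, map_pow, map_pow, map_natCast, ← hVm, ← hfE,
      ← hkey, hδ]
    field_simp
    ring
  rw [hexpr, map_div₀, Valuation.map_neg, map_mul, map_mul, map_pow, hm, hfv, one_pow, mul_one,
    div_one, pow_two]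
  exact mul_le_mul' le_rfl hTle

/-- Iterating the Newton step: `V` is a `v`-adic limit of elements of `F` (archimedean value
group). -/
theorem exists_approx_of_newton [MulArchimedean Γ₀] {V : E} {U : F} {m : ℕ} (hm : v (m : E) = 1)
    (hVm : V ^ m = algebraMap F E U) (hV1 : v V = 1) {f₀ : F}
    (hf₀ : v (V - algebraMap F E f₀) < 1) (γ : Γ₀) (hγ : γ ≠ 0) :
    ∃ f : F, v (V - algebraMap F E f) < γ := by
  set x : Γ₀ := v (V - algebraMap F E f₀) with hx
  -- all iterates
  have hiter : ∀ n : ℕ, ∃ f : F, v (V - algebraMap F E f) ≤ x ^ (2 ^ n) := by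
    intro n
    induction n with
    | zero => exact ⟨f₀, by simp [hx]⟩
    | succ n ih =>
      obtain ⟨f, hf⟩ := ih
      have hlt : v (V - algebraMap F E f) < 1 :=
        lt_of_le_of_lt hf (pow_lt_one' hf₀ (by positivity))
      obtain ⟨f', hf'⟩ := newton_step v hm hVm hV1 hlt
      refine ⟨f', hf'.trans ?_⟩
      calc v (V - algebraMap F E f) ^ 2 ≤ (x ^ (2 ^ n)) ^ 2 := pow_le_pow_left' hf 2
        _ = x ^ (2 ^ (n + 1)) := by rw [← pow_mul, pow_succ]
  by_cases hx0 : x = 0
  · exact ⟨f₀, by rw [← hx, hx0]; exact zero_lt_iff.mpr hγ⟩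
  -- archimedean: some power of `x` is below `γ`
  have hxinv : 1 < x⁻¹ := by
    rw [one_lt_inv₀ (zero_lt_iff.mpr hx0)]
    exact hf₀
  obtain ⟨n, hn⟩ := MulArchimedean.arch γ⁻¹ hxinv
  have hpow : x ^ (n + 1) < γ := by
    have h1 : x ^ n ≤ γ := by
      rw [inv_pow] at hn
      exact (inv_le_inv₀ (zero_lt_iff.mpr hγ) (zero_lt_iff.mpr (pow_ne_zero _ hx0))).mp hn
    calc x ^ (n + 1) = x ^ n * x := pow_succ _ _
      _ < x ^ n * 1 := mul_lt_mul_of_pos_left hf₀ (zero_lt_iff.mpr (pow_ne_zero _ hx0))
      _ = x ^ n := mul_one _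
      _ ≤ γ := h1
  obtain ⟨f, hf⟩ := hiter (n + 1)
  refine ⟨f, lt_of_le_of_lt (hf.trans ?_) hpow⟩
  exact pow_le_pow_right_of_le_one' hf₀.le (Nat.lt_two_pow_self).le

end ValuationCore

section PlaceBridge

open AlgebraicCurve

variable {K E : Type*} [Field K] [Field E] [Algebra K E] (w : Place K E)

/-- Positive order forces adic value `< 1`. -/
theorem adicValuation_lt_one_of_ord_pos {x : E} (h : 0 < w.ord x) : w.adicValuation x < 1 := by
  have hx : x ≠ 0 := by
    rintro rfl
    simp at h
  have hv : w.adicValuation x ≠ 0 := w.adicValuation_ne_zero hx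
  have h1 : WithZero.log (w.adicValuation x) < 0 := by
    unfold Place.ord at h
    omega
  rw [WithZero.log_lt_iff_lt_exp hv, WithZero.exp_zero] at h1
  exact h1

/-- Order zero means adic value one. -/
theorem adicValuation_eq_one_of_ord_eq_zero {x : E} (hx : x ≠ 0) (h : w.ord x = 0) :
    w.adicValuation x = 1 := by
  have hv : w.adicValuation x ≠ 0 := w.adicValuation_ne_zero hx
  have h1 : WithZero.log (w.adicValuation x) = 0 := by
    unfold Place.ord at h
    omega
  rw [← WithZero.exp_log hv, h1, WithZero.exp_zero]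

/-- Elements of adic value one lie in the valuation ring. -/
theorem mem_of_adicValuation_eq_one {x : E} (h : w.adicValuation x = 1) :
    x ∈ w.toValuationSubring := by
  by_contra hx
  have hx0 : x ≠ 0 := fun h0 => hx (h0 ▸ w.toValuationSubring.zero_mem)
  have hxi : x⁻¹ ∈ w.toValuationSubring :=
    (w.toValuationSubring.mem_or_inv_mem x).resolve_left hx
  have h1 : w.adicValuation ((⟨x⁻¹, hxi⟩ : w.toValuationSubring) : E) = 1 := by
    show w.adicValuation x⁻¹ = 1
    rw [map_inv₀, h, inv_one]
  have hu : IsUnit (⟨x⁻¹, hxi⟩ : w.toValuationSubring) :=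
    (w.adicValuation_coe_eq_one_iff _).mp h1
  obtain ⟨b, hb⟩ := hu.exists_right_inv
  have hb' : x⁻¹ * (b : E) = 1 := by
    have h2 := congrArg (Subtype.val) hb
    simpa using h2
  have hbx : (b : E) = x := by
    field_simp at hb'
    exact hb'
  exact hx (hbx ▸ b.2)

/-- Nonzero constants have adic value one. -/
theorem adicValuation_algebraMap_eq_one {c : K} (hc : c ≠ 0) :
    w.adicValuation (algebraMap K E c) = 1 := by
  have hu : IsUnit (algebraMap K w.toValuationSubring c) :=
    (IsUnit.mk0 c hc).map (algebraMap K w.toValuationSubring)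
  have h := (w.adicValuation_coe_eq_one_iff _).mpr hu
  rwa [w.coe_algebraMap] at h

/-- Adic value `< 1` on a nonzero element means positive order. -/
theorem ord_pos_of_adicValuation_lt_one {x : E} (hx : x ≠ 0) (h : w.adicValuation x < 1) :
    0 < w.ord x := by
  have hv : w.adicValuation x ≠ 0 := w.adicValuation_ne_zero hx
  have h1 : WithZero.log (w.adicValuation x) < 0 := by
    rw [WithZero.log_lt_iff_lt_exp hv, WithZero.exp_zero]
    exact h
  unfold Place.ord
  omega

/-- **Adapter**: the residue hypothesis in element form (the shape of the S24 lemma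
`exists_const_sub_ord_pos`) from surjectivity of `K → κ(w)` (the shape of S24 `Stmt_ResidueK`). -/
theorem exists_const_of_residue_surjective
    (hs : Function.Surjective (algebraMap K w.ResidueField)) :
    ∀ x ∈ w.toValuationSubring,
      ∃ c : K, x = algebraMap K E c ∨ 0 < w.ord (x - algebraMap K E c) := by
  intro x hx
  obtain ⟨c, hc⟩ := hs (IsLocalRing.residue _ (⟨x, hx⟩ : w.toValuationSubring))
  refine ⟨c, ?_⟩
  by_cases h : x = algebraMap K E c
  · exact Or.inl h
  right
  rw [IsScalarTower.algebraMap_apply K w.toValuationSubring w.ResidueField,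
    IsLocalRing.ResidueField.algebraMap_eq] at hc
  have hmem : x - algebraMap K E c ∈ w.toValuationSubring := sub_mem hx (w.algebraMap_mem' c)
  have hres : IsLocalRing.residue w.toValuationSubring
      (⟨x - algebraMap K E c, hmem⟩ : w.toValuationSubring) = 0 := by
    have hsub : (⟨x - algebraMap K E c, hmem⟩ : w.toValuationSubring)
        = ⟨x, hx⟩ - algebraMap K w.toValuationSubring c := Subtype.ext rfl
    rw [hsub, map_sub, hc, sub_self]
  rw [IsLocalRing.residue_eq_zero_iff] at hres
  have hnu : ¬ IsUnit (⟨x - algebraMap K E c, hmem⟩ : w.toValuationSubring) := hres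
  have hle : w.adicValuation (x - algebraMap K E c) ≤ 1 := by
    have h1 := w.adicValuation_coe ⟨x - algebraMap K E c, hmem⟩
    rw [show ((⟨x - algebraMap K E c, hmem⟩ : w.toValuationSubring) : E)
      = x - algebraMap K E c from rfl] at h1
    rw [h1]
    exact IsDedekindDomain.HeightOneSpectrum.intValuation_le_one _ _
  have hne : w.adicValuation (x - algebraMap K E c) ≠ 1 := fun h1 =>
    hnu ((w.adicValuation_coe_eq_one_iff ⟨x - algebraMap K E c, hmem⟩).mp h1)
  exact ord_pos_of_adicValuation_lt_one w (sub_ne_zero.mpr h) (lt_of_le_of_ne hle hne)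

end PlaceBridge

section Main

open AlgebraicCurve

variable {K F E : Type*} [Field K] [Field F] [Field E] [Algebra K F] [Algebra K E] [Algebra F E]
  [IsScalarTower K F E] [Algebra.IsIntegral F E]

/-- **Kummer extensions are unramified where `m ∣ ord U`.**  Let `E = F[V]` with `V ^ m = U ∈ F`,
`m` invertible in the constant field `K`, and let `w` be a place of `E / K` whose residue field is
`K` (element form, as provided by S24).  If `m` divides the order of `U` at the place of `F`
below `w`, then `w` is unramified over `F`. -/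
theorem ramificationIndex_eq_one_of_kummer (w : Place K E) {V : E} {U : F} {m : ℕ}
    (hm : (m : K) ≠ 0) (hVm : V ^ m = algebraMap F E U) (hU : U ≠ 0)
    (hgen : ∀ z : E, ∃ p : F[X], z = aeval V p)
    (hdvd : (m : ℤ) ∣ (w.restrict F).ord U)
    (hres : ∀ x ∈ w.toValuationSubring,
      ∃ c : K, x = algebraMap K E c ∨ 0 < w.ord (x - algebraMap K E c)) :
    Place.ramificationIndex (F := F) w = 1 := by
  classical
  obtain ⟨g, hg0, hge⟩ := w.exists_ord_eq_ramificationIndex (F := F)
  obtain ⟨a, ha⟩ := hdvd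
  have hm0 : m ≠ 0 := by
    rintro rfl
    simp at hm
  have hmz : (m : ℤ) ≠ 0 := by exact_mod_cast hm0
  have hUE : algebraMap F E U ≠ 0 := by simpa using hU
  have hV0 : V ≠ 0 := by
    rintro rfl
    rw [zero_pow hm0] at hVm
    exact hUE hVm.symm
  have hgE : algebraMap F E g ≠ 0 := by simpa using hg0
  -- the order of `V`
  have hordV : w.ord V = Place.ramificationIndex (F := F) w * a := by
    have h1 : w.ord (V ^ m) = m * w.ord V := by
      have h2 := w.ord_zpow V (m : ℤ)
      rwa [zpow_natCast] at h2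
    rw [hVm, w.ord_restrict U, ha] at h1
    have h3 : (m : ℤ) * (Place.ramificationIndex (F := F) w * a) = m * w.ord V := by
      rw [← h1]
      ring
    exact (mul_left_cancel₀ hmz h3).symm
  -- normalise to a unit
  set V1 : E := V * (algebraMap F E g) ^ (-a) with hV1
  set U1 : F := U * g ^ (-(m : ℤ) * a) with hU1
  have hV1ne : V1 ≠ 0 := mul_ne_zero hV0 (zpow_ne_zero _ hgE)
  have hV1ord : w.ord V1 = 0 := by
    rw [hV1, w.ord_mul hV0 (zpow_ne_zero _ hgE), w.ord_zpow, hge, hordV]
    ring
  have hvV1 : w.adicValuation V1 = 1 := adicValuation_eq_one_of_ord_eq_zero w hV1ne hV1ord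
  have hV1m : V1 ^ m = algebraMap F E U1 := by
    rw [hV1, hU1, mul_pow, hVm, map_mul, map_zpow₀, ← zpow_natCast, ← zpow_mul]
    congr 2
    ring
  -- `E = F[V1]`
  have hgen1 : ∀ z : E, ∃ p : F[X], z = aeval V1 p := by
    intro z
    obtain ⟨p, rfl⟩ := hgen z
    refine ⟨p.comp (C (g ^ a) * X), ?_⟩
    rw [aeval_comp]
    congr 1
    rw [map_mul, aeval_C, aeval_X, hV1, map_zpow₀, mul_comm, mul_assoc, ← zpow_add₀ hgE]
    simp
  -- the residue of `V1` is a constant
  obtain ⟨c, hc⟩ := hres V1 (mem_of_adicValuation_eq_one w hvV1)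
  have hf₀ : w.adicValuation (V1 - algebraMap F E (algebraMap K F c)) < 1 := by
    rw [← IsScalarTower.algebraMap_apply]
    rcases hc with h | h
    · rw [← h, sub_self, map_zero]
      exact zero_lt_one
    · exact adicValuation_lt_one_of_ord_pos w h
  have hmv : w.adicValuation ((m : ℕ) : E) = 1 := by
    rw [← map_natCast (algebraMap K E) m]
    exact adicValuation_algebraMap_eq_one w hm
  -- Newton: `V1` is a limit of elements of `F`
  have happ : ∀ γ : WithZero (Multiplicative ℤ), γ ≠ 0 →
      ∃ f : F, w.adicValuation (V1 - algebraMap F E f) < γ := fun γ hγ =>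
    exists_approx_of_newton w.adicValuation hmv hV1m hvV1 hf₀ γ hγ
  -- a uniformizer of `w` has the value of an element of `F`
  obtain ⟨π, hπ⟩ := IsDiscreteValuationRing.exists_irreducible w.toValuationSubring
  have hπE : (π : E) ≠ 0 := by
    simpa [ne_eq, ZeroMemClass.coe_eq_zero] using hπ.ne_zero
  obtain ⟨g', hg'⟩ := exists_val_eq_of_approx w.adicValuation hvV1.le hgen1 happ hπE
  have h1 : w.ord (algebraMap F E g') = 1 := by
    rw [← w.ord_coe_irreducible hπ]
    unfold Place.ord
    rw [hg']
  have hg'0 : g' ≠ 0 := by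
    rintro rfl
    simp at h1
  have hle := w.ramificationIndex_le_ord (F := F) hg'0 (by rw [h1]; exact one_pos)
  have hpos := w.ramificationIndex_pos (F := F)
  rw [h1] at hle
  omega

/-- Order form of `ramificationIndex_eq_one_of_kummer`: orders of elements of `F` are unchanged
when passing to `w`. -/
theorem ord_algebraMap_eq_ord_restrict_of_kummer (w : Place K E) {V : E} {U : F} {m : ℕ}
    (hm : (m : K) ≠ 0) (hVm : V ^ m = algebraMap F E U) (hU : U ≠ 0)
    (hgen : ∀ z : E, ∃ p : F[X], z = aeval V p)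
    (hdvd : (m : ℤ) ∣ (w.restrict F).ord U)
    (hres : ∀ x ∈ w.toValuationSubring,
      ∃ c : K, x = algebraMap K E c ∨ 0 < w.ord (x - algebraMap K E c))
    (f : F) : w.ord (algebraMap F E f) = (w.restrict F).ord f := by
  rw [w.ord_restrict f, ramificationIndex_eq_one_of_kummer w hm hVm hU hgen hdvd hres]
  simp

omit [Algebra.IsIntegral F E] in
/-- The generation hypothesis in `Algebra.adjoin` form. -/
theorem exists_aeval_eq_of_adjoin_eq_top {V : E} (h : Algebra.adjoin F {V} = ⊤) (z : E) :
    ∃ p : F[X], z = aeval V p := by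
  have hz : z ∈ Algebra.adjoin F {V} := by
    rw [h]
    exact Algebra.mem_top
  rw [Algebra.adjoin_singleton_eq_range_aeval] at hz
  obtain ⟨p, hp⟩ := hz
  exact ⟨p, hp.symm⟩

/-- **(K) KUMMER-UNRAM, global form.**  `E = F[V]`, `V ^ m = U ∈ F`, `m` invertible in `K`,
`m ∣ ord_P U` at every place `P` of `F`, and every place of `E` has residue field `K`
(S24 `Stmt_ResidueK` shape).  Then every place of `E` is unramified over `F`. -/
theorem ramificationIndex_eq_one_of_kummer_of_forall {V : E} {U : F} {m : ℕ}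
    (hm : (m : K) ≠ 0) (hVm : V ^ m = algebraMap F E U) (hU : U ≠ 0)
    (hgen : Algebra.adjoin F {V} = ⊤)
    (hdvd : ∀ P : Place K F, (m : ℤ) ∣ P.ord U)
    (hres : ∀ w : Place K E, Function.Surjective (algebraMap K w.ResidueField))
    (w : Place K E) : Place.ramificationIndex (F := F) w = 1 :=
  ramificationIndex_eq_one_of_kummer w hm hVm hU (exists_aeval_eq_of_adjoin_eq_top hgen)
    (hdvd _) (exists_const_of_residue_surjective w (hres w))

/-- **(K) KUMMER-UNRAM, global order form**: `ord_w f = ord_{w|F} f` for all `f ∈ F` and all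
places `w` of `E`. -/
theorem ord_algebraMap_eq_ord_restrict_of_kummer_of_forall {V : E} {U : F} {m : ℕ}
    (hm : (m : K) ≠ 0) (hVm : V ^ m = algebraMap F E U) (hU : U ≠ 0)
    (hgen : Algebra.adjoin F {V} = ⊤)
    (hdvd : ∀ P : Place K F, (m : ℤ) ∣ P.ord U)
    (hres : ∀ w : Place K E, Function.Surjective (algebraMap K w.ResidueField))
    (w : Place K E) (f : F) : w.ord (algebraMap F E f) = (w.restrict F).ord f := by
  rw [w.ord_restrict f,
    ramificationIndex_eq_one_of_kummer_of_forall hm hVm hU hgen hdvd hres w]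
  simp

/-- **(K) KUMMER-UNRAM, divisor form**: the pull-back of divisors along an everywhere unramified
Kummer extension is "composition with restriction". -/
theorem pullback_apply_of_kummer [HasPrincipalDivisors K E] {V : E} {U : F} {m : ℕ}
    (hm : (m : K) ≠ 0) (hVm : V ^ m = algebraMap F E U) (hU : U ≠ 0)
    (hgen : Algebra.adjoin F {V} = ⊤)
    (hdvd : ∀ P : Place K F, (m : ℤ) ∣ P.ord U)
    (hres : ∀ w : Place K E, Function.Surjective (algebraMap K w.ResidueField))
    (D : Divisor K F) (w : Place K E) :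
    Divisor.pullback E D w = D (w.restrict F) := by
  rw [Divisor.pullback_apply,
    ramificationIndex_eq_one_of_kummer_of_forall hm hVm hU hgen hdvd hres w]
  simp

end Main

end Fermat.Agent.S18.helper6783
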