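/-
S18 — abstract Kummer core (helper6993).

Setting: `L ⊆ F` fields, `v` a valuation on `F` (the Gauss valuation of a function field),
three increasing families of finite-dimensional `L`-subspaces `M₁ N`, `M₂ N ⊆ M₁₂ N` of `F`
(sections of a degree-zero line bundle `O(D₀)` on two charts and on their overlap, with
pole order at most `N` at the complement), a unit `u` with `div u = m • D₀`.
If approximate `m`-th roots of `u⁻¹` exist in both charts and agree modulo the maximal
ideal, the integral Čech complex is stable and the Čech differential is injective at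
one level, we derive a contradiction.  No Smith normal form is used.
-/
import Mathlib

set_option autoImplicit false

namespace Fermat.Agent.S18.helper6993

open Finset

section Basic

variable {F : Type*} [Field F] {Γ₀ : Type*} [LinearOrderedCommGroupWithZero Γ₀]

/-- natural numbers have valuation at most one -/
theorem val_natCast_le_one (v : Valuation F Γ₀) (n : ℕ) : v (n : F) ≤ 1 := by
  induction n with
  | zero => simp
  | succ n ih =>
    rw [Nat.cast_succ]
    exact v.map_add_le ih (le_of_eq v.map_one)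

/-- first order binomial expansion with integral remainder -/
theorem one_add_pow_expand (v : Valuation F Γ₀) (x : F) (hx : v x ≤ 1) (m : ℕ) :
    ∃ r : F, v r ≤ 1 ∧ (1 + x) ^ m = 1 + m * x + x ^ 2 * r := by
  induction m with
  | zero => exact ⟨0, by simp, by simp⟩
  | succ m ih =>
    obtain ⟨r, hr, h⟩ := ih
    refine ⟨m + r + x * r, ?_, ?_⟩
    · refine v.map_add_le (v.map_add_le (val_natCast_le_one v m) hr) ?_
      rw [map_mul]
      exact mul_le_one' hx hr
    · rw [pow_succ, h]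
      push_cast
      ring

/-- an element whose `m`-th power times a unit is a principal unit has valuation one -/
theorem val_eq_one_of_pow (v : Valuation F Γ₀) (m : ℕ) (hm : m ≠ 0) (u a : F) (hu : v u = 1)
    (hs : v (a ^ m * u - 1) < 1) : v a = 1 := by
  have h1 : v (a ^ m * u) = 1 := by
    have : a ^ m * u = 1 + (a ^ m * u - 1) := by ring
    rw [this]
    exact v.map_one_add_of_lt hs
  rw [map_mul, hu, mul_one, map_pow] at h1
  rcases lt_trichotomy (v a) 1 with h | h | h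
  · exact absurd h1 (ne_of_lt (pow_lt_one' h hm))
  · exact h
  · exact absurd h1 (ne_of_gt (one_lt_pow' h hm))

/-- `m`-th powers of two close units are exactly as close as the units (`v m = 1`) -/
theorem val_pow_sub_pow (v : Valuation F Γ₀) (m : ℕ) (hm : v (m : F) = 1) (a b : F)
    (ha : v a = 1) (hab : v (b - a) < 1) : v (b ^ m - a ^ m) = v (b - a) := by
  have ha0 : a ≠ 0 := fun h => by rw [h, map_zero] at ha; exact zero_ne_one ha
  set x := (b - a) / a with hx
  have hvx : v x = v (b - a) := by rw [hx, map_div₀, ha, div_one]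
  obtain ⟨r, hr, h⟩ := one_add_pow_expand v x (by rw [hvx]; exact hab.le) m
  have hb : b = a * (1 + x) := by rw [hx]; field_simp; ring
  have h2 : b ^ m - a ^ m = a ^ m * x * (m + x * r) := by
    rw [hb, mul_pow, h]; ring
  have h3 : v ((m : F) + x * r) = 1 := by
    rw [v.map_add_eq_of_lt_left, hm]
    rw [hm, map_mul]
    calc v x * v r ≤ v x * 1 := mul_le_mul' le_rfl hr
      _ < 1 := by rw [mul_one, hvx]; exact hab
  rw [h2, map_mul, map_mul, map_pow, ha, one_pow, one_mul, h3, mul_one, hvx]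

/-- The Newton step for approximate `m`-th roots of `u⁻¹`. -/
noncomputable def newton (m : ℕ) (u a : F) : F := a * (1 + -(a ^ m * u - 1) / m)

/-- quadratic convergence of the Newton step -/
theorem newton_spec (v : Valuation F Γ₀) (m : ℕ) (hm : v (m : F) = 1) (u a : F)
    (hs : v (a ^ m * u - 1) ≤ 1) :
    v ((newton m u a) ^ m * u - 1) ≤ v (a ^ m * u - 1) ^ 2 := by
  have hm0 : (m : F) ≠ 0 := fun h => by rw [h, map_zero] at hm; exact zero_ne_one hm
  set s := a ^ m * u - 1 with hs'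
  set x := -s / m with hx
  have hvx : v x = v s := by rw [hx, map_div₀, hm, div_one, Valuation.map_neg]
  obtain ⟨r, hr, h⟩ := one_add_pow_expand v x (by rw [hvx]; exact hs) m
  have hmx : (m : F) * x = -s := by rw [hx]; field_simp
  have h2 : (newton m u a) ^ m * u - 1 = -(s ^ 2) + (1 + s) * (x ^ 2 * r) := by
    have h3 : a ^ m * u = 1 + s := by rw [hs']; ring
    have h4 : (newton m u a) ^ m * u = (a ^ m * u) * (1 + x) ^ m := by
      rw [newton, mul_pow, ← hs', ← hx]; ring
    rw [h4, h3, h, hmx]; ring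
  rw [h2]
  refine v.map_add_le ?_ ?_
  · rw [Valuation.map_neg, map_pow]
  · rw [map_mul, map_mul, map_pow, hvx]
    calc v (1 + s) * (v s ^ 2 * v r) ≤ 1 * (v s ^ 2 * 1) :=
          mul_le_mul' (v.map_add_le (le_of_eq v.map_one) hs) (mul_le_mul' le_rfl hr)
      _ = v s ^ 2 := by rw [one_mul, mul_one]

end Basic

section Core

variable {L F : Type*} [Field L] [Field F] [Algebra L F]
variable {Γ₀ : Type*} [LinearOrderedCommGroupWithZero Γ₀]

/-- membership of the Newton step in the next lattice -/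
theorem newton_mem (m : ℕ) (hm0 : (m : F) ≠ 0) (u : F) (M : ℕ → Submodule L F)
    (hM : Monotone M) (hN : ∀ N, ∀ a ∈ M N, a ^ (m + 1) * u ∈ M ((m + 1) * N))
    (N : ℕ) (a : F) (ha : a ∈ M N) : newton m u a ∈ M ((m + 1) * N) := by
  have hmL : (m : L) ≠ 0 := fun h => hm0 (by rw [← map_natCast (algebraMap L F), h, map_zero])
  have h : newton m u a = (1 + (m : L)⁻¹) • a - (m : L)⁻¹ • (a ^ (m + 1) * u) := by
    rw [newton, Algebra.smul_def, Algebra.smul_def, map_add, map_one, map_inv₀, map_natCast]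
    field_simp
    ring
  rw [h]
  refine sub_mem (Submodule.smul_mem _ _ (hM ?_ ha)) (Submodule.smul_mem _ _ (hN N a ha))
  exact Nat.le_mul_of_pos_left N (Nat.succ_pos m)

/-- **Abstract Kummer core**, valuation form.  See the file header. -/
theorem kummer_contradiction_val
    (v : Valuation F Γ₀)
    (m : ℕ) (hm : v (m : F) = 1)
    (u : F) (hu : v u = 1)
    (M₁ M₂ M₁₂ : ℕ → Submodule L F)
    (hM₁ : Monotone M₁) (hM₂ : Monotone M₂)
    (h₁ : ∀ N, M₁ N ≤ M₁₂ N) (h₂ : ∀ N, M₂ N ≤ M₁₂ N)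
    (N₀ : ℕ)
    (hsheaf : ∀ N, ∀ a ∈ M₁ N, ∀ b ∈ M₂ N, a - b ∈ M₁₂ N₀ → a ∈ M₁ N₀ ∧ b ∈ M₂ N₀)
    (hstab : ∀ N, N₀ ≤ N → ∀ c ∈ M₁₂ N, v c ≤ 1 →
      ∃ c' ∈ M₁₂ N₀, ∃ a ∈ M₁ N, ∃ b ∈ M₂ N, v c' ≤ 1 ∧ v a ≤ 1 ∧ v b ≤ 1 ∧ c = c' + a - b)
    (d : L) (hd : d ≠ 0)
    (htors : ∀ a ∈ M₁ N₀, ∀ b ∈ M₂ N₀, v a ≤ 1 → v b ≤ 1 → ∀ ε : L, ∀ c ∈ M₁₂ N₀, v c ≤ 1 →
      a - b = ε • c → v (algebraMap L F d) * v a ≤ v (algebraMap L F ε))
    (hN₁ : ∀ N, ∀ a ∈ M₁ N, a ^ (m + 1) * u ∈ M₁ ((m + 1) * N))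
    (hN₂ : ∀ N, ∀ b ∈ M₂ N, b ^ (m + 1) * u ∈ M₂ ((m + 1) * N))
    (π : L) (hπ : ∀ e : L, e ≠ 0 → ∃ j : ℕ, v (algebraMap L F π) ^ j < v (algebraMap L F e))
    (N₁ : ℕ) (a₀ b₀ : F) (ha₀ : a₀ ∈ M₁ N₁) (hb₀ : b₀ ∈ M₂ N₁)
    (hsa : v (a₀ ^ m * u - 1) ≤ v (algebraMap L F π))
    (hsb : v (b₀ ^ m * u - 1) ≤ v (algebraMap L F π))
    (hab : v (a₀ - b₀) ≤ v (algebraMap L F π)) : False := by
  set p := v (algebraMap L F π) with hp
  have hp1 : p < 1 := by
    obtain ⟨j, hj⟩ := hπ 1 one_ne_zero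
    rw [map_one, map_one] at hj
    by_contra h
    exact absurd hj (not_lt.mpr (one_le_pow_of_one_le' (not_lt.mp h) j))
  have hm0 : (m : F) ≠ 0 := fun h => by rw [h, map_zero] at hm; exact zero_ne_one hm
  have hmn : m ≠ 0 := fun h => hm0 (by rw [h, Nat.cast_zero])
  have hpj : ∀ j : ℕ, p ^ (j + 1) ≤ p := fun j => by
    calc p ^ (j + 1) ≤ p ^ 1 := pow_le_pow_right_of_le_one' hp1.le (Nat.succ_le_succ (Nat.zero_le j))
      _ = p := pow_one p
  -- the key estimate: reduction to level `N₀`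
  have key : ∀ N, N₀ ≤ N → ∀ a ∈ M₁ N, ∀ b ∈ M₂ N, v a = 1 → v b ≤ 1 → ∀ ε : L,
      v (algebraMap L F ε) < 1 → v (a - b) ≤ v (algebraMap L F ε) →
      v (algebraMap L F d) ≤ v (algebraMap L F ε) := by
    intro N hN a ha b hb hva hvb ε hε hab'
    obtain ⟨c, hc, hvc, hcab⟩ : ∃ c ∈ M₁₂ N, v c ≤ 1 ∧ a - b = ε • c := by
      by_cases hε0 : ε = 0
      · refine ⟨0, zero_mem _, by simp, ?_⟩
        rw [hε0, map_zero, map_zero, le_zero_iff, map_eq_zero] at hab'
        rw [hab', smul_zero]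
      · have hιε : algebraMap L F ε ≠ 0 := fun h => hε0 (by simpa using h)
        refine ⟨ε⁻¹ • (a - b), Submodule.smul_mem _ _ (sub_mem (h₁ N ha) (h₂ N hb)), ?_, ?_⟩
        · rw [Algebra.smul_def, map_mul, map_inv₀, map_inv₀]
          have hvε : v (algebraMap L F ε) ≠ 0 := (v.ne_zero_iff).mpr hιε
          rw [inv_mul_le_iff₀ (zero_lt_iff.mpr hvε), mul_one]
          exact hab'
        · rw [smul_smul, mul_inv_cancel₀ hε0, one_smul]
    obtain ⟨c', hc', a', ha', b', hb', hvc', hva', hvb', hdec⟩ := hstab N hN c hc hvc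
    have heq : a - ε • a' - (b - ε • b') = ε • c' := by
      have h1 : a - ε • a' - (b - ε • b') = (a - b) - ε • (a' - b') := by
        rw [smul_sub]; ring
      have h2 : c - (a' - b') = c' := by rw [hdec]; ring
      rw [h1, hcab, ← smul_sub, h2]
    have hsh := hsheaf N (a - ε • a') (sub_mem ha (Submodule.smul_mem _ _ ha'))
      (b - ε • b') (sub_mem hb (Submodule.smul_mem _ _ hb'))
      (by rw [heq]; exact Submodule.smul_mem _ _ hc')
    have hv1 : v (a - ε • a') = 1 := by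
      rw [v.map_sub_eq_of_lt_left, hva]
      rw [hva, Algebra.smul_def, map_mul]
      calc v (algebraMap L F ε) * v a' ≤ v (algebraMap L F ε) * 1 := mul_le_mul' le_rfl hva'
        _ < 1 := by rwa [mul_one]
    have hv2 : v (b - ε • b') ≤ 1 := by
      refine v.map_sub_le hvb ?_
      rw [Algebra.smul_def, map_mul]
      exact mul_le_one' hε.le hvb'
    have h := htors _ hsh.1 _ hsh.2 hv1.le hv2 ε c' hc' hvc' heq
    rwa [hv1, mul_one] at h
  -- the Newton sequence
  have seq : ∀ j : ℕ, ∃ N, N₀ ≤ N ∧ ∃ a ∈ M₁ N, ∃ b ∈ M₂ N,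
      v (a ^ m * u - 1) ≤ p ^ (j + 1) ∧ v (b ^ m * u - 1) ≤ p ^ (j + 1) ∧ v (a - b) ≤ p := by
    intro j
    induction j with
    | zero =>
      refine ⟨max N₁ N₀, le_max_right _ _, a₀, hM₁ (le_max_left _ _) ha₀, b₀,
        hM₂ (le_max_left _ _) hb₀, ?_, ?_, hab⟩
      · simpa using hsa
      · simpa using hsb
    | succ j ih =>
      obtain ⟨N, hN, a, ha, b, hb, hsa', hsb', hab'⟩ := ih
      have hsa1 : v (a ^ m * u - 1) < 1 := lt_of_le_of_lt (hsa'.trans (hpj j)) hp1
      have hsb1 : v (b ^ m * u - 1) < 1 := lt_of_le_of_lt (hsb'.trans (hpj j)) hp1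
      have hva : v a = 1 := val_eq_one_of_pow v m hmn u a hu hsa1
      have hvb : v b = 1 := val_eq_one_of_pow v m hmn u b hu hsb1
      have hsq : (p ^ (j + 1)) ^ 2 ≤ p ^ (j + 1 + 1) := by
        rw [← pow_mul]
        exact pow_le_pow_right_of_le_one' hp1.le (by omega)
      refine ⟨(m + 1) * N, hN.trans (Nat.le_mul_of_pos_left N (Nat.succ_pos m)),
        newton m u a, newton_mem m hm0 u M₁ hM₁ hN₁ N a ha,
        newton m u b, newton_mem m hm0 u M₂ hM₂ hN₂ N b hb, ?_, ?_, ?_⟩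
      · exact (newton_spec v m hm u a hsa1.le).trans ((pow_le_pow_left' hsa' 2).trans hsq)
      · exact (newton_spec v m hm u b hsb1.le).trans ((pow_le_pow_left' hsb' 2).trans hsq)
      · have h : newton m u a - newton m u b =
            (a - b) + (a * (-(a ^ m * u - 1) / m) - b * (-(b ^ m * u - 1) / m)) := by
          rw [newton, newton]; ring
        rw [h]
        refine v.map_add_le hab' (v.map_sub_le ?_ ?_)
        · rw [map_mul, map_div₀, hm, div_one, Valuation.map_neg, hva, one_mul]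
          exact hsa'.trans (hpj j)
        · rw [map_mul, map_div₀, hm, div_one, Valuation.map_neg, hvb, one_mul]
          exact hsb'.trans (hpj j)
  -- conclusion
  obtain ⟨j, hj⟩ := hπ d hd
  obtain ⟨N, hN, a, ha, b, hb, hsa', hsb', hab'⟩ := seq j
  have hsa1 : v (a ^ m * u - 1) < 1 := lt_of_le_of_lt (hsa'.trans (hpj j)) hp1
  have hsb1 : v (b ^ m * u - 1) < 1 := lt_of_le_of_lt (hsb'.trans (hpj j)) hp1
  have hva : v a = 1 := val_eq_one_of_pow v m hmn u a hu hsa1
  have hvb : v b = 1 := val_eq_one_of_pow v m hmn u b hu hsb1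
  have hba : v (b - a) < 1 := by rw [v.map_sub_swap]; exact lt_of_le_of_lt hab' hp1
  have h1 : v (b - a) = v ((b ^ m * u - 1) - (a ^ m * u - 1)) := by
    rw [← val_pow_sub_pow v m hm a b hva hba]
    have : (b ^ m * u - 1) - (a ^ m * u - 1) = (b ^ m - a ^ m) * u := by ring
    rw [this, map_mul, hu, mul_one]
  have h2 : v (a - b) ≤ p ^ (j + 1) := by
    rw [v.map_sub_swap, h1]
    exact v.map_sub_le hsb' hsa'
  have h3 : v (algebraMap L F (π ^ (j + 1))) = p ^ (j + 1) := by rw [map_pow, map_pow]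
  have h4 := key N hN a ha b hb hva hvb.le (π ^ (j + 1))
    (by rw [h3]; exact lt_of_le_of_lt (hpj j) hp1) (by rw [h3]; exact h2)
  rw [h3] at h4
  have h5 : p ^ (j + 1) ≤ p ^ j := pow_le_pow_right_of_le_one' hp1.le (Nat.le_succ j)
  exact absurd (h4.trans h5) (not_le.mpr hj)

end Core

end Fermat.Agent.S18.helper6993
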