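import Mathlib

/-!
# S18-UNR-K0, part B (Mathlib only; file helper7025_UnrDiscr): unramified primes of a Dedekind extension of a PID have
unit discriminant

* `eq_zero_of_trace_mul_eq_zero`: on a finite-dimensional reduced commutative algebra over a field
  of characteristic zero the trace form is nondegenerate.
* `exists_basis_discr_notMem`: `A` a PID, `S` a Dedekind domain, finite and torsion-free over `A`,
  `p` a maximal ideal of `A` with residue field of characteristic zero such that no prime `P` of `S`
  satisfies `pS ≤ P ^ 2`.  Then `S` has an `A`-basis whose discriminant is not in `p`.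
-/

set_option autoImplicit false

namespace Fermat.Agent.S18.helper7025

open Polynomial IsDedekindDomain

section TraceForm

variable (κ : Type*) {T : Type*} [Field κ] [CommRing T] [Algebra κ T] [Module.Finite κ T]
  [IsReduced T]

include κ in

/-- In a finite-dimensional reduced commutative algebra over a field, every nonzero element `x`
admits `u` with `x = x ^ 2 * u` (so that `x * u` is a nonzero idempotent). -/
theorem exists_eq_sq_mul (x : T) : ∃ u : T, x = x ^ 2 * u := by
  have hx : IsIntegral κ x := Algebra.IsIntegral.isIntegral x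
  -- minimal polynomial `μ = X ^ r * g`, `g 0 ≠ 0`
  set μ := minpoly κ x with hμ
  have hμ0 : μ ≠ 0 := minpoly.ne_zero hx
  obtain ⟨r, g, hg, hμg⟩ : ∃ (r : ℕ) (g : κ[X]), g.eval 0 ≠ 0 ∧ μ = X ^ r * g := by
    have := Polynomial.exists_eq_pow_rootMultiplicity_mul_and_not_dvd μ hμ0 0
    obtain ⟨g, hg1, hg2⟩ := this
    refine ⟨μ.rootMultiplicity 0, g, ?_, ?_⟩
    · intro h0
      apply hg2
      rw [Polynomial.dvd_iff_isRoot]
      exact h0
    · simpa using hg1
  have h1 : x ^ r * aeval x g = 0 := by
    have := minpoly.aeval κ x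
    rw [← hμ, hμg, map_mul, map_pow, aeval_X] at this
    exact this
  have h2 : x * aeval x g = 0 := by
    have : (x * aeval x g) ^ (r + 1) = 0 := by
      rw [mul_pow, pow_succ (aeval x g) r, ← mul_assoc, pow_succ x r]
      calc x ^ r * x * (aeval x g) ^ r * aeval x g
          = (x ^ r * aeval x g) * (x * (aeval x g) ^ r) := by ring
        _ = 0 := by rw [h1, zero_mul]
    exact pow_eq_zero_iff (Nat.succ_ne_zero r) |>.mp this
  -- `g = C c + X * g₁`
  set c := g.eval 0 with hc
  have hgdec : g = C c + X * (g /ₘ X) := by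
    have h := Polynomial.modByMonic_add_div g (X : κ[X])
    have hX : (X : κ[X]) = X - C 0 := by simp
    rw [hX, Polynomial.modByMonic_X_sub_C_eq_C_eval, ← hX] at h
    rw [hc]; exact h.symm
  have h3 : x * (algebraMap κ T c + x * aeval x (g /ₘ X)) = 0 := by
    have : aeval x g = algebraMap κ T c + x * aeval x (g /ₘ X) := by
      conv_lhs => rw [hgdec]
      simp [aeval_C]
    rw [← this]; exact h2
  refine ⟨- algebraMap κ T c⁻¹ * aeval x (g /ₘ X), ?_⟩
  have h4 : algebraMap κ T c⁻¹ * algebraMap κ T c = 1 := by
    rw [← map_mul, inv_mul_cancel₀ hg, map_one]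
  have h5 : x * algebraMap κ T c = - (x ^ 2 * aeval x (g /ₘ X)) := by
    have : x * algebraMap κ T c + x ^ 2 * aeval x (g /ₘ X) = 0 := by
      rw [← h3]; ring
    exact eq_neg_of_add_eq_zero_left this
  calc x = x * (algebraMap κ T c * algebraMap κ T c⁻¹) := by
        rw [mul_comm (algebraMap κ T c), h4, mul_one]
    _ = (x * algebraMap κ T c) * algebraMap κ T c⁻¹ := by ring
    _ = x ^ 2 * (-algebraMap κ T c⁻¹ * aeval x (g /ₘ X)) := by rw [h5]; ring

/-- The trace form of a finite-dimensional reduced commutative algebra over a field of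
characteristic zero is nondegenerate. -/
theorem eq_zero_of_trace_mul_eq_zero [CharZero κ] (x : T) (hx : ∀ y : T, Algebra.trace κ T (x * y) = 0) :
    x = 0 := by
  obtain ⟨u, hu⟩ := exists_eq_sq_mul κ x
  set e : T := x * u with he
  have hidem : e * e = e := by
    rw [he]
    calc x * u * (x * u) = (x ^ 2 * u) * u := by ring
      _ = x * u := by rw [← hu]
  have hE : IsIdempotentElem (Algebra.lmul κ T e) := by
    show Algebra.lmul κ T e * Algebra.lmul κ T e = Algebra.lmul κ T e
    rw [← map_mul, hidem]
  have htr : LinearMap.trace κ T (Algebra.lmul κ T e) = 0 := by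
    have := hx u
    rwa [Algebra.trace_apply] at this
  have h0 : Algebra.lmul κ T e = 0 := LinearMap.IsIdempotentElem.eq_zero_of_trace_eq_zero hE htr
  have he0 : e = 0 := by
    have := congrArg (fun f : T →ₗ[κ] T => f 1) h0
    simpa using this
  calc x = x ^ 2 * u := hu
    _ = x * e := by rw [he]; ring
    _ = 0 := by rw [he0, mul_zero]

end TraceForm

section Dedekind

variable {S : Type*} [CommRing S] [IsDedekindDomain S]

open WithZero in
/-- If `g ≠ 0` lies in no square of a prime of the Dedekind domain `S`, the ideal `(g)` is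
radical. -/
theorem mem_span_of_pow_mem {g : S} (hg : g ≠ 0)
    (hram : ∀ P : Ideal S, P.IsPrime → g ∈ P → g ∉ P ^ 2)
    {y : S} {k : ℕ} (hy : y ^ k ∈ Ideal.span {g}) : y ∈ Ideal.span {g} := by
  set K := FractionRing S
  have hgK : algebraMap S K g ≠ 0 := by
    simpa using (IsFractionRing.injective S K).ne hg
  have key : ∀ v : HeightOneSpectrum S, v.valuation K (algebraMap S K y / algebraMap S K g) ≤ 1 := by
    intro v
    rw [map_div₀, HeightOneSpectrum.valuation_of_algebraMap, HeightOneSpectrum.valuation_of_algebraMap]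
    have hg0 : v.intValuation g ≠ 0 := v.intValuation_ne_zero g hg
    rw [div_le_one₀ (zero_lt_iff.mpr hg0)]
    by_cases hgv : g ∈ v.asIdeal
    · have h2 : g ∉ v.asIdeal ^ 2 := hram _ v.isPrime hgv
      have hyv : y ∈ v.asIdeal := by
        have : y ^ k ∈ v.asIdeal := by
          obtain ⟨s, hs⟩ := Ideal.mem_span_singleton'.mp hy
          rw [← hs]
          exact Ideal.mul_mem_left _ _ hgv
        exact v.isPrime.mem_of_pow_mem k this
      have hy1 : v.intValuation y ≤ exp (-(1 : ℤ)) := by
        have := (v.intValuation_le_pow_iff_mem y 1).mpr (by simpa using hyv)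
        simpa using this
      have hg2 : ¬ v.intValuation g ≤ exp (-(2 : ℤ)) := by
        intro hle
        exact h2 ((v.intValuation_le_pow_iff_mem g 2).mp (by simpa using hle))
      have hg1 : exp (-(1 : ℤ)) ≤ v.intValuation g := by
        rw [← exp_log hg0, exp_le_exp]
        rw [← exp_log hg0, exp_le_exp] at hg2
        omega
      exact hy1.trans hg1
    · have : v.intValuation g = 1 := by
        rw [HeightOneSpectrum.intValuation_eq_one_iff_mem_primeCompl]
        exact hgv
      rw [this]
      exact v.intValuation_le_one y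
  obtain ⟨s, hs⟩ := HeightOneSpectrum.mem_integers_of_valuation_le_one K _ key
  rw [Ideal.mem_span_singleton']
  refine ⟨s, ?_⟩
  apply IsFractionRing.injective S K
  rw [map_mul, hs, div_mul_cancel₀ _ hgK]

end Dedekind

section Discr

variable {A S : Type*} [CommRing A] [IsDomain A] [IsPrincipalIdealRing A]
  [CommRing S] [IsDedekindDomain S] [Algebra A S] [Module.Finite A S]
  [Module.IsTorsionFree A S]

attribute [local instance] Ideal.Quotient.field

/-- **Unramified ⟹ unit discriminant.**  `A` a PID, `S` a Dedekind domain finite and torsion-free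
over `A`, `p` a maximal ideal of `A` with residue field of characteristic zero.  If no prime `P` of
`S` satisfies `pS ≤ P ^ 2` (all ramification indices over `p` are one), then for EVERY `A`-basis
`b` of `S` the discriminant of `b` is not in `p`. -/
theorem discr_notMem_of_basis (p : Ideal A) [p.IsMaximal] [CharZero (A ⧸ p)]
    (hram : ∀ P : Ideal S, P.IsPrime → p.map (algebraMap A S) ≤ P →
      ¬ p.map (algebraMap A S) ≤ P ^ 2)
    {ι : Type*} [Fintype ι] [DecidableEq ι] (b : Module.Basis ι A S) :
    Algebra.discr A b ∉ p := by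
  classical
  have : Module.Free A S := Module.Free.of_basis b
  have hinj : Function.Injective (algebraMap A S) := FaithfulSMul.algebraMap_injective A S
  obtain ⟨h, rfl⟩ := (IsPrincipalIdealRing.principal p).principal
  set g : S := algebraMap A S h with hgdef
  have hq : (Ideal.span {h} : Ideal A).map (algebraMap A S) = Ideal.span {g} := by
    rw [Ideal.map_span, Set.image_singleton]
  have hg : g ≠ 0 := by
    intro h0
    have hh0 : h = 0 := hinj (by rw [← hgdef, h0, map_zero])
    refine hram ⊥ Ideal.isPrime_bot ?_ ?_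
    · rw [hq, h0]; simp
    · rw [hq, h0]; simp
  have hram' : ∀ P : Ideal S, P.IsPrime → g ∈ P → g ∉ P ^ 2 := by
    intro P hP hgP hgP2
    refine hram P hP ?_ ?_
    · rw [hq, Ideal.span_le, Set.singleton_subset_iff]; exact hgP
    · rw [hq, Ideal.span_le, Set.singleton_subset_iff]; exact hgP2
  set q : Ideal S := (Ideal.span {h} : Ideal A).map (algebraMap A S) with hqdef
  -- the quotient is reduced
  have : IsReduced (S ⧸ q) := by
    rw [← Ideal.isRadical_iff_quotient_reduced]
    intro y hy
    obtain ⟨k, hk⟩ := hy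
    rw [hq] at hk ⊢
    exact mem_span_of_pow_mem hg hram' hk
  intro hmem
  -- the Gram matrix of the reduced basis is singular
  set G : Matrix ι ι (A ⧸ Ideal.span {h}) := fun i j =>
    Algebra.trace (A ⧸ Ideal.span {h}) (S ⧸ q) (Ideal.Quotient.mk q (b i) * Ideal.Quotient.mk q (b j))
    with hG
  have hGmap : G = (Algebra.traceMatrix A b).map (Ideal.Quotient.mk (Ideal.span {h})) := by
    ext i j
    rw [Matrix.map_apply, Algebra.traceMatrix_apply, Algebra.traceForm_apply]
    show Algebra.trace (A ⧸ Ideal.span {h}) (S ⧸ q)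
        (Ideal.Quotient.mk q (b i) * Ideal.Quotient.mk q (b j)) = _
    rw [← map_mul (Ideal.Quotient.mk q), Algebra.trace_quotient_eq_of_isDedekindDomain,
      Algebra.intTrace_eq_trace]
  have hdet : G.det = 0 := by
    rw [hGmap, ← RingHom.mapMatrix_apply, ← RingHom.map_det, ← Algebra.discr_def]
    exact Ideal.Quotient.eq_zero_iff_mem.mpr hmem
  obtain ⟨c, hc0, hc⟩ := Matrix.exists_mulVec_eq_zero_iff.mpr hdet
  -- the corresponding element of the radical of the trace form
  set x : S ⧸ q := ∑ j, c j • Ideal.Quotient.mk q (b j) with hx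
  have hxb : ∀ i, Algebra.trace (A ⧸ Ideal.span {h}) (S ⧸ q) (x * Ideal.Quotient.mk q (b i)) = 0 := by
    intro i
    have h1 := congrFun hc i
    rw [Matrix.mulVec, dotProduct] at h1
    simp only [Pi.zero_apply] at h1
    rw [hx, Finset.sum_mul, map_sum, ← h1]
    refine Finset.sum_congr rfl fun j _ => ?_
    rw [smul_mul_assoc, map_smul, smul_eq_mul, hG, mul_comm (G i j)]
    congr 2
    rw [mul_comm]
  have hxy : ∀ y : S ⧸ q, Algebra.trace (A ⧸ Ideal.span {h}) (S ⧸ q) (x * y) = 0 := by
    intro y
    obtain ⟨s, rfl⟩ := Ideal.Quotient.mk_surjective y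
    have hs : Ideal.Quotient.mk q s = ∑ i, (Ideal.Quotient.mk (Ideal.span {h}) (b.repr s i)) •
        Ideal.Quotient.mk q (b i) := by
      conv_lhs => rw [← b.sum_repr s]
      rw [map_sum]
      refine Finset.sum_congr rfl fun i _ => ?_
      rw [Algebra.smul_def, map_mul, Algebra.smul_def]
      rfl
    rw [hs, Finset.mul_sum, map_sum]
    refine Finset.sum_eq_zero fun i _ => ?_
    rw [mul_smul_comm, map_smul, hxb i, smul_zero]
  have hx0 : x = 0 := eq_zero_of_trace_mul_eq_zero (A ⧸ Ideal.span {h}) x hxy
  -- hence all `c j` vanish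
  apply hc0
  funext j
  choose a ha using fun j => Ideal.Quotient.mk_surjective (c j)
  have hsum : Ideal.Quotient.mk q (∑ j, a j • b j) = 0 := by
    rw [← hx0, hx, map_sum]
    refine Finset.sum_congr rfl fun j _ => ?_
    rw [← ha j, Algebra.smul_def, map_mul, Algebra.smul_def]
    rfl
  rw [Ideal.Quotient.eq_zero_iff_mem, hq, Ideal.mem_span_singleton'] at hsum
  obtain ⟨s, hs⟩ := hsum
  have hrepr : ∀ j, a j = b.repr s j * h := by
    intro j
    have h1 : b.repr (∑ j, a j • b j) j = a j := by
      rw [b.repr_sum_self]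
    have h2 : b.repr (s * g) j = b.repr s j * h := by
      rw [mul_comm s g, hgdef, ← Algebra.smul_def, map_smul, Finsupp.smul_apply, smul_eq_mul,
        mul_comm]
    rw [← h1, ← hs, h2]
  rw [← ha j, hrepr j, Pi.zero_apply, Ideal.Quotient.eq_zero_iff_mem]
  exact Ideal.mul_mem_left _ _ (Ideal.subset_span rfl)

end Discr

end Fermat.Agent.S18.helper7025
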