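/-
S18-CERT-RED (helper705): the four chart certificates ON THE SPECIAL FIBRE.

For `r ∈ {2, 3}`, `r ∣ N`, `ℓ ∤ N`, a valuation ring `A` of a field `L ⊇ ℚ` over `ℓ`, residue field
`κ`, and an integral basis `D` of `S₂(Γ₀(N))`: the reductions `η̄_i = (f_i / ε_r)‾` (EPSFAM,
`helper1257.y2Red / y3Red`) satisfy on `F_κ = modularFunctionFieldFullC κ N`, over the reduced
Hauptmodul `t̄ = t2Red / t3Red`, the four integrality certificates of CERT (`helper208.Cert2.gap`
shape), obtained from the characteristic-zero ones (`helper208.cert2Z / cert3Z`) by integrality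
transfer on the `t_r`-line (`helper4665.gauss_integralityTransfer_t2 / _t3`).

Consumer forms:
* `hasCert_t2 / hasCert_t3` : `helper2707.HasCert t̄ (D.laurent κ i)` VERBATIM (field `kl` of
  `helper99.Stmt_Bbar`, track C), including the theta relation (`helper6894`);
* `gapS1_t2, gapS2_t2, gapS1_t3, gapS2_t3` : the hypotheses `hS1 / hS2` of
  `helper4005.gap_of_certificates_adjoin` for `S = Set.range y_rRed` (track A, A4-CUSP).
-/
import Mathlib
import Fermat.Agent.S18.helper4665_TLineInst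
import Fermat.Agent.S18.helper208_CertL
import Fermat.Agent.S18.helper1257_EpsFamily
import Fermat.Agent.S18.helper6894_HauptTheta
import Fermat.Agent.S18.helper2707_Bbar

set_option autoImplicit false
set_option synthInstance.maxHeartbeats 400000

noncomputable section

namespace Fermat.Agent.S18.helper705

open Polynomial ModularCurve IntermediateField
open Fermat.Agent.S18 Fermat.Agent.S18.helper1257

/-! ### Ambient transport of integrality over `L[t]` -/

/-- Integrality over `L[t]` can be tested after an injective algebra map (e.g. the inclusion of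
a subfield into `L((q))`). -/
theorem isIntegral_adjoin_of_algHom_field {L E F : Type*} [Field L] [Field E] [Field F]
    [Algebra L E] [Algebra L F] (φ : F →ₐ[L] E) {t w : F}
    (h : IsIntegral (Algebra.adjoin L {φ t}) (φ w)) : IsIntegral (Algebra.adjoin L {t}) w := by
  obtain ⟨G, hG, hGz⟩ := helper2707.isIntOver_iff_isIntegral_adjoin.mpr h
  refine helper2707.isIntOver_iff_isIntegral_adjoin.mp ⟨G, hG, ?_⟩
  have hcomp : ((aeval (φ t) : L[X] →ₐ[L] E) : L[X] →+* E)
      = (φ : F →+* E).comp ((aeval t : L[X] →ₐ[L] F) : L[X] →+* F) := by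
    ext p
    · simp
    · simp
  rw [hcomp] at hGz
  have h2 : (φ : F →+* E) (G.eval₂ ((aeval t : L[X] →ₐ[L] F) : L[X] →+* F) w) = 0 := by
    rw [Polynomial.hom_eval₂]
    exact hGz
  exact (φ : F →+* E).injective (h2.trans (map_zero _).symm)


/-! ### Integer inverses of the Hauptmoduln -/

/-- `1 / t₂` as an integer Laurent series. -/
def t2ZInv : LaurentSeries ℤ := ofZ c2Z * ofZ (d2Z.invOfUnit 1)

theorem t2Z_mul_t2ZInv : t2Z * t2ZInv = 1 := by
  rw [t2ZInv, ← mul_assoc, t2Z_mul, ← map_mul,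
    PowerSeries.mul_invOfUnit d2Z 1 (by rw [constantCoeff_d2Z]; rfl), map_one]

/-- `1 / t₃` as an integer Laurent series. -/
def t3ZInv : LaurentSeries ℤ := ofZ c3Z * ofZ (n3Z.invOfUnit 1)

theorem t3Z_mul_t3ZInv : t3Z * t3ZInv = 1 := by
  rw [t3ZInv, ← mul_assoc, t3Z_mul, ← map_mul,
    PowerSeries.mul_invOfUnit n3Z 1 (by rw [constantCoeff_n3Z]; rfl), map_one]

theorem coeffMap_eq_inv_of_mul_eq_one {K : Type*} [Field K] {τ τ' : LaurentSeries ℤ}
    (h : τ * τ' = 1) :
    coeffMap (Int.castRingHom K) τ' = (coeffMap (Int.castRingHom K) τ)⁻¹ := by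
  have h1 : coeffMap (Int.castRingHom K) τ * coeffMap (Int.castRingHom K) τ' = 1 := by
    rw [← map_mul, h, map_one]
  exact eq_inv_of_mul_eq_one_right h1

/-! ### Reduction of integrality along the Gauss valuation -/

section Reduce

variable (N : ℕ) [NeZero N] (ℓ : ℕ) [Fact ℓ.Prime] (hℓN : ¬ ℓ ∣ N)
variable {L : Type*} [Field L] [Algebra ℚ L] (A : ValuationSubring L)
  (hA : (ℓ : L) ∈ A.nonunits)

/-- **(G)** Let `t ∈ F` be a chart with integrality transfer to `tb ∈ F_κ`.  If the integer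
series `W`, read over `L`, lies in `F` and is integral over `L[t]` (inside `L((q))`), then any
`w ∈ F_κ` whose series is `W` read over `κ` is integral over `κ[tb]`. -/
theorem isIntegral_of_transfer
    {t : ↥(laurentBaseChange L (modularFunctionFieldFull N))}
    {tb : ↥(modularFunctionFieldFullC (IsLocalRing.ResidueField A) N)}
    (hIT : helper6292.IntegralityTransfer L (IsLocalRing.ResidueField A)
      (helper508.gaussValuationSubring N ℓ hℓN A hA) (helper508.gaussResidue N ℓ hℓN A hA) t tb)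
    (W : LaurentSeries ℤ)
    (hW : helper4665.zSeries W L ∈ laurentBaseChange L (modularFunctionFieldFull N))
    (hint : IsIntegral (Algebra.adjoin L {(t : LaurentSeries L)})
      (coeffMap (Int.castRingHom L) W))
    (w : ↥(modularFunctionFieldFullC (IsLocalRing.ResidueField A) N))
    (hw : (w : LaurentSeries (IsLocalRing.ResidueField A))
      = coeffMap (Int.castRingHom (IsLocalRing.ResidueField A)) W) :
    IsIntegral (Algebra.adjoin (IsLocalRing.ResidueField A) {tb}) w := by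
  have hF : IsIntegral (Algebra.adjoin L {t}) (helper4665.gaussZ N W hW) :=
    isIntegral_adjoin_of_algHom_field (laurentBaseChange L (modularFunctionFieldFull N)).val hint
  have h1 := hIT (helper4665.gaussZ N W hW) (helper4665.gaussZ_mem N ℓ hℓN A hA W hW) hF
  have e2 : helper508.gaussResidue N ℓ hℓN A hA
      ⟨helper4665.gaussZ N W hW, helper4665.gaussZ_mem N ℓ hℓN A hA W hW⟩ = w :=
    Subtype.ext ((helper4665.gaussResidue_gaussZ N ℓ hℓN A hA W hW).trans hw.symm)
  rwa [e2] at h1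

end Reduce

/-! ### The abstract reduction of the four certificates -/

section Abstract

variable {L k : Type*} [Field L] [Field k]

/-- **Abstract form.**  `F ⊆ L((q))`, `F_k ⊆ k((q))` subfields, `τ` an integer series with integer
inverse `τ'` (the Hauptmodul), `Y` an integer series (`η = f / ε_r`), and transfer principles
`T`, `T'` for the charts `τ`, `τ⁻¹`.  Then the four certificates for `(Y, τ)` over `L` give the
four certificates for their reductions in `F_k`. -/
theorem cert_red_abstract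
    (F : IntermediateField L (LaurentSeries L)) (Fk : IntermediateField k (LaurentSeries k))
    (τ τ' Y : LaurentSeries ℤ) (hττ' : τ * τ' = 1)
    (hY : coeffMap (Int.castRingHom L) Y ∈ F) (hτ : coeffMap (Int.castRingHom L) τ ∈ F)
    (tb η : Fk) (htb : (tb : LaurentSeries k) = coeffMap (Int.castRingHom k) τ)
    (hη : (η : LaurentSeries k) = coeffMap (Int.castRingHom k) Y)
    (T : ∀ W : LaurentSeries ℤ, coeffMap (Int.castRingHom L) W ∈ F →
      IsIntegral (Algebra.adjoin L {coeffMap (Int.castRingHom L) τ})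
        (coeffMap (Int.castRingHom L) W) →
      ∀ w : Fk, (w : LaurentSeries k) = coeffMap (Int.castRingHom k) W →
        IsIntegral (Algebra.adjoin k {tb}) w)
    (T' : ∀ W : LaurentSeries ℤ, coeffMap (Int.castRingHom L) W ∈ F →
      IsIntegral (Algebra.adjoin L {(coeffMap (Int.castRingHom L) τ)⁻¹})
        (coeffMap (Int.castRingHom L) W) →
      ∀ w : Fk, (w : LaurentSeries k) = coeffMap (Int.castRingHom k) W →
        IsIntegral (Algebra.adjoin k {tb⁻¹}) w)
    (a b E c : ℕ)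
    (g1 : IsIntegral (Algebra.adjoin L {coeffMap (Int.castRingHom L) τ})
      (coeffMap (Int.castRingHom L) Y ^ a * (coeffMap (Int.castRingHom L) τ + c) ^ b))
    (g2 : ∃ w, IsIntegral (Algebra.adjoin L {coeffMap (Int.castRingHom L) τ}) w ∧
      (coeffMap (Int.castRingHom L) Y ^ a * (coeffMap (Int.castRingHom L) τ + c) ^ b) ^ E
        = coeffMap (Int.castRingHom L) τ * w)
    (g3 : IsIntegral (Algebra.adjoin L {(coeffMap (Int.castRingHom L) τ)⁻¹})
      (coeffMap (Int.castRingHom L) Y ^ a * (c * (coeffMap (Int.castRingHom L) τ)⁻¹ + 1) ^ b))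
    (g4 : ∃ w, IsIntegral (Algebra.adjoin L {(coeffMap (Int.castRingHom L) τ)⁻¹}) w ∧
      (coeffMap (Int.castRingHom L) Y ^ a * (c * (coeffMap (Int.castRingHom L) τ)⁻¹ + 1) ^ b) ^ E
        = (coeffMap (Int.castRingHom L) τ)⁻¹ * w) :
    IsIntegral (Algebra.adjoin k {tb}) (η ^ a * (tb + c) ^ b) ∧
    (∃ w, IsIntegral (Algebra.adjoin k {tb}) w ∧ (η ^ a * (tb + c) ^ b) ^ E = tb * w) ∧
    IsIntegral (Algebra.adjoin k {tb⁻¹}) (η ^ a * (c * tb⁻¹ + 1) ^ b) ∧
    (∃ w, IsIntegral (Algebra.adjoin k {tb⁻¹}) w ∧ (η ^ a * (c * tb⁻¹ + 1) ^ b) ^ E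
      = tb⁻¹ * w) := by
  obtain ⟨wL, g2, g2e⟩ := g2
  obtain ⟨wL', g4, g4e⟩ := g4
  have hinvk := coeffMap_eq_inv_of_mul_eq_one (K := k) hττ'
  have hinvL := coeffMap_eq_inv_of_mul_eq_one (K := L) hττ'
  have htb0 : tb ≠ 0 := by
    intro h0
    have h1 : coeffMap (Int.castRingHom k) τ * coeffMap (Int.castRingHom k) τ' = 1 := by
      rw [← map_mul, hττ', map_one]
    rw [← htb, h0] at h1
    simp at h1
  have htL0 : coeffMap (Int.castRingHom L) τ ≠ 0 := by
    intro h0
    have h1 : coeffMap (Int.castRingHom L) τ * coeffMap (Int.castRingHom L) τ' = 1 := by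
      rw [← map_mul, hττ', map_one]
    rw [h0, zero_mul] at h1
    exact zero_ne_one h1
  have hτinv : (coeffMap (Int.castRingHom L) τ)⁻¹ ∈ F := F.inv_mem hτ
  -- the integer series
  set Zs : LaurentSeries ℤ := Y ^ a * (τ + c) ^ b with hZs
  set Zs' : LaurentSeries ℤ := Y ^ a * (c * τ' + 1) ^ b with hZs'
  have eZL : coeffMap (Int.castRingHom L) Zs
      = coeffMap (Int.castRingHom L) Y ^ a * (coeffMap (Int.castRingHom L) τ + c) ^ b := by
    rw [hZs, map_mul, map_pow, map_pow, map_add, map_natCast]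
  have eZL' : coeffMap (Int.castRingHom L) Zs'
      = coeffMap (Int.castRingHom L) Y ^ a * (c * (coeffMap (Int.castRingHom L) τ)⁻¹ + 1) ^ b := by
    rw [hZs', map_mul, map_pow, map_pow, map_add, map_mul, map_natCast, map_one, hinvL]
  have eZk : ((η ^ a * (tb + c) ^ b : Fk) : LaurentSeries k)
      = coeffMap (Int.castRingHom k) Zs := by
    rw [hZs, map_mul, map_pow, map_pow, map_add, map_natCast, ← htb, ← hη]
    rfl
  have eZk' : ((η ^ a * (c * tb⁻¹ + 1) ^ b : Fk) : LaurentSeries k)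
      = coeffMap (Int.castRingHom k) Zs' := by
    rw [hZs', map_mul, map_pow, map_pow, map_add, map_mul, map_natCast, map_one, hinvk, ← htb,
      ← hη]
    rfl
  have mZL : coeffMap (Int.castRingHom L) Zs ∈ F := by
    rw [eZL]
    exact F.mul_mem (pow_mem hY a) (pow_mem (F.add_mem hτ (IntermediateField.natCast_mem F c)) b)
  have mZL' : coeffMap (Int.castRingHom L) Zs' ∈ F := by
    rw [eZL']
    exact F.mul_mem (pow_mem hY a)
      (pow_mem (F.add_mem (F.mul_mem (IntermediateField.natCast_mem F c) hτinv) F.one_mem) b)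
  refine ⟨T Zs mZL (by rw [eZL]; exact g1) _ eZk,
    ⟨(η ^ a * (tb + c) ^ b) ^ E * tb⁻¹, ?_, ?_⟩,
    T' Zs' mZL' (by rw [eZL']; exact g3) _ eZk',
    ⟨(η ^ a * (c * tb⁻¹ + 1) ^ b) ^ E * tb, ?_, ?_⟩⟩
  · have e1 : coeffMap (Int.castRingHom L) (Zs ^ E * τ') = wL := by
      rw [map_mul, map_pow, eZL, hinvL, g2e]
      field_simp
    refine T (Zs ^ E * τ') ?_ (by rw [e1]; exact g2) _ ?_
    · rw [map_mul, map_pow, hinvL]
      exact F.mul_mem (pow_mem mZL E) hτinv
    · rw [map_mul, map_pow, hinvk, ← eZk, ← htb]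
      rfl
  · field_simp
  · have e1 : coeffMap (Int.castRingHom L) (Zs' ^ E * τ) = wL' := by
      rw [map_mul, map_pow, eZL', g4e]
      field_simp
    refine T' (Zs' ^ E * τ) ?_ (by rw [e1]; exact g4) _ ?_
    · rw [map_mul, map_pow]
      exact F.mul_mem (pow_mem mZL' E) hτ
    · rw [map_mul, map_pow, ← eZk', ← htb]
      rfl
  · field_simp

/-- The finite-chart certificate of a family `S`, in the exact shape of the hypothesis `hS1` of
`helper4005.gap_of_certificates_adjoin` (generic field binders). -/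
def CertFin {k F : Type*} [Field k] [Field F] [Algebra k F] (x : F) (c : k) (a E : ℕ)
    (S : Set F) : Prop :=
  ∀ y ∈ S, ∃ z w : F, IsIntegral (Algebra.adjoin k {x}) z ∧
    y ^ a * (x + algebraMap k F c) ^ (a - 1) = z ∧ IsIntegral (Algebra.adjoin k {x}) w ∧
    z ^ E = x * w

/-- The certificate at infinity of a family `S`, in the exact shape of the hypothesis `hS2` of
`helper4005.gap_of_certificates_adjoin` (generic field binders). -/
def CertInf {k F : Type*} [Field k] [Field F] [Algebra k F] (x : F) (c : k) (a E : ℕ)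
    (S : Set F) : Prop :=
  ∀ y ∈ S, ∃ z w : F, IsIntegral (Algebra.adjoin k {x⁻¹}) z ∧
    y ^ a * (algebraMap k F c * x⁻¹ + 1) ^ (a - 1) = z ∧ IsIntegral (Algebra.adjoin k {x⁻¹}) w ∧
    z ^ E = x⁻¹ * w

/-- The four certificates of `cert_red_abstract` as `CertFin` / `CertInf` for the one-element
family `{η}`. -/
theorem certFin_certInf_of_four
    (Fk : IntermediateField k (LaurentSeries k)) (tb η : Fk) (a b E c : ℕ) (hb : b = a - 1)
    (h : IsIntegral (Algebra.adjoin k {tb}) (η ^ a * (tb + c) ^ b) ∧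
      (∃ w, IsIntegral (Algebra.adjoin k {tb}) w ∧ (η ^ a * (tb + c) ^ b) ^ E = tb * w) ∧
      IsIntegral (Algebra.adjoin k {tb⁻¹}) (η ^ a * (c * tb⁻¹ + 1) ^ b) ∧
      (∃ w, IsIntegral (Algebra.adjoin k {tb⁻¹}) w ∧ (η ^ a * (c * tb⁻¹ + 1) ^ b) ^ E
        = tb⁻¹ * w)) :
    CertFin tb (c : k) a E {η} ∧ CertInf tb (c : k) a E {η} := by
  obtain ⟨h1, ⟨w, h2, h2e⟩, h3, ⟨w', h4, h4e⟩⟩ := h
  subst hb
  constructor
  · intro y hy
    obtain rfl : y = η := hy
    refine ⟨y ^ a * (tb + c) ^ (a - 1), w, h1, ?_, h2, h2e⟩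
    rw [map_natCast]
  · intro y hy
    obtain rfl : y = η := hy
    refine ⟨y ^ a * (c * tb⁻¹ + 1) ^ (a - 1), w', h3, ?_, h4, h4e⟩
    rw [map_natCast]

end Abstract

/-! ### The certificates on the special fibre: levels 2 and 3 -/

section Levels

variable (N : ℕ) [NeZero N] (ℓ : ℕ) [Fact ℓ.Prime] (hℓN : ¬ ℓ ∣ N)
variable {L : Type} [Field L] [Algebra ℚ L] (A : ValuationSubring L)
  (hA : (ℓ : L) ∈ A.nonunits) (D : helper5819.IntBasis N 2)

/-- The residue of `t₂` is `helper1257.t2Red`. -/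
theorem gaussResidue_gaussT2_eq_t2Red (h2N : 2 ∣ N) :
    helper508.gaussResidue N ℓ hℓN A hA
      ⟨helper4665.gaussT2 L N h2N, helper4665.gaussT2_mem N ℓ hℓN A hA h2N⟩
      = t2Red N ℓ hℓN A hA h2N :=
  Subtype.ext (helper4665.gaussResidue_gaussT2 N ℓ hℓN A hA h2N)

/-- The residue of `t₃` is `helper1257.t3Red`. -/
theorem gaussResidue_gaussT3_eq_t3Red (h3N : 3 ∣ N) :
    helper508.gaussResidue N ℓ hℓN A hA
      ⟨helper4665.gaussT3 L N h3N, helper4665.gaussT3_mem N ℓ hℓN A hA h3N⟩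
      = t3Red N ℓ hℓN A hA h3N :=
  Subtype.ext (helper4665.gaussResidue_gaussT3 N ℓ hℓN A hA h3N)

/-- **The four level-2 certificates on the special fibre** (shape of `helper208.Cert2.gap`):
with `η = (f_i / ε₂)‾`, `t = t̄₂` in `F_κ`: `z = η² (t + 64)` is integral over `κ[t]` and
`z^E = t · w` with `w` integral over `κ[t]`; `z' = η² (64/t + 1)` is integral over `κ[1/t]` and
`z'^E = t⁻¹ · w'` with `w'` integral over `κ[1/t]`. -/
theorem cert2_red (h2N : 2 ∣ N) (i : Fin D.r) (E : ℕ) (hE : N ≤ 2 * E) :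
    IsIntegral (Algebra.adjoin (IsLocalRing.ResidueField A) {t2Red N ℓ hℓN A hA h2N})
      (y2Red N ℓ hℓN A hA D h2N i ^ 2 * (t2Red N ℓ hℓN A hA h2N + 64)) ∧
    (∃ w, IsIntegral (Algebra.adjoin (IsLocalRing.ResidueField A) {t2Red N ℓ hℓN A hA h2N}) w ∧
      (y2Red N ℓ hℓN A hA D h2N i ^ 2 * (t2Red N ℓ hℓN A hA h2N + 64)) ^ E
        = t2Red N ℓ hℓN A hA h2N * w) ∧
    IsIntegral (Algebra.adjoin (IsLocalRing.ResidueField A) {(t2Red N ℓ hℓN A hA h2N)⁻¹})
      (y2Red N ℓ hℓN A hA D h2N i ^ 2 * (64 * (t2Red N ℓ hℓN A hA h2N)⁻¹ + 1)) ∧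
    (∃ w, IsIntegral (Algebra.adjoin (IsLocalRing.ResidueField A) {(t2Red N ℓ hℓN A hA h2N)⁻¹}) w ∧
      (y2Red N ℓ hℓN A hA D h2N i ^ 2 * (64 * (t2Red N ℓ hℓN A hA h2N)⁻¹ + 1)) ^ E
        = (t2Red N ℓ hℓN A hA h2N)⁻¹ * w) := by
  have : CharZero L := algebraRat.charZero L
  obtain ⟨g1, g2, g3, g4⟩ :=
    (helper208.cert2Z (L := L) N h2N (D.b i) (D.B i) (D.qExpansion_eq i) E hE).gap
  have ha : coeffMap (Int.castRingHom L) (ofZ a2Z) ≠ 0 :=
    helper208.coeffMap_ofZ_ne_zero a2Z 0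
      (by rw [PowerSeries.coeff_zero_eq_constantCoeff_apply, constantCoeff_a2Z])
  have hY : coeffMap (Int.castRingHom L) (ofZ (D.B i)) / coeffMap (Int.castRingHom L) (ofZ a2Z)
      = coeffMap (Int.castRingHom L) (ofZ (y2Z D i)) := by
    rw [div_eq_iff ha, ← map_mul, ofZ_y2Z_mul, laurent_int]
  rw [hY] at g1 g2 g3 g4
  obtain ⟨hIT, hIT'⟩ := helper4665.gauss_integralityTransfer_t2 N ℓ hℓN A hA h2N
  rw [gaussResidue_gaussT2_eq_t2Red] at hIT hIT'
  have key := cert_red_abstract (laurentBaseChange L (modularFunctionFieldFull N))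
    (modularFunctionFieldFullC (IsLocalRing.ResidueField A) N) t2Z t2ZInv (ofZ (y2Z D i))
    t2Z_mul_t2ZInv (y2Z_mem_baseChange D L h2N i) (helper4665.zSeries_t2_mem N h2N)
    (t2Red N ℓ hℓN A hA h2N) (y2Red N ℓ hℓN A hA D h2N i) rfl rfl
    (fun W hW hint w hw => isIntegral_of_transfer N ℓ hℓN A hA hIT W hW hint w hw)
    (fun W hW hint w hw => isIntegral_of_transfer N ℓ hℓN A hA hIT' W hW hint w hw)
    2 1 E 64 (by rw [Nat.cast_ofNat, pow_one]; exact g1) (by rw [Nat.cast_ofNat, pow_one]; exact g2)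
    (by rw [Nat.cast_ofNat, pow_one]; exact g3) (by rw [Nat.cast_ofNat, pow_one]; exact g4)
  rw [Nat.cast_ofNat, pow_one, pow_one] at key
  exact key

/-- **The four level-3 certificates on the special fibre** (shape of `helper208.Cert3.gap`):
with `η = (f_i / ε₃)‾`, `t = t̄₃` in `F_κ`: `z = η³ (t + 27)²` is integral over `κ[t]` and
`z^E = t · w` with `w` integral over `κ[t]`; `z' = η³ (27/t + 1)²` is integral over `κ[1/t]` and
`z'^E = t⁻¹ · w'` with `w'` integral over `κ[1/t]`. -/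
theorem cert3_red (h3N : 3 ∣ N) (i : Fin D.r) (E : ℕ) (hE : N ≤ 3 * E) :
    IsIntegral (Algebra.adjoin (IsLocalRing.ResidueField A) {t3Red N ℓ hℓN A hA h3N})
      (y3Red N ℓ hℓN A hA D h3N i ^ 3 * (t3Red N ℓ hℓN A hA h3N + 27) ^ 2) ∧
    (∃ w, IsIntegral (Algebra.adjoin (IsLocalRing.ResidueField A) {t3Red N ℓ hℓN A hA h3N}) w ∧
      (y3Red N ℓ hℓN A hA D h3N i ^ 3 * (t3Red N ℓ hℓN A hA h3N + 27) ^ 2) ^ E
        = t3Red N ℓ hℓN A hA h3N * w) ∧
    IsIntegral (Algebra.adjoin (IsLocalRing.ResidueField A) {(t3Red N ℓ hℓN A hA h3N)⁻¹})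
      (y3Red N ℓ hℓN A hA D h3N i ^ 3 * (27 * (t3Red N ℓ hℓN A hA h3N)⁻¹ + 1) ^ 2) ∧
    (∃ w, IsIntegral (Algebra.adjoin (IsLocalRing.ResidueField A) {(t3Red N ℓ hℓN A hA h3N)⁻¹}) w ∧
      (y3Red N ℓ hℓN A hA D h3N i ^ 3 * (27 * (t3Red N ℓ hℓN A hA h3N)⁻¹ + 1) ^ 2) ^ E
        = (t3Red N ℓ hℓN A hA h3N)⁻¹ * w) := by
  have : CharZero L := algebraRat.charZero L
  obtain ⟨g1, g2, g3, g4⟩ :=
    (helper208.cert3Z (L := L) N h3N (D.b i) (D.B i) (D.qExpansion_eq i) E hE).gap
  have hb : coeffMap (Int.castRingHom L) (ofZ b3Z) ≠ 0 :=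
    helper208.coeffMap_ofZ_ne_zero b3Z 0
      (by rw [PowerSeries.coeff_zero_eq_constantCoeff_apply, constantCoeff_b3Z])
  have hY : coeffMap (Int.castRingHom L) (ofZ (D.B i)) / coeffMap (Int.castRingHom L) (ofZ b3Z)
      = coeffMap (Int.castRingHom L) (ofZ (y3Z D i)) := by
    rw [div_eq_iff hb, ← map_mul, ofZ_y3Z_mul, laurent_int]
  rw [hY] at g1 g2 g3 g4
  obtain ⟨hIT, hIT'⟩ := helper4665.gauss_integralityTransfer_t3 N ℓ hℓN A hA h3N
  rw [gaussResidue_gaussT3_eq_t3Red] at hIT hIT'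
  have key := cert_red_abstract (laurentBaseChange L (modularFunctionFieldFull N))
    (modularFunctionFieldFullC (IsLocalRing.ResidueField A) N) t3Z t3ZInv (ofZ (y3Z D i))
    t3Z_mul_t3ZInv (y3Z_mem_baseChange D L h3N i) (helper4665.zSeries_t3_mem N h3N)
    (t3Red N ℓ hℓN A hA h3N) (y3Red N ℓ hℓN A hA D h3N i) rfl rfl
    (fun W hW hint w hw => isIntegral_of_transfer N ℓ hℓN A hA hIT W hW hint w hw)
    (fun W hW hint w hw => isIntegral_of_transfer N ℓ hℓN A hA hIT' W hW hint w hw)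
    3 2 E 27 (by rw [Nat.cast_ofNat]; exact g1) (by rw [Nat.cast_ofNat]; exact g2)
    (by rw [Nat.cast_ofNat]; exact g3) (by rw [Nat.cast_ofNat]; exact g4)
  rw [Nat.cast_ofNat] at key
  exact key

/-! #### Consumer form 1: `helper2707.HasCert` (field `kl` of `Stmt_Bbar`, track C) -/

omit [NeZero N] [Algebra ℚ L] in
include hℓN hA in
theorem residue_sixtyFour_ne_zero (h2N : 2 ∣ N) : (64 : IsLocalRing.ResidueField A) ≠ 0 := by
  have h2 := helper4665.residue_natCast_ne_zero N ℓ hℓN A hA 2 Nat.prime_two h2N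
  have e : (64 : IsLocalRing.ResidueField A) = ((2 : ℕ) : IsLocalRing.ResidueField A) ^ 6 := by
    norm_num
  rw [e]
  exact pow_ne_zero 6 h2

omit [NeZero N] [Algebra ℚ L] in
include hℓN hA in
theorem residue_twentySeven_ne_zero (h3N : 3 ∣ N) : (27 : IsLocalRing.ResidueField A) ≠ 0 := by
  have h3 := helper4665.residue_natCast_ne_zero N ℓ hℓN A hA 3 Nat.prime_three h3N
  have e : (27 : IsLocalRing.ResidueField A) = ((3 : ℕ) : IsLocalRing.ResidueField A) ^ 3 := by
    norm_num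
  rw [e]
  exact pow_ne_zero 3 h3

/-- **Level 2: the certificate package of `helper2707.Bsub_kl`** for every integral basis cusp
form, on the `t₂`-line of the special fibre (`2 ∣ N`, `ℓ ∤ N`). -/
theorem hasCert_t2 (h2N : 2 ∣ N) (i : Fin D.r) :
    helper2707.HasCert (t2Red N ℓ hℓN A hA h2N) (D.laurent (IsLocalRing.ResidueField A) i) := by
  obtain ⟨-, ⟨w, hw, hwe⟩, -, ⟨w', hw', hwe'⟩⟩ :=
    cert2_red N ℓ hℓN A hA D h2N i N (by omega)
  refine ⟨64, 2, N, y2Red N ℓ hℓN A hA D h2N i, w, w',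
    residue_sixtyFour_ne_zero N ℓ hℓN A hA h2N, two_pos, Nat.pos_of_ne_zero (NeZero.ne N),
    hw, ?_, hw', ?_, Or.inr ?_⟩
  · rw [map_ofNat, show 2 - 1 = 1 from rfl, pow_one]
    exact hwe
  · rw [map_ofNat, show 2 - 1 = 1 from rfl, pow_one]
    exact hwe'
  · rw [coe_t2Red, coe_y2Red, helper6894.theta_coeffMap_t2Z, ← y2Z_mul_map D _ i]
    ring

/-- **Level 3: the certificate package of `helper2707.Bsub_kl`** for every integral basis cusp
form, on the `t₃`-line of the special fibre (`3 ∣ N`, `ℓ ∤ N`). -/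
theorem hasCert_t3 (h3N : 3 ∣ N) (i : Fin D.r) :
    helper2707.HasCert (t3Red N ℓ hℓN A hA h3N) (D.laurent (IsLocalRing.ResidueField A) i) := by
  obtain ⟨-, ⟨w, hw, hwe⟩, -, ⟨w', hw', hwe'⟩⟩ :=
    cert3_red N ℓ hℓN A hA D h3N i N (by omega)
  refine ⟨27, 3, N, y3Red N ℓ hℓN A hA D h3N i, w, w',
    residue_twentySeven_ne_zero N ℓ hℓN A hA h3N, three_pos, Nat.pos_of_ne_zero (NeZero.ne N),
    hw, ?_, hw', ?_, Or.inr ?_⟩
  · rw [map_ofNat, show 3 - 1 = 2 from rfl]
    exact hwe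
  · rw [map_ofNat, show 3 - 1 = 2 from rfl]
    exact hwe'
  · rw [coe_t3Red, coe_y3Red, helper6894.theta_coeffMap_t3Z, ← y3Z_mul_map D _ i]
    ring

/-! #### Consumer form 2: `hS1`, `hS2` of `helper4005.gap_of_certificates_adjoin` (track A)

`CertFin x c a E S` and `CertInf x c a E S` unfold (by `Iff.rfl`) to the hypotheses `hS1`, `hS2`
of `helper4005.gap_of_certificates_adjoin` / `chart_bound_of_certificates`: pass the theorems
below directly. -/

/-- Level 2, both charts (`x = t̄₂`, `a = 2`, `c = 64`, `S = range y2Red`, `2E ≥ N`). -/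
theorem certFin_certInf_t2 (h2N : 2 ∣ N) (E : ℕ) (hE : N ≤ 2 * E) :
    CertFin (t2Red N ℓ hℓN A hA h2N) (64 : IsLocalRing.ResidueField A) 2 E
        (Set.range (y2Red N ℓ hℓN A hA D h2N)) ∧
      CertInf (t2Red N ℓ hℓN A hA h2N) (64 : IsLocalRing.ResidueField A) 2 E
        (Set.range (y2Red N ℓ hℓN A hA D h2N)) := by
  have key : ∀ i : Fin D.r, CertFin (t2Red N ℓ hℓN A hA h2N) (64 : IsLocalRing.ResidueField A) 2 E
        {y2Red N ℓ hℓN A hA D h2N i} ∧
      CertInf (t2Red N ℓ hℓN A hA h2N) (64 : IsLocalRing.ResidueField A) 2 E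
        {y2Red N ℓ hℓN A hA D h2N i} := by
    intro i
    have h4 := cert2_red N ℓ hℓN A hA D h2N i E hE
    have h := certFin_certInf_of_four (modularFunctionFieldFullC (IsLocalRing.ResidueField A) N)
      (t2Red N ℓ hℓN A hA h2N) (y2Red N ℓ hℓN A hA D h2N i) 2 1 E 64 rfl
      (by rw [Nat.cast_ofNat, pow_one, pow_one]; exact h4)
    rw [Nat.cast_ofNat] at h
    exact h
  constructor
  · rintro y ⟨i, rfl⟩
    exact (key i).1 _ rfl
  · rintro y ⟨i, rfl⟩
    exact (key i).2 _ rfl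

/-- Level 3, both charts (`x = t̄₃`, `a = 3`, `c = 27`, `S = range y3Red`, `3E ≥ N`). -/
theorem certFin_certInf_t3 (h3N : 3 ∣ N) (E : ℕ) (hE : N ≤ 3 * E) :
    CertFin (t3Red N ℓ hℓN A hA h3N) (27 : IsLocalRing.ResidueField A) 3 E
        (Set.range (y3Red N ℓ hℓN A hA D h3N)) ∧
      CertInf (t3Red N ℓ hℓN A hA h3N) (27 : IsLocalRing.ResidueField A) 3 E
        (Set.range (y3Red N ℓ hℓN A hA D h3N)) := by
  have key : ∀ i : Fin D.r, CertFin (t3Red N ℓ hℓN A hA h3N) (27 : IsLocalRing.ResidueField A) 3 E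
        {y3Red N ℓ hℓN A hA D h3N i} ∧
      CertInf (t3Red N ℓ hℓN A hA h3N) (27 : IsLocalRing.ResidueField A) 3 E
        {y3Red N ℓ hℓN A hA D h3N i} := by
    intro i
    have h4 := cert3_red N ℓ hℓN A hA D h3N i E hE
    have h := certFin_certInf_of_four (modularFunctionFieldFullC (IsLocalRing.ResidueField A) N)
      (t3Red N ℓ hℓN A hA h3N) (y3Red N ℓ hℓN A hA D h3N i) 3 2 E 27 rfl
      (by rw [Nat.cast_ofNat]; exact h4)
    rw [Nat.cast_ofNat] at h
    exact h
  constructor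
  · rintro y ⟨i, rfl⟩
    exact (key i).1 _ rfl
  · rintro y ⟨i, rfl⟩
    exact (key i).2 _ rfl

end Levels

end Fermat.Agent.S18.helper705
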