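/-
S18 track C, consumer adapter for `helper2707.kl_residue` (helper705).

`kl_residue` asks for the cusp certificate `IsIntOver k t⁻¹ ((φ * t) ^ M * t)`, i.e. integrality
over `k[1/t]` on the WHOLE chart `1/t`.  For the intended `φ = f̄ / θ(t̄)` this fails at the
elliptic value `t = -c` (a finite point of that chart), where `φ * t` has poles.  The certificate
which is available there is `((φ t)^a (1 + c/t)^(a-1))^E * t` integral over `k[1/t]`.

* `kl_residue_twist` : the same conclusion from the certificate for `φ * t * g(1/t)`, for any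
  polynomial `g` with nonzero constant term (apply `kl_residue` to `y / g(1/t)`, `φ * g(1/t)`;
  `g(1/t)` is a unit power series, so `RegAway` is not affected).
* `kl_residue_of_cert` : the form fed by the four-certificate shape
  `((η ^ a) * (1 + c/t) ^ (a - 1)) ^ E * t`, `φ * t = ± η`.
* `kl_of_certificates` : TRACECRIT (`helper410.trace_mul_eq_aeval_of_chart`) composed with the
  above: from the two chart certificates of `η = (f / ε_r)‾` (shape of CERT-R / GAP2) and
  `y` integral over `k[t]` and `RegAway`, the constant term of `y · (η / t) · θ(t)` vanishes;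
  `coeff_zero_mul_of_certificates` is the same for a series `f̄` with `t f̄ = ± η θ(t)`.
-/
import Mathlib
import Fermat.Agent.S18.helper2707_Cofactor
import Fermat.Agent.S18.helper410_TraceCrit

set_option autoImplicit false

noncomputable section

namespace Fermat.Agent.S18.helper705

open Polynomial IntermediateField
open Fermat.Agent.S18.helper2707

variable {k : Type*} [Field k] {F : Type*} [Field F] [Algebra k F]

/-! ### `g(1/t)` is a unit power series under every conjugate embedding -/

section Twist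

variable {t : F} {ι : F →ₐ[k] LaurentSeries k}

theorem constantCoeff_eq_zero_of_order_one {u : PowerSeries k}
    (hu : algebraMap (PowerSeries k) (LaurentSeries k) u = (ι t)⁻¹)
    (ht : (ι t).order = -1) : PowerSeries.constantCoeff u = 0 := by
  have h1 : VB 1 (ι t)⁻¹ := vb_of_le_order (by rw [order_inv_of_order ht])
  have h2 := h1 0 (by norm_num)
  rw [← hu, LaurentSeries.coe_algebraMap] at h2
  have h3 := HahnSeries.ofPowerSeries_apply_coeff (Γ := ℤ) (R := k) u 0
  simp only [Nat.cast_zero] at h3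
  rw [h3] at h2
  simpa using h2

theorem isUnit_aeval_of_constantCoeff {u : PowerSeries k}
    (hu0 : PowerSeries.constantCoeff u = 0) {g : k[X]} (hg : g.coeff 0 ≠ 0) :
    IsUnit (aeval u g) := by
  rw [PowerSeries.isUnit_iff_constantCoeff]
  have h : PowerSeries.constantCoeff (aeval u g) = g.coeff 0 := by
    rw [Polynomial.aeval_def, Polynomial.hom_eval₂, hu0, Polynomial.eval₂_at_zero,
      Polynomial.coeff_zero_eq_eval_zero]
    simp
  rw [h]
  exact isUnit_iff_ne_zero.mpr hg

/-- A conjugate embedding sends `g(1/t)` to the image of the power series `g(u)`, `u = 1/t`. -/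
theorem isConj_map_aeval_inv {σ : F →+* Om k} (hσ : IsConj ι t σ) {u : PowerSeries k}
    (hu : algebraMap (PowerSeries k) (LaurentSeries k) u = (ι t)⁻¹) (g : k[X]) :
    σ (aeval t⁻¹ g) = algebraMap (PowerSeries k) (Om k) (aeval u g) := by
  have hcomp : σ.comp (algebraMap k F)
      = (algebraMap (PowerSeries k) (Om k)).comp (algebraMap k (PowerSeries k)) := by
    ext c
    simp only [RingHom.comp_apply]
    rw [hσ.map_algebraMap c, ← algebraMap_ps_ls_const c,
      ← IsScalarTower.algebraMap_apply (PowerSeries k) (LaurentSeries k) (Om k)]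
  rw [Polynomial.aeval_def, Polynomial.aeval_def, Polynomial.hom_eval₂, Polynomial.hom_eval₂,
    hσ.map_inv_gen hu, hcomp]

theorem inc_aeval_inv {u : PowerSeries k}
    (hu : algebraMap (PowerSeries k) (LaurentSeries k) u = (ι t)⁻¹) (g : k[X]) :
    ι (aeval t⁻¹ g) = algebraMap (PowerSeries k) (LaurentSeries k) (aeval u g) := by
  have hcomp : (algebraMap (PowerSeries k) (LaurentSeries k)).comp (algebraMap k (PowerSeries k))
      = algebraMap k (LaurentSeries k) := by
    ext c
    simp only [RingHom.comp_apply]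
    rw [algebraMap_ps_ls_const c]
  rw [← Polynomial.aeval_algHom_apply, map_inv₀, ← hu]
  rw [Polynomial.aeval_def, Polynomial.aeval_def, Polynomial.hom_eval₂, hcomp]

theorem aeval_inv_ne_zero (ht : (ι t).order = -1) {g : k[X]} (hg : g.coeff 0 ≠ 0) :
    aeval t⁻¹ g ≠ 0 := by
  obtain ⟨u, hu⟩ := exists_ps_inv ht
  have hunit := isUnit_aeval_of_constantCoeff (constantCoeff_eq_zero_of_order_one hu ht) hg
  intro h0
  have h1 := inc_aeval_inv hu g
  rw [h0, map_zero] at h1
  have h2 : aeval u g = 0 := by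
    have hinj : Function.Injective (algebraMap (PowerSeries k) (LaurentSeries k)) :=
      FaithfulSMul.algebraMap_injective _ _
    exact hinj (by rw [← h1, map_zero])
  rw [h2] at hunit
  exact not_isUnit_zero hunit

/-- `RegAway` is stable under division by `g(1/t)`, `g(0) ≠ 0`. -/
theorem regAway_div_aeval_inv (ht : (ι t).order = -1) {y : F} (hy : RegAway ι t y)
    {g : k[X]} (hg : g.coeff 0 ≠ 0) : RegAway ι t (y * (aeval t⁻¹ g)⁻¹) := by
  obtain ⟨u, hu⟩ := exists_ps_inv ht
  have hunit := isUnit_aeval_of_constantCoeff (constantCoeff_eq_zero_of_order_one hu ht) hg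
  obtain ⟨w, hw⟩ := hunit.exists_right_inv
  intro σ hσ hne
  have h1 : IsIntegral (PowerSeries k) (σ y) := hy σ hσ hne
  have h2 : σ (aeval t⁻¹ g)⁻¹ = algebraMap (PowerSeries k) (Om k) w := by
    rw [map_inv₀, isConj_map_aeval_inv hσ hu g]
    have h3 : algebraMap (PowerSeries k) (Om k) (aeval u g)
        * algebraMap (PowerSeries k) (Om k) w = 1 := by
      rw [← map_mul, hw, map_one]
    exact inv_eq_of_mul_eq_one_right h3
  rw [map_mul, h2]
  exact h1.mul isIntegral_algebraMap

/-- **Twisted form of the residue lemma (KLV).**  Same conclusion as `helper2707.kl_residue`,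
from the cusp certificate for `φ * t * g(1/t)` where `g` is any polynomial with `g(0) ≠ 0`
(e.g. `g = 1 + c X`, which removes the poles of `φ * t` over the elliptic value `t = -c`). -/
theorem kl_residue_twist [FiniteDimensional k⟮t⟯ F] [Algebra.IsSeparable k⟮t⟯ F]
    (ht : (ι t).order = -1) {y φ : F} (hy : RegAway ι t y) (P : k[X])
    (htr : ((Algebra.trace k⟮t⟯ F (y * φ) : k⟮t⟯) : F) = aeval t P)
    {g : k[X]} (hg : g.coeff 0 ≠ 0) {M : ℕ} (hM : M ≠ 0)
    (hcert : IsIntOver k t⁻¹ ((φ * t * aeval t⁻¹ g) ^ M * t)) :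
    (ι (y * φ) * Fermat.Agent.S18.helper4801.theta (ι t)).coeff 0 = 0 := by
  have hγ : aeval t⁻¹ g ≠ 0 := aeval_inv_ne_zero ht hg
  have hprod : y * (aeval t⁻¹ g)⁻¹ * (φ * aeval t⁻¹ g) = y * φ := by
    have h1 : y * (aeval t⁻¹ g)⁻¹ * (φ * aeval t⁻¹ g)
        = y * φ * ((aeval t⁻¹ g)⁻¹ * aeval t⁻¹ g) := by ring
    rw [h1, inv_mul_cancel₀ hγ, mul_one]
  have hcert' : IsIntOver k t⁻¹ ((φ * aeval t⁻¹ g * t) ^ M * t) := by
    have : φ * aeval t⁻¹ g * t = φ * t * aeval t⁻¹ g := by ring
    rw [this]
    exact hcert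
  have h := kl_residue (ι := ι) (t := t) ht (regAway_div_aeval_inv ht hy hg) P
    (by rw [hprod]; exact htr) hM hcert'
  rw [hprod] at h
  exact h

/-- **Residue lemma from the four-certificate shape.**  `η = ± φ t` (in the application
`η = (f / ε_r)‾`), and the certificate on the chart `1/t` is
`(η ^ a * (1 + c / t) ^ (a - 1)) ^ E * t` integral over `k[1/t]`. -/
theorem kl_residue_of_cert [FiniteDimensional k⟮t⟯ F] [Algebra.IsSeparable k⟮t⟯ F]
    (ht : (ι t).order = -1) {y φ η : F} (hy : RegAway ι t y) (P : k[X])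
    (htr : ((Algebra.trace k⟮t⟯ F (y * φ) : k⟮t⟯) : F) = aeval t P)
    (hη : φ * t = η ∨ φ * t = -η) (c : k) {a E : ℕ} (ha : 0 < a) (hE : 0 < E)
    (hcert : IsIntOver k t⁻¹
      ((η ^ a * (1 + algebraMap k F c * t⁻¹) ^ (a - 1)) ^ E * t)) :
    (ι (y * φ) * Fermat.Agent.S18.helper4801.theta (ι t)).coeff 0 = 0 := by
  set g : k[X] := 1 + C c * X with hgdef
  have hg : g.coeff 0 ≠ 0 := by
    rw [hgdef]
    simp
  have hγ : aeval t⁻¹ g = 1 + algebraMap k F c * t⁻¹ := by
    rw [hgdef]
    simp
  have hM : a * E ≠ 0 := Nat.mul_ne_zero ha.ne' hE.ne'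
  refine kl_residue_twist ht hy P htr hg hM ?_
  rw [hγ]
  set γ : F := 1 + algebraMap k F c * t⁻¹ with hγdef
  have hγE : IsIntOver k t⁻¹ (γ ^ E) := by
    have : γ ^ E = aeval t⁻¹ (g ^ E) := by rw [map_pow, hγ]
    rw [this]
    exact isIntOver_aeval _ _
  have hkey : ∀ w : F, (w * γ) ^ (a * E) * t = (w ^ a * γ ^ (a - 1)) ^ E * t * γ ^ E := by
    intro w
    have ha' : a = (a - 1) + 1 := by omega
    have h1 : (w * γ) ^ (a * E) = ((w * γ) ^ a) ^ E := pow_mul _ _ _
    have h2 : (w * γ) ^ a = w ^ a * γ ^ (a - 1) * γ := by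
      rw [mul_pow]
      conv_lhs => rw [ha', pow_succ γ]
      rw [← ha']
      ring
    rw [h1, h2, mul_pow]
    ring
  rcases hη with h | h
  · rw [h, hkey η]
    exact hcert.mul hγE
  · rw [h]
    have hneg : (-η * γ) ^ (a * E) * t = (-1) ^ (a * E) * ((η * γ) ^ (a * E) * t) := by
      rw [neg_mul, neg_pow]
      ring
    rw [hneg, hkey η]
    rcases Nat.even_or_odd (a * E) with he | ho
    · rw [he.neg_one_pow, one_mul]
      exact hcert.mul hγE
    · rw [ho.neg_one_pow, neg_one_mul]
      exact (hcert.mul hγE).neg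

/-! ### The residue lemma from the two chart certificates (TRACECRIT + KLV) -/

open scoped IntermediateField.algebraAdjoinAdjoin in
/-- **(KL) from the chart certificates.**  `t` a Hauptmodul (`ι t` has a simple pole), `c ≠ 0`
(the elliptic value is `t = -c`), `η ∈ F` with the finite-chart certificate
`(η ^ a (t + c) ^ (a - 1)) ^ E = t * w`, `w` integral over `k[t]`, and the certificate at infinity
`(η ^ a (c / t + 1) ^ (a - 1)) ^ E = (1/t) * w'`, `w'` integral over `k[1/t]`.  Then for every
`y` integral over `k[t]` and regular away from the given embedding, the constant term of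
`y · (η / t) · θ(t)` vanishes. -/
theorem kl_of_certificates [FiniteDimensional k⟮t⟯ F] [Algebra.IsSeparable k⟮t⟯ F]
    (ht : (ι t).order = -1) (htr : Transcendental k t)
    {c : k} (hc : c ≠ 0) {a E : ℕ} (ha : 0 < a) (hE : 0 < E) {η : F}
    (w : F) (hw : IsIntegral (Algebra.adjoin k {t}) w)
    (hcert : (η ^ a * (t + algebraMap k F c) ^ (a - 1)) ^ E = t * w)
    (w' : F) (hw' : IsIntegral (Algebra.adjoin k {t⁻¹}) w')
    (hcert' : (η ^ a * (algebraMap k F c * t⁻¹ + 1) ^ (a - 1)) ^ E = t⁻¹ * w')
    {y : F} (hy : RegAway ι t y) (hyint : IsIntegral (Algebra.adjoin k {t}) y) :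
    (ι (y * (η / t)) * Fermat.Agent.S18.helper4801.theta (ι t)).coeff 0 = 0 := by
  have ht0 : t ≠ 0 := by
    rintro rfl
    rw [map_zero, HahnSeries.order_zero] at ht
    omega
  -- TRACECRIT on the finite chart, with `P = X + c`, `T = X`
  set γ : F := t + algebraMap k F c with hγdef
  have hP : aeval t (X + C c : k[X]) = γ := by simp [hγdef]
  have hsq : Squarefree ((X + C c : k[X]) * X) := by
    have h1 : ((X + C c : k[X]) * X) = (X - C (-c)) * (X - C 0) := by simp
    have hsep : ((X - C (-c)) * (X - C 0) : k[X]).Separable :=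
      (separable_X_sub_C).mul (separable_X_sub_C)
        (isCoprime_X_sub_C_of_isUnit_sub (by simpa using hc))
    rw [h1]
    exact hsep.squarefree
  have hcint : IsIntegral (Algebra.adjoin k {t}) (γ ^ (E - 1) * w) := by
    have hγint : IsIntegral (Algebra.adjoin k {t}) γ := by
      have : γ = algebraMap (Algebra.adjoin k {t}) F
          ⟨aeval t (X + C c : k[X]), Polynomial.aeval_mem_adjoin_singleton k t⟩ := by
        rw [← hP]; rfl
      rw [this]
      exact isIntegral_algebraMap
    exact (hγint.pow _).mul hw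
  have hkey : (aeval t (X + C c : k[X]) * η) ^ (a * E)
      = aeval t ((X + C c : k[X]) * X) * (γ ^ (E - 1) * w) := by
    rw [map_mul, hP, Polynomial.aeval_X]
    have ha' : a = (a - 1) + 1 := by omega
    have hE' : E = (E - 1) + 1 := by omega
    have h0 : (γ * η) ^ a = γ * (η ^ a * γ ^ (a - 1)) := by
      have : γ ^ a = γ ^ (a - 1) * γ := by
        conv_lhs => rw [ha']
        exact pow_succ γ (a - 1)
      rw [mul_pow, this]
      ring
    have h1 : (γ * η) ^ (a * E) = γ ^ E * (η ^ a * γ ^ (a - 1)) ^ E := by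
      rw [pow_mul, h0, mul_pow]
    have h2 : γ ^ E = γ ^ (E - 1) * γ := by
      conv_lhs => rw [hE']
      exact pow_succ γ (E - 1)
    rw [h1, hcert, h2]
    ring
  obtain ⟨u, hu⟩ := Fermat.Agent.S18.helper410.trace_mul_eq_aeval_of_chart t htr
    (X + C c) X hsq η (a * E) (Nat.mul_pos ha hE) (γ ^ (E - 1) * w) hcint hkey y hyint
  -- the trace of `y * (η / t)`
  have htrace : ((Algebra.trace k⟮t⟯ F (y * (η / t)) : k⟮t⟯) : F) = aeval t u := by
    have h1 : y * η = (AdjoinSimple.gen k t) • (y * (η / t)) := by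
      rw [Algebra.smul_def, AdjoinSimple.algebraMap_gen]
      field_simp
    have h2 := hu
    rw [h1, map_smul, smul_eq_mul, IntermediateField.coe_mul, AdjoinSimple.coe_gen] at h2
    rw [show aeval t (X * u) = t * aeval t u by simp] at h2
    exact mul_left_cancel₀ ht0 h2
  -- the certificate at infinity
  have hcert2 : IsIntOver k t⁻¹
      ((η ^ a * (1 + algebraMap k F c * t⁻¹) ^ (a - 1)) ^ E * t) := by
    have h1 : (η ^ a * (1 + algebraMap k F c * t⁻¹) ^ (a - 1)) ^ E * t = w' := by
      rw [add_comm, hcert', mul_comm t⁻¹ w', mul_assoc, inv_mul_cancel₀ ht0, mul_one]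
    rw [h1]
    exact isIntOver_iff_isIntegral_adjoin.mpr hw'
  exact kl_residue_of_cert ht hy u htrace (Or.inl (by field_simp)) c ha hE hcert2

/-- **(KL), series form.**  If the series `f̄` satisfies `t f̄ = ± η θ(t)` (theta relation:
`f̄ = ∓ (f / ε_r)‾ θ(t̄) / t̄`), then under the hypotheses of `kl_of_certificates` the constant
term of `y f̄` vanishes. -/
theorem coeff_zero_mul_of_certificates [FiniteDimensional k⟮t⟯ F] [Algebra.IsSeparable k⟮t⟯ F]
    (ht : (ι t).order = -1) (htr : Transcendental k t)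
    {c : k} (hc : c ≠ 0) {a E : ℕ} (ha : 0 < a) (hE : 0 < E) {η : F}
    (w : F) (hw : IsIntegral (Algebra.adjoin k {t}) w)
    (hcert : (η ^ a * (t + algebraMap k F c) ^ (a - 1)) ^ E = t * w)
    (w' : F) (hw' : IsIntegral (Algebra.adjoin k {t⁻¹}) w')
    (hcert' : (η ^ a * (algebraMap k F c * t⁻¹ + 1) ^ (a - 1)) ^ E = t⁻¹ * w')
    {y : F} (hy : RegAway ι t y) (hyint : IsIntegral (Algebra.adjoin k {t}) y)
    (fbar : LaurentSeries k)
    (hf : ι t * fbar = ι η * Fermat.Agent.S18.helper4801.theta (ι t) ∨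
      ι t * fbar = -(ι η * Fermat.Agent.S18.helper4801.theta (ι t))) :
    (ι y * fbar).coeff 0 = 0 := by
  have hτ0 : ι t ≠ 0 := by
    intro h
    rw [h, HahnSeries.order_zero] at ht
    omega
  have h0 := kl_of_certificates ht htr hc ha hE w hw hcert w' hw' hcert' hy hyint
  have h1 : ι (y * (η / t)) * Fermat.Agent.S18.helper4801.theta (ι t)
      = ι y * ((ι t)⁻¹ * (ι η * Fermat.Agent.S18.helper4801.theta (ι t))) := by
    rw [map_mul, map_div₀]
    field_simp
  rw [h1] at h0
  rcases hf with h | h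
  · have h2 : fbar = (ι t)⁻¹ * (ι η * Fermat.Agent.S18.helper4801.theta (ι t)) := by
      rw [← h, ← mul_assoc, inv_mul_cancel₀ hτ0, one_mul]
    rw [h2]
    exact h0
  · have h2 : fbar = -((ι t)⁻¹ * (ι η * Fermat.Agent.S18.helper4801.theta (ι t))) := by
      have : (ι t)⁻¹ * (ι t * fbar) = (ι t)⁻¹ * -(ι η * Fermat.Agent.S18.helper4801.theta (ι t)) := by
        rw [h]
      rw [← mul_assoc, inv_mul_cancel₀ hτ0, one_mul] at this
      rw [this, mul_neg]
    rw [h2, mul_neg, HahnSeries.coeff_neg, h0, neg_zero]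

end Twist

end Fermat.Agent.S18.helper705
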