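/-
S18 — Kummer core, LATTICE ENGINE (board #767, helper7122).

Pure linear algebra over a valuation ring `A` (any rank, not necessarily noetherian).
`P1 n, P2 n ≤ Q n` are increasing chains of `A`-submodules of a torsion-free `A`-module `E`
(in the application: the unit balls of the Riemann–Roch spaces `L(D₀ + n X∞)`,
`L(D₀ + n X₀)`, `L(D₀ + n (X∞ + X₀))` for the Gauss valuation).

Main results:
* `exists_uniform_bound` : the torsion of the integral Čech cokernels
  `Q n / (P1 n + P2 n)` is killed by ONE nonzero `κ`, uniformly in `n`.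
* `not_approx` : consequently there are no arbitrarily good approximate solutions
  `a - b ∈ ε • Q n`, `a ∈ P1 n`, `b ∈ P2 n` with `a` "of norm one".
-/
import Mathlib

set_option autoImplicit false

namespace Fermat.Agent.S18.helper7122

open Submodule

section Engine

variable {A E : Type*} [CommRing A] [IsDomain A] [AddCommGroup E] [Module A E]

/-- Saturation of `P` inside `Q`: elements of `Q` a nonzero multiple of which lies in `P`. -/
def satIn (P Q : Submodule A E) : Submodule A E where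
  carrier := {y | y ∈ Q ∧ ∃ ε : A, ε ≠ 0 ∧ ε • y ∈ P}
  zero_mem' := ⟨Q.zero_mem, 1, one_ne_zero, by simp⟩
  add_mem' := by
    rintro x y ⟨hx, ε, hε, hεx⟩ ⟨hy, δ, hδ, hδy⟩
    refine ⟨Q.add_mem hx hy, ε * δ, mul_ne_zero hε hδ, ?_⟩
    rw [smul_add]
    refine P.add_mem ?_ ?_
    · rw [mul_comm, mul_smul]; exact P.smul_mem _ hεx
    · rw [mul_smul]; exact P.smul_mem _ hδy
  smul_mem' := by
    rintro c x ⟨hx, ε, hε, hεx⟩
    refine ⟨Q.smul_mem _ hx, ε, hε, ?_⟩
    rw [smul_comm]; exact P.smul_mem _ hεx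

theorem mem_satIn {P Q : Submodule A E} {y : E} :
    y ∈ satIn P Q ↔ y ∈ Q ∧ ∃ ε : A, ε ≠ 0 ∧ ε • y ∈ P := Iff.rfl

theorem satIn_le (P Q : Submodule A E) : satIn P Q ≤ Q := fun _ h => h.1

variable [ValuationRing A]

/-- In a finitely generated submodule `Q` of a torsion-free module over a valuation ring,
the saturation of any submodule `P` is finitely generated. -/
theorem satIn_fg (P Q : Submodule A E) (hQ : Q.FG) : (satIn P Q).FG := by
  have : Module.Finite A Q := Module.Finite.iff_fg.mpr hQ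
  set T' : Submodule A Q := (satIn P Q).comap Q.subtype with hT'
  have htors : Submodule.torsion A (Q ⧸ T') = ⊥ := by
    rw [eq_bot_iff]
    rintro x ⟨⟨r, hr⟩, hrx⟩
    obtain ⟨q, rfl⟩ := T'.mkQ_surjective x
    have hr0 : r ≠ 0 := nonZeroDivisors.ne_zero hr
    have hmem : r • q ∈ T' := by
      rw [← Submodule.Quotient.mk_eq_zero]
      simpa using hrx
    obtain ⟨-, ε, hε, hεP⟩ := hmem
    rw [Submodule.mem_bot, Submodule.mkQ_apply, Submodule.Quotient.mk_eq_zero]
    refine ⟨q.2, ε * r, mul_ne_zero hε hr0, ?_⟩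
    rw [mul_smul]
    simpa using hεP
  have : Module.Flat A (Q ⧸ T') := Module.Flat.flat_iff_torsion_eq_bot_of_isBezout.mpr htors
  have : Module.Free A (Q ⧸ T') := Module.free_of_flat_of_isLocalRing
  have : Module.FinitePresentation A (Q ⧸ T') := Module.finitePresentation_of_projective _ _
  have hker : (LinearMap.ker T'.mkQ).FG :=
    Module.FinitePresentation.fg_ker T'.mkQ T'.mkQ_surjective
  rw [Submodule.ker_mkQ] at hker
  have hmap : satIn P Q = T'.map Q.subtype := by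
    rw [hT', Submodule.map_comap_eq, Submodule.range_subtype, inf_eq_right.mpr (satIn_le P Q)]
  rw [hmap]
  exact hker.map _

/-- The saturation of `P` in a finitely generated `Q` is killed into `P` by one nonzero scalar. -/
theorem exists_smul_satIn_le (P Q : Submodule A E) (hQ : Q.FG) :
    ∃ κ : A, κ ≠ 0 ∧ ∀ y ∈ satIn P Q, κ • y ∈ P := by
  classical
  obtain ⟨S, hS⟩ := satIn_fg P Q hQ
  have hch : ∀ s : E, ∃ ε : A, ε ≠ 0 ∧ (s ∈ satIn P Q → ε • s ∈ P) := by
    intro s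
    by_cases hs : s ∈ satIn P Q
    · obtain ⟨ε, hε, h⟩ := hs.2
      exact ⟨ε, hε, fun _ => h⟩
    · exact ⟨1, one_ne_zero, fun h => absurd h hs⟩
  choose ε hε hεP using hch
  refine ⟨∏ s ∈ S, ε s, Finset.prod_ne_zero_iff.mpr (fun s _ => hε s), ?_⟩
  intro y hy
  rw [← hS] at hy
  induction hy using Submodule.span_induction with
  | mem s hs =>
    have hsT : s ∈ satIn P Q := hS ▸ Submodule.subset_span hs
    rw [← Finset.mul_prod_erase S ε hs, mul_comm, mul_smul]
    exact P.smul_mem _ (hεP s hsT)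
  | zero => simp
  | add x y _ _ hx hy => rw [smul_add]; exact P.add_mem hx hy
  | smul c x _ hx => rw [smul_comm]; exact P.smul_mem _ hx

variable (P1 P2 Q : ℕ → Submodule A E)

/-- **Uniform torsion bound for the integral two-chart Čech cokernels.**
`P1 n, P2 n ≤ Q n` increasing chains of submodules of `E` (torsion-free: hypothesis `htf`),
`Q n` finitely generated, `P1 n ∩ P2 n = 0`, the separation property `hsep`, and `H¹`-vanishing
modulo the maximal ideal for `n ≥ n0` (`hH1`).  Then one nonzero `κ` works for all levels: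
if `a - b = (ε κ) • y` with `a ∈ P1 n`, `b ∈ P2 n`, `y ∈ Q n`, then `a` and `b` are divisible
by `ε` inside `P1`, `P2` (at level `max n n0`). -/
theorem exists_uniform_bound
    (hP1 : Monotone P1) (hP2 : Monotone P2) (hQ : Monotone Q)
    (hfg : ∀ n, (Q n).FG)
    (hdisj : ∀ n, P1 n ⊓ P2 n = ⊥)
    (hsep : ∀ n a b, a ∈ P1 (n + 1) → b ∈ P2 (n + 1) → a - b ∈ Q n → a ∈ P1 n ∧ b ∈ P2 n)
    (n0 : ℕ)
    (hH1 : ∀ n, n0 ≤ n →
      Q (n + 1) ≤ Q n ⊔ P1 (n + 1) ⊔ P2 (n + 1) ⊔ IsLocalRing.maximalIdeal A • Q (n + 1)) :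
    ∃ κ : A, κ ≠ 0 ∧ ∀ (n : ℕ) (a b y : E) (ε : A), a ∈ P1 n → b ∈ P2 n → y ∈ Q n →
      a - b = (ε * κ) • y →
      ∃ a' ∈ P1 (max n n0), ∃ b' ∈ P2 (max n n0), a = ε • a' ∧ b = ε • b' := by
  obtain ⟨κ, hκ0, hκ⟩ := exists_smul_satIn_le (P1 n0 ⊔ P2 n0) (Q n0) (hfg n0)
  -- the same `κ` works at all levels `n ≥ n0`
  have key : ∀ n, n0 ≤ n → ∀ y ∈ satIn (P1 n ⊔ P2 n) (Q n), κ • y ∈ P1 n ⊔ P2 n := by
    intro n hn
    induction n, hn using Nat.le_induction with
    | base => exact hκ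
    | succ n hn ih =>
      intro y hy
      obtain ⟨hyQ, ε, hε, hεy⟩ := hy
      -- Nakayama
      have hNak : Q (n + 1) ≤ Q n ⊔ P1 (n + 1) ⊔ P2 (n + 1) :=
        Submodule.le_of_le_smul_of_le_jacobson_bot (hfg (n + 1))
          (IsLocalRing.jacobson_eq_maximalIdeal _ bot_ne_top).ge (hH1 n hn)
      obtain ⟨t, ht, b'', hb'', rfl⟩ := Submodule.mem_sup.mp (hNak hyQ)
      obtain ⟨y', hy', a'', ha'', rfl⟩ := Submodule.mem_sup.mp ht
      obtain ⟨a, ha, b, hb, hab⟩ := Submodule.mem_sup.mp hεy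
      have h1 : a - ε • a'' ∈ P1 (n + 1) := (P1 _).sub_mem ha ((P1 _).smul_mem _ ha'')
      have h2 : -(b - ε • b'') ∈ P2 (n + 1) :=
        (P2 _).neg_mem ((P2 _).sub_mem hb ((P2 _).smul_mem _ hb''))
      have h3 : (a - ε • a'') - -(b - ε • b'') = ε • y' := by
        have : ε • (y' + a'' + b'') = ε • y' + ε • a'' + ε • b'' := by
          rw [smul_add, smul_add]
        rw [this] at hab
        rw [sub_neg_eq_add]
        calc a - ε • a'' + (b - ε • b'') = (a + b) - ε • a'' - ε • b'' := by abel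
          _ = ε • y' := by rw [hab]; abel
      obtain ⟨h1', h2'⟩ := hsep n _ _ h1 h2 (h3 ▸ (Q n).smul_mem _ hy')
      have hy'sat : y' ∈ satIn (P1 n ⊔ P2 n) (Q n) := by
        refine ⟨hy', ε, hε, ?_⟩
        rw [← h3]
        exact Submodule.sub_mem _ (Submodule.mem_sup_left h1') (Submodule.mem_sup_right h2')
      have hle : P1 n ⊔ P2 n ≤ P1 (n + 1) ⊔ P2 (n + 1) :=
        sup_le_sup (hP1 (Nat.le_succ n)) (hP2 (Nat.le_succ n))
      rw [smul_add, smul_add]
      refine Submodule.add_mem _ (Submodule.add_mem _ (hle (ih y' hy'sat)) ?_) ?_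
      · exact Submodule.mem_sup_left ((P1 _).smul_mem _ ha'')
      · exact Submodule.mem_sup_right ((P2 _).smul_mem _ hb'')
  refine ⟨κ, hκ0, ?_⟩
  intro n a b y ε ha hb hy hab
  set m := max n n0 with hm
  have ha' : a ∈ P1 m := hP1 (le_max_left n n0) ha
  have hb' : b ∈ P2 m := hP2 (le_max_left n n0) hb
  have hy' : y ∈ Q m := hQ (le_max_left n n0) hy
  have hbot : ∀ z, z ∈ P1 m → z ∈ P2 m → z = 0 := by
    intro z h1 h2
    have : z ∈ P1 m ⊓ P2 m := ⟨h1, h2⟩
    rw [hdisj m] at this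
    simpa using this
  by_cases hε : ε = 0
  · subst hε
    rw [zero_mul, zero_smul, sub_eq_zero] at hab
    subst hab
    have ha0 : a = 0 := hbot a ha' hb'
    exact ⟨0, (P1 m).zero_mem, 0, (P2 m).zero_mem, by simp [ha0], by simp [ha0]⟩
  · have hysat : y ∈ satIn (P1 m ⊔ P2 m) (Q m) := by
      refine ⟨hy', ε * κ, mul_ne_zero hε hκ0, ?_⟩
      rw [← hab]
      exact Submodule.sub_mem _ (Submodule.mem_sup_left ha') (Submodule.mem_sup_right hb')
    obtain ⟨a₁, ha₁, c, hc, hac⟩ := Submodule.mem_sup.mp (key m (le_max_right n n0) y hysat)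
    have hz : a - ε • a₁ = b - ε • (-c) := by
      have : a - b = ε • a₁ + ε • c := by
        rw [hab, mul_smul, ← hac, smul_add]
      rw [smul_neg, sub_neg_eq_add]
      have h2 : a = b + (ε • a₁ + ε • c) := by rw [← this]; abel
      rw [h2]; abel
    have hz0 : a - ε • a₁ = 0 :=
      hbot _ ((P1 m).sub_mem ha' ((P1 m).smul_mem _ ha₁))
        (hz ▸ (P2 m).sub_mem hb' ((P2 m).smul_mem _ ((P2 m).neg_mem hc)))
    refine ⟨a₁, ha₁, -c, (P2 m).neg_mem hc, sub_eq_zero.mp hz0, ?_⟩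
    rw [hz0] at hz
    exact (sub_eq_zero.mp hz.symm)

/-- **No arbitrarily good approximate solutions.**  Under the hypotheses of
`exists_uniform_bound`, fix a nonzero `μ` (in the application: a nonzero element of the maximal
ideal).  Then it is impossible to find, for every `ε ≠ 0`, elements `a ∈ P1 n`, `b ∈ P2 n`
with `a - b ∈ ε • Q n` and `a` not divisible by `μ` in any `P1 k`. -/
theorem not_approx
    (hP1 : Monotone P1) (hP2 : Monotone P2) (hQ : Monotone Q)
    (hfg : ∀ n, (Q n).FG)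
    (hdisj : ∀ n, P1 n ⊓ P2 n = ⊥)
    (hsep : ∀ n a b, a ∈ P1 (n + 1) → b ∈ P2 (n + 1) → a - b ∈ Q n → a ∈ P1 n ∧ b ∈ P2 n)
    (n0 : ℕ)
    (hH1 : ∀ n, n0 ≤ n →
      Q (n + 1) ≤ Q n ⊔ P1 (n + 1) ⊔ P2 (n + 1) ⊔ IsLocalRing.maximalIdeal A • Q (n + 1))
    (μ : A)
    (happ : ∀ ε : A, ε ≠ 0 → ∃ (n : ℕ) (a b y : E), a ∈ P1 n ∧ b ∈ P2 n ∧ y ∈ Q n ∧
      a - b = ε • y ∧ ∀ k, ∀ a' ∈ P1 k, a ≠ μ • a') :
    μ = 0 := by
  by_contra hμ
  obtain ⟨κ, hκ0, hκ⟩ := exists_uniform_bound P1 P2 Q hP1 hP2 hQ hfg hdisj hsep n0 hH1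
  obtain ⟨n, a, b, y, ha, hb, hy, hab, hbig⟩ := happ (μ * κ) (mul_ne_zero hμ hκ0)
  obtain ⟨a', ha', -, -, haa', -⟩ := hκ n a b y μ ha hb hy hab
  exact hbig _ a' ha' haa'

end Engine

end Fermat.Agent.S18.helper7122
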