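import Mathlib

/-!
# S18 Kummer core, part A: twisted two-chart Riemann–Roch spaces (pure algebra)

For fields `K ⊆ E`, `x u : E` and `m > 0` we define the `K`-subspace

  `MM K x u m hm n₁ n₂ = {f : E | f^m * u * x^(m*n₂)` is integral over `K[x]` and
                                 `f^m * u * x⁻¹^(m*n₁)` is integral over `K[x⁻¹]}`.

If `E` is a function field, `x` is not constant, and `div u = m • D₀`, this is the Riemann–Roch
space `L(D₀ + n₁ X_∞ + n₂ X_0)` (`X_∞`, `X_0` the pole and zero divisors of `x`); for `m = 1`,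
`u = 1` it is `L(n₁ X_∞ + n₂ X_0)`.  No places or divisors are used.
-/

set_option autoImplicit false

namespace Fermat.Agent.S18.helper7178

section Alg

variable {K E : Type*} [Field K] [Field E] [Algebra K E]

theorem isIntegral_of_mem_adjoin {x z : E} (h : z ∈ Algebra.adjoin K {x}) :
    IsIntegral (Algebra.adjoin K {x}) z :=
  isIntegral_algebraMap (x := (⟨z, h⟩ : Algebra.adjoin K {x}))

theorem isIntegral_self_adjoin (x : E) : IsIntegral (Algebra.adjoin K {x}) x :=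
  isIntegral_of_mem_adjoin (Algebra.self_mem_adjoin_singleton K x)

theorem isIntegral_algebraMap_adjoin (x : E) (c : K) :
    IsIntegral (Algebra.adjoin K {x}) (algebraMap K E c) :=
  isIntegral_of_mem_adjoin (Subalgebra.algebraMap_mem _ c)

/-- If `f^m c` and `g^m c` are integral over `B`, so is `(f+g)^m c` (extract an `m`-th root of
`c` in an algebraic closure). -/
theorem isIntegral_add_pow_mul {B : Subalgebra K E} {m : ℕ} (hm : 0 < m) {c f g : E}
    (hf : IsIntegral B (f ^ m * c)) (hg : IsIntegral B (g ^ m * c)) :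
    IsIntegral B ((f + g) ^ m * c) := by
  obtain ⟨t, ht⟩ := IsAlgClosed.exists_pow_nat_eq (algebraMap E (AlgebraicClosure E) c) hm
  have hinj : Function.Injective (algebraMap E (AlgebraicClosure E)) :=
    (algebraMap E (AlgebraicClosure E)).injective
  have hf' : IsIntegral B (algebraMap E (AlgebraicClosure E) f * t) := by
    apply IsIntegral.of_pow hm
    rw [mul_pow, ht, ← map_pow, ← map_mul]
    exact (isIntegral_algebraMap_iff hinj).mpr hf
  have hg' : IsIntegral B (algebraMap E (AlgebraicClosure E) g * t) := by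
    apply IsIntegral.of_pow hm
    rw [mul_pow, ht, ← map_pow, ← map_mul]
    exact (isIntegral_algebraMap_iff hinj).mpr hg
  have h := (hf'.add hg').pow m
  rw [← add_mul, mul_pow, ht, ← map_add, ← map_pow, ← map_mul] at h
  exact (isIntegral_algebraMap_iff hinj).mp h

/-- The twisted two-chart Riemann–Roch space. -/
def MM (K : Type*) {E : Type*} [Field K] [Field E] [Algebra K E]
    (x u : E) (m : ℕ) (hm : 0 < m) (n₁ n₂ : ℕ) : Submodule K E where
  carrier := {f | IsIntegral (Algebra.adjoin K {x}) (f ^ m * (u * x ^ (m * n₂))) ∧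
    IsIntegral (Algebra.adjoin K {x⁻¹}) (f ^ m * (u * x⁻¹ ^ (m * n₁)))}
  add_mem' := fun hf hg =>
    ⟨isIntegral_add_pow_mul hm hf.1 hg.1, isIntegral_add_pow_mul hm hf.2 hg.2⟩
  zero_mem' := by
    refine ⟨?_, ?_⟩ <;> simp [zero_pow hm.ne', isIntegral_zero]
  smul_mem' := by
    rintro c f ⟨h1, h2⟩
    refine ⟨?_, ?_⟩
    · have : (c • f) ^ m * (u * x ^ (m * 0 + m * n₂)) =
          (algebraMap K E c) ^ m * (f ^ m * (u * x ^ (m * n₂))) := by
        rw [Algebra.smul_def]; ring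
      simp only [Nat.mul_zero, Nat.zero_add] at this
      rw [this]
      exact ((isIntegral_algebraMap_adjoin x c).pow m).mul h1
    · have : (c • f) ^ m * (u * x⁻¹ ^ (m * 0 + m * n₁)) =
          (algebraMap K E c) ^ m * (f ^ m * (u * x⁻¹ ^ (m * n₁))) := by
        rw [Algebra.smul_def]; ring
      simp only [Nat.mul_zero, Nat.zero_add] at this
      rw [this]
      exact ((isIntegral_algebraMap_adjoin x⁻¹ c).pow m).mul h2

variable {x u : E} {m : ℕ} {hm : 0 < m}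

theorem mem_MM {n₁ n₂ : ℕ} {f : E} :
    f ∈ MM K x u m hm n₁ n₂ ↔
      IsIntegral (Algebra.adjoin K {x}) (f ^ m * (u * x ^ (m * n₂))) ∧
      IsIntegral (Algebra.adjoin K {x⁻¹}) (f ^ m * (u * x⁻¹ ^ (m * n₁))) := Iff.rfl

theorem MM_mono {n₁ n₂ n₁' n₂' : ℕ} (h1 : n₁ ≤ n₁') (h2 : n₂ ≤ n₂') :
    MM K x u m hm n₁ n₂ ≤ MM K x u m hm n₁' n₂' := by
  rintro f ⟨hf1, hf2⟩
  obtain ⟨k1, rfl⟩ := Nat.exists_eq_add_of_le h1
  obtain ⟨k2, rfl⟩ := Nat.exists_eq_add_of_le h2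
  refine ⟨?_, ?_⟩
  · have : f ^ m * (u * x ^ (m * (n₂ + k2))) = f ^ m * (u * x ^ (m * n₂)) * x ^ (m * k2) := by
      rw [Nat.mul_add, pow_add]; ring
    rw [this]
    exact hf1.mul ((isIntegral_self_adjoin x).pow _)
  · have : f ^ m * (u * x⁻¹ ^ (m * (n₁ + k1))) =
        f ^ m * (u * x⁻¹ ^ (m * n₁)) * x⁻¹ ^ (m * k1) := by
      rw [Nat.mul_add, pow_add]; ring
    rw [this]
    exact hf2.mul ((isIntegral_self_adjoin x⁻¹).pow _)

/-- `L(n₁ X_∞ + n₂ X_0) = x^(-n₂) L((n₁+n₂) X_∞)`. -/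
theorem mem_MM_shift (hx : x ≠ 0) {n₁ n₂ : ℕ} {f : E} :
    f ∈ MM K x u m hm n₁ n₂ ↔ f * x ^ n₂ ∈ MM K x u m hm (n₁ + n₂) 0 := by
  have e1 : (f * x ^ n₂) ^ m * (u * x ^ (m * 0)) = f ^ m * (u * x ^ (m * n₂)) := by
    rw [Nat.mul_zero, pow_zero, mul_one, mul_pow, ← pow_mul, Nat.mul_comm n₂ m]; ring
  have e2 : (f * x ^ n₂) ^ m * (u * x⁻¹ ^ (m * (n₁ + n₂))) = f ^ m * (u * x⁻¹ ^ (m * n₁)) := by
    have hxx : x ^ (m * n₂) * x⁻¹ ^ (m * n₂) = 1 := by
      rw [← mul_pow, mul_inv_cancel₀ hx, one_pow]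
    rw [Nat.mul_add, pow_add, mul_pow, ← pow_mul, Nat.mul_comm n₂ m]
    calc f ^ m * x ^ (m * n₂) * (u * (x⁻¹ ^ (m * n₁) * x⁻¹ ^ (m * n₂)))
        = f ^ m * (u * x⁻¹ ^ (m * n₁)) * (x ^ (m * n₂) * x⁻¹ ^ (m * n₂)) := by ring
      _ = f ^ m * (u * x⁻¹ ^ (m * n₁)) := by rw [hxx, mul_one]
  rw [mem_MM, mem_MM, e1, e2]

theorem MM_inf_le {N N' : ℕ} :
    MM K x u m hm N 0 ⊓ MM K x u m hm 0 N' ≤ MM K x u m hm 0 0 := by
  rintro f ⟨⟨h1, -⟩, ⟨-, h2⟩⟩
  exact ⟨h1, h2⟩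

/-- Pole argument: if `a ∈ L(D₀ + N X_∞)`, `b ∈ L(D₀ + N X_0)` and `a - b` has poles of order
at most `n` along `X_∞ + X_0`, then so do `a` and `b`. -/
theorem MM_pole {N n : ℕ} {a b : E} (ha : a ∈ MM K x u m hm N 0) (hb : b ∈ MM K x u m hm 0 N)
    (hab : a - b ∈ MM K x u m hm n n) :
    a ∈ MM K x u m hm n 0 ∧ b ∈ MM K x u m hm 0 n := by
  have hba : b - a ∈ MM K x u m hm n n := by
    have := (MM K x u m hm n n).neg_mem hab
    rwa [neg_sub] at this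
  refine ⟨⟨ha.1, ?_⟩, ⟨?_, hb.2⟩⟩
  · have h1 : IsIntegral (Algebra.adjoin K {x⁻¹}) (b ^ m * (u * x⁻¹ ^ (m * n))) := by
      have : b ^ m * (u * x⁻¹ ^ (m * n)) = b ^ m * (u * x⁻¹ ^ (m * 0)) * x⁻¹ ^ (m * n) := by
        rw [Nat.mul_zero, pow_zero, mul_one]; ring
      rw [this]
      exact hb.2.mul ((isIntegral_self_adjoin x⁻¹).pow _)
    have h2 := isIntegral_add_pow_mul hm hab.2 h1
    rwa [sub_add_cancel] at h2
  · have h1 : IsIntegral (Algebra.adjoin K {x}) (a ^ m * (u * x ^ (m * n))) := by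
      have : a ^ m * (u * x ^ (m * n)) = a ^ m * (u * x ^ (m * 0)) * x ^ (m * n) := by
        rw [Nat.mul_zero, pow_zero, mul_one]; ring
      rw [this]
      exact ha.1.mul ((isIntegral_self_adjoin x).pow _)
    have h2 := isIntegral_add_pow_mul hm hba.1 h1
    rwa [sub_add_cancel] at h2

/-- Newton step for the equation `a^m u = 1`: it preserves the chart `L(D₀ + N X_∞)` at the cost
of multiplying `N` by `m + 1`. -/
theorem MM_newton {N : ℕ} {a : E} (ha : a ∈ MM K x u m hm N 0) :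
    a * (1 - (a ^ m * u - 1) / m) ∈ MM K x u m hm ((m + 1) * N) 0 := by
  have h1 : IsIntegral (Algebra.adjoin K {x}) (a ^ m * u) := by
    have := ha.1
    rwa [Nat.mul_zero, pow_zero, mul_one] at this
  have h2 : IsIntegral (Algebra.adjoin K {x⁻¹}) (a ^ m * (u * x⁻¹ ^ (m * N))) := ha.2
  have hminv : ((m : E))⁻¹ = algebraMap K E ((m : K)⁻¹) := by rw [map_inv₀, map_natCast]
  refine ⟨?_, ?_⟩
  · have e : (a * (1 - (a ^ m * u - 1) / m)) ^ m * (u * x ^ (m * 0)) =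
        a ^ m * u * (1 - (a ^ m * u - 1) * (m : E)⁻¹) ^ m := by
      rw [Nat.mul_zero, pow_zero, mul_one, mul_pow, div_eq_mul_inv]; ring
    rw [e, hminv]
    exact h1.mul ((isIntegral_one.sub
      ((h1.sub isIntegral_one).mul (isIntegral_algebraMap_adjoin x _))).pow m)
  · have hpow : x⁻¹ ^ (m * ((m + 1) * N)) = x⁻¹ ^ (m * N) * (x⁻¹ ^ (m * N)) ^ m := by
      rw [← pow_mul, ← pow_add]; congr 1; ring
    have hfac : x⁻¹ ^ (m * N) - (a ^ m * (u * x⁻¹ ^ (m * N)) - x⁻¹ ^ (m * N)) * (m : E)⁻¹ =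
        (1 - (a ^ m * u - 1) * (m : E)⁻¹) * x⁻¹ ^ (m * N) := by ring
    have e : (a * (1 - (a ^ m * u - 1) / m)) ^ m * (u * x⁻¹ ^ (m * ((m + 1) * N))) =
        a ^ m * (u * x⁻¹ ^ (m * N)) *
          (x⁻¹ ^ (m * N) - (a ^ m * (u * x⁻¹ ^ (m * N)) - x⁻¹ ^ (m * N)) * (m : E)⁻¹) ^ m := by
      rw [hpow, hfac, mul_pow, mul_pow, div_eq_mul_inv]; ring
    rw [e, hminv]
    have hx' : IsIntegral (Algebra.adjoin K {x⁻¹}) (x⁻¹ ^ (m * N)) :=
      (isIntegral_self_adjoin x⁻¹).pow _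
    exact h2.mul ((hx'.sub ((h2.sub hx').mul (isIntegral_algebraMap_adjoin x⁻¹ _))).pow m)

/-- Exchanging `x` and `x⁻¹` exchanges the two charts. -/
theorem MM_inv (n₁ n₂ : ℕ) : MM K x⁻¹ u m hm n₁ n₂ = MM K x u m hm n₂ n₁ := by
  ext f
  have key : ∀ y : E, y = x →
      (IsIntegral (Algebra.adjoin K {y}) (f ^ m * (u * y ^ (m * n₁))) ↔
        IsIntegral (Algebra.adjoin K {x}) (f ^ m * (u * x ^ (m * n₁)))) := by
    rintro y rfl; rfl
  rw [mem_MM, mem_MM, key _ (inv_inv x)]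
  exact and_comm

/-- Multiplication by `x ^ n₂` identifies `L(n₁ X_∞ + n₂ X_0)` with `L((n₁ + n₂) X_∞)`. -/
noncomputable def MMshift (hx : x ≠ 0) (n₁ n₂ : ℕ) :
    MM K x u m hm n₁ n₂ ≃ₗ[K] MM K x u m hm (n₁ + n₂) 0 where
  toFun f := ⟨f.1 * x ^ n₂, (mem_MM_shift hx).mp f.2⟩
  invFun g := ⟨g.1 * x⁻¹ ^ n₂, (mem_MM_shift hx).mpr (by
    have : g.1 * x⁻¹ ^ n₂ * x ^ n₂ = g.1 := by
      rw [mul_assoc, ← mul_pow, inv_mul_cancel₀ hx, one_pow, mul_one]
    rw [this]; exact g.2)⟩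
  map_add' f g := by
    apply Subtype.ext
    simp [add_mul]
  map_smul' c f := by
    apply Subtype.ext
    simp
  left_inv f := by
    apply Subtype.ext
    show f.1 * x ^ n₂ * x⁻¹ ^ n₂ = f.1
    rw [mul_assoc, ← mul_pow, mul_inv_cancel₀ hx, one_pow, mul_one]
  right_inv g := by
    apply Subtype.ext
    show g.1 * x⁻¹ ^ n₂ * x ^ n₂ = g.1
    rw [mul_assoc, ← mul_pow, inv_mul_cancel₀ hx, one_pow, mul_one]

theorem MM_finiteDimensional (hx : x ≠ 0)
    (hfin : ∀ n, FiniteDimensional K (MM K x u m hm n 0)) (n₁ n₂ : ℕ) :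
    FiniteDimensional K (MM K x u m hm n₁ n₂) :=
  haveI := hfin (n₁ + n₂)
  (MMshift (K := K) (u := u) (hm := hm) hx n₁ n₂).symm.finiteDimensional

theorem finrank_MM_shift (hx : x ≠ 0) (n₁ n₂ : ℕ) :
    Module.finrank K (MM K x u m hm n₁ n₂) = Module.finrank K (MM K x u m hm (n₁ + n₂) 0) :=
  (MMshift hx n₁ n₂).finrank_eq

/-- Čech-type decomposition from the dimension formula alone: if
`dim L(D₀ + n X_∞) = n d + c` for all `n ≥ n₀`, then for `N ≥ n₀`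
`L(D₀ + (N+1)(X_∞+X_0)) = L(D₀ + N(X_∞+X_0)) + L(D₀ + (N+1)X_∞) + L(D₀ + (N+1)X_0)`. -/
theorem MM_decomp (hx : x ≠ 0) (d c : ℤ) (n₀ : ℕ)
    (hfin : ∀ n, FiniteDimensional K (MM K x u m hm n 0))
    (hdim : ∀ n, n₀ ≤ n → (Module.finrank K (MM K x u m hm n 0) : ℤ) = n * d + c)
    (N : ℕ) (hN : n₀ ≤ N) :
    MM K x u m hm (N + 1) (N + 1) =
      MM K x u m hm N N ⊔ (MM K x u m hm (N + 1) 0 ⊔ MM K x u m hm 0 (N + 1)) := by
  have fin : ∀ n₁ n₂, FiniteDimensional K (MM K x u m hm n₁ n₂) :=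
    MM_finiteDimensional hx hfin
  have dim2 : ∀ n₁ n₂, n₀ ≤ n₁ + n₂ →
      (Module.finrank K (MM K x u m hm n₁ n₂) : ℤ) = ((n₁ + n₂ : ℕ) : ℤ) * d + c := by
    intro n₁ n₂ h
    rw [finrank_MM_shift hx]
    exact hdim _ h
  -- the three intersections
  have i1 : MM K x u m hm (N + 1) 0 ⊓ MM K x u m hm 0 (N + 1) = MM K x u m hm 0 0 :=
    le_antisymm MM_inf_le
      (le_inf (MM_mono (Nat.zero_le _) le_rfl) (MM_mono le_rfl (Nat.zero_le _)))
  have i2 : MM K x u m hm N 0 ⊓ MM K x u m hm 0 N = MM K x u m hm 0 0 :=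
    le_antisymm MM_inf_le
      (le_inf (MM_mono (Nat.zero_le _) le_rfl) (MM_mono le_rfl (Nat.zero_le _)))
  have i3 : MM K x u m hm N N ⊓ (MM K x u m hm (N + 1) 0 ⊔ MM K x u m hm 0 (N + 1)) =
      MM K x u m hm N 0 ⊔ MM K x u m hm 0 N := by
    apply le_antisymm
    · rintro f ⟨hf1, hf2⟩
      obtain ⟨a, ha, b, hb, rfl⟩ := Submodule.mem_sup.mp hf2
      have hb' : -b ∈ MM K x u m hm 0 (N + 1) := Submodule.neg_mem _ hb
      have hab : a - -b ∈ MM K x u m hm N N := by rwa [sub_neg_eq_add]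
      obtain ⟨h1, h2⟩ := MM_pole ha hb' hab
      have h2' : b ∈ MM K x u m hm 0 N := by
        have := Submodule.neg_mem _ h2
        rwa [neg_neg] at this
      exact Submodule.add_mem_sup h1 h2'
    · refine le_inf (sup_le (MM_mono le_rfl (Nat.zero_le _)) (MM_mono (Nat.zero_le _) le_rfl))
        (sup_le_sup (MM_mono (Nat.le_succ _) le_rfl) (MM_mono le_rfl (Nat.le_succ _)))
  have := fin
  have E1 := Submodule.finrank_sup_add_finrank_inf_eq (MM K x u m hm (N + 1) 0)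
    (MM K x u m hm 0 (N + 1))
  have E2 := Submodule.finrank_sup_add_finrank_inf_eq (MM K x u m hm N 0) (MM K x u m hm 0 N)
  have E3 := Submodule.finrank_sup_add_finrank_inf_eq (MM K x u m hm N N)
    (MM K x u m hm (N + 1) 0 ⊔ MM K x u m hm 0 (N + 1))
  rw [i1] at E1
  rw [i2] at E2
  rw [i3] at E3
  have d1 := dim2 (N + 1) 0 (by omega)
  have d2 := dim2 0 (N + 1) (by omega)
  have d3 := dim2 N 0 (by omega)
  have d4 := dim2 0 N (by omega)
  have d5 := dim2 N N (by omega)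
  have d6 := dim2 (N + 1) (N + 1) (by omega)
  have hle : MM K x u m hm N N ⊔ (MM K x u m hm (N + 1) 0 ⊔ MM K x u m hm 0 (N + 1)) ≤
      MM K x u m hm (N + 1) (N + 1) :=
    sup_le (MM_mono (Nat.le_succ _) (Nat.le_succ _))
      (sup_le (MM_mono le_rfl (Nat.zero_le _)) (MM_mono (Nat.zero_le _) le_rfl))
  symm
  apply Submodule.eq_of_le_of_finrank_eq hle
  have E1' : ((Module.finrank K ↥(MM K x u m hm (N + 1) 0 ⊔ MM K x u m hm 0 (N + 1)) : ℕ) : ℤ) +
      (Module.finrank K ↥(MM K x u m hm 0 0) : ℕ) =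
      (Module.finrank K ↥(MM K x u m hm (N + 1) 0) : ℕ) +
        (Module.finrank K ↥(MM K x u m hm 0 (N + 1)) : ℕ) := by exact_mod_cast E1
  have E2' : ((Module.finrank K ↥(MM K x u m hm N 0 ⊔ MM K x u m hm 0 N) : ℕ) : ℤ) +
      (Module.finrank K ↥(MM K x u m hm 0 0) : ℕ) =
      (Module.finrank K ↥(MM K x u m hm N 0) : ℕ) +
        (Module.finrank K ↥(MM K x u m hm 0 N) : ℕ) := by exact_mod_cast E2
  have E3' : ((Module.finrank K ↥(MM K x u m hm N N ⊔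
        (MM K x u m hm (N + 1) 0 ⊔ MM K x u m hm 0 (N + 1))) : ℕ) : ℤ) +
      (Module.finrank K ↥(MM K x u m hm N 0 ⊔ MM K x u m hm 0 N) : ℕ) =
      (Module.finrank K ↥(MM K x u m hm N N) : ℕ) +
        (Module.finrank K ↥(MM K x u m hm (N + 1) 0 ⊔ MM K x u m hm 0 (N + 1)) : ℕ) := by
    exact_mod_cast E3
  have key : ((Module.finrank K ↥(MM K x u m hm N N ⊔
        (MM K x u m hm (N + 1) 0 ⊔ MM K x u m hm 0 (N + 1))) : ℕ) : ℤ) =
      (Module.finrank K ↥(MM K x u m hm (N + 1) (N + 1)) : ℕ) := by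
    rw [d6]
    push_cast at d1 d2 d3 d4 d5 ⊢
    linarith
  exact_mod_cast key

end Alg

end Fermat.Agent.S18.helper7178
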