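import Fermat.Agent.S18.helper7178_KummerAlg

/-!
# S18 Kummer core, part B: the valued function field argument

See `kummer_core` at the end of the file for the statement.
-/

set_option autoImplicit false

namespace Fermat.Agent.S18.helper7178

section Val

variable {F : Type*} [Field F] {Γ₀ : Type*} [LinearOrderedCommGroupWithZero Γ₀]
variable (v : Valuation F Γ₀)

theorem val_mul_lt_of_lt_one {a b : Γ₀} (ha : a ≠ 0) (hb : b < 1) : a * b < a := by
  have h := mul_lt_mul_of_pos_left hb (zero_lt_iff.mpr ha)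
  rwa [mul_one] at h

theorem val_natCast_le_one (n : ℕ) : v (n : F) ≤ 1 := by
  induction n with
  | zero => simp
  | succ n ih =>
    rw [Nat.cast_succ]
    exact v.map_add_le ih (le_of_eq v.map_one)

/-- For finitely many elements there is a nonzero scaling factor making them all integral. -/
theorem exists_scale (T : Finset F) : ∃ δ : F, δ ≠ 0 ∧ ∀ z ∈ T, v (δ * z) ≤ 1 := by
  classical
  induction T using Finset.induction_on with
  | empty => exact ⟨1, one_ne_zero, by simp⟩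
  | insert z T _ ih =>
    obtain ⟨δ, hδ, h⟩ := ih
    by_cases hz : v (δ * z) ≤ 1
    · refine ⟨δ, hδ, ?_⟩
      intro z' hz'
      rcases Finset.mem_insert.mp hz' with rfl | hz'
      · exact hz
      · exact h z' hz'
    · have hz1 : 1 < v (δ * z) := not_le.mp hz
      have hz0 : z ≠ 0 := by
        rintro rfl
        simp at hz1
      refine ⟨z⁻¹, inv_ne_zero hz0, ?_⟩
      intro z' hz'
      rcases Finset.mem_insert.mp hz' with rfl | hz'
      · rw [inv_mul_cancel₀ hz0, map_one]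
      · have h1 : v (δ * z') < v (δ * z) := lt_of_le_of_lt (h z' hz') hz1
        rw [map_mul, map_mul] at h1
        have h2 : v z' < v z := lt_of_mul_lt_mul_left' h1
        rw [map_mul, map_inv₀]
        have h3 : v z ≠ 0 := (v.ne_zero_iff).mpr hz0
        have : (v z)⁻¹ * v z' < (v z)⁻¹ * v z :=
          mul_lt_mul_of_pos_left h2 (zero_lt_iff.mpr (inv_ne_zero h3))
        rw [inv_mul_cancel₀ h3] at this
        exact this.le

/-- `(1 - y)^m = 1 - m y + y^2 s` with `s` integral. -/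
theorem one_sub_pow_expand {y : F} (hy : v y ≤ 1) (m : ℕ) :
    ∃ s : F, v s ≤ 1 ∧ (1 - y) ^ m = 1 - m * y + y ^ 2 * s := by
  induction m with
  | zero => exact ⟨0, by simp, by simp⟩
  | succ m ih =>
    obtain ⟨s, hs, h⟩ := ih
    refine ⟨m + s - y * s, ?_, ?_⟩
    · apply v.map_sub_le (v.map_add_le (val_natCast_le_one v m) hs)
      rw [map_mul]
      exact Left.mul_le_one hy hs
    · rw [pow_succ, h]
      push_cast
      ring

end Val

section ON

variable {L F : Type*} [Field L] [Field F] [Algebra L F]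
variable {Γ₀ : Type*} [LinearOrderedCommGroupWithZero Γ₀]

/-- Orthonormal family of `F` over `L` with respect to the valuation `v`:
`v (∑ cᵢ bᵢ) = max v(cᵢ)`. -/
def IsON (L : Type*) {F : Type*} [Field L] [Field F] [Algebra L F] {Γ₀ : Type*}
    [LinearOrderedCommGroupWithZero Γ₀] (v : Valuation F Γ₀) {r : ℕ} (b : Fin r → F) : Prop :=
  (∀ i, v (b i) ≤ 1) ∧ ∀ c : Fin r → L, ∀ i, v (algebraMap L F (c i)) ≤ v (∑ j, c j • b j)

/-- Every finite-dimensional `L`-subspace of `F` has an orthonormal basis. -/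
def Cartesian (L : Type*) {F : Type*} [Field L] [Field F] [Algebra L F] {Γ₀ : Type*}
    [LinearOrderedCommGroupWithZero Γ₀] (v : Valuation F Γ₀) : Prop :=
  ∀ V : Submodule L F, FiniteDimensional L V →
    ∃ (r : ℕ) (b : Fin r → F), IsON L v b ∧ Submodule.span L (Set.range b) = V

variable {v : Valuation F Γ₀}

theorem IsON.linearIndependent {r : ℕ} {b : Fin r → F} (hb : IsON L v b) :
    LinearIndependent L b := by
  rw [Fintype.linearIndependent_iff]
  intro c hc i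
  have h := hb.2 c i
  rw [hc, map_zero] at h
  have h0 : algebraMap L F (c i) = 0 := (v.zero_iff).mp (le_antisymm h zero_le)
  exact (algebraMap L F).injective (by rw [h0, map_zero])

theorem IsON.val_sum_le {r : ℕ} {b : Fin r → F} (hb : IsON L v b) (c : Fin r → L) (g : Γ₀)
    (h : ∀ i, v (algebraMap L F (c i)) ≤ g) : v (∑ j, c j • b j) ≤ g := by
  apply v.map_sum_le
  intro i _
  rw [Algebra.smul_def, map_mul]
  exact mul_le_of_le_of_le_one (h i) (hb.1 i)

theorem IsON.val_sum_lt_one_iff {r : ℕ} {b : Fin r → F} (hb : IsON L v b) (c : Fin r → L) :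
    v (∑ j, c j • b j) < 1 ↔ ∀ i, v (algebraMap L F (c i)) < 1 := by
  constructor
  · intro h i
    exact lt_of_le_of_lt (hb.2 c i) h
  · intro h
    apply v.map_sum_lt one_ne_zero
    intro i _
    rw [Algebra.smul_def, map_mul]
    exact lt_of_le_of_lt (mul_le_of_le_of_le_one le_rfl (hb.1 i)) (h i)

theorem IsON.mem_span {r : ℕ} {b : Fin r → F} (_hb : IsON L v b) {V : Submodule L F}
    (hV : Submodule.span L (Set.range b) = V) (i : Fin r) : b i ∈ V :=
  hV ▸ Submodule.subset_span (Set.mem_range_self i)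

theorem IsON.card_eq_finrank {r : ℕ} {b : Fin r → F} (hb : IsON L v b) {V : Submodule L F}
    (hV : Submodule.span L (Set.range b) = V) : Module.finrank L V = r := by
  rw [← hV, finrank_span_eq_card hb.linearIndependent, Fintype.card_fin]

/-- Coordinates of an element of `V` in an orthonormal basis are bounded by its valuation. -/
theorem IsON.exists_repr {r : ℕ} {b : Fin r → F} (hb : IsON L v b) {V : Submodule L F}
    (hV : Submodule.span L (Set.range b) = V) {f : F} (hf : f ∈ V) :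
    ∃ c : Fin r → L, f = ∑ j, c j • b j ∧ ∀ i, v (algebraMap L F (c i)) ≤ v f := by
  rw [← hV, Submodule.mem_span_range_iff_exists_fun] at hf
  obtain ⟨c, rfl⟩ := hf
  exact ⟨c, rfl, hb.2 c⟩

/-- Value group of `F` = value group of `L` (consequence of `Cartesian`). -/
theorem Cartesian.exists_scalar (hC : Cartesian L v) {t : F} (ht : t ≠ 0) :
    ∃ τ : L, v (algebraMap L F τ) = v t := by
  obtain ⟨r, b, hb, hV⟩ := hC (Submodule.span L {t}) inferInstance
  obtain ⟨c, hc, hle⟩ := hb.exists_repr hV (Submodule.mem_span_singleton_self t)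
  by_contra hne
  push Not at hne
  have hlt : ∀ i, v (algebraMap L F (c i)) < v t := fun i => lt_of_le_of_ne (hle i) (hne (c i))
  have : v (∑ j, c j • b j) < v t := by
    apply v.map_sum_lt ((v.ne_zero_iff).mpr ht)
    intro i _
    rw [Algebra.smul_def, map_mul]
    exact lt_of_le_of_lt (mul_le_of_le_of_le_one le_rfl (hb.1 i)) (hlt i)
  rw [← hc] at this
  exact lt_irrefl _ this

theorem val_sum_smul_le {r : ℕ} (e : Fin r → L) (z : Fin r → F)
    (he : ∀ j, v (algebraMap L F (e j)) ≤ 1) (hz : ∀ j, v (z j) ≤ 1) :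
    v (∑ j, e j • z j) ≤ 1 := by
  apply v.map_sum_le
  intro j _
  rw [Algebra.smul_def, map_mul]
  exact Left.mul_le_one (he j) (hz j)

/-- A small perturbation of an orthonormal family is orthonormal. -/
theorem IsON.perturb {r : ℕ} {b b' : Fin r → F} (hb : IsON L v b) (hb' : ∀ i, v (b' i) ≤ 1)
    (h : ∀ i, v (b i - b' i) < 1) : IsON L v b' := by
  refine ⟨hb', fun c i => ?_⟩
  by_cases hc : ∀ j, c j = 0
  · rw [hc i, map_zero, map_zero]
    exact zero_le
  · push Not at hc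
    obtain ⟨j₀, hj₀⟩ := hc
    have hg0 : v (∑ j, c j • b j) ≠ 0 := by
      intro h0
      have h1 := hb.2 c j₀
      rw [h0] at h1
      have h2 : algebraMap L F (c j₀) = 0 := (v.zero_iff).mp (le_antisymm h1 zero_le)
      exact hj₀ ((algebraMap L F).injective (by rw [h2, map_zero]))
    have hΔ : v (∑ j, c j • (b' j - b j)) < v (∑ j, c j • b j) := by
      apply v.map_sum_lt hg0
      intro j _
      rw [Algebra.smul_def, map_mul]
      by_cases hcj : algebraMap L F (c j) = 0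
      · rw [hcj, map_zero, zero_mul]
        exact zero_lt_iff.mpr hg0
      · have h1 : v (algebraMap L F (c j)) ≠ 0 := (v.ne_zero_iff).mpr hcj
        have h2 : v (b' j - b j) < 1 := by rw [v.map_sub_swap]; exact h j
        exact lt_of_lt_of_le (val_mul_lt_of_lt_one h1 h2) (hb.2 c j)
    have e : ∑ j, c j • b' j = ∑ j, c j • b j + ∑ j, c j • (b' j - b j) := by
      rw [← Finset.sum_add_distrib]
      apply Finset.sum_congr rfl
      intro j _
      rw [← smul_add]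
      congr 1
      ring
    rw [e, v.map_add_eq_of_lt_left hΔ]
    exact hb.2 c i

/-- A finite-dimensionality criterion: a subspace in which all linearly independent families
have at most `B` elements is finite-dimensional of dimension at most `B`. -/
theorem finrank_le_of_forall_indep {K V : Type*} [Field K] [AddCommGroup V] [Module K V]
    (W : Submodule K V) (B : ℕ)
    (h : ∀ (r : ℕ) (g : Fin r → V), (∀ i, g i ∈ W) → LinearIndependent K g → r ≤ B) :
    FiniteDimensional K W ∧ Module.finrank K W ≤ B := by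
  have hrank : Module.rank K W ≤ B := by
    apply rank_le
    intro s hs
    have h1 : LinearIndependent K (fun i : Fin s.card => ((s.equivFin.symm i : W) : V)) := by
      have h2 : LinearIndependent K (fun i : s => ((i : W) : V)) :=
        hs.map' W.subtype (Submodule.ker_subtype W)
      exact h2.comp _ s.equivFin.symm.injective
    exact h s.card _ (fun i => (s.equivFin.symm i : W).2) h1
  have hfin : Module.Finite K W :=
    Module.rank_lt_aleph0_iff.mp (lt_of_le_of_lt hrank (Cardinal.natCast_lt_aleph0))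
  exact ⟨hfin, Module.finrank_le_of_rank_le hrank⟩

end ON

section Res

variable {L F : Type*} [Field L] [Field F] [Algebra L F]
variable {Γ₀ : Type*} [LinearOrderedCommGroupWithZero Γ₀]

/-- Residue data for a valuation `v` on `F ⊇ L`: a reduction map `red : F → Fb` which is a ring
homomorphism on the valuation ring `{v ≤ 1}` with kernel `{v < 1}`, and such that the constants
`k ⊆ Fb` are exactly the reductions of integral elements of `L`.
(Typically `Fb` = residue field of `v`, `k` = residue field of `v|_L`; `red` is junk outside the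
valuation ring.) -/
structure ResData (L : Type*) {F : Type*} [Field L] [Field F] [Algebra L F] {Γ₀ : Type*}
    [LinearOrderedCommGroupWithZero Γ₀] (v : Valuation F Γ₀) (k Fb : Type*) [Field k] [Field Fb]
    [Algebra k Fb] where
  red : F → Fb
  red_one : red 1 = 1
  red_add : ∀ a b, v a ≤ 1 → v b ≤ 1 → red (a + b) = red a + red b
  red_mul : ∀ a b, v a ≤ 1 → v b ≤ 1 → red (a * b) = red a * red b
  red_eq_zero : ∀ a, v a ≤ 1 → (red a = 0 ↔ v a < 1)
  red_const : ∀ κ : k, ∃ c : L, v (algebraMap L F c) ≤ 1 ∧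
    red (algebraMap L F c) = algebraMap k Fb κ

variable {v : Valuation F Γ₀} {k Fb : Type*} [Field k] [Field Fb] [Algebra k Fb]

namespace ResData

variable (R : ResData L v k Fb)

theorem red_zero : R.red 0 = 0 := (R.red_eq_zero 0 (by simp)).mpr (by simp)

theorem red_neg {a : F} (ha : v a ≤ 1) : R.red (-a) = -R.red a := by
  have h := R.red_add a (-a) ha (by rwa [Valuation.map_neg])
  rw [add_neg_cancel, R.red_zero] at h
  exact (neg_eq_of_add_eq_zero_right h.symm).symm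

theorem red_sub {a b : F} (ha : v a ≤ 1) (hb : v b ≤ 1) : R.red (a - b) = R.red a - R.red b := by
  rw [sub_eq_add_neg, R.red_add a (-b) ha (by rwa [Valuation.map_neg]), R.red_neg hb,
    sub_eq_add_neg]

theorem red_pow {a : F} (ha : v a ≤ 1) (n : ℕ) : R.red (a ^ n) = R.red a ^ n := by
  induction n with
  | zero => simp [R.red_one]
  | succ n ih =>
    rw [pow_succ, R.red_mul _ _ (by rw [map_pow]; exact pow_le_one' ha n) ha, ih, pow_succ]

theorem red_sum {ι : Type*} (s : Finset ι) (f : ι → F) (hf : ∀ i ∈ s, v (f i) ≤ 1) :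
    R.red (∑ i ∈ s, f i) = ∑ i ∈ s, R.red (f i) := by
  classical
  induction s using Finset.induction_on with
  | empty => simp [R.red_zero]
  | insert a s ha ih =>
    rw [Finset.sum_insert ha, Finset.sum_insert ha,
      R.red_add _ _ (hf a (Finset.mem_insert_self a s))
        (v.map_sum_le fun i hi => hf i (Finset.mem_insert_of_mem hi)),
      ih fun i hi => hf i (Finset.mem_insert_of_mem hi)]

theorem red_eq_of_sub {a b : F} (ha : v a ≤ 1) (hb : v b ≤ 1) (h : v (a - b) < 1) :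
    R.red a = R.red b := by
  have h1 := (R.red_eq_zero (a - b) h.le).mpr h
  rw [R.red_sub ha hb] at h1
  exact sub_eq_zero.mp h1

theorem sub_of_red_eq {a b : F} (ha : v a ≤ 1) (hb : v b ≤ 1) (h : R.red a = R.red b) :
    v (a - b) < 1 := by
  apply (R.red_eq_zero (a - b) (v.map_sub_le ha hb)).mp
  rw [R.red_sub ha hb, h, sub_self]

theorem red_ne_zero {a : F} (ha : v a = 1) : R.red a ≠ 0 := by
  intro h
  have := (R.red_eq_zero a ha.le).mp h
  rw [ha] at this
  exact lt_irrefl _ this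

theorem red_inv {a : F} (ha : v a = 1) : R.red a⁻¹ = (R.red a)⁻¹ := by
  have ha0 : a ≠ 0 := by
    rintro rfl
    simp at ha
  have h := R.red_mul a a⁻¹ ha.le (by rw [map_inv₀, ha, inv_one])
  rw [mul_inv_cancel₀ ha0, R.red_one] at h
  exact (eq_inv_of_mul_eq_one_right h.symm)

end ResData

end Res

section Core

variable {L F : Type*} [Field L] [Field F] [Algebra L F]
variable {Γ₀ : Type*} [LinearOrderedCommGroupWithZero Γ₀]
variable {v : Valuation F Γ₀} {k Fb : Type*} [Field k] [Field Fb] [Algebra k Fb]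

/-- The hypotheses of the Kummer core. -/
structure Setup (L : Type*) {F : Type*} [Field L] [Field F] [Algebra L F] {Γ₀ : Type*}
    [LinearOrderedCommGroupWithZero Γ₀] (v : Valuation F Γ₀) (k Fb : Type*) [Field k] [Field Fb]
    [Algebra k Fb] where
  R : ResData L v k Fb
  x : F
  u : F
  w : F
  m : ℕ
  hm : 0 < m
  d : ℤ
  γ : ℤ
  n₀ : ℕ
  hx : v x = 1
  hu : v u = 1
  hw : v w = 1
  hmv : v (m : F) = 1
  huw : v (u - w ^ m) < 1
  cart : Cartesian L v
  arch : ∀ a b : F, v a < 1 → b ≠ 0 → ∃ n : ℕ, v a ^ n < v b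
  T₁ : ∀ g : F, v g ≤ 1 → IsIntegral (Algebra.adjoin L {x}) g →
    IsIntegral (Algebra.adjoin k {R.red x}) (R.red g)
  T₂ : ∀ g : F, v g ≤ 1 → IsIntegral (Algebra.adjoin L {x⁻¹}) g →
    IsIntegral (Algebra.adjoin k {(R.red x)⁻¹}) (R.red g)
  RF : ∀ n, n₀ ≤ n → ∃ (r : ℕ) (f : Fin r → F), (∀ i, f i ∈ MM L x u m hm n 0) ∧
    LinearIndependent L f ∧ (n : ℤ) * d + 1 - γ ≤ r
  Rk : ∀ n, n₀ ≤ n → ∀ (r : ℕ) (g : Fin r → Fb),
    (∀ i, g i ∈ MM k (R.red x) 1 1 Nat.one_pos n 0) → LinearIndependent k g →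
    (r : ℤ) ≤ (n : ℤ) * d + 1 - γ

namespace Setup

variable (S : Setup L v k Fb)

/-- `L(D₀ + n₁ X_∞ + n₂ X_0)` on the generic fibre. -/
abbrev M (n₁ n₂ : ℕ) : Submodule L F := MM L S.x S.u S.m S.hm n₁ n₂

/-- `L(n₁ X_∞ + n₂ X_0)` on the special fibre. -/
abbrev Λ (n₁ n₂ : ℕ) : Submodule k Fb := MM k (S.R.red S.x) 1 1 Nat.one_pos n₁ n₂

/-- The expected dimension. -/
def ρ (n : ℕ) : ℤ := (n : ℤ) * S.d + 1 - S.γ

theorem mem_Λ {n₁ n₂ : ℕ} {g : Fb} :
    g ∈ S.Λ n₁ n₂ ↔ IsIntegral (Algebra.adjoin k {S.R.red S.x}) (g * S.R.red S.x ^ n₂) ∧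
      IsIntegral (Algebra.adjoin k {(S.R.red S.x)⁻¹}) (g * (S.R.red S.x)⁻¹ ^ n₁) := by
  rw [mem_MM]
  simp only [pow_one, one_mul]

theorem x_ne : S.x ≠ 0 := by
  intro h
  have := S.hx
  rw [h, map_zero] at this
  exact zero_ne_one this

theorem xb_ne : S.R.red S.x ≠ 0 := S.R.red_ne_zero S.hx

theorem red_u : S.R.red S.u = S.R.red S.w ^ S.m := by
  rw [← S.R.red_pow S.hw.le]
  exact S.R.red_eq_of_sub S.hu.le (by rw [map_pow, S.hw, one_pow]) S.huw

/-- Reduction maps `L(D₀ + n₁ X_∞ + n₂ X_0)° · w` into `Lbar(n₁ X_∞ + n₂ X_0)`. -/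
theorem red_mem {n₁ n₂ : ℕ} {f : F} (hf : f ∈ S.M n₁ n₂) (hv : v f ≤ 1) :
    S.R.red (f * S.w) ∈ S.Λ n₁ n₂ := by
  rw [S.mem_Λ]
  have hfm : v (f ^ S.m) ≤ 1 := by rw [map_pow]; exact pow_le_one' hv _
  constructor
  · have hc : v (S.u * S.x ^ (S.m * n₂)) ≤ 1 := by
      rw [map_mul, map_pow, S.hu, S.hx, one_pow, mul_one]
    have hg : v (f ^ S.m * (S.u * S.x ^ (S.m * n₂))) ≤ 1 := by
      rw [map_mul]; exact Left.mul_le_one hfm hc
    have h := S.T₁ _ hg hf.1
    have e : S.R.red (f ^ S.m * (S.u * S.x ^ (S.m * n₂))) =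
        (S.R.red (f * S.w) * S.R.red S.x ^ n₂) ^ S.m := by
      rw [S.R.red_mul _ _ hfm hc, S.R.red_pow hv,
        S.R.red_mul _ _ S.hu.le (by rw [map_pow, S.hx, one_pow]), S.red_u,
        S.R.red_pow S.hx.le, S.R.red_mul f S.w hv S.hw.le, pow_mul]
      ring
    rw [e] at h
    exact IsIntegral.of_pow S.hm h
  · have hxi : v S.x⁻¹ = 1 := by rw [map_inv₀, S.hx, inv_one]
    have hc : v (S.u * S.x⁻¹ ^ (S.m * n₁)) ≤ 1 := by
      rw [map_mul, map_pow, S.hu, hxi, one_pow, mul_one]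
    have hg : v (f ^ S.m * (S.u * S.x⁻¹ ^ (S.m * n₁))) ≤ 1 := by
      rw [map_mul]; exact Left.mul_le_one hfm hc
    have h := S.T₂ _ hg hf.2
    have e : S.R.red (f ^ S.m * (S.u * S.x⁻¹ ^ (S.m * n₁))) =
        (S.R.red (f * S.w) * (S.R.red S.x)⁻¹ ^ n₁) ^ S.m := by
      rw [S.R.red_mul _ _ hfm hc, S.R.red_pow hv,
        S.R.red_mul _ _ S.hu.le (by rw [map_pow, hxi, one_pow]), S.red_u,
        S.R.red_pow hxi.le, S.R.red_inv S.hx, S.R.red_mul f S.w hv S.hw.le, pow_mul]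
      ring
    rw [e] at h
    exact IsIntegral.of_pow S.hm h

/-- Reduction of an integral combination. -/
theorem red_comb {r : ℕ} {b : Fin r → F} (hb : ∀ j, v (b j) ≤ 1) (c : Fin r → L) (κ : Fin r → k)
    (hc1 : ∀ j, v (algebraMap L F (c j)) ≤ 1)
    (hc2 : ∀ j, S.R.red (algebraMap L F (c j)) = algebraMap k Fb (κ j)) :
    S.R.red ((∑ j, c j • b j) * S.w) = ∑ j, κ j • S.R.red (b j * S.w) := by
  have hbw : ∀ j, v (b j * S.w) ≤ 1 := fun j => by
    rw [map_mul, S.hw, mul_one]; exact hb j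
  rw [Finset.sum_mul, S.R.red_sum]
  · apply Finset.sum_congr rfl
    intro j _
    rw [Algebra.smul_def, mul_assoc, S.R.red_mul _ _ (hc1 j) (hbw j), hc2 j, Algebra.smul_def]
  · intro j _
    rw [Algebra.smul_def, mul_assoc, map_mul]
    exact Left.mul_le_one (hc1 j) (hbw j)

/-- Residues of an orthonormal family (times `w`) are linearly independent. -/
theorem indep_red {r : ℕ} {b : Fin r → F} (hb : IsON L v b) :
    LinearIndependent k (fun i => S.R.red (b i * S.w)) := by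
  rw [Fintype.linearIndependent_iff]
  intro κ hκ i
  choose c hc1 hc2 using fun j => S.R.red_const (κ j)
  have hsum := S.red_comb hb.1 c κ hc1 hc2
  have hv1 : v ((∑ j, c j • b j) * S.w) ≤ 1 := by
    rw [map_mul, S.hw, mul_one]
    exact hb.val_sum_le c 1 hc1
  have h0 : v ((∑ j, c j • b j) * S.w) < 1 :=
    (S.R.red_eq_zero _ hv1).mp (hsum.trans hκ)
  rw [map_mul, S.hw, mul_one] at h0
  have h1 := (hb.val_sum_lt_one_iff c).mp h0 i
  have h2 := (S.R.red_eq_zero _ (hc1 i)).mpr h1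
  rw [hc2 i] at h2
  exact (algebraMap k Fb).injective (by rw [h2, map_zero])

theorem card_le {n : ℕ} (hn : S.n₀ ≤ n) {r : ℕ} {b : Fin r → F} (hb : IsON L v b)
    (hmem : ∀ i, b i ∈ S.M n 0) : (r : ℤ) ≤ S.ρ n :=
  S.Rk n hn r _ (fun i => S.red_mem (hmem i) (hb.1 i)) (S.indep_red hb)

theorem ρ_nonneg {n : ℕ} (hn : S.n₀ ≤ n) : 0 ≤ S.ρ n := by
  have := S.Rk n hn 0 (fun i => i.elim0) (fun i => i.elim0) linearIndependent_empty_type
  simpa [ρ] using this

theorem indep_card_le {n : ℕ} (hn : S.n₀ ≤ n) {r : ℕ} {f : Fin r → F}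
    (hf : ∀ i, f i ∈ S.M n 0) (hind : LinearIndependent L f) : (r : ℤ) ≤ S.ρ n := by
  have hfd : FiniteDimensional L (Submodule.span L (Set.range f)) :=
    FiniteDimensional.span_of_finite L (Set.finite_range f)
  obtain ⟨r', b, hb, hV⟩ := S.cart _ hfd
  have hr' : r' = r := by
    rw [← hb.card_eq_finrank hV, finrank_span_eq_card hind, Fintype.card_fin]
  have hle : Submodule.span L (Set.range f) ≤ S.M n 0 :=
    Submodule.span_le.mpr (by rintro _ ⟨i, rfl⟩; exact hf i)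
  have := S.card_le hn hb (fun i => hle (hb.mem_span hV i))
  rw [hr'] at this
  exact this

theorem finDim_M_ge {n : ℕ} (hn : S.n₀ ≤ n) :
    FiniteDimensional L (S.M n 0) ∧ (Module.finrank L (S.M n 0) : ℤ) ≤ S.ρ n := by
  have h := finrank_le_of_forall_indep (S.M n 0) (S.ρ n).toNat (fun r g hg hind => by
    have h1 := S.indep_card_le hn hg hind
    omega)
  refine ⟨h.1, ?_⟩
  have h0 := S.ρ_nonneg hn
  have h2 := h.2
  omega

theorem finDim_M0 (n : ℕ) : FiniteDimensional L (S.M n 0) := by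
  by_cases hn : S.n₀ ≤ n
  · exact (S.finDim_M_ge hn).1
  · have := (S.finDim_M_ge le_rfl).1
    exact Submodule.finiteDimensional_of_le
      (MM_mono (le_of_not_ge hn) le_rfl : S.M n 0 ≤ S.M S.n₀ 0)

theorem finDim_M (n₁ n₂ : ℕ) : FiniteDimensional L (S.M n₁ n₂) :=
  MM_finiteDimensional S.x_ne S.finDim_M0 n₁ n₂

theorem finDim_Λ_ge {n : ℕ} (hn : S.n₀ ≤ n) :
    FiniteDimensional k (S.Λ n 0) ∧ (Module.finrank k (S.Λ n 0) : ℤ) ≤ S.ρ n := by
  have h := finrank_le_of_forall_indep (S.Λ n 0) (S.ρ n).toNat (fun r g hg hind => by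
    have h1 : (r : ℤ) ≤ S.ρ n := S.Rk n hn r g hg hind
    omega)
  refine ⟨h.1, ?_⟩
  have h0 := S.ρ_nonneg hn
  have h2 := h.2
  omega

theorem finDim_Λ0 (n : ℕ) : FiniteDimensional k (S.Λ n 0) := by
  by_cases hn : S.n₀ ≤ n
  · exact (S.finDim_Λ_ge hn).1
  · have := (S.finDim_Λ_ge le_rfl).1
    exact Submodule.finiteDimensional_of_le
      (MM_mono (le_of_not_ge hn) le_rfl : S.Λ n 0 ≤ S.Λ S.n₀ 0)

/-- The squeeze: an orthonormal family of `L(D₀ + n X_∞)` with exactly `ρ n` elements. -/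
theorem squeeze {n : ℕ} (hn : S.n₀ ≤ n) :
    ∃ (r : ℕ) (b : Fin r → F), IsON L v b ∧ (∀ i, b i ∈ S.M n 0) ∧ (r : ℤ) = S.ρ n := by
  obtain ⟨r, f, hf, hind, hr⟩ := S.RF n hn
  have hfd : FiniteDimensional L (Submodule.span L (Set.range f)) :=
    FiniteDimensional.span_of_finite L (Set.finite_range f)
  obtain ⟨r', b, hb, hV⟩ := S.cart _ hfd
  have hr' : r' = r := by
    rw [← hb.card_eq_finrank hV, finrank_span_eq_card hind, Fintype.card_fin]
  have hle : Submodule.span L (Set.range f) ≤ S.M n 0 :=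
    Submodule.span_le.mpr (by rintro _ ⟨i, rfl⟩; exact hf i)
  have hmem : ∀ i, b i ∈ S.M n 0 := fun i => hle (hb.mem_span hV i)
  have h1 := S.card_le hn hb hmem
  refine ⟨r', b, hb, hmem, ?_⟩
  have h2 : S.ρ n ≤ (r : ℤ) := hr
  rw [hr'] at h1 ⊢
  exact le_antisymm h1 h2

theorem span_red_eq {n : ℕ} (hn : S.n₀ ≤ n) {r : ℕ} {b : Fin r → F} (hb : IsON L v b)
    (hmem : ∀ i, b i ∈ S.M n 0) (hr : (r : ℤ) = S.ρ n) :
    Submodule.span k (Set.range fun i => S.R.red (b i * S.w)) = S.Λ n 0 := by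
  have := (S.finDim_Λ_ge hn).1
  have hle : Submodule.span k (Set.range fun i => S.R.red (b i * S.w)) ≤ S.Λ n 0 :=
    Submodule.span_le.mpr (by rintro _ ⟨i, rfl⟩; exact S.red_mem (hmem i) (hb.1 i))
  apply Submodule.eq_of_le_of_finrank_le hle
  rw [finrank_span_eq_card (S.indep_red hb), Fintype.card_fin]
  have := (S.finDim_Λ_ge hn).2
  omega

theorem finrank_Λ {n : ℕ} (hn : S.n₀ ≤ n) : (Module.finrank k (S.Λ n 0) : ℤ) = S.ρ n := by
  obtain ⟨r, b, hb, hmem, hr⟩ := S.squeeze hn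
  rw [← S.span_red_eq hn hb hmem hr, finrank_span_eq_card (S.indep_red hb), Fintype.card_fin, hr]

/-- Lifting: every element of `Lbar(n X_∞)` is the reduction of `f w` with `f ∈ L(D₀ + n X_∞)`
integral. -/
theorem lift {n : ℕ} (hn : S.n₀ ≤ n) {g : Fb} (hg : g ∈ S.Λ n 0) :
    ∃ f ∈ S.M n 0, v f ≤ 1 ∧ S.R.red (f * S.w) = g := by
  obtain ⟨r, b, hb, hmem, hr⟩ := S.squeeze hn
  rw [← S.span_red_eq hn hb hmem hr, Submodule.mem_span_range_iff_exists_fun] at hg
  obtain ⟨κ, rfl⟩ := hg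
  choose c hc1 hc2 using fun j => S.R.red_const (κ j)
  exact ⟨∑ j, c j • b j, Submodule.sum_mem _ (fun j _ => Submodule.smul_mem _ _ (hmem j)),
    hb.val_sum_le c 1 hc1, S.red_comb hb.1 c κ hc1 hc2⟩

theorem lift2 {n₁ n₂ : ℕ} (hn : S.n₀ ≤ n₁ + n₂) {g : Fb} (hg : g ∈ S.Λ n₁ n₂) :
    ∃ f ∈ S.M n₁ n₂, v f ≤ 1 ∧ S.R.red (f * S.w) = g := by
  have hg' := (mem_MM_shift S.xb_ne).mp hg
  obtain ⟨f', hf', hv', hr'⟩ := S.lift hn hg'
  have hxi : v (S.x⁻¹ ^ n₂) = 1 := by rw [map_pow, map_inv₀, S.hx, inv_one, one_pow]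
  have hcancel : f' * S.x⁻¹ ^ n₂ * S.x ^ n₂ = f' := by
    rw [mul_assoc, ← mul_pow, inv_mul_cancel₀ S.x_ne, one_pow, mul_one]
  refine ⟨f' * S.x⁻¹ ^ n₂, ?_, ?_, ?_⟩
  · apply (mem_MM_shift S.x_ne).mpr
    rw [hcancel]
    exact hf'
  · rw [map_mul, hxi, mul_one]; exact hv'
  · have e : f' * S.x⁻¹ ^ n₂ * S.w = f' * S.w * S.x⁻¹ ^ n₂ := by ring
    rw [e, S.R.red_mul _ _ (by rw [map_mul, S.hw, mul_one]; exact hv') hxi.le, hr',
      S.R.red_pow (by rw [map_inv₀, S.hx, inv_one]), S.R.red_inv S.hx, mul_assoc, ← mul_pow,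
      mul_inv_cancel₀ S.xb_ne, one_pow, mul_one]

/-- The Čech decomposition on the special fibre. -/
theorem decomp_res {N : ℕ} (hN : S.n₀ ≤ N) :
    S.Λ (N + 1) (N + 1) = S.Λ N N ⊔ (S.Λ (N + 1) 0 ⊔ S.Λ 0 (N + 1)) := by
  apply MM_decomp S.xb_ne S.d (1 - S.γ) S.n₀ S.finDim_Λ0 _ N hN
  intro n hn
  rw [S.finrank_Λ hn, ρ]
  ring

/-- Integral Čech decomposition (one step): lift of `decomp_res` by perturbing an orthonormal
basis (this replaces Nakayama's lemma). -/
theorem decomp_int {N : ℕ} (hN : S.n₀ ≤ N) {c : F} (hc : c ∈ S.M (N + 1) (N + 1))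
    (hv : v c ≤ 1) :
    ∃ c₀ ∈ S.M N N, ∃ a ∈ S.M (N + 1) 0, ∃ b ∈ S.M 0 (N + 1),
      v c₀ ≤ 1 ∧ v a ≤ 1 ∧ v b ≤ 1 ∧ c = c₀ + a + b := by
  have hfd := S.finDim_M (N + 1) (N + 1)
  obtain ⟨s, h, hON, hV⟩ := S.cart _ hfd
  have key : ∀ j, ∃ c₀ ∈ S.M N N, ∃ a ∈ S.M (N + 1) 0, ∃ b ∈ S.M 0 (N + 1),
      v c₀ ≤ 1 ∧ v a ≤ 1 ∧ v b ≤ 1 ∧ v (h j - (c₀ + a + b)) < 1 := by
    intro j
    have hj := S.red_mem (hON.mem_span hV j) (hON.1 j)
    rw [S.decomp_res hN] at hj
    obtain ⟨g₀, hg₀, g', hg', hsum⟩ := Submodule.mem_sup.mp hj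
    obtain ⟨g₁, hg₁, g₂, hg₂, hsum'⟩ := Submodule.mem_sup.mp hg'
    obtain ⟨c₀, hc₀, hv₀, hr₀⟩ := S.lift2 (by omega) hg₀
    obtain ⟨a, ha, hva, hra⟩ := S.lift2 (by omega) hg₁
    obtain ⟨b, hb, hvb, hrb⟩ := S.lift2 (by omega) hg₂
    refine ⟨c₀, hc₀, a, ha, b, hb, hv₀, hva, hvb, ?_⟩
    have hw1 : ∀ z : F, v z ≤ 1 → v (z * S.w) ≤ 1 := fun z hz => by
      rw [map_mul, S.hw, mul_one]; exact hz
    have hsumv : v (c₀ + a + b) ≤ 1 := v.map_add_le (v.map_add_le hv₀ hva) hvb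
    have h1 : S.R.red (h j * S.w) = S.R.red ((c₀ + a + b) * S.w) := by
      rw [add_mul, add_mul,
        S.R.red_add _ _ (v.map_add_le (hw1 _ hv₀) (hw1 _ hva)) (hw1 _ hvb),
        S.R.red_add _ _ (hw1 _ hv₀) (hw1 _ hva), hr₀, hra, hrb, ← hsum, ← hsum', add_assoc]
    have h2 := S.R.sub_of_red_eq (hw1 _ (hON.1 j)) (hw1 _ hsumv) h1
    rw [← sub_mul, map_mul, S.hw, mul_one] at h2
    exact h2
  choose c₀ hc₀ a ha b hb hv₀ hva hvb hclose using key
  have hON' : IsON L v (fun j => c₀ j + a j + b j) :=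
    hON.perturb (fun j => v.map_add_le (v.map_add_le (hv₀ j) (hva j)) (hvb j)) hclose
  have hmem' : ∀ j, c₀ j + a j + b j ∈ S.M (N + 1) (N + 1) := fun j =>
    Submodule.add_mem _ (Submodule.add_mem _
      (MM_mono (Nat.le_succ _) (Nat.le_succ _) (hc₀ j))
      (MM_mono le_rfl (Nat.zero_le _) (ha j))) (MM_mono (Nat.zero_le _) le_rfl (hb j))
  have hV' : Submodule.span L (Set.range fun j => c₀ j + a j + b j) = S.M (N + 1) (N + 1) := by
    apply Submodule.eq_of_le_of_finrank_eq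
      (Submodule.span_le.mpr (by rintro _ ⟨j, rfl⟩; exact hmem' j))
    rw [finrank_span_eq_card hON'.linearIndependent, Fintype.card_fin, hON.card_eq_finrank hV]
  obtain ⟨e, he, hle⟩ := hON'.exists_repr hV' hc
  have he1 : ∀ j, v (algebraMap L F (e j)) ≤ 1 := fun j => (hle j).trans hv
  refine ⟨∑ j, e j • c₀ j, Submodule.sum_mem _ (fun j _ => Submodule.smul_mem _ _ (hc₀ j)),
    ∑ j, e j • a j, Submodule.sum_mem _ (fun j _ => Submodule.smul_mem _ _ (ha j)),
    ∑ j, e j • b j, Submodule.sum_mem _ (fun j _ => Submodule.smul_mem _ _ (hb j)),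
    val_sum_smul_le e c₀ he1 hv₀, val_sum_smul_le e a he1 hva, val_sum_smul_le e b he1 hvb, ?_⟩
  rw [he, ← Finset.sum_add_distrib, ← Finset.sum_add_distrib]
  apply Finset.sum_congr rfl
  intro j _
  rw [smul_add, smul_add]

/-- Integral Čech decomposition, iterated down to level `n₀`. -/
theorem decomp_iter {N : ℕ} (hN : S.n₀ ≤ N) : ∀ {c : F}, c ∈ S.M N N → v c ≤ 1 →
    ∃ c₀ ∈ S.M S.n₀ S.n₀, ∃ a ∈ S.M N 0, ∃ b ∈ S.M 0 N,
      v c₀ ≤ 1 ∧ v a ≤ 1 ∧ v b ≤ 1 ∧ c = c₀ + a + b := by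
  induction N, hN using Nat.le_induction with
  | base =>
    intro c hc hv
    exact ⟨c, hc, 0, Submodule.zero_mem _, 0, Submodule.zero_mem _, hv, by simp, by simp,
      by simp⟩
  | succ N hN ih =>
    intro c hc hv
    obtain ⟨c₁, hc₁, a₁, ha₁, b₁, hb₁, hv₁, hva₁, hvb₁, rfl⟩ := S.decomp_int hN hc hv
    obtain ⟨c₀, hc₀, a₀, ha₀, b₀, hb₀, hv₀, hva₀, hvb₀, rfl⟩ := ih hc₁ hv₁
    exact ⟨c₀, hc₀, a₀ + a₁, Submodule.add_mem _ (MM_mono (Nat.le_succ _) le_rfl ha₀) ha₁,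
      b₀ + b₁, Submodule.add_mem _ (MM_mono le_rfl (Nat.le_succ _) hb₀) hb₁, hv₀,
      v.map_add_le hva₀ hva₁, v.map_add_le hvb₀ hvb₁, by ring⟩

/-- At the base level the Čech differential is bounded below (if `L(D₀) = 0`). -/
theorem base_bound (h0 : S.M 0 0 = ⊥) :
    ∃ δ : F, δ ≠ 0 ∧ ∀ a ∈ S.M S.n₀ 0, ∀ b ∈ S.M 0 S.n₀, v δ * v a ≤ v (a - b) := by
  have hfd1 := S.finDim_M S.n₀ 0
  have hfd2 := S.finDim_M 0 S.n₀
  have hfd : FiniteDimensional L ↥(S.M S.n₀ 0 ⊔ S.M 0 S.n₀) := inferInstance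
  obtain ⟨s, h, hON, hV⟩ := S.cart _ hfd
  have key : ∀ j, ∃ a ∈ S.M S.n₀ 0, ∃ b ∈ S.M 0 S.n₀, a + b = h j := fun j =>
    Submodule.mem_sup.mp (hON.mem_span hV j)
  choose a ha b hb hab using key
  classical
  obtain ⟨δ, hδ, hscale⟩ := exists_scale v (Finset.univ.image a)
  refine ⟨δ, hδ, ?_⟩
  intro a' ha' b' hb'
  have hmem : a' - b' ∈ S.M S.n₀ 0 ⊔ S.M 0 S.n₀ := by
    rw [sub_eq_add_neg]
    exact Submodule.add_mem_sup ha' (Submodule.neg_mem _ hb')
  obtain ⟨c, hc, hle⟩ := hON.exists_repr hV hmem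
  have ha'eq : a' = ∑ j, c j • a j := by
    have hsplit : ∑ j, c j • h j = ∑ j, c j • a j + ∑ j, c j • b j := by
      rw [← Finset.sum_add_distrib]
      apply Finset.sum_congr rfl
      intro j _
      rw [← smul_add, hab j]
    rw [hsplit] at hc
    have h1 : a' - ∑ j, c j • a j = b' + ∑ j, c j • b j := by linear_combination hc
    have h2 : a' - ∑ j, c j • a j ∈ S.M S.n₀ 0 :=
      Submodule.sub_mem _ ha' (Submodule.sum_mem _ fun j _ => Submodule.smul_mem _ _ (ha j))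
    have h3 : a' - ∑ j, c j • a j ∈ S.M 0 S.n₀ := by
      rw [h1]
      exact Submodule.add_mem _ hb'
        (Submodule.sum_mem _ fun j _ => Submodule.smul_mem _ _ (hb j))
    have h4 : a' - ∑ j, c j • a j ∈ S.M 0 0 := MM_inf_le ⟨h2, h3⟩
    rw [h0, Submodule.mem_bot] at h4
    exact sub_eq_zero.mp h4
  rw [← map_mul]
  conv_lhs => rw [ha'eq, Finset.mul_sum]
  apply v.map_sum_le
  intro j _
  have e : δ * c j • a j = algebraMap L F (c j) * (δ * a j) := by
    rw [Algebra.smul_def]; ring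
  rw [e, map_mul]
  exact mul_le_of_le_of_le_one (hle j) (hscale _ (Finset.mem_image_of_mem a (Finset.mem_univ j)))

/-- Descent to the base level: an almost-cocycle at level `N` can be corrected to one at level
`n₀` without increasing `v (a - b)`. -/
theorem descent (h0 : S.M 0 0 = ⊥) {N : ℕ} (hN : S.n₀ ≤ N) {a b : F} (ha : a ∈ S.M N 0)
    (hb : b ∈ S.M 0 N) (hva : v a = 1) (hab : v (a - b) < 1) :
    ∃ a' ∈ S.M S.n₀ 0, ∃ b' ∈ S.M 0 S.n₀, v a' = 1 ∧ v (a' - b') ≤ v (a - b) := by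
  have ht : a - b ≠ 0 := by
    intro h
    have hab' : a = b := sub_eq_zero.mp h
    have h1 : a ∈ S.M 0 0 := MM_inf_le ⟨ha, hab' ▸ hb⟩
    rw [h0, Submodule.mem_bot] at h1
    rw [h1, map_zero] at hva
    exact zero_ne_one hva
  obtain ⟨τ, hτ⟩ := S.cart.exists_scalar ht
  have hτ0 : algebraMap L F τ ≠ 0 := by
    intro h
    rw [h, map_zero] at hτ
    exact ht ((v.zero_iff).mp hτ.symm)
  have hτ0' : τ ≠ 0 := fun h => hτ0 (by rw [h, map_zero])
  have hcmem : τ⁻¹ • (a - b) ∈ S.M N N :=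
    Submodule.smul_mem _ _ (Submodule.sub_mem _ (MM_mono le_rfl (Nat.zero_le _) ha)
      (MM_mono (Nat.zero_le _) le_rfl hb))
  have hcv : v (τ⁻¹ • (a - b)) ≤ 1 := by
    rw [Algebra.smul_def, map_mul, map_inv₀, map_inv₀, hτ,
      inv_mul_cancel₀ ((v.ne_zero_iff).mpr ht)]
  obtain ⟨c₀, hc₀, a₁, ha₁, b₁, hb₁, hv₀, hva₁, hvb₁, hdec⟩ := S.decomp_iter hN hcmem hcv
  have hsub : (a - τ • a₁) - (b + τ • b₁) = τ • c₀ := by
    have h1 : τ • (τ⁻¹ • (a - b)) = a - b := by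
      rw [smul_smul, mul_inv_cancel₀ hτ0', one_smul]
    rw [hdec, smul_add, smul_add] at h1
    linear_combination -h1
  have ha'' : a - τ • a₁ ∈ S.M N 0 := Submodule.sub_mem _ ha (Submodule.smul_mem _ _ ha₁)
  have hb'' : b + τ • b₁ ∈ S.M 0 N := Submodule.add_mem _ hb (Submodule.smul_mem _ _ hb₁)
  have hτc₀ : (a - τ • a₁) - (b + τ • b₁) ∈ S.M S.n₀ S.n₀ := by
    rw [hsub]
    exact Submodule.smul_mem _ _ hc₀
  obtain ⟨h1, h2⟩ := MM_pole ha'' hb'' hτc₀
  refine ⟨_, h1, _, h2, ?_, ?_⟩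
  · have hlt : v (τ • a₁) < v a := by
      rw [Algebra.smul_def, map_mul, hτ, hva]
      exact lt_of_le_of_lt (mul_le_of_le_of_le_one le_rfl hva₁) hab
    rw [v.map_sub_eq_of_lt_left hlt, hva]
  · rw [hsub, Algebra.smul_def, map_mul, hτ]
    exact mul_le_of_le_of_le_one le_rfl hv₀

theorem m_ne : (S.m : F) ≠ 0 := by
  intro h
  have := S.hmv
  rw [h, map_zero] at this
  exact zero_ne_one this

theorem val_of_sub_one {z : F} (h : v (z - 1) < 1) : v z = 1 := by
  have := v.map_one_add_of_lt h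
  rwa [add_sub_cancel] at this

theorem val_pow_sub_one {z : F} (h : v (z - 1) < 1) (n : ℕ) : v (z ^ n - 1) < 1 := by
  have hz : v z = 1 := val_of_sub_one h
  have e : z ^ n - 1 = (∑ i ∈ Finset.range n, z ^ i) * (z - 1) := (geom_sum_mul z n).symm
  rw [e, map_mul]
  have h1 : v (∑ i ∈ Finset.range n, z ^ i) ≤ 1 :=
    v.map_sum_le fun i _ => by rw [map_pow, hz, one_pow]
  exact lt_of_le_of_lt (mul_le_of_le_one_left' h1) h

/-- If `a w ≡ 1` then `a^m u ≡ 1`. -/
theorem err_lt_one {a : F} (h : v (a * S.w - 1) < 1) : v (a ^ S.m * S.u - 1) < 1 := by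
  have haw : v (a * S.w) = 1 := val_of_sub_one h
  have hva : v a = 1 := by rwa [map_mul, S.hw, mul_one] at haw
  have e : a ^ S.m * S.u - 1 = a ^ S.m * (S.u - S.w ^ S.m) + ((a * S.w) ^ S.m - 1) := by ring
  rw [e]
  apply v.map_add_lt
  · rw [map_mul, map_pow, hva, one_pow, one_mul]
    exact S.huw
  · exact val_pow_sub_one h _

/-- One Newton step squares the error. -/
theorem newton_val {a : F} (h : v (a * S.w - 1) < 1) :
    v (a * (1 - (a ^ S.m * S.u - 1) / S.m) * S.w - 1) < 1 ∧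
      v ((a * (1 - (a ^ S.m * S.u - 1) / S.m)) ^ S.m * S.u - 1) ≤
        v (a ^ S.m * S.u - 1) ^ 2 := by
  have haw : v (a * S.w) = 1 := val_of_sub_one h
  have hε := S.err_lt_one h
  have hy : v ((a ^ S.m * S.u - 1) / S.m) = v (a ^ S.m * S.u - 1) := by
    rw [map_div₀, S.hmv, div_one]
  obtain ⟨s, hs, hexp⟩ := one_sub_pow_expand v (hy ▸ hε.le) S.m
  have hmy : (S.m : F) * ((a ^ S.m * S.u - 1) / S.m) = a ^ S.m * S.u - 1 :=
    mul_div_cancel₀ _ S.m_ne
  constructor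
  · have e : a * (1 - (a ^ S.m * S.u - 1) / S.m) * S.w - 1 =
        (a * S.w - 1) - a * S.w * ((a ^ S.m * S.u - 1) / S.m) := by ring
    rw [e]
    apply v.map_sub_lt h
    rw [map_mul, haw, one_mul, hy]
    exact hε
  · have e : (a * (1 - (a ^ S.m * S.u - 1) / S.m)) ^ S.m * S.u - 1 =
        ((a ^ S.m * S.u - 1) / S.m) ^ 2 *
          (s * (1 + S.m * ((a ^ S.m * S.u - 1) / S.m)) - (S.m : F) ^ 2) := by
      have h1 : a ^ S.m * S.u = 1 + S.m * ((a ^ S.m * S.u - 1) / S.m) := by rw [hmy]; ring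
      rw [mul_pow, hexp]
      calc a ^ S.m * (1 - ↑S.m * ((a ^ S.m * S.u - 1) / ↑S.m) +
              ((a ^ S.m * S.u - 1) / ↑S.m) ^ 2 * s) * S.u - 1
          = (a ^ S.m * S.u) * (1 - ↑S.m * ((a ^ S.m * S.u - 1) / ↑S.m) +
              ((a ^ S.m * S.u - 1) / ↑S.m) ^ 2 * s) - 1 := by ring
        _ = (1 + S.m * ((a ^ S.m * S.u - 1) / S.m)) *
              (1 - ↑S.m * ((a ^ S.m * S.u - 1) / ↑S.m) +
              ((a ^ S.m * S.u - 1) / ↑S.m) ^ 2 * s) - 1 := by rw [← h1]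
        _ = _ := by ring
    rw [e, map_mul, map_pow, hy]
    apply mul_le_of_le_of_le_one le_rfl
    apply v.map_sub_le
    · rw [map_mul]
      apply Left.mul_le_one hs
      apply v.map_add_le (le_of_eq v.map_one)
      rw [hmy]
      exact hε.le
    · rw [map_pow, S.hmv, one_pow]

/-- Newton approximation in a chart: the error can be made smaller than any given `v δ`. -/
theorem approx (P : ℕ → Submodule L F)
    (hP : ∀ N a, a ∈ P N → a * (1 - (a ^ S.m * S.u - 1) / S.m) ∈ P ((S.m + 1) * N))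
    {N₀ : ℕ} {a₀ : F} (ha₀ : a₀ ∈ P N₀) (hr : v (a₀ * S.w - 1) < 1) {δ : F} (hδ : δ ≠ 0) :
    ∃ N a, a ∈ P N ∧ v (a * S.w - 1) < 1 ∧ v (a ^ S.m * S.u - 1) < v δ := by
  have hε₀ := S.err_lt_one hr
  have iter : ∀ i : ℕ, ∃ N a, a ∈ P N ∧ v (a * S.w - 1) < 1 ∧
      v (a ^ S.m * S.u - 1) ≤ v (a₀ ^ S.m * S.u - 1) ^ (2 ^ i) := by
    intro i
    induction i with
    | zero => exact ⟨N₀, a₀, ha₀, hr, by simp⟩
    | succ i ih =>
      obtain ⟨N, a, ha, har, hae⟩ := ih
      obtain ⟨h1, h2⟩ := S.newton_val har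
      refine ⟨_, _, hP N a ha, h1, h2.trans ?_⟩
      have e : v (a₀ ^ S.m * S.u - 1) ^ 2 ^ (i + 1) =
          (v (a₀ ^ S.m * S.u - 1) ^ 2 ^ i) ^ 2 := by
        rw [← pow_mul, pow_succ]
      rw [e]
      exact pow_le_pow_left' hae 2
  obtain ⟨n, hn⟩ := S.arch _ δ hε₀ hδ
  obtain ⟨N, a, ha, har, hae⟩ := iter n
  refine ⟨N, a, ha, har, lt_of_le_of_lt (hae.trans ?_) hn⟩
  exact pow_le_pow_right_of_le_one' hε₀.le (Nat.lt_two_pow_self).le

theorem red_natCast (n : ℕ) : S.R.red (n : F) = (n : Fb) := by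
  induction n with
  | zero => simp [S.R.red_zero]
  | succ n ih =>
    rw [Nat.cast_succ, S.R.red_add _ _ (val_natCast_le_one v n) (le_of_eq v.map_one), ih,
      S.R.red_one, Nat.cast_succ]

/-- **Kummer core.** Under the hypotheses bundled in `Setup`, `L(D₀) ≠ 0`: there is `f ≠ 0` with
`f^m u` integral over both `L[x]` and `L[x⁻¹]`. -/
theorem main : ∃ f : F, f ≠ 0 ∧ f ∈ S.M 0 0 := by
  by_contra hne
  have h0 : S.M 0 0 = ⊥ := by
    rw [Submodule.eq_bot_iff]
    intro f hf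
    by_contra hf0
    exact hne ⟨f, hf0, hf⟩
  obtain ⟨δ, hδ, hbound⟩ := S.base_bound h0
  -- base lifts of `wbar⁻¹` in both charts
  have h1mem : (1 : Fb) ∈ S.Λ S.n₀ 0 := by
    rw [S.mem_Λ]
    refine ⟨?_, ?_⟩
    · rw [pow_zero, mul_one]; exact isIntegral_one
    · rw [one_mul]; exact (isIntegral_self_adjoin _).pow _
  have h1mem' : (1 : Fb) ∈ S.Λ 0 S.n₀ := by
    rw [S.mem_Λ]
    refine ⟨?_, ?_⟩
    · rw [one_mul]; exact (isIntegral_self_adjoin _).pow _
    · rw [pow_zero, mul_one]; exact isIntegral_one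
  obtain ⟨a₀, ha₀, hva₀, hra₀⟩ := S.lift le_rfl h1mem
  obtain ⟨b₀, hb₀, hvb₀, hrb₀⟩ := S.lift2 (by omega : S.n₀ ≤ 0 + S.n₀) h1mem'
  have hw1 : ∀ z : F, v z ≤ 1 → v (z * S.w) ≤ 1 := fun z hz => by
    rw [map_mul, S.hw, mul_one]; exact hz
  have ha₀' : v (a₀ * S.w - 1) < 1 :=
    S.R.sub_of_red_eq (hw1 _ hva₀) (le_of_eq v.map_one) (by rw [hra₀, S.R.red_one])
  have hb₀' : v (b₀ * S.w - 1) < 1 :=
    S.R.sub_of_red_eq (hw1 _ hvb₀) (le_of_eq v.map_one) (by rw [hrb₀, S.R.red_one])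
  obtain ⟨N₁, a, ha, har, hae⟩ :=
    S.approx (fun N => S.M N 0) (fun N a h => MM_newton h) ha₀ ha₀' hδ
  obtain ⟨N₂, b, hb, hbr, hbe⟩ :=
    S.approx (fun N => S.M 0 N) (fun N b h => by
      have h' : b ∈ MM L S.x⁻¹ S.u S.m S.hm N 0 := by rw [MM_inv]; exact h
      have h'' := MM_newton h'
      rwa [MM_inv] at h'') hb₀ hb₀' hδ
  have ha' : a ∈ S.M (max (max N₁ N₂) S.n₀) 0 :=
    MM_mono ((le_max_left _ _).trans (le_max_left _ _)) le_rfl ha
  have hb' : b ∈ S.M 0 (max (max N₁ N₂) S.n₀) :=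
    MM_mono le_rfl ((le_max_right _ _).trans (le_max_left _ _)) hb
  have haw : v (a * S.w) = 1 := val_of_sub_one har
  have hbw : v (b * S.w) = 1 := val_of_sub_one hbr
  have hva : v a = 1 := by rwa [map_mul, S.hw, mul_one] at haw
  have hvb : v b = 1 := by rwa [map_mul, S.hw, mul_one] at hbw
  -- `a - b` is small
  have hab1 : v (a - b) < 1 := by
    have e : (a - b) * S.w = (a * S.w - 1) - (b * S.w - 1) := by ring
    have h1 : v ((a - b) * S.w) < 1 := by rw [e]; exact v.map_sub_lt har hbr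
    rwa [map_mul, S.hw, mul_one] at h1
  have hG : v (∑ i ∈ Finset.range S.m, a ^ i * b ^ (S.m - 1 - i)) = 1 := by
    have hGle : v (∑ i ∈ Finset.range S.m, a ^ i * b ^ (S.m - 1 - i)) ≤ 1 :=
      v.map_sum_le fun i _ => by rw [map_mul, map_pow, map_pow, hva, hvb, one_pow, one_pow, one_mul]
    have hred : S.R.red ((∑ i ∈ Finset.range S.m, a ^ i * b ^ (S.m - 1 - i)) * S.w ^ (S.m - 1)) =
        (S.m : Fb) := by
      have hra : S.R.red (a * S.w) = 1 := by
        rw [← S.R.red_one]; exact S.R.red_eq_of_sub haw.le (le_of_eq v.map_one) har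
      have hrb : S.R.red (b * S.w) = 1 := by
        rw [← S.R.red_one]; exact S.R.red_eq_of_sub hbw.le (le_of_eq v.map_one) hbr
      have e : (∑ i ∈ Finset.range S.m, a ^ i * b ^ (S.m - 1 - i)) * S.w ^ (S.m - 1) =
          ∑ i ∈ Finset.range S.m, (a * S.w) ^ i * (b * S.w) ^ (S.m - 1 - i) := by
        rw [Finset.sum_mul]
        apply Finset.sum_congr rfl
        intro i hi
        have hi' : i + (S.m - 1 - i) = S.m - 1 := by
          have := Finset.mem_range.mp hi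
          omega
        rw [mul_pow, mul_pow]
        calc a ^ i * b ^ (S.m - 1 - i) * S.w ^ (S.m - 1)
            = a ^ i * b ^ (S.m - 1 - i) * S.w ^ (i + (S.m - 1 - i)) := by rw [hi']
          _ = a ^ i * S.w ^ i * (b ^ (S.m - 1 - i) * S.w ^ (S.m - 1 - i)) := by
              rw [pow_add]; ring
      rw [e, S.R.red_sum]
      · have : ∀ i ∈ Finset.range S.m,
            S.R.red ((a * S.w) ^ i * (b * S.w) ^ (S.m - 1 - i)) = 1 := by
          intro i _
          rw [S.R.red_mul _ _ (by rw [map_pow, haw, one_pow]) (by rw [map_pow, hbw, one_pow]),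
            S.R.red_pow haw.le, S.R.red_pow hbw.le, hra, hrb, one_pow, one_pow, one_mul]
        rw [Finset.sum_congr rfl this]
        simp
      · intro i _
        rw [map_mul, map_pow, map_pow, haw, hbw, one_pow, one_pow, one_mul]
    have hGw : v ((∑ i ∈ Finset.range S.m, a ^ i * b ^ (S.m - 1 - i)) * S.w ^ (S.m - 1)) ≤ 1 := by
      rw [map_mul, map_pow, S.hw, one_pow, mul_one]; exact hGle
    have hne0 : S.R.red ((∑ i ∈ Finset.range S.m, a ^ i * b ^ (S.m - 1 - i)) * S.w ^ (S.m - 1))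
        ≠ 0 := by
      rw [hred, ← S.red_natCast]
      exact S.R.red_ne_zero S.hmv
    have hnlt : ¬ v ((∑ i ∈ Finset.range S.m, a ^ i * b ^ (S.m - 1 - i)) * S.w ^ (S.m - 1)) < 1 :=
      fun h => hne0 ((S.R.red_eq_zero _ hGw).mpr h)
    have h1 := le_antisymm hGw (not_lt.mp hnlt)
    rwa [map_mul, map_pow, S.hw, one_pow, mul_one] at h1
  have hab : v (a - b) < v δ := by
    have e1 : (∑ i ∈ Finset.range S.m, a ^ i * b ^ (S.m - 1 - i)) * (a - b) = a ^ S.m - b ^ S.m :=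
      (Commute.all a b).geom_sum₂_mul S.m
    have e2 : (a ^ S.m - b ^ S.m) * S.u = (a ^ S.m * S.u - 1) - (b ^ S.m * S.u - 1) := by ring
    have h1 : v ((a ^ S.m - b ^ S.m) * S.u) < v δ := by
      rw [e2]; exact v.map_sub_lt hae hbe
    rw [← e1, map_mul, map_mul, hG, one_mul, S.hu, mul_one] at h1
    exact h1
  obtain ⟨a', ha'', b', hb'', hva', hle⟩ :=
    S.descent h0 (le_max_right _ _) ha' hb' hva hab1
  have hfin := hbound a' ha'' b' hb''
  rw [hva', mul_one] at hfin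
  exact absurd (lt_of_le_of_lt (hfin.trans hle) hab) (lt_irrefl _)

end Setup

/-- **Kummer core**, unbundled statement.

`L ⊆ F` fields, `v` a valuation on `F` with residue data `R` (residue field `Fb ⊇ k`),
`x, u, w` units of the valuation ring, `m > 0` a unit of the valuation ring, `u ≡ w^m`.
Assume the valuation is cartesian (`hcart`) and of rank one (`harch`), integrality over `L[x]`
and `L[x⁻¹]` passes to the residue field (`hT₁`, `hT₂`), the spaces
`L(D₀ + n X_∞) = {f | f^m u ∈ O(X \ X_∞), f^m u x^(-mn) ∈ O(X \ X_0)}` have dimension at least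
`n d + 1 - γ` (`hRF`) and the spaces `Lbar(n X_∞)` on the special fibre have dimension at most
`n d + 1 - γ` (`hRk`), for all `n ≥ n₀`.  Then there is `f ≠ 0` with `f^m u` integral over both
`L[x]` and `L[x⁻¹]` (so `f^m u` is a "constant", and `D₀ = -div f` is principal). -/
theorem kummer_core (R : ResData L v k Fb) (x u w : F) (m : ℕ) (hm : 0 < m) (d γ : ℤ) (n₀ : ℕ)
    (hx : v x = 1) (hu : v u = 1) (hw : v w = 1) (hmv : v (m : F) = 1)
    (huw : v (u - w ^ m) < 1) (hcart : Cartesian L v)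
    (harch : ∀ a b : F, v a < 1 → b ≠ 0 → ∃ n : ℕ, v a ^ n < v b)
    (hT₁ : ∀ g : F, v g ≤ 1 → IsIntegral (Algebra.adjoin L {x}) g →
      IsIntegral (Algebra.adjoin k {R.red x}) (R.red g))
    (hT₂ : ∀ g : F, v g ≤ 1 → IsIntegral (Algebra.adjoin L {x⁻¹}) g →
      IsIntegral (Algebra.adjoin k {(R.red x)⁻¹}) (R.red g))
    (hRF : ∀ n, n₀ ≤ n → ∃ (r : ℕ) (f : Fin r → F), (∀ i, f i ∈ MM L x u m hm n 0) ∧
      LinearIndependent L f ∧ (n : ℤ) * d + 1 - γ ≤ r)
    (hRk : ∀ n, n₀ ≤ n → ∀ (r : ℕ) (g : Fin r → Fb),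
      (∀ i, g i ∈ MM k (R.red x) 1 1 Nat.one_pos n 0) → LinearIndependent k g →
      (r : ℤ) ≤ (n : ℤ) * d + 1 - γ) :
    ∃ f : F, f ≠ 0 ∧ IsIntegral (Algebra.adjoin L {x}) (f ^ m * u) ∧
      IsIntegral (Algebra.adjoin L {x⁻¹}) (f ^ m * u) := by
  obtain ⟨f, hf0, hf⟩ := Setup.main
    (⟨R, x, u, w, m, hm, d, γ, n₀, hx, hu, hw, hmv, huw, hcart, harch, hT₁, hT₂, hRF, hRk⟩ :
      Setup L v k Fb)
  refine ⟨f, hf0, ?_, ?_⟩
  · have := hf.1
    rwa [Nat.mul_zero, pow_zero, mul_one] at this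
  · have := hf.2
    rwa [Nat.mul_zero, pow_zero, mul_one] at this

end Core

end Fermat.Agent.S18.helper7178
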