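/-
S18, track C, [C4] `Stmt_Bbar`, field `ct`: the charpoly reduction on the line `t_r`
(helper7261).

`lineCharpolyRed` : the Prop `LineCharpolyRed N A y` (the ONE hypothesis of
`ct_of_lineCharpolyRed`) from `helper1446.exists_line_basis_series` (a subfamily of the Gauss
basis is a basis over `L(t)` and over `κ(t̄)`, with an `A[X]`-matrix of multiplication).

Linear algebra (Mathlib only): `charpoly_coeff_of_poly_matrix` — if `b` is a `K(t)`-basis of `F`
in polynomial form and `Q(t) * (x * b i) = ∑ M i k (t) * b k`, then the `i`-th coefficient of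
the characteristic polynomial of `x` over `K(t)` is `(M.charpoly.coeff i)(t) / Q(t) ^ (n - i)`.
Applied on both fibres with the SAME `M`, `Q` over `A[X]` (`Matrix.charpoly_map`).
-/
import Fermat.Agent.S18.helper7261_BbarCTMod
import Fermat.Agent.S18.helper1446_LineBasis
import Fermat.Agent.S18.helper4665_TLineInst

set_option autoImplicit false
set_option synthInstance.maxHeartbeats 400000

noncomputable section

namespace Fermat.Agent.S18.helper7261

open Polynomial IntermediateField ModularCurve

/-! ## Linear algebra -/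

theorem charpoly_smul_comp {R : Type*} [CommRing R] {n : Type*} [Fintype n] [DecidableEq n]
    (c : R) (M : Matrix n n R) :
    (c • M).charpoly.comp (C c * X) = C c ^ Fintype.card n * M.charpoly := by
  have h : ∀ i j, ((c • M).charmatrix i j).comp (C c * X) = C c * M.charmatrix i j := by
    intro i j
    by_cases hij : i = j
    · subst hij
      rw [Matrix.charmatrix_apply_eq, Matrix.charmatrix_apply_eq]
      simp only [Matrix.smul_apply, smul_eq_mul, sub_comp, X_comp, C_comp]
      rw [C_mul, mul_sub]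
    · rw [Matrix.charmatrix_apply_ne _ _ _ hij, Matrix.charmatrix_apply_ne _ _ _ hij]
      simp only [Matrix.smul_apply, smul_eq_mul, neg_comp, C_comp]
      rw [C_mul, mul_neg]
  simp_rw [Matrix.charpoly, Matrix.det_apply, Polynomial.sum_comp, Polynomial.smul_comp,
    Polynomial.prod_comp, h, Finset.prod_mul_distrib, Finset.prod_const, Finset.card_univ,
    Finset.mul_sum]
  refine Finset.sum_congr rfl fun σ _ => ?_
  rw [mul_smul_comm]

/-- Coefficients of the characteristic polynomial of a scalar multiple. -/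
theorem charpoly_smul_coeff {R : Type*} [CommRing R] {n : Type*} [Fintype n] [DecidableEq n]
    (c : R) (M : Matrix n n R) (i : ℕ) :
    (c • M).charpoly.coeff i * c ^ i = c ^ Fintype.card n * M.charpoly.coeff i := by
  have h := congrArg (fun p : R[X] => p.coeff i) (charpoly_smul_comp c M)
  simp only [comp_C_mul_X_coeff, ← C_pow, coeff_C_mul] at h
  exact h

section LineAlgebra

open scoped IntermediateField.algebraAdjoinAdjoin

variable {K F : Type*} [Field K] [Field F] [Algebra K F] {t : F} {n : ℕ} {b : Fin n → F}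

theorem algebraMap_aeval_gen (p : K[X]) :
    algebraMap K⟮t⟯ F (aeval (AdjoinSimple.gen K t) p) = aeval t p := by
  rw [← aeval_algebraMap_apply, AdjoinSimple.algebraMap_gen]

/-- Polynomial-form independence gives `K(t)`-linear independence. -/
theorem linearIndependent_adjoin_of_poly
    (hind : ∀ P : Fin n → K[X], ∑ i, aeval t (P i) * b i = 0 → P = 0) :
    LinearIndependent K⟮t⟯ b := by
  have h1 : LinearIndependent (Algebra.adjoin K {t}) b := by
    rw [Fintype.linearIndependent_iff]
    intro g hg i
    have hex : ∀ i, ∃ P : K[X], aeval t P = (g i : F) := fun i => by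
      have h : (g i : F) ∈ (aeval t : K[X] →ₐ[K] F).range := by
        rw [← Algebra.adjoin_singleton_eq_range_aeval]
        exact (g i).2
      exact h
    choose P hP using hex
    have h0 : ∑ i, aeval t (P i) * b i = 0 := by
      rw [← hg]
      refine Finset.sum_congr rfl fun i _ => ?_
      rw [hP i]
      rfl
    have hP0 := hind P h0
    apply Subtype.ext
    rw [← hP i, hP0]
    simp
  exact (LinearIndependent.iff_fractionRing (Algebra.adjoin K {t}) K⟮t⟯).mp h1

/-- Polynomial-form spanning gives `K(t)`-spanning. -/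
theorem span_adjoin_eq_top_of_poly (htr : Transcendental K t)
    (hspan : ∀ f : F, ∃ (Q : K[X]) (P : Fin n → K[X]), Q ≠ 0 ∧
      aeval t Q * f = ∑ i, aeval t (P i) * b i) :
    ⊤ ≤ Submodule.span K⟮t⟯ (Set.range b) := by
  intro f _
  obtain ⟨Q, P, hQ, h⟩ := hspan f
  have hq : aeval t Q ≠ 0 := fun h0 =>
    hQ ((transcendental_iff_injective.mp htr) (h0.trans (map_zero _).symm))
  have hq' : aeval (AdjoinSimple.gen K t) Q ≠ 0 := by
    intro h0
    apply hq
    rw [← algebraMap_aeval_gen, h0, map_zero]
  have hf : f = (aeval (AdjoinSimple.gen K t) Q)⁻¹ •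
      ∑ i, aeval (AdjoinSimple.gen K t) (P i) • b i := by
    rw [eq_inv_smul_iff₀ hq', Algebra.smul_def, algebraMap_aeval_gen, h]
    refine Finset.sum_congr rfl fun i _ => ?_
    rw [Algebra.smul_def, algebraMap_aeval_gen]
  rw [hf]
  exact Submodule.smul_mem _ _ (Submodule.sum_mem _ fun i _ =>
    Submodule.smul_mem _ _ (Submodule.subset_span ⟨i, rfl⟩))

/-- **(P1) The characteristic polynomial from a polynomial multiplication matrix.**
`b` a family of `F` which is a `K(t)`-basis in polynomial form, `x ∈ F` with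
`Q(t) * (x * b i) = ∑ M i k (t) * b k`, `Q ≠ 0`, `M` a matrix over `K[X]`.  Then the `i`-th
coefficient of the characteristic polynomial of `x` over `K(t)` is
`(M.charpoly.coeff i)(t) / Q(t) ^ (n - i)`. -/
theorem charpoly_coeff_of_poly_matrix (htr : Transcendental K t)
    (hind : ∀ P : Fin n → K[X], ∑ i, aeval t (P i) * b i = 0 → P = 0)
    (hspan : ∀ f : F, ∃ (Q : K[X]) (P : Fin n → K[X]), Q ≠ 0 ∧
      aeval t Q * f = ∑ i, aeval t (P i) * b i)
    [FiniteDimensional K⟮t⟯ F] (x : F) (Q : K[X]) (hQ : Q ≠ 0)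
    (M : Matrix (Fin n) (Fin n) K[X])
    (hM : ∀ i, aeval t Q * (x * b i) = ∑ k, aeval t (M i k) * b k) (i : ℕ) :
    algebraMap K⟮t⟯ F ((LinearMap.charpoly (Algebra.lmul K⟮t⟯ F x)).coeff i) *
      aeval t (Q ^ (n - i)) = aeval t (M.charpoly.coeff i) := by
  classical
  set g := AdjoinSimple.gen K t with hg
  set φ : K[X] →+* K⟮t⟯ := ((aeval g : K[X] →ₐ[K] K⟮t⟯) : K[X] →+* K⟮t⟯) with hφ
  have hφF : ∀ p : K[X], algebraMap K⟮t⟯ F (φ p) = aeval t p := fun p => algebraMap_aeval_gen p
  set bb : Module.Basis (Fin n) K⟮t⟯ F :=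
    Module.Basis.mk (linearIndependent_adjoin_of_poly hind) (span_adjoin_eq_top_of_poly htr hspan)
    with hbb
  have hbbi : ∀ i, bb i = b i := fun i => by rw [hbb, Module.Basis.coe_mk]
  have hq : aeval t Q ≠ 0 := fun h0 =>
    hQ ((transcendental_iff_injective.mp htr) (h0.trans (map_zero _).symm))
  have hq' : φ Q ≠ 0 := by
    intro h0
    apply hq
    rw [← hφF, h0, map_zero]
  -- the matrix of multiplication by `x`
  have hmat : LinearMap.toMatrix bb bb (Algebra.lmul K⟮t⟯ F x) =
      ((φ Q)⁻¹ • M.map φ).transpose := by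
    ext k j
    rw [LinearMap.toMatrix_apply, Matrix.transpose_apply, Matrix.smul_apply, Matrix.map_apply,
      smul_eq_mul]
    have hxb : Algebra.lmul K⟮t⟯ F x (bb j) = ∑ k, ((φ Q)⁻¹ * φ (M j k)) • bb k := by
      rw [Algebra.coe_lmul_eq_mul, LinearMap.mul_apply', hbbi]
      have h1 : x * b j = (φ Q)⁻¹ • ∑ k, φ (M j k) • b k := by
        rw [eq_inv_smul_iff₀ hq', Algebra.smul_def, hφF, hM j]
        refine Finset.sum_congr rfl fun k _ => ?_
        rw [Algebra.smul_def, hφF]
      rw [h1, Finset.smul_sum]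
      refine Finset.sum_congr rfl fun k _ => ?_
      rw [smul_smul, hbbi]
    rw [hxb, Module.Basis.repr_sum_self]
  have hchar : LinearMap.charpoly (Algebra.lmul K⟮t⟯ F x) = ((φ Q)⁻¹ • M.map φ).charpoly := by
    rw [← LinearMap.charpoly_toMatrix (Algebra.lmul K⟮t⟯ F x) bb, hmat, Matrix.charpoly_transpose]
  have hscale := charpoly_smul_coeff (φ Q) ((φ Q)⁻¹ • M.map φ) i
  rw [smul_smul, mul_inv_cancel₀ hq', one_smul, Fintype.card_fin, Matrix.charpoly_map, coeff_map,
    ← hchar] at hscale
  -- `hscale : φ (M.charpoly.coeff i) * φ Q ^ i = φ Q ^ n * charpoly.coeff i`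
  have key : (LinearMap.charpoly (Algebra.lmul K⟮t⟯ F x)).coeff i * φ (Q ^ (n - i)) =
      φ (M.charpoly.coeff i) := by
    rcases le_or_gt i n with hin | hin
    · apply mul_right_cancel₀ (pow_ne_zero i hq')
      rw [hscale, map_pow, mul_assoc, ← pow_add, Nat.sub_add_cancel hin, mul_comm]
    · have hM0 : M.charpoly.coeff i = 0 := by
        apply coeff_eq_zero_of_natDegree_lt
        rw [Matrix.charpoly_natDegree_eq_dim, Fintype.card_fin]
        exact hin
      rw [hM0, map_zero, zero_mul] at hscale
      have hc0 : (LinearMap.charpoly (Algebra.lmul K⟮t⟯ F x)).coeff i = 0 :=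
        (mul_eq_zero.mp hscale.symm).resolve_left (pow_ne_zero n hq')
      rw [hc0, zero_mul, hM0, map_zero]
  rw [← hφF, ← hφF, ← map_mul, key]

/-- `charpoly_coeff_of_poly_matrix` with the hypotheses stated in an overfield `Ω ⊇ F`
(series-level form of `helper1446.exists_line_basis_series`). -/
theorem charpoly_coeff_of_poly_matrix_emb {K Ω F : Type*} [Field K] [Field Ω] [Algebra K Ω]
    [Field F] [Algebra K F] (ι : F →ₐ[K] Ω) (t : F) (htr : Transcendental K (ι t)) {n : ℕ}
    (b : Fin n → Ω) (hb : ∀ i, ∃ c : F, ι c = b i)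
    (hind : ∀ P : Fin n → K[X], ∑ i, aeval (ι t) (P i) * b i = 0 → P = 0)
    (hspan : ∀ f : F, ∃ (Q : K[X]) (P : Fin n → K[X]), Q ≠ 0 ∧
      aeval (ι t) Q * ι f = ∑ i, aeval (ι t) (P i) * b i)
    [FiniteDimensional K⟮t⟯ F] (x : F) (Q : K[X]) (hQ : Q ≠ 0)
    (M : Matrix (Fin n) (Fin n) K[X])
    (hM : ∀ i, aeval (ι t) Q * (ι x * b i) = ∑ k, aeval (ι t) (M i k) * b k) (i : ℕ) :
    algebraMap K⟮t⟯ F ((LinearMap.charpoly (Algebra.lmul K⟮t⟯ F x)).coeff i) *
      aeval t (Q ^ (n - i)) = aeval t (M.charpoly.coeff i) := by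
  choose c hc using hb
  have hinj : Function.Injective ι := ι.toRingHom.injective
  have hsum : ∀ P : Fin n → K[X],
      ι (∑ i, aeval t (P i) * c i) = ∑ i, aeval (ι t) (P i) * b i := by
    intro P
    rw [map_sum]
    refine Finset.sum_congr rfl fun i _ => ?_
    rw [map_mul, ← aeval_algHom_apply, hc]
  refine charpoly_coeff_of_poly_matrix (b := c) ?_ ?_ ?_ x Q hQ M ?_ i
  · intro halg
    apply htr
    obtain ⟨p, hp, h0⟩ := halg
    exact ⟨p, hp, by rw [aeval_algHom_apply, h0, map_zero]⟩
  · intro P hP
    apply hind P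
    rw [← hsum P, hP, map_zero]
  · intro f
    obtain ⟨Q', P', hQ', h⟩ := hspan f
    refine ⟨Q', P', hQ', hinj ?_⟩
    rw [hsum P', map_mul, ← aeval_algHom_apply]
    exact h
  · intro j
    apply hinj
    rw [hsum, map_mul, map_mul, ← aeval_algHom_apply, hc]
    exact hM j

end LineAlgebra

/-! ## The modular instance -/

section Instance

variable (N : ℕ) [NeZero N] (ℓ : ℕ) [Fact ℓ.Prime] (hℓN : ¬ ℓ ∣ N)
variable {L : Type*} [Field L] [Algebra ℚ L] (A : ValuationSubring L) (hA : (ℓ : L) ∈ A.nonunits)

include hℓN hA in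
/-- **(CPR) on a line `t` with `j ∈ L(t)`**: `LineCharpolyRed N A y` for every `A`-integral
line parameter `y` with transcendental reduction. -/
theorem lineCharpolyRed (y : LaurentSeries A)
    (hy : coeffMap A.subtype y ∈ laurentBaseChange L (modularFunctionFieldFull N))
    (htr : Transcendental (IsLocalRing.ResidueField A) (coeffMap (IsLocalRing.residue A) y))
    (hj : helper1733.gaussJ L N ∈
      L⟮(⟨coeffMap A.subtype y, hy⟩ : ↥(laurentBaseChange L (modularFunctionFieldFull N)))⟯) :
    LineCharpolyRed N A y := by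
  classical
  obtain ⟨b, hbmem, hIND0, hSPAN0, hINDk, hSPANk, -, hMAT⟩ :=
    helper1446.exists_line_basis_series N ℓ hℓN A hA y hy htr hj
  intro t tb ht htb _ _ x x₀ xb hx₀ hxb i
  obtain ⟨Q, M, hQ, hMrel⟩ := hMAT x (hx₀ ▸ x₀.2)
  have htrL : Transcendental L (coeffMap A.subtype y) :=
    transcendental_iff.mpr fun S hS =>
      helper1446.transc_L (fun c hc => transcendental_iff.mp htr c hc) S hS
  have hQL : Q.map A.subtype ≠ 0 := by
    intro h0
    apply hQ
    have : Q = 0 := Polynomial.map_injective _ Subtype.val_injective (h0.trans (Polynomial.map_zero _).symm)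
    rw [this, Polynomial.map_zero]
  refine ⟨(Matrix.of M).charpoly.coeff i,
    Q ^ (Module.finrank
      L⟮(⟨coeffMap A.subtype y, hy⟩ : ↥(laurentBaseChange L (modularFunctionFieldFull N)))⟯
      ↥(laurentBaseChange L (modularFunctionFieldFull N)) - i), ?_, ?_, ?_⟩
  · rw [Polynomial.map_pow]
    exact pow_ne_zero _ hQ
  · -- the generic fibre
    have hιt : (laurentBaseChange L (modularFunctionFieldFull N)).val t = coeffMap A.subtype y := ht
    have hιx : (laurentBaseChange L (modularFunctionFieldFull N)).val x₀ = coeffMap A.subtype x :=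
      hx₀
    have key := charpoly_coeff_of_poly_matrix_emb (K := L)
      (ι := (laurentBaseChange L (modularFunctionFieldFull N)).val) t
      (by rw [hιt]; exact htrL)
      (fun i => helper508.zTo L (b i))
      (fun i => ⟨⟨_, helper508.zTo_mem_bar L N (hbmem i)⟩, rfl⟩)
      (fun P hP => hIND0 P (by rw [hιt] at hP; exact hP))
      (fun f => by
        obtain ⟨Q', P', hQ', h⟩ := hSPAN0 (f : LaurentSeries L) f.2
        exact ⟨Q', P', hQ', by rw [hιt]; exact h⟩)
      x₀ (Q.map A.subtype) hQL ((Matrix.of M).map (mapRingHom A.subtype))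
      (fun i' => by
        have h := congrArg (coeffMap A.subtype) (hMrel i')
        rw [map_mul, map_mul, helper1446.coeffMap_aeval, helper508.coeffMap_zTo, map_sum] at h
        rw [hιt, hιx, h]
        refine Finset.sum_congr rfl fun k _ => ?_
        rw [map_mul, helper1446.coeffMap_aeval, helper508.coeffMap_zTo]
        rfl) i
    rw [Matrix.charpoly_map, coeff_map, coe_mapRingHom, ← Polynomial.map_pow] at key
    exact key
  · -- the special fibre
    have hιt : (modularFunctionFieldFullC (IsLocalRing.ResidueField A) N).val tb =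
        coeffMap (IsLocalRing.residue A) y := htb
    have hιx : (modularFunctionFieldFullC (IsLocalRing.ResidueField A) N).val xb =
        coeffMap (IsLocalRing.residue A) x := hxb
    have key := charpoly_coeff_of_poly_matrix_emb (K := IsLocalRing.ResidueField A)
      (ι := (modularFunctionFieldFullC (IsLocalRing.ResidueField A) N).val) tb
      (by rw [hιt]; exact htr)
      (fun i => helper508.zTo (IsLocalRing.ResidueField A) (b i))
      (fun i => ⟨⟨_, helper508.zTo_mem_fullC (IsLocalRing.ResidueField A) N (hbmem i)⟩, rfl⟩)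
      (fun P hP => hINDk P (by rw [hιt] at hP; exact hP))
      (fun f => by
        obtain ⟨Q', P', hQ', h⟩ := hSPANk (f : LaurentSeries (IsLocalRing.ResidueField A)) f.2
        exact ⟨Q', P', hQ', by rw [hιt]; exact h⟩)
      xb (Q.map (IsLocalRing.residue A)) hQ
      ((Matrix.of M).map (mapRingHom (IsLocalRing.residue A)))
      (fun i' => by
        have h := congrArg (coeffMap (IsLocalRing.residue A)) (hMrel i')
        rw [map_mul, map_mul, helper1446.coeffMap_aeval, helper508.coeffMap_zTo, map_sum] at h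
        rw [hιt, hιx, h]
        refine Finset.sum_congr rfl fun k _ => ?_
        rw [map_mul, helper1446.coeffMap_aeval, helper508.coeffMap_zTo]
        rfl) i
    rw [Matrix.charpoly_map, coeff_map, coe_mapRingHom, ← Polynomial.map_pow] at key
    exact key

end Instance

/-! ## The field `ct` of (C4), unconditional -/

section Final

variable (N : ℕ) [NeZero N] {ℓ : ℕ} (hℓ : ℓ.Prime) (hℓN : ¬ ℓ ∣ N)
  (A : ValuationSubring (AlgebraicClosure ℚ)) (hA : A.LiesOverPrime ℓ)
  {r : ℕ} (hr : r = 2 ∨ r = 3) (hrN : r ∣ N)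

include hℓ hℓN hA hr hrN in
/-- **(CPR) on the Hauptmodul line `t_r`** (`r ∈ {2, 3}`, `r ∣ N`, `ℓ ∤ N`). -/
theorem lineCharpolyRed_tR : LineCharpolyRed N A (helper2707.tR A r) := by
  have : Fact ℓ.Prime := ⟨hℓ⟩
  have hA' : (ℓ : AlgebraicClosure ℚ) ∈ A.nonunits := hA
  have hy : coeffMap A.subtype (helper2707.tR A r) ∈
      laurentBaseChange (AlgebraicClosure ℚ) (modularFunctionFieldFull N) := by
    rw [helper2707.coeffMap_tR]
    exact helper2707.tR_mem_bar N hr hrN
  have htr : Transcendental (IsLocalRing.ResidueField A)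
      (coeffMap (IsLocalRing.residue A) (helper2707.tR A r)) := by
    rw [helper2707.coeffMap_tR]
    exact helper2707.transcendental_of_order
      (ι := AlgHom.id (IsLocalRing.ResidueField A) (LaurentSeries (IsLocalRing.ResidueField A)))
      (helper2707.order_tR _ r)
  refine lineCharpolyRed N ℓ hℓN A hA' (helper2707.tR A r) hy htr ?_
  rcases hr with rfl | rfl
  · have e : (⟨coeffMap A.subtype (helper2707.tR A 2), hy⟩ :
        ↥(laurentBaseChange (AlgebraicClosure ℚ) (modularFunctionFieldFull N))) =
        helper4665.gaussT2 (AlgebraicClosure ℚ) N hrN := by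
      apply Subtype.ext
      show coeffMap A.subtype (helper2707.tR A 2) = helper4665.zSeries helper1257.t2Z _
      rw [helper2707.coeffMap_tR, helper2707.tR, helper2707.tZ, if_pos rfl]
      rfl
    rw [e]
    exact helper4665.gaussJ_mem_adjoin_gaussT2 N hrN
  · have e : (⟨coeffMap A.subtype (helper2707.tR A 3), hy⟩ :
        ↥(laurentBaseChange (AlgebraicClosure ℚ) (modularFunctionFieldFull N))) =
        helper4665.gaussT3 (AlgebraicClosure ℚ) N hrN := by
      apply Subtype.ext
      show coeffMap A.subtype (helper2707.tR A 3) = helper4665.zSeries helper1257.t3Z _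
      rw [helper2707.coeffMap_tR, helper2707.tR, helper2707.tZ, if_neg (by norm_num)]
      rfl
    rw [e]
    exact helper4665.gaussJ_mem_adjoin_gaussT3 N hrN

/-- **The field `ct` of (C4), unconditional**: the reduction of an `A`-integral function of
`X₀(N)` regular away from the cusp `∞` lies in `B` (`= helper2707.Bsub` on the line `t_r`).
This is the hypothesis `hct` of `helper2707.stmt_Bbar_of_certs`. -/
theorem ct : ∀ (x : LaurentSeries A) (hx : coeffMap A.subtype x ∈ modularFunctionFieldBar N),
    helper99.RegAwayInf N ⟨coeffMap A.subtype x, hx⟩ →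
      coeffMap (IsLocalRing.residue A) x ∈
        helper2707.Bsub (IsLocalRing.ResidueField A) N
          (helper2707.tbarA N hℓ hℓN A hA hr hrN) :=
  ct_of_lineCharpolyRed N hℓ hℓN A hA hr hrN (lineCharpolyRed_tR N hℓ hℓN A hA hr hrN)

/-- **(C4) from the certificates alone**: `helper99.Stmt_Bbar N A` for `ℓ ∤ N`, `r ∈ {2, 3}`,
`r ∣ N`, given the reduced certificates (L2) for `tbarA`. -/
theorem stmt_Bbar_of_hasCert
    (hcert : ∀ (D : helper5819.IntBasis N 2) (i : Fin D.r),
      helper2707.HasCert (helper2707.tbarA N hℓ hℓN A hA hr hrN)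
        (D.laurent (IsLocalRing.ResidueField A) i)) :
    helper99.Stmt_Bbar N A :=
  helper2707.stmt_Bbar_of_certs hℓ hℓN A hA hr hrN hcert (ct N hℓ hℓN A hA hr hrN)

end Final

end Fermat.Agent.S18.helper7261

end
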