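/-
S18-LOCTR (helper7306): TRACE LOCALISATION at an unramified place of degree one.

Setting: `R` a PID, `s : R` prime, `K = Frac R`, `F / K` finite separable, `B` the integral
closure of `R` in `F`, and a valuation `v` on `F` ("the place oo") such that
* (H1) `v r ≤ 1` for `r : R`,
* (H2) `v s < 1`,
* (H3) `R` is dense: every `y` with `v y ≤ 1` is congruent to some `r : R` modulo `s ^ m`,
* (H3') `v r < 1` implies `s ∣ r` for `r : R`.

Main result `trace_sub_self_le`: for `w = x * s * z` with `x` "regular away from `v` on the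
`s`-chart, pole order `≤ n` at `v`" and `z` "vanishing at every place over `s = 0`",
`v (Tr_{F/K} w - w) ≤ v s ^ 2`.  No Dedekind theory, no completions, no conjugate embeddings.
-/
import Mathlib

set_option autoImplicit false

namespace Fermat.Agent.S18.helper7306

open Polynomial

section Horner

variable {R F : Type*} [CommRing R] [CommRing F] [Algebra R F]

/-- If `u` is integral and `u * y^(n+1) + ∑_{i ≤ n} c i * y^i = 0` with integral `c i`,
then `u * y` is integral. -/
theorem isIntegral_mul_of_eq {u y : F} (hu : IsIntegral R u) (n : ℕ) (c : ℕ → F)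
    (hc : ∀ i, IsIntegral R (c i))
    (h : u * y ^ (n + 1) + ∑ i ∈ Finset.range (n + 1), c i * y ^ i = 0) :
    IsIntegral R (u * y) := by
  classical
  let A := integralClosure R F
  have hcoef : ∀ i, c i * u ^ (n - i) ∈ A := fun i => (hc i).mul (hu.pow _)
  let p : A[X] := X ^ (n + 1) + ∑ i : Fin (n + 1), C (⟨c i * u ^ (n - i), hcoef i⟩ : A) * X ^ (i : ℕ)
  have hmonic : p.Monic := Polynomial.monic_X_pow_add (Polynomial.degree_sum_fin_lt _)
  have hroot : Polynomial.aeval (u * y) p = 0 := by
    simp only [p, map_add, map_pow, aeval_X, map_sum, map_mul, aeval_C]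
    have h1 : ∀ i : Fin (n + 1),
        algebraMap A F ⟨c i * u ^ (n - i), hcoef i⟩ * (u * y) ^ (i : ℕ) = u ^ n * (c i * y ^ (i : ℕ)) := by
      intro i
      have hi : (i : ℕ) ≤ n := Nat.lt_succ_iff.mp i.2
      have : u ^ n = u ^ (n - i) * u ^ (i : ℕ) := by rw [← pow_add, Nat.sub_add_cancel hi]
      rw [this, mul_pow]
      show c i * u ^ (n - i) * (u ^ (i : ℕ) * y ^ (i : ℕ)) = _
      ring
    rw [Finset.sum_congr rfl (fun i _ => h1 i), ← Finset.mul_sum,
      Finset.sum_range (fun i => c i * y ^ i) |>.symm]
    have : (u * y) ^ (n + 1) = u ^ n * (u * y ^ (n + 1)) := by ring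
    rw [this, ← mul_add, h, mul_zero]
  have hint : IsIntegral A (u * y) := ⟨p, hmonic, by rwa [← Polynomial.aeval_def]⟩
  exact isIntegral_trans (u * y) hint

/-- Horner partial sums `H i = ∑_{j ≥ i} a_j y^(j-i)` of `p = ∑ a_j X^j`. -/
noncomputable def horner (p : R[X]) (y : F) (i : ℕ) : F := Polynomial.aeval y (divX^[i] p)

theorem horner_zero (p : R[X]) (y : F) : horner p y 0 = Polynomial.aeval y p := rfl

theorem coeff_iterate_divX (p : R[X]) (i j : ℕ) : (divX^[i] p).coeff j = p.coeff (j + i) := by
  induction i generalizing j with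
  | zero => simp
  | succ i ih =>
    rw [Function.iterate_succ_apply', coeff_divX, ih]
    congr 1
    omega

theorem horner_succ (p : R[X]) (y : F) (i : ℕ) :
    horner p y i = horner p y (i + 1) * y + algebraMap R F (p.coeff i) := by
  unfold horner
  have h := divX_mul_X_add (divX^[i] p)
  have h2 : Polynomial.aeval y (divX^[i] p) =
      Polynomial.aeval y (divX (divX^[i] p) * X + C ((divX^[i] p).coeff 0)) := by rw [h]
  rw [h2, Function.iterate_succ_apply', map_add, map_mul, aeval_X, aeval_C, coeff_iterate_divX,
    zero_add]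

theorem aeval_eq_horner (p : R[X]) (y : F) (i : ℕ) :
    Polynomial.aeval y p =
      horner p y i * y ^ i + ∑ j ∈ Finset.range i, algebraMap R F (p.coeff j) * y ^ j := by
  induction i with
  | zero => simp [horner_zero]
  | succ i ih =>
    rw [ih, horner_succ p y i, Finset.sum_range_succ]
    ring

theorem horner_eq_zero_of_natDegree_lt (p : R[X]) (y : F) {i : ℕ} (hi : p.natDegree < i) :
    horner p y i = 0 := by
  unfold horner
  have : divX^[i] p = 0 := by
    ext j
    rw [coeff_iterate_divX, coeff_zero]
    exact coeff_eq_zero_of_natDegree_lt (by omega)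
  rw [this, map_zero]

/-- All Horner partial sums of an annihilating polynomial are integral. -/
theorem isIntegral_horner {p : R[X]} {y : F} (hp : Polynomial.aeval y p = 0) (i : ℕ) :
    IsIntegral R (horner p y i) := by
  -- downward induction from `natDegree p + 1`
  have key : ∀ k i, i + k = p.natDegree + 1 → IsIntegral R (horner p y i) := by
    intro k
    induction k with
    | zero =>
      intro i hi
      rw [horner_eq_zero_of_natDegree_lt p y (by omega)]
      exact isIntegral_zero
    | succ k ih =>
      intro i hi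
      have h1 : IsIntegral R (horner p y (i + 1)) := ih (i + 1) (by omega)
      have h2 : IsIntegral R (horner p y (i + 1) * y) := by
        refine isIntegral_mul_of_eq h1 i (fun j => algebraMap R F (p.coeff j))
          (fun j => isIntegral_algebraMap) ?_
        rw [← aeval_eq_horner p y (i + 1), hp]
      rw [horner_succ p y i]
      exact h2.add isIntegral_algebraMap
  rcases le_or_gt i (p.natDegree + 1) with h | h
  · exact key (p.natDegree + 1 - i) i (by omega)
  · rw [horner_eq_zero_of_natDegree_lt p y (by omega)]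
    exact isIntegral_zero

theorem isIntegral_horner_succ_mul {p : R[X]} {y : F} (hp : Polynomial.aeval y p = 0) (i : ℕ) :
    IsIntegral R (horner p y (i + 1) * y) := by
  have h := isIntegral_horner hp i
  rw [horner_succ p y i] at h
  have : horner p y (i + 1) * y =
      (horner p y (i + 1) * y + algebraMap R F (p.coeff i)) - algebraMap R F (p.coeff i) := by ring
  rw [this]
  exact h.sub isIntegral_algebraMap

end Horner

section Place

variable {R K F : Type*} [CommRing R] [IsDomain R] [IsPrincipalIdealRing R]
  [Field K] [Algebra R K] [IsFractionRing R K]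
  [Field F] [Algebra R F] [Algebra K F] [IsScalarTower R K F]
  {Γ₀ : Type*} [LinearOrderedCommGroupWithZero Γ₀]

/-- The valuation `v` of `F` is an unramified place of degree one over the prime `s` of `R`:
`R` is `v`-integral, `s` is a non-unit, `R` is dense in the valuation ring (modulo every power
of `s`), and an element of `R` which is a `v`-non-unit is divisible by `s`. -/
structure DegOnePlace (v : Valuation F Γ₀) (s : R) : Prop where
  le_one : ∀ r : R, v (algebraMap R F r) ≤ 1
  lt_one : v (algebraMap R F s) < 1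
  dense : ∀ (m : ℕ) (y : F), v y ≤ 1 →
    ∃ r : R, v (y - algebraMap R F r) ≤ v (algebraMap R F s) ^ m
  dvd : ∀ r : R, v (algebraMap R F r) < 1 → s ∣ r

omit [IsDomain R] [IsPrincipalIdealRing R] in
/-- Elements integral over `R` are `v`-integral. -/
theorem v_le_one_of_isIntegral (v : Valuation F Γ₀) (h1 : ∀ r : R, v (algebraMap R F r) ≤ 1)
    {x : F} (hx : IsIntegral R x) : v x ≤ 1 := by
  obtain ⟨f, hm, hf⟩ := hx
  by_cases hn : f.natDegree = 0
  · rw [Polynomial.natDegree_eq_zero] at hn
    obtain ⟨c, rfl⟩ := hn
    have hc : c = 1 := by simpa [Polynomial.Monic, leadingCoeff_C] using hm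
    subst hc
    rw [Polynomial.eval₂_C, map_one] at hf
    exact absurd hf one_ne_zero
  simp only [Polynomial.eval₂_eq_sum_range, Finset.sum_range_succ, hm.coeff_natDegree, map_one,
    one_mul, add_eq_zero_iff_eq_neg] at hf
  apply_fun v at hf
  rw [Valuation.map_neg, map_pow] at hf
  contrapose! hf
  refine ne_of_lt (v.map_sum_lt ?_ ?_)
  · simp [hn, (hf.trans' (zero_lt_one)).ne']
  · simp only [Finset.mem_range, map_mul, map_pow]
    intro _ hi
    exact mul_lt_of_le_one_of_lt (h1 _) <| pow_lt_pow_right₀ hf hi

omit [IsDomain R] [IsPrincipalIdealRing R] in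
theorem v_aeval_le_one (v : Valuation F Γ₀) (h1 : ∀ r : R, v (algebraMap R F r) ≤ 1)
    {y : F} (hy : v y ≤ 1) (p : R[X]) : v (Polynomial.aeval y p) ≤ 1 := by
  rw [Polynomial.aeval_eq_sum_range]
  refine v.map_sum_le fun i _ => ?_
  rw [Algebra.smul_def, map_mul, map_pow]
  exact mul_le_one' (h1 _) (pow_le_one₀ zero_le hy)

include K in
omit [IsPrincipalIdealRing R] [IsDomain R] in
theorem algebraMap_injective' : Function.Injective (algebraMap R F) := by
  rw [IsScalarTower.algebraMap_eq R K F]
  exact (algebraMap K F).injective.comp (IsFractionRing.injective R K)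

omit [IsFractionRing R K] [Algebra K F] [IsScalarTower R K F] [Algebra R K] in
/-- An algebraic element is annihilated by a polynomial over `R` that is primitive at `s`. -/
theorem exists_primitive_annihilator {s : R} (hs : Prime s)
    (hinj : Function.Injective (algebraMap R F)) {y : F} (hy : IsAlgebraic R y) :
    ∃ p : R[X], Polynomial.aeval y p = 0 ∧ ∃ j, ¬ s ∣ p.coeff j := by
  classical
  let S : Set R := {a | ∃ p : R[X], p ≠ 0 ∧ Polynomial.aeval y p = 0 ∧ p.leadingCoeff = a}
  obtain ⟨p0, hp0, hp0y⟩ := hy
  have hS : S.Nonempty := ⟨_, p0, hp0, hp0y, rfl⟩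
  obtain ⟨a, ⟨p, hp, hpy, rfl⟩, hmin⟩ := wellFounded_dvdNotUnit.has_min S hS
  refine ⟨p, hpy, ?_⟩
  by_contra hcon
  push Not at hcon
  obtain ⟨p1, rfl⟩ := (Polynomial.C_dvd_iff_dvd_coeff s p).mpr hcon
  have hp1 : p1 ≠ 0 := by rintro rfl; exact hp (mul_zero _)
  have hp1y : Polynomial.aeval y p1 = 0 := by
    rw [map_mul, aeval_C] at hpy
    exact (mul_eq_zero.mp hpy).resolve_left
      (fun h => hs.ne_zero (hinj (h.trans (map_zero _).symm)))
  refine hmin _ ⟨p1, hp1, hp1y, rfl⟩ ?_
  rw [leadingCoeff_mul, leadingCoeff_C]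
  exact ⟨leadingCoeff_ne_zero.mpr hp1, s, hs.not_isUnit, mul_comm _ _⟩

variable [FiniteDimensional K F]

include K in
/-- **(LT1)** The valuation ring of `v` is a localisation of the integral closure of `R`:
every `v`-integral `y` has a denominator `c` which is integral over `R` and a `v`-unit. -/
theorem exists_unit_integral_mul (v : Valuation F Γ₀) {s : R} (hs : Prime s)
    (h : DegOnePlace v s) {y : F} (hy : v y ≤ 1) :
    ∃ c : F, IsIntegral R c ∧ v c = 1 ∧ IsIntegral R (c * y) := by
  classical
  have hinj : Function.Injective (algebraMap R F) := algebraMap_injective' (K := K)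
  have halg : IsAlgebraic R y :=
    ((IsFractionRing.comap_isAlgebraic_iff (A := R) (K := K) (C := F)).mpr inferInstance).isAlgebraic y
  obtain ⟨p, hpy, j0, hj0⟩ := exists_primitive_annihilator hs hinj halg
  have hj0le : j0 ≤ p.natDegree :=
    Polynomial.le_natDegree_of_ne_zero (fun h0 => hj0 (h0 ▸ dvd_zero s))
  set r := Nat.findGreatest (fun j => ¬ s ∣ p.coeff j) p.natDegree with hr
  have hr1 : ¬ s ∣ p.coeff r := Nat.findGreatest_spec (P := fun j => ¬ s ∣ p.coeff j) hj0le hj0
  have hr2 : ∀ j, r < j → s ∣ p.coeff j := by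
    intro j hj
    rcases le_or_gt j p.natDegree with hjd | hjd
    · by_contra hcon
      exact Nat.findGreatest_is_greatest (P := fun j => ¬ s ∣ p.coeff j) hj hjd hcon
    · rw [coeff_eq_zero_of_natDegree_lt hjd]
      exact dvd_zero s
  -- the tail `H (r+1)` is divisible by `s`
  have htail : v (horner p y (r + 1)) ≤ v (algebraMap R F s) := by
    have hdvd : C s ∣ divX^[r + 1] p := by
      rw [Polynomial.C_dvd_iff_dvd_coeff]
      intro i
      rw [coeff_iterate_divX]
      exact hr2 _ (by omega)
    obtain ⟨p', hp'⟩ := hdvd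
    unfold horner
    rw [hp', map_mul, aeval_C, map_mul]
    exact mul_le_of_le_one_right' (v_aeval_le_one v h.le_one hy p')
  have hcoef : v (algebraMap R F (p.coeff r)) = 1 :=
    le_antisymm (h.le_one _) (not_lt.mp fun hlt => hr1 (h.dvd _ hlt))
  have hvc : v (horner p y r) = 1 := by
    rw [horner_succ p y r, ← hcoef]
    apply Valuation.map_add_eq_of_lt_right
    rw [hcoef, map_mul]
    calc v (horner p y (r + 1)) * v y ≤ v (algebraMap R F s) * 1 := mul_le_mul' htail hy
      _ = v (algebraMap R F s) := mul_one _
      _ < 1 := h.lt_one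
  have hr0 : r ≠ 0 := by
    intro h0
    rw [h0, horner_zero, hpy, map_zero] at hvc
    exact zero_ne_one hvc
  obtain ⟨r', hr'⟩ := Nat.exists_eq_succ_of_ne_zero hr0
  refine ⟨horner p y r, isIntegral_horner hpy r, hvc, ?_⟩
  rw [hr']
  exact isIntegral_horner_succ_mul hpy r'

variable [Algebra.IsSeparable K F]

include K in
/-- **(LT2)** Approximate idempotent at the place `v`: an integral `ε` with `ε ≡ 1` modulo
`s ^ m` at `v`, such that `ε * b ∈ s ^ m * B` for every integral `b` vanishing to order `m`
at `v`. -/
theorem exists_approx_idempotent (v : Valuation F Γ₀) {s : R} (hs : Prime s)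
    (h : DegOnePlace v s) (m : ℕ) :
    ∃ ε : F, IsIntegral R ε ∧ v (ε - 1) ≤ v (algebraMap R F s) ^ m ∧
      ∀ b : F, IsIntegral R b → v b ≤ v (algebraMap R F s) ^ m →
        ∃ b' : F, IsIntegral R b' ∧ ε * b = algebraMap R F s ^ m * b' := by
  classical
  have hinj : Function.Injective (algebraMap R F) := algebraMap_injective' (K := K)
  set σ : F := algebraMap R F s with hσ
  have hσ0 : σ ≠ 0 := fun h0 => hs.ne_zero (hinj (h0.trans (map_zero _).symm))
  have hvσ0 : v σ ≠ 0 := (Valuation.ne_zero_iff v).mpr hσ0
  -- the `R`-module `J` of integral elements vanishing to order `m`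
  let J : Submodule R F :=
    { carrier := {b | IsIntegral R b ∧ v b ≤ v σ ^ m}
      add_mem' := fun {a b} ha hb =>
        ⟨ha.1.add hb.1, (v.map_add a b).trans (max_le ha.2 hb.2)⟩
      zero_mem' := ⟨isIntegral_zero, by simp⟩
      smul_mem' := fun r {b} hb => by
        refine ⟨?_, ?_⟩
        · rw [Algebra.smul_def]; exact isIntegral_algebraMap.mul hb.1
        · rw [Algebra.smul_def, map_mul]
          exact (mul_le_of_le_one_left' (h.le_one r)).trans hb.2 }
  have hJle : J ≤ Subalgebra.toSubmodule (integralClosure R F) := fun b hb => hb.1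
  have : IsNoetherian R ↥(integralClosure R F) :=
    IsIntegralClosure.isNoetherian R K F (integralClosure R F)
  have hnoeth : IsNoetherian R ↥(Subalgebra.toSubmodule (integralClosure R F)) := this
  obtain ⟨S, hS⟩ : J.FG := isNoetherian_submodule.mp hnoeth J hJle
  have hSJ : ∀ b ∈ S, b ∈ J := fun b hb => hS ▸ Submodule.subset_span hb
  have hex : ∀ b ∈ S, ∃ c : F, IsIntegral R c ∧ v c = 1 ∧ IsIntegral R (c * (b / σ ^ m)) := by
    intro b hb
    refine exists_unit_integral_mul (K := K) v hs h ?_
    rw [map_div₀, map_pow]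
    exact div_le_one_of_le₀ (hSJ b hb).2 zero_le
  choose! c hc using hex
  set cc : F := ∏ b ∈ S, c b with hcc
  have hccint : IsIntegral R cc := IsIntegral.prod _ fun b hb => (hc b hb).1
  have hvcc : v cc = 1 := by
    rw [hcc, map_prod]
    exact Finset.prod_eq_one fun b hb => (hc b hb).2.1
  have hcc0 : cc ≠ 0 := by
    intro h0
    rw [h0, map_zero] at hvcc
    exact zero_ne_one hvcc
  have hccS : ∀ b ∈ S, IsIntegral R (cc * (b / σ ^ m)) := by
    intro b hb
    have : cc * (b / σ ^ m) = (∏ x ∈ S.erase b, c x) * (c b * (b / σ ^ m)) := by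
      rw [hcc, ← Finset.mul_prod_erase S c hb]
      ring
    rw [this]
    exact (IsIntegral.prod _ fun x _ => (hc x (Finset.mem_of_mem_erase ‹_›)).1).mul (hc b hb).2.2
  have hccJ : ∀ b ∈ J, IsIntegral R (cc * (b / σ ^ m)) := by
    intro b hb
    rw [← hS] at hb
    induction hb using Submodule.span_induction with
    | mem x hx => exact hccS x hx
    | zero => simp [isIntegral_zero]
    | add x y _ _ hx hy =>
      have : cc * ((x + y) / σ ^ m) = cc * (x / σ ^ m) + cc * (y / σ ^ m) := by ring
      rw [this]
      exact hx.add hy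
    | smul a x _ hx =>
      have : cc * (a • x / σ ^ m) = algebraMap R F a * (cc * (x / σ ^ m)) := by
        rw [Algebra.smul_def]; ring
      rw [this]
      exact isIntegral_algebraMap.mul hx
  obtain ⟨r, hr⟩ := h.dense m cc⁻¹ (by rw [map_inv₀, hvcc, inv_one])
  refine ⟨algebraMap R F r * cc, isIntegral_algebraMap.mul hccint, ?_, ?_⟩
  · have : algebraMap R F r * cc - 1 = -(cc * (cc⁻¹ - algebraMap R F r)) := by
      field_simp
      ring
    rw [this, Valuation.map_neg, map_mul, hvcc, one_mul]
    exact hr
  · intro b hb hvb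
    refine ⟨algebraMap R F r * (cc * (b / σ ^ m)),
      isIntegral_algebraMap.mul (hccJ b ⟨hb, hvb⟩), ?_⟩
    field_simp

include K in
/-- Nilpotent trace criterion: `β ^ M ∈ s * B` implies `s ∣ Tr_{B/R} β`. -/
theorem dvd_trace_of_pow_eq_smul {s : R} (hs : Prime s)
    (β d : integralClosure R F) (M : ℕ) (hβ : β ^ M = s • d) :
    s ∣ Algebra.trace R (integralClosure R F) β := by
  classical
  have : Module.IsTorsionFree R F := .trans_faithfulSMul R K F
  have : Module.Finite R (integralClosure R F) := IsIntegralClosure.finite R K F _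
  have : Module.Free R (integralClosure R F) := IsIntegralClosure.module_free R K F _
  let bas := Module.Free.chooseBasis R (integralClosure R F)
  rw [Algebra.trace_eq_matrix_trace bas]
  set A := Algebra.leftMulMatrix bas β with hA
  let φ : R →+* R ⧸ Ideal.span {s} := Ideal.Quotient.mk _
  have : (Ideal.span {s}).IsPrime := (Ideal.span_singleton_prime hs.ne_zero).mpr hs
  have hnil : IsNilpotent (φ.mapMatrix A) := by
    refine ⟨M, ?_⟩
    rw [← map_pow, hA, ← map_pow, hβ, map_smul]
    ext i j
    simp only [RingHom.mapMatrix_apply, Matrix.map_apply, Matrix.smul_apply, smul_eq_mul,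
      map_mul, Matrix.zero_apply]
    have : φ s = 0 := Ideal.Quotient.eq_zero_iff_mem.mpr (Ideal.mem_span_singleton_self s)
    rw [this, zero_mul]
  have htr : IsNilpotent (φ.mapMatrix A).trace := Matrix.isNilpotent_trace_of_isNilpotent hnil
  have htr0 : (φ.mapMatrix A).trace = 0 := htr.eq_zero
  have : φ A.trace = 0 := by
    rw [← htr0]
    simp [Matrix.trace, RingHom.mapMatrix_apply]
  exact Ideal.mem_span_singleton.mp (Ideal.Quotient.eq_zero_iff_mem.mp this)

include K in
/-- **(LT3)** If multiplication by `c` is, modulo `s ^ m`, the rank-one map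
`b ↦ (b mod v) * c`, then `Tr_{B/R} c ≡ c` modulo `s ^ m` at `v`. -/
theorem trace_sub_self_le_of_rankOne (v : Valuation F Γ₀) {s : R} (h : DegOnePlace v s) (m : ℕ)
    (c : integralClosure R F)
    (hc : ∀ (b : F) (r : R), IsIntegral R b →
      v (b - algebraMap R F r) ≤ v (algebraMap R F s) ^ m →
        ∃ d : F, IsIntegral R d ∧
          (c : F) * b = algebraMap R F r * c + algebraMap R F s ^ m * d) :
    v (algebraMap R F (Algebra.trace R (integralClosure R F) c) - (c : F)) ≤
      v (algebraMap R F s) ^ m := by
  classical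
  have : Module.IsTorsionFree R F := .trans_faithfulSMul R K F
  have : Module.Finite R (integralClosure R F) := IsIntegralClosure.finite R K F _
  have : Module.Free R (integralClosure R F) := IsIntegralClosure.module_free R K F _
  let bas := Module.Free.chooseBasis R (integralClosure R F)
  set σ : F := algebraMap R F s with hσ
  have hbv : ∀ i, v ((bas i : integralClosure R F) : F) ≤ 1 := fun i =>
    v_le_one_of_isIntegral v h.le_one (bas i).2
  have hr : ∀ i, ∃ r : R, v (((bas i : integralClosure R F) : F) - algebraMap R F r) ≤ v σ ^ m :=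
    fun i => h.dense m _ (hbv i)
  choose r hr using hr
  have hd : ∀ i, ∃ d : F, IsIntegral R d ∧
      (c : F) * ((bas i : integralClosure R F) : F) = algebraMap R F (r i) * c + σ ^ m * d :=
    fun i => hc _ (r i) (bas i).2 (hr i)
  choose d hdint hd using hd
  have hmul : ∀ i, c * bas i = r i • c + s ^ m • (⟨d i, hdint i⟩ : integralClosure R F) := by
    intro i
    apply Subtype.ext
    simp only [Subalgebra.coe_mul, Subalgebra.coe_add, Algebra.smul_def, map_pow]
    exact hd i
  have htrace : Algebra.trace R (integralClosure R F) c =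
      ∑ i, (r i * bas.repr c i + s ^ m * bas.repr (⟨d i, hdint i⟩ : integralClosure R F) i) := by
    rw [Algebra.trace_eq_matrix_trace bas, Matrix.trace]
    refine Finset.sum_congr rfl fun i _ => ?_
    rw [Matrix.diag_apply, Algebra.leftMulMatrix_eq_repr_mul, hmul i]
    simp
  have hcsum : (c : F) = ∑ i, algebraMap R F (bas.repr c i) * ((bas i : integralClosure R F) : F) := by
    conv_lhs => rw [← bas.sum_repr c]
    rw [← Subalgebra.coe_val, map_sum]
    refine Finset.sum_congr rfl fun i _ => ?_
    simp [Algebra.smul_def]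
  have key : algebraMap R F (Algebra.trace R (integralClosure R F) c) - (c : F) =
      ∑ i, (algebraMap R F (bas.repr c i) *
          (algebraMap R F (r i) - ((bas i : integralClosure R F) : F)) +
        σ ^ m * algebraMap R F (bas.repr (⟨d i, hdint i⟩ : integralClosure R F) i)) := by
    rw [htrace, map_sum]
    conv_lhs => rw [hcsum]
    rw [← Finset.sum_sub_distrib]
    refine Finset.sum_congr rfl fun i _ => ?_
    simp only [map_add, map_mul, map_pow]
    ring
  rw [key]
  refine v.map_sum_le fun i _ => ?_
  refine (v.map_add _ _).trans (max_le ?_ ?_)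
  · rw [map_mul, Valuation.map_sub_swap]
    exact (mul_le_of_le_one_left' (h.le_one _)).trans (hr i)
  · rw [map_mul, map_pow]
    exact mul_le_of_le_one_right' (h.le_one _)

include K in
/-- Compatibility of the integral trace with the field trace. -/
theorem algebraMap_trace_eq (b : integralClosure R F) :
    algebraMap K F (Algebra.trace K F (b : F)) =
      algebraMap R F (Algebra.trace R (integralClosure R F) b) := by
  have : Module.IsTorsionFree R F := .trans_faithfulSMul R K F
  have : Module.Finite R (integralClosure R F) := IsIntegralClosure.finite R K F _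
  have : Module.Free R (integralClosure R F) := IsIntegralClosure.module_free R K F _
  have : IsLocalization (Algebra.algebraMapSubmonoid (integralClosure R F) (nonZeroDivisors R)) F :=
    IsIntegralClosure.isLocalization R K F _
  have h := Algebra.trace_localization R (nonZeroDivisors R) (Rₘ := K) (Sₘ := F) b
  rw [show (b : F) = algebraMap (integralClosure R F) F b from rfl, h,
    ← IsScalarTower.algebraMap_apply]

omit [IsPrincipalIdealRing R] [IsDomain R] [IsFractionRing R K] [Algebra K F]
  [IsScalarTower R K F] [Algebra R K] [FiniteDimensional K F] [Algebra.IsSeparable K F] in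
/-- The maximal ideal of `v` is generated by `s`. -/
theorem DegOnePlace.le_of_lt_one {v : Valuation F Γ₀} {s : R} (h : DegOnePlace v s) {y : F}
    (hy : v y < 1) : v y ≤ v (algebraMap R F s) := by
  obtain ⟨r, hr⟩ := h.dense 1 y hy.le
  rw [pow_one] at hr
  have hr1 : v (algebraMap R F r) < 1 := by
    have : algebraMap R F r = y - (y - algebraMap R F r) := by ring
    rw [this]
    exact (v.map_sub _ _).trans_lt (max_lt hy (hr.trans_lt h.lt_one))
  obtain ⟨t, rfl⟩ := h.dvd r hr1
  have hr2 : v (algebraMap R F (s * t)) ≤ v (algebraMap R F s) := by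
    rw [map_mul, map_mul]
    exact mul_le_of_le_one_right' (h.le_one t)
  have : y = (y - algebraMap R F (s * t)) + algebraMap R F (s * t) := by ring
  rw [this]
  exact (v.map_add _ _).trans (max_le hr hr2)

include K in
/-- **(LT) Trace localisation.** Let `v` be an unramified degree-one place over the prime `s`.
Let `x` be such that `x * b` is integral for every integral `b` vanishing to order `n` at `v`
(`x` is regular at all other places of the `s`-chart and has pole order `≤ n` at `v`), and let
`z` be such that `g * z` is integral with `(g * z) ^ M ∈ s * B` for a `v`-unit `g : R`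
(`z` vanishes at every place over `s = 0`). Then `Tr_{F/K}(x * s * z) ≡ x * s * z` modulo
`s ^ 2` at `v`. -/
theorem trace_sub_self_le (v : Valuation F Γ₀) {s : R} (hs : Prime s) (h : DegOnePlace v s)
    (x z : F) (g : R) (n M : ℕ)
    (hg : v (algebraMap R F g) = 1)
    (hx : ∀ b : F, IsIntegral R b → v b ≤ v (algebraMap R F s) ^ n → IsIntegral R (x * b))
    (hz : IsIntegral R (algebraMap R F g * z))
    (hzM : ∃ d : F, IsIntegral R d ∧ (algebraMap R F g * z) ^ M = algebraMap R F s * d) :
    v (algebraMap K F (Algebra.trace K F (x * algebraMap R F s * z)) - x * algebraMap R F s * z) ≤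
      v (algebraMap R F s) ^ 2 := by
  classical
  have hinj : Function.Injective (algebraMap R F) := algebraMap_injective' (K := K)
  set σ : F := algebraMap R F s with hσ
  set γ : F := algebraMap R F g with hγ
  have hσ0 : σ ≠ 0 := fun h0 => hs.ne_zero (hinj (h0.trans (map_zero _).symm))
  have hvσ0 : v σ ≠ 0 := (Valuation.ne_zero_iff v).mpr hσ0
  have hvσ1 : v σ ≤ 1 := h.lt_one.le
  have hγ0 : γ ≠ 0 := by
    intro h0
    rw [h0, map_zero] at hg
    exact zero_ne_one hg
  obtain ⟨d, hdint, hd⟩ := hzM
  -- `g * z` is a non-unit at `v`, hence divisible by `s` there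
  have hvγz : v (γ * z) ≤ v σ := by
    apply h.le_of_lt_one
    have hM0 : M ≠ 0 := by
      rintro rfl
      rw [pow_zero] at hd
      have h1 : v (σ * d) = 1 := by rw [← hd, map_one]
      rw [map_mul] at h1
      have h2 : v σ * v d ≤ v σ := mul_le_of_le_one_right' (v_le_one_of_isIntegral v h.le_one hdint)
      exact absurd (h1 ▸ h2) (not_le.mpr h.lt_one)
    have hlt : v (γ * z) ^ M < 1 := by
      rw [← map_pow, hd, map_mul]
      exact (mul_le_of_le_one_right' (v_le_one_of_isIntegral v h.le_one hdint)).trans_lt h.lt_one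
    by_contra hcon
    exact absurd hlt (not_lt.mpr (one_le_pow₀ (not_lt.mp hcon)))
  -- the approximate idempotent at level `m = n + 1`
  obtain ⟨ε, hεint, hε1, hεJ⟩ := exists_approx_idempotent (K := K) v hs h (n + 1)
  have hpow_le : v σ ^ (n + 1) ≤ v σ ^ n := pow_le_pow_of_le_one zero_le hvσ1 (Nat.le_succ n)
  have h1ε : v (1 - ε) ≤ v σ ^ (n + 1) := by rw [← Valuation.map_sub_swap]; exact hε1
  have hx1 : IsIntegral R (x * (1 - ε)) := hx _ (isIntegral_one.sub hεint) (h1ε.trans hpow_le)
  have hxs : IsIntegral R (x * σ ^ n) := hx _ (isIntegral_algebraMap.pow n) (by rw [map_pow])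
  -- the three integral elements
  let V : integralClosure R F := ⟨x * σ ^ n * (γ * z), hxs.mul hz⟩
  let β : integralClosure R F := ⟨x * (1 - ε) * (γ * z), hx1.mul hz⟩
  let c : integralClosure R F := ⟨ε * (x * σ ^ n * (γ * z)), hεint.mul (hxs.mul hz)⟩
  -- `Tr β` is divisible by `s`
  have hβ : β ^ M = s • (⟨(x * (1 - ε)) ^ M * d, (hx1.pow M).mul hdint⟩ : integralClosure R F) := by
    apply Subtype.ext
    simp only [SubmonoidClass.coe_pow, Algebra.smul_def]
    show (x * (1 - ε) * (γ * z)) ^ M = σ * ((x * (1 - ε)) ^ M * d)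
    rw [mul_pow, hd]
    ring
  obtain ⟨τ, hτ⟩ := dvd_trace_of_pow_eq_smul (K := K) hs β _ M hβ
  -- `Tr c ≡ c`
  have hc : v (algebraMap R F (Algebra.trace R (integralClosure R F) c) - (c : F)) ≤
      v σ ^ (n + 1) := by
    refine trace_sub_self_le_of_rankOne (K := K) v h (n + 1) c ?_
    intro b r hb hbr
    obtain ⟨b', hb'int, hb'⟩ := hεJ (b - algebraMap R F r) (hb.sub isIntegral_algebraMap) hbr
    refine ⟨x * σ ^ n * (γ * z) * b', (hxs.mul hz).mul hb'int, ?_⟩
    show ε * (x * σ ^ n * (γ * z)) * b = algebraMap R F r * (ε * (x * σ ^ n * (γ * z))) + σ ^ (n + 1) * (x * σ ^ n * (γ * z) * b')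
    have : ε * b = ε * (b - algebraMap R F r) + algebraMap R F r * ε := by ring
    calc ε * (x * σ ^ n * (γ * z)) * b = (x * σ ^ n * (γ * z)) * (ε * b) := by ring
      _ = (x * σ ^ n * (γ * z)) * (σ ^ (n + 1) * b' + algebraMap R F r * ε) := by rw [this, hb']
      _ = _ := by ring
  -- the field trace of `σ^n γ w = σ V`
  set w : F := x * σ * z with hw
  have hsum : (s • c + s ^ (n + 1) • β : integralClosure R F) = s • V := by
    apply Subtype.ext
    simp only [Subalgebra.coe_add, Algebra.smul_def, map_pow]
    show σ * (ε * (x * σ ^ n * (γ * z))) + σ ^ (n + 1) * (x * (1 - ε) * (γ * z)) = σ * (x * σ ^ n * (γ * z))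
    ring
  have hsV : ((s • V : integralClosure R F) : F) = algebraMap K F (algebraMap R K (s ^ n * g)) * w := by
    rw [← IsScalarTower.algebraMap_apply R K F]
    simp only [Algebra.smul_def, map_mul, map_pow]
    show σ * (x * σ ^ n * (γ * z)) = σ ^ n * γ * (x * σ * z)
    ring
  have htrK : algebraMap K F (Algebra.trace K F ((s • V : integralClosure R F) : F)) =
      σ ^ n * γ * algebraMap K F (Algebra.trace K F w) := by
    rw [hsV, ← Algebra.smul_def, map_smul, smul_eq_mul, map_mul,
      ← IsScalarTower.algebraMap_apply R K F, map_mul, map_pow]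
  have htrB : algebraMap K F (Algebra.trace K F ((s • V : integralClosure R F) : F)) =
      σ * algebraMap R F (Algebra.trace R (integralClosure R F) c) + σ ^ (n + 2) * algebraMap R F τ := by
    rw [algebraMap_trace_eq (K := K), ← hsum, map_add, map_smul, map_smul, hτ]
    simp only [smul_eq_mul, map_add, map_mul, map_pow]
    ring
  -- put everything together
  have hmain : σ ^ n * γ * (algebraMap K F (Algebra.trace K F w) - w) =
      σ * (algebraMap R F (Algebra.trace R (integralClosure R F) c) - (c : F)) +
        σ ^ (n + 2) * algebraMap R F τ - σ ^ (n + 1) * (β : F) := by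
    rw [mul_sub, ← htrK, htrB]
    have : σ ^ n * γ * w = σ * (c : F) + σ ^ (n + 1) * (β : F) := by
      show σ ^ n * γ * (x * σ * z) = σ * (ε * (x * σ ^ n * (γ * z))) + σ ^ (n + 1) * (x * (1 - ε) * (γ * z))
      ring
    rw [this]
    ring
  have hvβ : v (β : F) ≤ v σ := by
    show v (x * (1 - ε) * (γ * z)) ≤ v σ
    rw [map_mul]
    exact (mul_le_of_le_one_left' (v_le_one_of_isIntegral v h.le_one hx1)).trans hvγz
  have hbound : v (σ ^ n * γ * (algebraMap K F (Algebra.trace K F w) - w)) ≤ v σ ^ (n + 2) := by
    rw [hmain]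
    refine (v.map_sub _ _).trans (max_le ((v.map_add _ _).trans (max_le ?_ ?_)) ?_)
    · rw [map_mul, pow_succ' (v σ) (n + 1)]
      exact mul_le_mul' le_rfl hc
    · rw [map_mul, map_pow]
      exact mul_le_of_le_one_right' (h.le_one _)
    · rw [map_mul, map_pow, pow_succ (v σ) (n + 1)]
      exact mul_le_mul' le_rfl hvβ
  rw [map_mul, map_mul, map_pow, hg, mul_one, pow_add] at hbound
  exact le_of_mul_le_mul_left hbound (pow_pos (zero_lt_iff.mpr hvσ0) n)

end Place

end Fermat.Agent.S18.helper7306
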