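import Mathlib

/-!
# S18, track B, T2 (Abhyankar): the Kummer ring `B[s]`, `s ^ e = g` (helper7524)

`B` is a noetherian integrally closed local domain with maximal ideal `(lam, g)`, `lam` and `g`
prime elements, `¬ lam ∣ g`, and `e` is a natural number that is a unit of `B`.
`B'` is any `B`-algebra generated by one element `s'` with `s' ^ e = g`, embedded in a field
`K'` generated over `K = Frac B` by the image of `s'`.  Then `B'` is again a noetherian
integrally closed local domain with fraction field `K'`, its maximal ideal is `(lam, s')`,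
`lam` is a prime element of `B'`, `¬ lam ∣ s'`, and `(lam)` is the only prime of `B'` over
`(lam)`.  Pure commutative algebra, Mathlib only.
-/

namespace Fermat.Agent.S18.helper7524

open Polynomial IsLocalRing

set_option linter.unusedSectionVars false
set_option linter.unusedVariables false

section Eisenstein

variable {B : Type*} [CommRing B] [IsDomain B]

theorem kpoly_monic (g : B) {e : ℕ} (he : e ≠ 0) : (X ^ e - C g : B[X]).Monic :=
  monic_X_pow_sub_C g he

theorem kpoly_natDegree (g : B) {e : ℕ} (he : e ≠ 0) : (X ^ e - C g : B[X]).natDegree = e :=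
  natDegree_X_pow_sub_C

theorem kpoly_isEisensteinAt {g : B} (hg : Prime g) {e : ℕ} (he : e ≠ 0) :
    (X ^ e - C g : B[X]).IsEisensteinAt (Ideal.span {g}) := by
  have hP : (Ideal.span {g} : Ideal B).IsPrime := (Ideal.span_singleton_prime hg.ne_zero).2 hg
  refine ⟨?_, ?_, ?_⟩
  · rw [(kpoly_monic g he).leadingCoeff]
    exact fun h => hP.ne_top ((Ideal.eq_top_iff_one _).2 h)
  · intro n hn
    rw [kpoly_natDegree g he] at hn
    rw [coeff_sub, coeff_X_pow, if_neg hn.ne, coeff_C]
    split_ifs
    · simp
    · simp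
  · rw [coeff_sub, coeff_X_pow, if_neg (Ne.symm he), coeff_C_zero, zero_sub, neg_mem_iff,
      Ideal.span_singleton_pow, Ideal.mem_span_singleton]
    rintro ⟨c, hc⟩
    have : g * (1 - g * c) = 0 := by linear_combination hc
    rcases mul_eq_zero.1 this with h | h
    · exact hg.ne_zero h
    · exact hg.not_isUnit (IsUnit.of_mul_eq_one c (by linear_combination -h))

theorem kpoly_irreducible {g : B} (hg : Prime g) {e : ℕ} (he : e ≠ 0) :
    Irreducible (X ^ e - C g : B[X]) :=
  (kpoly_isEisensteinAt hg he).irreducible ((Ideal.span_singleton_prime hg.ne_zero).2 hg)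
    (kpoly_monic g he).isPrimitive (by rw [kpoly_natDegree g he]; exact Nat.pos_of_ne_zero he)

end Eisenstein

section Field

variable {B : Type*} [CommRing B] [IsDomain B] [IsIntegrallyClosed B]
variable (K : Type*) [Field K] [Algebra B K] [IsFractionRing B K]
variable {K' : Type*} [Field K'] [Algebra K K'] [Algebra B K'] [IsScalarTower B K K']

theorem kpoly_irreducible_map {g : B} (hg : Prime g) {e : ℕ} (he : e ≠ 0) :
    Irreducible (X ^ e - C (algebraMap B K g) : K[X]) := by
  have h := (Monic.irreducible_iff_irreducible_map_fraction_map (K := K) (kpoly_monic g he)).1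
    (kpoly_irreducible hg he)
  simpa using h

theorem isIntegral_of_pow_eq {g : B} {e : ℕ} (he : e ≠ 0) {s : K'}
    (hs : s ^ e = algebraMap B K' g) : IsIntegral B s :=
  ⟨X ^ e - C g, kpoly_monic g he, by simp [hs]⟩

theorem minpoly_field_eq_kpoly {g : B} (hg : Prime g) {e : ℕ} (he : e ≠ 0) {s : K'}
    (hs : s ^ e = algebraMap B K' g) : minpoly K s = X ^ e - C (algebraMap B K g) := by
  refine (minpoly.eq_of_irreducible_of_monic (kpoly_irreducible_map K hg he) ?_
    (monic_X_pow_sub_C _ he)).symm
  simp [hs, ← IsScalarTower.algebraMap_apply]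

include K in
theorem minpoly_eq_kpoly {g : B} (hg : Prime g) {e : ℕ} (he : e ≠ 0) {s : K'}
    (hs : s ^ e = algebraMap B K' g) : minpoly B s = X ^ e - C g := by
  have h1 := minpoly.isIntegrallyClosed_eq_field_fractions' K (isIntegral_of_pow_eq he hs)
  rw [minpoly_field_eq_kpoly K hg he hs] at h1
  refine Polynomial.map_injective (algebraMap B K) (IsFractionRing.injective B K) ?_
  rw [← h1]
  simp

theorem isSeparable_of_pow_eq {g : B} (hg : Prime g) {e : ℕ} (he : IsUnit (e : B)) {s : K'}
    (hs : s ^ e = algebraMap B K' g) : IsSeparable K s := by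
  have he0 : e ≠ 0 := by
    rintro rfl
    simp at he
  have heK : ((e : ℕ) : K) ≠ 0 := by
    have := (he.map (algebraMap B K)).ne_zero
    simpa using this
  have hgK : algebraMap B K g ≠ 0 := by
    rw [Ne, map_eq_zero_iff _ (IsFractionRing.injective B K)]
    exact hg.ne_zero
  rw [IsSeparable, minpoly_field_eq_kpoly K hg he0 hs]
  exact separable_X_pow_sub_C _ heK hgK

theorem algebra_isSeparable_of_adjoin_eq_top {g : B} (hg : Prime g) {e : ℕ} (he : IsUnit (e : B))
    {s : K'} (hs : s ^ e = algebraMap B K' g) (htop : Algebra.adjoin K {s} = ⊤) :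
    Algebra.IsSeparable K K' := by
  rw [← separableClosure.eq_top_iff, ← IntermediateField.toSubalgebra_injective.eq_iff,
    IntermediateField.top_toSubalgebra, eq_top_iff, ← htop]
  refine Algebra.adjoin_le ?_
  rintro x hx
  rw [Set.mem_singleton_iff] at hx
  subst hx
  exact mem_separableClosure_iff.2 (isSeparable_of_pow_eq K hg he hs)

/-- The discriminant of the power basis `1, s, .., s ^ (e - 1)` is a unit of `B` times
`g ^ (e - 1)`. -/
theorem exists_isUnit_discr_eq {g : B} (hg : Prime g) {e : ℕ} (he : IsUnit (e : B)) {s : K'}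
    (hs : s ^ e = algebraMap B K' g) (pb : PowerBasis K K') (hgen : pb.gen = s)
    [Algebra.IsSeparable K K'] :
    ∃ u : B, IsUnit u ∧ Algebra.discr K pb.basis = algebraMap B K (u * g ^ (e - 1)) := by
  have he0 : e ≠ 0 := by
    rintro rfl
    simp at he
  have : Module.Finite K K' := pb.finite
  have hdisc := Algebra.discr_powerBasis_eq_norm K pb
  have hN : Algebra.norm K s = (-1) ^ pb.dim * (-(algebraMap B K g)) := by
    have h := Algebra.PowerBasis.norm_gen_eq_coeff_zero_minpoly pb
    rw [hgen, minpoly_field_eq_kpoly K hg he0 hs] at h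
    rw [h, coeff_sub, coeff_X_pow, if_neg (Ne.symm he0), coeff_C_zero, zero_sub]
  rw [hgen, minpoly_field_eq_kpoly K hg he0 hs] at hdisc
  have hder : aeval s (derivative (X ^ e - C (algebraMap B K g) : K[X])) =
      algebraMap K K' (e : K) * s ^ (e - 1) := by
    simp [derivative_X_pow]
  rw [hder, map_mul, Algebra.norm_algebraMap, map_pow, hN] at hdisc
  refine ⟨(-1) ^ (Module.finrank K K' * (Module.finrank K K' - 1) / 2) *
    ((e : B) ^ Module.finrank K K' * ((-1) ^ pb.dim * (-1)) ^ (e - 1)), ?_, ?_⟩
  · exact (isUnit_one.neg.pow _).mul ((he.pow _).mul (((isUnit_one.neg.pow _).mul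
      isUnit_one.neg).pow _))
  · rw [hdisc]
    simp only [map_mul, map_pow, map_neg, map_one, map_natCast]
    ring

/-- `B[s]` is the integral closure of `B` in `K' = K[s]`. -/
theorem mem_adjoin_of_isIntegral {g : B} (hg : Prime g) {e : ℕ} (he : IsUnit (e : B))
    {s : K'} (hs : s ^ e = algebraMap B K' g) (htop : Algebra.adjoin K {s} = ⊤)
    {z : K'} (hz : IsIntegral B z) : z ∈ Algebra.adjoin B {s} := by
  have he0 : e ≠ 0 := by
    rintro rfl
    simp at he
  have hsint : IsIntegral B s := isIntegral_of_pow_eq he0 hs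
  have hsK : IsIntegral K s := hsint.tower_top
  let pb : PowerBasis K K' := PowerBasis.ofAdjoinEqTop' hsK htop
  have hgen : pb.gen = s := PowerBasis.ofAdjoinEqTop'_gen hsK htop
  have : Algebra.IsSeparable K K' := algebra_isSeparable_of_adjoin_eq_top K hg he hs htop
  have : Module.Finite K K' := pb.finite
  have hgint : IsIntegral B pb.gen := hgen ▸ hsint
  have h1 := Algebra.discr_mul_isIntegral_mem_adjoin K (B := pb) hgint hz
  obtain ⟨u, hu, hdisc⟩ := exists_isUnit_discr_eq K hg he hs pb hgen
  rw [hdisc] at h1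
  have h2 : g ^ (e - 1) • z ∈ Algebra.adjoin B {pb.gen} := by
    obtain ⟨v, hv⟩ := hu.exists_left_inv
    have h3 := (Algebra.adjoin B {pb.gen}).smul_mem h1 v
    have h4 : v • (algebraMap B K (u * g ^ (e - 1)) • z) = g ^ (e - 1) • z := by
      rw [algebraMap_smul, smul_smul, ← mul_assoc, hv, one_mul]
    rwa [h4] at h3
  have hei : (minpoly B pb.gen).IsEisensteinAt (Submodule.span B {g}) := by
    rw [hgen, minpoly_eq_kpoly K hg he0 hs]
    exact kpoly_isEisensteinAt hg he0
  have h5 := mem_adjoin_of_smul_prime_pow_smul_of_minpoly_isEisensteinAt (B := pb) hg hgint hz h2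
    hei
  rwa [hgen] at h5

end Field

section Quotient

/-- Modulo a prime element `lam` of a noetherian local domain with maximal ideal `(lam, g)`,
`¬ lam ∣ g`, the polynomial `X ^ e - g` is a prime element of `(B / lam)[X]`
(`B / lam` is a discrete valuation ring with uniformiser `g`; Eisenstein). -/
theorem prime_map_kpoly {B : Type*} [CommRing B] [IsDomain B] [IsNoetherianRing B] [IsLocalRing B]
    {lam g : B} (hlam : Prime lam) (hlg : ¬ lam ∣ g) (hm : maximalIdeal B = Ideal.span {lam, g})
    {e : ℕ} (he : e ≠ 0) :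
    Prime ((X ^ e - C g : B[X]).map (Ideal.Quotient.mk (Ideal.span {lam}))) := by
  set I : Ideal B := Ideal.span {lam} with hI_def
  have hI : I.IsPrime := (Ideal.span_singleton_prime hlam.ne_zero).2 hlam
  have hIm : I ≤ maximalIdeal B := by
    rw [hm]
    exact Ideal.span_mono (by simp)
  have hgm : g ∈ maximalIdeal B := by
    rw [hm]
    exact Ideal.subset_span (by simp)
  have hloc : IsLocalRing (B ⧸ I) :=
    IsLocalRing.of_surjective' (Ideal.Quotient.mk I) Ideal.Quotient.mk_surjective
  set gbar : B ⧸ I := Ideal.Quotient.mk I g with hgbar_def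
  have hgbar0 : gbar ≠ 0 := by
    rw [Ne, Ideal.Quotient.eq_zero_iff_mem, Ideal.mem_span_singleton]
    exact hlg
  have hmaxA : maximalIdeal (B ⧸ I) = Ideal.span {gbar} := by
    have h1 := Ideal.map_eq_top_or_isMaximal_of_surjective (Ideal.Quotient.mk I)
      Ideal.Quotient.mk_surjective (IsLocalRing.maximalIdeal.isMaximal B)
    have h2 : Ideal.map (Ideal.Quotient.mk I) (maximalIdeal B) = Ideal.span {gbar} := by
      have h3 : Ideal.Quotient.mk I lam = 0 :=
        Ideal.Quotient.eq_zero_iff_mem.2 (Ideal.mem_span_singleton_self _)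
      rw [hm, Ideal.map_span, Set.image_pair, h3, Ideal.span_insert_zero]
    rw [h2] at h1
    rcases h1 with h1 | h1
    · exfalso
      have hu : IsUnit gbar := Ideal.span_singleton_eq_top.1 h1
      obtain ⟨c', hc'⟩ := hu.exists_right_inv
      obtain ⟨c, rfl⟩ := Ideal.Quotient.mk_surjective c'
      have h4 : g * c - 1 ∈ I := by
        rw [← Ideal.Quotient.eq_zero_iff_mem, map_sub, map_mul, map_one, ← hgbar_def, hc',
          sub_self]
      have h5 : (1 : B) ∈ maximalIdeal B := by
        have h6 := (maximalIdeal B).sub_mem ((maximalIdeal B).mul_mem_right c hgm) (hIm h4)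
        have h7 : g * c - (g * c - 1) = 1 := by ring
        rwa [h7] at h6
      exact (Ideal.ne_top_iff_one _).1 (IsLocalRing.maximalIdeal.isMaximal B).ne_top h5
    · exact (IsLocalRing.eq_maximalIdeal h1).symm
  have hnf : ¬ IsField (B ⧸ I) := by
    rw [IsLocalRing.isField_iff_maximalIdeal_eq, hmaxA, Ideal.span_singleton_eq_bot]
    exact hgbar0
  have hprin : (maximalIdeal (B ⧸ I)).IsPrincipal := ⟨⟨gbar, hmaxA⟩⟩
  have hdvr : IsDiscreteValuationRing (B ⧸ I) :=
    ((IsDiscreteValuationRing.TFAE (B ⧸ I) hnf).out 0 4).2 hprin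
  have hgprime : Prime gbar := by
    have h1 : (Ideal.span {gbar} : Ideal (B ⧸ I)).IsPrime :=
      hmaxA ▸ (IsLocalRing.maximalIdeal.isMaximal _).isPrime
    exact (Ideal.span_singleton_prime hgbar0).1 h1
  have hirr := kpoly_irreducible hgprime he
  have h7 : (X ^ e - C g : B[X]).map (Ideal.Quotient.mk I) = X ^ e - C gbar := by
    simp [hgbar_def]
  rw [h7]
  exact UniqueFactorizationMonoid.irreducible_iff_prime.1 hirr

/-- `lam` is a prime element of `B[X] / (X ^ e - g)`. -/
theorem isPrime_map_span_adjoinRoot {B : Type*} [CommRing B] [IsDomain B] [IsNoetherianRing B]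
    [IsLocalRing B] {lam g : B} (hlam : Prime lam) (hlg : ¬ lam ∣ g)
    (hm : maximalIdeal B = Ideal.span {lam, g}) {e : ℕ} (he : e ≠ 0) :
    (Ideal.span {AdjoinRoot.of (X ^ e - C g : B[X]) lam}).IsPrime := by
  have hP := prime_map_kpoly hlam hlg hm he
  have h1 : (Ideal.span {(X ^ e - C g : B[X]).map (Ideal.Quotient.mk (Ideal.span {lam}))}).IsPrime :=
    (Ideal.span_singleton_prime hP.ne_zero).2 hP
  have hdomQ : IsDomain ((B ⧸ Ideal.span {lam})[X] ⧸
      Ideal.span {(X ^ e - C g : B[X]).map (Ideal.Quotient.mk (Ideal.span {lam}))}) :=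
    Ideal.Quotient.isDomain _
  have hdom : IsDomain (AdjoinRoot (X ^ e - C g : B[X]) ⧸
      Ideal.map (AdjoinRoot.of (X ^ e - C g : B[X])) (Ideal.span {lam})) :=
    (AdjoinRoot.quotEquivQuotMap (X ^ e - C g : B[X]) (Ideal.span {lam})).toMulEquiv.isDomain _
  have h2 := (Ideal.Quotient.isDomain_iff_prime _).1 hdom
  rwa [Ideal.map_span, Set.image_singleton] at h2

end Quotient

section Ring

theorem finite_of_adjoin_eq_top {B B' : Type*} [CommRing B] [CommRing B'] [Algebra B B'] {g : B}
    {e : ℕ} (he : e ≠ 0) {s' : B'} (hs : s' ^ e = algebraMap B B' g)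
    (hadj : Algebra.adjoin B {s'} = ⊤) : Module.Finite B B' := by
  have hint : IsIntegral B s' := ⟨X ^ e - C g, monic_X_pow_sub_C g he, by simp [hs]⟩
  have h := hint.fg_adjoin_singleton
  rw [hadj, Algebra.top_toSubmodule] at h
  exact Module.finite_def.2 h

/-- The hypotheses on the Kummer ring `B' = B[s']`, `s' ^ e = g`, inside the field
`K' = K[s']`, `K = Frac B`: `g` is a prime element of `B`, `e` is a unit of `B`. -/
structure IsKummerRing (B K K' B' : Type*) [CommRing B] [Field K] [Field K'] [CommRing B']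
    [Algebra B K] [Algebra K K'] [Algebra B B'] [Algebra B' K'] (g : B) (e : ℕ) (s' : B') :
    Prop where
  prime : Prime g
  isUnit : IsUnit (e : B)
  pow_eq : s' ^ e = algebraMap B B' g
  adjoin_eq_top : Algebra.adjoin B {s'} = ⊤
  injective : Function.Injective (algebraMap B' K')
  adjoin_field_eq_top : Algebra.adjoin K {algebraMap B' K' s'} = ⊤

namespace IsKummerRing

variable {B : Type*} [CommRing B] [IsDomain B] [IsIntegrallyClosed B]
variable {K : Type*} [Field K] [Algebra B K] [IsFractionRing B K]
variable {K' : Type*} [Field K'] [Algebra K K'] [Algebra B K'] [IsScalarTower B K K']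
variable {B' : Type*} [CommRing B'] [Algebra B B'] [Algebra B' K'] [IsScalarTower B B' K']
variable {g : B} {e : ℕ} {s' : B'}

theorem ne_zero (h : IsKummerRing B K K' B' g e s') : e ≠ 0 := by
  rintro rfl
  have := h.isUnit
  simp at this

theorem finite (h : IsKummerRing B K K' B' g e s') : Module.Finite B B' :=
  finite_of_adjoin_eq_top h.ne_zero h.pow_eq h.adjoin_eq_top

theorem isIntegral (h : IsKummerRing B K K' B' g e s') : Algebra.IsIntegral B B' :=
  have := h.finite
  Algebra.IsIntegral.of_finite B B'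

theorem isDomain (h : IsKummerRing B K K' B' g e s') : IsDomain B' :=
  h.injective.isDomain (algebraMap B' K')

theorem pow_eq' (h : IsKummerRing B K K' B' g e s') :
    (algebraMap B' K' s') ^ e = algebraMap B K' g := by
  rw [← map_pow, h.pow_eq, ← IsScalarTower.algebraMap_apply]

theorem finiteDimensional (h : IsKummerRing B K K' B' g e s') : FiniteDimensional K K' := by
  refine finite_of_adjoin_eq_top (g := algebraMap B K g) h.ne_zero ?_ h.adjoin_field_eq_top
  rw [h.pow_eq', ← IsScalarTower.algebraMap_apply]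

theorem isSeparable (h : IsKummerRing B K K' B' g e s') : Algebra.IsSeparable K K' :=
  algebra_isSeparable_of_adjoin_eq_top K h.prime h.isUnit h.pow_eq' h.adjoin_field_eq_top

/-- (K1) `B'` is the integral closure of `B` in `K'`. -/
theorem isIntegralClosure (h : IsKummerRing B K K' B' g e s') : IsIntegralClosure B' B K' := by
  have hint := h.isIntegral
  refine ⟨h.injective, fun {x} => ⟨fun hx => ?_, ?_⟩⟩
  · have h1 := mem_adjoin_of_isIntegral K h.prime h.isUnit h.pow_eq' h.adjoin_field_eq_top hx
    have h2 : Algebra.adjoin B {algebraMap B' K' s'} = (IsScalarTower.toAlgHom B B' K').range := by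
      rw [← Algebra.map_top, ← h.adjoin_eq_top, AlgHom.map_adjoin, Set.image_singleton]
      rfl
    rw [h2] at h1
    exact h1
  · rintro ⟨y, rfl⟩
    exact (hint.isIntegral y).algebraMap

/-- (K2) `K'` is the fraction field of `B'`. -/
theorem isFractionRing (h : IsKummerRing B K K' B' g e s') : IsFractionRing B' K' :=
  have := h.isDomain
  have := h.isIntegralClosure
  have := h.finiteDimensional
  IsIntegralClosure.isFractionRing_of_finite_extension B K K' B'

/-- (K3) `B'` is integrally closed. -/
theorem isIntegrallyClosed (h : IsKummerRing B K K' B' g e s') : IsIntegrallyClosed B' := by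
  have := h.isFractionRing
  have hint := h.isIntegral
  have hic := h.isIntegralClosure
  rw [isIntegrallyClosed_iff_isIntegralClosure K']
  refine ⟨h.injective, fun {x} => ⟨fun hx => ?_, ?_⟩⟩
  · exact hic.isIntegral_iff.1 (isIntegral_trans x hx)
  · rintro ⟨y, rfl⟩
    exact isIntegral_algebraMap

/-- (K4) `B'` is noetherian. -/
theorem isNoetherianRing [IsNoetherianRing B] (h : IsKummerRing B K K' B' g e s') :
    IsNoetherianRing B' :=
  have := h.finite
  IsNoetherianRing.of_finite B B'

/-- Every element of `B'` is congruent to an element of `B` modulo `s'`. -/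
theorem exists_sub_mem_span (h : IsKummerRing B K K' B' g e s') (x : B') :
    ∃ b : B, x - algebraMap B B' b ∈ Ideal.span {s'} := by
  have hx : x ∈ Algebra.adjoin B {s'} := by
    rw [h.adjoin_eq_top]
    trivial
  rw [Algebra.adjoin_singleton_eq_range_aeval] at hx
  obtain ⟨p, rfl⟩ := hx
  refine ⟨p.coeff 0, Ideal.mem_span_singleton.2 ⟨aeval s' p.divX, ?_⟩⟩
  have hp := congrArg (aeval s') (X_mul_divX_add p)
  simp only [map_add, map_mul, aeval_X, aeval_C] at hp
  change aeval s' p - algebraMap B B' (p.coeff 0) = s' * aeval s' p.divX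
  rw [← hp]
  ring

section Local

variable [IsLocalRing B] {lam : B}

theorem span_le_of_isMaximal (h : IsKummerRing B K K' B' g e s')
    (hm : maximalIdeal B = Ideal.span {lam, g}) (n : Ideal B') [hn : n.IsMaximal] :
    Ideal.span {algebraMap B B' lam, s'} ≤ n := by
  have := h.isIntegral
  have hc : (n.comap (algebraMap B B')).IsMaximal :=
    Ideal.isMaximal_comap_of_isIntegral_of_isMaximal n
  have hc' := IsLocalRing.eq_maximalIdeal hc
  rw [hm] at hc'
  rw [Ideal.span_le]
  rintro x (rfl | hx)
  · have h1 : lam ∈ n.comap (algebraMap B B') := by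
      rw [hc']
      exact Ideal.subset_span (by simp)
    exact h1
  · rw [Set.mem_singleton_iff] at hx
    subst hx
    have h1 : g ∈ n.comap (algebraMap B B') := by
      rw [hc']
      exact Ideal.subset_span (by simp)
    have h2 : x ^ e ∈ n := by
      rw [h.pow_eq]
      exact h1
    exact hn.isPrime.mem_of_pow_mem _ h2

theorem isMaximal_span (h : IsKummerRing B K K' B' g e s')
    (hm : maximalIdeal B = Ideal.span {lam, g}) :
    (Ideal.span {algebraMap B B' lam, s'} : Ideal B').IsMaximal := by
  have hdom := h.isDomain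
  obtain ⟨n, hn⟩ := Ideal.exists_maximal B'
  have hle := h.span_le_of_isMaximal hm n
  suffices hge : n ≤ Ideal.span {algebraMap B B' lam, s'} by
    rw [le_antisymm hle hge]
    exact hn
  intro x hx
  obtain ⟨b, hb⟩ := h.exists_sub_mem_span x
  have hsn : Ideal.span {s'} ≤ n := (Ideal.span_mono (by simp)).trans hle
  have hbn : algebraMap B B' b ∈ n := by
    have h1 := n.sub_mem hx (hsn hb)
    simpa using h1
  have hbm : b ∈ maximalIdeal B := by
    by_contra hb'
    have hu : IsUnit b := by
      rwa [mem_maximalIdeal, mem_nonunits_iff, not_not] at hb'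
    exact hn.ne_top (Ideal.eq_top_of_isUnit_mem _ hbn (hu.map _))
  rw [hm, Ideal.mem_span_pair] at hbm
  obtain ⟨c, d, hcd⟩ := hbm
  have hx' : x = (x - algebraMap B B' b) + algebraMap B B' b := by ring
  rw [hx']
  refine Ideal.add_mem _ (Ideal.span_mono (by simp) hb) ?_
  rw [← hcd, map_add, map_mul, map_mul, ← h.pow_eq]
  exact Ideal.add_mem _ (Ideal.mul_mem_left _ _ (Ideal.subset_span (by simp)))
    (Ideal.mul_mem_left _ _ (Ideal.pow_mem_of_mem _ (Ideal.subset_span (by simp)) e
      (Nat.pos_of_ne_zero h.ne_zero)))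

/-- (K5) `B'` is a local ring. -/
theorem isLocalRing (h : IsKummerRing B K K' B' g e s')
    (hm : maximalIdeal B = Ideal.span {lam, g}) : IsLocalRing B' := by
  have hI := h.isMaximal_span hm
  refine IsLocalRing.of_unique_max_ideal ⟨_, hI, fun n hn => ?_⟩
  exact (hI.eq_of_le hn.ne_top (h.span_le_of_isMaximal hm n)).symm

/-- (K6) The maximal ideal of `B'` is `(lam, s')`. -/
theorem maximalIdeal_eq [IsLocalRing B'] (h : IsKummerRing B K K' B' g e s')
    (hm : maximalIdeal B = Ideal.span {lam, g}) :
    maximalIdeal B' = Ideal.span {algebraMap B B' lam, s'} :=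
  (IsLocalRing.eq_maximalIdeal (h.isMaximal_span hm)).symm

theorem algebraMap_injective (h : IsKummerRing B K K' B' g e s') :
    Function.Injective (algebraMap B B') := by
  have h1 : Function.Injective (algebraMap B K') := by
    rw [IsScalarTower.algebraMap_eq B K K']
    exact (algebraMap K K').injective.comp (IsFractionRing.injective B K)
  rw [IsScalarTower.algebraMap_eq B B' K'] at h1
  exact Function.Injective.of_comp h1

/-- `B'` is isomorphic to `B[X] / (X ^ e - g)`. -/
theorem exists_algEquiv_adjoinRoot (h : IsKummerRing B K K' B' g e s') :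
    ∃ Ψ : AdjoinRoot (X ^ e - C g : B[X]) ≃ₐ[B] B', Ψ (AdjoinRoot.root _) = s' := by
  have hdom := h.isDomain
  have hfs : eval₂ (Algebra.ofId B B' : B →+* B') s' (X ^ e - C g : B[X]) = 0 := by
    simp [h.pow_eq]
  let ψ : AdjoinRoot (X ^ e - C g : B[X]) →ₐ[B] B' :=
    AdjoinRoot.liftAlgHom _ (Algebra.ofId B B') s' hfs
  have hψroot : ψ (AdjoinRoot.root _) = s' := AdjoinRoot.liftAlgHom_root _ _ _ _
  have hsurj : Function.Surjective ψ := by
    rw [← AlgHom.range_eq_top, eq_top_iff, ← h.adjoin_eq_top]
    refine Algebra.adjoin_le ?_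
    rintro x hx
    rw [Set.mem_singleton_iff] at hx
    subst hx
    exact ⟨AdjoinRoot.root _, hψroot⟩
  have hinj : Function.Injective ψ := by
    rw [injective_iff_map_eq_zero]
    intro x hx
    obtain ⟨p, rfl⟩ := AdjoinRoot.mk_surjective x
    rw [AdjoinRoot.mk_eq_zero]
    have h1 : aeval s' p = 0 := by
      rw [← hx]
      exact (AdjoinRoot.liftAlgHom_mk _ _ _ _ p).symm
    have h2 : aeval (algebraMap B' K' s') p = 0 := by
      rw [aeval_algebraMap_apply, h1, map_zero]
    have hBK' : Function.Injective (algebraMap B K') := by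
      rw [IsScalarTower.algebraMap_eq B K K']
      exact (algebraMap K K').injective.comp (IsFractionRing.injective B K)
    have : FaithfulSMul B K' := (faithfulSMul_iff_algebraMap_injective B K').2 hBK'
    have h3 := minpoly.isIntegrallyClosed_dvd (isIntegral_of_pow_eq h.ne_zero h.pow_eq') h2
    rwa [minpoly_eq_kpoly K h.prime h.ne_zero h.pow_eq'] at h3
  exact ⟨AlgEquiv.ofBijective ψ ⟨hinj, hsurj⟩, hψroot⟩

/-- (K7) `lam` stays a prime element in `B'`. -/
theorem prime_algebraMap [IsNoetherianRing B] (h : IsKummerRing B K K' B' g e s')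
    (hlam : Prime lam) (hlg : ¬ lam ∣ g) (hm : maximalIdeal B = Ideal.span {lam, g}) :
    Prime (algebraMap B B' lam) := by
  obtain ⟨Ψ, hΨ⟩ := h.exists_algEquiv_adjoinRoot
  have hP := isPrime_map_span_adjoinRoot hlam hlg hm h.ne_zero (e := e)
  have hΨlam : Ψ (AdjoinRoot.of _ lam) = algebraMap B B' lam := by
    rw [← AdjoinRoot.algebraMap_eq]
    exact Ψ.commutes lam
  have h0' : algebraMap B B' lam ≠ 0 := by
    rw [Ne, map_eq_zero_iff _ h.algebraMap_injective]
    exact hlam.ne_zero
  have h0 : AdjoinRoot.of (X ^ e - C g : B[X]) lam ≠ 0 := by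
    intro h1
    rw [h1, map_zero] at hΨlam
    exact h0' hΨlam.symm
  have hprime := (Ideal.span_singleton_prime h0).1 hP
  have h2 := (MulEquiv.prime_iff Ψ).2 hprime
  rwa [hΨlam] at h2

/-- `(lam) B'` lies over `(lam) B`. -/
theorem comap_span_algebraMap (h : IsKummerRing B K K' B' g e s') (hlam : Prime lam) :
    (Ideal.span {algebraMap B B' lam}).comap (algebraMap B B') = Ideal.span {lam} := by
  have hint := h.isIntegral
  have hI : (Ideal.span {lam} : Ideal B).IsPrime :=
    (Ideal.span_singleton_prime hlam.ne_zero).2 hlam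
  refine le_antisymm ?_ ?_
  · obtain ⟨Q, -, hQp, hQ⟩ := Ideal.exists_ideal_over_prime_of_isIntegral
      (Ideal.span {lam}) (⊥ : Ideal B') (by
        intro x hx
        rw [Ideal.mem_comap, Ideal.mem_bot, map_eq_zero_iff _ h.algebraMap_injective] at hx
        rw [hx]
        exact Ideal.zero_mem _)
    have h1 : algebraMap B B' lam ∈ Q := by
      have h2 : lam ∈ Q.comap (algebraMap B B') := by
        rw [hQ]
        exact Ideal.mem_span_singleton_self _
      exact h2
    rw [← hQ]
    exact Ideal.comap_mono ((Ideal.span_singleton_le_iff_mem _).2 h1)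
  · rw [Ideal.span_singleton_le_iff_mem, Ideal.mem_comap]
    exact Ideal.mem_span_singleton_self _

/-- (K8) `lam` does not divide `s'` in `B'`. -/
theorem not_dvd (h : IsKummerRing B K K' B' g e s') (hlam : Prime lam) (hlg : ¬ lam ∣ g) :
    ¬ algebraMap B B' lam ∣ s' := by
  rintro ⟨c, hc⟩
  have h1 : g ∈ (Ideal.span {algebraMap B B' lam}).comap (algebraMap B B') := by
    rw [Ideal.mem_comap, ← h.pow_eq, hc, mul_pow]
    exact Ideal.mul_mem_right _ _ (Ideal.pow_mem_of_mem _ (Ideal.mem_span_singleton_self _) e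
      (Nat.pos_of_ne_zero h.ne_zero))
  rw [h.comap_span_algebraMap hlam, Ideal.mem_span_singleton] at h1
  exact hlg h1

/-- (K9) `(lam) B'` is the only prime of `B'` lying over `(lam) B`. -/
theorem eq_span_of_comap_eq [IsNoetherianRing B] (h : IsKummerRing B K K' B' g e s')
    (hlam : Prime lam) (hlg : ¬ lam ∣ g) (hm : maximalIdeal B = Ideal.span {lam, g})
    (q : Ideal B') [q.IsPrime] (hq : q.comap (algebraMap B B') = Ideal.span {lam}) :
    q = Ideal.span {algebraMap B B' lam} := by
  have hint := h.isIntegral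
  have hpr := h.prime_algebraMap hlam hlg hm
  have hP : (Ideal.span {algebraMap B B' lam}).IsPrime :=
    (Ideal.span_singleton_prime hpr.ne_zero).2 hpr
  have hle : Ideal.span {algebraMap B B' lam} ≤ q := by
    rw [Ideal.span_singleton_le_iff_mem]
    have h1 : lam ∈ q.comap (algebraMap B B') := by
      rw [hq]
      exact Ideal.mem_span_singleton_self _
    exact h1
  by_contra hne
  have hlt : Ideal.span {algebraMap B B' lam} < q := lt_of_le_of_ne hle (Ne.symm hne)
  have h2 := Ideal.IsIntegral.comap_lt_comap (R := B) hlt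
  rw [h.comap_span_algebraMap hlam, hq] at h2
  exact lt_irrefl _ h2

end Local

end IsKummerRing

end Ring

section Descent

/-- (D1) Descent of the one-component statement by going-down (no group action).
`B → B'` and `R → R'` are compatible, `R → R'` is integral, injective and satisfies
going-down (e.g. `R` an integrally closed domain and `R'` a domain integral over it).  If
`(lam) B'` is the only prime of `B'` over `(lam) B` and two primes of `R'` over `(lam) B'`
that are not comaximal are equal, then the same holds for `R` over `(lam) B`. -/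
theorem eq_of_sup_ne_top_of_goingDown {B B' R R' : Type*} [CommRing B] [CommRing B']
    [CommRing R] [CommRing R'] [Algebra B B'] [Algebra B R] [Algebra B' R'] [Algebra R R']
    [Algebra B R'] [IsScalarTower B B' R'] [IsScalarTower B R R']
    [Algebra.HasGoingDown R R'] [Algebra.IsIntegral R R']
    (hinj : Function.Injective (algebraMap R R')) (lam : B)
    (huniq : ∀ q : Ideal B', q.IsPrime → q.comap (algebraMap B B') = Ideal.span {lam} →
      q = Ideal.span {algebraMap B B' lam})
    (hup : ∀ Q₁ Q₁' : Ideal R', Q₁.IsPrime → Q₁'.IsPrime →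
      Q₁.comap (algebraMap B' R') = Ideal.span {algebraMap B B' lam} →
      Q₁'.comap (algebraMap B' R') = Ideal.span {algebraMap B B' lam} →
      Q₁ ⊔ Q₁' ≠ ⊤ → Q₁ = Q₁')
    (Q Q' : Ideal R) [hQp : Q.IsPrime] [hQ'p : Q'.IsPrime]
    (hQ : Q.comap (algebraMap B R) = Ideal.span {lam})
    (hQ' : Q'.comap (algebraMap B R) = Ideal.span {lam}) (h : Q ⊔ Q' ≠ ⊤) : Q = Q' := by
  obtain ⟨n, hn, hle⟩ := Ideal.exists_le_maximal _ h
  have hnp : n.IsPrime := hn.isPrime
  obtain ⟨n', -, hn'p, hn'⟩ := Ideal.exists_ideal_over_prime_of_isIntegral n (⊥ : Ideal R') (by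
    intro x hx
    rw [Ideal.mem_comap, Ideal.mem_bot, map_eq_zero_iff _ hinj] at hx
    rw [hx]
    exact Ideal.zero_mem _)
  have hlo : n'.LiesOver n := ⟨hn'.symm⟩
  -- the key step: lift a prime of `R` below `n` over `(lam)` to a prime of `R'` below `n'`
  have key : ∀ P : Ideal R, P.IsPrime → P.comap (algebraMap B R) = Ideal.span {lam} → P ≤ n →
      ∃ P₁ : Ideal R', P₁.IsPrime ∧ P₁ ≤ n' ∧ P₁.comap (algebraMap R R') = P ∧
        P₁.comap (algebraMap B' R') = Ideal.span {algebraMap B B' lam} := by
    intro P hP hPc hPn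
    obtain ⟨P₁, hP₁le, hP₁p, hP₁⟩ := Ideal.exists_ideal_le_liesOver_of_le (p := P) n' hPn
    have hP₁c : P₁.comap (algebraMap R R') = P := hP₁.over.symm
    refine ⟨P₁, hP₁p, hP₁le, hP₁c, ?_⟩
    have hq : (P₁.comap (algebraMap B' R')).IsPrime := Ideal.comap_isPrime _ _
    refine huniq _ hq ?_
    rw [Ideal.comap_comap, ← IsScalarTower.algebraMap_eq, IsScalarTower.algebraMap_eq B R R',
      ← Ideal.comap_comap, hP₁c, hPc]
  obtain ⟨Q₁, hQ₁p, hQ₁n, hQ₁c, hQ₁l⟩ := key Q hQp hQ (le_sup_left.trans hle)
  obtain ⟨Q₁', hQ₁'p, hQ₁'n, hQ₁'c, hQ₁'l⟩ := key Q' hQ'p hQ' (le_sup_right.trans hle)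
  have hne : Q₁ ⊔ Q₁' ≠ ⊤ := fun htop =>
    hn'p.ne_top (top_unique (htop ▸ sup_le hQ₁n hQ₁'n))
  have heq := hup Q₁ Q₁' hQ₁p hQ₁'p hQ₁l hQ₁'l hne
  rw [← hQ₁c, ← hQ₁'c, heq]

end Descent

end Fermat.Agent.S18.helper7524
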