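import Mathlib
import Fermat.Agent.S18.helper3881_PurityDual
import Fermat.Agent.S18.helper7524_KummerRing

/-!
# S18, track B, T2 (Abhyankar's lemma, local form): assembly (helper7524)

`B` noetherian integrally closed local domain with maximal ideal `(lam, g)`, `lam`, `g` prime,
`¬ lam ∣ g`; `L / K = Frac B` finite separable, `R` the integral closure of `B` in `L`.
If `L / K` is unramified (trace-dual form `helper2636.UnrAt`) at every prime of `B` not
containing `g`, and becomes unramified over `(g)` after adjoining `s`, `s ^ e = g` (`e` a unit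
of `B`): two primes of `R` over `(lam)` that are not comaximal are equal.

Proof: purity (`helper3881.eq_of_sup_ne_top_of_unrAt`) for the Kummer ring `B' = B[s]`
(`IsKummerRing`), the tower step `helper2636.unrAt_tower`, and descent by going-down.
-/

namespace Fermat.Agent.S18.helper7524

open Polynomial IsLocalRing
open Fermat.Agent.S18.helper2636 (UnrAt)

set_option linter.unusedSectionVars false
set_option linter.unusedVariables false

section Pieces

/-- `UnrAt` passes to an integral extension `B'` of the base ring `B`. -/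
theorem unrAt_of_isIntegral {B B' K' L' : Type*} [CommRing B] [CommRing B'] [Field K'] [Field L']
    [Algebra B B'] [Algebra B K'] [Algebra B' K'] [IsScalarTower B B' K'] [Algebra K' L']
    [Algebra B L'] [Algebra B' L'] [IsScalarTower B B' L'] [Algebra.IsIntegral B B']
    (p' : Ideal B') (h : UnrAt B K' L' (p'.comap (algebraMap B B'))) : UnrAt B' K' L' p' := by
  intro x hx
  obtain ⟨a, hap, ha⟩ := h x (fun y hy => isIntegral_trans _ (hx y hy.tower_top))
  refine ⟨algebraMap B B' a, hap, ?_⟩
  rw [← IsScalarTower.algebraMap_apply]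
  exact ha.tower_top

/-- The maximal ideal of `B / a` when the maximal ideal of `B` is `(a, b)`. -/
theorem maximalIdeal_quotient_span_eq {B : Type*} [CommRing B] [IsLocalRing B] {a b : B}
    (hm : maximalIdeal B = Ideal.span {a, b}) [IsLocalRing (B ⧸ Ideal.span {a})] :
    maximalIdeal (B ⧸ Ideal.span {a}) = Ideal.span {Ideal.Quotient.mk (Ideal.span {a}) b} := by
  set I : Ideal B := Ideal.span {a} with hI_def
  have hIm : I ≤ maximalIdeal B := by
    rw [hm]
    exact Ideal.span_mono (by simp)
  have hbm : b ∈ maximalIdeal B := by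
    rw [hm]
    exact Ideal.subset_span (by simp)
  have hsurj : Function.Surjective (Ideal.Quotient.mk I) := Ideal.Quotient.mk_surjective
  have h1 := Ideal.map_eq_top_or_isMaximal_of_surjective (Ideal.Quotient.mk I) hsurj
    (IsLocalRing.maximalIdeal.isMaximal B)
  have h2 : Ideal.map (Ideal.Quotient.mk I) (maximalIdeal B) =
      Ideal.span {Ideal.Quotient.mk I b} := by
    have h3 : Ideal.Quotient.mk I a = 0 :=
      Ideal.Quotient.eq_zero_iff_mem.2 (Ideal.mem_span_singleton_self _)
    rw [hm, Ideal.map_span, Set.image_pair, h3, Ideal.span_insert_zero]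
  rw [h2] at h1
  rcases h1 with h1 | h1
  · exfalso
    have hu : IsUnit (Ideal.Quotient.mk I b) := Ideal.span_singleton_eq_top.1 h1
    obtain ⟨c', hc'⟩ := hu.exists_right_inv
    obtain ⟨c, rfl⟩ := hsurj c'
    have h4 : b * c - 1 ∈ I := by
      rw [← Ideal.Quotient.eq_zero_iff_mem, map_sub, map_mul, map_one, hc', sub_self]
    have h5 : (1 : B) ∈ maximalIdeal B := by
      have h6 := (maximalIdeal B).sub_mem ((maximalIdeal B).mul_mem_right c hbm) (hIm h4)
      have h7 : b * c - (b * c - 1) = 1 := by ring
      rwa [h7] at h6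
    exact (Ideal.ne_top_iff_one _).1 (IsLocalRing.maximalIdeal.isMaximal B).ne_top h5
  · exact (IsLocalRing.eq_maximalIdeal h1).symm

/-- In a noetherian local domain with maximal ideal `(lam, g)`, `lam` prime, `¬ lam ∣ g`,
the element `g` is prime. -/
theorem prime_of_maximalIdeal_eq_span {B : Type*} [CommRing B] [IsDomain B] [IsNoetherianRing B]
    [IsLocalRing B] {lam g : B} (hlam : Prime lam) (hlg : ¬ lam ∣ g)
    (hm : maximalIdeal B = Ideal.span {lam, g}) : Prime g := by
  have hg0 : g ≠ 0 := fun h => hlg (h ▸ dvd_zero lam)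
  set I : Ideal B := Ideal.span {g} with hI_def
  have hm' : maximalIdeal B = Ideal.span {g, lam} := by
    rw [hm, Set.pair_comm]
  have hIm : I ≤ maximalIdeal B := by
    rw [hm']
    exact Ideal.span_mono (by simp)
  have hsurj : Function.Surjective (Ideal.Quotient.mk I) := Ideal.Quotient.mk_surjective
  have hnt : Nontrivial (B ⧸ I) := Ideal.Quotient.nontrivial_iff.2
    (ne_top_of_le_ne_top (IsLocalRing.maximalIdeal.isMaximal B).ne_top hIm)
  have hloc : IsLocalRing (B ⧸ I) := IsLocalRing.of_surjective' (Ideal.Quotient.mk I) hsurj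
  have hmaxA := maximalIdeal_quotient_span_eq hm'
  have hreg : ∀ x : B ⧸ I, Ideal.Quotient.mk I lam * x = 0 → x = 0 := by
    intro x hx
    obtain ⟨x, rfl⟩ := hsurj x
    rw [← map_mul, Ideal.Quotient.eq_zero_iff_mem, Ideal.mem_span_singleton] at hx
    rw [Ideal.Quotient.eq_zero_iff_mem, Ideal.mem_span_singleton]
    obtain ⟨y, hy⟩ := hx
    have h1 : lam ∣ g * y := ⟨x, hy.symm⟩
    rcases hlam.dvd_or_dvd h1 with h2 | ⟨y', rfl⟩
    · exact absurd h2 hlg
    · refine ⟨y', mul_left_cancel₀ hlam.ne_zero ?_⟩
      rw [hy]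
      ring
  have hdom := Fermat.Agent.S18.helper3881.isDomain_of_maximalIdeal_eq_span
    (Ideal.Quotient.mk I lam) hmaxA hreg
  exact (Ideal.span_singleton_prime hg0).1 ((Ideal.Quotient.isDomain_iff_prime I).1 hdom)

/-- In a noetherian local domain with maximal ideal `(a, b)`, `a` prime, `¬ a ∣ b`, the only
non-maximal prime containing `a` is `(a)` (`B / a` is a discrete valuation ring). -/
theorem eq_span_of_mem_of_ne_maximalIdeal {B : Type*} [CommRing B] [IsDomain B]
    [IsNoetherianRing B] [IsLocalRing B] {a b : B} (ha : Prime a) (hab : ¬ a ∣ b)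
    (hm : maximalIdeal B = Ideal.span {a, b}) (p : Ideal B) [hp : p.IsPrime] (hap : a ∈ p)
    (hne : p ≠ maximalIdeal B) : p = Ideal.span {a} := by
  set I : Ideal B := Ideal.span {a} with hI_def
  have hI : I.IsPrime := (Ideal.span_singleton_prime ha.ne_zero).2 ha
  have hIp : I ≤ p := (Ideal.span_singleton_le_iff_mem _).2 hap
  have hsurj : Function.Surjective (Ideal.Quotient.mk I) := Ideal.Quotient.mk_surjective
  have hloc : IsLocalRing (B ⧸ I) := IsLocalRing.of_surjective' (Ideal.Quotient.mk I) hsurj
  have hbbar0 : Ideal.Quotient.mk I b ≠ 0 := by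
    rw [Ne, Ideal.Quotient.eq_zero_iff_mem, Ideal.mem_span_singleton]
    exact hab
  have hmaxA := maximalIdeal_quotient_span_eq hm
  have hmax0 : maximalIdeal (B ⧸ I) ≠ ⊥ := by
    rw [hmaxA, Ne, Ideal.span_singleton_eq_bot]
    exact hbbar0
  have hnf : ¬ IsField (B ⧸ I) := by
    rw [IsLocalRing.isField_iff_maximalIdeal_eq]
    exact hmax0
  have hprin : (maximalIdeal (B ⧸ I)).IsPrincipal := ⟨⟨_, hmaxA⟩⟩
  have hdvr : IsDiscreteValuationRing (B ⧸ I) :=
    ((IsDiscreteValuationRing.TFAE (B ⧸ I) hnf).out 0 4).2 hprin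
  obtain ⟨P, -, hPuniq⟩ := ((IsDiscreteValuationRing.iff_pid_with_one_nonzero_prime (B ⧸ I)).1
    hdvr).2
  -- the image of `p` is a prime of the discrete valuation ring `B / a`
  have hker : RingHom.ker (Ideal.Quotient.mk I) ≤ p := by
    rw [Ideal.mk_ker]
    exact hIp
  have hpbar : (Ideal.map (Ideal.Quotient.mk I) p).IsPrime :=
    Ideal.map_isPrime_of_surjective hsurj hker
  have hcomap : Ideal.comap (Ideal.Quotient.mk I) (Ideal.map (Ideal.Quotient.mk I) p) = p := by
    rw [Ideal.comap_map_of_surjective _ hsurj, ← RingHom.ker_eq_comap_bot]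
    exact sup_eq_left.2 hker
  by_cases hbot : Ideal.map (Ideal.Quotient.mk I) p = ⊥
  · refine le_antisymm ?_ hIp
    intro x hx
    have h1 : Ideal.Quotient.mk I x ∈ Ideal.map (Ideal.Quotient.mk I) p :=
      Ideal.mem_map_of_mem _ hx
    rw [hbot, Ideal.mem_bot] at h1
    exact Ideal.Quotient.eq_zero_iff_mem.1 h1
  · exfalso
    have h1 : Ideal.map (Ideal.Quotient.mk I) p = maximalIdeal (B ⧸ I) :=
      (hPuniq _ ⟨hbot, hpbar⟩).trans
        (hPuniq _ ⟨hmax0, (IsLocalRing.maximalIdeal.isMaximal _).isPrime⟩).symm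
    have h2 : (Ideal.comap (Ideal.Quotient.mk I) (maximalIdeal (B ⧸ I))).IsMaximal :=
      Ideal.comap_isMaximal_of_surjective _ hsurj
    rw [← h1, hcomap] at h2
    exact hne (IsLocalRing.eq_maximalIdeal h2)

end Pieces

section Core

variable {B K L K' L' B' : Type*}
  [CommRing B] [IsDomain B] [IsIntegrallyClosed B] [IsNoetherianRing B] [IsLocalRing B]
  [Field K] [Algebra B K] [IsFractionRing B K]
  [Field L] [Algebra K L] [Algebra B L] [IsScalarTower B K L]
  [FiniteDimensional K L] [Algebra.IsSeparable K L]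
  [Field L'] [Algebra L L'] [Algebra K L'] [IsScalarTower K L L']
  [Algebra B L'] [IsScalarTower B L L'] [IsScalarTower B K L']
  [FiniteDimensional L L'] [Algebra.IsSeparable L L']
  [Field K'] [Algebra K K'] [Algebra K' L'] [IsScalarTower K K' L']
  [Algebra B K'] [IsScalarTower B K K']
  [CommRing B'] [Algebra B B'] [Algebra B' K'] [IsScalarTower B B' K']
  [Algebra B' L'] [IsScalarTower B' K' L'] [IsScalarTower B B' L']
  {lam g : B} {e : ℕ} {s' : B'}

/-- Unramifiedness (trace-dual form) of `L' / K'` over every non-maximal prime of the Kummer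
ring `B' = B[s']`: tower step away from `g`, the tame hypothesis over `(g)`. -/
theorem unrAt_kummer (h : IsKummerRing B K K' B' g e s')
    (hlam : Prime lam) (hlg : ¬ lam ∣ g) (hm : maximalIdeal B = Ideal.span {lam, g})
    (htop : Algebra.adjoin L {algebraMap K' L' (algebraMap B' K' s')} = ⊤)
    (hunr : ∀ p : Ideal B, p.IsPrime → g ∉ p → UnrAt B K L p)
    (htame : UnrAt B K' L' (Ideal.span {g}))
    [IsLocalRing B'] (p' : Ideal B') (hp' : p'.IsPrime) (hne : p' ≠ maximalIdeal B') :
    UnrAt B' K' L' p' := by
  have hint := h.isIntegral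
  refine unrAt_of_isIntegral (B := B) p' ?_
  have hp : (p'.comap (algebraMap B B')).IsPrime := Ideal.comap_isPrime _ _
  by_cases hgp : g ∈ p'.comap (algebraMap B B')
  · have hne' : p'.comap (algebraMap B B') ≠ maximalIdeal B := by
      intro heq
      have hmax : (p'.comap (algebraMap B B')).IsMaximal :=
        heq ▸ IsLocalRing.maximalIdeal.isMaximal B
      exact hne (IsLocalRing.eq_maximalIdeal
        (Ideal.isMaximal_of_isIntegral_of_isMaximal_comap p' hmax))
    have hgl : ¬ g ∣ lam := fun hdvd =>
      hlg ((h.prime.irreducible.dvd_irreducible_iff_associated hlam.irreducible).1 hdvd).symm.dvd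
    have hm' : maximalIdeal B = Ideal.span {g, lam} := by
      rw [hm, Set.pair_comm]
    rw [eq_span_of_mem_of_ne_maximalIdeal h.prime hgl hm' _ hgp hne']
    exact htame
  · have hBK'L' : IsScalarTower B K' L' := IsScalarTower.of_algebraMap_eq (fun x => by
      rw [IsScalarTower.algebraMap_apply B K L', IsScalarTower.algebraMap_apply K K' L',
        ← IsScalarTower.algebraMap_apply B K K'])
    have hs : (algebraMap K' L' (algebraMap B' K' s')) ^ e = algebraMap B L' g := by
      rw [← map_pow, h.pow_eq', ← IsScalarTower.algebraMap_apply]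
    exact Fermat.Agent.S18.helper2636.unrAt_tower _ e g _ hs htop
      (fun he => hp.ne_top (Ideal.eq_top_of_isUnit_mem _ he h.isUnit)) hgp (hunr _ hp hgp)

variable {R' : Type*} [CommRing R'] [Algebra R' L'] [Algebra B' R'] [IsScalarTower B' R' L']
  [IsIntegralClosure R' B' L']

/-- Purity upstairs: two primes of the integral closure `R'` of `B'` in `L'` over `(lam) B'`
that are not comaximal are equal. -/
theorem eq_of_sup_ne_top_kummer (h : IsKummerRing B K K' B' g e s')
    (hlam : Prime lam) (hlg : ¬ lam ∣ g) (hm : maximalIdeal B = Ideal.span {lam, g})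
    (htop : Algebra.adjoin L {algebraMap K' L' (algebraMap B' K' s')} = ⊤)
    (hunr : ∀ p : Ideal B, p.IsPrime → g ∉ p → UnrAt B K L p)
    (htame : UnrAt B K' L' (Ideal.span {g}))
    (Q₁ Q₁' : Ideal R') [Q₁.IsPrime] [Q₁'.IsPrime]
    (hQ₁ : Q₁.comap (algebraMap B' R') = Ideal.span {algebraMap B B' lam})
    (hQ₁' : Q₁'.comap (algebraMap B' R') = Ideal.span {algebraMap B B' lam})
    (hsup : Q₁ ⊔ Q₁' ≠ ⊤) : Q₁ = Q₁' := by
  have := h.isDomain
  have := h.isIntegrallyClosed
  have := h.isNoetherianRing
  have := h.isFractionRing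
  have := h.isLocalRing hm
  have : FiniteDimensional K L' := FiniteDimensional.trans K L L'
  have : FiniteDimensional K' L' := FiniteDimensional.right K K' L'
  have : Algebra.IsSeparable K L' := Algebra.IsSeparable.trans K L L'
  have : Algebra.IsSeparable K' L' := Algebra.isSeparable_tower_top_of_isSeparable K K' L'
  exact Fermat.Agent.S18.helper3881.eq_of_sup_ne_top_of_unrAt B' K' L' R' (algebraMap B B' lam) s'
    (h.prime_algebraMap hlam hlg hm) (h.not_dvd hlam hlg) (h.maximalIdeal_eq hm)
    (fun p' hp' hne => unrAt_kummer h hlam hlg hm htop hunr htame p' hp' hne)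
    Q₁ Q₁' hQ₁ hQ₁' hsup

/-- **T2, abstract form.**  `R` the integral closure of `B` in `L`, `R'` the integral closure
of the Kummer ring `B' = B[s']` in `L' = L[s']`: two primes of `R` over `(lam)` that are not
comaximal are equal.  Hypotheses: `L / K` unramified (trace-dual form) at the primes of `B`
not containing `g`, and `L' / K'` unramified over `(g)`. -/
theorem eq_of_sup_ne_top_of_kummer {R : Type*} [CommRing R] [Algebra R L]
    [IsIntegralClosure R B L] [Algebra B R] [IsScalarTower B R L] (R' : Type*) [CommRing R']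
    [Algebra R' L'] [Algebra B' R'] [IsScalarTower B' R' L'] [IsIntegralClosure R' B' L']
    (h : IsKummerRing B K K' B' g e s')
    (hlam : Prime lam) (hlg : ¬ lam ∣ g) (hm : maximalIdeal B = Ideal.span {lam, g})
    (htop : Algebra.adjoin L {algebraMap K' L' (algebraMap B' K' s')} = ⊤)
    (hunr : ∀ p : Ideal B, p.IsPrime → g ∉ p → UnrAt B K L p)
    (htame : UnrAt B K' L' (Ideal.span {g}))
    (Q Q' : Ideal R) [Q.IsPrime] [Q'.IsPrime]
    (hQ : Q.comap (algebraMap B R) = Ideal.span {lam})
    (hQ' : Q'.comap (algebraMap B R) = Ideal.span {lam}) (hsup : Q ⊔ Q' ≠ ⊤) : Q = Q' := by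
  have hint := h.isIntegral
  have hRL : Function.Injective (algebraMap R L) := IsIntegralClosure.algebraMap_injective R B L
  have hR'L' : Function.Injective (algebraMap R' L') :=
    IsIntegralClosure.algebraMap_injective R' B' L'
  have hdomR : IsDomain R := hRL.isDomain (algebraMap R L)
  have hdomR' : IsDomain R' := hR'L'.isDomain (algebraMap R' L')
  have hintR : Algebra.IsIntegral B R := IsIntegralClosure.isIntegral_algebra B L
  -- `R'` as a `B`-algebra, and as the integral closure of `B` in `L'`
  let algBR' : Algebra B R' := ((algebraMap B' R').comp (algebraMap B B')).toAlgebra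
  have tBB'R' : IsScalarTower B B' R' := IsScalarTower.of_algebraMap_eq (fun x => rfl)
  have tBR'L' : IsScalarTower B R' L' := IsScalarTower.of_algebraMap_eq (fun x => by
    change algebraMap B L' x = algebraMap R' L' (algebraMap B' R' (algebraMap B B' x))
    rw [← IsScalarTower.algebraMap_apply B' R' L', ← IsScalarTower.algebraMap_apply B B' L'])
  have hicl : IsIntegralClosure R' B L' := by
    refine ⟨hR'L', fun {x} => ⟨fun hx => ?_, ?_⟩⟩
    · exact (IsIntegralClosure.isIntegral_iff (A := R') (R := B')).1 hx.tower_top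
    · rintro ⟨y, rfl⟩
      exact isIntegral_trans _ ((IsIntegralClosure.isIntegral_iff (A := R') (R := B')).2 ⟨y, rfl⟩)
  -- the map `R → R'`
  let algRL' : Algebra R L' := ((algebraMap L L').comp (algebraMap R L)).toAlgebra
  have tRLL' : IsScalarTower R L L' := IsScalarTower.of_algebraMap_eq (fun x => rfl)
  have tBRL' : IsScalarTower B R L' := IsScalarTower.of_algebraMap_eq (fun x => by
    change algebraMap B L' x = algebraMap L L' (algebraMap R L (algebraMap B R x))
    rw [← IsScalarTower.algebraMap_apply B R L, ← IsScalarTower.algebraMap_apply B L L'])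
  let φ : R →ₐ[B] R' := IsIntegralClosure.lift B R' L'
  have hφ : ∀ r, algebraMap R' L' (φ r) = algebraMap R L' r :=
    fun r => IsIntegralClosure.algebraMap_lift B R' L' r
  let algRR' : Algebra R R' := φ.toRingHom.toAlgebra
  have tBRR' : IsScalarTower B R R' :=
    IsScalarTower.of_algebraMap_eq (fun x => (φ.commutes x).symm)
  have hφinj : Function.Injective (algebraMap R R') := by
    intro a b hab
    have h1 : algebraMap R' L' (φ a) = algebraMap R' L' (φ b) := congrArg _ hab
    rw [hφ, hφ] at h1
    exact hRL ((algebraMap L L').injective h1)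
  have hfaith : FaithfulSMul R R' := (faithfulSMul_iff_algebraMap_injective R R').2 hφinj
  have hintRR' : Algebra.IsIntegral R R' := ⟨fun y => by
    have h1 : IsIntegral B y := IsIntegralClosure.isIntegral B L' y
    exact h1.tower_top⟩
  have hfrR : IsFractionRing R L := IsIntegralClosure.isFractionRing_of_finite_extension B K L R
  have hicR : IsIntegrallyClosed R := by
    rw [isIntegrallyClosed_iff_isIntegralClosure L]
    refine ⟨hRL, fun {x} => ⟨fun hx => ?_, ?_⟩⟩
    · exact (IsIntegralClosure.isIntegral_iff (A := R) (R := B)).1 (isIntegral_trans x hx)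
    · rintro ⟨y, rfl⟩
      exact isIntegral_algebraMap
  exact eq_of_sup_ne_top_of_goingDown (B := B) (B' := B') (R := R) (R' := R') hφinj lam
    (fun q hq hqc => by
      have := hq
      exact h.eq_span_of_comap_eq hlam hlg hm q hqc)
    (fun Q₁ Q₁' hQ₁p hQ₁'p hQ₁ hQ₁' hne => by
      have := hQ₁p
      have := hQ₁'p
      exact eq_of_sup_ne_top_kummer h hlam hlg hm htop hunr htame Q₁ Q₁' hQ₁ hQ₁' hne)
    Q Q' hQ hQ' hsup

end Core

section Concrete

theorem algebra_isSeparable_of_pow_eq {F E : Type*} [Field F] [Field E] [Algebra F E] {e : ℕ}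
    (he : (e : F) ≠ 0) {a : F} (ha : a ≠ 0) {s : E} (hs : s ^ e = algebraMap F E a)
    (htop : Algebra.adjoin F {s} = ⊤) : Algebra.IsSeparable F E := by
  have hsep : IsSeparable F s :=
    (separable_X_pow_sub_C a he ha).of_dvd (minpoly.dvd F s (by simp [hs]))
  rw [← separableClosure.eq_top_iff, ← IntermediateField.toSubalgebra_injective.eq_iff,
    IntermediateField.top_toSubalgebra, eq_top_iff, ← htop]
  refine Algebra.adjoin_le ?_
  rintro x hx
  rw [Set.mem_singleton_iff] at hx
  subst hx
  exact mem_separableClosure_iff.2 hsep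

variable (B K L R : Type*)
  [CommRing B] [IsDomain B] [IsIntegrallyClosed B] [IsNoetherianRing B] [IsLocalRing B]
  [Field K] [Algebra B K] [IsFractionRing B K]
  [Field L] [Algebra K L] [Algebra B L] [IsScalarTower B K L]
  [FiniteDimensional K L] [Algebra.IsSeparable K L]
  [CommRing R] [Algebra R L] [IsIntegralClosure R B L] [Algebra B R] [IsScalarTower B R L]
  (L' : Type*) [Field L'] [Algebra L L'] [Algebra K L'] [IsScalarTower K L L']
  [Algebra B L'] [IsScalarTower B L L'] [IsScalarTower B K L']
  (K' : Type*) [Field K'] [Algebra K K'] [Algebra K' L'] [IsScalarTower K K' L']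
  [Algebra B K'] [IsScalarTower B K K']

/-- **T2 (Abhyankar, local form), with the tame step as a hypothesis.**
`L' = L[s]`, `K' = K[s]`, `s ^ e = g`, `e` a unit of `B`.  If `L / K` is unramified
(trace-dual form) at every prime of `B` not containing `g` and `L' / K'` is unramified over
`(g)`, then two primes of `R` over `(lam)` that are not comaximal are equal. -/
theorem eq_of_sup_ne_top_of_tame_unrAt (lam g : B) (hlam : Prime lam)
    (hlg : ¬ lam ∣ g) (hm : maximalIdeal B = Ideal.span {lam, g}) (e : ℕ) (he : IsUnit (e : B))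
    (hunr : ∀ p : Ideal B, p.IsPrime → g ∉ p → UnrAt B K L p)
    (s : K') (hs : s ^ e = algebraMap B K' g) (hK' : Algebra.adjoin K {s} = ⊤)
    (htop : Algebra.adjoin L {algebraMap K' L' s} = ⊤)
    (htame : UnrAt B K' L' (Ideal.span {g}))
    (Q Q' : Ideal R) [Q.IsPrime] [Q'.IsPrime]
    (hQ : Q.comap (algebraMap B R) = Ideal.span {lam})
    (hQ' : Q'.comap (algebraMap B R) = Ideal.span {lam}) (hsup : Q ⊔ Q' ≠ ⊤) : Q = Q' := by
  have hg : Prime g := prime_of_maximalIdeal_eq_span hlam hlg hm
  have he0 : e ≠ 0 := by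
    rintro rfl
    simp at he
  have hBL : Function.Injective (algebraMap B L) := by
    rw [IsScalarTower.algebraMap_eq B K L]
    exact (algebraMap K L).injective.comp (IsFractionRing.injective B K)
  have hBK'L' : IsScalarTower B K' L' := IsScalarTower.of_algebraMap_eq (fun x => by
    rw [IsScalarTower.algebraMap_apply B K L', IsScalarTower.algebraMap_apply K K' L',
      ← IsScalarTower.algebraMap_apply B K K'])
  have hsL : (algebraMap K' L' s) ^ e = algebraMap L L' (algebraMap B L g) := by
    rw [← map_pow, hs, ← IsScalarTower.algebraMap_apply, ← IsScalarTower.algebraMap_apply]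
  have heL : ((e : ℕ) : L) ≠ 0 := by
    have h1 := (he.map (algebraMap B L)).ne_zero
    simpa using h1
  have hgL : algebraMap B L g ≠ 0 := by
    rw [Ne, map_eq_zero_iff _ hBL]
    exact hg.ne_zero
  have hfin : FiniteDimensional L L' := finite_of_adjoin_eq_top he0 hsL htop
  have hsep : Algebra.IsSeparable L L' := algebra_isSeparable_of_pow_eq heL hgL hsL htop
  have tBB'L' : IsScalarTower B (Algebra.adjoin B {s}) L' :=
    IsScalarTower.of_algebraMap_eq (fun x => IsScalarTower.algebraMap_apply B K' L' x)
  have hkum : IsKummerRing B K K' (Algebra.adjoin B {s}) g e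
      ⟨s, Algebra.self_mem_adjoin_singleton B s⟩ := by
    refine ⟨hg, he, Subtype.ext ?_, ?_, Subtype.val_injective, hK'⟩
    · simpa using hs
    · have h1 := Algebra.adjoin_adjoin_coe_preimage (R := B) (s := ({s} : Set K'))
      have h2 : (Subtype.val ⁻¹' ({s} : Set K') : Set (Algebra.adjoin B {s})) =
          {⟨s, Algebra.self_mem_adjoin_singleton B s⟩} := by
        ext x
        simp [Subtype.ext_iff]
      rwa [h2] at h1
  exact eq_of_sup_ne_top_of_kummer (integralClosure (Algebra.adjoin B {s}) L') hkum hlam hlg hm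
    htop hunr htame Q Q' hQ hQ' hsup

end Concrete

end Fermat.Agent.S18.helper7524
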