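import Mathlib

/-!
# S18 (track B, bridge leaves CFE / KUMMER-UNRAM): "etale extensions are unramified",
in a valuation-only, Dedekind-free form

Setting.  `F` a field, `𝒪 : ValuationSubring F` together with an integer valued "order function"
`w : F → ℤ` (`w (x * y) = w x + w y` on nonzero elements, `0 ≤ w x ↔ x ∈ 𝒪`); e.g. `w = v.ord`
for a Prelude `Place`.  `O : Subring F` is a "small" valuation ring inside `𝒪` (think
`O = 𝒪 ∩ L₀` for a subfield `L₀`): it is saturated (`w a = 0 → a⁻¹ ∈ O`) and its non-units are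
divisible by one element `ϖ` (`0 < w a → ∃ b, a = ϖ * b`).

**Theorem** (`dvd_ord_eval₂`).  If `θ : F` is a root of a monic *separable* polynomial
`p : O[X]` (separable over the ring `O`, i.e. `IsCoprime p p'`), then for every `q : O[X]`
with `q(θ) ≠ 0` the order `w (q(θ))` is a multiple of `w ϖ`.

Consequently (`dvd_ord_div`) the same holds for all quotients `q₁(θ) / q₂(θ)`, i.e. for all
elements of the field `Frac(O)(θ)`: the value group does not grow ("no ramification").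

Instances intended by the S18 bridge leaves:
* constant field extension: `p = minpoly K₀ θ` for `θ` algebraic over a field `K₀ ⊆ O` of
  characteristic `0` (or perfect);
* Kummer extension: `p = X ^ m - C u` with `u` and `(m : O)` units of `O`.
-/

set_option autoImplicit false

namespace Fermat.Agent.S18.helper7917

open Polynomial

section Core

variable {F : Type*} [Field F]

/-- Evaluation of polynomials over a subring `O ≤ 𝒪` at a point of `𝒪`, as a ring hom to `𝒪`. -/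
noncomputable def evO (𝒪 : ValuationSubring F) (O : Subring F) (hO : O ≤ 𝒪.toSubring)
    (θ : 𝒪) : O[X] →+* 𝒪 :=
  Polynomial.eval₂RingHom (Subring.inclusion hO) θ

theorem coe_evO (𝒪 : ValuationSubring F) (O : Subring F) (hO : O ≤ 𝒪.toSubring)
    (θ : 𝒪) (q : O[X]) :
    ((evO 𝒪 O hO θ q : 𝒪) : F) = q.eval₂ O.subtype (θ : F) := by
  exact Polynomial.hom_eval₂ q (Subring.inclusion hO) 𝒪.subtype θ

variable (w : F → ℤ)

theorem ord_one_of_mul (hw_mul : ∀ x y : F, x ≠ 0 → y ≠ 0 → w (x * y) = w x + w y) :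
    w 1 = 0 := by
  have h := hw_mul 1 1 one_ne_zero one_ne_zero
  rw [mul_one] at h
  omega

theorem ord_inv_of_mul (hw_mul : ∀ x y : F, x ≠ 0 → y ≠ 0 → w (x * y) = w x + w y)
    {x : F} (hx : x ≠ 0) : w x⁻¹ = - w x := by
  have h := hw_mul x x⁻¹ hx (inv_ne_zero hx)
  rw [mul_inv_cancel₀ hx, ord_one_of_mul w hw_mul] at h
  omega

variable (𝒪 : ValuationSubring F)

theorem ord_eq_zero_of_isUnit (hw_mul : ∀ x y : F, x ≠ 0 → y ≠ 0 → w (x * y) = w x + w y)
    (hw_nonneg : ∀ x : F, x ≠ 0 → (0 ≤ w x ↔ x ∈ 𝒪)) {u : 𝒪} (hu : IsUnit u) :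
    w (u : F) = 0 := by
  obtain ⟨v, hv⟩ := hu.exists_right_inv
  have hu0 : (u : F) ≠ 0 := by
    intro h0
    have : ((u * v : 𝒪) : F) = 1 := by rw [hv]; rfl
    rw [MulMemClass.coe_mul, h0, zero_mul] at this
    exact zero_ne_one this
  have hv0 : (v : F) ≠ 0 := by
    intro h0
    have : ((u * v : 𝒪) : F) = 1 := by rw [hv]; rfl
    rw [MulMemClass.coe_mul, h0, mul_zero] at this
    exact zero_ne_one this
  have h1 : w ((u : F) * (v : F)) = w (u : F) + w (v : F) := hw_mul _ _ hu0 hv0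
  have h2 : (u : F) * (v : F) = 1 := by
    have : ((u * v : 𝒪) : F) = 1 := by rw [hv]; rfl
    simpa using this
  rw [h2, ord_one_of_mul w hw_mul] at h1
  have h3 : 0 ≤ w (u : F) := (hw_nonneg _ hu0).mpr u.2
  have h4 : 0 ≤ w (v : F) := (hw_nonneg _ hv0).mpr v.2
  omega

theorem ord_pos_of_not_isUnit (hw_mul : ∀ x y : F, x ≠ 0 → y ≠ 0 → w (x * y) = w x + w y)
    (hw_nonneg : ∀ x : F, x ≠ 0 → (0 ≤ w x ↔ x ∈ 𝒪)) {u : 𝒪} (hu0 : (u : F) ≠ 0)
    (hu : ¬ IsUnit u) : 0 < w (u : F) := by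
  by_contra hneg
  have h3 : 0 ≤ w (u : F) := (hw_nonneg _ hu0).mpr u.2
  have h0 : w (u : F) = 0 := by omega
  have hinv : (u : F)⁻¹ ∈ 𝒪 := by
    rw [← hw_nonneg _ (inv_ne_zero hu0), ord_inv_of_mul w hw_mul hu0, h0]
    simp
  apply hu
  refine IsUnit.of_mul_eq_one (⟨(u : F)⁻¹, hinv⟩ : 𝒪) ?_
  apply Subtype.ext
  simp [mul_inv_cancel₀ hu0]

theorem isUnit_of_ord_eq_zero (hw_mul : ∀ x y : F, x ≠ 0 → y ≠ 0 → w (x * y) = w x + w y)
    (hw_nonneg : ∀ x : F, x ≠ 0 → (0 ≤ w x ↔ x ∈ 𝒪)) {u : 𝒪} (hu0 : (u : F) ≠ 0)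
    (hu : w (u : F) = 0) : IsUnit u := by
  by_contra hnu
  have := ord_pos_of_not_isUnit w 𝒪 hw_mul hw_nonneg hu0 hnu
  omega

/-- The principal ideal `(ϖ)` of the small ring `O` is maximal. -/
theorem span_uniformizer_isMaximal
    (hw_mul : ∀ x y : F, x ≠ 0 → y ≠ 0 → w (x * y) = w x + w y)
    (hw_nonneg : ∀ x : F, x ≠ 0 → (0 ≤ w x ↔ x ∈ 𝒪))
    (O : Subring F) (hO : O ≤ 𝒪.toSubring)
    (hOinv : ∀ a : O, (a : F) ≠ 0 → w (a : F) = 0 → (a : F)⁻¹ ∈ O)
    (ϖ : O) (hϖ : (ϖ : F) = 0 ∨ 0 < w (ϖ : F))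
    (hdiv : ∀ a : O, (a : F) ≠ 0 → 0 < w (a : F) → ∃ b : O, a = ϖ * b) :
    (Ideal.span {ϖ} : Ideal O).IsMaximal := by
  have hnn : ∀ a : O, (a : F) ≠ 0 → 0 ≤ w (a : F) := fun a ha => (hw_nonneg _ ha).mpr (hO a.2)
  rw [Ideal.isMaximal_iff]
  refine ⟨?_, ?_⟩
  · intro h1
    rw [Ideal.mem_span_singleton'] at h1
    obtain ⟨b, hb⟩ := h1
    have hb' : (b : F) * (ϖ : F) = 1 := by
      have := congrArg (Subtype.val) hb
      simpa using this
    have hb0 : (b : F) ≠ 0 := by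
      intro h0; rw [h0, zero_mul] at hb'; exact zero_ne_one hb'
    have hϖ0 : (ϖ : F) ≠ 0 := by
      intro h0; rw [h0, mul_zero] at hb'; exact zero_ne_one hb'
    have h := hw_mul _ _ hb0 hϖ0
    rw [hb', ord_one_of_mul w hw_mul] at h
    have := hnn b hb0
    rcases hϖ with h0 | hpos
    · exact hϖ0 h0
    · omega
  · intro J a _ haI haJ
    have ha0 : (a : F) ≠ 0 := by
      intro h0
      apply haI
      have : a = 0 := Subtype.ext h0
      rw [this]; exact Ideal.zero_mem _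
    have hwa : w (a : F) = 0 := by
      by_contra hne
      have hpos : 0 < w (a : F) := by have := hnn a ha0; omega
      obtain ⟨b, hb⟩ := hdiv a ha0 hpos
      apply haI
      rw [hb]
      exact Ideal.mul_mem_right _ _ (Ideal.mem_span_singleton_self ϖ)
    have hinv := hOinv a ha0 hwa
    have : (1 : O) = (⟨(a : F)⁻¹, hinv⟩ : O) * a := by
      apply Subtype.ext
      simp [inv_mul_cancel₀ ha0]
    rw [this]
    exact Ideal.mul_mem_left _ _ haJ

/-- **Etale implies unramified, multiplicative form.**  Every nonzero `q(θ)`, `q : O[X]`, is a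
power of `ϖ` times a unit of the big valuation ring `𝒪`.  The degenerate case `ϖ = 0`
(`O` a field on which `w` is trivial) is allowed. -/
theorem exists_pow_mul_unit
    (hw_mul : ∀ x y : F, x ≠ 0 → y ≠ 0 → w (x * y) = w x + w y)
    (hw_nonneg : ∀ x : F, x ≠ 0 → (0 ≤ w x ↔ x ∈ 𝒪))
    (O : Subring F) (hO : O ≤ 𝒪.toSubring)
    (hOinv : ∀ a : O, (a : F) ≠ 0 → w (a : F) = 0 → (a : F)⁻¹ ∈ O)
    (ϖ : O) (hϖ : (ϖ : F) = 0 ∨ 0 < w (ϖ : F))
    (hdiv : ∀ a : O, (a : F) ≠ 0 → 0 < w (a : F) → ∃ b : O, a = ϖ * b)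
    (p : O[X]) (hp : p.Monic) (hsep : p.Separable)
    (θ : F) (hθ : p.eval₂ O.subtype θ = 0)
    (q : O[X]) (hq : q.eval₂ O.subtype θ ≠ 0) :
    ∃ (k : ℕ) (ε : 𝒪), IsUnit ε ∧ q.eval₂ O.subtype θ = (ϖ : F) ^ k * (ε : F) := by
  classical
  -- `θ` is integral over `𝒪`, hence lies in `𝒪`.
  have hθint : IsIntegral 𝒪 θ := by
    refine ⟨p.map (Subring.inclusion hO), hp.map _, ?_⟩
    rw [Polynomial.eval₂_map]
    exact hθ
  obtain ⟨θ', hθ'⟩ : ∃ θ' : 𝒪, (θ' : F) = θ := by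
    have := (IsIntegrallyClosed.isIntegral_iff (R := 𝒪) (K := F)).mp hθint
    obtain ⟨y, hy⟩ := this
    exact ⟨y, hy⟩
  subst hθ'
  set ev := evO 𝒪 O hO θ' with hev
  have hevcoe : ∀ f : O[X], ((ev f : 𝒪) : F) = f.eval₂ O.subtype (θ' : F) :=
    fun f => coe_evO 𝒪 O hO θ' f
  have hevp : ev p = 0 := Subtype.ext (by rw [hevcoe, hθ]; rfl)
  have hevC : ∀ a : O, ((ev (C a) : 𝒪) : F) = (a : F) := by
    intro a
    rw [hevcoe, Polynomial.eval₂_C]; rfl
  -- the residue field of the small ring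
  have hmax : (Ideal.span {ϖ} : Ideal O).IsMaximal :=
    span_uniformizer_isMaximal w 𝒪 hw_mul hw_nonneg O hO hOinv ϖ hϖ hdiv
  let _ : Field (O ⧸ (Ideal.span {ϖ} : Ideal O)) := Ideal.Quotient.field _
  set mk := Ideal.Quotient.mk (Ideal.span {ϖ} : Ideal O) with hmk
  -- `ϖ` is a non-unit of `𝒪`
  have hϖnu : ¬ IsUnit (ev (C ϖ)) := by
    intro hu
    have h1 := ord_eq_zero_of_isUnit w 𝒪 hw_mul hw_nonneg hu
    rw [hevC] at h1
    rcases hϖ with h0 | hpos
    · have : ev (C ϖ) = 0 := Subtype.ext (by rw [hevC, h0]; rfl)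
      rw [this] at hu
      exact not_isUnit_zero hu
    · omega
  -- the residue map of the big ring, restricted to `O[X]`
  set res := IsLocalRing.residue 𝒪 with hres
  set ψ : O[X] →+* IsLocalRing.ResidueField 𝒪 := res.comp ev with hψ
  have hψϖ : ψ (C ϖ) = 0 := by
    rw [hψ, RingHom.comp_apply, hres, IsLocalRing.residue_eq_zero_iff]
    exact hϖnu
  -- `ψ` factors through `κ[X]`
  set φ : (O ⧸ (Ideal.span {ϖ} : Ideal O)) →+* IsLocalRing.ResidueField 𝒪 :=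
    Ideal.Quotient.lift (Ideal.span {ϖ}) (ψ.comp C) (by
      intro a ha
      rw [Ideal.mem_span_singleton'] at ha
      obtain ⟨b, rfl⟩ := ha
      rw [RingHom.comp_apply, C_mul, map_mul, hψϖ, mul_zero]) with hφ
  set ψbar : (O ⧸ (Ideal.span {ϖ} : Ideal O))[X] →+* IsLocalRing.ResidueField 𝒪 :=
    Polynomial.eval₂RingHom φ (ψ X) with hψbar
  have hfac : ∀ f : O[X], ψbar (f.map mk) = ψ f := by
    intro f
    rw [hψbar, Polynomial.coe_eval₂RingHom, Polynomial.eval₂_map]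
    have hcomp : φ.comp mk = ψ.comp C := by
      ext a
      simp [hφ, hmk]
    rw [hcomp]
    conv_rhs => rw [← Polynomial.eval₂_C_X (p := f)]
    rw [Polynomial.hom_eval₂]
  -- key step: if `q(θ)` is a non-unit, divide by `ϖ` up to a unit
  have key : ∀ f : O[X], ¬ IsUnit (ev f) →
      ∃ G f₁ : O[X], IsUnit (ev G) ∧ ev f * ev G = ev (C ϖ) * ev f₁ := by
    intro f hf
    have hψf : ψ f = 0 := by
      rw [hψ, RingHom.comp_apply, hres, IsLocalRing.residue_eq_zero_iff]; exact hf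
    have hψp : ψ p = 0 := by rw [hψ, RingHom.comp_apply, hevp, map_zero]
    set pb := p.map mk with hpb
    set fb := f.map mk with hfb
    set g := EuclideanDomain.gcd pb fb with hg
    obtain ⟨g₂, hg₂⟩ : g ∣ pb := EuclideanDomain.gcd_dvd_left pb fb
    obtain ⟨s, hs⟩ : g ∣ fb := EuclideanDomain.gcd_dvd_right pb fb
    have hψg : ψbar g = 0 := by
      rw [hg, EuclideanDomain.gcd_eq_gcd_ab pb fb, map_add, map_mul, map_mul, hpb, hfb,
        hfac, hfac, hψp, hψf, zero_mul, zero_mul, add_zero]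
    have hsepb : pb.Separable := hsep.map
    have hcop : IsCoprime g g₂ := by
      rw [hg₂] at hsepb
      exact hsepb.isCoprime
    obtain ⟨a, b, hab⟩ := hcop
    have hψg₂ : ψbar g₂ ≠ 0 := by
      intro h0
      have := congrArg ψbar hab
      rw [map_add, map_mul, map_mul, hψg, h0, mul_zero, mul_zero, add_zero, map_one] at this
      exact zero_ne_one this
    obtain ⟨G, hG⟩ := Polynomial.map_surjective mk Ideal.Quotient.mk_surjective g₂
    obtain ⟨S, hS⟩ := Polynomial.map_surjective mk Ideal.Quotient.mk_surjective s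
    have hker : (f * G - p * S).map mk = 0 := by
      rw [Polynomial.map_sub, Polynomial.map_mul, Polynomial.map_mul, hG, hS, ← hfb, ← hpb,
        hs, hg₂]
      ring
    have hmem : f * G - p * S ∈ (Ideal.span {ϖ} : Ideal O).map (C : O →+* O[X]) := by
      rw [Ideal.mem_map_C_iff]
      intro n
      have := congrArg (fun r => Polynomial.coeff r n) hker
      simp only [Polynomial.coeff_map, Polynomial.coeff_zero] at this
      rw [hmk] at this
      exact Ideal.Quotient.eq_zero_iff_mem.mp this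
    rw [Ideal.map_span, Set.image_singleton, Ideal.mem_span_singleton'] at hmem
    obtain ⟨f₁, hf₁⟩ := hmem
    refine ⟨G, f₁, ?_, ?_⟩
    · have : ψ G ≠ 0 := by rw [← hfac, hG]; exact hψg₂
      rw [hψ, RingHom.comp_apply, hres] at this
      by_contra hnu
      exact this ((IsLocalRing.residue_eq_zero_iff _).mpr hnu)
    · have h1 : ev (f * G - p * S) = ev (f₁ * C ϖ) := by rw [hf₁]
      rw [map_sub, map_mul, map_mul, hevp, zero_mul, sub_zero, map_mul] at h1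
      rw [h1, mul_comm]
  -- strong induction on the order
  have main : ∀ n : ℕ, ∀ f : O[X], ((ev f : 𝒪) : F) ≠ 0 → w ((ev f : 𝒪) : F) = n →
      ∃ (k : ℕ) (ε : 𝒪), IsUnit ε ∧ ((ev f : 𝒪) : F) = (ϖ : F) ^ k * (ε : F) := by
    intro n
    induction n using Nat.strong_induction_on with
    | _ n ih =>
      intro f hf0 hfn
      by_cases hu : IsUnit (ev f)
      · exact ⟨0, ev f, hu, by simp⟩
      · obtain ⟨G, f₁, hGu, hmul⟩ := key f hu
        have hG0 : ((ev G : 𝒪) : F) ≠ 0 := by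
          intro h0
          have : ev G = 0 := Subtype.ext h0
          rw [this] at hGu
          exact not_isUnit_zero hGu
        have hmulF : ((ev f : 𝒪) : F) * ((ev G : 𝒪) : F) = (ϖ : F) * ((ev f₁ : 𝒪) : F) := by
          have := congrArg (Subtype.val) hmul
          simpa [hevC] using this
        have hϖ0 : (ϖ : F) ≠ 0 := by
          intro h0
          rw [h0, zero_mul] at hmulF
          exact (mul_ne_zero hf0 hG0) hmulF
        have hϖpos : 0 < w (ϖ : F) := hϖ.resolve_left hϖ0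
        have hf₁0 : ((ev f₁ : 𝒪) : F) ≠ 0 := by
          intro h0
          rw [h0, mul_zero] at hmulF
          exact (mul_ne_zero hf0 hG0) hmulF
        have hw1 := hw_mul _ _ hf0 hG0
        have hw2 := hw_mul _ _ hϖ0 hf₁0
        rw [hmulF] at hw1
        rw [hw1] at hw2
        have hGw := ord_eq_zero_of_isUnit w 𝒪 hw_mul hw_nonneg hGu
        have hf₁nn : 0 ≤ w ((ev f₁ : 𝒪) : F) := (hw_nonneg _ hf₁0).mpr (ev f₁).2
        have hlt : (w ((ev f₁ : 𝒪) : F)).toNat < n := by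
          have : w ((ev f₁ : 𝒪) : F) < n := by omega
          omega
        obtain ⟨k, ε, hε, hk⟩ := ih _ hlt f₁ hf₁0 (by omega)
        obtain ⟨G', hG'⟩ := hGu.exists_right_inv
        have hG'F : ((ev G : 𝒪) : F) * (G' : F) = 1 := by
          have := congrArg (Subtype.val) hG'
          simpa using this
        refine ⟨k + 1, ε * G', hε.mul (IsUnit.of_mul_eq_one _ (by rw [mul_comm]; exact hG')), ?_⟩
        have : ((ev f : 𝒪) : F) = ((ev f : 𝒪) : F) * ((ev G : 𝒪) : F) * (G' : F) := by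
          rw [mul_assoc, hG'F, mul_one]
        rw [this, hmulF, hk]
        push_cast
        ring
  have hq' : ((ev q : 𝒪) : F) ≠ 0 := by rw [hevcoe]; exact hq
  have hnn : 0 ≤ w ((ev q : 𝒪) : F) := (hw_nonneg _ hq').mpr (ev q).2
  obtain ⟨k, ε, hε, hk⟩ := main (w ((ev q : 𝒪) : F)).toNat q hq' (by omega)
  exact ⟨k, ε, hε, by rw [← hevcoe, hk]⟩

/-- Additive form of `exists_pow_mul_unit`: the order of `q(θ)` is a multiple of `w ϖ`. -/
theorem dvd_ord_eval₂
    (hw_mul : ∀ x y : F, x ≠ 0 → y ≠ 0 → w (x * y) = w x + w y)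
    (hw_nonneg : ∀ x : F, x ≠ 0 → (0 ≤ w x ↔ x ∈ 𝒪))
    (O : Subring F) (hO : O ≤ 𝒪.toSubring)
    (hOinv : ∀ a : O, (a : F) ≠ 0 → w (a : F) = 0 → (a : F)⁻¹ ∈ O)
    (ϖ : O) (hϖ : (ϖ : F) = 0 ∨ 0 < w (ϖ : F))
    (hdiv : ∀ a : O, (a : F) ≠ 0 → 0 < w (a : F) → ∃ b : O, a = ϖ * b)
    (p : O[X]) (hp : p.Monic) (hsep : p.Separable)
    (θ : F) (hθ : p.eval₂ O.subtype θ = 0)
    (q : O[X]) (hq : q.eval₂ O.subtype θ ≠ 0) :
    ∃ k : ℕ, w (q.eval₂ O.subtype θ) = k * w (ϖ : F) ∧ ((ϖ : F) = 0 → k = 0) := by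
  obtain ⟨k, ε, hε, hk⟩ := exists_pow_mul_unit w 𝒪 hw_mul hw_nonneg O hO hOinv ϖ hϖ hdiv p hp
    hsep θ hθ q hq
  have hε0 : (ε : F) ≠ 0 := by
    intro h0
    have : ε = 0 := Subtype.ext h0
    rw [this] at hε
    exact not_isUnit_zero hε
  have hεw := ord_eq_zero_of_isUnit w 𝒪 hw_mul hw_nonneg hε
  have hpow0 : (ϖ : F) ^ k ≠ 0 := by
    intro h0
    rw [hk, h0, zero_mul] at hq
    exact hq rfl
  have hpoww : ∀ j : ℕ, (ϖ : F) ≠ 0 → w ((ϖ : F) ^ j) = j * w (ϖ : F) := by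
    intro j hϖ0
    induction j with
    | zero => simp [ord_one_of_mul w hw_mul]
    | succ j ih =>
      rw [pow_succ, hw_mul _ _ (pow_ne_zero j hϖ0) hϖ0, ih]
      push_cast
      ring
  refine ⟨k, ?_, ?_⟩
  · rw [hk, hw_mul _ _ hpow0 hε0, hεw, add_zero]
    by_cases hϖ0 : (ϖ : F) = 0
    · have hk0 : k = 0 := by
        by_contra hne
        exact hpow0 (by rw [hϖ0, zero_pow hne])
      subst hk0
      simp [ord_one_of_mul w hw_mul]
    · exact hpoww k hϖ0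
  · intro hϖ0
    by_contra hne
    exact hpow0 (by rw [hϖ0, zero_pow hne])

/-- Quotient form: the order of `q₁(θ) / q₂(θ)` is a multiple of `w ϖ` (and is `0` in the
degenerate case `ϖ = 0`). -/
theorem dvd_ord_div
    (hw_mul : ∀ x y : F, x ≠ 0 → y ≠ 0 → w (x * y) = w x + w y)
    (hw_nonneg : ∀ x : F, x ≠ 0 → (0 ≤ w x ↔ x ∈ 𝒪))
    (O : Subring F) (hO : O ≤ 𝒪.toSubring)
    (hOinv : ∀ a : O, (a : F) ≠ 0 → w (a : F) = 0 → (a : F)⁻¹ ∈ O)
    (ϖ : O) (hϖ : (ϖ : F) = 0 ∨ 0 < w (ϖ : F))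
    (hdiv : ∀ a : O, (a : F) ≠ 0 → 0 < w (a : F) → ∃ b : O, a = ϖ * b)
    (p : O[X]) (hp : p.Monic) (hsep : p.Separable)
    (θ : F) (hθ : p.eval₂ O.subtype θ = 0)
    (q₁ q₂ : O[X]) (hq₁ : q₁.eval₂ O.subtype θ ≠ 0) (hq₂ : q₂.eval₂ O.subtype θ ≠ 0) :
    ∃ k : ℤ, w (q₁.eval₂ O.subtype θ / q₂.eval₂ O.subtype θ) = k * w (ϖ : F) ∧
      ((ϖ : F) = 0 → k = 0) := by
  obtain ⟨k₁, h₁, h₁'⟩ := dvd_ord_eval₂ w 𝒪 hw_mul hw_nonneg O hO hOinv ϖ hϖ hdiv p hp
    hsep θ hθ q₁ hq₁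
  obtain ⟨k₂, h₂, h₂'⟩ := dvd_ord_eval₂ w 𝒪 hw_mul hw_nonneg O hO hOinv ϖ hϖ hdiv p hp
    hsep θ hθ q₂ hq₂
  refine ⟨(k₁ : ℤ) - k₂, ?_, ?_⟩
  · rw [div_eq_mul_inv, hw_mul _ _ hq₁ (inv_ne_zero hq₂), ord_inv_of_mul w hw_mul hq₂, h₁, h₂]
    ring
  · intro h0
    rw [h₁' h0, h₂' h0]
    simp

end Core

end Fermat.Agent.S18.helper7917
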