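import Mathlib

/-!
# S18-ORTHO (helper8020): orthonormal families on a valued function field

Setting: fields `L ⊆ F` (`[Algebra L F]`), a valuation `v` on `F` (any value group), an element
`x : F` and a finite family `b : ι → F`.  The hypothesis `OrthoSys L v x b` is the residue-free form
of "`x̄` is transcendental over the residue field `k` of `L` and the `b̄ j` are linearly independent
over `k(x̄)`".
-/

set_option autoImplicit false

namespace Fermat.Agent.S18.helper8020

open Polynomial

variable {L F : Type*} [Field L] [Field F] [Algebra L F]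
variable {Γ₀ : Type*} [LinearOrderedCommGroupWithZero Γ₀]

/-- The Gauss norm of a polynomial over `L` with respect to the valuation `v` of `F ⊇ L`:
the maximum of the valuations of its coefficients. -/
noncomputable def gN (v : Valuation F Γ₀) (p : L[X]) : Γ₀ :=
  p.support.sup fun i => v (algebraMap L F (p.coeff i))

section gN

variable (v : Valuation F Γ₀)

theorem coeff_le_gN (p : L[X]) (i : ℕ) : v (algebraMap L F (p.coeff i)) ≤ gN v p := by
  by_cases h : i ∈ p.support
  · exact Finset.le_sup (f := fun i => v (algebraMap L F (p.coeff i))) h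
  · rw [Polynomial.notMem_support_iff.mp h]
    simp

theorem gN_le_iff {p : L[X]} {γ : Γ₀} :
    gN v p ≤ γ ↔ ∀ i, v (algebraMap L F (p.coeff i)) ≤ γ := by
  constructor
  · intro h i; exact (coeff_le_gN v p i).trans h
  · intro h; exact Finset.sup_le fun i _ => h i

@[simp] theorem gN_zero : gN v (0 : L[X]) = 0 := by
  simp only [gN, support_zero, Finset.sup_empty]
  exact bot_eq_zero

theorem gN_eq_zero_iff {p : L[X]} : gN v p = 0 ↔ p = 0 := by
  constructor
  · intro h
    ext i
    have h1 := coeff_le_gN v p i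
    rw [h] at h1
    have h0 : v (algebraMap L F (p.coeff i)) = 0 := le_antisymm h1 zero_le
    rw [Valuation.zero_iff] at h0
    simpa using h0
  · rintro rfl; exact gN_zero v

theorem exists_coeff_eq_gN {p : L[X]} (hp : p ≠ 0) :
    ∃ i, p.coeff i ≠ 0 ∧ v (algebraMap L F (p.coeff i)) = gN v p := by
  obtain ⟨i, hi, h⟩ := Finset.exists_mem_eq_sup p.support (by simpa using hp)
    (fun i => v (algebraMap L F (p.coeff i)))
  exact ⟨i, Polynomial.mem_support_iff.mp hi, h.symm⟩

theorem gN_C_mul (a : L) (p : L[X]) : gN v (C a * p) = v (algebraMap L F a) * gN v p := by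
  apply le_antisymm
  · rw [gN_le_iff]; intro i
    rw [coeff_C_mul, map_mul, map_mul]
    exact mul_le_mul_of_nonneg_left (coeff_le_gN v p i) zero_le
  · by_cases hp : p = 0
    · simp [hp]
    obtain ⟨i, -, hi⟩ := exists_coeff_eq_gN v hp
    rw [← hi, ← map_mul, ← map_mul, ← coeff_C_mul]
    exact coeff_le_gN v _ i

@[simp] theorem gN_C (a : L) : gN v (C a) = v (algebraMap L F a) := by
  apply le_antisymm
  · rw [gN_le_iff]; intro i
    rw [coeff_C]
    split_ifs <;> simp
  · simpa using coeff_le_gN v (C a) 0

@[simp] theorem gN_one : gN v (1 : L[X]) = 1 := by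
  rw [← C_1, gN_C]; simp

theorem gN_X_pow_mul (n : ℕ) (p : L[X]) : gN v (X ^ n * p) = gN v p := by
  apply le_antisymm
  · rw [gN_le_iff]; intro i
    rw [coeff_X_pow_mul']
    split_ifs
    · exact coeff_le_gN v p _
    · simp
  · rw [gN_le_iff]; intro i
    have := coeff_le_gN v (X ^ n * p) (i + n)
    rwa [coeff_X_pow_mul] at this

theorem v_aeval_le {x : F} (hx : v x ≤ 1) (p : L[X]) : v (aeval x p) ≤ gN v p := by
  rw [aeval_eq_sum_range]
  apply v.map_sum_le
  intro i _
  rw [Algebra.smul_def, map_mul, map_pow]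
  calc v (algebraMap L F (p.coeff i)) * v x ^ i ≤ v (algebraMap L F (p.coeff i)) * 1 :=
        mul_le_mul_of_nonneg_left (pow_le_one₀ zero_le hx) zero_le
    _ ≤ gN v p := by rw [mul_one]; exact coeff_le_gN v p i

end gN

/-! ### The orthonormality hypothesis -/

variable {ι : Type*} [Fintype ι]

variable (L) in
/-- Residue-free form of "`x̄` is transcendental over the residue field of `L` and the `b̄ j` are
linearly independent over `k(x̄)`": a combination `∑ j, c_j(x) b_j` with integral polynomial
coefficients `c_j ∈ L[X]` that lies in the maximal ideal has all coefficients in the maximal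
ideal. -/
structure OrthoSys (v : Valuation F Γ₀) (x : F) (b : ι → F) : Prop where
  hx : v x ≤ 1
  hb : ∀ j, v (b j) ≤ 1
  indep : ∀ c : ι → L[X], (∀ j i, v (algebraMap L F ((c j).coeff i)) ≤ 1) →
    v (∑ j, aeval x (c j) * b j) < 1 → ∀ j i, v (algebraMap L F ((c j).coeff i)) < 1

namespace OrthoSys

variable {v : Valuation F Γ₀} {x : F} {b : ι → F}

/-- Upper bound (ultrametric inequality), no independence needed. -/
theorem v_sum_le' (hx : v x ≤ 1) (hb : ∀ j, v (b j) ≤ 1) (c : ι → L[X]) :
    v (∑ j, aeval x (c j) * b j) ≤ Finset.univ.sup fun j => gN v (c j) := by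
  apply v.map_sum_le
  intro j _
  rw [map_mul]
  calc v (aeval x (c j)) * v (b j) ≤ gN v (c j) * 1 :=
        mul_le_mul' (v_aeval_le v hx (c j)) (hb j)
    _ ≤ _ := by
        rw [mul_one]
        exact Finset.le_sup (f := fun j => gN v (c j)) (Finset.mem_univ j)

/-- **(O2)** The orthonormality formula: the valuation of `∑ j, c_j(x) b_j` is the maximum of the
Gauss norms of the `c_j`. -/
theorem v_sum (h : OrthoSys L v x b) (c : ι → L[X]) :
    v (∑ j, aeval x (c j) * b j) = Finset.univ.sup fun j => gN v (c j) := by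
  apply le_antisymm (v_sum_le' h.hx h.hb c)
  by_cases hc : ∀ j, c j = 0
  · have : (Finset.univ.sup fun j => gN v (c j)) = 0 := by
      apply le_antisymm _ zero_le
      apply Finset.sup_le
      intro j _
      rw [hc j, gN_zero]
    rw [this]; exact zero_le
  rw [not_forall] at hc
  obtain ⟨j₁, hj₁⟩ := hc
  -- pick the index with maximal Gauss norm, then the coefficient of maximal valuation
  obtain ⟨j₀, -, hj₀⟩ := Finset.exists_mem_eq_sup Finset.univ ⟨j₁, Finset.mem_univ j₁⟩
    (fun j => gN v (c j))
  have hj₀ne : c j₀ ≠ 0 := by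
    intro h0
    have h1 : gN v (c j₁) ≤ gN v (c j₀) := by
      rw [← hj₀]; exact Finset.le_sup (f := fun j => gN v (c j)) (Finset.mem_univ j₁)
    rw [h0, gN_zero] at h1
    exact hj₁ ((gN_eq_zero_iff v).mp (le_antisymm h1 zero_le))
  obtain ⟨i₀, hi₀, hi₀'⟩ := exists_coeff_eq_gN v hj₀ne
  set a : L := (c j₀).coeff i₀ with ha
  set s : Γ₀ := Finset.univ.sup fun j => gN v (c j) with hs
  have hsa : v (algebraMap L F a) = s := by rw [hi₀', ← hj₀]
  have hs0 : s ≠ 0 := by
    rw [← hsa]; simpa using hi₀
  have hs0' : 0 < s := lt_of_le_of_ne zero_le (Ne.symm hs0)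
  -- rescale
  have key := h.indep (fun j => C a⁻¹ * c j) (by
    intro j i
    rw [coeff_C_mul, map_mul, map_mul, map_inv₀, map_inv₀, hsa]
    rw [inv_mul_le_iff₀ hs0', mul_one]
    exact (coeff_le_gN v (c j) i).trans
      (Finset.le_sup (f := fun j => gN v (c j)) (Finset.mem_univ j)))
  have hnot : ¬ v (∑ j, aeval x (C a⁻¹ * c j) * b j) < 1 := by
    intro hlt
    have := key hlt j₀ i₀
    rw [coeff_C_mul, ← ha, inv_mul_cancel₀ hi₀, map_one, map_one] at this
    exact lt_irrefl _ this
  have hsum : ∑ j, aeval x (C a⁻¹ * c j) * b j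
      = algebraMap L F a⁻¹ * ∑ j, aeval x (c j) * b j := by
    rw [Finset.mul_sum]
    refine Finset.sum_congr rfl fun j _ => ?_
    rw [map_mul, aeval_C, mul_assoc]
  rw [hsum, map_mul, map_inv₀, map_inv₀, hsa, not_lt, one_le_inv_mul₀ hs0'] at hnot
  exact hnot

theorem v_b [Nonempty ι] (h : OrthoSys L v x b) (j : ι) : v (b j) = 1 := by
  classical
  have := h.v_sum (fun j' => if j' = j then 1 else 0)
  have h2 : ∑ j', aeval x ((fun j' => if j' = j then (1 : L[X]) else 0) j') * b j' = b j := by
    rw [Finset.sum_eq_single j (fun j' _ hj' => by simp [hj']) (fun hj => by simp at hj)]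
    simp
  rw [h2] at this
  rw [this]
  apply le_antisymm
  · apply Finset.sup_le
    intro j' _
    by_cases hj : j' = j <;> simp [hj]
  · have := Finset.le_sup (f := fun j' => gN v (if j' = j then (1 : L[X]) else 0))
      (Finset.mem_univ j)
    simpa using this

/-- **(O1)** Gauss lemma: `v (p(x))` is the Gauss norm of `p`. -/
theorem v_aeval [Nonempty ι] (h : OrthoSys L v x b) (p : L[X]) : v (aeval x p) = gN v p := by
  classical
  obtain ⟨j⟩ := ‹Nonempty ι›
  have := h.v_sum (fun j' => if j' = j then p else 0)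
  have h2 : ∑ j', aeval x ((fun j' => if j' = j then p else 0) j') * b j' = aeval x p * b j := by
    rw [Finset.sum_eq_single j (fun j' _ hj' => by simp [hj']) (fun hj => by simp at hj)]
    simp
  rw [h2, map_mul, h.v_b j, mul_one] at this
  rw [this]
  apply le_antisymm
  · apply Finset.sup_le
    intro j' _
    by_cases hj : j' = j <;> simp [hj]
  · have := Finset.le_sup (f := fun j' => gN v (if j' = j then p else 0))
      (Finset.mem_univ j)
    simpa using this

theorem v_x [Nonempty ι] (h : OrthoSys L v x b) : v x = 1 := by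
  have := h.v_aeval (X : L[X])
  rw [aeval_X] at this
  rw [this]
  have h1 := gN_X_pow_mul v 1 (1 : L[X])
  rw [pow_one, mul_one] at h1
  rw [h1, gN_one]

theorem aeval_injective [Nonempty ι] (h : OrthoSys L v x b) :
    Function.Injective (aeval x : L[X] → F) := by
  rw [injective_iff_map_eq_zero]
  intro p hp
  have := h.v_aeval p
  rw [hp, map_zero] at this
  exact (gN_eq_zero_iff v).mp this.symm

theorem transcendental_x [Nonempty ι] (h : OrthoSys L v x b) : Transcendental L x :=
  transcendental_iff_injective.mpr h.aeval_injective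

/-- The Gauss norm is multiplicative. -/
theorem gN_mul [Nonempty ι] (h : OrthoSys L v x b) (p q : L[X]) :
    gN v (p * q) = gN v p * gN v q := by
  rw [← h.v_aeval, ← h.v_aeval, ← h.v_aeval, map_mul, map_mul]

theorem gN_pow [Nonempty ι] (h : OrthoSys L v x b) (p : L[X]) (n : ℕ) :
    gN v (p ^ n) = gN v p ^ n := by
  rw [← h.v_aeval, ← h.v_aeval, map_pow, map_pow]

/-- The `b j` are linearly independent over `L[x]`. -/
theorem eq_zero_of_sum_eq_zero (h : OrthoSys L v x b) (c : ι → L[X])
    (hc : ∑ j, aeval x (c j) * b j = 0) : c = 0 := by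
  have := h.v_sum c
  rw [hc, map_zero] at this
  funext j
  have h1 : gN v (c j) ≤ 0 := by
    rw [this]; exact Finset.le_sup (f := fun j => gN v (c j)) (Finset.mem_univ j)
  exact (gN_eq_zero_iff v).mp (le_antisymm h1 zero_le)

/-- Fraction form of (O2). -/
theorem v_sum_div [Nonempty ι] (h : OrthoSys L v x b) (c : ι → L[X]) (g : L[X]) :
    v ((∑ j, aeval x (c j) * b j) / aeval x g)
      = (Finset.univ.sup fun j => gN v (c j)) / gN v g := by
  rw [map_div₀, h.v_sum, h.v_aeval]

end OrthoSys

end Fermat.Agent.S18.helper8020
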