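import Fermat.Agent.S18.helper8020_Ortho

/-!
# S18-ORTHO part 2 (helper8020): coefficients in `L⟮x⟯`

From the polynomial-coefficient hypothesis `OrthoSys L v x b` we derive, by clearing denominators,
that `b` is orthonormal over the simple extension `L⟮x⟯ = IntermediateField.adjoin L {x}`:
`v (∑ j, r j * b j) = max_j v (r j)` for `r j ∈ L⟮x⟯`.  In particular `b` is `L⟮x⟯`-linearly
independent, and a basis of `F` over `L⟮x⟯` as soon as `finrank L⟮x⟯ F = card ι`.
-/

set_option autoImplicit false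

namespace Fermat.Agent.S18.helper8020

open Polynomial IntermediateField

variable {L F : Type*} [Field L] [Field F] [Algebra L F]
variable {Γ₀ : Type*} [LinearOrderedCommGroupWithZero Γ₀]

/-- Common denominators in `L⟮x⟯` for a finite family. -/
theorem exists_common_denom {x : F} (hx : Function.Injective (aeval x : L[X] → F))
    {κ : Type*} (s : Finset κ) (r : κ → L⟮x⟯) :
    ∃ (g : L[X]) (c : κ → L[X]), g ≠ 0 ∧ ∀ k ∈ s, (r k : F) * aeval x g = aeval x (c k) := by
  classical
  have h1 : ∀ k, ∃ p q : L[X], q ≠ 0 ∧ (r k : F) * aeval x q = aeval x p := by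
    intro k
    obtain ⟨p, q, hpq⟩ := (mem_adjoin_simple_iff L (r k : F)).mp (r k).2
    by_cases hq : q = 0
    · refine ⟨0, 1, one_ne_zero, ?_⟩
      rw [hpq, hq]; simp
    · have hq' : aeval x q ≠ 0 := fun h0 => hq (hx (by rw [h0, map_zero]))
      exact ⟨p, q, hq, by rw [hpq, div_mul_cancel₀ _ hq']⟩
  choose p q hq hpq using h1
  refine ⟨∏ k ∈ s, q k, fun k => p k * ∏ k' ∈ s.erase k, q k', ?_, ?_⟩
  · exact Finset.prod_ne_zero_iff.mpr fun k _ => hq k
  · intro k hk
    rw [← Finset.mul_prod_erase s q hk, map_mul, ← mul_assoc, hpq k, map_mul]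

namespace OrthoSys

variable {ι : Type*} [Fintype ι] {v : Valuation F Γ₀} {x : F} {b : ι → F}

/-- Unit form of the Gauss lemma: a polynomial with integral coefficients, one of them a unit,
takes a unit value at `x`. -/
theorem v_aeval_eq_one [Nonempty ι] (h : OrthoSys L v x b) (p : L[X])
    (hp : ∀ i, v (algebraMap L F (p.coeff i)) ≤ 1)
    (hp1 : ∃ i, v (algebraMap L F (p.coeff i)) = 1) : v (aeval x p) = 1 := by
  rw [h.v_aeval]
  obtain ⟨i, hi⟩ := hp1
  exact le_antisymm ((gN_le_iff v).mpr hp) (hi ▸ coeff_le_gN v p i)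

theorem gN_pos {p : L[X]} (hp : p ≠ 0) : 0 < gN v p :=
  lt_of_le_of_ne zero_le (Ne.symm (mt (gN_eq_zero_iff v).mp hp))

/-- The value of a fraction `r = c(x)/g(x)`. -/
theorem v_mul_gN [Nonempty ι] (h : OrthoSys L v x b) {r : F} {g c : L[X]}
    (hr : r * aeval x g = aeval x c) : v r * gN v g = gN v c := by
  rw [← h.v_aeval, ← h.v_aeval, ← map_mul, hr]

/-- The value group of `L⟮x⟯` is that of `L`. -/
theorem exists_v_eq_of_mem_adjoin [Nonempty ι] (h : OrthoSys L v x b) {r : F}
    (hr : r ∈ L⟮x⟯) : ∃ a : L, v r = v (algebraMap L F a) := by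
  obtain ⟨p, q, rfl⟩ := (mem_adjoin_simple_iff L r).mp hr
  by_cases hp : p = 0
  · exact ⟨0, by simp [hp]⟩
  by_cases hq : q = 0
  · exact ⟨0, by simp [hq]⟩
  obtain ⟨i, -, hi⟩ := exists_coeff_eq_gN v hp
  obtain ⟨j, -, hj⟩ := exists_coeff_eq_gN v hq
  exact ⟨p.coeff i / q.coeff j, by
    rw [map_div₀, map_div₀, map_div₀, h.v_aeval, h.v_aeval, hi, hj]⟩

/-- **(O2-rat), coefficient bound.** For coefficients `r i ∈ L⟮x⟯`, every coefficient is bounded
by the value of the combination `∑ i ∈ s, r i * b i` (finset form). -/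
theorem coeff_le_sum_adjoin (h : OrthoSys L v x b) (s : Finset ι) (r : ι → L⟮x⟯) {k : ι}
    (hk : k ∈ s) : v (r k : F) ≤ v (∑ i ∈ s, (r i : F) * b i) := by
  classical
  have : Nonempty ι := ⟨k⟩
  obtain ⟨g, c, hg, hc⟩ := exists_common_denom h.aeval_injective Finset.univ r
  have hg0 : 0 < gN v g := gN_pos hg
  rw [← mul_le_mul_iff_of_pos_right hg0]
  have h1 : v (r k : F) * gN v g = gN v (c k) := h.v_mul_gN (hc k (Finset.mem_univ k))
  have h2 : (∑ i ∈ s, (r i : F) * b i) * aeval x g
      = ∑ j, aeval x (if j ∈ s then c j else 0) * b j := by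
    rw [Finset.sum_mul,
      ← Finset.sum_subset (Finset.subset_univ s)
        (f := fun j => aeval x (if j ∈ s then c j else 0) * b j)
        (fun i _ hi => by simp [hi])]
    refine Finset.sum_congr rfl fun i hi => ?_
    rw [if_pos hi, ← hc i (Finset.mem_univ i)]; ring
  rw [h1, ← h.v_aeval g, ← map_mul, h2, h.v_sum]
  have := Finset.le_sup (f := fun j => gN v (if j ∈ s then c j else 0)) (Finset.mem_univ k)
  simpa [hk] using this

/-- **(O2-rat)**: `v (∑ j, r j * b j) = max_j v (r j)` for coefficients `r j ∈ L⟮x⟯`. -/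
theorem v_sum_adjoin (h : OrthoSys L v x b) (r : ι → L⟮x⟯) :
    v (∑ j, (r j : F) * b j) = Finset.univ.sup fun j => v (r j : F) := by
  apply le_antisymm
  · apply v.map_sum_le
    intro j _
    rw [map_mul]
    calc v (r j : F) * v (b j) ≤ v (r j : F) * 1 := mul_le_mul' le_rfl (h.hb j)
      _ ≤ _ := by
        rw [mul_one]; exact Finset.le_sup (f := fun j => v (r j : F)) (Finset.mem_univ j)
  · apply Finset.sup_le
    intro j _
    exact h.coeff_le_sum_adjoin Finset.univ r (Finset.mem_univ j)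

/-- `b` is linearly independent over `L⟮x⟯`. -/
theorem linearIndependent_adjoin (h : OrthoSys L v x b) : LinearIndependent L⟮x⟯ b := by
  rw [Fintype.linearIndependent_iff]
  intro r hr j
  have h1 := h.coeff_le_sum_adjoin Finset.univ r (Finset.mem_univ j)
  have h0 : ∑ i, (r i : F) * b i = 0 := hr
  rw [h0, map_zero] at h1
  have h2 : v (r j : F) = 0 := le_antisymm h1 zero_le
  rw [Valuation.zero_iff] at h2
  exact_mod_cast h2

/-- `b` is a basis of `F` over `L⟮x⟯` when the degree is `card ι`. -/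
theorem span_adjoin_eq_top [Nonempty ι] (h : OrthoSys L v x b)
    (hrank : Module.finrank L⟮x⟯ F = Fintype.card ι) :
    Submodule.span L⟮x⟯ (Set.range b) = ⊤ :=
  h.linearIndependent_adjoin.span_eq_top_of_card_eq_finrank hrank.symm

end OrthoSys

end Fermat.Agent.S18.helper8020
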