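import Fermat.Agent.S24.helper1370_PlaceBasics
import Fermat.Agent.S18.helper8185_RamData

/-!
# S18-RAMT (helper8056): ramification data on the Hauptmodul lines `t₂`, `t₃` (characteristic 0)

The landed file `helper8185_RamData` gives the ramification indices of `F_N / ℚ̄(j)`
(`e = 1` off `j = 0, 1728, ∞`, `e ∣ 3` over `0`, `e ∣ 2` over `1728`, `e ∣ N` over `∞`).
The routes to S18 that work on a Hauptmodul line `t = t_r` of `X₀(r)` (`r = 2, 3`) need the same
data for `F_N / ℚ̄(t)`: the only nonzero finite branch value is the elliptic value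
`t = -64` (`r = 2`, index `∣ 2`) resp. `t = -27` (`r = 3`, index `∣ 3`), and the zeros and poles
of `t` are exactly the cusps.

Everything is hypothesis-passing in `t`: the only input about `t` is the relation
`j * t ^ 2 = (t + 256) ^ 3` (`r = 2`) resp. `j * t ^ 3 = (t + 27) * (t + 243) ^ 3` (`r = 3`).

* generic (any `K`, `F` with `CharZero K`, data `R1`–`R3` on `j` as hypotheses):
  `ord_sub_eq_one_two`, `ord_add_64_dvd_two`, `ord_j_of_ord_neg_two`, `ord_j_of_ord_pos_two`,
  `ord_ne_zero_of_ord_j_neg_two`, and the `_three` analogues;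
* modular instance for `FN N = modularFunctionFieldBar N`: `t2_unramified`, `t2_ord_dvd_two`,
  `t2_ord_j_of_neg`, `t2_ord_j_of_pos`, `t2_pole_dvd_level`, `t2_zero_dvd_level`, and the
  `t3_*` analogues.
-/

set_option autoImplicit false

open AlgebraicCurve

namespace Fermat.Agent.S18.helper8056

open Fermat.Agent.S24.helper1370

/-! ## Generic valuation lemmas -/

section Basic

variable {K F : Type*} [Field K] [Field F] [Algebra K F]

/-- A constant plus a multiple of an element of positive order is a unit at the place. -/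
theorem ne_zero_and_ord_eq_zero (v : Place K F) {G d H : F} {g0 : K} (hg0 : g0 ≠ 0)
    (hd : 0 < v.ord d) (hH : H ∈ v.toValuationSubring)
    (hG : G = algebraMap K F g0 + d * H) : G ≠ 0 ∧ v.ord G = 0 := by
  have hg : algebraMap K F g0 ≠ 0 := (map_ne_zero _).mpr hg0
  rcases eq_or_ne H 0 with rfl | hH0
  · rw [mul_zero, add_zero] at hG
    rw [hG]
    exact ⟨hg, ord_algebraMap v g0⟩
  · have hd0 : d ≠ 0 := by
      rintro rfl
      simp at hd
    have h1 : 0 < v.ord (d * H) := by
      rw [v.ord_mul hd0 hH0]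
      have := ord_nonneg_of_mem v hH
      omega
    have h2 : v.ord (algebraMap K F g0 + d * H) = v.ord (algebraMap K F g0) :=
      ord_add_eq_of_lt v hg (by rw [ord_algebraMap]; exact h1)
    rw [ord_algebraMap] at h2
    refine ⟨?_, by rw [hG, h2]⟩
    rw [hG]
    intro h0
    have h3 : algebraMap K F g0 = -(d * H) := eq_neg_of_add_eq_zero_left h0
    have h4 := congrArg v.ord h3
    rw [ord_algebraMap, ord_neg] at h4
    omega

/-- If `t - c` vanishes at `v`, then `t` is not a constant: `t - b ≠ 0` for every `b`. -/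
theorem sub_algebraMap_ne_zero (v : Place K F) {t : F} {c : K}
    (hv : 0 < v.ord (t - algebraMap K F c)) (b : K) : t - algebraMap K F b ≠ 0 := by
  intro h
  have h1 : t - algebraMap K F c = algebraMap K F (b - c) := by
    rw [map_sub]
    linear_combination h
  rw [h1, ord_algebraMap] at hv
  exact lt_irrefl _ hv

/-- An element of positive order is nonzero. -/
theorem ne_zero_of_ord_pos (v : Place K F) {f : F} (h : 0 < v.ord f) : f ≠ 0 := by
  rintro rfl
  simp at h

/-- An element of nonzero order is nonzero. -/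
theorem ne_zero_of_ord_ne_zero (v : Place K F) {f : F} (h : v.ord f ≠ 0) : f ≠ 0 := by
  rintro rfl
  simp at h

/-- If `t - c` vanishes at `v`, then `t` is regular at `v`. -/
theorem mem_of_ord_sub_pos (v : Place K F) {t : F} {c : K}
    (hv : 0 < v.ord (t - algebraMap K F c)) : t ∈ v.toValuationSubring :=
  mem_of_ord_nonneg v (ord_nonneg_of_ord_sub_algebraMap_pos v hv)

end Basic

/-! ## The line `t₂`: `j * t ^ 2 = (t + 256) ^ 3` -/

section Two

variable {K F : Type*} [Field K] [Field F] [Algebra K F] [CharZero K]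

omit [Algebra K F] [CharZero K] in
theorem t_ne_zero_two [CharZero F] {j t : F} (hj : j * t ^ 2 = (t + 256) ^ 3) : t ≠ 0 := by
  rintro rfl
  norm_num at hj

omit [CharZero K] in
/-- `F` has characteristic zero. -/
theorem charZero_of_algebra (K F : Type*) [Field K] [Field F] [Algebra K F] [CharZero K] :
    CharZero F :=
  charZero_of_injective_algebraMap (algebraMap K F).injective

omit [CharZero K] in
/-- The relation `(j - 1728) * t ^ 2 = (t - 512) ^ 2 * (t + 64)`. -/
theorem key1728_two {j t : F} (hj : j * t ^ 2 = (t + 256) ^ 3) :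
    (j - algebraMap K F 1728) * t ^ 2
      = (t - algebraMap K F 512) ^ 2 * (t - algebraMap K F (-64)) := by
  simp only [map_ofNat, map_neg]
  linear_combination hj

omit [CharZero K] in
/-- The relation `j * t ^ 2 = (t + 256) ^ 3` in `algebraMap` form. -/
theorem key0_two {j t : F} (hj : j * t ^ 2 = (t + 256) ^ 3) :
    j * t ^ 2 = (t - algebraMap K F (-256)) ^ 3 := by
  simp only [map_ofNat, map_neg, sub_neg_eq_add]
  exact hj

/-- **(A2)** `F / K(t)` is unramified over every `c ≠ 0, -64`. -/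
theorem ord_sub_eq_one_two {j t : F} (hj : j * t ^ 2 = (t + 256) ^ 3)
    (R1 : ∀ c : K, c ≠ 0 → c ≠ 1728 → ∀ v : Place K F,
      0 < v.ord (j - algebraMap K F c) → v.ord (j - algebraMap K F c) = 1)
    (R2 : ∀ v : Place K F, 0 < v.ord j → v.ord j ∣ 3)
    (R3 : ∀ v : Place K F, 0 < v.ord (j - algebraMap K F 1728) →
      v.ord (j - algebraMap K F 1728) ∣ 2)
    (c : K) (hc0 : c ≠ 0) (hc : c ≠ -64) (v : Place K F)
    (hv : 0 < v.ord (t - algebraMap K F c)) : v.ord (t - algebraMap K F c) = 1 := by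
  have htm : t ∈ v.toValuationSubring := mem_of_ord_sub_pos v hv
  have : CharZero F := charZero_of_algebra K F
  have ht0 : t ≠ 0 := t_ne_zero_two hj
  have hto : v.ord t = 0 := by
    have h := ord_sub_algebraMap_eq_zero v hv hc0
    rwa [map_zero, sub_zero] at h
  have hd0 : t - algebraMap K F c ≠ 0 := ne_zero_of_ord_pos v hv
  by_cases h512 : c = 512
  · subst h512
    have key := key1728_two (K := K) hj
    have h64 : v.ord (t - algebraMap K F (-64)) = 0 :=
      ord_sub_algebraMap_eq_zero v hv (by norm_num)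
    have h64' : t - algebraMap K F (-64) ≠ 0 := sub_algebraMap_ne_zero v hv _
    have hj0 : j - algebraMap K F 1728 ≠ 0 := by
      intro h
      rw [h, zero_mul] at key
      exact (mul_ne_zero (pow_ne_zero 2 hd0) h64') key.symm
    have h1 := congrArg v.ord key
    rw [v.ord_mul hj0 (pow_ne_zero 2 ht0), ord_pow, hto,
      v.ord_mul (pow_ne_zero 2 hd0) h64', ord_pow, h64] at h1
    have h2 : 0 < v.ord (j - algebraMap K F 1728) := by omega
    have h3 := R3 v h2
    have h4 : v.ord (j - algebraMap K F 1728) = 2 * v.ord (t - algebraMap K F 512) := by omega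
    rw [h4] at h3
    have h5 : v.ord (t - algebraMap K F 512) ∣ 1 := by
      have h6 : (2 : ℤ) * v.ord (t - algebraMap K F 512) ∣ 2 * 1 := by simpa using h3
      exact (mul_dvd_mul_iff_left (by norm_num : (2 : ℤ) ≠ 0)).mp h6
    exact Int.eq_one_of_dvd_one hv.le h5
  by_cases h256 : c = -256
  · subst h256
    have key := key0_two (K := K) hj
    have hj0 : j ≠ 0 := by
      intro h
      rw [h, zero_mul] at key
      exact (pow_ne_zero 3 hd0) key.symm
    have h1 := congrArg v.ord key
    rw [v.ord_mul hj0 (pow_ne_zero 2 ht0), ord_pow, hto, ord_pow] at h1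
    have h2 : 0 < v.ord j := by omega
    have h3 := R2 v h2
    have h4 : v.ord j = 3 * v.ord (t - algebraMap K F (-256)) := by omega
    rw [h4] at h3
    have h5 : v.ord (t - algebraMap K F (-256)) ∣ 1 := by
      have h6 : (3 : ℤ) * v.ord (t - algebraMap K F (-256)) ∣ 3 * 1 := by simpa using h3
      exact (mul_dvd_mul_iff_left (by norm_num : (3 : ℤ) ≠ 0)).mp h6
    exact Int.eq_one_of_dvd_one hv.le h5
  -- generic value
  have hC0 : algebraMap K F c ≠ 0 := (map_ne_zero _).mpr hc0
  have hc256 : c + 256 ≠ 0 := fun h => h256 (by linear_combination h)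
  have hc512 : c - 512 ≠ 0 := fun h => h512 (by linear_combination h)
  have hc64 : c + 64 ≠ 0 := fun h => hc (by linear_combination h)
  have hJ : algebraMap K F ((c + 256) ^ 3 / c ^ 2) * algebraMap K F c ^ 2
      = (algebraMap K F c + 256) ^ 3 := by
    rw [← map_pow, ← map_mul, div_mul_cancel₀ _ (pow_ne_zero 2 hc0), map_pow, map_add, map_ofNat]
  have hg0 : c * (c + 256) ^ 2 * (c - 512) ≠ 0 :=
    mul_ne_zero (mul_ne_zero hc0 (pow_ne_zero 2 hc256)) hc512
  have hG : algebraMap K F c ^ 2 * t ^ 2 - 3 * 256 ^ 2 * algebraMap K F c * t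
        - 256 ^ 3 * (algebraMap K F c + t)
      = algebraMap K F (c * (c + 256) ^ 2 * (c - 512)) + (t - algebraMap K F c) *
        (algebraMap K F c ^ 2 * (t + algebraMap K F c) - 3 * 256 ^ 2 * algebraMap K F c
          - 256 ^ 3) := by
    simp only [map_mul, map_pow, map_add, map_sub, map_ofNat]
    ring
  have key : (j - algebraMap K F ((c + 256) ^ 3 / c ^ 2)) * t ^ 2 * algebraMap K F c ^ 2
      = (t - algebraMap K F c) * (algebraMap K F c ^ 2 * t ^ 2
        - 3 * 256 ^ 2 * algebraMap K F c * t - 256 ^ 3 * (algebraMap K F c + t)) := by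
    linear_combination algebraMap K F c ^ 2 * hj - t ^ 2 * hJ
  have hCm : algebraMap K F c ∈ v.toValuationSubring := v.algebraMap_mem' c
  have h256m : (256 : F) ∈ v.toValuationSubring := ofNat_mem _ 256
  have h3m : (3 : F) ∈ v.toValuationSubring := ofNat_mem _ 3
  have hHm : algebraMap K F c ^ 2 * (t + algebraMap K F c) - 3 * 256 ^ 2 * algebraMap K F c
      - 256 ^ 3 ∈ v.toValuationSubring :=
    sub_mem (sub_mem (mul_mem (pow_mem hCm 2) (add_mem htm hCm))
      (mul_mem (mul_mem h3m (pow_mem h256m 2)) hCm)) (pow_mem h256m 3)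
  obtain ⟨hGne, hGo⟩ := ne_zero_and_ord_eq_zero v hg0 hv hHm hG
  have hjne : j - algebraMap K F ((c + 256) ^ 3 / c ^ 2) ≠ 0 := by
    intro h
    rw [h, zero_mul, zero_mul] at key
    exact (mul_ne_zero hd0 hGne) key.symm
  have h1 := congrArg v.ord key
  rw [v.ord_mul (mul_ne_zero hjne (pow_ne_zero 2 ht0)) (pow_ne_zero 2 hC0),
    v.ord_mul hjne (pow_ne_zero 2 ht0), ord_pow, ord_pow, hto, ord_algebraMap,
    v.ord_mul hd0 hGne, hGo] at h1
  have hjc0 : (c + 256) ^ 3 / c ^ 2 ≠ 0 := div_ne_zero (pow_ne_zero 3 hc256) (pow_ne_zero 2 hc0)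
  have hjc1728 : (c + 256) ^ 3 / c ^ 2 ≠ 1728 := by
    intro h
    rw [div_eq_iff (pow_ne_zero 2 hc0)] at h
    have h' : (c - 512) ^ 2 * (c + 64) = 0 := by linear_combination h
    exact (mul_ne_zero (pow_ne_zero 2 hc512) hc64) h'
  have h2 := R1 _ hjc0 hjc1728 v (by omega)
  omega

/-- **(B2)** over the elliptic value `t = -64` every ramification index divides `2`. -/
theorem ord_sub_neg64_dvd_two {j t : F} (hj : j * t ^ 2 = (t + 256) ^ 3)
    (R3 : ∀ v : Place K F, 0 < v.ord (j - algebraMap K F 1728) →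
      v.ord (j - algebraMap K F 1728) ∣ 2)
    (v : Place K F) (hv : 0 < v.ord (t - algebraMap K F (-64))) :
    v.ord (t - algebraMap K F (-64)) ∣ 2 := by
  have : CharZero F := charZero_of_algebra K F
  have ht0 : t ≠ 0 := t_ne_zero_two hj
  have hto : v.ord t = 0 := by
    have h := ord_sub_algebraMap_eq_zero v hv (b := 0) (by norm_num)
    rwa [map_zero, sub_zero] at h
  have hd0 : t - algebraMap K F (-64) ≠ 0 := ne_zero_of_ord_pos v hv
  have key := key1728_two (K := K) hj
  have h512 : v.ord (t - algebraMap K F 512) = 0 :=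
    ord_sub_algebraMap_eq_zero v hv (by norm_num)
  have h512' : t - algebraMap K F 512 ≠ 0 := sub_algebraMap_ne_zero v hv _
  have hj0 : j - algebraMap K F 1728 ≠ 0 := by
    intro h
    rw [h, zero_mul] at key
    exact (mul_ne_zero (pow_ne_zero 2 h512') hd0) key.symm
  have h1 := congrArg v.ord key
  rw [v.ord_mul hj0 (pow_ne_zero 2 ht0), ord_pow, hto,
    v.ord_mul (pow_ne_zero 2 h512') hd0, ord_pow, h512] at h1
  have h2 : 0 < v.ord (j - algebraMap K F 1728) := by omega
  have h3 := R3 v h2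
  have h4 : v.ord (j - algebraMap K F 1728) = v.ord (t - algebraMap K F (-64)) := by omega
  rwa [h4] at h3

omit [CharZero K] in
/-- **(C2)** at a pole of `t`: `ord j = ord t`. -/
theorem ord_j_of_ord_neg_two {j t : F} (hj : j * t ^ 2 = (t + 256) ^ 3)
    (v : Place K F) (hv : v.ord t < 0) : v.ord j = v.ord t := by
  have ht0 : t ≠ 0 := ne_zero_of_ord_ne_zero v hv.ne
  have key := key0_two (K := K) hj
  have h1 : v.ord (t - algebraMap K F (-256)) = v.ord t :=
    ord_sub_algebraMap_of_ord_neg v hv _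
  have h1' : t - algebraMap K F (-256) ≠ 0 := ne_zero_of_ord_ne_zero v (by omega)
  have hj0 : j ≠ 0 := by
    intro h
    rw [h, zero_mul] at key
    exact (pow_ne_zero 3 h1') key.symm
  have h2 := congrArg v.ord key
  rw [v.ord_mul hj0 (pow_ne_zero 2 ht0), ord_pow, ord_pow, h1] at h2
  omega

/-- **(C2)** at a zero of `t`: `ord j = -2 * ord t`. -/
theorem ord_j_of_ord_pos_two {j t : F} (hj : j * t ^ 2 = (t + 256) ^ 3)
    (v : Place K F) (hv : 0 < v.ord t) : v.ord j = -2 * v.ord t := by
  have ht0 : t ≠ 0 := ne_zero_of_ord_pos v hv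
  have key := key0_two (K := K) hj
  have hv' : 0 < v.ord (t - algebraMap K F 0) := by rwa [map_zero, sub_zero]
  have h1 : v.ord (t - algebraMap K F (-256)) = 0 :=
    ord_sub_algebraMap_eq_zero v hv' (by norm_num)
  have h1' : t - algebraMap K F (-256) ≠ 0 := sub_algebraMap_ne_zero v hv' _
  have hj0 : j ≠ 0 := by
    intro h
    rw [h, zero_mul] at key
    exact (pow_ne_zero 3 h1') key.symm
  have h2 := congrArg v.ord key
  rw [v.ord_mul hj0 (pow_ne_zero 2 ht0), ord_pow, ord_pow, h1] at h2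
  omega

/-- **(D2)** every pole of `j` is a zero or a pole of `t`. -/
theorem ord_ne_zero_of_ord_j_neg_two {j t : F} (hj : j * t ^ 2 = (t + 256) ^ 3)
    (v : Place K F) (hv : v.ord j < 0) : v.ord t ≠ 0 := by
  intro hto
  have : CharZero F := charZero_of_algebra K F
  have ht0 : t ≠ 0 := t_ne_zero_two hj
  have hj0 : j ≠ 0 := ne_zero_of_ord_ne_zero v hv.ne
  have htm : t ∈ v.toValuationSubring := mem_of_ord_nonneg v hto.ge
  have h256m : (256 : F) ∈ v.toValuationSubring := ofNat_mem _ 256
  have hm : (t + 256) ^ 3 ∈ v.toValuationSubring := pow_mem (add_mem htm h256m) 3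
  have h1 := ord_nonneg_of_mem v hm
  rw [← hj, v.ord_mul hj0 (pow_ne_zero 2 ht0), ord_pow, hto] at h1
  omega

end Two

/-! ## The line `t₃`: `j * t ^ 3 = (t + 27) * (t + 243) ^ 3` -/

section Three

variable {K F : Type*} [Field K] [Field F] [Algebra K F] [CharZero K]

omit [Algebra K F] [CharZero K] in
theorem t_ne_zero_three [CharZero F] {j t : F} (hj : j * t ^ 3 = (t + 27) * (t + 243) ^ 3) :
    t ≠ 0 := by
  rintro rfl
  norm_num at hj

omit [CharZero K] in
/-- The relation `j * t ^ 3 = (t + 27) * (t + 243) ^ 3` in `algebraMap` form. -/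
theorem key0_three {j t : F} (hj : j * t ^ 3 = (t + 27) * (t + 243) ^ 3) :
    j * t ^ 3 = (t - algebraMap K F (-27)) * (t - algebraMap K F (-243)) ^ 3 := by
  simp only [map_ofNat, map_neg, sub_neg_eq_add]
  exact hj

omit [CharZero K] in
/-- The relation `(j - 1728) * t ^ 3 = (t ^ 2 - 486 t - 19683) ^ 2`, factored at a root `c` of
`X ^ 2 - 486 X - 19683`. -/
theorem key1728_three {j t : F} (hj : j * t ^ 3 = (t + 27) * (t + 243) ^ 3) {c : K}
    (hQ : c ^ 2 - 486 * c - 19683 = 0) :
    (j - algebraMap K F 1728) * t ^ 3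
      = ((t - algebraMap K F c) * (t - algebraMap K F (486 - c))) ^ 2 := by
  have hQF : algebraMap K F c ^ 2 - 486 * algebraMap K F c - 19683 = 0 := by
    have h := congrArg (algebraMap K F) hQ
    simpa only [map_sub, map_mul, map_pow, map_ofNat, map_zero] using h
  simp only [map_ofNat, map_sub]
  linear_combination hj + (2 * (t ^ 2 - 486 * t - 19683)
    - (algebraMap K F c ^ 2 - 486 * algebraMap K F c - 19683)) * hQF

/-- **(A3)** `F / K(t)` is unramified over every `c ≠ 0, -27`. -/
theorem ord_sub_eq_one_three {j t : F} (hj : j * t ^ 3 = (t + 27) * (t + 243) ^ 3)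
    (R1 : ∀ c : K, c ≠ 0 → c ≠ 1728 → ∀ v : Place K F,
      0 < v.ord (j - algebraMap K F c) → v.ord (j - algebraMap K F c) = 1)
    (R2 : ∀ v : Place K F, 0 < v.ord j → v.ord j ∣ 3)
    (R3 : ∀ v : Place K F, 0 < v.ord (j - algebraMap K F 1728) →
      v.ord (j - algebraMap K F 1728) ∣ 2)
    (c : K) (hc0 : c ≠ 0) (hc : c ≠ -27) (v : Place K F)
    (hv : 0 < v.ord (t - algebraMap K F c)) : v.ord (t - algebraMap K F c) = 1 := by
  have htm : t ∈ v.toValuationSubring := mem_of_ord_sub_pos v hv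
  have : CharZero F := charZero_of_algebra K F
  have ht0 : t ≠ 0 := t_ne_zero_three hj
  have hto : v.ord t = 0 := by
    have h := ord_sub_algebraMap_eq_zero v hv hc0
    rwa [map_zero, sub_zero] at h
  have hd0 : t - algebraMap K F c ≠ 0 := ne_zero_of_ord_pos v hv
  by_cases h243 : c = -243
  · subst h243
    have key := key0_three (K := K) hj
    have h27 : v.ord (t - algebraMap K F (-27)) = 0 :=
      ord_sub_algebraMap_eq_zero v hv (by norm_num)
    have h27' : t - algebraMap K F (-27) ≠ 0 := sub_algebraMap_ne_zero v hv _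
    have hj0 : j ≠ 0 := by
      intro h
      rw [h, zero_mul] at key
      exact (mul_ne_zero h27' (pow_ne_zero 3 hd0)) key.symm
    have h1 := congrArg v.ord key
    rw [v.ord_mul hj0 (pow_ne_zero 3 ht0), ord_pow, hto,
      v.ord_mul h27' (pow_ne_zero 3 hd0), ord_pow, h27] at h1
    have h2 : 0 < v.ord j := by omega
    have h3 := R2 v h2
    have h4 : v.ord j = 3 * v.ord (t - algebraMap K F (-243)) := by omega
    rw [h4] at h3
    have h5 : v.ord (t - algebraMap K F (-243)) ∣ 1 := by
      have h6 : (3 : ℤ) * v.ord (t - algebraMap K F (-243)) ∣ 3 * 1 := by simpa using h3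
      exact (mul_dvd_mul_iff_left (by norm_num : (3 : ℤ) ≠ 0)).mp h6
    exact Int.eq_one_of_dvd_one hv.le h5
  by_cases hQ : c ^ 2 - 486 * c - 19683 = 0
  · have key := key1728_three (K := K) hj hQ
    have hcb : c ≠ 486 - c := by
      intro h
      have h' : c = 243 := by linear_combination (1 / 2 : K) * h
      rw [h'] at hQ
      norm_num at hQ
    have hb : v.ord (t - algebraMap K F (486 - c)) = 0 := ord_sub_algebraMap_eq_zero v hv hcb
    have hb' : t - algebraMap K F (486 - c) ≠ 0 := sub_algebraMap_ne_zero v hv _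
    have hj0 : j - algebraMap K F 1728 ≠ 0 := by
      intro h
      rw [h, zero_mul] at key
      exact (pow_ne_zero 2 (mul_ne_zero hd0 hb')) key.symm
    have h1 := congrArg v.ord key
    rw [v.ord_mul hj0 (pow_ne_zero 3 ht0), ord_pow, hto, ord_pow,
      v.ord_mul hd0 hb', hb] at h1
    have h2 : 0 < v.ord (j - algebraMap K F 1728) := by omega
    have h3 := R3 v h2
    have h4 : v.ord (j - algebraMap K F 1728) = 2 * v.ord (t - algebraMap K F c) := by omega
    rw [h4] at h3
    have h5 : v.ord (t - algebraMap K F c) ∣ 1 := by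
      have h6 : (2 : ℤ) * v.ord (t - algebraMap K F c) ∣ 2 * 1 := by simpa using h3
      exact (mul_dvd_mul_iff_left (by norm_num : (2 : ℤ) ≠ 0)).mp h6
    exact Int.eq_one_of_dvd_one hv.le h5
  -- generic value
  have hC0 : algebraMap K F c ≠ 0 := (map_ne_zero _).mpr hc0
  have hc27 : c + 27 ≠ 0 := fun h => hc (by linear_combination h)
  have hc243 : c + 243 ≠ 0 := fun h => h243 (by linear_combination h)
  have hJ : algebraMap K F ((c + 27) * (c + 243) ^ 3 / c ^ 3) * algebraMap K F c ^ 3
      = (algebraMap K F c + 27) * (algebraMap K F c + 243) ^ 3 := by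
    rw [← map_pow, ← map_mul, div_mul_cancel₀ _ (pow_ne_zero 3 hc0), map_mul, map_pow, map_add,
      map_add, map_ofNat, map_ofNat]
  have hg0 : c ^ 2 * (c + 243) ^ 2 * (c ^ 2 - 486 * c - 19683) ≠ 0 :=
    mul_ne_zero (mul_ne_zero (pow_ne_zero 2 hc0) (pow_ne_zero 2 hc243)) hQ
  have hG : algebraMap K F c ^ 3 * t ^ 3 - 196830 * algebraMap K F c ^ 2 * t ^ 2
        - 19131876 * algebraMap K F c * t * (algebraMap K F c + t)
        - 387420489 * (algebraMap K F c ^ 2 + algebraMap K F c * t + t ^ 2)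
      = algebraMap K F (c ^ 2 * (c + 243) ^ 2 * (c ^ 2 - 486 * c - 19683))
        + (t - algebraMap K F c) *
        (algebraMap K F c ^ 3 * (t ^ 2 + t * algebraMap K F c + algebraMap K F c ^ 2)
          - 196830 * algebraMap K F c ^ 2 * (t + algebraMap K F c)
          - 19131876 * algebraMap K F c * (t + 2 * algebraMap K F c)
          - 387420489 * (t + 2 * algebraMap K F c)) := by
    simp only [map_mul, map_pow, map_add, map_sub, map_ofNat]
    ring
  have key : (j - algebraMap K F ((c + 27) * (c + 243) ^ 3 / c ^ 3)) * t ^ 3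
        * algebraMap K F c ^ 3
      = (t - algebraMap K F c) * (algebraMap K F c ^ 3 * t ^ 3
        - 196830 * algebraMap K F c ^ 2 * t ^ 2
        - 19131876 * algebraMap K F c * t * (algebraMap K F c + t)
        - 387420489 * (algebraMap K F c ^ 2 + algebraMap K F c * t + t ^ 2)) := by
    linear_combination algebraMap K F c ^ 3 * hj - t ^ 3 * hJ
  have hCm : algebraMap K F c ∈ v.toValuationSubring := v.algebraMap_mem' c
  have hn1 : (196830 : F) ∈ v.toValuationSubring := ofNat_mem _ 196830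
  have hn2 : (19131876 : F) ∈ v.toValuationSubring := ofNat_mem _ 19131876
  have hn3 : (387420489 : F) ∈ v.toValuationSubring := ofNat_mem _ 387420489
  have h2m : (2 : F) ∈ v.toValuationSubring := ofNat_mem _ 2
  have hHm : algebraMap K F c ^ 3 * (t ^ 2 + t * algebraMap K F c + algebraMap K F c ^ 2)
      - 196830 * algebraMap K F c ^ 2 * (t + algebraMap K F c)
      - 19131876 * algebraMap K F c * (t + 2 * algebraMap K F c)
      - 387420489 * (t + 2 * algebraMap K F c) ∈ v.toValuationSubring :=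
    sub_mem (sub_mem (sub_mem
      (mul_mem (pow_mem hCm 3) (add_mem (add_mem (pow_mem htm 2) (mul_mem htm hCm)) (pow_mem hCm 2)))
      (mul_mem (mul_mem hn1 (pow_mem hCm 2)) (add_mem htm hCm)))
      (mul_mem (mul_mem hn2 hCm) (add_mem htm (mul_mem h2m hCm))))
      (mul_mem hn3 (add_mem htm (mul_mem h2m hCm)))
  obtain ⟨hGne, hGo⟩ := ne_zero_and_ord_eq_zero v hg0 hv hHm hG
  have hjne : j - algebraMap K F ((c + 27) * (c + 243) ^ 3 / c ^ 3) ≠ 0 := by
    intro h
    rw [h, zero_mul, zero_mul] at key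
    exact (mul_ne_zero hd0 hGne) key.symm
  have h1 := congrArg v.ord key
  rw [v.ord_mul (mul_ne_zero hjne (pow_ne_zero 3 ht0)) (pow_ne_zero 3 hC0),
    v.ord_mul hjne (pow_ne_zero 3 ht0), ord_pow, ord_pow, hto, ord_algebraMap,
    v.ord_mul hd0 hGne, hGo] at h1
  have hjc0 : (c + 27) * (c + 243) ^ 3 / c ^ 3 ≠ 0 :=
    div_ne_zero (mul_ne_zero hc27 (pow_ne_zero 3 hc243)) (pow_ne_zero 3 hc0)
  have hjc1728 : (c + 27) * (c + 243) ^ 3 / c ^ 3 ≠ 1728 := by
    intro h
    rw [div_eq_iff (pow_ne_zero 3 hc0)] at h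
    have h' : (c ^ 2 - 486 * c - 19683) ^ 2 = 0 := by linear_combination h
    exact hQ (pow_eq_zero_iff (two_ne_zero)|>.mp h')
  have h2 := R1 _ hjc0 hjc1728 v (by omega)
  omega

/-- **(B3)** over the elliptic value `t = -27` every ramification index divides `3`. -/
theorem ord_sub_neg27_dvd_three {j t : F} (hj : j * t ^ 3 = (t + 27) * (t + 243) ^ 3)
    (R2 : ∀ v : Place K F, 0 < v.ord j → v.ord j ∣ 3)
    (v : Place K F) (hv : 0 < v.ord (t - algebraMap K F (-27))) :
    v.ord (t - algebraMap K F (-27)) ∣ 3 := by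
  have : CharZero F := charZero_of_algebra K F
  have ht0 : t ≠ 0 := t_ne_zero_three hj
  have hto : v.ord t = 0 := by
    have h := ord_sub_algebraMap_eq_zero v hv (b := 0) (by norm_num)
    rwa [map_zero, sub_zero] at h
  have hd0 : t - algebraMap K F (-27) ≠ 0 := ne_zero_of_ord_pos v hv
  have key := key0_three (K := K) hj
  have h243 : v.ord (t - algebraMap K F (-243)) = 0 :=
    ord_sub_algebraMap_eq_zero v hv (by norm_num)
  have h243' : t - algebraMap K F (-243) ≠ 0 := sub_algebraMap_ne_zero v hv _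
  have hj0 : j ≠ 0 := by
    intro h
    rw [h, zero_mul] at key
    exact (mul_ne_zero hd0 (pow_ne_zero 3 h243')) key.symm
  have h1 := congrArg v.ord key
  rw [v.ord_mul hj0 (pow_ne_zero 3 ht0), ord_pow, hto,
    v.ord_mul hd0 (pow_ne_zero 3 h243'), ord_pow, h243] at h1
  have h2 : 0 < v.ord j := by omega
  have h3 := R2 v h2
  have h4 : v.ord j = v.ord (t - algebraMap K F (-27)) := by omega
  rwa [h4] at h3

omit [CharZero K] in
/-- **(C3)** at a pole of `t`: `ord j = ord t`. -/
theorem ord_j_of_ord_neg_three {j t : F} (hj : j * t ^ 3 = (t + 27) * (t + 243) ^ 3)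
    (v : Place K F) (hv : v.ord t < 0) : v.ord j = v.ord t := by
  have ht0 : t ≠ 0 := ne_zero_of_ord_ne_zero v hv.ne
  have key := key0_three (K := K) hj
  have h1 : v.ord (t - algebraMap K F (-27)) = v.ord t :=
    ord_sub_algebraMap_of_ord_neg v hv _
  have h1' : t - algebraMap K F (-27) ≠ 0 := ne_zero_of_ord_ne_zero v (by omega)
  have h2 : v.ord (t - algebraMap K F (-243)) = v.ord t :=
    ord_sub_algebraMap_of_ord_neg v hv _
  have h2' : t - algebraMap K F (-243) ≠ 0 := ne_zero_of_ord_ne_zero v (by omega)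
  have hj0 : j ≠ 0 := by
    intro h
    rw [h, zero_mul] at key
    exact (mul_ne_zero h1' (pow_ne_zero 3 h2')) key.symm
  have h3 := congrArg v.ord key
  rw [v.ord_mul hj0 (pow_ne_zero 3 ht0), ord_pow, v.ord_mul h1' (pow_ne_zero 3 h2'), ord_pow,
    h1, h2] at h3
  omega

/-- **(C3)** at a zero of `t`: `ord j = -3 * ord t`. -/
theorem ord_j_of_ord_pos_three {j t : F} (hj : j * t ^ 3 = (t + 27) * (t + 243) ^ 3)
    (v : Place K F) (hv : 0 < v.ord t) : v.ord j = -3 * v.ord t := by
  have ht0 : t ≠ 0 := ne_zero_of_ord_pos v hv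
  have key := key0_three (K := K) hj
  have hv' : 0 < v.ord (t - algebraMap K F 0) := by rwa [map_zero, sub_zero]
  have h1 : v.ord (t - algebraMap K F (-27)) = 0 :=
    ord_sub_algebraMap_eq_zero v hv' (by norm_num)
  have h1' : t - algebraMap K F (-27) ≠ 0 := sub_algebraMap_ne_zero v hv' _
  have h2 : v.ord (t - algebraMap K F (-243)) = 0 :=
    ord_sub_algebraMap_eq_zero v hv' (by norm_num)
  have h2' : t - algebraMap K F (-243) ≠ 0 := sub_algebraMap_ne_zero v hv' _
  have hj0 : j ≠ 0 := by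
    intro h
    rw [h, zero_mul] at key
    exact (mul_ne_zero h1' (pow_ne_zero 3 h2')) key.symm
  have h3 := congrArg v.ord key
  rw [v.ord_mul hj0 (pow_ne_zero 3 ht0), ord_pow, v.ord_mul h1' (pow_ne_zero 3 h2'), ord_pow,
    h1, h2] at h3
  omega

/-- **(D3)** every pole of `j` is a zero or a pole of `t`. -/
theorem ord_ne_zero_of_ord_j_neg_three {j t : F} (hj : j * t ^ 3 = (t + 27) * (t + 243) ^ 3)
    (v : Place K F) (hv : v.ord j < 0) : v.ord t ≠ 0 := by
  intro hto
  have : CharZero F := charZero_of_algebra K F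
  have ht0 : t ≠ 0 := t_ne_zero_three hj
  have hj0 : j ≠ 0 := ne_zero_of_ord_ne_zero v hv.ne
  have htm : t ∈ v.toValuationSubring := mem_of_ord_nonneg v hto.ge
  have h27m : (27 : F) ∈ v.toValuationSubring := ofNat_mem _ 27
  have h243m : (243 : F) ∈ v.toValuationSubring := ofNat_mem _ 243
  have hm : (t + 27) * (t + 243) ^ 3 ∈ v.toValuationSubring :=
    mul_mem (add_mem htm h27m) (pow_mem (add_mem htm h243m) 3)
  have h1 := ord_nonneg_of_mem v hm
  rw [← hj, v.ord_mul hj0 (pow_ne_zero 3 ht0), ord_pow, hto] at h1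
  omega

end Three

/-! ## The modular instance -/

section Modular

open Fermat.Agent.S24.helper24

variable (N : ℕ) [NeZero N] (t : FN N)

/-- **(A2)** `F_N / ℚ̄(t₂)` is unramified over every `c ≠ 0, -64`. -/
theorem t2_unramified (hj : jBar N * t ^ 2 = (t + 256) ^ 3) (c : Kbar) (hc0 : c ≠ 0)
    (hc : c ≠ -64) (v : Place Kbar (FN N)) (hv : 0 < v.ord (t - algebraMap Kbar (FN N) c)) :
    v.ord (t - algebraMap Kbar (FN N) c) = 1 :=
  ord_sub_eq_one_two hj (helper8185.ord_j_sub_eq_one N) (helper8185.ord_j_dvd_three N)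
    (helper8185.ord_j_sub_1728_dvd_two N) c hc0 hc v hv

/-- **(B2)** over `t₂ = -64` every ramification index divides `2`. -/
theorem t2_ord_dvd_two (hj : jBar N * t ^ 2 = (t + 256) ^ 3) (v : Place Kbar (FN N))
    (hv : 0 < v.ord (t - algebraMap Kbar (FN N) (-64))) :
    v.ord (t - algebraMap Kbar (FN N) (-64)) ∣ 2 :=
  ord_sub_neg64_dvd_two hj (helper8185.ord_j_sub_1728_dvd_two N) v hv

/-- Uniform form of (A2)+(B2): every ramification index of `F_N / ℚ̄(t₂)` over a finite nonzero
value divides `2`. -/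
theorem t2_ord_dvd_two_of_ne_zero (hj : jBar N * t ^ 2 = (t + 256) ^ 3) (c : Kbar) (hc0 : c ≠ 0)
    (v : Place Kbar (FN N)) (hv : 0 < v.ord (t - algebraMap Kbar (FN N) c)) :
    v.ord (t - algebraMap Kbar (FN N) c) ∣ 2 := by
  by_cases hc : c = -64
  · subst hc
    exact t2_ord_dvd_two N t hj v hv
  · rw [t2_unramified N t hj c hc0 hc v hv]
    exact one_dvd _

omit [NeZero N] in
/-- **(C2)** at a pole of `t₂`: `ord j = ord t₂` (so the pole is a cusp). -/
theorem t2_ord_j_of_neg (hj : jBar N * t ^ 2 = (t + 256) ^ 3) (v : Place Kbar (FN N))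
    (hv : v.ord t < 0) : v.ord (jBar N) = v.ord t :=
  ord_j_of_ord_neg_two (K := Kbar) hj v hv

omit [NeZero N] in
/-- **(C2)** at a zero of `t₂`: `ord j = -2 * ord t₂` (so the zero is a cusp). -/
theorem t2_ord_j_of_pos (hj : jBar N * t ^ 2 = (t + 256) ^ 3) (v : Place Kbar (FN N))
    (hv : 0 < v.ord t) : v.ord (jBar N) = -2 * v.ord t :=
  ord_j_of_ord_pos_two (K := Kbar) hj v hv

omit [NeZero N] in
/-- **(D2)** every cusp (pole of `j`) is a zero or a pole of `t₂`. -/
theorem t2_ord_ne_zero_of_cusp (hj : jBar N * t ^ 2 = (t + 256) ^ 3) (v : Place Kbar (FN N))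
    (hv : v.ord (jBar N) < 0) : v.ord t ≠ 0 :=
  ord_ne_zero_of_ord_j_neg_two (K := Kbar) hj v hv

/-- The pole orders of `t₂` divide the level. -/
theorem t2_pole_dvd_level (hj : jBar N * t ^ 2 = (t + 256) ^ 3) (v : Place Kbar (FN N))
    (hv : v.ord t < 0) : v.ord t ∣ (N : ℤ) := by
  have h := t2_ord_j_of_neg N t hj v hv
  have h2 := helper8185.ord_j_dvd_level N v (by omega)
  rwa [h] at h2

/-- Twice the zero orders of `t₂` divide the level. -/
theorem t2_zero_dvd_level (hj : jBar N * t ^ 2 = (t + 256) ^ 3) (v : Place Kbar (FN N))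
    (hv : 0 < v.ord t) : 2 * v.ord t ∣ (N : ℤ) := by
  have h := t2_ord_j_of_pos N t hj v hv
  have h2 := helper8185.ord_j_dvd_level N v (by omega)
  rw [h, neg_mul, neg_dvd] at h2
  exact h2

/-- **(A3)** `F_N / ℚ̄(t₃)` is unramified over every `c ≠ 0, -27`. -/
theorem t3_unramified (hj : jBar N * t ^ 3 = (t + 27) * (t + 243) ^ 3) (c : Kbar) (hc0 : c ≠ 0)
    (hc : c ≠ -27) (v : Place Kbar (FN N)) (hv : 0 < v.ord (t - algebraMap Kbar (FN N) c)) :
    v.ord (t - algebraMap Kbar (FN N) c) = 1 :=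
  ord_sub_eq_one_three hj (helper8185.ord_j_sub_eq_one N) (helper8185.ord_j_dvd_three N)
    (helper8185.ord_j_sub_1728_dvd_two N) c hc0 hc v hv

/-- **(B3)** over `t₃ = -27` every ramification index divides `3`. -/
theorem t3_ord_dvd_three (hj : jBar N * t ^ 3 = (t + 27) * (t + 243) ^ 3)
    (v : Place Kbar (FN N)) (hv : 0 < v.ord (t - algebraMap Kbar (FN N) (-27))) :
    v.ord (t - algebraMap Kbar (FN N) (-27)) ∣ 3 :=
  ord_sub_neg27_dvd_three hj (helper8185.ord_j_dvd_three N) v hv

/-- Uniform form of (A3)+(B3): every ramification index of `F_N / ℚ̄(t₃)` over a finite nonzero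
value divides `3`. -/
theorem t3_ord_dvd_three_of_ne_zero (hj : jBar N * t ^ 3 = (t + 27) * (t + 243) ^ 3) (c : Kbar)
    (hc0 : c ≠ 0) (v : Place Kbar (FN N)) (hv : 0 < v.ord (t - algebraMap Kbar (FN N) c)) :
    v.ord (t - algebraMap Kbar (FN N) c) ∣ 3 := by
  by_cases hc : c = -27
  · subst hc
    exact t3_ord_dvd_three N t hj v hv
  · rw [t3_unramified N t hj c hc0 hc v hv]
    exact one_dvd _

omit [NeZero N] in
/-- **(C3)** at a pole of `t₃`: `ord j = ord t₃` (so the pole is a cusp). -/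
theorem t3_ord_j_of_neg (hj : jBar N * t ^ 3 = (t + 27) * (t + 243) ^ 3) (v : Place Kbar (FN N))
    (hv : v.ord t < 0) : v.ord (jBar N) = v.ord t :=
  ord_j_of_ord_neg_three (K := Kbar) hj v hv

omit [NeZero N] in
/-- **(C3)** at a zero of `t₃`: `ord j = -3 * ord t₃` (so the zero is a cusp). -/
theorem t3_ord_j_of_pos (hj : jBar N * t ^ 3 = (t + 27) * (t + 243) ^ 3) (v : Place Kbar (FN N))
    (hv : 0 < v.ord t) : v.ord (jBar N) = -3 * v.ord t :=
  ord_j_of_ord_pos_three (K := Kbar) hj v hv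

omit [NeZero N] in
/-- **(D3)** every cusp (pole of `j`) is a zero or a pole of `t₃`. -/
theorem t3_ord_ne_zero_of_cusp (hj : jBar N * t ^ 3 = (t + 27) * (t + 243) ^ 3)
    (v : Place Kbar (FN N)) (hv : v.ord (jBar N) < 0) : v.ord t ≠ 0 :=
  ord_ne_zero_of_ord_j_neg_three (K := Kbar) hj v hv

/-- The pole orders of `t₃` divide the level. -/
theorem t3_pole_dvd_level (hj : jBar N * t ^ 3 = (t + 27) * (t + 243) ^ 3) (v : Place Kbar (FN N))
    (hv : v.ord t < 0) : v.ord t ∣ (N : ℤ) := by
  have h := t3_ord_j_of_neg N t hj v hv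
  have h2 := helper8185.ord_j_dvd_level N v (by omega)
  rwa [h] at h2

/-- Three times the zero orders of `t₃` divide the level. -/
theorem t3_zero_dvd_level (hj : jBar N * t ^ 3 = (t + 27) * (t + 243) ^ 3) (v : Place Kbar (FN N))
    (hv : 0 < v.ord t) : 3 * v.ord t ∣ (N : ℤ) := by
  have h := t3_ord_j_of_pos N t hj v hv
  have h2 := helper8185.ord_j_dvd_level N v (by omega)
  rw [h, neg_mul, neg_dvd] at h2
  exact h2

end Modular

end Fermat.Agent.S18.helper8056
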