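/-
S18-S2RED (helper8120): an integral basis of `S₂(Γ₀(M))` whose reduced `q`-expansions are linearly
independent over every field.

Inputs: Prelude `CuspForm.intLattice_fg`, the landed S23 (`CuspForm.HasIntegralStructure M 2`).
-/
import Mathlib
import Fermat.Prelude.Thm_CuspForm_intLattice_fg
import Fermat.Agent.S23

set_option autoImplicit false

noncomputable section

open Complex Function
open UpperHalfPlane hiding I
open scoped MatrixGroups ModularForm Manifold
open ModularForm ModularFormClass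
open P2MW.S_CuspForm_intLattice_fg.W3WsD

namespace Fermat.Agent.S18.helper8120

local notation "Γ₀(" N ")" => CongruenceSubgroup.Gamma0 N

/-! ## (A) Base change of linear independence for coordinate vectors -/

/-- Coordinate vectors over a field `F` that are `F`-linearly independent stay linearly
independent over any field `K` receiving `F`. -/
theorem linearIndependent_comp_ringHom {F K : Type*} [Field F] [Field K] (φ : F →+* K)
    {ι κ : Type*} {v : ι → κ → F} (hv : LinearIndependent F v) :
    LinearIndependent K (fun i => fun j => φ (v i j)) := by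
  classical
  let _ : Algebra F K := φ.toAlgebra
  let b := Module.Free.chooseBasis F K
  rw [linearIndependent_iff'] at hv ⊢
  intro s g hg i hi
  have key : ∀ α, ∑ i ∈ s, (b.repr (g i) α) • v i = 0 := by
    intro α
    funext j
    have hj := congrFun hg j
    simp only [Finset.sum_apply, Pi.smul_apply, smul_eq_mul, Pi.zero_apply] at hj ⊢
    have h2 : b.repr (∑ i ∈ s, g i * φ (v i j)) α = 0 := by rw [hj]; simp
    rw [map_sum, Finsupp.coe_finsetSum, Finset.sum_apply] at h2
    rw [← h2]
    refine Finset.sum_congr rfl fun i _ => ?_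
    have h3 : g i * φ (v i j) = (v i j) • g i := by
      rw [Algebra.smul_def, mul_comm]; rfl
    rw [h3, map_smul, Finsupp.smul_apply, smul_eq_mul, mul_comm]
  have hz : ∀ α, b.repr (g i) α = 0 := fun α => hv s (fun i => b.repr (g i) α) (key α) i hi
  have h0 : b.repr (g i) = 0 := Finsupp.ext hz
  exact (LinearEquiv.map_eq_zero_iff _).mp h0

/-! ## (B) The coefficient map on cusp forms -/

theorem qCoeff_smul_cusp {N : ℕ} {k : ℤ} (c : ℂ) (f : CuspForm Γ₀(N) k) (n : ℕ) :
    qCoeff ⇑(c • f) n = c * qCoeff ⇑f n := by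
  have h1 : ⇑(c • f) = c • ⇑f := rfl
  simp only [qCoeff, h1]
  rw [ModularForm.qExpansion_smul one_pos (hΓ N) c f]
  simp

/-- The full coefficient map, as a `ℂ`-linear map. -/
def coeffC (N : ℕ) (k : ℤ) : CuspForm Γ₀(N) k →ₗ[ℂ] (ℕ → ℂ) where
  toFun f n := qCoeff ⇑f n
  map_add' f g := by funext n; exact qCoeff_add f g n
  map_smul' c f := by
    funext n
    simp only [RingHom.id_apply, Pi.smul_apply, smul_eq_mul]
    exact qCoeff_smul_cusp c f n

@[simp] theorem coeffC_apply {N : ℕ} {k : ℤ} (f : CuspForm Γ₀(N) k) (n : ℕ) :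
    coeffC N k f n = qCoeff ⇑f n := rfl

theorem coeffC_injective (N : ℕ) [NeZero N] (k : ℤ) : Function.Injective (coeffC N k) := by
  intro f g hfg
  apply trunc_injective N k
  funext i
  exact congrFun hfg i

theorem ker_coeffC (N : ℕ) [NeZero N] (k : ℤ) : LinearMap.ker (coeffC N k) = ⊥ :=
  LinearMap.ker_eq_bot.mpr (coeffC_injective N k)

/-! ## (C) The free lattice and its basis -/

theorem isTorsionFree_int_cuspForm (N : ℕ) (k : ℤ) :
    Module.IsTorsionFree ℤ (CuspForm Γ₀(N) k) :=
  Module.IsTorsionFree.of_smul_eq_zero fun c f h => by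
    have h1 : (c : ℂ) • f = 0 := by rwa [Int.cast_smul_eq_zsmul]
    rcases smul_eq_zero.mp h1 with h2 | h2
    · left; exact_mod_cast h2
    · right; exact h2

/-- Existence of the integral basis (with the index type `Fin n`, `n = finrank`). -/
theorem exists_intBasis_aux (M : ℕ) [NeZero M] :
    ∃ (n : ℕ) (f : Fin n → CuspForm Γ₀(M) 2) (a : Fin n → ℕ → ℤ),
      n = Module.finrank ℂ (CuspForm Γ₀(M) 2) ∧
      (∀ i m, qCoeff ⇑(f i) m = ((a i m : ℤ) : ℂ)) ∧
      LinearIndependent ℂ f ∧
      Submodule.span ℂ (Set.range f) = ⊤ ∧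
      LinearIndependent ℚ (fun i => fun m => ((a i m : ℤ) : ℚ)) ∧
      (∀ g : CuspForm Γ₀(M) 2, (∀ m : ℕ, ∃ z : ℤ, qCoeff ⇑g m = (z : ℂ)) →
        ∃ c : Fin n → ℤ, g = ∑ i, c i • f i) := by
  classical
  set L : Submodule ℤ (CuspForm Γ₀(M) 2) := CuspForm.intLattice M 2 with hL
  have hfin : Module.Finite ℤ L := Module.Finite.iff_fg.mpr (CuspForm.intLattice_fg M 2)
  have htf : Module.IsTorsionFree ℤ (CuspForm Γ₀(M) 2) := isTorsionFree_int_cuspForm M 2
  obtain ⟨n, bL⟩ : Σ n : ℕ, Module.Basis (Fin n) ℤ L := Module.basisOfFiniteTypeTorsionFree'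
  set f0 : Fin n → CuspForm Γ₀(M) 2 := fun i => (bL i : CuspForm Γ₀(M) 2) with hf0
  have hint : ∀ i, ∀ m : ℕ, ∃ z : ℤ, qCoeff ⇑(f0 i) m = (z : ℂ) := fun i =>
    (mem_intLattice_iff (f0 i)).mp (bL i).2
  choose a0 ha0 using hint
  -- ℤ-independence of the integer coefficient vectors
  have hliZ_f0 : LinearIndependent ℤ f0 :=
    bL.linearIndependent.map' L.subtype (Submodule.ker_subtype L)
  let T : CuspForm Γ₀(M) 2 →ₗ[ℤ] (ℕ → ℂ) := (coeffC M 2).restrictScalars ℤ
  have hT : LinearMap.ker T = ⊥ := by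
    refine LinearMap.ker_eq_bot.mpr ?_
    exact coeffC_injective M 2
  let Cz : (ℕ → ℤ) →ₗ[ℤ] (ℕ → ℂ) :=
    { toFun := fun v m => ((v m : ℤ) : ℂ)
      map_add' := fun v w => by funext m; simp
      map_smul' := fun c v => by funext m; simp }
  let Cq : (ℕ → ℤ) →ₗ[ℤ] (ℕ → ℚ) :=
    { toFun := fun v m => ((v m : ℤ) : ℚ)
      map_add' := fun v w => by funext m; simp
      map_smul' := fun c v => by funext m; simp }
  have hCq : LinearMap.ker Cq = ⊥ := by
    refine LinearMap.ker_eq_bot.mpr fun v w hvw => ?_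
    funext m
    have h1 : ((v m : ℤ) : ℚ) = ((w m : ℤ) : ℚ) := congrFun hvw m
    exact_mod_cast h1
  have hTf : T ∘ f0 = Cz ∘ a0 := by
    funext i m
    exact ha0 i m
  have hliZ_a0 : LinearIndependent ℤ a0 := by
    have h1 : LinearIndependent ℤ (T ∘ f0) := hliZ_f0.map' T hT
    rw [hTf] at h1
    exact LinearIndependent.of_comp Cz h1
  have hliQ : LinearIndependent ℚ (fun i => fun m => ((a0 i m : ℤ) : ℚ)) := by
    have h1 : LinearIndependent ℤ (Cq ∘ a0) := hliZ_a0.map' Cq hCq
    exact (LinearIndependent.iff_fractionRing (R := ℤ) (K := ℚ)).mp h1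
  have hliC_a0 : LinearIndependent ℂ (fun i => fun m => ((a0 i m : ℤ) : ℂ)) := by
    have h1 := linearIndependent_comp_ringHom (algebraMap ℚ ℂ) hliQ
    have h2 : (fun i => fun m => ((a0 i m : ℤ) : ℂ)) =
        fun i => fun m => algebraMap ℚ ℂ ((a0 i m : ℤ) : ℚ) := by
      funext i m; simp
    rw [h2]; exact h1
  have hliC : LinearIndependent ℂ f0 := by
    refine LinearIndependent.of_comp (coeffC M 2) ?_
    have h2 : (coeffC M 2) ∘ f0 = fun i => fun m => ((a0 i m : ℤ) : ℂ) := by
      funext i m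
      exact ha0 i m
    rw [h2]; exact hliC_a0
  -- span
  have hspanZ : Submodule.span ℤ (Set.range f0) = L := by
    have h1 : Submodule.span ℤ (Set.range bL) = ⊤ := bL.span_eq
    have h2 : Set.range f0 = L.subtype '' Set.range bL := by
      rw [← Set.range_comp]; rfl
    rw [h2, ← Submodule.map_span, h1, Submodule.map_top, Submodule.range_subtype]
  have hspanC : Submodule.span ℂ (Set.range f0) = ⊤ := by
    have h1 : Submodule.span ℂ ((CuspForm.intLattice M 2 : Submodule ℤ (CuspForm Γ₀(M) 2)) :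
        Set (CuspForm Γ₀(M) 2)) = ⊤ := Fermat.Agent.S23.result M
    rw [← hL, ← hspanZ, Submodule.span_span_of_tower] at h1
    exact h1
  have hn : n = Module.finrank ℂ (CuspForm Γ₀(M) 2) := by
    have h1 := Module.finrank_eq_card_basis (Module.Basis.mk hliC hspanC.ge)
    rw [h1, Fintype.card_fin]
  refine ⟨n, f0, a0, hn, ha0, hliC, hspanC, hliQ, fun g hg => ?_⟩
  have hgL : g ∈ L := (mem_intLattice_iff g).mpr hg
  refine ⟨fun i => bL.repr ⟨g, hgL⟩ i, ?_⟩
  have h1 := bL.sum_repr ⟨g, hgL⟩
  have h2 := congrArg (L.subtype) h1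
  rw [map_sum] at h2
  simp only [map_zsmul, Submodule.subtype_apply] at h2
  exact h2.symm

/-- Existence of the integral basis, indexed by `Fin (finrank)`. -/
theorem exists_intBasis (M : ℕ) [NeZero M] :
    ∃ (f : Fin (Module.finrank ℂ (CuspForm Γ₀(M) 2)) → CuspForm Γ₀(M) 2)
      (a : Fin (Module.finrank ℂ (CuspForm Γ₀(M) 2)) → ℕ → ℤ),
      (∀ i m, qCoeff ⇑(f i) m = ((a i m : ℤ) : ℂ)) ∧
      LinearIndependent ℂ f ∧
      Submodule.span ℂ (Set.range f) = ⊤ ∧
      LinearIndependent ℚ (fun i => fun m => ((a i m : ℤ) : ℚ)) ∧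
      (∀ g : CuspForm Γ₀(M) 2, (∀ m : ℕ, ∃ z : ℤ, qCoeff ⇑g m = (z : ℂ)) →
        ∃ c : Fin (Module.finrank ℂ (CuspForm Γ₀(M) 2)) → ℤ, g = ∑ i, c i • f i) := by
  obtain ⟨n, f, a, rfl, h⟩ := exists_intBasis_aux M
  exact ⟨f, a, h⟩

/-! ## (D) The basis and its properties -/

/-- An integral basis of `S₂(Γ₀(M))`: cusp forms with integral `q`-expansions forming a `ℂ`-basis
and a `ℤ`-basis of the lattice of all cusp forms with integral `q`-expansion. -/
def intBasis (M : ℕ) [NeZero M] :
    Fin (Module.finrank ℂ (CuspForm Γ₀(M) 2)) → CuspForm Γ₀(M) 2 :=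
  (exists_intBasis M).choose

/-- The integer `q`-expansion coefficients of the integral basis. -/
def intBasisCoeff (M : ℕ) [NeZero M] :
    Fin (Module.finrank ℂ (CuspForm Γ₀(M) 2)) → ℕ → ℤ :=
  (exists_intBasis M).choose_spec.choose

/-- The integral `q`-expansions of the integral basis, as formal power series over `ℤ`. -/
def intBasisPS (M : ℕ) [NeZero M] (i : Fin (Module.finrank ℂ (CuspForm Γ₀(M) 2))) :
    PowerSeries ℤ :=
  PowerSeries.mk (intBasisCoeff M i)

section Properties

variable (M : ℕ) [NeZero M]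

theorem qCoeff_intBasis (i : Fin (Module.finrank ℂ (CuspForm Γ₀(M) 2))) (m : ℕ) :
    qCoeff ⇑(intBasis M i) m = ((intBasisCoeff M i m : ℤ) : ℂ) :=
  (exists_intBasis M).choose_spec.choose_spec.1 i m

theorem linearIndependent_intBasis : LinearIndependent ℂ (intBasis M) :=
  (exists_intBasis M).choose_spec.choose_spec.2.1

theorem span_intBasis : Submodule.span ℂ (Set.range (intBasis M)) = ⊤ :=
  (exists_intBasis M).choose_spec.choose_spec.2.2.1

theorem linearIndependent_intBasisCoeff_rat :
    LinearIndependent ℚ (fun i => fun m => ((intBasisCoeff M i m : ℤ) : ℚ)) :=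
  (exists_intBasis M).choose_spec.choose_spec.2.2.2.1

/-- Saturation: every cusp form with integral `q`-expansion is a `ℤ`-combination of the basis. -/
theorem exists_int_combination (g : CuspForm Γ₀(M) 2)
    (hg : ∀ m : ℕ, ∃ z : ℤ, qCoeff ⇑g m = (z : ℂ)) :
    ∃ c : Fin (Module.finrank ℂ (CuspForm Γ₀(M) 2)) → ℤ, g = ∑ i, c i • intBasis M i :=
  (exists_intBasis M).choose_spec.choose_spec.2.2.2.2 g hg

/-- The integral basis as a `ℂ`-basis of `S₂(Γ₀(M))`. -/
def intBasisC : Module.Basis (Fin (Module.finrank ℂ (CuspForm Γ₀(M) 2))) ℂ (CuspForm Γ₀(M) 2) :=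
  Module.Basis.mk (linearIndependent_intBasis M) (span_intBasis M).ge

@[simp] theorem intBasisC_apply (i : Fin (Module.finrank ℂ (CuspForm Γ₀(M) 2))) :
    intBasisC M i = intBasis M i := by
  simp [intBasisC]

theorem coeff_intBasisPS (i : Fin (Module.finrank ℂ (CuspForm Γ₀(M) 2))) (m : ℕ) :
    PowerSeries.coeff m (intBasisPS M i) = intBasisCoeff M i m := by
  simp [intBasisPS]

theorem qCoeff_intBasis_eq_coeff (i : Fin (Module.finrank ℂ (CuspForm Γ₀(M) 2))) (m : ℕ) :
    qCoeff ⇑(intBasis M i) m = ((PowerSeries.coeff m (intBasisPS M i) : ℤ) : ℂ) := by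
  rw [coeff_intBasisPS, qCoeff_intBasis]

theorem intBasisCoeff_zero (i : Fin (Module.finrank ℂ (CuspForm Γ₀(M) 2))) :
    intBasisCoeff M i 0 = 0 := by
  have h1 := qCoeff_intBasis M i 0
  have h2 : qCoeff ⇑(intBasis M i) 0 = 0 :=
    CuspFormClass.qExpansion_coeff_zero (intBasis M i) one_pos (hΓ M)
  rw [h2] at h1
  exact_mod_cast h1.symm

theorem constantCoeff_intBasisPS (i : Fin (Module.finrank ℂ (CuspForm Γ₀(M) 2))) :
    PowerSeries.constantCoeff (intBasisPS M i) = 0 := by
  rw [← PowerSeries.coeff_zero_eq_constantCoeff_apply, coeff_intBasisPS, intBasisCoeff_zero]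

/-- `q`-coefficients of an integral combination of the basis. -/
theorem qCoeff_sum_zsmul_intBasis (c : Fin (Module.finrank ℂ (CuspForm Γ₀(M) 2)) → ℤ) (m : ℕ) :
    qCoeff ⇑(∑ i, c i • intBasis M i) m = ((∑ i, c i * intBasisCoeff M i m : ℤ) : ℂ) := by
  have h1 : coeffC M 2 (∑ i, c i • intBasis M i) m = ((∑ i, c i * intBasisCoeff M i m : ℤ) : ℂ) := by
    rw [map_sum, Finset.sum_apply]
    push_cast
    refine Finset.sum_congr rfl fun i _ => ?_
    rw [map_zsmul, Pi.smul_apply, coeffC_apply, qCoeff_intBasis, zsmul_eq_mul]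
  exact h1

/-- **Saturation at every integer**: if an integral combination of the basis has all coefficients
divisible by `p ≠ 0`, then `p` divides all the combination coefficients. -/
theorem dvd_of_forall_dvd_sum (p : ℤ) (hp : p ≠ 0)
    (c : Fin (Module.finrank ℂ (CuspForm Γ₀(M) 2)) → ℤ)
    (h : ∀ m : ℕ, p ∣ ∑ i, c i * intBasisCoeff M i m) : ∀ i, p ∣ c i := by
  classical
  choose z hz using h
  set g : CuspForm Γ₀(M) 2 := ∑ i, c i • intBasis M i with hg
  set g' : CuspForm Γ₀(M) 2 := ((p : ℂ)⁻¹) • g with hg'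
  have hpC : (p : ℂ) ≠ 0 := by exact_mod_cast hp
  have hint : ∀ m : ℕ, ∃ w : ℤ, qCoeff ⇑g' m = (w : ℂ) := by
    intro m
    refine ⟨z m, ?_⟩
    rw [hg', qCoeff_smul_cusp, hg, qCoeff_sum_zsmul_intBasis, hz m]
    push_cast
    field_simp
  obtain ⟨d, hd⟩ := exists_int_combination M g' hint
  have hgg' : g = (p : ℂ) • g' := by
    rw [hg', smul_smul, mul_inv_cancel₀ hpC, one_smul]
  have hzero : ∑ i, ((c i - p * d i : ℤ) : ℂ) • intBasis M i = 0 := by
    have h1 : ∑ i, ((c i - p * d i : ℤ) : ℂ) • intBasis M i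
        = ∑ i, c i • intBasis M i - (p : ℂ) • ∑ i, d i • intBasis M i := by
      rw [Finset.smul_sum, ← Finset.sum_sub_distrib]
      refine Finset.sum_congr rfl fun i _ => ?_
      have e1 : ((c i : ℤ) : ℂ) • intBasis M i = c i • intBasis M i :=
        Int.cast_smul_eq_zsmul ℂ (c i) (intBasis M i)
      have e2 : ((d i : ℤ) : ℂ) • intBasis M i = d i • intBasis M i :=
        Int.cast_smul_eq_zsmul ℂ (d i) (intBasis M i)
      rw [Int.cast_sub, Int.cast_mul, sub_smul, mul_smul, e1, e2]
    rw [h1, ← hd, ← hg, hgg', sub_self]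
  have hall := (Fintype.linearIndependent_iff.mp (linearIndependent_intBasis M)) _ hzero
  intro i
  have h2 : ((c i - p * d i : ℤ) : ℂ) = 0 := hall i
  have h3 : c i - p * d i = 0 := by exact_mod_cast h2
  exact ⟨d i, by linarith⟩

/-- The reductions mod `p` of the integer coefficient vectors are `𝔽_p`-linearly independent. -/
theorem linearIndependent_intBasisCoeff_zmod (p : ℕ) [Fact p.Prime] :
    LinearIndependent (ZMod p) (fun i => fun m => ((intBasisCoeff M i m : ℤ) : ZMod p)) := by
  classical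
  rw [Fintype.linearIndependent_iff]
  intro cbar hcbar i
  have hlift : ∀ i, ∃ c : ℤ, (c : ZMod p) = cbar i := fun i => ZMod.intCast_surjective (cbar i)
  choose c hc using hlift
  have hdvd : ∀ m : ℕ, (p : ℤ) ∣ ∑ i, c i * intBasisCoeff M i m := by
    intro m
    rw [← ZMod.intCast_zmod_eq_zero_iff_dvd]
    have h1 := congrFun hcbar m
    simp only [Finset.sum_apply, Pi.smul_apply, smul_eq_mul, Pi.zero_apply] at h1
    push_cast
    rw [← h1]
    refine Finset.sum_congr rfl fun i _ => ?_
    rw [hc]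
  have hp0 : (p : ℤ) ≠ 0 := by exact_mod_cast (Fact.out : p.Prime).ne_zero
  have h2 := dvd_of_forall_dvd_sum M (p : ℤ) hp0 c hdvd i
  rw [← hc i]
  exact (ZMod.intCast_zmod_eq_zero_iff_dvd _ _).mpr h2

end Properties

/-- **Independence over every field**: the integer coefficient vectors of the integral basis,
mapped to any field `k` (of any characteristic), are `k`-linearly independent. -/
theorem linearIndependent_intBasisCoeff_field (M : ℕ) [NeZero M] (k : Type*) [Field k] :
    LinearIndependent k (fun i => fun m => ((intBasisCoeff M i m : ℤ) : k)) := by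
  obtain ⟨p, hp⟩ := CharP.exists k
  rcases CharP.char_is_prime_or_zero k p with hprime | hzero
  · have : Fact p.Prime := ⟨hprime⟩
    have h1 := linearIndependent_comp_ringHom (ZMod.castHom (dvd_refl p) k)
      (linearIndependent_intBasisCoeff_zmod M p)
    have h2 : (fun i => fun m => ((intBasisCoeff M i m : ℤ) : k)) =
        fun i => fun m => ZMod.castHom (dvd_refl p) k ((intBasisCoeff M i m : ℤ) : ZMod p) := by
      funext i m; simp
    rw [h2]; exact h1
  · subst hzero
    have : CharZero k := CharP.charP_to_charZero k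
    have h1 := linearIndependent_comp_ringHom (algebraMap ℚ k)
      (linearIndependent_intBasisCoeff_rat M)
    have h2 : (fun i => fun m => ((intBasisCoeff M i m : ℤ) : k)) =
        fun i => fun m => algebraMap ℚ k ((intBasisCoeff M i m : ℤ) : ℚ) := by
      funext i m; simp
    rw [h2]; exact h1

/-- **Main statement (power-series form)**: the integral `q`-expansions of the integral basis of
`S₂(Γ₀(M))`, reduced to any field `k`, are `k`-linearly independent power series. -/
theorem linearIndependent_map_intBasisPS (M : ℕ) [NeZero M] (k : Type*) [Field k] :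
    LinearIndependent k (fun i => (intBasisPS M i).map (Int.castRingHom k)) := by
  let E : PowerSeries k →ₗ[k] (ℕ → k) :=
    { toFun := fun φ m => PowerSeries.coeff m φ
      map_add' := fun φ ψ => by funext m; simp
      map_smul' := fun c φ => by funext m; simp }
  refine LinearIndependent.of_comp E ?_
  have h2 : (E ∘ fun i => (intBasisPS M i).map (Int.castRingHom k)) =
      fun i => fun m => ((intBasisCoeff M i m : ℤ) : k) := by
    funext i m
    show PowerSeries.coeff m ((intBasisPS M i).map (Int.castRingHom k)) = _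
    rw [PowerSeries.coeff_map, coeff_intBasisPS]
    simp
  rw [h2]
  exact linearIndependent_intBasisCoeff_field M k

end Fermat.Agent.S18.helper8120
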