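import Mathlib
import Fermat.Prelude.Def_ModularCurve_X0ModL

/-!
# S18, leaf QINT: `O((q))` is integrally closed (normality leaf (C1) of audit #2644)

For a principal ideal domain `O` (e.g. a discrete valuation ring of a number field), the ring
of Laurent series `O((q))` is integrally closed in its fraction field.  No Weierstrass
preparation and no completion is needed: Mathlib knows that `O⟦X⟧` is a unique factorisation
domain for a PID `O`, hence integrally closed, and `O((q))` is its localisation at `q`.

Consumer forms (Prelude vocabulary `ModularCurve.coeffMap`):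

* `mem_range_coeffMap_of_isIntegral` : a Laurent series over a field `K ⊇ O` which is a ratio of
  two Laurent series over `O` and is integral over `O((q))` has coefficients in `O`.
* `exists_ratio_of_mem_laurentBaseChange` : every element of the function field
  `laurentBaseChange K (modularFunctionFieldFull N)` (`K = Frac O`) is such a ratio.
* `exists_coeffMap_eq_of_isIntegral` : hence an element of the modular function field over `K`
  that is integral over (a subring of) `O((q))` has its `q`-expansion in `O((q))`.
* `mem_range_coeffMap_of_pow` : root closure.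
* `isUnit_of_coeff_isUnit` : a Laurent series whose lowest coefficient is a unit is a unit.
-/

set_option autoImplicit false

noncomputable section

namespace Fermat.Agent.S18.helper8211

open ModularCurve HahnSeries Polynomial

/-! ## (Q1) normality of `O((q))` -/

section Normal

variable (O : Type*) [CommRing O] [IsDomain O] [IsPrincipalIdealRing O]

/-- **(Q1)** For a principal ideal domain `O`, the ring `O((q))` is integrally closed. -/
theorem isIntegrallyClosed_laurentSeries : IsIntegrallyClosed (LaurentSeries O) :=
  isIntegrallyClosed_of_isLocalization (R := PowerSeries O) (LaurentSeries O)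
    (Submonoid.powers (PowerSeries.X : PowerSeries O))
    (powers_le_nonZeroDivisors_of_noZeroDivisors PowerSeries.X_ne_zero)

end Normal

/-! ## Coefficient maps -/

section CoeffMap

variable {R S : Type*} [CommRing R] [CommRing S]

theorem coeffMap_injective (f : R →+* S) (hf : Function.Injective f) :
    Function.Injective (coeffMap f) := by
  intro x y hxy
  ext k
  have := congrArg (fun s => HahnSeries.coeff s k) hxy
  simp only [coeffMap_coeff] at this
  exact hf this

theorem coeffMap_ne_zero (f : R →+* S) (hf : Function.Injective f) {x : LaurentSeries R}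
    (hx : x ≠ 0) : coeffMap f x ≠ 0 := fun h =>
  hx (coeffMap_injective f hf (by rw [h, map_zero]))

end CoeffMap

/-! ## (Q2) ratios that are integral have coefficients in `O` -/

section Ratio

variable {O K : Type*} [CommRing O] [IsDomain O] [IsPrincipalIdealRing O] [Field K]

/-- **(Q2)** Let `O` be a PID, `i : O → K` an injective ring homomorphism into a field.  A Laurent
series `x` over `K` which is a ratio `z / w` of Laurent series over `O` and is a root of a monic
polynomial with coefficients in `O((q))` has coefficients in `O`. -/
theorem mem_range_coeffMap_of_monic (i : O →+* K) (hi : Function.Injective i)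
    (x : LaurentSeries K) (z w : LaurentSeries O) (hw : w ≠ 0)
    (hx : coeffMap i w * x = coeffMap i z)
    (p : Polynomial (LaurentSeries O)) (hp : p.Monic) (hpx : p.eval₂ (coeffMap i) x = 0) :
    ∃ y : LaurentSeries O, coeffMap i y = x := by
  classical
  have := isIntegrallyClosed_laurentSeries O
  have hinj : Function.Injective (coeffMap i) := coeffMap_injective i hi
  have hunits : ∀ y : nonZeroDivisors (LaurentSeries O), IsUnit (coeffMap i (y : LaurentSeries O)) :=
    fun y => IsUnit.mk0 _ (coeffMap_ne_zero i hi (nonZeroDivisors.ne_zero y.2))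
  let φ : FractionRing (LaurentSeries O) →+* LaurentSeries K := IsLocalization.lift hunits
  have hφ : ∀ r : LaurentSeries O,
      φ (algebraMap (LaurentSeries O) (FractionRing (LaurentSeries O)) r) = coeffMap i r :=
    fun r => IsLocalization.lift_eq hunits r
  have hφinj : Function.Injective φ := φ.injective
  have hw' : w ∈ nonZeroDivisors (LaurentSeries O) := mem_nonZeroDivisors_of_ne_zero hw
  set x' : FractionRing (LaurentSeries O) :=
    IsLocalization.mk' (FractionRing (LaurentSeries O)) z ⟨w, hw'⟩ with hx'
  have hφx' : φ x' = x := by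
    have h1 : φ x' * coeffMap i w = coeffMap i z := by
      rw [← hφ w, ← map_mul, hx']
      have := IsLocalization.mk'_spec (FractionRing (LaurentSeries O)) z ⟨w, hw'⟩
      rw [this, hφ]
    have hwne : coeffMap i w ≠ 0 := coeffMap_ne_zero i hi hw
    apply mul_right_cancel₀ hwne
    rw [h1, ← hx, mul_comm]
  have hint : IsIntegral (LaurentSeries O) x' := by
    refine ⟨p, hp, hφinj ?_⟩
    rw [map_zero, Polynomial.hom_eval₂, hφx']
    have : φ.comp (algebraMap (LaurentSeries O) (FractionRing (LaurentSeries O))) = coeffMap i :=
      RingHom.ext hφ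
    rw [this]
    exact hpx
  obtain ⟨y, hy⟩ := IsIntegrallyClosed.isIntegral_iff.mp hint
  exact ⟨y, by rw [← hφ y, hy, hφx']⟩

/-- **(Q2)**, subring form: integrality over the subring `O((q)) ⊆ K((q))`. -/
theorem mem_range_coeffMap_of_isIntegral (i : O →+* K) (hi : Function.Injective i)
    (x : LaurentSeries K) (z w : LaurentSeries O) (hw : w ≠ 0)
    (hx : coeffMap i w * x = coeffMap i z)
    (hint : IsIntegral (coeffMap i).range x) :
    ∃ y : LaurentSeries O, coeffMap i y = x := by
  obtain ⟨p, hp, hpx⟩ := hint
  -- lift the coefficients of `p` along the surjection `O((q)) → range`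
  have hsurj : Function.Surjective (coeffMap i).rangeRestrict := (coeffMap i).rangeRestrict_surjective
  obtain ⟨q, hq, hqdeg, hqmonic⟩ := Polynomial.lifts_and_degree_eq_and_monic
    (f := (coeffMap i).rangeRestrict) (p := p) (by
      rw [Polynomial.lifts_iff_coeff_lifts]
      intro n
      exact hsurj _) hp
  refine mem_range_coeffMap_of_monic i hi x z w hw hx q hqmonic ?_
  have hcomp : (algebraMap (coeffMap i).range (LaurentSeries K)).comp (coeffMap i).rangeRestrict
      = coeffMap i := RingHom.ext fun r => rfl
  rw [← hcomp, ← Polynomial.eval₂_map, hq]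
  exact hpx

omit [IsDomain O] [IsPrincipalIdealRing O] in
/-- Integrality over a subring of `O((q))` implies integrality over `O((q))`. -/
theorem isIntegral_range_of_le (i : O →+* K) (T : Subring (LaurentSeries K))
    (hT : T ≤ (coeffMap i).range) {x : LaurentSeries K} (hx : IsIntegral T x) :
    IsIntegral (coeffMap i).range x := by
  obtain ⟨p, hp, hpx⟩ := hx
  refine ⟨p.map (Subring.inclusion hT), hp.map _, ?_⟩
  rw [Polynomial.eval₂_map]
  exact hpx

/-- **(Q4)** Root closure: a ratio of Laurent series over `O` whose `m`-th power has coefficients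
in `O` has coefficients in `O`. -/
theorem mem_range_coeffMap_of_pow (i : O →+* K) (hi : Function.Injective i)
    (x : LaurentSeries K) (z w : LaurentSeries O) (hw : w ≠ 0)
    (hx : coeffMap i w * x = coeffMap i z) {m : ℕ} (hm : 0 < m) (y : LaurentSeries O)
    (hy : x ^ m = coeffMap i y) :
    ∃ y' : LaurentSeries O, coeffMap i y' = x := by
  refine mem_range_coeffMap_of_monic i hi x z w hw hx (Polynomial.X ^ m - Polynomial.C y)
    (Polynomial.monic_X_pow_sub_C y hm.ne') ?_
  rw [Polynomial.eval₂_sub, Polynomial.eval₂_pow, Polynomial.eval₂_X, Polynomial.eval₂_C, hy,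
    sub_self]

end Ratio

/-! ## (Q3) elements of the modular function field are ratios -/

section Modular

variable {O K : Type*} [CommRing O] [IsDomain O] [Field K] [Algebra O K] [IsFractionRing O K]

/-- The set of Laurent series over `K` that are ratios of Laurent series over `O`, as a subfield
of `K((q))`. -/
def ratioSubfield (O K : Type*) [CommRing O] [IsDomain O] [Field K] [Algebra O K]
    [IsFractionRing O K] : Subfield (LaurentSeries K) where
  carrier := {x | ∃ z w : LaurentSeries O, w ≠ 0 ∧
    coeffMap (algebraMap O K) w * x = coeffMap (algebraMap O K) z}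
  mul_mem' := by
    rintro x x' ⟨z, w, hw, h⟩ ⟨z', w', hw', h'⟩
    refine ⟨z * z', w * w', mul_ne_zero hw hw', ?_⟩
    rw [map_mul, map_mul, ← h, ← h']
    ring
  one_mem' := ⟨1, 1, one_ne_zero, by simp⟩
  add_mem' := by
    rintro x x' ⟨z, w, hw, h⟩ ⟨z', w', hw', h'⟩
    refine ⟨z * w' + z' * w, w * w', mul_ne_zero hw hw', ?_⟩
    rw [map_mul, map_add, map_mul, map_mul, ← h, ← h']
    ring
  zero_mem' := ⟨0, 1, one_ne_zero, by simp⟩
  neg_mem' := by
    rintro x ⟨z, w, hw, h⟩
    exact ⟨-z, w, hw, by rw [map_neg, ← h]; ring⟩
  inv_mem' := by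
    rintro x ⟨z, w, hw, h⟩
    rcases eq_or_ne x 0 with rfl | hx
    · exact ⟨0, 1, one_ne_zero, by simp⟩
    · have hinj : Function.Injective (algebraMap O K) := IsFractionRing.injective O K
      have hz : z ≠ 0 := by
        rintro rfl
        rw [map_zero] at h
        rcases mul_eq_zero.mp h with h0 | h0
        · exact coeffMap_ne_zero _ hinj hw h0
        · exact hx h0
      refine ⟨w, z, hz, ?_⟩
      rw [← h, mul_assoc, mul_inv_cancel₀ hx, mul_one]

theorem mem_ratioSubfield {x : LaurentSeries K} :
    x ∈ ratioSubfield O K ↔ ∃ z w : LaurentSeries O, w ≠ 0 ∧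
      coeffMap (algebraMap O K) w * x = coeffMap (algebraMap O K) z := Iff.rfl

theorem coeffMap_mem_ratioSubfield (y : LaurentSeries O) :
    coeffMap (algebraMap O K) y ∈ ratioSubfield O K :=
  ⟨y, 1, one_ne_zero, by simp⟩

theorem algebraMap_mem_ratioSubfield (c : K) :
    algebraMap K (LaurentSeries K) c ∈ ratioSubfield O K := by
  obtain ⟨a, b, hb, rfl⟩ := IsFractionRing.div_surjective (A := O) c
  have hb0 : algebraMap O K b ≠ 0 :=
    IsFractionRing.to_map_ne_zero_of_mem_nonZeroDivisors hb
  refine ⟨HahnSeries.single 0 a, HahnSeries.single 0 b, ?_, ?_⟩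
  · intro h
    have := congrArg (fun s => HahnSeries.coeff s 0) h
    simp only [HahnSeries.coeff_single_same, HahnSeries.coeff_zero] at this
    exact nonZeroDivisors.ne_zero hb this
  · rw [coeffMap_single, coeffMap_single, algebraMap_laurentSeries_eq_single,
      HahnSeries.single_mul_single, add_zero]
    congr 1
    field_simp

variable [Algebra ℚ K]

omit [IsDomain O] [IsFractionRing O K] in
/-- The generators `j(q^d)` of the modular function field have integral coefficients. -/
theorem coeffEmb_qExpand_jq_eq (d : ℕ) [NeZero d] :
    coeffEmb K (qExpand ℚ d jq) = coeffMap (algebraMap O K) (qExpand O d (jqModC O)) := by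
  rw [coeffEmb, coeffMap_qExpand, coeffMap_qExpand, ← jqModC_rat, coeffMap_jqModC,
    coeffMap_jqModC]

/-- **(Q3)** Every element of the modular function field over `K = Frac O` is a ratio of two
Laurent series with coefficients in `O`. -/
theorem laurentBaseChange_le_ratioSubfield (N : ℕ) :
    (laurentBaseChange K (modularFunctionFieldFull N)).toSubfield ≤ ratioSubfield O K := by
  have h0 : (modularFunctionFieldFull N).toSubfield ≤
      (ratioSubfield O K).comap (coeffEmb K) := by
    show Subfield.closure (Set.range (algebraMap ℚ (LaurentSeries ℚ)) ∪ divisorExpansions N) ≤ _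
    rw [Subfield.closure_le]
    rintro x (⟨c, rfl⟩ | ⟨d, hd, -, rfl⟩)
    · show coeffEmb K (algebraMap ℚ (LaurentSeries ℚ) c) ∈ ratioSubfield O K
      have : coeffEmb K (algebraMap ℚ (LaurentSeries ℚ) c)
          = algebraMap K (LaurentSeries K) (algebraMap ℚ K c) := by
        rw [coeffEmb, algebraMap_laurentSeries_eq_single, algebraMap_laurentSeries_eq_single,
          coeffMap_single]
      rw [this]
      exact algebraMap_mem_ratioSubfield _
    · have := hd
      show coeffEmb K (qExpand ℚ d jq) ∈ ratioSubfield O K
      rw [coeffEmb_qExpand_jq_eq (O := O)]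
      exact coeffMap_mem_ratioSubfield _
  show Subfield.closure (Set.range (algebraMap K (LaurentSeries K)) ∪
      (⇑(coeffEmb K) '' (modularFunctionFieldFull N : Set (LaurentSeries ℚ)))) ≤ _
  rw [Subfield.closure_le]
  rintro x (⟨c, rfl⟩ | ⟨y, hy, rfl⟩)
  · exact algebraMap_mem_ratioSubfield c
  · exact h0 hy

/-- **(Q3)**, unfolded. -/
theorem exists_ratio_of_mem_laurentBaseChange {N : ℕ} {x : LaurentSeries K}
    (hx : x ∈ laurentBaseChange K (modularFunctionFieldFull N)) :
    ∃ z w : LaurentSeries O, w ≠ 0 ∧
      coeffMap (algebraMap O K) w * x = coeffMap (algebraMap O K) z :=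
  laurentBaseChange_le_ratioSubfield (O := O) N hx

variable [IsPrincipalIdealRing O]

/-- **Integral `q`-expansions.** Let `O` be a PID with fraction field `K` of characteristic `0`.
An element of the function field `K(j(q^d) : d ∣ N) ⊆ K((q))` which is integral over the subring
`O((q))` has its `q`-expansion in `O((q))`.  (No hypothesis on `N`.) -/
theorem exists_coeffMap_eq_of_isIntegral {N : ℕ} {x : LaurentSeries K}
    (hx : x ∈ laurentBaseChange K (modularFunctionFieldFull N))
    (hint : IsIntegral (coeffMap (algebraMap O K)).range x) :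
    ∃ y : LaurentSeries O, coeffMap (algebraMap O K) y = x := by
  obtain ⟨z, w, hw, h⟩ := exists_ratio_of_mem_laurentBaseChange (O := O) hx
  exact mem_range_coeffMap_of_isIntegral _ (IsFractionRing.injective O K) x z w hw h hint

/-- The same with integrality over any subring `T` of `O((q))`, e.g. `O[j]`, `O[1/j]`,
`O[t, 1/t]` for a Hauptmodul `t`. -/
theorem exists_coeffMap_eq_of_isIntegral_subring {N : ℕ} {x : LaurentSeries K}
    (hx : x ∈ laurentBaseChange K (modularFunctionFieldFull N))
    (T : Subring (LaurentSeries K)) (hT : T ≤ (coeffMap (algebraMap O K)).range)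
    (hint : IsIntegral T x) :
    ∃ y : LaurentSeries O, coeffMap (algebraMap O K) y = x :=
  exists_coeffMap_eq_of_isIntegral hx (isIntegral_range_of_le _ T hT hint)

/-- The same with an explicit monic polynomial over `O((q))`. -/
theorem exists_coeffMap_eq_of_monic {N : ℕ} {x : LaurentSeries K}
    (hx : x ∈ laurentBaseChange K (modularFunctionFieldFull N))
    (p : Polynomial (LaurentSeries O)) (hp : p.Monic)
    (hpx : p.eval₂ (coeffMap (algebraMap O K)) x = 0) :
    ∃ y : LaurentSeries O, coeffMap (algebraMap O K) y = x := by
  obtain ⟨z, w, hw, h⟩ := exists_ratio_of_mem_laurentBaseChange (O := O) hx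
  exact mem_range_coeffMap_of_monic _ (IsFractionRing.injective O K) x z w hw h p hp hpx

/-- Root closure in the modular function field: if `x ^ m` has its `q`-expansion in `O((q))`
(`m > 0`), so has `x`. -/
theorem exists_coeffMap_eq_of_pow {N : ℕ} {x : LaurentSeries K}
    (hx : x ∈ laurentBaseChange K (modularFunctionFieldFull N)) {m : ℕ} (hm : 0 < m)
    (y : LaurentSeries O) (hy : x ^ m = coeffMap (algebraMap O K) y) :
    ∃ y' : LaurentSeries O, coeffMap (algebraMap O K) y' = x := by
  obtain ⟨z, w, hw, h⟩ := exists_ratio_of_mem_laurentBaseChange (O := O) hx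
  exact mem_range_coeffMap_of_pow _ (IsFractionRing.injective O K) x z w hw h hm y hy

end Modular

/-! ## (Q5) units of `O((q))` -/

section Units

variable {R : Type*} [CommRing R]

/-- **(Q5)** A Laurent series whose lowest coefficient is a unit is a unit: if `z` has no
coefficients below `n` and the coefficient at `n` is a unit, then `z` is a unit of `R((q))`. -/
theorem isUnit_of_coeff_isUnit (z : LaurentSeries R) (n : ℤ) (hlow : ∀ k < n, z.coeff k = 0)
    (hu : IsUnit (z.coeff n)) : IsUnit z := by
  set p : PowerSeries R := PowerSeries.mk fun k => z.coeff (n + k) with hp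
  have hz : z = HahnSeries.single n (1 : R) * HahnSeries.ofPowerSeries ℤ R p := by
    ext m
    have hm : m = (m - n) + n := by ring
    rw [hm, HahnSeries.coeff_single_mul_add, one_mul]
    rcases lt_or_ge (m - n) 0 with h | h
    · rw [ofPowerSeries_coeff_of_neg _ h]
      exact hlow _ (by omega)
    · obtain ⟨a, ha⟩ := Int.eq_ofNat_of_zero_le h
      rw [ha, HahnSeries.ofPowerSeries_apply_coeff, hp, PowerSeries.coeff_mk]
      congr 1
      omega
  have h1 : IsUnit (HahnSeries.single n (1 : R) : LaurentSeries R) := by
    refine IsUnit.of_mul_eq_one (HahnSeries.single (-n) (1 : R)) ?_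
    rw [HahnSeries.single_mul_single, add_neg_cancel, one_mul]
    rfl
  have h2 : IsUnit (HahnSeries.ofPowerSeries ℤ R p) := by
    refine IsUnit.map (HahnSeries.ofPowerSeries ℤ R) ?_
    rw [PowerSeries.isUnit_iff_constantCoeff, hp, PowerSeries.constantCoeff_mk]
    simpa using hu
  rw [hz]
  exact h1.mul h2

/-- A unit Laurent series in the shape `q ^ n * (unit power series)`. -/
theorem exists_eq_single_mul_of_coeff_isUnit (z : LaurentSeries R) (n : ℤ)
    (hlow : ∀ k < n, z.coeff k = 0) (hu : IsUnit (z.coeff n)) :
    ∃ p : PowerSeries R, IsUnit p ∧ PowerSeries.constantCoeff p = z.coeff n ∧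
      z = HahnSeries.single n (1 : R) * HahnSeries.ofPowerSeries ℤ R p := by
  refine ⟨PowerSeries.mk fun k => z.coeff (n + k), ?_, ?_, ?_⟩
  · rw [PowerSeries.isUnit_iff_constantCoeff, PowerSeries.constantCoeff_mk]
    simpa using hu
  · rw [PowerSeries.constantCoeff_mk]
    simp
  · ext m
    have hm : m = (m - n) + n := by ring
    rw [hm, HahnSeries.coeff_single_mul_add, one_mul]
    rcases lt_or_ge (m - n) 0 with h | h
    · rw [ofPowerSeries_coeff_of_neg _ h]
      exact hlow _ (by omega)
    · obtain ⟨a, ha⟩ := Int.eq_ofNat_of_zero_le h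
      rw [ha, HahnSeries.ofPowerSeries_apply_coeff, PowerSeries.coeff_mk]
      congr 1
      omega

/-- Local form of (Q5): over a local ring, a Laurent series with no coefficients below `n` whose
coefficient at `n` has nonzero residue is a unit of `R((q))`. -/
theorem isUnit_of_residue_coeff_ne_zero [IsLocalRing R] (z : LaurentSeries R) (n : ℤ)
    (hlow : ∀ k < n, z.coeff k = 0) (h : IsLocalRing.residue R (z.coeff n) ≠ 0) : IsUnit z := by
  refine isUnit_of_coeff_isUnit z n hlow ?_
  by_contra hu
  exact h ((IsLocalRing.residue_eq_zero_iff _).mpr ((IsLocalRing.mem_maximalIdeal _).mpr hu))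

end Units

/-! ## Valuation-subring forms (Prelude shape `coeffMap A.subtype`) -/

section ValuationSubring

variable {K : Type*} [Field K] [Algebra ℚ K] (A : ValuationSubring K)

/-- (Q3) for a valuation subring: every element of the modular function field over `K` is a
ratio of two Laurent series with coefficients in `A` (no discreteness needed here). -/
theorem exists_ratio_subtype_of_mem_laurentBaseChange {N : ℕ} {x : LaurentSeries K}
    (hx : x ∈ laurentBaseChange K (modularFunctionFieldFull N)) :
    ∃ z w : LaurentSeries A, w ≠ 0 ∧ coeffMap A.subtype w * x = coeffMap A.subtype z :=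
  exists_ratio_of_mem_laurentBaseChange (O := A) hx

variable [IsPrincipalIdealRing A]

/-- **Integral `q`-expansions, DVR form.** `A` a valuation subring of `K` which is a principal
ideal ring (a discrete valuation ring, or `K` itself).  An element of the modular function field
over `K` which is integral over `A((q))` has its `q`-expansion in `A((q))`. -/
theorem exists_coeffMap_subtype_eq_of_isIntegral {N : ℕ} {x : LaurentSeries K}
    (hx : x ∈ laurentBaseChange K (modularFunctionFieldFull N))
    (hint : IsIntegral (coeffMap A.subtype).range x) :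
    ∃ y : LaurentSeries A, coeffMap A.subtype y = x :=
  exists_coeffMap_eq_of_isIntegral (O := A) hx hint

/-- DVR form with integrality over a subring `T` of `A((q))`. -/
theorem exists_coeffMap_subtype_eq_of_isIntegral_subring {N : ℕ} {x : LaurentSeries K}
    (hx : x ∈ laurentBaseChange K (modularFunctionFieldFull N))
    (T : Subring (LaurentSeries K)) (hT : T ≤ (coeffMap A.subtype).range)
    (hint : IsIntegral T x) :
    ∃ y : LaurentSeries A, coeffMap A.subtype y = x :=
  exists_coeffMap_eq_of_isIntegral_subring (O := A) hx T hT hint

/-- DVR form with an explicit monic polynomial over `A((q))`. -/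
theorem exists_coeffMap_subtype_eq_of_monic {N : ℕ} {x : LaurentSeries K}
    (hx : x ∈ laurentBaseChange K (modularFunctionFieldFull N))
    (p : Polynomial (LaurentSeries A)) (hp : p.Monic)
    (hpx : p.eval₂ (coeffMap A.subtype) x = 0) :
    ∃ y : LaurentSeries A, coeffMap A.subtype y = x :=
  exists_coeffMap_eq_of_monic (O := A) hx p hp hpx

/-- DVR form of root closure: `x` in the modular function field over `K`, `x ^ m` with
`q`-expansion in `A((q))`, `m > 0`; then the `q`-expansion of `x` is in `A((q))`. -/
theorem exists_coeffMap_subtype_eq_of_pow {N : ℕ} {x : LaurentSeries K}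
    (hx : x ∈ laurentBaseChange K (modularFunctionFieldFull N)) {m : ℕ} (hm : 0 < m)
    (y : LaurentSeries A) (hy : x ^ m = coeffMap A.subtype y) :
    ∃ y' : LaurentSeries A, coeffMap A.subtype y' = x :=
  exists_coeffMap_eq_of_pow (O := A) hx hm y hy

end ValuationSubring

end Fermat.Agent.S18.helper8211

end
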