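import Fermat.Agent.S18.helper3054_Kummer
import Fermat.Agent.S18.helper3537_InputsPlaces
import Fermat.Agent.S18.helper8185_RamData
import Fermat.Agent.Lib.helper6879_ResidueQbar

/-!
# S18: the frozen statement from the Kummer field form ALONE

`helper3054.result_of_kf` derives the frozen statement S18 from two Props: the Kummer field form
`Stmt_KF N ℓ` and the characteristic-`ℓ` constants lemma `Stmt_ConstL N ℓ` (stated for every
place `A`, with no reduction datum).

Here the second Prop is removed: inside `Stmt_Core` the frozen hypothesis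
`h : ReductionInputsModL A N` is available, and under `h` the constants lemma on the special
fibre is already on main (`helper3537.constant_of_reductionInputs`, fed with the landed S24
facts "`j` is transcendental" and "`F_N` is finite over `ℚ̄(j)`"). The residue field of a
valuation subring of `ℚ̄` is algebraically closed (`Lib.helper6879.isAlgClosed_residueField`),
so also the constant `c` of the Kummer form can be dropped. Hence

* `core_of_kf_inputs   : Stmt_KF N ℓ  → Stmt_Core N ℓ`
* `result_of_kf_inputs : Stmt_KF N ℓ  → (frozen S18)`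
* `result_of_kf0       : Stmt_KF0 N ℓ → (frozen S18)`

so that the final `S18.lean` is `result_of_kf0 N (track theorem) …` and nothing else.
-/

set_option autoImplicit false
set_option synthInstance.maxHeartbeats 400000

noncomputable section

namespace Fermat.Agent.S18.helper888

open ModularCurve AlgebraicCurve HahnSeries IntermediateField
open Fermat.Agent.S18.helper3054

/-- The constants lemma on the special fibre, under the frozen hypothesis
`ReductionInputsModL A N`: a function of the characteristic-`ℓ` function field without zeros and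
poles is a constant. (No hypothesis on `ℓ` or `N` beyond the reduction datum.) -/
theorem constL_of_inputs (N : ℕ) [NeZero N] {A : ValuationSubring (AlgebraicClosure ℚ)}
    (h : ReductionInputsModL A N)
    (f : modularFunctionFieldFullC (IsLocalRing.ResidueField A) N)
    (hord : ∀ Q : Place (IsLocalRing.ResidueField A)
        (modularFunctionFieldFullC (IsLocalRing.ResidueField A) N), Q.ord f = 0) :
    ∃ c : IsLocalRing.ResidueField A,
      f = algebraMap (IsLocalRing.ResidueField A)
        (modularFunctionFieldFullC (IsLocalRing.ResidueField A) N) c := by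
  have := (Fermat.Agent.S18.helper8185.stmt_JFinrank N).1
  exact Fermat.Agent.S18.helper3537.constant_of_reductionInputs h
    (Fermat.Agent.S24.helper24.jBar N) (Fermat.Agent.S24.helper3176.transcendental_jBar N) f
    (fun Q => (hord Q).ge)

/-- The Kummer field form gives the core: the constants lemma is supplied by the frozen
hypothesis `ReductionInputsModL A N` available inside `Stmt_Core`. -/
theorem core_of_kf_inputs (N : ℕ) [NeZero N] (ℓ : ℕ) (hK : Stmt_KF N ℓ) : Stmt_Core N ℓ := by
  intro A hA h m hm a b D _hdeg hD w hw0 _hw hred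
  have hmne : m ≠ 0 := by
    rintro rfl
    exact hm (dvd_zero ℓ)
  have hm0 : (m : ℤ) ≠ 0 := by exact_mod_cast hmne
  -- the function `ā / (b̄ * w ^ m)` has trivial divisor
  set f : modularFunctionFieldFullC (IsLocalRing.ResidueField A) N :=
    a.red * (b.red * w ^ m)⁻¹ with hf
  have hbw : b.red * w ^ m ≠ 0 := mul_ne_zero b.red_ne_zero (pow_ne_zero m hw0)
  have hf0 : f ≠ 0 := mul_ne_zero a.red_ne_zero (inv_ne_zero hbw)
  have hford : ∀ Q : Place (IsLocalRing.ResidueField A)
      (modularFunctionFieldFullC (IsLocalRing.ResidueField A) N), Q.ord f = 0 := by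
    intro Q
    rw [hf, Q.ord_mul a.red_ne_zero (inv_ne_zero hbw), Q.ord_inv,
      Q.ord_mul b.red_ne_zero (pow_ne_zero m hw0), ord_pow]
    have := hred Q
    linarith
  obtain ⟨c, hc⟩ := constL_of_inputs N h f hford
  have hc0 : c ≠ 0 := by
    rintro rfl
    rw [map_zero] at hc
    exact hf0 hc
  have hared : a.red = algebraMap (IsLocalRing.ResidueField A)
      (modularFunctionFieldFullC (IsLocalRing.ResidueField A) N) c * w ^ m * b.red := by
    have hb0 := b.red_ne_zero
    have hwm : w ^ m ≠ 0 := pow_ne_zero m hw0
    rw [← hc, hf]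
    field_simp
  obtain ⟨V, c', hgen⟩ := hK A hA m hm a b (fun P => ⟨D P, (hD P).symm⟩) w c hw0 hc0 hared
  have hprod : algebraMap (AlgebraicClosure ℚ) (modularFunctionFieldBar N) c' * V ^ m ≠ 0 := by
    intro h0
    rw [h0, zero_mul] at hgen
    exact a.gen_ne_zero hgen
  have hc'0 : c' ≠ 0 := by
    rintro rfl
    rw [map_zero, zero_mul] at hprod
    exact hprod rfl
  have hV0 : V ≠ 0 := by
    rintro rfl
    rw [zero_pow hmne, mul_zero] at hprod
    exact hprod rfl
  refine ⟨V, hV0, fun P => ?_⟩
  have h1 := hD P
  rw [hgen, P.ord_mul hprod b.gen_ne_zero,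
    P.ord_mul (by simpa using hc'0) (pow_ne_zero m hV0), ord_algebraMap_eq_zero P hc'0,
    ord_pow] at h1
  have h2 : (m : ℤ) * D P = (m : ℤ) * P.ord V := by linarith
  exact mul_left_cancel₀ hm0 h2

/-- The frozen statement S18 from the Kummer field form alone. -/
theorem result_of_kf_inputs (N : ℕ) [NeZero N] {ℓ : ℕ} (hK : Stmt_KF N ℓ)
    (A : ValuationSubring (AlgebraicClosure ℚ)) (hA : A.LiesOverPrime ℓ)
    (h : ModularCurve.ReductionInputsModL A N) (m : ℕ) (hm : ¬ ℓ ∣ m) (z : ModularCurve.JZero N)
    (hmz : m • z = 0) (hz : ModularCurve.reductionModL A N z = 0) :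
    z = 0 :=
  result_of_core N (core_of_kf_inputs N ℓ hK) A hA h m hm z hmz hz

/-- `Stmt_KF0` (the `c = 1` form, the obligation of the track provers) implies `Stmt_KF`:
the residue field of a valuation subring of `ℚ̄` is algebraically closed. -/
theorem kf_of_kf0_qbar (N : ℕ) [NeZero N] (ℓ : ℕ) (h0 : Stmt_KF0 N ℓ) : Stmt_KF N ℓ :=
  kf_of_kf0 N ℓ (fun A _ => Fermat.Agent.Lib.helper6879.isAlgClosed_residueField A) h0

/-- **The frozen statement S18 from `Stmt_KF0 N ℓ` alone.** -/
theorem result_of_kf0 (N : ℕ) [NeZero N] {ℓ : ℕ} (hK0 : Stmt_KF0 N ℓ)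
    (A : ValuationSubring (AlgebraicClosure ℚ)) (hA : A.LiesOverPrime ℓ)
    (h : ModularCurve.ReductionInputsModL A N) (m : ℕ) (hm : ¬ ℓ ∣ m) (z : ModularCurve.JZero N)
    (hmz : m • z = 0) (hz : ModularCurve.reductionModL A N z = 0) :
    z = 0 :=
  result_of_kf_inputs N (kf_of_kf0_qbar N ℓ hK0) A hA h m hm z hmz hz

end Fermat.Agent.S18.helper888
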