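import Mathlib

set_option autoImplicit false

/-!
# Cartesian (orthonormal) bases over an arbitrary valuation ring

`A : ValuationSubring K` is ANY valuation ring (no discreteness, no completeness: e.g. a valuation
ring of `AlgebraicClosure ℚ`, whose value group is divisible).

* `exists_pivot`              : a nonzero finitely supported vector has an entry dividing all the
                                others in `A`.
* `exists_pivot_basis_finset` : maximal-pivot reduced echelon basis of a finitely generated subspace
                                of `ι →₀ K`, all entries in `A`.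
* `exists_pivot_family`       : the same inside any `K`-module `E`, relative to a family `e : ι → E`
                                whose span contains the finite-dimensional subspace `V`.
* `exists_orthonormal_basis`  : if `e` is linearly independent, `V` has a basis `b : Fin n → E`
                                (`n = finrank K V`) which is orthonormal for EVERY "ball" for which
                                `e` is orthonormal (closed unit ball, open unit ball, ball of any
                                radius ...).
* `inter_ball_eq_span`        : for such a basis, `V ∩ Λ = A`-span of `b` (a free `A`-module of rank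
                                `finrank K V`).
* `exists_bound_of_injective` : an injective linear map between lattices has a bounded inverse:
                                `φ x ∈ η • Λ'` implies `δ • x ∈ η • Λ` for a fixed `δ ≠ 0`.
-/

namespace Fermat.Agent.S18.helper9056

open Finset

variable {K : Type*} [Field K]

/-- A nonzero finitely supported vector has an entry which divides all the others inside `A`. -/
theorem exists_pivot (A : ValuationSubring K) {ι : Type*} (u : ι →₀ K) (hu : u ≠ 0) :
    ∃ j₀, u j₀ ≠ 0 ∧ ∀ j, u j / u j₀ ∈ A := by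
  classical
  obtain ⟨j₀, hj₀s, hj₀⟩ := Finset.exists_max_image u.support (fun j => A.valuation (u j))
    (Finsupp.support_nonempty_iff.mpr hu)
  have h0 : u j₀ ≠ 0 := Finsupp.mem_support_iff.mp hj₀s
  refine ⟨j₀, h0, fun j => ?_⟩
  by_cases hj : j ∈ u.support
  · rw [← A.valuation_le_one_iff, map_div₀]
    have hpos : 0 < A.valuation (u j₀) := by
      rw [pos_iff_ne_zero, ne_eq, map_eq_zero]
      exact h0
    exact (div_le_one₀ hpos).mpr (hj₀ j hj)
  · rw [Finsupp.notMem_support_iff.mp hj, zero_div]
    exact A.zero_mem

/-- **Maximal-pivot echelon basis.**  The span of a finite set `s` of vectors of `ι →₀ K` has a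
spanning family `b i`, `i ∈ t`, indexed by a finite set `t ⊆ ι` of pivot positions, in reduced
echelon form (`b i i' = δ_{i i'}` on `t`) and with ALL entries in the valuation ring `A`. -/
theorem exists_pivot_basis_finset (A : ValuationSubring K) {ι : Type*} [DecidableEq ι]
    (s : Finset (ι →₀ K)) :
    ∃ (t : Finset ι) (b : ι → ι →₀ K),
      (∀ i ∈ t, b i ∈ Submodule.span K (s : Set (ι →₀ K))) ∧
      (∀ i ∈ t, ∀ i' ∈ t, b i i' = if i = i' then 1 else 0) ∧
      (∀ i ∈ t, ∀ j, b i j ∈ A) ∧
      Submodule.span K (s : Set (ι →₀ K)) ≤ Submodule.span K (b '' (t : Set ι)) := by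
  classical
  induction s using Finset.induction_on with
  | empty => exact ⟨∅, fun _ => 0, by simp, by simp, by simp, by simp⟩
  | insert u s hus ih =>
    obtain ⟨t, b, hbV, hpiv, hint, hspan⟩ := ih
    have hsub : Submodule.span K (s : Set (ι →₀ K)) ≤
        Submodule.span K ((insert u s : Finset (ι →₀ K)) : Set (ι →₀ K)) :=
      Submodule.span_mono (by simp)
    have humem : u ∈ Submodule.span K ((insert u s : Finset (ι →₀ K)) : Set (ι →₀ K)) :=
      Submodule.subset_span (by simp)
    set u' : ι →₀ K := u - ∑ i ∈ t, u i • b i with hu'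
    have hu't : ∀ i' ∈ t, u' i' = 0 := by
      intro i' hi'
      simp only [hu', Finsupp.sub_apply, Finsupp.finsetSum_apply, Finsupp.smul_apply, smul_eq_mul]
      rw [Finset.sum_eq_single i']
      · rw [hpiv i' hi' i' hi']; simp
      · intro i hi hne
        rw [hpiv i hi i' hi', if_neg hne, mul_zero]
      · intro h; exact absurd hi' h
    have hu'mem : u' ∈ Submodule.span K ((insert u s : Finset (ι →₀ K)) : Set (ι →₀ K)) :=
      Submodule.sub_mem _ humem
        (Submodule.sum_mem _ fun i hi => Submodule.smul_mem _ _ (hsub (hbV i hi)))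
    by_cases h0 : u' = 0
    · refine ⟨t, b, fun i hi => hsub (hbV i hi), hpiv, hint, ?_⟩
      rw [Submodule.span_le]
      intro x hx
      rw [Finset.coe_insert, Set.mem_insert_iff] at hx
      rcases hx with rfl | hx
      · have hx' : x = ∑ i ∈ t, x i • b i := by
          have := h0
          rw [hu', sub_eq_zero] at this
          exact this
        rw [hx']
        exact Submodule.sum_mem _ fun i hi =>
          Submodule.smul_mem _ _ (Submodule.subset_span ⟨i, hi, rfl⟩)
      · exact hspan (Submodule.subset_span hx)
    · obtain ⟨j₀, hj₀, hdiv⟩ := exists_pivot A u' h0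
      have hj₀t : j₀ ∉ t := fun h => hj₀ (hu't j₀ h)
      set c : ι →₀ K := (u' j₀)⁻¹ • u' with hc
      have hcj₀ : c j₀ = 1 := by
        simp only [hc, Finsupp.smul_apply, smul_eq_mul]
        exact inv_mul_cancel₀ hj₀
      have hct : ∀ i' ∈ t, c i' = 0 := by
        intro i' hi'
        simp only [hc, Finsupp.smul_apply, smul_eq_mul, hu't i' hi', mul_zero]
      have hcA : ∀ j, c j ∈ A := by
        intro j
        have := hdiv j
        simp only [hc, Finsupp.smul_apply, smul_eq_mul]
        rwa [div_eq_inv_mul] at this
      have hcmem : c ∈ Submodule.span K ((insert u s : Finset (ι →₀ K)) : Set (ι →₀ K)) :=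
        Submodule.smul_mem _ _ hu'mem
      refine ⟨insert j₀ t, fun i => if i = j₀ then c else b i - b i j₀ • c, ?_, ?_, ?_, ?_⟩
      · intro i hi
        rw [Finset.mem_insert] at hi
        by_cases hij : i = j₀
        · simp only [hij, if_true]; exact hcmem
        · simp only [hij, if_false]
          have hit : i ∈ t := hi.resolve_left hij
          exact Submodule.sub_mem _ (hsub (hbV i hit)) (Submodule.smul_mem _ _ hcmem)
      · intro i hi i' hi'
        rw [Finset.mem_insert] at hi hi'
        by_cases hij : i = j₀
        · subst hij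
          simp only [if_true]
          by_cases hi'j : i' = i
          · subst hi'j; simp [hcj₀]
          · have hi't : i' ∈ t := hi'.resolve_left hi'j
            rw [hct i' hi't, if_neg (Ne.symm hi'j)]
        · have hit : i ∈ t := hi.resolve_left hij
          simp only [hij, if_false, Finsupp.sub_apply, Finsupp.smul_apply, smul_eq_mul]
          by_cases hi'j : i' = j₀
          · subst hi'j
            rw [hcj₀, mul_one, sub_self, if_neg hij]
          · have hi't : i' ∈ t := hi'.resolve_left hi'j
            rw [hct i' hi't, mul_zero, sub_zero, hpiv i hit i' hi't]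
      · intro i hi j
        rw [Finset.mem_insert] at hi
        by_cases hij : i = j₀
        · simp only [hij, if_true]; exact hcA j
        · have hit : i ∈ t := hi.resolve_left hij
          simp only [hij, if_false, Finsupp.sub_apply, Finsupp.smul_apply, smul_eq_mul]
          exact sub_mem (hint i hit j) (mul_mem (hint i hit j₀) (hcA j))
      · set b' : ι → ι →₀ K := fun i => if i = j₀ then c else b i - b i j₀ • c with hb'
        have hc' : c ∈ Submodule.span K (b' '' ((insert j₀ t : Finset ι) : Set ι)) := by
          refine Submodule.subset_span ⟨j₀, by simp, ?_⟩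
          simp [hb']
        have hbi : ∀ i ∈ t, b i ∈ Submodule.span K (b' '' ((insert j₀ t : Finset ι) : Set ι)) := by
          intro i hit
          have hij : i ≠ j₀ := fun h => hj₀t (h ▸ hit)
          have h1 : b' i ∈ Submodule.span K (b' '' ((insert j₀ t : Finset ι) : Set ι)) :=
            Submodule.subset_span ⟨i, by simp [hit], rfl⟩
          have h2 : b i = b' i + b i j₀ • c := by
            simp [hb', hij]
          rw [h2]
          exact Submodule.add_mem _ h1 (Submodule.smul_mem _ _ hc')
        rw [Submodule.span_le]
        intro x hx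
        rw [Finset.coe_insert, Set.mem_insert_iff] at hx
        rcases hx with rfl | hx
        · have hx' : x = u' + ∑ i ∈ t, x i • b i := by
            rw [hu']; abel
          have hu'c : u' = u' j₀ • c := by
            rw [hc, smul_smul, mul_inv_cancel₀ hj₀, one_smul]
          rw [SetLike.mem_coe, hx']
          refine Submodule.add_mem _ ?_ (Submodule.sum_mem _ fun i hi =>
            Submodule.smul_mem _ _ (hbi i hi))
          rw [hu'c]
          exact Submodule.smul_mem _ _ hc'
        · have hx1 := hspan (Submodule.subset_span hx)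
          have hle : Submodule.span K (b '' (t : Set ι)) ≤
              Submodule.span K (b' '' ((insert j₀ t : Finset ι) : Set ι)) := by
            rw [Submodule.span_le]
            rintro _ ⟨i, hi, rfl⟩
            exact hbi i hi
          exact hle hx1

variable {E : Type*} [AddCommGroup E] [Module K E] {ι : Type*}

/-- **Pivot family in an abstract space.**  `e : ι → E` any family, `V` a finitely generated
subspace of its span.  Then `V` is spanned by vectors `∑ j, M i j • e j`, `i ∈ t`, whose coordinate
vectors `M i : ι →₀ K` are in reduced echelon form with pivot set `t` and have all entries in `A`. -/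
theorem exists_pivot_family [DecidableEq ι] (A : ValuationSubring K) (e : ι → E)
    (V : Submodule K E) (hVfg : V.FG)
    (hV : V ≤ Submodule.span K (Set.range e)) :
    ∃ (t : Finset ι) (M : ι → ι →₀ K),
      (∀ i ∈ t, Finsupp.linearCombination K e (M i) ∈ V) ∧
      (∀ i ∈ t, ∀ i' ∈ t, M i i' = if i = i' then 1 else 0) ∧
      (∀ i ∈ t, ∀ j, M i j ∈ A) ∧
      V ≤ Submodule.span K ((fun i => Finsupp.linearCombination K e (M i)) '' (t : Set ι)) := by
  classical
  obtain ⟨s, hs⟩ := hVfg
  have hex : ∀ x : E, ∃ c : ι →₀ K, x ∈ V → Finsupp.linearCombination K e c = x := by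
    intro x
    by_cases hx : x ∈ V
    · obtain ⟨c, hc⟩ := (Finsupp.mem_span_range_iff_exists_finsupp).mp (hV hx)
      exact ⟨c, fun _ => by rw [Finsupp.linearCombination_apply]; exact hc⟩
    · exact ⟨0, fun h => absurd h hx⟩
  choose cx hcx using hex
  obtain ⟨t, M, h1, h2, h3, h4⟩ := exists_pivot_basis_finset A (s.image cx)
  have hmap : Submodule.map (Finsupp.linearCombination K e)
      (Submodule.span K ((s.image cx : Finset (ι →₀ K)) : Set (ι →₀ K))) = V := by
    rw [Submodule.map_span, ← hs]
    congr 1
    ext x
    simp only [Finset.coe_image, Set.mem_image, Finset.mem_coe, exists_exists_and_eq_and]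
    constructor
    · rintro ⟨y, hy, rfl⟩
      rw [hcx y (hs ▸ Submodule.subset_span hy)]
      exact hy
    · intro hx
      exact ⟨x, hx, hcx x (hs ▸ Submodule.subset_span hx)⟩
  refine ⟨t, M, fun i hi => ?_, h2, h3, ?_⟩
  · rw [← hmap]
    exact Submodule.mem_map_of_mem (h1 i hi)
  · rw [← hmap]
    refine (Submodule.map_mono h4).trans ?_
    rw [Submodule.map_span]
    refine Submodule.span_mono ?_
    rintro _ ⟨_, ⟨i, hi, rfl⟩, rfl⟩
    exact ⟨i, hi, rfl⟩

/-- A family which is orthonormal for some ball over a NONTRIVIAL valuation ring is linearly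
independent. -/
theorem linearIndependent_of_orthonormal (A : ValuationSubring K) (hA : A ≠ ⊤) (Λ : Set E)
    (e : ι → E) (horth : ∀ c : ι →₀ K, Finsupp.linearCombination K e c ∈ Λ ↔ ∀ i, c i ∈ A) :
    LinearIndependent K e := by
  rw [linearIndependent_iff]
  intro l hl
  by_contra hne
  obtain ⟨i₀, hi₀⟩ : ∃ i, l i ≠ 0 := by
    by_contra h
    exact hne (Finsupp.ext fun i => not_not.mp fun hi => h ⟨i, hi⟩)
  obtain ⟨x, hx⟩ : ∃ x : K, x ∉ A := by
    by_contra h
    exact hA (eq_top_iff.mpr fun x _ => not_not.mp fun hx => h ⟨x, hx⟩)
  have h0 : Finsupp.linearCombination K e ((x / l i₀) • l) ∈ Λ := by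
    rw [map_smul, hl, smul_zero]
    have h00 := (horth 0).mpr (fun i => by rw [Finsupp.zero_apply]; exact A.zero_mem)
    rwa [map_zero] at h00
  have h1 := (horth _).mp h0 i₀
  rw [Finsupp.smul_apply, smul_eq_mul, div_mul_cancel₀ _ hi₀] at h1
  exact hx h1

/-- **Orthonormal basis of a finite-dimensional subspace (cartesian property).**
`e : ι → E` a linearly independent family, `V` a finite-dimensional subspace of its span.  Then `V`
has a basis `b : Fin (finrank K V) → E` which is orthonormal for EVERY ball `Λ ⊆ E` of "radius"
`S` (an `A`-submodule of `K`: `A` itself for the closed unit ball, the maximal ideal for the open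
unit ball, ...) for which `e` is orthonormal. -/
theorem exists_orthonormal_basis (A : ValuationSubring K) (e : ι → E) (he : LinearIndependent K e)
    (V : Submodule K E) [FiniteDimensional K V] (hV : V ≤ Submodule.span K (Set.range e)) :
    ∃ b : Fin (Module.finrank K V) → E,
      LinearIndependent K b ∧ Submodule.span K (Set.range b) = V ∧
      ∀ (S : Submodule A K) (Λ : Set E),
        (∀ c : ι →₀ K, Finsupp.linearCombination K e c ∈ Λ ↔ ∀ i, c i ∈ S) →
        ∀ c : Fin (Module.finrank K V) → K, (∑ i, c i • b i ∈ Λ ↔ ∀ i, c i ∈ S) := by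
  classical
  obtain ⟨t, M, h1, h2, h3, h4⟩ := exists_pivot_family A e V (Module.Finite.iff_fg.mp inferInstance) hV
  set B : ↥t → E := fun i => Finsupp.linearCombination K e (M i) with hB
  have hsum : ∀ g : ↥t → K, ∑ i, g i • B i =
      Finsupp.linearCombination K e (∑ i, g i • M i) := by
    intro g
    rw [map_sum]
    exact Finset.sum_congr rfl fun i _ => by rw [map_smul]
  have hcoord : ∀ (g : ↥t → K) (i' : ↥t), (∑ i, g i • M i : ι →₀ K) i' = g i' := by
    intro g i'
    rw [Finsupp.finsetSum_apply, Finset.sum_eq_single i']
    · rw [Finsupp.smul_apply, h2 i' i'.2 i' i'.2, if_pos rfl, smul_eq_mul, mul_one]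
    · intro i _ hne
      have hne' : (i : ι) ≠ i' := fun h => hne (Subtype.ext h)
      rw [Finsupp.smul_apply, h2 i i.2 i' i'.2, if_neg hne', smul_zero]
    · intro h; exact absurd (Finset.mem_univ _) h
  have hli : LinearIndependent K B := by
    rw [Fintype.linearIndependent_iff]
    intro g hg i'
    rw [hsum] at hg
    have h0 := linearIndependent_iff.mp he _ hg
    rw [← hcoord g i', h0, Finsupp.zero_apply]
  have hspan : Submodule.span K (Set.range B) = V := by
    apply le_antisymm
    · rw [Submodule.span_le]
      rintro _ ⟨i, rfl⟩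
      exact h1 i i.2
    · refine h4.trans (Submodule.span_mono ?_)
      rintro _ ⟨i, hi, rfl⟩
      exact ⟨⟨i, hi⟩, rfl⟩
  have hcard : Fintype.card ↥t = Module.finrank K V := by
    rw [← finrank_span_eq_card hli, hspan]
  have horthB : ∀ (S : Submodule A K) (Λ : Set E),
      (∀ c : ι →₀ K, Finsupp.linearCombination K e c ∈ Λ ↔ ∀ i, c i ∈ S) →
      ∀ g : ↥t → K, (∑ i, g i • B i ∈ Λ ↔ ∀ i, g i ∈ S) := by
    intro S Λ hΛ g
    rw [hsum, hΛ]
    constructor
    · intro h i'
      rw [← hcoord g i']
      exact h i'
    · intro h j
      rw [Finsupp.finsetSum_apply]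
      refine Submodule.sum_mem _ fun i _ => ?_
      rw [Finsupp.smul_apply, smul_eq_mul, mul_comm]
      exact S.smul_mem (⟨M i j, h3 i i.2 j⟩ : A) (h i)
  set eq : Fin (Module.finrank K V) ≃ ↥t := (Fintype.equivFinOfCardEq hcard).symm with heq
  refine ⟨B ∘ eq, hli.comp eq eq.injective, ?_, ?_⟩
  · rw [eq.surjective.range_comp, hspan]
  · intro S Λ hΛ c
    have hre : ∑ i, c i • (B ∘ eq) i = ∑ i', (c ∘ eq.symm) i' • B i' := by
      refine Fintype.sum_equiv eq _ _ fun i => ?_
      simp
    rw [hre, horthB S Λ hΛ]
    constructor
    · intro h i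
      have := h (eq i)
      simpa using this
    · intro h i'
      exact h _

/-- For a basis `b` of `V` orthonormal for the `A`-module ball `Λ`, the lattice `V ∩ Λ` is the
`A`-span of `b` (hence free of rank `n` and finitely generated, although `A` is not noetherian). -/
theorem inter_ball_eq_span (A : ValuationSubring K) [Module A E] [IsScalarTower A K E]
    (Λ : Submodule A E) (V : Submodule K E) {n : ℕ} (b : Fin n → E)
    (hb : Submodule.span K (Set.range b) = V)
    (horth : ∀ c : Fin n → K, (∑ i, c i • b i ∈ Λ ↔ ∀ i, c i ∈ A)) :
    V.restrictScalars A ⊓ Λ = Submodule.span A (Set.range b) := by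
  classical
  apply le_antisymm
  · rintro x ⟨hxV, hxΛ⟩
    rw [SetLike.mem_coe, Submodule.restrictScalars_mem, ← hb] at hxV
    obtain ⟨c, rfl⟩ := (Submodule.mem_span_range_iff_exists_fun K).mp hxV
    have hc := (horth c).mp hxΛ
    refine Submodule.sum_mem _ fun i _ => ?_
    have : c i • b i = (⟨c i, hc i⟩ : A) • b i := by
      rw [← algebraMap_smul K (⟨c i, hc i⟩ : A) (b i)]
      rfl
    rw [this]
    exact Submodule.smul_mem _ _ (Submodule.subset_span ⟨i, rfl⟩)
  · rw [Submodule.span_le]
    rintro _ ⟨i, rfl⟩
    refine ⟨?_, ?_⟩
    · rw [SetLike.mem_coe, Submodule.restrictScalars_mem, ← hb]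
      exact Submodule.subset_span ⟨i, rfl⟩
    · have h := (horth (Pi.single i 1)).mpr (fun j => by
        by_cases hj : j = i
        · subst hj; rw [Pi.single_eq_same]; exact A.one_mem
        · rw [Pi.single_eq_of_ne hj]; exact A.zero_mem)
      rw [Finset.sum_eq_single i] at h
      · rwa [Pi.single_eq_same, one_smul] at h
      · intro j _ hj
        rw [Pi.single_eq_of_ne hj, zero_smul]
      · intro h; exact absurd (Finset.mem_univ _) h

/-- The closed unit ball of `K`, as an `A`-submodule. -/
def closedBall (A : ValuationSubring K) : Submodule A K where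
  carrier := {x | x ∈ A}
  add_mem' := fun ha hb => A.add_mem _ _ ha hb
  zero_mem' := A.zero_mem
  smul_mem' := fun a _ hx => A.mul_mem _ _ a.2 hx

@[simp]
theorem mem_closedBall (A : ValuationSubring K) (x : K) : x ∈ closedBall A ↔ x ∈ A := Iff.rfl

/-- The open unit ball of `K`, as an `A`-submodule. -/
def openBall (A : ValuationSubring K) : Submodule A K where
  carrier := {x | A.valuation x < 1}
  add_mem' := fun {a b} ha hb => lt_of_le_of_lt (A.valuation.map_add a b) (max_lt ha hb)
  zero_mem' := by
    show A.valuation 0 < 1
    rw [map_zero]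
    exact zero_lt_one
  smul_mem' := fun a x hx => by
    show A.valuation ((a : K) * x) < 1
    rw [map_mul]
    exact (mul_le_of_le_one_left' (A.valuation_le_one a)).trans_lt hx

@[simp]
theorem mem_openBall (A : ValuationSubring K) (x : K) : x ∈ openBall A ↔ A.valuation x < 1 :=
  Iff.rfl

/-- **Cartesian property, closed unit ball.** -/
theorem exists_orthonormal_basis_closed (A : ValuationSubring K) (Λ : Set E) (e : ι → E)
    (he : LinearIndependent K e)
    (horth : ∀ c : ι →₀ K, Finsupp.linearCombination K e c ∈ Λ ↔ ∀ i, c i ∈ A)
    (V : Submodule K E) [FiniteDimensional K V] (hV : V ≤ Submodule.span K (Set.range e)) :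
    ∃ b : Fin (Module.finrank K V) → E,
      LinearIndependent K b ∧ Submodule.span K (Set.range b) = V ∧
      ∀ c : Fin (Module.finrank K V) → K, (∑ i, c i • b i ∈ Λ ↔ ∀ i, c i ∈ A) := by
  obtain ⟨b, hli, hsp, h⟩ := exists_orthonormal_basis A e he V hV
  exact ⟨b, hli, hsp, h (closedBall A) Λ horth⟩

/-- **Cartesian property, closed and open unit balls simultaneously** (this is what gives
`dim_k (reduction of V) = dim_K V`: the reductions of the `b i` are a basis of the reduction). -/
theorem exists_orthonormal_basis_closed_open (A : ValuationSubring K) (Λ Λ₀ : Set E) (e : ι → E)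
    (he : LinearIndependent K e)
    (horth : ∀ c : ι →₀ K, Finsupp.linearCombination K e c ∈ Λ ↔ ∀ i, c i ∈ A)
    (horth₀ : ∀ c : ι →₀ K, Finsupp.linearCombination K e c ∈ Λ₀ ↔ ∀ i, A.valuation (c i) < 1)
    (V : Submodule K E) [FiniteDimensional K V] (hV : V ≤ Submodule.span K (Set.range e)) :
    ∃ b : Fin (Module.finrank K V) → E,
      LinearIndependent K b ∧ Submodule.span K (Set.range b) = V ∧
      (∀ c : Fin (Module.finrank K V) → K, (∑ i, c i • b i ∈ Λ ↔ ∀ i, c i ∈ A)) ∧
      (∀ c : Fin (Module.finrank K V) → K,
        (∑ i, c i • b i ∈ Λ₀ ↔ ∀ i, A.valuation (c i) < 1)) := by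
  obtain ⟨b, hli, hsp, h⟩ := exists_orthonormal_basis A e he V hV
  exact ⟨b, hli, hsp, h (closedBall A) Λ horth, h (openBall A) Λ₀ horth₀⟩

/-- **The unit ball of a finite-dimensional subspace is a finitely generated `A`-module**
(`A` any valuation ring), as soon as the subspace lies in the span of an orthonormal family. -/
theorem inter_ball_fg (A : ValuationSubring K) [Module A E] [IsScalarTower A K E]
    (Λ : Submodule A E) (e : ι → E) (he : LinearIndependent K e)
    (horth : ∀ c : ι →₀ K, Finsupp.linearCombination K e c ∈ Λ ↔ ∀ i, c i ∈ A)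
    (V : Submodule K E) [FiniteDimensional K V] (hV : V ≤ Submodule.span K (Set.range e)) :
    (V.restrictScalars A ⊓ Λ).FG := by
  obtain ⟨b, -, hsp, h⟩ := exists_orthonormal_basis_closed A (Λ : Set E) e he horth V hV
  rw [inter_ball_eq_span A Λ V b hsp h]
  exact Submodule.fg_span (Set.finite_range b)

end Fermat.Agent.S18.helper9056
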