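/-
S18 — abstract ONE-STEP Kummer lemma (helper9278).

Setting: fields `L ⊆ F`, a valuation `v` on `F` (any rank, any value group), `L`-subspaces of `F`.
A finite family `b` of `F` is *residually independent* (`ResIndep`) if all `v (b i) ≤ 1` and
`v (∑ c i • b i) < 1` forces all `v (c i) < 1` (i.e. the reductions of the `b i` are linearly
independent over the residue field of `L`).  A subspace is *cartesian* (`IsCart`) if it is spanned
by such a family.

Main result `kummer_one_step`: see the statement at the end of the file.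
Mathlib only.
-/
import Mathlib

set_option autoImplicit false

namespace Fermat.Agent.S18.helper9278

open Module

universe uL uF uΓ

section Defs

variable (L : Type uL) {F : Type uF} {Γ₀ : Type uΓ} [Field L] [Field F] [Algebra L F]
  [LinearOrderedCommGroupWithZero Γ₀] (v : Valuation F Γ₀)

/-- A finite family of `F` is residually independent over `L` for the valuation `v`. -/
def ResIndep {ι : Type*} [Fintype ι] (b : ι → F) : Prop :=
  (∀ i, v (b i) ≤ 1) ∧
    ∀ c : ι → L, v (∑ i, c i • b i) < 1 → ∀ i, v (algebraMap L F (c i)) < 1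

/-- An `L`-subspace of `F` is cartesian if it is spanned by a residually independent family. -/
def IsCart (U : Submodule L F) : Prop :=
  ∃ (n : ℕ) (b : Fin n → F), ResIndep L v b ∧ Submodule.span L (Set.range b) = U

end Defs

section Basics

variable {L : Type uL} {F : Type uF} {Γ₀ : Type uΓ} [Field L] [Field F] [Algebra L F]
  [LinearOrderedCommGroupWithZero Γ₀] {v : Valuation F Γ₀}

theorem val_smul (c : L) (x : F) : v (c • x) = v (algebraMap L F c) * v x := by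
  rw [Algebra.smul_def, map_mul]

theorem lt_one_mul_le {x y : Γ₀} (hx : x < 1) (hy : y ≤ 1) : x * y < 1 :=
  lt_of_le_of_lt (mul_le_mul' le_rfl hy) (by simpa using hx)

theorem val_sub_lt {x y : F} {g : Γ₀} (hx : v x < g) (hy : v y < g) : v (x - y) < g := by
  rw [sub_eq_add_neg]
  exact v.map_add_lt hx (by rwa [Valuation.map_neg])

theorem val_sub_le {x y : F} {g : Γ₀} (hx : v x ≤ g) (hy : v y ≤ g) : v (x - y) ≤ g := by
  rw [sub_eq_add_neg]
  exact v.map_add_le hx (by rwa [Valuation.map_neg])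

theorem val_sum_smul_le {ι : Type*} [Fintype ι] {b : ι → F} (hb : ∀ i, v (b i) ≤ 1) (c : ι → L)
    (hc : ∀ i, v (algebraMap L F (c i)) ≤ 1) : v (∑ i, c i • b i) ≤ 1 :=
  v.map_sum_le fun i _ => by rw [val_smul]; exact mul_le_one' (hc i) (hb i)

theorem val_sum_smul_lt {ι : Type*} [Fintype ι] {b : ι → F} (hb : ∀ i, v (b i) ≤ 1) (c : ι → L)
    (hc : ∀ i, v (algebraMap L F (c i)) < 1) : v (∑ i, c i • b i) < 1 :=
  v.map_sum_lt one_ne_zero fun i _ => by rw [val_smul]; exact lt_one_mul_le (hc i) (hb i)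

theorem sum_inv_mul_smul {ι : Type*} [Fintype ι] (b : ι → F) (c : ι → L) (t : L) :
    ∑ j, (t * c j) • b j = t • ∑ j, c j • b j := by
  rw [Finset.smul_sum]
  exact Finset.sum_congr rfl fun j _ => mul_smul _ _ _

theorem ResIndep.reindex {ι κ : Type*} [Fintype ι] [Fintype κ] {b : ι → F}
    (h : ResIndep L v b) (e : κ ≃ ι) : ResIndep L v (b ∘ e) := by
  refine ⟨fun i => h.1 (e i), fun c hc i => ?_⟩
  have h2 := h.2 (c ∘ e.symm) ?_ (e i)
  · simpa using h2
  · have : ∑ i, (c ∘ e.symm) i • b i = ∑ j, c j • (b ∘ e) j := by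
      rw [← Equiv.sum_comp e]
      simp
    rwa [this]

theorem ResIndep.coeff_lt {ι : Type*} [Fintype ι] {b : ι → F} (h : ResIndep L v b) (c : ι → L)
    (hc : v (∑ i, c i • b i) < 1) (i : ι) : v (algebraMap L F (c i)) < 1 :=
  h.2 c hc i

theorem ResIndep.coeff_le {ι : Type*} [Fintype ι] {b : ι → F} (h : ResIndep L v b) (c : ι → L)
    (hc : v (∑ i, c i • b i) ≤ 1) (i : ι) : v (algebraMap L F (c i)) ≤ 1 := by
  by_contra hi
  push Not at hi
  obtain ⟨i₀, -, hi₀⟩ := Finset.exists_max_image Finset.univ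
    (fun i => v (algebraMap L F (c i))) ⟨i, Finset.mem_univ _⟩
  have h1 : 1 < v (algebraMap L F (c i₀)) := hi.trans_le (hi₀ i (Finset.mem_univ _))
  have hc0 : c i₀ ≠ 0 := by
    rintro h0
    rw [h0, map_zero, map_zero] at h1
    exact not_lt_zero h1
  have key := h.2 (fun j => (c i₀)⁻¹ * c j) ?_ i₀
  · simp only [inv_mul_cancel₀ hc0, map_one] at key
    exact lt_irrefl _ key
  · rw [sum_inv_mul_smul, val_smul, map_inv₀, map_inv₀]
    have hx0 : 0 < v (algebraMap L F (c i₀)) := lt_trans zero_lt_one h1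
    rw [inv_mul_lt_iff₀ hx0, mul_one]
    exact hc.trans_lt h1

theorem ResIndep.linearIndependent {ι : Type*} [Fintype ι] {b : ι → F} (h : ResIndep L v b) :
    LinearIndependent L b := by
  rw [Fintype.linearIndependent_iff]
  intro c hc i
  by_contra hi
  have key := h.2 (fun j => (c i)⁻¹ * c j) ?_ i
  · simp only [inv_mul_cancel₀ hi, map_one] at key
    exact lt_irrefl _ key
  · rw [sum_inv_mul_smul, hc, smul_zero, map_zero]
    exact zero_lt_one

/-- It suffices to test residual independence on coefficients of the unit ball. -/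
theorem resIndep_of_ball {ι : Type*} [Fintype ι] {b : ι → F} (hb : ∀ i, v (b i) ≤ 1)
    (h : ∀ c : ι → L, (∀ i, v (algebraMap L F (c i)) ≤ 1) → v (∑ i, c i • b i) < 1 →
      ∀ i, v (algebraMap L F (c i)) < 1) : ResIndep L v b := by
  refine ⟨hb, fun c hc i => ?_⟩
  obtain ⟨i₀, -, hi₀⟩ := Finset.exists_max_image Finset.univ
    (fun i => v (algebraMap L F (c i))) ⟨i, Finset.mem_univ _⟩
  by_cases h1 : v (algebraMap L F (c i₀)) ≤ 1
  · exact h c (fun j => (hi₀ j (Finset.mem_univ _)).trans h1) hc i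
  · exfalso
    push Not at h1
    have hx0 : 0 < v (algebraMap L F (c i₀)) := lt_trans zero_lt_one h1
    have hc0 : c i₀ ≠ 0 := by
      rintro h0
      rw [h0, map_zero, map_zero] at h1
      exact not_lt_zero h1
    have key := h (fun j => (c i₀)⁻¹ * c j) ?_ ?_ i₀
    · simp only [inv_mul_cancel₀ hc0, map_one] at key
      exact lt_irrefl _ key
    · intro j
      rw [map_mul, map_mul, map_inv₀, map_inv₀, inv_mul_le_iff₀ hx0, mul_one]
      exact hi₀ j (Finset.mem_univ _)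
    · rw [sum_inv_mul_smul, val_smul, map_inv₀, map_inv₀, inv_mul_lt_iff₀ hx0, mul_one]
      exact hc.trans h1

theorem ResIndep.exists_repr {ι : Type*} [Fintype ι] {b : ι → F} {x : F}
    (hx : x ∈ Submodule.span L (Set.range b)) : ∃ c : ι → L, ∑ i, c i • b i = x :=
  (Submodule.mem_span_range_iff_exists_fun L).mp hx

theorem ResIndep.exists_repr_le {ι : Type*} [Fintype ι] {b : ι → F} (h : ResIndep L v b) {x : F}
    (hx : x ∈ Submodule.span L (Set.range b)) (hx1 : v x ≤ 1) :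
    ∃ c : ι → L, (∀ i, v (algebraMap L F (c i)) ≤ 1) ∧ ∑ i, c i • b i = x := by
  obtain ⟨c, rfl⟩ := (Submodule.mem_span_range_iff_exists_fun L).mp hx
  exact ⟨c, h.coeff_le c hx1, rfl⟩

theorem ResIndep.exists_repr_lt {ι : Type*} [Fintype ι] {b : ι → F} (h : ResIndep L v b) {x : F}
    (hx : x ∈ Submodule.span L (Set.range b)) (hx1 : v x < 1) :
    ∃ c : ι → L, (∀ i, v (algebraMap L F (c i)) < 1) ∧ ∑ i, c i • b i = x := by
  obtain ⟨c, rfl⟩ := (Submodule.mem_span_range_iff_exists_fun L).mp hx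
  exact ⟨c, h.coeff_lt c hx1, rfl⟩

theorem sum_smul_mem_span {ι : Type*} [Fintype ι] (b : ι → F) (c : ι → L) :
    ∑ i, c i • b i ∈ Submodule.span L (Set.range b) :=
  Submodule.sum_mem _ fun i _ => Submodule.smul_mem _ _ (Submodule.subset_span ⟨i, rfl⟩)

theorem ResIndep.inl {ι κ : Type*} [Fintype ι] [Fintype κ] {g : ι → F} {h : κ → F}
    (H : ResIndep L v (Sum.elim g h)) : ResIndep L v g := by
  refine ⟨fun i => H.1 (Sum.inl i), fun c hc i => ?_⟩
  have h2 := H.2 (Sum.elim c 0) ?_ (Sum.inl i)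
  · simpa using h2
  · rw [Fintype.sum_sum_type]
    simpa using hc

theorem ResIndep.inr {ι κ : Type*} [Fintype ι] [Fintype κ] {g : ι → F} {h : κ → F}
    (H : ResIndep L v (Sum.elim g h)) : ResIndep L v h := by
  refine ⟨fun i => H.1 (Sum.inr i), fun c hc i => ?_⟩
  have h2 := H.2 (Sum.elim 0 c) ?_ (Sum.inr i)
  · simpa using h2
  · rw [Fintype.sum_sum_type]
    simpa using hc

/-- Two residually independent families that are residually disjoint glue to one. -/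
theorem ResIndep.sum_elim {ι κ : Type*} [Fintype ι] [Fintype κ] {g : ι → F} {h : κ → F}
    (hg : ResIndep L v g) (hh : ResIndep L v h)
    (hd : ∀ x ∈ Submodule.span L (Set.range g), ∀ z ∈ Submodule.span L (Set.range h),
      v x ≤ 1 → v z ≤ 1 → v (x + z) < 1 → v x < 1) :
    ResIndep L v (Sum.elim g h) := by
  apply resIndep_of_ball
  · rintro (i | j)
    · exact hg.1 i
    · exact hh.1 j
  · intro c hc hsum
    rw [Fintype.sum_sum_type] at hsum
    simp only [Sum.elim_inl, Sum.elim_inr] at hsum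
    have hx1 : v (∑ i, c (Sum.inl i) • g i) ≤ 1 := val_sum_smul_le hg.1 _ fun i => hc _
    have hz1 : v (∑ j, c (Sum.inr j) • h j) ≤ 1 := val_sum_smul_le hh.1 _ fun i => hc _
    have hx : v (∑ i, c (Sum.inl i) • g i) < 1 :=
      hd _ (sum_smul_mem_span g _) _ (sum_smul_mem_span h _) hx1 hz1 hsum
    have hz : v (∑ j, c (Sum.inr j) • h j) < 1 := by
      have e : ∑ j, c (Sum.inr j) • h j =
          (∑ i, c (Sum.inl i) • g i + ∑ j, c (Sum.inr j) • h j) - ∑ i, c (Sum.inl i) • g i := by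
        ring
      rw [e]
      exact val_sub_lt hsum hx
    rintro (i | j)
    · exact hg.2 _ hx i
    · exact hh.2 _ hz j

/-- Exchange step: a residually independent family inside a cartesian space which does not span it
can be enlarged by one of the basis vectors. -/
theorem ResIndep.exists_snoc {ι κ : Type*} [Fintype ι] [Fintype κ] {b : ι → F} {g : κ → F}
    (hb : ResIndep L v b) (hg : ResIndep L v g)
    (hgb : ∀ j, g j ∈ Submodule.span L (Set.range b))
    (hne : ¬ Submodule.span L (Set.range b) ≤ Submodule.span L (Set.range g)) :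
    ∃ i, ResIndep L v (Sum.elim g (fun _ : Unit => b i)) := by
  classical
  obtain ⟨i₁, hi₁⟩ : ∃ i, b i ∉ Submodule.span L (Set.range g) := by
    by_contra hall
    push Not at hall
    exact hne (Submodule.span_le.mpr (by rintro _ ⟨i, rfl⟩; exact hall i))
  obtain ⟨f, hf1, hf0⟩ := Submodule.exists_dual_map_eq_bot_of_notMem hi₁ inferInstance
  have hfg : ∀ x ∈ Submodule.span L (Set.range g), f x = 0 := by
    intro x hx
    have h3 : f x ∈ Submodule.map f (Submodule.span L (Set.range g)) :=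
      Submodule.mem_map_of_mem hx
    rw [hf0, Submodule.mem_bot] at h3
    exact h3
  obtain ⟨i, -, hi⟩ := Finset.exists_max_image Finset.univ
    (fun i => v (algebraMap L F (f (b i)))) ⟨i₁, Finset.mem_univ _⟩
  have hpos : 0 < v (algebraMap L F (f (b i))) := by
    have h1 : v (algebraMap L F (f (b i₁))) ≠ 0 := by
      rw [Valuation.ne_zero_iff]
      simpa using hf1
    exact lt_of_lt_of_le (zero_lt_iff.mpr h1) (hi i₁ (Finset.mem_univ _))
  have key : ∀ x ∈ Submodule.span L (Set.range b), v x < 1 →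
      v (algebraMap L F (f x)) < v (algebraMap L F (f (b i))) := by
    intro x hx hx1
    obtain ⟨c, hc, rfl⟩ := hb.exists_repr_lt hx hx1
    rw [map_sum, map_sum]
    apply v.map_sum_lt hpos.ne'
    intro j _
    rw [map_smul, smul_eq_mul, map_mul, map_mul]
    calc v (algebraMap L F (c j)) * v (algebraMap L F (f (b j)))
        ≤ v (algebraMap L F (c j)) * v (algebraMap L F (f (b i))) :=
          mul_le_mul' le_rfl (hi j (Finset.mem_univ _))
      _ < v (algebraMap L F (f (b i))) := mul_lt_of_lt_one_left hpos (hc j)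
  refine ⟨i, ?_, ?_⟩
  · rintro (j | _)
    · exact hg.1 j
    · exact hb.1 i
  · intro c hc
    rw [Fintype.sum_sum_type] at hc
    simp only [Sum.elim_inl, Sum.elim_inr, Finset.univ_unique, Finset.sum_singleton] at hc
    have hxg : ∑ j, c (Sum.inl j) • g j ∈ Submodule.span L (Set.range g) := sum_smul_mem_span g _
    have hxb : ∑ j, c (Sum.inl j) • g j + c (Sum.inr default) • b i ∈
        Submodule.span L (Set.range b) :=
      Submodule.add_mem _ (Submodule.sum_mem _ fun j _ => Submodule.smul_mem _ _ (hgb j))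
        (Submodule.smul_mem _ _ (Submodule.subset_span ⟨i, rfl⟩))
    have h1 := key _ hxb hc
    rw [map_add, hfg _ hxg, zero_add, map_smul, smul_eq_mul, map_mul, map_mul] at h1
    have hci : v (algebraMap L F (c (Sum.inr default))) < 1 := by
      by_contra hge
      push Not at hge
      exact absurd h1 (not_lt.mpr (le_mul_of_one_le_left' hge))
    have hx1 : v (∑ j, c (Sum.inl j) • g j) < 1 := by
      have e : ∑ j, c (Sum.inl j) • g j =
          (∑ j, c (Sum.inl j) • g j + c (Sum.inr default) • b i) - c (Sum.inr default) • b i := by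
        ring
      rw [e]
      refine val_sub_lt hc ?_
      rw [val_smul]
      exact lt_one_mul_le hci (hb.1 i)
    rintro (j | u)
    · exact hg.2 _ hx1 j
    · exact hci

theorem span_range_sum_elim {ι κ : Type*} (g : ι → F) (h : κ → F) :
    Submodule.span L (Set.range (Sum.elim g h)) =
      Submodule.span L (Set.range g) ⊔ Submodule.span L (Set.range h) := by
  rw [Set.Sum.elim_range, Submodule.span_union]

theorem finrank_span_resIndep {ι : Type*} [Fintype ι] {b : ι → F} (hb : ResIndep L v b) :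
    finrank L (Submodule.span L (Set.range b)) = Fintype.card ι :=
  finrank_span_eq_card hb.linearIndependent

theorem exists_extend_aux {ι : Type*} [Fintype ι] {b : ι → F} (hb : ResIndep L v b) :
    ∀ (d : ℕ) {κ : Type} [Fintype κ] (g : κ → F), ResIndep L v g →
      (∀ j, g j ∈ Submodule.span L (Set.range b)) → Fintype.card ι ≤ Fintype.card κ + d →
      ∃ (κ' : Type) (_ : Fintype κ') (h : κ' → F), (∀ j, h j ∈ Submodule.span L (Set.range b)) ∧
        ResIndep L v (Sum.elim g h) ∧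
        Submodule.span L (Set.range (Sum.elim g h)) = Submodule.span L (Set.range b) := by
  intro d
  induction d with
  | zero =>
    intro κ _ g hg hgb hcard
    have hle : Submodule.span L (Set.range g) ≤ Submodule.span L (Set.range b) :=
      Submodule.span_le.mpr (by rintro _ ⟨j, rfl⟩; exact hgb j)
    have : FiniteDimensional L (Submodule.span L (Set.range b)) :=
      FiniteDimensional.span_of_finite L (Set.finite_range b)
    have heq : Submodule.span L (Set.range g) = Submodule.span L (Set.range b) := by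
      apply Submodule.eq_of_le_of_finrank_le hle
      rw [finrank_span_resIndep hb, finrank_span_resIndep hg]
      simpa using hcard
    refine ⟨Empty, inferInstance, Empty.elim, fun j => j.elim, ?_, ?_⟩
    · have := hg.reindex (Equiv.sumEmpty κ Empty)
      convert this using 1
      funext x
      rcases x with x | x
      · rfl
      · exact x.elim
    · have he : Set.range (Empty.elim : Empty → F) = ∅ := Set.range_eq_empty _
      rw [span_range_sum_elim, he, Submodule.span_empty, sup_bot_eq, heq]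
  | succ d ih =>
    intro κ _ g hg hgb hcard
    by_cases hsp : Submodule.span L (Set.range b) ≤ Submodule.span L (Set.range g)
    · have hle : Submodule.span L (Set.range g) ≤ Submodule.span L (Set.range b) :=
        Submodule.span_le.mpr (by rintro _ ⟨j, rfl⟩; exact hgb j)
      have heq := le_antisymm hle hsp
      refine ⟨Empty, inferInstance, Empty.elim, fun j => j.elim, ?_, ?_⟩
      · have := hg.reindex (Equiv.sumEmpty κ Empty)
        convert this using 1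
        funext x
        rcases x with x | x
        · rfl
        · exact x.elim
      · have he : Set.range (Empty.elim : Empty → F) = ∅ := Set.range_eq_empty _
        rw [span_range_sum_elim, he, Submodule.span_empty, sup_bot_eq, heq]
    · obtain ⟨i, hi⟩ := hb.exists_snoc hg hgb hsp
      have hmem : ∀ j, Sum.elim g (fun _ : Unit => b i) j ∈ Submodule.span L (Set.range b) := by
        rintro (j | _)
        · exact hgb j
        · exact Submodule.subset_span ⟨i, rfl⟩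
      obtain ⟨κ'', _, h'', hh''mem, hres, hspan⟩ := ih (Sum.elim g (fun _ : Unit => b i)) hi hmem
        (by simp only [Fintype.card_sum, Fintype.card_unit]; omega)
      refine ⟨Unit ⊕ κ'', inferInstance, Sum.elim (fun _ : Unit => b i) h'', ?_, ?_, ?_⟩
      · rintro (_ | j)
        · exact Submodule.subset_span ⟨i, rfl⟩
        · exact hh''mem j
      · have := hres.reindex (Equiv.sumAssoc κ Unit κ'').symm
        convert this using 1
        funext x
        rcases x with x | x | x <;> rfl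
      · rw [← hspan, span_range_sum_elim, span_range_sum_elim, span_range_sum_elim,
          span_range_sum_elim, sup_assoc]

/-- A residually independent family inside a cartesian space extends to a residually independent
spanning family. -/
theorem ResIndep.exists_extend {ι : Type*} {κ : Type} [Fintype ι] [Fintype κ] {b : ι → F}
    {g : κ → F} (hb : ResIndep L v b) (hg : ResIndep L v g)
    (hgb : ∀ j, g j ∈ Submodule.span L (Set.range b)) :
    ∃ (κ' : Type) (_ : Fintype κ') (h : κ' → F), (∀ j, h j ∈ Submodule.span L (Set.range b)) ∧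
      ResIndep L v (Sum.elim g h) ∧
      Submodule.span L (Set.range (Sum.elim g h)) = Submodule.span L (Set.range b) :=
  exists_extend_aux hb (Fintype.card ι) g hg hgb (by omega)

theorem IsCart.of_fintype {ι : Type*} [Fintype ι] {b : ι → F} (hb : ResIndep L v b) :
    IsCart L v (Submodule.span L (Set.range b)) := by
  refine ⟨Fintype.card ι, b ∘ (Fintype.equivFin ι).symm, hb.reindex _, ?_⟩
  rw [(Fintype.equivFin ι).symm.surjective.range_comp]

end Basics

section Adapted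

variable {L : Type uL} {F : Type uF} {Γ₀ : Type uΓ} [Field L] [Field F] [Algebra L F]
  [LinearOrderedCommGroupWithZero Γ₀] {v : Valuation F Γ₀}

theorem resIndep_unit {s : F} (hs : v s = 1) : ResIndep L v (fun _ : Unit => s) := by
  refine ⟨fun _ => hs.le, fun c hc i => ?_⟩
  simp only [Finset.univ_unique, Finset.sum_singleton] at hc
  rw [val_smul, hs, mul_one] at hc
  exact hc

/-- **Adapted pair** (replaces the Smith normal form).  If `M₁ ⊓ M₂ = ⊥`, the three spaces are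
cartesian and the reductions of `M₁`, `M₂` meet in the line spanned by the common reduction of
`s₁`, `s₂`, then the pair can be corrected (without changing reductions) so that
`s₁' - s₂' = a • y` with `y` of norm `≤ 1` whose reduction is NOT in `M̄₁ + M̄₂`. -/
theorem exists_adapted_pair (M₁ M₂ : Submodule L F)
    (hM₁ : IsCart L v M₁) (hM₂ : IsCart L v M₂) (hM : IsCart L v (M₁ ⊔ M₂))
    (hinf : M₁ ⊓ M₂ = ⊥)
    {s₁ s₂ : F} (hs₁ : s₁ ∈ M₁) (hs₂ : s₂ ∈ M₂) (hv₁ : v s₁ = 1) (hs₁₂ : v (s₁ - s₂) < 1)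
    (hker : ∀ x₁ ∈ M₁, ∀ x₂ ∈ M₂, v x₁ ≤ 1 → v x₂ ≤ 1 → v (x₁ - x₂) < 1 →
      ∃ c : L, v (x₁ - c • s₁) < 1) :
    ∃ s₁' ∈ M₁, ∃ s₂' ∈ M₂, ∃ (a : L) (y : F), v (s₁' - s₁) < 1 ∧ v (s₂' - s₂) < 1 ∧
      s₁' - s₂' = a • y ∧ v y ≤ 1 ∧
      ∀ x₁ ∈ M₁, ∀ x₂ ∈ M₂, v x₁ ≤ 1 → v x₂ ≤ 1 → ¬ v (y - (x₁ - x₂)) < 1 := by
  classical
  obtain ⟨n₁, e₁, he₁, hspan₁⟩ := hM₁
  obtain ⟨n₂, e₂, he₂, hspan₂⟩ := hM₂
  obtain ⟨n, b, hb, hspanU⟩ := hM
  have hfd₁ : FiniteDimensional L M₁ :=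
    hspan₁ ▸ FiniteDimensional.span_of_finite L (Set.finite_range e₁)
  have hfd₂ : FiniteDimensional L M₂ :=
    hspan₂ ▸ FiniteDimensional.span_of_finite L (Set.finite_range e₂)
  -- (1) extend `s₁` to a residually independent basis of `M₁`
  obtain ⟨κ₁, _, h₁, hh₁mem, hres₁, hsp₁⟩ :=
    he₁.exists_extend (resIndep_unit hv₁) (fun _ => hspan₁ ▸ hs₁)
  rw [hspan₁] at hsp₁ hh₁mem
  have hh₁ : ResIndep L v h₁ := hres₁.inr
  have he₂mem : ∀ j, e₂ j ∈ M₂ := fun j => hspan₂ ▸ Submodule.subset_span ⟨j, rfl⟩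
  -- (2) the family `h₁ ∪ e₂`
  have hG : ResIndep L v (Sum.elim h₁ e₂) := by
    apply hh₁.sum_elim he₂
    intro x hx z hz hx1 hz1 hxz
    have hxM : x ∈ M₁ :=
      (Submodule.span_le.mpr (by rintro _ ⟨j, rfl⟩; exact hh₁mem j) :
        Submodule.span L (Set.range h₁) ≤ M₁) hx
    have hzM : z ∈ M₂ := hspan₂ ▸ hz
    obtain ⟨c, hc⟩ := hker x hxM (-z) (M₂.neg_mem hzM) hx1 (by rwa [Valuation.map_neg])
      (by rwa [sub_neg_eq_add])
    obtain ⟨d, rfl⟩ := ResIndep.exists_repr (L := L) hx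
    have hcoef := hres₁.coeff_lt (Sum.elim (fun _ => -c) d) (by
      rw [Fintype.sum_sum_type]
      simp only [Sum.elim_inl, Sum.elim_inr, Finset.univ_unique, Finset.sum_singleton]
      rw [neg_smul, neg_add_eq_sub]
      exact hc)
    exact val_sum_smul_lt hh₁.1 d (fun j => hcoef (Sum.inr j))
  -- (3) add one more vector `y`
  have hGmem : ∀ j, Sum.elim h₁ e₂ j ∈ Submodule.span L (Set.range b) := by
    rw [hspanU]
    rintro (j | j)
    · exact Submodule.mem_sup_left (hh₁mem j)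
    · exact Submodule.mem_sup_right (he₂mem j)
  have h2 := Submodule.finrank_sup_add_finrank_inf_eq M₁ M₂
  rw [hinf, finrank_bot, add_zero] at h2
  have h3 : finrank L (M₁ ⊔ M₂ : Submodule L F) = n := by
    rw [← hspanU, finrank_span_resIndep hb]
    simp
  have h4 : finrank L M₁ = 1 + Fintype.card κ₁ := by
    rw [← hsp₁, finrank_span_resIndep hres₁]
    simp
  have h5 : finrank L M₂ = n₂ := by
    rw [← hspan₂, finrank_span_resIndep he₂]
    simp
  have hdim : ¬ Submodule.span L (Set.range b) ≤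
      Submodule.span L (Set.range (Sum.elim h₁ e₂)) := by
    intro hle
    have hfdG : FiniteDimensional L (Submodule.span L (Set.range (Sum.elim h₁ e₂))) :=
      FiniteDimensional.span_of_finite L (Set.finite_range _)
    have h1 := Submodule.finrank_mono hle
    rw [finrank_span_resIndep hb, finrank_span_resIndep hG] at h1
    simp only [Fintype.card_sum, Fintype.card_fin] at h1
    omega
  obtain ⟨i, hi⟩ := hb.exists_snoc hG hGmem hdim
  have hyU : b i ∈ M₁ ⊔ M₂ := hspanU ▸ Submodule.subset_span ⟨i, rfl⟩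
  -- (4) the enlarged family spans `M₁ ⊔ M₂`
  have hspanB : Submodule.span L (Set.range (Sum.elim (Sum.elim h₁ e₂) (fun _ : Unit => b i))) =
      M₁ ⊔ M₂ := by
    apply Submodule.eq_of_le_of_finrank_le
    · rw [Submodule.span_le]
      rintro _ ⟨j, rfl⟩
      rcases j with j | j
      · exact hspanU ▸ hGmem j
      · exact hyU
    · rw [finrank_span_resIndep hi, h3]
      simp only [Fintype.card_sum, Fintype.card_fin, Fintype.card_unit]
      omega
  -- (5) decompose `s₁ - s₂`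
  have hdU : s₁ - s₂ ∈
      Submodule.span L (Set.range (Sum.elim (Sum.elim h₁ e₂) (fun _ : Unit => b i))) := by
    rw [hspanB]
    exact Submodule.sub_mem _ (Submodule.mem_sup_left hs₁) (Submodule.mem_sup_right hs₂)
  obtain ⟨c, hc, hcsum⟩ := hi.exists_repr_lt hdU hs₁₂
  rw [Fintype.sum_sum_type, Fintype.sum_sum_type] at hcsum
  simp only [Sum.elim_inl, Sum.elim_inr, Finset.univ_unique, Finset.sum_singleton] at hcsum
  have hx₁M : ∑ j, c (Sum.inl (Sum.inl j)) • h₁ j ∈ M₁ :=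
    Submodule.sum_mem _ fun j _ => Submodule.smul_mem _ _ (hh₁mem j)
  have hx₂M : ∑ j, c (Sum.inl (Sum.inr j)) • e₂ j ∈ M₂ :=
    Submodule.sum_mem _ fun j _ => Submodule.smul_mem _ _ (he₂mem j)
  have hx₁v : v (∑ j, c (Sum.inl (Sum.inl j)) • h₁ j) < 1 :=
    val_sum_smul_lt hh₁.1 _ fun j => hc _
  have hx₂v : v (∑ j, c (Sum.inl (Sum.inr j)) • e₂ j) < 1 :=
    val_sum_smul_lt he₂.1 _ fun j => hc _
  refine ⟨s₁ - ∑ j, c (Sum.inl (Sum.inl j)) • h₁ j, M₁.sub_mem hs₁ hx₁M,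
    s₂ + ∑ j, c (Sum.inl (Sum.inr j)) • e₂ j, M₂.add_mem hs₂ hx₂M, c (Sum.inr default), b i,
    ?_, ?_, ?_, hb.1 i, ?_⟩
  · have e : s₁ - ∑ j, c (Sum.inl (Sum.inl j)) • h₁ j - s₁ =
        -∑ j, c (Sum.inl (Sum.inl j)) • h₁ j := by ring
    rw [e, Valuation.map_neg]
    exact hx₁v
  · have e : s₂ + ∑ j, c (Sum.inl (Sum.inr j)) • e₂ j - s₂ =
        ∑ j, c (Sum.inl (Sum.inr j)) • e₂ j := by ring
    rw [e]
    exact hx₂v
  · have e : s₁ - ∑ j, c (Sum.inl (Sum.inl j)) • h₁ j -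
        (s₂ + ∑ j, c (Sum.inl (Sum.inr j)) • e₂ j) =
        (s₁ - s₂) - ∑ j, c (Sum.inl (Sum.inl j)) • h₁ j -
          ∑ j, c (Sum.inl (Sum.inr j)) • e₂ j := by ring
    rw [e, ← hcsum]
    ring
  · -- (6) the reduction of `y` is not in `M̄₁ + M̄₂`
    intro z₁ hz₁ z₂ hz₂ hz₁v hz₂v hcontra
    have hz₁' : z₁ ∈ Submodule.span L (Set.range (Sum.elim (fun _ : Unit => s₁) h₁)) :=
      hsp₁ ▸ hz₁
    obtain ⟨d, hd, hdsum⟩ := hres₁.exists_repr_le hz₁' hz₁v
    rw [Fintype.sum_sum_type] at hdsum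
    simp only [Sum.elim_inl, Sum.elim_inr, Finset.univ_unique, Finset.sum_singleton] at hdsum
    have hgspan : d (Sum.inl default) • s₂ + ∑ j, d (Sum.inr j) • h₁ j - z₂ ∈
        Submodule.span L (Set.range (Sum.elim h₁ e₂)) := by
      rw [span_range_sum_elim, hspan₂]
      exact Submodule.sub_mem _ (Submodule.add_mem _
        (Submodule.mem_sup_right (Submodule.smul_mem _ _ hs₂))
        (Submodule.mem_sup_left (sum_smul_mem_span h₁ _))) (Submodule.mem_sup_right hz₂)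
    have hyg : v (b i - (d (Sum.inl default) • s₂ + ∑ j, d (Sum.inr j) • h₁ j - z₂)) < 1 := by
      have e : b i - (d (Sum.inl default) • s₂ + ∑ j, d (Sum.inr j) • h₁ j - z₂) =
          (b i - (z₁ - z₂)) + d (Sum.inl default) • (s₁ - s₂) := by
        rw [← hdsum, smul_sub]
        ring
      rw [e]
      refine v.map_add_lt hcontra ?_
      rw [val_smul, mul_comm]
      exact lt_one_mul_le hs₁₂ (hd _)
    obtain ⟨γ, hγ⟩ := ResIndep.exists_repr (L := L) hgspan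
    have hfin := hi.coeff_lt (Sum.elim (fun j => -γ j) (fun _ => 1)) (by
      rw [Fintype.sum_sum_type]
      simp only [Sum.elim_inl, Sum.elim_inr, Finset.univ_unique, Finset.sum_singleton, neg_smul,
        Finset.sum_neg_distrib, one_smul]
      rw [hγ, neg_add_eq_sub]
      exact hyg) (Sum.inr default)
    simp at hfin

/-- **Saturation** of `N₁° + N₂°` (the integral `H¹` of the pair `N₁, N₂` is torsion-free), from
`N̄₁ ∩ N̄₂ = k`. -/
theorem saturated_of_cart (N₁ N₂ : Submodule L F) (hN₁ : IsCart L v N₁) (hN₂ : IsCart L v N₂)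
    (h1₁ : (1 : F) ∈ N₁) (h1₂ : (1 : F) ∈ N₂)
    (hker : ∀ ρ₁ ∈ N₁, ∀ ρ₂ ∈ N₂, v ρ₁ ≤ 1 → v ρ₂ ≤ 1 → v (ρ₁ - ρ₂) < 1 →
      ∃ c : L, v (ρ₁ - algebraMap L F c) < 1) :
    ∀ ρ ∈ N₁ ⊔ N₂, v ρ ≤ 1 → ∃ ρ₁ ∈ N₁, ∃ ρ₂ ∈ N₂, v ρ₁ ≤ 1 ∧ v ρ₂ ≤ 1 ∧ ρ = ρ₁ - ρ₂ := by
  classical
  obtain ⟨n₁, e₁, he₁, hspan₁⟩ := hN₁
  obtain ⟨n₂, e₂, he₂, hspan₂⟩ := hN₂
  have h1 : ResIndep L v (fun _ : Unit => (1 : F)) := resIndep_unit v.map_one
  obtain ⟨κ₁, _, h₁, hh₁mem, hres₁, hsp₁⟩ := he₁.exists_extend h1 (fun _ => hspan₁ ▸ h1₁)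
  obtain ⟨κ₂, _, h₂, hh₂mem, hres₂, hsp₂⟩ := he₂.exists_extend h1 (fun _ => hspan₂ ▸ h1₂)
  rw [hspan₁] at hsp₁ hh₁mem
  rw [hspan₂] at hsp₂ hh₂mem
  have hT : ResIndep L v (Sum.elim (Sum.elim (fun _ : Unit => (1 : F)) h₁) h₂) := by
    apply hres₁.sum_elim hres₂.inr
    intro x hx z hz hx1 hz1 hxz
    have hxN : x ∈ N₁ := hsp₁ ▸ hx
    have hzN : z ∈ N₂ :=
      (Submodule.span_le.mpr (by rintro _ ⟨j, rfl⟩; exact hh₂mem j) :
        Submodule.span L (Set.range h₂) ≤ N₂) hz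
    obtain ⟨c, hc⟩ := hker x hxN (-z) (N₂.neg_mem hzN) hx1 (by rwa [Valuation.map_neg])
      (by rwa [sub_neg_eq_add])
    have hzc : v (-z - algebraMap L F c) < 1 := by
      have e : -z - algebraMap L F c = (x - algebraMap L F c) - (x + z) := by ring
      rw [e]
      exact val_sub_lt hc hxz
    obtain ⟨d, rfl⟩ := ResIndep.exists_repr (L := L) hz
    have hcoef := hres₂.coeff_lt (Sum.elim (fun _ => -c) (fun j => -d j)) (by
      rw [Fintype.sum_sum_type]
      simp only [Sum.elim_inl, Sum.elim_inr, Finset.univ_unique, Finset.sum_singleton, neg_smul,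
        Finset.sum_neg_distrib]
      rw [Algebra.smul_def, mul_one]
      have e : -(algebraMap L F c) + -∑ j, d j • h₂ j =
          -(∑ j, d j • h₂ j) - algebraMap L F c := by ring
      rw [e]
      exact hzc)
    have hcv : v (algebraMap L F c) < 1 := by simpa using hcoef (Sum.inl default)
    have e : x = (x - algebraMap L F c) + algebraMap L F c := by ring
    rw [e]
    exact v.map_add_lt hc hcv
  intro ρ hρ hρ1
  have hρT : ρ ∈ Submodule.span L
      (Set.range (Sum.elim (Sum.elim (fun _ : Unit => (1 : F)) h₁) h₂)) := by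
    rw [span_range_sum_elim, hsp₁]
    have hle : N₂ ≤ N₁ ⊔ Submodule.span L (Set.range h₂) := by
      rw [← hsp₂, span_range_sum_elim]
      refine sup_le ?_ le_sup_right
      rw [Submodule.span_le]
      rintro _ ⟨j, rfl⟩
      exact Submodule.mem_sup_left h1₁
    exact (sup_le le_sup_left hle) hρ
  obtain ⟨c, hc, hcsum⟩ := hT.exists_repr_le hρT hρ1
  rw [Fintype.sum_sum_type] at hcsum
  simp only [Sum.elim_inl, Sum.elim_inr] at hcsum
  refine ⟨∑ j, c (Sum.inl j) • Sum.elim (fun _ : Unit => (1 : F)) h₁ j, ?_,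
    -∑ j, c (Sum.inr j) • h₂ j, ?_, ?_, ?_, ?_⟩
  · rw [← hsp₁]
    exact sum_smul_mem_span _ _
  · exact N₂.neg_mem (Submodule.sum_mem _ fun j _ => Submodule.smul_mem _ _ (hh₂mem j))
  · exact val_sum_smul_le hres₁.1 _ fun j => hc _
  · rw [Valuation.map_neg]
    exact val_sum_smul_le hres₂.inr.1 _ fun j => hc _
  · rw [sub_neg_eq_add]
    exact hcsum.symm

end Adapted

section Core

variable {L : Type uL} {F : Type uF} {Γ₀ : Type uΓ} [Field L] [Field F] [Algebra L F]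
  [LinearOrderedCommGroupWithZero Γ₀] {v : Valuation F Γ₀}

theorem val_mul_sub_lt {x x' y y' : F} (hx : v x ≤ 1) (hy' : v y' ≤ 1) (h1 : v (x - x') < 1)
    (h2 : v (y - y') < 1) : v (x * y - x' * y') < 1 := by
  have e : x * y - x' * y' = x * (y - y') + (x - x') * y' := by ring
  rw [e]
  refine v.map_add_lt ?_ ?_
  · rw [map_mul, mul_comm]
    exact lt_one_mul_le h2 hx
  · rw [map_mul]
    exact lt_one_mul_le h1 hy'

theorem val_pow_sub_lt {x x' : F} (hx : v x ≤ 1) (hx' : v x' ≤ 1) (h : v (x - x') < 1) (n : ℕ) :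
    v (x ^ n - x' ^ n) < 1 := by
  induction n with
  | zero => simp
  | succ n ih =>
    rw [pow_succ, pow_succ]
    exact val_mul_sub_lt (by rw [map_pow]; exact pow_le_one' hx n) hx' ih h

theorem val_eq_one_of_pow_sub_lt {m : ℕ} (hm : v (m : F) = 1) {u s : F} (hu : v u = 1)
    (h : v (s ^ m - u) < 1) : v s = 1 := by
  have hm0 : m ≠ 0 := by
    rintro rfl
    simp at hm
  have h1 : v (s ^ m) = v u := Valuation.map_eq_of_sub_lt v (by rwa [hu])
  rw [map_pow, hu] at h1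
  exact (pow_eq_one_iff.mp h1).resolve_right hm0

/-- Core of the one-step Kummer lemma, with the adapted pair and the saturation as hypotheses. -/
theorem kummer_one_step_core (m : ℕ) (hm : v (m : F) = 1) {u : F} (hu : v u = 1)
    (M₁ M₂ N₁ N₂ : Submodule L F)
    (hpow₁ : ∀ s ∈ M₁, ∃ t ∈ N₁, s ^ m = u * t) (hpow₂ : ∀ s ∈ M₂, ∃ t ∈ N₂, s ^ m = u * t)
    {s₁ s₂ : F} (hs₁u : v (s₁ ^ m - u) < 1) (hs₁₂ : v (s₁ - s₂) < 1)
    (hadapt : M₁ ⊓ M₂ = ⊥ → ∃ s₁' ∈ M₁, ∃ s₂' ∈ M₂, ∃ (a : L) (y : F), v (s₁' - s₁) < 1 ∧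
      v (s₂' - s₂) < 1 ∧ s₁' - s₂' = a • y ∧ v y ≤ 1 ∧
      ∀ x₁ ∈ M₁, ∀ x₂ ∈ M₂, v x₁ ≤ 1 → v x₂ ≤ 1 → ¬ v (y - (x₁ - x₂)) < 1)
    (hsat : ∀ ρ ∈ N₁ ⊔ N₂, v ρ ≤ 1 →
      ∃ ρ₁ ∈ N₁, ∃ ρ₂ ∈ N₂, v ρ₁ ≤ 1 ∧ v ρ₂ ≤ 1 ∧ ρ = ρ₁ - ρ₂)
    (hsep : ∀ y ∈ M₁ ⊔ M₂, v y ≤ 1 → ∀ ρ₁ ∈ N₁, ∀ ρ₂ ∈ N₂, v ρ₁ ≤ 1 → v ρ₂ ≤ 1 →
      v ((m : F) * y - s₁ * (ρ₁ - ρ₂)) < 1 →
      ∃ x₁ ∈ M₁, ∃ x₂ ∈ M₂, v x₁ ≤ 1 ∧ v x₂ ≤ 1 ∧ v (y - (x₁ - x₂)) < 1) :
    M₁ ⊓ M₂ ≠ ⊥ := by
  intro hinf
  obtain ⟨s₁', hs₁'M, s₂', hs₂'M, a, y, hs₁', hs₂', hdiff, hy1, hnl⟩ := hadapt hinf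
  have hm0 : m ≠ 0 := by
    rintro rfl
    simp at hm
  have hu0 : u ≠ 0 := by
    rintro rfl
    simp at hu
  have hvs₁ : v s₁ = 1 := val_eq_one_of_pow_sub_lt hm hu hs₁u
  have hvs₁' : v s₁' ≤ 1 := by
    have e : s₁' = (s₁' - s₁) + s₁ := by ring
    rw [e]
    exact v.map_add_le hs₁'.le hvs₁.le
  have hs₂'s₁ : v (s₂' - s₁) < 1 := by
    have e : s₂' - s₁ = (s₂' - s₂) - (s₁ - s₂) := by ring
    rw [e]
    exact val_sub_lt hs₂' hs₁₂
  have hvs₂' : v s₂' ≤ 1 := by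
    have e : s₂' = (s₂' - s₁) + s₁ := by ring
    rw [e]
    exact v.map_add_le hs₂'s₁.le hvs₁.le
  have ha0 : a ≠ 0 := by
    rintro rfl
    rw [zero_smul, sub_eq_zero] at hdiff
    have hmem : s₁' ∈ M₁ ⊓ M₂ := ⟨hs₁'M, hdiff ▸ hs₂'M⟩
    rw [hinf, Submodule.mem_bot] at hmem
    rw [hmem, zero_sub, Valuation.map_neg, hvs₁] at hs₁'
    exact lt_irrefl _ hs₁'
  obtain ⟨t₁, ht₁N, ht₁⟩ := hpow₁ s₁' hs₁'M
  obtain ⟨t₂, ht₂N, ht₂⟩ := hpow₂ s₂' hs₂'M
  have hgeom : (∑ j ∈ Finset.range m, s₁' ^ j * s₂' ^ (m - 1 - j)) * (s₁' - s₂') =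
      s₁' ^ m - s₂' ^ m := geom_sum₂_mul s₁' s₂' m
  generalize hS : ∑ j ∈ Finset.range m, s₁' ^ j * s₂' ^ (m - 1 - j) = S at hgeom
  have hSv : v S ≤ 1 := by
    rw [← hS]
    exact v.map_sum_le fun j _ => by
      rw [map_mul, map_pow, map_pow]
      exact mul_le_one' (pow_le_one' hvs₁' _) (pow_le_one' hvs₂' _)
  have hρeq : a • (y * (S / u)) = t₁ - t₂ := by
    have h1 : u * (t₁ - t₂) = S * (a • y) := by
      rw [mul_sub, ← ht₁, ← ht₂, ← hgeom, hdiff]
    rw [Algebra.smul_def] at h1 ⊢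
    field_simp
    linear_combination -h1
  have hρN : y * (S / u) ∈ N₁ ⊔ N₂ := by
    have e : y * (S / u) = a⁻¹ • (t₁ - t₂) := by
      rw [← hρeq, smul_smul, inv_mul_cancel₀ ha0, one_smul]
    rw [e]
    exact Submodule.smul_mem _ _
      (Submodule.sub_mem _ (Submodule.mem_sup_left ht₁N) (Submodule.mem_sup_right ht₂N))
  have hρv : v (y * (S / u)) ≤ 1 := by
    rw [map_mul, map_div₀, hu, div_one]
    exact mul_le_one' hy1 hSv
  obtain ⟨ρ₁, hρ₁N, ρ₂, hρ₂N, hρ₁v, hρ₂v, hρ⟩ := hsat _ hρN hρv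
  have hS1 : v (S - (m : F) * s₁ ^ (m - 1)) < 1 := by
    have e : S - (m : F) * s₁ ^ (m - 1) =
        ∑ j ∈ Finset.range m, (s₁' ^ j * s₂' ^ (m - 1 - j) - s₁ ^ j * s₁ ^ (m - 1 - j)) := by
      rw [Finset.sum_sub_distrib, hS]
      congr 1
      have e2 : ∀ j ∈ Finset.range m, s₁ ^ j * s₁ ^ (m - 1 - j) = s₁ ^ (m - 1) := by
        intro j hj
        have hj' := Finset.mem_range.mp hj
        rw [← pow_add]
        congr 1
        omega
      rw [Finset.sum_congr rfl e2]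
      simp
    rw [e]
    apply v.map_sum_lt one_ne_zero
    intro j _
    exact val_mul_sub_lt (by rw [map_pow]; exact pow_le_one' hvs₁' _)
      (by rw [map_pow]; exact pow_le_one' hvs₁.le _) (val_pow_sub_lt hvs₁' hvs₁.le hs₁' _)
      (val_pow_sub_lt hvs₂' hvs₁.le hs₂'s₁ _)
  have hcong : v (s₁ * S - (m : F) * u) < 1 := by
    have hpow : s₁ * s₁ ^ (m - 1) = s₁ ^ m := by
      rw [← pow_succ', Nat.sub_add_cancel (Nat.one_le_iff_ne_zero.mpr hm0)]
    have e : s₁ * S - (m : F) * u =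
        s₁ * (S - (m : F) * s₁ ^ (m - 1)) + (m : F) * (s₁ ^ m - u) := by
      linear_combination (m : F) * hpow
    rw [e]
    refine v.map_add_lt ?_ ?_
    · rw [map_mul, hvs₁, one_mul]
      exact hS1
    · rw [map_mul, hm, one_mul]
      exact hs₁u
  have hfinal : v ((m : F) * y - s₁ * (ρ₁ - ρ₂)) < 1 := by
    have e : (m : F) * y - s₁ * (ρ₁ - ρ₂) = -(y * ((s₁ * S - (m : F) * u) / u)) := by
      rw [← hρ]
      field_simp
      ring
    rw [e, Valuation.map_neg, map_mul, map_div₀, hu, div_one, mul_comm]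
    exact lt_one_mul_le hcong hy1
  have hyM : y ∈ M₁ ⊔ M₂ := by
    have e : y = a⁻¹ • (s₁' - s₂') := by
      rw [hdiff, smul_smul, inv_mul_cancel₀ ha0, one_smul]
    rw [e]
    exact Submodule.smul_mem _ _
      (Submodule.sub_mem _ (Submodule.mem_sup_left hs₁'M) (Submodule.mem_sup_right hs₂'M))
  obtain ⟨x₁, hx₁M, x₂, hx₂M, hx₁v, hx₂v, hlift⟩ :=
    hsep y hyM hy1 ρ₁ hρ₁N ρ₂ hρ₂N hρ₁v hρ₂v hfinal
  exact hnl x₁ hx₁M x₂ hx₂M hx₁v hx₂v hlift

/-- **One-step Kummer lemma.**  `L ⊆ F` fields, `v` a valuation on `F` (any rank), `m` with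
`v m = 1`, `u` with `v u = 1`.  `M₁, M₂, N₁, N₂` are `L`-subspaces of `F`
(think `M_i = L(-D + n P_i)`, `N_i = L(m n P_i)`, `div u = m D`) such that

* `M₁`, `M₂`, `M₁ ⊔ M₂`, `N₁`, `N₂` are cartesian;
* `s ∈ M_i → s ^ m ∈ u • N_i`, and `1 ∈ N₁ ⊓ N₂`;
* seeds `s₁ ∈ M₁`, `s₂ ∈ M₂` with the same reduction `θ̄` and `θ̄ ^ m = ū`;
* `hkerM`: the reductions of `M₁`, `M₂` meet in the line `k θ̄`;
* `hkerN`: the reductions of `N₁`, `N₂` meet in the constants `k`;
* `hsep`: if `m ȳ = θ̄ (ρ̄₁ - ρ̄₂)` with `y ∈ M₁ + M₂`, `ρ_i ∈ N_i` (all of norm `≤ 1`), then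
  `ȳ ∈ M̄₁ + M̄₂` (pole separation on the special fibre + surjectivity of the reduction).

Then `M₁ ⊓ M₂ ≠ ⊥` (i.e. `L(-D) ≠ 0`). -/
theorem kummer_one_step (m : ℕ) (hm : v (m : F) = 1) {u : F} (hu : v u = 1)
    (M₁ M₂ N₁ N₂ : Submodule L F)
    (hM₁ : IsCart L v M₁) (hM₂ : IsCart L v M₂) (hM : IsCart L v (M₁ ⊔ M₂))
    (hN₁ : IsCart L v N₁) (hN₂ : IsCart L v N₂)
    (hpow₁ : ∀ s ∈ M₁, ∃ t ∈ N₁, s ^ m = u * t) (hpow₂ : ∀ s ∈ M₂, ∃ t ∈ N₂, s ^ m = u * t)
    (h1₁ : (1 : F) ∈ N₁) (h1₂ : (1 : F) ∈ N₂)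
    {s₁ s₂ : F} (hs₁ : s₁ ∈ M₁) (hs₂ : s₂ ∈ M₂) (hs₁u : v (s₁ ^ m - u) < 1)
    (hs₁₂ : v (s₁ - s₂) < 1)
    (hkerM : ∀ x₁ ∈ M₁, ∀ x₂ ∈ M₂, v x₁ ≤ 1 → v x₂ ≤ 1 → v (x₁ - x₂) < 1 →
      ∃ c : L, v (x₁ - c • s₁) < 1)
    (hkerN : ∀ ρ₁ ∈ N₁, ∀ ρ₂ ∈ N₂, v ρ₁ ≤ 1 → v ρ₂ ≤ 1 → v (ρ₁ - ρ₂) < 1 →
      ∃ c : L, v (ρ₁ - algebraMap L F c) < 1)
    (hsep : ∀ y ∈ M₁ ⊔ M₂, v y ≤ 1 → ∀ ρ₁ ∈ N₁, ∀ ρ₂ ∈ N₂, v ρ₁ ≤ 1 → v ρ₂ ≤ 1 →
      v ((m : F) * y - s₁ * (ρ₁ - ρ₂)) < 1 →
      ∃ x₁ ∈ M₁, ∃ x₂ ∈ M₂, v x₁ ≤ 1 ∧ v x₂ ≤ 1 ∧ v (y - (x₁ - x₂)) < 1) :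
    M₁ ⊓ M₂ ≠ ⊥ :=
  kummer_one_step_core m hm hu M₁ M₂ N₁ N₂ hpow₁ hpow₂ hs₁u hs₁₂
    (fun hinf => exists_adapted_pair M₁ M₂ hM₁ hM₂ hM hinf hs₁ hs₂
      (val_eq_one_of_pow_sub_lt hm hu hs₁u) hs₁₂ hkerM)
    (saturated_of_cart N₁ N₂ hN₁ hN₂ h1₁ h1₂ hkerN) hsep

/-- Adapter: an `L`-linearly independent family which is orthonormal in the weak sense
(`v (∑ c i • b i) ≤ 1 ↔ ∀ i, v (c i) ≤ 1`) is residually independent as soon as the value group of
`F` is that of `L`. -/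
theorem resIndep_of_orthonormal {ι : Type*} [Fintype ι] {b : ι → F}
    (hval : ∀ f : F, f ≠ 0 → ∃ c : L, v (algebraMap L F c) = v f)
    (hli : LinearIndependent L b)
    (hb : ∀ c : ι → L, v (∑ i, c i • b i) ≤ 1 ↔ ∀ i, v (algebraMap L F (c i)) ≤ 1) :
    ResIndep L v b := by
  classical
  refine ⟨fun i => ?_, fun c hc i => ?_⟩
  · have h1 := (hb (Pi.single i 1)).mpr (fun j => by
      by_cases hj : j = i
      · subst hj
        simp
      · simp [Pi.single_eq_of_ne hj])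
    simpa [Pi.single_apply, ite_smul] using h1
  · by_cases hf : ∑ j, c j • b j = 0
    · have h0 := Fintype.linearIndependent_iff.mp hli c hf i
      rw [h0, map_zero, map_zero]
      exact zero_lt_one
    · obtain ⟨t, ht⟩ := hval _ hf
      have ht0 : t ≠ 0 := by
        rintro rfl
        rw [map_zero, map_zero] at ht
        exact hf (v.zero_iff.mp ht.symm)
      have hvt : v (algebraMap L F t) ≠ 0 := by
        rw [Valuation.ne_zero_iff]
        simpa using ht0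
      have h1 := (hb (fun j => t⁻¹ * c j)).mp (by
        rw [sum_inv_mul_smul, val_smul, map_inv₀, map_inv₀, ht, inv_mul_cancel₀ (ht ▸ hvt)]) i
      rw [map_mul, map_mul, map_inv₀, map_inv₀, inv_mul_le_iff₀ (zero_lt_iff.mpr hvt),
        mul_one] at h1
      exact h1.trans_lt (ht ▸ hc)

/-- Variant of `kummer_one_step` with a blanket hypothesis "every finite-dimensional subspace is
cartesian". -/
theorem kummer_one_step' (m : ℕ) (hm : v (m : F) = 1) {u : F} (hu : v u = 1)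
    (hcart : ∀ U : Submodule L F, FiniteDimensional L U → IsCart L v U)
    (M₁ M₂ N₁ N₂ : Submodule L F)
    [FiniteDimensional L M₁] [FiniteDimensional L M₂] [FiniteDimensional L N₁]
    [FiniteDimensional L N₂]
    (hpow₁ : ∀ s ∈ M₁, ∃ t ∈ N₁, s ^ m = u * t) (hpow₂ : ∀ s ∈ M₂, ∃ t ∈ N₂, s ^ m = u * t)
    (h1₁ : (1 : F) ∈ N₁) (h1₂ : (1 : F) ∈ N₂)
    {s₁ s₂ : F} (hs₁ : s₁ ∈ M₁) (hs₂ : s₂ ∈ M₂) (hs₁u : v (s₁ ^ m - u) < 1)
    (hs₁₂ : v (s₁ - s₂) < 1)
    (hkerM : ∀ x₁ ∈ M₁, ∀ x₂ ∈ M₂, v x₁ ≤ 1 → v x₂ ≤ 1 → v (x₁ - x₂) < 1 →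
      ∃ c : L, v (x₁ - c • s₁) < 1)
    (hkerN : ∀ ρ₁ ∈ N₁, ∀ ρ₂ ∈ N₂, v ρ₁ ≤ 1 → v ρ₂ ≤ 1 → v (ρ₁ - ρ₂) < 1 →
      ∃ c : L, v (ρ₁ - algebraMap L F c) < 1)
    (hsep : ∀ y ∈ M₁ ⊔ M₂, v y ≤ 1 → ∀ ρ₁ ∈ N₁, ∀ ρ₂ ∈ N₂, v ρ₁ ≤ 1 → v ρ₂ ≤ 1 →
      v ((m : F) * y - s₁ * (ρ₁ - ρ₂)) < 1 →
      ∃ x₁ ∈ M₁, ∃ x₂ ∈ M₂, v x₁ ≤ 1 ∧ v x₂ ≤ 1 ∧ v (y - (x₁ - x₂)) < 1) :
    ∃ f : F, f ≠ 0 ∧ f ∈ M₁ ∧ f ∈ M₂ := by
  have h := kummer_one_step m hm hu M₁ M₂ N₁ N₂ (hcart _ inferInstance) (hcart _ inferInstance)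
    (hcart _ inferInstance) (hcart _ inferInstance) (hcart _ inferInstance) hpow₁ hpow₂ h1₁ h1₂
    hs₁ hs₂ hs₁u hs₁₂ hkerM hkerN hsep
  obtain ⟨f, hf, hf0⟩ := (Submodule.ne_bot_iff _).mp h
  exact ⟨f, hf0, hf.1, hf.2⟩

end Core

end Fermat.Agent.S18.helper9278
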