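import Mathlib
import Fermat.Prelude.Def_ModularCurve_ReductionModL
import Fermat.Agent.S18.helper981_FundEq
import Fermat.Agent.S18.helper3537_InputsPlaces

/-!
# Riemann's theorem on the special fibre of a place reduction

Instance of `helper981_Riemann` / `helper981_FundEq` on the special function field
`F_k = modularFunctionFieldFullC k N`.  The two standing hypotheses (principal divisors,
places of degree one) come from the place reduction (`helper3537_InputsPlaces`); the only
further input is ONE transcendental `xb : F_k` with `[F_k : k(xb)] < ∞` (any characteristic,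
no separability).

* `hasRiemannBound_of_isPlaceReductionAlong`, `degree_poleDivisor_of_isPlaceReductionAlong`,
  `degree_zeroDivisor_of_isPlaceReductionAlong`, `riemann_of_isPlaceReductionAlong`:
  abstract coefficient field `L`, valuation ring `A`, residue map `π`.
* `hasRiemannBound_of_reductionInputs`, `degree_poleDivisor_of_reductionInputs`,
  `degree_zeroDivisor_of_reductionInputs`, `riemann_of_reductionInputs`: the case
  `h : ReductionInputsModL A N` of the frozen S18 statement.
-/

set_option autoImplicit false
set_option synthInstance.maxHeartbeats 400000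

namespace Fermat.Agent.S18.helper981

open ModularCurve AlgebraicCurve IntermediateField Module

section Along

variable {L : Type*} [Field L] [Algebra ℚ L] {A : ValuationSubring L}
variable {k : Type*} [Field k] {π : A →+* k} {N : ℕ}
variable {r : Place L (laurentBaseChange L (modularFunctionFieldFull N)) →
  Place k (modularFunctionFieldFullC k N)}

/-- Riemann's inequality (weak form) on the special fibre of a place reduction. -/
theorem hasRiemannBound_of_isPlaceReductionAlong
    [HasPrincipalDivisors L (laurentBaseChange L (modularFunctionFieldFull N))]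
    (hr : IsPlaceReductionAlong A π N r) (hπ : Function.Surjective π)
    (hdeg : ∀ P : Place L (laurentBaseChange L (modularFunctionFieldFull N)), P.deg = 1)
    (P₀ : Place L (laurentBaseChange L (modularFunctionFieldFull N)))
    (xb : modularFunctionFieldFullC k N) (hxb : Transcendental k xb)
    [FiniteDimensional k⟮xb⟯ (modularFunctionFieldFullC k N)] :
    HasRiemannBound k (modularFunctionFieldFullC k N) := by
  have := Fermat.Agent.S18.helper3537.hasPrincipalDivisors_of_isPlaceReductionAlong hr hπ
  exact hasRiemannBound_of_transcendental' xb hxb (r P₀)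
    (Fermat.Agent.S18.helper3537.deg_eq_one_of_isPlaceReductionAlong hr hπ hdeg)

/-- Fundamental equality on the special fibre: the pole divisor of `xb` has degree
`[F_k : k(xb)]`. -/
theorem degree_poleDivisor_of_isPlaceReductionAlong
    [HasPrincipalDivisors L (laurentBaseChange L (modularFunctionFieldFull N))]
    (hr : IsPlaceReductionAlong A π N r) (hπ : Function.Surjective π)
    (hdeg : ∀ P : Place L (laurentBaseChange L (modularFunctionFieldFull N)), P.deg = 1)
    (P₀ : Place L (laurentBaseChange L (modularFunctionFieldFull N)))
    (xb : modularFunctionFieldFullC k N) (hxb : Transcendental k xb)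
    [FiniteDimensional k⟮xb⟯ (modularFunctionFieldFullC k N)]
    (X : Divisor k (modularFunctionFieldFullC k N))
    (hX : ∀ Q : Place k (modularFunctionFieldFullC k N), X Q = max 0 (-(Q.ord xb))) :
    Divisor.degree X = (finrank k⟮xb⟯ (modularFunctionFieldFullC k N) : ℤ) := by
  have := Fermat.Agent.S18.helper3537.hasPrincipalDivisors_of_isPlaceReductionAlong hr hπ
  exact degree_poleDivisor_eq_finrank
    (Fermat.Agent.S18.helper3537.deg_eq_one_of_isPlaceReductionAlong hr hπ hdeg) (r P₀)
    xb hxb X hX

/-- Fundamental equality on the special fibre, zero divisor form. -/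
theorem degree_zeroDivisor_of_isPlaceReductionAlong
    [HasPrincipalDivisors L (laurentBaseChange L (modularFunctionFieldFull N))]
    (hr : IsPlaceReductionAlong A π N r) (hπ : Function.Surjective π)
    (hdeg : ∀ P : Place L (laurentBaseChange L (modularFunctionFieldFull N)), P.deg = 1)
    (P₀ : Place L (laurentBaseChange L (modularFunctionFieldFull N)))
    (xb : modularFunctionFieldFullC k N) (hxb : Transcendental k xb)
    [FiniteDimensional k⟮xb⟯ (modularFunctionFieldFullC k N)]
    (X : Divisor k (modularFunctionFieldFullC k N))
    (hX : ∀ Q : Place k (modularFunctionFieldFullC k N), X Q = max 0 (Q.ord xb)) :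
    Divisor.degree X = (finrank k⟮xb⟯ (modularFunctionFieldFullC k N) : ℤ) := by
  have := Fermat.Agent.S18.helper3537.hasPrincipalDivisors_of_isPlaceReductionAlong hr hπ
  exact degree_zeroDivisor_eq_finrank
    (Fermat.Agent.S18.helper3537.deg_eq_one_of_isPlaceReductionAlong hr hπ hdeg) (r P₀)
    xb hxb X hX

/-- Riemann's theorem on the special fibre of a place reduction, with
`g = riemannGenus k F_k`. -/
theorem riemann_of_isPlaceReductionAlong
    [HasPrincipalDivisors L (laurentBaseChange L (modularFunctionFieldFull N))]
    (hr : IsPlaceReductionAlong A π N r) (hπ : Function.Surjective π)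
    (hdeg : ∀ P : Place L (laurentBaseChange L (modularFunctionFieldFull N)), P.deg = 1)
    (P₀ : Place L (laurentBaseChange L (modularFunctionFieldFull N)))
    (xb : modularFunctionFieldFullC k N) (hxb : Transcendental k xb)
    [FiniteDimensional k⟮xb⟯ (modularFunctionFieldFullC k N)] :
    (∀ D : Divisor k (modularFunctionFieldFullC k N),
      Divisor.degree D + 1 - (riemannGenus k (modularFunctionFieldFullC k N) : ℤ)
        ≤ (finrank k (riemannRochSpace D) : ℤ)) ∧
    ∃ c : ℤ, ∀ D : Divisor k (modularFunctionFieldFullC k N), c ≤ Divisor.degree D →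
      (finrank k (riemannRochSpace D) : ℤ)
        = Divisor.degree D + 1 - (riemannGenus k (modularFunctionFieldFullC k N) : ℤ) := by
  have := Fermat.Agent.S18.helper3537.hasPrincipalDivisors_of_isPlaceReductionAlong hr hπ
  exact exists_forall_finrank_eq_of_transcendental xb hxb (r P₀)
    (Fermat.Agent.S18.helper3537.deg_eq_one_of_isPlaceReductionAlong hr hπ hdeg)

end Along

section ModL

open scoped IntermediateField.algebraAdjoinAdjoin

variable {A : ValuationSubring (AlgebraicClosure ℚ)} {N : ℕ}

/-- Riemann's inequality (weak form) on the special fibre, from `ReductionInputsModL`. -/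
theorem hasRiemannBound_of_reductionInputs (h : ReductionInputsModL A N)
    (x : modularFunctionFieldBar N) (hx : Transcendental (AlgebraicClosure ℚ) x)
    [FiniteDimensional (AlgebraicClosure ℚ)⟮x⟯ (modularFunctionFieldBar N)]
    (xb : modularFunctionFieldFullC (IsLocalRing.ResidueField A) N)
    (hxb : Transcendental (IsLocalRing.ResidueField A) xb)
    [FiniteDimensional (IsLocalRing.ResidueField A)⟮xb⟯
      (modularFunctionFieldFullC (IsLocalRing.ResidueField A) N)] :
    HasRiemannBound (IsLocalRing.ResidueField A)
      (modularFunctionFieldFullC (IsLocalRing.ResidueField A) N) := by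
  have := Fermat.Agent.S24.helper204.hasPrincipalDivisors (K := AlgebraicClosure ℚ) x hx
  obtain ⟨P₀⟩ := Fermat.Agent.S18.helper3537.nonempty_place (K := AlgebraicClosure ℚ) x hx
  exact hasRiemannBound_of_isPlaceReductionAlong (isPlaceReductionModL_placeReductionModL h)
    IsLocalRing.residue_surjective
    (Fermat.Agent.S24.helper204.place_deg_eq_one (K := AlgebraicClosure ℚ) x hx) P₀ xb hxb

/-- Fundamental equality on the special fibre, from `ReductionInputsModL`. -/
theorem degree_poleDivisor_of_reductionInputs (h : ReductionInputsModL A N)
    (x : modularFunctionFieldBar N) (hx : Transcendental (AlgebraicClosure ℚ) x)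
    [FiniteDimensional (AlgebraicClosure ℚ)⟮x⟯ (modularFunctionFieldBar N)]
    (xb : modularFunctionFieldFullC (IsLocalRing.ResidueField A) N)
    (hxb : Transcendental (IsLocalRing.ResidueField A) xb)
    [FiniteDimensional (IsLocalRing.ResidueField A)⟮xb⟯
      (modularFunctionFieldFullC (IsLocalRing.ResidueField A) N)]
    (X : Divisor (IsLocalRing.ResidueField A)
      (modularFunctionFieldFullC (IsLocalRing.ResidueField A) N))
    (hX : ∀ Q : Place (IsLocalRing.ResidueField A)
      (modularFunctionFieldFullC (IsLocalRing.ResidueField A) N), X Q = max 0 (-(Q.ord xb))) :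
    Divisor.degree X = (finrank (IsLocalRing.ResidueField A)⟮xb⟯
      (modularFunctionFieldFullC (IsLocalRing.ResidueField A) N) : ℤ) := by
  have := Fermat.Agent.S24.helper204.hasPrincipalDivisors (K := AlgebraicClosure ℚ) x hx
  obtain ⟨P₀⟩ := Fermat.Agent.S18.helper3537.nonempty_place (K := AlgebraicClosure ℚ) x hx
  exact degree_poleDivisor_of_isPlaceReductionAlong (isPlaceReductionModL_placeReductionModL h)
    IsLocalRing.residue_surjective
    (Fermat.Agent.S24.helper204.place_deg_eq_one (K := AlgebraicClosure ℚ) x hx) P₀ xb hxb X hX

/-- Fundamental equality on the special fibre, zero divisor form, from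
`ReductionInputsModL`. -/
theorem degree_zeroDivisor_of_reductionInputs (h : ReductionInputsModL A N)
    (x : modularFunctionFieldBar N) (hx : Transcendental (AlgebraicClosure ℚ) x)
    [FiniteDimensional (AlgebraicClosure ℚ)⟮x⟯ (modularFunctionFieldBar N)]
    (xb : modularFunctionFieldFullC (IsLocalRing.ResidueField A) N)
    (hxb : Transcendental (IsLocalRing.ResidueField A) xb)
    [FiniteDimensional (IsLocalRing.ResidueField A)⟮xb⟯
      (modularFunctionFieldFullC (IsLocalRing.ResidueField A) N)]
    (X : Divisor (IsLocalRing.ResidueField A)
      (modularFunctionFieldFullC (IsLocalRing.ResidueField A) N))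
    (hX : ∀ Q : Place (IsLocalRing.ResidueField A)
      (modularFunctionFieldFullC (IsLocalRing.ResidueField A) N), X Q = max 0 (Q.ord xb)) :
    Divisor.degree X = (finrank (IsLocalRing.ResidueField A)⟮xb⟯
      (modularFunctionFieldFullC (IsLocalRing.ResidueField A) N) : ℤ) := by
  have := Fermat.Agent.S24.helper204.hasPrincipalDivisors (K := AlgebraicClosure ℚ) x hx
  obtain ⟨P₀⟩ := Fermat.Agent.S18.helper3537.nonempty_place (K := AlgebraicClosure ℚ) x hx
  exact degree_zeroDivisor_of_isPlaceReductionAlong (isPlaceReductionModL_placeReductionModL h)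
    IsLocalRing.residue_surjective
    (Fermat.Agent.S24.helper204.place_deg_eq_one (K := AlgebraicClosure ℚ) x hx) P₀ xb hxb X hX

/-- Riemann's theorem on the special fibre, from `ReductionInputsModL`. -/
theorem riemann_of_reductionInputs (h : ReductionInputsModL A N)
    (x : modularFunctionFieldBar N) (hx : Transcendental (AlgebraicClosure ℚ) x)
    [FiniteDimensional (AlgebraicClosure ℚ)⟮x⟯ (modularFunctionFieldBar N)]
    (xb : modularFunctionFieldFullC (IsLocalRing.ResidueField A) N)
    (hxb : Transcendental (IsLocalRing.ResidueField A) xb)
    [FiniteDimensional (IsLocalRing.ResidueField A)⟮xb⟯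
      (modularFunctionFieldFullC (IsLocalRing.ResidueField A) N)] :
    (∀ D : Divisor (IsLocalRing.ResidueField A)
        (modularFunctionFieldFullC (IsLocalRing.ResidueField A) N),
      Divisor.degree D + 1 - (riemannGenus (IsLocalRing.ResidueField A)
          (modularFunctionFieldFullC (IsLocalRing.ResidueField A) N) : ℤ)
        ≤ (finrank (IsLocalRing.ResidueField A) (riemannRochSpace D) : ℤ)) ∧
    ∃ c : ℤ, ∀ D : Divisor (IsLocalRing.ResidueField A)
        (modularFunctionFieldFullC (IsLocalRing.ResidueField A) N), c ≤ Divisor.degree D →
      (finrank (IsLocalRing.ResidueField A) (riemannRochSpace D) : ℤ)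
        = Divisor.degree D + 1 - (riemannGenus (IsLocalRing.ResidueField A)
          (modularFunctionFieldFullC (IsLocalRing.ResidueField A) N) : ℤ) := by
  have := Fermat.Agent.S24.helper204.hasPrincipalDivisors (K := AlgebraicClosure ℚ) x hx
  obtain ⟨P₀⟩ := Fermat.Agent.S18.helper3537.nonempty_place (K := AlgebraicClosure ℚ) x hx
  exact riemann_of_isPlaceReductionAlong (isPlaceReductionModL_placeReductionModL h)
    IsLocalRing.residue_surjective
    (Fermat.Agent.S24.helper204.place_deg_eq_one (K := AlgebraicClosure ℚ) x hx) P₀ xb hxb

end ModL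

end Fermat.Agent.S18.helper981
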