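import Fermat.Prelude.Def_ModularCurve_X0ModL
import Fermat.Agent.S24.helper504_LocalInf
import Fermat.Agent.S18.helper3784_LaurentCIC

/-!
# S18-CUSPEXP-0 (helper987): conjugate cusp expansions of `F_N` over `ℚ̄`

Built on the landed S24 coset expansions `helper504.cosetExp N g : FN N →+* ℂ((u))`
(`u = exp(2πiτ/N)`, expansion of `ev f ∘ g`).

* (E0) `cosetExpK N g : FN N →+* LaurentSeries Kbar` with
  `coeffMap kappa (cosetExpK N g x) = cosetExp N g x` (all conjugate expansions have algebraic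
  coefficients), constants, `j ↦ j(u^N)`, dependence on the coset only, separation of cosets,
  explicit value on `j(q^d)`.
* (E1) integrality of the expansions of `j(q^d)` and `1 / j(q^d)` at every cusp.
* (E2) `q`-expansion principle at all cusps, integrally closed form.
-/

set_option autoImplicit false
set_option linter.style.haveILetI false

open Complex
open UpperHalfPlane hiding I
open ModularCurve CongruenceSubgroup
open scoped Real MatrixGroups

noncomputable section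

namespace Fermat.Agent.S18.helper987

open Fermat.Agent.S24 Fermat.Agent.S24.helper24 Fermat.Agent.S24.helper504

/-! ## The subfield of complex Laurent series with coefficients in `kappa ℚ̄` -/

/-- Complex Laurent series all of whose coefficients are in the image of `kappa : ℚ̄ → ℂ`. -/
abbrev kRange : Subfield (LaurentSeries ℂ) := (coeffMap kappa).fieldRange

theorem mem_kRange_iff {y : LaurentSeries ℂ} :
    y ∈ kRange ↔ ∃ x : LaurentSeries Kbar, coeffMap kappa x = y := RingHom.mem_fieldRange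

theorem coeffMap_kappa_mem (x : LaurentSeries Kbar) : coeffMap kappa x ∈ kRange :=
  mem_kRange_iff.mpr ⟨x, rfl⟩

theorem coeffMap_kappa_C (c : Kbar) :
    coeffMap kappa (HahnSeries.C c) = HahnSeries.C (kappa c) := by
  rw [HahnSeries.C_apply, coeffMap_single, HahnSeries.C_apply]

theorem coeffMap_kappa_injective : Function.Injective (coeffMap kappa) :=
  helper504.coeffMap_injective kappa

/-- Roots of unity of `ℂ` come from `ℚ̄`. -/
theorem exists_kappa_eq_of_pow_eq_one {ξ : ℂ} {n : ℕ} (hn : n ≠ 0) (hξ : ξ ^ n = 1) :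
    ∃ ζ : Kbar, kappa ζ = ξ ∧ ζ ^ n = 1 := by
  haveI : NeZero n := ⟨hn⟩
  haveI : NeZero (n : Kbar) := ⟨by exact_mod_cast hn⟩
  obtain ⟨ζ₀, hζ₀⟩ := HasEnoughRootsOfUnity.exists_primitiveRoot Kbar n
  have h1 : IsPrimitiveRoot (kappa ζ₀) n := hζ₀.map_of_injective kappa.injective
  obtain ⟨i, -, hi⟩ := h1.eq_pow_of_pow_eq_one hξ
  refine ⟨ζ₀ ^ i, by rw [map_pow, hi], ?_⟩
  rw [← pow_mul, mul_comm, pow_mul, hζ₀.pow_eq_one, one_pow]

/-! ## Explicit expansions of the generators -/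

/-- The expansion of `j(q^d)` at the cusp `g`, complex form: a root-of-unity twist of `j(u^m)`. -/
theorem cosetExp_jBarD_eq (N : ℕ) [NeZero N] (g : SL(2, ℤ)) (d : ℕ) [NeZero d] (hd : d ∣ N) :
    ∃ (a b d' m : ℕ) (_ : NeZero a) (_ : NeZero d') (_ : NeZero m), a * d' = d ∧ b < d' ∧
      m * d' = a * N ∧
      cosetExp N g (jBarD N d hd)
        = qExpand ℂ m (helper504.twist (cexp (2 * π * Complex.I * b / d')) (coeffEmb ℂ jq)) := by
  obtain ⟨a, b, d', m, ha, hd', hm, hprod, hb, hmd, h⟩ := exists_hermite_conj hd g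
  refine ⟨a, b, d', m, ha, hd', hm, hprod, hb, hmd, ?_⟩
  rw [cosetExp_jBarD]
  have e : (fun τ => jd d (g • τ)) = fun τ => jFun (hpt a b d' τ) := funext h
  rw [e]
  exact ((hasQExpZ_jFun.hermite N a b d' m hmd).isCuspMer (mdiff_comp_hpt mdiff_jFun a b d')).2

/-- The series `j(q)` over `ℚ̄`. -/
abbrev jK : LaurentSeries Kbar := coeffEmb Kbar jq

/-- The expansion of `j(q^d)` at the cusp `g`, with the twist defined over `ℚ̄`. -/
theorem cosetExp_jBarD_eq_coeffMap (N : ℕ) [NeZero N] (g : SL(2, ℤ)) (d : ℕ) [NeZero d]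
    (hd : d ∣ N) :
    ∃ (a b d' m : ℕ) (_ : NeZero a) (_ : NeZero d') (_ : NeZero m) (ζ : Kbar), a * d' = d ∧
      b < d' ∧ m * d' = a * N ∧ ζ ^ d' = 1 ∧
      kappa ζ = cexp (2 * π * Complex.I * b / d') ∧
      cosetExp N g (jBarD N d hd)
        = coeffMap kappa (qExpand Kbar m (helper504.twist ζ jK)) := by
  obtain ⟨a, b, d', m, ha, hd', hm, hprod, hb, hmd, h⟩ := cosetExp_jBarD_eq N g d hd
  have hξ : cexp (2 * π * Complex.I * b / d') ^ d' = 1 := by
    rw [← Complex.exp_nat_mul]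
    have hd'0 : (d' : ℂ) ≠ 0 := Nat.cast_ne_zero.mpr (NeZero.ne d')
    have e : (d' : ℂ) * (2 * π * Complex.I * b / d') = (b : ℤ) * (2 * π * Complex.I) := by
      push_cast
      field_simp
    rw [e, Complex.exp_int_mul_two_pi_mul_I]
  obtain ⟨ζ, hζ, hζ1⟩ := exists_kappa_eq_of_pow_eq_one (NeZero.ne d') hξ
  refine ⟨a, b, d', m, ha, hd', hm, ζ, hprod, hb, hmd, hζ1, hζ, ?_⟩
  rw [h, helper3176.coeffMap_qExpand, helper504.coeffMap_twist, hζ, coeffMap_kappa_coeffEmb]

/-! ## (E0) descent of the coefficients -/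

theorem cosetExp_AN_mem_kRange (N : ℕ) [NeZero N] (g : SL(2, ℤ)) (a : helper3176.AN N) :
    cosetExp N g (a : FN N) ∈ kRange := by
  induction a using AN_induction with
  | gen d hd =>
      obtain ⟨a, b, d', m, _, _, _, ζ, -, -, -, -, -, h⟩ := cosetExp_jBarD_eq_coeffMap N g d hd
      show cosetExp N g (jBarD N d hd) ∈ kRange
      rw [h]
      exact coeffMap_kappa_mem _
  | const c =>
      show cosetExp N g (algebraMap Kbar (FN N) c) ∈ kRange
      rw [cosetExp_algebraMap, ← coeffMap_kappa_C]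
      exact coeffMap_kappa_mem _
  | add x y hx hy =>
      have : cosetExp N g ((x + y : helper3176.AN N) : FN N)
          = cosetExp N g (x : FN N) + cosetExp N g (y : FN N) := map_add _ _ _
      rw [this]; exact add_mem hx hy
  | mul x y hx hy =>
      have : cosetExp N g ((x * y : helper3176.AN N) : FN N)
          = cosetExp N g (x : FN N) * cosetExp N g (y : FN N) := map_mul _ _ _
      rw [this]; exact mul_mem hx hy

/-- Every coset expansion has coefficients in `kappa ℚ̄`. -/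
theorem cosetExp_mem_kRange (N : ℕ) [NeZero N] (g : SL(2, ℤ)) (x : FN N) :
    cosetExp N g x ∈ kRange := by
  obtain ⟨a, b, -, rfl⟩ := helper3176.exists_div_AN N x
  rw [map_div₀]
  exact div_mem (cosetExp_AN_mem_kRange N g a) (cosetExp_AN_mem_kRange N g b)

/-- **(E0)** The conjugate expansion at the cusp `g` with coefficients in `ℚ̄`
(variable `u = q^(1/N)`). -/
def cosetExpK (N : ℕ) [NeZero N] (g : SL(2, ℤ)) : FN N →+* LaurentSeries Kbar :=
  ((coeffMap kappa).rangeRestrictFieldEquiv.symm.toRingHom).comp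
    ((cosetExp N g).codRestrict kRange.toSubring (cosetExp_mem_kRange N g))

theorem coeffMap_cosetExpK (N : ℕ) [NeZero N] (g : SL(2, ℤ)) (x : FN N) :
    coeffMap kappa (cosetExpK N g x) = cosetExp N g x := by
  exact (coeffMap kappa).rangeRestrictFieldEquiv_apply_symm_apply
    (((cosetExp N g).codRestrict kRange.toSubring (cosetExp_mem_kRange N g)) x)

theorem cosetExpK_eq_iff (N : ℕ) [NeZero N] (g : SL(2, ℤ)) (x : FN N) (y : LaurentSeries Kbar) :
    cosetExpK N g x = y ↔ cosetExp N g x = coeffMap kappa y := by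
  rw [← coeffMap_cosetExpK]
  exact ⟨fun h => by rw [h], fun h => coeffMap_kappa_injective h⟩

theorem cosetExpK_injective (N : ℕ) [NeZero N] (g : SL(2, ℤ)) :
    Function.Injective (cosetExpK N g) := (cosetExpK N g).injective

theorem cosetExpK_algebraMap (N : ℕ) [NeZero N] (g : SL(2, ℤ)) (c : Kbar) :
    cosetExpK N g (algebraMap Kbar (FN N) c) = HahnSeries.C c := by
  rw [cosetExpK_eq_iff, cosetExp_algebraMap, coeffMap_kappa_C]

/-- All conjugate expansions agree on `j`: the common value is `j(u^N)`. -/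
theorem cosetExpK_jBar (N : ℕ) [NeZero N] (g : SL(2, ℤ)) :
    cosetExpK N g (jBar N) = qExpand Kbar N jK := by
  rw [cosetExpK_eq_iff, cosetExp_jBar, helper3176.coeffMap_qExpand, coeffMap_kappa_coeffEmb]

/-- The expansion only depends on the right coset `Γ₀(N) g`. -/
theorem cosetExpK_mul_of_mem_Gamma0 (N : ℕ) [NeZero N] {γ : SL(2, ℤ)} (hγ : γ ∈ Gamma0 N)
    (g : SL(2, ℤ)) : cosetExpK N (γ * g) = cosetExpK N g := by
  ext x : 1
  rw [cosetExpK_eq_iff, cosetExp_mul_of_mem_Gamma0 N hγ, coeffMap_cosetExpK]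

/-- The conjugate expansions separate the cosets (convention `g⁻¹`, as in S24). -/
theorem quotient_mk_eq_of_cosetExpK_eq (N : ℕ) [NeZero N] (g h : SL(2, ℤ))
    (H : cosetExpK N g⁻¹ = cosetExpK N h⁻¹) :
    (QuotientGroup.mk g : SL(2, ℤ) ⧸ Gamma0 N) = QuotientGroup.mk h := by
  apply quotient_mk_eq_of_cosetExp_eq
  ext x : 1
  rw [← coeffMap_cosetExpK, ← coeffMap_cosetExpK, H]

/-- **Explicit value on `j(q^d)`**: a root-of-unity twist of `j(u^m)`, `m = a²N/d`. -/
theorem cosetExpK_jBarD (N : ℕ) [NeZero N] (g : SL(2, ℤ)) (d : ℕ) [NeZero d] (hd : d ∣ N) :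
    ∃ (a b d' m : ℕ) (_ : NeZero a) (_ : NeZero d') (_ : NeZero m) (ζ : Kbar), a * d' = d ∧
      b < d' ∧ m * d' = a * N ∧ ζ ^ d' = 1 ∧
      kappa ζ = cexp (2 * π * Complex.I * b / d') ∧
      cosetExpK N g (jBarD N d hd) = qExpand Kbar m (helper504.twist ζ jK) := by
  obtain ⟨a, b, d', m, ha, hd', hm, ζ, hprod, hb, hmd, hζ1, hζ, h⟩ :=
    cosetExp_jBarD_eq_coeffMap N g d hd
  exact ⟨a, b, d', m, ha, hd', hm, ζ, hprod, hb, hmd, hζ1, hζ, (cosetExpK_eq_iff N g _ _).mpr h⟩

/-! ## The base cusp: `cosetExpK N 1` is the formal `q`-expansion in `u = q^(1/N)` -/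

theorem cosetExp_one (N : ℕ) [NeZero N] :
    cosetExp N 1 = (qExpand ℂ N).comp (formalC N) := by
  apply helper3176.ringHom_ext_of_gen
  · intro c
    rw [cosetExp_algebraMap, RingHom.comp_apply, formalC_algebraMap, HahnSeries.C_apply,
      qExpand_single, mul_zero]
  · intro d _ hd
    rw [cosetExp_jBarD, RingHom.comp_apply, formalC_jBarD]
    have e : (fun τ => jd d ((1 : SL(2, ℤ)) • τ)) = fun τ => jd d (hpt 1 0 1 τ) := by
      funext τ
      rw [one_smul, hpt_one]
    rw [e]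
    have h2 := (hasQExpZ_jd d).hermite N 1 0 1 N (by ring)
    rw [twist_exp_zero] at h2
    exact (h2.isCuspMer (mdiff_comp_hpt (mdiff_jd d) 1 0 1)).2

/-- At the base cusp the conjugate expansion is the given `q`-expansion, read in `u = q^(1/N)`. -/
theorem cosetExpK_one (N : ℕ) [NeZero N] (x : FN N) :
    cosetExpK N 1 x = qExpand Kbar N (x : LaurentSeries Kbar) := by
  rw [cosetExpK_eq_iff, cosetExp_one, RingHom.comp_apply, formalC_apply,
    helper3176.coeffMap_qExpand]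

/-! ## (E1) integrality of the expansions of `j(q^d)` and `1 / j(q^d)` -/

section Integrality

variable {K : Type*} [Field K]

/-- Roots of unity lie in every valuation subring. -/
theorem mem_of_pow_eq_one (A : ValuationSubring K) {ζ : K} {n : ℕ} (hn : n ≠ 0)
    (hζ : ζ ^ n = 1) : ζ ∈ A := by
  apply helper9428.mem_of_isIntegral_int A
  apply IsIntegral.of_pow (Nat.pos_of_ne_zero hn)
  rw [hζ]
  exact isIntegral_one

/-- Integer powers of roots of unity lie in every valuation subring. -/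
theorem zpow_mem_of_pow_eq_one (A : ValuationSubring K) {ζ : K} {n : ℕ} (hn : n ≠ 0)
    (hζ : ζ ^ n = 1) (k : ℤ) : ζ ^ k ∈ A := by
  apply mem_of_pow_eq_one A hn
  rw [← zpow_natCast, ← zpow_mul, mul_comm, zpow_mul, zpow_natCast, hζ, one_zpow]

/-- A series with `A`-integral coefficients whose lowest coefficient is a unit of `A` has an
inverse with `A`-integral coefficients. -/
theorem inv_mem_coeffSubring (A : ValuationSubring K) {y : LaurentSeries K}
    (hy : y ∈ helper3784.coeffSubring (Γ := ℤ) A.toSubring) {n : ℤ}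
    (hlt : ∀ k : ℤ, k < n → y.coeff k = 0) (hn0 : y.coeff n ≠ 0) (hn : (y.coeff n)⁻¹ ∈ A) :
    y⁻¹ ∈ helper3784.coeffSubring (Γ := ℤ) A.toSubring := by
  obtain ⟨Y, rfl⟩ := (helper3784.mem_coeffSubring_iff_exists_coeffMap A y).mp hy
  have hc : ∀ k : ℤ, ((Y.coeff k : A) : K) = (coeffMap A.subtype Y).coeff k := fun k => by
    rw [coeffMap_coeff]; rfl
  have hYn : Y.coeff n ≠ 0 := by
    intro h
    apply hn0
    rw [← hc, h]
    rfl
  have hY0 : Y ≠ 0 := HahnSeries.ne_zero_of_coeff_ne_zero hYn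
  have hord : Y.order = n := by
    apply le_antisymm (HahnSeries.order_le_of_coeff_ne_zero hYn)
    by_contra hlt'
    push Not at hlt'
    have h1 : Y.coeff Y.order = 0 := by
      apply Subtype.ext
      rw [hc, hlt _ hlt']
      rfl
    exact hY0 (HahnSeries.coeff_order_eq_zero.mp h1)
  have hunit : IsUnit Y := by
    rw [HahnSeries.isUnit_iff, HahnSeries.leadingCoeff_eq, hord]
    refine IsUnit.of_mul_eq_one (⟨_, hn⟩ : A) ?_
    apply Subtype.ext
    show ((Y.coeff n : A) : K) * ((coeffMap A.subtype Y).coeff n)⁻¹ = 1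
    rw [hc]
    exact mul_inv_cancel₀ hn0
  obtain ⟨u, rfl⟩ := hunit
  have h1 : coeffMap A.subtype (u : LaurentSeries A) * coeffMap A.subtype ((u⁻¹ : (LaurentSeries A)ˣ) : LaurentSeries A) = 1 := by
    rw [← map_mul, Units.mul_inv, map_one]
  rw [eq_inv_of_mul_eq_one_right h1 |>.symm]
  exact (helper3784.mem_coeffSubring_iff_exists_coeffMap A _).mpr ⟨_, rfl⟩

end Integrality

theorem jK_eq : jK = jqModC Kbar := by
  show coeffEmb Kbar jq = jqModC Kbar
  rw [← jqModC_rat]
  exact coeffMap_jqModC (algebraMap ℚ Kbar)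

theorem jK_coeff_mem (A : ValuationSubring Kbar) (k : ℤ) : jK.coeff k ∈ A := by
  rw [jK_eq, coeff_jqModC_eq_intCast]
  exact helper9428.intCast_mem A _

theorem jK_coeff_neg_one : jK.coeff (-1) = 1 := by
  rw [jK_eq]
  exact coeff_jqModC_neg_one Kbar

theorem jK_coeff_of_lt {k : ℤ} (hk : k < -1) : jK.coeff k = 0 := by
  rw [jK_eq]
  exact coeff_jqModC_of_lt Kbar hk

/-- The twisted series `j(ζ u^m)`: lowest coefficient. -/
theorem qExpand_twist_coeff_neg (ζ : Kbar) (m : ℕ) [NeZero m] :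
    (qExpand Kbar m (helper504.twist ζ jK)).coeff (-(m : ℤ)) = ζ⁻¹ := by
  have e : (-(m : ℤ)) = (m : ℤ) * (-1) := by ring
  rw [e, qExpand_coeff_mul, helper504.twist_coeff, jK_coeff_neg_one, mul_one, zpow_neg_one]

theorem qExpand_twist_coeff_of_lt (ζ : Kbar) (m : ℕ) [NeZero m] {k : ℤ} (hk : k < -(m : ℤ)) :
    (qExpand Kbar m (helper504.twist ζ jK)).coeff k = 0 := by
  by_cases hdvd : (m : ℤ) ∣ k
  · obtain ⟨k', rfl⟩ := hdvd
    rw [qExpand_coeff_mul, helper504.twist_coeff]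
    have hm : (0 : ℤ) < m := by exact_mod_cast Nat.pos_of_ne_zero (NeZero.ne m)
    have hk' : k' < -1 := by
      by_contra hk'
      push Not at hk'
      nlinarith
    rw [jK_coeff_of_lt hk', mul_zero]
  · exact qExpand_coeff_of_not_dvd m _ hdvd

theorem qExpand_twist_mem (A : ValuationSubring Kbar) {ζ : Kbar} {n : ℕ} (hn : n ≠ 0)
    (hζ : ζ ^ n = 1) (m : ℕ) [NeZero m] :
    qExpand Kbar m (helper504.twist ζ jK) ∈ helper3784.coeffSubring (Γ := ℤ) A.toSubring := by
  intro i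
  by_cases hdvd : (m : ℤ) ∣ i
  · obtain ⟨k, rfl⟩ := hdvd
    rw [qExpand_coeff_mul, helper504.twist_coeff]
    exact A.mul_mem _ _ (zpow_mem_of_pow_eq_one A hn hζ k) (jK_coeff_mem A k)
  · rw [qExpand_coeff_of_not_dvd m _ hdvd]
    exact A.zero_mem

theorem qExpand_twist_inv_mem (A : ValuationSubring Kbar) {ζ : Kbar} {n : ℕ} (hn : n ≠ 0)
    (hζ : ζ ^ n = 1) (m : ℕ) [NeZero m] :
    (qExpand Kbar m (helper504.twist ζ jK))⁻¹
      ∈ helper3784.coeffSubring (Γ := ℤ) A.toSubring := by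
  have hζ0 : ζ ≠ 0 := by
    rintro rfl
    rw [zero_pow hn] at hζ
    exact zero_ne_one hζ
  refine inv_mem_coeffSubring A (qExpand_twist_mem A hn hζ m) (n := -(m : ℤ))
    (fun k hk => qExpand_twist_coeff_of_lt ζ m hk) ?_ ?_
  · rw [qExpand_twist_coeff_neg]
    exact inv_ne_zero hζ0
  · rw [qExpand_twist_coeff_neg, inv_inv]
    exact mem_of_pow_eq_one A hn hζ

/-- **(E1)** The expansion of `j(q^d)` at every cusp has coefficients in every valuation subring
of `ℚ̄` (algebraic integers). -/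
theorem cosetExpK_jBarD_mem (A : ValuationSubring Kbar) (N : ℕ) [NeZero N] (g : SL(2, ℤ))
    (d : ℕ) [NeZero d] (hd : d ∣ N) :
    cosetExpK N g (jBarD N d hd) ∈ helper3784.coeffSubring (Γ := ℤ) A.toSubring := by
  obtain ⟨a, b, d', m, _, hd', _, ζ, -, -, -, hζ1, -, h⟩ := cosetExpK_jBarD N g d hd
  rw [h]
  exact qExpand_twist_mem A (NeZero.ne d') hζ1 m

/-- **(E1)** The expansion of `1 / j(q^d)` at every cusp has coefficients in every valuation
subring of `ℚ̄`. -/
theorem cosetExpK_jBarD_inv_mem (A : ValuationSubring Kbar) (N : ℕ) [NeZero N] (g : SL(2, ℤ))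
    (d : ℕ) [NeZero d] (hd : d ∣ N) :
    cosetExpK N g (jBarD N d hd)⁻¹ ∈ helper3784.coeffSubring (Γ := ℤ) A.toSubring := by
  obtain ⟨a, b, d', m, _, hd', _, ζ, -, -, -, hζ1, -, h⟩ := cosetExpK_jBarD N g d hd
  rw [map_inv₀, h]
  exact qExpand_twist_inv_mem A (NeZero.ne d') hζ1 m

/-! ## (E2) the `q`-expansion principle at all cusps -/

/-- The ring of functions whose expansion at the cusp `g` has coefficients in `A`. -/
def expRing (A : ValuationSubring Kbar) (N : ℕ) [NeZero N] (g : SL(2, ℤ)) : Subring (FN N) :=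
  (helper3784.coeffSubring (Γ := ℤ) A.toSubring).comap (cosetExpK N g)

theorem mem_expRing_iff {A : ValuationSubring Kbar} {N : ℕ} [NeZero N] {g : SL(2, ℤ)}
    {x : FN N} : x ∈ expRing A N g ↔ ∀ i : ℤ, (cosetExpK N g x).coeff i ∈ A := Iff.rfl

theorem mem_expRing_iff_exists {A : ValuationSubring Kbar} {N : ℕ} [NeZero N] {g : SL(2, ℤ)}
    {x : FN N} :
    x ∈ expRing A N g ↔ ∃ Y : LaurentSeries A, coeffMap A.subtype Y = cosetExpK N g x :=
  helper3784.mem_coeffSubring_iff_exists_coeffMap A _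

theorem jBarD_mem_expRing (A : ValuationSubring Kbar) (N : ℕ) [NeZero N] (g : SL(2, ℤ))
    (d : ℕ) [NeZero d] (hd : d ∣ N) : jBarD N d hd ∈ expRing A N g :=
  cosetExpK_jBarD_mem A N g d hd

theorem jBarD_inv_mem_expRing (A : ValuationSubring Kbar) (N : ℕ) [NeZero N] (g : SL(2, ℤ))
    (d : ℕ) [NeZero d] (hd : d ∣ N) : (jBarD N d hd)⁻¹ ∈ expRing A N g :=
  cosetExpK_jBarD_inv_mem A N g d hd

theorem C_mem_coeffSubring {A : ValuationSubring Kbar} {c : Kbar} (hc : c ∈ A) :
    (HahnSeries.C c : LaurentSeries Kbar) ∈ helper3784.coeffSubring (Γ := ℤ) A.toSubring := by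
  intro i
  rw [HahnSeries.C_apply, HahnSeries.coeff_single]
  split_ifs
  · exact hc
  · exact A.zero_mem

theorem algebraMap_mem_expRing {A : ValuationSubring Kbar} (N : ℕ) [NeZero N] (g : SL(2, ℤ))
    {c : Kbar} (hc : c ∈ A) : algebraMap Kbar (FN N) c ∈ expRing A N g := by
  show cosetExpK N g (algebraMap Kbar (FN N) c)
    ∈ helper3784.coeffSubring (Γ := ℤ) A.toSubring
  rw [cosetExpK_algebraMap]
  exact C_mem_coeffSubring hc

/-! ### The principle for an arbitrary expansion map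

`σ : F_N →+* ℚ̄((u))` is any ring hom fixing constants with `σ (j(q^d))` `A`-integral for all
`d ∣ N` (so the statements do not depend on how `cosetExpK` is built). -/

section General

variable {N : ℕ} (A : ValuationSubring Kbar) (σ : FN N →+* LaurentSeries Kbar)

/-- Bounded denominators on `A_N`: a nonzero constant multiple of the expansion is integral. -/
theorem exists_C_mul_mem_AN_of
    (hσC : ∀ c : Kbar, σ (algebraMap Kbar (FN N) c) = HahnSeries.C c)
    (hσj : ∀ (d : ℕ) [NeZero d] (hd : d ∣ N),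
      σ (jBarD N d hd) ∈ helper3784.coeffSubring (Γ := ℤ) A.toSubring)
    (a : helper3176.AN N) :
    ∃ c : Kbar, c ∈ A ∧ c ≠ 0 ∧
      HahnSeries.C c * σ (a : FN N) ∈ helper3784.coeffSubring (Γ := ℤ) A.toSubring := by
  induction a using AN_induction with
  | gen d hd =>
      refine ⟨1, A.one_mem, one_ne_zero, ?_⟩
      rw [map_one, one_mul]
      exact hσj d hd
  | const c =>
      show ∃ c' : Kbar, c' ∈ A ∧ c' ≠ 0 ∧
        HahnSeries.C c' * σ (algebraMap Kbar (FN N) c)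
          ∈ helper3784.coeffSubring (Γ := ℤ) A.toSubring
      rw [hσC]
      rcases A.mem_or_inv_mem c with hc | hc
      · refine ⟨1, A.one_mem, one_ne_zero, ?_⟩
        rw [map_one, one_mul]
        exact C_mem_coeffSubring hc
      · by_cases hc0 : c = 0
        · refine ⟨1, A.one_mem, one_ne_zero, ?_⟩
          rw [map_one, one_mul, hc0]
          exact C_mem_coeffSubring A.zero_mem
        · refine ⟨c⁻¹, hc, inv_ne_zero hc0, ?_⟩
          rw [← map_mul, inv_mul_cancel₀ hc0]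
          exact C_mem_coeffSubring A.one_mem
  | add x y hx hy =>
      obtain ⟨cx, hcx, hcx0, hx⟩ := hx
      obtain ⟨cy, hcy, hcy0, hy⟩ := hy
      refine ⟨cx * cy, A.mul_mem _ _ hcx hcy, mul_ne_zero hcx0 hcy0, ?_⟩
      have e : HahnSeries.C (cx * cy) * σ ((x + y : helper3176.AN N) : FN N)
          = HahnSeries.C cy * (HahnSeries.C cx * σ (x : FN N))
            + HahnSeries.C cx * (HahnSeries.C cy * σ (y : FN N)) := by
        have : ((x + y : helper3176.AN N) : FN N) = (x : FN N) + (y : FN N) := rfl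
        rw [this, map_add, map_mul]
        ring
      rw [e]
      exact add_mem (mul_mem (C_mem_coeffSubring hcy) hx) (mul_mem (C_mem_coeffSubring hcx) hy)
  | mul x y hx hy =>
      obtain ⟨cx, hcx, hcx0, hx⟩ := hx
      obtain ⟨cy, hcy, hcy0, hy⟩ := hy
      refine ⟨cx * cy, A.mul_mem _ _ hcx hcy, mul_ne_zero hcx0 hcy0, ?_⟩
      have e : HahnSeries.C (cx * cy) * σ ((x * y : helper3176.AN N) : FN N)
          = (HahnSeries.C cx * σ (x : FN N)) * (HahnSeries.C cy * σ (y : FN N)) := by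
        have : ((x * y : helper3176.AN N) : FN N) = (x : FN N) * (y : FN N) := rfl
        rw [this, map_mul, map_mul]
        ring
      rw [e]
      exact mul_mem hx hy

/-- Every expansion is a fraction of `A`-integral series: there is an `A`-integral `Q ≠ 0` with
`Q * σ x` `A`-integral. -/
theorem exists_ne_zero_mul_mem_of
    (hσC : ∀ c : Kbar, σ (algebraMap Kbar (FN N) c) = HahnSeries.C c)
    (hσj : ∀ (d : ℕ) [NeZero d] (hd : d ∣ N),
      σ (jBarD N d hd) ∈ helper3784.coeffSubring (Γ := ℤ) A.toSubring)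
    (x : FN N) :
    ∃ Q : LaurentSeries Kbar, Q ∈ helper3784.coeffSubring (Γ := ℤ) A.toSubring ∧ Q ≠ 0 ∧
      Q * σ x ∈ helper3784.coeffSubring (Γ := ℤ) A.toSubring := by
  obtain ⟨a, b, hb, rfl⟩ := helper3176.exists_div_AN N x
  obtain ⟨ca, hca, hca0, ha⟩ := exists_C_mul_mem_AN_of A σ hσC hσj a
  obtain ⟨cb, hcb, hcb0, hb'⟩ := exists_C_mul_mem_AN_of A σ hσC hσj b
  have hσb : σ (b : FN N) ≠ 0 := (map_ne_zero _).mpr hb
  have hCa : (HahnSeries.C ca : LaurentSeries Kbar) ≠ 0 := HahnSeries.C_ne_zero hca0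
  have hCb : (HahnSeries.C cb : LaurentSeries Kbar) ≠ 0 := HahnSeries.C_ne_zero hcb0
  refine ⟨HahnSeries.C ca * (HahnSeries.C cb * σ (b : FN N)),
    mul_mem (C_mem_coeffSubring hca) hb', mul_ne_zero hCa (mul_ne_zero hCb hσb), ?_⟩
  have e : HahnSeries.C ca * (HahnSeries.C cb * σ (b : FN N)) * σ ((a : FN N) / (b : FN N))
      = HahnSeries.C cb * (HahnSeries.C ca * σ (a : FN N)) := by
    rw [map_div₀]
    field_simp
  rw [e]
  exact mul_mem (C_mem_coeffSubring hcb) ha

/-- **(E2), general form.**  `A` completely integrally closed (`harch`), `σ` any expansion map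
fixing constants and `A`-integral on the `j(q^d)`.  If `x : F_N` is integral over a ring `R`
mapping into the functions with `A`-integral `σ`-expansion, then `σ x` is `A`-integral.
(Instance-free: `f.IsIntegralElem x` is `IsIntegral R x` for `f = algebraMap R (FN N)`.) -/
theorem mem_coeffSubring_of_isIntegralElem
    (harch : ∀ c z : Kbar, c ≠ 0 → (∀ n : ℕ, c * z ^ n ∈ A.toSubring) → z ∈ A.toSubring)
    (hσC : ∀ c : Kbar, σ (algebraMap Kbar (FN N) c) = HahnSeries.C c)
    (hσj : ∀ (d : ℕ) [NeZero d] (hd : d ∣ N),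
      σ (jBarD N d hd) ∈ helper3784.coeffSubring (Γ := ℤ) A.toSubring)
    {R : Type*} [CommRing R] (f : R →+* FN N)
    (hf : ∀ r : R, σ (f r) ∈ helper3784.coeffSubring (Γ := ℤ) A.toSubring)
    {x : FN N} (hx : f.IsIntegralElem x) :
    σ x ∈ helper3784.coeffSubring (Γ := ℤ) A.toSubring := by
  obtain ⟨Q, hQ, hQ0, hQx⟩ := exists_ne_zero_mul_mem_of A σ hσC hσj x
  refine helper3784.mem_coeffSubring_of_isIntegral A.toSubring harch hQ hQ0 hQx ?_
  obtain ⟨p, hp, hpx⟩ := hx
  let φ : R →+* helper3784.coeffSubring (Γ := ℤ) A.toSubring :=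
    (σ.comp f).codRestrict (helper3784.coeffSubring (Γ := ℤ) A.toSubring) hf
  refine ⟨p.map φ, hp.map φ, ?_⟩
  rw [Polynomial.eval₂_map]
  have e : (algebraMap (helper3784.coeffSubring (Γ := ℤ) A.toSubring)
      (LaurentSeries Kbar)).comp φ = σ.comp f := RingHom.ext fun _ => rfl
  rw [e, ← Polynomial.hom_eval₂, hpx, map_zero]

end General

/-! ### The principle for the conjugate expansions `cosetExpK N g` -/

/-- Every conjugate expansion is a fraction of `A`-integral series. -/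
theorem exists_ne_zero_mul_mem (A : ValuationSubring Kbar) (N : ℕ) [NeZero N] (g : SL(2, ℤ))
    (x : FN N) :
    ∃ Q : LaurentSeries Kbar, Q ∈ helper3784.coeffSubring (Γ := ℤ) A.toSubring ∧ Q ≠ 0 ∧
      Q * cosetExpK N g x ∈ helper3784.coeffSubring (Γ := ℤ) A.toSubring :=
  exists_ne_zero_mul_mem_of A (cosetExpK N g) (cosetExpK_algebraMap N g)
    (fun d _ hd => cosetExpK_jBarD_mem A N g d hd) x

/-- **(E2) `q`-expansion principle at the cusp `g`, integrally closed form.**  For `A` completely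
integrally closed (`harch`; e.g. `helper3784.harch_Qbar` for `A` over a prime): if `x : F_N` is
integral over a ring mapping into the functions with `A`-integral expansion at `g`, then the
expansion of `x` at `g` is `A`-integral. -/
theorem mem_expRing_of_isIntegralElem (A : ValuationSubring Kbar)
    (harch : ∀ c z : Kbar, c ≠ 0 → (∀ n : ℕ, c * z ^ n ∈ A.toSubring) → z ∈ A.toSubring)
    (N : ℕ) [NeZero N] (g : SL(2, ℤ)) {R : Type*} [CommRing R] (f : R →+* FN N)
    (hf : ∀ r : R, f r ∈ expRing A N g) {x : FN N} (hx : f.IsIntegralElem x) :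
    x ∈ expRing A N g :=
  mem_coeffSubring_of_isIntegralElem A (cosetExpK N g) harch (cosetExpK_algebraMap N g)
    (fun d _ hd => cosetExpK_jBarD_mem A N g d hd) f hf hx

/-- **(E2)** for a valuation subring of `ℚ̄` over a prime `ℓ`. -/
theorem mem_expRing_of_isIntegralElem_Qbar {ℓ : ℕ} [Fact ℓ.Prime] {A : ValuationSubring Kbar}
    (hA : A.LiesOverPrime ℓ) (N : ℕ) [NeZero N] (g : SL(2, ℤ)) {R : Type*} [CommRing R]
    (f : R →+* FN N) (hf : ∀ r : R, f r ∈ expRing A N g) {x : FN N} (hx : f.IsIntegralElem x) :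
    x ∈ expRing A N g :=
  mem_expRing_of_isIntegralElem A (helper3784.harch_Qbar hA) N g f hf hx

/-- The ring of functions with `A`-integral expansion at `g` is integrally closed in `F_N`
(subring form). -/
theorem mem_expRing_of_isIntegralElem_subtype {ℓ : ℕ} [Fact ℓ.Prime] {A : ValuationSubring Kbar}
    (hA : A.LiesOverPrime ℓ) (N : ℕ) [NeZero N] (g : SL(2, ℤ)) {x : FN N}
    (hx : (expRing A N g).subtype.IsIntegralElem x) : x ∈ expRing A N g :=
  mem_expRing_of_isIntegralElem_Qbar hA N g _ (fun r => r.2) hx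

/-! ### All cusps at once -/

/-- The subring of `F_N` generated by the constants of `A`, the `j(q^d)` and the `1 / j(q^d)`,
`d ∣ N` (contains `A[j, 1/j]`). -/
def baseRing (A : ValuationSubring Kbar) (N : ℕ) : Subring (FN N) :=
  Subring.closure ((algebraMap Kbar (FN N)) '' (A : Set Kbar) ∪
    {y | ∃ (d : ℕ) (_ : NeZero d) (hd : d ∣ N), y = jBarD N d hd ∨ y = (jBarD N d hd)⁻¹})

theorem algebraMap_mem_baseRing {A : ValuationSubring Kbar} (N : ℕ) {c : Kbar} (hc : c ∈ A) :
    algebraMap Kbar (FN N) c ∈ baseRing A N :=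
  Subring.subset_closure (Or.inl ⟨c, hc, rfl⟩)

theorem jBarD_mem_baseRing (A : ValuationSubring Kbar) (N : ℕ) (d : ℕ) [NeZero d] (hd : d ∣ N) :
    jBarD N d hd ∈ baseRing A N :=
  Subring.subset_closure (Or.inr ⟨d, inferInstance, hd, Or.inl rfl⟩)

theorem jBarD_inv_mem_baseRing (A : ValuationSubring Kbar) (N : ℕ) (d : ℕ) [NeZero d]
    (hd : d ∣ N) : (jBarD N d hd)⁻¹ ∈ baseRing A N :=
  Subring.subset_closure (Or.inr ⟨d, inferInstance, hd, Or.inr rfl⟩)

/-- The base ring has `A`-integral expansions at every cusp. -/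
theorem baseRing_le_expRing (A : ValuationSubring Kbar) (N : ℕ) [NeZero N] (g : SL(2, ℤ)) :
    baseRing A N ≤ expRing A N g := by
  refine Subring.closure_le.mpr ?_
  rintro y (⟨c, hc, rfl⟩ | ⟨d, _, hd, rfl | rfl⟩)
  · exact algebraMap_mem_expRing N g hc
  · exact jBarD_mem_expRing A N g d hd
  · exact jBarD_inv_mem_expRing A N g d hd

/-- **(E2), all cusps.**  A function integral over `A[j(q^d), 1/j(q^d) : d ∣ N]` has
`A`-integral expansion at every cusp. -/
theorem mem_expRing_of_isIntegralElem_baseRing {ℓ : ℕ} [Fact ℓ.Prime]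
    {A : ValuationSubring Kbar} (hA : A.LiesOverPrime ℓ) (N : ℕ) [NeZero N] {x : FN N}
    (hx : (baseRing A N).subtype.IsIntegralElem x) (g : SL(2, ℤ)) : x ∈ expRing A N g :=
  mem_expRing_of_isIntegralElem_Qbar hA N g _ (fun r => baseRing_le_expRing A N g r.2) hx

/-! ## Explicit Hermite data of the conjugates of `j(q^d)`

For `g = [p, q; c, e] ∈ SL(2, ℤ)` and `d ∣ N`: `j(d · gτ) = j((aτ + b)/d')` with
`a = gcd(d, c)`, `d' = d / a` and `b < d'` determined by `c b ≡ a e (mod d)`.  So the expansion of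
`j(q^d)` at the cusp `g` is `j(ζ u^m)` with `m = gcd(d, c)² N / d` and `ζ = exp(2πi b/d')`. -/

/-- The Hermite data are determined by the matrix identity. -/
theorem hermite_data_of_matrix {d a b d' : ℕ} {g γ : SL(2, ℤ)} (hprod : a * d' = d)
    (hM : (!![(d : ℤ), 0; 0, 1] * (g : Matrix (Fin 2) (Fin 2) ℤ))
        = (γ : Matrix (Fin 2) (Fin 2) ℤ) * !![(a : ℤ), (b : ℤ); 0, (d' : ℤ)]) :
    a = Nat.gcd d (g 1 0).natAbs ∧ (d : ℤ) ∣ (a : ℤ) * g 1 1 - g 1 0 * b := by
  have h00 := congrFun (congrFun hM 0) 0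
  have h10 := congrFun (congrFun hM 1) 0
  have h11 := congrFun (congrFun hM 1) 1
  simp [Matrix.mul_apply, Fin.sum_univ_two] at h00 h10 h11
  have h00' : (d : ℤ) * g 0 0 = γ 0 0 * a := h00
  have h10' : g 1 0 = γ 1 0 * a := h10
  have h11' : g 1 1 = γ 1 0 * b + γ 1 1 * d' := h11
  have hdetγ : γ 0 0 * γ 1 1 - γ 0 1 * γ 1 0 = 1 := by
    have h := γ.det_coe
    rw [Matrix.det_fin_two] at h
    exact h
  have hprod' : (a : ℤ) * d' = d := by exact_mod_cast hprod
  constructor
  · apply Nat.dvd_antisymm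
    · refine Nat.dvd_gcd ⟨d', hprod.symm⟩ (Int.natCast_dvd.mp ⟨γ 1 0, ?_⟩)
      rw [h10']
      ring
    · have e : (a : ℤ) = (d : ℤ) * (g 0 0 * γ 1 1) - g 1 0 * γ 0 1 := by
        linear_combination (-(a : ℤ)) * hdetγ - γ 1 1 * h00' + γ 0 1 * h10'
      have h1 : ((Nat.gcd d (g 1 0).natAbs : ℕ) : ℤ) ∣ (a : ℤ) := by
        rw [e]
        exact dvd_sub
          (Dvd.dvd.mul_right (Int.natCast_dvd_natCast.mpr (Nat.gcd_dvd_left _ _)) _)
          (Dvd.dvd.mul_right (Int.natCast_dvd.mpr (Nat.gcd_dvd_right _ _)) _)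
      exact Int.natCast_dvd_natCast.mp h1
  · refine ⟨γ 1 1, ?_⟩
    linear_combination (a : ℤ) * h11' - (b : ℤ) * h10' + γ 1 1 * hprod'

/-- Hermite data for the conjugate `τ ↦ j(d (g τ))`, explicit form. -/
theorem exists_hermite_conj_gcd {N d : ℕ} [NeZero N] [NeZero d] (hd : d ∣ N) (g : SL(2, ℤ)) :
    ∃ (a b d' m : ℕ) (_ : NeZero a) (_ : NeZero d') (_ : NeZero m), a * d' = d ∧ b < d' ∧
      m * d' = a * N ∧ a = Nat.gcd d (g 1 0).natAbs ∧
      (d : ℤ) ∣ (a : ℤ) * g 1 1 - g 1 0 * b ∧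
      ∀ τ : ℍ, jd d (g • τ) = jFun (hpt a b d' τ) := by
  obtain ⟨γ, a, b, d', hprod, hb, hM⟩ := hermite_exists d (Nat.pos_of_ne_zero (NeZero.ne d)) g
  have hd'pos : 0 < d' := by
    rcases Nat.eq_zero_or_pos d' with h0 | h0
    · subst h0; simp at hprod; exact absurd hprod.symm (NeZero.ne d)
    · exact h0
  have hapos : 0 < a := by
    rcases Nat.eq_zero_or_pos a with h0 | h0
    · subst h0; simp at hprod; exact absurd hprod.symm (NeZero.ne d)
    · exact h0
  obtain ⟨k, hk⟩ := hd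
  have hkpos : 0 < k := by
    rcases Nat.eq_zero_or_pos k with h0 | h0
    · subst h0; simp at hk; exact absurd hk (NeZero.ne N)
    · exact h0
  have ha : NeZero a := ⟨hapos.ne'⟩
  have hd' : NeZero d' := ⟨hd'pos.ne'⟩
  have hm : NeZero (a * a * k) := ⟨(Nat.mul_pos (Nat.mul_pos hapos hapos) hkpos).ne'⟩
  obtain ⟨hgcd, hcong⟩ := hermite_data_of_matrix hprod hM
  refine ⟨a, b, d', a * a * k, ha, hd', hm, hprod, hb, ?_, hgcd, hcong, fun τ => ?_⟩
  · rw [hk, ← hprod]; ring
  · rw [jd_apply]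
    apply hermite_invariant hd'pos hM jFun_smul τ
    · simp
    · simp

/-- The Hermite data are unique: `b < d'` is determined by `c b ≡ a e (mod d)`. -/
theorem hermite_b_unique {d a d' b₁ b₂ : ℕ} {c e : ℤ} (hprod : a * d' = d)
    (ha : a = Nat.gcd d c.natAbs) (hd : d ≠ 0) (hb₁ : b₁ < d') (hb₂ : b₂ < d')
    (h₁ : (d : ℤ) ∣ (a : ℤ) * e - c * b₁) (h₂ : (d : ℤ) ∣ (a : ℤ) * e - c * b₂) : b₁ = b₂ := by
  have ha0 : a ≠ 0 := by
    rintro rfl
    rw [zero_mul] at hprod
    exact hd hprod.symm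
  have hac : (a : ℤ) ∣ c := by
    rw [ha]
    exact Int.natCast_dvd.mpr (Nat.gcd_dvd_right _ _)
  obtain ⟨c', rfl⟩ := hac
  -- `d' ∣ c' * (b₁ - b₂)` and `gcd(d', c') = 1`
  have h3 : (d : ℤ) ∣ (a : ℤ) * c' * ((b₁ : ℤ) - b₂) := by
    have := dvd_sub h₂ h₁
    have e : (a : ℤ) * e - (a : ℤ) * c' * b₂ - ((a : ℤ) * e - (a : ℤ) * c' * b₁)
        = (a : ℤ) * c' * ((b₁ : ℤ) - b₂) := by ring
    rwa [e] at this
  have h4 : (d' : ℤ) ∣ c' * ((b₁ : ℤ) - b₂) := by
    have hd_eq : (d : ℤ) = (a : ℤ) * d' := by exact_mod_cast hprod.symm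
    rw [hd_eq, mul_assoc] at h3
    exact (mul_dvd_mul_iff_left (by exact_mod_cast ha0)).mp h3
  have hcop : IsCoprime (d' : ℤ) c' := by
    rw [Int.isCoprime_iff_gcd_eq_one]
    have h5 : Nat.gcd d ((a : ℤ) * c').natAbs = a * Nat.gcd d' c'.natAbs := by
      rw [Int.natAbs_mul, Int.natAbs_natCast, ← hprod, Nat.gcd_mul_left]
    rw [← ha] at h5
    have h6 : Nat.gcd d' c'.natAbs = 1 := by
      have : a * 1 = a * Nat.gcd d' c'.natAbs := by rw [mul_one]; exact h5
      exact (Nat.eq_of_mul_eq_mul_left (Nat.pos_of_ne_zero ha0) this).symm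
    rw [Int.gcd_eq_natAbs, Int.natAbs_natCast]
    exact h6
  have h7 : (d' : ℤ) ∣ (b₁ : ℤ) - b₂ := hcop.dvd_of_dvd_mul_left h4
  have h8 : ((b₁ : ℤ) - b₂) = 0 := by
    apply Int.eq_zero_of_abs_lt_dvd h7
    rw [abs_lt]
    constructor <;> omega
  omega

/-- The expansion of `j(q^d)` at the cusp `g`, with explicit data `a = gcd(d, g₁₀)`,
`g₁₀ b ≡ a g₁₁ (mod d)`. -/
theorem cosetExpK_jBarD_gcd (N : ℕ) [NeZero N] (g : SL(2, ℤ)) (d : ℕ) [NeZero d] (hd : d ∣ N) :
    ∃ (a b d' m : ℕ) (_ : NeZero a) (_ : NeZero d') (_ : NeZero m) (ζ : Kbar), a * d' = d ∧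
      b < d' ∧ m * d' = a * N ∧ a = Nat.gcd d (g 1 0).natAbs ∧
      (d : ℤ) ∣ (a : ℤ) * g 1 1 - g 1 0 * b ∧ ζ ^ d' = 1 ∧
      kappa ζ = cexp (2 * π * Complex.I * b / d') ∧
      cosetExpK N g (jBarD N d hd) = qExpand Kbar m (helper504.twist ζ jK) := by
  obtain ⟨a, b, d', m, ha, hd', hm, hprod, hb, hmd, hgcd, hcong, h⟩ :=
    exists_hermite_conj_gcd hd g
  have hξ : cexp (2 * π * Complex.I * b / d') ^ d' = 1 := by
    rw [← Complex.exp_nat_mul]
    have hd'0 : (d' : ℂ) ≠ 0 := Nat.cast_ne_zero.mpr (NeZero.ne d')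
    have e : (d' : ℂ) * (2 * π * Complex.I * b / d') = (b : ℤ) * (2 * π * Complex.I) := by
      push_cast
      field_simp
    rw [e, Complex.exp_int_mul_two_pi_mul_I]
  obtain ⟨ζ, hζ, hζ1⟩ := exists_kappa_eq_of_pow_eq_one (NeZero.ne d') hξ
  refine ⟨a, b, d', m, ha, hd', hm, ζ, hprod, hb, hmd, hgcd, hcong, hζ1, hζ, ?_⟩
  rw [cosetExpK_eq_iff, cosetExp_jBarD]
  have e : (fun τ => jd d (g • τ)) = fun τ => jFun (hpt a b d' τ) := funext h
  rw [e, ((hasQExpZ_jFun.hermite N a b d' m hmd).isCuspMer (mdiff_comp_hpt mdiff_jFun a b d')).2,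
    helper3176.coeffMap_qExpand, helper504.coeffMap_twist, hζ, coeffMap_kappa_coeffEmb]

/-- Order of a Laurent series from its lowest coefficient. -/
theorem order_eq_of_coeff {R : Type*} [Zero R] {y : LaurentSeries R} {n : ℤ}
    (hlt : ∀ k : ℤ, k < n → y.coeff k = 0) (hn : y.coeff n ≠ 0) : y.order = n := by
  have hy0 : y ≠ 0 := HahnSeries.ne_zero_of_coeff_ne_zero hn
  apply le_antisymm (HahnSeries.order_le_of_coeff_ne_zero hn)
  by_contra hlt'
  push Not at hlt'
  exact hy0 (HahnSeries.coeff_order_eq_zero.mp (hlt _ hlt'))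

/-- **Pole order of `j(q^d)` at the cusp `g`** in `u = q^(1/N)`: `gcd(d, g₁₀)² N / d`. -/
theorem order_cosetExpK_jBarD (N : ℕ) [NeZero N] (g : SL(2, ℤ)) (d : ℕ) [NeZero d] (hd : d ∣ N) :
    (cosetExpK N g (jBarD N d hd)).order * d
      = -((Nat.gcd d (g 1 0).natAbs : ℤ) ^ 2 * N) := by
  obtain ⟨a, b, d', m, _, hd', _, ζ, hprod, -, hmd, hgcd, -, hζ1, -, h⟩ :=
    cosetExpK_jBarD_gcd N g d hd
  have hζ0 : ζ ≠ 0 := by
    rintro rfl
    rw [zero_pow (NeZero.ne d')] at hζ1
    exact zero_ne_one hζ1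
  have hord : (cosetExpK N g (jBarD N d hd)).order = -(m : ℤ) := by
    rw [h]
    refine order_eq_of_coeff (fun k hk => qExpand_twist_coeff_of_lt ζ m hk) ?_
    rw [qExpand_twist_coeff_neg]
    exact inv_ne_zero hζ0
  rw [hord, ← hgcd]
  have h1 : (m : ℤ) * d' = a * N := by exact_mod_cast hmd
  have h2 : (a : ℤ) * d' = d := by exact_mod_cast hprod
  rw [← h2]
  linear_combination (-(a : ℤ)) * h1

/-- **Vanishing order of `1 / j(q^d)` at the cusp `g`** in `u = q^(1/N)`. -/
theorem order_cosetExpK_jBarD_inv (N : ℕ) [NeZero N] (g : SL(2, ℤ)) (d : ℕ) [NeZero d]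
    (hd : d ∣ N) :
    (cosetExpK N g (jBarD N d hd)⁻¹).order * d
      = (Nat.gcd d (g 1 0).natAbs : ℤ) ^ 2 * N := by
  have h := order_cosetExpK_jBarD N g d hd
  have hne : cosetExpK N g (jBarD N d hd) ≠ 0 := by
    intro h0
    rw [h0, HahnSeries.order_zero, zero_mul] at h
    have hgpos : (0 : ℤ) < (Nat.gcd d (g 1 0).natAbs : ℤ) := by
      exact_mod_cast Nat.gcd_pos_of_pos_left _ (Nat.pos_of_ne_zero (NeZero.ne d))
    have hN : (0 : ℤ) < N := by exact_mod_cast Nat.pos_of_ne_zero (NeZero.ne N)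
    nlinarith [pow_pos hgpos 2]
  have hne' : (cosetExpK N g (jBarD N d hd))⁻¹ ≠ 0 := inv_ne_zero hne
  have hmul : cosetExpK N g (jBarD N d hd) * (cosetExpK N g (jBarD N d hd))⁻¹ = 1 :=
    mul_inv_cancel₀ hne
  have hord := HahnSeries.order_mul hne hne'
  rw [hmul, HahnSeries.order_one] at hord
  rw [map_inv₀]
  linear_combination (-1 : ℤ) * h - (d : ℤ) * hord

end Fermat.Agent.S18.helper987
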