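import Mathlib

/-!
# S18 / S29 / S37 : the "polar part" Kummer core (abstract endgame of route #2248)

Pure algebra, Mathlib only, statement-agnostic.

`O` is a domain, `π : O` a nonzero non-unit, `p` a natural number invertible mod `π`.
`Λ` ("twisted lattice": integral `q`-expansions of `χ`-equivariant functions with pole order `≤ n`
at `∞`) and `Λ₁` ("untwisted lattice": integral `q`-expansions of honest functions with poles only
at `∞`) are `O`-submodules of `O((q))`.  Assume

* `hord`   : elements of `Λ` have pole order `≤ n`;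
* `hinj`   : an element of `Λ` without polar part is `0`            (`χ ≠ 1`);
* `hone`, `hsat` : `1 ∈ Λ₁`, and `Λ₁` is `π`-saturated;
* `hpow`   : `G ∈ Λ → G ^ p ∈ Λ₁`                                   (`χ ^ p = 1`);
* `hconst` : `x ∈ Λ₁` with polar part `≡ 0 mod π` is `≡ constant mod π`
             (no special fibre needed: characteristic polynomial over the Hauptmodul line);
* `hlift`  : `x ∈ Λ₁` whose reduction has pole order `≤ n` is congruent mod `π` to an element of `Λ`
             (dimension count `Red Λ = B̄_{≤ n}` from the residue lemma (KL) + Riemann's inequality);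
* `htors`  : the `π`-power torsion of `coker (polar part : Λ → O ^ n)` is bounded
             (automatic when `O` is noetherian: `polar_core_of_noetherian`).

Then `False`.  So, in the application, the character `χ` of an `m`-th root of a Gauss unit `u`
whose reduction is an `m`-th power is trivial: this is (INJ) of findings #2248, checked in #2396.
-/

set_option autoImplicit false

open HahnSeries

namespace Fermat.Agent.S18.helper99

variable {O : Type*} [CommRing O]

/-- A Laurent series with prescribed coefficient function supported inside the support of `x`. -/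
noncomputable def ofFn (x : LaurentSeries O) (f : ℤ → O) (hf : ∀ i, x.coeff i = 0 → f i = 0) :
    LaurentSeries O :=
  ⟨f, x.isPWO_support.mono (fun i hi => by
    rw [HahnSeries.mem_support]
    exact fun h => hi (hf i h))⟩

@[simp]
theorem ofFn_coeff (x : LaurentSeries O) (f : ℤ → O) (hf : ∀ i, x.coeff i = 0 → f i = 0) (i : ℤ) :
    (ofFn x f hf).coeff i = f i := rfl

theorem coeff_C_mul (r : O) (x : LaurentSeries O) (i : ℤ) :
    (HahnSeries.C r * x).coeff i = r * x.coeff i := by
  rw [HahnSeries.C_mul_eq_smul, HahnSeries.coeff_smul, smul_eq_mul]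

theorem coeff_C_of_ne (r : O) {i : ℤ} (hi : i ≠ 0) :
    (HahnSeries.C r : LaurentSeries O).coeff i = 0 := by
  rw [HahnSeries.C_apply, HahnSeries.coeff_single_of_ne hi]

theorem coeff_C_zero (r : O) : (HahnSeries.C r : LaurentSeries O).coeff 0 = r := by
  rw [HahnSeries.C_apply, HahnSeries.coeff_single_same]

/-- coefficientwise divisibility by `a` gives a global factorisation `x = C a * y`. -/
theorem exists_eq_C_mul_of_forall_dvd (a : O) (x : LaurentSeries O) (h : ∀ i, a ∣ x.coeff i) :
    ∃ y : LaurentSeries O, x = HahnSeries.C a * y := by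
  classical
  refine ⟨ofFn x (fun i => if x.coeff i = 0 then 0 else Classical.choose (h i))
    (fun i hi => by simp [hi]), ?_⟩
  ext i
  rw [coeff_C_mul, ofFn_coeff]
  by_cases hx : x.coeff i = 0
  · simp [hx]
  · rw [if_neg hx]
    exact Classical.choose_spec (h i)

/-- the subring `O[[q]]` of series without polar part. -/
def regSubring (O : Type*) [CommRing O] : Subring (LaurentSeries O) where
  carrier := {x | ∀ i : ℤ, i < 0 → x.coeff i = 0}
  mul_mem' := by
    intro x y hx hy i hi
    rw [HahnSeries.coeff_mul]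
    refine Finset.sum_eq_zero ?_
    rintro ⟨a, b⟩ hab
    rw [Finset.mem_antidiagonal] at hab
    obtain ⟨-, -, hab⟩ := hab
    simp only at hab
    rcases lt_or_ge a 0 with ha | ha
    · simp [hx a ha]
    · have hb : b < 0 := by omega
      simp [hy b hb]
  one_mem' := by
    intro i hi
    rw [HahnSeries.coeff_one, if_neg (ne_of_lt hi)]
  add_mem' := by
    intro x y hx hy i hi
    rw [HahnSeries.coeff_add, hx i hi, hy i hi, add_zero]
  zero_mem' := by
    intro i _
    rfl
  neg_mem' := by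
    intro x hx i hi
    rw [HahnSeries.coeff_neg, hx i hi, neg_zero]

theorem mem_regSubring {x : LaurentSeries O} :
    x ∈ regSubring O ↔ ∀ i : ℤ, i < 0 → x.coeff i = 0 := Iff.rfl

/-- binomial expansion to first order. -/
theorem exists_add_pow_succ {E : Type*} [CommRing E] (R a : E) (k : ℕ) :
    ∃ Q : E, (R + a) ^ (k + 1) = R ^ (k + 1) + ((k : E) + 1) * R ^ k * a + a ^ 2 * Q := by
  induction k with
  | zero => exact ⟨0, by simp⟩
  | succ k ih =>
    obtain ⟨Q, hQ⟩ := ih
    refine ⟨((k : E) + 1) * R ^ k + (R + a) * Q, ?_⟩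
    rw [pow_succ, hQ]
    push_cast
    ring

/-- **Key congruence.** If `G ≡ 1 mod π` and the polar part of `G` is divisible by `π ^ (m+1)`,
then the polar part of `G ^ (k+1) - (k+1) G` is divisible by `π ^ (m+2)`. -/
theorem pow_polar_congr (π : O) (G : LaurentSeries O) (m k : ℕ)
    (hG1 : ∃ y : LaurentSeries O, G - 1 = HahnSeries.C π * y)
    (hGneg : ∀ i : ℤ, i < 0 → π ^ (m + 1) ∣ G.coeff i) :
    ∀ i : ℤ, i < 0 → π ^ (m + 2) ∣ (G ^ (k + 1)).coeff i - ((k : O) + 1) * G.coeff i := by
  classical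
  obtain ⟨y, hy⟩ := hG1
  -- the regular part
  let R : LaurentSeries O := ofFn G (fun i => if 0 ≤ i then G.coeff i else 0)
    (fun i hi => by simp [hi])
  have hR : R ∈ regSubring O := by
    intro i hi
    show (if 0 ≤ i then G.coeff i else 0) = 0
    rw [if_neg (not_le.mpr hi)]
  have hdiv : ∀ i, π ^ (m + 1) ∣ (G - R).coeff i := by
    intro i
    rw [HahnSeries.coeff_sub]
    show π ^ (m + 1) ∣ G.coeff i - (if 0 ≤ i then G.coeff i else 0)
    by_cases hi : 0 ≤ i
    · rw [if_pos hi, sub_self]; exact dvd_zero _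
    · rw [if_neg hi, sub_zero]; exact hGneg i (not_le.mp hi)
  obtain ⟨N, hN⟩ := exists_eq_C_mul_of_forall_dvd (π ^ (m + 1)) (G - R) hdiv
  set P : LaurentSeries O := HahnSeries.C π with hP
  have hCpow : (HahnSeries.C (π ^ (m + 1)) : LaurentSeries O) = P ^ (m + 1) := by
    rw [hP, map_pow]
  rw [hCpow] at hN
  have hGR : G = R + P ^ (m + 1) * N := by rw [← hN]; ring
  -- `R ≡ 1 mod π`
  have hR1 : R - 1 = P * (y - P ^ m * N) := by
    have : R - 1 = (G - 1) - P ^ (m + 1) * N := by rw [hGR]; ring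
    rw [this, hy]; ring
  obtain ⟨W, hW⟩ := sub_dvd_pow_sub_pow R 1 k
  rw [one_pow] at hW
  obtain ⟨Q, hQ⟩ := exists_add_pow_succ R (P ^ (m + 1) * N) k
  -- the identity
  have hid : G ^ (k + 1) - ((k : LaurentSeries O) + 1) * G
      = (R ^ (k + 1) - ((k : LaurentSeries O) + 1) * R)
        + P ^ (m + 2) * (((k : LaurentSeries O) + 1) * N * ((y - P ^ m * N) * W)
            + P ^ m * N ^ 2 * Q) := by
    have h1 : R ^ k = 1 + P * (y - P ^ m * N) * W := by
      have : R ^ k = (R ^ k - 1) + 1 := by ring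
      rw [this, hW, hR1]; ring
    conv_lhs => rw [hGR, hQ]
    rw [h1]
    ring
  have hkR : (R ^ (k + 1) - ((k : LaurentSeries O) + 1) * R) ∈ regSubring O :=
    Subring.sub_mem _ (Subring.pow_mem _ hR _)
      (Subring.mul_mem _ (Subring.add_mem _ (natCast_mem (regSubring O) k) (Subring.one_mem _)) hR)
  intro i hi
  have hcast : (((k : LaurentSeries O) + 1) * G).coeff i = ((k : O) + 1) * G.coeff i := by
    have : ((k : LaurentSeries O) + 1) = HahnSeries.C ((k : O) + 1) := by
      rw [map_add, map_one, map_natCast]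
    rw [this, coeff_C_mul]
  have hcoef := congrArg (fun s : LaurentSeries O => s.coeff i) hid
  simp only [HahnSeries.coeff_sub, HahnSeries.coeff_add] at hcoef
  rw [hcast, ← HahnSeries.coeff_sub, hkR i hi, zero_add] at hcoef
  rw [hcoef]
  have hPpow : P ^ (m + 2) = HahnSeries.C (π ^ (m + 2)) := by rw [hP, map_pow]
  rw [hPpow, coeff_C_mul]
  exact Dvd.intro _ rfl

section Main

variable [IsDomain O]

/-- **Polar Kummer core** (steps 3-4 of findings #2248), general domain, explicit torsion bound. -/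
theorem polar_core (π : O) (hπ0 : π ≠ 0) (hπ : ¬ IsUnit π) (p : ℕ) (r : O)
    (hr : π ∣ r * (p : O) - 1) (n : ℕ) (Λ Λ₁ : Submodule O (LaurentSeries O))
    (hord : ∀ G ∈ Λ, ∀ i : ℤ, i < -(n : ℤ) → G.coeff i = 0)
    (hinj : ∀ G ∈ Λ, (∀ i : ℤ, i < 0 → G.coeff i = 0) → G = 0)
    (hone : (1 : LaurentSeries O) ∈ Λ₁)
    (hsat : ∀ x : LaurentSeries O, π • x ∈ Λ₁ → x ∈ Λ₁)
    (hpow : ∀ G ∈ Λ, G ^ p ∈ Λ₁)
    (hconst : ∀ x ∈ Λ₁, (∀ i : ℤ, i < 0 → π ∣ x.coeff i) →
      ∃ c : O, ∀ i : ℤ, π ∣ (x - HahnSeries.C c).coeff i)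
    (hlift : ∀ x ∈ Λ₁, (∀ i : ℤ, i < -(n : ℤ) → π ∣ x.coeff i) →
      ∃ G ∈ Λ, ∀ i : ℤ, π ∣ (x - G).coeff i)
    (htors : ∃ c₀ : ℕ, ∀ (k : ℕ) (G : LaurentSeries O), G ∈ Λ → c₀ ≤ k →
      (∀ i : ℤ, i < 0 → π ^ k ∣ G.coeff i) →
      ∃ G' ∈ Λ, ∀ i : ℤ, i < 0 → G.coeff i = π ^ (k - c₀) * G'.coeff i) : False := by
  classical
  set P : LaurentSeries O := HahnSeries.C π with hP
  have hPsmul : ∀ (j : ℕ) (x : LaurentSeries O), P ^ j * x = (π ^ j) • x := by
    intro j x
    rw [hP, ← map_pow, HahnSeries.C_mul_eq_smul]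
  have hcoefP : ∀ (j : ℕ) (x : LaurentSeries O) (i : ℤ),
      (P ^ j * x).coeff i = π ^ j * x.coeff i := by
    intro j x i
    rw [hP, ← map_pow, coeff_C_mul]
  have hCmem : ∀ c : O, (HahnSeries.C c : LaurentSeries O) ∈ Λ₁ := by
    intro c
    have : (HahnSeries.C c : LaurentSeries O) = c • (1 : LaurentSeries O) := by
      rw [← HahnSeries.C_mul_eq_smul, mul_one]
    rw [this]
    exact Λ₁.smul_mem c hone
  -- `p ≠ 0`
  have hp0 : p ≠ 0 := by
    rintro rfl
    apply hπ
    have : π ∣ (-1 : O) := by simpa using hr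
    exact isUnit_of_dvd_unit this (isUnit_one.neg)
  obtain ⟨k, rfl⟩ := Nat.exists_eq_succ_of_ne_zero hp0
  obtain ⟨s, hs⟩ := hr
  -- the inductive construction
  have key : ∀ m : ℕ, ∃ G ∈ Λ, (∃ y : LaurentSeries O, G - 1 = P * y) ∧
      ∀ i : ℤ, i < 0 → π ^ (m + 1) ∣ G.coeff i := by
    intro m
    induction m with
    | zero =>
      obtain ⟨G₀, hG₀, hG₀1⟩ := hlift 1 hone (fun i hi => by
        have : i ≠ 0 := by
          have : (-(n : ℤ)) ≤ 0 := by omega
          omega
        rw [HahnSeries.coeff_one, if_neg this]; exact dvd_zero _)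
      refine ⟨G₀, hG₀, ?_, ?_⟩
      · apply exists_eq_C_mul_of_forall_dvd
        intro i
        have := hG₀1 i
        rw [HahnSeries.coeff_sub] at this ⊢
        have h2 : G₀.coeff i - (1 : LaurentSeries O).coeff i
            = -((1 : LaurentSeries O).coeff i - G₀.coeff i) := by ring
        rw [h2]; exact (dvd_neg).mpr this
      · intro i hi
        have := hG₀1 i
        rw [HahnSeries.coeff_sub, HahnSeries.coeff_one, if_neg (ne_of_lt hi), zero_sub] at this
        simpa using (dvd_neg).mp this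
    | succ m ih =>
      obtain ⟨G, hG, ⟨y, hy⟩, hGneg⟩ := ih
      have hz : G ^ (k + 1) ∈ Λ₁ := hpow G hG
      have hcong := pow_polar_congr π G m k ⟨y, hy⟩ hGneg
      -- polar part of `z` is divisible by `π ^ (m+1)`
      have hzneg : ∀ i : ℤ, i < 0 → π ^ (m + 1) ∣ (G ^ (k + 1)).coeff i := by
        intro i hi
        have h1 := hcong i hi
        have h2 : π ^ (m + 1) ∣ (G ^ (k + 1)).coeff i - ((k : O) + 1) * G.coeff i :=
          dvd_trans (pow_dvd_pow π (by omega)) h1
        have h3 : π ^ (m + 1) ∣ ((k : O) + 1) * G.coeff i := Dvd.dvd.mul_left (hGneg i hi) _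
        have := dvd_add h2 h3
        simpa using this
      -- peeling
      have peel : ∀ j : ℕ, j ≤ m + 1 → ∃ c : O, ∃ t ∈ Λ₁,
          G ^ (k + 1) = HahnSeries.C c + P ^ j * t := by
        intro j
        induction j with
        | zero => intro _; exact ⟨0, G ^ (k + 1), hz, by simp⟩
        | succ j ihj =>
          intro hj
          obtain ⟨c, t, ht, hzt⟩ := ihj (by omega)
          have htneg : ∀ i : ℤ, i < 0 → π ∣ t.coeff i := by
            intro i hi
            have h1 := hzneg i hi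
            rw [hzt, HahnSeries.coeff_add, coeff_C_of_ne c (ne_of_lt hi), zero_add, hcoefP] at h1
            have h2 : π ^ (m + 1) = π ^ j * π ^ (m + 1 - j) := by
              rw [← _root_.pow_add]; congr 1; omega
            rw [h2] at h1
            have h3 : π ^ (m + 1 - j) ∣ t.coeff i :=
              (mul_dvd_mul_iff_left (pow_ne_zero j hπ0)).mp h1
            exact dvd_trans (dvd_pow_self π (by omega)) h3
          obtain ⟨c', hc'⟩ := hconst t ht htneg
          obtain ⟨t', ht'⟩ := exists_eq_C_mul_of_forall_dvd π (t - HahnSeries.C c') hc'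
          have ht'mem : t' ∈ Λ₁ := by
            apply hsat
            rw [← HahnSeries.C_mul_eq_smul, ← ht']
            exact Λ₁.sub_mem ht (hCmem c')
          refine ⟨c + π ^ j * c', t', ht'mem, ?_⟩
          have ht2 : t = HahnSeries.C c' + P * t' := by rw [hP, ← ht']; ring
          rw [hzt, ht2, map_add, map_mul, map_pow, ← hP]
          ring
      obtain ⟨c, t, ht, hzt⟩ := peel (m + 1) le_rfl
      -- the correction term
      have hx : r • t ∈ Λ₁ := Λ₁.smul_mem r ht
      have htlow : ∀ i : ℤ, i < -(n : ℤ) → π ∣ t.coeff i := by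
        intro i hi
        have hi0 : i < 0 := by omega
        have h1 := hcong i hi0
        rw [hord G hG i hi, mul_zero, sub_zero, hzt, HahnSeries.coeff_add,
          coeff_C_of_ne c (ne_of_lt hi0), zero_add, hcoefP] at h1
        have h2 : π ^ (m + 2) = π ^ (m + 1) * π := by rw [pow_succ]
        rw [h2] at h1
        exact (mul_dvd_mul_iff_left (pow_ne_zero (m + 1) hπ0)).mp h1
      obtain ⟨G', hG', hG'x⟩ := hlift (r • t) hx (fun i hi => by
        rw [HahnSeries.coeff_smul, smul_eq_mul]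
        exact Dvd.dvd.mul_left (htlow i hi) _)
      refine ⟨G - (π ^ (m + 1)) • G', Λ.sub_mem hG (Λ.smul_mem _ hG'), ?_, ?_⟩
      · refine ⟨y - P ^ m * G', ?_⟩
        rw [← hPsmul]
        have : G - P ^ (m + 1) * G' - 1 = (G - 1) - P ^ (m + 1) * G' := by ring
        rw [this, hy]; ring
      · intro i hi
        obtain ⟨d, hd⟩ := hG'x i
        obtain ⟨e, he⟩ := hcong i hi
        obtain ⟨g, hg⟩ := hGneg i hi
        have hzi : (G ^ (k + 1)).coeff i = π ^ (m + 1) * t.coeff i := by
          rw [hzt, HahnSeries.coeff_add, coeff_C_of_ne c (ne_of_lt hi), zero_add, hcoefP]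
        rw [HahnSeries.coeff_sub, HahnSeries.coeff_smul, smul_eq_mul] at hd
        rw [HahnSeries.coeff_sub, HahnSeries.coeff_smul, smul_eq_mul]
        refine ⟨-(s * g) + d - r * e, ?_⟩
        have hG'i : G'.coeff i = r * t.coeff i - π * d := by rw [← hd]; ring
        have hsk : r * ((k : O) + 1) = 1 + π * s := by
          have : r * ((k : O) + 1) - 1 = π * s := by
            have h := hs
            push_cast at h
            exact h
          rw [← this]; ring
        rw [hzi] at he
        rw [hG'i]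
        have e1 : π ^ (m + 1) * t.coeff i = ((k : O) + 1) * G.coeff i + π ^ (m + 2) * e := by
          rw [← he]; ring
        calc G.coeff i - π ^ (m + 1) * (r * t.coeff i - π * d)
            = G.coeff i - r * (π ^ (m + 1) * t.coeff i) + π ^ (m + 2) * d := by ring
          _ = G.coeff i - r * (((k : O) + 1) * G.coeff i + π ^ (m + 2) * e) + π ^ (m + 2) * d := by
              rw [e1]
          _ = (1 - r * ((k : O) + 1)) * G.coeff i + π ^ (m + 2) * (d - r * e) := by ring
          _ = (1 - (1 + π * s)) * (π ^ (m + 1) * g) + π ^ (m + 2) * (d - r * e) := by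
              rw [hsk, hg]
          _ = π ^ (m + 2) * (-(s * g) + d - r * e) := by ring
  -- contradiction with bounded torsion
  obtain ⟨c₀, hc₀⟩ := htors
  obtain ⟨G, hG, ⟨y, hy⟩, hGneg⟩ := key c₀
  obtain ⟨G', hG', hGG'⟩ := hc₀ (c₀ + 1) G hG (by omega) hGneg
  have hzero : G - π • G' = 0 := by
    apply hinj _ (Λ.sub_mem hG (Λ.smul_mem _ hG'))
    intro i hi
    rw [HahnSeries.coeff_sub, HahnSeries.coeff_smul, smul_eq_mul, hGG' i hi]
    have : c₀ + 1 - c₀ = 1 := by omega
    rw [this, pow_one, sub_self]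
  have h0 : G.coeff 0 = π * G'.coeff 0 := by
    have := congrArg (fun s : LaurentSeries O => s.coeff 0) (sub_eq_zero.mp hzero)
    simpa using this
  have h1 : G.coeff 0 - 1 = π * y.coeff 0 := by
    have := congrArg (fun s : LaurentSeries O => s.coeff 0) hy
    simp only [HahnSeries.coeff_sub, HahnSeries.coeff_one, if_true] at this
    rw [this, hP, coeff_C_mul]
  apply hπ
  refine isUnit_of_dvd_one ⟨G'.coeff 0 - y.coeff 0, ?_⟩
  linear_combination h0 - h1

/-- **Polar Kummer core over a noetherian domain** (e.g. the DVR of a number field):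
the torsion bound is automatic. -/
theorem polar_core_of_noetherian [IsNoetherianRing O] (π : O) (hπ0 : π ≠ 0) (hπ : ¬ IsUnit π)
    (p : ℕ) (r : O) (hr : π ∣ r * (p : O) - 1) (n : ℕ) (Λ Λ₁ : Submodule O (LaurentSeries O))
    (hord : ∀ G ∈ Λ, ∀ i : ℤ, i < -(n : ℤ) → G.coeff i = 0)
    (hinj : ∀ G ∈ Λ, (∀ i : ℤ, i < 0 → G.coeff i = 0) → G = 0)
    (hone : (1 : LaurentSeries O) ∈ Λ₁)
    (hsat : ∀ x : LaurentSeries O, π • x ∈ Λ₁ → x ∈ Λ₁)
    (hpow : ∀ G ∈ Λ, G ^ p ∈ Λ₁)
    (hconst : ∀ x ∈ Λ₁, (∀ i : ℤ, i < 0 → π ∣ x.coeff i) →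
      ∃ c : O, ∀ i : ℤ, π ∣ (x - HahnSeries.C c).coeff i)
    (hlift : ∀ x ∈ Λ₁, (∀ i : ℤ, i < -(n : ℤ) → π ∣ x.coeff i) →
      ∃ G ∈ Λ, ∀ i : ℤ, π ∣ (x - G).coeff i) : False := by
  classical
  refine polar_core π hπ0 hπ p r hr n Λ Λ₁ hord hinj hone hsat hpow hconst hlift ?_
  -- the polar part map
  let pp : Λ →ₗ[O] (Fin n → O) :=
    { toFun := fun G j => (G : LaurentSeries O).coeff (-((j : ℕ) : ℤ) - 1)
      map_add' := by intro G G'; funext j; simp
      map_smul' := by intro c G; funext j; simp }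
  let f : ℕ →o Submodule O (Fin n → O) :=
    { toFun := fun k => (LinearMap.range pp).comap ((π ^ k) • (LinearMap.id : (Fin n → O) →ₗ[O] _))
      monotone' := by
        intro a b hab ψ hψ
        rw [Submodule.mem_comap] at hψ ⊢
        obtain ⟨G, hG⟩ := hψ
        refine ⟨(π ^ (b - a)) • G, ?_⟩
        rw [map_smul, hG]
        simp only [LinearMap.smul_apply, LinearMap.id_coe, id_eq, smul_smul]
        rw [← _root_.pow_add]
        congr 2
        omega }
  obtain ⟨c₀, hc₀⟩ := (monotone_stabilizes_iff_noetherian (R := O) (M := Fin n → O)).mpr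
    inferInstance f
  refine ⟨c₀, ?_⟩
  intro k G hG hk hGdiv
  -- the quotient vector
  have hdiv : ∀ j : Fin n, π ^ k ∣ G.coeff (-((j : ℕ) : ℤ) - 1) := fun j => hGdiv _ (by omega)
  let ψ : Fin n → O := fun j => Classical.choose (hdiv j)
  have hψ : ∀ j : Fin n, G.coeff (-((j : ℕ) : ℤ) - 1) = π ^ k * ψ j :=
    fun j => Classical.choose_spec (hdiv j)
  have hmem : ψ ∈ f k := by
    show ψ ∈ (LinearMap.range pp).comap ((π ^ k) • (LinearMap.id : (Fin n → O) →ₗ[O] _))
    rw [Submodule.mem_comap]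
    refine ⟨⟨G, hG⟩, ?_⟩
    funext j
    show G.coeff (-((j : ℕ) : ℤ) - 1) = _
    rw [hψ j]
    simp
  rw [← hc₀ k hk] at hmem
  have hmem' : ψ ∈ (LinearMap.range pp).comap
      ((π ^ c₀) • (LinearMap.id : (Fin n → O) →ₗ[O] _)) := hmem
  rw [Submodule.mem_comap] at hmem'
  obtain ⟨G', hG'⟩ := hmem'
  refine ⟨G', G'.2, ?_⟩
  intro i hi
  by_cases hin : i < -(n : ℤ)
  · rw [hord G hG i hin, hord G' G'.2 i hin, mul_zero]
  · have hj : (-i - 1).toNat < n := by omega
    have hij : i = -(((⟨(-i - 1).toNat, hj⟩ : Fin n) : ℕ) : ℤ) - 1 := by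
      simp only
      omega
    have h1 := hψ ⟨(-i - 1).toNat, hj⟩
    have h2 := congrFun hG' ⟨(-i - 1).toNat, hj⟩
    have h2' : (G' : LaurentSeries O).coeff (-(((⟨(-i - 1).toNat, hj⟩ : Fin n) : ℕ) : ℤ) - 1)
        = π ^ c₀ * ψ ⟨(-i - 1).toNat, hj⟩ := by
      rw [show (G' : LaurentSeries O).coeff (-(((⟨(-i - 1).toNat, hj⟩ : Fin n) : ℕ) : ℤ) - 1)
        = pp G' ⟨(-i - 1).toNat, hj⟩ from rfl, h2]
      simp
    rw [← hij] at h1 h2'
    rw [h1, h2', ← mul_assoc, ← _root_.pow_add]
    congr 2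
    omega

end Main

end Fermat.Agent.S18.helper99
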