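import Mathlib
import Fermat.Prelude.Def_ModularCurve_LaurentCoeff
import Fermat.Agent.S18.helper705_TrackCEnd
import Fermat.Agent.S18.helper99_PolarCore

/-!
# S18, track C: the generic core in REDUCTION FORM

Mathlib + Prelude `coeffMap` only; built on the landed `helper705.trackC_endgame_twisted`.

* `finrank_add_le_of_kl` (COUNT): a space `W` of Laurent series over a field with pole order `≤ n`,
  "no polar part ⟹ constant" and killed by `g` independent residue functionals has
  `dim W + g ≤ n + 1`.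
* `exists_indep_reductions` (LAT): over a DVR, `d` linearly independent Laurent series give `d`
  elements of the saturated lattice with linearly independent reductions (max-pivot echelon).
* `core_red`: the polar-part induction of track C (steps 2-4 of findings #2248 in the `u`-twisted
  form, no `m`-th root), with all hypotheses stated through the coefficientwise reduction.
-/

set_option autoImplicit false

open HahnSeries ModularCurve

namespace Fermat.Agent.S18.helper99

noncomputable section

section Count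

variable {k : Type*} [Field k]

/-- a product of two series supported in positive degrees has no constant term. -/
theorem coeff_zero_mul_eq_zero_of_pos (x f : LaurentSeries k)
    (hx : ∀ i : ℤ, i ≤ 0 → x.coeff i = 0) (hf : ∀ i : ℤ, i ≤ 0 → f.coeff i = 0) :
    (x * f).coeff 0 = 0 := by
  rw [HahnSeries.coeff_mul]
  refine Finset.sum_eq_zero ?_
  rintro ⟨a, b⟩ hab
  rw [Finset.mem_antidiagonal] at hab
  obtain ⟨-, -, hab⟩ := hab
  simp only at hab
  rcases le_or_gt a 0 with ha | ha
  · simp [hx a ha]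
  · have hb : b ≤ 0 := by omega
    simp [hf b hb]

theorem coeff_zero_single_neg_mul (a : ℤ) (c : k) (f : LaurentSeries k) :
    (HahnSeries.single (-a) c * f).coeff 0 = c * f.coeff a := by
  have h := HahnSeries.coeff_single_mul_add (r := c) (x := f) (a := a) (b := -a)
  rwa [add_neg_cancel] at h

/-- the polar part (and constant term) with prescribed coefficients. -/
def lowPart (n : ℕ) (v : Fin (n + 1) → k) : LaurentSeries k :=
  ∑ a : Fin (n + 1), HahnSeries.single (-((a : ℕ) : ℤ)) (v a)

theorem lowPart_coeff_neg (n : ℕ) (v : Fin (n + 1) → k) (a : Fin (n + 1)) :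
    (lowPart n v).coeff (-((a : ℕ) : ℤ)) = v a := by
  classical
  rw [lowPart, HahnSeries.coeff_sum, Finset.sum_eq_single a]
  · rw [HahnSeries.coeff_single_same]
  · intro b _ hb
    rw [HahnSeries.coeff_single_of_ne]
    intro h
    apply hb
    ext
    omega
  · intro h; exact absurd (Finset.mem_univ a) h

theorem lowPart_coeff_of_pos (n : ℕ) (v : Fin (n + 1) → k) {i : ℤ} (hi : 0 < i) :
    (lowPart n v).coeff i = 0 := by
  rw [lowPart, HahnSeries.coeff_sum]
  refine Finset.sum_eq_zero fun b _ => ?_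
  rw [HahnSeries.coeff_single_of_ne]
  omega

theorem lowPart_coeff_of_lt (n : ℕ) (v : Fin (n + 1) → k) {i : ℤ} (hi : i < -(n : ℤ)) :
    (lowPart n v).coeff i = 0 := by
  rw [lowPart, HahnSeries.coeff_sum]
  refine Finset.sum_eq_zero fun b _ => ?_
  rw [HahnSeries.coeff_single_of_ne]
  have := b.2
  omega

theorem coeff_zero_lowPart_mul (n : ℕ) (v : Fin (n + 1) → k) (f : LaurentSeries k) :
    (lowPart n v * f).coeff 0 = ∑ a : Fin (n + 1), v a * f.coeff ((a : ℕ) : ℤ) := by
  rw [lowPart, Finset.sum_mul, HahnSeries.coeff_sum]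
  refine Finset.sum_congr rfl fun a _ => ?_
  rw [coeff_zero_single_neg_mul]

/-- **COUNT.**  `W` a space of Laurent series with pole order `≤ n` such that an element without
polar part is a constant, killed by the functionals `y ↦ [q⁰] (y * fbar j)` for `g` series
`fbar j ∈ q k[[q]]` whose truncations at `q ^ n` are linearly independent: `dim W + g ≤ n + 1`. -/
theorem finrank_add_le_of_kl (n g : ℕ) (W : Submodule k (LaurentSeries k))
    (fbar : Fin g → LaurentSeries k)
    (hord : ∀ y ∈ W, ∀ i : ℤ, i < -(n : ℤ) → y.coeff i = 0)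
    (hconst : ∀ y ∈ W, (∀ i : ℤ, i < 0 → y.coeff i = 0) → ∃ c : k, y = HahnSeries.C c)
    (hKL : ∀ y ∈ W, ∀ j, (y * fbar j).coeff 0 = 0)
    (hf0 : ∀ j, ∀ i : ℤ, i ≤ 0 → (fbar j).coeff i = 0)
    (hftr : ∀ c : Fin g → k,
      (∀ i : ℕ, 1 ≤ i → i ≤ n → ∑ j, c j * (fbar j).coeff (i : ℤ) = 0) → c = 0) :
    FiniteDimensional k W ∧ Module.finrank k W + g ≤ n + 1 := by
  classical
  -- the coefficient map
  let Φ : W →ₗ[k] (Fin (n + 1) → k) :=
    { toFun := fun y a => (y : LaurentSeries k).coeff (-((a : ℕ) : ℤ))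
      map_add' := by intro y z; funext a; simp
      map_smul' := by intro c y; funext a; simp }
  have hΦ : ∀ (y : W) (a : Fin (n + 1)), Φ y a = (y : LaurentSeries k).coeff (-((a : ℕ) : ℤ)) :=
    fun _ _ => rfl
  have hlow : ∀ (y : W) (i : ℤ), i ≤ 0 →
      ((y : LaurentSeries k) - lowPart n (Φ y)).coeff i = 0 := by
    intro y i hi
    rw [HahnSeries.coeff_sub]
    by_cases hin : i < -(n : ℤ)
    · rw [hord y y.2 i hin, lowPart_coeff_of_lt n _ hin, sub_zero]
    · have ha : (-i).toNat < n + 1 := by omega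
      have hia : i = -(((⟨(-i).toNat, ha⟩ : Fin (n + 1)) : ℕ) : ℤ) := by
        simp only
        omega
      rw [hia, lowPart_coeff_neg, hΦ, sub_self]
  have hΦinj : Function.Injective Φ := by
    rw [← LinearMap.ker_eq_bot, LinearMap.ker_eq_bot']
    intro y hy
    have h0 : ∀ i : ℤ, i ≤ 0 → (y : LaurentSeries k).coeff i = 0 := by
      intro i hi
      have h := hlow y i hi
      rw [hy, HahnSeries.coeff_sub] at h
      have hz : (lowPart n (0 : Fin (n + 1) → k)).coeff i = 0 := by
        rw [lowPart, HahnSeries.coeff_sum]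
        refine Finset.sum_eq_zero fun b _ => ?_
        simp
      rwa [hz, sub_zero] at h
    obtain ⟨c, hc⟩ := hconst y y.2 (fun i hi => h0 i hi.le)
    have hc0 : c = 0 := by
      have := h0 0 le_rfl
      rw [hc, coeff_C_zero] at this
      exact this
    apply Subtype.ext
    rw [hc, hc0, map_zero]
    rfl
  have hfin : FiniteDimensional k W := Module.Finite.of_injective Φ hΦinj
  refine ⟨hfin, ?_⟩
  -- the matrix of the functionals
  let M : Matrix (Fin g) (Fin (n + 1)) k := fun j a => (fbar j).coeff ((a : ℕ) : ℤ)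
  have hM : ∀ y : W, M.mulVecLin (Φ y) = 0 := by
    intro y
    funext j
    rw [Matrix.mulVecLin_apply]
    show ∑ a, M j a * Φ y a = 0
    have h1 := coeff_zero_lowPart_mul n (Φ y) (fbar j)
    have h2 := coeff_zero_mul_eq_zero_of_pos ((y : LaurentSeries k) - lowPart n (Φ y)) (fbar j)
      (hlow y) (hf0 j)
    rw [sub_mul, HahnSeries.coeff_sub, hKL y y.2 j, zero_sub, neg_eq_zero] at h2
    rw [h2] at h1
    rw [h1]
    refine Finset.sum_congr rfl fun a _ => ?_
    rw [mul_comm]
  have hrank : M.rank = g := by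
    have hli : LinearIndependent k M.row := by
      rw [Fintype.linearIndependent_iff]
      intro c hc j
      have hc0 : c = 0 := by
        apply hftr
        intro i hi1 hin
        have hlt : i < n + 1 := by omega
        have := congrFun hc ⟨i, hlt⟩
        simp only [Finset.sum_apply, Pi.smul_apply, smul_eq_mul, Pi.zero_apply] at this
        exact this
      rw [hc0]; rfl
    rw [hli.rank_matrix, Fintype.card_fin]
  have hker : LinearMap.range Φ ≤ LinearMap.ker M.mulVecLin := by
    rintro _ ⟨y, rfl⟩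
    exact hM y
  have h1 : Module.finrank k (LinearMap.range Φ) = Module.finrank k W :=
    LinearMap.finrank_range_of_inj hΦinj
  have h2 := Submodule.finrank_mono hker
  have h3 := LinearMap.finrank_range_add_finrank_ker M.mulVecLin
  rw [Module.finrank_fin_fun] at h3
  have h4 : Module.finrank k (LinearMap.range M.mulVecLin) = g := hrank
  omega

end Count

section Core

variable {O : Type*} [CommRing O] {k : Type*} [Field k]

theorem coeffMap_eq_zero_iff (res : O →+* k) (π : O) (hπ : ∀ a : O, res a = 0 ↔ π ∣ a)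
    (x : LaurentSeries O) : coeffMap res x = 0 ↔ ∃ w : LaurentSeries O, x = π • w := by
  constructor
  · intro h
    have hdvd : ∀ i : ℤ, π ∣ x.coeff i := by
      intro i
      rw [← hπ]
      have := congrArg (fun s : LaurentSeries k => s.coeff i) h
      simpa using this
    obtain ⟨y, hy⟩ := exists_eq_C_mul_of_forall_dvd π x hdvd
    exact ⟨y, by rw [hy, HahnSeries.C_mul_eq_smul]⟩
  · rintro ⟨w, rfl⟩
    ext i
    rw [coeffMap_coeff, HahnSeries.coeff_smul, smul_eq_mul, map_mul, (hπ π).mpr dvd_rfl, zero_mul]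
    rfl

/-- the subalgebra `O[[q]] ⊆ O((q))` of series without polar part (for the coefficientwise
algebra structure `HahnSeries.instAlgebra`, whose module structure is the usual one). -/
def regSubalgebra (O : Type*) [CommRing O] :
    @Subalgebra O (LaurentSeries O) _ _ HahnSeries.instAlgebra :=
  @Subalgebra.mk O (LaurentSeries O) _ _ HahnSeries.instAlgebra (regSubring O).toSubsemiring (by
    intro c i hi
    have h : (@algebraMap O (LaurentSeries O) _ _ HahnSeries.instAlgebra) c = HahnSeries.C c :=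
      HahnSeries.algebraMap_apply
    rw [h]
    exact coeff_C_of_ne c (ne_of_lt hi))

theorem mem_regSubalgebra {x : LaurentSeries O} :
    x ∈ regSubalgebra O ↔ ∀ i : ℤ, i < 0 → x.coeff i = 0 := Iff.rfl

/-- series of pole order `≤ n`. -/
def ordSubmodule (O : Type*) [CommRing O] (n : ℕ) : Submodule O (LaurentSeries O) where
  carrier := {x | ∀ i : ℤ, i < -(n : ℤ) → x.coeff i = 0}
  add_mem' := by
    intro x y hx hy i hi
    rw [HahnSeries.coeff_add, hx i hi, hy i hi, add_zero]
  zero_mem' := by intro i _; rfl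
  smul_mem' := by
    intro c x hx i hi
    rw [HahnSeries.coeff_smul, hx i hi, smul_zero]

theorem mem_ordSubmodule {n : ℕ} {x : LaurentSeries O} :
    x ∈ ordSubmodule O n ↔ ∀ i : ℤ, i < -(n : ℤ) → x.coeff i = 0 := Iff.rfl

theorem single_smul' (c r : O) (a : ℤ) :
    (HahnSeries.single a (c • r) : LaurentSeries O) = c • HahnSeries.single a r := by
  ext j
  rw [HahnSeries.coeff_smul, HahnSeries.coeff_single, HahnSeries.coeff_single]
  split_ifs <;> simp

/-- the polar part with prescribed coefficients, as a linear map `O ^ n → O((q))`. -/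
def polarMap (O : Type*) [CommRing O] (n : ℕ) : (Fin n → O) →ₗ[O] LaurentSeries O where
  toFun a := ∑ i : Fin n, HahnSeries.single (-((i : ℕ) : ℤ) - 1) (a i)
  map_add' := by
    intro a b
    rw [← Finset.sum_add_distrib]
    refine Finset.sum_congr rfl fun i _ => ?_
    rw [Pi.add_apply, HahnSeries.single_add]
  map_smul' := by
    intro c a
    rw [Finset.smul_sum]
    refine Finset.sum_congr rfl fun i _ => ?_
    rw [Pi.smul_apply, RingHom.id_apply, single_smul']

theorem polarMap_coeff (n : ℕ) (a : Fin n → O) (i : Fin n) :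
    (polarMap O n a).coeff (-((i : ℕ) : ℤ) - 1) = a i := by
  classical
  show (∑ j : Fin n, HahnSeries.single (-((j : ℕ) : ℤ) - 1) (a j)).coeff _ = _
  rw [HahnSeries.coeff_sum, Finset.sum_eq_single i]
  · rw [HahnSeries.coeff_single_same]
  · intro b _ hb
    rw [HahnSeries.coeff_single_of_ne]
    intro h
    apply hb
    ext
    omega
  · intro h; exact absurd (Finset.mem_univ i) h

theorem polarMap_coeff_of_lt (n : ℕ) (a : Fin n → O) {i : ℤ} (hi : i < -(n : ℤ)) :
    (polarMap O n a).coeff i = 0 := by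
  show (∑ j : Fin n, HahnSeries.single (-((j : ℕ) : ℤ) - 1) (a j)).coeff _ = _
  rw [HahnSeries.coeff_sum]
  refine Finset.sum_eq_zero fun b _ => ?_
  rw [HahnSeries.coeff_single_of_ne]
  have := b.2
  omega

theorem coeffMap_smul (res : O →+* k) (a : O) (x : LaurentSeries O) :
    coeffMap res (a • x) = res a • coeffMap res x := by
  ext i
  rw [coeffMap_coeff, HahnSeries.coeff_smul, HahnSeries.coeff_smul, coeffMap_coeff, smul_eq_mul,
    smul_eq_mul, map_mul]

variable [IsDomain O] [IsNoetherianRing O]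

/-- **Track C core in reduction form.**  `O` a noetherian domain, `res : O → k` a surjection onto
a field with kernel `(π)`, `π ≠ 0`, `m` a unit of `O`.  `M1` ("integral functions regular away
from `∞`"), `Mchi` ("integral elements of `L(D + n∞)`") submodules of `O((q))`, `u ∈ O[[q]]` with
`u ≡ 1 mod π`, `B0 ⊆ k((q))` a subspace ("`B̄`"), `fbar j ∈ q k[[q]]` ("reduced cusp forms").
Then the listed hypotheses are contradictory. -/
theorem core_red (res : O →+* k) (hres : Function.Surjective res) (π : O) (hπ0 : π ≠ 0)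
    (hπ : ∀ a : O, res a = 0 ↔ π ∣ a) (m : ℕ) (hm : IsUnit (m : O)) (n g : ℕ)
    (M1 Mchi : Submodule O (LaurentSeries O)) (u : LaurentSeries O)
    (hu_pos : ∀ i : ℤ, i < 0 → u.coeff i = 0) (hu1 : coeffMap res u = 1)
    (B0 : Submodule k (LaurentSeries k)) (fbar : Fin g → LaurentSeries k)
    (h1 : (1 : LaurentSeries O) ∈ M1)
    (hsat1 : ∀ x : LaurentSeries O, π • x ∈ M1 → x ∈ M1)
    (hM1B : ∀ x ∈ M1, coeffMap res x ∈ B0)
    (hord : ∀ G ∈ Mchi, ∀ i : ℤ, i < -(n : ℤ) → G.coeff i = 0)
    (hpow : ∀ G ∈ Mchi, u * G ^ m ∈ M1)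
    (hMB : ∀ G ∈ Mchi, coeffMap res G ∈ B0)
    (hinj : ∀ G ∈ Mchi, (∀ i : ℤ, i < 0 → G.coeff i = 0) → G = 0)
    (hrank : ∃ e : Fin (n + 1 - g) → LaurentSeries O, (∀ i, e i ∈ Mchi) ∧
      LinearIndependent k (fun i => coeffMap res (e i)))
    (hconst : ∀ y ∈ B0, (∀ i : ℤ, i < 0 → y.coeff i = 0) → ∃ c : k, y = HahnSeries.C c)
    (hKL : ∀ y ∈ B0, ∀ j, (y * fbar j).coeff 0 = 0)
    (hf0 : ∀ j, ∀ i : ℤ, i ≤ 0 → (fbar j).coeff i = 0)
    (hftr : ∀ c : Fin g → k,
      (∀ i : ℕ, 1 ≤ i → i ≤ n → ∑ j, c j * (fbar j).coeff (i : ℤ) = 0) → c = 0) : False := by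
  classical
  have hπunit : ¬ IsUnit π := by
    intro h
    have h1' : res 1 = 0 := (hπ 1).mpr h.dvd
    rw [map_one] at h1'
    exact one_ne_zero h1'
  have hresπ : res π = 0 := (hπ π).mpr dvd_rfl
  obtain ⟨v, hv⟩ : ∃ v : LaurentSeries O, u = 1 + π • v := by
    have h0 : coeffMap res (u - 1) = 0 := by rw [map_sub, hu1, map_one, sub_self]
    obtain ⟨w, hw⟩ := (coeffMap_eq_zero_iff res π hπ _).mp h0
    exact ⟨w, by rw [← hw]; ring⟩
  -- the count
  set W : Submodule k (LaurentSeries k) := B0 ⊓ ordSubmodule k n with hW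
  obtain ⟨hfin, hle⟩ := finrank_add_le_of_kl n g W fbar (fun y hy => hy.2)
    (fun y hy => hconst y hy.1) (fun y hy => hKL y hy.1) hf0 hftr
  obtain ⟨e, he, heli⟩ := hrank
  have heW : ∀ i, coeffMap res (e i) ∈ W := fun i =>
    ⟨hMB _ (he i), fun j hj => by rw [coeffMap_coeff, hord _ (he i) j hj, map_zero]⟩
  let ebar : Fin (n + 1 - g) → W := fun i => ⟨coeffMap res (e i), heW i⟩
  have hli : LinearIndependent k ebar := LinearIndependent.of_comp W.subtype heli
  have hcard : Fintype.card (Fin (n + 1 - g)) = Module.finrank k W := by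
    have h2 := hli.fintype_card_le_finrank
    rw [Fintype.card_fin] at h2 ⊢
    omega
  have hspan : Submodule.span k (Set.range ebar) = ⊤ :=
    hli.span_eq_top_of_card_eq_finrank' hcard
  refine @helper705.trackC_endgame_twisted O (LaurentSeries O) _ _ HahnSeries.instAlgebra π m hm
    (regSubalgebra O) (ordSubmodule O n) M1 Mchi u v hu_pos hv ?_ ?_ ?_ hord h1 hpow hinj ?_ ?_
    ?_ ?_
  · -- hsat
    intro x hx i hi
    have := hx i hi
    rw [HahnSeries.coeff_smul, smul_eq_mul] at this
    exact (mul_eq_zero.mp this).resolve_left hπ0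
  · -- hEn_pos
    intro x hx i hi
    exact hx i (by omega)
  · -- hEn_sat
    intro x hx i hi
    have := hx i hi
    rw [HahnSeries.coeff_smul, smul_eq_mul] at this
    exact (mul_eq_zero.mp this).resolve_left hπ0
  · -- hconst
    rintro z hz ⟨w, hw⟩
    have hzB : coeffMap res z ∈ B0 := hM1B z hz
    have hzpol : ∀ i : ℤ, i < 0 → (coeffMap res z).coeff i = 0 := by
      intro i hi
      have h := hw i hi
      rw [HahnSeries.coeff_sub, HahnSeries.coeff_smul, smul_eq_mul, sub_eq_zero] at h
      rw [coeffMap_coeff, h, map_mul, hresπ, zero_mul]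
    obtain ⟨c, hc⟩ := hconst _ hzB hzpol
    have hc' : c = res (z.coeff 0) := by
      have := congrArg (fun s : LaurentSeries k => s.coeff 0) hc
      simp only [coeffMap_coeff] at this
      rw [this, coeff_C_zero]
    have h0 : coeffMap res (z - HahnSeries.C (z.coeff 0)) = 0 := by
      rw [map_sub, hc, hc']
      ext i
      rw [HahnSeries.coeff_sub, coeffMap_coeff]
      by_cases hi : i = 0
      · subst hi; rw [coeff_C_zero, coeff_C_zero, sub_self]; rfl
      · rw [coeff_C_of_ne _ hi, coeff_C_of_ne _ hi, map_zero, sub_self]; rfl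
    obtain ⟨t, ht⟩ := (coeffMap_eq_zero_iff res π hπ _).mp h0
    have hCmem : (HahnSeries.C (z.coeff 0) : LaurentSeries O) ∈ M1 := by
      have : (HahnSeries.C (z.coeff 0) : LaurentSeries O) = (z.coeff 0) • (1 : LaurentSeries O) := by
        rw [← HahnSeries.C_mul_eq_smul, mul_one]
      rw [this]
      exact M1.smul_mem _ h1
    refine ⟨z.coeff 0, t, hsat1 t (by rw [← ht]; exact M1.sub_mem hz hCmem), ?_⟩
    have h : (@algebraMap O (LaurentSeries O) _ _ HahnSeries.instAlgebra) (z.coeff 0)
        = HahnSeries.C (z.coeff 0) := HahnSeries.algebraMap_apply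
    rw [h, ← ht]; ring
  · -- hred
    rintro t ht ⟨w, hw⟩
    have htW : coeffMap res t ∈ W := by
      refine ⟨hM1B t ht, fun i hi => ?_⟩
      have h := hw i hi
      rw [HahnSeries.coeff_sub, HahnSeries.coeff_smul, smul_eq_mul, sub_eq_zero] at h
      rw [coeffMap_coeff, h, map_mul, hresπ, zero_mul]
    have hmem : (⟨coeffMap res t, htW⟩ : W) ∈ Submodule.span k (Set.range ebar) := by
      rw [hspan]; exact Submodule.mem_top
    obtain ⟨c, hc⟩ := (Submodule.mem_span_range_iff_exists_fun k).mp hmem
    choose a ha using fun i => hres (c i)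
    refine ⟨∑ i, a i • e i, Submodule.sum_mem _ fun i _ => Mchi.smul_mem _ (he i), ?_⟩
    have h0 : coeffMap res (∑ i, a i • e i - t) = 0 := by
      rw [map_sub, map_sum]
      have hc' := congrArg (fun y : W => (y : LaurentSeries k)) hc
      simp only [Submodule.coe_sum, Submodule.coe_smul] at hc'
      rw [← hc', sub_eq_zero]
      refine Finset.sum_congr rfl fun i _ => ?_
      rw [coeffMap_smul, ha]
    obtain ⟨w', hw'⟩ := (coeffMap_eq_zero_iff res π hπ _).mp h0
    exact ⟨w', by rw [← hw']; ring⟩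
  · -- hBT
    refine @helper705.bounded_torsion_of_noetherian O (LaurentSeries O) _ _ HahnSeries.instAlgebra
      (Fin n → O) _ _ _ π (polarMap O n) (regSubalgebra O) (ordSubmodule O n) Mchi ?_
    intro Psi hPsi
    refine ⟨0, Mchi.zero_mem, fun i => Psi.coeff (-((i : ℕ) : ℤ) - 1), ?_⟩
    intro j hj
    rw [sub_zero, HahnSeries.coeff_sub]
    by_cases hjn : j < -(n : ℤ)
    · rw [hPsi j hjn, polarMap_coeff_of_lt n _ hjn, sub_zero]
    · have hlt : (-j - 1).toNat < n := by omega
      have hji : j = -(((⟨(-j - 1).toNat, hlt⟩ : Fin n) : ℕ) : ℤ) - 1 := by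
        simp only
        omega
      rw [hji, polarMap_coeff, sub_self]
  · -- hone
    rintro ⟨w, hw⟩
    have := congrArg (fun s : LaurentSeries O => s.coeff 0) hw
    simp only [HahnSeries.coeff_smul, smul_eq_mul] at this
    rw [HahnSeries.coeff_one, if_pos rfl] at this
    exact hπunit (isUnit_of_dvd_one ⟨_, this⟩)

end Core

section Lat

variable {O : Type*} [CommRing O] [IsDomain O] [IsDiscreteValuationRing O]

/-- a nonzero Laurent series over a DVR is a power of the uniformiser times a series with a unit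
coefficient. -/
theorem exists_unit_coeff (ϖ : O) (hϖ : Irreducible ϖ) (x : LaurentSeries O) (hx : x ≠ 0) :
    ∃ (v : ℕ) (y : LaurentSeries O) (s : ℤ), x = (ϖ ^ v) • y ∧ IsUnit (y.coeff s) := by
  classical
  have hne : ∃ n : ℕ, ∃ i : ℤ, x.coeff i ≠ 0 ∧ ∃ u : Oˣ, x.coeff i = u * ϖ ^ n := by
    obtain ⟨i, hi⟩ : ∃ i : ℤ, x.coeff i ≠ 0 := by
      by_contra h
      push Not at h
      exact hx (HahnSeries.ext (funext h))
    obtain ⟨n, u, hu⟩ := IsDiscreteValuationRing.eq_unit_mul_pow_irreducible hi hϖ
    exact ⟨n, i, hi, u, hu⟩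
  obtain ⟨v, ⟨s, hs0, u, hu⟩, hmin⟩ : ∃ v : ℕ,
      (∃ i : ℤ, x.coeff i ≠ 0 ∧ ∃ u : Oˣ, x.coeff i = u * ϖ ^ v) ∧
      ∀ n : ℕ, (∃ i : ℤ, x.coeff i ≠ 0 ∧ ∃ u : Oˣ, x.coeff i = u * ϖ ^ n) → v ≤ n :=
    ⟨Nat.find hne, Nat.find_spec hne, fun n hn => Nat.find_min' hne hn⟩
  have hdvd : ∀ i : ℤ, ϖ ^ v ∣ x.coeff i := by
    intro i
    by_cases hi : x.coeff i = 0
    · rw [hi]; exact dvd_zero _
    · obtain ⟨n, u', hu'⟩ := IsDiscreteValuationRing.eq_unit_mul_pow_irreducible hi hϖ
      have hle : v ≤ n := hmin n ⟨i, hi, u', hu'⟩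
      rw [hu']
      exact Dvd.dvd.mul_left (pow_dvd_pow ϖ hle) _
  obtain ⟨y, hy⟩ := exists_eq_C_mul_of_forall_dvd (ϖ ^ v) x hdvd
  refine ⟨v, y, s, by rw [hy, HahnSeries.C_mul_eq_smul], ?_⟩
  have h1 : x.coeff s = ϖ ^ v * y.coeff s := by
    rw [hy, coeff_C_mul]
  have h2 : y.coeff s = u := by
    have h3 : ϖ ^ v * y.coeff s = ϖ ^ v * (u : O) := by
      rw [← h1, hu, mul_comm]
    exact mul_left_cancel₀ (pow_ne_zero _ hϖ.ne_zero) h3
  rw [h2]
  exact u.isUnit

/-- **Max-pivot echelon form over a DVR.** -/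
theorem exists_echelon (ϖ : O) (hϖ : Irreducible ϖ) :
    ∀ (d : ℕ) (f : Fin d → LaurentSeries O), LinearIndependent O f →
      ∃ (e : Fin d → LaurentSeries O) (s : Fin d → ℤ),
        (∀ i, ∃ c : O, c ≠ 0 ∧ c • e i ∈ Submodule.span O (Set.range f)) ∧
        (∀ i j, (e i).coeff (s j) = if i = j then 1 else 0) := by
  classical
  intro d
  induction d with
  | zero =>
    intro f _
    exact ⟨fun i => i.elim0, fun i => i.elim0, fun i => i.elim0, fun i => i.elim0⟩
  | succ d ih =>
    intro f hf
    have hf' : LinearIndependent O (fun i : Fin d => f i.castSucc) :=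
      hf.comp _ (Fin.castSucc_injective d)
    obtain ⟨e, s, hspan, hech⟩ := ih _ hf'
    have hle : Submodule.span O (Set.range fun i : Fin d => f i.castSucc)
        ≤ Submodule.span O (Set.range f) := by
      apply Submodule.span_mono
      rintro _ ⟨i, rfl⟩
      exact ⟨i.castSucc, rfl⟩
    choose c hc0 hc using hspan
    set C : O := ∏ j, c j with hC
    have hC0 : C ≠ 0 := Finset.prod_ne_zero_iff.mpr fun j _ => hc0 j
    have hCe : ∀ j, C • e j ∈ Submodule.span O (Set.range fun i : Fin d => f i.castSucc) := by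
      intro j
      have h1 : C = (∏ i ∈ Finset.univ.erase j, c i) * c j := by
        rw [hC, Finset.prod_erase_mul _ _ (Finset.mem_univ j)]
      rw [h1, mul_smul]
      exact Submodule.smul_mem _ _ (hc j)
    set a : Fin d → O := fun j => (f (Fin.last d)).coeff (s j) with ha
    set x : LaurentSeries O := f (Fin.last d) - ∑ j, a j • e j with hx
    have hxs : ∀ j, x.coeff (s j) = 0 := by
      intro j
      rw [hx, HahnSeries.coeff_sub, HahnSeries.coeff_sum, Finset.sum_eq_single j]
      · rw [HahnSeries.coeff_smul, hech j j, if_pos rfl, smul_eq_mul, mul_one, sub_self]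
      · intro b _ hb
        rw [HahnSeries.coeff_smul, hech b j, if_neg hb, smul_zero]
      · intro h; exact absurd (Finset.mem_univ j) h
    have hx0 : x ≠ 0 := by
      intro h0
      have h1 : f (Fin.last d) = ∑ j, a j • e j := sub_eq_zero.mp (hx ▸ h0)
      have h2 : C • f (Fin.last d) ∈
          Submodule.span O (Set.range fun i : Fin d => f i.castSucc) := by
        rw [h1, Finset.smul_sum]
        refine Submodule.sum_mem _ fun j _ => ?_
        rw [smul_comm]
        exact Submodule.smul_mem _ _ (hCe j)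
      obtain ⟨b, hb⟩ := (Submodule.mem_span_range_iff_exists_fun O).mp h2
      have h3 := Fintype.linearIndependent_iff.mp hf (Fin.snoc b (-C)) (by
        rw [Fin.sum_univ_castSucc]
        simp only [Fin.snoc_castSucc, Fin.snoc_last]
        rw [hb, neg_smul, add_neg_cancel]) (Fin.last d)
      rw [Fin.snoc_last, neg_eq_zero] at h3
      exact hC0 h3
    obtain ⟨v, y, t, hxy, hunit⟩ := exists_unit_coeff ϖ hϖ x hx0
    obtain ⟨w, hw⟩ := hunit
    have hϖv : ϖ ^ v ≠ 0 := pow_ne_zero _ hϖ.ne_zero
    have hys : ∀ j, y.coeff (s j) = 0 := by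
      intro j
      have h := hxs j
      rw [hxy, HahnSeries.coeff_smul, smul_eq_mul] at h
      exact (mul_eq_zero.mp h).resolve_left hϖv
    set en : LaurentSeries O := ((w⁻¹ : Oˣ) : O) • y with hen
    have hent : en.coeff t = 1 := by
      rw [hen, HahnSeries.coeff_smul, ← hw, smul_eq_mul, Units.inv_mul]
    have hens : ∀ j, en.coeff (s j) = 0 := by
      intro j
      rw [hen, HahnSeries.coeff_smul, hys j, smul_zero]
    -- the scalar for the new vector
    set cn : O := C * (ϖ ^ v * (w : O)) with hcn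
    have hcn0 : cn ≠ 0 := mul_ne_zero hC0 (mul_ne_zero hϖv w.ne_zero)
    have hcnen : cn • en ∈ Submodule.span O (Set.range f) := by
      have h1 : cn • en = C • x := by
        have hw1 : (w : O) * ((w⁻¹ : Oˣ) : O) = 1 := Units.mul_inv w
        rw [hcn, hen, hxy, smul_smul, smul_smul]
        have h2 : C * (ϖ ^ v * (w : O)) * ((w⁻¹ : Oˣ) : O) = C * ϖ ^ v := by
          linear_combination (C * ϖ ^ v) * hw1
        rw [h2]
      rw [h1, hx, smul_sub]
      refine Submodule.sub_mem _ (Submodule.smul_mem _ _ (Submodule.subset_span ⟨_, rfl⟩)) ?_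
      rw [Finset.smul_sum]
      refine Submodule.sum_mem _ fun j _ => ?_
      rw [smul_comm]
      exact Submodule.smul_mem _ _ (hle (hCe j))
    refine ⟨Fin.snoc (fun i => e i - (e i).coeff t • en) en, Fin.snoc s t, ?_, ?_⟩
    · intro i
      refine Fin.lastCases ?_ (fun i' => ?_) i
      · rw [Fin.snoc_last]
        exact ⟨cn, hcn0, hcnen⟩
      · rw [Fin.snoc_castSucc]
        refine ⟨cn * c i', mul_ne_zero hcn0 (hc0 i'), ?_⟩
        have h1 : (cn * c i') • (e i' - (e i').coeff t • en)
            = cn • (c i' • e i') - (c i' * (e i').coeff t) • (cn • en) := by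
          module
        rw [h1]
        exact Submodule.sub_mem _ (Submodule.smul_mem _ _ (hle (hc i')))
          (Submodule.smul_mem _ _ hcnen)
    · intro i j
      refine Fin.lastCases ?_ (fun i' => ?_) i <;> refine Fin.lastCases ?_ (fun j' => ?_) j
      · rw [Fin.snoc_last, Fin.snoc_last, hent, if_pos rfl]
      · rw [Fin.snoc_last, Fin.snoc_castSucc, hens j', if_neg (Fin.castSucc_ne_last j').symm]
      · rw [Fin.snoc_castSucc, Fin.snoc_last, HahnSeries.coeff_sub, HahnSeries.coeff_smul, hent,
          smul_eq_mul, mul_one, sub_self, if_neg (Fin.castSucc_ne_last i')]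
      · rw [Fin.snoc_castSucc, Fin.snoc_castSucc, HahnSeries.coeff_sub, HahnSeries.coeff_smul,
          hens j', smul_zero, sub_zero, hech i' j']
        simp only [Fin.castSucc_inj]

/-- **LAT.**  Over a DVR `O`, `d` linearly independent Laurent series span a lattice whose
saturation contains `d` elements with linearly independent reductions (for any ring hom `res`
from `O` to a field). -/
theorem exists_indep_reductions {k : Type*} [Field k] (res : O →+* k) (ϖ : O) (hϖ : Irreducible ϖ)
    (d : ℕ) (f : Fin d → LaurentSeries O) (hf : LinearIndependent O f) :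
    ∃ e : Fin d → LaurentSeries O,
      (∀ i, ∃ c : O, c ≠ 0 ∧ c • e i ∈ Submodule.span O (Set.range f)) ∧
      LinearIndependent k (fun i => coeffMap res (e i)) := by
  classical
  obtain ⟨e, s, hspan, hech⟩ := exists_echelon ϖ hϖ d f hf
  refine ⟨e, hspan, ?_⟩
  rw [Fintype.linearIndependent_iff]
  intro c hc j
  have h := congrArg (fun y : LaurentSeries k => y.coeff (s j)) hc
  simp only [HahnSeries.coeff_sum, HahnSeries.coeff_smul, coeffMap_coeff, HahnSeries.coeff_zero]
    at h
  rw [Finset.sum_eq_single j] at h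
  · rw [hech j j, if_pos rfl, map_one, smul_eq_mul, mul_one] at h
    exact h
  · intro b _ hb
    rw [hech b j, if_neg hb, map_zero, smul_zero]
  · intro h'; exact absurd (Finset.mem_univ j) h'

end Lat

end

end Fermat.Agent.S18.helper99
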