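import Mathlib
import Fermat.Agent.S18.helper99_SpecC
import Fermat.Agent.S18.helper99_CoreRed
import Fermat.Agent.S18.helper981_Riemann
import Fermat.Agent.S18.helper4661_NFDescent
import Fermat.Agent.S18.helper8351_NFDescent
import Fermat.Agent.S18.helper3784_LaurentCIC
import Fermat.Agent.S18.helper8991_GaussInst

/-!
# S18, TRACK C: the closing theorem `kf0_of_trackC`

`PlaceFacts N → Stmt_R N → (∀ A over ℓ, Stmt_Gauss, Stmt_BD, Stmt_Bbar, Stmt_Norm) →
helper3054.Stmt_KF0 N ℓ` (plan: findings #2856).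
-/

set_option autoImplicit false
set_option synthInstance.maxHeartbeats 400000

noncomputable section

namespace Fermat.Agent.S18.helper99

open ModularCurve AlgebraicCurve HahnSeries

/-! ## Part A: generic function-field lemmas -/

section GenericFF

variable {K F : Type*} [Field K] [Field F] [Algebra K F]

theorem nsmul_single_one (P : Place K F) (n : ℕ) :
    n • Finsupp.single P (1 : ℤ) = Finsupp.single P (n : ℤ) := by
  rw [Finsupp.smul_single, nsmul_eq_mul, mul_one]

/-- the divisor `div(u) / m` when all orders of `u` are divisible by `m`. -/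
theorem exists_divisor_div [HasPrincipalDivisors K F] (u : F) (hu : u ≠ 0) (m : ℕ) (hm : m ≠ 0)
    (hdvd : ∀ P : Place K F, (m : ℤ) ∣ P.ord u) :
    ∃ D : Divisor K F, (∀ P : Place K F, (m : ℤ) * D P = P.ord u) ∧ Divisor.degree D = 0 := by
  obtain ⟨Du, hDu, hdeg0⟩ := HasPrincipalDivisors.exists_divisor (K := K) u hu
  refine ⟨Du.mapRange (fun z => z / (m : ℤ)) (by simp), ?_, ?_⟩
  · intro P
    rw [Finsupp.mapRange_apply, hDu P]
    exact Int.mul_ediv_cancel' (hdvd P)
  · have hm' : (m : ℤ) ≠ 0 := by exact_mod_cast hm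
    have h1 : (m : ℤ) • Du.mapRange (fun z => z / (m : ℤ)) (by simp) = Du := by
      ext P
      rw [Finsupp.smul_apply, Finsupp.mapRange_apply, smul_eq_mul, hDu P]
      exact Int.mul_ediv_cancel' (hdvd P)
    have h2 := congrArg Divisor.degree h1
    rw [map_zsmul, hdeg0, smul_eq_mul] at h2
    exact (mul_eq_zero.mp h2).resolve_left hm'

/-- a nonzero element of `L(D)` with `deg D = 0`, `m D = div u`, gives `u f ^ m` constant. -/
theorem const_of_mem_rr [HasPrincipalDivisors K F] (hdeg : ∀ v : Place K F, v.deg = 1)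
    (hconst : ∀ f : F, f ≠ 0 → (∀ v : Place K F, v.ord f = 0) → ∃ c : K, f = algebraMap K F c)
    (u : F) (hu : u ≠ 0) (m : ℕ) (D : Divisor K F)
    (hD : ∀ P : Place K F, (m : ℤ) * D P = P.ord u) (hD0 : Divisor.degree D = 0)
    (f : F) (hf : f ≠ 0) (hfD : f ∈ riemannRochSpace D) :
    ∃ c : K, u * f ^ m = algebraMap K F c := by
  obtain ⟨Df, hDf, hDf0⟩ := HasPrincipalDivisors.exists_divisor (K := K) f hf
  have hnn : 0 ≤ Df + D := by
    rw [Finsupp.le_def]
    intro v
    rw [Finsupp.add_apply, hDf v]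
    rcases mem_riemannRochSpace_iff.mp hfD v with h | h
    · exact absurd h hf
    · simp only [Finsupp.coe_zero, Pi.zero_apply]; omega
  have hzero : Df + D = 0 :=
    helper981.eq_zero_of_degree_eq_zero hdeg hnn (by rw [map_add, hDf0, hD0, add_zero])
  have hord : ∀ v : Place K F, v.ord f = -D v := by
    intro v
    have h := congrArg (fun E : Divisor K F => E v) hzero
    simp only [Finsupp.add_apply, Finsupp.coe_zero, Pi.zero_apply] at h
    rw [hDf v] at h
    omega
  apply hconst _ (mul_ne_zero hu (pow_ne_zero m hf))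
  intro v
  rw [v.ord_mul hu (pow_ne_zero m hf), helper3054.ord_pow, hord v, ← hD v]
  ring

end GenericFF

/-! ## Part B: the cusp `∞` -/

section Cusp

variable {N : ℕ}

local notation "Qb" => AlgebraicClosure ℚ

theorem coeff_eq_zero_of_lt_ord {P : Place Qb (modularFunctionFieldBar N)} (hP : IsCuspInf N P)
    {f : modularFunctionFieldBar N} (hf : f ≠ 0) {i : ℤ} (hi : i < P.ord f) :
    (f : LaurentSeries Qb).coeff i = 0 := by
  rw [hP f hf] at hi
  exact HahnSeries.coeff_eq_zero_of_lt_order hi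

/-- (B1) pole order at `∞` of elements of `L(D + n∞)`, `D(∞) = 0`. -/
theorem coeff_eq_zero_of_mem_rr {P : Place Qb (modularFunctionFieldBar N)} (hP : IsCuspInf N P)
    {D : Divisor Qb (modularFunctionFieldBar N)} (hDP : D P = 0) {n : ℕ}
    {f : modularFunctionFieldBar N}
    (hf : f ∈ riemannRochSpace (D + Finsupp.single P (n : ℤ))) {i : ℤ} (hi : i < -(n : ℤ)) :
    (f : LaurentSeries Qb).coeff i = 0 := by
  rcases eq_or_ne f 0 with rfl | hf0
  · rfl
  · rcases mem_riemannRochSpace_iff.mp hf P with h | h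
    · exact absurd h hf0
    · rw [Finsupp.add_apply, hDP, Finsupp.single_eq_same, zero_add] at h
      exact coeff_eq_zero_of_lt_ord hP hf0 (lt_of_lt_of_le hi h)

/-- (B2) an element of `L(D + n∞)` without polar part lies in `L(D)`. -/
theorem mem_rr_of_no_polar {P : Place Qb (modularFunctionFieldBar N)} (hP : IsCuspInf N P)
    {D : Divisor Qb (modularFunctionFieldBar N)} (hDP : D P = 0) {n : ℕ}
    {f : modularFunctionFieldBar N}
    (hf : f ∈ riemannRochSpace (D + Finsupp.single P (n : ℤ)))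
    (hpol : ∀ i : ℤ, i < 0 → (f : LaurentSeries Qb).coeff i = 0) :
    f ∈ riemannRochSpace D := by
  classical
  rw [mem_riemannRochSpace_iff]
  intro v
  rcases eq_or_ne f 0 with hf0 | hf0
  · exact Or.inl hf0
  · right
    by_cases hv : P = v
    · subst hv
      rw [hDP, neg_zero, hP f hf0]
      by_contra hlt
      push Not at hlt
      have hf0' : (f : LaurentSeries Qb) ≠ 0 := fun h => hf0 (Subtype.ext h)
      exact hf0' (HahnSeries.coeff_order_eq_zero.mp (hpol _ hlt))
    · rcases mem_riemannRochSpace_iff.mp hf v with h | h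
      · exact absurd h hf0
      · rwa [Finsupp.add_apply, Finsupp.single_apply, if_neg hv, add_zero] at h

/-- (B3) elements of `L(k∞)` are regular away from `∞`. -/
theorem regAwayInf_of_mem_rr {P : Place Qb (modularFunctionFieldBar N)} (hP : IsCuspInf N P)
    {k : ℕ} {f : modularFunctionFieldBar N}
    (hf : f ∈ riemannRochSpace (Finsupp.single P (k : ℤ))) : RegAwayInf N f := by
  classical
  intro v hv
  have hvP : P ≠ v := fun h => hv (h ▸ hP)
  rcases mem_riemannRochSpace_iff.mp hf v with h | h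
  · rw [h, Place.ord_zero]
  · rw [Finsupp.single_apply, if_neg hvP, neg_zero] at h
    exact h

/-- (B4) `u f ^ m ∈ L(mn∞)` for `f ∈ L(D + n∞)`, `m D = div u`. -/
theorem mul_pow_mem_rr {P : Place Qb (modularFunctionFieldBar N)}
    {D : Divisor Qb (modularFunctionFieldBar N)}
    {u : modularFunctionFieldBar N} (hu : u ≠ 0) {m : ℕ} (hm : m ≠ 0)
    (hD : ∀ v : Place Qb (modularFunctionFieldBar N), (m : ℤ) * D v = v.ord u) {n : ℕ}
    {f : modularFunctionFieldBar N}
    (hf : f ∈ riemannRochSpace (D + Finsupp.single P (n : ℤ))) :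
    u * f ^ m ∈ riemannRochSpace (Finsupp.single P ((m * n : ℕ) : ℤ)) := by
  classical
  rw [mem_riemannRochSpace_iff]
  intro v
  rcases eq_or_ne f 0 with hf0 | hf0
  · left
    rw [hf0, zero_pow hm, mul_zero]
  · right
    rcases mem_riemannRochSpace_iff.mp hf v with h | h
    · exact absurd h hf0
    · rw [v.ord_mul hu (pow_ne_zero m hf0), helper3054.ord_pow, ← hD v]
      rw [Finsupp.add_apply] at h
      have hm0 : (0 : ℤ) ≤ m := Nat.cast_nonneg m
      by_cases hv : P = v
      · subst hv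
        rw [Finsupp.single_eq_same] at h ⊢
        push_cast
        nlinarith
      · rw [Finsupp.single_apply, if_neg hv] at h ⊢
        nlinarith

end Cusp

/-! ## Part C: integrality -/

section Integrality

local notation "Qb" => AlgebraicClosure ℚ

/-- a power series with unit constant coefficient is invertible (Laurent series form). -/
theorem exists_mul_eq_one_of_isUnit_coeff_zero {R : Type*} [CommRing R] (p : LaurentSeries R)
    (hp : ∀ i : ℤ, i < 0 → p.coeff i = 0) (hu : IsUnit (p.coeff 0)) :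
    ∃ p' : LaurentSeries R, p * p' = 1 := by
  set P : PowerSeries R := PowerSeries.mk fun n => p.coeff n with hP
  have hPp : HahnSeries.ofPowerSeries ℤ R P = p := by
    ext i
    rcases lt_or_ge i 0 with hi | hi
    · rw [hp i hi, HahnSeries.ofPowerSeries_apply]
      refine HahnSeries.embDomain_of_notMem_range ?_
      rintro ⟨k, rfl⟩
      exact absurd hi (not_lt.mpr (Int.natCast_nonneg k))
    · lift i to ℕ using hi
      rw [HahnSeries.ofPowerSeries_apply_coeff, hP, PowerSeries.coeff_mk]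
  have hPu : IsUnit P := by
    rw [PowerSeries.isUnit_iff_constantCoeff, ← PowerSeries.coeff_zero_eq_constantCoeff_apply, hP,
      PowerSeries.coeff_mk]
    exact hu
  obtain ⟨P', hP'⟩ := hPu.exists_right_inv
  exact ⟨HahnSeries.ofPowerSeries ℤ R P', by rw [← hPp, ← map_mul, hP', map_one]⟩

/-- root form of CIC on `F`: if a constant multiple of `f ^ m` is `A`-integral, so is a constant
multiple of `f`. -/
theorem exists_const_mul_integral_of_pow {ℓ : ℕ} [Fact ℓ.Prime] {A : ValuationSubring Qb}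
    (hA : A.LiesOverPrime ℓ) (N : ℕ) {f : LaurentSeries Qb} (hf : f ∈ modularFunctionFieldBar N)
    (hf0 : f ≠ 0) {m : ℕ} (hm : 0 < m) {c1 : Qb} (hc1 : c1 ≠ 0)
    (hpow : HahnSeries.C c1 * f ^ m ∈ helper3784.coeffSubring (Γ := ℤ) A.toSubring) :
    ∃ c0 : Qb, c0 ≠ 0 ∧ HahnSeries.C c0 * f ∈ helper3784.coeffSubring (Γ := ℤ) A.toSubring := by
  obtain ⟨c0, hc0⟩ := IsAlgClosed.exists_pow_nat_eq c1 hm
  have hc00 : c0 ≠ 0 := by
    rintro rfl
    rw [zero_pow hm.ne'] at hc0
    exact hc1 hc0.symm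
  obtain ⟨c, X, Y, hc, hX, hY, -, -, hfXY⟩ :=
    helper8991.exists_normal_form A (IsLocalRing.residue A) N hf hf0
  obtain ⟨d, hd0, hdA, hdc⟩ : ∃ d : Qb, d ≠ 0 ∧ d ∈ A ∧ d * (c0 * c) ∈ A := by
    rcases A.mem_or_inv_mem (c0 * c) with h | h
    · exact ⟨1, one_ne_zero, A.one_mem, by rwa [one_mul]⟩
    · exact ⟨(c0 * c)⁻¹, inv_ne_zero (mul_ne_zero hc00 hc), h, by
        rw [inv_mul_cancel₀ (mul_ne_zero hc00 hc)]; exact A.one_mem⟩
  refine ⟨c0, hc00, ?_⟩
  refine helper3784.mem_coeffSubring_of_pow_mem A.toSubring (helper3784.harch_Qbar hA)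
    (Q := HahnSeries.C d * helper8991.inc A Y) ?_ ?_ ?_ hm ?_
  · intro i
    rw [helper8991.coeff_C_mul, helper8991.inc_coeff]
    exact A.mul_mem _ _ hdA (Y.coeff i).2
  · refine mul_ne_zero ?_ (helper8991.inc_ne_zero A (IsLocalRing.residue A) hY)
    intro h
    have := congrArg (fun s : LaurentSeries Qb => s.coeff 0) h
    simp at this
    exact hd0 this
  · have h1 : HahnSeries.C d * helper8991.inc A Y * (HahnSeries.C c0 * f)
        = HahnSeries.C (d * (c0 * c)) * helper8991.inc A X := by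
      rw [map_mul, map_mul]
      linear_combination (HahnSeries.C d * HahnSeries.C c0) * hfXY
    rw [h1]
    intro i
    rw [helper8991.coeff_C_mul, helper8991.inc_coeff]
    exact A.mul_mem _ _ hdc (X.coeff i).2
  · rw [mul_pow, ← map_pow, hc0]
    exact hpow

end Integrality

/-! ## Part D: pull-back modules -/

section Pull

local notation "Qb" => AlgebraicClosure ℚ

theorem coeffMap_smul_eq_algebraMap_mul {R : Type*} [CommRing R] {L : Type*} [Field L]
    (σ : R →+* L) (c : R) (G : LaurentSeries R) :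
    coeffMap σ (c • G) = algebraMap L (LaurentSeries L) (σ c) * coeffMap σ G := by
  rw [← HahnSeries.C_mul_eq_smul, map_mul, algebraMap_laurentSeries_eq_single, HahnSeries.C_apply,
    coeffMap_single]

theorem order_eq_zero_of_coeff {R : Type*} [CommRing R] (x : LaurentSeries R)
    (hx : ∀ i : ℤ, i < 0 → x.coeff i = 0) (h0 : x.coeff 0 ≠ 0) : x.order = 0 := by
  apply le_antisymm
  · exact HahnSeries.order_le_of_coeff_ne_zero h0
  · by_contra hlt
    push Not at hlt
    have hx0 : x = 0 := HahnSeries.coeff_order_eq_zero.mp (hx _ hlt)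
    rw [hx0] at h0
    exact h0 rfl

variable {O : Type*} [CommRing O] (σ : O →+* Qb) {N : ℕ}

/-- the `O`-module of series over `O` whose image under `σ` lies in the subspace `V` of `F`. -/
def pullSub (V : Submodule Qb (modularFunctionFieldBar N)) : Submodule O (LaurentSeries O) where
  carrier := {G | ∃ f : modularFunctionFieldBar N, f ∈ V ∧
    (f : LaurentSeries Qb) = coeffMap σ G}
  zero_mem' := ⟨0, V.zero_mem, by rw [map_zero]; rfl⟩
  add_mem' := by
    rintro G H ⟨f, hf, hfG⟩ ⟨g, hg, hgH⟩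
    exact ⟨f + g, V.add_mem hf hg, by rw [map_add, ← hfG, ← hgH]; rfl⟩
  smul_mem' := by
    rintro c G ⟨f, hf, hfG⟩
    refine ⟨σ c • f, V.smul_mem _ hf, ?_⟩
    rw [coeffMap_smul_eq_algebraMap_mul, ← hfG, Algebra.smul_def]
    rfl

theorem mem_pullSub {V : Submodule Qb (modularFunctionFieldBar N)} {G : LaurentSeries O} :
    G ∈ pullSub σ V ↔ ∃ f : modularFunctionFieldBar N, f ∈ V ∧
      (f : LaurentSeries Qb) = coeffMap σ G := Iff.rfl

theorem pullSub_sat (hσ : Function.Injective σ) {V : Submodule Qb (modularFunctionFieldBar N)}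
    {c : O} (hc : c ≠ 0) {x : LaurentSeries O} (h : c • x ∈ pullSub σ V) : x ∈ pullSub σ V := by
  obtain ⟨f, hf, hfx⟩ := h
  have hσc : σ c ≠ 0 := fun h0 => hc (hσ (h0.trans (map_zero σ).symm))
  refine ⟨(σ c)⁻¹ • f, V.smul_mem _ hf, ?_⟩
  rw [coeffMap_smul_eq_algebraMap_mul] at hfx
  rw [Algebra.smul_def]
  show algebraMap Qb (LaurentSeries Qb) (σ c)⁻¹ * (f : LaurentSeries Qb) = _
  rw [hfx, ← mul_assoc, ← map_mul, inv_mul_cancel₀ hσc, map_one, one_mul]

/-- the pull-back of a subalgebra `B ⊆ κ((q))` along a field embedding `k → κ`. -/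
def pullB {k κ : Type*} [Field k] [Field κ] (φ : k →+* κ) (B : Subalgebra κ (LaurentSeries κ)) :
    Submodule k (LaurentSeries k) where
  carrier := {y | coeffMap φ y ∈ B}
  zero_mem' := by
    show coeffMap φ 0 ∈ B
    rw [map_zero]
    exact B.zero_mem
  add_mem' := by
    intro x y hx hy
    show coeffMap φ (x + y) ∈ B
    rw [map_add]
    exact B.add_mem hx hy
  smul_mem' := by
    intro c y hy
    show coeffMap φ (c • y) ∈ B
    rw [coeffMap_smul_eq_algebraMap_mul]
    exact B.mul_mem (B.algebraMap_mem _) hy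

theorem mem_pullB {k κ : Type*} [Field k] [Field κ] (φ : k →+* κ)
    (B : Subalgebra κ (LaurentSeries κ)) {y : LaurentSeries k} :
    y ∈ pullB φ B ↔ coeffMap φ y ∈ B := Iff.rfl

/-- (C3) bounded denominators for the elements of `L(D + n∞)`. -/
theorem exists_integral_multiple {N : ℕ} {ℓ : ℕ} [Fact ℓ.Prime]
    {A : ValuationSubring Qb} (hA : A.LiesOverPrime ℓ) (hBD : Stmt_BD N A)
    {P : Place Qb (modularFunctionFieldBar N)} (hP : IsCuspInf N P)
    {D : Divisor Qb (modularFunctionFieldBar N)}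
    {u : modularFunctionFieldBar N} (hu : u ≠ 0) {m : ℕ} (hm : m ≠ 0)
    (hD : ∀ v : Place Qb (modularFunctionFieldBar N), (m : ℤ) * D v = v.ord u)
    {p : LaurentSeries A} (hp_pos : ∀ i : ℤ, i < 0 → p.coeff i = 0) (hp0 : IsUnit (p.coeff 0))
    (hup : (u : LaurentSeries Qb) = coeffMap A.subtype p)
    {n : ℕ} {f : modularFunctionFieldBar N} (hf0 : f ≠ 0)
    (hf : f ∈ riemannRochSpace (D + Finsupp.single P (n : ℤ))) :
    ∃ c0 : Qb, c0 ≠ 0 ∧ ∃ Y : LaurentSeries A,
      coeffMap A.subtype Y = HahnSeries.C c0 * (f : LaurentSeries Qb) := by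
  have h1 := mul_pow_mem_rr hu hm hD hf
  have h2 := regAwayInf_of_mem_rr hP h1
  obtain ⟨c, hc, y, hy⟩ := hBD _ h2
  obtain ⟨p', hp'⟩ := exists_mul_eq_one_of_isUnit_coeff_zero p hp_pos hp0
  have hpow : HahnSeries.C c * (f : LaurentSeries Qb) ^ m
      ∈ helper3784.coeffSubring (Γ := ℤ) A.toSubring := by
    rw [helper3784.mem_coeffSubring_iff_exists_coeffMap]
    refine ⟨y * p', ?_⟩
    have h3 : coeffMap A.subtype p * coeffMap A.subtype p' = 1 := by
      rw [← map_mul, hp', map_one]
    have h4 : ((u * f ^ m : modularFunctionFieldBar N) : LaurentSeries Qb)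
        = coeffMap A.subtype p * (f : LaurentSeries Qb) ^ m := by
      rw [← hup]
      rfl
    rw [map_mul, hy, h4]
    linear_combination (HahnSeries.C c * (f : LaurentSeries Qb) ^ m) * h3
  have hf0' : (f : LaurentSeries Qb) ≠ 0 := fun h => hf0 (Subtype.ext h)
  obtain ⟨c0, hc00, hc0f⟩ :=
    exists_const_mul_integral_of_pow hA N f.2 hf0' (Nat.pos_of_ne_zero hm) hc hpow
  obtain ⟨Y, hY⟩ := (helper3784.mem_coeffSubring_iff_exists_coeffMap A _).mp hc0f
  exact ⟨c0, hc00, Y, hY⟩

end Pull

/-! ## Part E: the closing theorem -/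

section Main

local notation "Qb" => AlgebraicClosure ℚ

theorem charP_residue_of_nonunits (ℓ : ℕ) [Fact ℓ.Prime] {L : Type*} [Field L]
    (A : ValuationSubring L) (hA : (ℓ : L) ∈ A.nonunits) :
    CharP (IsLocalRing.ResidueField A) ℓ := by
  have h0 : ((ℓ : ℕ) : IsLocalRing.ResidueField A) = 0 := by
    obtain ⟨ha, hm⟩ := A.mem_nonunits_iff_exists_mem_maximalIdeal.mp hA
    have e : ((ℓ : ℕ) : IsLocalRing.ResidueField A) =
        IsLocalRing.residue A (⟨(ℓ : L), ha⟩ : A) := by
      rw [← map_natCast (IsLocalRing.residue A) ℓ]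
      congr 1
    rw [e, IsLocalRing.residue_eq_zero_iff]
    exact hm
  obtain ⟨p, hp⟩ := CharP.exists (IsLocalRing.ResidueField A)
  have hdvd : p ∣ ℓ := (CharP.cast_eq_zero_iff (IsLocalRing.ResidueField A) p ℓ).mp h0
  have hp1 : p ≠ 1 := CharP.char_ne_one (IsLocalRing.ResidueField A) p
  have hpl : p = ℓ := ((Nat.dvd_prime (Fact.out : ℓ.Prime)).mp hdvd).resolve_left hp1
  exact hpl ▸ hp

/-- Riemann's inequality for all divisors from `Stmt_R` (at the cusp). -/
theorem riemann_of_stmt_R (N : ℕ) (hPF : PlaceFacts N) (hR : Stmt_R N)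
    (E : Divisor Qb (modularFunctionFieldBar N)) :
    Divisor.degree E + 1 -
        (Module.finrank ℂ (CuspForm (CongruenceSubgroup.Gamma0 N) 2) : ℤ) ≤
      (Module.finrank Qb (riemannRochSpace E) : ℤ) := by
  have := hPF.principal
  have hdeg := hPF.deg_one
  obtain ⟨Pinf, hPinf⟩ := hPF.cusp
  set gS : ℕ := Module.finrank ℂ (CuspForm (CongruenceSubgroup.Gamma0 N) 2) with hgS
  have hX : ∀ k : ℕ, 1 * (k + 1) ≤ Module.finrank Qb
      (riemannRochSpace (k • Finsupp.single Pinf (1 : ℤ) + gS • Finsupp.single Pinf (1 : ℤ))) := by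
    intro k
    rw [← add_nsmul]
    have h := hR Pinf hPinf (k + gS)
    push_cast at h
    have h' : ((k + 1 : ℕ) : ℤ) ≤ (Module.finrank Qb
        (riemannRochSpace ((k + gS) • Finsupp.single Pinf (1 : ℤ))) : ℤ) := by
      push_cast
      linarith
    rw [one_mul]
    exact_mod_cast h'
  have hC : (0 : Divisor Qb (modularFunctionFieldBar N)) ≤ gS • Finsupp.single Pinf (1 : ℤ) := by
    rw [nsmul_single_one, Finsupp.le_def]
    intro v
    classical
    rw [Finsupp.single_apply]
    split_ifs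
    · exact Nat.cast_nonneg gS
    · exact le_rfl
  have hB : Divisor.degree (Finsupp.single Pinf (1 : ℤ)) ≤ ((1 : ℕ) : ℤ) := by
    rw [helper981.degree_single_one hdeg]
    norm_num
  have h := helper981.riemann_bound hdeg (Finsupp.single Pinf (1 : ℤ))
    (gS • Finsupp.single Pinf (1 : ℤ)) hC 1 one_pos hB hX E
  rw [map_nsmul, helper981.degree_single_one hdeg] at h
  simp only [nsmul_eq_mul, mul_one, Nat.cast_one] at h
  linarith

set_option maxHeartbeats 1600000 in
/-- **Track C closing theorem**, with an explicit integral basis of `S₂(Γ₀(N))`. -/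
theorem kf0_of_trackC_basis (N : ℕ) [NeZero N] (ℓ : ℕ) (hℓ : ℓ.Prime)
    (DB : helper5819.IntBasis N 2) (hPF : PlaceFacts N) (hR : Stmt_R N)
    (hG : ∀ A : ValuationSubring Qb, A.LiesOverPrime ℓ → Stmt_Gauss N A)
    (hBD : ∀ A : ValuationSubring Qb, A.LiesOverPrime ℓ → Stmt_BD N A)
    (hBb : ∀ A : ValuationSubring Qb, A.LiesOverPrime ℓ → Stmt_Bbar N A)
    (hNm : ∀ A : ValuationSubring Qb, A.LiesOverPrime ℓ → Stmt_Norm N ℓ A) :
    helper3054.Stmt_KF0 N ℓ := by
  classical
  intro A hA m hm a b hdvd w hw0 hred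
  have : Fact ℓ.Prime := ⟨hℓ⟩
  have := hPF.principal
  have hdeg := hPF.deg_one
  obtain ⟨Pinf, hPinf⟩ := hPF.cusp
  have hm0 : m ≠ 0 := by
    rintro rfl
    exact hm (dvd_zero ℓ)
  have hmpos : 0 < m := Nat.pos_of_ne_zero hm0
  -- Step 1: normalization
  obtain ⟨g, p, hg0, hp_pos, hp1, hpab⟩ := hNm A hA m hm a b hdvd w hw0 hred
  have hb0 := b.gen_ne_zero
  have ha0 := a.gen_ne_zero
  set u : modularFunctionFieldBar N := a.gen * g ^ m * b.gen⁻¹ with hu
  have hu0 : u ≠ 0 := mul_ne_zero (mul_ne_zero ha0 (pow_ne_zero m hg0)) (inv_ne_zero hb0)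
  have hucoe : (u : LaurentSeries Qb) = coeffMap A.subtype p := by
    have hb0' : (b.gen : LaurentSeries Qb) ≠ 0 := fun h => hb0 (Subtype.ext h)
    have h1 : (u : LaurentSeries Qb) = (a.gen : LaurentSeries Qb) * (g : LaurentSeries Qb) ^ m
        * (b.gen : LaurentSeries Qb)⁻¹ := rfl
    rw [h1, ← hpab, mul_assoc, mul_inv_cancel₀ hb0', mul_one]
  have hudvd : ∀ P : Place Qb (modularFunctionFieldBar N), (m : ℤ) ∣ P.ord u := by
    intro P
    rw [hu, P.ord_mul (mul_ne_zero ha0 (pow_ne_zero m hg0)) (inv_ne_zero hb0),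
      P.ord_mul ha0 (pow_ne_zero m hg0), helper3054.ord_pow, P.ord_inv]
    have h2 : P.ord a.gen + (m : ℤ) * P.ord g + -P.ord b.gen
        = (P.ord a.gen - P.ord b.gen) + (m : ℤ) * P.ord g := by ring
    rw [h2]
    exact dvd_add (hdvd P) (dvd_mul_right _ _)
  obtain ⟨D', hD', hD'0⟩ := exists_divisor_div u hu0 m hm0 hudvd
  have hp0unit : IsUnit (p.coeff 0) := by
    rw [← IsLocalRing.residue_ne_zero_iff_isUnit]
    have h1 := congrArg (fun s : LaurentSeries (IsLocalRing.ResidueField A) => s.coeff 0) hp1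
    simp only [coeffMap_coeff, HahnSeries.coeff_one, if_true] at h1
    rw [h1]
    exact one_ne_zero
  have hD'inf : D' Pinf = 0 := by
    have h := hD' Pinf
    rw [hPinf u hu0, hucoe] at h
    have hord : (coeffMap A.subtype p).order = 0 := by
      apply order_eq_zero_of_coeff
      · intro i hi
        rw [coeffMap_coeff, hp_pos i hi, map_zero]
      · rw [coeffMap_coeff]
        intro h0
        exact hp0unit.ne_zero (Subtype.ext h0)
    rw [hord] at h
    have hm' : (m : ℤ) ≠ 0 := by exact_mod_cast hm0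
    exact (mul_eq_zero.mp h).resolve_left hm'
  -- Step 2: it suffices to find a nonzero element of `L(D')`
  suffices hex : ∃ f : modularFunctionFieldBar N, f ≠ 0 ∧ f ∈ riemannRochSpace D' by
    obtain ⟨f, hf0, hfD⟩ := hex
    obtain ⟨c, hc⟩ := const_of_mem_rr hdeg hPF.const u hu0 m D' hD' hD'0 f hf0 hfD
    refine ⟨(g * f)⁻¹, c, ?_⟩
    rw [← hc, hu]
    have hgf : g * f ≠ 0 := mul_ne_zero hg0 hf0
    have h1 : g ^ m * f ^ m * ((g * f)⁻¹) ^ m = 1 := by
      rw [← mul_pow, ← mul_pow, mul_inv_cancel₀ hgf, one_pow]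
    have h2 : b.gen⁻¹ * b.gen = 1 := inv_mul_cancel₀ hb0
    linear_combination (-(a.gen * (b.gen⁻¹ * b.gen))) * h1 - a.gen * h2
  -- Step 3: assume `L(D') = 0`
  by_contra hne
  have hL0 : ∀ f : modularFunctionFieldBar N, f ∈ riemannRochSpace D' → f = 0 := by
    intro f hf
    by_contra hf0
    exact hne ⟨f, hf0, hf⟩
  have hcharκ : CharP (IsLocalRing.ResidueField A) ℓ := charP_residue_of_nonunits ℓ A hA
  obtain ⟨n, hn₀⟩ := DB.exists_trunc_charP ℓ (IsLocalRing.ResidueField A)
  set E : Divisor Qb (modularFunctionFieldBar N) := D' + Finsupp.single Pinf (n : ℤ) with hE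
  -- the Riemann count
  have hfin : n + 1 - DB.r ≤ Module.finrank Qb (riemannRochSpace E) := by
    have h := riemann_of_stmt_R N hPF hR E
    have hdegE : Divisor.degree E = (n : ℤ) := by
      rw [hE, map_add, hD'0, Divisor.degree_single, hdeg]
      simp
    rw [← DB.r_eq, hdegE] at h
    omega
  obtain ⟨f, hfli⟩ := exists_linearIndependent_of_le_finrank hfin
  -- integral multiples
  have hint : ∀ i, ∃ c0 : Qb, c0 ≠ 0 ∧ ∃ Y : LaurentSeries A,
      coeffMap A.subtype Y = HahnSeries.C c0 * ((f i : modularFunctionFieldBar N) :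
        LaurentSeries Qb) := by
    intro i
    have hfi0 : (f i : modularFunctionFieldBar N) ≠ 0 := fun h =>
      hfli.ne_zero i (Subtype.ext h)
    exact exists_integral_multiple hA (hBD A hA) hPinf hu0 hm0 hD' hp_pos hp0unit hucoe hfi0
      (f i).2
  choose c0 hc0 Y hY using hint
  set Fi : Fin (n + 1 - DB.r) → modularFunctionFieldBar N :=
    fun i => c0 i • (f i : modularFunctionFieldBar N) with hFi
  have hFimem : ∀ i, Fi i ∈ riemannRochSpace E := fun i =>
    (riemannRochSpace E).smul_mem _ (f i).2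
  have hFicoe : ∀ i, (Fi i : LaurentSeries Qb) = coeffMap A.subtype (Y i) := by
    intro i
    rw [hY i, helper8991.C_eq_algebraMap]
    rfl
  have hFli : LinearIndependent Qb Fi := by
    have h1 : LinearIndependent Qb (fun i => (f i : modularFunctionFieldBar N)) :=
      hfli.map' (riemannRochSpace E).subtype (Submodule.ker_subtype _)
    exact h1.units_smul (fun i => Units.mk0 (c0 i) (hc0 i))
  -- descent to a number field
  have : Algebra.IsAlgebraic ℚ Qb := AlgebraicClosure.isAlgebraic ℚ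
  obtain ⟨K0, hK0fin, -, hK0⟩ := helper4661.exists_definedOver_finset
    (F₀ := modularFunctionFieldFull N) (⊥ : IntermediateField ℚ Qb)
    (insert (coeffMap A.subtype p) (Finset.univ.image fun i => coeffMap A.subtype (Y i)))
    (by
      intro x hx
      rcases Finset.mem_insert.mp hx with rfl | hx
      · rw [← hucoe]
        exact u.2
      · obtain ⟨i, -, rfl⟩ := Finset.mem_image.mp hx
        rw [← hFicoe i]
        exact (Fi i).2)
  have := hK0fin
  obtain ⟨xp, -, hxp⟩ := hK0 _ (Finset.mem_insert_self _ _)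
  obtain ⟨p0, -, hp0⟩ := helper8351.exists_series_descent A K0 p xp hxp.symm
  have hGs : ∀ i, ∃ G : LaurentSeries (A.comap (algebraMap K0 Qb)),
      coeffMap (helper8351.descIncl A K0) G = Y i := by
    intro i
    obtain ⟨x, -, hx⟩ := hK0 _ (Finset.mem_insert_of_mem
      (Finset.mem_image.mpr ⟨i, Finset.mem_univ i, rfl⟩))
    obtain ⟨G, -, hG⟩ := helper8351.exists_series_descent A K0 (Y i) x hx.symm
    exact ⟨G, hG⟩
  choose Gs hGs using hGs
  have hDVR : IsDiscreteValuationRing (A.comap (algebraMap K0 Qb)) :=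
    helper8351.isDiscreteValuationRing_comap A K0 hℓ hA
  obtain ⟨ϖ, hϖ⟩ := IsDiscreteValuationRing.exists_irreducible (A.comap (algebraMap K0 Qb))
  set σ : (A.comap (algebraMap K0 Qb)) →+* Qb := A.subtype.comp (helper8351.descIncl A K0)
    with hσdef
  have hσ : Function.Injective σ := fun x y hxy =>
    helper8351.descIncl_injective A K0 (Subtype.ext hxy)
  set res0 := IsLocalRing.residue (A.comap (algebraMap K0 Qb)) with hres0
  set φ := helper8351.resMap A K0 with hφ
  have hφinj : Function.Injective φ := helper8351.resMap_injective A K0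
  have hN4 : ∀ y0 : LaurentSeries (A.comap (algebraMap K0 Qb)),
      coeffMap φ (coeffMap res0 y0)
        = coeffMap (IsLocalRing.residue A) (coeffMap (helper8351.descIncl A K0) y0) :=
    fun y0 => (helper8351.coeffMap_residue_descIncl A K0 y0).symm
  have hσcoe : ∀ y0 : LaurentSeries (A.comap (algebraMap K0 Qb)),
      coeffMap σ y0 = coeffMap A.subtype (coeffMap (helper8351.descIncl A K0) y0) :=
    fun y0 => (coeffMap_coeffMap _ _ y0).symm
  have hπ : ∀ a : A.comap (algebraMap K0 Qb), res0 a = 0 ↔ ϖ ∣ a := by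
    intro a
    rw [hres0, IsLocalRing.residue_eq_zero_iff, hϖ.maximalIdeal_eq, Ideal.mem_span_singleton]
  have hmunit : IsUnit ((m : ℕ) : A.comap (algebraMap K0 Qb)) := by
    rw [← IsLocalRing.residue_ne_zero_iff_isUnit]
    intro h0
    have h1 := congrArg φ h0
    rw [map_natCast, map_natCast, map_zero] at h1
    exact hm ((CharP.cast_eq_zero_iff (IsLocalRing.ResidueField A) ℓ m).mp h1)
  obtain ⟨B, hroot, hconstB, hklB, hctB⟩ := hBb A hA
  -- the two lattices
  set M1 := pullSub σ (riemannRochSpace (Finsupp.single Pinf ((m * n : ℕ) : ℤ))) with hM1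
  set Mchi := pullSub σ (riemannRochSpace E) with hMchi
  have hσp0 : coeffMap σ p0 = coeffMap A.subtype p := by rw [hσcoe, hp0]
  have hM1B : ∀ x ∈ M1, coeffMap res0 x ∈ pullB φ B := by
    rintro x ⟨f', hfV, hfx⟩
    rw [mem_pullB, hN4]
    have hx' : coeffMap A.subtype (coeffMap (helper8351.descIncl A K0) x)
        = (f' : LaurentSeries Qb) := by rw [← hσcoe]; exact hfx.symm
    have hmem : coeffMap A.subtype (coeffMap (helper8351.descIncl A K0) x)
        ∈ modularFunctionFieldBar N := by rw [hx']; exact f'.2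
    refine hctB _ hmem ?_
    have hEq : (⟨_, hmem⟩ : modularFunctionFieldBar N) = f' := Subtype.ext hx'
    rw [hEq]
    exact regAwayInf_of_mem_rr hPinf hfV
  have hpow : ∀ G ∈ Mchi, p0 * G ^ m ∈ M1 := by
    rintro G ⟨f', hfV, hfG⟩
    refine ⟨u * f' ^ m, mul_pow_mem_rr hu0 hm0 hD' hfV, ?_⟩
    rw [map_mul, map_pow, ← hfG, hσp0, ← hucoe]
    rfl
  have hGmem : ∀ i, Gs i ∈ Mchi := fun i =>
    ⟨Fi i, hFimem i, by rw [hFicoe i, hσcoe, hGs i]⟩
  have hGli : LinearIndependent (A.comap (algebraMap K0 Qb)) Gs := by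
    rw [Fintype.linearIndependent_iff]
    intro c hc i
    have h1 : ∑ j, σ (c j) • Fi j = 0 := by
      apply Subtype.ext
      have h2 : ((∑ j, σ (c j) • Fi j : modularFunctionFieldBar N) : LaurentSeries Qb)
          = ∑ j, coeffMap σ (c j • Gs j) := by
        rw [AddSubmonoidClass.coe_finsetSum]
        refine Finset.sum_congr rfl fun j _ => ?_
        rw [coeffMap_smul_eq_algebraMap_mul, hσcoe, hGs j, ← hFicoe j, Algebra.smul_def]
        rfl
      rw [h2, ← map_sum, hc, map_zero]
      rfl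
    have h3 := Fintype.linearIndependent_iff.mp hFli _ h1 i
    exact hσ (h3.trans (map_zero σ).symm)
  refine core_red res0 IsLocalRing.residue_surjective ϖ hϖ.ne_zero hπ m hmunit n DB.r
    M1 Mchi p0 ?_ ?_ (pullB φ B) (fun j => DB.laurent _ j)
    ?_ ?_ hM1B ?_ hpow ?_ ?_ ?_ ?_ ?_ ?_ ?_
  · -- hu_pos
    intro i hi
    have h1 := congrArg (fun s : LaurentSeries A => s.coeff i) hp0
    simp only [coeffMap_coeff] at h1
    rw [hp_pos i hi] at h1
    exact helper8351.descIncl_injective A K0 (h1.trans (map_zero _).symm)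
  · -- hu1
    apply helper4661.coeffMap_injective hφinj
    rw [hN4, hp0, hp1, map_one]
  · -- h1
    refine ⟨1, ?_, by rw [map_one]; rfl⟩
    rw [mem_riemannRochSpace_iff]
    intro v
    right
    rw [Place.ord_one, Finsupp.single_apply]
    have hmn : (0 : ℤ) ≤ ((m * n : ℕ) : ℤ) := Nat.cast_nonneg _
    split_ifs
    · linarith
    · simp
  · -- hsat1
    intro x hx
    exact pullSub_sat σ hσ hϖ.ne_zero hx
  · -- hord
    rintro G ⟨f', hfV, hfG⟩ i hi
    have h := coeff_eq_zero_of_mem_rr hPinf hD'inf hfV hi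
    rw [hfG, coeffMap_coeff] at h
    exact hσ (h.trans (map_zero σ).symm)
  · -- hMB
    intro G hG'
    obtain ⟨f', hfV, hfG⟩ := hG'
    rw [mem_pullB, hN4]
    have hX : coeffMap A.subtype (coeffMap (helper8351.descIncl A K0) G)
        ∈ modularFunctionFieldBar N := by
      rw [← hσcoe, ← hfG]
      exact f'.2
    have hXk := hG A hA _ hX
    refine hroot _ hXk m hmpos ?_
    have h1 := hM1B (p0 * G ^ m) (hpow G ⟨f', hfV, hfG⟩)
    rw [mem_pullB, hN4, map_mul, map_pow, hp0, map_mul, map_pow, hp1, one_mul] at h1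
    exact h1
  · -- hinj
    rintro G ⟨f', hfV, hfG⟩ hpol
    have hf_pol : ∀ i : ℤ, i < 0 → (f' : LaurentSeries Qb).coeff i = 0 := by
      intro i hi
      rw [hfG, coeffMap_coeff, hpol i hi, map_zero]
    have hfD := mem_rr_of_no_polar hPinf hD'inf hfV hf_pol
    have hf0 : f' = 0 := hL0 f' hfD
    apply helper4661.coeffMap_injective hσ
    rw [← hfG, hf0, map_zero]
    rfl
  · -- hrank
    obtain ⟨e, hespan, heli⟩ := exists_indep_reductions res0 ϖ hϖ _ Gs hGli
    refine ⟨e, fun i => ?_, heli⟩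
    obtain ⟨c, hc0', hc⟩ := hespan i
    exact pullSub_sat σ hσ hc0' (Submodule.span_le.mpr (by
      rintro _ ⟨j, rfl⟩
      exact hGmem j) hc)
  · -- hconst
    intro y hy hpol
    obtain ⟨c', hc'⟩ := hconstB (coeffMap φ y) hy (fun i hi => by
      rw [coeffMap_coeff, hpol i hi, map_zero])
    refine ⟨y.coeff 0, ?_⟩
    ext i
    by_cases hi : i = 0
    · subst hi
      rw [coeff_C_zero]
    · rw [coeff_C_of_ne _ hi]
      have h1 := congrArg (fun s : LaurentSeries (IsLocalRing.ResidueField A) => s.coeff i) hc'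
      simp only [coeffMap_coeff] at h1
      rw [coeff_C_of_ne _ hi] at h1
      exact hφinj (h1.trans (map_zero φ).symm)
  · -- hKL
    intro y hy j
    have h := hklB DB j (coeffMap φ y) hy
    rw [← DB.coeffMap_laurent φ j, ← map_mul, coeffMap_coeff] at h
    exact hφinj (h.trans (map_zero φ).symm)
  · -- hf0
    intro j i hi
    exact DB.laurent_coeff_of_nonpos _ j hi
  · -- hftr
    intro c hc
    have h := hn₀ (fun j => φ (c j)) (fun i hi => by
      rcases Nat.eq_zero_or_pos i with rfl | hipos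
      · simp [DB.constantCoeff_B]
      · have h1 := hc i hipos hi.le
        have h2 := congrArg φ h1
        rw [map_sum, map_zero] at h2
        rw [← h2]
        refine Finset.sum_congr rfl fun j _ => ?_
        rw [map_mul, DB.laurent_coeff_natCast, map_intCast])
    funext j
    exact hφinj ((congrFun h j).trans (map_zero φ).symm)

/-- **Track C closing theorem** (plan: findings #2856). -/
theorem kf0_of_trackC (N : ℕ) [NeZero N] (ℓ : ℕ) (hℓ : ℓ.Prime)
    (hI : CuspForm.HasIntegralStructure N 2) (hPF : PlaceFacts N) (hR : Stmt_R N)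
    (hG : ∀ A : ValuationSubring Qb, A.LiesOverPrime ℓ → Stmt_Gauss N A)
    (hBD : ∀ A : ValuationSubring Qb, A.LiesOverPrime ℓ → Stmt_BD N A)
    (hBb : ∀ A : ValuationSubring Qb, A.LiesOverPrime ℓ → Stmt_Bbar N A)
    (hNm : ∀ A : ValuationSubring Qb, A.LiesOverPrime ℓ → Stmt_Norm N ℓ A) :
    helper3054.Stmt_KF0 N ℓ := by
  obtain ⟨DB⟩ := helper5819.nonempty_intBasis N 2 hI
  exact kf0_of_trackC_basis N ℓ hℓ DB hPF hR hG hBD hBb hNm

end Main

end Fermat.Agent.S18.helper99
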